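/-
CFT layer B, package B-STDCOCYCLE (helper19).
The standard 2-cocycle of a finite cyclic group `G = ⟨g⟩` of order `n` with values in a
`G`-module `A`, attached to an invariant element `a`:
`std g a (g^i, g^j) = a` if `i + j ≥ n` and `0` otherwise (`0 ≤ i, j < n`).
-/
import Mathlib

set_option autoImplicit false

open groupCohomology

namespace Fermat.Agent.CFT.H19

universe u

section Idx

variable {G : Type*} [Group G]

open Classical in
/-- `idx g σ` is the least `i : ℕ` with `g ^ i = σ` (and `0` if there is none). -/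
noncomputable def idx (g σ : G) : ℕ :=
  if h : ∃ i : ℕ, g ^ i = σ then Nat.find h else 0

lemma pow_idx {g σ : G} (h : ∃ i : ℕ, g ^ i = σ) : g ^ idx g σ = σ := by
  classical
  rw [idx, dif_pos h]
  exact Nat.find_spec h

lemma idx_le {g σ : G} {i : ℕ} (h : g ^ i = σ) : idx g σ ≤ i := by
  classical
  rw [idx, dif_pos ⟨i, h⟩]
  exact Nat.find_min' _ h

lemma idx_lt_orderOf {g : G} (hg : IsOfFinOrder g) (σ : G) : idx g σ < orderOf g := by
  classical
  by_cases h : ∃ i : ℕ, g ^ i = σ
  · by_contra hlt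
    have hlt := not_lt.1 hlt
    have h1 : g ^ (idx g σ % orderOf g) = σ := by
      rw [pow_mod_orderOf, pow_idx h]
    have h2 := idx_le h1
    have h3 : idx g σ % orderOf g < orderOf g := Nat.mod_lt _ hg.orderOf_pos
    omega
  · rw [idx, dif_neg h]
    exact hg.orderOf_pos

lemma idx_pow_of_lt {g : G} {i : ℕ} (hi : i < orderOf g) : idx g (g ^ i) = i := by
  have h1 : idx g (g ^ i) ≤ i := idx_le rfl
  have h2 : g ^ idx g (g ^ i) = g ^ i := pow_idx ⟨i, rfl⟩
  have h3 := pow_injOn_Iio_orderOf (x := g) (Set.mem_Iio.2 (lt_of_le_of_lt h1 hi))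
    (Set.mem_Iio.2 hi) h2
  exact h3

lemma idx_pow {g : G} (hg : IsOfFinOrder g) (i : ℕ) : idx g (g ^ i) = i % orderOf g := by
  rw [← pow_mod_orderOf]
  exact idx_pow_of_lt (Nat.mod_lt _ hg.orderOf_pos)

lemma idx_one (g : G) : idx g 1 = 0 := by
  have := idx_le (g := g) (σ := 1) (i := 0) (pow_zero g)
  omega

lemma idx_self {g : G} (h : 1 < orderOf g) : idx g g = 1 := by
  have := idx_pow_of_lt (g := g) h
  simpa using this

end Idx

section Gen

variable {G : Type*} [Group G] [Finite G]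

lemma exists_pow_eq {g : G} (hg : ∀ x : G, x ∈ Subgroup.zpowers g) (σ : G) :
    ∃ i : ℕ, g ^ i = σ := by
  have h := hg σ
  rw [← mem_powers_iff_mem_zpowers] at h
  exact h

lemma pow_idx' {g : G} (hg : ∀ x : G, x ∈ Subgroup.zpowers g) (σ : G) : g ^ idx g σ = σ :=
  pow_idx (exists_pow_eq hg σ)

lemma idx_lt {g : G} (σ : G) : idx g σ < orderOf g := idx_lt_orderOf (isOfFinOrder_of_finite g) σ

lemma idx_mul {g : G} (hg : ∀ x : G, x ∈ Subgroup.zpowers g) (σ τ : G) :
    idx g (σ * τ) = (idx g σ + idx g τ) % orderOf g := by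
  conv_lhs => rw [← pow_idx' hg σ, ← pow_idx' hg τ, ← pow_add]
  exact idx_pow (isOfFinOrder_of_finite g) _

end Gen


/-! ## The standard cochain -/

section Std

variable {k G : Type u} [CommRing k] [Group G] (A : Rep k G)

open Classical in
/-- The standard 2-cochain attached to `a`: value `a` at `(σ, τ)` if the indices of `σ` and `τ`
(w.r.t. `g`) add up to at least `orderOf g`, and `0` otherwise. -/
noncomputable def stdFun (g : G) (a : A) : G × G → A :=
  fun p => if orderOf g ≤ idx g p.1 + idx g p.2 then a else 0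

variable {A}

lemma stdFun_apply (g : G) (a : A) (σ τ : G) :
    stdFun A g a (σ, τ) = if orderOf g ≤ idx g σ + idx g τ then a else 0 := rfl

/-- carry counting as a natural number -/
def carry (n i j : ℕ) : ℕ := if n ≤ i + j then 1 else 0

lemma stdFun_eq_carry_smul (g : G) (a : A) (σ τ : G) :
    stdFun A g a (σ, τ) = carry (orderOf g) (idx g σ) (idx g τ) • a := by
  rw [stdFun_apply, carry]
  split_ifs <;> simp

lemma carry_assoc {n i j l : ℕ} (hi : i < n) (hj : j < n) (hl : l < n) :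
    carry n ((i + j) % n) l + carry n i j = carry n j l + carry n i ((j + l) % n) := by
  unfold carry
  have h1 : (i + j) % n = if n ≤ i + j then i + j - n else i + j := by
    split_ifs with h
    · rw [Nat.mod_eq_sub_mod h, Nat.mod_eq_of_lt (by omega)]
    · exact Nat.mod_eq_of_lt (by omega)
  have h2 : (j + l) % n = if n ≤ j + l then j + l - n else j + l := by
    split_ifs with h
    · rw [Nat.mod_eq_sub_mod h, Nat.mod_eq_of_lt (by omega)]
    · exact Nat.mod_eq_of_lt (by omega)
  rw [h1, h2]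
  split_ifs <;> omega

variable [Finite G]

theorem stdFun_mem_cocycles₂ {g : G} (hg : ∀ x : G, x ∈ Subgroup.zpowers g) {a : A}
    (ha : ∀ x : G, A.ρ x a = a) : stdFun A g a ∈ cocycles₂ A := by
  rw [mem_cocycles₂_iff]
  intro σ τ υ
  simp only [stdFun_eq_carry_smul, map_nsmul, ha, idx_mul hg]
  rw [← add_nsmul, ← add_nsmul, carry_assoc (idx_lt σ) (idx_lt τ) (idx_lt υ)]

/-- The standard 2-cocycle of the cyclic group `G = ⟨g⟩` attached to the invariant `a`. -/
noncomputable def stdCocycle {g : G} (hg : ∀ x : G, x ∈ Subgroup.zpowers g) {a : A}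
    (ha : ∀ x : G, A.ρ x a = a) : cocycles₂ A :=
  ⟨stdFun A g a, stdFun_mem_cocycles₂ hg ha⟩

@[simp] lemma coe_stdCocycle {g : G} (hg : ∀ x : G, x ∈ Subgroup.zpowers g) {a : A}
    (ha : ∀ x : G, A.ρ x a = a) : ⇑(stdCocycle hg ha) = stdFun A g a := rfl

end Std


/-! ## Linearity in the invariant -/

section Lin

variable {k G : Type u} [CommRing k] [Group G] {A : Rep k G}

lemma stdFun_zero (g : G) : stdFun A g 0 = 0 := by
  funext p
  simp [stdFun]

lemma stdFun_add (g : G) (a a' : A) : stdFun A g (a + a') = stdFun A g a + stdFun A g a' := by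
  funext p
  simp only [stdFun, Pi.add_apply]
  split_ifs <;> simp

lemma stdFun_smul (g : G) (c : k) (a : A) : stdFun A g (c • a) = c • stdFun A g a := by
  funext p
  simp only [stdFun, Pi.smul_apply]
  split_ifs <;> simp

lemma stdFun_nsmul (g : G) (m : ℕ) (a : A) : stdFun A g (m • a) = m • stdFun A g a := by
  funext p
  simp only [stdFun, Pi.smul_apply]
  split_ifs <;> simp

lemma stdFun_zsmul (g : G) (m : ℤ) (a : A) : stdFun A g (m • a) = m • stdFun A g a := by
  funext p
  simp only [stdFun, Pi.smul_apply]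
  split_ifs <;> simp

lemma stdFun_neg (g : G) (a : A) : stdFun A g (-a) = -stdFun A g a := by
  funext p
  simp only [stdFun, Pi.neg_apply]
  split_ifs <;> simp

end Lin

/-! ## Partial norms; norms give coboundaries -/

section PNorm

variable {k G : Type u} [CommRing k] [Group G] (A : Rep k G)

/-- The partial norm `y + g y + ... + g^(i-1) y`. -/
noncomputable def pnorm (g : G) (y : A) (i : ℕ) : A := ∑ j ∈ Finset.range i, A.ρ (g ^ j) y

variable {A}

@[simp] lemma pnorm_zero (g : G) (y : A) : pnorm A g y 0 = 0 := by simp [pnorm]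

lemma pnorm_succ (g : G) (y : A) (i : ℕ) :
    pnorm A g y (i + 1) = pnorm A g y i + A.ρ (g ^ i) y := by
  simp [pnorm, Finset.sum_range_succ]

lemma pnorm_add (g : G) (y : A) (i j : ℕ) :
    pnorm A g y (i + j) = pnorm A g y i + A.ρ (g ^ i) (pnorm A g y j) := by
  induction j with
  | zero => simp
  | succ j ih =>
    rw [← add_assoc, pnorm_succ, ih, pnorm_succ, map_add, pow_add, map_mul, Module.End.mul_apply,
      add_assoc]

lemma rho_pnorm_orderOf (g : G) (y : A) :
    A.ρ g (pnorm A g y (orderOf g)) = pnorm A g y (orderOf g) := by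
  have h1 := pnorm_add (A := A) g y 1 (orderOf g)
  have h2 := pnorm_succ (A := A) g y (orderOf g)
  rw [add_comm 1 (orderOf g), h2, pow_orderOf_eq_one, map_one, Module.End.one_apply] at h1
  have h3 : pnorm A g y 1 = y := by simp [pnorm]
  rw [h3, pow_one, add_comm] at h1
  exact (add_left_cancel h1).symm

lemma rho_pow_pnorm_orderOf (g : G) (y : A) (m : ℕ) :
    A.ρ (g ^ m) (pnorm A g y (orderOf g)) = pnorm A g y (orderOf g) := by
  induction m with
  | zero => simp
  | succ m ih => rw [pow_succ, map_mul, Module.End.mul_apply, rho_pnorm_orderOf, ih]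

lemma pnorm_add_orderOf (g : G) (y : A) (m : ℕ) :
    pnorm A g y (m + orderOf g) = pnorm A g y m + pnorm A g y (orderOf g) := by
  rw [pnorm_add, rho_pow_pnorm_orderOf]

variable [Finite G]

lemma rho_pnorm_orderOf_of_gen {g : G} (hg : ∀ x : G, x ∈ Subgroup.zpowers g) (y : A) (x : G) :
    A.ρ x (pnorm A g y (orderOf g)) = pnorm A g y (orderOf g) := by
  rw [← pow_idx' hg x, rho_pow_pnorm_orderOf]

/-- The standard cochain of a norm is an explicit coboundary. -/
theorem stdFun_pnorm_eq_d₁₂ {g : G} (hg : ∀ x : G, x ∈ Subgroup.zpowers g) (y : A) :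
    stdFun A g (pnorm A g y (orderOf g)) = d₁₂ A (fun σ => pnorm A g y (idx g σ)) := by
  funext ⟨σ, τ⟩
  rw [d₁₂_hom_apply, stdFun_apply]
  simp only
  rw [idx_mul hg]
  have h1 := pnorm_add (A := A) g y (idx g σ) (idx g τ)
  rw [pow_idx' hg] at h1
  have hi := idx_lt (g := g) σ
  have hj := idx_lt (g := g) τ
  split_ifs with h
  · have h2 : (idx g σ + idx g τ) % orderOf g = idx g σ + idx g τ - orderOf g := by
      rw [Nat.mod_eq_sub_mod h, Nat.mod_eq_of_lt (by omega)]
    have h3 := pnorm_add_orderOf (A := A) g y (idx g σ + idx g τ - orderOf g)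
    rw [Nat.sub_add_cancel h] at h3
    rw [h2]
    rw [h3] at h1
    rw [eq_sub_of_add_eq' h1.symm]
    abel
  · have h2 : (idx g σ + idx g τ) % orderOf g = idx g σ + idx g τ :=
      Nat.mod_eq_of_lt (by omega)
    rw [h2, h1]
    abel

theorem stdFun_pnorm_mem_coboundaries₂ {g : G} (hg : ∀ x : G, x ∈ Subgroup.zpowers g) (y : A) :
    stdFun A g (pnorm A g y (orderOf g)) ∈ coboundaries₂ A := by
  rw [stdFun_pnorm_eq_d₁₂ hg]
  exact ⟨_, rfl⟩

/-- The full norm is the partial norm of length `orderOf g`. -/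
lemma pnorm_orderOf_eq_norm [Fintype G] {g : G} (hg : ∀ x : G, x ∈ Subgroup.zpowers g) (y : A) :
    pnorm A g y (orderOf g) = A.ρ.norm y := by
  rw [Representation.norm, LinearMap.sum_apply, pnorm]
  refine Finset.sum_bij (fun i _ => g ^ i) (fun _ _ => Finset.mem_univ _) ?_ ?_ (fun _ _ => rfl)
  · intro i hi j hj hij
    exact pow_injOn_Iio_orderOf (Set.mem_Iio.2 (Finset.mem_range.1 hi))
      (Set.mem_Iio.2 (Finset.mem_range.1 hj)) hij
  · intro x _
    exact ⟨idx g x, Finset.mem_range.2 (idx_lt x), pow_idx' hg x⟩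

end PNorm


/-! ## The order of the standard class -/

section Order

variable {k G : Type u} [CommRing k] [Group G] {A : Rep k G}

lemma add_eq_mod_add_carry {n i j : ℕ} (hi : i < n) (hj : j < n) :
    i + j = (i + j) % n + n * carry n i j := by
  unfold carry
  split_ifs with h
  · rw [Nat.mod_eq_sub_mod h, Nat.mod_eq_of_lt (by omega)]
    omega
  · rw [Nat.mod_eq_of_lt (by omega)]
    omega

/-- `orderOf g • std g a` is an explicit coboundary. -/
theorem orderOf_nsmul_stdFun_eq_d₁₂ [Finite G] {g : G} (hg : ∀ x : G, x ∈ Subgroup.zpowers g)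
    {a : A} (ha : ∀ x : G, A.ρ x a = a) :
    orderOf g • stdFun A g a = d₁₂ A (fun σ => idx g σ • a) := by
  funext ⟨σ, τ⟩
  rw [d₁₂_hom_apply]
  simp only [Pi.smul_apply, stdFun_eq_carry_smul, map_nsmul, ha, idx_mul hg]
  have key := add_eq_mod_add_carry (idx_lt (g := g) σ) (idx_lt (g := g) τ)
  rw [smul_smul, sub_add_eq_add_sub, eq_sub_iff_add_eq, ← add_nsmul, ← add_nsmul, add_comm]
  congr 1
  omega

theorem orderOf_nsmul_stdFun_mem_coboundaries₂ [Finite G] {g : G}
    (hg : ∀ x : G, x ∈ Subgroup.zpowers g) {a : A} (ha : ∀ x : G, A.ρ x a = a) :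
    orderOf g • stdFun A g a ∈ coboundaries₂ A := by
  rw [orderOf_nsmul_stdFun_eq_d₁₂ hg ha]
  exact ⟨_, rfl⟩

/-- Key lemma: if `c • std g a = ∂ b` then `c • a` is the norm of `b g`. -/
theorem smul_eq_pnorm_of_smul_stdFun_eq_d₁₂ {g : G} (h1 : 1 < orderOf g) {a : A} (c : k)
    (b : G → A) (h : c • stdFun A g a = d₁₂ A b) :
    c • a = pnorm A g (b g) (orderOf g) := by
  have hsum : ∑ i ∈ Finset.range (orderOf g), (c • stdFun A g a) (g ^ i, g) =
      ∑ i ∈ Finset.range (orderOf g), (d₁₂ A b) (g ^ i, g) := by rw [h]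
  have hL : ∑ i ∈ Finset.range (orderOf g), (c • stdFun A g a) (g ^ i, g) = c • a := by
    rw [Finset.sum_eq_single (orderOf g - 1)]
    · rw [Pi.smul_apply, stdFun_apply, idx_pow_of_lt (by omega), idx_self h1, if_pos (by omega)]
    · intro i hi hne
      have hi' := Finset.mem_range.1 hi
      rw [Pi.smul_apply, stdFun_apply, idx_pow_of_lt hi', idx_self h1, if_neg (by omega), smul_zero]
    · intro hn
      exact absurd (Finset.mem_range.2 (by omega)) hn
  have hR : ∑ i ∈ Finset.range (orderOf g), (d₁₂ A b) (g ^ i, g) =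
      pnorm A g (b g) (orderOf g) := by
    simp only [d₁₂_hom_apply, ← pow_succ]
    rw [Finset.sum_add_distrib, Finset.sum_sub_distrib]
    have h2 : ∑ i ∈ Finset.range (orderOf g), b (g ^ (i + 1)) =
        ∑ i ∈ Finset.range (orderOf g), b (g ^ i) := by
      have e1 := Finset.sum_range_succ (fun i => b (g ^ i)) (orderOf g)
      have e2 := Finset.sum_range_succ' (fun i => b (g ^ i)) (orderOf g)
      rw [e1, pow_orderOf_eq_one, pow_zero] at e2
      exact (add_right_cancel e2).symm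
    rw [h2, pnorm]
    abel
  rw [← hL, hsum, hR]

/-- Key lemma, general order: if `c • std g a = ∂ b` then `c • a` is a norm. -/
theorem exists_smul_eq_pnorm_of_smul_stdFun_eq_d₁₂ [Finite G] {g : G} {a : A} (c : k)
    (b : G → A) (h : c • stdFun A g a = d₁₂ A b) :
    ∃ y : A, c • a = pnorm A g y (orderOf g) := by
  have h0 : 0 < orderOf g := orderOf_pos g
  rcases Nat.lt_or_ge 1 (orderOf g) with h1 | h1
  · exact ⟨b g, smul_eq_pnorm_of_smul_stdFun_eq_d₁₂ h1 c b h⟩
  · have h2 : orderOf g = 1 := by omega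
    refine ⟨c • a, ?_⟩
    rw [h2]
    simp [pnorm]

theorem smul_stdFun_mem_coboundaries₂_iff [Finite G] {g : G}
    (hg : ∀ x : G, x ∈ Subgroup.zpowers g) {a : A} (c : k) :
    c • stdFun A g a ∈ coboundaries₂ A ↔ ∃ y : A, c • a = pnorm A g y (orderOf g) := by
  constructor
  · rintro ⟨b, hb⟩
    exact exists_smul_eq_pnorm_of_smul_stdFun_eq_d₁₂ c b hb.symm
  · rintro ⟨y, hy⟩
    rw [← stdFun_smul, hy]
    exact stdFun_pnorm_mem_coboundaries₂ hg y

theorem stdFun_mem_coboundaries₂_iff [Finite G] {g : G}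
    (hg : ∀ x : G, x ∈ Subgroup.zpowers g) {a : A} :
    stdFun A g a ∈ coboundaries₂ A ↔ ∃ y : A, a = pnorm A g y (orderOf g) := by
  have := smul_stdFun_mem_coboundaries₂_iff (A := A) hg (a := a) (1 : k)
  simpa using this

theorem nsmul_stdFun_mem_coboundaries₂_iff [Finite G] {g : G}
    (hg : ∀ x : G, x ∈ Subgroup.zpowers g) {a : A} (m : ℕ) :
    m • stdFun A g a ∈ coboundaries₂ A ↔ ∃ y : A, m • a = pnorm A g y (orderOf g) := by
  have := smul_stdFun_mem_coboundaries₂_iff (A := A) hg (a := a) (m : k)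
  simpa [Nat.cast_smul_eq_nsmul] using this

theorem zsmul_stdFun_mem_coboundaries₂_iff [Finite G] {g : G}
    (hg : ∀ x : G, x ∈ Subgroup.zpowers g) {a : A} (m : ℤ) :
    m • stdFun A g a ∈ coboundaries₂ A ↔ ∃ y : A, m • a = pnorm A g y (orderOf g) := by
  have := smul_stdFun_mem_coboundaries₂_iff (A := A) hg (a := a) (m : k)
  simpa [Int.cast_smul_eq_zsmul] using this

end Order


/-! ## Pullback along a homomorphism of cyclic groups (restriction and inflation) -/

section Pullback

lemma pullback_arith {n e f i j : ℕ} (hn : 0 < n) (hdvd : n ∣ f * e) (hi : i < e) (hj : j < e) :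
    (f * i) / n + (f * j) / n + carry n ((f * i) % n) ((f * j) % n) =
      (f * ((i + j) % e)) / n + (f * e / n) * carry e i j := by
  obtain ⟨r, hr⟩ := hdvd
  have h1 : (f * i + f * j) / n = (f * i) / n + (f * j) / n + carry n ((f * i) % n) ((f * j) % n) := by
    rw [Nat.add_div hn]
    rfl
  have h2 := add_eq_mod_add_carry hi hj
  have h3 : f * i + f * j = f * ((i + j) % e) + n * (r * carry e i j) := by
    calc f * i + f * j = f * (i + j) := (mul_add _ _ _).symm
      _ = f * ((i + j) % e + e * carry e i j) := by rw [← h2]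
      _ = f * ((i + j) % e) + n * (r * carry e i j) := by
        rw [mul_add, ← mul_assoc, hr, mul_assoc]
  rw [← h1, h3, Nat.add_mul_div_left _ _ hn, hr, Nat.mul_div_cancel_left _ hn]

variable {k G H : Type u} [CommRing k] [Group G] [Group H]

lemma ite_eq_carry_smul {B : Type*} [AddCommMonoid B] (n i j : ℕ) (b : B) :
    (if n ≤ i + j then b else 0) = carry n i j • b := by
  unfold carry
  split_ifs <;> simp

/-- General pullback formula: if `ι h = g ^ f`, the pullback of the standard cochain of `g`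
along `ι` differs from the standard cochain of `h` (for the multiple `f * |h| / |g|` of the
invariant) by an explicit coboundary. -/
theorem pullback_stdFun_add_d₁₂ [Finite H] (B : Rep k H) (ι : H →* G) {g : G}
    (hgfin : IsOfFinOrder g) {h : H} (hh : ∀ x : H, x ∈ Subgroup.zpowers h) {f : ℕ}
    (hf : ι h = g ^ f) {b0 : B} (hb0 : ∀ x : H, B.ρ x b0 = b0) :
    (fun p : H × H => if orderOf g ≤ idx g (ι p.1) + idx g (ι p.2) then b0 else 0) +
        d₁₂ B (fun x => ((f * idx h x) / orderOf g) • b0) =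
      stdFun B h ((f * orderOf h / orderOf g) • b0) := by
  have hdvd : orderOf g ∣ f * orderOf h := by
    apply orderOf_dvd_of_pow_eq_one
    rw [pow_mul, ← hf, ← map_pow, pow_orderOf_eq_one, map_one]
  have hι : ∀ x : H, idx g (ι x) = (f * idx h x) % orderOf g := by
    intro x
    conv_lhs => rw [← pow_idx' hh x, map_pow, hf, ← pow_mul]
    exact idx_pow hgfin _
  funext ⟨x, y⟩
  rw [Pi.add_apply, d₁₂_hom_apply]
  simp only [hι, ite_eq_carry_smul, stdFun_eq_carry_smul, map_nsmul, hb0, idx_mul hh]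
  have key := pullback_arith (f := f) hgfin.orderOf_pos hdvd (idx_lt (g := h) x) (idx_lt (g := h) y)
  rw [smul_smul, sub_add_eq_add_sub, ← add_sub_assoc, sub_eq_iff_eq_add, ← add_nsmul, ← add_nsmul,
    ← add_nsmul]
  congr 1
  rw [mul_comm (carry _ _ _)]
  omega

end Pullback


/-! ## Statements in `H²` -/

section H2

variable {k G : Type u} [CommRing k] [Group G] {A : Rep k G}

lemma coe_sub_cocycles₂ (x y : cocycles₂ A) : ⇑(x - y) = ⇑x - ⇑y := rfl

lemma coe_nsmul_cocycles₂ (m : ℕ) (x : cocycles₂ A) : ⇑(m • x) = m • ⇑x :=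
  AddSubmonoidClass.coe_nsmul x m

lemma coe_zsmul_cocycles₂ (m : ℤ) (x : cocycles₂ A) : ⇑(m • x) = m • ⇑x :=
  AddSubgroupClass.coe_zsmul x m

lemma smul_invariant {a : A} (ha : ∀ x : G, A.ρ x a = a) (c : k) (x : G) :
    A.ρ x (c • a) = c • a := by rw [map_smul, ha]

lemma nsmul_invariant {a : A} (ha : ∀ x : G, A.ρ x a = a) (m : ℕ) (x : G) :
    A.ρ x (m • a) = m • a := by rw [map_nsmul, ha]

lemma zsmul_invariant {a : A} (ha : ∀ x : G, A.ρ x a = a) (m : ℤ) (x : G) :
    A.ρ x (m • a) = m • a := by rw [map_zsmul, ha]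

variable [Finite G]

lemma smul_stdCocycle {g : G} (hg : ∀ x : G, x ∈ Subgroup.zpowers g) {a : A}
    (ha : ∀ x : G, A.ρ x a = a) (c : k) :
    c • stdCocycle hg ha = stdCocycle hg (smul_invariant ha c) :=
  Subtype.ext (stdFun_smul g c a).symm

lemma nsmul_stdCocycle {g : G} (hg : ∀ x : G, x ∈ Subgroup.zpowers g) {a : A}
    (ha : ∀ x : G, A.ρ x a = a) (m : ℕ) :
    m • stdCocycle hg ha = stdCocycle hg (nsmul_invariant ha m) :=
  Subtype.ext ((coe_nsmul_cocycles₂ m _).trans (stdFun_nsmul g m a).symm)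

lemma zsmul_stdCocycle {g : G} (hg : ∀ x : G, x ∈ Subgroup.zpowers g) {a : A}
    (ha : ∀ x : G, A.ρ x a = a) (m : ℤ) :
    m • stdCocycle hg ha = stdCocycle hg (zsmul_invariant ha m) :=
  Subtype.ext ((coe_zsmul_cocycles₂ m _).trans (stdFun_zsmul g m a).symm)

/-- The standard class vanishes iff the invariant is a norm. -/
theorem H2π_stdCocycle_eq_zero_iff {g : G} (hg : ∀ x : G, x ∈ Subgroup.zpowers g) {a : A}
    (ha : ∀ x : G, A.ρ x a = a) :
    H2π A (stdCocycle hg ha) = 0 ↔ ∃ y : A, a = pnorm A g y (orderOf g) := by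
  rw [H2π_eq_zero_iff, coe_stdCocycle]
  exact stdFun_mem_coboundaries₂_iff hg

theorem smul_H2π_stdCocycle_eq_zero_iff {g : G} (hg : ∀ x : G, x ∈ Subgroup.zpowers g) {a : A}
    (ha : ∀ x : G, A.ρ x a = a) (c : k) :
    c • H2π A (stdCocycle hg ha) = 0 ↔ ∃ y : A, c • a = pnorm A g y (orderOf g) := by
  rw [← map_smul, smul_stdCocycle, H2π_stdCocycle_eq_zero_iff]

theorem nsmul_H2π_stdCocycle_eq_zero_iff {g : G} (hg : ∀ x : G, x ∈ Subgroup.zpowers g) {a : A}
    (ha : ∀ x : G, A.ρ x a = a) (m : ℕ) :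
    m • H2π A (stdCocycle hg ha) = 0 ↔ ∃ y : A, m • a = pnorm A g y (orderOf g) := by
  rw [← map_nsmul, nsmul_stdCocycle, H2π_stdCocycle_eq_zero_iff]

theorem zsmul_H2π_stdCocycle_eq_zero_iff {g : G} (hg : ∀ x : G, x ∈ Subgroup.zpowers g) {a : A}
    (ha : ∀ x : G, A.ρ x a = a) (m : ℤ) :
    m • H2π A (stdCocycle hg ha) = 0 ↔ ∃ y : A, m • a = pnorm A g y (orderOf g) := by
  rw [← map_zsmul, zsmul_stdCocycle, H2π_stdCocycle_eq_zero_iff]

/-- The standard class is killed by the group order. -/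
theorem orderOf_nsmul_H2π_stdCocycle {g : G} (hg : ∀ x : G, x ∈ Subgroup.zpowers g) {a : A}
    (ha : ∀ x : G, A.ρ x a = a) :
    orderOf g • H2π A (stdCocycle hg ha) = 0 := by
  rw [← map_nsmul, H2π_eq_zero_iff]
  have : ⇑(orderOf g • stdCocycle hg ha) = orderOf g • stdFun A g a := by
    rw [nsmul_stdCocycle, coe_stdCocycle, stdFun_nsmul]
  rw [this]
  exact orderOf_nsmul_stdFun_mem_coboundaries₂ hg ha

theorem addOrderOf_H2π_stdCocycle_dvd {g : G} (hg : ∀ x : G, x ∈ Subgroup.zpowers g) {a : A}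
    (ha : ∀ x : G, A.ρ x a = a) :
    addOrderOf (H2π A (stdCocycle hg ha)) ∣ orderOf g :=
  addOrderOf_dvd_of_nsmul_eq_zero (orderOf_nsmul_H2π_stdCocycle hg ha)

/-- Criterion for the standard class to have order exactly `orderOf g` (= the group order):
no proper multiple `m • a`, `0 < m < orderOf g`, is a norm. -/
theorem addOrderOf_H2π_stdCocycle_eq {g : G} (hg : ∀ x : G, x ∈ Subgroup.zpowers g) {a : A}
    (ha : ∀ x : G, A.ρ x a = a)
    (hnorm : ∀ m : ℕ, (∃ y : A, m • a = pnorm A g y (orderOf g)) → orderOf g ∣ m) :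
    addOrderOf (H2π A (stdCocycle hg ha)) = orderOf g := by
  apply Nat.dvd_antisymm (addOrderOf_H2π_stdCocycle_dvd hg ha)
  apply hnorm
  rw [← nsmul_H2π_stdCocycle_eq_zero_iff hg ha]
  exact addOrderOf_nsmul_eq_zero _

end H2

section H2Map

variable {k G H : Type u} [CommRing k] [Group G] [Group H]
  {A : Rep k G} {B : Rep k H}

lemma hom_invariant (ι : H →* G) (φ : Rep.res ι A ⟶ B) {a : A} (ha : ∀ x : G, A.ρ x a = a)
    (x : H) : B.ρ x (φ.hom a) = φ.hom a := by
  rw [← Rep.hom_comm_apply]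
  exact congrArg _ (ha (ι x))

variable [Finite G] [Finite H]

/-- Functoriality of the standard class: if `ι h = g ^ f`, then the image of the standard class
of `(g, a)` under `(ι, φ)` is the standard class of `(h, (f * |h| / |g|) • φ a)`.
`f * |h| = |g|` is restriction to a subgroup; `f = 1` is inflation from a quotient. -/
theorem map_H2π_stdCocycle (ι : H →* G) (φ : Rep.res ι A ⟶ B) {g : G}
    (hg : ∀ x : G, x ∈ Subgroup.zpowers g) {h : H} (hh : ∀ x : H, x ∈ Subgroup.zpowers h)
    {a : A} (ha : ∀ x : G, A.ρ x a = a) {f : ℕ} (hf : ι h = g ^ f) :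
    groupCohomology.map ι φ 2 (H2π A (stdCocycle hg ha)) =
      H2π B (stdCocycle hh (nsmul_invariant (hom_invariant ι φ ha) (f * orderOf h / orderOf g))) := by
  rw [H2π_comp_map_apply]
  symm
  rw [← sub_eq_zero, ← map_sub, H2π_eq_zero_iff]
  refine ⟨fun x => ((f * idx h x) / orderOf g) • φ.hom a, ?_⟩
  have key := pullback_stdFun_add_d₁₂ B ι (isOfFinOrder_of_finite g) hh hf (hom_invariant ι φ ha)
  have hpull : ⇑((mapCocycles₂ ι φ) (stdCocycle hg ha)) = fun p : H × H =>
      if orderOf g ≤ idx g (ι p.1) + idx g (ι p.2) then φ.hom a else 0 := by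
    funext p
    rw [coe_mapCocycles₂]
    change φ.hom (stdFun A g a (ι p.1, ι p.2)) = _
    rw [stdFun_apply]
    split_ifs <;> simp
  rw [coe_sub_cocycles₂, coe_stdCocycle, ← key, hpull, add_sub_cancel_left]

end H2Map


section H2MapCor

variable {k G H : Type u} [CommRing k] [Group G] [Group H] [Finite G] [Finite H]
  {A : Rep k G} {B : Rep k H}

lemma stdCocycle_congr {g : G} (hg : ∀ x : G, x ∈ Subgroup.zpowers g) {a a' : A}
    (ha : ∀ x : G, A.ρ x a = a) (h : a = a') :
    stdCocycle hg ha = stdCocycle hg (a := a') (h ▸ ha) := by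
  subst h
  rfl

/-- Restriction-type functoriality: if `ι h = g ^ f` with `f * |h| = |g|` then the standard
class of `(g, a)` maps to the standard class of `(h, φ a)`. -/
theorem map_H2π_stdCocycle_of_mul_eq (ι : H →* G) (φ : Rep.res ι A ⟶ B) {g : G}
    (hg : ∀ x : G, x ∈ Subgroup.zpowers g) {h : H} (hh : ∀ x : H, x ∈ Subgroup.zpowers h)
    {a : A} (ha : ∀ x : G, A.ρ x a = a) {f : ℕ} (hf : ι h = g ^ f)
    (hfe : f * orderOf h = orderOf g) :
    groupCohomology.map ι φ 2 (H2π A (stdCocycle hg ha)) =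
      H2π B (stdCocycle hh (hom_invariant ι φ ha)) := by
  rw [map_H2π_stdCocycle ι φ hg hh ha hf]
  congr 1
  have h1 : f * orderOf h / orderOf g = 1 := by
    rw [hfe]
    exact Nat.div_self (orderOf_pos g)
  rw [stdCocycle_congr hh _ (show (f * orderOf h / orderOf g) • φ.hom a = φ.hom a by
    rw [h1, one_nsmul])]

/-- Inflation-type functoriality: if `ι h = g` then the standard class of `(g, a)` maps to
`(|h| / |g|)` times the standard class of `(h, φ a)`. -/
theorem map_H2π_stdCocycle_of_map_eq (ι : H →* G) (φ : Rep.res ι A ⟶ B) {g : G}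
    (hg : ∀ x : G, x ∈ Subgroup.zpowers g) {h : H} (hh : ∀ x : H, x ∈ Subgroup.zpowers h)
    {a : A} (ha : ∀ x : G, A.ρ x a = a) (hf : ι h = g) :
    groupCohomology.map ι φ 2 (H2π A (stdCocycle hg ha)) =
      (orderOf h / orderOf g) • H2π B (stdCocycle hh (hom_invariant ι φ ha)) := by
  rw [map_H2π_stdCocycle ι φ hg hh ha (f := 1) (by rw [hf, pow_one])]
  have h2 : (orderOf h / orderOf g) • H2π B (stdCocycle hh (hom_invariant ι φ ha)) =
      H2π B (stdCocycle hh (nsmul_invariant (hom_invariant ι φ ha) (orderOf h / orderOf g))) := by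
    rw [← nsmul_stdCocycle, map_nsmul]
  rw [h2]
  congr 1
  exact stdCocycle_congr hh _ (by rw [one_mul])

end H2MapCor

/-! ## Multiplicative wrappers (`Rep.ofMulDistribMulAction`, e.g. `Rep.ofAlgebraAutOnUnits`) -/

section Mul

variable (G : Type) {M : Type} [Group G] [CommGroup M] [MulDistribMulAction G M]

/-- An element of `M` viewed as an element of the representation
`Rep.ofMulDistribMulAction G M` (whose carrier is `Additive M`). -/
def toRep (m : M) : Rep.ofMulDistribMulAction G M := show Additive M from Additive.ofMul m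

variable {G}

/-- An element of the representation `Rep.ofMulDistribMulAction G M` viewed in `M`. -/
def ofRep (a : Rep.ofMulDistribMulAction G M) : M := Additive.toMul (show Additive M from a)

@[simp] lemma ofRep_toRep (m : M) : ofRep (toRep G m) = m := rfl

@[simp] lemma toRep_ofRep (a : Rep.ofMulDistribMulAction G M) : toRep G (ofRep a) = a := rfl

lemma toRep_one : toRep G (1 : M) = 0 := rfl

lemma toRep_mul (m m' : M) : toRep G (m * m') = toRep G m + toRep G m' := rfl

lemma toRep_pow (m : M) (k : ℕ) : toRep G (m ^ k) = k • toRep G m := rfl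

lemma toRep_zpow (m : M) (k : ℤ) : toRep G (m ^ k) = k • toRep G m := rfl

lemma ofRep_zero : ofRep (0 : Rep.ofMulDistribMulAction G M) = 1 := rfl

lemma ofRep_add (a b : Rep.ofMulDistribMulAction G M) : ofRep (a + b) = ofRep a * ofRep b := rfl

lemma ofRep_nsmul (k : ℕ) (a : Rep.ofMulDistribMulAction G M) : ofRep (k • a) = ofRep a ^ k := rfl

lemma rho_toRep (x : G) (m : M) :
    (Rep.ofMulDistribMulAction G M).ρ x (toRep G m) = toRep G (x • m) := rfl

lemma ofRep_rho (x : G) (a : Rep.ofMulDistribMulAction G M) :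
    ofRep ((Rep.ofMulDistribMulAction G M).ρ x a) = x • ofRep a := rfl

lemma toRep_injective : Function.Injective (toRep G : M → Rep.ofMulDistribMulAction G M) :=
  fun _ _ h => h

lemma toRep_invariant {m : M} (hm : ∀ x : G, x • m = m) (x : G) :
    (Rep.ofMulDistribMulAction G M).ρ x (toRep G m) = toRep G m := by
  rw [rho_toRep, hm]

lemma ofRep_pnorm (g : G) (a : Rep.ofMulDistribMulAction G M) (i : ℕ) :
    ofRep (pnorm (Rep.ofMulDistribMulAction G M) g a i) =
      ∏ j ∈ Finset.range i, g ^ j • ofRep a := by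
  induction i with
  | zero => rw [pnorm_zero, Finset.prod_range_zero, ofRep_zero]
  | succ i ih => rw [pnorm_succ, Finset.prod_range_succ, ← ih, ofRep_add, ofRep_rho]

lemma pnorm_toRep (g : G) (y : M) (i : ℕ) :
    pnorm (Rep.ofMulDistribMulAction G M) g (toRep G y) i =
      toRep G (∏ j ∈ Finset.range i, g ^ j • y) := by
  rw [← toRep_ofRep (pnorm _ g (toRep G y) i), ofRep_pnorm, ofRep_toRep]

lemma prod_range_orderOf_smul [Fintype G] {g : G} (hg : ∀ x : G, x ∈ Subgroup.zpowers g) (y : M) :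
    ∏ j ∈ Finset.range (orderOf g), g ^ j • y = ∏ x : G, x • y := by
  refine Finset.prod_bij (fun i _ => g ^ i) (fun _ _ => Finset.mem_univ _) ?_ ?_ (fun _ _ => rfl)
  · intro i hi j hj hij
    exact pow_injOn_Iio_orderOf (Set.mem_Iio.2 (Finset.mem_range.1 hi))
      (Set.mem_Iio.2 (Finset.mem_range.1 hj)) hij
  · intro x _
    exact ⟨idx g x, Finset.mem_range.2 (idx_lt x), pow_idx' hg x⟩

variable [Finite G]

/-- The multiplicative standard 2-cocycle `(g^i, g^j) ↦ m ^ [i + j ≥ n]` of a cyclic group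
`G = ⟨g⟩` of order `n`, for a `G`-invariant `m : M`. -/
noncomputable def stdMulCocycle {g : G} (hg : ∀ x : G, x ∈ Subgroup.zpowers g) {m : M}
    (hm : ∀ x : G, x • m = m) : cocycles₂ (Rep.ofMulDistribMulAction G M) :=
  stdCocycle hg (a := toRep G m) (toRep_invariant hm)

lemma stdMulCocycle_apply {g : G} (hg : ∀ x : G, x ∈ Subgroup.zpowers g) {m : M}
    (hm : ∀ x : G, x • m = m) (σ τ : G) :
    ofRep (stdMulCocycle hg hm (σ, τ)) = if orderOf g ≤ idx g σ + idx g τ then m else 1 := by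
  change ofRep (stdFun _ g (toRep G m) (σ, τ)) = _
  rw [stdFun_apply]
  split_ifs <;> rfl

/-- `k • [std g m] = 0` iff `m ^ k` is a norm. -/
theorem nsmul_H2π_stdMulCocycle_eq_zero_iff {g : G} (hg : ∀ x : G, x ∈ Subgroup.zpowers g)
    {m : M} (hm : ∀ x : G, x • m = m) (k : ℕ) :
    k • H2π (Rep.ofMulDistribMulAction G M) (stdMulCocycle hg hm) = 0 ↔
      ∃ y : M, m ^ k = ∏ j ∈ Finset.range (orderOf g), g ^ j • y := by
  rw [stdMulCocycle, nsmul_H2π_stdCocycle_eq_zero_iff]
  constructor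
  · rintro ⟨y, hy⟩
    refine ⟨ofRep y, ?_⟩
    rw [← ofRep_pnorm, ← hy, ofRep_nsmul, ofRep_toRep]
  · rintro ⟨y, hy⟩
    refine ⟨toRep G y, ?_⟩
    rw [pnorm_toRep, ← hy, toRep_pow]

theorem H2π_stdMulCocycle_eq_zero_iff {g : G} (hg : ∀ x : G, x ∈ Subgroup.zpowers g)
    {m : M} (hm : ∀ x : G, x • m = m) :
    H2π (Rep.ofMulDistribMulAction G M) (stdMulCocycle hg hm) = 0 ↔
      ∃ y : M, m = ∏ j ∈ Finset.range (orderOf g), g ^ j • y := by
  have := nsmul_H2π_stdMulCocycle_eq_zero_iff hg hm 1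
  simpa using this

theorem orderOf_nsmul_H2π_stdMulCocycle {g : G} (hg : ∀ x : G, x ∈ Subgroup.zpowers g)
    {m : M} (hm : ∀ x : G, x • m = m) :
    orderOf g • H2π (Rep.ofMulDistribMulAction G M) (stdMulCocycle hg hm) = 0 :=
  orderOf_nsmul_H2π_stdCocycle hg _

/-- Criterion for the multiplicative standard class to have order exactly `|G| = orderOf g`. -/
theorem addOrderOf_H2π_stdMulCocycle_eq {g : G} (hg : ∀ x : G, x ∈ Subgroup.zpowers g)
    {m : M} (hm : ∀ x : G, x • m = m)
    (hnorm : ∀ k : ℕ, (∃ y : M, m ^ k = ∏ j ∈ Finset.range (orderOf g), g ^ j • y) →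
      orderOf g ∣ k) :
    addOrderOf (H2π (Rep.ofMulDistribMulAction G M) (stdMulCocycle hg hm)) = orderOf g := by
  apply Nat.dvd_antisymm (addOrderOf_dvd_of_nsmul_eq_zero (orderOf_nsmul_H2π_stdMulCocycle hg hm))
  apply hnorm
  rw [← nsmul_H2π_stdMulCocycle_eq_zero_iff hg hm]
  exact addOrderOf_nsmul_eq_zero _

end Mul

end Fermat.Agent.CFT.H19
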