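import Mathlib

/-!
# CFT / layer A : twin vanishing (Nakayama–Tate) -- package `A-T3-positive-cohomological-triviality`

Author: helper28.  Mathlib only.

* `subsingleton_of_cyclic` : finite cyclic `G`, `H^q = H^(q+1) = 0` for one `q ≥ 1` implies
  `H^n = 0` for all `n ≥ 1` (from Mathlib's periodic resolution).
* `subsingleton_of_pgroup`, `subsingleton_of_twinVanish`, `isCohTrivPos_of_twin` : the twin
  vanishing theorem in positive degrees for finite groups, with the inflation-restriction theorem
  in degree `n` (`InfResHyp`, = T1) and the Sylow reduction (`SylowHyp`, = T2) as explicit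
  hypotheses (both are separate layer-A packages).
* `isCohTrivialTate_of_H1_H2` : the Nakayama–Tate criterion in all Tate degrees, with downward
  dimension shifting (`ShiftDownHyp`) as a further explicit hypothesis.
-/

set_option linter.style.haveILetI false

namespace Fermat.Agent.CFT.H28

open CategoryTheory groupCohomology Rep

universe u

variable {k : Type u} [CommRing k]

/-- periodicity for finite cyclic groups, degree `n ≥ 1`. -/
theorem nonempty_cyclicPeriodIso' {G : Type u} [CommGroup G] [Fintype G] (A : Rep k G) (g : G)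
    (hg : ∀ x, x ∈ Subgroup.zpowers g) (n : ℕ) (hn : 1 ≤ n) :
    Nonempty (groupCohomology A n ≅ groupCohomology A (n + 2)) := by
  rcases Nat.even_or_odd n with he | ho
  · haveI : NeZero n := ⟨by omega⟩
    haveI : NeZero (n + 2) := ⟨by omega⟩
    exact ⟨Rep.FiniteCyclicGroup.groupCohomologyIsoEven A g hg n he ≪≫
      (Rep.FiniteCyclicGroup.groupCohomologyIsoEven A g hg (n + 2) (by
        rcases he with ⟨m, rfl⟩; exact ⟨m + 1, by ring⟩)).symm⟩
  · exact ⟨Rep.FiniteCyclicGroup.groupCohomologyIsoOdd A g hg n ho ≪≫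
      (Rep.FiniteCyclicGroup.groupCohomologyIsoOdd A g hg (n + 2) (by
        rcases ho with ⟨m, rfl⟩; exact ⟨m + 1, by ring⟩)).symm⟩

/-- periodicity for finite cyclic groups (any `Group` instance). -/
theorem nonempty_cyclicPeriodIso {G : Type u} [Group G] [Finite G] [IsCyclic G] (A : Rep k G)
    (n : ℕ) (hn : 1 ≤ n) :
    Nonempty (groupCohomology A n ≅ groupCohomology A (n + 2)) := by
  obtain ⟨g, hg⟩ := IsCyclic.exists_generator (α := G)
  letI : CommGroup G := IsCyclic.commGroup
  haveI : Fintype G := Fintype.ofFinite G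
  exact nonempty_cyclicPeriodIso' A g hg n hn

theorem subsingleton_of_cyclic {G : Type u} [Group G] [Finite G] [IsCyclic G] (A : Rep k G)
    (q : ℕ) (hq : 1 ≤ q) (h1 : Subsingleton (groupCohomology A q))
    (h2 : Subsingleton (groupCohomology A (q + 1))) (n : ℕ) (hn : 1 ≤ n) :
    Subsingleton (groupCohomology A n) := by
  have step : ∀ t m, 1 ≤ m → (Subsingleton (groupCohomology A m) ↔
      Subsingleton (groupCohomology A (m + 2 * t))) := by
    intro t
    induction t with
    | zero => intro m _; simp
    | succ t ih =>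
      intro m hm
      rw [ih m hm]
      obtain ⟨e⟩ := nonempty_cyclicPeriodIso A (m + 2 * t) (by omega)
      have : m + 2 * (t + 1) = m + 2 * t + 2 := by ring
      rw [this]
      exact ⟨fun h => (e.symm.toLinearEquiv.toEquiv).subsingleton,
        fun h => (e.toLinearEquiv.toEquiv).subsingleton⟩
  have par : ∀ a b, 1 ≤ a → 1 ≤ b → a % 2 = b % 2 → Subsingleton (groupCohomology A a) →
      Subsingleton (groupCohomology A b) := by
    intro a b ha hb hab h
    rcases le_total a b with hle | hle
    · obtain ⟨t, rfl⟩ : ∃ t, b = a + 2 * t := ⟨(b - a) / 2, by omega⟩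
      exact (step t a ha).1 h
    · obtain ⟨t, rfl⟩ : ∃ t, a = b + 2 * t := ⟨(a - b) / 2, by omega⟩
      exact (step t b hb).2 h
  rcases Nat.even_or_odd (n + q) with he | ho
  · exact par q n hq hn (by rcases he with ⟨r, hr⟩; omega) h1
  · exact par (q + 1) n (by omega) hn (by rcases ho with ⟨r, hr⟩; omega) h2


/-! ### Inflation and restriction, the two hypotheses T1 and T2 -/

/-- Inflation `Hⁿ(G ⧸ S, A^S) ⟶ Hⁿ(G, A)`. -/
noncomputable abbrev infl {G : Type u} [Group G] (A : Rep k G) (S : Subgroup G) [S.Normal]
    (n : ℕ) : groupCohomology (A.quotientToInvariants S) n ⟶ groupCohomology A n :=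
  groupCohomology.map (QuotientGroup.mk' S) (ofHom <| A.ρ.quotientToInvariants_lift S) n

/-- Restriction `Hⁿ(G, A) ⟶ Hⁿ(S, A)`. -/
noncomputable abbrev rest {G : Type u} [Group G] (A : Rep k G) (S : Subgroup G)
    (n : ℕ) : groupCohomology A n ⟶ groupCohomology (res S.subtype A) n :=
  groupCohomology.map S.subtype (𝟙 (res S.subtype A)) n

/-- **T1** (inflation-restriction in degree `n`), as a hypothesis. -/
def InfResHyp (k : Type u) [CommRing k] : Prop :=
  ∀ (G : Type u) [Group G] (S : Subgroup G) [S.Normal] (A : Rep k G) (n : ℕ), 1 ≤ n →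
    (∀ i, 1 ≤ i → i < n → Subsingleton (groupCohomology (res S.subtype A) i)) →
    Function.Injective (infl A S n) ∧
      ∀ x : groupCohomology A n, rest A S n x = 0 → ∃ y, infl A S n y = x

/-- **T2** (Sylow reduction), as a hypothesis. -/
def SylowHyp (k : Type u) [CommRing k] : Prop :=
  ∀ (G : Type u) [Group G] [Finite G] (A : Rep k G) (n : ℕ), 1 ≤ n →
    (∀ p : ℕ, p.Prime → ∃ P : Sylow p G,
      Subsingleton (groupCohomology (res (P : Subgroup G).subtype A) n)) →
    Subsingleton (groupCohomology A n)

/-- Transport of cohomology along an injective homomorphism to its range. -/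
noncomputable def rangeIso {G H : Type u} [Group G] [Group H] (f : H →* G)
    (hf : Function.Injective f) (A : Rep k G) (n : ℕ) :
    groupCohomology (res f A) n ≅ groupCohomology (res f.range.subtype A) n :=
  groupCohomology.mapIso (MonoidHom.ofInjective hf) (LinearEquiv.refl k A.V)
    (fun g => by ext x; rfl) n

/-- The twin-vanishing hypothesis, in transport-friendly form. -/
def TwinVanish {G : Type u} [Group G] (A : Rep k G) (q : ℕ) : Prop :=
  ∀ (H : Type u) [Group H] (f : H →* G), Function.Injective f →
    Subsingleton (groupCohomology (res f A) q) ∧ Subsingleton (groupCohomology (res f A) (q + 1))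

theorem twinVanish_of_subgroups {G : Type u} [Group G] (A : Rep k G) (q : ℕ)
    (h : ∀ S : Subgroup G, Subsingleton (groupCohomology (res S.subtype A) q) ∧
      Subsingleton (groupCohomology (res S.subtype A) (q + 1))) : TwinVanish A q := by
  intro H _ f hf
  obtain ⟨h1, h2⟩ := h f.range
  exact ⟨((rangeIso f hf A q).toLinearEquiv.toEquiv).subsingleton,
    ((rangeIso f hf A (q + 1)).toLinearEquiv.toEquiv).subsingleton⟩

theorem TwinVanish.res {G H : Type u} [Group G] [Group H] {A : Rep k G} {q : ℕ}
    (h : TwinVanish A q) (f : H →* G) (hf : Function.Injective f) : TwinVanish (res f A) q := by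
  intro K _ g hg
  exact h K (f.comp g) (hf.comp hg)


/-- The `p`-group step of the twin-vanishing theorem. -/
theorem subsingleton_of_pgroup (hT1 : InfResHyp k) (p : ℕ) [hp : Fact p.Prime] (q : ℕ)
    (hq : 1 ≤ q) : ∀ (m : ℕ) (G : Type u) [Group G] [Finite G], Nat.card G = p ^ m →
    ∀ (A : Rep k G), TwinVanish A q → ∀ n, 1 ≤ n → Subsingleton (groupCohomology A n) := by
  intro m
  induction m with
  | zero =>
    intro G _ _ hcard A hA n hn
    have : Subsingleton G := by
      rw [pow_zero] at hcard
      exact (Nat.card_eq_one_iff_unique.1 hcard).1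
    have hcyc : IsCyclic G := inferInstance
    obtain ⟨h1, h2⟩ := hA G (MonoidHom.id G) Function.injective_id
    exact subsingleton_of_cyclic A q hq h1 h2 n hn
  | succ m ih =>
    intro G _ _ hcard A hA n hn
    -- a normal subgroup of index `p`
    obtain ⟨S, hS⟩ := Sylow.exists_subgroup_card_pow_prime (G := G) p (n := m)
      (by rw [hcard]; exact pow_dvd_pow p (Nat.le_succ m))
    have hidx : S.index = p := by
      have h := S.card_mul_index
      rw [hS, hcard, pow_succ] at h
      exact Nat.eq_of_mul_eq_mul_left (pow_pos hp.out.pos m) h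
    have hnormal : S.Normal := by
      apply Subgroup.normal_of_index_eq_minFac_card
      rw [hidx, hcard, Nat.pow_minFac (Nat.succ_ne_zero m), hp.out.minFac_eq]
    -- the subgroup is cohomologically trivial in positive degrees by induction
    have hSall : ∀ i, 1 ≤ i → Subsingleton (groupCohomology (res S.subtype A) i) :=
      fun i hi => ih S hS (res S.subtype A) (hA.res S.subtype S.subtype_injective) i hi
    -- the quotient is cyclic
    have hcardQ : Nat.card (G ⧸ S) = p := by rw [← hidx]; rfl
    have hcycQ : IsCyclic (G ⧸ S) := isCyclic_of_prime_card hcardQ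
    have hfinQ : Finite (G ⧸ S) := Nat.finite_of_card_ne_zero (by rw [hcardQ]; exact hp.out.ne_zero)
    obtain ⟨h1, h2⟩ := hA G (MonoidHom.id G) Function.injective_id
    have hinj : ∀ j, 1 ≤ j → Function.Injective (infl A S j) :=
      fun j hj => (hT1 G S A j hj (fun i hi _ => hSall i hi)).1
    have hQ1 : Subsingleton (groupCohomology (A.quotientToInvariants S) q) :=
      (hinj q hq).subsingleton
    have hQ2 : Subsingleton (groupCohomology (A.quotientToInvariants S) (q + 1)) :=
      (hinj (q + 1) (by omega)).subsingleton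
    have hQn : Subsingleton (groupCohomology (A.quotientToInvariants S) n) :=
      subsingleton_of_cyclic _ q hq hQ1 hQ2 n hn
    refine ⟨fun x y => ?_⟩
    have hSn := hSall n hn
    obtain ⟨x', rfl⟩ := (hT1 G S A n hn (fun i hi _ => hSall i hi)).2 x (Subsingleton.elim _ _)
    obtain ⟨y', rfl⟩ := (hT1 G S A n hn (fun i hi _ => hSall i hi)).2 y (Subsingleton.elim _ _)
    rw [Subsingleton.elim x' y']


/-- **T3** (twin vanishing, positive degrees), transport-friendly form. -/
theorem subsingleton_of_twinVanish (hT1 : InfResHyp k) (hT2 : SylowHyp k) {G : Type u} [Group G]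
    [Finite G] (A : Rep k G) (q : ℕ) (hq : 1 ≤ q) (hA : TwinVanish A q) (n : ℕ) (hn : 1 ≤ n) :
    Subsingleton (groupCohomology A n) := by
  apply hT2 G A n hn
  intro p hp
  haveI : Fact p.Prime := ⟨hp⟩
  obtain ⟨P⟩ : Nonempty (Sylow p G) := inferInstance
  refine ⟨P, ?_⟩
  obtain ⟨m, hm⟩ := (IsPGroup.iff_card.1 P.isPGroup')
  exact subsingleton_of_pgroup hT1 p q hq m (P : Subgroup G) hm (res (P : Subgroup G).subtype A)
    (hA.res _ (Subgroup.subtype_injective _)) n hn

/-- Positive-degree cohomological triviality. -/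
def IsCohTrivPos {G : Type u} [Group G] (A : Rep k G) : Prop :=
  ∀ (S : Subgroup G) (n : ℕ), 1 ≤ n → Subsingleton (groupCohomology (res S.subtype A) n)

/-- **T3** (Nakayama–Tate twin vanishing in positive degrees): if `H^q(S,A) = H^{q+1}(S,A) = 0`
for all subgroups `S` of the finite group `G` (some `q ≥ 1`), then `A` is cohomologically
trivial in positive degrees. -/
theorem isCohTrivPos_of_twin (hT1 : InfResHyp k) (hT2 : SylowHyp k) {G : Type u} [Group G]
    [Finite G] (A : Rep k G) (q : ℕ) (hq : 1 ≤ q)
    (h : ∀ S : Subgroup G, Subsingleton (groupCohomology (res S.subtype A) q) ∧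
      Subsingleton (groupCohomology (res S.subtype A) (q + 1))) : IsCohTrivPos A := by
  intro S n hn
  exact subsingleton_of_twinVanish hT1 hT2 (res S.subtype A) q hq
    ((twinVanish_of_subgroups A q h).res _ (Subgroup.subtype_injective _)) n hn

theorem IsCohTrivPos.subsingleton {G : Type u} [Group G] {A : Rep k G} (h : IsCohTrivPos A)
    (n : ℕ) (hn : 1 ≤ n) : Subsingleton (groupCohomology A n) :=
  ((rangeIso (MonoidHom.id G) Function.injective_id A n).toLinearEquiv.toEquiv).subsingleton_congr.2
    (h (MonoidHom.id G).range n hn)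


/-! ### All Tate degrees (vocabulary of the layer-A skeleton) -/

section Tate

/-- `A` is cohomologically trivial: all Tate groups of all subgroups vanish (subgroups presented
as injective homomorphisms from finite groups).  Same shape as `A.IsCohTrivial` of the skeleton. -/
def IsCohTrivialTate {G : Type u} [Group G] [Fintype G] (A : Rep k G) : Prop :=
  ∀ (H : Type u) [Group H] [Fintype H] (f : H →* G), Function.Injective f →
    ∀ n : ℤ, Limits.IsZero (tateCohomology (Rep.res f A) n)

/-- dimension shifting downwards, as a hypothesis: for every `A` there is `B` with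
`Ĥⁿ(H, B) ≅ Ĥⁿ⁻¹(H, A)` for all subgroups `H`. -/
def ShiftDownHyp (k : Type u) [CommRing k] (G : Type u) [Group G] [Fintype G] : Prop :=
  ∀ A : Rep k G, ∃ B : Rep k G, ∀ (H : Type u) [Group H] [Fintype H] (f : H →* G),
    Function.Injective f → ∀ n : ℤ,
      Nonempty (tateCohomology (Rep.res f B) n ≅ tateCohomology (Rep.res f A) (n - 1))

theorem isZero_tate_iff_subsingleton_groupCohomology {G : Type u} [Group G] [Fintype G]
    (A : Rep k G) (n : ℕ) (hn : 1 ≤ n) :
    Limits.IsZero (tateCohomology A n) ↔ Subsingleton (groupCohomology A n) := by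
  haveI : NeZero n := ⟨by omega⟩
  rw [ModuleCat.isZero_iff_subsingleton]
  exact (((TateCohomology.isoGroupCohomology n).app A).toLinearEquiv.toEquiv).subsingleton_congr

/-- iterated downward shift -/
theorem exists_shiftDown_iterate {G : Type u} [Group G] [Fintype G] (hsh : ShiftDownHyp k G)
    (A : Rep k G) (r : ℕ) : ∃ B : Rep k G, ∀ (H : Type u) [Group H] [Fintype H] (f : H →* G),
    Function.Injective f → ∀ n : ℤ,
      Nonempty (tateCohomology (Rep.res f B) n ≅ tateCohomology (Rep.res f A) (n - r)) := by
  induction r with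
  | zero => exact ⟨A, fun H _ _ f hf n => ⟨eqToIso (by simp)⟩⟩
  | succ r ih =>
    obtain ⟨B, hB⟩ := ih
    obtain ⟨C, hC⟩ := hsh B
    refine ⟨C, fun H _ _ f hf n => ?_⟩
    obtain ⟨e1⟩ := hC H f hf n
    obtain ⟨e2⟩ := hB H f hf (n - 1)
    exact ⟨e1 ≪≫ e2 ≪≫ eqToIso (by congr 1; push_cast; ring)⟩

/-- **Nakayama–Tate criterion** (twin vanishing in degrees `1, 2` for all subgroups implies
cohomological triviality in all Tate degrees), from T1, T2 and downward dimension shifting. -/
theorem isCohTrivialTate_of_H1_H2 (hT1 : InfResHyp k) (hT2 : SylowHyp k) {G : Type u} [Group G]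
    [Fintype G] (hsh : ShiftDownHyp k G) (A : Rep k G)
    (h : ∀ (H : Type u) [Group H] [Fintype H] (f : H →* G), Function.Injective f →
      Limits.IsZero (tateCohomology (Rep.res f A) 1) ∧
        Limits.IsZero (tateCohomology (Rep.res f A) 2)) :
    IsCohTrivialTate A := by
  -- positive degrees for an arbitrary module with twin vanishing in Tate degrees `q, q+1`
  have pos : ∀ (B : Rep k G) (q : ℕ), 1 ≤ q →
      (∀ (H : Type u) [Group H] [Fintype H] (f : H →* G), Function.Injective f →
        Limits.IsZero (tateCohomology (Rep.res f B) q) ∧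
          Limits.IsZero (tateCohomology (Rep.res f B) (q + 1 : ℕ))) →
      ∀ (H : Type u) [Group H] [Fintype H] (f : H →* G), Function.Injective f →
        ∀ n : ℕ, 1 ≤ n → Limits.IsZero (tateCohomology (Rep.res f B) n) := by
    intro B q hq hB H _ _ f hf n hn
    rw [isZero_tate_iff_subsingleton_groupCohomology _ n hn]
    have htw : TwinVanish (Rep.res f B) q := by
      intro K _ g hg
      haveI : Finite K := Finite.of_injective g hg
      haveI : Fintype K := Fintype.ofFinite K
      obtain ⟨h1, h2⟩ := hB K (f.comp g) (hf.comp hg)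
      exact ⟨(isZero_tate_iff_subsingleton_groupCohomology _ q hq).1 h1,
        (isZero_tate_iff_subsingleton_groupCohomology _ (q + 1) (by omega)).1 h2⟩
    exact subsingleton_of_twinVanish hT1 hT2 (Rep.res f B) q hq htw n hn
  intro H _ _ f hf n
  rcases le_or_gt 1 n with hn | hn
  · obtain ⟨m, rfl⟩ : ∃ m : ℕ, n = m := ⟨n.toNat, by omega⟩
    exact pos A 1 le_rfl (fun K _ _ g hg => by simpa using h K g hg) H f hf m (by exact_mod_cast hn)
  · -- `n ≤ 0`: shift down by `r = 1 - n`
    obtain ⟨r, hr⟩ : ∃ r : ℕ, (r : ℤ) = 1 - n := ⟨(1 - n).toNat, by omega⟩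
    obtain ⟨B, hB⟩ := exists_shiftDown_iterate hsh A r
    have hBtw : ∀ (K : Type u) [Group K] [Fintype K] (g : K →* G), Function.Injective g →
        Limits.IsZero (tateCohomology (Rep.res g B) (r + 1 : ℕ)) ∧
          Limits.IsZero (tateCohomology (Rep.res g B) ((r + 1) + 1 : ℕ)) := by
      intro K _ _ g hg
      obtain ⟨h1, h2⟩ := h K g hg
      obtain ⟨e1⟩ := hB K g hg ((r + 1 : ℕ) : ℤ)
      obtain ⟨e2⟩ := hB K g hg (((r + 1) + 1 : ℕ) : ℤ)
      have a1 : ((r + 1 : ℕ) : ℤ) - r = 1 := by push_cast; ring
      have a2 : (((r + 1) + 1 : ℕ) : ℤ) - r = 2 := by push_cast; ring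
      rw [a1] at e1
      rw [a2] at e2
      exact ⟨h1.of_iso e1, h2.of_iso e2⟩
    have := pos B (r + 1) (by omega) hBtw H f hf 1 le_rfl
    obtain ⟨e⟩ := hB H f hf ((1 : ℕ) : ℤ)
    have a : ((1 : ℕ) : ℤ) - r = n := by push_cast; omega
    rw [a] at e
    exact this.of_iso e.symm

end Tate

end Fermat.Agent.CFT.H28
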