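import Mathlib

set_option autoImplicit false
set_option linter.style.haveILetI false

universe u

open CategoryTheory CategoryTheory.Limits

noncomputable section

namespace Fermat.Agent.CFT.H49

variable {k : Type u} [CommRing k]

/-! ## Periodicity for finite cyclic groups -/

open Rep.FiniteCyclicGroup in
/-- For a finite cyclic group, two consecutive vanishing cohomology groups in positive degrees
force all positive-degree cohomology to vanish. -/
theorem isZero_of_cyclic {C : Type u} [CommGroup C] [Fintype C] (B : Rep k C) (g : C)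
    (hg : ∀ x, x ∈ Subgroup.zpowers g) (q : ℕ) (hq : 1 ≤ q)
    (h0 : IsZero (groupCohomology B q)) (h1 : IsZero (groupCohomology B (q + 1)))
    (n : ℕ) (hn : 1 ≤ n) : IsZero (groupCohomology B n) := by
  have key : IsZero (normHomCompSub B g).homology ∧ IsZero (subCompNormHom B g).homology := by
    rcases Nat.even_or_odd q with he | ho
    · have : NeZero q := ⟨by omega⟩
      exact ⟨h0.of_iso (groupCohomologyIsoEven B g hg q he).symm,
        h1.of_iso (groupCohomologyIsoOdd B g hg (q + 1) he.add_one).symm⟩
    · have : NeZero (q + 1) := ⟨by omega⟩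
      exact ⟨h1.of_iso (groupCohomologyIsoEven B g hg (q + 1) ho.add_one).symm,
        h0.of_iso (groupCohomologyIsoOdd B g hg q ho).symm⟩
  rcases Nat.even_or_odd n with he | ho
  · have : NeZero n := ⟨by omega⟩
    exact key.1.of_iso (groupCohomologyIsoEven B g hg n he)
  · exact key.2.of_iso (groupCohomologyIsoOdd B g hg n ho)

/-! ## Vanishing on all subgroups -/

/-- `A` has vanishing `n`-th cohomology on every subgroup of `G` (formulated with injective
homomorphisms into `G`, which makes the notion stable under restriction by definition). -/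
def CohVanish {G : Type u} [Group G] (A : Rep k G) (n : ℕ) : Prop :=
  ∀ (H : Type u) [Group H] (f : H →* G), Function.Injective f →
    IsZero (groupCohomology (Rep.res f A) n)

theorem CohVanish.self {G : Type u} [Group G] {A : Rep k G} {n : ℕ} (h : CohVanish A n) :
    IsZero (groupCohomology A n) :=
  h G (MonoidHom.id G) Function.injective_id

theorem CohVanish.res {G H : Type u} [Group G] [Group H] {A : Rep k G} {n : ℕ}
    (h : CohVanish A n) (f : H →* G) (hf : Function.Injective f) :
    CohVanish (Rep.res f A) n := by
  intro H' _ f' hf'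
  exact h H' (f.comp f') (hf.comp hf')

theorem CohVanish.subgroup {G : Type u} [Group G] {A : Rep k G} {n : ℕ}
    (h : CohVanish A n) (S : Subgroup G) : IsZero (groupCohomology (Rep.res S.subtype A) n) :=
  h S S.subtype S.subtype_injective

/-- Consequence of inflation-restriction in degree `n` (package T1), as a hypothesis:
if the cohomology of the normal subgroup `N` vanishes in all positive degrees then inflation
`Hⁿ(H ⧸ N, Bᴺ) → Hⁿ(H, B)` is an isomorphism, in particular one side vanishes iff the other
does. -/
def InfIsoHyp (k : Type u) [CommRing k] : Prop :=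
  ∀ (H : Type u) [Group H] (N : Subgroup H) [N.Normal] (B : Rep k H),
    (∀ i, 1 ≤ i → IsZero (groupCohomology (Rep.res N.subtype B) i)) →
    ∀ n, 1 ≤ n → (IsZero (groupCohomology (B.quotientToInvariants N) n) ↔
      IsZero (groupCohomology B n))

/-- Consequence of restriction-corestriction (package T2), as a hypothesis: cohomology in
positive degree is detected on Sylow subgroups. -/
def SylowHyp (k : Type u) [CommRing k] : Prop :=
  ∀ (H : Type u) [Group H] [Finite H] (B : Rep k H) (n : ℕ), 1 ≤ n →
    (∀ p : ℕ, p.Prime → ∃ P : Sylow p H,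
      IsZero (groupCohomology (Rep.res (P : Subgroup H).subtype B) n)) →
    IsZero (groupCohomology B n)

/-! ## The case of `p`-groups -/

theorem isZero_of_pGroup (hT1 : InfIsoHyp k) (p : ℕ) [Fact p.Prime] (q : ℕ) (hq : 1 ≤ q) :
    ∀ (m : ℕ) (H : Type u) [Group H] (B : Rep k H), Nat.card H = p ^ m →
      CohVanish B q → CohVanish B (q + 1) → ∀ n, 1 ≤ n → IsZero (groupCohomology B n) := by
  intro m
  induction m with
  | zero =>
    intro H _ B hcard _ _ n hn
    have : Subsingleton H := by
      have h1 : Nat.card H = 1 := by simpa using hcard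
      exact (Nat.card_eq_one_iff_unique.1 h1).1
    obtain ⟨n', rfl⟩ := Nat.exists_eq_succ_of_ne_zero (by omega : n ≠ 0)
    exact isZero_groupCohomology_succ_of_subsingleton B n'
  | succ m ih =>
    intro H _ B hcard h0 h1 n hn
    have hp : p.Prime := Fact.out
    haveI : Finite H := Nat.finite_of_card_ne_zero (by rw [hcard]; exact (pow_pos hp.pos _).ne')
    obtain ⟨N, hN⟩ := Sylow.exists_subgroup_card_pow_prime p (n := m) (G := H)
      (by rw [hcard]; exact pow_dvd_pow p (Nat.le_succ m))
    have hidx : N.index = p := by
      have := N.card_mul_index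
      rw [hN, hcard, pow_succ] at this
      exact Nat.eq_of_mul_eq_mul_left (pow_pos hp.pos _) this
    haveI : N.Normal := Subgroup.normal_of_index_eq_minFac_card (by
      rw [hidx, hcard, Nat.Prime.pow_minFac hp (Nat.succ_ne_zero m)])
    have hNz : ∀ i, 1 ≤ i → IsZero (groupCohomology (Rep.res N.subtype B) i) :=
      ih N (Rep.res N.subtype B) hN (h0.res _ N.subtype_injective) (h1.res _ N.subtype_injective)
    have hquot : Nat.card (H ⧸ N) = p := by rw [← Subgroup.index_eq_card]; exact hidx
    have hiff := hT1 H N B hNz
    have hq0 : IsZero (groupCohomology (B.quotientToInvariants N) q) := (hiff q hq).2 h0.self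
    have hq1 : IsZero (groupCohomology (B.quotientToInvariants N) (q + 1)) :=
      (hiff (q + 1) (by omega)).2 h1.self
    have hcyc : IsCyclic (H ⧸ N) := isCyclic_of_prime_card hquot
    obtain ⟨g, hg⟩ := hcyc.exists_generator
    letI : CommGroup (H ⧸ N) := IsCyclic.commGroup
    letI : Fintype (H ⧸ N) := Fintype.ofFinite _
    exact (hiff n hn).1 (isZero_of_cyclic (B.quotientToInvariants N) g hg q hq hq0 hq1 n hn)

/-! ## The main theorem -/

/-- **Cohomological triviality in positive degrees** (Nakayama-Tate, positive part).
Let `G` be a finite group and `A` a `G`-module such that for some `q ≥ 1` the groups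
`H^q(S, A)` and `H^(q+1)(S, A)` vanish for all subgroups `S`.  Then `Hⁿ(S, A) = 0` for all
`n ≥ 1` and all subgroups `S`. -/
theorem cohVanish_all (hT1 : InfIsoHyp k) (hT2 : SylowHyp k) {G : Type u} [Group G] [Finite G]
    (A : Rep k G) (q : ℕ) (hq : 1 ≤ q) (h0 : CohVanish A q) (h1 : CohVanish A (q + 1))
    (n : ℕ) (hn : 1 ≤ n) : CohVanish A n := by
  intro H _ f hf
  haveI : Finite H := Finite.of_injective f hf
  apply hT2 H (Rep.res f A) n hn
  intro p hp
  haveI : Fact p.Prime := ⟨hp⟩
  obtain ⟨P⟩ : Nonempty (Sylow p H) := inferInstance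
  refine ⟨P, ?_⟩
  obtain ⟨m, hm⟩ := (IsPGroup.iff_card (p := p) (G := (P : Subgroup H))).1 P.isPGroup'
  have hinj : Function.Injective (f.comp (P : Subgroup H).subtype) :=
    hf.comp (P : Subgroup H).subtype_injective
  exact isZero_of_pGroup hT1 p q hq m (P : Subgroup H) (Rep.res (P : Subgroup H).subtype (Rep.res f A))
    hm ((h0.res f hf).res _ (P : Subgroup H).subtype_injective)
    ((h1.res f hf).res _ (P : Subgroup H).subtype_injective) n hn

/-- The restriction along an injective homomorphism has the same cohomology as the restriction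
to its range. -/
def resRangeIso {G H : Type u} [Group G] [Group H] (A : Rep k G) (f : H →* G)
    (hf : Function.Injective f) (n : ℕ) :
    groupCohomology (Rep.res f A) n ≅ groupCohomology (Rep.res f.range.subtype A) n :=
  groupCohomology.mapIso (A := Rep.res f.range.subtype A) (B := Rep.res f A)
    (MonoidHom.ofInjective hf) (LinearEquiv.refl k A.V) (fun g => by
      ext x
      rfl) n

theorem cohVanish_iff {G : Type u} [Group G] (A : Rep k G) (n : ℕ) :
    CohVanish A n ↔ ∀ S : Subgroup G, IsZero (groupCohomology (Rep.res S.subtype A) n) := by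
  constructor
  · intro h S
    exact h.subgroup S
  · intro h H _ f hf
    exact (h f.range).of_iso (resRangeIso A f hf n)

/-- Subgroup form of `cohVanish_all`. -/
theorem isZero_groupCohomology_subgroup (hT1 : InfIsoHyp k) (hT2 : SylowHyp k) {G : Type u}
    [Group G] [Finite G] (A : Rep k G) (q : ℕ) (hq : 1 ≤ q)
    (h0 : ∀ S : Subgroup G, IsZero (groupCohomology (Rep.res S.subtype A) q))
    (h1 : ∀ S : Subgroup G, IsZero (groupCohomology (Rep.res S.subtype A) (q + 1)))
    (S : Subgroup G) (n : ℕ) (hn : 1 ≤ n) :
    IsZero (groupCohomology (Rep.res S.subtype A) n) :=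
  (cohVanish_all hT1 hT2 A q hq ((cohVanish_iff A q).2 h0) ((cohVanish_iff A (q + 1)).2 h1)
    n hn).subgroup S

end Fermat.Agent.CFT.H49
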