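/-
helper85 — CFT layer A, package `A-T1-inflation-restriction-degree-n`.

Inflation–restriction in arbitrary positive degree (Mathlib only).

Main exports (all for `k G : Type u`, `A : Rep k G`, `S : Subgroup G` normal):

* `δ_naturality_map` : naturality of the connecting homomorphism of group cohomology with
  respect to a change of group `f : G →* H`.
* `map_one_succ` : the trivial homomorphism induces `0` on cohomology in positive degree.
* `funRep k G V`, `toFunRep A`, `upSC A`, `upSC_shortExact A` : the dimension shifting sequence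
  `0 ⟶ A ⟶ Fun(G, A) ⟶ Q ⟶ 0`, together with the acyclicity statements
  `isZero_groupCohomology_funRep`, `isZero_groupCohomology_res_funRep`,
  `isZero_groupCohomology_invariants_funRep`.
* `invariants_shortExact` : `0 ⟶ X₁^S ⟶ X₂^S ⟶ X₃^S ⟶ 0` is short exact if `H¹(S, X₁) = 0`.
* `infResSC A S n` : the short complex `Hⁿ⁺¹(G ⧸ S, A^S) ⟶ Hⁿ⁺¹(G, A) ⟶ Hⁿ⁺¹(S, A)`.
* `infResSC_mono`, `infResSC_exact`, `inflation_injective`, `range_inflation_eq_ker_restriction`,
  `isIso_inflation` : the inflation–restriction theorems.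
-/
import Mathlib

namespace Fermat.Agent.CFT.H85

open CategoryTheory Limits groupCohomology Rep

universe u

variable {k : Type u} [CommRing k]

/-! ### Naturality of `δ` for a change of group -/

section Naturality

variable {G H : Type u} [Group G] [Group H] (f : G →* H)

lemma cochainsMap_comm {A₁ A₂ : Rep k H} {B₁ B₂ : Rep k G} (a : A₁ ⟶ A₂) (b : B₁ ⟶ B₂)
    (φ₁ : res f A₁ ⟶ B₁) (φ₂ : res f A₂ ⟶ B₂)
    (h : φ₁ ≫ b = (resFunctor f).map a ≫ φ₂) :
    cochainsMap f φ₁ ≫ cochainsMap (MonoidHom.id G) b =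
      cochainsMap (MonoidHom.id H) a ≫ cochainsMap f φ₂ := by
  rw [← cochainsMap_comp, ← cochainsMap_comp]
  exact cochainsMap_congr (by rfl) (by
    have := congrArg (fun t => t.hom.toLinearMap) h
    simpa using this)

/-- Naturality of the connecting homomorphism with respect to a change of group. -/
theorem δ_naturality_map {X : ShortComplex (Rep k H)} {Y : ShortComplex (Rep k G)}
    (hX : X.ShortExact) (hY : Y.ShortExact) (F : X.map (resFunctor f) ⟶ Y) (i j : ℕ)
    (hij : i + 1 = j) :
    δ hX i j hij ≫ map f F.τ₁ j = map f F.τ₃ i ≫ δ hY i j hij := by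
  let φ : X.map (cochainsFunctor k H) ⟶ Y.map (cochainsFunctor k G) :=
    { τ₁ := cochainsMap f F.τ₁
      τ₂ := cochainsMap f F.τ₂
      τ₃ := cochainsMap f F.τ₃
      comm₁₂ := cochainsMap_comm f X.f Y.f F.τ₁ F.τ₂ F.comm₁₂
      comm₂₃ := cochainsMap_comm f X.g Y.g F.τ₂ F.τ₃ F.comm₂₃ }
  exact HomologicalComplex.HomologySequence.δ_naturality φ
    (map_cochainsFunctor_shortExact hX) (map_cochainsFunctor_shortExact hY) i j hij

end Naturality

/-! ### The trivial homomorphism induces zero in positive degree -/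

section MapOne

variable {G H : Type u} [Group G] [Group H] {A : Rep k H} {B : Rep k G}

/-- The map induced on positive-degree cohomology by the trivial homomorphism is zero. -/
theorem map_one_succ (φ : res (1 : G →* H) A ⟶ B) (n : ℕ) :
    map (1 : G →* H) φ (n + 1) = 0 := by
  have h1 : (1 : G →* H) = ((⊥ : Subgroup H).subtype).comp (1 : G →* (⊥ : Subgroup H)) := by
    ext g
    simp
  have h2 := map_comp (k := k) (⊥ : Subgroup H).subtype (1 : G →* (⊥ : Subgroup H))
    (𝟙 (res (⊥ : Subgroup H).subtype A)) (B := res (⊥ : Subgroup H).subtype A) (C := B)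
    (ofHom ⟨φ.hom.toLinearMap, fun g => φ.hom.2 g⟩) (n + 1)
  have h3 : map (⊥ : Subgroup H).subtype (𝟙 (res (⊥ : Subgroup H).subtype A)) (n + 1) = 0 :=
    (isZero_groupCohomology_succ_of_subsingleton _ n).eq_of_tgt _ _
  rw [h3, zero_comp] at h2
  rw [← h2]
  exact map_congr h1 (by rfl) (n + 1)

end MapOne

/-! ### Exactness in `Rep` elementwise -/

lemma rep_exact_iff {Γ : Type u} [Group Γ] (T : ShortComplex (Rep.{u} k Γ)) :
    T.Exact ↔ ∀ x : T.X₂, T.g.hom x = 0 → ∃ y : T.X₁, T.f.hom y = x := by
  rw [← ShortComplex.exact_map_iff_of_faithful T (forget₂ (Rep k Γ) (ModuleCat k)),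
    ShortComplex.moduleCat_exact_iff]
  rfl

/-! ### The representation `Fun(G, V)` and its acyclicity -/

section FunRep

variable (k) (G : Type u) [Group G] (V : Type u) [AddCommGroup V] [Module k V]

/-- `Fun(G, V)` with `G` acting by right translation of the argument. -/
def funRep : Representation k G (G → V) where
  toFun g := LinearMap.funLeft k V (· * g)
  map_one' := by ext; simp
  map_mul' g h := by ext; simp [mul_assoc]

@[simp] lemma funRep_apply (g : G) (f : G → V) (x : G) : funRep k G V g f x = f (x * g) := rfl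

/-- The underlying linear equivalence of `funRepIsoCoind`. -/
def funRepEquivCoind : (G → V) ≃ₗ[k]
    Representation.coindV (⊥ : Subgroup G).subtype
      (Representation.trivial k (⊥ : Subgroup G) V) where
  toFun f := ⟨f, fun g h => by
    have : (g : G) = 1 := Subgroup.mem_bot.1 g.2
    simp [this]⟩
  map_add' _ _ := rfl
  map_smul' _ _ := rfl
  invFun f := f.1
  left_inv _ := rfl
  right_inv _ := rfl

/-- `Fun(G, V)` is the representation coinduced from the trivial subgroup. -/
noncomputable def funRepIsoCoind : Rep.of (funRep k G V) ≅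
    coind (⊥ : Subgroup G).subtype (Rep.trivial k (⊥ : Subgroup G) V) :=
  Rep.mkIso (.mk (funRepEquivCoind k G V) fun g => by ext; rfl)

/-- `Fun(G, V)` is acyclic. -/
lemma isZero_groupCohomology_funRep (n : ℕ) :
    IsZero (groupCohomology (Rep.of (funRep k G V)) (n + 1)) :=
  (isZero_groupCohomology_succ_of_subsingleton
      (Rep.trivial k (⊥ : Subgroup G) V) n).of_iso
    ((functor k G (n + 1)).mapIso (funRepIsoCoind k G V) ≪≫ coindIso _ (n + 1))

variable {G} (S : Subgroup G)

/-- The `S`-component of `x : G` with respect to the chosen representatives of `G ⧸ S`. -/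
noncomputable def sPart (x : G) : S :=
  ⟨(x : G ⧸ S).out⁻¹ * x, QuotientGroup.eq.1 (QuotientGroup.out_eq' (x : G ⧸ S))⟩

lemma out_mul_sPart (x : G) : (x : G ⧸ S).out * (sPart S x : G) = x := by
  simp [sPart]

lemma mk_out_mul (c : G ⧸ S) (s : S) : ((c.out * (s : G) : G) : G ⧸ S) = c := by
  conv_rhs => rw [← QuotientGroup.out_eq' c]
  exact (QuotientGroup.eq.2 (by simp)).symm

lemma sPart_out_mul (c : G ⧸ S) (s : S) : sPart S (c.out * (s : G)) = s := by
  apply Subtype.ext
  have h := out_mul_sPart S (c.out * (s : G))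
  rw [mk_out_mul] at h
  exact mul_left_cancel h

/-- The underlying linear equivalence of `resFunRepIso`. -/
noncomputable def resFunRepEquiv : (G → V) ≃ₗ[k] (S → (G ⧸ S) → V) where
  toFun f := fun s c => f (c.out * s)
  map_add' _ _ := rfl
  map_smul' _ _ := rfl
  invFun F := fun x => F (sPart S x) (x : G ⧸ S)
  left_inv f := by
    funext x
    simp only [out_mul_sPart]
  right_inv F := by
    funext s c
    simp only [sPart_out_mul, mk_out_mul]

/-- The restriction of `Fun(G, V)` to a subgroup `S` is `Fun(S, Fun(G ⧸ S, V))`. -/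
noncomputable def resFunRepIso : res S.subtype (Rep.of (funRep k G V)) ≅
    Rep.of (funRep k S ((G ⧸ S) → V)) :=
  Rep.mkIso (.mk (resFunRepEquiv k V S) fun g => by
    ext f s c
    simp [resFunRepEquiv, mul_assoc])

/-- `Fun(G, V)` is acyclic for every subgroup. -/
lemma isZero_groupCohomology_res_funRep (n : ℕ) :
    IsZero (groupCohomology (res S.subtype (Rep.of (funRep k G V))) (n + 1)) :=
  (isZero_groupCohomology_funRep k S ((G ⧸ S) → V) n).of_iso
    ((functor k S (n + 1)).mapIso (resFunRepIso k V S))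

lemma funRep_invariants_apply_eq {f : G → V}
    (hf : f ∈ Representation.invariants ((funRep k G V).comp S.subtype)) {x y : G}
    (hxy : (x : G ⧸ S) = y) : f x = f y := by
  have h := congrFun (hf ⟨x⁻¹ * y, QuotientGroup.eq.1 hxy⟩) x
  simpa using h.symm

variable [S.Normal]

/-- The underlying linear equivalence of `funRepInvariantsIso`. -/
noncomputable def funRepInvariantsEquiv :
    Representation.invariants ((funRep k G V).comp S.subtype) ≃ₗ[k] ((G ⧸ S) → V) where
  toFun f := fun c => f.1 c.out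
  map_add' _ _ := rfl
  map_smul' _ _ := rfl
  invFun F := ⟨fun x => F (x : G ⧸ S), fun s => by
    funext x
    simp⟩
  left_inv f := by
    apply Subtype.ext
    funext x
    exact funRep_invariants_apply_eq k V S f.2 (QuotientGroup.out_eq' _)
  right_inv F := by
    funext c
    simp

/-- The `S`-invariants of `Fun(G, V)` are `Fun(G ⧸ S, V)` as a representation of `G ⧸ S`. -/
noncomputable def funRepInvariantsIso : (Rep.of (funRep k G V)).quotientToInvariants S ≅
    Rep.of (funRep k (G ⧸ S) V) :=
  Rep.mkIso (.mk (funRepInvariantsEquiv k V S) fun g => by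
    induction g using QuotientGroup.induction_on with | H g =>
    ext f c
    refine funRep_invariants_apply_eq k V S f.2 ?_
    simp)

/-- The `S`-invariants of `Fun(G, V)` are acyclic for `G ⧸ S`. -/
lemma isZero_groupCohomology_invariants_funRep (n : ℕ) :
    IsZero (groupCohomology ((Rep.of (funRep k G V)).quotientToInvariants S) (n + 1)) :=
  (isZero_groupCohomology_funRep k (G ⧸ S) V n).of_iso
    ((functor k (G ⧸ S) (n + 1)).mapIso (funRepInvariantsIso k V S))

end FunRep

/-! ### The dimension shifting short exact sequence -/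

section Up

variable {G : Type u} [Group G] (A : Rep k G)

/-- The embedding `A ⟶ Fun(G, A)`, `a ↦ (x ↦ ρ x a)`. -/
noncomputable def toFunRep : A ⟶ Rep.of (funRep k G A.V) :=
  Rep.ofHom ⟨LinearMap.pi fun x => A.ρ x, fun g => by
    ext a x
    simp⟩

lemma toFunRep_apply (a : A) (x : G) : (toFunRep A).hom a x = A.ρ x a := rfl

instance toFunRep_mono : Mono (toFunRep A) := by
  refine (Rep.mono_iff_injective _).2 fun a b hab => ?_
  have h := congrFun hab 1
  rw [toFunRep_apply, toFunRep_apply] at h
  simpa using h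

/-- The dimension shifting sequence `0 ⟶ A ⟶ Fun(G, A) ⟶ Q ⟶ 0`. -/
noncomputable def upSC : ShortComplex (Rep k G) :=
  ShortComplex.mk (toFunRep A) (cokernel.π (toFunRep A)) (cokernel.condition _)

lemma upSC_shortExact : (upSC A).ShortExact :=
  ShortComplex.ShortExact.mk' (ShortComplex.exact_cokernel _)
    (toFunRep_mono A) (inferInstanceAs (Epi (cokernel.π (toFunRep A))))

end Up

/-! ### Invariants of a short exact sequence -/

section Invariants

variable {G : Type u} [Group G] (S : Subgroup G) [S.Normal]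

instance quotientToInvariantsFunctor_preservesZeroMorphisms :
    (quotientToInvariantsFunctor k S).PreservesZeroMorphisms where
  map_zero _ _ := by
    ext x
    rfl

/-- If `H¹(S, X₁) = 0` then `X₂^S ⟶ X₃^S` is surjective. -/
theorem invariants_epi {X : ShortComplex (Rep k G)} (hX : X.ShortExact)
    (h1 : IsZero (groupCohomology (res S.subtype X.X₁) 1)) :
    Function.Surjective ((quotientToInvariantsFunctor k S).map X.g).hom := by
  have hY : (X.map (resFunctor S.subtype)).ShortExact := (shortExact_res S.subtype).2 hX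
  have hex := (map_cochainsFunctor_shortExact hY).homology_exact₃ 0 1 rfl
  have hz : IsZero
      (((X.map (resFunctor S.subtype)).map (cochainsFunctor k ↥S)).X₁.homology 1) := h1
  have hepi := hex.epi_f (hz.eq_of_tgt _ _)
  simp only [ShortComplex.map_g] at hepi
  have hepi2 : Epi ((functor k S 0).map ((resFunctor S.subtype).map X.g)) := hepi
  rw [functor_map] at hepi2
  have hepi' : Epi ((invariantsFunctor k S).map ((resFunctor S.subtype).map X.g)) := by
    have := map_id_comp_H0Iso_hom ((resFunctor S.subtype).map X.g)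
    rw [← Iso.inv_comp_eq] at this
    rw [← this]
    exact epi_comp' inferInstance (epi_comp' hepi2 inferInstance)
  have hsurj := (ModuleCat.epi_iff_surjective _).1 hepi'
  intro y
  obtain ⟨x, hx⟩ := hsurj y
  exact ⟨x, hx⟩

/-- If `H¹(S, X₁) = 0` then `0 ⟶ X₁^S ⟶ X₂^S ⟶ X₃^S ⟶ 0` is a short exact sequence of
representations of `G ⧸ S`. -/
theorem invariants_shortExact {X : ShortComplex (Rep k G)} (hX : X.ShortExact)
    (h1 : IsZero (groupCohomology (res S.subtype X.X₁) 1)) :
    (X.map (quotientToInvariantsFunctor k S)).ShortExact := by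
  have hinj : Function.Injective X.f.hom := (Rep.mono_iff_injective X.f).1 hX.mono_f
  refine ShortComplex.ShortExact.mk' ?_ ?_ ?_
  · rw [rep_exact_iff]
    intro x hx
    have hx' : X.g.hom x.1 = 0 := congrArg Subtype.val hx
    obtain ⟨y, hy⟩ := (rep_exact_iff X).1 hX.exact x.1 hx'
    refine ⟨⟨y, fun s => hinj ?_⟩, Subtype.ext hy⟩
    have h2 : X.X₂.ρ (s : G) x.1 = x.1 := x.2 s
    have h3 : X.f.hom (X.X₁.ρ (s : G) y) = X.X₂.ρ (s : G) (X.f.hom y) := hom_comm_apply X.f s y
    change X.f.hom (X.X₁.ρ (s : G) y) = X.f.hom y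
    rw [h3, hy, h2]
  · refine (Rep.mono_iff_injective _).2 fun x y hxy => Subtype.ext (hinj ?_)
    exact congrArg Subtype.val hxy
  · exact (Rep.epi_iff_surjective _).2 (invariants_epi S hX h1)

end Invariants

/-! ### Inflation–restriction -/

section InfRes

variable {G : Type u} [Group G] (A : Rep k G) (S : Subgroup G) [S.Normal]

/-- The short complex `Hⁿ⁺¹(G ⧸ S, A^S) ⟶ Hⁿ⁺¹(G, A) ⟶ Hⁿ⁺¹(S, A)`
(inflation followed by restriction). For `n = 0` this is Mathlib's `H1InfRes`. -/
@[simps X₁ X₂ X₃ f g]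
noncomputable def infResSC (n : ℕ) : ShortComplex (ModuleCat k) where
  X₁ := groupCohomology (A.quotientToInvariants S) (n + 1)
  X₂ := groupCohomology A (n + 1)
  X₃ := groupCohomology (res S.subtype A) (n + 1)
  f := map (QuotientGroup.mk' S) (ofHom <| A.ρ.quotientToInvariants_lift S) (n + 1)
  g := map S.subtype (𝟙 _) (n + 1)
  zero := by
    rw [← map_comp, Category.comp_id, groupCohomology.congr (QuotientGroup.mk'_comp_subtype S)
      (fun f φ => map f φ (n + 1)), map_one_succ]

variable {S} in
/-- The morphism of short complexes used for the naturality of `δ` w.r.t. inflation. -/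
noncomputable def infHom (X : ShortComplex (Rep k G)) :
    (X.map (quotientToInvariantsFunctor k S)).map (resFunctor (QuotientGroup.mk' S)) ⟶ X where
  τ₁ := ofHom (X.X₁.ρ.quotientToInvariants_lift S)
  τ₂ := ofHom (X.X₂.ρ.quotientToInvariants_lift S)
  τ₃ := ofHom (X.X₃.ρ.quotientToInvariants_lift S)
  comm₁₂ := by ext x; rfl
  comm₂₃ := by ext x; rfl

/-- The dimension shifting step: if `0 ⟶ X₁ ⟶ X₂ ⟶ X₃ ⟶ 0` is short exact with `X₂` acyclic for
`G`, for `S` and with `X₂^S` acyclic for `G ⧸ S`, and `H¹(S, X₁) = 0`, then inflation–restriction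
for `X₃` in degree `n + 1` implies inflation–restriction for `X₁` in degree `n + 2`. -/
theorem infRes_step {X : ShortComplex (Rep k G)} (hX : X.ShortExact) (n : ℕ)
    (hG : ∀ m, IsZero (groupCohomology X.X₂ (m + 1)))
    (hS : ∀ m, IsZero (groupCohomology (res S.subtype X.X₂) (m + 1)))
    (hQ : ∀ m, IsZero (groupCohomology (X.X₂.quotientToInvariants S) (m + 1)))
    (h1 : IsZero (groupCohomology (res S.subtype X.X₁) 1))
    (ih : Mono (infResSC X.X₃ S n).f ∧ (infResSC X.X₃ S n).Exact) :
    Mono (infResSC X.X₁ S (n + 1)).f ∧ (infResSC X.X₁ S (n + 1)).Exact := by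
  have hXS : (X.map (resFunctor S.subtype)).ShortExact := (shortExact_res S.subtype).2 hX
  have hXI : (X.map (quotientToInvariantsFunctor k S)).ShortExact :=
    invariants_shortExact S hX h1
  have i1 : IsIso (δ hXI (n + 1) (n + 2) rfl) :=
    isIso_δ_of_isZero hXI (n + 1) (hQ n) (hQ (n + 1))
  have i2 : IsIso (δ hX (n + 1) (n + 2) rfl) :=
    isIso_δ_of_isZero hX (n + 1) (hG n) (hG (n + 1))
  have i3 : Mono (δ hXS (n + 1) (n + 2) rfl) := mono_δ_of_isZero hXS (n + 1) (hS n)
  have c1 := δ_naturality_map (QuotientGroup.mk' S) hXI hX (infHom X) (n + 1) (n + 2) rfl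
  have c2 := δ_naturality_map S.subtype hX hXS (𝟙 _) (n + 1) (n + 2) rfl
  let φ : infResSC X.X₃ S n ⟶ infResSC X.X₁ S (n + 1) :=
    { τ₁ := δ hXI (n + 1) (n + 2) rfl
      τ₂ := δ hX (n + 1) (n + 2) rfl
      τ₃ := δ hXS (n + 1) (n + 2) rfl
      comm₁₂ := c1
      comm₂₃ := c2 }
  have j1 : IsIso φ.τ₁ := i1
  have j2 : IsIso φ.τ₂ := i2
  have j3 : Mono φ.τ₃ := i3
  refine ⟨?_, (ShortComplex.exact_iff_of_epi_of_isIso_of_mono φ).1 ih.2⟩
  have hf : (infResSC X.X₁ S (n + 1)).f = inv φ.τ₁ ≫ (infResSC X.X₃ S n).f ≫ φ.τ₂ := by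
    rw [IsIso.eq_inv_comp]
    exact φ.comm₁₂
  rw [hf]
  have := ih.1
  infer_instance

/-- Inflation–restriction in degree `n + 1`: if `Hⁱ(S, A) = 0` for `1 ≤ i ≤ n`, then
`0 ⟶ Hⁿ⁺¹(G ⧸ S, A^S) ⟶ Hⁿ⁺¹(G, A) ⟶ Hⁿ⁺¹(S, A)` is exact. -/
theorem infResSC_mono_and_exact (n : ℕ) : ∀ (A : Rep k G),
    (∀ i, i < n → IsZero (groupCohomology (res S.subtype A) (i + 1))) →
    Mono (infResSC A S n).f ∧ (infResSC A S n).Exact := by
  induction n with
  | zero =>
    intro A _
    exact ⟨inferInstanceAs (Mono (H1InfRes A S).f), H1InfRes_exact A S⟩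
  | succ n ih =>
    intro A hA
    have hX := upSC_shortExact A
    have hXS : ((upSC A).map (resFunctor S.subtype)).ShortExact :=
      (shortExact_res S.subtype).2 hX
    refine infRes_step S hX n (isZero_groupCohomology_funRep k G A.V)
      (isZero_groupCohomology_res_funRep k A.V S)
      (isZero_groupCohomology_invariants_funRep k A.V S) (hA 0 (Nat.succ_pos n))
      (ih (upSC A).X₃ fun i hi => ?_)
    have : IsIso (δ hXS (i + 1) (i + 2) rfl) :=
      isIso_δ_of_isZero hXS (i + 1) (isZero_groupCohomology_res_funRep k A.V S i)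
        (isZero_groupCohomology_res_funRep k A.V S (i + 1))
    exact IsZero.of_iso (hA (i + 1) (Nat.succ_lt_succ hi))
      (@asIso _ _ _ _ (δ hXS (i + 1) (i + 2) rfl) this)

/-- Inflation `Hⁿ(G ⧸ S, A^S) ⟶ Hⁿ(G, A)`. -/
noncomputable abbrev inflation (n : ℕ) :
    groupCohomology (A.quotientToInvariants S) n ⟶ groupCohomology A n :=
  map (QuotientGroup.mk' S) (ofHom <| A.ρ.quotientToInvariants_lift S) n

/-- Restriction `Hⁿ(G, A) ⟶ Hⁿ(S, A)`. -/
noncomputable abbrev restriction (S : Subgroup G) (n : ℕ) :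
    groupCohomology A n ⟶ groupCohomology (res S.subtype A) n :=
  map S.subtype (𝟙 (res S.subtype A)) n

variable {A S}

/-- Inflation in degree `n + 1` is a monomorphism if `Hⁱ(S, A) = 0` for `1 ≤ i ≤ n`. -/
theorem infResSC_mono (n : ℕ)
    (hA : ∀ i, i < n → IsZero (groupCohomology (res S.subtype A) (i + 1))) :
    Mono (infResSC A S n).f :=
  (infResSC_mono_and_exact S n A hA).1

/-- The inflation–restriction sequence in degree `n + 1` is exact if `Hⁱ(S, A) = 0` for
`1 ≤ i ≤ n`. -/
theorem infResSC_exact (n : ℕ)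
    (hA : ∀ i, i < n → IsZero (groupCohomology (res S.subtype A) (i + 1))) :
    (infResSC A S n).Exact :=
  (infResSC_mono_and_exact S n A hA).2

/-- Inflation in degree `n ≥ 1` is injective if `Hⁱ(S, A) = 0` for `1 ≤ i < n`. -/
theorem inflation_injective {n : ℕ} (hn : 1 ≤ n)
    (hA : ∀ i, 1 ≤ i → i < n → IsZero (groupCohomology (res S.subtype A) i)) :
    Function.Injective (inflation A S n) := by
  obtain ⟨m, rfl⟩ : ∃ m, n = m + 1 := ⟨n - 1, by omega⟩
  have := infResSC_mono (A := A) (S := S) m fun i hi => hA (i + 1) (by omega) (by omega)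
  exact (ModuleCat.mono_iff_injective (infResSC A S m).f).1 this

/-- In degree `n ≥ 1`, a class whose restriction to `S` vanishes is inflated from `G ⧸ S`,
provided `Hⁱ(S, A) = 0` for `1 ≤ i < n`. -/
theorem exists_inflation_eq_of_restriction_eq_zero {n : ℕ} (hn : 1 ≤ n)
    (hA : ∀ i, 1 ≤ i → i < n → IsZero (groupCohomology (res S.subtype A) i))
    (x : groupCohomology A n) (hx : restriction A S n x = 0) :
    ∃ y, inflation A S n y = x := by
  obtain ⟨m, rfl⟩ : ∃ m, n = m + 1 := ⟨n - 1, by omega⟩
  have := infResSC_exact (A := A) (S := S) m fun i hi => hA (i + 1) (by omega) (by omega)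
  exact (ShortComplex.moduleCat_exact_iff _).1 this x hx

/-- Restriction after inflation is zero in positive degree. -/
theorem restriction_inflation {n : ℕ} (hn : 1 ≤ n)
    (y : groupCohomology (A.quotientToInvariants S) n) :
    restriction A S n (inflation A S n y) = 0 := by
  obtain ⟨m, rfl⟩ : ∃ m, n = m + 1 := ⟨n - 1, by omega⟩
  exact (infResSC A S m).moduleCat_zero_apply y

/-- The range of inflation is the kernel of restriction (degree `n ≥ 1`, assuming
`Hⁱ(S, A) = 0` for `1 ≤ i < n`). -/
theorem range_inflation_eq_ker_restriction {n : ℕ} (hn : 1 ≤ n)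
    (hA : ∀ i, 1 ≤ i → i < n → IsZero (groupCohomology (res S.subtype A) i)) :
    LinearMap.range (inflation A S n).hom = LinearMap.ker (restriction A S n).hom := by
  obtain ⟨m, rfl⟩ : ∃ m, n = m + 1 := ⟨n - 1, by omega⟩
  have := infResSC_exact (A := A) (S := S) m fun i hi => hA (i + 1) (by omega) (by omega)
  exact this.moduleCat_range_eq_ker

/-- If `Hⁱ(S, A) = 0` for all `i ≥ 1`, inflation is an isomorphism in every degree `n ≥ 1`. -/
theorem isIso_inflation (hA : ∀ i, 1 ≤ i → IsZero (groupCohomology (res S.subtype A) i))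
    {n : ℕ} (hn : 1 ≤ n) : IsIso (inflation A S n) := by
  obtain ⟨m, rfl⟩ : ∃ m, n = m + 1 := ⟨n - 1, by omega⟩
  have h1 : Mono (infResSC A S m).f :=
    infResSC_mono (A := A) (S := S) m fun i _ => hA (i + 1) (by omega)
  have h2 : (infResSC A S m).Exact :=
    infResSC_exact (A := A) (S := S) m fun i _ => hA (i + 1) (by omega)
  have h3 : Epi (infResSC A S m).f :=
    h2.epi_f ((hA (m + 1) (by omega)).eq_of_tgt _ _)
  exact isIso_of_mono_of_epi (infResSC A S m).f

/-- The inflation isomorphism `Hⁿ(G ⧸ S, A^S) ≅ Hⁿ(G, A)` for `n ≥ 1`, when `S` has trivial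
cohomology with coefficients in `A` in all positive degrees. -/
noncomputable def inflationIso
    (hA : ∀ i, 1 ≤ i → IsZero (groupCohomology (res S.subtype A) i)) {n : ℕ} (hn : 1 ≤ n) :
    groupCohomology (A.quotientToInvariants S) n ≅ groupCohomology A n :=
  @asIso _ _ _ _ (inflation A S n) (isIso_inflation hA hn)

@[simp] lemma inflationIso_hom
    (hA : ∀ i, 1 ≤ i → IsZero (groupCohomology (res S.subtype A) i)) {n : ℕ} (hn : 1 ≤ n) :
    (inflationIso hA hn).hom = inflation A S n := rfl

end InfRes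

/-! ### Dimension shifting isomorphisms -/

section Shift

variable {G : Type u} [Group G] (A : Rep k G)

/-- Dimension shifting: `Hⁿ⁺¹(G, Q) ≅ Hⁿ⁺²(G, A)` where `Q = Fun(G, A) / A`. -/
noncomputable def upIso (n : ℕ) :
    groupCohomology (upSC A).X₃ (n + 1) ≅ groupCohomology A (n + 2) :=
  @asIso _ _ _ _ (δ (upSC_shortExact A) (n + 1) (n + 2) rfl)
    (isIso_δ_of_isZero (upSC_shortExact A) (n + 1) (isZero_groupCohomology_funRep k G A.V n)
      (isZero_groupCohomology_funRep k G A.V (n + 1)))

/-- Dimension shifting for a subgroup: `Hⁿ⁺¹(S, Q) ≅ Hⁿ⁺²(S, A)` where `Q = Fun(G, A) / A`. -/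
noncomputable def upIsoRes (S : Subgroup G) (n : ℕ) :
    groupCohomology (res S.subtype (upSC A).X₃) (n + 1) ≅
      groupCohomology (res S.subtype A) (n + 2) :=
  @asIso _ _ _ _ (δ ((shortExact_res S.subtype).2 (upSC_shortExact A)) (n + 1) (n + 2) rfl)
    (isIso_δ_of_isZero ((shortExact_res S.subtype).2 (upSC_shortExact A)) (n + 1)
      (isZero_groupCohomology_res_funRep k A.V S n)
      (isZero_groupCohomology_res_funRep k A.V S (n + 1)))

end Shift

end Fermat.Agent.CFT.H85
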