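/-
helper85 — CFT layer A: adapters discharging the T1 hypotheses of `H28_CohTriv` and
`H49_CohTriv` from `H85_InfRes`.
-/
import Fermat.Agent.CFT.H85_InfRes
import Fermat.Agent.CFT.H28_CohTriv
import Fermat.Agent.CFT.H49_CohTriv

namespace Fermat.Agent.CFT.H85

open CategoryTheory Limits groupCohomology Rep

universe u

variable (k : Type u) [CommRing k]

/-- **T1** in the shape consumed by `H28_CohTriv`. -/
theorem infResHyp : H28.InfResHyp k := by
  intro G _ S _ A n hn hA
  have hA' : ∀ i, 1 ≤ i → i < n → IsZero (groupCohomology (res S.subtype A) i) :=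
    fun i h1 h2 => by
      have := hA i h1 h2
      exact ModuleCat.isZero_of_subsingleton _
  exact ⟨inflation_injective hn hA', fun x hx =>
    exists_inflation_eq_of_restriction_eq_zero hn hA' x hx⟩

/-- **T1** in the (weak) shape consumed by `H49_CohTriv`. -/
theorem infIsoHyp : H49.InfIsoHyp k := by
  intro H _ N _ B hB n hn
  have e := inflationIso (A := B) (S := N) hB hn
  exact ⟨fun h => h.of_iso e.symm, fun h => h.of_iso e⟩

end Fermat.Agent.CFT.H85
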