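import Fermat.Agent.CFT.H28_CohTrivFinal
import Fermat.Agent.CFT.H85_InfResAdapters

/-!
# CFT / layer A : Nakayama–Tate criterion, hypothesis-free

Author: helper28.  All three inputs of `H28_CohTriv` are now discharged:
T1 (`H85.infResHyp`, helper85), T2 (`H33.subsingleton_of_sylow`, helper33), dimension shifting
(`H68.shiftDown_exists` + `H95.isCohTrivial_coind₁`, helper68 + helper95).
-/

set_option autoImplicit false

namespace Fermat.Agent.CFT.H28

open CategoryTheory Rep

universe u

section Pos

variable {k G : Type u} [CommRing k] [Group G] [Finite G]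

/-- **Twin vanishing theorem, positive degrees** (no hypotheses): if `H^q(S,A) = H^{q+1}(S,A) = 0`
for all subgroups `S` of the finite group `G` and one `q ≥ 1`, then `H^n(S,A) = 0` for all
`n ≥ 1` and all subgroups `S`. -/
theorem isCohTrivPos_of_twin_closed (A : Rep k G) (q : ℕ) (hq : 1 ≤ q)
    (h : ∀ S : Subgroup G, Subsingleton (groupCohomology (res S.subtype A) q) ∧
      Subsingleton (groupCohomology (res S.subtype A) (q + 1))) : IsCohTrivPos A :=
  isCohTrivPos_of_twin (H85.infResHyp k) (sylowHyp k) A q hq h

/-- transport-friendly form -/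
theorem subsingleton_of_twinVanish_closed (A : Rep k G) (q : ℕ) (hq : 1 ≤ q)
    (hA : TwinVanish A q) (n : ℕ) (hn : 1 ≤ n) : Subsingleton (groupCohomology A n) :=
  subsingleton_of_twinVanish (H85.infResHyp k) (sylowHyp k) A q hq hA n hn

end Pos

section Tate

variable {k : Type} [CommRing k] {G : Type} [Group G] [Fintype G]

/-- **Nakayama–Tate criterion** (no hypotheses), vocabulary of `A_Defs`: if
`Ĥ¹(H, A) = Ĥ²(H, A) = 0` for every subgroup `H`, then `A` is cohomologically trivial. -/
theorem isCohTrivial_of_H1_H2_closed (A : Rep.{0} k G)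
    (h : ∀ (H : Type) [Group H] [Fintype H] (f : H →* G), Function.Injective f →
      Limits.IsZero (tateCohomology (Rep.res f A) 1) ∧
        Limits.IsZero (tateCohomology (Rep.res f A) 2)) :
    Fermat.Agent.CFT.A.IsCohTrivial A :=
  isCohTrivial_of_H1_H2 (H85.infResHyp k) A h

/-- Positive-degree version in the vocabulary of `A_Defs`. -/
theorem isCohTrivPos_of_H1_H2_closed (A : Rep.{0} k G)
    (h : ∀ S : Subgroup G, Subsingleton (groupCohomology (res S.subtype A) 1) ∧
      Subsingleton (groupCohomology (res S.subtype A) 2)) :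
    Fermat.Agent.CFT.A.IsCohTrivPos A :=
  isCohTrivPos_of_twin' (H85.infResHyp k) A 1 le_rfl h

end Tate

end Fermat.Agent.CFT.H28
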