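import Mathlib

set_option autoImplicit false
set_option linter.unusedSectionVars false

/-!
# Transfer via Shapiro's lemma: the index kills cohomology that vanishes on a subgroup

For a subgroup `S ≤ G` of finite index and `A : Rep k G` we construct the unit
`A ⟶ coind (res A)` and the norm `coind (res A) ⟶ A`, whose composite is multiplication by the
index.  Combined with Shapiro's lemma this gives: if `Hⁿ(S, A) = 0` then `[G : S]` kills
`Hⁿ(G, A)`; hence the Sylow criterion for the vanishing of `Hⁿ(G, A)`.
-/

namespace Fermat.Agent.CFT.H33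

open CategoryTheory Rep Representation

universe u

variable {k G : Type u} [CommRing k] [Group G] (S : Subgroup G) (A : Rep.{u} k G)

/-- the unit of the restriction-coinduction adjunction: `a ↦ (g ↦ g • a)` -/
noncomputable def unitCoind : A ⟶ coind S.subtype (res S.subtype A) :=
  resCoindToHom S.subtype A (res S.subtype A) (𝟙 _)

theorem unitCoind_apply (a : A.V) (g : G) :
    ((unitCoind S A).hom a).1 g = A.ρ g a := rfl

variable [S.FiniteIndex]

attribute [local instance] Fintype.ofFinite in
/-- one term of the norm: `g • f g⁻¹`, which only depends on the left coset of `g` -/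
noncomputable def normTerm (f : coindV S.subtype (res S.subtype A).ρ) (q : G ⧸ S) : A.V :=
  Quotient.liftOn' q (fun g => A.ρ g (f.1 g⁻¹)) (by
    intro g g' hgg'
    have hs : g⁻¹ * g' ∈ S := QuotientGroup.leftRel_apply.1 hgg'
    have h1 := f.2 ⟨(g⁻¹ * g')⁻¹, S.inv_mem hs⟩ g⁻¹
    have h2 : (S.subtype ⟨(g⁻¹ * g')⁻¹, S.inv_mem hs⟩) * g⁻¹ = g'⁻¹ := by
      simp [mul_inv_rev]
    rw [h2] at h1
    simp only
    rw [h1]
    change A.ρ g (f.1 g⁻¹) = A.ρ g' (A.ρ ((g⁻¹ * g')⁻¹) (f.1 g⁻¹))
    rw [← Module.End.mul_apply, ← map_mul]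
    congr 2
    group)

theorem normTerm_mk (f : coindV S.subtype (res S.subtype A).ρ) (g : G) :
    normTerm S A f (g : G ⧸ S) = A.ρ g (f.1 g⁻¹) := rfl

theorem normTerm_add (f f' : coindV S.subtype (res S.subtype A).ρ) (q : G ⧸ S) :
    normTerm S A (f + f') q = normTerm S A f q + normTerm S A f' q := by
  induction q using Quotient.inductionOn' with
  | h g =>
    change normTerm S A (f + f') (g : G ⧸ S) = normTerm S A f (g : G ⧸ S) + normTerm S A f' (g : G ⧸ S)
    simp only [normTerm_mk]
    rw [show (f + f').1 g⁻¹ = f.1 g⁻¹ + f'.1 g⁻¹ from rfl, map_add]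

theorem normTerm_smul (c : k) (f : coindV S.subtype (res S.subtype A).ρ) (q : G ⧸ S) :
    normTerm S A (c • f) q = c • normTerm S A f q := by
  induction q using Quotient.inductionOn' with
  | h g =>
    change normTerm S A (c • f) (g : G ⧸ S) = c • normTerm S A f (g : G ⧸ S)
    simp only [normTerm_mk]
    rw [show (c • f).1 g⁻¹ = c • f.1 g⁻¹ from rfl, map_smul]

/-- translation of the argument -/
theorem normTerm_coind (h : G) (f : coindV S.subtype (res S.subtype A).ρ) (q : G ⧸ S) :
    normTerm S A (Representation.coind S.subtype (res S.subtype A).ρ h f) q =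
      A.ρ h (normTerm S A f (h⁻¹ • q)) := by
  induction q using Quotient.inductionOn' with
  | h g =>
    change normTerm S A _ (g : G ⧸ S) = A.ρ h (normTerm S A f (h⁻¹ • (g : G ⧸ S)))
    rw [show h⁻¹ • (g : G ⧸ S) = ((h⁻¹ * g : G) : G ⧸ S) from rfl, normTerm_mk, normTerm_mk]
    rw [← Module.End.mul_apply, ← map_mul, mul_inv_cancel_left, mul_inv_rev, inv_inv]
    rfl

attribute [local instance] Fintype.ofFinite in
/-- the norm as a linear map -/
noncomputable def normLin : coindV S.subtype (res S.subtype A).ρ →ₗ[k] A.V where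
  toFun f := ∑ q : G ⧸ S, normTerm S A f q
  map_add' f f' :=
    (Finset.sum_congr rfl fun q _ => normTerm_add S A f f' q).trans Finset.sum_add_distrib
  map_smul' c f :=
    (Finset.sum_congr rfl fun q _ => normTerm_smul S A c f q).trans Finset.smul_sum.symm

attribute [local instance] Fintype.ofFinite in
theorem normLin_apply (f : coindV S.subtype (res S.subtype A).ρ) :
    normLin S A f = ∑ q : G ⧸ S, normTerm S A f q := rfl

attribute [local instance] Fintype.ofFinite in
theorem normLin_coind (h : G) (f : coindV S.subtype (res S.subtype A).ρ) :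
    normLin S A (Representation.coind S.subtype (res S.subtype A).ρ h f) =
      A.ρ h (normLin S A f) := by
  rw [normLin_apply, normLin_apply, map_sum]
  exact Fintype.sum_equiv (MulAction.toPerm h⁻¹) _ _ (fun q => normTerm_coind S A h f q)

/-- the norm `coind (res A) ⟶ A`, `f ↦ ∑_{g ∈ G/S} g • f g⁻¹` -/
noncomputable def normCoind : coind S.subtype (res S.subtype A) ⟶ A :=
  Rep.ofHom ⟨normLin S A, fun h => by
    ext f
    exact normLin_coind S A h f⟩

theorem normCoind_apply (f : coindV S.subtype (res S.subtype A).ρ) :
    (normCoind S A).hom f = normLin S A f := rfl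

attribute [local instance] Fintype.ofFinite in
theorem normCoind_unitCoind (a : A.V) :
    (normCoind S A).hom ((unitCoind S A).hom a) = S.index • a := by
  rw [normCoind_apply, normLin_apply]
  have : ∀ q : G ⧸ S, normTerm S A ((unitCoind S A).hom a) q = a := by
    intro q
    induction q using Quotient.inductionOn' with
    | h g =>
      change normTerm S A _ (g : G ⧸ S) = a
      rw [normTerm_mk, unitCoind_apply, ← Module.End.mul_apply, ← map_mul, mul_inv_cancel,
        map_one, Module.End.one_apply]
  simp only [this, Finset.sum_const, Finset.card_univ]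
  congr 1
  rw [Subgroup.index, Nat.card_eq_fintype_card]

theorem unitCoind_comp_normCoind : unitCoind S A ≫ normCoind S A = S.index • 𝟙 A := by
  apply Rep.hom_ext
  ext a
  rw [Rep.nsmul_hom]
  exact normCoind_unitCoind S A a

/-! ## Consequences for cohomology -/

open groupCohomology

omit [S.FiniteIndex] in
theorem functor_map_add (n : ℕ) {X Y : Rep.{u} k G} (f g : X ⟶ Y) :
    (groupCohomology.functor k G n).map (f + g) =
      (groupCohomology.functor k G n).map f + (groupCohomology.functor k G n).map g := by
  have h : cochainsMap (MonoidHom.id G) (f + g) =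
      cochainsMap (MonoidHom.id G) f + cochainsMap (MonoidHom.id G) g :=
    (cochainsFunctor k G).map_add
  change HomologicalComplex.homologyMap (cochainsMap (MonoidHom.id G) (f + g)) n = _
  rw [h, HomologicalComplex.homologyMap_add]
  rfl

instance functor_additive (n : ℕ) : (groupCohomology.functor k G n).Additive where
  map_add {_ _ f g} := functor_map_add n f g

/-- restriction followed by corestriction is multiplication by the index, in the form:
`Hⁿ(unit)` followed by `Hⁿ(norm)` -/
theorem map_unit_comp_map_norm (n : ℕ) :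
    (groupCohomology.functor k G n).map (unitCoind S A) ≫
      (groupCohomology.functor k G n).map (normCoind S A) = S.index • 𝟙 _ := by
  rw [← Functor.map_comp, unitCoind_comp_normCoind, Functor.map_nsmul, CategoryTheory.Functor.map_id]

/-- the same statement in terms of `groupCohomology.map` -/
theorem map_unit_comp_map_norm' (n : ℕ) :
    groupCohomology.map (MonoidHom.id G) (unitCoind S A) n ≫
      groupCohomology.map (MonoidHom.id G) (normCoind S A) n =
        S.index • 𝟙 (groupCohomology A n) :=
  map_unit_comp_map_norm S A n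

/-- **The index kills cohomology which vanishes on the subgroup.** -/
theorem index_nsmul_eq_zero (n : ℕ)
    (h : Subsingleton (groupCohomology (res S.subtype A) n)) (x : groupCohomology A n) :
    S.index • x = 0 := by
  have hsub : Subsingleton (groupCohomology (coind S.subtype (res S.subtype A)) n) :=
    (groupCohomology.coindIso (res S.subtype A) n).toLinearEquiv.toEquiv.subsingleton
  have h1 := congrArg (fun φ => φ.hom x) (map_unit_comp_map_norm' S A n)
  have h2 : (groupCohomology.map (MonoidHom.id G) (unitCoind S A) n).hom x = 0 :=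
    Subsingleton.elim _ _
  simp only [ModuleCat.hom_comp] at h1
  rw [LinearMap.comp_apply, h2, map_zero] at h1
  have h3 : (ModuleCat.Hom.hom (S.index • 𝟙 (groupCohomology A n))) x = S.index • x := by
    simp
  rw [← h3, ← h1]

omit [S.FiniteIndex] in
/-- **Sylow criterion**: `Hⁿ(G, A)` vanishes as soon as it vanishes on one Sylow `p`-subgroup
for every prime `p`. -/
theorem subsingleton_of_sylow [Finite G] (n : ℕ)
    (h : ∀ p : ℕ, p.Prime → ∃ P : Sylow p G,
      Subsingleton (groupCohomology (res (P : Subgroup G).subtype A) n)) :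
    Subsingleton (groupCohomology A n) := by
  refine ⟨fun x y => ?_⟩
  suffices hz : ∀ z : groupCohomology A n, z = 0 by rw [hz x, hz y]
  intro z
  have hdvd : ∀ p : ℕ, p.Prime → ∃ P : Sylow p G, addOrderOf z ∣ (P : Subgroup G).index := by
    intro p hp
    obtain ⟨P, hP⟩ := h p hp
    exact ⟨P, addOrderOf_dvd_of_nsmul_eq_zero (index_nsmul_eq_zero (P : Subgroup G) A n hP z)⟩
  have h1 : addOrderOf z = 1 := by
    by_contra hne
    obtain ⟨p, hp, hpz⟩ := Nat.exists_prime_and_dvd hne
    obtain ⟨P, hP⟩ := hdvd p hp
    have : Fact p.Prime := ⟨hp⟩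
    exact P.not_dvd_index (hpz.trans hP)
  exact AddMonoid.addOrderOf_eq_one_iff.1 h1

omit [S.FiniteIndex] in
/-- the `p`-primary version: a class killed by a power of `p` which dies on a Sylow
`p`-subgroup... is handled through `index_nsmul_eq_zero`; here: if `Hⁿ` of a Sylow
`p`-subgroup vanishes, then `Hⁿ(G, A)` has no `p`-torsion. -/
theorem eq_zero_of_pow_nsmul_of_sylow [Finite G] (n : ℕ) {p : ℕ} [Fact p.Prime] (P : Sylow p G)
    (hP : Subsingleton (groupCohomology (res (P : Subgroup G).subtype A) n))
    (z : groupCohomology A n) (m : ℕ) (hz : p ^ m • z = 0) : z = 0 := by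
  have h1 : addOrderOf z ∣ p ^ m := addOrderOf_dvd_of_nsmul_eq_zero hz
  have h2 : addOrderOf z ∣ (P : Subgroup G).index :=
    addOrderOf_dvd_of_nsmul_eq_zero (index_nsmul_eq_zero (P : Subgroup G) A n hP z)
  have hcop : Nat.Coprime (p ^ m) (P : Subgroup G).index :=
    Nat.Coprime.pow_left m ((Nat.Prime.coprime_iff_not_dvd Fact.out).2 P.not_dvd_index)
  have h3 : addOrderOf z = 1 := Nat.eq_one_of_dvd_coprimes hcop h1 h2
  exact AddMonoid.addOrderOf_eq_one_iff.1 h3

omit [S.FiniteIndex] in
/-- the order of a finite group kills its higher cohomology -/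
theorem card_nsmul_eq_zero [Finite G] (n : ℕ) (x : groupCohomology A (n + 1)) :
    Nat.card G • x = 0 := by
  have h0 : Subsingleton (groupCohomology (res (⊥ : Subgroup G).subtype A) (n + 1)) :=
    (ModuleCat.isZero_iff_subsingleton.1
      (isZero_groupCohomology_succ_of_subsingleton (res (⊥ : Subgroup G).subtype A) n))
  have := index_nsmul_eq_zero (⊥ : Subgroup G) A (n + 1) h0 x
  rwa [Subgroup.index_bot] at this

/-! ## Restriction and corestriction through Shapiro's lemma -/

/-- restriction `Hⁿ(G, A) ⟶ Hⁿ(S, A)`, defined as `Hⁿ(unit)` followed by Shapiro's isomorphism -/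
noncomputable def resS (n : ℕ) : groupCohomology A n ⟶ groupCohomology (res S.subtype A) n :=
  groupCohomology.map (MonoidHom.id G) (unitCoind S A) n ≫
    (groupCohomology.coindIso (res S.subtype A) n).hom

/-- corestriction `Hⁿ(S, A) ⟶ Hⁿ(G, A)`, defined as the inverse of Shapiro's isomorphism followed
by `Hⁿ(norm)` -/
noncomputable def corS (n : ℕ) : groupCohomology (res S.subtype A) n ⟶ groupCohomology A n :=
  (groupCohomology.coindIso (res S.subtype A) n).inv ≫
    groupCohomology.map (MonoidHom.id G) (normCoind S A) n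

theorem resS_comp_corS (n : ℕ) : resS S A n ≫ corS S A n = S.index • 𝟙 (groupCohomology A n) := by
  rw [resS, corS, Category.assoc, Iso.hom_inv_id_assoc]
  exact map_unit_comp_map_norm' S A n

theorem corS_resS_apply (n : ℕ) (x : groupCohomology A n) :
    (corS S A n).hom ((resS S A n).hom x) = S.index • x := by
  have h1 := congrArg (fun φ => φ.hom x) (resS_comp_corS S A n)
  simp only [ModuleCat.hom_comp] at h1
  rw [LinearMap.comp_apply] at h1
  rw [h1]
  simp

omit [S.FiniteIndex] in
/-- restriction to a Sylow `p`-subgroup is injective on `p`-power torsion -/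
theorem eq_zero_of_resS_eq_zero [Finite G] (n : ℕ) {p : ℕ} [Fact p.Prime] (P : Sylow p G)
    (z : groupCohomology A n) (m : ℕ) (hz : p ^ m • z = 0)
    (hres : (resS (P : Subgroup G) A n).hom z = 0) : z = 0 := by
  have h1 : addOrderOf z ∣ p ^ m := addOrderOf_dvd_of_nsmul_eq_zero hz
  have h2 : addOrderOf z ∣ (P : Subgroup G).index := by
    apply addOrderOf_dvd_of_nsmul_eq_zero
    rw [← corS_resS_apply, hres, map_zero]
  have hcop : Nat.Coprime (p ^ m) (P : Subgroup G).index :=
    Nat.Coprime.pow_left m ((Nat.Prime.coprime_iff_not_dvd Fact.out).2 P.not_dvd_index)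
  exact AddMonoid.addOrderOf_eq_one_iff.1 (Nat.eq_one_of_dvd_coprimes hcop h1 h2)

end Fermat.Agent.CFT.H33
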