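import Mathlib

/-!
# CFT / Layer A : shared definitions (finite-group cohomology toolkit)

Vocabulary used by all Layer A packages.  Everything is for `A : Rep.{0} k G`, `k` a commutative ring,
`G` a finite group, `k G : Type`.  Consumers use `k = ℤ`.

* `H0hat A = A^G / N_G A`  (the Tate group `Ĥ⁰`), `Hm1hat A = ker N_G / I_G A` (`Ĥ⁻¹`);
* `coind₁ A = Fun(G, A)` with `(g • φ) x = φ (x * g)`, `coind₁ι : A ⟶ coind₁ A`,
  `ind₁π : coind₁ A ⟶ A`, `up A`, `down A` (dimension shifting);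
* `IsCohTrivPos A` (all `Hⁿ(S, A)`, `n ≥ 1`, `S ≤ G`, vanish), `IsCohTrivial A` (all Tate groups).
-/

set_option autoImplicit false

noncomputable section

open CategoryTheory CategoryTheory.Limits

namespace Fermat.Agent.CFT.A

variable {k : Type} [CommRing k] {G : Type} [Group G]

/-! ### Cohomological triviality -/

/-- `A` is cohomologically trivial in positive degrees: `Hⁿ(S, A) = 0` for all subgroups `S`
and all `n ≥ 1`. -/
def IsCohTrivPos (A : Rep.{0} k G) : Prop :=
  ∀ (S : Subgroup G) (n : ℕ), 1 ≤ n → Subsingleton (groupCohomology (Rep.res S.subtype A) n)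

/-- `A` is cohomologically trivial: all Tate groups of all subgroups vanish.  Subgroups are
given as injective homomorphisms `H →* G` from a finite group. -/
def IsCohTrivial [Fintype G] (A : Rep.{0} k G) : Prop :=
  ∀ (H : Type) [Group H] [Fintype H] (f : H →* G), Function.Injective f →
    ∀ n : ℤ, IsZero (tateCohomology (Rep.res f A) n)

/-! ### The coinduced module `Fun(G, A)` -/

/-- The coinduced module `Fun(G, A)` with `(g • φ) x = φ (x * g)`. -/
def coind₁ (A : Rep.{0} k G) : Rep.{0} k G :=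
  Rep.of (k := k) (G := G) (X := G → A.V)
    { toFun := fun g => LinearMap.funLeft k A.V (fun x => x * g)
      map_one' := by ext φ x; simp [LinearMap.funLeft]
      map_mul' := fun g h => by ext φ x; simp [LinearMap.funLeft, mul_assoc] }

@[simp] lemma coind₁_ρ_apply (A : Rep.{0} k G) (g : G) (φ : G → A.V) (x : G) :
    (coind₁ A).ρ g φ x = φ (x * g) := rfl

/-- The canonical embedding `A → coind₁ A`, `a ↦ (x ↦ ρ x a)`. -/
def coind₁ι (A : Rep.{0} k G) : A ⟶ coind₁ A :=
  Rep.ofHom (ρ := A.ρ) (σ := (coind₁ A).ρ)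
    ⟨LinearMap.pi fun x => A.ρ x, fun g => by
      ext a
      funext x
      show A.ρ x (A.ρ g a) = A.ρ (x * g) a
      rw [map_mul]; rfl⟩

lemma coind₁ι_apply (A : Rep.{0} k G) (a : A.V) (x : G) : (coind₁ι A).hom a x = A.ρ x a := rfl

variable [Fintype G]

/-- The `k`-linear map underlying `ind₁π`. -/
def ind₁πLin (A : Rep.{0} k G) : (G → A.V) →ₗ[k] A.V where
  toFun φ := ∑ x : G, A.ρ x⁻¹ (φ x)
  map_add' φ ψ := by simp [Finset.sum_add_distrib]
  map_smul' c φ := by simp [Finset.smul_sum]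

/-- The augmentation `coind₁ A → A`, `φ ↦ ∑ x, ρ x⁻¹ (φ x)`. -/
def ind₁π (A : Rep.{0} k G) : coind₁ A ⟶ A :=
  Rep.ofHom (ρ := (coind₁ A).ρ) (σ := A.ρ)
    ⟨ind₁πLin A, fun g => by
      ext φ
      show ∑ x : G, A.ρ x⁻¹ (φ (x * g)) = A.ρ g (∑ x : G, A.ρ x⁻¹ (φ x))
      rw [map_sum, ← Equiv.sum_comp (Equiv.mulRight g) (fun x => A.ρ g (A.ρ x⁻¹ (φ x)))]
      refine Finset.sum_congr rfl fun x _ => ?_
      simp only [Equiv.coe_mulRight, mul_inv_rev]
      rw [← Module.End.mul_apply, ← map_mul, mul_inv_cancel_left]⟩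

lemma ind₁π_apply (A : Rep.{0} k G) (φ : G → A.V) :
    (ind₁π A).hom φ = ∑ x : G, A.ρ x⁻¹ (φ x) := rfl

/-- dimension shifting up: `up A = coker (A → coind₁ A)`. -/
def up (A : Rep.{0} k G) : Rep.{0} k G := cokernel (coind₁ι A)

/-- dimension shifting down: `down A = ker (coind₁ A → A)`. -/
def down (A : Rep.{0} k G) : Rep.{0} k G := kernel (ind₁π A)

/-! ### Elementary Tate groups in degrees `0` and `-1` -/

/-- the image of the norm inside the invariants -/
def normInv (A : Rep.{0} k G) : Submodule k A.ρ.invariants :=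
  (LinearMap.range A.ρ.norm).comap A.ρ.invariants.subtype

/-- the model `A^G / N_G A` of `Ĥ⁰(G, A)` (a def, so that it elaborates for `k = ℤ`). -/
def H0hat (A : Rep.{0} k G) : Type := A.ρ.invariants ⧸ normInv A

instance (A : Rep.{0} k G) : AddCommGroup (H0hat A) :=
  inferInstanceAs (AddCommGroup (A.ρ.invariants ⧸ normInv A))

instance (A : Rep.{0} k G) : Module k (H0hat A) :=
  inferInstanceAs (Module k (A.ρ.invariants ⧸ normInv A))

/-- the projection `A^G → A^G / N_G A` -/
def H0hat.mk (A : Rep.{0} k G) : A.ρ.invariants →ₗ[k] H0hat A := Submodule.mkQ _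

lemma H0hat.mk_surjective (A : Rep.{0} k G) : Function.Surjective (H0hat.mk A) :=
  Submodule.mkQ_surjective _

lemma H0hat.mk_eq_zero_iff (A : Rep.{0} k G) (a : A.ρ.invariants) :
    H0hat.mk A a = 0 ↔ ∃ b : A.V, A.ρ.norm b = a.1 := by
  show (Submodule.Quotient.mk a : A.ρ.invariants ⧸ normInv A) = 0 ↔ _
  rw [Submodule.Quotient.mk_eq_zero]
  simp [normInv]

/-- `I_G A` inside `ker N_G` -/
def augInKer (A : Rep.{0} k G) : Submodule k (LinearMap.ker A.ρ.norm) :=
  (Representation.Coinvariants.ker A.ρ).comap (LinearMap.ker A.ρ.norm).subtype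

/-- the model `ker N_G / I_G A` of `Ĥ⁻¹(G, A)`. -/
def Hm1hat (A : Rep.{0} k G) : Type := LinearMap.ker A.ρ.norm ⧸ augInKer A

instance (A : Rep.{0} k G) : AddCommGroup (Hm1hat A) :=
  inferInstanceAs (AddCommGroup (LinearMap.ker A.ρ.norm ⧸ augInKer A))

instance (A : Rep.{0} k G) : Module k (Hm1hat A) :=
  inferInstanceAs (Module k (LinearMap.ker A.ρ.norm ⧸ augInKer A))

/-- the projection `ker N_G → ker N_G / I_G A` -/
def Hm1hat.mk (A : Rep.{0} k G) : LinearMap.ker A.ρ.norm →ₗ[k] Hm1hat A := Submodule.mkQ _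

lemma Hm1hat.mk_surjective (A : Rep.{0} k G) : Function.Surjective (Hm1hat.mk A) :=
  Submodule.mkQ_surjective _

lemma Hm1hat.mk_eq_zero_iff (A : Rep.{0} k G) (a : LinearMap.ker A.ρ.norm) :
    Hm1hat.mk A a = 0 ↔ a.1 ∈ Representation.Coinvariants.ker A.ρ := by
  show (Submodule.Quotient.mk a : LinearMap.ker A.ρ.norm ⧸ augInKer A) = 0 ↔ _
  rw [Submodule.Quotient.mk_eq_zero]
  simp [augInKer]

end Fermat.Agent.CFT.A

end
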