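import Mathlib
import Fermat.Agent.CFT.A_Defs

/-!
# CFT / Layer A : dimension shifting (package A-Shift)

For `A : Rep.{0} k G`, `G` finite: the two short exact sequences
`0 → A → coind₁ A → up A → 0` and `0 → down A → coind₁ A → A → 0`, their restrictions to
subgroups, and the resulting shifting isomorphisms in Tate cohomology
`Ĥⁿ(H, up A) ≅ Ĥⁿ⁺¹(H, A)`, `Ĥⁿ(H, down A) ≅ Ĥⁿ⁻¹(H, A)`, given that `coind₁ A` is
cohomologically trivial (package A-Acyclic; taken as a hypothesis `hA`).
-/

set_option autoImplicit false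
set_option linter.unusedSectionVars false

noncomputable section

open CategoryTheory CategoryTheory.Limits

namespace Fermat.Agent.CFT.H68

open Fermat.Agent.CFT.A

variable {k : Type} [CommRing k] {G : Type} [Group G] [Fintype G]

theorem coind₁ι_mono (A : Rep.{0} k G) : Mono (coind₁ι A) := by
  rw [Rep.mono_iff_injective]
  intro a b h
  have := congrFun h 1
  simpa [coind₁ι_apply] using this

theorem ind₁π_epi (A : Rep.{0} k G) : Epi (ind₁π A) := by
  classical
  rw [Rep.epi_iff_surjective]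
  intro a
  refine ⟨(Pi.single 1 a : G → A.V), ?_⟩
  rw [ind₁π_apply, Finset.sum_eq_single 1]
  · simp
  · intro x _ hx
    simp [Pi.single_eq_of_ne hx]
  · simp

/-- `0 → A → coind₁ A → up A → 0`. -/
def upSC (A : Rep.{0} k G) : ShortComplex (Rep.{0} k G) :=
  ShortComplex.mk (coind₁ι A) (cokernel.π (coind₁ι A)) (cokernel.condition _)

lemma upSC_shortExact (A : Rep.{0} k G) : (upSC A).ShortExact :=
  { exact := ShortComplex.exact_cokernel _
    mono_f := coind₁ι_mono A
    epi_g := by dsimp [upSC]; infer_instance }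

/-- `0 → down A → coind₁ A → A → 0`. -/
def downSC (A : Rep.{0} k G) : ShortComplex (Rep.{0} k G) :=
  ShortComplex.mk (kernel.ι (ind₁π A)) (ind₁π A) (kernel.condition _)

lemma downSC_shortExact (A : Rep.{0} k G) : (downSC A).ShortExact :=
  { exact := ShortComplex.exact_kernel _
    mono_f := by dsimp [downSC]; infer_instance
    epi_g := ind₁π_epi A }

section res

variable {H : Type} [Group H] [Fintype H] (f : H →* G)

lemma upSC_res_shortExact (A : Rep.{0} k G) :
    ((upSC A).map (Rep.resFunctor f)).ShortExact :=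
  (Rep.shortExact_res f).2 (upSC_shortExact A)

lemma downSC_res_shortExact (A : Rep.{0} k G) :
    ((downSC A).map (Rep.resFunctor f)).ShortExact :=
  (Rep.shortExact_res f).2 (downSC_shortExact A)

/-- The connecting map `Ĥⁱ(H, up A) ⟶ Ĥʲ(H, A)`, `i + 1 = j`. -/
def upδ (A : Rep.{0} k G) (i j : ℤ) (hij : i + 1 = j) :
    tateCohomology (Rep.res f (up A)) i ⟶ tateCohomology (Rep.res f A) j :=
  (TateCohomology.map_tateComplexFunctor_shortExact (upSC_res_shortExact f A)).δ i j hij

/-- The connecting map `Ĥʲ(H, A) ⟶ Ĥⁱ(H, down A)`, `j + 1 = i`. -/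
def downδ (A : Rep.{0} k G) (i j : ℤ) (hij : j + 1 = i) :
    tateCohomology (Rep.res f A) j ⟶ tateCohomology (Rep.res f (down A)) i :=
  (TateCohomology.map_tateComplexFunctor_shortExact (downSC_res_shortExact f A)).δ j i hij

/-- general index form of `upIso`: `Ĥⁱ(H, up A) ≅ Ĥʲ(H, A)` for `i + 1 = j`. -/
def upIso' (A : Rep.{0} k G) (hA : IsCohTrivial (coind₁ A))
    (hf : Function.Injective f) (i j : ℤ) (hij : i + 1 = j) :
    tateCohomology (Rep.res f (up A)) i ≅ tateCohomology (Rep.res f A) j :=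
  (TateCohomology.map_tateComplexFunctor_shortExact (upSC_res_shortExact f A)).δIso i j hij
    (hA H f hf i) (hA H f hf j)

@[simp] lemma upIso'_hom (A : Rep.{0} k G) (hA : IsCohTrivial (coind₁ A))
    (hf : Function.Injective f) (i j : ℤ) (hij : i + 1 = j) :
    (upIso' f A hA hf i j hij).hom = upδ f A i j hij := rfl

/-- `Ĥⁿ(H, up A) ≅ Ĥⁿ⁺¹(H, A)` for every subgroup `H`. -/
def upIso (A : Rep.{0} k G) (hA : IsCohTrivial (coind₁ A))
    (hf : Function.Injective f) (n : ℤ) :
    tateCohomology (Rep.res f (up A)) n ≅ tateCohomology (Rep.res f A) (n + 1) :=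
  upIso' f A hA hf n (n + 1) rfl

/-- general index form of `downIso`: `Ĥⁱ(H, down A) ≅ Ĥʲ(H, A)` for `j + 1 = i`. -/
def downIso' (A : Rep.{0} k G) (hA : IsCohTrivial (coind₁ A))
    (hf : Function.Injective f) (i j : ℤ) (hij : j + 1 = i) :
    tateCohomology (Rep.res f (down A)) i ≅ tateCohomology (Rep.res f A) j :=
  ((TateCohomology.map_tateComplexFunctor_shortExact (downSC_res_shortExact f A)).δIso j i hij
    (hA H f hf j) (hA H f hf i)).symm

@[simp] lemma downIso'_inv (A : Rep.{0} k G) (hA : IsCohTrivial (coind₁ A))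
    (hf : Function.Injective f) (i j : ℤ) (hij : j + 1 = i) :
    (downIso' f A hA hf i j hij).inv = downδ f A i j hij := rfl

/-- `Ĥⁿ(H, down A) ≅ Ĥⁿ⁻¹(H, A)` for every subgroup `H`. -/
def downIso (A : Rep.{0} k G) (hA : IsCohTrivial (coind₁ A))
    (hf : Function.Injective f) (n : ℤ) :
    tateCohomology (Rep.res f (down A)) n ≅ tateCohomology (Rep.res f A) (n - 1) :=
  downIso' f A hA hf n (n - 1) (by ring)

end res

theorem isCohTrivial_up_iff (A : Rep.{0} k G) (hA : IsCohTrivial (coind₁ A)) :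
    IsCohTrivial (up A) ↔ IsCohTrivial A := by
  constructor
  · intro h H _ _ f hf n
    exact (h H f hf (n - 1)).of_iso (upIso' f A hA hf (n - 1) n (by ring)).symm
  · intro h H _ _ f hf n
    exact (h H f hf (n + 1)).of_iso (upIso f A hA hf n)

theorem isCohTrivial_down_iff (A : Rep.{0} k G) (hA : IsCohTrivial (coind₁ A)) :
    IsCohTrivial (down A) ↔ IsCohTrivial A := by
  constructor
  · intro h H _ _ f hf n
    exact (h H f hf (n + 1)).of_iso (downIso' f A hA hf (n + 1) n rfl).symm
  · intro h H _ _ f hf n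
    exact (h H f hf (n - 1)).of_iso (downIso f A hA hf n)

/-- helper28's `ShiftDownHyp` shape: for every `A` there is `B` (namely `down A`) whose Tate
cohomology on every subgroup is that of `A` shifted by one. -/
theorem shiftDown_exists (hAcyc : ∀ A : Rep.{0} k G, IsCohTrivial (coind₁ A)) (A : Rep.{0} k G) :
    ∃ B : Rep.{0} k G, ∀ (H : Type) [Group H] [Fintype H] (f : H →* G), Function.Injective f →
      ∀ n : ℤ, Nonempty (tateCohomology (Rep.res f B) n ≅ tateCohomology (Rep.res f A) (n - 1)) :=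
  ⟨down A, fun _ _ _ f hf n => ⟨downIso f A (hAcyc A) hf n⟩⟩

/-- dual shape: `up A` shifts up. -/
theorem shiftUp_exists (hAcyc : ∀ A : Rep.{0} k G, IsCohTrivial (coind₁ A)) (A : Rep.{0} k G) :
    ∃ B : Rep.{0} k G, ∀ (H : Type) [Group H] [Fintype H] (f : H →* G), Function.Injective f →
      ∀ n : ℤ, Nonempty (tateCohomology (Rep.res f B) n ≅ tateCohomology (Rep.res f A) (n + 1)) :=
  ⟨up A, fun _ _ _ f hf n => ⟨upIso f A (hAcyc A) hf n⟩⟩

end Fermat.Agent.CFT.H68
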