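import Mathlib
import Fermat.Agent.CFT.A_Defs

/-!
# CFT / Layer A / package A-Acyclic : (co)induced modules are cohomologically trivial

Main results (namespace `Fermat.Agent.CFT.H95`), `k` any commutative ring, `G` a finite group:

* `isZero_tate_zero`, `isZero_tate_neg_one` : elementary criteria for the vanishing of
  `Ĥ⁰(G, M)` (every invariant is a norm) and `Ĥ⁻¹(G, M)` (norm zero implies `∈ I_G M`), read off
  Mathlib's Tate complex.
* `isZero_tate_zero_of_section`, `isZero_tate_neg_one_of_section` : if `id_M = N_G(s)` for a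
  `k`-linear `s : M → M` then `Ĥ⁰ = Ĥ⁻¹ = 0`.
* `isZero_tate_of_equiv` : if `M ≃ Fun(G, W)` with `G` acting by right translation then all Tate
  groups of `M` vanish (Shapiro in degrees `≥ 1` and `≤ -2`, the section criterion in `0, -1`).
* `isZero_tate_res_of_equiv` : the same after restriction to any subgroup `f : H ↪ G`.
* `isCohTrivial_coind₁`, `isCohTrivial_coind₁_trivial` : the skeleton statements of A-Acyclic.
-/

set_option autoImplicit false

noncomputable section

open CategoryTheory CategoryTheory.Limits groupCohomology groupHomology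

namespace Fermat.Agent.CFT.H95

open Fermat.Agent.CFT.A

variable {k : Type} [CommRing k] {G : Type} [Group G]

/-! ### Degrees `0` and `-1` of the Tate complex -/

section LowDegree

variable [Fintype G]

/-- `Ĥ⁰` vanishes as soon as every invariant is a norm. -/
theorem isZero_tate_zero (M : Rep k G)
    (h : ∀ m : M.V, (∀ g, M.ρ g m = m) → ∃ m', M.ρ.norm m' = m) :
    IsZero (tateCohomology M 0) := by
  change IsZero ((tateComplex M).homology 0)
  rw [← HomologicalComplex.exactAt_iff_isZero_homology,
    HomologicalComplex.exactAt_iff' _ (-1) 0 1 (by simp) (by simp),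
    ShortComplex.moduleCat_exact_iff]
  intro x hx
  change (inhomogeneousCochains M).X 0 at x
  change (inhomogeneousCochains M).d 0 1 x = 0 at hx
  change ∃ x₁ : (inhomogeneousChains M).X 0, M.tateNorm x₁ = x
  have h1 : (d₀₁ M) ((cochainsIso₀ M).hom x) = 0 := by
    have := congr($(comp_d₀₁_eq M) x)
    rw [ConcreteCategory.comp_apply, ConcreteCategory.comp_apply] at this
    rw [this, hx, map_zero]
  have h2 : (cochainsIso₀ M).hom x ∈ M.ρ.invariants := by
    rw [← d₀₁_ker_eq_invariants]; exact h1
  obtain ⟨m', hm'⟩ := h _ h2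
  refine ⟨(chainsIso₀ M).inv m', ?_⟩
  rw [Rep.tateNorm, ConcreteCategory.comp_apply, ConcreteCategory.comp_apply,
    Iso.inv_hom_id_apply]
  change (cochainsIso₀ M).inv (M.ρ.norm m') = x
  rw [hm', Iso.hom_inv_id_apply]

/-- `Ĥ⁻¹` vanishes as soon as every element of norm zero lies in the augmentation submodule
`I_G M` (the kernel of the projection to the coinvariants). -/
theorem isZero_tate_neg_one (M : Rep k G)
    (h : ∀ m : M.V, M.ρ.norm m = 0 → m ∈ Representation.Coinvariants.ker M.ρ) :
    IsZero (tateCohomology M (-1)) := by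
  change IsZero ((tateComplex M).homology (-1))
  rw [← HomologicalComplex.exactAt_iff_isZero_homology,
    HomologicalComplex.exactAt_iff' _ (-2) (-1) 0 (by simp) (by simp),
    ShortComplex.moduleCat_exact_iff]
  intro x hx
  change (inhomogeneousChains M).X 0 at x
  change M.tateNorm x = 0 at hx
  change ∃ x₁ : (inhomogeneousChains M).X 1, (inhomogeneousChains M).d 1 0 x₁ = x
  have h1 : M.ρ.norm ((chainsIso₀ M).hom x) = 0 := by
    rw [Rep.tateNorm, ConcreteCategory.comp_apply, ConcreteCategory.comp_apply] at hx
    have := congr((cochainsIso₀ M).hom $hx)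
    rw [Iso.inv_hom_id_apply, map_zero] at this
    exact this
  have h2 := h _ h1
  rw [← range_d₁₀_eq_coinvariantsKer] at h2
  obtain ⟨y, hy⟩ := h2
  refine ⟨(chainsIso₁ M).inv y, ?_⟩
  have := congr($(comp_d₁₀_eq M) ((chainsIso₁ M).inv y))
  rw [ConcreteCategory.comp_apply, ConcreteCategory.comp_apply, Iso.inv_hom_id_apply] at this
  have h3 : (chainsIso₀ M).hom ((inhomogeneousChains M).d 1 0 ((chainsIso₁ M).inv y)) =
      (chainsIso₀ M).hom x := by
    rw [← this]; exact hy
  have := congr((chainsIso₀ M).inv $h3)
  rwa [Iso.hom_inv_id_apply, Iso.hom_inv_id_apply] at this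

/-- If the identity of `M` is the norm of a `k`-linear endomorphism `s`, then `Ĥ⁰(G, M) = 0`. -/
theorem isZero_tate_zero_of_section (M : Rep k G) (s : M.V →ₗ[k] M.V)
    (hs : ∀ m : M.V, ∑ g : G, M.ρ g (s (M.ρ g⁻¹ m)) = m) :
    IsZero (tateCohomology M 0) := by
  refine isZero_tate_zero M fun m hm => ⟨s m, ?_⟩
  rw [Representation.norm, LinearMap.sum_apply]
  conv_rhs => rw [← hs m]
  exact Finset.sum_congr rfl fun g _ => by rw [hm]

/-- If the identity of `M` is the norm of a `k`-linear endomorphism `s`, then `Ĥ⁻¹(G, M) = 0`. -/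
theorem isZero_tate_neg_one_of_section (M : Rep k G) (s : M.V →ₗ[k] M.V)
    (hs : ∀ m : M.V, ∑ g : G, M.ρ g (s (M.ρ g⁻¹ m)) = m) :
    IsZero (tateCohomology M (-1)) := by
  refine isZero_tate_neg_one M fun m hm => ?_
  have h1 : ∑ g : G, s (M.ρ g⁻¹ m) = 0 := by
    rw [← map_sum, Fintype.sum_equiv (Equiv.inv G) (fun g => M.ρ g⁻¹ m) (fun g => M.ρ g m)
      (fun g => rfl)]
    rw [Representation.norm, LinearMap.sum_apply] at hm
    rw [hm, map_zero]
  have h2 : m = ∑ g : G, (M.ρ g (s (M.ρ g⁻¹ m)) - s (M.ρ g⁻¹ m)) := by
    rw [Finset.sum_sub_distrib, h1, sub_zero, hs]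
  rw [h2]
  exact Submodule.sum_mem _ fun g _ => Representation.Coinvariants.sub_mem_ker g _

end LowDegree

/-! ### The module coinduced from the trivial subgroup (Shapiro) -/

/-- The `G`-module `Fun(G, W)` coinduced from the trivial subgroup (Mathlib's `Rep.coind`). -/
abbrev coindBot (k : Type) [CommRing k] (G : Type) [Group G] (W : Type) [AddCommGroup W]
    [Module k W] : Rep k G :=
  Rep.coind (⊥ : Subgroup G).subtype (Rep.trivial k (⊥ : Subgroup G) W)

theorem isZero_groupCohomology_coindBot (W : Type) [AddCommGroup W] [Module k W] (n : ℕ) :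
    IsZero (groupCohomology (coindBot k G W) (n + 1)) :=
  (isZero_groupCohomology_succ_of_subsingleton _ n).of_iso (groupCohomology.coindIso _ (n + 1))

theorem isZero_groupHomology_coindBot [Finite G] (W : Type) [AddCommGroup W] [Module k W]
    (n : ℕ) : IsZero (groupHomology (coindBot k G W) (n + 1)) := by
  classical
  exact (isZero_groupHomology_succ_of_subsingleton _ n).of_iso
    ((groupHomology.functor k G (n + 1)).mapIso (Rep.indCoindIso _).symm ≪≫
      groupHomology.indIso _ _ (n + 1))

/-- all functions `G → W` are "equivariant" for the trivial subgroup. -/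
def funEquivCoindV (W : Type) [AddCommGroup W] [Module k W] :
    (G → W) ≃ₗ[k] Representation.coindV (⊥ : Subgroup G).subtype
      (Representation.trivial k (⊥ : Subgroup G) W) where
  toFun ψ := ⟨ψ, fun g h => by
    have hg : g = 1 := Subsingleton.elim _ _
    subst hg; simp⟩
  map_add' _ _ := rfl
  map_smul' _ _ := rfl
  invFun ψ := ψ.1
  left_inv _ := rfl
  right_inv _ := rfl

/-- A representation `M` whose underlying module is `Fun(G, W)` with `G` acting by right
translation is isomorphic to the module coinduced from the trivial subgroup. -/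
def isoCoindBot (M : Rep k G) (W : Type) [AddCommGroup W] [Module k W]
    (e : M.V ≃ₗ[k] (G → W)) (he : ∀ (g : G) (m : M.V) (x : G), e (M.ρ g m) x = e m (x * g)) :
    M ≅ coindBot k G W :=
  Rep.mkIso (Representation.Equiv.mk (e ≪≫ₗ funEquivCoindV W) fun g => by
    ext m x
    exact he g m x)

/-- positive-degree group cohomology of `Fun(G, W)` vanishes (no finiteness needed). -/
theorem isZero_groupCohomology_of_equiv (M : Rep k G) (W : Type) [AddCommGroup W] [Module k W]
    (e : M.V ≃ₗ[k] (G → W)) (he : ∀ (g : G) (m : M.V) (x : G), e (M.ρ g m) x = e m (x * g))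
    (n : ℕ) : IsZero (groupCohomology M (n + 1)) :=
  (isZero_groupCohomology_coindBot W n).of_iso
    ((groupCohomology.functor k G (n + 1)).mapIso (isoCoindBot M W e he))

/-- positive-degree group homology of `Fun(G, W)` vanishes (`G` finite). -/
theorem isZero_groupHomology_of_equiv [Finite G] (M : Rep k G) (W : Type) [AddCommGroup W]
    [Module k W] (e : M.V ≃ₗ[k] (G → W))
    (he : ∀ (g : G) (m : M.V) (x : G), e (M.ρ g m) x = e m (x * g))
    (n : ℕ) : IsZero (groupHomology M (n + 1)) :=
  (isZero_groupHomology_coindBot W n).of_iso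
    ((groupHomology.functor k G (n + 1)).mapIso (isoCoindBot M W e he))

/-! ### All Tate groups of `Fun(G, W)` vanish -/

section Tate

variable [Fintype G]

/-- the section: keep only the value at `1`.  Its norm is the identity. -/
theorem exists_section (M : Rep k G) (W : Type) [AddCommGroup W] [Module k W]
    (e : M.V ≃ₗ[k] (G → W)) (he : ∀ (g : G) (m : M.V) (x : G), e (M.ρ g m) x = e m (x * g)) :
    ∃ s : M.V →ₗ[k] M.V, ∀ m : M.V, ∑ g : G, M.ρ g (s (M.ρ g⁻¹ m)) = m := by
  classical
  refine ⟨e.symm.toLinearMap ∘ₗ (LinearMap.single k (fun _ : G => W) 1) ∘ₗ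
    (LinearMap.proj 1) ∘ₗ e.toLinearMap, fun m => ?_⟩
  apply e.injective
  funext x
  rw [map_sum, Finset.sum_apply]
  simp only [LinearMap.comp_apply, LinearEquiv.coe_coe, he, LinearEquiv.apply_symm_apply,
    LinearMap.proj_apply, LinearMap.single_apply]
  rw [Finset.sum_eq_single x⁻¹]
  · simp
  · intro g _ hg
    rw [Pi.single_eq_of_ne]
    intro h
    exact hg (eq_inv_of_mul_eq_one_right h)
  · simp

/-- If `M ≃ Fun(G, W)` with `G` acting by right translation, then all Tate cohomology groups of
`M` vanish. -/
theorem isZero_tate_of_equiv (M : Rep k G) (W : Type) [AddCommGroup W] [Module k W]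
    (e : M.V ≃ₗ[k] (G → W)) (he : ∀ (g : G) (m : M.V) (x : G), e (M.ρ g m) x = e m (x * g))
    (n : ℤ) : IsZero (tateCohomology M n) := by
  obtain ⟨s, hs⟩ := exists_section M W e he
  have i := isoCoindBot M W e he
  match n with
  | Int.ofNat 0 => exact isZero_tate_zero_of_section M s hs
  | Int.ofNat (m + 1) =>
    exact (isZero_groupCohomology_coindBot W m).of_iso
      ((TateCohomology.isoGroupCohomology (m + 1)).app M ≪≫
        (groupCohomology.functor k G (m + 1)).mapIso i)
  | Int.negSucc 0 => exact isZero_tate_neg_one_of_section M s hs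
  | Int.negSucc (m + 1) =>
    exact (isZero_groupHomology_coindBot W m).of_iso
      ((TateCohomology.isoGroupHomology (Int.negSucc (m + 1)) (m + 1) rfl).app M ≪≫
        (groupHomology.functor k G (m + 1)).mapIso i)

end Tate

/-! ### Restriction to a subgroup: `G ≃ G/f(H) × H` -/

section transversal

variable {H : Type} [Group H] (f : H →* G)

/-- the `H`-coordinate of `x : G` with respect to the transversal `Quotient.out` of `G ⧸ f(H)`. -/
theorem exists_coord (x : G) :
    ∃ h : H, f h = (Quotient.out (QuotientGroup.mk x : G ⧸ f.range))⁻¹ * x := by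
  have h1 : (QuotientGroup.mk (Quotient.out (QuotientGroup.mk x : G ⧸ f.range)) : G ⧸ f.range) =
      QuotientGroup.mk x := QuotientGroup.out_eq' _
  rw [QuotientGroup.eq] at h1
  exact h1

/-- the `H`-coordinate of `x : G` (`x = out [x] * f (coord f x)`). -/
def coord (x : G) : H := (exists_coord f x).choose

theorem coord_spec (x : G) :
    f (coord f x) = (Quotient.out (QuotientGroup.mk x : G ⧸ f.range))⁻¹ * x :=
  (exists_coord f x).choose_spec

theorem out_mul_coord (x : G) :
    Quotient.out (QuotientGroup.mk x : G ⧸ f.range) * f (coord f x) = x := by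
  rw [coord_spec, mul_inv_cancel_left]

theorem mk_mul_map (x : G) (h : H) :
    (QuotientGroup.mk (x * f h) : G ⧸ f.range) = QuotientGroup.mk x := by
  rw [QuotientGroup.eq]
  simp

theorem coord_mul_map (hf : Function.Injective f) (x : G) (h : H) :
    coord f (x * f h) = coord f x * h := by
  apply hf
  rw [map_mul, coord_spec, coord_spec, mk_mul_map, mul_assoc]

theorem coord_out_mul (hf : Function.Injective f) (q : G ⧸ f.range) (h : H) :
    coord f (Quotient.out q * f h) = h := by
  apply hf
  rw [coord_spec, mk_mul_map, QuotientGroup.out_eq', inv_mul_cancel_left]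

/-- `Fun(G, V) ≃ Fun(H, Fun(G/f(H), V))`, equivariantly for right translation by `H`. -/
def funEquivOfInjective (hf : Function.Injective f) (V : Type) [AddCommGroup V] [Module k V] :
    (G → V) ≃ₗ[k] (H → (G ⧸ f.range → V)) where
  toFun φ h q := φ (Quotient.out q * f h)
  map_add' _ _ := rfl
  map_smul' _ _ := rfl
  invFun ψ x := ψ (coord f x) (QuotientGroup.mk x)
  left_inv φ := by
    funext x
    show φ (Quotient.out (QuotientGroup.mk x : G ⧸ f.range) * f (coord f x)) = φ x
    rw [out_mul_coord]
  right_inv ψ := by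
    funext h q
    show ψ (coord f (Quotient.out q * f h)) (QuotientGroup.mk (Quotient.out q * f h)) = ψ h q
    rw [coord_out_mul f hf, mk_mul_map, QuotientGroup.out_eq']

theorem funEquivOfInjective_apply (hf : Function.Injective f) (V : Type) [AddCommGroup V]
    [Module k V] (φ : G → V) (h : H) (q : G ⧸ f.range) :
    funEquivOfInjective (k := k) f hf V φ h q = φ (Quotient.out q * f h) := rfl

end transversal

/-! ### Cohomological triviality of `Fun(G, V)` -/

/-- **Induced/coinduced modules are cohomologically trivial** (general form): a `G`-module whose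
underlying module is `Fun(G, V)` with `G` acting by right translation has vanishing Tate
cohomology on every subgroup `f : H ↪ G`. -/
theorem isZero_tate_res_of_equiv [Fintype G] (M : Rep k G) (V : Type) [AddCommGroup V]
    [Module k V] (e : M.V ≃ₗ[k] (G → V))
    (he : ∀ (g : G) (m : M.V) (x : G), e (M.ρ g m) x = e m (x * g))
    {H : Type} [Group H] [Fintype H] (f : H →* G) (hf : Function.Injective f) (n : ℤ) :
    IsZero (tateCohomology (Rep.res f M) n) := by
  refine isZero_tate_of_equiv (Rep.res f M) (G ⧸ f.range → V)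
    (e ≪≫ₗ funEquivOfInjective f hf V) (fun h m x => ?_) n
  funext q
  show funEquivOfInjective (k := k) f hf V (e (M.ρ (f h) m)) x q =
    funEquivOfInjective (k := k) f hf V (e m) (x * h) q
  rw [funEquivOfInjective_apply, funEquivOfInjective_apply, he, map_mul, mul_assoc]

/-- the same in positive-degree group cohomology (`G`, `H` arbitrary groups). -/
theorem isZero_groupCohomology_res_of_equiv (M : Rep k G) (V : Type) [AddCommGroup V]
    [Module k V] (e : M.V ≃ₗ[k] (G → V))
    (he : ∀ (g : G) (m : M.V) (x : G), e (M.ρ g m) x = e m (x * g))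
    {H : Type} [Group H] (f : H →* G) (hf : Function.Injective f) (n : ℕ) :
    IsZero (groupCohomology (Rep.res f M) (n + 1)) := by
  refine isZero_groupCohomology_of_equiv (Rep.res f M) (G ⧸ f.range → V)
    (e ≪≫ₗ funEquivOfInjective f hf V) (fun h m x => ?_) n
  funext q
  show funEquivOfInjective (k := k) f hf V (e (M.ρ (f h) m)) x q =
    funEquivOfInjective (k := k) f hf V (e m) (x * h) q
  rw [funEquivOfInjective_apply, funEquivOfInjective_apply, he, map_mul, mul_assoc]

/-- **A-Acyclic**: `coind₁ A = Fun(G, A)` is cohomologically trivial. -/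
theorem isCohTrivial_coind₁ [Fintype G] (A : Rep k G) : IsCohTrivial (coind₁ A) := by
  intro H _ _ f hf n
  exact isZero_tate_res_of_equiv (coind₁ A) A.V (LinearEquiv.refl k (G → A.V))
    (fun g m x => rfl) f hf n

/-- More generally `Fun(G, V)` for any abelian group `V` (trivial action on `V`). -/
theorem isCohTrivial_coind₁_trivial [Fintype G] (V : Type) [AddCommGroup V] [Module k V] :
    IsCohTrivial (coind₁ (Rep.trivial k G V)) :=
  isCohTrivial_coind₁ _

/-- `coind₁ A` is cohomologically trivial in positive degrees (`IsCohTrivPos`, any group `G`). -/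
theorem isCohTrivPos_coind₁ (A : Rep k G) : IsCohTrivPos (coind₁ A) := by
  intro S n hn
  obtain ⟨m, rfl⟩ : ∃ m, n = m + 1 := ⟨n - 1, by omega⟩
  have h := isZero_groupCohomology_res_of_equiv (coind₁ A) A.V (LinearEquiv.refl k (G → A.V))
    (fun g m x => rfl) S.subtype S.subtype_injective m
  exact ModuleCat.subsingleton_of_isZero h

end Fermat.Agent.CFT.H95

end
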