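import Fermat.Agent.CFT.H28_CohTriv
import Fermat.Agent.CFT.H33_CorRes
import Fermat.Agent.CFT.H68_Shift
import Fermat.Agent.CFT.H95_Acyclic

/-!
# CFT / layer A : Nakayama–Tate criterion, hypotheses T2 and shift discharged

Author: helper28.  Discharges `SylowHyp` (from helper33's `H33_CorRes`) and `ShiftDownHyp`
(from helper68's `H68_Shift` + helper95's `H95_Acyclic`) of `H28_CohTriv`.  The only remaining
explicit hypothesis is `InfResHyp` (inflation-restriction in degree `n`, package T1).
-/

set_option autoImplicit false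

namespace Fermat.Agent.CFT.H28

open CategoryTheory Rep

universe u

/-- **T2** holds (helper33). -/
theorem sylowHyp (k : Type u) [CommRing k] : SylowHyp k :=
  fun _ _ _ A n _ h => H33.subsingleton_of_sylow A n h

/-- Downward dimension shifting holds (helper68 + helper95). -/
theorem shiftDownHyp (k : Type) [CommRing k] (G : Type) [Group G] [Fintype G] :
    ShiftDownHyp k G :=
  fun A => H68.shiftDown_exists (fun B => H95.isCohTrivial_coind₁ B) A

variable {k : Type} [CommRing k] {G : Type} [Group G] [Fintype G]

/-- `IsCohTrivialTate` is the layer-A predicate `A.IsCohTrivial`. -/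
theorem isCohTrivialTate_iff (A : Rep.{0} k G) : IsCohTrivialTate A ↔ Fermat.Agent.CFT.A.IsCohTrivial A := Iff.rfl

/-- **Nakayama–Tate criterion** in the vocabulary of `A_Defs`, modulo T1 only. -/
theorem isCohTrivial_of_H1_H2 (hT1 : InfResHyp k) (A : Rep.{0} k G)
    (h : ∀ (H : Type) [Group H] [Fintype H] (f : H →* G), Function.Injective f →
      Limits.IsZero (tateCohomology (Rep.res f A) 1) ∧
        Limits.IsZero (tateCohomology (Rep.res f A) 2)) :
    Fermat.Agent.CFT.A.IsCohTrivial A :=
  isCohTrivialTate_of_H1_H2 hT1 (sylowHyp k) (shiftDownHyp k G) A h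

/-- Positive-degree twin vanishing, modulo T1 only. -/
theorem isCohTrivPos_of_twin' (hT1 : InfResHyp k) (A : Rep.{0} k G) (q : ℕ) (hq : 1 ≤ q)
    (h : ∀ S : Subgroup G, Subsingleton (groupCohomology (res S.subtype A) q) ∧
      Subsingleton (groupCohomology (res S.subtype A) (q + 1))) : Fermat.Agent.CFT.A.IsCohTrivPos A := by
  intro S n hn
  exact isCohTrivPos_of_twin hT1 (sylowHyp k) A q hq h S n hn

end Fermat.Agent.CFT.H28
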