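import Mathlib

/-!
# CFT / Layer A / A-Cyclic : periodicity of Tate cohomology for finite cyclic groups
-/

set_option autoImplicit false

noncomputable section

open CategoryTheory CategoryTheory.Limits

namespace Fermat.Agent.CFT.H36

universe u

section General

variable {k : Type u} [Ring k]

/-- A morphism of short complexes of modules which is surjective on `X₁`, bijective on `X₂` and
reflects cycles induces an isomorphism on homology. -/
theorem isIso_homologyMap_of_cycles {S₁ S₂ : ShortComplex (ModuleCat.{u} k)} (φ : S₁ ⟶ S₂)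
    (h₁ : Function.Surjective φ.τ₁) (h₂ : Function.Bijective φ.τ₂)
    (h₃ : ∀ x : S₁.X₂, S₂.g (φ.τ₂ x) = 0 → S₁.g x = 0) :
    IsIso (ShortComplex.homologyMap φ) := by
  have hepi : Epi φ.τ₁ := (ModuleCat.epi_iff_surjective _).2 h₁
  have hmono₂ : Mono φ.τ₂ := (ModuleCat.mono_iff_injective _).2 h₂.1
  refine ShortComplex.isIso_homologyMap_of_isIso_cyclesMap_of_epi ?_ hepi
  rw [ConcreteCategory.isIso_iff_bijective]
  constructor
  · have : Mono (ShortComplex.cyclesMap φ) := by
      have : Mono (ShortComplex.cyclesMap φ ≫ S₂.iCycles) := by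
        rw [ShortComplex.cyclesMap_i]; infer_instance
      exact mono_of_mono _ S₂.iCycles
    exact (ModuleCat.mono_iff_injective _).1 this
  · intro z
    obtain ⟨x, hx⟩ := h₂.2 (S₂.iCycles z)
    have hgx : S₁.g x = 0 := h₃ x (by
      rw [hx]
      have := congr($(S₂.iCycles_g) z)
      simp only [ModuleCat.hom_comp, LinearMap.comp_apply] at this
      exact this)
    refine ⟨S₁.moduleCatCyclesIso.inv ⟨x, hgx⟩, ?_⟩
    apply (ModuleCat.mono_iff_injective S₂.iCycles).1 inferInstance
    have := ShortComplex.cyclesMap_i φ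
    have h1 := congr($this (S₁.moduleCatCyclesIso.inv ⟨x, hgx⟩))
    simp only [ModuleCat.hom_comp, LinearMap.comp_apply] at h1
    rw [h1]
    have h2 := S₁.moduleCatCyclesIso_inv_iCycles_apply ⟨x, hgx⟩
    rw [h2]
    exact hx

/-- A morphism of short complexes of modules which is bijective on `X₂`, injective on `X₃` and
reflects boundaries induces an isomorphism on homology. -/
theorem isIso_homologyMap_of_opcycles {S₁ S₂ : ShortComplex (ModuleCat.{u} k)} (φ : S₁ ⟶ S₂)
    (h₂ : Function.Bijective φ.τ₂) (h₃ : Function.Injective φ.τ₃)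
    (h₁ : ∀ x : S₁.X₂, φ.τ₂ x ∈ LinearMap.range S₂.f.hom → x ∈ LinearMap.range S₁.f.hom) :
    IsIso (ShortComplex.homologyMap φ) := by
  have hmono : Mono φ.τ₃ := (ModuleCat.mono_iff_injective _).2 h₃
  have hepi₂ : Epi φ.τ₂ := (ModuleCat.epi_iff_surjective _).2 h₂.2
  refine ShortComplex.isIso_homologyMap_of_isIso_opcyclesMap_of_mono ?_ hmono
  rw [ConcreteCategory.isIso_iff_bijective]
  constructor
  · rw [← ModuleCat.mono_iff_injective, ModuleCat.mono_iff_ker_eq_bot, LinearMap.ker_eq_bot']
    intro y hy
    obtain ⟨x, rfl⟩ := (ModuleCat.epi_iff_surjective S₁.pOpcycles).1 inferInstance y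
    have h1 := congr($(ShortComplex.p_opcyclesMap φ) x)
    simp only [ModuleCat.hom_comp, LinearMap.comp_apply] at h1
    rw [hy] at h1
    have h2 : φ.τ₂ x ∈ LinearMap.range S₂.f.hom :=
      (S₂.moduleCat_pOpcycles_eq_zero_iff _).1 h1.symm
    exact (S₁.moduleCat_pOpcycles_eq_zero_iff x).2 (h₁ x h2)
  · have : Epi (ShortComplex.opcyclesMap φ) := by
      have : Epi (S₁.pOpcycles ≫ ShortComplex.opcyclesMap φ) := by
        rw [ShortComplex.p_opcyclesMap]; infer_instance
      exact epi_of_epi S₁.pOpcycles _
    exact (ModuleCat.epi_iff_surjective _).1 this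

end General

section Cyclic

open Rep Rep.FiniteCyclicGroup groupCohomology groupHomology

variable {k G : Type u} [CommRing k] [CommGroup G] [Fintype G] (A : Rep k G) (g : G)

/-- The comparison morphism in degree `0`: from the short complex `C₀ → C⁰ → C¹` of the Tate
complex to `A --N--> A --(ρ(g) - 1)--> A`. -/
def scZeroHom : (tateComplex A).sc' (-1) 0 1 ⟶ normHomCompSub A g where
  τ₁ := (chainsIso₀ A).hom
  τ₂ := (cochainsIso₀ A).hom
  τ₃ := (cochainsIso₁ A).hom ≫ ModuleCat.ofHom (LinearMap.proj g)
  comm₁₂ := by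
    change A.tateNorm ≫ (cochainsIso₀ A).hom = (chainsIso₀ A).hom ≫ A.norm.toModuleCatHom
    simp [Rep.tateNorm]
  comm₂₃ := by
    change _ = (inhomogeneousCochains A).d 0 1 ≫ (cochainsIso₁ A).hom ≫ _
    rw [← Category.assoc, ← comp_d₀₁_eq, Category.assoc]
    congr 1

variable (hg : ∀ x, x ∈ Subgroup.zpowers g)

omit [Fintype G] in
include hg in
theorem d_zero_one_eq_zero_of (x : (inhomogeneousCochains A).X 0)
    (hx : A.ρ g ((cochainsIso₀ A).hom x) = (cochainsIso₀ A).hom x) :
    (inhomogeneousCochains A).d 0 1 x = 0 := by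
  have hinv : (cochainsIso₀ A).hom x ∈ A.ρ.invariants :=
    (Representation.mem_invariants_iff_of_forall_mem_zpowers A.ρ g hg _).2 hx
  have h1 : d₀₁ A ((cochainsIso₀ A).hom x) = 0 := by
    rw [← d₀₁_ker_eq_invariants] at hinv
    exact hinv
  have h2 := congr($(comp_d₀₁_eq A) x)
  rw [ModuleCat.comp_apply, ModuleCat.comp_apply, h1] at h2
  apply (ModuleCat.mono_iff_injective (cochainsIso₁ A).hom).1 inferInstance
  rw [← h2, map_zero]

include hg in
theorem isIso_homologyMap_scZeroHom : IsIso (ShortComplex.homologyMap (scZeroHom A g)) := by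
  apply isIso_homologyMap_of_cycles
  · exact (ModuleCat.epi_iff_surjective _).1 (inferInstanceAs (Epi (chainsIso₀ A).hom))
  · exact (ConcreteCategory.isIso_iff_bijective _).1 (inferInstanceAs (IsIso (cochainsIso₀ A).hom))
  · intro x hx
    refine d_zero_one_eq_zero_of A g hg x ?_
    have : (applyAsHom A g - 𝟙 A).hom.toLinearMap ((cochainsIso₀ A).hom x) = 0 := hx
    simpa [sub_hom, sub_eq_zero, applyAsHom] using this

/-- `Ĥ⁰(G, A) ≅ ker(ρ(g) - 1) / im N` for a finite cyclic group generated by `g`. -/
def tateIsoZero : tateCohomology A 0 ≅ (normHomCompSub A g).homology :=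
  ShortComplex.homologyMapIso ((tateComplex A).isoSc' (-1) 0 1 (by simp) (by simp)) ≪≫
    (haveI := isIso_homologyMap_scZeroHom A g hg
     asIso (ShortComplex.homologyMap (scZeroHom A g)))

/-- The comparison morphism in degree `-1`: from `A --(ρ(g) - 1)--> A --N--> A` to the short
complex `C₁ → C₀ → C⁰` of the Tate complex. -/
def scNegOneHom : subCompNormHom A g ⟶ (tateComplex A).sc' (-2) (-1) 0 where
  τ₁ := ModuleCat.ofHom (Finsupp.lsingle g⁻¹) ≫ (chainsIso₁ A).inv
  τ₂ := (chainsIso₀ A).inv
  τ₃ := (cochainsIso₀ A).inv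
  comm₁₂ := by
    change (ModuleCat.ofHom (Finsupp.lsingle g⁻¹) ≫ (chainsIso₁ A).inv) ≫
      (inhomogeneousChains A).d 1 0 = _
    rw [Category.assoc, eq_d₁₀_comp_inv, ← Category.assoc]
    congr 1
    ext a
    have := d₁₀_single A g⁻¹ a
    rw [inv_inv] at this
    simpa [sub_hom, applyAsHom] using this
  comm₂₃ := by
    change (chainsIso₀ A).inv ≫ A.tateNorm = A.norm.toModuleCatHom ≫ (cochainsIso₀ A).inv
    simp [Rep.tateNorm]

include hg in
theorem mem_range_sub_of_mem_range_d (x : A.V) (y : (inhomogeneousChains A).X 1)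
    (hy : (inhomogeneousChains A).d 1 0 y = (chainsIso₀ A).inv x) :
    x ∈ LinearMap.range (A.ρ g - LinearMap.id) := by
  rw [← Representation.FiniteCyclicGroup.coinvariantsKer_eq_range A.ρ g hg,
    ← range_d₁₀_eq_coinvariantsKer]
  refine ⟨(chainsIso₁ A).hom y, ?_⟩
  have h2 := congr($(comp_d₁₀_eq A) y)
  rw [ModuleCat.comp_apply, ModuleCat.comp_apply, hy] at h2
  rw [h2]
  exact congr($((chainsIso₀ A).inv_hom_id) x)

include hg in
theorem isIso_homologyMap_scNegOneHom :
    IsIso (ShortComplex.homologyMap (scNegOneHom A g)) := by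
  apply isIso_homologyMap_of_opcycles
  · exact (ConcreteCategory.isIso_iff_bijective _).1 (inferInstanceAs (IsIso (chainsIso₀ A).inv))
  · exact (ModuleCat.mono_iff_injective _).1 (inferInstanceAs (Mono (cochainsIso₀ A).inv))
  · rintro x ⟨y, hy⟩
    have := mem_range_sub_of_mem_range_d A g hg x y hy
    obtain ⟨z, hz⟩ := this
    exact ⟨z, by simpa [sub_hom, applyAsHom] using hz⟩

/-- `Ĥ⁻¹(G, A) ≅ ker N / im(ρ(g) - 1)` for a finite cyclic group generated by `g`. -/
def tateIsoNegOne : tateCohomology A (-1) ≅ (subCompNormHom A g).homology :=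
  ShortComplex.homologyMapIso ((tateComplex A).isoSc' (-2) (-1) 0 (by simp) (by simp)) ≪≫
    (haveI := isIso_homologyMap_scNegOneHom A g hg
     asIso (ShortComplex.homologyMap (scNegOneHom A g))).symm

open Classical in
/-- Even Tate cohomology of a finite cyclic group: `Ĥⁿ(G, A) ≅ ker(ρ(g) - 1) / im N`. -/
def tateIsoEven : (n : ℤ) → Even n → (tateCohomology A n ≅ (normHomCompSub A g).homology)
  | Int.ofNat 0, _ => tateIsoZero A g hg
  | Int.ofNat (m + 1), h =>
      (TateCohomology.isoGroupCohomology (m + 1)).app A ≪≫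
        groupCohomologyIsoEven A g hg (m + 1) (by
          have h' : Even (((m + 1 : ℕ) : ℤ)) := h
          exact_mod_cast h')
  | Int.negSucc 0, h => absurd h (by decide)
  | Int.negSucc (m + 1), h =>
      (TateCohomology.isoGroupHomology (Int.negSucc (m + 1)) (m + 1) rfl).app A ≪≫
        groupHomologyIsoOdd A g hg (m + 1) (by
          rw [Int.negSucc_eq] at h
          have h' : Even ((m : ℤ) + 2) := by
            have := h.neg
            simpa [add_assoc] using this
          have h'' : Even m := by
            have : Even (m + 2) := by exact_mod_cast h'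
            simpa [Nat.even_add] using this
          exact h''.add_one)

open Classical in
/-- Odd Tate cohomology of a finite cyclic group: `Ĥⁿ(G, A) ≅ ker N / im(ρ(g) - 1)`. -/
def tateIsoOdd : (n : ℤ) → Odd n → (tateCohomology A n ≅ (subCompNormHom A g).homology)
  | Int.ofNat 0, h => absurd h (by decide)
  | Int.ofNat (m + 1), h =>
      (TateCohomology.isoGroupCohomology (m + 1)).app A ≪≫
        groupCohomologyIsoOdd A g hg (m + 1) (by
          have h' : Odd (((m + 1 : ℕ) : ℤ)) := h
          exact_mod_cast h')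
  | Int.negSucc 0, _ => tateIsoNegOne A g hg
  | Int.negSucc (m + 1), h =>
      (TateCohomology.isoGroupHomology (Int.negSucc (m + 1)) (m + 1) rfl).app A ≪≫
        groupHomologyIsoEven A g hg (m + 1) (by
          rw [Int.negSucc_eq] at h
          have h' : Odd ((m : ℤ) + 2) := by
            have := h.neg
            simpa [add_assoc] using this
          have h'' : Odd m := by
            have : Odd (m + 2) := by exact_mod_cast h'
            simpa [Nat.odd_add] using this
          exact h''.add_one)

/-- Periodicity of Tate cohomology for a finite cyclic group generated by `g` (commutative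
group version with an explicit generator). -/
def tatePeriodIsoOfGenerator (n : ℤ) : tateCohomology A n ≅ tateCohomology A (n + 2) :=
  if hn : Even n then
    tateIsoEven A g hg n hn ≪≫ (tateIsoEven A g hg (n + 2) (hn.add even_two)).symm
  else
    tateIsoOdd A g hg n (Int.not_even_iff_odd.1 hn) ≪≫
      (tateIsoOdd A g hg (n + 2) ((Int.not_even_iff_odd.1 hn).add_even even_two)).symm

end Cyclic

section Main

variable {k G : Type u} [CommRing k] [Group G] [Fintype G]

/-- A chosen generator of a cyclic group. -/
def gen (G : Type u) [Group G] [IsCyclic G] : G :=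
  Classical.choose (IsCyclic.exists_generator (α := G))

theorem gen_spec (G : Type u) [Group G] [IsCyclic G] : ∀ x : G, x ∈ Subgroup.zpowers (gen G) :=
  Classical.choose_spec (IsCyclic.exists_generator (α := G))

/-- For a finite cyclic group, all Tate groups of the same parity are isomorphic. -/
def tateIsoOfParity [IsCyclic G] (A : Rep k G) (m n : ℤ) (h : Even (m - n)) :
    tateCohomology A m ≅ tateCohomology A n :=
  letI : CommGroup G := IsCyclic.commGroup
  if hm : Even m then
    tateIsoEven (G := G) A (gen G) (gen_spec G) m hm ≪≫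
      (tateIsoEven (G := G) A (gen G) (gen_spec G) n (by
        have := hm.sub h
        simpa using this)).symm
  else
    tateIsoOdd (G := G) A (gen G) (gen_spec G) m (Int.not_even_iff_odd.1 hm) ≪≫
      (tateIsoOdd (G := G) A (gen G) (gen_spec G) n (by
        have := (Int.not_even_iff_odd.1 hm).sub_even h
        simpa using this)).symm

/-- **Periodicity of Tate cohomology for finite cyclic groups**: `Ĥⁿ(G, A) ≅ Ĥⁿ⁺²(G, A)`.
(Statement `Fermat.Agent.CFT.A.tatePeriodIso` of the layer A skeleton.) -/
def tatePeriodIso [IsCyclic G] (A : Rep k G) (n : ℤ) :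
    tateCohomology A n ≅ tateCohomology A (n + 2) :=
  tateIsoOfParity A n (n + 2) (by simp)

/-- Even Tate cohomology of a finite cyclic group is `H²`. -/
def tateIsoH2 [IsCyclic G] (A : Rep k G) (n : ℤ) (hn : Even n) :
    tateCohomology A n ≅ groupCohomology A 2 :=
  tateIsoOfParity A n 2 (hn.sub even_two) ≪≫ (TateCohomology.isoGroupCohomology 2).app A

/-- Odd Tate cohomology of a finite cyclic group is `H¹`. -/
def tateIsoH1 [IsCyclic G] (A : Rep k G) (n : ℤ) (hn : Odd n) :
    tateCohomology A n ≅ groupCohomology A 1 :=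
  tateIsoOfParity A n 1 (hn.sub_odd odd_one) ≪≫ (TateCohomology.isoGroupCohomology 1).app A

theorem isZero_tate_iff_of_parity [IsCyclic G] (A : Rep k G) (m n : ℤ) (h : Even (m - n)) :
    IsZero (tateCohomology A m) ↔ IsZero (tateCohomology A n) :=
  (tateIsoOfParity A m n h).isZero_iff

theorem isZero_tate_add_two_iff [IsCyclic G] (A : Rep k G) (n : ℤ) :
    IsZero (tateCohomology A (n + 2)) ↔ IsZero (tateCohomology A n) :=
  (tatePeriodIso A n).symm.isZero_iff

/-- For a finite cyclic group, two consecutive vanishing Tate groups force all Tate groups to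
vanish. -/
theorem isZero_tate_of_consecutive [IsCyclic G] (A : Rep k G) (q : ℤ)
    (h0 : IsZero (tateCohomology A q)) (h1 : IsZero (tateCohomology A (q + 1))) (n : ℤ) :
    IsZero (tateCohomology A n) := by
  by_cases h : Even (n - q)
  · exact (isZero_tate_iff_of_parity A n q h).2 h0
  · refine (isZero_tate_iff_of_parity A n (q + 1) ?_).2 h1
    have h' : Odd (n - q) := Int.not_even_iff_odd.1 h
    have : n - (q + 1) = n - q - 1 := by ring
    rw [this]
    exact h'.sub_odd odd_one

/-- Positive-degree version: for a finite cyclic group, `H^q = H^{q+1} = 0` (`q ≥ 1`) forces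
`Hⁿ = 0` for all `n ≥ 1` (indeed all Tate groups vanish). -/
theorem isZero_groupCohomology_of_consecutive [IsCyclic G] (A : Rep k G) (q : ℕ) [NeZero q]
    (h0 : IsZero (groupCohomology A q)) (h1 : IsZero (groupCohomology A (q + 1)))
    (n : ℕ) [NeZero n] : IsZero (groupCohomology A n) := by
  have e0 := (TateCohomology.isoGroupCohomology q).app A
  have e1 := (TateCohomology.isoGroupCohomology (q + 1)).app A
  have en := (TateCohomology.isoGroupCohomology n).app A
  have h0' : IsZero (tateCohomology A (q : ℤ)) := e0.isZero_iff.2 h0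
  have h1' : IsZero (tateCohomology A ((q : ℤ) + 1)) := by
    have : IsZero (tateCohomology A (((q + 1 : ℕ)) : ℤ)) := e1.isZero_iff.2 h1
    simpa using this
  exact en.isZero_iff.1 (isZero_tate_of_consecutive A q h0' h1' n)

end Main

end Fermat.Agent.CFT.H36
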