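import Mathlib

/-!
# CFT / layer C, package C-H1H2 (helper40): the dévissage

Pure finite-group cohomology.  Let `H` be a finite group and `B` an `H`-module such that for every
subgroup `H'` of `H` and every normal subgroup `N` of `H'` of prime index `p`, the cyclic layer
`H'/N` acting on `B^N` has `H¹ = 0` and `|H²|` dividing `p` ("first + second inequality for cyclic
layers of prime degree").  Then for every subgroup `H'`: `H¹(H', B) = 0` and `|H²(H', B)|` divides
`|H'|`.

The two inputs from layer A (restriction–corestriction and inflation–restriction in degree 2)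
are taken as explicit hypotheses `TransferInput`, `InfResInput`.
-/

set_option autoImplicit false

noncomputable section

open CategoryTheory

namespace Fermat.Agent.CFT.H40

variable {k : Type} [CommRing k]

/-- An abstract restriction/corestriction pair in degree `n` for the subgroup `S`:
additive maps `r : Hⁿ(G,A) → Hⁿ(S,A)`, `c : Hⁿ(S,A) → Hⁿ(G,A)` with `c ∘ r = [G:S]`. -/
def HasTransfer (n : ℕ) {G : Type} [Group G] (A : Rep.{0} k G) (S : Subgroup G) : Prop :=
  ∃ (r : groupCohomology A n →+ groupCohomology (Rep.res S.subtype A) n)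
    (c : groupCohomology (Rep.res S.subtype A) n →+ groupCohomology A n),
    ∀ x, c (r x) = S.index • x

/-- Layer-A input: restriction–corestriction in degrees `1` and `2` for finite groups. -/
def TransferInput (k : Type) [CommRing k] : Prop :=
  ∀ (n : ℕ), (n = 1 ∨ n = 2) → ∀ (G : Type) [Group G] [Finite G] (A : Rep.{0} k G)
    (S : Subgroup G), HasTransfer n A S

/-- Layer-A input: inflation–restriction in degree 2 (shape of `A.H2InfRes_exact`). -/
def InfResInput (k : Type) [CommRing k] : Prop :=
  ∀ (G : Type) [Group G] [Finite G] (A : Rep.{0} k G) (S : Subgroup G) [S.Normal],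
    Limits.IsZero (groupCohomology (Rep.res S.subtype A) 1) →
    Function.Injective ((groupCohomology.infNatTrans (k := k) S 2).app A) ∧
    ∀ x : groupCohomology A 2, groupCohomology.map S.subtype (𝟙 _) 2 x = 0 →
      ∃ y, (groupCohomology.infNatTrans (k := k) S 2).app A y = x

/-- The hypothesis on cyclic layers of prime degree. -/
def PrimeLayers {H : Type} [Group H] (B : Rep.{0} k H) : Prop :=
  ∀ (H' : Type) [Group H'] [Finite H'] (f : H' →* H), Function.Injective f →
    ∀ (N : Subgroup H') [N.Normal] (p : ℕ), p.Prime → N.index = p →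
      Subsingleton (groupCohomology ((Rep.res f B).quotientToInvariants N) 1) ∧
      Nat.card (groupCohomology ((Rep.res f B).quotientToInvariants N) 2) ∣ p

theorem PrimeLayers.res {H : Type} [Group H] {B : Rep.{0} k H} (hB : PrimeLayers B)
    {H'' : Type} [Group H''] (g : H'' →* H) (hg : Function.Injective g) :
    PrimeLayers (Rep.res g B) := by
  intro H' _ _ f hf N _ p hp hN
  exact hB H' (g.comp f) (hg.comp hf) N p hp hN

/-- For `X₁ → X₂ → X₃` with `ker g ≤ range f`, `|X₂|` divides `|X₁| * |X₃|`. -/
theorem card_dvd_of_exact {X₁ X₂ X₃ : Type*} [AddCommGroup X₁] [AddCommGroup X₂]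
    [AddCommGroup X₃] (f : X₁ →+ X₂) (g : X₂ →+ X₃)
    (hex : ∀ x, g x = 0 → ∃ y, f y = x) :
    Nat.card X₂ ∣ Nat.card X₁ * Nat.card X₃ := by
  have h1 : Nat.card g.ker * g.ker.index = Nat.card X₂ := AddSubgroup.card_mul_index g.ker
  have h2 : g.ker.index = Nat.card g.range := AddSubgroup.index_ker g
  have h3 : Nat.card g.range ∣ Nat.card X₃ := AddSubgroup.card_addSubgroup_dvd_card g.range
  have h4 : Nat.card g.ker ∣ Nat.card X₁ := by
    let K : AddSubgroup X₁ := g.ker.comap f
    let φ : K →+ g.ker :=
      { toFun := fun y => ⟨f y.1, y.2⟩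
        map_zero' := by ext; simp
        map_add' := fun a b => by ext; simp }
    have hφ : Function.Surjective φ := by
      rintro ⟨x, hx⟩
      obtain ⟨y, hy⟩ := hex x hx
      exact ⟨⟨y, by simpa [K, hy] using hx⟩, Subtype.ext hy⟩
    have e1 : Nat.card g.ker ∣ Nat.card K := by
      have := AddSubgroup.card_mul_index φ.ker
      rw [AddSubgroup.index_ker, AddMonoidHom.range_eq_top.mpr hφ] at this
      rw [← this]
      simp
    exact e1.trans (AddSubgroup.card_addSubgroup_dvd_card K)
  rw [← h1, h2]
  exact Nat.mul_dvd_mul h4 h3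

theorem eq_zero_of_forall_nsmul {M : Type*} [AddCommGroup M] (x : M) (n : ℕ) (hn : n ≠ 0)
    (hx : n • x = 0) (m : ℕ → ℕ) (hm : ∀ q ∈ n.primeFactors, m q • x = 0)
    (hcop : ∀ q ∈ n.primeFactors, ¬ q ∣ m q) : x = 0 := by
  have hd : addOrderOf x ∣ n := addOrderOf_dvd_of_nsmul_eq_zero hx
  by_contra hne
  have h1 : addOrderOf x ≠ 1 := fun h => hne (AddMonoid.addOrderOf_eq_one_iff.mp h)
  obtain ⟨q, hq, hqd⟩ := Nat.exists_prime_and_dvd h1
  have hqn : q ∈ n.primeFactors := Nat.mem_primeFactors.mpr ⟨hq, hqd.trans hd, hn⟩
  exact hcop q hqn (hqd.trans (addOrderOf_dvd_of_nsmul_eq_zero (hm q hqn)))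

/-- positive-degree cohomology of the trivial group vanishes -/
theorem subsingleton_groupCohomology_succ {G : Type} [Group G] [Subsingleton G]
    (A : Rep.{0} k G) (n : ℕ) : Subsingleton (groupCohomology A (n + 1)) :=
  ModuleCat.subsingleton_of_isZero (isZero_groupCohomology_succ_of_subsingleton A n)

/-- `|G|` kills `Hⁿ(G, A)` for `n = 1, 2`, given the transfer input. -/
theorem card_nsmul_eq_zero (hT : TransferInput k) {G : Type} [Group G] [Finite G]
    (A : Rep.{0} k G) (n : ℕ) (hn : n = 1 ∨ n = 2) (x : groupCohomology A n) :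
    Nat.card G • x = 0 := by
  obtain ⟨r, c, hrc⟩ := hT n hn G A ⊥
  have hsub : Subsingleton (groupCohomology (Rep.res (⊥ : Subgroup G).subtype A) n) := by
    rcases hn with rfl | rfl
    · exact subsingleton_groupCohomology_succ _ 0
    · exact subsingleton_groupCohomology_succ _ 1
  have h0 : r x = 0 := Subsingleton.elim _ _
  have := hrc x
  rw [h0, map_zero, Subgroup.index_bot] at this
  exact this.symm

/-- The step through a normal subgroup. -/
theorem step_normal (hI : InfResInput k) {H : Type} [Group H] [Finite H] (B : Rep.{0} k H)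
    (N : Subgroup H) [N.Normal] (p : ℕ)
    (hq1 : Subsingleton (groupCohomology (B.quotientToInvariants N) 1))
    (hq2 : Nat.card (groupCohomology (B.quotientToInvariants N) 2) ∣ p)
    (hN1 : Subsingleton (groupCohomology (Rep.res N.subtype B) 1))
    (hN2 : Nat.card (groupCohomology (Rep.res N.subtype B) 2) ∣ Nat.card N) :
    Subsingleton (groupCohomology B 1) ∧ Nat.card (groupCohomology B 2) ∣ p * Nat.card N := by
  constructor
  · have hex := (ShortComplex.moduleCat_exact_iff _).mp (groupCohomology.H1InfRes_exact B N)
    have h3 : Subsingleton ↑(groupCohomology.H1InfRes B N).X₃ := hN1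
    have h1 : Subsingleton ↑(groupCohomology.H1InfRes B N).X₁ := hq1
    have key : ∀ z : groupCohomology B 1, z = 0 := by
      intro z
      obtain ⟨w, hw⟩ := hex z (Subsingleton.elim _ _)
      have hw0 : w = 0 := Subsingleton.elim _ _
      rw [← hw, hw0]
      exact map_zero _
    exact ⟨fun x y => by rw [key x, key y]⟩
  · obtain ⟨-, hex⟩ := hI H B N (ModuleCat.isZero_of_subsingleton _)
    have := card_dvd_of_exact
      ((groupCohomology.infNatTrans (k := k) N 2).app B).hom.toAddMonoidHom
      (groupCohomology.map N.subtype (𝟙 (Rep.res N.subtype B)) 2).hom.toAddMonoidHom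
      (fun x hx => hex x hx)
    exact this.trans (Nat.mul_dvd_mul hq2 hN2)

/-- The Sylow step: a family of subgroups `P q` of order `q ^ v_q(|H|)`. -/
theorem step_sylow (hT : TransferInput k) {H : Type} [Group H] [Finite H] (B : Rep.{0} k H)
    (P : ℕ → Subgroup H)
    (hP : ∀ q ∈ (Nat.card H).primeFactors,
      Nat.card (P q) = q ^ (Nat.card H).factorization q)
    (h1 : ∀ q ∈ (Nat.card H).primeFactors,
      Subsingleton (groupCohomology (Rep.res (P q).subtype B) 1))
    (h2 : ∀ q ∈ (Nat.card H).primeFactors,
      Nat.card (groupCohomology (Rep.res (P q).subtype B) 2) ∣ Nat.card (P q)) :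
    Subsingleton (groupCohomology B 1) ∧ Nat.card (groupCohomology B 2) ∣ Nat.card H := by
  set n := Nat.card H with hn
  have hn0 : n ≠ 0 := Nat.card_pos.ne'
  -- the indices are prime to `q`
  have hidx : ∀ q ∈ n.primeFactors, ¬ q ∣ (P q).index := by
    intro q hq hdvd
    have hqp : q.Prime := Nat.prime_of_mem_primeFactors hq
    have hmul := Subgroup.card_mul_index (P q)
    rw [hP q hq] at hmul
    have : (P q).index = n / q ^ n.factorization q := by
      have hmul' : q ^ n.factorization q * (P q).index = n := hmul
      exact (Nat.div_eq_of_eq_mul_right (pow_pos hqp.pos _) hmul'.symm).symm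
    rw [this] at hdvd
    exact (Nat.Prime.coprime_iff_not_dvd hqp).mp (Nat.coprime_ordCompl hqp hn0) hdvd
  constructor
  · have key : ∀ x : groupCohomology B 1, x = 0 := by
      intro x
      refine eq_zero_of_forall_nsmul x n hn0 (card_nsmul_eq_zero hT B 1 (Or.inl rfl) x)
        (fun q => (P q).index) ?_ hidx
      intro q hq
      obtain ⟨r, c, hrc⟩ := hT 1 (Or.inl rfl) H B (P q)
      have h0 : r x = 0 := (h1 q hq).elim _ _
      rw [← hrc x, h0, map_zero]
    exact ⟨fun x y => by rw [key x, key y]⟩
  · -- the restriction maps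
    choose r c hrc using fun q : ℕ => hT 2 (Or.inr rfl) H B (P q)
    let Ψ : groupCohomology B 2 →+
        ((q : n.primeFactors) → groupCohomology (Rep.res (P q.1).subtype B) 2) :=
      AddMonoidHom.pi fun q => r q.1
    have hΨ : Function.Injective Ψ := by
      rw [injective_iff_map_eq_zero]
      intro x hx
      refine eq_zero_of_forall_nsmul x n hn0 (card_nsmul_eq_zero hT B 2 (Or.inr rfl) x)
        (fun q => (P q).index) ?_ hidx
      intro q hq
      have h0 : r q x = 0 := congrFun hx ⟨q, hq⟩
      rw [← hrc q x, h0, map_zero]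
    have hfin : ∀ q : n.primeFactors,
        Finite (groupCohomology (Rep.res (P q.1).subtype B) 2) := by
      intro q
      apply Nat.finite_of_card_ne_zero
      intro h0
      have := h2 q.1 q.2
      rw [h0, zero_dvd_iff, hP q.1 q.2] at this
      exact (pow_pos (Nat.prime_of_mem_primeFactors q.2).pos _).ne' this
    have e1 : Nat.card (groupCohomology B 2) = Nat.card Ψ.range :=
      Nat.card_congr (Equiv.ofInjective Ψ hΨ)
    have e2 : Nat.card Ψ.range ∣
        Nat.card ((q : n.primeFactors) → groupCohomology (Rep.res (P q.1).subtype B) 2) :=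
      AddSubgroup.card_addSubgroup_dvd_card _
    rw [Nat.card_pi] at e2
    have e3 : (∏ q : n.primeFactors,
        Nat.card (groupCohomology (Rep.res (P q.1).subtype B) 2)) ∣
        ∏ q : n.primeFactors, q.1 ^ n.factorization q.1 := by
      apply Finset.prod_dvd_prod_of_dvd
      intro q _
      have := h2 q.1 q.2
      rwa [hP q.1 q.2] at this
    have e4 : (∏ q : n.primeFactors, q.1 ^ n.factorization q.1) = n := by
      rw [Finset.prod_coe_sort n.primeFactors (fun q => q ^ n.factorization q)]
      exact Nat.prod_factorization_pow_eq_self hn0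
    rw [e1]
    refine e2.trans ?_
    calc _ ∣ ∏ q : n.primeFactors, q.1 ^ n.factorization q.1 := e3
      _ = n := e4

/-- **Dévissage.** -/
theorem devissage_aux (hT : TransferInput k) (hI : InfResInput k) :
    ∀ (n : ℕ) (H : Type) [Group H] [Finite H] (B : Rep.{0} k H), Nat.card H = n →
      PrimeLayers B →
      Subsingleton (groupCohomology B 1) ∧ Nat.card (groupCohomology B 2) ∣ Nat.card H := by
  intro n
  induction n using Nat.strong_induction_on with
  | _ n ih =>
  intro H _ _ B hcard hB
  have hn0 : n ≠ 0 := hcard ▸ Nat.card_pos.ne'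
  by_cases hn1 : n = 1
  · -- trivial group
    have : Subsingleton H := (Nat.card_eq_one_iff_unique.mp (hcard.trans hn1)).1
    have := subsingleton_groupCohomology_succ B 1
    exact ⟨subsingleton_groupCohomology_succ B 0, by simp [Nat.card_unique]⟩
  set p := n.minFac with hp
  have hpp : p.Prime := Nat.minFac_prime hn1
  have : Fact p.Prime := ⟨hpp⟩
  by_cases hpow : ∃ m, n = p ^ m
  · -- `p`-group
    obtain ⟨m, hm⟩ := hpow
    have hm0 : m ≠ 0 := by
      rintro rfl
      exact hn1 (by simpa using hm)
    obtain ⟨m', rfl⟩ := Nat.exists_eq_succ_of_ne_zero hm0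
    obtain ⟨K, hK⟩ := Sylow.exists_subgroup_card_pow_prime p (n := m')
      (G := H) (by rw [hcard, hm]; exact pow_dvd_pow p (Nat.le_succ m'))
    have hidx : K.index = p := by
      have := Subgroup.card_mul_index K
      rw [hK, hcard, hm, pow_succ] at this
      exact Nat.eq_of_mul_eq_mul_left (pow_pos hpp.pos _) this
    have : K.Normal := Subgroup.normal_of_index_eq_minFac_card (by rw [hidx, hcard])
    have hKlt : Nat.card K < n := by
      rw [hK, hm]
      exact Nat.pow_lt_pow_right hpp.one_lt (Nat.lt_succ_self m')
    obtain ⟨hK1, hK2⟩ := ih (Nat.card K) hKlt K (Rep.res K.subtype B) rfl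
      (hB.res K.subtype K.subtype_injective)
    obtain ⟨hq1, hq2⟩ := hB H (MonoidHom.id H) Function.injective_id K p hpp hidx
    have := step_normal hI B K p hq1 hq2 hK1 hK2
    refine ⟨this.1, ?_⟩
    have h2 := this.2
    rwa [← hidx, mul_comm, Subgroup.card_mul_index] at h2
  · -- not a prime power: all Sylow subgroups are proper
    simp only [not_exists] at hpow
    let P : ℕ → Subgroup H := fun q =>
      if hq : q.Prime then
        haveI : Fact q.Prime := ⟨hq⟩
        ((Classical.arbitrary (Sylow q H) : Sylow q H) : Subgroup H)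
      else ⊥
    have hPcard : ∀ q ∈ (Nat.card H).primeFactors,
        Nat.card (P q) = q ^ (Nat.card H).factorization q := by
      intro q hq
      have hqp : q.Prime := Nat.prime_of_mem_primeFactors hq
      have : Fact q.Prime := ⟨hqp⟩
      simp only [P, dif_pos hqp]
      exact Sylow.card_eq_multiplicity _
    have hPlt : ∀ q ∈ (Nat.card H).primeFactors, Nat.card (P q) < n := by
      intro q hq
      have hqp : q.Prime := Nat.prime_of_mem_primeFactors hq
      rw [hPcard q hq, hcard]
      refine lt_of_le_of_ne (Nat.le_of_dvd (Nat.pos_of_ne_zero hn0) (Nat.ordProj_dvd n q)) ?_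
      intro heq
      -- then `n` is a power of `q`, and `q = minFac n`
      have hqn : q ∣ n := by
        have := Nat.dvd_of_mem_primeFactors hq
        rwa [hcard] at this
      have hv : n.factorization q ≠ 0 := by
        intro h0
        rw [h0, pow_zero] at heq
        exact hn1 heq.symm
      have hpq : p = q := by
        have hpd : p ∣ q ^ n.factorization q := by
          rw [heq]
          exact Nat.minFac_dvd n
        exact (Nat.prime_dvd_prime_iff_eq hpp hqp).mp (hpp.dvd_of_dvd_pow hpd)
      exact hpow (n.factorization q) (by rw [hpq]; exact heq.symm)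
    have hres : ∀ q ∈ (Nat.card H).primeFactors,
        Subsingleton (groupCohomology (Rep.res (P q).subtype B) 1) ∧
        Nat.card (groupCohomology (Rep.res (P q).subtype B) 2) ∣ Nat.card (P q) :=
      fun q hq => ih (Nat.card (P q)) (hPlt q hq) (P q) (Rep.res (P q).subtype B) rfl
        (hB.res (P q).subtype (P q).subtype_injective)
    exact step_sylow hT B P hPcard (fun q hq => (hres q hq).1) (fun q hq => (hres q hq).2)

/-- **Dévissage**: if every cyclic layer of prime degree has `H¹ = 0` and `|H²| ∣ p`, then
`H¹(H, B) = 0` and `|H²(H, B)|` divides `|H|` (in particular `H²(H, B)` is finite). -/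
theorem devissage (hT : TransferInput k) (hI : InfResInput k) {H : Type} [Group H] [Finite H]
    (B : Rep.{0} k H) (hB : PrimeLayers B) :
    Subsingleton (groupCohomology B 1) ∧ Nat.card (groupCohomology B 2) ∣ Nat.card H :=
  devissage_aux hT hI _ H B rfl hB

/-- The same for every subgroup, given as an injective homomorphism. -/
theorem devissage_res (hT : TransferInput k) (hI : InfResInput k) {H : Type} [Group H]
    (B : Rep.{0} k H) (hB : PrimeLayers B) {H' : Type} [Group H'] [Finite H'] (f : H' →* H)
    (hf : Function.Injective f) :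
    Subsingleton (groupCohomology (Rep.res f B) 1) ∧
      Nat.card (groupCohomology (Rep.res f B) 2) ∣ Nat.card H' :=
  devissage hT hI _ (hB.res f hf)

/-- The same for every subgroup. -/
theorem devissage_subgroup (hT : TransferInput k) (hI : InfResInput k) {H : Type} [Group H]
    [Finite H] (B : Rep.{0} k H) (hB : PrimeLayers B) (S : Subgroup H) :
    Subsingleton (groupCohomology (Rep.res S.subtype B) 1) ∧
      Nat.card (groupCohomology (Rep.res S.subtype B) 2) ∣ Nat.card S :=
  devissage_res hT hI B hB S.subtype S.subtype_injective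

end Fermat.Agent.CFT.H40
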