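import Mathlib
import Fermat.Agent.CFT.H33_CorRes
import Fermat.Agent.CFT.H40_Devissage

/-!
# CFT / C-H1H2 (helper40): discharging the layer-A inputs of the dévissage

* `transferInput` : from helper33's `resS`/`corS` (`H33_CorRes`).
-/

set_option autoImplicit false

noncomputable section

open CategoryTheory

namespace Fermat.Agent.CFT.H40

/-- helper33's restriction/corestriction give the transfer input in every degree. -/
theorem hasTransfer {k : Type} [CommRing k] (n : ℕ) {G : Type} [Group G] [Finite G]
    (A : Rep.{0} k G) (S : Subgroup G) : HasTransfer n A S :=
  ⟨(H33.resS S A n).hom.toAddMonoidHom, (H33.corS S A n).hom.toAddMonoidHom,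
    fun x => H33.corS_resS_apply S A n x⟩

theorem transferInput (k : Type) [CommRing k] : TransferInput k :=
  fun n _ _ _ _ A S => hasTransfer n A S

/-- The dévissage with only the inflation–restriction input left. -/
theorem devissage' {k : Type} [CommRing k] (hI : InfResInput k) {H : Type} [Group H] [Finite H]
    (B : Rep.{0} k H) (hB : PrimeLayers B) :
    Subsingleton (groupCohomology B 1) ∧ Nat.card (groupCohomology B 2) ∣ Nat.card H :=
  devissage (transferInput k) hI B hB

end Fermat.Agent.CFT.H40
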