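import Mathlib
import Fermat.Agent.CFT.H85_InfRes
import Fermat.Agent.CFT.H40_DevissageInst

/-!
# CFT / C-H1H2 (helper40): the hypothesis-free dévissage

* `infResInput` : the degree-2 inflation–restriction input, from helper85's `H85_InfRes`.
* `devissage''` : for a finite group `H` and `B : Rep k H`, if every cyclic layer of prime
  degree `p` (i.e. `H'/N` acting on `B^N`, `H' → H` injective, `N ⊴ H'` of index `p`) has
  trivial `H¹` and `#H² ∣ p`, then `H¹(H,B) = 0` and `#H²(H,B) ∣ #H`.
* `devissage_subgroup''` : the same conclusion for every subgroup of `H`.
-/

set_option autoImplicit false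

noncomputable section

open CategoryTheory

namespace Fermat.Agent.CFT.H40

theorem infResInput (k : Type) [CommRing k] : InfResInput k := by
  intro G _ _ A S _ h1
  have hA : ∀ i, 1 ≤ i → i < 2 → Limits.IsZero (groupCohomology (Rep.res S.subtype A) i) := by
    intro i hi1 hi2
    obtain rfl : i = 1 := by omega
    exact h1
  refine ⟨H85.inflation_injective (A := A) (S := S) (n := 2) (by norm_num) hA, ?_⟩
  intro x hx
  exact H85.exists_inflation_eq_of_restriction_eq_zero (A := A) (S := S) (n := 2)
    (by norm_num) hA x hx

/-- **Dévissage, final form**: no hypotheses other than the prime layers. -/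
theorem devissage'' {k : Type} [CommRing k] {H : Type} [Group H] [Finite H]
    (B : Rep.{0} k H) (hB : PrimeLayers B) :
    Subsingleton (groupCohomology B 1) ∧ Nat.card (groupCohomology B 2) ∣ Nat.card H :=
  devissage (transferInput k) (infResInput k) B hB

/-- The same after restriction along any injective homomorphism from a finite group. -/
theorem devissage_res'' {k : Type} [CommRing k] {H : Type} [Group H]
    (B : Rep.{0} k H) (hB : PrimeLayers B) {H' : Type} [Group H'] [Finite H'] (f : H' →* H)
    (hf : Function.Injective f) :
    Subsingleton (groupCohomology (Rep.res f B) 1) ∧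
      Nat.card (groupCohomology (Rep.res f B) 2) ∣ Nat.card H' :=
  devissage_res (transferInput k) (infResInput k) B hB f hf

/-- The same for every subgroup. -/
theorem devissage_subgroup'' {k : Type} [CommRing k] {H : Type} [Group H] [Finite H]
    (B : Rep.{0} k H) (hB : PrimeLayers B) (S : Subgroup H) :
    Subsingleton (groupCohomology (Rep.res S.subtype B) 1) ∧
      Nat.card (groupCohomology (Rep.res S.subtype B) 2) ∣ Nat.card S :=
  devissage_subgroup (transferInput k) (infResInput k) B hB S

end Fermat.Agent.CFT.H40
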