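import Mathlib

set_option autoImplicit false
set_option linter.style.haveILetI false

universe u

open CategoryTheory CategoryTheory.Limits

noncomputable section

namespace Fermat.Agent.CFT.H49

variable {k : Type u} [CommRing k]

/-! ## The representation on functions `G → V` by right translation -/

/-- `G` acts on `G → V` by `(g • f) x = f (x * g)`. -/
def funRho (G : Type u) [Group G] (V : Type u) [AddCommGroup V] [Module k V] :
    Representation k G (G → V) where
  toFun g := LinearMap.funLeft k V (fun x => x * g)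
  map_one' := by ext f x; simp
  map_mul' g h := by ext f x; simp [mul_assoc]

@[simp]
theorem funRho_apply (G : Type u) [Group G] (V : Type u) [AddCommGroup V] [Module k V]
    (g : G) (f : G → V) (x : G) : funRho (k := k) G V g f x = f (x * g) := rfl

/-- The coinduced-from-the-trivial-subgroup representation on `G → V`. -/
abbrev funRep (G : Type u) [Group G] (V : Type u) [AddCommGroup V] [Module k V] : Rep k G :=
  Rep.of (funRho (k := k) G V)

/-! ## (i) Shapiro: `funRep G V` is acyclic -/

/-- The underlying linear equivalence of `funRepIsoCoind`. -/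
def funLinearEquivCoindV (G : Type u) [Group G] (V : Type u) [AddCommGroup V] [Module k V] :
    (G → V) ≃ₗ[k]
      Representation.coindV (⊥ : Subgroup G).subtype (Representation.trivial k (⊥ : Subgroup G) V) where
  toFun f := ⟨f, fun g h => by
    have hg : (g : G) = 1 := Subgroup.mem_bot.1 g.2
    simp [hg]⟩
  map_add' _ _ := rfl
  map_smul' _ _ := rfl
  invFun f := f.1
  left_inv _ := rfl
  right_inv _ := rfl

/-- `funRep G V` is the representation coinduced from the trivial subgroup. -/
def funRepIsoCoind (G : Type u) [Group G] (V : Type u) [AddCommGroup V] [Module k V] :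
    funRep (k := k) G V ≅
      Rep.coind (⊥ : Subgroup G).subtype (Rep.trivial k (⊥ : Subgroup G) V) :=
  Rep.mkIso (Representation.Equiv.mk (funLinearEquivCoindV G V) fun g => by
    ext f x
    rfl)

/-- Shapiro's lemma: `Hⁿ⁺¹(G, Fun(G, V)) = 0`. -/
theorem isZero_groupCohomology_funRep (G : Type u) [Group G] (V : Type u) [AddCommGroup V]
    [Module k V] (n : ℕ) : IsZero (groupCohomology (funRep (k := k) G V) (n + 1)) := by
  have e1 := (groupCohomology.functor k G (n + 1)).mapIso (funRepIsoCoind (k := k) G V)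
  have e2 := groupCohomology.coindIso (Rep.trivial k (⊥ : Subgroup G) V) (n + 1)
  exact (isZero_groupCohomology_succ_of_subsingleton _ n).of_iso (e1 ≪≫ e2)

/-! ## (ii) Restriction of `funRep G V` to a subgroup is again of the form `funRep` -/

theorem out_inv_mul_mem {G : Type u} [Group G] (S : Subgroup G) (x : G) :
    ((QuotientGroup.mk x : G ⧸ S).out)⁻¹ * x ∈ S :=
  QuotientGroup.eq.1 (QuotientGroup.out_eq' _)

/-- `Fun(G, V) ≃ Fun(S, Fun(G ⧸ S, V))`, via `x = q.out * m`. -/
def funResLinearEquiv {G : Type u} [Group G] (S : Subgroup G) (V : Type u) [AddCommGroup V]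
    [Module k V] : (G → V) ≃ₗ[k] (S → (G ⧸ S → V)) where
  toFun f := fun m q => f (q.out * m)
  map_add' _ _ := rfl
  map_smul' _ _ := rfl
  invFun F := fun x => F ⟨((QuotientGroup.mk x : G ⧸ S).out)⁻¹ * x, out_inv_mul_mem S x⟩
    (QuotientGroup.mk x)
  left_inv f := by
    funext x
    simp
  right_inv F := by
    funext m q
    have hq : (QuotientGroup.mk (q.out * (m : G)) : G ⧸ S) = q := by
      rw [QuotientGroup.mk_mul_of_mem _ m.2, QuotientGroup.out_eq']
    have key : ∀ (q' : G ⧸ S) (_ : q' = q) (h : q'.out⁻¹ * (q.out * (m : G)) ∈ S),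
        F ⟨q'.out⁻¹ * (q.out * (m : G)), h⟩ q' = F m q := by
      rintro q' rfl h
      have : (⟨q'.out⁻¹ * (q'.out * (m : G)), h⟩ : S) = m := Subtype.ext (by simp)
      rw [this]
    exact key _ hq _

/-- The restriction of `funRep G V` to a subgroup `S` is `funRep S (G ⧸ S → V)`. -/
def resFunRepIso {G : Type u} [Group G] (S : Subgroup G) (V : Type u) [AddCommGroup V]
    [Module k V] :
    Rep.res S.subtype (funRep (k := k) G V) ≅ funRep (k := k) S (G ⧸ S → V) :=
  Rep.mkIso (Representation.Equiv.mk (funResLinearEquiv S V) fun s => by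
    ext f m q
    simp [funResLinearEquiv, mul_assoc])

/-- `Hⁿ⁺¹(S, Fun(G, V)) = 0` for every subgroup `S` of `G`. -/
theorem isZero_groupCohomology_res_funRep {G : Type u} [Group G] (S : Subgroup G) (V : Type u)
    [AddCommGroup V] [Module k V] (n : ℕ) :
    IsZero (groupCohomology (Rep.res S.subtype (funRep (k := k) G V)) (n + 1)) :=
  (isZero_groupCohomology_funRep (k := k) S (G ⧸ S → V) n).of_iso
    ((groupCohomology.functor k S (n + 1)).mapIso (resFunRepIso (k := k) S V))

/-! ## (iii) The `N`-invariants of `funRep G V` are `funRep (G ⧸ N) V` -/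

/-- `Fun(G ⧸ N, V) ≃ Fun(G, V)ᴺ`. -/
def funInvLinearEquiv {G : Type u} [Group G] (N : Subgroup G) [N.Normal] (V : Type u)
    [AddCommGroup V] [Module k V] :
    (G ⧸ N → V) ≃ₗ[k] Representation.invariants ((funRho (k := k) G V).comp N.subtype) where
  toFun F := ⟨fun x => F (QuotientGroup.mk x), fun n => by
    funext x
    simp [QuotientGroup.mk_mul_of_mem _ n.2]⟩
  map_add' _ _ := rfl
  map_smul' _ _ := rfl
  invFun f := fun q => f.1 q.out
  left_inv F := by
    funext q
    simp
  right_inv f := by
    apply Subtype.ext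
    funext x
    have h := congrFun (f.2 ⟨_, out_inv_mul_mem N x⟩) ((QuotientGroup.mk x : G ⧸ N).out)
    simpa using h.symm

/-- The `N`-invariants of `funRep G V`, as a representation of `G ⧸ N`, are `funRep (G ⧸ N) V`. -/
def funRepQuotientIso {G : Type u} [Group G] (N : Subgroup G) [N.Normal] (V : Type u)
    [AddCommGroup V] [Module k V] :
    funRep (k := k) (G ⧸ N) V ≅ (funRep (k := k) G V).quotientToInvariants N :=
  Rep.mkIso (Representation.Equiv.mk (funInvLinearEquiv (k := k) N V) fun g => by
    induction g using QuotientGroup.induction_on with | H g =>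
    ext F x
    rfl)

/-- `Hⁿ⁺¹(G ⧸ N, Fun(G, V)ᴺ) = 0`. -/
theorem isZero_groupCohomology_quotientToInvariants_funRep {G : Type u} [Group G]
    (N : Subgroup G) [N.Normal] (V : Type u) [AddCommGroup V] [Module k V] (n : ℕ) :
    IsZero (groupCohomology ((funRep (k := k) G V).quotientToInvariants N) (n + 1)) :=
  (isZero_groupCohomology_funRep (k := k) (G ⧸ N) V n).of_iso
    ((groupCohomology.functor k (G ⧸ N) (n + 1)).mapIso (funRepQuotientIso (k := k) N V)).symm

/-! ## (iv) Exactness of invariants when `H¹` vanishes -/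

/-- Elementwise characterisation of short exact sequences of representations. -/
theorem rep_shortExact_iff {G : Type u} [Group G] (X : ShortComplex (Rep.{u} k G)) :
    X.ShortExact ↔ Function.Injective X.f.hom ∧ Function.Surjective X.g.hom ∧
      ∀ x : X.X₂, X.g.hom x = 0 → ∃ y : X.X₁, X.f.hom y = x := by
  constructor
  · intro hX
    refine ⟨(Rep.mono_iff_injective _).1 hX.mono_f, (Rep.epi_iff_surjective _).1 hX.epi_g, ?_⟩
    exact (ShortComplex.moduleCat_exact_iff _).1
      (hX.exact.map (forget₂ (Rep k G) (ModuleCat k)))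
  · rintro ⟨h1, h2, h3⟩
    exact
      { exact := (forget₂ (Rep.{u} k G) (ModuleCat k)).reflects_exact_of_faithful _ <|
          (ShortComplex.moduleCat_exact_iff _).2 h3
        mono_f := (Rep.mono_iff_injective _).2 h1
        epi_g := (Rep.epi_iff_surjective _).2 h2 }

/-- If `H¹(G, A) = 0` then every `1`-cocycle is a coboundary. -/
theorem exists_eq_sub_of_isZero_H1 {G : Type u} [Group G] (A : Rep.{u} k G)
    (h : IsZero (groupCohomology A 1)) (b : G → A) (hb : b ∈ groupCohomology.cocycles₁ A) :
    ∃ a : A, ∀ g : G, b g = A.ρ g a - a := by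
  have h0 : groupCohomology.H1π A ⟨b, hb⟩ = 0 :=
    (ModuleCat.isZero_iff_subsingleton.1 h).elim _ _
  obtain ⟨a, ha⟩ := (groupCohomology.H1π_eq_zero_iff _).1 h0
  exact ⟨a, fun g => (congrFun ha g).symm⟩

theorem quotientToInvariantsFunctor_map_hom_apply_val {G : Type u} [Group G] (N : Subgroup G)
    [N.Normal] {A B : Rep.{u} k G} (f : A ⟶ B) (z : A.quotientToInvariants N) :
    (((Rep.quotientToInvariantsFunctor k N).map f).hom z).1 = f.hom z.1 := rfl

instance quotientToInvariantsFunctor_preservesZeroMorphisms {G : Type u} [Group G]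
    (N : Subgroup G) [N.Normal] :
    (Rep.quotientToInvariantsFunctor.{u} k N).PreservesZeroMorphisms where
  map_zero A B := by
    ext z
    rfl

/-- If `0 → X₁ → X₂ → X₃ → 0` is a short exact sequence of `G`-representations and
`H¹(N, X₁) = 0` then `0 → X₁ᴺ → X₂ᴺ → X₃ᴺ → 0` is a short exact sequence of
`G ⧸ N`-representations. -/
theorem shortExact_map_quotientToInvariants {G : Type u} [Group G] (N : Subgroup G) [N.Normal]
    {X : ShortComplex (Rep.{u} k G)} (hX : X.ShortExact)
    (h1 : IsZero (groupCohomology (Rep.res N.subtype X.X₁) 1)) :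
    (X.map (Rep.quotientToInvariantsFunctor k N)).ShortExact := by
  obtain ⟨hinj, hsurj, hex⟩ := (rep_shortExact_iff X).1 hX
  refine (rep_shortExact_iff _).2 ⟨?_, ?_, ?_⟩
  · intro a b hab
    apply Subtype.ext
    apply hinj
    exact congrArg Subtype.val hab
  · intro z
    obtain ⟨y, hy⟩ := hsurj z.1
    have hc : ∀ n : N, ∃ b : X.X₁, X.f.hom b = X.X₂.ρ n y - y := fun n => by
      apply hex
      have hz := z.2 n
      rw [map_sub, Rep.hom_comm_apply, hy]
      exact sub_eq_zero.2 hz
    choose b hb using hc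
    have hcocycle : b ∈ groupCohomology.cocycles₁ (Rep.res N.subtype X.X₁) := by
      rw [groupCohomology.mem_cocycles₁_iff]
      intro n m
      apply hinj
      rw [map_add, hb, hb, Rep.coe_res_obj_ρ', Rep.hom_comm_apply, hb]
      simp only [Subgroup.coe_mul, map_mul, Module.End.mul_apply, map_sub, Subgroup.subtype_apply]
      abel
    obtain ⟨a, ha⟩ := exists_eq_sub_of_isZero_H1 _ h1 b hcocycle
    have hmem : ∀ n : N, X.X₂.ρ (n : G) (y - X.f.hom a) = y - X.f.hom a := by
      intro n
      have h2 := hb n
      rw [ha n, Rep.coe_res_obj_ρ', map_sub, Rep.hom_comm_apply, Subgroup.subtype_apply] at h2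
      rw [map_sub]
      rw [sub_eq_sub_iff_add_eq_add] at h2 ⊢
      rw [← h2, add_comm]
    have hga : X.g.hom (X.f.hom a) = 0 := congrArg (fun φ => φ.hom a) X.zero
    refine ⟨⟨y - X.f.hom a, fun n => hmem n⟩, Subtype.ext ?_⟩
    change X.g.hom (y - X.f.hom a) = z.1
    rw [map_sub, hy, hga, sub_zero]
  · intro y hy
    obtain ⟨a, ha⟩ := hex y.1 (congrArg Subtype.val hy)
    refine ⟨⟨a, fun n => hinj ?_⟩, Subtype.ext ha⟩
    have hyn := y.2 n
    change X.f.hom (X.X₁.ρ n a) = X.f.hom a
    rw [Rep.hom_comm_apply, ha]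
    exact hyn

/-! ## The dimension-shifting short exact sequence `0 → B → Fun(G, B) → B' → 0` -/

/-- `a ↦ (x ↦ ρ x a)` as a linear map. -/
def toFunLin {G : Type u} [Group G] {V : Type u} [AddCommGroup V] [Module k V]
    (ρ : Representation k G V) : V →ₗ[k] (G → V) where
  toFun a := fun x => ρ x a
  map_add' a b := by funext x; simp
  map_smul' c a := by funext x; simp

@[simp]
theorem toFunLin_apply {G : Type u} [Group G] {V : Type u} [AddCommGroup V] [Module k V]
    (ρ : Representation k G V) (a : V) (x : G) : toFunLin ρ a x = ρ x a := rfl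

/-- The canonical embedding `B ⟶ Fun(G, B)`, `a ↦ (x ↦ ρ x a)`. -/
def toFunRep {G : Type u} [Group G] (B : Rep.{u} k G) : B ⟶ funRep (k := k) G B.V :=
  Rep.ofHom (ρ := B.ρ) ⟨toFunLin B.ρ, fun g => by ext a x; simp⟩

theorem toFunRep_hom_apply {G : Type u} [Group G] (B : Rep.{u} k G) (a : B.V) (x : G) :
    (toFunRep B).hom a x = B.ρ x a := rfl

theorem toFunRep_injective {G : Type u} [Group G] (B : Rep.{u} k G) :
    Function.Injective (toFunRep B).hom := fun a b h => by
  have := congrFun h 1
  rw [toFunRep_hom_apply, toFunRep_hom_apply] at this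
  simpa using this

/-- The short complex `B ⟶ Fun(G, B) ⟶ B'`, where `B'` is the cokernel. -/
def dimShift {G : Type u} [Group G] (B : Rep.{u} k G) : ShortComplex (Rep.{u} k G) :=
  ShortComplex.mk (toFunRep B) (cokernel.π (toFunRep B)) (cokernel.condition _)

theorem dimShift_shortExact {G : Type u} [Group G] (B : Rep.{u} k G) :
    (dimShift B).ShortExact :=
  { exact := ShortComplex.exact_cokernel _
    mono_f := (Rep.mono_iff_injective _).2 (toFunRep_injective B)
    epi_g := by dsimp [dimShift]; infer_instance }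

end Fermat.Agent.CFT.H49
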