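import Fermat.Agent.CFT.H49_CohTriv
import Fermat.Agent.CFT.H49_CoindBot

set_option autoImplicit false
set_option linter.style.haveILetI false

universe u

open CategoryTheory CategoryTheory.Limits

noncomputable section

namespace Fermat.Agent.CFT.H49

variable {k : Type u} [CommRing k]

/-- Weak form of inflation-restriction in all degrees: if `Hⁱ(N, B) = 0` for all `i ≥ 1` then
`Hⁿ(H ⧸ N, Bᴺ)` vanishes iff `Hⁿ(H, B)` does (`n ≥ 1`).  Proof by dimension shifting. -/
theorem infIso_aux {H : Type u} [Group H] (N : Subgroup H) [N.Normal] :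
    ∀ (n : ℕ) (B : Rep.{u} k H),
      (∀ i, 1 ≤ i → IsZero (groupCohomology (Rep.res N.subtype B) i)) →
      (IsZero (groupCohomology (B.quotientToInvariants N) (n + 1)) ↔
        IsZero (groupCohomology B (n + 1))) := by
  intro n
  induction n with
  | zero =>
    intro B hB
    have hex := groupCohomology.H1InfRes_exact B N
    have hz : IsZero (groupCohomology.H1InfRes B N).X₃ := hB 1 le_rfl
    haveI : Epi (groupCohomology.H1InfRes B N).f := hex.epi_f (hz.eq_of_tgt _ _)
    haveI : IsIso (groupCohomology.H1InfRes B N).f := isIso_of_mono_of_epi _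
    exact (asIso (groupCohomology.H1InfRes B N).f).isZero_iff
  | succ n ih =>
    intro B hB
    have hX := dimShift_shortExact B
    have hXN : ((dimShift B).map (Rep.resFunctor N.subtype)).ShortExact :=
      (Rep.shortExact_res N.subtype).2 hX
    have hQ := shortExact_map_quotientToInvariants N hX (hB 1 le_rfl)
    have hmidH : ∀ i, IsZero (groupCohomology (dimShift B).X₂ (i + 1)) :=
      isZero_groupCohomology_funRep H B.V
    have hmidN : ∀ i, IsZero (groupCohomology
        ((dimShift B).map (Rep.resFunctor N.subtype)).X₂ (i + 1)) :=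
      isZero_groupCohomology_res_funRep N B.V
    have hmidQ : ∀ i, IsZero (groupCohomology
        ((dimShift B).map (Rep.quotientToInvariantsFunctor k N)).X₂ (i + 1)) :=
      isZero_groupCohomology_quotientToInvariants_funRep N B.V
    have hB' : ∀ i, 1 ≤ i → IsZero (groupCohomology (Rep.res N.subtype (dimShift B).X₃) i) := by
      intro i hi
      obtain ⟨j, rfl⟩ := Nat.exists_eq_succ_of_ne_zero (by omega : i ≠ 0)
      have hiso := groupCohomology.isIso_δ_of_isZero hXN (j + 1) (hmidN j) (hmidN (j + 1))
      exact (hB (j + 1 + 1) (by omega)).of_iso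
        (@asIso _ _ _ _ (groupCohomology.δ hXN (j + 1) (j + 1 + 1) rfl) hiso)
    have e1 : IsZero (groupCohomology (dimShift B).X₃ (n + 1)) ↔
        IsZero (groupCohomology B (n + 2)) := by
      haveI := groupCohomology.isIso_δ_of_isZero hX (n + 1) (hmidH n) (hmidH (n + 1))
      exact (asIso (groupCohomology.δ hX (n + 1) (n + 2) rfl)).isZero_iff
    have e2 : IsZero (groupCohomology ((dimShift B).X₃.quotientToInvariants N) (n + 1)) ↔
        IsZero (groupCohomology (B.quotientToInvariants N) (n + 2)) := by
      haveI := groupCohomology.isIso_δ_of_isZero hQ (n + 1) (hmidQ n) (hmidQ (n + 1))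
      exact (asIso (groupCohomology.δ hQ (n + 1) (n + 2) rfl)).isZero_iff
    exact e2.symm.trans ((ih (dimShift B).X₃ hB').trans e1)

/-- **T1, weak form**: the hypothesis `InfIsoHyp k` of `H49_CohTriv` holds. -/
theorem infIsoHyp : InfIsoHyp k := by
  intro H _ N _ B hB n hn
  obtain ⟨m, rfl⟩ := Nat.exists_eq_succ_of_ne_zero (by omega : n ≠ 0)
  exact infIso_aux N m B hB

end Fermat.Agent.CFT.H49
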