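import Fermat.Agent.CFT.H49_CohTrivSylow
import Fermat.Agent.CFT.H49_InfIso
import Fermat.Agent.CFT.A_Defs

set_option autoImplicit false

universe u

open CategoryTheory CategoryTheory.Limits

namespace Fermat.Agent.CFT.H49

variable {k : Type u} [CommRing k]

/-- **Nakayama-Tate criterion, positive degrees, unconditional** (injective-homomorphism form).
If for some `q ≥ 1` the groups `H^q(S, A)` and `H^(q+1)(S, A)` vanish for all subgroups `S` of
the finite group `G`, then `Hⁿ(S, A) = 0` for all `n ≥ 1` and all subgroups `S`. -/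
theorem cohVanish_all_final {G : Type u} [Group G] [Finite G]
    (A : Rep k G) (q : ℕ) (hq : 1 ≤ q) (h0 : CohVanish A q) (h1 : CohVanish A (q + 1))
    (n : ℕ) (hn : 1 ≤ n) : CohVanish A n :=
  cohVanish_all' infIsoHyp A q hq h0 h1 n hn

/-- Subgroup form of `cohVanish_all_final` (`IsZero` version). -/
theorem isZero_groupCohomology_subgroup_final {G : Type u} [Group G] [Finite G]
    (A : Rep k G) (q : ℕ) (hq : 1 ≤ q)
    (h0 : ∀ S : Subgroup G, IsZero (groupCohomology (Rep.res S.subtype A) q))
    (h1 : ∀ S : Subgroup G, IsZero (groupCohomology (Rep.res S.subtype A) (q + 1)))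
    (S : Subgroup G) (n : ℕ) (hn : 1 ≤ n) :
    IsZero (groupCohomology (Rep.res S.subtype A) n) :=
  isZero_groupCohomology_subgroup' infIsoHyp A q hq h0 h1 S n hn

/-- Subgroup form of `cohVanish_all_final` (`Subsingleton` version). -/
theorem subsingleton_groupCohomology_subgroup_final {G : Type u} [Group G] [Finite G]
    (A : Rep k G) (q : ℕ) (hq : 1 ≤ q)
    (h0 : ∀ S : Subgroup G, Subsingleton (groupCohomology (Rep.res S.subtype A) q))
    (h1 : ∀ S : Subgroup G, Subsingleton (groupCohomology (Rep.res S.subtype A) (q + 1)))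
    (S : Subgroup G) (n : ℕ) (hn : 1 ≤ n) :
    Subsingleton (groupCohomology (Rep.res S.subtype A) n) :=
  ModuleCat.isZero_iff_subsingleton.1 <|
    isZero_groupCohomology_subgroup_final A q hq
      (fun S => ModuleCat.isZero_iff_subsingleton.2 (h0 S))
      (fun S => ModuleCat.isZero_iff_subsingleton.2 (h1 S)) S n hn

/-- Weak inflation-restriction, `Subsingleton` version: if `Hⁱ(N, B) = 0` for all `i ≥ 1` then
`Hⁿ(H ⧸ N, Bᴺ) = 0 ↔ Hⁿ(H, B) = 0` for `n ≥ 1`. -/
theorem subsingleton_quotientToInvariants_iff {H : Type u} [Group H] (N : Subgroup H) [N.Normal]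
    (B : Rep k H)
    (hB : ∀ i, 1 ≤ i → Subsingleton (groupCohomology (Rep.res N.subtype B) i))
    (n : ℕ) (hn : 1 ≤ n) :
    Subsingleton (groupCohomology (B.quotientToInvariants N) n) ↔
      Subsingleton (groupCohomology B n) := by
  rw [← ModuleCat.isZero_iff_subsingleton, ← ModuleCat.isZero_iff_subsingleton]
  exact infIsoHyp H N B (fun i hi => ModuleCat.isZero_iff_subsingleton.2 (hB i hi)) n hn

/-- The layer-A predicate `A.IsCohTrivPos` from two consecutive vanishing degrees. -/
theorem isCohTrivPos_of_twin {k : Type} [CommRing k] {G : Type} [Group G] [Finite G]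
    (A : Rep.{0} k G) (q : ℕ) (hq : 1 ≤ q)
    (h0 : ∀ S : Subgroup G, Subsingleton (groupCohomology (Rep.res S.subtype A) q))
    (h1 : ∀ S : Subgroup G, Subsingleton (groupCohomology (Rep.res S.subtype A) (q + 1))) :
    Fermat.Agent.CFT.A.IsCohTrivPos A :=
  fun S n hn => subsingleton_groupCohomology_subgroup_final A q hq h0 h1 S n hn

end Fermat.Agent.CFT.H49
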