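import Mathlib
import Fermat.Agent.CFT.H49_CohTriv
import Fermat.Agent.CFT.H33_CorRes

set_option autoImplicit false

universe u

open CategoryTheory CategoryTheory.Limits

namespace Fermat.Agent.CFT.H49

variable {k : Type u} [CommRing k]

/-- The Sylow criterion (package T2, `H33.subsingleton_of_sylow`) in the form used by
`cohVanish_all`. -/
theorem sylowHyp (k : Type u) [CommRing k] : SylowHyp k := by
  intro H _ _ B n _ h
  rw [ModuleCat.isZero_iff_subsingleton]
  apply H33.subsingleton_of_sylow B n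
  intro p hp
  obtain ⟨P, hP⟩ := h p hp
  exact ⟨P, ModuleCat.isZero_iff_subsingleton.1 hP⟩

/-- `cohVanish_all` with the Sylow criterion discharged. -/
theorem cohVanish_all' (hT1 : InfIsoHyp k) {G : Type u} [Group G] [Finite G]
    (A : Rep k G) (q : ℕ) (hq : 1 ≤ q) (h0 : CohVanish A q) (h1 : CohVanish A (q + 1))
    (n : ℕ) (hn : 1 ≤ n) : CohVanish A n :=
  cohVanish_all hT1 (sylowHyp k) A q hq h0 h1 n hn

/-- subgroup form -/
theorem isZero_groupCohomology_subgroup' (hT1 : InfIsoHyp k) {G : Type u}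
    [Group G] [Finite G] (A : Rep k G) (q : ℕ) (hq : 1 ≤ q)
    (h0 : ∀ S : Subgroup G, IsZero (groupCohomology (Rep.res S.subtype A) q))
    (h1 : ∀ S : Subgroup G, IsZero (groupCohomology (Rep.res S.subtype A) (q + 1)))
    (S : Subgroup G) (n : ℕ) (hn : 1 ≤ n) :
    IsZero (groupCohomology (Rep.res S.subtype A) n) :=
  isZero_groupCohomology_subgroup hT1 (sylowHyp k) A q hq h0 h1 S n hn

end Fermat.Agent.CFT.H49
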