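import Mathlib

set_option autoImplicit false
set_option linter.unusedSectionVars false

/-!
# The splitting module of a 2-cocycle (layer A of project CFT, package A-Tate-splitting-module)

For a group `G`, a commutative ring `k`, `A : Rep k G` and a 2-cocycle `γ`, we build the
`G`-module `A(γ) = A × I_G` (with `I_G` the augmentation ideal of `k[G]`, modelled on `G →₀ k`)
with the twisted action `σ (a, w) = (σ a + c_σ w, σ w)`, `c_σ (τ) = γ (σ, τ)`,
and the short exact sequence `0 → A → A(γ) → I_G → 0`.
-/

namespace Fermat.Agent.CFT.H52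

open CategoryTheory groupCohomology Rep

noncomputable section

variable (k G : Type) [CommRing k] [Group G]

/-- The left regular representation of `G` on `G →₀ k`. -/
def regRep : Representation k G (G →₀ k) where
  toFun g := Finsupp.lmapDomain k k (g * ·)
  map_one' := by
    ext x
    simp
  map_mul' x y := by
    ext z
    simp [mul_assoc]

@[simp] lemma regRep_single (g x : G) (n : k) :
    regRep k G g (Finsupp.single x n) = Finsupp.single (g * x) n := by
  simp [regRep]

/-- The augmentation `k[G] → k`. -/
def aug : (G →₀ k) →ₗ[k] k := Finsupp.linearCombination k (fun _ => (1 : k))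

@[simp] lemma aug_single (x : G) (n : k) : aug k G (Finsupp.single x n) = n := by
  simp [aug]

lemma aug_regRep (g : G) (w : G →₀ k) : aug k G (regRep k G g w) = aug k G w := by
  induction w using Finsupp.induction_linear with
  | zero => simp
  | add f g hf hg => simp [hf, hg]
  | single x n => simp

/-- The augmentation ideal as a submodule of `G →₀ k`. -/
def augKer : Submodule k (G →₀ k) := LinearMap.ker (aug k G)

lemma mem_augKer (w : G →₀ k) : w ∈ augKer k G ↔ aug k G w = 0 := LinearMap.mem_ker

lemma regRep_mem_augKer (g : G) {w : G →₀ k} (hw : w ∈ augKer k G) :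
    regRep k G g w ∈ augKer k G := by
  rw [mem_augKer] at hw ⊢
  rw [aug_regRep, hw]

lemma single_sub_single_mem_augKer (x y : G) :
    (Finsupp.single x (1 : k) - Finsupp.single y 1) ∈ augKer k G := by
  rw [mem_augKer]; simp

/-- The representation of `G` on the augmentation ideal. -/
def augRep : Representation k G (augKer k G) where
  toFun g := (regRep k G g).restrict (fun _ hw => regRep_mem_augKer k G g hw)
  map_one' := by
    ext w
    simp
  map_mul' x y := by
    ext w
    simp

@[simp] lemma augRep_coe (g : G) (w : augKer k G) :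
    ((augRep k G g w : augKer k G) : G →₀ k) = regRep k G g (w : G →₀ k) := rfl

variable {k G}
variable (A : Rep.{0} k G) (γ : cocycles₂ A)

/-- The linear map `c_σ : k[G] → A`, `τ ↦ γ (σ, τ)`. -/
def cLin (σ : G) : (G →₀ k) →ₗ[k] A.V := Finsupp.linearCombination k (fun τ => γ (σ, τ))

@[simp] lemma cLin_single (σ τ : G) (n : k) :
    cLin A γ σ (Finsupp.single τ n) = n • γ (σ, τ) := by
  simp [cLin]

lemma cLin_mul (σ ρ : G) (w : G →₀ k) :
    A.ρ σ (cLin A γ ρ w) + cLin A γ σ (regRep k G ρ w) =
      cLin A γ (σ * ρ) w + aug k G w • γ (σ, ρ) := by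
  induction w using Finsupp.induction_linear with
  | zero => simp
  | add f g hf hg =>
    simp only [map_add, add_smul]
    rw [add_add_add_comm, hf, hg]
    abel
  | single τ n =>
    have h := (mem_cocycles₂_iff (A := A) γ).1 γ.2 σ ρ τ
    simp only [cLin_single, regRep_single, aug_single, map_smul]
    rw [← smul_add, ← smul_add]
    congr 1
    rw [h]

lemma cLin_one (w : G →₀ k) : cLin A γ 1 w = aug k G w • γ (1, 1) := by
  induction w using Finsupp.induction_linear with
  | zero => simp
  | add f g hf hg => simp [hf, hg, add_smul]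
  | single τ n => simp [cocycles₂_map_one_fst]

/-- The action of `σ` on `A × I_G` defining the splitting module. -/
def splitAct (σ : G) : (A.V × augKer k G) →ₗ[k] (A.V × augKer k G) :=
  LinearMap.prod
    ((A.ρ σ).coprod ((cLin A γ σ).comp (augKer k G).subtype))
    ((augRep k G σ).comp (LinearMap.snd k A.V (augKer k G)))

@[simp] lemma splitAct_apply (σ : G) (x : A.V × augKer k G) :
    splitAct A γ σ x = (A.ρ σ x.1 + cLin A γ σ (x.2 : G →₀ k), augRep k G σ x.2) := by
  simp [splitAct]

/-- The representation on the splitting module `A(γ) = A × I_G`. -/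
def splitRep : Representation k G (A.V × augKer k G) where
  toFun σ := splitAct A γ σ
  map_one' := by
    apply LinearMap.ext
    intro x
    have hw : aug k G (x.2 : G →₀ k) = 0 := (mem_augKer k G _).1 x.2.2
    simp [cLin_one, hw]
  map_mul' σ ρ := by
    apply LinearMap.ext
    intro x
    have hw : aug k G (x.2 : G →₀ k) = 0 := (mem_augKer k G _).1 x.2.2
    have h := cLin_mul A γ σ ρ (x.2 : G →₀ k)
    rw [hw, zero_smul, add_zero] at h
    simp only [splitAct_apply, Module.End.mul_apply, map_mul, map_add, augRep_coe]
    refine Prod.ext ?_ rfl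
    simp only
    rw [← h]
    abel

/-- The splitting module as an object of `Rep k G`. -/
abbrev splitMod : Rep.{0} k G := Rep.of (X := A.V × augKer k G) (splitRep A γ)

/-- The augmentation ideal as an object of `Rep k G`. -/
abbrev augMod (k G : Type) [CommRing k] [Group G] : Rep.{0} k G :=
  Rep.of (X := augKer k G) (augRep k G)

/-- The inclusion `A → A(γ)`, `a ↦ (a, 0)`, as an intertwining map. -/
def splitInclI : A.ρ.IntertwiningMap (splitRep A γ) :=
  (LinearMap.inl k A.V (augKer k G)).intertwiningMap_of_isIntertwiningMap A.ρ (splitRep A γ) (by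
    intro g v
    change (A.ρ g v, (0 : augKer k G)) = splitAct A γ g (v, 0)
    simp)

/-- The projection `A(γ) → I_G`, `(a, w) ↦ w`, as an intertwining map. -/
def splitProjI : (splitRep A γ).IntertwiningMap (augRep k G) :=
  (LinearMap.snd k A.V (augKer k G)).intertwiningMap_of_isIntertwiningMap (splitRep A γ)
    (augRep k G) (by
    intro g v
    change (splitAct A γ g v).2 = augRep k G g v.2
    simp)

/-- The inclusion `A → A(γ)`, `a ↦ (a, 0)`. -/
def splitIncl : A ⟶ splitMod A γ :=
  ConcreteCategory.ofHom (C := Rep.{0} k G) (X := A) (Y := splitMod A γ) (splitInclI A γ)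

/-- The projection `A(γ) → I_G`, `(a, w) ↦ w`. -/
def splitProj : splitMod A γ ⟶ augMod k G :=
  ConcreteCategory.ofHom (C := Rep.{0} k G) (X := splitMod A γ) (Y := augMod k G) (splitProjI A γ)

@[simp] lemma splitIncl_apply (a : A.V) :
    (splitIncl A γ).hom a = ((a, 0) : A.V × augKer k G) := rfl

@[simp] lemma splitProj_apply (x : A.V × augKer k G) : (splitProj A γ).hom x = x.2 := rfl

/-- The short complex `A → A(γ) → I_G`. -/
def splitSC : ShortComplex (Rep.{0} k G) :=
  ShortComplex.mk (splitIncl A γ) (splitProj A γ) (by
    apply Rep.hom_ext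
    apply Representation.IntertwiningMap.ext
    apply LinearMap.ext
    intro a
    rfl)

lemma splitSC_shortExact : (splitSC A γ).ShortExact where
  exact := by
    rw [← ShortComplex.exact_map_iff_of_faithful _ (forget₂ (Rep.{0} k G) (ModuleCat.{0} k))]
    rw [ShortComplex.moduleCat_exact_iff]
    intro x hx
    refine ⟨(x : A.V × augKer k G).1, ?_⟩
    have h2 : (x : A.V × augKer k G).2 = 0 := hx
    exact Prod.ext rfl h2.symm
  mono_f := by
    rw [Rep.mono_iff_injective]
    intro a b hab
    exact congrArg Prod.fst hab
  epi_g := by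
    rw [Rep.epi_iff_surjective]
    intro w
    exact ⟨((0 : A.V), w), rfl⟩

section Restrict

variable (S : Subgroup G)

/-- The short exact sequence `0 → A → A(γ) → I_G → 0` restricted to a subgroup. -/
abbrev splitSCRes : ShortComplex (Rep.{0} k S) := (splitSC A γ).map (resFunctor S.subtype)

lemma splitSCRes_shortExact : (splitSCRes A γ S).ShortExact :=
  (Rep.shortExact_res S.subtype).2 (splitSC_shortExact A γ)

/-- The restriction of a 2-cocycle to a subgroup. -/
def resCocycle₂ : cocycles₂ (Rep.res S.subtype A) :=
  ⟨fun p => γ ((p.1 : G), (p.2 : G)), by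
    rw [mem_cocycles₂_iff]
    intro g h j
    exact (mem_cocycles₂_iff (A := A) γ).1 γ.2 g h j⟩

@[simp] lemma resCocycle₂_apply (s t : S) : resCocycle₂ A γ S (s, t) = γ ((s : G), (t : G)) := rfl

/-- The element `s - 1` of the augmentation ideal. -/
def augGen (g : G) : augKer k G :=
  ⟨Finsupp.single g 1 - Finsupp.single 1 1, single_sub_single_mem_augKer k G g 1⟩

variable (k) in
/-- The 1-cocycle `s ↦ s - 1` of `S` with values in `I_G`. -/
def augCocycle : cocycles₁ (Rep.res S.subtype (augMod k G)) :=
  ⟨fun s => augGen (k := k) (s : G), by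
    rw [mem_cocycles₁_iff]
    intro g h
    apply Subtype.ext
    change (Finsupp.single ((g : G) * (h : G)) (1 : k) - Finsupp.single 1 1) =
      regRep k G (g : G) (Finsupp.single (h : G) 1 - Finsupp.single 1 1) +
        (Finsupp.single (g : G) 1 - Finsupp.single 1 1)
    simp⟩

/-- The connecting homomorphism of the splitting module sends the class of `s ↦ s - 1`
to the class of (the restriction of) `γ`. -/
theorem delta_augCocycle :
    δ (splitSCRes_shortExact A γ S) 1 2 rfl (H1π _ (augCocycle k S)) =
      H2π _ (resCocycle₂ A γ S) := by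
  have h := δ₁_apply (splitSCRes_shortExact A γ S) (augCocycle k S)
    (fun s => ((γ (1, 1), augGen (k := k) (s : G)) : A.V × augKer k G)) rfl
    (resCocycle₂ A γ S) (by
      funext p
      obtain ⟨s, t⟩ := p
      have h1 : (d₁₂ (splitSCRes A γ S).X₂)
          (fun s => ((γ (1, 1), augGen (k := k) (s : G)) : A.V × augKer k G)) (s, t) =
          splitAct A γ (s : G) (γ (1, 1), augGen (k := k) (t : G)) -
            (γ (1, 1), augGen (k := k) ((s : G) * (t : G))) + (γ (1, 1), augGen (k := k) (s : G)) :=
        rfl
      rw [h1]
      change ((γ ((s : G), (t : G)), 0) : A.V × augKer k G) = _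
      rw [splitAct_apply]
      refine Prod.ext ?_ ?_
      · have e1 : γ ((s : G), 1) = A.ρ (s : G) (γ (1, 1)) := cocycles₂_map_one_snd γ (s : G)
        simp only [augGen, Prod.fst_add, Prod.fst_sub, map_sub, cLin_single, one_smul]
        rw [e1]
        abel
      · apply Subtype.ext
        simp [augGen])
  exact h

end Restrict

section AugSeq

variable (k G)

/-- The regular representation as an object of `Rep k G`. -/
abbrev regMod : Rep.{0} k G := Rep.of (X := G →₀ k) (regRep k G)

/-- The inclusion `I_G → k[G]` as an intertwining map. -/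
def augInclI : (augRep k G).IntertwiningMap (regRep k G) :=
  ((augKer k G).subtype).intertwiningMap_of_isIntertwiningMap (augRep k G) (regRep k G) (by
    intro g v
    rfl)

/-- The augmentation `k[G] → k` as an intertwining map to the trivial representation. -/
def augProjI : (regRep k G).IntertwiningMap (Representation.trivial k G k) :=
  (aug k G).intertwiningMap_of_isIntertwiningMap (regRep k G) (Representation.trivial k G k) (by
    intro g v
    simpa using aug_regRep k G g v)

/-- The inclusion `I_G → k[G]`. -/
def augIncl : augMod k G ⟶ regMod k G :=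
  ConcreteCategory.ofHom (C := Rep.{0} k G) (X := augMod k G) (Y := regMod k G) (augInclI k G)

/-- The augmentation `k[G] → k`. -/
def augProj : regMod k G ⟶ Rep.trivial k G k :=
  ConcreteCategory.ofHom (C := Rep.{0} k G) (X := regMod k G) (Y := Rep.trivial k G k)
    (augProjI k G)

@[simp] lemma augIncl_apply (w : augKer k G) : (augIncl k G).hom w = (w : G →₀ k) := rfl

@[simp] lemma augProj_apply (w : G →₀ k) : (augProj k G).hom w = aug k G w := rfl

/-- The short complex `I_G → k[G] → k`. -/
def augSC : ShortComplex (Rep.{0} k G) :=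
  ShortComplex.mk (augIncl k G) (augProj k G) (by
    apply Rep.hom_ext
    apply Representation.IntertwiningMap.ext
    apply LinearMap.ext
    intro w
    exact (mem_augKer k G _).1 w.2)

lemma augSC_shortExact : (augSC k G).ShortExact where
  exact := by
    rw [← ShortComplex.exact_map_iff_of_faithful _ (forget₂ (Rep.{0} k G) (ModuleCat.{0} k))]
    rw [ShortComplex.moduleCat_exact_iff]
    intro x hx
    exact ⟨⟨x, (mem_augKer k G _).2 hx⟩, rfl⟩
  mono_f := by
    rw [Rep.mono_iff_injective]
    intro a b hab
    exact Subtype.ext hab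
  epi_g := by
    rw [Rep.epi_iff_surjective]
    intro c
    exact ⟨Finsupp.single 1 c, aug_single k G 1 c⟩

end AugSeq

end

end Fermat.Agent.CFT.H52
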