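import Mathlib
import Fermat.Agent.CFT.H52_SplittingModule
import Fermat.Agent.CFT.H49_CohTriv

set_option autoImplicit false
set_option linter.unusedSectionVars false

namespace Fermat.Agent.CFT.H52

open CategoryTheory groupCohomology Rep

noncomputable section

variable {k G : Type} [CommRing k] [Group G]

section AugH1

variable (k) (S : Subgroup G)

/-- The augmentation sequence restricted to a subgroup. -/
abbrev augSCRes : ShortComplex (Rep.{0} k S) := (augSC k G).map (resFunctor S.subtype)

lemma augSCRes_shortExact : (augSCRes k S).ShortExact :=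
  (Rep.shortExact_res S.subtype).2 (augSC_shortExact k G)

/-- If `H¹(S, k[G]) = 0` then `H¹(S, I_G)` is generated by the class of `s ↦ s - 1`. -/
theorem H1_aug_generated
    (hreg : Subsingleton (H1 (Rep.res S.subtype (regMod k G))))
    (x : H1 (Rep.res S.subtype (augMod k G))) :
    ∃ c : k, x = c • H1π _ (augCocycle k S) := by
  have hex := mapShortComplex₁_exact (augSCRes_shortExact k S) (i := 0) (j := 1) rfl
  rw [ShortComplex.moduleCat_exact_iff] at hex
  obtain ⟨y, hy⟩ := hex x (Subsingleton.elim (α := H1 (Rep.res S.subtype (regMod k G))) _ _)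
  set z := (H0Iso (augSCRes k S).X₃).hom y with hz
  have hyz : y = (H0Iso (augSCRes k S).X₃).inv z := by
    rw [hz]
    change y = ((H0Iso (augSCRes k S).X₃).hom ≫ (H0Iso (augSCRes k S).X₃).inv) y
    rw [Iso.hom_inv_id]
    rfl
  let c : k := z.1
  refine ⟨c, ?_⟩
  have h := δ₀_apply (augSCRes_shortExact k S) z (Finsupp.single 1 c)
    (aug_single k G 1 _) (fun s => c • augGen (k := k) (s : G)) (by
      funext s
      change ((c • augGen (k := k) (s : G) : augKer k G) : G →₀ k) =
        regRep k G (s : G) (Finsupp.single 1 c) - Finsupp.single 1 c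
      simp [augGen, smul_sub])
  rw [← hy, hyz]
  refine h.trans ?_
  rw [← map_smul]
  rfl

/-- `|S|` kills the class of `s ↦ s - 1` in `H¹(S, I_G)`. -/
theorem card_smul_H1π_augCocycle [Finite S] :
    (Nat.card S : k) • H1π _ (augCocycle k S) = 0 := by
  classical
  let _ : Fintype S := Fintype.ofFinite S
  rw [← map_smul, H1π_eq_zero_iff]
  -- the coboundary of `-(∑ t, (t - 1))`
  let w0 : augKer k G := ∑ t : S, augGen (k := k) (t : G)
  refine ⟨(-w0 : augKer k G), ?_⟩
  funext s
  change augRep k G (s : G) (-w0) - (-w0) = (Nat.card S : k) • augGen (k := k) (s : G)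
  apply Subtype.ext
  have hW : (w0 : G →₀ k) =
      (∑ t : S, Finsupp.single (t : G) (1 : k)) - (Nat.card S : k) • Finsupp.single 1 1 := by
    change ((∑ t : S, augGen (k := k) ((t : G)) : augKer k G) : G →₀ k) = _
    rw [AddSubmonoidClass.coe_finsetSum]
    simp only [augGen]
    rw [Finset.sum_sub_distrib, Finset.sum_const, Finset.card_univ, Nat.card_eq_fintype_card,
      Nat.cast_smul_eq_nsmul]
  have h1 : regRep k G (s : G) (∑ t : S, Finsupp.single (t : G) (1 : k)) =
      ∑ t : S, Finsupp.single (t : G) (1 : k) := by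
    rw [map_sum]
    simp only [regRep_single]
    exact Fintype.sum_equiv (Equiv.mulLeft s) _ _ (fun t => rfl)
  have hL : ((augRep k G (s : G) (-w0) - (-w0) : augKer k G) : G →₀ k) =
      -(regRep k G (s : G) (w0 : G →₀ k)) + (w0 : G →₀ k) := by
    simp
  have hR : (((Nat.card S : k) • augGen (k := k) (s : G) : augKer k G) : G →₀ k) =
      (Nat.card S : k) • (Finsupp.single (s : G) 1 - Finsupp.single 1 1) := rfl
  rw [hL, hR, hW, map_sub, map_smul, h1, regRep_single, mul_one]
  module

/-- If `H²(S, k[G]) = 0` and `H¹(S, k) = 0` then `H²(S, I_G) = 0`. -/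
theorem subsingleton_H2_aug
    (hreg : Subsingleton (H2 (Rep.res S.subtype (regMod k G))))
    (htriv : Subsingleton (H1 (Rep.res S.subtype (Rep.trivial k G k)))) :
    Subsingleton (H2 (Rep.res S.subtype (augMod k G))) := by
  have hex := mapShortComplex₁_exact (augSCRes_shortExact k S) (i := 1) (j := 2) rfl
  rw [ShortComplex.moduleCat_exact_iff] at hex
  refine ⟨fun a b => ?_⟩
  have h0 : ∀ x : H2 (Rep.res S.subtype (augMod k G)), x = 0 := by
    intro x
    obtain ⟨y, hy⟩ := hex x (Subsingleton.elim (α := H2 (Rep.res S.subtype (regMod k G))) _ _)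
    have hy0 : y = 0 := Subsingleton.elim (α := H1 (Rep.res S.subtype (Rep.trivial k G k))) _ _
    rw [← hy, hy0]
    exact map_zero _
  rw [h0 a, h0 b]

instance resTrivIsTrivial : (Rep.res S.subtype (Rep.trivial k G k)).IsTrivial where
  out _ := rfl

end AugH1

theorem subsingleton_addHom_int (S : Type) [Group S] [Finite S] :
    Subsingleton (Additive S →+ ℤ) := by
  constructor
  intro f g
  have key : ∀ (f : Additive S →+ ℤ) (x : Additive S), f x = 0 := by
    intro f x
    have h : IsOfFinAddOrder x := isOfFinAddOrder_of_finite x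
    have h2 : IsOfFinAddOrder (f x) := AddMonoidHom.isOfFinAddOrder f h
    rw [isOfFinAddOrder_iff_nsmul_eq_zero] at h2
    obtain ⟨n, hn, h3⟩ := h2
    rcases smul_eq_zero.1 h3 with h4 | h4
    · omega
    · exact h4
  apply AddMonoidHom.ext
  intro x
  rw [key f, key g]

/-- `H¹(S, ℤ) = 0` for a finite group `S`. -/
theorem subsingleton_H1_trivial_int (S : Subgroup G) [Finite S] :
    Subsingleton (H1 (Rep.res S.subtype (Rep.trivial ℤ G ℤ))) := by
  have := subsingleton_addHom_int S
  exact (H1IsoOfIsTrivial (Rep.res S.subtype (Rep.trivial ℤ G ℤ))).toLinearEquiv.toEquiv.subsingleton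

section LES

variable {X : ShortComplex (Rep.{0} k G)} (hX : X.ShortExact)

/-- In the long exact sequence: if `Hⁱ(X₁) = 0` and `δ : Hⁱ(X₃) → Hʲ(X₁)` is injective,
then `Hⁱ(X₂) = 0`. -/
theorem subsingleton_mid_of_injective_δ {i j : ℕ} (hij : i + 1 = j)
    (h1 : Subsingleton (groupCohomology X.X₁ i))
    (hδ : Function.Injective (δ hX i j hij)) :
    Subsingleton (groupCohomology X.X₂ i) := by
  have hex2 := mapShortComplex₂_exact hX i
  rw [ShortComplex.moduleCat_exact_iff] at hex2
  have hzero : groupCohomology.map (MonoidHom.id G) X.g i ≫ δ hX i j hij = 0 :=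
    (map_cochainsFunctor_shortExact hX).comp_δ i j hij
  have h0 : ∀ x : groupCohomology X.X₂ i, x = 0 := by
    intro x
    have hx : (δ hX i j hij) ((mapShortComplex₂ X i).g x) = 0 := by
      change (ConcreteCategory.hom (groupCohomology.map (MonoidHom.id G) X.g i ≫ δ hX i j hij)) x = 0
      rw [hzero]
      rfl
    have hx2 : (mapShortComplex₂ X i).g x = 0 := hδ (hx.trans (map_zero _).symm)
    obtain ⟨w, hw⟩ := hex2 x hx2
    have hw0 : w = 0 := Subsingleton.elim (α := groupCohomology X.X₁ i) _ _
    rw [← hw, hw0]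
    exact map_zero _
  exact ⟨fun a b => by rw [h0 a, h0 b]⟩

/-- In the long exact sequence: if `Hʲ(X₃) = 0` and `δ : Hⁱ(X₃) → Hʲ(X₁)` is surjective,
then `Hʲ(X₂) = 0`. -/
theorem subsingleton_mid_of_surjective_δ {i j : ℕ} (hij : i + 1 = j)
    (h3 : Subsingleton (groupCohomology X.X₃ j))
    (hδ : Function.Surjective (δ hX i j hij)) :
    Subsingleton (groupCohomology X.X₂ j) := by
  have hex2 := mapShortComplex₂_exact hX j
  rw [ShortComplex.moduleCat_exact_iff] at hex2
  have hzero : δ hX i j hij ≫ groupCohomology.map (MonoidHom.id G) X.f j = 0 :=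
    (map_cochainsFunctor_shortExact hX).δ_comp i j hij
  have h0 : ∀ x : groupCohomology X.X₂ j, x = 0 := by
    intro x
    obtain ⟨y, hy⟩ := hex2 x (Subsingleton.elim (α := groupCohomology X.X₃ j) _ _)
    obtain ⟨w, hw⟩ := hδ y
    rw [← hy, ← hw]
    change (ConcreteCategory.hom (δ hX i j hij ≫ groupCohomology.map (MonoidHom.id G) X.f j)) w = 0
    rw [hzero]
    rfl
  exact ⟨fun a b => by rw [h0 a, h0 b]⟩

end LES

section Fundamental

variable (A : Rep.{0} ℤ G) (γ : cocycles₂ A)

/-- `γ` is a fundamental class for `A`: for every subgroup `S`, `H¹(S, A) = 0` and `H²(S, A)`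
is cyclic of order `|S|`, generated by the restriction of `γ`. -/
structure IsFundamental : Prop where
  h1 : ∀ S : Subgroup G, Subsingleton (H1 (Rep.res S.subtype A))
  gen : ∀ (S : Subgroup G) (x : H2 (Rep.res S.subtype A)),
    x ∈ AddSubgroup.zmultiples ((H2π (Rep.res S.subtype A)) (resCocycle₂ A γ S))
  card : ∀ S : Subgroup G, Nat.card (H2 (Rep.res S.subtype A)) = Nat.card S

/-- The regular representation `k[G]` has vanishing positive-degree cohomology on all
subgroups (a hypothesis here; provided by package A-Acyclic). -/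
def RegAcyclic (k G : Type) [CommRing k] [Group G] : Prop :=
  ∀ (S : Subgroup G) (n : ℕ), 1 ≤ n →
    Subsingleton (groupCohomology (Rep.res S.subtype (regMod k G)) n)

variable {A γ}

theorem delta_split_injective (hF : IsFundamental A γ) (S : Subgroup G) [Finite S]
    (hR : Subsingleton (H1 (Rep.res S.subtype (regMod ℤ G)))) :
    Function.Injective (δ (splitSCRes_shortExact A γ S) 1 2 rfl) := by
  rw [injective_iff_map_eq_zero]
  intro x hx
  obtain ⟨c, hc⟩ := H1_aug_generated ℤ S hR x
  have hc' : x = c • (H1π (splitSCRes A γ S).X₃) (augCocycle ℤ S) :=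
    hc.trans (int_smul_eq_zsmul _ c _)
  subst hc'
  have e1 : (δ (splitSCRes_shortExact A γ S) 1 2 rfl)
      (c • (H1π (splitSCRes A γ S).X₃) (augCocycle ℤ S)) =
      c • (δ (splitSCRes_shortExact A γ S) 1 2 rfl)
        ((H1π (splitSCRes A γ S).X₃) (augCocycle ℤ S)) :=
    map_zsmul (δ (splitSCRes_shortExact A γ S) 1 2 rfl).hom c _
  have hx : c • (H2π (Rep.res S.subtype A)) (resCocycle₂ A γ S) = 0 := by
    rw [← delta_augCocycle]
    exact e1.symm.trans hx
  -- the order of the class of `γ` is `|S|`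
  have hord : addOrderOf ((H2π (Rep.res S.subtype A)) (resCocycle₂ A γ S)) = Nat.card S := by
    rw [← Nat.card_zmultiples, ← hF.card S]
    have htop : AddSubgroup.zmultiples ((H2π (Rep.res S.subtype A)) (resCocycle₂ A γ S)) = ⊤ :=
      (AddSubgroup.eq_top_iff' _).2 (hF.gen S)
    rw [htop]
    exact Nat.card_congr (Equiv.Set.univ _)
  have hdvd : ((Nat.card S : ℕ) : ℤ) ∣ c := by
    rw [← hord]
    exact (addOrderOf_dvd_iff_zsmul_eq_zero).2 hx
  obtain ⟨d, rfl⟩ := hdvd
  rw [mul_comm, mul_smul]
  have h2 : ((Nat.card S : ℕ) : ℤ) • (H1π (splitSCRes A γ S).X₃) (augCocycle ℤ S) = 0 :=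
    (int_smul_eq_zsmul _ _ _).symm.trans (card_smul_H1π_augCocycle ℤ S)
  rw [h2]
  exact zsmul_zero d

theorem delta_split_surjective (hF : IsFundamental A γ) (S : Subgroup G) :
    Function.Surjective (δ (splitSCRes_shortExact A γ S) 1 2 rfl) := by
  intro y
  obtain ⟨m, hm⟩ := AddSubgroup.mem_zmultiples_iff.1 (hF.gen S y)
  refine ⟨m • (H1π (splitSCRes A γ S).X₃) (augCocycle ℤ S), ?_⟩
  have e1 : (δ (splitSCRes_shortExact A γ S) 1 2 rfl)
      (m • (H1π (splitSCRes A γ S).X₃) (augCocycle ℤ S)) =
      m • (δ (splitSCRes_shortExact A γ S) 1 2 rfl)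
        ((H1π (splitSCRes A γ S).X₃) (augCocycle ℤ S)) :=
    map_zsmul (δ (splitSCRes_shortExact A γ S) 1 2 rfl).hom m _
  refine e1.trans ?_
  rw [delta_augCocycle]
  exact hm

/-- The splitting module of a fundamental class has trivial `H¹` on every subgroup. -/
theorem subsingleton_H1_split [Finite G] (hF : IsFundamental A γ) (hR : RegAcyclic ℤ G)
    (S : Subgroup G) : Subsingleton (H1 (Rep.res S.subtype (splitMod A γ))) :=
  subsingleton_mid_of_injective_δ (splitSCRes_shortExact A γ S) (i := 1) (j := 2) rfl (hF.h1 S)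
    (delta_split_injective hF S (hR S 1 le_rfl))

/-- The splitting module of a fundamental class has trivial `H²` on every subgroup. -/
theorem subsingleton_H2_split [Finite G] (hF : IsFundamental A γ) (hR : RegAcyclic ℤ G)
    (S : Subgroup G) : Subsingleton (H2 (Rep.res S.subtype (splitMod A γ))) :=
  subsingleton_mid_of_surjective_δ (splitSCRes_shortExact A γ S) (i := 1) (j := 2) rfl
    (subsingleton_H2_aug ℤ S (hR S 2 (by norm_num)) (subsingleton_H1_trivial_int S))
    (delta_split_surjective hF S)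

section Consequences

variable (A γ)

/-- If the splitting module is cohomologically trivial (in positive degrees, for `G` itself), the
connecting map `Hⁿ(G, I_G) → Hⁿ⁺¹(G, A)` is an isomorphism for `n ≥ 1`. -/
theorem isIso_delta_split (hct : ∀ n, 1 ≤ n → Subsingleton (groupCohomology (splitMod A γ) n))
    (n : ℕ) (hn : 1 ≤ n) : IsIso (δ (splitSC_shortExact A γ) n (n + 1) rfl) :=
  isIso_δ_of_isZero (splitSC_shortExact A γ) n
    (@ModuleCat.isZero_of_subsingleton _ _ _ (hct n hn))
    (@ModuleCat.isZero_of_subsingleton _ _ _ (hct (n + 1) (by omega)))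

/-- If `ℤ[G]` is cohomologically trivial, `Hⁿ(G, ℤ) → Hⁿ⁺¹(G, I_G)` is an isomorphism for
`n ≥ 1`. -/
theorem isIso_delta_aug (k : Type) [CommRing k]
    (hreg : ∀ n, 1 ≤ n → Subsingleton (groupCohomology (regMod k G) n))
    (n : ℕ) (hn : 1 ≤ n) : IsIso (δ (augSC_shortExact k G) n (n + 1) rfl) :=
  isIso_δ_of_isZero (augSC_shortExact k G) n
    (@ModuleCat.isZero_of_subsingleton _ _ _ (hreg n hn))
    (@ModuleCat.isZero_of_subsingleton _ _ _ (hreg (n + 1) (by omega)))

/-- **Tate's theorem, positive degrees**: `Hⁿ(G, ℤ) ≅ Hⁿ⁺²(G, A)` for `n ≥ 1`, via the two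
connecting homomorphisms. -/
def tateIso (hct : ∀ n, 1 ≤ n → Subsingleton (groupCohomology (splitMod A γ) n))
    (hreg : ∀ n, 1 ≤ n → Subsingleton (groupCohomology (regMod ℤ G) n))
    (n : ℕ) (hn : 1 ≤ n) :
    groupCohomology (Rep.trivial ℤ G ℤ) n ≅ groupCohomology A (n + 2) :=
  @asIso _ _ _ _ (δ (augSC_shortExact ℤ G) n (n + 1) rfl)
      (isIso_delta_aug (G := G) ℤ hreg n hn) ≪≫
    @asIso _ _ _ _ (δ (splitSC_shortExact A γ) (n + 1) (n + 1 + 1) rfl)
      (isIso_delta_split A γ hct (n + 1) (by omega))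

/-- `H¹(G, ℤ) = 0` for a finite group `G`. -/
theorem subsingleton_H1_trivial_int' [Finite G] :
    Subsingleton (H1 (Rep.trivial ℤ G ℤ)) := by
  have := subsingleton_addHom_int G
  exact (H1IsoOfIsTrivial (Rep.trivial ℤ G ℤ)).toLinearEquiv.toEquiv.subsingleton

/-- **`H³(G, A) = 0`** for a class module, given cohomological triviality of the splitting module
and of `ℤ[G]`. -/
theorem subsingleton_H3 [Finite G]
    (hct : ∀ n, 1 ≤ n → Subsingleton (groupCohomology (splitMod A γ) n))
    (hreg : ∀ n, 1 ≤ n → Subsingleton (groupCohomology (regMod ℤ G) n)) :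
    Subsingleton (groupCohomology A 3) := by
  have := subsingleton_H1_trivial_int' (G := G)
  exact (tateIso A γ hct hreg 1 le_rfl).symm.toLinearEquiv.toEquiv.subsingleton

end Consequences

section Main

open Fermat.Agent.CFT.H49

/-- Passing from the subgroup form to `G` itself. -/
theorem subsingleton_self_of_subgroups (B : Rep.{0} k G) (n : ℕ)
    (h : ∀ S : Subgroup G, Subsingleton (groupCohomology (Rep.res S.subtype B) n)) :
    Subsingleton (groupCohomology B n) :=
  ModuleCat.subsingleton_of_isZero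
    (((cohVanish_iff B n).2 fun S =>
      @ModuleCat.isZero_of_subsingleton _ _ _ (h S)).self)

/-- **Tate's theorem (positive degrees), assembled.**  Let `G` be a finite group, `A` a
`G`-module with a fundamental class `γ`.  Assume the two inputs of the Nakayama-Tate criterion
(`InfIsoHyp`, `SylowHyp`: packages T1, T2) and acyclicity of `ℤ[G]` (package A-Acyclic).  Then
the splitting module is cohomologically trivial in positive degrees on all subgroups,
`H³(G, A) = 0`, and `Hⁿ(G, ℤ) ≅ Hⁿ⁺²(G, A)` for all `n ≥ 1`. -/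
theorem tate_main [Finite G] (hT1 : InfIsoHyp ℤ) (hT2 : SylowHyp ℤ) (hR : RegAcyclic ℤ G)
    (hF : IsFundamental A γ) :
    (∀ (S : Subgroup G) (n : ℕ), 1 ≤ n →
        Subsingleton (groupCohomology (Rep.res S.subtype (splitMod A γ)) n)) ∧
      Subsingleton (groupCohomology A 3) ∧
      ∀ n, 1 ≤ n → Nonempty (groupCohomology (Rep.trivial ℤ G ℤ) n ≅ groupCohomology A (n + 2)) := by
  have hsub : ∀ (S : Subgroup G) (n : ℕ), 1 ≤ n →
      Subsingleton (groupCohomology (Rep.res S.subtype (splitMod A γ)) n) := by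
    intro S n hn
    exact ModuleCat.subsingleton_of_isZero
      (isZero_groupCohomology_subgroup hT1 hT2 (splitMod A γ) 1 le_rfl
        (fun S => @ModuleCat.isZero_of_subsingleton _ _ _ (subsingleton_H1_split hF hR S))
        (fun S => @ModuleCat.isZero_of_subsingleton _ _ _ (subsingleton_H2_split hF hR S))
        S n hn)
  have hct : ∀ n, 1 ≤ n → Subsingleton (groupCohomology (splitMod A γ) n) :=
    fun n hn => subsingleton_self_of_subgroups _ n (fun S => hsub S n hn)
  have hreg : ∀ n, 1 ≤ n → Subsingleton (groupCohomology (regMod ℤ G) n) :=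
    fun n hn => subsingleton_self_of_subgroups _ n (fun S => hR S n hn)
  exact ⟨hsub, subsingleton_H3 A γ hct hreg, fun n hn => ⟨tateIso A γ hct hreg n hn⟩⟩

end Main

end Fundamental

end

end Fermat.Agent.CFT.H52
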