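import Mathlib
import Fermat.Agent.CFT.H52_Tate
import Fermat.Agent.CFT.H49_CohTrivSylow
import Fermat.Agent.CFT.H85_InfRes
import Fermat.Agent.CFT.H95_Acyclic
import Fermat.Agent.CFT.A_Defs

set_option autoImplicit false
set_option linter.unusedSectionVars false

/-!
# Tate's theorem in positive degrees, hypothesis-free (package A-Tate-splitting-module)

We discharge the three hypotheses of `H52.tate_main`:
* `InfIsoHyp` from `H85.inflationIso` (package T1),
* `SylowHyp` from `H49.sylowHyp` (package T2 via `H33`),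
* `RegAcyclic` from `H95.isZero_groupCohomology_res_of_equiv` (package A-Acyclic).
-/

namespace Fermat.Agent.CFT.H52

open CategoryTheory groupCohomology Rep

noncomputable section

universe u

/-- Package T1 gives the inflation hypothesis of the Nakayama-Tate criterion. -/
theorem infIsoHyp (k : Type u) [CommRing k] : H49.InfIsoHyp k := by
  intro H _ N _ B hB n hn
  exact ⟨fun h => h.of_iso (H85.inflationIso hB hn).symm,
    fun h => h.of_iso (H85.inflationIso hB hn)⟩

variable {k G : Type} [CommRing k] [Group G]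

/-- `k[G] ≃ Fun(G, k)`, `m ↦ (x ↦ m x⁻¹)`, for finite `G`. -/
def regEquivFun [Finite G] : (G →₀ k) ≃ₗ[k] (G → k) :=
  (Finsupp.linearEquivFunOnFinite k k G).trans (LinearEquiv.funCongrLeft k k (Equiv.inv G))

lemma regEquivFun_apply [Finite G] (m : G →₀ k) (x : G) :
    regEquivFun (k := k) m x = m x⁻¹ := rfl

lemma regRep_apply (g : G) (m : G →₀ k) (z : G) : regRep k G g m z = m (g⁻¹ * z) := by
  have h : regRep k G g m = Finsupp.mapDomain (g * ·) m := rfl
  rw [h]
  have hz : z = (g * ·) (g⁻¹ * z) := by simp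
  conv_lhs => rw [hz]
  exact Finsupp.mapDomain_apply (mul_right_injective g) m (g⁻¹ * z)

/-- `ℤ[G]` (any `k[G]`) is acyclic on all subgroups of a finite group. -/
theorem regAcyclic (k G : Type) [CommRing k] [Group G] [Finite G] : RegAcyclic k G := by
  intro S n hn
  obtain ⟨m, rfl⟩ : ∃ m, n = m + 1 := ⟨n - 1, by omega⟩
  apply ModuleCat.subsingleton_of_isZero
  refine H95.isZero_groupCohomology_res_of_equiv (regMod k G) k (regEquivFun (k := k)) ?_
    S.subtype S.subtype_injective m
  intro g w x
  change regEquivFun (k := k) (regRep k G g w) x = regEquivFun (k := k) w (x * g)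
  rw [regEquivFun_apply, regEquivFun_apply, regRep_apply, mul_inv_rev]

variable [Finite G] (A : Rep.{0} ℤ G) (γ : cocycles₂ A)

/-- **Tate's theorem in positive degrees.**  Let `G` be a finite group and `γ` a fundamental
class of the `G`-module `A` (for all subgroups `S`: `H¹(S, A) = 0`, `H²(S, A)` cyclic of order
`|S|` generated by `res γ`).  Then the splitting module `A(γ)` is cohomologically trivial in
positive degrees on all subgroups, `H³(G, A) = 0`, and `Hⁿ(G, ℤ) ≅ Hⁿ⁺²(G, A)` for `n ≥ 1`. -/
theorem tate (hF : IsFundamental A γ) :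
    (∀ (S : Subgroup G) (n : ℕ), 1 ≤ n →
        Subsingleton (groupCohomology (Rep.res S.subtype (splitMod A γ)) n)) ∧
      Subsingleton (groupCohomology A 3) ∧
      ∀ n, 1 ≤ n → Nonempty (groupCohomology (Rep.trivial ℤ G ℤ) n ≅ groupCohomology A (n + 2)) :=
  tate_main (infIsoHyp ℤ) (H49.sylowHyp ℤ) (regAcyclic ℤ G) hF

/-- `H³(G, A) = 0` for a module with a fundamental class. -/
theorem subsingleton_H3_of_isFundamental (hF : IsFundamental A γ) :
    Subsingleton (groupCohomology A 3) :=
  (tate A γ hF).2.1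

/-- The splitting module of a fundamental class is cohomologically trivial in positive degrees
(in the vocabulary of `A_Defs`). -/
theorem isCohTrivPos_splitMod (hF : IsFundamental A γ) :
    Fermat.Agent.CFT.A.IsCohTrivPos (splitMod A γ) :=
  (tate A γ hF).1

/-- The Tate isomorphism `Hⁿ(G, ℤ) ≅ Hⁿ⁺²(G, A)`, `n ≥ 1`, as the composite of the two
connecting homomorphisms `Hⁿ(G, ℤ) → Hⁿ⁺¹(G, I_G) → Hⁿ⁺²(G, A)`. -/
def tateIsoOfIsFundamental (hF : IsFundamental A γ) (n : ℕ) (hn : 1 ≤ n) :
    groupCohomology (Rep.trivial ℤ G ℤ) n ≅ groupCohomology A (n + 2) :=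
  tateIso A γ
    (fun m hm => subsingleton_self_of_subgroups _ m (fun S => (tate A γ hF).1 S m hm))
    (fun m hm => subsingleton_self_of_subgroups _ m (fun S => regAcyclic ℤ G S m hm)) n hn

lemma tateIsoOfIsFundamental_hom (hF : IsFundamental A γ) (n : ℕ) (hn : 1 ≤ n) :
    (tateIsoOfIsFundamental A γ hF n hn).hom =
      δ (augSC_shortExact ℤ G) n (n + 1) rfl ≫
        δ (splitSC_shortExact A γ) (n + 1) (n + 1 + 1) rfl := rfl

end

end Fermat.Agent.CFT.H52
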