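import Fermat.Agent.CFT.H65_Elem
import Fermat.Agent.CFT.H68_Shift
import Fermat.Agent.CFT.H95_Acyclic
import Fermat.Agent.CFT.H28_CohTriv
import Fermat.Agent.CFT.H85_InfRes
import Fermat.Agent.CFT.H33_CorRes

/-!
# CFT / Layer A / A-Elem : cohomologically trivial modules have `Ĥ⁰ = Ĥ⁻¹ = 0`

* unconditional forms of helper28's hypotheses `InfResHyp` (from helper85's T1) and `SylowHyp`
  (from helper33's T2), hence the unconditional twin criterion `isCohTrivPos_of_twin`;
* `SES.of_shortExact`;
* `Ĥ⁰(coind₁ A) = Ĥ⁻¹(coind₁ A) = 0` elementarily;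
* **T3-ELEM**: `IsCohTrivPos A → Subsingleton (H0hat A) ∧ Subsingleton (Hm1hat A)`.
-/

set_option autoImplicit false
set_option linter.unusedSectionVars false

noncomputable section

open CategoryTheory CategoryTheory.Limits

namespace Fermat.Agent.CFT.H65

open Fermat.Agent.CFT.A

/-! ### Unconditional T1/T2 hypotheses of `H28` -/

section Hyps

universe u

theorem infResHyp (k : Type u) [CommRing k] : H28.InfResHyp k := by
  intro G _ S _ A n hn hA
  have hA' : ∀ i, 1 ≤ i → i < n → IsZero (groupCohomology (Rep.res S.subtype A) i) :=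
    fun i h1 h2 => by
      have := hA i h1 h2
      exact ModuleCat.isZero_of_subsingleton _
  exact ⟨H85.inflation_injective hn hA', fun x hx =>
    H85.exists_inflation_eq_of_restriction_eq_zero hn hA' x hx⟩

theorem sylowHyp (k : Type u) [CommRing k] : H28.SylowHyp k := by
  intro G _ _ A n _ h
  exact H33.subsingleton_of_sylow A n h

/-- The Nakayama–Tate twin criterion in positive degrees, unconditionally. -/
theorem isCohTrivPos_of_twin {k : Type} [CommRing k] {G : Type} [Group G] [Finite G]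
    (A : Rep.{0} k G) (q : ℕ) (hq : 1 ≤ q)
    (h : ∀ S : Subgroup G, Subsingleton (groupCohomology (Rep.res S.subtype A) q) ∧
      Subsingleton (groupCohomology (Rep.res S.subtype A) (q + 1))) : IsCohTrivPos A :=
  H28.isCohTrivPos_of_twin (infResHyp k) (sylowHyp k) A q hq h

end Hyps

variable {k : Type} [CommRing k] {G : Type} [Group G] [Fintype G]

/-! ### Short exact sequences of `Rep` give `SES` -/

lemma SES.of_shortExact {S : ShortComplex (Rep.{0} k G)} (hS : S.ShortExact) : SES S.f S.g where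
  inj := by
    have := hS.mono_f
    exact (Rep.mono_iff_injective S.f).1 this
  surj := by
    have := hS.epi_g
    exact (Rep.epi_iff_surjective S.g).1 this
  exact := by
    intro b
    have h := hS.exact
    rw [← ShortComplex.exact_map_iff_of_faithful _ (forget₂ (Rep.{0} k G) (ModuleCat.{0} k)),
      ShortComplex.moduleCat_exact_iff] at h
    constructor
    · intro hb
      exact h b hb
    · rintro ⟨a, rfl⟩
      have := S.zero
      exact congrArg (fun φ : S.X₁ ⟶ S.X₃ => φ.hom a) this

/-! ### Modules with a `k`-linear "norm section" have `Ĥ⁰ = Ĥ⁻¹ = 0` -/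

section Section

variable (M : Rep.{0} k G) (s : M.V →ₗ[k] M.V)

lemma subsingleton_H0hat_of_section (hs : ∀ m, ∑ g : G, M.ρ g (s (M.ρ g⁻¹ m)) = m) :
    Subsingleton (H0hat M) := by
  refine ⟨fun x y => ?_⟩
  suffices h : ∀ z : H0hat M, z = 0 by rw [h x, h y]
  intro z
  obtain ⟨m, rfl⟩ := H0hat.mk_surjective M z
  rw [H0hat.mk_eq_zero_iff]
  refine ⟨s m.1, ?_⟩
  conv_rhs => rw [← hs m.1]
  simp only [Representation.norm, LinearMap.sum_apply]
  refine Finset.sum_congr rfl fun g _ => ?_
  rw [m.2 g⁻¹]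

lemma subsingleton_Hm1hat_of_section (hs : ∀ m, ∑ g : G, M.ρ g (s (M.ρ g⁻¹ m)) = m) :
    Subsingleton (Hm1hat M) := by
  refine ⟨fun x y => ?_⟩
  suffices h : ∀ z : Hm1hat M, z = 0 by rw [h x, h y]
  intro z
  obtain ⟨m, rfl⟩ := Hm1hat.mk_surjective M z
  rw [Hm1hat.mk_eq_zero_iff]
  have hN : M.ρ.norm m.1 = 0 := m.2
  have h1 : ∑ g : G, s (M.ρ g⁻¹ m.1) = 0 := by
    rw [← map_sum]
    have : ∑ g : G, M.ρ g⁻¹ m.1 = M.ρ.norm m.1 := by
      simp only [Representation.norm, LinearMap.sum_apply]
      exact Fintype.sum_equiv (Equiv.inv G) _ _ (fun g => rfl)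
    rw [this, hN, map_zero]
  have h2 : m.1 = ∑ g : G, (M.ρ g (s (M.ρ g⁻¹ m.1)) - s (M.ρ g⁻¹ m.1)) := by
    rw [Finset.sum_sub_distrib, h1, sub_zero, hs]
  rw [h2]
  exact Submodule.sum_mem _ fun g _ => Representation.Coinvariants.sub_mem_ker g _

end Section

/-! ### `coind₁ A` -/

section Coind

variable (A : Rep.{0} k G)

open Classical in
/-- the section `φ ↦ δ₁ · φ(1)` of `coind₁ A` -/
def coindSec : (coind₁ A).V →ₗ[k] (coind₁ A).V :=
  (LinearMap.single k (fun _ : G => A.V) 1).comp (LinearMap.proj 1)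

open Classical in
lemma coindSec_spec_fun (φ : G → A.V) :
    (∑ g : G, (LinearMap.funLeft k A.V (fun x => x * g))
      ((LinearMap.single k (fun _ : G => A.V) 1)
        ((LinearMap.funLeft k A.V (fun x => x * g⁻¹) φ) 1)) : G → A.V) = φ := by
  funext x
  rw [Finset.sum_apply, Finset.sum_eq_single x⁻¹]
  · simp [LinearMap.funLeft]
  · intro g _ hg
    have : x * g ≠ 1 := fun h => hg (eq_inv_of_mul_eq_one_right h)
    simp [LinearMap.funLeft, Pi.single_eq_of_ne this]
  · intro h
    exact absurd (Finset.mem_univ _) h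

lemma coindSec_spec (φ : (coind₁ A).V) :
    ∑ g : G, (coind₁ A).ρ g (coindSec A ((coind₁ A).ρ g⁻¹ φ)) = φ :=
  coindSec_spec_fun A φ

instance subsingleton_H0hat_coind₁ : Subsingleton (H0hat (coind₁ A)) :=
  subsingleton_H0hat_of_section _ (coindSec A) (coindSec_spec A)

instance subsingleton_Hm1hat_coind₁ : Subsingleton (Hm1hat (coind₁ A)) :=
  subsingleton_Hm1hat_of_section _ (coindSec A) (coindSec_spec A)

end Coind

/-! ### `H¹(G, A) = 0` makes invariants right exact -/

section InvSurj

variable {A B C : Rep.{0} k G} {f : A ⟶ B} {g : B ⟶ C}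

open groupCohomology in
lemma SES.exists_invariant_lift (h : SES f g) (hH1 : Subsingleton (groupCohomology A 1))
    {c : C.V} (hc : c ∈ C.ρ.invariants) : ∃ b ∈ B.ρ.invariants, g.hom b = c := by
  obtain ⟨b, rfl⟩ := h.surj c
  have hz : ∀ σ : G, ∃ a : A.V, f.hom a = B.ρ σ b - b := fun σ => by
    apply (h.exact _).1
    rw [map_sub, Rep.hom_comm_apply, hc σ, sub_self]
  choose z hz using hz
  have hcoc : z ∈ cocycles₁ A := by
    rw [mem_cocycles₁_iff]
    intro σ τ
    apply h.inj
    rw [map_add, Rep.hom_comm_apply, hz, hz, hz, map_mul, Module.End.mul_apply, map_sub]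
    abel
  have h0 : H1π A ⟨z, hcoc⟩ = 0 := Subsingleton.elim _ _
  rw [H1π_eq_zero_iff] at h0
  obtain ⟨d, hd⟩ := h0
  have hd' : ∀ σ, A.ρ σ d - d = z σ := fun σ => by
    have := congrFun hd σ
    simpa [d₀₁_hom_apply] using this
  refine ⟨b - f.hom d, fun σ => ?_, ?_⟩
  · rw [map_sub, ← Rep.hom_comm_apply]
    have h1 := hz σ
    rw [← hd' σ, map_sub] at h1
    rw [sub_eq_sub_iff_add_eq_add] at h1
    rw [sub_eq_iff_eq_add]
    have h2 : B.ρ σ b = f.hom (A.ρ σ d) + b - f.hom d := by rw [h1]; abel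
    rw [h2]; abel
  · rw [map_sub, h.comp_apply, sub_zero]

end InvSurj

/-! ### T3-ELEM -/

section T3

variable (A : Rep.{0} k G)

/-- `0 → down A → coind₁ A → A → 0` as an `SES`. -/
lemma downSES : SES (A := down A) (B := coind₁ A) (C := A) (kernel.ι (ind₁π A)) (ind₁π A) :=
  SES.of_shortExact (H68.downSC_shortExact A)

/-- `0 → A → coind₁ A → up A → 0` as an `SES`. -/
lemma upSES : SES (A := A) (B := coind₁ A) (C := up A) (coind₁ι A) (cokernel.π (coind₁ι A)) :=
  SES.of_shortExact (H68.upSC_shortExact A)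

open groupCohomology in
/-- `Hⁿ⁺¹(S, down A) ≅ Hⁿ(S, A)` for `n ≥ 1`; in particular `down A` is cohomologically trivial in
positive degrees if `A` is. -/
lemma subsingleton_down_succ (S : Subgroup G) (n : ℕ) (hn : 1 ≤ n)
    (hA : Subsingleton (groupCohomology (Rep.res S.subtype A) n)) :
    Subsingleton (groupCohomology (Rep.res S.subtype (down A)) (n + 1)) := by
  have hX : ((H68.downSC A).map (Rep.resFunctor S.subtype)).ShortExact :=
    (Rep.shortExact_res S.subtype).2 (H68.downSC_shortExact A)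
  have hc := H95.isCohTrivPos_coind₁ A
  have h1 : IsZero (groupCohomology ((H68.downSC A).map (Rep.resFunctor S.subtype)).X₂ n) := by
    have := hc S n hn
    exact ModuleCat.isZero_of_subsingleton (groupCohomology (Rep.res S.subtype (coind₁ A)) n)
  have h2 : IsZero (groupCohomology ((H68.downSC A).map (Rep.resFunctor S.subtype)).X₂ (n + 1)) := by
    have := hc S (n + 1) (by omega)
    exact ModuleCat.isZero_of_subsingleton
      (groupCohomology (Rep.res S.subtype (coind₁ A)) (n + 1))
  have hiso := isIso_δ_of_isZero hX n h1 h2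
  let e : groupCohomology (Rep.res S.subtype A) n ≅
      groupCohomology (Rep.res S.subtype (down A)) (n + 1) :=
    @asIso _ _ _ _ (δ hX n (n + 1) rfl) hiso
  exact (e.toLinearEquiv.symm.toEquiv).subsingleton

lemma isCohTrivPos_down (hA : IsCohTrivPos A) : IsCohTrivPos (down A) := by
  have : Finite G := Finite.of_fintype G
  apply isCohTrivPos_of_twin (down A) 2 (by norm_num)
  intro S
  exact ⟨subsingleton_down_succ A S 1 le_rfl (hA S 1 le_rfl),
    subsingleton_down_succ A S 2 (by norm_num) (hA S 2 (by norm_num))⟩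

/-- **T3-ELEM, degree 0**: a module which is cohomologically trivial in positive degrees has
`Ĥ⁰(G, A) = A^G / N_G A = 0`. -/
theorem subsingleton_H0hat_of_isCohTrivPos (hA : IsCohTrivPos A) : Subsingleton (H0hat A) := by
  have hD : IsCohTrivPos (down A) := isCohTrivPos_down A hA
  have hH1 : Subsingleton (groupCohomology (down A) 1) :=
    H28.IsCohTrivPos.subsingleton (A := down A) hD 1 le_rfl
  have hses := downSES A
  refine ⟨fun x y => ?_⟩
  suffices h : ∀ z : H0hat A, z = 0 by rw [h x, h y]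
  intro z
  obtain ⟨a, rfl⟩ := H0hat.mk_surjective A z
  obtain ⟨φ, hφ, hφa⟩ := hses.exists_invariant_lift hH1 a.2
  have h1 : H0hatMap (ind₁π A) (H0hat.mk (coind₁ A) ⟨φ, hφ⟩) = H0hat.mk A a := by
    rw [H0hatMap_mk]
    congr 1
    exact Subtype.ext hφa
  rw [← h1, Subsingleton.elim (H0hat.mk (coind₁ A) ⟨φ, hφ⟩) 0, map_zero]

/-- **T3-ELEM, degree -1**: a module which is cohomologically trivial in positive degrees has
`Ĥ⁻¹(G, A) = ker N_G / I_G A = 0`. -/
theorem subsingleton_Hm1hat_of_isCohTrivPos (hA : IsCohTrivPos A) : Subsingleton (Hm1hat A) := by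
  have hD : IsCohTrivPos (down A) := isCohTrivPos_down A hA
  have : Subsingleton (H0hat (down A)) := subsingleton_H0hat_of_isCohTrivPos (down A) hD
  have hses := downSES A
  refine ⟨fun x y => ?_⟩
  suffices h : ∀ z : Hm1hat A, z = 0 by rw [h x, h y]
  intro z
  obtain ⟨y, rfl⟩ := (hses.delta_eq_zero_iff z).1 (Subsingleton.elim _ _)
  rw [Subsingleton.elim y 0, map_zero]

end T3

end Fermat.Agent.CFT.H65



end
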