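import Fermat.Agent.CFT.A_Defs

/-!
# CFT / Layer A / A-Elem : the elementary Tate groups `Ĥ⁰ = A^G/N_G A`, `Ĥ⁻¹ = ker N_G/I_G A`

Functoriality, the connecting maps of a short exact sequence and the exactness statements needed
for dimension shifting and for the reciprocity isomorphism.
-/

set_option autoImplicit false
set_option linter.unusedSectionVars false

noncomputable section

open CategoryTheory CategoryTheory.Limits

namespace Fermat.Agent.CFT.H65

open Fermat.Agent.CFT.A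

variable {k : Type} [CommRing k] {G : Type} [Group G] [Fintype G]

/-! ### Morphisms commute with norms, preserve invariants and `I_G A` -/

section Basic

variable {A B C : Rep.{0} k G}

lemma hom_norm (f : A ⟶ B) (a : A.V) : f.hom (A.ρ.norm a) = B.ρ.norm (f.hom a) := by
  simp only [Representation.norm, LinearMap.sum_apply, map_sum, Rep.hom_comm_apply]

lemma hom_mem_invariants (f : A ⟶ B) {a : A.V} (ha : a ∈ A.ρ.invariants) :
    f.hom a ∈ B.ρ.invariants := fun g => by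
  rw [← Rep.hom_comm_apply, ha g]

lemma hom_mem_coinvKer (f : A ⟶ B) {a : A.V} (ha : a ∈ Representation.Coinvariants.ker A.ρ) :
    f.hom a ∈ Representation.Coinvariants.ker B.ρ := by
  induction ha using Submodule.span_induction with
  | mem x hx =>
    obtain ⟨⟨g, v⟩, rfl⟩ := hx
    simp only [map_sub, Rep.hom_comm_apply]
    exact Representation.Coinvariants.sub_mem_ker g _
  | zero => simp
  | add x y _ _ hx hy => rw [map_add]; exact add_mem hx hy
  | smul c x _ hx => rw [map_smul]; exact Submodule.smul_mem _ c hx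

lemma norm_mem_invariants (A : Rep.{0} k G) (a : A.V) : A.ρ.norm a ∈ A.ρ.invariants :=
  fun g => Representation.self_norm_apply _ g a

lemma norm_eq_zero_of_mem_coinvKer (A : Rep.{0} k G) {a : A.V}
    (ha : a ∈ Representation.Coinvariants.ker A.ρ) : A.ρ.norm a = 0 := by
  induction ha using Submodule.span_induction with
  | mem x hx =>
    obtain ⟨⟨g, v⟩, rfl⟩ := hx
    simp only [map_sub, Representation.norm_self_apply, sub_self]
  | zero => simp
  | add x y _ _ hx hy => rw [map_add, hx, hy, add_zero]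
  | smul c x _ hx => rw [map_smul, hx, smul_zero]

end Basic

/-! ### Functoriality -/

section Functoriality

variable {A B C : Rep.{0} k G}

/-- the map on invariants -/
def invMap (f : A ⟶ B) : A.ρ.invariants →ₗ[k] B.ρ.invariants :=
  f.hom.toLinearMap.restrict (fun _ ha => hom_mem_invariants f ha)

@[simp] lemma invMap_coe (f : A ⟶ B) (a : A.ρ.invariants) : (invMap f a : B.V) = f.hom a.1 := rfl

/-- `Ĥ⁰` is functorial. -/
def H0hatMap (f : A ⟶ B) : H0hat A →ₗ[k] H0hat B :=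
  Submodule.mapQ (normInv A) (normInv B) (invMap f) (by
    rintro a ⟨b, hb⟩
    exact ⟨f.hom b, by rw [← hom_norm, hb]; rfl⟩)

@[simp] lemma H0hatMap_mk (f : A ⟶ B) (a : A.ρ.invariants) :
    H0hatMap f (H0hat.mk A a) = H0hat.mk B (invMap f a) := rfl

/-- the map on `ker N` -/
def kerNormMap (f : A ⟶ B) : LinearMap.ker A.ρ.norm →ₗ[k] LinearMap.ker B.ρ.norm :=
  f.hom.toLinearMap.restrict (fun a ha => by
    rw [LinearMap.mem_ker] at ha ⊢
    show B.ρ.norm (f.hom a) = 0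
    rw [← hom_norm, ha, map_zero])

@[simp] lemma kerNormMap_coe (f : A ⟶ B) (a : LinearMap.ker A.ρ.norm) :
    (kerNormMap f a : B.V) = f.hom a.1 := rfl

/-- `Ĥ⁻¹` is functorial. -/
def Hm1hatMap (f : A ⟶ B) : Hm1hat A →ₗ[k] Hm1hat B :=
  Submodule.mapQ (augInKer A) (augInKer B) (kerNormMap f) (by
    intro a ha
    exact hom_mem_coinvKer f ha)

@[simp] lemma Hm1hatMap_mk (f : A ⟶ B) (a : LinearMap.ker A.ρ.norm) :
    Hm1hatMap f (Hm1hat.mk A a) = Hm1hat.mk B (kerNormMap f a) := rfl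

end Functoriality

/-! ### Short exact sequences: the connecting map `Ĥ⁻¹(X₃) → Ĥ⁰(X₁)` -/

/-- A short exact sequence `0 → A → B → C → 0` of representations, in concrete terms. -/
structure SES {A B C : Rep.{0} k G} (f : A ⟶ B) (g : B ⟶ C) : Prop where
  inj : Function.Injective f.hom
  surj : Function.Surjective g.hom
  exact : ∀ b : B.V, g.hom b = 0 ↔ ∃ a : A.V, f.hom a = b

section Connecting

variable {A B C : Rep.{0} k G} {f : A ⟶ B} {g : B ⟶ C}

lemma SES.comp_apply (h : SES f g) (a : A.V) : g.hom (f.hom a) = 0 := (h.exact _).2 ⟨a, rfl⟩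

/-- If `f a = N b` with `N (g b) = 0`... more precisely any `a` with `f a` invariant is invariant. -/
lemma SES.mem_invariants_of_map (h : SES f g) {a : A.V} (ha : f.hom a ∈ B.ρ.invariants) :
    a ∈ A.ρ.invariants := fun x => h.inj (by rw [Rep.hom_comm_apply, ha x])

/-- elements of `I_G C` lift to elements of `I_G B` -/
lemma SES.exists_mem_coinvKer (h : SES f g) {c : C.V}
    (hc : c ∈ Representation.Coinvariants.ker C.ρ) :
    ∃ b ∈ Representation.Coinvariants.ker B.ρ, g.hom b = c := by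
  induction hc using Submodule.span_induction with
  | mem x hx =>
    obtain ⟨⟨x, v⟩, rfl⟩ := hx
    obtain ⟨w, rfl⟩ := h.surj v
    exact ⟨B.ρ x w - w, Representation.Coinvariants.sub_mem_ker x w, by
      simp only [map_sub, Rep.hom_comm_apply]⟩
  | zero => exact ⟨0, zero_mem _, map_zero _⟩
  | add x y _ _ hx hy =>
    obtain ⟨b, hb, rfl⟩ := hx
    obtain ⟨b', hb', rfl⟩ := hy
    exact ⟨b + b', add_mem hb hb', map_add _ _ _⟩
  | smul r x _ hx =>
    obtain ⟨b, hb, rfl⟩ := hx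
    exact ⟨r • b, Submodule.smul_mem _ r hb, map_smul _ _ _⟩

/-- existence of the data defining the connecting map -/
lemma SES.exists_delta (h : SES f g) (c : LinearMap.ker C.ρ.norm) :
    ∃ (b : B.V) (a : A.ρ.invariants), g.hom b = c.1 ∧ f.hom a.1 = B.ρ.norm b := by
  obtain ⟨b, hb⟩ := h.surj c.1
  have h0 : g.hom (B.ρ.norm b) = 0 := by
    rw [hom_norm, hb]; exact c.2
  obtain ⟨a, ha⟩ := (h.exact _).1 h0
  exact ⟨b, ⟨a, h.mem_invariants_of_map (by rw [ha]; exact norm_mem_invariants B b)⟩, hb, ha⟩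

/-- the connecting map on representatives -/
def SES.deltaAux (h : SES f g) (c : LinearMap.ker C.ρ.norm) : H0hat A :=
  H0hat.mk A (h.exists_delta c).choose_spec.choose

lemma SES.deltaAux_eq (h : SES f g) (c : LinearMap.ker C.ρ.norm) (b : B.V) (a : A.ρ.invariants)
    (hb : g.hom b = c.1) (ha : f.hom a.1 = B.ρ.norm b) : h.deltaAux c = H0hat.mk A a := by
  obtain ⟨hb', ha'⟩ := (h.exists_delta c).choose_spec.choose_spec
  set b' := (h.exists_delta c).choose
  set a' := (h.exists_delta c).choose_spec.choose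
  show H0hat.mk A a' = H0hat.mk A a
  rw [← sub_eq_zero, ← map_sub, H0hat.mk_eq_zero_iff]
  have hbb : g.hom (b' - b) = 0 := by rw [map_sub, hb', hb, sub_self]
  obtain ⟨a₀, ha₀⟩ := (h.exact _).1 hbb
  refine ⟨a₀, h.inj ?_⟩
  rw [hom_norm, ha₀, map_sub]
  show B.ρ.norm b' - B.ρ.norm b = f.hom (a'.1 - a.1)
  rw [map_sub, ha', ha]

/-- the connecting map `ker N_C → Ĥ⁰(A)` as a linear map -/
def SES.deltaLin (h : SES f g) : LinearMap.ker C.ρ.norm →ₗ[k] H0hat A where
  toFun := h.deltaAux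
  map_add' c c' := by
    obtain ⟨b, a, hb, ha⟩ := h.exists_delta c
    obtain ⟨b', a', hb', ha'⟩ := h.exists_delta c'
    rw [h.deltaAux_eq c b a hb ha, h.deltaAux_eq c' b' a' hb' ha',
      h.deltaAux_eq (c + c') (b + b') (a + a') (by simp [hb, hb']) (by simp [ha, ha']), map_add]
  map_smul' r c := by
    obtain ⟨b, a, hb, ha⟩ := h.exists_delta c
    rw [h.deltaAux_eq c b a hb ha,
      h.deltaAux_eq (r • c) (r • b) (r • a) (by simp [hb]) (by simp [ha]), map_smul]
    rfl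

/-- **The connecting map** `δ : Ĥ⁻¹(C) → Ĥ⁰(A)` of a short exact sequence `0 → A → B → C → 0`. -/
def SES.delta (h : SES f g) : Hm1hat C →ₗ[k] H0hat A :=
  Submodule.liftQ (augInKer C) h.deltaLin (by
    intro c hc
    obtain ⟨b, hbI, hb⟩ := h.exists_mem_coinvKer (show c.1 ∈ _ from hc)
    rw [LinearMap.mem_ker]
    show h.deltaAux c = 0
    rw [h.deltaAux_eq c b 0 hb (by
      rw [norm_eq_zero_of_mem_coinvKer B hbI]; exact map_zero _), map_zero])

lemma SES.delta_mk (h : SES f g) (c : LinearMap.ker C.ρ.norm) (b : B.V) (a : A.ρ.invariants)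
    (hb : g.hom b = c.1) (ha : f.hom a.1 = B.ρ.norm b) :
    h.delta (Hm1hat.mk C c) = H0hat.mk A a :=
  h.deltaAux_eq c b a hb ha

/-- exactness at `Ĥ⁻¹(C)`: `ker δ = im (Ĥ⁻¹(B) → Ĥ⁻¹(C))` -/
lemma SES.delta_eq_zero_iff (h : SES f g) (x : Hm1hat C) :
    h.delta x = 0 ↔ ∃ y : Hm1hat B, Hm1hatMap g y = x := by
  obtain ⟨c, rfl⟩ := Hm1hat.mk_surjective C x
  obtain ⟨b, a, hb, ha⟩ := h.exists_delta c
  rw [h.delta_mk c b a hb ha, H0hat.mk_eq_zero_iff]
  constructor
  · rintro ⟨a₁, ha₁⟩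
    have hker : b - f.hom a₁ ∈ LinearMap.ker B.ρ.norm := by
      rw [LinearMap.mem_ker, map_sub, ← hom_norm, ha₁, ha, sub_self]
    refine ⟨Hm1hat.mk B ⟨_, hker⟩, ?_⟩
    rw [Hm1hatMap_mk]
    congr 1
    apply Subtype.ext
    show g.hom (b - f.hom a₁) = c.1
    rw [map_sub, h.comp_apply, sub_zero, hb]
  · rintro ⟨y, hy⟩
    obtain ⟨b₁, rfl⟩ := Hm1hat.mk_surjective B y
    rw [Hm1hatMap_mk, ← sub_eq_zero, ← map_sub, Hm1hat.mk_eq_zero_iff] at hy
    obtain ⟨b₂, hb₂I, hb₂⟩ := h.exists_mem_coinvKer hy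
    have hbb : g.hom (b₁.1 - b₂ - b) = 0 := by
      have : g.hom b₁.1 - c.1 = g.hom b₂ := hb₂.symm
      rw [map_sub, map_sub, hb, ← this]; abel
    obtain ⟨a₀, ha₀⟩ := (h.exact _).1 hbb
    refine ⟨-a₀, h.inj ?_⟩
    rw [hom_norm, map_neg, ha₀, ha]
    have h1 : B.ρ.norm b₁.1 = 0 := b₁.2
    have h2 : B.ρ.norm b₂ = 0 := norm_eq_zero_of_mem_coinvKer B hb₂I
    simp only [map_sub, map_neg, h1, h2]
    abel

/-- exactness at `Ĥ⁰(A)`: `ker (Ĥ⁰(A) → Ĥ⁰(B)) = im δ` -/
lemma SES.H0hatMap_eq_zero_iff (h : SES f g) (x : H0hat A) :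
    H0hatMap f x = 0 ↔ ∃ y : Hm1hat C, h.delta y = x := by
  obtain ⟨a, rfl⟩ := H0hat.mk_surjective A x
  rw [H0hatMap_mk, H0hat.mk_eq_zero_iff]
  constructor
  · rintro ⟨b, hb⟩
    have hc : g.hom b ∈ LinearMap.ker C.ρ.norm := by
      rw [LinearMap.mem_ker, ← hom_norm, hb]
      exact h.comp_apply a.1
    exact ⟨Hm1hat.mk C ⟨_, hc⟩, h.delta_mk ⟨_, hc⟩ b a rfl hb.symm⟩
  · rintro ⟨y, hy⟩
    obtain ⟨c, rfl⟩ := Hm1hat.mk_surjective C y
    obtain ⟨b, a', hb, ha'⟩ := h.exists_delta c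
    rw [h.delta_mk c b a' hb ha', ← sub_eq_zero, ← map_sub, H0hat.mk_eq_zero_iff] at hy
    obtain ⟨a₁, ha₁⟩ := hy
    refine ⟨b - f.hom a₁, ?_⟩
    rw [map_sub, ← hom_norm, ha₁, ← ha']
    show f.hom a'.1 - f.hom (a'.1 - a.1) = f.hom a.1
    rw [map_sub]; abel

/-- If `Ĥ⁻¹(B) = 0 = Ĥ⁰(B)` then `δ : Ĥ⁻¹(C) ≃ Ĥ⁰(A)`. -/
def SES.deltaEquiv (h : SES f g) [Subsingleton (Hm1hat B)] [Subsingleton (H0hat B)] :
    Hm1hat C ≃ₗ[k] H0hat A :=
  LinearEquiv.ofBijective h.delta ⟨by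
    rw [injective_iff_map_eq_zero]
    intro x hx
    obtain ⟨y, rfl⟩ := (h.delta_eq_zero_iff x).1 hx
    rw [Subsingleton.elim y 0, map_zero], fun x =>
    (h.H0hatMap_eq_zero_iff x).1 (Subsingleton.elim _ _)⟩

end Connecting

end Fermat.Agent.CFT.H65

end
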