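/-
CFT project, layer A: explicit form of Shapiro's isomorphism and identification of the
restriction map of `H33_CorRes` with Mathlib's functorial restriction.

Main results (namespace `Fermat.Agent.CFT.H66`, `k G : Type u`, `S : Subgroup G`):
* `isoExt_hom_naturality`: the comparison isomorphisms `ProjectiveResolution.isoExt` for two
  projective resolutions of the same object are compatible with a chain map lifting the identity.
* `barResMap S : bar(S) ⟶ Res(bar(G))`, the chain map induced by `S ≤ G`.
* `coindCounit S A : res (coind A) ⟶ A`, evaluation at `1`.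
* `coindIso_hom_eq`: `(groupCohomology.coindIso A n).hom = map S.subtype (coindCounit S A) n`.
* `resS_eq_map`: `H33.resS S A n = groupCohomology.map S.subtype (𝟙 _) n`.
* `map_comp_corS`, `corS_map_apply`: `cor ∘ res = index` for Mathlib's restriction.
* `eq_zero_of_map_sylow_eq_zero`: restriction to a Sylow subgroup is injective on `p`-power
  torsion classes.

The lemma `diagonalSuccIsoFree_inv_single` is adapted from an in-proof step of
`Rep.barComplex.d_comp_diagonalSuccIsoFree_inv_eq` in Mathlib (Apache 2.0, Amelia Livingston).
-/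
import Mathlib
import Fermat.Agent.CFT.H33_CorRes

set_option autoImplicit false

open CategoryTheory Opposite Rep Finsupp

namespace Fermat.Agent.CFT.H66

universe u

section Unop

variable {V : Type*} [Category V] [Abelian V] {ι : Type*} {c : ComplexShape ι}

lemma homologyUnop_hom_naturality {K L : HomologicalComplex Vᵒᵖ c} (φ : K ⟶ L) (i : ι) :
    HomologicalComplex.homologyMap ((HomologicalComplex.unopFunctor V c).map φ.op) i ≫
        (K.homologyUnop i).hom =
      (L.homologyUnop i).hom ≫ (HomologicalComplex.homologyMap φ i).unop := by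
  have h := HomologicalComplex.homologyOp_hom_naturality
    ((HomologicalComplex.unopFunctor V c).map φ.op) i
  have h2 := congrArg Quiver.Hom.unop h
  exact h2.symm

end Unop

section Ext

variable {R : Type*} [Ring R] {C : Type*} [Category C] [Abelian C] [Linear R C]
  [EnoughProjectives C]

/-- the cochain map `Hom(Q, Y) ⟶ Hom(P, Y)` induced by a chain map `φ : P ⟶ Q`. -/
noncomputable def linearYonedaObjMap {P Q : ChainComplex C ℕ} (φ : P ⟶ Q) (Y : C) :
    Q.linearYonedaObj R Y ⟶ P.linearYonedaObj R Y :=
  (HomologicalComplex.unopFunctor _ _).map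
    ((((linearYoneda R C).obj Y).rightOp.mapHomologicalComplex _).map φ).op

lemma comp_aux {M : Type*} [Category M] {E UQ UP HQ HP : M} (aQ : E ⟶ UQ) (uQ : UQ ⟶ HQ)
    (m : HQ ⟶ HP) (aP : E ⟶ UP) (uP : UP ⟶ HP) (w : UQ ⟶ UP) (h1 : aP = aQ ≫ w)
    (h2 : uQ ≫ m = w ≫ uP) : (aQ ≫ uQ) ≫ m = aP ≫ uP := by
  rw [Category.assoc, h2, ← Category.assoc, ← h1]

lemma iso_aux {M : Type*} [Category M] {A A' B B' : M} (α : A ≅ A') (β : B ≅ B') (m : A ⟶ B)
    (m' : A' ⟶ B') (h : m ≫ β.hom = α.hom ≫ m') : α.inv ≫ m = m' ≫ β.inv := by
  rw [Iso.inv_comp_eq, ← Category.assoc, Iso.eq_comp_inv, h]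

lemma isoExt_hom_naturality {X : C} (P Q : ProjectiveResolution X) (φ : P.complex ⟶ Q.complex)
    (comm : φ.f 0 ≫ Q.π.f 0 = P.π.f 0) (n : ℕ) (Y : C) :
    (Q.isoExt (R := R) n Y).hom ≫
        HomologicalComplex.homologyMap (linearYonedaObjMap (R := R) φ Y) n =
      (P.isoExt (R := R) n Y).hom := by
  have h1 := ProjectiveResolution.isoLeftDerivedObj_inv_naturality (𝟙 X) P Q φ
    (by rw [comm]; exact (Category.comp_id _).symm) ((linearYoneda R C).obj Y).rightOp n
  rw [CategoryTheory.Functor.map_id, Category.comp_id] at h1
  have h2 := homologyUnop_hom_naturality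
    ((((linearYoneda R C).obj Y).rightOp.mapHomologicalComplex (ComplexShape.down ℕ)).map φ) n
  refine comp_aux
    (Q.isoLeftDerivedObj ((linearYoneda R C).obj Y).rightOp n).inv.unop
    (((((linearYoneda R C).obj Y).rightOp.mapHomologicalComplex
          (ComplexShape.down ℕ)).obj Q.complex).homologyUnop n).inv
    (HomologicalComplex.homologyMap (linearYonedaObjMap (R := R) φ Y) n)
    (P.isoLeftDerivedObj ((linearYoneda R C).obj Y).rightOp n).inv.unop
    (((((linearYoneda R C).obj Y).rightOp.mapHomologicalComplex
          (ComplexShape.down ℕ)).obj P.complex).homologyUnop n).inv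
    (HomologicalComplex.homologyMap
          ((((linearYoneda R C).obj Y).rightOp.mapHomologicalComplex (ComplexShape.down ℕ)).map φ) n).unop
    ?_ ?_
  · exact congrArg Quiver.Hom.unop h1
  · exact iso_aux _ _ _ _ h2

end Ext

end Fermat.Agent.CFT.H66

namespace Fermat.Agent.CFT.H66

universe u

variable {k G : Type u} [CommRing k] [Group G] (S : Subgroup G)

/-- components of the chain map `bar(S) ⟶ Res(bar(G))` -/
noncomputable def barResComp (n : ℕ) :
    free k S (Fin n → S) ⟶ res S.subtype (free k G (Fin n → G)) :=
  freeLift k S (A := res S.subtype (free k G (Fin n → G)))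
    (fun s => single (fun i => (s i : G)) (MonoidAlgebra.single (1 : G) (1 : k)))

example (n : ℕ) : (((resFunctor S.subtype).mapHomologicalComplex _).obj (barComplex k G)).X n =
  res S.subtype (free k G (Fin n → G)) := rfl

lemma barResComp_single (n : ℕ) (x : Fin n → S) (s : S) (r : k) :
    (barResComp (k := k) S n).hom (single x (MonoidAlgebra.single s r)) =
      single (fun i => (x i : G)) (MonoidAlgebra.single (s : G) r) := by
  simp [barResComp]

end Fermat.Agent.CFT.H66

namespace Fermat.Agent.CFT.H66

universe u

variable {k G : Type u} [CommRing k] [Group G] (S : Subgroup G)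

open Rep.barComplex in
lemma barResComp_comm (n : ℕ) :
    barResComp (k := k) S (n + 1) ≫ (resFunctor S.subtype).map (Rep.barComplex.d k G n) =
      Rep.barComplex.d k S n ≫ barResComp S n := by
  refine free_ext k S _ _ _ fun x => ?_
  simp only [Rep.hom_comp, Representation.IntertwiningMap.comp_apply]
  rw [barResComp_single]
  rw [d_single (k := k), map_add, map_sum, barResComp_single]
  have h1 : ((resFunctor S.subtype).map (d k G n)).hom
      (single (fun i => (x i : G)) (MonoidAlgebra.single ((1 : S) : G) (1 : k))) =
      (d k G n).hom (single (fun i => (x i : G)) (MonoidAlgebra.single (1 : G) (1 : k))) := rfl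
  rw [h1, d_single (k := k)]
  congr 1
  refine Finset.sum_congr rfl fun j _ => ?_
  rw [barResComp_single]
  have h2 := Fin.comp_contractNth (fun x1 x2 : S => x1 * x2) (fun x1 x2 : G => x1 * x2)
    (f := fun s : S => (s : G)) (fun _ _ => rfl) j x
  have h3 : (fun i => ((j.contractNth (fun x1 x2 => x1 * x2) x i : S) : G)) =
      j.contractNth (fun x1 x2 => x1 * x2) (fun i => (x i : G)) := h2
  rw [h3]
  rfl

end Fermat.Agent.CFT.H66

namespace Fermat.Agent.CFT.H66

universe u

variable {k G : Type u} [CommRing k] [Group G] (S : Subgroup G)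

/-- the chain map `bar(S) ⟶ Res(bar(G))` induced by the inclusion `S ≤ G` -/
noncomputable def barResMap :
    Rep.barComplex k S ⟶
      ((resFunctor (k := k) S.subtype).mapHomologicalComplex _).obj (Rep.barComplex k G) where
  f n := barResComp S n
  comm' i j hij := by
    obtain rfl : j + 1 = i := hij
    rw [Rep.barComplex.d_def]
    have : (((resFunctor (k := k) S.subtype).mapHomologicalComplex (ComplexShape.down ℕ)).obj
        (Rep.barComplex k G)).d (j + 1) j = (resFunctor S.subtype).map (Rep.barComplex.d k G j) := by
      rw [Functor.mapHomologicalComplex_obj_d, Rep.barComplex.d_def]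
    rw [this]
    exact barResComp_comm S j

end Fermat.Agent.CFT.H66

namespace Fermat.Agent.CFT.H66

universe u

variable {k G : Type u} [CommRing k] [Group G]

open Rep.barComplex in
set_option backward.defeqAttrib.useBackward true in
set_option backward.isDefEq.respectTransparency false in
lemma diagonalSuccIsoFree_inv_single (m : ℕ) (f : Fin m → G) (g : G) (r : k) :
    (diagonalSuccIsoFree k G m).inv.hom (single f (MonoidAlgebra.single g r)) =
      MonoidAlgebra.single (g • Fin.partialProd f) r := by
  simp only [diagonalSuccIsoFree, diagonalSuccIsoTensorTrivial, Iso.trans_inv, Rep.hom_comp,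
    Representation.IntertwiningMap.comp_apply]
  have step1 : (Hom.hom (leftRegularTensorTrivialIsoFree k G (Fin m → G)).inv)
      (single f (.single g r)) = .single g 1 ⊗ₜ[k] .single f r :=
    Representation.leftRegularTensorTrivialIsoFree_symm_apply_single_single f g r
  rw [step1]
  simp only [mkIso_inv, Representation.linearizeOfMulActionIso, Representation.Equiv.mk_symm,
    LinearEquiv.refl_symm, ConcreteCategory.hom_ofHom, Action.tensorObj_V, Action.trivial_V,
    Functor.mapIso_inv, tensor_V, tensor_ρ, Iso.symm_inv, Functor.Monoidal.μIso_hom, μ_hom,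
    MonoidalCategory.tensorIso_inv, Representation.linearizeTrivialIso, hom_tensorHom,
    Representation.IntertwiningMap.tensor_apply, Representation.Equiv.coe_toIntertwiningMap,
    Representation.Equiv.mk_apply, LinearEquiv.refl_apply]
  have key₁ := Representation.linearizeMap_single (k := k)
    (Action.diagonalSuccIsoTensorTrivial G m).inv (g, f) ((1 : k) * r)
  have key₂ := Representation.LinearizeMonoidal.μ_apply_single_single (k := k)
    (X := Action.leftRegular G) (Y := Action.trivial G (Fin m → G)) g f 1 r
  exact ((congrArg (fun z => (Representation.linearizeMap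
    (Action.diagonalSuccIsoTensorTrivial G m).inv) z) key₂).trans key₁).trans (by simp)

end Fermat.Agent.CFT.H66

namespace Fermat.Agent.CFT.H66

universe u

variable {k G : Type u} [CommRing k] [Group G]

lemma barResolution_π_f_zero (k G : Type u) [CommRing k] [Group G] :
    ((Rep.barResolution k G).π.f 0 : free k G (Fin 0 → G) ⟶ Rep.trivial k G k) =
      (diagonalSuccIsoFree k G 0).inv ≫ Rep.standardComplex.ε k G := by
  change ((Rep.barComplex.isoStandardComplex k G).hom ≫ Rep.standardComplex.εToSingle₀ k G).f 0 = _
  rw [HomologicalComplex.comp_f]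
  rfl

lemma diagonalSuccIsoFree_inv_comp_ε_single (x : Fin 0 → G) (g : G) (r : k) :
    ((diagonalSuccIsoFree k G 0).inv ≫ Rep.standardComplex.ε k G).hom
      (single x (MonoidAlgebra.single g r)) = r := by
  rw [Rep.hom_comp, Representation.IntertwiningMap.comp_apply,
    diagonalSuccIsoFree_inv_single]
  simp [Rep.standardComplex.ε]

end Fermat.Agent.CFT.H66

namespace Fermat.Agent.CFT.H66

universe u

variable {k G : Type u} [CommRing k] [Group G] (S : Subgroup G)

lemma barResMap_comm :
    (barResMap (k := k) S).f 0 ≫
      (((resFunctor (k := k) S.subtype).mapProjectiveResolution (Rep.barResolution k G)).π).f 0 =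
      ((Rep.barResolution k S).π).f 0 := by
  refine free_ext k S _ _ _ fun x => ?_
  change ((Rep.barResolution k G).π.f 0 : free k G (Fin 0 → G) ⟶ Rep.trivial k G k).hom
      ((barResComp S 0).hom (single x (MonoidAlgebra.single 1 1))) =
    ((Rep.barResolution k S).π.f 0 : free k S (Fin 0 → S) ⟶ Rep.trivial k S k).hom
      (single x (MonoidAlgebra.single 1 1))
  rw [barResolution_π_f_zero, barResolution_π_f_zero, barResComp_single]
  have e1 := diagonalSuccIsoFree_inv_comp_ε_single (k := k) (G := G) (fun i => (x i : G))
    ((1 : S) : G) (1 : k)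
  have e2 := diagonalSuccIsoFree_inv_comp_ε_single (k := k) (G := S) x (1 : S) (1 : k)
  exact e1.trans e2.symm

end Fermat.Agent.CFT.H66

namespace Fermat.Agent.CFT.H66

universe u

variable {k G : Type u} [CommRing k] [Group G] (S : Subgroup G)

open groupCohomology

/-- evaluation at `1`: the counit `Res (Coind A) ⟶ A` -/
noncomputable def coindCounit (A : Rep.{u} k S) : res S.subtype (coind S.subtype A) ⟶ A :=
  (resCoindHomEquiv S.subtype (coind S.subtype A) A).symm (𝟙 _)

lemma coindCounit_hom_apply (A : Rep.{u} k S) (f : (coind S.subtype A).V) :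
    (coindCounit S A).hom f = f.1 1 := rfl

lemma cochainsMap_coindCounit (A : Rep.{u} k S) :
    cochainsMap S.subtype (coindCounit S A) =
      (inhomogeneousCochainsIso (coind S.subtype A)).hom ≫
        (linearYonedaObjResProjectiveResolutionIso (Rep.barResolution k G) A).inv ≫
          linearYonedaObjMap (R := k) (barResMap S) A ≫ (inhomogeneousCochainsIso A).inv := by
  ext n F s
  change (coindCounit S A).hom (F (fun i => (s i : G))) =
    (freeLiftLEquiv k S (Fin n → S) A)
      (barResComp S n ≫ ((resCoindHomEquiv S.subtype (free k G (Fin n → G)) A).symm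
        ((freeLiftLEquiv k G (Fin n → G) (coind S.subtype A)).symm F))) s
  rw [coindCounit_hom_apply]
  have key : ∀ (f : free k S (Fin n → S) ⟶ A), (freeLiftLEquiv k S (Fin n → S) A) f s =
      f.hom (single s (MonoidAlgebra.single 1 1)) := fun f => rfl
  rw [key, Rep.hom_comp, Representation.IntertwiningMap.comp_apply, barResComp_single]
  have key2 : ∀ (φ : free k G (Fin n → G) ⟶ coind S.subtype A)
      (y : (free k G (Fin n → G)).V),
      ((resCoindHomEquiv S.subtype (free k G (Fin n → G)) A).symm φ).hom y = (φ.hom y).1 1 :=
    fun φ y => rfl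
  rw [key2]
  have key3 : ((freeLiftLEquiv k G (Fin n → G) (coind S.subtype A)).symm F).hom
      (single (fun i => (s i : G)) (MonoidAlgebra.single ((1 : S) : G) (1 : k))) =
      F (fun i => (s i : G)) := by
    change (Representation.freeLift (coind S.subtype A).ρ F)
      (single (fun i => (s i : G)) (MonoidAlgebra.single (1 : G) (1 : k))) = _
    rw [Representation.freeLift_single_single, one_smul, map_one]
    rfl
  rw [key3]


lemma comp_aux2 {M : Type*} [Category M] {X HP E HQ : M} (a : X ⟶ HP) (p : E ≅ HP) (qh : E ⟶ HQ)
    (m : HQ ⟶ HP) (c : HP ⟶ X) (h : qh ≫ m = p.hom) (hac : a ≫ c = 𝟙 X) :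
    (a ≫ p.inv ≫ qh) ≫ m ≫ c = 𝟙 X := by
  rw [Category.assoc, Category.assoc, ← Category.assoc qh, h, Iso.inv_hom_id_assoc, hac]

lemma groupCohomologyIso_hom_comp (A : Rep.{u} k S) (n : ℕ) :
    (groupCohomologyIso A n
        ((resFunctor S.subtype).mapProjectiveResolution (Rep.barResolution k G))).hom ≫
      HomologicalComplex.homologyMap
        (linearYonedaObjMap (R := k) (barResMap S) A ≫ (inhomogeneousCochainsIso A).inv) n =
      𝟙 _ := by
  have h := isoExt_hom_naturality (R := k) (Rep.barResolution k S)
    ((resFunctor S.subtype).mapProjectiveResolution (Rep.barResolution k G))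
    (barResMap S) (barResMap_comm S) n A
  rw [HomologicalComplex.homologyMap_comp]
  have h0 : (groupCohomologyIso A n
        ((resFunctor S.subtype).mapProjectiveResolution (Rep.barResolution k G))).hom =
      HomologicalComplex.homologyMap (inhomogeneousCochainsIso A).hom n ≫
        ((Rep.barResolution k S).isoExt (R := k) n A).inv ≫
        (((resFunctor S.subtype).mapProjectiveResolution
          (Rep.barResolution k G)).isoExt (R := k) n A).hom := rfl
  rw [h0]
  have hac : HomologicalComplex.homologyMap (inhomogeneousCochainsIso A).hom n ≫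
      HomologicalComplex.homologyMap (inhomogeneousCochainsIso A).inv n =
      𝟙 ((inhomogeneousCochains A).homology n) := by
    rw [← HomologicalComplex.homologyMap_comp, Iso.hom_inv_id, HomologicalComplex.homologyMap_id]
  exact comp_aux2 _ _ _ _ _ h hac


/-- **Explicit Shapiro.** Mathlib's abstract isomorphism `Hⁿ(G, Coind A) ≅ Hⁿ(S, A)` is the map
induced by the inclusion `S ≤ G` and evaluation at `1`. -/
theorem coindIso_hom_eq (A : Rep.{u} k S) (n : ℕ) :
    (groupCohomology.coindIso A n).hom = groupCohomology.map S.subtype (coindCounit S A) n := by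
  have h1 : (groupCohomology.coindIso A n).hom =
      HomologicalComplex.homologyMap ((inhomogeneousCochainsIso (coind S.subtype A)).hom ≫
        (linearYonedaObjResProjectiveResolutionIso (Rep.barResolution k G) A).inv) n ≫
      (groupCohomologyIso A n
        ((resFunctor S.subtype).mapProjectiveResolution (Rep.barResolution k G))).inv := rfl
  have h2 := (Iso.hom_comp_eq_id _).1 (groupCohomologyIso_hom_comp S A n)
  rw [h1, ← h2]
  have h3 := HomologicalComplex.homologyMap_comp
    ((inhomogeneousCochainsIso (coind S.subtype A)).hom ≫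
        (linearYonedaObjResProjectiveResolutionIso (Rep.barResolution k G) A).inv)
    (linearYonedaObjMap (R := k) (barResMap S) A ≫ (inhomogeneousCochainsIso A).inv) n
  refine h3.symm.trans ?_
  have h4 : cochainsMap S.subtype (coindCounit S A) =
      ((inhomogeneousCochainsIso (coind S.subtype A)).hom ≫
        (linearYonedaObjResProjectiveResolutionIso (Rep.barResolution k G) A).inv) ≫
      (linearYonedaObjMap (R := k) (barResMap S) A ≫ (inhomogeneousCochainsIso A).inv) :=
    (cochainsMap_coindCounit S A).trans (Category.assoc _ _ _).symm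
  exact congrArg (fun m => HomologicalComplex.homologyMap m n) h4.symm


variable (A : Rep.{u} k G)

lemma resFunctor_map_unitCoind_comp_coindCounit :
    (resFunctor S.subtype).map (H33.unitCoind S A) ≫ coindCounit S (res S.subtype A) =
      𝟙 (res S.subtype A) := by
  apply Rep.hom_ext
  ext a
  change ((H33.unitCoind S A).hom a).1 1 = a
  rw [H33.unitCoind_apply, map_one]
  rfl

/-- helper33's restriction (defined through Shapiro) is Mathlib's functorial restriction. -/
theorem resS_eq_map (n : ℕ) :
    H33.resS S A n = groupCohomology.map S.subtype (𝟙 (res S.subtype A)) n := by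
  rw [H33.resS, coindIso_hom_eq]
  have h := groupCohomology.map_comp (k := k) (MonoidHom.id G) S.subtype
    (A := A) (B := coind S.subtype (res S.subtype A)) (C := res S.subtype A)
    (H33.unitCoind S A) (coindCounit S (res S.subtype A)) n
  rw [← h]
  exact groupCohomology.map_congr rfl
    (congrArg (fun m => m.hom.toLinearMap) (resFunctor_map_unitCoind_comp_coindCounit S A)) n


theorem map_comp_corS [S.FiniteIndex] (n : ℕ) :
    groupCohomology.map S.subtype (𝟙 (res S.subtype A)) n ≫ H33.corS S A n =
      S.index • 𝟙 (groupCohomology A n) := by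
  rw [← resS_eq_map]
  exact H33.resS_comp_corS S A n

/-- `cor ∘ res = index`, with `res` Mathlib's functorial restriction. -/
theorem corS_map_apply [S.FiniteIndex] (n : ℕ) (x : groupCohomology A n) :
    (H33.corS S A n).hom ((groupCohomology.map S.subtype (𝟙 (res S.subtype A)) n).hom x) =
      S.index • x := by
  rw [← resS_eq_map]
  exact H33.corS_resS_apply S A n x

/-- Mathlib's restriction to a Sylow `p`-subgroup is injective on `p`-power torsion classes. -/
theorem eq_zero_of_map_sylow_eq_zero [Finite G] (n : ℕ) {p : ℕ} [Fact p.Prime] (P : Sylow p G)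
    (z : groupCohomology A n) (m : ℕ) (hz : p ^ m • z = 0)
    (hres : (groupCohomology.map (P : Subgroup G).subtype
      (𝟙 (res (P : Subgroup G).subtype A)) n).hom z = 0) : z = 0 := by
  rw [← resS_eq_map] at hres
  exact H33.eq_zero_of_resS_eq_zero A n P z m hz hres

end Fermat.Agent.CFT.H66
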