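import Mathlib

namespace Fermat.Agent.CFT.H6

open CategoryTheory

universe u

section Defs

variable {A : Type*} [AddCommGroup A]

/-- `hIndex f g = |ker f / (im g ∩ ker f)|`, `0` if infinite. -/
noncomputable def hIndex (f g : A →+ A) : ℕ := g.range.relIndex f.ker

/-- The Herbrand quotient of the pair `(f, g)`: `|ker f / im g| / |ker g / im f|`. -/
noncomputable def herbrand (f g : A →+ A) : ℚ := (hIndex f g : ℚ) / (hIndex g f : ℚ)

/-- Both indices entering the Herbrand quotient are finite. -/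
def HerbrandDefined (f g : A →+ A) : Prop := hIndex f g ≠ 0 ∧ hIndex g f ≠ 0

lemma HerbrandDefined.symm {f g : A →+ A} (h : HerbrandDefined f g) : HerbrandDefined g f :=
  ⟨h.2, h.1⟩

lemma herbrand_swap (f g : A →+ A) : herbrand g f = (herbrand f g)⁻¹ := by
  simp [herbrand]

lemma HerbrandDefined.herbrand_ne_zero {f g : A →+ A} (h : HerbrandDefined f g) :
    herbrand f g ≠ 0 := by
  unfold herbrand
  exact div_ne_zero (Nat.cast_ne_zero.mpr h.1) (Nat.cast_ne_zero.mpr h.2)

lemma HerbrandDefined.herbrand_pos {f g : A →+ A} (h : HerbrandDefined f g) :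
    0 < herbrand f g := by
  unfold herbrand
  exact div_pos (Nat.cast_pos.mpr (Nat.pos_of_ne_zero h.1)) (Nat.cast_pos.mpr (Nat.pos_of_ne_zero h.2))

end Defs

section Counting

variable {M₁ M₂ M₃ : Type*} [AddCommGroup M₁] [AddCommGroup M₂] [AddCommGroup M₃]

lemma card_mid_of_exact (φ : M₁ →+ M₂) (ψ : M₂ →+ M₃) (h : Function.Exact φ ψ) :
    Nat.card M₂ = Nat.card φ.range * Nat.card ψ.range := by
  have h1 : ψ.ker = φ.range := AddMonoidHom.exact_iff.mp h
  rw [← AddSubgroup.card_mul_index ψ.ker, AddSubgroup.index_ker, h1]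

lemma card_range_ne_zero_of_left (φ : M₁ →+ M₂) (h : Nat.card M₁ ≠ 0) :
    Nat.card φ.range ≠ 0 := by
  have : Finite M₁ := (Nat.card_ne_zero.mp h).2
  have : Finite φ.range := by
    rw [AddMonoidHom.range_eq_map]
    exact Set.Finite.image _ Set.finite_univ |>.to_subtype
  exact Nat.card_ne_zero.mpr ⟨⟨0⟩, this⟩

lemma card_range_ne_zero_of_right (φ : M₁ →+ M₂) (h : Nat.card M₂ ≠ 0) :
    Nat.card φ.range ≠ 0 := by
  have : Finite M₂ := (Nat.card_ne_zero.mp h).2
  exact Nat.card_ne_zero.mpr ⟨⟨0⟩, inferInstance⟩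

end Counting

section Complex

variable {A B C : Type u} [AddCommGroup A] [AddCommGroup B] [AddCommGroup C]

lemma zmod2_succ_of_ne (i : ZMod 2) (h : i ≠ 0) : i + 1 = 0 := by revert i; decide

/-- The `ZMod 2`-indexed complex `A --f--> A --g--> A`. -/
noncomputable def cx (f g : A →+ A) (h₁ : g.comp f = 0) (h₂ : f.comp g = 0) :
    HomologicalComplex Ab.{u} (ComplexShape.up (ZMod 2)) where
  X _ := AddCommGrpCat.of A
  d i j := if i + 1 = j then
    (if i = 0 then AddCommGrpCat.ofHom f else AddCommGrpCat.ofHom g) else 0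
  shape i j h := by
    have : ¬ (i + 1 = j) := h
    simp [this]
  d_comp_d' i j k hij hjk := by
    have hij' : i + 1 = j := hij
    have hjk' : j + 1 = k := hjk
    simp only [hij', hjk', if_true]
    by_cases hi : i = 0
    · have hj : j ≠ 0 := by subst hi; subst hij'; decide
      simp only [hi, hj, if_true, if_false]
      rw [← AddCommGrpCat.ofHom_comp, h₁]; rfl
    · have hj : j = 0 := by
        subst hij'
        exact zmod2_succ_of_ne i hi
      simp only [hi, hj, if_true, if_false]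
      rw [← AddCommGrpCat.ofHom_comp, h₂]; rfl

lemma cx_d01 (f g : A →+ A) (h₁ : g.comp f = 0) (h₂ : f.comp g = 0) :
    (cx f g h₁ h₂).d 0 1 = AddCommGrpCat.ofHom f := by
  simp [cx]

lemma cx_d10 (f g : A →+ A) (h₁ : g.comp f = 0) (h₂ : f.comp g = 0) :
    (cx f g h₁ h₂).d 1 0 = AddCommGrpCat.ofHom g := by
  have : (1 : ZMod 2) + 1 = 0 := by decide
  simp [cx, this]

lemma card_abHomology (S : ShortComplex Ab.{u}) :
    Nat.card (AddMonoidHom.ker S.g.hom ⧸ AddMonoidHom.range S.abToCycles) =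
      S.f.hom.range.relIndex S.g.hom.ker := by
  have : AddMonoidHom.range S.abToCycles = S.f.hom.range.addSubgroupOf S.g.hom.ker := by
    ext ⟨x, hx⟩
    simp only [AddMonoidHom.mem_range, AddSubgroup.mem_addSubgroupOf, Subtype.ext_iff,
      ShortComplex.abToCycles_apply_coe]
  rw [this]
  rfl

lemma card_homology_zero (f g : A →+ A) (h₁ : g.comp f = 0) (h₂ : f.comp g = 0) :
    Nat.card ((cx f g h₁ h₂).homology 0) = hIndex f g := by
  let K := cx f g h₁ h₂
  have e1 : K.homology 0 ≅ (K.sc' 1 0 1).homology :=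
    K.homologyIsoSc' 1 0 1 ((ComplexShape.up (ZMod 2)).prev_eq' (by decide))
      ((ComplexShape.up (ZMod 2)).next_eq' (by decide))
  have e2 := (K.sc' 1 0 1).abHomologyIso
  have e3 := (e1 ≪≫ e2).addCommGroupIsoToAddEquiv
  rw [Nat.card_congr e3.toEquiv]
  refine (card_abHomology _).trans ?_
  have hg : (K.sc' 1 0 1).g.hom = f := by
    change ((cx f g h₁ h₂).d 0 1).hom = f
    rw [cx_d01]; rfl
  have hf : (K.sc' 1 0 1).f.hom = g := by
    change ((cx f g h₁ h₂).d 1 0).hom = g
    rw [cx_d10]; rfl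
  rw [hg, hf]
  rfl

lemma card_homology_one (f g : A →+ A) (h₁ : g.comp f = 0) (h₂ : f.comp g = 0) :
    Nat.card ((cx f g h₁ h₂).homology 1) = hIndex g f := by
  let K := cx f g h₁ h₂
  have e1 : K.homology 1 ≅ (K.sc' 0 1 0).homology :=
    K.homologyIsoSc' 0 1 0 ((ComplexShape.up (ZMod 2)).prev_eq' (by decide))
      ((ComplexShape.up (ZMod 2)).next_eq' (by decide))
  have e2 := (K.sc' 0 1 0).abHomologyIso
  have e3 := (e1 ≪≫ e2).addCommGroupIsoToAddEquiv
  rw [Nat.card_congr e3.toEquiv]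
  refine (card_abHomology _).trans ?_
  have hg : (K.sc' 0 1 0).g.hom = g := by
    change ((cx f g h₁ h₂).d 1 0).hom = g
    rw [cx_d10]; rfl
  have hf : (K.sc' 0 1 0).f.hom = f := by
    change ((cx f g h₁ h₂).d 0 1).hom = f
    rw [cx_d01]; rfl
  rw [hg, hf]
  rfl

/-- The morphism of complexes induced by a map commuting with the endomorphisms. -/
noncomputable def cxMap {fA gA : A →+ A} {fB gB : B →+ B} (hA₁ : gA.comp fA = 0)
    (hA₂ : fA.comp gA = 0) (hB₁ : gB.comp fB = 0) (hB₂ : fB.comp gB = 0)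
    (φ : A →+ B) (hf : φ.comp fA = fB.comp φ) (hg : φ.comp gA = gB.comp φ) :
    cx fA gA hA₁ hA₂ ⟶ cx fB gB hB₁ hB₂ where
  f _ := AddCommGrpCat.ofHom φ
  comm' i j hij := by
    have hij' : i + 1 = j := hij
    simp only [cx, hij', if_true]
    by_cases hi : i = 0
    · simp only [hi, if_true]
      rw [← AddCommGrpCat.ofHom_comp, ← AddCommGrpCat.ofHom_comp, hf]
    · simp only [hi, if_false]
      rw [← AddCommGrpCat.ofHom_comp, ← AddCommGrpCat.ofHom_comp, hg]

lemma ab_exact_hom {S : ShortComplex Ab.{u}} (h : S.Exact) :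
    Function.Exact S.f.hom S.g.hom :=
  (ShortComplex.ab_exact_iff_function_exact S).mp h

end Complex

section Hexagon

variable {A B C : Type u} [AddCommGroup A] [AddCommGroup B] [AddCommGroup C]

/-- A short exact sequence `0 → A → B → C → 0` compatible with pairs of endomorphisms
`(fX, gX)` satisfying `fX ∘ gX = 0 = gX ∘ fX`. -/
structure HerbrandExact (fA gA : A →+ A) (fB gB : B →+ B) (fC gC : C →+ C)
    (i : A →+ B) (p : B →+ C) : Prop where
  gfA : gA.comp fA = 0
  fgA : fA.comp gA = 0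
  gfB : gB.comp fB = 0
  fgB : fB.comp gB = 0
  gfC : gC.comp fC = 0
  fgC : fC.comp gC = 0
  inj : Function.Injective i
  surj : Function.Surjective p
  exact : Function.Exact i p
  i_f : i.comp fA = fB.comp i
  i_g : i.comp gA = gB.comp i
  p_f : p.comp fB = fC.comp p
  p_g : p.comp gB = gC.comp p

variable {fA gA : A →+ A} {fB gB : B →+ B} {fC gC : C →+ C} {i : A →+ B} {p : B →+ C}

lemma HerbrandExact.swap (h : HerbrandExact fA gA fB gB fC gC i p) :
    HerbrandExact gA fA gB fB gC fC i p :=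
  ⟨h.fgA, h.gfA, h.fgB, h.gfB, h.fgC, h.gfC, h.inj, h.surj, h.exact, h.i_g, h.i_f, h.p_g, h.p_f⟩

/-- The exact hexagon, in numerical form: the six orders factor through the six ranks. -/
theorem HerbrandExact.ranks (h : HerbrandExact fA gA fB gB fC gC i p) :
    ∃ r₁ r₂ r₃ r₄ r₅ r₆ : ℕ,
      hIndex fA gA = r₆ * r₁ ∧ hIndex fB gB = r₁ * r₂ ∧ hIndex fC gC = r₂ * r₃ ∧
      hIndex gA fA = r₃ * r₄ ∧ hIndex gB fB = r₄ * r₅ ∧ hIndex gC fC = r₅ * r₆ ∧
      (hIndex fA gA ≠ 0 ∨ hIndex fB gB ≠ 0 → r₁ ≠ 0) ∧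
      (hIndex fB gB ≠ 0 ∨ hIndex fC gC ≠ 0 → r₂ ≠ 0) ∧
      (hIndex fC gC ≠ 0 ∨ hIndex gA fA ≠ 0 → r₃ ≠ 0) ∧
      (hIndex gA fA ≠ 0 ∨ hIndex gB fB ≠ 0 → r₄ ≠ 0) ∧
      (hIndex gB fB ≠ 0 ∨ hIndex gC fC ≠ 0 → r₅ ≠ 0) ∧
      (hIndex gC fC ≠ 0 ∨ hIndex fA gA ≠ 0 → r₆ ≠ 0) := by
  obtain ⟨hA₁, hA₂, hB₁, hB₂, hC₁, hC₂, hi, hp, hip, hif, hig, hpf, hpg⟩ := h
  let S : ShortComplex (HomologicalComplex Ab.{u} (ComplexShape.up (ZMod 2))) :=
    ShortComplex.mk (cxMap hA₁ hA₂ hB₁ hB₂ i hif hig) (cxMap hB₁ hB₂ hC₁ hC₂ p hpf hpg) (by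
      ext k x
      exact hip.apply_apply_eq_zero x)
  have hS : S.ShortExact := by
    apply HomologicalComplex.shortExact_of_degreewise_shortExact
    intro k
    refine ShortComplex.ShortExact.mk' ?_ ?_ ?_
    · rw [ShortComplex.ab_exact_iff_function_exact]
      exact hip
    · exact (AddCommGrpCat.mono_iff_injective _).mpr hi
    · exact (AddCommGrpCat.epi_iff_surjective _).mpr hp
  have r01 : (ComplexShape.up (ZMod 2)).Rel 0 1 := by decide
  have r10 : (ComplexShape.up (ZMod 2)).Rel 1 0 := by decide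
  have e2 := ab_exact_hom (hS.homology_exact₂ 0)
  have e3 := ab_exact_hom (hS.homology_exact₃ 0 1 r01)
  have e4 := ab_exact_hom (hS.homology_exact₁ 0 1 r01)
  have e5 := ab_exact_hom (hS.homology_exact₂ 1)
  have e6 := ab_exact_hom (hS.homology_exact₃ 1 0 r10)
  have e1 := ab_exact_hom (hS.homology_exact₁ 1 0 r10)
  dsimp only at e1 e2 e3 e4 e5 e6
  have c1 := card_mid_of_exact _ _ e1
  have c2 := card_mid_of_exact _ _ e2
  have c3 := card_mid_of_exact _ _ e3
  have c4 := card_mid_of_exact _ _ e4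
  have c5 := card_mid_of_exact _ _ e5
  have c6 := card_mid_of_exact _ _ e6
  have kA0 : Nat.card (S.X₁.homology 0) = hIndex fA gA := card_homology_zero fA gA hA₁ hA₂
  have kB0 : Nat.card (S.X₂.homology 0) = hIndex fB gB := card_homology_zero fB gB hB₁ hB₂
  have kC0 : Nat.card (S.X₃.homology 0) = hIndex fC gC := card_homology_zero fC gC hC₁ hC₂
  have kA1 : Nat.card (S.X₁.homology 1) = hIndex gA fA := card_homology_one fA gA hA₁ hA₂
  have kB1 : Nat.card (S.X₂.homology 1) = hIndex gB fB := card_homology_one fB gB hB₁ hB₂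
  have kC1 : Nat.card (S.X₃.homology 1) = hIndex gC fC := card_homology_one fC gC hC₁ hC₂
  rw [kA0] at c1
  rw [kB0] at c2
  rw [kC0] at c3
  rw [kA1] at c4
  rw [kB1] at c5
  rw [kC1] at c6
  refine ⟨_, _, _, _, _, _, c1, c2, c3, c4, c5, c6, ?_, ?_, ?_, ?_, ?_, ?_⟩
  · rintro (h | h)
    · exact card_range_ne_zero_of_left _ (by rw [kA0]; exact h)
    · exact card_range_ne_zero_of_right _ (by rw [kB0]; exact h)
  · rintro (h | h)
    · exact card_range_ne_zero_of_left _ (by rw [kB0]; exact h)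
    · exact card_range_ne_zero_of_right _ (by rw [kC0]; exact h)
  · rintro (h | h)
    · exact card_range_ne_zero_of_left _ (by rw [kC0]; exact h)
    · exact card_range_ne_zero_of_right _ (by rw [kA1]; exact h)
  · rintro (h | h)
    · exact card_range_ne_zero_of_left _ (by rw [kA1]; exact h)
    · exact card_range_ne_zero_of_right _ (by rw [kB1]; exact h)
  · rintro (h | h)
    · exact card_range_ne_zero_of_left _ (by rw [kB1]; exact h)
    · exact card_range_ne_zero_of_right _ (by rw [kC1]; exact h)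
  · rintro (h | h)
    · exact card_range_ne_zero_of_left _ (by rw [kC1]; exact h)
    · exact card_range_ne_zero_of_right _ (by rw [kA0]; exact h)


theorem HerbrandExact.hIndex_mul (h : HerbrandExact fA gA fB gB fC gC i p) :
    hIndex fA gA * hIndex fC gC * hIndex gB fB = hIndex fB gB * hIndex gA fA * hIndex gC fC := by
  obtain ⟨r₁, r₂, r₃, r₄, r₅, r₆, e1, e2, e3, e4, e5, e6, -⟩ := h.ranks
  rw [e1, e2, e3, e4, e5, e6]; ring

theorem HerbrandExact.defined_mid (h : HerbrandExact fA gA fB gB fC gC i p)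
    (hA : HerbrandDefined fA gA) (hC : HerbrandDefined fC gC) : HerbrandDefined fB gB := by
  obtain ⟨r₁, r₂, r₃, r₄, r₅, r₆, e1, e2, e3, e4, e5, e6, n1, n2, n3, n4, n5, n6⟩ := h.ranks
  refine ⟨?_, ?_⟩
  · rw [e2]; exact Nat.mul_ne_zero (n1 (Or.inl hA.1)) (n2 (Or.inr hC.1))
  · rw [e5]; exact Nat.mul_ne_zero (n4 (Or.inl hA.2)) (n5 (Or.inr hC.2))

theorem HerbrandExact.defined_right (h : HerbrandExact fA gA fB gB fC gC i p)
    (hA : HerbrandDefined fA gA) (hB : HerbrandDefined fB gB) : HerbrandDefined fC gC := by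
  obtain ⟨r₁, r₂, r₃, r₄, r₅, r₆, e1, e2, e3, e4, e5, e6, n1, n2, n3, n4, n5, n6⟩ := h.ranks
  refine ⟨?_, ?_⟩
  · rw [e3]; exact Nat.mul_ne_zero (n2 (Or.inl hB.1)) (n3 (Or.inr hA.2))
  · rw [e6]; exact Nat.mul_ne_zero (n5 (Or.inl hB.2)) (n6 (Or.inr hA.1))

theorem HerbrandExact.defined_left (h : HerbrandExact fA gA fB gB fC gC i p)
    (hB : HerbrandDefined fB gB) (hC : HerbrandDefined fC gC) : HerbrandDefined fA gA := by
  obtain ⟨r₁, r₂, r₃, r₄, r₅, r₆, e1, e2, e3, e4, e5, e6, n1, n2, n3, n4, n5, n6⟩ := h.ranks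
  refine ⟨?_, ?_⟩
  · rw [e1]; exact Nat.mul_ne_zero (n6 (Or.inl hC.2)) (n1 (Or.inr hB.1))
  · rw [e4]; exact Nat.mul_ne_zero (n3 (Or.inl hC.1)) (n4 (Or.inr hB.2))

/-- Multiplicativity of the Herbrand quotient, assuming all three are defined. -/
theorem HerbrandExact.herbrand_mul_of_defined (h : HerbrandExact fA gA fB gB fC gC i p)
    (hA : HerbrandDefined fA gA) (hB : HerbrandDefined fB gB) (hC : HerbrandDefined fC gC) :
    herbrand fB gB = herbrand fA gA * herbrand fC gC := by
  have key := h.hIndex_mul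
  have hq : ((hIndex fA gA : ℚ) * hIndex fC gC * hIndex gB fB) =
      (hIndex fB gB : ℚ) * hIndex gA fA * hIndex gC fC := by exact_mod_cast key
  have a1 : (hIndex gA fA : ℚ) ≠ 0 := Nat.cast_ne_zero.mpr hA.2
  have b1 : (hIndex gB fB : ℚ) ≠ 0 := Nat.cast_ne_zero.mpr hB.2
  have c1 : (hIndex gC fC : ℚ) ≠ 0 := Nat.cast_ne_zero.mpr hC.2
  unfold herbrand
  field_simp
  linear_combination -hq

theorem HerbrandExact.herbrand_mul (h : HerbrandExact fA gA fB gB fC gC i p)
    (hA : HerbrandDefined fA gA) (hC : HerbrandDefined fC gC) :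
    herbrand fB gB = herbrand fA gA * herbrand fC gC :=
  h.herbrand_mul_of_defined hA (h.defined_mid hA hC) hC

theorem HerbrandExact.herbrand_mul_of_left_mid (h : HerbrandExact fA gA fB gB fC gC i p)
    (hA : HerbrandDefined fA gA) (hB : HerbrandDefined fB gB) :
    herbrand fB gB = herbrand fA gA * herbrand fC gC :=
  h.herbrand_mul_of_defined hA hB (h.defined_right hA hB)

theorem HerbrandExact.herbrand_mul_of_mid_right (h : HerbrandExact fA gA fB gB fC gC i p)
    (hB : HerbrandDefined fB gB) (hC : HerbrandDefined fC gC) :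
    herbrand fB gB = herbrand fA gA * herbrand fC gC :=
  h.herbrand_mul_of_defined (h.defined_left hB hC) hB hC

end Hexagon

section Finite

variable {A : Type*} [AddCommGroup A]

lemma card_range_mul_hIndex {f g : A →+ A} (hfg : f.comp g = 0) :
    Nat.card g.range * hIndex f g = Nat.card f.ker := by
  have hle : g.range ≤ f.ker := by
    rintro _ ⟨x, rfl⟩
    exact DFunLike.congr_fun hfg x
  unfold hIndex AddSubgroup.relIndex
  rw [← AddSubgroup.card_mul_index (g.range.addSubgroupOf f.ker),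
    Nat.card_congr (AddSubgroup.addSubgroupOfEquivOfLe hle).toEquiv]

lemma card_eq_hIndex_mul {f g : A →+ A} (hfg : f.comp g = 0) :
    Nat.card A = hIndex f g * (Nat.card g.range * Nat.card f.range) := by
  rw [← AddSubgroup.card_mul_index f.ker, AddSubgroup.index_ker, ← card_range_mul_hIndex hfg]
  ring

/-- For a finite group the two indices agree (and are nonzero): the Herbrand quotient is `1`. -/
theorem hIndex_eq_of_finite [Finite A] {f g : A →+ A} (hfg : f.comp g = 0) (hgf : g.comp f = 0) :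
    hIndex f g = hIndex g f := by
  have h1 := card_eq_hIndex_mul hfg
  have h2 := card_eq_hIndex_mul hgf
  have hr : Nat.card g.range * Nat.card f.range ≠ 0 :=
    Nat.mul_ne_zero Nat.card_pos.ne' Nat.card_pos.ne'
  rw [h1, mul_comm (Nat.card f.range)] at h2
  exact Nat.eq_of_mul_eq_mul_right (Nat.pos_of_ne_zero hr) h2

theorem hIndex_ne_zero_of_finite [Finite A] (f g : A →+ A) : hIndex f g ≠ 0 := by
  unfold hIndex AddSubgroup.relIndex
  exact AddSubgroup.index_ne_zero_of_finite

theorem herbrandDefined_of_finite [Finite A] (f g : A →+ A) : HerbrandDefined f g :=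
  ⟨hIndex_ne_zero_of_finite f g, hIndex_ne_zero_of_finite g f⟩

theorem herbrand_eq_one_of_finite [Finite A] {f g : A →+ A} (hfg : f.comp g = 0)
    (hgf : g.comp f = 0) : herbrand f g = 1 := by
  unfold herbrand
  rw [hIndex_eq_of_finite hfg hgf]
  exact div_self (Nat.cast_ne_zero.mpr (hIndex_ne_zero_of_finite g f))

end Finite

section Congr

variable {A B : Type*} [AddCommGroup A] [AddCommGroup B]

/-- Invariance of the indices under an isomorphism commuting with the endomorphisms. -/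
theorem hIndex_congr (e : A ≃+ B) {fA gA : A →+ A} {fB gB : B →+ B}
    (hf : ∀ x, e (fA x) = fB (e x)) (hg : ∀ x, e (gA x) = gB (e x)) :
    hIndex fB gB = hIndex fA gA := by
  unfold hIndex
  have h1 : fB.ker = fA.ker.map (e : A →+ B) := by
    ext y
    simp only [AddMonoidHom.mem_ker, AddSubgroup.mem_map, AddMonoidHom.coe_coe]
    constructor
    · intro hy
      refine ⟨e.symm y, ?_, by simp⟩
      apply e.injective
      rw [hf]; simpa using hy
    · rintro ⟨x, hx, rfl⟩
      rw [← hf, hx, map_zero]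
  have h2 : gB.range = gA.range.map (e : A →+ B) := by
    ext y
    simp only [AddMonoidHom.mem_range, AddSubgroup.mem_map, AddMonoidHom.coe_coe]
    constructor
    · rintro ⟨x, rfl⟩
      exact ⟨gA (e.symm x), ⟨_, rfl⟩, by rw [hg]; simp⟩
    · rintro ⟨_, ⟨x, rfl⟩, rfl⟩
      exact ⟨e x, (hg x).symm⟩
  rw [h1, h2]
  exact AddSubgroup.relIndex_map_map_of_injective _ _ e.injective

theorem herbrand_congr (e : A ≃+ B) {fA gA : A →+ A} {fB gB : B →+ B}
    (hf : ∀ x, e (fA x) = fB (e x)) (hg : ∀ x, e (gA x) = gB (e x)) :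
    herbrand fB gB = herbrand fA gA := by
  unfold herbrand
  rw [hIndex_congr e hf hg, hIndex_congr e hg hf]

theorem herbrandDefined_congr (e : A ≃+ B) {fA gA : A →+ A} {fB gB : B →+ B}
    (hf : ∀ x, e (fA x) = fB (e x)) (hg : ∀ x, e (gA x) = gB (e x)) :
    HerbrandDefined fB gB ↔ HerbrandDefined fA gA := by
  unfold HerbrandDefined
  rw [hIndex_congr e hf hg, hIndex_congr e hg hf]

end Congr

section SubQuot

variable {A B : Type u} [AddCommGroup A] [AddCommGroup B]

/-- Restriction of an endomorphism to a stable subgroup. -/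
def subEnd (f : A →+ A) (K : AddSubgroup A) (hK : K ≤ K.comap f) : K →+ K :=
  (f.comp K.subtype).codRestrict K (fun x => hK x.2)

@[simp] lemma subEnd_apply_coe (f : A →+ A) (K : AddSubgroup A) (hK : K ≤ K.comap f) (x : K) :
    ((subEnd f K hK x : K) : A) = f x := rfl

/-- The endomorphism induced on the quotient by a stable subgroup. -/
def quotEnd (f : A →+ A) (K : AddSubgroup A) (hK : K ≤ K.comap f) : A ⧸ K →+ A ⧸ K :=
  QuotientAddGroup.map K K f hK

@[simp] lemma quotEnd_mk (f : A →+ A) (K : AddSubgroup A) (hK : K ≤ K.comap f) (x : A) :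
    quotEnd f K hK (QuotientAddGroup.mk x) = QuotientAddGroup.mk (f x) := rfl

theorem herbrandExact_sub_quot {f g : A →+ A} (hgf : g.comp f = 0) (hfg : f.comp g = 0)
    (K : AddSubgroup A) (hfK : K ≤ K.comap f) (hgK : K ≤ K.comap g) :
    HerbrandExact (subEnd f K hfK) (subEnd g K hgK) f g (quotEnd f K hfK) (quotEnd g K hgK)
      K.subtype (QuotientAddGroup.mk' K) where
  gfA := by
    ext x
    exact DFunLike.congr_fun hgf (x : A)
  fgA := by
    ext x
    exact DFunLike.congr_fun hfg (x : A)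
  gfB := hgf
  fgB := hfg
  gfC := by
    ext x
    simp only [AddMonoidHom.coe_comp, Function.comp_apply, QuotientAddGroup.coe_mk', quotEnd_mk,
      AddMonoidHom.zero_apply]
    rw [show g (f x) = 0 from DFunLike.congr_fun hgf x]; rfl
  fgC := by
    ext x
    simp only [AddMonoidHom.coe_comp, Function.comp_apply, QuotientAddGroup.coe_mk', quotEnd_mk,
      AddMonoidHom.zero_apply]
    rw [show f (g x) = 0 from DFunLike.congr_fun hfg x]; rfl
  inj := K.subtype_injective
  surj := QuotientAddGroup.mk'_surjective K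
  exact := by
    intro y
    simp only [QuotientAddGroup.coe_mk', QuotientAddGroup.eq_zero_iff, Set.mem_range,
      AddSubgroup.coe_subtype, Subtype.exists, exists_prop, exists_eq_right]
  i_f := rfl
  i_g := rfl
  p_f := rfl
  p_g := rfl

lemma ker_le_comap_of_comm {fA : A →+ A} {fB : B →+ B} (φ : A →+ B)
    (hf : φ.comp fA = fB.comp φ) : φ.ker ≤ φ.ker.comap fA := by
  intro x hx
  have : φ (fA x) = fB (φ x) := DFunLike.congr_fun hf x
  simp only [AddSubgroup.mem_comap, AddMonoidHom.mem_ker] at hx ⊢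
  rw [this, hx, map_zero]

lemma range_le_comap_of_comm {fA : A →+ A} {fB : B →+ B} (φ : A →+ B)
    (hf : φ.comp fA = fB.comp φ) : φ.range ≤ φ.range.comap fB := by
  rintro _ ⟨x, rfl⟩
  exact ⟨fA x, DFunLike.congr_fun hf x⟩

theorem herbrandExact_ker_range {fA gA : A →+ A} {fB gB : B →+ B}
    (hA₁ : gA.comp fA = 0) (hA₂ : fA.comp gA = 0) (hB₁ : gB.comp fB = 0) (hB₂ : fB.comp gB = 0)
    (φ : A →+ B) (hf : φ.comp fA = fB.comp φ) (hg : φ.comp gA = gB.comp φ) :
    HerbrandExact (subEnd fA φ.ker (ker_le_comap_of_comm φ hf))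
      (subEnd gA φ.ker (ker_le_comap_of_comm φ hg)) fA gA
      (subEnd fB φ.range (range_le_comap_of_comm φ hf))
      (subEnd gB φ.range (range_le_comap_of_comm φ hg))
      φ.ker.subtype φ.rangeRestrict where
  gfA := by
    ext x
    exact DFunLike.congr_fun hA₁ (x : A)
  fgA := by
    ext x
    exact DFunLike.congr_fun hA₂ (x : A)
  gfB := hA₁
  fgB := hA₂
  gfC := by
    ext x
    exact DFunLike.congr_fun hB₁ (x : B)
  fgC := by
    ext x
    exact DFunLike.congr_fun hB₂ (x : B)
  inj := φ.ker.subtype_injective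
  surj := φ.rangeRestrict_surjective
  exact := by
    intro y
    constructor
    · intro hy
      exact ⟨⟨y, by simpa [Subtype.ext_iff] using hy⟩, rfl⟩
    · rintro ⟨⟨x, hx⟩, rfl⟩
      exact Subtype.ext hx
  i_f := rfl
  i_g := rfl
  p_f := by
    ext x
    exact DFunLike.congr_fun hf x
  p_g := by
    ext x
    exact DFunLike.congr_fun hg x

end SubQuot

section Consequences

variable {A B : Type u} [AddCommGroup A] [AddCommGroup B]

theorem herbrandDefined_sub_iff_of_finiteIndex {f g : A →+ A} (hgf : g.comp f = 0)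
    (hfg : f.comp g = 0) (K : AddSubgroup A) (hfK : K ≤ K.comap f) (hgK : K ≤ K.comap g)
    [K.FiniteIndex] :
    HerbrandDefined (subEnd f K hfK) (subEnd g K hgK) ↔ HerbrandDefined f g := by
  have hex := herbrandExact_sub_quot hgf hfg K hfK hgK
  have hC := herbrandDefined_of_finite (quotEnd f K hfK) (quotEnd g K hgK)
  exact ⟨fun hA => hex.defined_mid hA hC, fun hB => hex.defined_left hB hC⟩

/-- A stable subgroup of finite index has the same Herbrand quotient. -/
theorem herbrand_sub_eq_of_finiteIndex {f g : A →+ A} (hgf : g.comp f = 0)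
    (hfg : f.comp g = 0) (K : AddSubgroup A) (hfK : K ≤ K.comap f) (hgK : K ≤ K.comap g)
    [K.FiniteIndex] (hd : HerbrandDefined f g) :
    herbrand (subEnd f K hfK) (subEnd g K hgK) = herbrand f g := by
  have hex := herbrandExact_sub_quot hgf hfg K hfK hgK
  have hC := herbrandDefined_of_finite (quotEnd f K hfK) (quotEnd g K hgK)
  have h1 := herbrand_eq_one_of_finite hex.fgC hex.gfC
  rw [hex.herbrand_mul_of_mid_right hd hC, h1, mul_one]

theorem herbrandDefined_quot_iff_of_finite {f g : A →+ A} (hgf : g.comp f = 0)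
    (hfg : f.comp g = 0) (K : AddSubgroup A) (hfK : K ≤ K.comap f) (hgK : K ≤ K.comap g)
    [Finite K] :
    HerbrandDefined (quotEnd f K hfK) (quotEnd g K hgK) ↔ HerbrandDefined f g := by
  have hex := herbrandExact_sub_quot hgf hfg K hfK hgK
  have hA := herbrandDefined_of_finite (subEnd f K hfK) (subEnd g K hgK)
  exact ⟨fun hC => hex.defined_mid hA hC, fun hB => hex.defined_right hA hB⟩

/-- The quotient by a finite stable subgroup has the same Herbrand quotient. -/
theorem herbrand_quot_eq_of_finite {f g : A →+ A} (hgf : g.comp f = 0)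
    (hfg : f.comp g = 0) (K : AddSubgroup A) (hfK : K ≤ K.comap f) (hgK : K ≤ K.comap g)
    [Finite K] (hd : HerbrandDefined f g) :
    herbrand (quotEnd f K hfK) (quotEnd g K hgK) = herbrand f g := by
  have hex := herbrandExact_sub_quot hgf hfg K hfK hgK
  have hA := herbrandDefined_of_finite (subEnd f K hfK) (subEnd g K hgK)
  have h1 := herbrand_eq_one_of_finite hex.fgA hex.gfA
  rw [hex.herbrand_mul_of_left_mid hA hd, h1, one_mul]

variable {fA gA : A →+ A} {fB gB : B →+ B}

theorem herbrandDefined_iff_of_finite_ker_coker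
    (hA₁ : gA.comp fA = 0) (hA₂ : fA.comp gA = 0) (hB₁ : gB.comp fB = 0) (hB₂ : fB.comp gB = 0)
    (φ : A →+ B) (hf : φ.comp fA = fB.comp φ) (hg : φ.comp gA = gB.comp φ)
    [Finite φ.ker] [φ.range.FiniteIndex] :
    HerbrandDefined fA gA ↔ HerbrandDefined fB gB := by
  have hex := herbrandExact_ker_range hA₁ hA₂ hB₁ hB₂ φ hf hg
  have hK := herbrandDefined_of_finite (subEnd fA φ.ker (ker_le_comap_of_comm φ hf))
    (subEnd gA φ.ker (ker_le_comap_of_comm φ hg))
  have hR := herbrandDefined_sub_iff_of_finiteIndex hB₁ hB₂ φ.range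
    (range_le_comap_of_comm φ hf) (range_le_comap_of_comm φ hg)
  rw [← hR]
  exact ⟨fun hA => hex.defined_right hK hA, fun hC => hex.defined_mid hK hC⟩

/-- A homomorphism with finite kernel and cokernel preserves the Herbrand quotient. -/
theorem herbrand_eq_of_finite_ker_coker
    (hA₁ : gA.comp fA = 0) (hA₂ : fA.comp gA = 0) (hB₁ : gB.comp fB = 0) (hB₂ : fB.comp gB = 0)
    (φ : A →+ B) (hf : φ.comp fA = fB.comp φ) (hg : φ.comp gA = gB.comp φ)
    [Finite φ.ker] [φ.range.FiniteIndex] (hd : HerbrandDefined fA gA) :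
    herbrand fA gA = herbrand fB gB := by
  have hex := herbrandExact_ker_range hA₁ hA₂ hB₁ hB₂ φ hf hg
  have hK := herbrandDefined_of_finite (subEnd fA φ.ker (ker_le_comap_of_comm φ hf))
    (subEnd gA φ.ker (ker_le_comap_of_comm φ hg))
  have h1 := herbrand_eq_one_of_finite hex.fgA hex.gfA
  have hdB := (herbrandDefined_iff_of_finite_ker_coker hA₁ hA₂ hB₁ hB₂ φ hf hg).mp hd
  rw [hex.herbrand_mul_of_left_mid hK hd, h1, one_mul,
    herbrand_sub_eq_of_finiteIndex hB₁ hB₂ φ.range (range_le_comap_of_comm φ hf)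
      (range_le_comap_of_comm φ hg) hdB]

end Consequences

end Fermat.Agent.CFT.H6
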