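import Mathlib
import Fermat.Agent.CFT.H6_Herbrand
import Fermat.Agent.S14.H63_Herbrand

namespace Fermat.Agent.CFT.H6

open Fermat.Agent.Kummer.H63 Fermat.Agent.S14.H63

universe u

section Defs

variable {E : Type*} [AddCommGroup E] {p : ℕ} {σ : Module.End ℤ E}

/-- `σ - 1` as an additive endomorphism. -/
noncomputable def endF (σ : Module.End ℤ E) : E →+ E := (σ - 1 : Module.End ℤ E).toAddMonoidHom

/-- `1 + σ + ... + σ^(p-1)` as an additive endomorphism. -/
noncomputable def endN (p : ℕ) (σ : Module.End ℤ E) : E →+ E := (normEnd p σ).toAddMonoidHom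

@[simp] lemma endF_apply (x : E) : endF σ x = σ x - x := rfl

@[simp] lemma endN_apply (x : E) : endN p σ x = normEnd p σ x := rfl

lemma endN_comp_endF (hσ : σ ^ p = 1) : (endN p σ).comp (endF σ) = 0 := by
  ext x
  have := LinearMap.congr_fun (normEnd_mul_sub hσ) x
  simpa using this

lemma endF_comp_endN (hσ : σ ^ p = 1) : (endF σ).comp (endN p σ) = 0 := by
  ext x
  have := LinearMap.congr_fun (sub_mul_normEnd hσ) x
  simpa [sub_eq_zero] using this

lemma ker_endF : (endF σ).ker = (fixedSub σ).toAddSubgroup := by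
  ext x
  simp [fixedSub, sub_eq_zero]

lemma ker_endN : (endN p σ).ker = (normKer p σ).toAddSubgroup := by
  ext x
  simp [normKer]

/-- `|E^σ / N E|` in the vocabulary of `H63_Herbrand`. -/
theorem card_fixedSub_quot (hσ : σ ^ p = 1) :
    Nat.card (fixedSub σ ⧸ LinearMap.range (normTo hσ)) = hIndex (endF σ) (endN p σ) := by
  unfold hIndex
  rw [ker_endF]
  have : LinearMap.range (normTo hσ) =
      (LinearMap.range (normEnd p σ)).comap (fixedSub σ).subtype := by
    ext ⟨x, hx⟩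
    simp only [LinearMap.mem_range, Subtype.ext_iff, normTo_apply, Submodule.mem_comap,
      Submodule.subtype_apply]
  rw [this]
  have h2 : (endN p σ).range = (LinearMap.range (normEnd p σ)).toAddSubgroup := by
    ext x; simp
  rw [h2]
  rfl

/-- `|ker N / (σ - 1) E|` in the vocabulary of `H63_Herbrand`. -/
theorem card_normKer_quot (hσ : σ ^ p = 1) :
    Nat.card (normKer p σ ⧸ LinearMap.range (phiTo hσ)) = hIndex (endN p σ) (endF σ) := by
  unfold hIndex
  rw [ker_endN]
  have : LinearMap.range (phiTo hσ) =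
      (LinearMap.range (σ - 1)).comap (normKer p σ).subtype := by
    ext ⟨x, hx⟩
    simp only [LinearMap.mem_range, Subtype.ext_iff, phiTo_apply, Submodule.mem_comap,
      Submodule.subtype_apply, LinearMap.sub_apply, Module.End.one_apply]
  rw [this]
  have h2 : (endF σ).range = (LinearMap.range (σ - 1)).toAddSubgroup := by
    ext x; simp
  rw [h2]
  rfl

end Defs

section Exact

variable {E' E E'' : Type u} [AddCommGroup E'] [AddCommGroup E] [AddCommGroup E'']
  {p : ℕ} {σ' : Module.End ℤ E'} {σ : Module.End ℤ E} {σ'' : Module.End ℤ E''}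

lemma map_pow_of_comm (i : E' →ₗ[ℤ] E) (hi : ∀ x, i (σ' x) = σ (i x)) (n : ℕ) (x : E') :
    i ((σ' ^ n) x) = (σ ^ n) (i x) := by
  induction n generalizing x with
  | zero => simp
  | succ n ih => rw [pow_succ, pow_succ, Module.End.mul_apply, Module.End.mul_apply, ih, hi]

lemma map_normEnd_of_comm (i : E' →ₗ[ℤ] E) (hi : ∀ x, i (σ' x) = σ (i x)) (x : E') :
    i (normEnd p σ' x) = normEnd p σ (i x) := by
  simp only [normEnd, LinearMap.sum_apply, map_sum, map_pow_of_comm i hi]

/-- A `σ`-equivariant short exact sequence gives a `HerbrandExact` datum. -/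
theorem herbrandExact_of_end (hσ' : σ' ^ p = 1) (hσ : σ ^ p = 1) (hσ'' : σ'' ^ p = 1)
    (i : E' →ₗ[ℤ] E) (q : E →ₗ[ℤ] E'') (hinj : Function.Injective i)
    (hsurj : Function.Surjective q) (hex : Function.Exact i q)
    (hi : ∀ x, i (σ' x) = σ (i x)) (hq : ∀ x, q (σ x) = σ'' (q x)) :
    HerbrandExact (endF σ') (endN p σ') (endF σ) (endN p σ) (endF σ'') (endN p σ'')
      i.toAddMonoidHom q.toAddMonoidHom where
  gfA := endN_comp_endF hσ'
  fgA := endF_comp_endN hσ'
  gfB := endN_comp_endF hσ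
  fgB := endF_comp_endN hσ
  gfC := endN_comp_endF hσ''
  fgC := endF_comp_endN hσ''
  inj := hinj
  surj := hsurj
  exact := hex
  i_f := by
    ext x
    simp [hi]
  i_g := by
    ext x
    simp [map_normEnd_of_comm i hi]
  p_f := by
    ext x
    simp [hq]
  p_g := by
    ext x
    simp [map_normEnd_of_comm q hq]

/-- Multiplicativity in the `H63` vocabulary: with `a = |E^σ/N E|`, `b = |ker N/(σ-1)E|`,
`a' * a'' * b = a * b' * b''` (unconditionally, `0` meaning infinite). -/
theorem card_mul_of_end (hσ' : σ' ^ p = 1) (hσ : σ ^ p = 1) (hσ'' : σ'' ^ p = 1)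
    (i : E' →ₗ[ℤ] E) (q : E →ₗ[ℤ] E'') (hinj : Function.Injective i)
    (hsurj : Function.Surjective q) (hex : Function.Exact i q)
    (hi : ∀ x, i (σ' x) = σ (i x)) (hq : ∀ x, q (σ x) = σ'' (q x)) :
    Nat.card (fixedSub σ' ⧸ LinearMap.range (normTo hσ')) *
        Nat.card (fixedSub σ'' ⧸ LinearMap.range (normTo hσ'')) *
        Nat.card (normKer p σ ⧸ LinearMap.range (phiTo hσ)) =
      Nat.card (fixedSub σ ⧸ LinearMap.range (normTo hσ)) *
        Nat.card (normKer p σ' ⧸ LinearMap.range (phiTo hσ')) *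
        Nat.card (normKer p σ'' ⧸ LinearMap.range (phiTo hσ'')) := by
  simp only [card_fixedSub_quot, card_normKer_quot]
  exact (herbrandExact_of_end hσ' hσ hσ'' i q hinj hsurj hex hi hq).hIndex_mul

/-- Two out of three: if the four cardinalities for `E'` and `E''` are nonzero then so are those
for `E`. -/
theorem card_ne_zero_mid_of_end (hσ' : σ' ^ p = 1) (hσ : σ ^ p = 1) (hσ'' : σ'' ^ p = 1)
    (i : E' →ₗ[ℤ] E) (q : E →ₗ[ℤ] E'') (hinj : Function.Injective i)
    (hsurj : Function.Surjective q) (hex : Function.Exact i q)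
    (hi : ∀ x, i (σ' x) = σ (i x)) (hq : ∀ x, q (σ x) = σ'' (q x))
    (h1 : Nat.card (fixedSub σ' ⧸ LinearMap.range (normTo hσ')) ≠ 0)
    (h2 : Nat.card (normKer p σ' ⧸ LinearMap.range (phiTo hσ')) ≠ 0)
    (h3 : Nat.card (fixedSub σ'' ⧸ LinearMap.range (normTo hσ'')) ≠ 0)
    (h4 : Nat.card (normKer p σ'' ⧸ LinearMap.range (phiTo hσ'')) ≠ 0) :
    Nat.card (fixedSub σ ⧸ LinearMap.range (normTo hσ)) ≠ 0 ∧
      Nat.card (normKer p σ ⧸ LinearMap.range (phiTo hσ)) ≠ 0 := by
  simp only [card_fixedSub_quot, card_normKer_quot] at *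
  exact (herbrandExact_of_end hσ' hσ hσ'' i q hinj hsurj hex hi hq).defined_mid ⟨h1, h2⟩ ⟨h3, h4⟩

theorem card_ne_zero_right_of_end (hσ' : σ' ^ p = 1) (hσ : σ ^ p = 1) (hσ'' : σ'' ^ p = 1)
    (i : E' →ₗ[ℤ] E) (q : E →ₗ[ℤ] E'') (hinj : Function.Injective i)
    (hsurj : Function.Surjective q) (hex : Function.Exact i q)
    (hi : ∀ x, i (σ' x) = σ (i x)) (hq : ∀ x, q (σ x) = σ'' (q x))
    (h1 : Nat.card (fixedSub σ' ⧸ LinearMap.range (normTo hσ')) ≠ 0)
    (h2 : Nat.card (normKer p σ' ⧸ LinearMap.range (phiTo hσ')) ≠ 0)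
    (h3 : Nat.card (fixedSub σ ⧸ LinearMap.range (normTo hσ)) ≠ 0)
    (h4 : Nat.card (normKer p σ ⧸ LinearMap.range (phiTo hσ)) ≠ 0) :
    Nat.card (fixedSub σ'' ⧸ LinearMap.range (normTo hσ'')) ≠ 0 ∧
      Nat.card (normKer p σ'' ⧸ LinearMap.range (phiTo hσ'')) ≠ 0 := by
  simp only [card_fixedSub_quot, card_normKer_quot] at *
  exact (herbrandExact_of_end hσ' hσ hσ'' i q hinj hsurj hex hi hq).defined_right ⟨h1, h2⟩ ⟨h3, h4⟩

end Exact

end Fermat.Agent.CFT.H6
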