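import Mathlib
import Fermat.Agent.CFT.H6_Herbrand

set_option linter.unusedSectionVars false

namespace Fermat.Agent.CFT.H6

open CategoryTheory

universe u

section Repn

variable {k G V : Type*} [CommRing k] [Group G] [Fintype G] [AddCommGroup V] [Module k V]
  (ρ : Representation k G V) (g : G)

/-- `ρ g - 1` as an additive endomorphism. -/
noncomputable def sigmaSubOne : V →+ V := (ρ g - LinearMap.id : V →ₗ[k] V).toAddMonoidHom

/-- The norm `∑ ρ h` as an additive endomorphism. -/
noncomputable def normAdd : V →+ V := (ρ.norm : V →ₗ[k] V).toAddMonoidHom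

@[simp] lemma sigmaSubOne_apply (x : V) : sigmaSubOne ρ g x = ρ g x - x := rfl

@[simp] lemma normAdd_apply (x : V) : normAdd ρ x = ρ.norm x := rfl

lemma normAdd_comp_sigmaSubOne : (normAdd ρ).comp (sigmaSubOne ρ g) = 0 := by
  ext x
  simp

lemma sigmaSubOne_comp_normAdd : (sigmaSubOne ρ g).comp (normAdd ρ) = 0 := by
  ext x
  simp

/-- `|ker (ρ g - 1) / N V|`; equals `|Ĥ⁰(G, V)|` when `g` generates `G`. -/
noncomputable def h0Card : ℕ := hIndex (sigmaSubOne ρ g) (normAdd ρ)

/-- `|ker N / (ρ g - 1) V|`; equals `|Ĥ⁻¹(G, V)|` when `g` generates `G`. -/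
noncomputable def hm1Card : ℕ := hIndex (normAdd ρ) (sigmaSubOne ρ g)

/-- The Herbrand quotient of a representation of a finite cyclic group with generator `g`. -/
noncomputable def herbrandRepn : ℚ := herbrand (sigmaSubOne ρ g) (normAdd ρ)

/-- Both `Ĥ⁰` and `Ĥ⁻¹` are finite. -/
def HerbrandDefinedRepn : Prop := HerbrandDefined (sigmaSubOne ρ g) (normAdd ρ)

lemma herbrandRepn_eq : herbrandRepn ρ g = (h0Card ρ g : ℚ) / (hm1Card ρ g : ℚ) := rfl

lemma ker_sigmaSubOne (hg : ∀ x, x ∈ Subgroup.zpowers g) :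
    (sigmaSubOne ρ g).ker = ρ.invariants.toAddSubgroup := by
  ext x
  simp only [AddMonoidHom.mem_ker, sigmaSubOne_apply, sub_eq_zero, Submodule.mem_toAddSubgroup]
  exact (Representation.mem_invariants_iff_of_forall_mem_zpowers ρ g hg x).symm

lemma range_sigmaSubOne (hg : ∀ x, x ∈ Subgroup.zpowers g) :
    (sigmaSubOne ρ g).range = (Representation.Coinvariants.ker ρ).toAddSubgroup := by
  rw [Representation.FiniteCyclicGroup.coinvariantsKer_eq_range ρ g hg]
  ext x
  simp only [AddMonoidHom.mem_range, sigmaSubOne_apply, Submodule.mem_toAddSubgroup,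
    LinearMap.mem_range, LinearMap.sub_apply, LinearMap.id_coe, id_eq]

lemma ker_normAdd : (normAdd ρ).ker = (LinearMap.ker ρ.norm).toAddSubgroup := by
  ext x
  simp

lemma range_normAdd : (normAdd ρ).range = (LinearMap.range ρ.norm).toAddSubgroup := by
  ext x
  simp

/-- `h0Card` is `|V^G / N V|` when `g` generates `G`. -/
theorem h0Card_eq (hg : ∀ x, x ∈ Subgroup.zpowers g) :
    h0Card ρ g =
      (LinearMap.range ρ.norm).toAddSubgroup.relIndex ρ.invariants.toAddSubgroup := by
  unfold h0Card hIndex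
  rw [ker_sigmaSubOne ρ g hg, range_normAdd]

/-- `hm1Card` is `|ker N / I_G V|` when `g` generates `G`. -/
theorem hm1Card_eq (hg : ∀ x, x ∈ Subgroup.zpowers g) :
    hm1Card ρ g = (Representation.Coinvariants.ker ρ).toAddSubgroup.relIndex
      (LinearMap.ker ρ.norm).toAddSubgroup := by
  unfold hm1Card hIndex
  rw [range_sigmaSubOne ρ g hg, ker_normAdd]

/-- Independence of the generator. -/
theorem herbrandRepn_eq_of_generators {g g' : G} (hg : ∀ x, x ∈ Subgroup.zpowers g)
    (hg' : ∀ x, x ∈ Subgroup.zpowers g') : herbrandRepn ρ g = herbrandRepn ρ g' := by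
  rw [herbrandRepn_eq, herbrandRepn_eq, h0Card_eq ρ g hg, h0Card_eq ρ g' hg',
    hm1Card_eq ρ g hg, hm1Card_eq ρ g' hg']

/-- `|V^G / N V|` as the cardinality of the quotient module. -/
theorem card_invariants_quot_norm (hg : ∀ x, x ∈ Subgroup.zpowers g) :
    Nat.card (ρ.invariants ⧸ (LinearMap.range ρ.norm).comap ρ.invariants.subtype) =
      h0Card ρ g := by
  rw [h0Card_eq ρ g hg]
  rfl

/-- `|ker N / I_G V|` as the cardinality of the quotient module. -/
theorem card_kerNorm_quot_aug (hg : ∀ x, x ∈ Subgroup.zpowers g) :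
    Nat.card (LinearMap.ker ρ.norm ⧸
      (Representation.Coinvariants.ker ρ).comap (LinearMap.ker ρ.norm).subtype) =
      hm1Card ρ g := by
  rw [hm1Card_eq ρ g hg]
  rfl

theorem herbrandDefinedRepn_of_finite [Finite V] : HerbrandDefinedRepn ρ g :=
  herbrandDefined_of_finite _ _

theorem herbrandRepn_eq_one_of_finite [Finite V] : herbrandRepn ρ g = 1 :=
  herbrand_eq_one_of_finite (sigmaSubOne_comp_normAdd ρ g) (normAdd_comp_sigmaSubOne ρ g)

end Repn

section RepExact

variable {k G : Type u} [CommRing k] [Group G] [Fintype G]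

/-- A short exact sequence of representations gives a `HerbrandExact` datum. -/
theorem herbrandExact_of_shortExact {S : ShortComplex (Rep k G)} (hS : S.ShortExact) (g : G) :
    HerbrandExact (sigmaSubOne S.X₁.ρ g) (normAdd S.X₁.ρ) (sigmaSubOne S.X₂.ρ g) (normAdd S.X₂.ρ)
      (sigmaSubOne S.X₃.ρ g) (normAdd S.X₃.ρ)
      S.f.hom.toLinearMap.toAddMonoidHom S.g.hom.toLinearMap.toAddMonoidHom where
  gfA := normAdd_comp_sigmaSubOne _ g
  fgA := sigmaSubOne_comp_normAdd _ g
  gfB := normAdd_comp_sigmaSubOne _ g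
  fgB := sigmaSubOne_comp_normAdd _ g
  gfC := normAdd_comp_sigmaSubOne _ g
  fgC := sigmaSubOne_comp_normAdd _ g
  inj := by
    have := hS.mono_f
    exact (Rep.mono_iff_injective S.f).mp this
  surj := by
    have := hS.epi_g
    exact (Rep.epi_iff_surjective S.g).mp this
  exact := by
    have h : LinearMap.range S.f.hom.toLinearMap = LinearMap.ker S.g.hom.toLinearMap :=
      (hS.exact.map (forget₂ (Rep k G) (ModuleCat k))).moduleCat_range_eq_ker
    intro y
    have : y ∈ LinearMap.ker S.g.hom.toLinearMap ↔ y ∈ LinearMap.range S.f.hom.toLinearMap := by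
      rw [h]
    simpa [LinearMap.mem_ker, LinearMap.mem_range] using this
  i_f := by
    ext x
    simp [Rep.hom_comm_apply]
  i_g := by
    ext x
    simp [Representation.norm, Rep.hom_comm_apply]
  p_f := by
    ext x
    simp [Rep.hom_comm_apply]
  p_g := by
    ext x
    simp [Representation.norm, Rep.hom_comm_apply]

variable {S : ShortComplex (Rep k G)} (hS : S.ShortExact) (g : G)

include hS in
theorem herbrandDefinedRepn_mid (h₁ : HerbrandDefinedRepn S.X₁.ρ g)
    (h₃ : HerbrandDefinedRepn S.X₃.ρ g) : HerbrandDefinedRepn S.X₂.ρ g :=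
  (herbrandExact_of_shortExact hS g).defined_mid h₁ h₃

include hS in
theorem herbrandDefinedRepn_right (h₁ : HerbrandDefinedRepn S.X₁.ρ g)
    (h₂ : HerbrandDefinedRepn S.X₂.ρ g) : HerbrandDefinedRepn S.X₃.ρ g :=
  (herbrandExact_of_shortExact hS g).defined_right h₁ h₂

include hS in
theorem herbrandDefinedRepn_left (h₂ : HerbrandDefinedRepn S.X₂.ρ g)
    (h₃ : HerbrandDefinedRepn S.X₃.ρ g) : HerbrandDefinedRepn S.X₁.ρ g :=
  (herbrandExact_of_shortExact hS g).defined_left h₂ h₃

include hS in
/-- Multiplicativity of the Herbrand quotient in short exact sequences of representations. -/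
theorem herbrandRepn_mul (h₁ : HerbrandDefinedRepn S.X₁.ρ g)
    (h₃ : HerbrandDefinedRepn S.X₃.ρ g) :
    herbrandRepn S.X₂.ρ g = herbrandRepn S.X₁.ρ g * herbrandRepn S.X₃.ρ g :=
  (herbrandExact_of_shortExact hS g).herbrand_mul h₁ h₃

include hS in
theorem herbrandRepn_mul_of_left_mid (h₁ : HerbrandDefinedRepn S.X₁.ρ g)
    (h₂ : HerbrandDefinedRepn S.X₂.ρ g) :
    herbrandRepn S.X₂.ρ g = herbrandRepn S.X₁.ρ g * herbrandRepn S.X₃.ρ g :=
  (herbrandExact_of_shortExact hS g).herbrand_mul_of_left_mid h₁ h₂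

include hS in
theorem herbrandRepn_mul_of_mid_right (h₂ : HerbrandDefinedRepn S.X₂.ρ g)
    (h₃ : HerbrandDefinedRepn S.X₃.ρ g) :
    herbrandRepn S.X₂.ρ g = herbrandRepn S.X₁.ρ g * herbrandRepn S.X₃.ρ g :=
  (herbrandExact_of_shortExact hS g).herbrand_mul_of_mid_right h₂ h₃

end RepExact

section RepMorphism

variable {k G : Type u} [CommRing k] [Group G] [Fintype G] {A B : Rep k G}

lemma comp_sigmaSubOne_of_hom (φ : A ⟶ B) (g : G) :
    φ.hom.toLinearMap.toAddMonoidHom.comp (sigmaSubOne A.ρ g) =
      (sigmaSubOne B.ρ g).comp φ.hom.toLinearMap.toAddMonoidHom := by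
  ext x
  simp [Rep.hom_comm_apply]

lemma comp_normAdd_of_hom (φ : A ⟶ B) :
    φ.hom.toLinearMap.toAddMonoidHom.comp (normAdd A.ρ) =
      (normAdd B.ρ).comp φ.hom.toLinearMap.toAddMonoidHom := by
  ext x
  simp [Representation.norm, Rep.hom_comm_apply]

/-- A morphism of representations with finite kernel and cokernel preserves definedness. -/
theorem herbrandDefinedRepn_iff_of_finite_ker_coker (φ : A ⟶ B) (g : G)
    [Finite φ.hom.toLinearMap.toAddMonoidHom.ker]
    [φ.hom.toLinearMap.toAddMonoidHom.range.FiniteIndex] :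
    HerbrandDefinedRepn A.ρ g ↔ HerbrandDefinedRepn B.ρ g :=
  herbrandDefined_iff_of_finite_ker_coker (normAdd_comp_sigmaSubOne _ g)
    (sigmaSubOne_comp_normAdd _ g) (normAdd_comp_sigmaSubOne _ g) (sigmaSubOne_comp_normAdd _ g)
    φ.hom.toLinearMap.toAddMonoidHom (comp_sigmaSubOne_of_hom φ g) (comp_normAdd_of_hom φ)

/-- A morphism of representations with finite kernel and cokernel preserves the Herbrand
quotient. -/
theorem herbrandRepn_eq_of_finite_ker_coker (φ : A ⟶ B) (g : G)
    [Finite φ.hom.toLinearMap.toAddMonoidHom.ker]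
    [φ.hom.toLinearMap.toAddMonoidHom.range.FiniteIndex] (hd : HerbrandDefinedRepn A.ρ g) :
    herbrandRepn A.ρ g = herbrandRepn B.ρ g :=
  herbrand_eq_of_finite_ker_coker (normAdd_comp_sigmaSubOne _ g)
    (sigmaSubOne_comp_normAdd _ g) (normAdd_comp_sigmaSubOne _ g) (sigmaSubOne_comp_normAdd _ g)
    φ.hom.toLinearMap.toAddMonoidHom (comp_sigmaSubOne_of_hom φ g) (comp_normAdd_of_hom φ) hd

/-- Isomorphic representations have the same Herbrand quotient. -/
theorem herbrandRepn_eq_of_iso (e : A ≅ B) (g : G) : herbrandRepn A.ρ g = herbrandRepn B.ρ g := by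
  have hinj : Function.Injective e.hom.hom := (Rep.mono_iff_injective e.hom).mp inferInstance
  have hsurj : Function.Surjective e.hom.hom := (Rep.epi_iff_surjective e.hom).mp inferInstance
  let E : A.V ≃+ B.V := AddEquiv.ofBijective e.hom.hom.toLinearMap.toAddMonoidHom ⟨hinj, hsurj⟩
  exact (herbrand_congr E (fun x => DFunLike.congr_fun (comp_sigmaSubOne_of_hom e.hom g) x)
    (fun x => DFunLike.congr_fun (comp_normAdd_of_hom e.hom) x)).symm

theorem herbrandDefinedRepn_iff_of_iso (e : A ≅ B) (g : G) :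
    HerbrandDefinedRepn A.ρ g ↔ HerbrandDefinedRepn B.ρ g := by
  have hinj : Function.Injective e.hom.hom := (Rep.mono_iff_injective e.hom).mp inferInstance
  have hsurj : Function.Surjective e.hom.hom := (Rep.epi_iff_surjective e.hom).mp inferInstance
  let E : A.V ≃+ B.V := AddEquiv.ofBijective e.hom.hom.toLinearMap.toAddMonoidHom ⟨hinj, hsurj⟩
  exact (herbrandDefined_congr E (fun x => DFunLike.congr_fun (comp_sigmaSubOne_of_hom e.hom g) x)
    (fun x => DFunLike.congr_fun (comp_normAdd_of_hom e.hom) x)).symm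

end RepMorphism

section Cohomology

variable {k G : Type u} [CommRing k] [CommGroup G] [Fintype G] (A : Rep k G) (g : G)
  (hg : ∀ x, x ∈ Subgroup.zpowers g)

lemma card_moduleCatHomology (S : ShortComplex (ModuleCat.{u} k)) :
    Nat.card S.homology =
      (LinearMap.range S.f.hom).toAddSubgroup.relIndex (LinearMap.ker S.g.hom).toAddSubgroup := by
  rw [Nat.card_congr S.moduleCatHomologyIso.toLinearEquiv.toEquiv]
  have : LinearMap.range S.moduleCatToCycles =
      (LinearMap.range S.f.hom).comap (LinearMap.ker S.g.hom).subtype := by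
    ext ⟨x, hx⟩
    simp only [ShortComplex.moduleCatToCycles, LinearMap.mem_range, Subtype.ext_iff,
      Submodule.mem_comap, Submodule.subtype_apply]
    exact Iff.rfl
  change Nat.card (LinearMap.ker S.g.hom ⧸ LinearMap.range S.moduleCatToCycles) = _
  rw [this]
  rfl

include hg in
theorem card_groupCohomology_even (i : ℕ) [NeZero i] (hi : Even i) :
    Nat.card (groupCohomology A i) = h0Card A.ρ g := by
  rw [Nat.card_congr
    (Rep.FiniteCyclicGroup.groupCohomologyIsoEven A g hg i hi).toLinearEquiv.toEquiv,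
    card_moduleCatHomology]
  rfl

include hg in
theorem card_groupCohomology_odd (i : ℕ) (hi : Odd i) :
    Nat.card (groupCohomology A i) = hm1Card A.ρ g := by
  rw [Nat.card_congr
    (Rep.FiniteCyclicGroup.groupCohomologyIsoOdd A g hg i hi).toLinearEquiv.toEquiv,
    card_moduleCatHomology]
  rfl

include hg in
/-- `h(A) = |H²(G, A)| / |H¹(G, A)|` for a finite cyclic group. -/
theorem herbrandRepn_eq_card_div :
    herbrandRepn A.ρ g =
      (Nat.card (groupCohomology A 2) : ℚ) / (Nat.card (groupCohomology A 1) : ℚ) := by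
  rw [card_groupCohomology_even A g hg 2 (by decide), card_groupCohomology_odd A g hg 1 (by decide)]
  rfl

include hg in
theorem herbrandDefinedRepn_iff_finite_H1_H2 :
    HerbrandDefinedRepn A.ρ g ↔
      Finite (groupCohomology A 2) ∧ Finite (groupCohomology A 1) := by
  unfold HerbrandDefinedRepn HerbrandDefined
  change h0Card A.ρ g ≠ 0 ∧ hm1Card A.ρ g ≠ 0 ↔ _
  rw [← card_groupCohomology_even A g hg 2 (by decide),
    ← card_groupCohomology_odd A g hg 1 (by decide), Nat.card_ne_zero, Nat.card_ne_zero]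
  exact ⟨fun h => ⟨h.1.2, h.2.2⟩, fun h => ⟨⟨⟨0⟩, h.1⟩, ⟨⟨0⟩, h.2⟩⟩⟩

include hg in
/-- Modules with vanishing `H¹` and `H²` (e.g. induced modules) have Herbrand quotient `1`. -/
theorem herbrandRepn_eq_one_of_subsingleton [Subsingleton (groupCohomology A 1)]
    [Subsingleton (groupCohomology A 2)] :
    HerbrandDefinedRepn A.ρ g ∧ herbrandRepn A.ρ g = 1 := by
  refine ⟨(herbrandDefinedRepn_iff_finite_H1_H2 A g hg).mpr ⟨inferInstance, inferInstance⟩, ?_⟩
  rw [herbrandRepn_eq_card_div A g hg, Nat.card_unique, Nat.card_unique]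
  simp

end Cohomology


section Trivial

variable {k G V : Type*} [CommRing k] [Group G] [Fintype G] [AddCommGroup V] [Module k V] (g : G)

lemma sigmaSubOne_trivial : sigmaSubOne (Representation.trivial k G V) g = 0 := by
  ext x
  simp

lemma normAdd_trivial_apply (x : V) :
    normAdd (Representation.trivial k G V) x = Fintype.card G • x := by
  simp [Representation.norm]

/-- For the trivial action, `|Ĥ⁰| = |V / nV|`. -/
theorem h0Card_trivial :
    h0Card (Representation.trivial k G V) g =
      (nsmulAddMonoidHom (α := V) (Fintype.card G)).range.index := by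
  unfold h0Card hIndex
  rw [sigmaSubOne_trivial, AddMonoidHom.ker_zero, AddSubgroup.relIndex_top_right]
  congr 1
  ext x
  simp only [AddMonoidHom.mem_range, normAdd_trivial_apply, nsmulAddMonoidHom_apply]

/-- For the trivial action, `|Ĥ⁻¹| = |V[n]|`. -/
theorem hm1Card_trivial :
    hm1Card (Representation.trivial k G V) g =
      Nat.card (nsmulAddMonoidHom (α := V) (Fintype.card G)).ker := by
  unfold hm1Card hIndex
  rw [sigmaSubOne_trivial, AddMonoidHom.range_zero, AddSubgroup.relIndex_bot_left]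
  congr 2
  ext x
  simp only [AddMonoidHom.mem_ker, normAdd_trivial_apply, nsmulAddMonoidHom_apply]

theorem h0Card_trivial_int : h0Card (Representation.trivial ℤ G ℤ) g = Fintype.card G := by
  rw [h0Card_trivial]
  have : (nsmulAddMonoidHom (α := ℤ) (Fintype.card G)).range =
      AddSubgroup.zmultiples (Fintype.card G : ℤ) := by
    ext x
    simp only [AddMonoidHom.mem_range, nsmulAddMonoidHom_apply, nsmul_eq_mul,
      AddSubgroup.mem_zmultiples_iff, smul_eq_mul]
    constructor
    · rintro ⟨y, rfl⟩; exact ⟨y, by ring⟩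
    · rintro ⟨y, rfl⟩; exact ⟨y, by ring⟩
  rw [this, Int.index_zmultiples, Int.natAbs_natCast]

theorem hm1Card_trivial_int : hm1Card (Representation.trivial ℤ G ℤ) g = 1 := by
  rw [hm1Card_trivial]
  have : (nsmulAddMonoidHom (α := ℤ) (Fintype.card G)).ker = ⊥ := by
    ext x
    simp only [AddMonoidHom.mem_ker, nsmulAddMonoidHom_apply, nsmul_eq_mul, mul_eq_zero,
      Nat.cast_eq_zero, AddSubgroup.mem_bot]
    constructor
    · rintro (h | h)
      · exact absurd h Fintype.card_ne_zero
      · exact h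
    · intro h; exact Or.inr h
  rw [this]
  simp

theorem herbrandDefinedRepn_trivial_int : HerbrandDefinedRepn (Representation.trivial ℤ G ℤ) g := by
  refine ⟨?_, ?_⟩
  · change h0Card (Representation.trivial ℤ G ℤ) g ≠ 0
    rw [h0Card_trivial_int]; exact Fintype.card_ne_zero
  · change hm1Card (Representation.trivial ℤ G ℤ) g ≠ 0
    rw [hm1Card_trivial_int]; exact one_ne_zero

/-- `h(ℤ) = |G|`. -/
theorem herbrandRepn_trivial_int :
    herbrandRepn (Representation.trivial ℤ G ℤ) g = Fintype.card G := by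
  rw [herbrandRepn_eq, h0Card_trivial_int, hm1Card_trivial_int]
  simp

end Trivial


end Fermat.Agent.CFT.H6
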