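import Fermat.Agent.CFT.H28_CohTrivClosed
import Fermat.Agent.CFT.H49_CohTrivFinal

/-!
# CFT / layer A : adapters between the shapes of cohomological triviality (helper75)

Layer A has three equivalent vocabularies for "cohomologically trivial in positive degrees":

* `A.IsCohTrivPos A` (`A_Defs`, `k G : Type`) and `H28.IsCohTrivPos A` (universe polymorphic):
  `∀ S n, 1 ≤ n → Subsingleton (groupCohomology (res S.subtype A) n)`  -- these two are `Iff.rfl`;
* `∀ n ≥ 1, H49.CohVanish A n` (`IsZero`, all injective homomorphisms `H →* G`);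
* `∀ q ≥ 1, H28.TwinVanish A q`.

and two for "all Tate groups vanish": `A.IsCohTrivial A` and `H28.IsCohTrivialTate A` (`Iff.rfl`,
`H28.isCohTrivialTate_iff`).  This file proves all the equivalences, iso-invariance and stability
under restriction, and the substantive statement

* `isCohTrivial_iff_isCohTrivPos : A.IsCohTrivial A ↔ A.IsCohTrivPos A`   (Nakayama-Tate).
-/

set_option autoImplicit false

open CategoryTheory CategoryTheory.Limits Rep

namespace Fermat.Agent.CFT.H75

section Pos

universe u

variable {k G : Type u} [CommRing k] [Group G]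

/-- `IsZero` form of `H28.IsCohTrivPos`. -/
theorem isCohTrivPos_iff_isZero (A : Rep k G) :
    H28.IsCohTrivPos A ↔
      ∀ (S : Subgroup G) (n : ℕ), 1 ≤ n → IsZero (groupCohomology (res S.subtype A) n) := by
  constructor
  · intro h S n hn
    have := h S n hn
    exact ModuleCat.isZero_of_subsingleton _
  · intro h S n hn
    exact ModuleCat.subsingleton_of_isZero (h S n hn)

/-- `H28.IsCohTrivPos A ↔ ∀ n ≥ 1, H49.CohVanish A n`. -/
theorem isCohTrivPos_iff_cohVanish (A : Rep k G) :
    H28.IsCohTrivPos A ↔ ∀ n, 1 ≤ n → H49.CohVanish A n := by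
  rw [isCohTrivPos_iff_isZero]
  constructor
  · intro h n hn
    exact (H49.cohVanish_iff A n).2 fun S => h S n hn
  · intro h S n hn
    exact (H49.cohVanish_iff A n).1 (h n hn) S

/-- Injective-homomorphism form of `H28.IsCohTrivPos`. -/
theorem isCohTrivPos_iff_hom (A : Rep k G) :
    H28.IsCohTrivPos A ↔ ∀ (H : Type u) [Group H] (f : H →* G), Function.Injective f →
      ∀ n, 1 ≤ n → Subsingleton (groupCohomology (res f A) n) := by
  constructor
  · intro h H _ f hf n hn
    have := h f.range n hn
    exact ((H28.rangeIso f hf A n).toLinearEquiv.toEquiv).subsingleton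
  · intro h S n hn
    exact h S S.subtype S.subtype_injective n hn

/-- `H28.IsCohTrivPos A ↔ ∀ q ≥ 1, H28.TwinVanish A q`. -/
theorem isCohTrivPos_iff_twinVanish (A : Rep k G) :
    H28.IsCohTrivPos A ↔ ∀ q, 1 ≤ q → H28.TwinVanish A q := by
  constructor
  · intro h q hq
    exact H28.twinVanish_of_subgroups A q fun S => ⟨h S q hq, h S (q + 1) (by omega)⟩
  · intro h S n hn
    exact (h n hn S S.subtype S.subtype_injective).1

/-- Positive cohomological triviality passes to restrictions along injective homomorphisms. -/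
theorem isCohTrivPos_res {H : Type u} [Group H] {A : Rep k G} (h : H28.IsCohTrivPos A)
    (f : H →* G) (hf : Function.Injective f) : H28.IsCohTrivPos (res f A) := by
  rw [isCohTrivPos_iff_hom] at h ⊢
  intro K _ g hg n hn
  exact h K (f.comp g) (hf.comp hg) n hn

/-- Positive cohomological triviality is invariant under isomorphisms. -/
theorem isCohTrivPos_of_iso {A B : Rep k G} (e : A ≅ B) (h : H28.IsCohTrivPos B) :
    H28.IsCohTrivPos A := by
  intro S n hn
  have hB : Subsingleton (groupCohomology (res S.subtype B) n) := h S n hn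
  exact @Equiv.subsingleton _ _ (((groupCohomology.functor k S n).mapIso
    ((resFunctor S.subtype).mapIso e)).toLinearEquiv.toEquiv) hB

theorem isCohTrivPos_iff_of_iso {A B : Rep k G} (e : A ≅ B) :
    H28.IsCohTrivPos A ↔ H28.IsCohTrivPos B :=
  ⟨isCohTrivPos_of_iso e.symm, isCohTrivPos_of_iso e⟩

/-- The whole group: `Hⁿ(G, A) = 0` for `n ≥ 1`. -/
theorem subsingleton_groupCohomology_of_isCohTrivPos {A : Rep k G} (h : H28.IsCohTrivPos A)
    (n : ℕ) (hn : 1 ≤ n) : Subsingleton (groupCohomology A n) :=
  h.subsingleton n hn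

end Pos

section Zero

variable {k : Type} [CommRing k] {G : Type} [Group G]

/-- The `A_Defs` predicate is (definitionally) helper28's. -/
theorem isCohTrivPos_iff28 (A : Rep.{0} k G) :
    Fermat.Agent.CFT.A.IsCohTrivPos A ↔ H28.IsCohTrivPos A := Iff.rfl

/-- The `A_Defs` predicate in helper49's vocabulary. -/
theorem isCohTrivPos_iff49 (A : Rep.{0} k G) :
    Fermat.Agent.CFT.A.IsCohTrivPos A ↔ ∀ n, 1 ≤ n → H49.CohVanish A n :=
  isCohTrivPos_iff_cohVanish A

/-- The `A_Defs` predicate `IsCohTrivial` is (definitionally) helper28's `IsCohTrivialTate`. -/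
theorem isCohTrivial_iff28 [Fintype G] (A : Rep.{0} k G) :
    Fermat.Agent.CFT.A.IsCohTrivial A ↔ H28.IsCohTrivialTate A := Iff.rfl

/-- `IsCohTrivial` passes to restrictions along injective homomorphisms. -/
theorem isCohTrivial_res [Fintype G] {H : Type} [Group H] [Fintype H] {A : Rep.{0} k G}
    (h : Fermat.Agent.CFT.A.IsCohTrivial A) (f : H →* G) (hf : Function.Injective f) :
    Fermat.Agent.CFT.A.IsCohTrivial (res f A) := by
  intro K _ _ g hg n
  exact h K (f.comp g) (hf.comp hg) n

/-- **Nakayama-Tate**: cohomological triviality in all Tate degrees is the same as cohomological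
triviality in positive degrees. -/
theorem isCohTrivial_iff_isCohTrivPos [Fintype G] (A : Rep.{0} k G) :
    Fermat.Agent.CFT.A.IsCohTrivial A ↔ Fermat.Agent.CFT.A.IsCohTrivPos A := by
  constructor
  · intro h S n hn
    classical
    have : Fintype S := Fintype.ofFinite S
    exact (H28.isZero_tate_iff_subsingleton_groupCohomology (res S.subtype A) n hn).1
      (h S S.subtype S.subtype_injective n)
  · intro h
    have h' : H28.IsCohTrivPos A := h
    rw [isCohTrivPos_iff_hom] at h'
    refine H28.isCohTrivial_of_H1_H2_closed A fun H _ _ f hf => ⟨?_, ?_⟩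
    · exact (H28.isZero_tate_iff_subsingleton_groupCohomology (res f A) 1 le_rfl).2
        (h' H f hf 1 le_rfl)
    · exact (H28.isZero_tate_iff_subsingleton_groupCohomology (res f A) 2 (by omega)).2
        (h' H f hf 2 (by omega))

/-- `IsCohTrivial` is invariant under isomorphisms. -/
theorem isCohTrivial_of_iso [Fintype G] {A B : Rep.{0} k G} (e : A ≅ B)
    (h : Fermat.Agent.CFT.A.IsCohTrivial B) : Fermat.Agent.CFT.A.IsCohTrivial A :=
  (isCohTrivial_iff_isCohTrivPos A).2
    (isCohTrivPos_of_iso e ((isCohTrivial_iff_isCohTrivPos B).1 h))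

end Zero

end Fermat.Agent.CFT.H75
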