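import Mathlib
import Fermat.Agent.CFT.A_Defs

/-!
# CFT / Layer A : `A-LowDeg` — Tate cohomology in degrees `0` and `-1`
-/

set_option autoImplicit false

noncomputable section

open CategoryTheory CategoryTheory.Limits groupCohomology groupHomology

namespace Fermat.Agent.CFT.H98

open Fermat.Agent.CFT.A

variable {k : Type} [CommRing k] {G : Type} [Group G] [Fintype G]

/-! ### The low-degree terms of the Tate complex -/

/-- `T⁰ ≅ A`. -/
def tX0 (A : Rep k G) : (tateComplex A).X 0 ≅ ModuleCat.of k A.V := cochainsIso₀ A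
/-- `T¹ ≅ Fun(G, A)`. -/
def tX1 (A : Rep k G) : (tateComplex A).X 1 ≅ ModuleCat.of k (G → A.V) := cochainsIso₁ A
/-- `T⁻¹ ≅ A`. -/
def tXm1 (A : Rep k G) : (tateComplex A).X (-1) ≅ ModuleCat.of k A.V := chainsIso₀ A
/-- `T⁻² ≅ (G →₀ A)`. -/
def tXm2 (A : Rep k G) : (tateComplex A).X (-2) ≅ ModuleCat.of k (G →₀ A.V) := chainsIso₁ A

lemma tX0_hom_comp_d₀₁ (A : Rep k G) :
    (tX0 A).hom ≫ d₀₁ A = (tateComplex A).d 0 1 ≫ (tX1 A).hom := comp_d₀₁_eq A

lemma tXm1_hom_comp_norm (A : Rep k G) :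
    (tXm1 A).hom ≫ A.norm.toModuleCatHom = (tateComplex A).d (-1) 0 ≫ (tX0 A).hom := by
  change (chainsIso₀ A).hom ≫ A.norm.toModuleCatHom = A.tateNorm ≫ (cochainsIso₀ A).hom
  simp [Rep.tateNorm]

lemma tXm2_hom_comp_d₁₀ (A : Rep k G) :
    (tXm2 A).hom ≫ d₁₀ A = (tateComplex A).d (-2) (-1) ≫ (tXm1 A).hom := comp_d₁₀_eq A

/-- The concrete short complex `A --N--> A --d₀₁--> Fun(G, A)` computing `Ĥ⁰`. -/
def scZero (A : Rep k G) : ShortComplex (ModuleCat k) :=
  ShortComplex.mk A.norm.toModuleCatHom (d₀₁ A) (Rep.norm_comp_d_eq_zero A)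

/-- The concrete short complex `(G →₀ A) --d₁₀--> A --N--> A` computing `Ĥ⁻¹`. -/
def scNegOne (A : Rep k G) : ShortComplex (ModuleCat k) :=
  ShortComplex.mk (d₁₀ A) A.norm.toModuleCatHom (Rep.comp_eq_zero A)

/-- The degree-`0` short complex of the Tate complex is isomorphic to `scZero`. -/
def scZeroIso (A : Rep k G) : (tateComplex A).sc' (-1) 0 1 ≅ scZero A :=
  ShortComplex.isoMk (tXm1 A) (tX0 A) (tX1 A) (tXm1_hom_comp_norm A) (tX0_hom_comp_d₀₁ A)

/-- The degree-`-1` short complex of the Tate complex is isomorphic to `scNegOne`. -/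
def scNegOneIso (A : Rep k G) : (tateComplex A).sc' (-2) (-1) 0 ≅ scNegOne A :=
  ShortComplex.isoMk (tXm2 A) (tXm1 A) (tX0 A) (tXm2_hom_comp_d₁₀ A) (tXm1_hom_comp_norm A)

@[simp] lemma scZeroIso_hom_τ₂ (A : Rep k G) : (scZeroIso A).hom.τ₂ = (tX0 A).hom := rfl
@[simp] lemma scNegOneIso_hom_τ₂ (A : Rep k G) : (scNegOneIso A).hom.τ₂ = (tXm1 A).hom := rfl

/-! ### Degree `0` -/

/-- `ker d₀₁ ≃ A^G`. -/
def kerEquivInvariants (A : Rep k G) : LinearMap.ker (d₀₁ A).hom ≃ₗ[k] A.ρ.invariants :=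
  LinearEquiv.ofEq _ _ (d₀₁_ker_eq_invariants A)

lemma map_range_toCycles_scZero (A : Rep k G) :
    (LinearMap.range (scZero A).moduleCatToCycles).map (kerEquivInvariants A).toLinearMap =
      normInv A := by
  ext x
  simp only [LinearMap.mem_range, normInv, Submodule.mem_comap, Submodule.coe_subtype]
  constructor
  · rintro ⟨y, ⟨a, rfl⟩, rfl⟩
    exact ⟨a, rfl⟩
  · rintro ⟨a, ha⟩
    refine ⟨(kerEquivInvariants A).symm x, ⟨a, ?_⟩, by simp⟩
    apply Subtype.ext
    exact ha

/-- The quotient equivalence `ker d₀₁ / im N ≃ A^G / N A`. -/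
def quotEquivZero (A : Rep k G) :
    (LinearMap.ker (scZero A).g.hom ⧸ LinearMap.range (scZero A).moduleCatToCycles) ≃ₗ[k]
      H0hat A :=
  Submodule.Quotient.equiv _ _ (kerEquivInvariants A) (map_range_toCycles_scZero A)

/-- The quotient isomorphism `ker d₀₁ / im N ≅ A^G / N A` in `ModuleCat`. -/
def quotIsoZero (A : Rep k G) :
    (scZero A).moduleCatLeftHomologyData.H ≅ ModuleCat.of k (H0hat A) :=
  (quotEquivZero A).toModuleIso

/-- `Ĥ⁰(G, A) ≅ H(scZero A)`. -/
def tateZeroIsoSc (A : Rep k G) : (tateComplex A).homology 0 ≅ (scZero A).homology :=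
  (tateComplex A).homologyIsoSc' (-1) 0 1 (by simp) (by simp) ≪≫
    ShortComplex.homologyMapIso (scZeroIso A)

/-- `Ĥ⁰(G, A) ≅ A^G / N_G A` in `ModuleCat`. -/
def tateZeroIso' (A : Rep k G) : (tateComplex A).homology 0 ≅ ModuleCat.of k (H0hat A) :=
  tateZeroIsoSc A ≪≫ (scZero A).moduleCatHomologyIso ≪≫ quotIsoZero A

/-- `Ĥ⁰(G, A) ≅ A^G / N_G A` in `ModuleCat`. -/
def tateZeroIso (A : Rep k G) : tateCohomology A 0 ≅ ModuleCat.of k (H0hat A) :=
  tateZeroIso' A

/-- `Ĥ⁰(G, A) ≃ A^G / N_G A`. -/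
def tateZeroEquiv (A : Rep k G) : tateCohomology A 0 ≃ₗ[k] H0hat A :=
  (tateZeroIso A).toLinearEquiv

/-- The inclusion of the invariants into the degree-`0` term of the Tate complex. -/
def invToX (A : Rep k G) : ModuleCat.of k A.ρ.invariants ⟶ (tateComplex A).X 0 :=
  ModuleCat.ofHom A.ρ.invariants.subtype ≫ (tX0 A).inv

lemma invToX_comp_d (A : Rep k G) : invToX A ≫ (tateComplex A).d 0 1 = 0 := by
  have h := tX0_hom_comp_d₀₁ A
  rw [← cancel_mono (tX1 A).hom, zero_comp, invToX, Category.assoc, Category.assoc, ← h,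
    Iso.inv_hom_id_assoc, subtype_comp_d₀₁]

/-- The canonical map `A^G → Ĥ⁰(G, A)` sending an invariant to the class of the corresponding
`0`-cocycle of the Tate complex. -/
def tateZeroπ' (A : Rep k G) : ModuleCat.of k A.ρ.invariants ⟶ (tateComplex A).homology 0 :=
  (tateComplex A).liftCycles (invToX A) 1 (by simp) (invToX_comp_d A) ≫
    (tateComplex A).homologyπ 0

/-- The canonical map `A^G → Ĥ⁰(G, A)` sending an invariant to the class of the corresponding
`0`-cocycle of the Tate complex. -/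
def tateZeroπ (A : Rep k G) : ModuleCat.of k A.ρ.invariants ⟶ tateCohomology A 0 :=
  tateZeroπ' A

lemma tateZeroπ_key (A : Rep k G) :
    (tateComplex A).liftCycles (invToX A) 1 (by simp) (invToX_comp_d A) ≫
      ((tateComplex A).cyclesIsoSc' (-1) 0 1 (by simp) (by simp)).hom ≫
      ShortComplex.cyclesMap (scZeroIso A).hom ≫ (scZero A).moduleCatCyclesIso.hom =
      ModuleCat.ofHom (kerEquivInvariants A).symm.toLinearMap := by
  refine (cancel_mono (scZero A).moduleCatLeftHomologyData.i).1 ?_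
  simp only [Category.assoc, ShortComplex.moduleCatCyclesIso_hom_i,
    ShortComplex.cyclesMap_i, HomologicalComplex.cyclesIsoSc'_hom_iCycles_assoc]
  change (tateComplex A).liftCycles (invToX A) 1 _ _ ≫ (tateComplex A).iCycles 0 ≫
    (tX0 A).hom = _
  rw [HomologicalComplex.liftCycles_i_assoc, invToX, Category.assoc, Iso.inv_hom_id,
    Category.comp_id]
  rfl

lemma tateZeroπ'_comp_tateZeroIso'_hom (A : Rep k G) :
    tateZeroπ' A ≫ (tateZeroIso' A).hom = ModuleCat.ofHom (H0hat.mk A) := by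
  simp only [tateZeroπ', tateZeroIso', tateZeroIsoSc, Iso.trans_hom, Category.assoc,
    HomologicalComplex.π_homologyIsoSc'_hom_assoc, ShortComplex.homologyMapIso_hom,
    ShortComplex.homologyπ_naturality_assoc, ShortComplex.π_moduleCatCyclesIso_hom_assoc]
  rw [reassoc_of% (tateZeroπ_key A)]
  ext x
  change quotEquivZero A (Submodule.Quotient.mk ((kerEquivInvariants A).symm x)) = H0hat.mk A x
  change (normInv A).mkQ ((kerEquivInvariants A) ((kerEquivInvariants A).symm x)) =
    (normInv A).mkQ x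
  rw [LinearEquiv.apply_symm_apply]

lemma tateZeroπ_comp_tateZeroIso_hom (A : Rep k G) :
    tateZeroπ A ≫ (tateZeroIso A).hom = ModuleCat.ofHom (H0hat.mk A) :=
  tateZeroπ'_comp_tateZeroIso'_hom A

@[simp]
lemma tateZeroEquiv_tateZeroπ (A : Rep k G) (x : A.ρ.invariants) :
    tateZeroEquiv A (tateZeroπ A x) = H0hat.mk A x :=
  congr($(tateZeroπ_comp_tateZeroIso_hom A) x)

lemma tateZeroπ_surjective (A : Rep k G) : Function.Surjective (tateZeroπ A) := by
  intro y
  obtain ⟨x, hx⟩ := Submodule.mkQ_surjective _ (tateZeroEquiv A y)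
  refine ⟨x, (tateZeroEquiv A).injective ?_⟩
  rw [tateZeroEquiv_tateZeroπ]; exact hx

lemma tateZeroπ_eq_zero_iff (A : Rep k G) (x : A.ρ.invariants) :
    tateZeroπ A x = 0 ↔ ∃ a : A.V, A.ρ.norm a = x := by
  rw [← (tateZeroEquiv A).map_eq_zero_iff, tateZeroEquiv_tateZeroπ]
  change Submodule.Quotient.mk x = 0 ↔ _
  rw [Submodule.Quotient.mk_eq_zero]
  rfl

/-! ### Naturality in degree `0` -/

section naturality

variable {A B : Rep k G} (f : A ⟶ B)

lemma tateMap_f0_comp_tX0 :
    (tateComplex.map f).f 0 ≫ (tX0 B).hom = (tX0 A).hom ≫ f.toModuleCatHom :=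
  cochainsMap_f_0_comp_cochainsIso₀ (MonoidHom.id G) f

lemma tateMap_fm1_comp_tXm1 :
    (tateComplex.map f).f (-1) ≫ (tXm1 B).hom = (tXm1 A).hom ≫ f.toModuleCatHom :=
  chainsMap_f_0_comp_chainsIso₀ (MonoidHom.id G) f

lemma invToX_naturality :
    invToX A ≫ (tateComplex.map f).f 0 = (Rep.invariantsFunctor k G).map f ≫ invToX B := by
  rw [← cancel_mono (tX0 B).hom, Category.assoc, tateMap_f0_comp_tX0, invToX, invToX,
    Category.assoc, Category.assoc, Category.assoc, Iso.inv_hom_id_assoc, Iso.inv_hom_id,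
    Category.comp_id]
  rfl

lemma tateZeroπ'_naturality :
    (Rep.invariantsFunctor k G).map f ≫ tateZeroπ' B =
      tateZeroπ' A ≫ HomologicalComplex.homologyMap (tateComplex.map f) 0 := by
  simp only [tateZeroπ', Category.assoc, HomologicalComplex.homologyπ_naturality,
    HomologicalComplex.liftCycles_comp_cyclesMap_assoc, invToX_naturality]
  rw [← Category.assoc]
  congr 1
  rw [← cancel_mono ((tateComplex B).iCycles 0)]
  simp

/-- Naturality of `tateZeroπ : A^G → Ĥ⁰(G, A)`. -/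
lemma tateZeroπ_naturality :
    (Rep.invariantsFunctor k G).map f ≫ tateZeroπ B =
      tateZeroπ A ≫ (tateCohomologyFunctor 0).map f :=
  tateZeroπ'_naturality f

end naturality

/-! ### Degree `-1` -/

/-- `ker N` as the kernel of the second map of `scNegOne`. -/
def kerEquivKerNorm (A : Rep k G) :
    LinearMap.ker (scNegOne A).g.hom ≃ₗ[k] LinearMap.ker A.ρ.norm :=
  LinearEquiv.ofEq _ _ rfl

lemma map_range_toCycles_scNegOne (A : Rep k G) :
    (LinearMap.range (scNegOne A).moduleCatToCycles).map (kerEquivKerNorm A).toLinearMap =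
      augInKer A := by
  ext x
  simp only [augInKer, Submodule.mem_comap, Submodule.coe_subtype,
    ← range_d₁₀_eq_coinvariantsKer, LinearMap.mem_range]
  constructor
  · rintro ⟨y, ⟨a, rfl⟩, rfl⟩
    exact ⟨a, rfl⟩
  · rintro ⟨a, ha⟩
    refine ⟨(kerEquivKerNorm A).symm x, ⟨a, ?_⟩, by simp⟩
    apply Subtype.ext
    exact ha

/-- The quotient equivalence `ker N / im d₁₀ ≃ ker N / I_G A`. -/
def quotEquivNegOne (A : Rep k G) :
    (LinearMap.ker (scNegOne A).g.hom ⧸ LinearMap.range (scNegOne A).moduleCatToCycles) ≃ₗ[k]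
      Hm1hat A :=
  Submodule.Quotient.equiv _ _ (kerEquivKerNorm A) (map_range_toCycles_scNegOne A)

/-- The quotient isomorphism `ker N / im d₁₀ ≅ ker N / I_G A` in `ModuleCat`. -/
def quotIsoNegOne (A : Rep k G) :
    (scNegOne A).moduleCatLeftHomologyData.H ≅ ModuleCat.of k (Hm1hat A) :=
  (quotEquivNegOne A).toModuleIso

/-- `Ĥ⁻¹(G, A) ≅ H(scNegOne A)`. -/
def tateNegOneIsoSc (A : Rep k G) : (tateComplex A).homology (-1) ≅ (scNegOne A).homology :=
  (tateComplex A).homologyIsoSc' (-2) (-1) 0 (by simp) (by simp) ≪≫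
    ShortComplex.homologyMapIso (scNegOneIso A)

/-- `Ĥ⁻¹(G, A) ≅ ker N_G / I_G A` in `ModuleCat`. -/
def tateNegOneIso' (A : Rep k G) :
    (tateComplex A).homology (-1) ≅ ModuleCat.of k (Hm1hat A) :=
  tateNegOneIsoSc A ≪≫ (scNegOne A).moduleCatHomologyIso ≪≫ quotIsoNegOne A

/-- `Ĥ⁻¹(G, A) ≅ ker N_G / I_G A` in `ModuleCat`. -/
def tateNegOneIso (A : Rep k G) : tateCohomology A (-1) ≅ ModuleCat.of k (Hm1hat A) :=
  tateNegOneIso' A

/-- `Ĥ⁻¹(G, A) ≃ ker N_G / I_G A`. -/
def tateNegOneEquiv (A : Rep k G) : tateCohomology A (-1) ≃ₗ[k] Hm1hat A :=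
  (tateNegOneIso A).toLinearEquiv

/-- The inclusion of `ker N` into the degree-`-1` term of the Tate complex. -/
def kerToX (A : Rep k G) : ModuleCat.of k (LinearMap.ker A.ρ.norm) ⟶ (tateComplex A).X (-1) :=
  ModuleCat.ofHom (LinearMap.ker A.ρ.norm).subtype ≫ (tXm1 A).inv

lemma subtype_comp_norm (A : Rep k G) :
    ModuleCat.ofHom (LinearMap.ker A.ρ.norm).subtype ≫ A.norm.toModuleCatHom = 0 := by
  ext x
  exact x.2

lemma kerToX_comp_d (A : Rep k G) : kerToX A ≫ (tateComplex A).d (-1) 0 = 0 := by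
  have h := tXm1_hom_comp_norm A
  rw [← cancel_mono (tX0 A).hom, zero_comp, kerToX, Category.assoc, Category.assoc, ← h,
    Iso.inv_hom_id_assoc, subtype_comp_norm]

/-- The canonical map `ker N → Ĥ⁻¹(G, A)`. -/
def tateNegOneπ' (A : Rep k G) :
    ModuleCat.of k (LinearMap.ker A.ρ.norm) ⟶ (tateComplex A).homology (-1) :=
  (tateComplex A).liftCycles (kerToX A) 0 (by simp) (kerToX_comp_d A) ≫
    (tateComplex A).homologyπ (-1)

/-- The canonical map `ker N → Ĥ⁻¹(G, A)`. -/
def tateNegOneπ (A : Rep k G) :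
    ModuleCat.of k (LinearMap.ker A.ρ.norm) ⟶ tateCohomology A (-1) :=
  tateNegOneπ' A

lemma tateNegOneπ_key (A : Rep k G) :
    (tateComplex A).liftCycles (kerToX A) 0 (by simp) (kerToX_comp_d A) ≫
      ((tateComplex A).cyclesIsoSc' (-2) (-1) 0 (by simp) (by simp)).hom ≫
      ShortComplex.cyclesMap (scNegOneIso A).hom ≫ (scNegOne A).moduleCatCyclesIso.hom =
      ModuleCat.ofHom (kerEquivKerNorm A).symm.toLinearMap := by
  refine (cancel_mono (scNegOne A).moduleCatLeftHomologyData.i).1 ?_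
  simp only [Category.assoc, ShortComplex.moduleCatCyclesIso_hom_i,
    ShortComplex.cyclesMap_i, HomologicalComplex.cyclesIsoSc'_hom_iCycles_assoc]
  change (tateComplex A).liftCycles (kerToX A) 0 _ _ ≫ (tateComplex A).iCycles (-1) ≫
    (tXm1 A).hom = _
  rw [HomologicalComplex.liftCycles_i_assoc, kerToX, Category.assoc, Iso.inv_hom_id,
    Category.comp_id]
  rfl

lemma tateNegOneπ'_comp_tateNegOneIso'_hom (A : Rep k G) :
    tateNegOneπ' A ≫ (tateNegOneIso' A).hom = ModuleCat.ofHom (Hm1hat.mk A) := by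
  simp only [tateNegOneπ', tateNegOneIso', tateNegOneIsoSc, Iso.trans_hom, Category.assoc,
    HomologicalComplex.π_homologyIsoSc'_hom_assoc, ShortComplex.homologyMapIso_hom,
    ShortComplex.homologyπ_naturality_assoc, ShortComplex.π_moduleCatCyclesIso_hom_assoc]
  rw [reassoc_of% (tateNegOneπ_key A)]
  ext x
  change quotEquivNegOne A (Submodule.Quotient.mk ((kerEquivKerNorm A).symm x)) = Hm1hat.mk A x
  change (augInKer A).mkQ ((kerEquivKerNorm A) ((kerEquivKerNorm A).symm x)) =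
    (augInKer A).mkQ x
  rw [LinearEquiv.apply_symm_apply]

lemma tateNegOneπ_comp_tateNegOneIso_hom (A : Rep k G) :
    tateNegOneπ A ≫ (tateNegOneIso A).hom = ModuleCat.ofHom (Hm1hat.mk A) :=
  tateNegOneπ'_comp_tateNegOneIso'_hom A

@[simp]
lemma tateNegOneEquiv_tateNegOneπ (A : Rep k G) (x : LinearMap.ker A.ρ.norm) :
    tateNegOneEquiv A (tateNegOneπ A x) = Hm1hat.mk A x :=
  congr($(tateNegOneπ_comp_tateNegOneIso_hom A) x)

lemma tateNegOneπ_surjective (A : Rep k G) : Function.Surjective (tateNegOneπ A) := by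
  intro y
  obtain ⟨x, hx⟩ := Submodule.mkQ_surjective _ (tateNegOneEquiv A y)
  refine ⟨x, (tateNegOneEquiv A).injective ?_⟩
  rw [tateNegOneEquiv_tateNegOneπ]; exact hx

lemma tateNegOneπ_eq_zero_iff (A : Rep k G) (x : LinearMap.ker A.ρ.norm) :
    tateNegOneπ A x = 0 ↔ (x : A.V) ∈ Representation.Coinvariants.ker A.ρ := by
  rw [← (tateNegOneEquiv A).map_eq_zero_iff, tateNegOneEquiv_tateNegOneπ]
  change Submodule.Quotient.mk x = 0 ↔ _
  rw [Submodule.Quotient.mk_eq_zero]
  rfl

/-! ### Naturality in degree `-1` and naturality of the equivalences -/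

section naturality'

variable {A B : Rep k G} (f : A ⟶ B)

lemma norm_hom_apply (x : A.V) : B.ρ.norm (f.hom x) = f.hom (A.ρ.norm x) := by
  have := congr($(Rep.norm_comm f).hom x)
  simpa using this

/-- The map `ker N_A → ker N_B` induced by a morphism of representations. -/
def kerNormMap : LinearMap.ker A.ρ.norm →ₗ[k] LinearMap.ker B.ρ.norm :=
  (f.hom.toLinearMap ∘ₗ (LinearMap.ker A.ρ.norm).subtype).codRestrict _ (fun x => by
    have hx : A.ρ.norm (x : A.V) = 0 := x.2
    simp only [LinearMap.mem_ker, LinearMap.coe_comp, Submodule.coe_subtype, Function.comp_apply]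
    erw [norm_hom_apply f x, hx, map_zero])

@[simp] lemma kerNormMap_coe (x : LinearMap.ker A.ρ.norm) :
    ((kerNormMap f x : LinearMap.ker B.ρ.norm) : B.V) = f.hom (x : A.V) := rfl

lemma kerToX_naturality :
    kerToX A ≫ (tateComplex.map f).f (-1) = ModuleCat.ofHom (kerNormMap f) ≫ kerToX B := by
  rw [← cancel_mono (tXm1 B).hom, Category.assoc, tateMap_fm1_comp_tXm1, kerToX, kerToX,
    Category.assoc, Category.assoc, Category.assoc, Iso.inv_hom_id_assoc, Iso.inv_hom_id,
    Category.comp_id]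
  rfl

lemma tateNegOneπ'_naturality :
    ModuleCat.ofHom (kerNormMap f) ≫ tateNegOneπ' B =
      tateNegOneπ' A ≫ HomologicalComplex.homologyMap (tateComplex.map f) (-1) := by
  simp only [tateNegOneπ', Category.assoc, HomologicalComplex.homologyπ_naturality,
    HomologicalComplex.liftCycles_comp_cyclesMap_assoc, kerToX_naturality]
  rw [← Category.assoc]
  congr 1
  rw [← cancel_mono ((tateComplex B).iCycles (-1))]
  simp

/-- Naturality of `tateNegOneπ : ker N → Ĥ⁻¹(G, A)`. -/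
lemma tateNegOneπ_naturality :
    ModuleCat.ofHom (kerNormMap f) ≫ tateNegOneπ B =
      tateNegOneπ A ≫ (tateCohomologyFunctor (-1)).map f :=
  tateNegOneπ'_naturality f

omit [Fintype G] in
/-- The map `A^G → B^G` induced by a morphism of representations. -/
def invMap : A.ρ.invariants →ₗ[k] B.ρ.invariants :=
  ((Rep.invariantsFunctor k G).map f).hom

omit [Fintype G] in
@[simp] lemma invMap_coe (x : A.ρ.invariants) :
    ((invMap f x : B.ρ.invariants) : B.V) = f.hom (x : A.V) := rfl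

/-- The map `A^G / N A → B^G / N B` induced by a morphism of representations. -/
def H0hatMap : H0hat A →ₗ[k] H0hat B :=
  Submodule.mapQ (normInv A) (normInv B) (invMap f) (by
    rintro x ⟨a, ha⟩
    refine ⟨f.hom a, ?_⟩
    rw [norm_hom_apply]
    erw [ha]
    rfl)

@[simp] lemma H0hatMap_mk (x : A.ρ.invariants) :
    H0hatMap f (H0hat.mk A x) = H0hat.mk B (invMap f x) := rfl

/-- The map `ker N_A / I_G A → ker N_B / I_G B` induced by a morphism of representations. -/
def Hm1hatMap : Hm1hat A →ₗ[k] Hm1hat B :=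
  Submodule.mapQ (augInKer A) (augInKer B) (kerNormMap f) (by
    intro x hx
    have hx' : (x : A.V) ∈ Representation.Coinvariants.ker A.ρ := hx
    change f.hom (x : A.V) ∈ Representation.Coinvariants.ker B.ρ
    rw [← Representation.Coinvariants.mk_eq_zero] at hx' ⊢
    have := Representation.Coinvariants.map_mk f.hom (x : A.V)
    rw [← this, hx', map_zero])

@[simp] lemma Hm1hatMap_mk (x : LinearMap.ker A.ρ.norm) :
    Hm1hatMap f (Hm1hat.mk A x) = Hm1hat.mk B (kerNormMap f x) := rfl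

/-- Naturality of `tateZeroEquiv`. -/
theorem tateZeroEquiv_naturality (x : tateCohomology A 0) :
    tateZeroEquiv B ((tateCohomologyFunctor 0).map f x) = H0hatMap f (tateZeroEquiv A x) := by
  obtain ⟨y, rfl⟩ := tateZeroπ_surjective A x
  have h := congr($(tateZeroπ_naturality f) y)
  simp only [ModuleCat.hom_comp, LinearMap.coe_comp, Function.comp_apply] at h
  rw [← h, tateZeroEquiv_tateZeroπ, tateZeroEquiv_tateZeroπ, H0hatMap_mk]
  rfl

/-- Naturality of `tateNegOneEquiv`. -/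
theorem tateNegOneEquiv_naturality (x : tateCohomology A (-1)) :
    tateNegOneEquiv B ((tateCohomologyFunctor (-1)).map f x) =
      Hm1hatMap f (tateNegOneEquiv A x) := by
  obtain ⟨y, rfl⟩ := tateNegOneπ_surjective A x
  have h := congr($(tateNegOneπ_naturality f) y)
  simp only [ModuleCat.hom_comp, LinearMap.coe_comp, Function.comp_apply] at h
  rw [← h, tateNegOneEquiv_tateNegOneπ, tateNegOneEquiv_tateNegOneπ, Hm1hatMap_mk]
  rfl

end naturality'

end Fermat.Agent.CFT.H98

end
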