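import Mathlib
import Fermat.Agent.CFT.A_Defs
import Fermat.Agent.CFT.H95_Acyclic

/-!
# CFT / Layer A : `A-LowDeg`, part 2 — generic facts on Tate cohomology

* `tate_exact₂` : middle exactness of the long exact sequence;
* `isZero_tate_of_subsingleton` : Tate cohomology of the trivial group vanishes.
-/

set_option autoImplicit false

noncomputable section

open CategoryTheory CategoryTheory.Limits

namespace Fermat.Agent.CFT.H98

open Fermat.Agent.CFT.A

variable {k : Type} [CommRing k] {G : Type} [Group G] [Fintype G]

/-- exactness of the long exact sequence in the middle, elementwise (skeleton v1 statement;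
Mathlib has `TateCohomology.exact₁`, `TateCohomology.exact₃`). -/
theorem tate_exact₂ {S : ShortComplex (Rep.{0} k G)} (hS : S.ShortExact) (n : ℤ)
    (y : tateCohomology S.X₂ n) (hy : (tateCohomologyFunctor n).map S.g y = 0) :
    ∃ x : tateCohomology S.X₁ n, (tateCohomologyFunctor n).map S.f x = y :=
  (ShortComplex.moduleCat_exact_iff _).1
    ((TateCohomology.map_tateComplexFunctor_shortExact hS).homology_exact₂ n) y hy

/-- Tate cohomology of the trivial group vanishes. -/
theorem isZero_tate_of_subsingleton [Subsingleton G] (A : Rep.{0} k G) (n : ℤ) :
    IsZero (tateCohomology A n) := by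
  let _ : Unique G := uniqueOfSubsingleton 1
  refine H95.isZero_tate_of_equiv A A.V (LinearEquiv.funUnique G k A.V).symm ?_ n
  intro g m x
  have hg : g = 1 := Subsingleton.elim _ _
  subst hg
  simp

end Fermat.Agent.CFT.H98

end
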