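import Mathlib
import Fermat.Agent.CFT.A_Defs

/-!
# CFT / Layer A : package A-Cup (helper9)

Cup products `A^G × H²(G, k) → H²(G, A)` at the level of explicit cocycles, the Nakayama
elements `nak u s = ∑ t, u (t, s)` and the symmetric cup formula
`[ε • nak u s] = nakS ε s • [u]` in `H²(G, A)`, valid for arbitrary `2`-cocycles `u` (values in
`A`) and `ε` (values in the trivial module `k`), with an explicit `1`-cochain.
-/

set_option autoImplicit false
set_option linter.unusedSectionVars false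

noncomputable section

open groupCohomology

namespace Fermat.Agent.CFT.H9

variable {k : Type} [CommRing k] {G : Type} [Group G] [Fintype G] (A : Rep.{0} k G)

/-- The Nakayama element `∑ t, u (t, s)` of a `2`-cochain `u` at `s`. -/
def nak (u : G × G → A.V) (s : G) : A.V := ∑ t : G, u (t, s)

/-- The scalar Nakayama element `∑ t, ε (t, s)` of a scalar `2`-cochain. -/
def nakS (ε : G × G → k) (s : G) : k := ∑ t : G, ε (t, s)

/-- The explicit homotopy for the symmetric cup formula. -/
def cupHtpy (u : G × G → A.V) (ε : G × G → k) (s : G) (g : G) : A.V :=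
  ∑ t : G, (ε (g, t) • u (g * t, s) - ε (t, s) • u (g, t * s))

variable {A}

/-- **Symmetric cup formula**, cochain level. -/
theorem cupHtpy_spec (u : G × G → A.V) (ε : G × G → k)
    (hu : ∀ g h j : G, u (g * h, j) + u (g, h) = A.ρ g (u (h, j)) + u (g, h * j))
    (hε : ∀ g h j : G, ε (g * h, j) + ε (g, h) = ε (h, j) + ε (g, h * j)) (s g h : G) :
    A.ρ g (cupHtpy A u ε s h) - cupHtpy A u ε s (g * h) + cupHtpy A u ε s g
      = ε (g, h) • nak A u s - nakS ε s • u (g, h) := by
  -- expand `ρ g (u ..)` via the cocycle identity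
  have e1 : ∀ t : G, A.ρ g (u (h * t, s)) = u (g * (h * t), s) + u (g, h * t) - u (g, h * t * s) := by
    intro t; have := hu g (h * t) s; rw [eq_sub_iff_add_eq]; exact this.symm
  have e2 : ∀ t : G, A.ρ g (u (h, t * s)) = u (g * h, t * s) + u (g, h) - u (g, h * (t * s)) := by
    intro t; have := hu g h (t * s); rw [eq_sub_iff_add_eq]; exact this.symm
  -- the pieces
  have hA : ∑ t : G, (ε (h, t) - ε (g * h, t)) • u (g * (h * t), s) + ∑ t : G, ε (g, t) • u (g * t, s)
      = ε (g, h) • nak A u s := by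
    have h1 : ∀ t : G, (ε (h, t) - ε (g * h, t)) • u (g * (h * t), s)
        = ε (g, h) • u (g * (h * t), s) - ε (g, h * t) • u (g * (h * t), s) := by
      intro t
      have := hε g h t
      have h2 : ε (h, t) - ε (g * h, t) = ε (g, h) - ε (g, h * t) := by linear_combination -this
      rw [h2, sub_smul]
    simp_rw [h1]
    rw [Finset.sum_sub_distrib]
    have r1 : ∑ t : G, ε (g, h) • u (g * (h * t), s) = ε (g, h) • nak A u s := by
      rw [nak, Finset.smul_sum]
      exact Fintype.sum_equiv ((Equiv.mulLeft h).trans (Equiv.mulLeft g)) _ _ (fun t => rfl)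
    have r2 : ∑ t : G, ε (g, h * t) • u (g * (h * t), s) = ∑ t : G, ε (g, t) • u (g * t, s) :=
      Fintype.sum_equiv (Equiv.mulLeft h) _ _ (fun t => rfl)
    rw [r1, r2]; abel
  have hB : ∑ t : G, ε (h, t) • u (g, h * t) - ∑ t : G, ε (h, t) • u (g, h * t * s)
      + ∑ t : G, ε (t, s) • u (g, h * (t * s)) - ∑ t : G, ε (t, s) • u (g, t * s) = 0 := by
    have r1 : ∑ t : G, ε (h, t) • u (g, h * t) = ∑ y : G, ε (h, y * s) • u (g, h * (y * s)) :=
      (Fintype.sum_equiv (Equiv.mulRight s) _ _ (fun t => rfl)).symm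
    have r2 : ∑ t : G, ε (t, s) • u (g, t * s) = ∑ y : G, ε (h * y, s) • u (g, h * y * s) :=
      (Fintype.sum_equiv (Equiv.mulLeft h) _ _ (fun t => rfl)).symm
    rw [r1, r2, ← Finset.sum_sub_distrib, ← Finset.sum_add_distrib, ← Finset.sum_sub_distrib]
    refine Finset.sum_eq_zero fun y _ => ?_
    have := hε h y s
    have h3 : ε (h, y * s) - ε (h, y) + ε (y, s) - ε (h * y, s) = 0 := by linear_combination -this
    rw [mul_assoc h y s, ← sub_smul, ← add_smul, ← sub_smul, h3, zero_smul]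
  -- assemble
  have hρ : A.ρ g (cupHtpy A u ε s h) = ∑ t : G, (ε (h, t) • (u (g * (h * t), s) + u (g, h * t)
      - u (g, h * t * s)) - ε (t, s) • (u (g * h, t * s) + u (g, h) - u (g, h * (t * s)))) := by
    rw [cupHtpy, map_sum]
    refine Finset.sum_congr rfl fun t _ => ?_
    rw [map_sub, map_smul, map_smul, e1, e2]
  rw [hρ]
  simp only [cupHtpy, nakS, Finset.sum_smul]
  simp only [smul_sub, smul_add, Finset.sum_sub_distrib, Finset.sum_add_distrib] at hA hB ⊢
  simp only [sub_smul, Finset.sum_sub_distrib, mul_assoc] at hA hB ⊢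
  linear_combination (norm := module) hA + hB

/-! ### Basic properties of the Nakayama elements -/

/-- The Nakayama element of a `2`-cocycle is `G`-invariant. -/
theorem nak_invariant (u : G × G → A.V)
    (hu : ∀ g h j : G, u (g * h, j) + u (g, h) = A.ρ g (u (h, j)) + u (g, h * j)) (s g : G) :
    A.ρ g (nak A u s) = nak A u s := by
  have h1 : ∑ t : G, (u (g * t, s) + u (g, t)) = ∑ t : G, (A.ρ g (u (t, s)) + u (g, t * s)) :=
    Finset.sum_congr rfl fun t _ => hu g t s
  rw [Finset.sum_add_distrib, Finset.sum_add_distrib] at h1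
  have r1 : ∑ t : G, u (g * t, s) = nak A u s :=
    Fintype.sum_equiv (Equiv.mulLeft g) _ _ (fun t => rfl)
  have r2 : ∑ t : G, u (g, t * s) = ∑ t : G, u (g, t) :=
    Fintype.sum_equiv (Equiv.mulRight s) _ _ (fun t => rfl)
  rw [r1, r2] at h1
  rw [nak, map_sum]
  rw [nak] at h1
  exact (add_right_cancel h1).symm

/-- The Nakayama elements are additive in `s` modulo norms. -/
theorem nak_mul (u : G × G → A.V)
    (hu : ∀ g h j : G, u (g * h, j) + u (g, h) = A.ρ g (u (h, j)) + u (g, h * j)) (s s' : G) :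
    nak A u (s * s') = nak A u s + nak A u s' - A.ρ.norm (u (s, s')) := by
  have h1 : ∑ t : G, (u (t * s, s') + u (t, s)) = ∑ t : G, (A.ρ t (u (s, s')) + u (t, s * s')) :=
    Finset.sum_congr rfl fun t _ => hu t s s'
  rw [Finset.sum_add_distrib, Finset.sum_add_distrib] at h1
  have r1 : ∑ t : G, u (t * s, s') = nak A u s' :=
    Fintype.sum_equiv (Equiv.mulRight s) _ _ (fun t => rfl)
  have r2 : ∑ t : G, A.ρ t (u (s, s')) = A.ρ.norm (u (s, s')) := by
    simp [Representation.norm]
  rw [r1, r2] at h1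
  simp only [nak] at h1 ⊢
  rw [eq_sub_iff_add_eq, add_comm (∑ t : G, u (t, s * s')), ← h1, add_comm]

/-- The Nakayama element of a coboundary is a norm. -/
theorem nak_coboundary (b : G → A.V) (s : G) :
    nak A (fun p => A.ρ p.1 (b p.2) - b (p.1 * p.2) + b p.1) s = A.ρ.norm (b s) := by
  simp only [nak, Finset.sum_add_distrib, Finset.sum_sub_distrib]
  have r1 : ∑ t : G, b (t * s) = ∑ t : G, b t :=
    Fintype.sum_equiv (Equiv.mulRight s) _ _ (fun t => rfl)
  rw [r1]
  simp [Representation.norm]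

/-! ### Cup products with norms and with scalar coboundaries vanish -/

/-- The explicit `1`-cochain trivialising the cup product with a norm. -/
def cupNormHtpy (A : Rep.{0} k G) (ε : G × G → k) (a₀ : A.V) (g : G) : A.V :=
  ∑ t : G, ε (g, t) • A.ρ (g * t) a₀

theorem cupNormHtpy_spec (ε : G × G → k) (a₀ : A.V)
    (hε : ∀ g h j : G, ε (g * h, j) + ε (g, h) = ε (h, j) + ε (g, h * j)) (g h : G) :
    A.ρ g (cupNormHtpy A ε a₀ h) - cupNormHtpy A ε a₀ (g * h) + cupNormHtpy A ε a₀ g
      = ε (g, h) • A.ρ.norm a₀ := by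
  have r1 : cupNormHtpy A ε a₀ g = ∑ t : G, ε (g, h * t) • A.ρ (g * (h * t)) a₀ :=
    (Fintype.sum_equiv (Equiv.mulLeft h) _ _ (fun t => rfl)).symm
  have r2 : A.ρ g (cupNormHtpy A ε a₀ h) = ∑ t : G, ε (h, t) • A.ρ (g * (h * t)) a₀ := by
    rw [cupNormHtpy, map_sum]
    refine Finset.sum_congr rfl fun t _ => ?_
    rw [map_smul, ← Module.End.mul_apply, ← map_mul]
  have r3 : cupNormHtpy A ε a₀ (g * h) = ∑ t : G, ε (g * h, t) • A.ρ (g * (h * t)) a₀ := by
    rw [cupNormHtpy]
    refine Finset.sum_congr rfl fun t _ => ?_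
    rw [mul_assoc]
  have r4 : A.ρ.norm a₀ = ∑ t : G, A.ρ (g * (h * t)) a₀ := by
    rw [Representation.norm, LinearMap.sum_apply]
    exact (Fintype.sum_equiv ((Equiv.mulLeft h).trans (Equiv.mulLeft g)) _ _ (fun t => rfl)).symm
  rw [r1, r2, r3, r4, Finset.smul_sum, ← Finset.sum_sub_distrib, ← Finset.sum_add_distrib]
  refine Finset.sum_congr rfl fun t _ => ?_
  have := hε g h t
  have h3 : ε (h, t) - ε (g * h, t) + ε (g, h * t) = ε (g, h) := by linear_combination -this
  rw [← sub_smul, ← add_smul, h3]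

omit [Fintype G] in
/-- Cup product of an invariant element with a scalar coboundary is a coboundary. -/
theorem cup_scalar_coboundary (φ : G → k) (a : A.V) (ha : ∀ g : G, A.ρ g a = a) (g h : G) :
    A.ρ g (φ h • a) - φ (g * h) • a + φ g • a = (φ h - φ (g * h) + φ g) • a := by
  rw [map_smul, ha, add_smul, sub_smul]

/-! ### The cup product `A^G × Z²(G, k) → Z²(G, A)` -/

omit [Fintype G] in
/-- The cocycle identity for scalar `2`-cocycles (trivial action). -/
lemma scalar_cocycle_spec (ε : cocycles₂ (Rep.trivial k G k)) (g h j : G) :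
    ε (g * h, j) + ε (g, h) = ε (h, j) + ε (g, h * j) := by
  have := (mem_cocycles₂_iff (A := Rep.trivial k G k) ε).1 ε.2 g h j
  simpa using this

omit [Fintype G] in
/-- The cocycle identity for `2`-cocycles. -/
lemma cocycle_spec (u : cocycles₂ A) (g h j : G) :
    u (g * h, j) + u (g, h) = A.ρ g (u (h, j)) + u (g, h * j) :=
  (mem_cocycles₂_iff (A := A) u).1 u.2 g h j

omit [Fintype G] in
/-- The cup product of an invariant `a` with a scalar `2`-cocycle `ε`: `(g,h) ↦ ε (g,h) • a`. -/
def cup (a : A.ρ.invariants) (ε : cocycles₂ (Rep.trivial k G k)) : cocycles₂ A :=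
  ⟨fun p => ε p • a.1, by
    rw [mem_cocycles₂_iff]
    intro g h j
    have ha : A.ρ g a.1 = a.1 := a.2 g
    rw [map_smul, ha, ← add_smul, ← add_smul, scalar_cocycle_spec ε g h j]⟩

omit [Fintype G] in
@[simp] lemma cup_apply (a : A.ρ.invariants) (ε : cocycles₂ (Rep.trivial k G k)) (p : G × G) :
    cup a ε p = ε p • a.1 := rfl

omit [Fintype G] in
lemma cup_add_left (a a' : A.ρ.invariants) (ε : cocycles₂ (Rep.trivial k G k)) :
    cup (a + a') ε = cup a ε + cup a' ε := by
  ext g h; simp [cup, smul_add]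

omit [Fintype G] in
lemma cup_add_right (a : A.ρ.invariants) (ε ε' : cocycles₂ (Rep.trivial k G k)) :
    cup a (ε + ε') = cup a ε + cup a ε' := by
  ext g h
  show (ε + ε') (g, h) • a.1 = ε (g, h) • a.1 + ε' (g, h) • a.1
  rw [← add_smul]; rfl

omit [Fintype G] in
lemma cup_smul_left (c : k) (a : A.ρ.invariants) (ε : cocycles₂ (Rep.trivial k G k)) :
    cup (c • a) ε = c • cup a ε := by
  ext g h; simp [cup, smul_comm c]

omit [Fintype G] in
lemma cup_smul_right (c : k) (a : A.ρ.invariants) (ε : cocycles₂ (Rep.trivial k G k)) :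
    cup a (c • ε) = c • cup a ε := by
  ext g h
  show (c • ε) (g, h) • a.1 = c • (ε (g, h) • a.1)
  rw [← smul_assoc]; rfl

/-- The Nakayama element of a `2`-cocycle, as an invariant. -/
def nakInv (u : cocycles₂ A) (s : G) : A.ρ.invariants :=
  ⟨nak A u s, fun g => nak_invariant u (cocycle_spec u) s g⟩

/-- A norm, as an invariant. -/
def normInvElt (A : Rep.{0} k G) (a₀ : A.V) : A.ρ.invariants :=
  ⟨A.ρ.norm a₀, fun g => by
    rw [← LinearMap.comp_apply, Representation.self_comp_norm]⟩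

/-- **Symmetric cup formula** in `H²(G, A)`: `[ε ∪ nak u s] = nakS ε s • [u]`. -/
theorem H2π_cup_nak (u : cocycles₂ A) (ε : cocycles₂ (Rep.trivial k G k)) (s : G) :
    H2π A (cup (nakInv u s) ε) = nakS (fun p => ε p) s • H2π A u := by
  rw [← map_smul, H2π_eq_iff]
  refine ⟨cupHtpy A u (fun p => ε p) s, ?_⟩
  funext ⟨g, h⟩
  have := cupHtpy_spec (A := A) (⇑u) (fun p => ε p) (cocycle_spec u)
    (scalar_cocycle_spec ε) s g h
  rw [d₁₂_hom_apply]
  exact this

/-- Cup product with a norm vanishes in `H²(G, A)`. -/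
theorem H2π_cup_norm (a₀ : A.V) (ε : cocycles₂ (Rep.trivial k G k)) :
    H2π A (cup (normInvElt A a₀) ε) = 0 := by
  rw [H2π_eq_zero_iff]
  refine ⟨cupNormHtpy A (fun p => ε p) a₀, ?_⟩
  funext ⟨g, h⟩
  have := cupNormHtpy_spec (A := A) (fun p => ε p) a₀ (scalar_cocycle_spec ε) g h
  rw [d₁₂_hom_apply]
  exact this

omit [Fintype G] in
lemma cup_sub_left (a a' : A.ρ.invariants) (ε : cocycles₂ (Rep.trivial k G k)) :
    cup (a - a') ε = cup a ε - cup a' ε := by
  ext g h
  show ε (g, h) • (a - a').1 = ε (g, h) • a.1 - ε (g, h) • a'.1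
  rw [Submodule.coe_sub, smul_sub]

/-- The cup product only depends on the class of `a` in `Ĥ⁰ = A^G / N_G A`. -/
theorem H2π_cup_congr_left {a a' : A.ρ.invariants}
    (h : Fermat.Agent.CFT.A.H0hat.mk A a = Fermat.Agent.CFT.A.H0hat.mk A a')
    (ε : cocycles₂ (Rep.trivial k G k)) : H2π A (cup a ε) = H2π A (cup a' ε) := by
  have h0 : Fermat.Agent.CFT.A.H0hat.mk A (a - a') = 0 := by rw [map_sub, h, sub_self]
  obtain ⟨b, hb⟩ := (Fermat.Agent.CFT.A.H0hat.mk_eq_zero_iff A (a - a')).1 h0
  have h1 : a - a' = normInvElt A b := Subtype.ext hb.symm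
  have h2 : H2π A (cup (a - a') ε) = 0 := by rw [h1]; exact H2π_cup_norm b ε
  rw [cup_sub_left, map_sub, sub_eq_zero] at h2
  exact h2

omit [Fintype G] in
/-- The cup product only depends on the class of `ε` in `H²(G, k)`. -/
theorem H2π_cup_congr_right (a : A.ρ.invariants) {ε ε' : cocycles₂ (Rep.trivial k G k)}
    (h : H2π (Rep.trivial k G k) ε = H2π (Rep.trivial k G k) ε') :
    H2π A (cup a ε) = H2π A (cup a ε') := by
  rw [H2π_eq_iff] at h ⊢
  obtain ⟨φ, hφ⟩ := h
  refine ⟨fun g => φ g • a.1, ?_⟩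
  funext ⟨g, j⟩
  have h1 := congrFun hφ (g, j)
  rw [d₁₂_hom_apply] at h1 ⊢
  have h2 := cup_scalar_coboundary (A := A) φ a.1 (fun g => a.2 g) g j
  have h3 : φ j - φ (g * j) + φ g = ε (g, j) - ε' (g, j) := by
    simpa using h1
  show A.ρ g (φ j • a.1) - φ (g * j) • a.1 + φ g • a.1 = ε (g, j) • a.1 - ε' (g, j) • a.1
  rw [h2, ← sub_smul, h3]

/-! ### The Bockstein cocycle of a character `χ : G → ℤ/m` -/

section Bockstein

variable {m : ℕ} [NeZero m]

/-- The standard lift `χ̃ : G → {0, …, m-1}` of a character `χ : G → ℤ/m`. -/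
def lift (χ : G →* Multiplicative (ZMod m)) (g : G) : ℕ := (Multiplicative.toAdd (χ g)).val

omit [Fintype G] in
lemma lift_lt (χ : G →* Multiplicative (ZMod m)) (g : G) : lift χ g < m := ZMod.val_lt _

omit [Fintype G] in
lemma lift_eq_zero_iff (χ : G →* Multiplicative (ZMod m)) (g : G) : lift χ g = 0 ↔ χ g = 1 := by
  rw [lift, ZMod.val_eq_zero]
  exact Iff.rfl

/-- The Bockstein `2`-cocycle `(g, h) ↦ (χ̃ g + χ̃ h - χ̃ (g h)) / m ∈ {0, 1}` (natural numbers). -/
def bockN (χ : G →* Multiplicative (ZMod m)) (p : G × G) : ℕ := (lift χ p.1 + lift χ p.2) / m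

omit [Fintype G] in
lemma lift_add_lift (χ : G →* Multiplicative (ZMod m)) (g h : G) :
    lift χ g + lift χ h = m * bockN χ (g, h) + lift χ (g * h) := by
  have h1 : lift χ (g * h) = (lift χ g + lift χ h) % m := by
    simp [lift, map_mul, toAdd_mul, ZMod.val_add]
  rw [h1, bockN]
  exact (Nat.div_add_mod _ _).symm

omit [Fintype G] in
lemma bockN_cocycle (χ : G →* Multiplicative (ZMod m)) (g h j : G) :
    bockN χ (g * h, j) + bockN χ (g, h) = bockN χ (h, j) + bockN χ (g, h * j) := by
  have e1 := lift_add_lift χ (g * h) j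
  have e2 := lift_add_lift χ g h
  have e3 := lift_add_lift χ h j
  have e4 := lift_add_lift χ g (h * j)
  rw [mul_assoc] at e1
  have key : m * (bockN χ (g * h, j) + bockN χ (g, h)) = m * (bockN χ (h, j) + bockN χ (g, h * j)) := by
    rw [mul_add, mul_add]; linarith
  exact Nat.eq_of_mul_eq_mul_left (Nat.pos_of_ne_zero (NeZero.ne m)) key

omit [Fintype G] in
/-- The Bockstein cocycle with values in `k`. -/
def bock (k : Type) [CommRing k] (χ : G →* Multiplicative (ZMod m)) :
    cocycles₂ (Rep.trivial k G k) :=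
  ⟨fun p => (bockN χ p : k), by
    rw [mem_cocycles₂_iff]
    intro g h j
    have := bockN_cocycle χ g h j
    have h2 : ((bockN χ (g * h, j) : ℕ) : k) + (bockN χ (g, h) : k)
        = (bockN χ (h, j) : k) + (bockN χ (g, h * j) : k) := by
      exact_mod_cast congrArg (Nat.cast : ℕ → k) this
    simpa using h2⟩

omit [Fintype G] in
@[simp] lemma bock_apply (χ : G →* Multiplicative (ZMod m)) (p : G × G) :
    bock k χ p = (bockN χ p : k) := rfl

/-- The natural-number Nakayama element of the Bockstein cocycle. -/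
def nakN (χ : G →* Multiplicative (ZMod m)) (s : G) : ℕ := ∑ t : G, bockN χ (t, s)

/-- `m * nakN χ s = |G| * χ̃ s`. -/
lemma nakN_spec (χ : G →* Multiplicative (ZMod m)) (s : G) :
    m * nakN χ s = Fintype.card G * lift χ s := by
  have h1 : ∑ t : G, (lift χ t + lift χ s) = ∑ t : G, (m * bockN χ (t, s) + lift χ (t * s)) :=
    Finset.sum_congr rfl fun t _ => lift_add_lift χ t s
  rw [Finset.sum_add_distrib, Finset.sum_add_distrib, ← Finset.mul_sum] at h1
  have r1 : ∑ t : G, lift χ (t * s) = ∑ t : G, lift χ t :=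
    Fintype.sum_equiv (Equiv.mulRight s) _ _ (fun t => rfl)
  rw [r1] at h1
  simp only [Finset.sum_const, Finset.card_univ, smul_eq_mul] at h1
  rw [nakN]
  omega

lemma nakS_bock (χ : G →* Multiplicative (ZMod m)) (s : G) :
    nakS (fun p => bock k χ p) s = (nakN χ s : k) := by
  simp [nakS, nakN]

/-- **Cup formula for characters** (Serre, *Local Fields*, XI §3, Prop. 2, cocycle form):
`nak u s ∪ δχ = (|G| χ̃(s) / m) • [u]`. -/
theorem H2π_cup_bock (u : cocycles₂ A) (χ : G →* Multiplicative (ZMod m)) (s : G) :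
    H2π A (cup (nakInv u s) (bock k χ)) = (nakN χ s : k) • H2π A u := by
  rw [H2π_cup_nak, nakS_bock]

/-- If the class of `u` has exact order `|G|` then `nak u s ∪ δχ = 0` iff `χ s = 1`. -/
theorem H2π_cup_bock_eq_zero_iff (u : cocycles₂ A)
    (hu : ∀ z : ℕ, z • H2π A u = 0 ↔ Fintype.card G ∣ z)
    (χ : G →* Multiplicative (ZMod m)) (s : G) :
    H2π A (cup (nakInv u s) (bock k χ)) = 0 ↔ χ s = 1 := by
  rw [H2π_cup_bock, Nat.cast_smul_eq_nsmul, hu, ← lift_eq_zero_iff]
  have hspec := nakN_spec χ s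
  have hlt := lift_lt χ s
  have hG : 0 < Fintype.card G := Fintype.card_pos
  have hm : 0 < m := Nat.pos_of_ne_zero (NeZero.ne m)
  constructor
  · rintro ⟨q, hq⟩
    rw [hq] at hspec
    have h1 : m * q = lift χ s := by
      apply Nat.eq_of_mul_eq_mul_left hG
      rw [← hspec]; ring
    by_contra hne
    have hq0 : q ≠ 0 := by
      rintro rfl
      exact hne (by simpa using h1.symm)
    have : m ≤ m * q := Nat.le_mul_of_pos_right m (Nat.pos_of_ne_zero hq0)
    omega
  · intro h0
    rw [h0, mul_zero] at hspec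
    have : nakN χ s = 0 := by
      rcases Nat.eq_zero_or_pos (nakN χ s) with h | h
      · exact h
      · exact absurd hspec (Nat.mul_ne_zero hm.ne' h.ne')
    rw [this]; exact dvd_zero _

end Bockstein

end Fermat.Agent.CFT.H9
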