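import Fermat.Agent.CFT.A_Defs
import Fermat.Agent.CFT.H19_StdCocycle
import Fermat.Agent.CFT.H28_CohTriv
import Fermat.Agent.CFT.H28_CohTrivClosed
import Fermat.Agent.CFT.H28_CohTrivFinal
import Fermat.Agent.CFT.H33_CorRes
import Fermat.Agent.CFT.H36_Cyclic
import Fermat.Agent.CFT.H40_Devissage
import Fermat.Agent.CFT.H40_DevissageFinal
import Fermat.Agent.CFT.H40_DevissageInst
import Fermat.Agent.CFT.H49_CohTriv
import Fermat.Agent.CFT.H49_CohTrivFinal
import Fermat.Agent.CFT.H49_CohTrivSylow
import Fermat.Agent.CFT.H49_CoindBot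
import Fermat.Agent.CFT.H49_InfIso
import Fermat.Agent.CFT.H52_SplittingModule
import Fermat.Agent.CFT.H52_Tate
import Fermat.Agent.CFT.H52_TateFinal
import Fermat.Agent.CFT.H65_CohTrivElem
import Fermat.Agent.CFT.H65_Elem
import Fermat.Agent.CFT.H66_ShapiroExplicit
import Fermat.Agent.CFT.H68_Shift
import Fermat.Agent.CFT.H6_Herbrand
import Fermat.Agent.CFT.H6_HerbrandEnd
import Fermat.Agent.CFT.H6_HerbrandRep
import Fermat.Agent.CFT.H85_InfRes
import Fermat.Agent.CFT.H85_InfResAdapters
import Fermat.Agent.CFT.H85_InfResAdapters2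
import Fermat.Agent.CFT.H95_Acyclic
import Fermat.Agent.CFT.H98_LowDeg
import Fermat.Agent.CFT.H98_LowDeg2
import Fermat.Agent.CFT.H9_Cup
import Fermat.Agent.CFT.H75_Adapters

/-!
# CFT / layer A : closure check (helper75)

Imports every landed layer-A file (finite-group cohomology toolkit).  Building this module checks
that all of layer A can be imported together (no name clashes).  Consumers may `import
Fermat.Agent.CFT.A_All` to get the whole toolkit, but the individual files are lighter.
-/
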