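import Mathlib

/-!
# CFT project, layer B: principal units and `m`-th powers in complete local rings

Ring-level vocabulary: `A` is a complete discrete valuation ring with finite residue field and
`K` its fraction field.  Main results:

* `hensel_of_isAdicComplete` : Hensel's lemma for arbitrary (not necessarily monic) polynomials
  over an `I`-adically complete ring (Newton iteration; same proof as Mathlib's
  `IsAdicComplete.henselianRing`, which does not use monicity).
* `exists_one_add_mul_pow_eq` : in an `I`-adically complete ring, for `x ∈ I` every element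
  `1 + m ^ 2 * x * t` is the `m`-th power of some `1 + m * x * s` (no hypothesis on the residue
  characteristic).
* `principalUnits A n` : the subgroup `{u | u - 1 ∈ 𝔪 ^ n}` of `Aˣ`; it has finite index when the
  residue field is finite.
* `exists_principalUnits_le_range_pow` : for `(m : A) ≠ 0`, some `principalUnits A N` consists of
  `m`-th powers.
* `finiteIndex_range_powMonoidHom_units`, `finiteIndex_range_powMonoidHom_field`,
  `finite_units_quot_pow` : `(Aˣ)^m` has finite index in `Aˣ`, `(Kˣ)^m` has finite index in `Kˣ`.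
* `unitsProdEquiv` : `ℤ × Aˣ ≃* Kˣ` for a chosen uniformizer.
* `exists_pow_eq_of_residue`, `card_rootsOfUnity_eq` : Hensel for `m`-th roots, `m` prime to the
  residue characteristic; reduction is a bijection on `m`-th roots of unity.
-/

set_option autoImplicit false

namespace Fermat.Agent.CFT.H39

open Polynomial IsLocalRing

section Hensel

variable {R : Type*} [CommRing R] (I : Ideal R) [IsAdicComplete I R]

/-- Hensel's lemma for arbitrary polynomials over an adically complete ring
(Mathlib's `HenselianRing.is_henselian` asks for a monic polynomial, but the proof by Newton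
iteration never uses it). -/
theorem hensel_of_isAdicComplete (f : R[X]) (a₀ : R) (h₁ : f.eval a₀ ∈ I)
    (h₂ : IsUnit (Ideal.Quotient.mk I (f.derivative.eval a₀))) :
    ∃ a : R, f.IsRoot a ∧ a - a₀ ∈ I := by
  classical
  let f' := derivative f
  let c : ℕ → R := fun n => Nat.recOn n a₀ fun _ b => b - f.eval b * Ring.inverse (f'.eval b)
  have hc : ∀ n, c (n + 1) = c n - f.eval (c n) * Ring.inverse (f'.eval (c n)) := by
    intro n
    simp only [c]
  have hc_mod : ∀ n, c n ≡ a₀ [SMOD I] := by
    intro n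
    induction n with
    | zero => rfl
    | succ n ih => ?_
    rw [hc, sub_eq_add_neg, ← add_zero a₀]
    refine ih.add ?_
    rw [SModEq.zero, Ideal.neg_mem_iff]
    refine I.mul_mem_right _ ?_
    rw [← SModEq.zero] at h₁ ⊢
    exact (ih.eval f).trans h₁
  have hf'c : ∀ n, IsUnit (f'.eval (c n)) := by
    intro n
    have := isLocalHom_of_le_jacobson_bot I (IsAdicComplete.le_jacobson_bot I)
    apply IsUnit.of_map (Ideal.Quotient.mk I)
    convert h₂ using 1
    exact SModEq.def.mp ((hc_mod n).eval _)
  have hfcI : ∀ n, f.eval (c n) ∈ I ^ (n + 1) := by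
    intro n
    induction n with
    | zero =>
      show f.eval a₀ ∈ I ^ (0 + 1)
      simpa only [zero_add, pow_one] using h₁
    | succ n ih => ?_
    rw [← taylor_eval_sub (c n), hc, sub_eq_add_neg, sub_eq_add_neg,
      add_neg_cancel_comm]
    rw [eval_eq_sum, sum_over_range' _ _ _ (lt_add_of_pos_right _ zero_lt_two), ←
      Finset.sum_range_add_sum_Ico _ (Nat.le_add_left _ _)]
    swap
    · intro i
      rw [zero_mul]
    refine Ideal.add_mem _ ?_ ?_
    · rw [← one_add_one_eq_two, Finset.sum_range_succ, Finset.range_one, Finset.sum_singleton,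
        taylor_coeff_zero, taylor_coeff_one, pow_zero, pow_one, mul_one, mul_neg,
        mul_left_comm, Ring.mul_inverse_cancel _ (hf'c n), mul_one, add_neg_cancel]
      exact Ideal.zero_mem _
    · refine Submodule.sum_mem _ ?_
      simp only [Finset.mem_Ico]
      rintro i ⟨h2i, _⟩
      have aux : n + 2 ≤ i * (n + 1) := by trans 2 * (n + 1) <;> nlinarith only [h2i]
      refine Ideal.mul_mem_left _ _ (Ideal.pow_le_pow_right aux ?_)
      rw [pow_mul']
      exact Ideal.pow_mem_pow ((Ideal.neg_mem_iff _).2 <| Ideal.mul_mem_right _ _ ih) _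
  have aux : ∀ m n, m ≤ n → c m ≡ c n [SMOD (I ^ m • ⊤ : Ideal R)] := by
    intro m n hmn
    rw [← Ideal.one_eq_top, Ideal.smul_eq_mul, mul_one]
    obtain ⟨k, rfl⟩ := Nat.exists_eq_add_of_le hmn
    clear hmn
    induction k with
    | zero => rw [add_zero]
    | succ k ih => ?_
    rw [← add_assoc, hc, ← add_zero (c m), sub_eq_add_neg]
    refine ih.add ?_
    symm
    rw [SModEq.zero, Ideal.neg_mem_iff]
    refine Ideal.mul_mem_right _ _ (Ideal.pow_le_pow_right ?_ (hfcI _))
    rw [add_assoc]
    exact le_self_add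
  obtain ⟨a, ha⟩ := IsPrecomplete.prec' c (aux _ _)
  refine ⟨a, ?_, ?_⟩
  · show f.IsRoot a
    suffices ∀ n, f.eval a ≡ 0 [SMOD (I ^ n • ⊤ : Ideal R)] by exact IsHausdorff.haus' _ this
    intro n
    specialize ha n
    rw [← Ideal.one_eq_top, Ideal.smul_eq_mul, mul_one] at ha ⊢
    refine (ha.symm.eval f).trans ?_
    rw [SModEq.zero]
    exact Ideal.pow_le_pow_right le_self_add (hfcI _)
  · show a - a₀ ∈ I
    specialize ha (0 + 1)
    rw [hc, pow_one, ← Ideal.one_eq_top, Ideal.smul_eq_mul, mul_one, sub_eq_add_neg] at ha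
    rw [← SModEq.sub_mem, ← add_zero a₀]
    refine ha.symm.trans (SModEq.rfl.add ?_)
    rw [SModEq.zero, Ideal.neg_mem_iff]
    exact Ideal.mul_mem_right _ _ h₁


/-- Polynomial form of the binomial expansion `(1 + cX)^m = 1 + mcX + k (cX)^2`. -/
lemma exists_poly_one_add_pow {R : Type*} [CommRing R] (m : ℕ) (c : R) :
    ∃ k : R[X], (1 + C c * X) ^ m = 1 + C ((m : R) * c) * X + k * (C c * X) ^ 2 := by
  obtain ⟨k, hk⟩ := Polynomial.binomExpansion ((X : R[X][X]) ^ m) (1 : R[X]) (C c * X)
  refine ⟨k, ?_⟩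
  simp only [eval_pow, eval_X, one_pow, derivative_X_pow, eval_mul, map_natCast,
    eval_natCast, mul_one] at hk
  rw [hk]
  simp only [map_mul, map_natCast]
  ring

/-- In an `I`-adically complete ring, for `x ∈ I` every `1 + m² x t` is the `m`-th power of some
`1 + m x s`.  No assumption on `m` (it may be divisible by the residue characteristic). -/
theorem exists_one_add_mul_pow_eq (m : ℕ) {x : R} (hx : x ∈ I) (t : R) :
    ∃ s : R, (1 + (m : R) * x * s) ^ m = 1 + (m : R) ^ 2 * x * t := by
  obtain ⟨k, hk⟩ := exists_poly_one_add_pow m ((m : R) * x)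
  let F : R[X] := X + C x * X ^ 2 * k - C t
  have hF1 : F.eval t ∈ I := by
    have : F.eval t = x * (t ^ 2 * k.eval t) := by
      simp only [F, eval_sub, eval_add, eval_X, eval_mul, eval_C, eval_pow]
      ring
    rw [this]
    exact I.mul_mem_right _ hx
  have hF2 : IsUnit (Ideal.Quotient.mk I (F.derivative.eval t)) := by
    have h1 : F.derivative.eval t - 1 ∈ I := by
      have : F.derivative.eval t - 1 =
          x * ((2 : R) * t * k.eval t + t ^ 2 * k.derivative.eval t) := by
        simp only [F, derivative_sub, derivative_add, derivative_X, derivative_mul, derivative_C,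
          derivative_X_pow, eval_add, eval_X, eval_mul, eval_C, eval_pow, eval_one,
          zero_mul, zero_add, Nat.cast_ofNat, sub_zero]
        ring
      rw [this]
      exact I.mul_mem_right _ hx
    have h2 : Ideal.Quotient.mk I (F.derivative.eval t) = 1 := by
      rw [← sub_eq_zero, ← map_one (Ideal.Quotient.mk I), ← map_sub]
      exact Ideal.Quotient.eq_zero_iff_mem.2 h1
    rw [h2]
    exact isUnit_one
  obtain ⟨s, hs, -⟩ := hensel_of_isAdicComplete I F t hF1 hF2
  refine ⟨s, ?_⟩
  have h3 := congrArg (Polynomial.eval s) hk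
  simp only [eval_pow, eval_add, eval_one, eval_mul, eval_C, eval_X] at h3
  have hs' : s + x * s ^ 2 * k.eval s - t = 0 := by
    have : F.eval s = 0 := hs
    simpa only [F, eval_sub, eval_add, eval_X, eval_mul, eval_C, eval_pow] using this
  rw [h3]
  linear_combination ((m : R) ^ 2 * x) * hs'

end Hensel

section Local

variable (A : Type*) [CommRing A] [IsLocalRing A]

/-- The principal units of level `n` of a local ring: units congruent to `1` modulo `𝔪 ^ n`. -/
def principalUnits (n : ℕ) : Subgroup Aˣ :=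
  (Units.map (Ideal.Quotient.mk (maximalIdeal A ^ n)).toMonoidHom).ker

variable {A}

lemma mem_principalUnits_iff {n : ℕ} {u : Aˣ} :
    u ∈ principalUnits A n ↔ (u : A) - 1 ∈ maximalIdeal A ^ n := by
  unfold principalUnits
  rw [MonoidHom.mem_ker, Units.ext_iff]
  simp only [Units.coe_map, RingHom.toMonoidHom_eq_coe, MonoidHom.coe_coe, Units.val_one]
  rw [← map_one (Ideal.Quotient.mk (maximalIdeal A ^ n)), Ideal.Quotient.eq]

variable (A)

lemma principalUnits_antitone : Antitone (principalUnits A) := by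
  intro n k hnk u hu
  rw [mem_principalUnits_iff] at hu ⊢
  exact Ideal.pow_le_pow_right hnk hu

lemma principalUnits_zero : principalUnits A 0 = ⊤ := by
  ext u
  simp [mem_principalUnits_iff]

instance finite_quotient_maximalIdeal_pow [IsNoetherianRing A] [Finite (ResidueField A)]
    (n : ℕ) : Finite (A ⧸ maximalIdeal A ^ n) := by
  have : Finite (A ⧸ maximalIdeal A) := inferInstanceAs (Finite (ResidueField A))
  exact Ideal.finite_quotient_pow (IsNoetherian.noetherian (maximalIdeal A)) n

instance finiteIndex_principalUnits [IsNoetherianRing A] [Finite (ResidueField A)] (n : ℕ) :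
    (principalUnits A n).FiniteIndex := by
  unfold principalUnits
  infer_instance

end Local

section DVR

variable (A : Type*) [CommRing A] [IsDomain A] [IsDiscreteValuationRing A]

lemma exists_maximalIdeal_pow_le_span {a : A} (ha : a ≠ 0) :
    ∃ c : ℕ, maximalIdeal A ^ c ≤ Ideal.span {a} := by
  obtain ⟨ϖ, hϖ⟩ := IsDiscreteValuationRing.exists_irreducible A
  have hs : Ideal.span {a} ≠ ⊥ := by
    simpa [Ideal.span_singleton_eq_bot] using ha
  obtain ⟨n, hn⟩ := IsDiscreteValuationRing.ideal_eq_span_pow_irreducible hs hϖ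
  refine ⟨n, ?_⟩
  rw [hn, hϖ.maximalIdeal_eq, Ideal.span_singleton_pow]

/-- Sufficiently deep principal units are `m`-th powers (any `m` nonzero in `A`). -/
theorem exists_principalUnits_le_range_pow [IsAdicComplete (maximalIdeal A) A] {m : ℕ}
    (hm : (m : A) ≠ 0) : ∃ N : ℕ, principalUnits A N ≤ (powMonoidHom m : Aˣ →* Aˣ).range := by
  obtain ⟨ϖ, hϖ⟩ := IsDiscreteValuationRing.exists_irreducible A
  have hm0 : m ≠ 0 := by
    rintro rfl
    exact hm (by simp)
  have ha : (m : A) ^ 2 * ϖ ≠ 0 := mul_ne_zero (pow_ne_zero 2 hm) hϖ.ne_zero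
  obtain ⟨c, hc⟩ := exists_maximalIdeal_pow_le_span A ha
  refine ⟨c, fun u hu => ?_⟩
  rw [mem_principalUnits_iff] at hu
  obtain ⟨t, ht⟩ := Ideal.mem_span_singleton'.1 (hc hu)
  have hϖm : ϖ ∈ maximalIdeal A := by
    rw [hϖ.maximalIdeal_eq]
    exact Ideal.mem_span_singleton_self ϖ
  obtain ⟨s, hs⟩ := exists_one_add_mul_pow_eq (maximalIdeal A) m hϖm t
  have hu' : (u : A) = 1 + (m : A) ^ 2 * ϖ * t := by
    linear_combination -ht
  have hw : IsUnit (1 + (m : A) * ϖ * s) := by
    rw [← isUnit_pow_iff hm0, hs, ← hu']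
    exact u.isUnit
  refine ⟨hw.unit, ?_⟩
  apply Units.ext
  simp only [powMonoidHom_apply, Units.val_pow_eq_pow_val, IsUnit.unit_spec]
  rw [hs, hu']

/-- `(Aˣ)^m` has finite index in `Aˣ`. -/
theorem finiteIndex_range_powMonoidHom_units [IsAdicComplete (maximalIdeal A) A]
    [Finite (ResidueField A)] {m : ℕ} (hm : (m : A) ≠ 0) :
    (powMonoidHom m : Aˣ →* Aˣ).range.FiniteIndex := by
  obtain ⟨N, hN⟩ := exists_principalUnits_le_range_pow A hm
  exact Subgroup.finiteIndex_of_le hN

end DVR


section Frac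

variable (A : Type*) [CommRing A] [IsDomain A] [IsDiscreteValuationRing A]
variable (K : Type*) [Field K] [Algebra A K] [IsFractionRing A K]

/-- The inclusion `Aˣ →* Kˣ`. -/
noncomputable def unitsIncl : Aˣ →* Kˣ := Units.map (algebraMap A K : A →* K)

omit [IsDomain A] [IsDiscreteValuationRing A] [IsFractionRing A K] in
@[simp] lemma unitsIncl_coe (u : Aˣ) : ((unitsIncl A K u : Kˣ) : K) = algebraMap A K u := rfl

omit [IsDomain A] [IsDiscreteValuationRing A] in
lemma unitsIncl_injective : Function.Injective (unitsIncl A K) :=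
  Units.map_injective (IsFractionRing.injective A K)

variable {A}

/-- A uniformizer of `A` as a unit of `K`. -/
noncomputable def uniformizerUnit {ϖ : A} (hϖ : Irreducible ϖ) : Kˣ :=
  Units.mk0 (algebraMap A K ϖ) (by
    simpa using hϖ.ne_zero)

omit [IsDomain A] [IsDiscreteValuationRing A] in
@[simp] lemma uniformizerUnit_coe {ϖ : A} (hϖ : Irreducible ϖ) :
    ((uniformizerUnit K hϖ : Kˣ) : K) = algebraMap A K ϖ := rfl

/-- `(n, u) ↦ ϖ ^ n * u` as a homomorphism `ℤ × Aˣ → Kˣ`. -/
noncomputable def unitsProdHom {ϖ : A} (hϖ : Irreducible ϖ) : Multiplicative ℤ × Aˣ →* Kˣ :=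
  (zpowersHom Kˣ (uniformizerUnit K hϖ)).coprod (unitsIncl A K)

omit [IsDomain A] [IsDiscreteValuationRing A] in
lemma unitsProdHom_apply {ϖ : A} (hϖ : Irreducible ϖ) (x : Multiplicative ℤ × Aˣ) :
    unitsProdHom K hϖ x =
      uniformizerUnit K hϖ ^ (Multiplicative.toAdd x.1) * unitsIncl A K x.2 := by
  simp [unitsProdHom, zpowersHom]

lemma unitsProdHom_surjective {ϖ : A} (hϖ : Irreducible ϖ) :
    Function.Surjective (unitsProdHom K hϖ) := by
  intro x
  obtain ⟨n, u, hx⟩ := IsDiscreteValuationRing.exists_units_eq_smul_zpow_of_irreducible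
    (K := K) hϖ x.ne_zero
  refine ⟨(Multiplicative.ofAdd n, u), ?_⟩
  rw [unitsProdHom_apply]
  apply Units.ext
  simp only [toAdd_ofAdd, Units.val_mul, Units.val_zpow_eq_zpow_val, uniformizerUnit_coe,
    unitsIncl_coe]
  rw [hx, Units.smul_def, Algebra.smul_def, mul_comm]

lemma unitsProdHom_injective {ϖ : A} (hϖ : Irreducible ϖ) :
    Function.Injective (unitsProdHom K hϖ) := by
  rw [injective_iff_map_eq_one]
  rintro ⟨n, u⟩ h
  rw [unitsProdHom_apply] at h
  have h' := congrArg (fun z : Kˣ => (z : K)) h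
  simp only [Units.val_mul, Units.val_zpow_eq_zpow_val, uniformizerUnit_coe,
    unitsIncl_coe, Units.val_one] at h'
  have hϖ0 : algebraMap A K ϖ ≠ 0 := by simpa using hϖ.ne_zero
  have key : ∀ (k : ℕ) (v : Aˣ), ϖ ^ k = (v : A) → k = 0 := by
    intro k v hk
    by_contra hk0
    have : IsUnit (ϖ ^ k) := hk ▸ v.isUnit
    rw [isUnit_pow_iff hk0] at this
    exact hϖ.not_isUnit this
  have hn : Multiplicative.toAdd n = 0 := by
    rcases Int.eq_nat_or_neg (Multiplicative.toAdd n) with ⟨k, hk | hk⟩
    · rw [hk, zpow_natCast] at h'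
      have h2 : ϖ ^ k * (u : A) = 1 := by
        apply IsFractionRing.injective A K
        simpa using h'
      have h3 : ϖ ^ k = ((u⁻¹ : Aˣ) : A) := by
        have := congrArg (· * ((u⁻¹ : Aˣ) : A)) h2
        simpa [mul_assoc] using this
      rw [hk, key k _ h3]
      simp
    · rw [hk, zpow_neg, zpow_natCast] at h'
      have h2 : (u : A) = ϖ ^ k := by
        apply IsFractionRing.injective A K
        rw [map_pow]
        field_simp at h'
        exact h'
      rw [hk, key k _ h2.symm]
      simp
  have hn' : n = 1 := by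
    rw [← ofAdd_toAdd n, hn]; rfl
  subst hn'
  simp only [toAdd_one, zpow_zero, one_mul] at h'
  have hu : u = 1 := by
    apply Units.ext
    apply IsFractionRing.injective A K
    simpa using h'
  rw [hu]
  rfl

/-- `Kˣ ≃ ϖ^ℤ × Aˣ` for a chosen uniformizer. -/
noncomputable def unitsProdEquiv {ϖ : A} (hϖ : Irreducible ϖ) : Multiplicative ℤ × Aˣ ≃* Kˣ :=
  MulEquiv.ofBijective (unitsProdHom K hϖ)
    ⟨unitsProdHom_injective K hϖ, unitsProdHom_surjective K hϖ⟩

variable (A)

/-- `(Kˣ)^m` has finite index in `Kˣ`. -/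
theorem finiteIndex_range_powMonoidHom_field [IsAdicComplete (maximalIdeal A) A]
    [Finite (ResidueField A)] {m : ℕ} (hm : (m : A) ≠ 0) :
    (powMonoidHom m : Kˣ →* Kˣ).range.FiniteIndex := by
  obtain ⟨ϖ, hϖ⟩ := IsDiscreteValuationRing.exists_irreducible A
  have hm0 : m ≠ 0 := by
    rintro rfl
    exact hm (by simp)
  have := finiteIndex_range_powMonoidHom_units A hm
  set H : Subgroup Kˣ := (powMonoidHom m : Kˣ →* Kˣ).range with hH
  set Z : Subgroup (Multiplicative ℤ) :=
    AddSubgroup.toSubgroup (AddSubgroup.zmultiples (m : ℤ)) with hZ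
  set H' : Subgroup (Multiplicative ℤ × Aˣ) :=
    Z.prod (powMonoidHom m : Aˣ →* Aˣ).range with hH'
  have hidx : H'.index ≠ 0 := by
    rw [hH', Subgroup.index_prod, hZ, AddSubgroup.index_toSubgroup, Int.index_zmultiples]
    exact mul_ne_zero (by simpa using hm0) Subgroup.FiniteIndex.index_ne_zero
  have hle : H' ≤ H.comap (unitsProdHom K hϖ) := by
    rintro ⟨n, u⟩ ⟨hn, hu⟩
    obtain ⟨k, hk⟩ := AddSubgroup.mem_zmultiples_iff.1 (show Multiplicative.toAdd n ∈
      AddSubgroup.zmultiples (m : ℤ) from hn)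
    obtain ⟨w, hw⟩ := hu
    refine ⟨uniformizerUnit K hϖ ^ k * unitsIncl A K w, ?_⟩
    simp only [powMonoidHom_apply] at hw ⊢
    rw [unitsProdHom_apply]
    simp only
    rw [← hk, ← hw, mul_pow, map_pow, ← zpow_natCast, ← zpow_mul, smul_eq_mul]
  refine ⟨?_⟩
  rw [← Subgroup.index_comap_of_surjective H (unitsProdHom_surjective K hϖ)]
  exact fun h0 => hidx (Nat.eq_zero_of_zero_dvd (h0 ▸ Subgroup.index_dvd_of_le hle))

/-- `Kˣ / (Kˣ)^m` is finite. -/
theorem finite_units_quot_pow [IsAdicComplete (maximalIdeal A) A]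
    [Finite (ResidueField A)] [CharZero K] (m : ℕ) (hm : m ≠ 0) :
    Finite (Kˣ ⧸ (powMonoidHom m : Kˣ →* Kˣ).range) := by
  have hmA : (m : A) ≠ 0 := by
    intro h
    have := congrArg (algebraMap A K) h
    rw [map_natCast, map_zero] at this
    exact hm (Nat.cast_injective (R := K) (by simpa using this))
  have := finiteIndex_range_powMonoidHom_field A K hmA
  infer_instance

end Frac

section Teich

variable {A : Type*} [CommRing A] [IsLocalRing A] [IsAdicComplete (maximalIdeal A) A]

/-- Hensel for `X ^ m - u`, `m` invertible in the residue field: a lift of a given root. -/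
theorem exists_pow_eq_of_residue_aux (m : ℕ) (hm : IsUnit (m : ResidueField A)) (u : Aˣ)
    (y : ResidueField A) (hy : y ^ m = residue A u) :
    ∃ w : Aˣ, w ^ m = u ∧ residue A (w : A) = y := by
  have hm0 : m ≠ 0 := by
    rintro rfl
    simp at hm
  obtain ⟨a₀, rfl⟩ := residue_surjective y
  have hu : residue A (u : A) ≠ 0 := by
    have : IsUnit (residue A (u : A)) := u.isUnit.map (residue A)
    exact this.ne_zero
  have ha₀ : residue A a₀ ≠ 0 := by
    intro h0
    rw [h0, zero_pow hm0] at hy
    exact hu hy.symm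
  let f : A[X] := X ^ m - C (u : A)
  have h1 : f.eval a₀ ∈ maximalIdeal A := by
    rw [← residue_eq_zero_iff]
    simp only [f, eval_sub, eval_pow, eval_X, eval_C, map_sub, map_pow, hy, sub_self]
  have h2 : IsUnit (Ideal.Quotient.mk (maximalIdeal A) (f.derivative.eval a₀)) := by
    change IsUnit (residue A (f.derivative.eval a₀))
    simp only [f, derivative_sub, derivative_X_pow, derivative_C, sub_zero, eval_mul, eval_pow,
      eval_X, map_mul, map_pow, map_natCast, eval_natCast]
    exact hm.mul (IsUnit.pow _ (isUnit_iff_ne_zero.2 ha₀))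
  obtain ⟨a, ha, haa⟩ := hensel_of_isAdicComplete (maximalIdeal A) f a₀ h1 h2
  have ha' : a ^ m = (u : A) := by
    have : f.eval a = 0 := ha
    simpa only [f, eval_sub, eval_pow, eval_X, eval_C, sub_eq_zero] using this
  have hw : IsUnit a := by
    rw [← isUnit_pow_iff hm0, ha']
    exact u.isUnit
  refine ⟨hw.unit, ?_, ?_⟩
  · apply Units.ext
    simpa using ha'
  · rw [IsUnit.unit_spec, ← sub_eq_zero, ← map_sub, residue_eq_zero_iff]
    exact haa

/-- Hensel for units: a unit that is an `m`-th power in the residue field is an `m`-th power,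
if `m` is invertible in the residue field. -/
theorem exists_pow_eq_of_residue (m : ℕ) (hm : IsUnit (m : ResidueField A)) (u : Aˣ)
    (h : ∃ y : ResidueField A, y ^ m = residue A u) : ∃ w : Aˣ, w ^ m = u := by
  obtain ⟨y, hy⟩ := h
  obtain ⟨w, hw, -⟩ := exists_pow_eq_of_residue_aux m hm u y hy
  exact ⟨w, hw⟩

/-- The reduction map on `m`-th roots of unity. -/
noncomputable def rootsOfUnityResidue (A : Type*) [CommRing A] [IsLocalRing A] (m : ℕ) :
    rootsOfUnity m A →* rootsOfUnity m (ResidueField A) :=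
  restrictRootsOfUnity (residue A) m

omit [IsAdicComplete (maximalIdeal A) A] in
lemma rootsOfUnityResidue_injective (m : ℕ) (hm : IsUnit (m : ResidueField A)) :
    Function.Injective (rootsOfUnityResidue A m) := by
  have hm0 : m ≠ 0 := by
    rintro rfl
    simp at hm
  have hmA : IsUnit (m : A) := by
    have : IsUnit (residue A (m : A)) := by simpa using hm
    exact (isUnit_map_iff (residue A) _).1 this
  intro ζ ζ' h
  have h' : residue A ((ζ : Aˣ) : A) = residue A ((ζ' : Aˣ) : A) := by
    have := congrArg (fun z : rootsOfUnity m (ResidueField A) => ((z : (ResidueField A)ˣ) :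
      ResidueField A)) h
    simpa [rootsOfUnityResidue] using this
  let f : A[X] := X ^ m - 1
  have hζ : ((ζ : Aˣ) : A) ^ m = 1 := by
    have := (mem_rootsOfUnity m (ζ : Aˣ)).1 ζ.2
    rw [← Units.val_pow_eq_pow_val, this, Units.val_one]
  have hζ' : ((ζ' : Aˣ) : A) ^ m = 1 := by
    have := (mem_rootsOfUnity m (ζ' : Aˣ)).1 ζ'.2
    rw [← Units.val_pow_eq_pow_val, this, Units.val_one]
  have e1 : f.eval ((ζ : Aˣ) : A) = 0 := by simp [f, hζ]
  have e2 : f.eval ((ζ' : Aˣ) : A) = 0 := by simp [f, hζ']
  have hnu : ¬ IsUnit (((ζ : Aˣ) : A) - ((ζ' : Aˣ) : A)) := by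
    rw [← mem_nonunits_iff, ← mem_maximalIdeal, ← residue_eq_zero_iff, map_sub, h', sub_self]
  have hder : IsUnit (f.derivative.eval ((ζ : Aˣ) : A)) := by
    simp only [f, derivative_sub, derivative_X_pow, derivative_one, sub_zero, eval_mul, eval_pow,
      eval_X, eval_natCast, map_natCast]
    exact hmA.mul (IsUnit.pow _ (ζ : Aˣ).isUnit)
  have := IsLocalRing.eq_of_eval_eq_zero_of_not_isUnit_sub e1 e2 hnu hder
  exact Subtype.ext (Units.ext this)

lemma rootsOfUnityResidue_surjective (m : ℕ) (hm : IsUnit (m : ResidueField A)) :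
    Function.Surjective (rootsOfUnityResidue A m) := by
  intro η
  have hη : (((η : (ResidueField A)ˣ) : ResidueField A)) ^ m = residue A ((1 : Aˣ) : A) := by
    have := (mem_rootsOfUnity m (η : (ResidueField A)ˣ)).1 η.2
    rw [← Units.val_pow_eq_pow_val, this, Units.val_one, Units.val_one, map_one]
  obtain ⟨w, hw, hwy⟩ := exists_pow_eq_of_residue_aux m hm 1 _ hη
  refine ⟨⟨w, (mem_rootsOfUnity m w).2 hw⟩, ?_⟩
  apply Subtype.ext
  apply Units.ext
  simpa [rootsOfUnityResidue] using hwy

/-- Roots of unity of order prime to the residue characteristic: reduction is a bijection. -/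
theorem card_rootsOfUnity_eq (m : ℕ) (hm : IsUnit (m : ResidueField A)) :
    Nat.card (rootsOfUnity m A) = Nat.card (rootsOfUnity m (ResidueField A)) :=
  Nat.card_eq_of_bijective _
    ⟨rootsOfUnityResidue_injective m hm, rootsOfUnityResidue_surjective m hm⟩

end Teich

end Fermat.Agent.CFT.H39
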