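import Mathlib
import Fermat.Agent.CFT.H39_UnitsPow

set_option autoImplicit false

/-!
# CFT / B-UNITS-exact-index (helper10): the exact index `[Kˣ : (Kˣ)^p]` of a local field

`A` a complete discrete valuation ring with finite residue field, `K = Frac A`, `p` a prime with
`(p : A) ≠ 0`.  Then
* `card_units_quot_pow`  : `[Aˣ : (Aˣ)^p] = #(A / pA) * #μ_p(A)`,
* `card_field_units_quot_pow` : `[Kˣ : (Kˣ)^p] = p * #(A / pA) * #μ_p(A)`.
-/

namespace Fermat.Agent.CFT.H10

open IsLocalRing Fermat.Agent.CFT.H39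

section GroupTheory

variable {G : Type*} [CommGroup G]

/-- **Index transfer**: if `V ≤ G` has finite index and no `p`-torsion, then
`[G : G^p] = [V : V^p] * #G[p]`. -/
theorem index_range_pow_eq (p : ℕ) (V : Subgroup G) [V.FiniteIndex]
    (hV : ∀ v ∈ V, v ^ p = 1 → v = 1) :
    (powMonoidHom p : G →* G).range.index
      = (V.map (powMonoidHom p : G →* G)).relIndex V * Nat.card (powMonoidHom p : G →* G).ker := by
  set f : G →* G := powMonoidHom p with hf
  have hle : V.map f ≤ V := by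
    rintro _ ⟨v, hv, rfl⟩
    exact V.pow_mem hv p
  -- `[G : f V] = [G : V] * [V : f V]`
  have h1 : (V.map f).relIndex V * V.index = (V.map f).index := Subgroup.relIndex_mul_index hle
  -- `[G : f V] = [G : V ⊔ ker f] * [G : range f]`
  have h2 : (V.map f).index = (V ⊔ f.ker).index * f.range.index := Subgroup.index_map V f
  -- `[G : V] = [G : V ⊔ ker f] * #ker f`
  have h3 : V.relIndex (V ⊔ f.ker) * (V ⊔ f.ker).index = V.index :=
    Subgroup.relIndex_mul_index le_sup_left
  have h4 : V.relIndex (V ⊔ f.ker) = Nat.card f.ker := by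
    rw [Subgroup.relIndex_sup_left, ← Subgroup.inf_relIndex_right]
    have hbot : V ⊓ f.ker = ⊥ := by
      rw [eq_bot_iff]
      rintro x ⟨hxV, hxk⟩
      exact hV x hxV hxk
    rw [hbot, Subgroup.relIndex_bot_left]
  have h5 : (V ⊔ f.ker).index ≠ 0 :=
    (Subgroup.finiteIndex_of_le (le_sup_left : V ≤ V ⊔ f.ker)).index_ne_zero
  rw [← h3, h4, h2] at h1
  -- h1 : relIndex * (card ker * idx) = idx * range.index
  have : (V ⊔ f.ker).index * f.range.index
      = (V ⊔ f.ker).index * ((V.map f).relIndex V * Nat.card f.ker) := by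
    rw [← h1]; ring
  exact Nat.eq_of_mul_eq_mul_left (Nat.pos_of_ne_zero h5) this

end GroupTheory

section Binomial

open Polynomial in
/-- binomial expansion `(1 + x)^p = 1 + p x + k x^2`. -/
theorem exists_one_add_pow_eq {R : Type*} [CommRing R] (p : ℕ) (x : R) :
    ∃ k : R, (1 + x) ^ p = 1 + (p : R) * x + k * x ^ 2 := by
  obtain ⟨k, hk⟩ := exists_poly_one_add_pow p x
  refine ⟨k.eval 1, ?_⟩
  have := congrArg (Polynomial.eval 1) hk
  simpa using this

end Binomial

section DVR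

variable {A : Type*} [CommRing A] [IsDomain A] [IsDiscreteValuationRing A]
  {ϖ : A} (hϖ : Irreducible ϖ) {p e : ℕ} {w : Aˣ} (hpe : (p : A) = ϖ ^ e * (w : A))

include hϖ in
theorem mem_maximalIdeal_pow_iff {n : ℕ} {x : A} : x ∈ maximalIdeal A ^ n ↔ ϖ ^ n ∣ x := by
  rw [hϖ.maximalIdeal_eq, Ideal.span_singleton_pow, Ideal.mem_span_singleton]

include hϖ hpe in
/-- `(U^(n))^p ⊆ U^(n+e)` for `n ≥ e`. -/
theorem pow_mem_principalUnits {n : ℕ} (hn : e ≤ n) {u : Aˣ} (hu : u ∈ principalUnits A n) :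
    u ^ p ∈ principalUnits A (n + e) := by
  rw [mem_principalUnits_iff, mem_maximalIdeal_pow_iff hϖ] at hu ⊢
  obtain ⟨x', hx'⟩ := hu
  obtain ⟨k, hk⟩ := exists_one_add_pow_eq p ((u : A) - 1)
  have h1 : ((u ^ p : Aˣ) : A) - 1 = (p : A) * ((u : A) - 1) + k * ((u : A) - 1) ^ 2 := by
    rw [Units.val_pow_eq_pow_val]
    have : (u : A) = 1 + ((u : A) - 1) := by ring
    conv_lhs => rw [this, hk]
    ring
  rw [h1, hx', hpe]
  obtain ⟨d, rfl⟩ := Nat.exists_eq_add_of_le hn
  refine ⟨(w : A) * x' + k * ϖ ^ d * x' ^ 2, ?_⟩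
  ring

include hϖ hpe in
/-- `U^(n+e) ⊆ (U^(n))^p` for `n ≥ e + 1` (Hensel). -/
theorem exists_pow_eq_of_mem_principalUnits [IsAdicComplete (maximalIdeal A) A] {n : ℕ}
    (hn : e + 1 ≤ n) {y : Aˣ} (hy : y ∈ principalUnits A (n + e)) :
    ∃ u ∈ principalUnits A n, u ^ p = y := by
  rw [mem_principalUnits_iff, mem_maximalIdeal_pow_iff hϖ] at hy
  obtain ⟨z, hz⟩ := hy
  obtain ⟨d, rfl⟩ := Nat.exists_eq_add_of_le hn
  -- `n - e = 1 + d`
  have hxm : ϖ ^ (1 + d) ∈ maximalIdeal A := by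
    rw [hϖ.maximalIdeal_eq, Ideal.mem_span_singleton]
    exact dvd_pow_self ϖ (by omega)
  obtain ⟨s, hs⟩ := exists_one_add_mul_pow_eq (maximalIdeal A) p hxm
    (((w⁻¹ : Aˣ) : A) ^ 2 * z)
  have hww : (w : A) * ((w⁻¹ : Aˣ) : A) = 1 := by
    rw [← Units.val_mul, mul_inv_cancel, Units.val_one]
  have hval : 1 + (p : A) ^ 2 * ϖ ^ (1 + d) * (((w⁻¹ : Aˣ) : A) ^ 2 * z) = (y : A) := by
    have : (y : A) = 1 + ϖ ^ (e + 1 + d + e) * z := by rw [← hz]; ring
    rw [this, hpe]
    have h2 : ((w : A) * ((w⁻¹ : Aˣ) : A)) ^ 2 = 1 := by rw [hww, one_pow]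
    calc 1 + (ϖ ^ e * (w : A)) ^ 2 * ϖ ^ (1 + d) * (((w⁻¹ : Aˣ) : A) ^ 2 * z)
        = 1 + ϖ ^ (e + 1 + d + e) * z * ((w : A) * ((w⁻¹ : Aˣ) : A)) ^ 2 := by ring
      _ = 1 + ϖ ^ (e + 1 + d + e) * z := by rw [h2, mul_one]
  rw [hval] at hs
  have hunit : IsUnit (1 + (p : A) * ϖ ^ (1 + d) * s) := by
    have hp0 : p ≠ 0 := by
      rintro rfl
      simp only [Nat.cast_zero] at hpe
      have : ϖ ^ e * (w : A) ≠ 0 := mul_ne_zero (pow_ne_zero _ hϖ.ne_zero) w.ne_zero
      exact this hpe.symm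
    rw [← isUnit_pow_iff hp0, hs]
    exact y.isUnit
  refine ⟨hunit.unit, ?_, ?_⟩
  · rw [mem_principalUnits_iff, mem_maximalIdeal_pow_iff hϖ, IsUnit.unit_spec, hpe]
    refine ⟨(w : A) * s, ?_⟩
    ring
  · apply Units.ext
    rw [Units.val_pow_eq_pow_val, IsUnit.unit_spec, hs]

include hϖ hpe in
/-- `U^(n)` has no `p`-torsion for `n ≥ e + 1`. -/
theorem eq_one_of_pow_eq_one_of_mem_principalUnits {n : ℕ} (hn : e + 1 ≤ n) {u : Aˣ}
    (hu : u ∈ principalUnits A n) (hup : u ^ p = 1) : u = 1 := by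
  rw [mem_principalUnits_iff, mem_maximalIdeal_pow_iff hϖ] at hu
  obtain ⟨x', hx'⟩ := hu
  obtain ⟨k, hk⟩ := exists_one_add_pow_eq p ((u : A) - 1)
  have h1 : ((u : A) - 1) * ((p : A) + k * ((u : A) - 1)) = 0 := by
    have h2 : (1 + ((u : A) - 1)) ^ p = 1 := by
      have := congrArg (fun v : Aˣ => (v : A)) hup
      simp only [Units.val_pow_eq_pow_val, Units.val_one] at this
      rw [← this]
      ring
    rw [hk] at h2
    linear_combination h2
  rcases mul_eq_zero.mp h1 with h | h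
  · apply Units.ext
    rw [Units.val_one]
    linear_combination h
  · exfalso
    obtain ⟨d, rfl⟩ := Nat.exists_eq_add_of_le hn
    rw [hx', hpe] at h
    have h3 : ϖ ^ e * ((w : A) + ϖ * (k * ϖ ^ d * x')) = 0 := by
      rw [← h]; ring
    have h4 : (w : A) + ϖ * (k * ϖ ^ d * x') = 0 :=
      (mul_eq_zero.mp h3).resolve_left (pow_ne_zero _ hϖ.ne_zero)
    have h5 : ϖ ∣ (w : A) := ⟨-(k * ϖ ^ d * x'), by linear_combination h4⟩
    exact hϖ.not_isUnit (isUnit_of_dvd_unit h5 w.isUnit)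

/-- `1 + x` is a unit for `x` in the maximal ideal. -/
theorem isUnit_one_add_of_mem_maximalIdeal {R : Type*} [CommRing R] [IsLocalRing R] {x : R}
    (hx : x ∈ maximalIdeal R) : IsUnit (1 + x) := by
  rw [← IsLocalRing.notMem_maximalIdeal]
  intro h
  have h1 : (1 : R) ∈ maximalIdeal R := by
    have := (maximalIdeal R).sub_mem h hx
    rwa [add_sub_cancel_right] at this
  exact (Ideal.ne_top_iff_one _).mp (IsLocalRing.maximalIdeal.isMaximal R).ne_top h1

/-- the homomorphism `U^(n) → (A / 𝔪^(n+e), +)`, `u ↦ u - 1`, for `e ≤ n`. -/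
noncomputable def subOneHom (A : Type*) [CommRing A] [IsLocalRing A] {n e : ℕ} (hn : e ≤ n) :
    principalUnits A n →* Multiplicative (A ⧸ maximalIdeal A ^ (n + e)) where
  toFun u := Multiplicative.ofAdd (Ideal.Quotient.mk _ (((u : Aˣ) : A) - 1))
  map_one' := by simp
  map_mul' u v := by
    rw [← ofAdd_add, ← map_add]
    apply congrArg Multiplicative.ofAdd
    rw [Ideal.Quotient.eq]
    have hu := mem_principalUnits_iff.mp u.2
    have hv := mem_principalUnits_iff.mp v.2
    have h1 : (((u * v : principalUnits A n) : Aˣ) : A) - 1 - ((((u : Aˣ) : A) - 1)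
        + (((v : Aˣ) : A) - 1)) = (((u : Aˣ) : A) - 1) * (((v : Aˣ) : A) - 1) := by
      rw [Subgroup.coe_mul, Units.val_mul]
      ring
    rw [h1]
    have h2 := Ideal.mul_mem_mul hu hv
    rw [← pow_add] at h2
    exact Ideal.pow_le_pow_right (by omega) h2

theorem subOneHom_apply (A : Type*) [CommRing A] [IsLocalRing A] {n e : ℕ} (hn : e ≤ n)
    (u : principalUnits A n) :
    Multiplicative.toAdd (subOneHom A hn u) = Ideal.Quotient.mk _ (((u : Aˣ) : A) - 1) := rfl

theorem ker_subOneHom (A : Type*) [CommRing A] [IsLocalRing A] {n e : ℕ} (hn : e ≤ n) :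
    (subOneHom A hn).ker = (principalUnits A (n + e)).subgroupOf (principalUnits A n) := by
  ext u
  rw [MonoidHom.mem_ker, Subgroup.mem_subgroupOf, mem_principalUnits_iff,
    ← Ideal.Quotient.eq_zero_iff_mem, ← subOneHom_apply A hn u]
  constructor
  · intro h
    rw [h]
    rfl
  · intro h
    exact Multiplicative.toAdd.injective h

include hϖ in
/-- `[U^(n) : U^(n+e)] = #(A / 𝔪^e)` for `1 ≤ n`, `e ≤ n`. -/
theorem relIndex_principalUnits {n : ℕ} (e : ℕ) (hn1 : 1 ≤ n) (hn : e ≤ n) :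
    (principalUnits A (n + e)).relIndex (principalUnits A n)
      = Nat.card (A ⧸ maximalIdeal A ^ e) := by
  classical
  -- the linear map `a ↦ ϖ^n a mod 𝔪^(n+e)`
  let f : A →ₗ[A] (A ⧸ maximalIdeal A ^ (n + e)) :=
    (Submodule.mkQ (maximalIdeal A ^ (n + e))).comp (LinearMap.mulLeft A (ϖ ^ n))
  have hf : ∀ a, f a = Ideal.Quotient.mk (maximalIdeal A ^ (n + e)) (ϖ ^ n * a) := fun a => rfl
  have hker : LinearMap.ker f = maximalIdeal A ^ e := by
    ext a
    rw [LinearMap.mem_ker, hf, Ideal.Quotient.eq_zero_iff_mem, mem_maximalIdeal_pow_iff hϖ,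
      mem_maximalIdeal_pow_iff hϖ, pow_add, mul_dvd_mul_iff_left (pow_ne_zero _ hϖ.ne_zero)]
  have h1 : Nat.card (A ⧸ maximalIdeal A ^ e) = Nat.card (LinearMap.range f) := by
    rw [← hker]
    exact Nat.card_congr f.quotKerEquivRange.toEquiv
  rw [h1, Subgroup.relIndex, ← ker_subOneHom A hn, Subgroup.index_eq_card]
  rw [Nat.card_congr (QuotientGroup.quotientKerEquivRange (subOneHom A hn)).toEquiv]
  refine Nat.card_congr (Equiv.subtypeEquiv Multiplicative.toAdd fun y => ?_)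
  constructor
  · rintro ⟨u, rfl⟩
    obtain ⟨x', hx'⟩ := (mem_maximalIdeal_pow_iff hϖ).mp (mem_principalUnits_iff.mp u.2)
    exact ⟨x', by rw [hf, subOneHom_apply, hx']⟩
  · rintro ⟨a, ha⟩
    have hmem : ϖ ^ n * a ∈ maximalIdeal A := by
      rw [hϖ.maximalIdeal_eq, Ideal.mem_span_singleton]
      exact Dvd.dvd.mul_right (dvd_pow_self ϖ (by omega)) a
    have hunit := isUnit_one_add_of_mem_maximalIdeal hmem
    have hu : hunit.unit ∈ principalUnits A n := by
      rw [mem_principalUnits_iff, mem_maximalIdeal_pow_iff hϖ, IsUnit.unit_spec]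
      exact ⟨a, by ring⟩
    refine ⟨⟨hunit.unit, hu⟩, ?_⟩
    apply Multiplicative.toAdd.injective
    rw [subOneHom_apply, ← ha, hf]
    congr 1
    simp

end DVR

section Main

variable (A : Type*) [CommRing A] [IsDomain A] [IsDiscreteValuationRing A]
  [IsAdicComplete (maximalIdeal A) A] [Finite (ResidueField A)]

omit [IsAdicComplete (maximalIdeal A) A] [Finite (ResidueField A)] in
/-- `p = ϖ^e * unit`. -/
theorem exists_eq_pow_mul_unit {ϖ : A} (hϖ : Irreducible ϖ) {x : A} (hx : x ≠ 0) :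
    ∃ (e : ℕ) (w : Aˣ), x = ϖ ^ e * (w : A) := by
  obtain ⟨e, w, hw⟩ := IsDiscreteValuationRing.eq_unit_mul_pow_irreducible hx hϖ
  exact ⟨e, w, by rw [hw, mul_comm]⟩

/-- **Exact index of `p`-th powers in the unit group of a complete DVR**:
`[Aˣ : (Aˣ)^p] = #(A / pA) * #μ_p(A)`. -/
theorem index_range_pow_units {p : ℕ} (hpA : (p : A) ≠ 0) :
    (powMonoidHom p : Aˣ →* Aˣ).range.index
      = Nat.card (A ⧸ Ideal.span {(p : A)}) * Nat.card (rootsOfUnity p A) := by
  obtain ⟨ϖ, hϖ⟩ := IsDiscreteValuationRing.exists_irreducible A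
  obtain ⟨e, w, hpe⟩ := exists_eq_pow_mul_unit A hϖ hpA
  have hV : ∀ v ∈ principalUnits A (e + 1), v ^ p = 1 → v = 1 := fun v hv hvp =>
    eq_one_of_pow_eq_one_of_mem_principalUnits hϖ hpe le_rfl hv hvp
  rw [index_range_pow_eq p (principalUnits A (e + 1)) hV]
  have hmap : (principalUnits A (e + 1)).map (powMonoidHom p : Aˣ →* Aˣ)
      = principalUnits A (e + 1 + e) := by
    apply le_antisymm
    · rintro _ ⟨u, hu, rfl⟩
      exact pow_mem_principalUnits hϖ hpe (by omega) hu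
    · intro y hy
      obtain ⟨u, hu, rfl⟩ := exists_pow_eq_of_mem_principalUnits hϖ hpe le_rfl hy
      exact ⟨u, hu, rfl⟩
  rw [hmap, relIndex_principalUnits hϖ e (by omega) (by omega)]
  have hspan : Ideal.span {(p : A)} = maximalIdeal A ^ e := by
    rw [hϖ.maximalIdeal_eq, Ideal.span_singleton_pow, hpe]
    exact Ideal.span_singleton_eq_span_singleton.mpr
      ⟨w⁻¹, by rw [mul_assoc, ← Units.val_mul, mul_inv_cancel, Units.val_one, mul_one]⟩
  rw [hspan]
  congr 1

section Field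

variable (K : Type*) [Field K] [Algebra A K] [IsFractionRing A K]

/-- the index of `p`-th powers in `Multiplicative ℤ` is `p`. -/
theorem index_range_pow_int (p : ℕ) :
    (powMonoidHom p : Multiplicative ℤ →* Multiplicative ℤ).range.index = p := by
  have h : (powMonoidHom p : Multiplicative ℤ →* Multiplicative ℤ).range
      = AddSubgroup.toSubgroup (AddSubgroup.zmultiples (p : ℤ)) := by
    ext x
    constructor
    · rintro ⟨y, rfl⟩
      show Multiplicative.toAdd (y ^ p) ∈ AddSubgroup.zmultiples (p : ℤ)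
      rw [toAdd_pow, AddSubgroup.mem_zmultiples_iff]
      exact ⟨Multiplicative.toAdd y, by simp [mul_comm]⟩
    · intro hx
      obtain ⟨k, hk⟩ := AddSubgroup.mem_zmultiples_iff.mp
        (show Multiplicative.toAdd x ∈ AddSubgroup.zmultiples (p : ℤ) from hx)
      refine ⟨Multiplicative.ofAdd k, ?_⟩
      apply Multiplicative.toAdd.injective
      rw [powMonoidHom_apply, toAdd_pow, toAdd_ofAdd, ← hk]
      simp [mul_comm]
  rw [h, AddSubgroup.index_toSubgroup, Int.index_zmultiples, Int.natAbs_natCast]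

theorem range_powMonoidHom_prod {G H : Type*} [CommGroup G] [CommGroup H] (p : ℕ) :
    (powMonoidHom p : G × H →* G × H).range
      = (powMonoidHom p : G →* G).range.prod (powMonoidHom p : H →* H).range := by
  ext ⟨g, h⟩
  constructor
  · rintro ⟨⟨a, b⟩, hab⟩
    have h1 : a ^ p = g := congrArg Prod.fst hab
    have h2 : b ^ p = h := congrArg Prod.snd hab
    exact ⟨⟨a, h1⟩, ⟨b, h2⟩⟩
  · rintro ⟨⟨a, ha⟩, ⟨b, hb⟩⟩
    exact ⟨(a, b), Prod.ext ha hb⟩

theorem range_powMonoidHom_map_equiv {G H : Type*} [CommGroup G] [CommGroup H] (φ : G ≃* H)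
    (p : ℕ) :
    ((powMonoidHom p : G →* G).range).map (φ : G →* H) = (powMonoidHom p : H →* H).range := by
  ext y
  constructor
  · rintro ⟨_, ⟨x, rfl⟩, rfl⟩
    exact ⟨φ x, by simp⟩
  · rintro ⟨z, rfl⟩
    refine ⟨φ.symm z ^ p, ⟨φ.symm z, rfl⟩, ?_⟩
    simp

omit [IsAdicComplete (maximalIdeal A) A] [Finite (ResidueField A)] in
/-- `μ_p(K) = μ_p(A)`. -/
theorem card_rootsOfUnity_field {p : ℕ} (hp0 : p ≠ 0) :
    Nat.card (rootsOfUnity p K) = Nat.card (rootsOfUnity p A) := by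
  obtain ⟨ϖ, hϖ⟩ := IsDiscreteValuationRing.exists_irreducible A
  have h : rootsOfUnity p K = (rootsOfUnity p A).map (unitsIncl A K) := by
    ext x
    constructor
    · intro hx
      rw [mem_rootsOfUnity] at hx
      obtain ⟨⟨n, u⟩, rfl⟩ := unitsProdHom_surjective K hϖ x
      rw [← map_pow] at hx
      have h1 : ((n, u) : Multiplicative ℤ × Aˣ) ^ p = 1 :=
        unitsProdHom_injective K hϖ (by rw [hx, map_one])
      have hn : n ^ p = 1 := congrArg Prod.fst h1
      have hu : u ^ p = 1 := congrArg Prod.snd h1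
      have hn1 : n = 1 := by
        have h2 := congrArg Multiplicative.toAdd hn
        rw [toAdd_pow, toAdd_one] at h2
        have h3 : Multiplicative.toAdd n = 0 := (smul_eq_zero.mp h2).resolve_left hp0
        exact Multiplicative.toAdd.injective h3
      refine ⟨u, (mem_rootsOfUnity p u).mpr hu, ?_⟩
      rw [unitsProdHom_apply, hn1]
      simp
    · rintro ⟨u, hu, rfl⟩
      have hu' : u ^ p = 1 := (mem_rootsOfUnity p u).mp hu
      rw [mem_rootsOfUnity, ← map_pow, hu', map_one]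
  rw [h]
  exact Nat.card_congr
    ((rootsOfUnity p A).equivMapOfInjective _ (unitsIncl_injective A K)).toEquiv.symm

/-- **Exact index of `p`-th powers in a local field**:
`[Kˣ : (Kˣ)^p] = p * (#(A / pA) * #μ_p(K))`. -/
theorem index_range_pow_field {p : ℕ} (hpA : (p : A) ≠ 0) :
    (powMonoidHom p : Kˣ →* Kˣ).range.index
      = p * (Nat.card (A ⧸ Ideal.span {(p : A)}) * Nat.card (rootsOfUnity p K)) := by
  obtain ⟨ϖ, hϖ⟩ := IsDiscreteValuationRing.exists_irreducible A
  have hp0 : p ≠ 0 := by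
    rintro rfl
    exact hpA (by simp)
  rw [← range_powMonoidHom_map_equiv (unitsProdEquiv K hϖ) p, Subgroup.index_map_equiv,
    range_powMonoidHom_prod, Subgroup.index_prod, index_range_pow_int, index_range_pow_units A hpA,
    card_rootsOfUnity_field A K hp0]

/-- cardinality form. -/
theorem card_units_quot_pow_field {p : ℕ} (hpA : (p : A) ≠ 0) :
    Nat.card (Kˣ ⧸ (powMonoidHom p : Kˣ →* Kˣ).range)
      = p * (Nat.card (A ⧸ Ideal.span {(p : A)}) * Nat.card (rootsOfUnity p K)) := by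
  rw [← Subgroup.index_eq_card, index_range_pow_field A K hpA]

end Field

end Main

end Fermat.Agent.CFT.H10
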