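import Mathlib

/-!
# CFT project, layer B (local class field theory): shared field-level vocabulary

`K` is an abstract finite extension of `ℚ_[q]`:
`[Field K] [Algebra ℚ_[q] K] [FiniteDimensional ℚ_[q] K]`.
Everything is expressed through Mathlib's `spectralNorm ℚ_[q] K`, the unique extension of the
`q`-adic absolute value to `K`.
-/

set_option autoImplicit false
set_option linter.unusedSectionVars false

namespace Fermat.Agent.CFT.Loc

variable (q : ℕ) [Fact q.Prime]
variable (K : Type) [Field K] [Algebra ℚ_[q] K] [FiniteDimensional ℚ_[q] K]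
variable (L : Type) [Field L] [Algebra ℚ_[q] L] [FiniteDimensional ℚ_[q] L]

/-- The canonical absolute value of a finite extension `K` of `ℚ_[q]`. -/
noncomputable def nrm (x : K) : ℝ := spectralNorm ℚ_[q] K x

variable {q K} in
lemma nrm_def (x : K) : nrm q K x = spectralNorm ℚ_[q] K x := rfl

lemma nrm_zero : nrm q K 0 = 0 := spectralNorm_zero

lemma nrm_one : nrm q K 1 = 1 := spectralNorm_one

variable {K} in
lemma nrm_nonneg (x : K) : 0 ≤ nrm q K x := spectralNorm_nonneg x

variable {K} in
lemma nrm_mul (x y : K) : nrm q K (x * y) = nrm q K x * nrm q K y :=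
  spectralAlgNorm_mul (K := ℚ_[q]) (L := K) x y

variable {K} in
lemma nrm_neg (x : K) : nrm q K (-x) = nrm q K x :=
  spectralNorm_neg (Algebra.IsAlgebraic.isAlgebraic x)

variable {K} in
lemma nrm_add_le_max (x y : K) : nrm q K (x + y) ≤ max (nrm q K x) (nrm q K y) :=
  isNonarchimedean_spectralNorm x y

variable {K} in
lemma nrm_eq_zero_iff {x : K} : nrm q K x = 0 ↔ x = 0 := by
  constructor
  · intro h
    exact eq_zero_of_map_spectralNorm_eq_zero h (Algebra.IsAlgebraic.isAlgebraic x)
  · rintro rfl
    exact nrm_zero q K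

variable {K} in
lemma nrm_pos {x : K} (hx : x ≠ 0) : 0 < nrm q K x :=
  lt_of_le_of_ne (nrm_nonneg q x) (fun h => hx ((nrm_eq_zero_iff q).1 h.symm))

variable {K} in
lemma nrm_inv (x : K) : nrm q K x⁻¹ = (nrm q K x)⁻¹ := by
  by_cases hx : x = 0
  · simp [hx, nrm_zero]
  · have h := nrm_mul q x x⁻¹
    rw [mul_inv_cancel₀ hx, nrm_one] at h
    exact eq_inv_of_mul_eq_one_right h.symm

lemma nrm_algebraMap (a : ℚ_[q]) : nrm q K (algebraMap ℚ_[q] K a) = ‖a‖ :=
  spectralNorm_extends a

/-- The ring of integers of `K`: the unit ball of the canonical absolute value. -/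
noncomputable def O : ValuationSubring K where
  carrier := {x | nrm q K x ≤ 1}
  mul_mem' {a b} ha hb := by
    simp only [Set.mem_ofPred_eq] at *
    rw [nrm_mul]
    exact mul_le_one₀ ha (nrm_nonneg q b) hb
  one_mem' := by simp [nrm_one]
  add_mem' {a b} ha hb := by
    simp only [Set.mem_ofPred_eq] at *
    exact (nrm_add_le_max q a b).trans (max_le ha hb)
  zero_mem' := by simp [nrm_zero]
  neg_mem' {a} ha := by
    simp only [Set.mem_ofPred_eq] at *
    rwa [nrm_neg]
  mem_or_inv_mem' a := by
    simp only [Set.mem_ofPred_eq]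
    rcases le_total (nrm q K a) 1 with h | h
    · exact Or.inl h
    · right
      rw [nrm_inv]
      exact inv_le_one_of_one_le₀ h

variable {q K} in
lemma mem_O_iff {x : K} : x ∈ O q K ↔ nrm q K x ≤ 1 := Iff.rfl

/-- The group of units of the ring of integers: elements of absolute value one. -/
noncomputable def unitGroup : Subgroup Kˣ where
  carrier := {u | nrm q K (u : K) = 1}
  mul_mem' {a b} ha hb := by
    simp only [Set.mem_ofPred_eq] at *
    rw [Units.val_mul, nrm_mul, ha, hb, one_mul]
  one_mem' := by simp [nrm_one]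
  inv_mem' {a} ha := by
    simp only [Set.mem_ofPred_eq] at *
    rw [Units.val_inv_eq_inv_val, nrm_inv, ha, inv_one]

variable {q K} in
lemma mem_unitGroup_iff {u : Kˣ} : u ∈ unitGroup q K ↔ nrm q K (u : K) = 1 := Iff.rfl

/-- Principal units of level `n`: `‖u - 1‖ ≤ ‖q‖ ^ n`-type subgroups are provided by packages;
here only the first one: `‖u - 1‖ < 1`. -/
noncomputable def principalUnitGroup : Subgroup Kˣ where
  carrier := {u | nrm q K ((u : K) - 1) < 1}
  mul_mem' {a b} ha hb := by
    simp only [Set.mem_ofPred_eq] at *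
    have h : ((a * b : Kˣ) : K) - 1 = ((a : K) - 1) * (b : K) + ((b : K) - 1) := by
      push_cast; ring
    have hb1 : nrm q K (b : K) ≤ 1 := by
      have : (b : K) = ((b : K) - 1) + 1 := by ring
      rw [this]
      exact (nrm_add_le_max q _ _).trans (max_le hb.le (nrm_one q K).le)
    rw [h]
    refine (nrm_add_le_max q _ _).trans_lt (max_lt ?_ hb)
    rw [nrm_mul]
    calc nrm q K ((a : K) - 1) * nrm q K (b : K) ≤ nrm q K ((a : K) - 1) * 1 :=
          mul_le_mul_of_nonneg_left hb1 (nrm_nonneg q _)
      _ < 1 := by rwa [mul_one]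
  one_mem' := by simp [nrm_zero]
  inv_mem' {a} ha := by
    simp only [Set.mem_ofPred_eq] at *
    have ha1 : nrm q K (a : K) = 1 := by
      have h1 : nrm q K (a : K) ≤ 1 := by
        have : (a : K) = ((a : K) - 1) + 1 := by ring
        rw [this]
        exact (nrm_add_le_max q _ _).trans (max_le ha.le (nrm_one q K).le)
      have h2 : 1 ≤ nrm q K (a : K) := by
        have : (1 : K) = -((a : K) - 1) + a := by ring
        have h3 := nrm_add_le_max q (-((a : K) - 1)) (a : K)
        rw [← this, nrm_one, nrm_neg] at h3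
        rcases le_max_iff.1 h3 with h4 | h4
        · exact absurd h4 (not_le.2 ha)
        · exact h4
      exact le_antisymm h1 h2
    have h : ((a⁻¹ : Kˣ) : K) - 1 = -(((a : K) - 1) * ((a⁻¹ : Kˣ) : K)) := by
      have : (a : K) * ((a⁻¹ : Kˣ) : K) = 1 := by simp
      linear_combination this
    rw [h, nrm_neg, nrm_mul, Units.val_inv_eq_inv_val, nrm_inv, ha1, inv_one, mul_one]
    exact ha

/-- Number of elements of the residue field of `K`. -/
noncomputable def resCard : ℕ := Nat.card (IsLocalRing.ResidueField (O q K))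

variable [Algebra K L] [IsScalarTower ℚ_[q] K L]

/-- `L/K` is unramified: the absolute values of `L` and `K` have the same value group. -/
def IsUnramified : Prop := ∀ y : L, ∃ x : K, nrm q L y = nrm q K x

/-- The Frobenius of `L/K` (meaningful when `L/K` is unramified; `1` as junk value otherwise):
an automorphism `φ` with `‖φ x - x ^ N‖ < 1` for all integral `x`, `N` the residue cardinality
of `K`. -/
noncomputable def frob : L ≃ₐ[K] L :=
  open Classical in
  if h : ∃ φ : L ≃ₐ[K] L, ∀ x : L, nrm q L x ≤ 1 → nrm q L (φ x - x ^ resCard q K) < 1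
  then h.choose else 1

end Fermat.Agent.CFT.Loc
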