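import Mathlib
import Fermat.Agent.CFT.LocDefs

/-!
# CFT layer B, package B-BRIDGE (second half): `Loc.O q K` is the integral closure of `ℤ_[q]`

`K` an abstract finite extension of `ℚ_[q]`.  Nothing here is a global instance: the algebra
structures are `@[reducible] def`s, to be activated with `letI`/`attribute [local instance]`.
-/

set_option autoImplicit false
set_option linter.unusedSectionVars false
set_option linter.style.haveILetI false

open IsLocalRing Polynomial

namespace Fermat.Agent.CFT.H96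

open Fermat.Agent.CFT.Loc

variable (q : ℕ) [Fact q.Prime]
variable (K : Type) [Field K] [Algebra ℚ_[q] K] [FiniteDimensional ℚ_[q] K]

/-- canonical `ℤ_[q]`-algebra structure on `K` -/
@[reducible] noncomputable def algInt : Algebra ℤ_[q] K :=
  ((algebraMap ℚ_[q] K).comp (algebraMap ℤ_[q] ℚ_[q])).toAlgebra

theorem isScalarTower_algInt :
    @IsScalarTower ℤ_[q] ℚ_[q] K _ _ (algInt q K).toSMul :=
  @IsScalarTower.of_algebraMap_eq ℤ_[q] ℚ_[q] K _ _ _ _ _ (algInt q K) (fun _ => rfl)

theorem mem_O_iff_isIntegral (x : K) :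
    x ∈ O q K ↔ @IsIntegral ℤ_[q] K _ _ (algInt q K) x := by
  letI := algInt q K
  haveI := isScalarTower_algInt q K
  have hxint : IsIntegral ℚ_[q] x := Algebra.IsIntegral.isIntegral x
  have hmonic : (minpoly ℚ_[q] x).Monic := minpoly.monic hxint
  rw [mem_O_iff, nrm_def, spectralNorm, spectralValue_le_one_iff hmonic]
  constructor
  · intro h
    have hl : minpoly ℚ_[q] x ∈ Polynomial.lifts (algebraMap ℤ_[q] ℚ_[q]) := by
      rw [Polynomial.lifts_iff_coeff_lifts]
      intro n
      exact ⟨⟨_, h n⟩, rfl⟩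
    obtain ⟨p, hp, -, hpm⟩ := Polynomial.lifts_and_natDegree_eq_and_monic hl hmonic
    refine ⟨p, hpm, ?_⟩
    have : Polynomial.aeval x (p.map (algebraMap ℤ_[q] ℚ_[q])) = 0 := by
      rw [hp]; exact minpoly.aeval _ _
    rwa [Polynomial.aeval_map_algebraMap] at this
  · intro hx n
    rw [minpoly.isIntegrallyClosed_eq_field_fractions' ℚ_[q] hx, Polynomial.coeff_map]
    exact PadicInt.norm_le_one _

theorem algebraMap_padicInt_mem_O (a : ℤ_[q]) : algebraMap ℚ_[q] K (a : ℚ_[q]) ∈ O q K := by
  rw [mem_O_iff, nrm_algebraMap]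
  exact PadicInt.norm_le_one a

/-- canonical `ℤ_[q]`-algebra structure on `O q K` -/
@[reducible] noncomputable def algIntO : Algebra ℤ_[q] (O q K) :=
  (RingHom.codRestrict ((algebraMap ℚ_[q] K).comp (algebraMap ℤ_[q] ℚ_[q])) (O q K)
    (fun a => algebraMap_padicInt_mem_O q K a)).toAlgebra

theorem algebraMap_algIntO_coe (a : ℤ_[q]) :
    ((@algebraMap ℤ_[q] (O q K) _ _ (algIntO q K) a : O q K) : K) =
      algebraMap ℚ_[q] K (a : ℚ_[q]) := rfl

theorem isScalarTower_algIntO :
    @IsScalarTower ℤ_[q] (O q K) K (algIntO q K).toSMul _ (algInt q K).toSMul :=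
  @IsScalarTower.of_algebraMap_eq ℤ_[q] (O q K) K _ _ _ (algIntO q K) _ (algInt q K)
    (fun _ => rfl)

theorem isIntegralClosure_O : @IsIntegralClosure (O q K) ℤ_[q] K _ _ _ (algInt q K) _ := by
  letI := algInt q K
  refine ⟨Subtype.val_injective, ?_⟩
  intro x
  rw [← mem_O_iff_isIntegral]
  constructor
  · intro hx
    exact ⟨⟨x, hx⟩, rfl⟩
  · rintro ⟨y, rfl⟩
    exact y.2

theorem isNoetherianRing_O : IsNoetherianRing (O q K) := by
  letI := algInt q K
  letI := algIntO q K
  haveI := isScalarTower_algInt q K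
  haveI := isScalarTower_algIntO q K
  haveI := isIntegralClosure_O q K
  exact IsIntegralClosure.isNoetherianRing ℤ_[q] ℚ_[q] K (O q K)

theorem moduleFinite_O : @Module.Finite ℤ_[q] (O q K) _ _ (algIntO q K).toModule := by
  letI := algInt q K
  letI := algIntO q K
  haveI := isScalarTower_algInt q K
  haveI := isScalarTower_algIntO q K
  haveI := isIntegralClosure_O q K
  exact IsIntegralClosure.finite ℤ_[q] ℚ_[q] K (O q K)

theorem nrm_natCast_q : nrm q K ((q : ℕ) : K) = (q : ℝ)⁻¹ := by
  have h : ((q : ℕ) : K) = algebraMap ℚ_[q] K ((q : ℕ) : ℚ_[q]) := by simp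
  rw [h, nrm_algebraMap, Padic.norm_p]

theorem nrm_natCast_q_lt_one : nrm q K ((q : ℕ) : K) < 1 := by
  rw [nrm_natCast_q]
  have hq : (1 : ℝ) < q := by exact_mod_cast (Fact.out : q.Prime).one_lt
  exact inv_lt_one_of_one_lt₀ hq

theorem natCast_q_ne_zero : ((q : ℕ) : K) ≠ 0 := by
  intro h
  have := nrm_natCast_q q K
  rw [h, nrm_zero] at this
  have hq : (0 : ℝ) < q := by exact_mod_cast (Fact.out : q.Prime).pos
  exact absurd this.symm (inv_pos.2 hq).ne'

theorem nrm_eq_one_of_isUnit {x : O q K} (hx : IsUnit x) : nrm q K (x : K) = 1 := by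
  obtain ⟨u, rfl⟩ := hx
  have h1 : nrm q K ((u : O q K) : K) ≤ 1 := (u : O q K).2
  have h2 : nrm q K (((u⁻¹ : (O q K)ˣ) : O q K) : K) ≤ 1 := ((u⁻¹ : (O q K)ˣ) : O q K).2
  have h3 : nrm q K ((u : O q K) : K) * nrm q K (((u⁻¹ : (O q K)ˣ) : O q K) : K) = 1 := by
    rw [← nrm_mul, ← nrm_one q K]
    congr 1
    have : ((u : O q K) * ((u⁻¹ : (O q K)ˣ) : O q K)) = 1 := by simp
    exact_mod_cast congrArg (Subtype.val) this
  have h4 : 0 ≤ nrm q K (((u⁻¹ : (O q K)ˣ) : O q K) : K) := nrm_nonneg q _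
  have h5 : 0 ≤ nrm q K ((u : O q K) : K) := nrm_nonneg q _
  nlinarith

theorem isUnit_iff_nrm_eq_one {x : O q K} : IsUnit x ↔ nrm q K (x : K) = 1 := by
  refine ⟨nrm_eq_one_of_isUnit q K, fun h => ?_⟩
  have hx0 : (x : K) ≠ 0 := by
    intro h0
    rw [h0, nrm_zero] at h
    exact zero_ne_one h
  have hinv : (x : K)⁻¹ ∈ O q K := by
    rw [mem_O_iff, nrm_inv, h, inv_one]
  refine ⟨⟨x, ⟨_, hinv⟩, ?_, ?_⟩, rfl⟩
  · ext; simp [mul_inv_cancel₀ hx0]
  · ext; simp [inv_mul_cancel₀ hx0]

theorem mem_maximalIdeal_iff {x : O q K} : x ∈ maximalIdeal (O q K) ↔ nrm q K (x : K) < 1 := by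
  rw [mem_maximalIdeal, mem_nonunits_iff, isUnit_iff_nrm_eq_one]
  have : nrm q K (x : K) ≤ 1 := x.2
  constructor
  · intro h
    exact lt_of_le_of_ne this h
  · intro h
    exact h.ne

theorem not_isField_O : ¬ IsField (O q K) := by
  intro hF
  let x : O q K := ⟨((q : ℕ) : K), (nrm_natCast_q_lt_one q K).le⟩
  have hx0 : x ≠ 0 := by
    intro h
    exact natCast_q_ne_zero q K (congrArg Subtype.val h)
  obtain ⟨y, hy⟩ := hF.mul_inv_cancel hx0
  have hu : IsUnit x := IsUnit.of_mul_eq_one _ hy
  have := nrm_eq_one_of_isUnit q K hu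
  exact absurd this (nrm_natCast_q_lt_one q K).ne

theorem isDiscreteValuationRing_O : IsDiscreteValuationRing (O q K) := by
  haveI := isNoetherianRing_O q K
  have hv : ValuationRing (O q K) := inferInstance
  exact ((IsDiscreteValuationRing.TFAE (O q K) (not_isField_O q K)).out 0 1).mpr hv

theorem isLocalHom_algIntO :
    IsLocalHom (@algebraMap ℤ_[q] (O q K) _ _ (algIntO q K)) := by
  letI := algIntO q K
  constructor
  intro a ha
  have h := nrm_eq_one_of_isUnit q K ha
  rw [algebraMap_algIntO_coe, nrm_algebraMap] at h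
  exact PadicInt.isUnit_iff.2 h

theorem finite_residueField_padicInt : Finite (ResidueField ℤ_[q]) :=
  Finite.of_equiv _ (PadicInt.residueField (p := q)).toEquiv.symm

theorem finite_residueField_O : Finite (ResidueField (O q K)) := by
  letI := algIntO q K
  haveI := isLocalHom_algIntO q K
  haveI := moduleFinite_O q K
  exact IsLocalRing.ResidueField.finite_of_finite (R := ℤ_[q]) (finite_residueField_padicInt q)

theorem resCard_eq_pow : ∃ f : ℕ, 0 < f ∧ resCard q K = q ^ f := by
  letI := algIntO q K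
  haveI := isLocalHom_algIntO q K
  haveI := moduleFinite_O q K
  haveI := finite_residueField_padicInt q
  haveI := finite_residueField_O q K
  letI := Fintype.ofFinite (ResidueField ℤ_[q])
  letI := Fintype.ofFinite (ResidueField (O q K))
  refine ⟨Module.finrank (ResidueField ℤ_[q]) (ResidueField (O q K)), Module.finrank_pos, ?_⟩
  have h1 : Fintype.card (ResidueField ℤ_[q]) = q := by
    rw [Fintype.card_congr (PadicInt.residueField (p := q)).toEquiv, ZMod.card]
  rw [resCard, Nat.card_eq_fintype_card,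
    Module.card_eq_pow_finrank (K := ResidueField ℤ_[q]) (V := ResidueField (O q K)), h1]

/-! ### The Skeleton2 instances (DVR, finite residue field) -/

instance instIsNoetherianRing_O : IsNoetherianRing (O q K) := isNoetherianRing_O q K

instance instIsDiscreteValuationRing_O : IsDiscreteValuationRing (O q K) :=
  isDiscreteValuationRing_O q K

instance instFinite_residueField_O : Finite (ResidueField (O q K)) := finite_residueField_O q K

end Fermat.Agent.CFT.H96
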