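import Mathlib
import Fermat.Agent.CFT.H96_BridgeIntegral

/-!
# CFT layer B, package B-BRIDGE: `Loc.O q K` is `𝔪`-adically complete

Generic lemmas:
* `isPrecomplete_of_finite`: a finitely generated module over an `I`-adically precomplete ring is
  `I`-adically precomplete;
* `isPrecomplete_of_pow_le`: if `I ^ e ≤ J ≤ I` and `M` is `J`-adically precomplete, then `M` is
  `I`-adically precomplete.
-/

set_option autoImplicit false
set_option linter.unusedSectionVars false
set_option linter.style.haveILetI false

open IsLocalRing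

namespace Fermat.Agent.CFT.H96

section Generic

variable {R : Type*} [CommRing R] (I : Ideal R) (M : Type*) [AddCommGroup M] [Module R M]

/-- A finitely generated module over an `I`-adically precomplete ring is `I`-adically
precomplete. -/
theorem isPrecomplete_of_finite [IsPrecomplete I R] [Module.Finite R M] : IsPrecomplete I M := by
  obtain ⟨n, s, hs⟩ := Module.Finite.exists_fin (R := R) (M := M)
  refine ⟨fun f hf => ?_⟩
  -- successive differences as combinations of the generators with coefficients in `I ^ k`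
  have hdiff : ∀ k, ∃ a : Fin n → R, (∀ i, a i ∈ I ^ k) ∧ ∑ i, a i • s i = f (k + 1) - f k := by
    intro k
    have h1 : f (k + 1) - f k ∈ (I ^ k • ⊤ : Submodule R M) := by
      have := (hf (Nat.le_succ k)).symm
      rwa [SModEq.sub_mem] at this
    rw [← hs, Submodule.mem_ideal_smul_span_iff_exists_sum] at h1
    obtain ⟨a, ha, hsum⟩ := h1
    refine ⟨a, ha, ?_⟩
    rw [← hsum, Finsupp.sum_fintype]
    intro i; simp
  choose a ha hsum using hdiff
  -- partial sums of the coefficients
  let S : Fin n → ℕ → R := fun i k => ∑ j ∈ Finset.range k, a j i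
  have hS : ∀ i, ∃ A : R, ∀ k, S i k ≡ A [SMOD (I ^ k • ⊤ : Submodule R R)] := by
    intro i
    apply IsPrecomplete.prec ‹IsPrecomplete I R›
    have : AdicCompletion.IsAdicCauchy I R (S i) := by
      rw [AdicCompletion.isAdicCauchy_iff]
      intro k
      rw [SModEq.sub_mem]
      have : S i k - S i (k + 1) = - a k i := by
        simp only [S, Finset.sum_range_succ]; ring
      rw [this]
      apply Submodule.neg_mem
      simpa using ha k i
    exact fun {m n} hmn => this hmn
  choose A hA using hS
  have hf_eq : ∀ k, f k = f 0 + ∑ i, S i k • s i := by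
    intro k
    induction k with
    | zero => simp [S]
    | succ k ih =>
      have h2 : f (k + 1) = f k + ∑ i, a k i • s i := by rw [hsum k]; abel
      rw [h2, ih, add_assoc, ← Finset.sum_add_distrib]
      congr 1
      apply Finset.sum_congr rfl
      intro i _
      simp only [S, Finset.sum_range_succ, add_smul]
  refine ⟨f 0 + ∑ i, A i • s i, fun k => ?_⟩
  rw [SModEq.sub_mem, hf_eq k]
  have : f 0 + ∑ i, S i k • s i - (f 0 + ∑ i, A i • s i) = ∑ i, (S i k - A i) • s i := by
    simp only [sub_smul, Finset.sum_sub_distrib]; abel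
  rw [this]
  apply Submodule.sum_mem
  intro i _
  apply Submodule.smul_mem_smul _ Submodule.mem_top
  have := hA i k
  rw [SModEq.sub_mem] at this
  simpa using this

variable {I M} in
/-- If `I ^ e ≤ J ≤ I` then `J`-adic precompleteness implies `I`-adic precompleteness. -/
theorem isPrecomplete_of_pow_le (J : Ideal R) (e : ℕ) (h1 : I ^ e ≤ J) (h2 : J ≤ I)
    [IsPrecomplete J M] : IsPrecomplete I M := by
  refine ⟨fun f hf => ?_⟩
  have hpow : ∀ k, I ^ ((e + 1) * k) ≤ J ^ k := by
    intro k
    rw [pow_mul]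
    exact Ideal.pow_right_mono ((Ideal.pow_le_pow_right (Nat.le_succ e)).trans h1) k
  have hg : ∀ {k l}, k ≤ l →
      f ((e + 1) * k) ≡ f ((e + 1) * l) [SMOD (J ^ k • ⊤ : Submodule R M)] := by
    intro k l hkl
    exact SModEq.mono (Submodule.smul_mono_left (hpow k)) (hf (Nat.mul_le_mul_left _ hkl))
  obtain ⟨L, hL⟩ := IsPrecomplete.prec ‹IsPrecomplete J M› (f := fun k => f ((e + 1) * k)) hg
  refine ⟨L, fun n => ?_⟩
  have h3 : f n ≡ f ((e + 1) * n) [SMOD (I ^ n • ⊤ : Submodule R M)] :=
    hf (Nat.le_mul_of_pos_left n (Nat.succ_pos e))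
  have h4 : f ((e + 1) * n) ≡ L [SMOD (I ^ n • ⊤ : Submodule R M)] :=
    SModEq.mono (Submodule.smul_mono_left (Ideal.pow_right_mono h2 n)) (hL n)
  exact h3.trans h4

end Generic

section LocO

open Fermat.Agent.CFT.Loc

variable (q : ℕ) [Fact q.Prime]
variable (K : Type) [Field K] [Algebra ℚ_[q] K] [FiniteDimensional ℚ_[q] K]

theorem isPrecomplete_O : IsPrecomplete (maximalIdeal (O q K)) (O q K) := by
  letI := algIntO q K
  haveI := moduleFinite_O q K
  -- `O q K` is `q`-adically precomplete as a `ℤ_[q]`-module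
  have hp1 : IsPrecomplete (maximalIdeal ℤ_[q]) (O q K) :=
    isPrecomplete_of_finite (maximalIdeal ℤ_[q]) (O q K)
  have hp2 : IsPrecomplete ((maximalIdeal ℤ_[q]).map (algebraMap ℤ_[q] (O q K))) (O q K) :=
    IsPrecomplete.map_algebraMap_iff.2 hp1
  set J : Ideal (O q K) := (maximalIdeal ℤ_[q]).map (algebraMap ℤ_[q] (O q K)) with hJ
  let x : O q K := ⟨((q : ℕ) : K), (nrm_natCast_q_lt_one q K).le⟩
  have hx : x = algebraMap ℤ_[q] (O q K) (q : ℤ_[q]) := by
    apply Subtype.ext
    rw [algebraMap_algIntO_coe]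
    simp [x]
  have hJspan : J = Ideal.span {x} := by
    rw [hJ, PadicInt.maximalIdeal_eq_span_p, Ideal.map_span, Set.image_singleton, hx]
  have hJle : J ≤ maximalIdeal (O q K) := by
    rw [hJspan, Ideal.span_singleton_le_iff_mem, mem_maximalIdeal_iff]
    exact nrm_natCast_q_lt_one q K
  have hJne : J ≠ ⊥ := by
    rw [hJspan, Ne, Ideal.span_singleton_eq_bot]
    intro h
    exact natCast_q_ne_zero q K (congrArg Subtype.val h)
  have hall : ∀ (I : Ideal (O q K)), I ≠ ⊥ → ∃ n : ℕ, I = maximalIdeal (O q K) ^ n :=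
    ((IsDiscreteValuationRing.TFAE (O q K) (not_isField_O q K)).out 0 6).mp
      (isDiscreteValuationRing_O q K)
  obtain ⟨e, he⟩ := hall J hJne
  exact isPrecomplete_of_pow_le J e he.ge hJle

theorem isAdicComplete_O : IsAdicComplete (maximalIdeal (O q K)) (O q K) :=
  { toIsHausdorff := inferInstance
    toIsPrecomplete := isPrecomplete_O q K }

instance instIsAdicComplete_O : IsAdicComplete (maximalIdeal (O q K)) (O q K) :=
  isAdicComplete_O q K

end LocO

end Fermat.Agent.CFT.H96
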