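import Mathlib
import Fermat.Agent.CFT.H10_LocalPowIndex
import Fermat.Agent.CFT.H96_BridgeComplete

set_option autoImplicit false
set_option linter.unusedSectionVars false
set_option linter.style.haveILetI false

/-!
# CFT / B-UNITS-exact-index (helper10), field level (`Loc` vocabulary)

For `K` finite over `ℚ_[q]` and any prime `p`:
`#(Kˣ / (Kˣ)^p) = p * #μ_p(K) * (if p = q then p ^ [K : ℚ_q] else 1)`.
-/

namespace Fermat.Agent.CFT.H10

open IsLocalRing Fermat.Agent.CFT.Loc Fermat.Agent.CFT.H96

section Free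

variable {R M : Type*} [CommRing R] [AddCommGroup M] [Module R M]

/-- For a free module with a basis of `n` elements, `#(M / aM) = #(R / aR) ^ n`. -/
theorem index_range_lsmul_of_basis {n : ℕ} (b : Module.Basis (Fin n) R M) (a : R) :
    (LinearMap.range (LinearMap.lsmul R M a)).toAddSubgroup.index
      = Nat.card (R ⧸ Ideal.span {a}) ^ n := by
  classical
  let g : M →ₗ[R] (Fin n → R ⧸ Ideal.span {a}) :=
    (LinearMap.pi fun i => (Submodule.mkQ (Ideal.span {a})).comp (LinearMap.proj i)).comp
      (b.equivFun : M →ₗ[R] (Fin n → R))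
  have hg : ∀ x i, g x i = Ideal.Quotient.mk (Ideal.span {a}) (b.repr x i) := fun x i => rfl
  have hsurj : Function.Surjective g := by
    intro y
    choose c hc using fun i => Ideal.Quotient.mk_surjective (y i)
    refine ⟨b.equivFun.symm c, ?_⟩
    funext i
    rw [hg, ← b.equivFun_apply, LinearEquiv.apply_symm_apply, hc]
  have hker : LinearMap.ker g = LinearMap.range (LinearMap.lsmul R M a) := by
    ext x
    rw [LinearMap.mem_ker, LinearMap.mem_range]
    constructor
    · intro hx
      have h1 : ∀ i, ∃ c, b.repr x i = a * c := by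
        intro i
        have := congrFun hx i
        rw [hg, Pi.zero_apply, Ideal.Quotient.eq_zero_iff_mem, Ideal.mem_span_singleton] at this
        exact this
      choose c hc using h1
      refine ⟨b.equivFun.symm c, ?_⟩
      apply b.repr.injective
      ext i
      rw [LinearMap.lsmul_apply, map_smul, Finsupp.smul_apply, smul_eq_mul, hc i]
      congr 1
      have := congrFun (b.equivFun.apply_symm_apply c) i
      rw [b.equivFun_apply] at this
      exact this
    · rintro ⟨y, rfl⟩
      funext i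
      rw [hg, LinearMap.lsmul_apply, map_smul, Finsupp.smul_apply, smul_eq_mul, Pi.zero_apply,
        Ideal.Quotient.eq_zero_iff_mem, Ideal.mem_span_singleton]
      exact dvd_mul_right _ _
  have h2 : (LinearMap.range (LinearMap.lsmul R M a)).toAddSubgroup
      = g.toAddMonoidHom.ker := by
    rw [← hker]
    rfl
  rw [h2, AddSubgroup.index_ker, AddMonoidHom.range_eq_top_of_surjective _ hsurj]
  rw [Nat.card_congr (AddSubgroup.topEquiv (G := Fin n → R ⧸ Ideal.span {a})).toEquiv,
    Nat.card_fun, Nat.card_fin]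

end Free

section Loc

variable (q : ℕ) [Fact q.Prime]
variable (K : Type) [Field K] [Algebra ℚ_[q] K] [FiniteDimensional ℚ_[q] K]

theorem card_padicInt_quot : Nat.card (ℤ_[q] ⧸ Ideal.span {(q : ℤ_[q])}) = q := by
  rw [← PadicInt.maximalIdeal_eq_span_p]
  have e : (ℤ_[q] ⧸ maximalIdeal ℤ_[q]) ≃+* ZMod q := PadicInt.residueField
  rw [Nat.card_congr e.toEquiv, Nat.card_zmod]

/-- `#(O / qO) = q ^ [K : ℚ_q]`. -/
theorem card_O_quot_natCast_self :
    Nat.card (O q K ⧸ Ideal.span {((q : ℕ) : O q K)}) = q ^ Module.finrank ℚ_[q] K := by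
  letI := algInt q K
  letI := algIntO q K
  haveI := isScalarTower_algInt q K
  haveI := isScalarTower_algIntO q K
  haveI := isIntegralClosure_O q K
  haveI := moduleFinite_O q K
  haveI : Module.IsTorsionFree ℤ_[q] K := by
    refine Module.IsTorsionFree.of_smul_eq_zero fun r m h => ?_
    rw [Algebra.smul_def, mul_eq_zero] at h
    rcases h with h | h
    · left
      have h1 : algebraMap ℚ_[q] K (r : ℚ_[q]) = 0 := h
      rw [map_eq_zero] at h1
      exact Subtype.ext h1
    · exact Or.inr h
  haveI : Module.Free ℤ_[q] (O q K) := IsIntegralClosure.module_free ℤ_[q] ℚ_[q] K (O q K)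
  have hrank : Module.finrank ℤ_[q] (O q K) = Module.finrank ℚ_[q] K :=
    IsIntegralClosure.rank ℤ_[q] ℚ_[q] K (O q K)
  let b := Module.finBasisOfFinrankEq ℤ_[q] (O q K) hrank
  have h1 := index_range_lsmul_of_basis b (q : ℤ_[q])
  rw [card_padicInt_quot] at h1
  rw [← h1, ← Submodule.cardQuot_apply, Submodule.cardQuot]
  congr 1
  ext x
  simp only [Submodule.mem_toAddSubgroup, Ideal.mem_span_singleton', LinearMap.mem_range,
    LinearMap.lsmul_apply]
  constructor
  · rintro ⟨y, rfl⟩
    refine ⟨y, ?_⟩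
    rw [Algebra.smul_def, map_natCast, mul_comm]
  · rintro ⟨y, rfl⟩
    refine ⟨y, ?_⟩
    rw [Algebra.smul_def, map_natCast, mul_comm]

/-- a prime `p ≠ q` is a unit of `O`, so `O / pO` is trivial. -/
theorem card_O_quot_natCast_of_ne {p : ℕ} (hp : p.Prime) (hpq : p ≠ q) :
    Nat.card (O q K ⧸ Ideal.span {((p : ℕ) : O q K)}) = 1 := by
  have hunit : IsUnit ((p : ℕ) : O q K) := by
    rw [isUnit_iff_nrm_eq_one]
    have h1 : (((p : ℕ) : O q K) : K) = algebraMap ℚ_[q] K ((p : ℕ) : ℚ_[q]) := by
      simp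
    rw [h1, nrm_algebraMap, Padic.norm_natCast_eq_one_iff]
    exact (Nat.coprime_primes (Fact.out : q.Prime) hp).mpr (Ne.symm hpq)
  have htop : Ideal.span {((p : ℕ) : O q K)} = ⊤ := Ideal.span_singleton_eq_top.mpr hunit
  rw [htop]
  haveI : Subsingleton (O q K ⧸ (⊤ : Ideal (O q K))) := Ideal.Quotient.subsingleton_iff.mpr rfl
  exact Nat.card_unique

/-- **Exact index of `p`-th powers** in a finite extension `K` of `ℚ_[q]`:
`#(Kˣ/(Kˣ)^p) = p * #μ_p(K) * (p ^ [K:ℚ_q] if p = q, else 1)`. -/
theorem card_units_quot_pow_loc {p : ℕ} (hp : p.Prime) :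
    Nat.card (Kˣ ⧸ (powMonoidHom p : Kˣ →* Kˣ).range)
      = p * Nat.card (rootsOfUnity p K)
        * (if p = q then p ^ Module.finrank ℚ_[q] K else 1) := by
  haveI : CharZero K := charZero_of_injective_algebraMap (algebraMap ℚ_[q] K).injective
  have hpA : ((p : ℕ) : O q K) ≠ 0 := by
    intro h
    have h1 : (((p : ℕ) : O q K) : K) = 0 := by rw [h]; rfl
    have h2 : ((p : ℕ) : K) = 0 := by simpa using h1
    exact hp.ne_zero (Nat.cast_injective (R := K) (by simpa using h2))
  rw [card_units_quot_pow_field (O q K) K hpA]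
  by_cases hpq : p = q
  · subst hpq
    rw [if_pos rfl, card_O_quot_natCast_self]
    ring
  · rw [if_neg hpq, card_O_quot_natCast_of_ne q K hp hpq]
    ring

end Loc

end Fermat.Agent.CFT.H10
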