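import Mathlib

set_option autoImplicit false

/-!
# CFT / C-SUnit-theorem (helper10), part 1: the valuation vector of an `S`-unit

`K` a number field (more generally the fraction field of a Dedekind domain `R`), `S` a finite set of
finite places.  We define `ordHom v : Kˣ →* Multiplicative ℤ` and the valuation-vector map
`valHom S : S.unit K →* (S → Multiplicative ℤ)` and identify its kernel with the units of `R`.
-/

namespace Fermat.Agent.CFT.H10

open IsDedekindDomain

variable {R : Type*} [CommRing R] [IsDedekindDomain R] (K : Type*) [Field K] [Algebra R K]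
  [IsFractionRing R K]

/-- The order of a nonzero element at the finite place `v`, as a homomorphism
`Kˣ →* Multiplicative ℤ` (so that `v.valuation K x = ↑(ordHom K v x)`). -/
noncomputable def ordHom (v : HeightOneSpectrum R) : Kˣ →* Multiplicative ℤ :=
  (WithZero.unitsWithZeroEquiv (α := Multiplicative ℤ)).toMonoidHom.comp
    (Units.map (v.valuation K).toMonoidWithZeroHom.toMonoidHom)

theorem coe_ordHom (v : HeightOneSpectrum R) (x : Kˣ) :
    ((ordHom K v x : Multiplicative ℤ) : WithZero (Multiplicative ℤ)) = v.valuation K (x : K) := by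
  unfold ordHom
  simp

theorem ordHom_eq_one_iff (v : HeightOneSpectrum R) (x : Kˣ) :
    ordHom K v x = 1 ↔ v.valuation K (x : K) = 1 := by
  rw [← coe_ordHom, ← WithZero.coe_one, WithZero.coe_inj]

variable (S : Finset (HeightOneSpectrum R))

/-- The valuation vector of an `S`-unit. -/
noncomputable def valHom : (S : Set (HeightOneSpectrum R)).unit K →* (S → Multiplicative ℤ) :=
  MonoidHom.pi fun v : S => (ordHom K v.1).comp ((S : Set (HeightOneSpectrum R)).unit K).subtype

theorem valHom_apply (x : (S : Set (HeightOneSpectrum R)).unit K) (v : S) :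
    valHom K S x v = ordHom K v.1 (x : Kˣ) := rfl

/-- An `S`-unit in the kernel of the valuation vector has valuation `1` everywhere. -/
theorem valuation_eq_one_of_mem_ker {x : (S : Set (HeightOneSpectrum R)).unit K}
    (hx : x ∈ (valHom K S).ker) (v : HeightOneSpectrum R) : v.valuation K ((x : Kˣ) : K) = 1 := by
  by_cases hv : v ∈ S
  · rw [← ordHom_eq_one_iff]
    have := congrFun (MonoidHom.mem_ker.mp hx) ⟨v, hv⟩
    exact this
  · exact x.property v (by simpa using hv)

/-- Units of `R` are `S`-units. -/
noncomputable def unitsToSUnit : Rˣ →* (S : Set (HeightOneSpectrum R)).unit K where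
  toFun u := ⟨Units.map (algebraMap R K).toMonoidHom u, fun v _ => by
    have h1 := v.valuation_le_one (K := K) (u : R)
    have h2 := v.valuation_le_one (K := K) ((u⁻¹ : Rˣ) : R)
    have h3 : v.valuation K (algebraMap R K (u : R)) * v.valuation K (algebraMap R K ((u⁻¹ : Rˣ) : R))
        = 1 := by
      rw [← map_mul, ← map_mul, Units.mul_inv, map_one, map_one]
    exact eq_one_of_one_le_mul_left h1 h2 h3.ge⟩
  map_one' := by ext; simp
  map_mul' x y := by ext; simp

theorem unitsToSUnit_coe (u : Rˣ) :
    (((unitsToSUnit K S u : (S : Set (HeightOneSpectrum R)).unit K) : Kˣ) : K)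
      = algebraMap R K (u : R) := rfl

theorem unitsToSUnit_injective : Function.Injective (unitsToSUnit (R := R) K S) := by
  intro u u' h
  have := congrArg (fun x : (S : Set (HeightOneSpectrum R)).unit K => ((x : Kˣ) : K)) h
  simp only [unitsToSUnit_coe] at this
  exact Units.ext (IsFractionRing.injective R K this)

theorem valuation_unitsToSUnit (u : Rˣ) (v : HeightOneSpectrum R) :
    v.valuation K (((unitsToSUnit K S u : (S : Set (HeightOneSpectrum R)).unit K) : Kˣ) : K) = 1 := by
  have h1 := v.valuation_le_one (K := K) (u : R)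
  have h2 := v.valuation_le_one (K := K) ((u⁻¹ : Rˣ) : R)
  have h3 : v.valuation K (algebraMap R K (u : R)) * v.valuation K (algebraMap R K ((u⁻¹ : Rˣ) : R))
      = 1 := by
    rw [← map_mul, ← map_mul, Units.mul_inv, map_one, map_one]
  exact eq_one_of_one_le_mul_left h1 h2 h3.ge

/-- The kernel of the valuation vector is the image of the units of `R`. -/
theorem range_unitsToSUnit : (unitsToSUnit (R := R) K S).range = (valHom K S).ker := by
  ext x
  constructor
  · rintro ⟨u, rfl⟩
    rw [MonoidHom.mem_ker]
    funext v
    rw [valHom_apply, Pi.one_apply, ordHom_eq_one_iff]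
    exact valuation_unitsToSUnit K S u v.1
  · intro hx
    have hval := valuation_eq_one_of_mem_ker K S hx
    obtain ⟨a, ha⟩ := HeightOneSpectrum.mem_integers_of_valuation_le_one K ((x : Kˣ) : K)
      (fun v => (hval v).le)
    obtain ⟨b, hb⟩ := HeightOneSpectrum.mem_integers_of_valuation_le_one K (((x : Kˣ)⁻¹ : Kˣ) : K)
      (fun v => by
        rw [Units.val_inv_eq_inv_val, map_inv₀, hval v, inv_one])
    have hab : a * b = 1 := by
      apply IsFractionRing.injective R K
      rw [map_mul, ha, hb, map_one, Units.mul_inv]
    have hba : b * a = 1 := by rw [mul_comm, hab]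
    refine ⟨⟨a, b, hab, hba⟩, ?_⟩
    apply Subtype.ext
    apply Units.ext
    exact ha

end Fermat.Agent.CFT.H10
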