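/-
CFT layer C, package C-DEF (helper42): the action of `Gal(L/K)` on `L ⊗[k] A` through the
left factor (`k → K → L` a tower, `A` any commutative `k`-algebra), and Galois descent of
invariants: `(L ⊗[k] A)^{Gal(L/K)} = K ⊗[k] A`.  Mathlib only.
-/
import Mathlib

namespace Fermat.Agent.CFT.H42

open scoped TensorProduct

noncomputable section

section Action

variable {k K L A : Type*} [CommRing k] [CommRing K] [CommRing L] [CommRing A]
  [Algebra k K] [Algebra k L] [Algebra K L] [IsScalarTower k K L] [Algebra k A]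

/-- `σ ∈ Gal(L/K)` acts on `L ⊗[k] A` as the `A`-algebra (and `k`-algebra) automorphism
`σ ⊗ id`. -/
def tensorAut (σ : L ≃ₐ[K] L) : (L ⊗[k] A) ≃ₐ[k] (L ⊗[k] A) :=
  Algebra.TensorProduct.congr (σ.restrictScalars k) AlgEquiv.refl

@[simp] theorem tensorAut_tmul (σ : L ≃ₐ[K] L) (x : L) (a : A) :
    tensorAut (k := k) (A := A) σ (x ⊗ₜ[k] a) = σ x ⊗ₜ[k] a := rfl

/-- The Mathlib `DistribMulAction` of `Gal(L/K)` on `L ⊗[k] A` (through the left factor)
is the action by `σ ⊗ id`. -/
theorem smul_eq_tensorAut (σ : L ≃ₐ[K] L) (x : L ⊗[k] A) :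
    σ • x = tensorAut (k := k) (A := A) σ x := by
  induction x using TensorProduct.induction_on with
  | zero => simp
  | tmul l a => rfl
  | add x y hx hy => rw [smul_add, hx, hy, map_add]

/-- `Gal(L/K)` acts on `L ⊗[k] A` by ring automorphisms (through the left factor).  The
underlying `DistribMulAction` is Mathlib's `TensorProduct.leftDistribMulAction`. -/
instance tensorMulSemiringAction : MulSemiringAction (L ≃ₐ[K] L) (L ⊗[k] A) :=
  { (TensorProduct.leftDistribMulAction : DistribMulAction (L ≃ₐ[K] L) (L ⊗[k] A)) with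
    smul_one := fun σ => by rw [smul_eq_tensorAut, map_one]
    smul_mul := fun σ x y => by simp only [smul_eq_tensorAut, map_mul] }

@[simp] theorem smul_tmul_left (σ : L ≃ₐ[K] L) (x : L) (a : A) :
    σ • (x ⊗ₜ[k] a) = σ x ⊗ₜ[k] a := rfl

/-- The induced action on the units of `L ⊗[k] A`. -/
instance tensorUnitsAction : MulDistribMulAction (L ≃ₐ[K] L) (L ⊗[k] A)ˣ :=
  Units.mulDistribMulActionRight

@[simp] theorem coe_smul_units (σ : L ≃ₐ[K] L) (u : (L ⊗[k] A)ˣ) :
    ((σ • u : (L ⊗[k] A)ˣ) : L ⊗[k] A) = σ • (u : L ⊗[k] A) := rfl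

/-- The action commutes with scalar multiplication by `A` (on the right factor). -/
theorem smul_includeRight_mul (σ : L ≃ₐ[K] L) (a : A) (x : L ⊗[k] A) :
    σ • ((1 : L) ⊗ₜ[k] a * x) = (1 : L) ⊗ₜ[k] a * σ • x := by
  rw [smul_mul', smul_tmul_left, map_one]

/-- Functoriality in `A`: the action commutes with `id ⊗ f`. -/
theorem smul_map_right {B : Type*} [CommRing B] [Algebra k B] (f : A →ₐ[k] B)
    (σ : L ≃ₐ[K] L) (x : L ⊗[k] A) :
    Algebra.TensorProduct.map (AlgHom.id k L) f (σ • x) =
      σ • Algebra.TensorProduct.map (AlgHom.id k L) f x := by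
  induction x using TensorProduct.induction_on with
  | zero => simp
  | tmul l a => simp
  | add x y hx hy => simp only [smul_add, map_add, hx, hy]

/-- The algebra map `L → L ⊗[k] A` is equivariant. -/
theorem smul_algebraMap (σ : L ≃ₐ[K] L) (x : L) :
    σ • (algebraMap L (L ⊗[k] A) x) = algebraMap L (L ⊗[k] A) (σ x) := by
  rw [Algebra.TensorProduct.algebraMap_apply, smul_tmul_left]
  simp [Algebra.TensorProduct.algebraMap_apply]

end Action

section Descent

variable {k K L A : Type*} [Field k] [Field K] [Field L] [CommRing A]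
  [Algebra k K] [Algebra k L] [Algebra K L] [IsScalarTower k K L] [Algebra k A]

/-- The natural map `K ⊗[k] A → L ⊗[k] A`. -/
def baseIncl : K ⊗[k] A →ₐ[k] L ⊗[k] A :=
  Algebra.TensorProduct.map (IsScalarTower.toAlgHom k K L) (AlgHom.id k A)

@[simp] theorem baseIncl_tmul (x : K) (a : A) :
    baseIncl (k := k) (L := L) (x ⊗ₜ[k] a) = algebraMap K L x ⊗ₜ[k] a := rfl

theorem smul_baseIncl (σ : L ≃ₐ[K] L) (y : K ⊗[k] A) :
    σ • baseIncl (k := k) (L := L) y = baseIncl (k := k) (L := L) y := by
  induction y using TensorProduct.induction_on with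
  | zero => simp
  | tmul x a => simp
  | add x y hx hy => simp only [smul_add, map_add, hx, hy]

/-- **Galois descent for invariants**: an element of `L ⊗[k] A` fixed by `Gal(L/K)` comes
from `K ⊗[k] A`. -/
theorem mem_range_baseIncl_of_fixed [FiniteDimensional K L] [IsGalois K L] (x : L ⊗[k] A) (hx : ∀ σ : L ≃ₐ[K] L, σ • x = x) :
    x ∈ (baseIncl (k := k) (K := K) (L := L) (A := A)).range := by
  classical
  -- choose a `k`-basis of `A`
  let b := Module.Free.chooseBasis k A
  let B := Algebra.TensorProduct.basis L b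
  -- coordinates of `σ • x`
  have hcoord : ∀ (σ : L ≃ₐ[K] L) (y : L ⊗[k] A) i, B.repr (σ • y) i = σ (B.repr y i) := by
    intro σ y i
    induction y using TensorProduct.induction_on with
    | zero => simp
    | tmul l a =>
      simp only [smul_tmul_left, B, Algebra.TensorProduct.basis_repr_tmul, Finsupp.smul_apply,
        Finsupp.mapRange_apply, smul_eq_mul, map_mul]
      congr 1
      rw [IsScalarTower.algebraMap_apply k K L, AlgEquiv.commutes]
    | add y z hy hz => simp only [smul_add, map_add, Finsupp.add_apply, hy, hz]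
  have hfix : ∀ i, ∃ c : K, algebraMap K L c = B.repr x i := by
    intro i
    have : B.repr x i ∈ (⊥ : IntermediateField K L) := by
      rw [IsGalois.mem_bot_iff_fixed]
      intro σ
      rw [← hcoord, hx]
    exact IntermediateField.mem_bot.mp this
  choose c hc using hfix
  refine ⟨∑ i ∈ (B.repr x).support, c i ⊗ₜ[k] b i, ?_⟩
  show baseIncl (k := k) (K := K) (L := L) (A := A) _ = x
  rw [map_sum]
  conv_rhs => rw [← B.linearCombination_repr x, Finsupp.linearCombination_apply, Finsupp.sum]
  refine Finset.sum_congr rfl fun i _ => ?_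
  rw [baseIncl_tmul, hc, Algebra.TensorProduct.basis_apply, TensorProduct.smul_tmul',
    smul_eq_mul, mul_one]

/-- Invariants of `L ⊗[k] A` under `Gal(L/K)` are exactly the image of `K ⊗[k] A`. -/
theorem fixed_iff_mem_range_baseIncl [FiniteDimensional K L] [IsGalois K L] (x : L ⊗[k] A) :
    (∀ σ : L ≃ₐ[K] L, σ • x = x) ↔ x ∈ (baseIncl (k := k) (K := K) (L := L) (A := A)).range :=
  ⟨mem_range_baseIncl_of_fixed x, by rintro ⟨y, rfl⟩ σ; exact smul_baseIncl σ y⟩

/-- `K ⊗[k] A → L ⊗[k] A` is injective. -/
theorem baseIncl_injective : Function.Injective (baseIncl (k := k) (K := K) (L := L) (A := A)) := by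
  have : Function.Injective
      (LinearMap.rTensor A (IsScalarTower.toAlgHom k K L).toLinearMap) :=
    Module.Flat.rTensor_preserves_injective_linearMap _ (algebraMap K L).injective
  intro x y hxy
  apply this
  have h : ∀ z : K ⊗[k] A, LinearMap.rTensor A (IsScalarTower.toAlgHom k K L).toLinearMap z =
      baseIncl (k := k) (L := L) z := by
    intro z
    induction z using TensorProduct.induction_on with
    | zero => simp
    | tmul x a => rfl
    | add x y hx hy => simp only [map_add, hx, hy]
  rw [h, h, hxy]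

end Descent

end

end Fermat.Agent.CFT.H42
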