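/-
CFT layer C, package C-DEF (helper42): the adele ring of `ℚ` as `ℝ × Πʳ_p (ℚ_p, ℤ_p)`,
the adele ring of a `ℚ`-algebra `L` as `L ⊗[ℚ] AQ`, ideles, the Galois action, principal
ideles, local components.  Mathlib only.
-/
import Mathlib
import Fermat.Agent.CFT.H42_TensorAction

namespace Fermat.Agent.CFT.H42

open scoped TensorProduct RestrictedProduct

noncomputable section

/-- Every element of `Nat.Primes` is prime (instance form, needed for `ℚ_[p]`). -/
instance factPrime (p : Nat.Primes) : Fact (p : ℕ).Prime := ⟨p.2⟩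

/-- The finite adeles of `ℚ`: restricted product of the `ℚ_[p]` with respect to `ℤ_[p]`. -/
abbrev AQf : Type := Πʳ p : Nat.Primes, [ℚ_[p], PadicInt.subring p]

/-- A rational number is a `p`-adic integer for all but finitely many `p`. -/
theorem eventually_rat_mem_padicInt (q : ℚ) :
    ∀ᶠ p : Nat.Primes in Filter.cofinite, ((q : ℚ_[p]) ∈ (PadicInt.subring p : Set ℚ_[p])) := by
  rw [Filter.eventually_cofinite]
  have hfin : {p : Nat.Primes | (p : ℕ) ∣ q.den}.Finite := by
    have h1 : {n : ℕ | n ∣ q.den}.Finite := by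
      apply Set.Finite.subset (Set.finite_Iic q.den)
      intro n hn
      exact Nat.le_of_dvd q.den_pos hn
    exact Set.Finite.of_injOn (f := fun p : Nat.Primes => (p : ℕ)) (fun p hp => hp)
      (fun p _ p' _ h => Subtype.ext h) h1
  refine hfin.subset ?_
  intro p hp
  by_contra hnd
  exact hp (by
    show ‖(q : ℚ_[p])‖ ≤ 1
    exact Padic.norm_rat_le_one hnd)

/-- The diagonal embedding `ℚ → AQf`. -/
def ratToAQf : ℚ →+* AQf where
  toFun q := ⟨fun p => (q : ℚ_[p]), eventually_rat_mem_padicInt q⟩
  map_one' := by ext p; exact Rat.cast_one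
  map_mul' a b := by ext p; exact Rat.cast_mul a b
  map_zero' := by ext p; exact Rat.cast_zero
  map_add' a b := by ext p; exact Rat.cast_add a b

instance algebraAQf : Algebra ℚ AQf := ratToAQf.toAlgebra

@[simp] theorem algebraMap_AQf_apply (q : ℚ) (p : Nat.Primes) :
    (algebraMap ℚ AQf q) p = (q : ℚ_[p]) := rfl

/-- The projection of a finite adele of `ℚ` to its `p`-component, as a `ℚ`-algebra map. -/
def AQf.proj (p : Nat.Primes) : AQf →ₐ[ℚ] ℚ_[p] where
  __ := RestrictedProduct.evalRingHom (fun p : Nat.Primes => ℚ_[p]) p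
  commutes' q := by
    show (algebraMap ℚ AQf q) p = algebraMap ℚ ℚ_[p] q
    simp

@[simp] theorem AQf.proj_apply (p : Nat.Primes) (a : AQf) : AQf.proj p a = a p := rfl

/-- The adele ring of `ℚ`: `ℝ × AQf`.  This is a `def` (not an `abbrev`) on purpose: the
`ℚ`-module structure of `AQ` is then only visible through `Algebra ℚ AQ`, which avoids the
`Prod.instModule` / `Algebra.toModule` clash in the type `L ⊗[ℚ] AQ`. -/
def AQ : Type := ℝ × AQf

instance instCommRingAQ : CommRing AQ := inferInstanceAs (CommRing (ℝ × AQf))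

instance instAlgebraAQ : Algebra ℚ AQ := inferInstanceAs (Algebra ℚ (ℝ × AQf))

/-- `AQ` is `ℝ × AQf` (as a `ℚ`-algebra). -/
def AQ.equivProd : AQ ≃ₐ[ℚ] ℝ × AQf := AlgEquiv.refl

/-- The projection `AQ → ℝ`. -/
def AQ.projReal : AQ →ₐ[ℚ] ℝ := (AlgHom.fst ℚ ℝ AQf).comp AQ.equivProd.toAlgHom

/-- The projection `AQ → AQf`. -/
def AQ.projFin : AQ →ₐ[ℚ] AQf := (AlgHom.snd ℚ ℝ AQf).comp AQ.equivProd.toAlgHom

/-- The projection `AQ → ℚ_[p]`. -/
def AQ.proj (p : Nat.Primes) : AQ →ₐ[ℚ] ℚ_[p] := (AQf.proj p).comp AQ.projFin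

/-- Constructor for adeles of `ℚ`. -/
def AQ.mk (r : ℝ) (a : AQf) : AQ := AQ.equivProd.symm (r, a)

@[simp] theorem AQ.projReal_mk (r : ℝ) (a : AQf) : AQ.projReal (AQ.mk r a) = r := rfl
@[simp] theorem AQ.projFin_mk (r : ℝ) (a : AQf) : AQ.projFin (AQ.mk r a) = a := rfl
@[simp] theorem AQ.proj_mk (p : Nat.Primes) (r : ℝ) (a : AQf) : AQ.proj p (AQ.mk r a) = a p := rfl

theorem AQ.ext {a b : AQ} (h1 : AQ.projReal a = AQ.projReal b)
    (h2 : AQ.projFin a = AQ.projFin b) : a = b := Prod.ext h1 h2

instance instNontrivialAQ : Nontrivial AQ := inferInstanceAs (Nontrivial (ℝ × AQf))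

/-! ### Adeles and ideles of a `ℚ`-algebra `L` -/

section Adele

variable (L : Type*) [CommRing L] [Algebra ℚ L]

/-- The adele ring of `L` (a number field, or any `ℚ`-algebra): `L ⊗[ℚ] AQ`.  It is an
`L`-algebra through the left factor and `Gal(L/K)` acts on it through the left factor
(`tensorMulSemiringAction`). -/
abbrev adele : Type _ := L ⊗[ℚ] AQ

/-- The finite adeles of `L`. -/
abbrev adeleFin : Type _ := L ⊗[ℚ] AQf

/-- The local algebra `L ⊗[ℚ] ℚ_[p]` (product of the completions of `L` above `p`). -/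
abbrev locAlg (p : Nat.Primes) : Type _ := L ⊗[ℚ] ℚ_[p]

/-- The archimedean algebra `L ⊗[ℚ] ℝ`. -/
abbrev realAlg : Type _ := L ⊗[ℚ] ℝ

/-- The idele group of `L`. -/
abbrev idele : Type _ := (adele L)ˣ

variable {L}

/-- Projection of the adeles of `L` to the local algebra at `p` (an `L`-algebra map). -/
def adele.toLoc (p : Nat.Primes) : adele L →ₐ[L] locAlg L p :=
  Algebra.TensorProduct.map (AlgHom.id L L) (AQ.proj p)

/-- Projection of the adeles of `L` to the archimedean algebra. -/
def adele.toReal : adele L →ₐ[L] realAlg L :=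
  Algebra.TensorProduct.map (AlgHom.id L L) AQ.projReal

/-- Projection of the adeles of `L` to the finite adeles. -/
def adele.toFin : adele L →ₐ[L] adeleFin L :=
  Algebra.TensorProduct.map (AlgHom.id L L) AQ.projFin

/-- Projection of the finite adeles of `L` to the local algebra at `p`. -/
def adeleFin.toLoc (p : Nat.Primes) : adeleFin L →ₐ[L] locAlg L p :=
  Algebra.TensorProduct.map (AlgHom.id L L) (AQf.proj p)

@[simp] theorem adele.toLoc_tmul (p : Nat.Primes) (x : L) (a : AQ) :
    adele.toLoc p (x ⊗ₜ[ℚ] a) = x ⊗ₜ[ℚ] (AQ.proj p a) := rfl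

@[simp] theorem adele.toReal_tmul (x : L) (a : AQ) :
    adele.toReal (x ⊗ₜ[ℚ] a) = x ⊗ₜ[ℚ] (AQ.projReal a) := rfl

@[simp] theorem adele.toFin_tmul (x : L) (a : AQ) :
    adele.toFin (x ⊗ₜ[ℚ] a) = x ⊗ₜ[ℚ] (AQ.projFin a) := rfl

@[simp] theorem adeleFin.toLoc_tmul (p : Nat.Primes) (x : L) (a : AQf) :
    adeleFin.toLoc p (x ⊗ₜ[ℚ] a) = x ⊗ₜ[ℚ] (a p) := rfl

variable (L) in
/-- The adeles of `L` are the product of the archimedean algebra and the finite adeles. -/
def adele.prodEquiv : adele L ≃ₐ[L] realAlg L × adeleFin L :=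
  (Algebra.TensorProduct.congr (AlgEquiv.refl : L ≃ₐ[L] L) AQ.equivProd).trans
    (Algebra.TensorProduct.prodRight ℚ L L ℝ AQf)

@[simp] theorem adele.prodEquiv_tmul (x : L) (a : AQ) :
    adele.prodEquiv L (x ⊗ₜ[ℚ] a) = (x ⊗ₜ[ℚ] (AQ.projReal a), x ⊗ₜ[ℚ] (AQ.projFin a)) := rfl

theorem adele.prodEquiv_fst (x : adele L) : (adele.prodEquiv L x).1 = adele.toReal x := by
  induction x using TensorProduct.induction_on with
  | zero => simp
  | tmul l a => rfl
  | add x y hx hy => simp only [map_add, Prod.fst_add, hx, hy]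

theorem adele.prodEquiv_snd (x : adele L) : (adele.prodEquiv L x).2 = adele.toFin x := by
  induction x using TensorProduct.induction_on with
  | zero => simp
  | tmul l a => rfl
  | add x y hx hy => simp only [map_add, Prod.snd_add, hx, hy]

variable (L) in
/-- The principal ideles: `Lˣ → idele L`. -/
def principal : Lˣ →* idele L := Units.map (algebraMap L (adele L)).toMonoidHom

@[simp] theorem coe_principal (x : Lˣ) :
    ((principal L x : idele L) : adele L) = (x : L) ⊗ₜ[ℚ] (1 : AQ) := rfl

/-- `L → adele L` is injective when `L` is a field. -/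
theorem algebraMap_adele_injective (F : Type*) [Field F] [Algebra ℚ F] :
    Function.Injective (algebraMap F (adele F)) :=
  Algebra.TensorProduct.includeLeft_injective (S := F) (A := F) (B := AQ)
    (algebraMap ℚ AQ).injective

instance nontrivial_adele (F : Type*) [Field F] [Algebra ℚ F] : Nontrivial (adele F) :=
  (algebraMap_adele_injective F).nontrivial

/-- The principal ideles embed. -/
theorem principal_injective (F : Type*) [Field F] [Algebra ℚ F] :
    Function.Injective (principal F) :=
  Units.map_injective (algebraMap_adele_injective F)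

/-- The idele class group `C_L = idele L / Lˣ`. -/
abbrev ideleClass (L : Type*) [CommRing L] [Algebra ℚ L] : Type _ :=
  idele L ⧸ (principal L).range

end Adele

/-! ### Galois action on adeles, ideles, idele classes -/

section Galois

variable {K L : Type*} [CommRing K] [CommRing L] [Algebra ℚ K] [Algebra ℚ L] [Algebra K L]
  [IsScalarTower ℚ K L]

/-- The Galois action commutes with the projection to the local algebra. -/
theorem adele.toLoc_smul (p : Nat.Primes) (σ : L ≃ₐ[K] L) (x : adele L) :
    adele.toLoc p (σ • x) = σ • adele.toLoc p x :=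
  smul_map_right (AQ.proj p) σ x

theorem adele.toReal_smul (σ : L ≃ₐ[K] L) (x : adele L) :
    adele.toReal (σ • x) = σ • adele.toReal x :=
  smul_map_right AQ.projReal σ x

theorem adele.toFin_smul (σ : L ≃ₐ[K] L) (x : adele L) :
    adele.toFin (σ • x) = σ • adele.toFin x :=
  smul_map_right AQ.projFin σ x

theorem adeleFin.toLoc_smul (p : Nat.Primes) (σ : L ≃ₐ[K] L) (x : adeleFin L) :
    adeleFin.toLoc p (σ • x) = σ • adeleFin.toLoc p x :=
  smul_map_right (AQf.proj p) σ x

/-- The principal ideles are stable under the Galois action, equivariantly. -/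
theorem smul_principal (σ : L ≃ₐ[K] L) (x : Lˣ) :
    σ • principal L x = principal L (σ • x) := by
  ext
  show σ • ((x : L) ⊗ₜ[ℚ] (1 : AQ)) = _
  rw [smul_tmul_left]
  rfl

/-- The action of `σ ∈ Gal(L/K)` on the idele class group. -/
def ideleClassMap (σ : L ≃ₐ[K] L) : ideleClass L →* ideleClass L :=
  QuotientGroup.map _ _ (MulDistribMulAction.toMonoidHom (idele L) σ) (by
    rintro _ ⟨x, rfl⟩
    exact ⟨σ • x, (smul_principal σ x).symm⟩)

@[simp] theorem ideleClassMap_mk (σ : L ≃ₐ[K] L) (x : idele L) :
    ideleClassMap σ (QuotientGroup.mk x) = QuotientGroup.mk (σ • x) := rfl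

/-- `Gal(L/K)` acts on the idele class group `C_L`. -/
instance ideleClassAction : MulDistribMulAction (L ≃ₐ[K] L) (ideleClass L) where
  smul σ c := ideleClassMap σ c
  one_smul c := by
    induction c using QuotientGroup.induction_on with
    | H x => show ideleClassMap (1 : L ≃ₐ[K] L) (QuotientGroup.mk x) = _; simp
  mul_smul σ τ c := by
    induction c using QuotientGroup.induction_on with
    | H x =>
      show ideleClassMap (σ * τ) (QuotientGroup.mk x) =
        ideleClassMap σ (ideleClassMap τ (QuotientGroup.mk x))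
      simp [mul_smul]
  smul_mul σ c d := map_mul (ideleClassMap σ) c d
  smul_one σ := map_one (ideleClassMap σ)

@[simp] theorem smul_ideleClass_mk (σ : L ≃ₐ[K] L) (x : idele L) :
    σ • (QuotientGroup.mk x : ideleClass L) = QuotientGroup.mk (σ • x) := rfl

end Galois

/-! ### Base change of adeles along `K → L` -/

section BaseChange

variable (K L : Type*) [CommRing K] [CommRing L] [Algebra ℚ K] [Algebra ℚ L] [Algebra K L]
  [IsScalarTower ℚ K L]

/-- The natural map `adele K → adele L`. -/
def adeleMap : adele K →ₐ[ℚ] adele L :=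
  Algebra.TensorProduct.map (IsScalarTower.toAlgHom ℚ K L) (AlgHom.id ℚ AQ)

@[simp] theorem adeleMap_tmul (x : K) (a : AQ) :
    adeleMap K L (x ⊗ₜ[ℚ] a) = algebraMap K L x ⊗ₜ[ℚ] a := rfl

/-- The natural map `idele K → idele L`. -/
def ideleMap : idele K →* idele L := Units.map (adeleMap K L).toRingHom.toMonoidHom

@[simp] theorem coe_ideleMap (x : idele K) :
    ((ideleMap K L x : idele L) : adele L) = adeleMap K L (x : adele K) := rfl

theorem ideleMap_principal (x : Kˣ) :
    ideleMap K L (principal K x) = principal L (Units.map (algebraMap K L).toMonoidHom x) := by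
  ext
  rfl

end BaseChange

section BaseChangeField

variable (K L : Type*) [Field K] [Field L] [Algebra ℚ K] [Algebra ℚ L] [Algebra K L]
  [IsScalarTower ℚ K L]

theorem adeleMap_eq_baseIncl : adeleMap K L = baseIncl (k := ℚ) (K := K) (L := L) (A := AQ) := rfl

theorem adeleMap_injective : Function.Injective (adeleMap K L) :=
  baseIncl_injective

theorem ideleMap_injective : Function.Injective (ideleMap K L) :=
  Units.map_injective (adeleMap_injective K L)

/-- `Gal(L/K)` fixes the image of `adele K`. -/
theorem smul_adeleMap (σ : L ≃ₐ[K] L) (x : adele K) : σ • adeleMap K L x = adeleMap K L x :=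
  smul_baseIncl σ x

theorem smul_ideleMap (σ : L ≃ₐ[K] L) (x : idele K) : σ • ideleMap K L x = ideleMap K L x := by
  ext
  exact smul_adeleMap K L σ x

/-- **Galois descent for adeles**: `(adele L)^{Gal(L/K)} = adele K`. -/
theorem adele_fixed_iff [FiniteDimensional K L] [IsGalois K L] (x : adele L) :
    (∀ σ : L ≃ₐ[K] L, σ • x = x) ↔ x ∈ (adeleMap K L).range :=
  fixed_iff_mem_range_baseIncl x

/-- **Galois descent for ideles**: `(idele L)^{Gal(L/K)} = idele K`. -/
theorem idele_fixed_iff [FiniteDimensional K L] [IsGalois K L] (x : idele L) :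
    (∀ σ : L ≃ₐ[K] L, σ • x = x) ↔ x ∈ (ideleMap K L).range := by
  constructor
  · intro h
    have h1 : ∀ σ : L ≃ₐ[K] L, σ • (x : adele L) = x := fun σ => by
      have := congrArg Units.val (h σ); simpa using this
    have h2 : ∀ σ : L ≃ₐ[K] L, σ • ((x⁻¹ : idele L) : adele L) = (x⁻¹ : idele L) := fun σ => by
      have := congrArg (fun u : idele L => ((u⁻¹ : idele L) : adele L)) (h σ)
      simpa using this
    obtain ⟨y, hy⟩ := (adele_fixed_iff K L _).mp h1
    obtain ⟨z, hz⟩ := (adele_fixed_iff K L _).mp h2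
    have hyz : y * z = 1 := by
      apply adeleMap_injective K L
      rw [map_mul, map_one]
      change adeleMap K L y * adeleMap K L z = 1
      have hy' : adeleMap K L y = x := hy
      have hz' : adeleMap K L z = (x⁻¹ : idele L) := hz
      rw [hy', hz', Units.mul_inv]
    refine ⟨⟨y, z, hyz, by rw [mul_comm]; exact hyz⟩, ?_⟩
    ext
    exact hy
  · rintro ⟨y, rfl⟩ σ
    exact smul_ideleMap K L σ y

/-- The Galois norm element `∏ σ, σ • x` of an idele of `L`. -/
def galNormElt [FiniteDimensional K L] (x : idele L) : idele L :=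
  ∏ σ : L ≃ₐ[K] L, σ • x

theorem smul_galNormElt [FiniteDimensional K L] (τ : L ≃ₐ[K] L) (x : idele L) :
    τ • galNormElt K L x = galNormElt K L x := by
  unfold galNormElt
  rw [Finset.smul_prod']
  exact Fintype.prod_equiv (Equiv.mulLeft τ) _ _ (fun σ => by simp [mul_smul])

theorem exists_ideleMap_eq_galNormElt [FiniteDimensional K L] [IsGalois K L] (x : idele L) :
    ∃ y : idele K, ideleMap K L y = galNormElt K L x :=
  (idele_fixed_iff K L _).mp (fun τ => smul_galNormElt K L τ x)

/-- The idele norm `N_{L/K} : idele L → idele K` for a finite Galois extension, defined by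
`ideleMap (N x) = ∏ σ, σ • x`. -/
def ideleNorm [FiniteDimensional K L] [IsGalois K L] : idele L →* idele K where
  toFun x := (exists_ideleMap_eq_galNormElt K L x).choose
  map_one' := by
    apply ideleMap_injective K L
    rw [(exists_ideleMap_eq_galNormElt K L 1).choose_spec, map_one]
    simp [galNormElt]
  map_mul' x y := by
    apply ideleMap_injective K L
    rw [(exists_ideleMap_eq_galNormElt K L (x * y)).choose_spec, map_mul,
      (exists_ideleMap_eq_galNormElt K L x).choose_spec,
      (exists_ideleMap_eq_galNormElt K L y).choose_spec]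
    simp [galNormElt, smul_mul', Finset.prod_mul_distrib]

theorem ideleMap_ideleNorm [FiniteDimensional K L] [IsGalois K L] (x : idele L) :
    ideleMap K L (ideleNorm K L x) = ∏ σ : L ≃ₐ[K] L, σ • x :=
  (exists_ideleMap_eq_galNormElt K L x).choose_spec

/-- The norm of a principal idele is the principal idele of the field norm. -/
theorem ideleNorm_principal [FiniteDimensional K L] [IsGalois K L] (x : Lˣ) :
    ideleNorm K L (principal L x) = principal K (Units.map (Algebra.norm K : L →* K) x) := by
  apply ideleMap_injective K L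
  rw [ideleMap_ideleNorm, ideleMap_principal]
  simp only [smul_principal]
  rw [← map_prod]
  congr 1
  ext
  simp only [Units.coe_prod, Units.coe_map, MonoidHom.coe_coe, RingHom.toMonoidHom_eq_coe,
    Algebra.norm_eq_prod_automorphisms]
  rfl

/-- The norm of an idele coming from `K` is its `[L:K]`-th power. -/
theorem ideleNorm_ideleMap [FiniteDimensional K L] [IsGalois K L] (y : idele K) :
    ideleNorm K L (ideleMap K L y) = y ^ Module.finrank K L := by
  apply ideleMap_injective K L
  rw [ideleMap_ideleNorm, map_pow]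
  simp only [smul_ideleMap, Finset.prod_const, Finset.card_univ]
  rw [← Nat.card_eq_fintype_card, IsGalois.card_aut_eq_finrank]

end BaseChangeField

end

end Fermat.Agent.CFT.H42
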