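/-
CFT layer C, package C-DEFS (helper23, layer-C sub-coordinator): the HYBRID formation module.

For a number field `F`, a finite set `S` of rational primes:
* `JS S F      := (q : S) → (F ⊗[ℚ] ℚ_[q])ˣ`        (the `S`-ideles, finite places above `S` only),
* `PrimesOutside S F` := primes of `𝓞 F` not above `S`,
* `DivS S F    := PrimesOutside S F →₀ ℤ`           (ideals prime to `S`, written additively),
* `IdS S F     := JS S F × Multiplicative (DivS S F)`,
* `diag S F    : Fˣ →* IdS S F`,  `CS S F := IdS S F ⧸ (diag S F).range`.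
`CS S F` is literally `C_F^{fin} / U_{F,S}` (finite idele classes modulo the units outside `S`).
`Gal(F/K)` acts on everything (left tensor factor / permutation of primes).
-/
import Mathlib
import Fermat.Agent.CFT.H42_AdeleDefs
import Fermat.Agent.CFT.H10_SUnitVal

set_option autoImplicit false

namespace Fermat.Agent.CFT.H23

open scoped TensorProduct NumberField
open IsDedekindDomain Fermat.Agent.CFT.H42 Fermat.Agent.CFT.H10

noncomputable section

variable (S : Finset Nat.Primes) (F : Type*) [Field F] [NumberField F]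

/-! ### The `S`-ideles -/

/-- The local algebra `F ⊗[ℚ] ℚ_[q]` (product of the completions of `F` above `q`). -/
abbrev Loc (q : Nat.Primes) : Type _ := F ⊗[ℚ] ℚ_[q]

/-- The `S`-idele group of `F`: finite places above `S` only. -/
abbrev JS : Type _ := (q : S) → (Loc F q.1)ˣ

/-- `Fˣ → (F ⊗ ℚ_q)ˣ`. -/
def toLocUnits (q : Nat.Primes) : Fˣ →* (Loc F q)ˣ :=
  Units.map (algebraMap F (Loc F q) : F →* Loc F q)

/-- The diagonal map `Fˣ → JS S F`. -/
def diagJ : Fˣ →* JS S F := MonoidHom.pi fun q => toLocUnits F q.1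

/-! ### Primes outside `S` and divisors -/

/-- The primes of `𝓞 F` not above any `q ∈ S`. -/
def PrimesOutside : Type _ :=
  {v : HeightOneSpectrum (𝓞 F) // ∀ q ∈ S, ((q : ℕ) : 𝓞 F) ∉ v.asIdeal}

/-- Divisors (fractional ideals) prime to `S`, written additively. -/
abbrev DivS : Type _ := PrimesOutside S F →₀ ℤ

/-- The order of `x ∈ Fˣ` at the prime `v` (`ord_v (π_v) = 1`). -/
def ordAt (v : HeightOneSpectrum (𝓞 F)) : Fˣ →* Multiplicative ℤ :=
  (ordHom F v)⁻¹

theorem ordAt_apply (v : HeightOneSpectrum (𝓞 F)) (x : Fˣ) :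
    ordAt F v x = (ordHom F v x)⁻¹ := rfl

theorem finite_setOf_ordHom_ne_one (x : Fˣ) :
    {v : HeightOneSpectrum (𝓞 F) | ordHom F v x ≠ 1}.Finite := by
  have h1 := HeightOneSpectrum.Support.finite (𝓞 F) (x : F)
  have h2 := HeightOneSpectrum.Support.finite (𝓞 F) ((x⁻¹ : Fˣ) : F)
  refine (h1.union h2).subset ?_
  intro v hv
  simp only [Set.mem_ofPred_eq, ne_eq, ordHom_eq_one_iff] at hv
  simp only [Set.mem_union, HeightOneSpectrum.Support, Set.mem_ofPred_eq]
  rcases lt_or_gt_of_ne hv with h | h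
  · right
    rw [Units.val_inv_eq_inv_val, map_inv₀]
    exact (one_lt_inv₀ (by simp [zero_lt_iff])).2 h
  · left; exact h

/-- The divisor (outside `S`) of `x ∈ Fˣ`. -/
def divS : Fˣ →* Multiplicative (DivS S F) where
  toFun x := Multiplicative.ofAdd <|
    Finsupp.ofSupportFinite (fun v : PrimesOutside S F => Multiplicative.toAdd (ordAt F v.1 x)) <| by
      have h := finite_setOf_ordHom_ne_one F x
      refine (h.preimage (Subtype.val_injective.injOn)).subset ?_
      intro v hv
      have hv' : Multiplicative.toAdd (ordAt F v.1 x) ≠ 0 := hv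
      show ordHom F v.1 x ≠ 1
      intro h1
      apply hv'
      rw [ordAt_apply, h1]
      rfl
  map_one' := by
    apply congrArg Multiplicative.ofAdd
    ext v
    simp [Finsupp.ofSupportFinite_coe]
  map_mul' x y := by
    rw [← ofAdd_add]
    apply congrArg Multiplicative.ofAdd
    ext v
    simp [Finsupp.ofSupportFinite_coe]

theorem divS_apply (x : Fˣ) (v : PrimesOutside S F) :
    Multiplicative.toAdd (divS S F x) v = Multiplicative.toAdd (ordAt F v.1 x) := rfl

/-! ### The hybrid idele group and the formation module -/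

/-- `S`-ideles times divisors outside `S`. -/
abbrev IdS : Type _ := JS S F × Multiplicative (DivS S F)

/-- The diagonal embedding `Fˣ → IdS S F`. -/
def diag : Fˣ →* IdS S F := (diagJ S F).prod (divS S F)

/-- The hybrid idele class group `C_F^{fin} / U_{F,S}`. -/
abbrev CS : Type _ := IdS S F ⧸ (diag S F).range

/-- The projection `IdS S F → CS S F`. -/
def toCS : IdS S F →* CS S F := QuotientGroup.mk' _

end

/-! ### Transport of valuations along ring automorphisms -/

noncomputable section Transport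

open scoped WithZero

theorem withZero_eq_of_le_exp_iff {a b : ℤᵐ⁰} (ha : a ≠ 0) (hb : b ≠ 0) (ha1 : a ≤ 1) (hb1 : b ≤ 1)
    (h : ∀ n : ℕ, a ≤ WithZero.exp (-(n : ℤ)) ↔ b ≤ WithZero.exp (-(n : ℤ))) : a = b := by
  have key : ∀ {c : ℤᵐ⁰}, c ≠ 0 → c ≤ 1 → ∃ k : ℕ, c = WithZero.exp (-(k : ℤ)) := by
    intro c hc hc1
    refine ⟨(-(WithZero.log c)).toNat, ?_⟩
    have hlog : WithZero.log c ≤ 0 := by
      rw [← WithZero.log_one]
      exact WithZero.log_le_log hc one_ne_zero |>.2 hc1
    rw [Int.toNat_of_nonneg (by omega), neg_neg, WithZero.exp_log hc]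
  obtain ⟨ka, hka⟩ := key ha ha1
  obtain ⟨kb, hkb⟩ := key hb hb1
  apply le_antisymm
  · have := (h kb).2 (le_of_eq hkb)
    rwa [← hkb] at this
  · have := (h ka).1 (le_of_eq hka)
    rwa [← hka] at this

variable {R : Type*} [CommRing R] [IsDedekindDomain R]

theorem asIdeal_equivOfRingEquiv (e : R ≃+* R) (v : HeightOneSpectrum R) :
    (HeightOneSpectrum.equivOfRingEquiv e v).asIdeal = v.asIdeal.map (e : R →+* R) := by
  show v.asIdeal.comap (e.symm : R →+* R) = _
  exact (Ideal.map_comap_of_equiv e).symm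

theorem intValuation_equivOfRingEquiv (e : R ≃+* R) (v : HeightOneSpectrum R) (r : R) :
    (HeightOneSpectrum.equivOfRingEquiv e v).intValuation (e r) = v.intValuation r := by
  by_cases hr : r = 0
  · simp [hr]
  have her : e r ≠ 0 := by simpa using hr
  apply withZero_eq_of_le_exp_iff (HeightOneSpectrum.intValuation_ne_zero _ _ her)
    (HeightOneSpectrum.intValuation_ne_zero _ _ hr) (HeightOneSpectrum.intValuation_le_one _ _)
    (HeightOneSpectrum.intValuation_le_one _ _)
  intro n
  rw [HeightOneSpectrum.intValuation_le_pow_iff_mem, HeightOneSpectrum.intValuation_le_pow_iff_mem,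
    asIdeal_equivOfRingEquiv, ← Ideal.map_pow]
  constructor
  · intro h
    obtain ⟨y, hy, hye⟩ := (Ideal.mem_map_iff_of_surjective (e : R →+* R) e.surjective).1 h
    have : y = r := e.injective hye
    rwa [← this]
  · intro h
    exact Ideal.mem_map_of_mem _ h

/-- Valuations are transported by a ring automorphism of `R` compatible with a field
automorphism of the fraction field. -/
theorem valuation_equivOfRingEquiv {K : Type*} [Field K] [Algebra R K] [IsFractionRing R K]
    (e : R ≃+* R) (φ : K ≃+* K) (hφ : ∀ r : R, φ (algebraMap R K r) = algebraMap R K (e r))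
    (v : HeightOneSpectrum R) (x : K) :
    (HeightOneSpectrum.equivOfRingEquiv e v).valuation K (φ x) = v.valuation K x := by
  obtain ⟨r, s, hs, rfl⟩ := IsFractionRing.div_surjective (A := R) x
  rw [map_div₀, hφ, hφ, map_div₀, map_div₀, HeightOneSpectrum.valuation_of_algebraMap,
    HeightOneSpectrum.valuation_of_algebraMap, HeightOneSpectrum.valuation_of_algebraMap,
    HeightOneSpectrum.valuation_of_algebraMap, intValuation_equivOfRingEquiv,
    intValuation_equivOfRingEquiv]

end Transport

/-! ### The Galois action -/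

noncomputable section Action

variable (S : Finset Nat.Primes) (F : Type*) [Field F] [NumberField F]
  (K : Type*) [Field K] [CharZero K] [Algebra K F]

/-- The ring automorphism of `𝓞 F` induced by `σ ∈ Gal(F/K)`. -/
def ringAut (σ : F ≃ₐ[K] F) : 𝓞 F ≃+* 𝓞 F :=
  MulSemiringAction.toRingEquiv (F ≃ₐ[K] F) (𝓞 F) σ

theorem ringAut_apply (σ : F ≃ₐ[K] F) (x : 𝓞 F) : ringAut F K σ x = σ • x := rfl

theorem coe_ringAut_apply (σ : F ≃ₐ[K] F) (x : 𝓞 F) : ((ringAut F K σ x : 𝓞 F) : F) = σ (x : F) :=
  rfl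

/-- `Gal(F/K)` permutes the primes of `𝓞 F`: `σ • v = σ(v)`. -/
instance primesMulAction : MulAction (F ≃ₐ[K] F) (HeightOneSpectrum (𝓞 F)) where
  smul σ v := HeightOneSpectrum.equivOfRingEquiv (ringAut F K σ) v
  one_smul v := by
    apply HeightOneSpectrum.ext
    show v.asIdeal.comap ((ringAut F K 1).symm : 𝓞 F →+* 𝓞 F) = v.asIdeal
    ext x
    rw [Ideal.mem_comap]
    have : ((ringAut F K 1).symm : 𝓞 F →+* 𝓞 F) x = x := by
      apply (ringAut F K 1).injective
      rw [RingHom.coe_coe, RingEquiv.apply_symm_apply, ringAut_apply, one_smul]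
    rw [this]
  mul_smul σ τ v := by
    apply HeightOneSpectrum.ext
    show v.asIdeal.comap ((ringAut F K (σ * τ)).symm : 𝓞 F →+* 𝓞 F) =
      (v.asIdeal.comap ((ringAut F K τ).symm : 𝓞 F →+* 𝓞 F)).comap
        ((ringAut F K σ).symm : 𝓞 F →+* 𝓞 F)
    ext x
    rw [Ideal.mem_comap, Ideal.mem_comap, Ideal.mem_comap]
    have : ((ringAut F K (σ * τ)).symm : 𝓞 F →+* 𝓞 F) x =
        ((ringAut F K τ).symm : 𝓞 F →+* 𝓞 F) (((ringAut F K σ).symm : 𝓞 F →+* 𝓞 F) x) := by
      apply (ringAut F K (σ * τ)).injective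
      rw [RingHom.coe_coe, RingEquiv.apply_symm_apply, RingHom.coe_coe, RingHom.coe_coe,
        ringAut_apply, mul_smul, ← ringAut_apply F K τ, RingEquiv.apply_symm_apply,
        ← ringAut_apply F K σ, RingEquiv.apply_symm_apply]
    rw [this]

theorem smul_prime_def (σ : F ≃ₐ[K] F) (v : HeightOneSpectrum (𝓞 F)) :
    σ • v = HeightOneSpectrum.equivOfRingEquiv (ringAut F K σ) v := rfl

theorem mem_smul_prime_iff (σ : F ≃ₐ[K] F) (v : HeightOneSpectrum (𝓞 F)) (x : 𝓞 F) :
    x ∈ (σ • v).asIdeal ↔ σ⁻¹ • x ∈ v.asIdeal := by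
  show x ∈ v.asIdeal.comap ((ringAut F K σ).symm : 𝓞 F →+* 𝓞 F) ↔ _
  rw [Ideal.mem_comap]
  have : ((ringAut F K σ).symm : 𝓞 F →+* 𝓞 F) x = σ⁻¹ • x := by
    apply (ringAut F K σ).injective
    rw [RingHom.coe_coe, RingEquiv.apply_symm_apply, ringAut_apply, smul_inv_smul]
  rw [this]

theorem smul_mem_smul_prime_iff (σ : F ≃ₐ[K] F) (v : HeightOneSpectrum (𝓞 F)) (x : 𝓞 F) :
    σ • x ∈ (σ • v).asIdeal ↔ x ∈ v.asIdeal := by
  rw [mem_smul_prime_iff, inv_smul_smul]

/-- Valuations are Galois-equivariant: `ord_{σ v}(σ x) = ord_v(x)`. -/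
theorem valuation_smul_smul (σ : F ≃ₐ[K] F) (v : HeightOneSpectrum (𝓞 F)) (x : F) :
    (σ • v).valuation F (σ x) = v.valuation F x :=
  valuation_equivOfRingEquiv (ringAut F K σ) (σ : F ≃+* F) (fun _ => rfl) v x

theorem ordHom_smul_smul (σ : F ≃ₐ[K] F) (v : HeightOneSpectrum (𝓞 F)) (x : Fˣ) :
    ordHom F (σ • v) (Units.map (σ : F →* F) x) = ordHom F v x := by
  apply WithZero.coe_injective
  rw [coe_ordHom, coe_ordHom]
  exact valuation_smul_smul F K σ v (x : F)

theorem natCast_smul_ringOfIntegers (σ : F ≃ₐ[K] F) (n : ℕ) : σ • (n : 𝓞 F) = (n : 𝓞 F) := by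
  apply Subtype.ext
  show σ ((n : 𝓞 F) : F) = ((n : 𝓞 F) : F)
  simp

/-- `Gal(F/K)` permutes the primes outside `S`. -/
instance primesOutsideMulAction : MulAction (F ≃ₐ[K] F) (PrimesOutside S F) where
  smul σ v := ⟨(σ • v.1 : HeightOneSpectrum (𝓞 F)), fun q hq h => v.2 q hq (by
    have h' := (mem_smul_prime_iff F K σ v.1 _).1 h
    rwa [natCast_smul_ringOfIntegers] at h')⟩
  one_smul v := Subtype.ext (one_smul _ v.1)
  mul_smul σ τ v := Subtype.ext (mul_smul σ τ v.1)

@[simp] theorem coe_smul_primesOutside (σ : F ≃ₐ[K] F) (v : PrimesOutside S F) :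
    (σ • v).1 = σ • v.1 := rfl

/-- The permutation action on divisors: `(σ • D) v = D (σ⁻¹ v)`. -/
instance divSDistribMulAction : DistribMulAction (F ≃ₐ[K] F) (DivS S F) :=
  Finsupp.comapDistribMulAction

theorem smul_divS_apply (σ : F ≃ₐ[K] F) (D : DivS S F) (v : PrimesOutside S F) :
    (σ • D) v = D (σ⁻¹ • v) := Finsupp.comapSMul_apply σ D v

/-- A `DistribMulAction` on `A` gives a `MulDistribMulAction` on `Multiplicative A`. -/
instance multiplicativeMulDistribMulAction {G A : Type*} [Monoid G] [AddMonoid A]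
    [DistribMulAction G A] : MulDistribMulAction G (Multiplicative A) where
  smul g a := Multiplicative.ofAdd (g • Multiplicative.toAdd a)
  one_smul a := by show Multiplicative.ofAdd ((1 : G) • Multiplicative.toAdd a) = a; simp
  mul_smul g h a := by
    show Multiplicative.ofAdd ((g * h) • Multiplicative.toAdd a) =
      Multiplicative.ofAdd (g • Multiplicative.toAdd (Multiplicative.ofAdd (h • Multiplicative.toAdd a)))
    simp [mul_smul]
  smul_mul g a b := by
    show Multiplicative.ofAdd (g • Multiplicative.toAdd (a * b)) =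
      Multiplicative.ofAdd (g • Multiplicative.toAdd a) * Multiplicative.ofAdd (g • Multiplicative.toAdd b)
    simp [smul_add]
  smul_one g := by
    show Multiplicative.ofAdd (g • Multiplicative.toAdd (1 : Multiplicative A)) = 1
    simp

theorem toAdd_smul {G A : Type*} [Monoid G] [AddMonoid A] [DistribMulAction G A] (g : G)
    (a : Multiplicative A) : Multiplicative.toAdd (g • a) = g • Multiplicative.toAdd a := rfl

theorem smul_units_eq (σ : F ≃ₐ[K] F) (x : Fˣ) : σ • x = Units.map (σ : F →* F) x := by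
  ext; rfl

/-- The diagonal map is Galois-equivariant. -/
theorem diag_smul (σ : F ≃ₐ[K] F) (x : Fˣ) : diag S F (σ • x) = σ • diag S F x := by
  refine Prod.ext ?_ ?_
  · funext q
    apply Units.ext
    show algebraMap F (Loc F q.1) (σ (x : F)) = σ • algebraMap F (Loc F q.1) (x : F)
    rw [H42.smul_algebraMap]
  · show divS S F (σ • x) = σ • divS S F x
    apply congrArg Multiplicative.ofAdd
    ext v
    rw [smul_divS_apply]
    show Multiplicative.toAdd (ordAt F v.1 (σ • x)) = Multiplicative.toAdd (ordAt F (σ⁻¹ • v).1 x)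
    rw [ordAt_apply, ordAt_apply, smul_units_eq, coe_smul_primesOutside,
      ← ordHom_smul_smul F K σ (σ⁻¹ • v.1) x, smul_inv_smul]

theorem smul_mem_range_diag (σ : F ≃ₐ[K] F) {x : IdS S F} (hx : x ∈ (diag S F).range) :
    σ • x ∈ (diag S F).range := by
  obtain ⟨y, rfl⟩ := hx
  exact ⟨σ • y, diag_smul S F K σ y⟩

/-- The action of `σ` on `CS S F`, as a group endomorphism. -/
def smulCS (σ : F ≃ₐ[K] F) : CS S F →* CS S F :=
  QuotientGroup.map _ _ (MulDistribMulAction.toMonoidHom (IdS S F) σ)
    (fun _ hx => smul_mem_range_diag S F K σ hx)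

theorem smulCS_mk (σ : F ≃ₐ[K] F) (x : IdS S F) :
    smulCS S F K σ (QuotientGroup.mk x) = QuotientGroup.mk (σ • x) := rfl

/-- `Gal(F/K)` acts on the hybrid idele class group. -/
instance csAction : MulDistribMulAction (F ≃ₐ[K] F) (CS S F) where
  smul σ c := smulCS S F K σ c
  one_smul c := by
    induction c using QuotientGroup.induction_on with
    | H x => exact congrArg QuotientGroup.mk (one_smul (F ≃ₐ[K] F) x)
  mul_smul σ τ c := by
    induction c using QuotientGroup.induction_on with
    | H x => exact congrArg QuotientGroup.mk (mul_smul σ τ x)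
  smul_mul σ a b := map_mul (smulCS S F K σ) a b
  smul_one σ := map_one (smulCS S F K σ)

theorem smul_toCS (σ : F ≃ₐ[K] F) (x : IdS S F) : σ • toCS S F x = toCS S F (σ • x) := rfl

/-- The formation module as a `ℤ`-linear representation of `Gal(F/K)`. -/
abbrev repCS : Rep ℤ (F ≃ₐ[K] F) := Rep.ofMulDistribMulAction (F ≃ₐ[K] F) (CS S F)

/-- The hybrid ideles as a representation. -/
abbrev repIdS : Rep ℤ (F ≃ₐ[K] F) := Rep.ofMulDistribMulAction (F ≃ₐ[K] F) (IdS S F)

/-- `Fˣ` as a representation (Mathlib's `Rep.ofAlgebraAutOnUnits`). -/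
abbrev repUnits : Rep ℤ (F ≃ₐ[K] F) := Rep.ofAlgebraAutOnUnits K F

/-- `diag` as an equivariant map, i.e. a morphism of representations `Fˣ → IdS`. -/
def diagHom : repUnits F K ⟶ repIdS S F K :=
  Rep.ofHom
    { toLinearMap := (diag S F).toAdditive.toIntLinearMap
      isIntertwining' := fun σ => LinearMap.ext fun x =>
        congrArg Additive.ofMul (diag_smul S F K σ (Additive.toMul x)) }

/-- The projection `IdS → CS` as a morphism of representations. -/
def toCSHom : repIdS S F K ⟶ repCS S F K :=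
  Rep.ofHom
    { toLinearMap := (toCS S F).toAdditive.toIntLinearMap
      isIntertwining' := fun σ => LinearMap.ext fun x => rfl }

end Action

end Fermat.Agent.CFT.H23
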