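/-
CFT layer C, package C-LOC-places-decomp (helper18): decomposition of `F ⊗[k] A` over the
"places of the base field".

For a tower of fields `k ⊆ K ⊆ F` and a commutative `k`-algebra `A` such that `K ⊗[k] A` is a
reduced artinian ring (e.g. `K/k` finite separable and `A` a field, such as `A = ℚ_[q]`), we have
`K ⊗[k] A = Π_u K_u` (`u` the maximal ideals, `K_u` the residue fields) and hence
  `tDecomp : F ⊗[k] A ≃ₐ[F] Π u, F ⊗[K] K_u`,
equivariantly for `Gal(F/K)` acting on the left tensor factors (`tDecomp_smul`).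
Unit version `tDecompUnits`, projections `tProj`, `tProjUnits`, `tProjRep` (morphisms of
`Rep ℤ Gal(F/K)`) with the joint injectivity / surjectivity statements in the shape consumed by
`H48.prodMap_bijective`.  Specialisation to `Loc F q = F ⊗[ℚ] ℚ_[q]` at the end.
-/
import Mathlib
import Fermat.Agent.CFT.H42_TensorAction
import Fermat.Agent.CFT.H23_CDefs

namespace Fermat.Agent.CFT.H18

open scoped TensorProduct
open Fermat.Agent.CFT

noncomputable section

section Instances

/-- `K ⊗[k] A` is reduced for `K/k` finite separable and `A` a field. -/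
theorem isReduced_tensor_of_isSeparable (k K A : Type*) [Field k] [Field K] [Field A]
    [Algebra k K] [Algebra k A] [Algebra.IsSeparable k K] [FiniteDimensional k K] :
    IsReduced (K ⊗[k] A) := by
  have h1 : Algebra.FormallyUnramified k K := Algebra.FormallyUnramified.of_isSeparable k K
  have h2 : Algebra.FormallyUnramified A (A ⊗[k] K) := inferInstance
  have h3 : Algebra.EssFiniteType A (A ⊗[k] K) := inferInstance
  have h4 : IsReduced (A ⊗[k] K) := Algebra.FormallyUnramified.isReduced_of_field A (A ⊗[k] K)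
  exact isReduced_of_injective (Algebra.TensorProduct.comm k K A).toRingEquiv.toRingHom
    (Algebra.TensorProduct.comm k K A).injective

/-- `K ⊗[k] A` is artinian for `K/k` finite and `A` a field. -/
theorem isArtinianRing_tensor_of_finite (k K A : Type*) [Field k] [Field K] [Field A]
    [Algebra k K] [Algebra k A] [FiniteDimensional k K] :
    IsArtinianRing (K ⊗[k] A) := by
  have h1 : Module.Finite A (A ⊗[k] K) := inferInstance
  have h2 : IsArtinianRing (A ⊗[k] K) := IsArtinianRing.of_finite A _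
  exact (Algebra.TensorProduct.comm k K A).toRingEquiv.symm.isArtinianRing

end Instances

section General

variable (k K F A : Type*) [Field k] [Field K] [Field F] [CommRing A]
  [Algebra k K] [Algebra k F] [Algebra K F] [IsScalarTower k K F] [Algebra k A]

/-- The factor of `K ⊗[k] A` at a maximal ideal `u`. -/
abbrev Factor (u : MaximalSpectrum (K ⊗[k] A)) : Type _ := (K ⊗[k] A) ⧸ u.asIdeal

instance factorField (u : MaximalSpectrum (K ⊗[k] A)) : Field (Factor k K A u) :=
  @Ideal.Quotient.field _ _ u.asIdeal u.isMaximal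

/-- The projection `K ⊗[k] A → K_u`. -/
def toFactor (u : MaximalSpectrum (K ⊗[k] A)) : K ⊗[k] A →ₐ[K] Factor k K A u :=
  Ideal.Quotient.mkₐ K u.asIdeal

theorem toFactor_surjective (u : MaximalSpectrum (K ⊗[k] A)) :
    Function.Surjective (toFactor k K A u) := Ideal.Quotient.mk_surjective

/-- The structure map `A → K_u`. -/
def factorIncl (u : MaximalSpectrum (K ⊗[k] A)) : A →ₐ[k] Factor k K A u :=
  ((toFactor k K A u).restrictScalars k).comp Algebra.TensorProduct.includeRight

theorem factorIncl_apply (u : MaximalSpectrum (K ⊗[k] A)) (a : A) :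
    factorIncl k K A u a = toFactor k K A u ((1 : K) ⊗ₜ[k] a) := rfl

theorem toFactor_tmul (u : MaximalSpectrum (K ⊗[k] A)) (x : K) (a : A) :
    toFactor k K A u (x ⊗ₜ[k] a) = algebraMap K (Factor k K A u) x * factorIncl k K A u a := by
  rw [factorIncl_apply, ← AlgHom.commutes (toFactor k K A u), ← map_mul,
    Algebra.TensorProduct.algebraMap_apply, Algebra.TensorProduct.tmul_mul_tmul]
  simp

instance factorSemiringAction (u : MaximalSpectrum (K ⊗[k] A)) :
    MulSemiringAction (F ≃ₐ[K] F) (F ⊗[K] Factor k K A u) :=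
  H42.tensorMulSemiringAction (k := K) (K := K) (L := F) (A := Factor k K A u)

instance factorUnitsAction (u : MaximalSpectrum (K ⊗[k] A)) :
    MulDistribMulAction (F ≃ₐ[K] F) (F ⊗[K] Factor k K A u)ˣ :=
  H42.tensorUnitsAction (k := K) (K := K) (L := F) (A := Factor k K A u)

instance factorUnitsMulAction (u : MaximalSpectrum (K ⊗[k] A)) :
    MulAction (F ≃ₐ[K] F) (F ⊗[K] Factor k K A u)ˣ :=
  (factorUnitsAction k K F A u).toMulAction

instance factorUnitsSMul (u : MaximalSpectrum (K ⊗[k] A)) :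
    SMul (F ≃ₐ[K] F) (F ⊗[K] Factor k K A u)ˣ :=
  (factorUnitsMulAction k K F A u).toSMul

variable [IsArtinianRing (K ⊗[k] A)] [IsReduced (K ⊗[k] A)]

/-- **Decomposition over the places of the base field**: `F ⊗[k] A ≃ Π_u F ⊗[K] K_u`, where
`u` runs over the maximal ideals of `K ⊗[k] A` and `K_u` is the residue field at `u`. -/
def tDecomp : F ⊗[k] A ≃ₐ[F] Π u : MaximalSpectrum (K ⊗[k] A), F ⊗[K] Factor k K A u :=
  letI : Fintype (MaximalSpectrum (K ⊗[k] A)) := Fintype.ofFinite _
  letI : DecidableEq (MaximalSpectrum (K ⊗[k] A)) := Classical.decEq _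
  ((Algebra.TensorProduct.cancelBaseChange k K F F A).symm).trans <|
    (Algebra.TensorProduct.congr (AlgEquiv.refl : F ≃ₐ[F] F)
      ((IsArtinianRing.equivPi (K ⊗[k] A)).restrictScalars K)).trans <|
    Algebra.TensorProduct.piRight K F F (fun u => Factor k K A u)

@[simp] theorem tDecomp_tmul (x : F) (a : A) (u : MaximalSpectrum (K ⊗[k] A)) :
    tDecomp k K F A (x ⊗ₜ[k] a) u = x ⊗ₜ[K] factorIncl k K A u a := by
  simp [tDecomp, factorIncl, toFactor]

/-- The decomposition is equivariant for `Gal(F/K)` acting on the left tensor factors. -/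
theorem tDecomp_smul (σ : F ≃ₐ[K] F) (t : F ⊗[k] A) (u : MaximalSpectrum (K ⊗[k] A)) :
    tDecomp k K F A (σ • t) u = σ • tDecomp k K F A t u := by
  induction t using TensorProduct.induction_on with
  | zero => simp
  | tmul x a => simp [H42.smul_tmul_left]
  | add x y hx hy => simp only [smul_add, map_add, Pi.add_apply, hx, hy]

/-- The projection of `F ⊗[k] A` to the factor at `u`. -/
def tProj (u : MaximalSpectrum (K ⊗[k] A)) : F ⊗[k] A →ₐ[F] F ⊗[K] Factor k K A u :=
  (Pi.evalAlgHom F _ u).comp (tDecomp k K F A).toAlgHom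

@[simp] theorem tProj_apply (u : MaximalSpectrum (K ⊗[k] A)) (t : F ⊗[k] A) :
    tProj k K F A u t = tDecomp k K F A t u := rfl

theorem tProj_tmul (u : MaximalSpectrum (K ⊗[k] A)) (x : F) (a : A) :
    tProj k K F A u (x ⊗ₜ[k] a) = x ⊗ₜ[K] factorIncl k K A u a := by simp

theorem tProj_smul (σ : F ≃ₐ[K] F) (t : F ⊗[k] A) (u : MaximalSpectrum (K ⊗[k] A)) :
    tProj k K F A u (σ • t) = σ • tProj k K F A u t := tDecomp_smul k K F A σ t u

/-- Compatibility with the inclusion `K ⊗[k] A → F ⊗[k] A`: on the image of the base, the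
projection to the `u`-factor is the structure map `K_u → F ⊗[K] K_u`. -/
theorem tProj_baseIncl (u : MaximalSpectrum (K ⊗[k] A)) (y : K ⊗[k] A) :
    tProj k K F A u (H42.baseIncl (k := k) (K := K) (L := F) (A := A) y) =
      (1 : F) ⊗ₜ[K] toFactor k K A u y := by
  induction y using TensorProduct.induction_on with
  | zero => simp
  | tmul x a =>
    rw [H42.baseIncl_tmul, tProj_tmul, toFactor_tmul, Algebra.algebraMap_eq_smul_one x,
      TensorProduct.smul_tmul, Algebra.smul_def]
  | add x y hx hy => simp only [map_add, TensorProduct.tmul_add, hx, hy]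

theorem tProj_surjective (u : MaximalSpectrum (K ⊗[k] A)) :
    Function.Surjective (tProj k K F A u) := by
  classical
  intro y
  refine ⟨(tDecomp k K F A).symm (Pi.single u y), ?_⟩
  simp

/-- The decomposition on units. -/
def tDecompUnits :
    (F ⊗[k] A)ˣ ≃* Π u : MaximalSpectrum (K ⊗[k] A), (F ⊗[K] Factor k K A u)ˣ :=
  (Units.mapEquiv (tDecomp k K F A).toMulEquiv).trans MulEquiv.piUnits

@[simp] theorem coe_tDecompUnits (x : (F ⊗[k] A)ˣ) (u : MaximalSpectrum (K ⊗[k] A)) :
    ((tDecompUnits k K F A x u : (F ⊗[K] Factor k K A u)ˣ) : F ⊗[K] Factor k K A u) =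
      tDecomp k K F A (x : F ⊗[k] A) u := rfl

theorem tDecompUnits_smul (σ : F ≃ₐ[K] F) (x : (F ⊗[k] A)ˣ)
    (u : MaximalSpectrum (K ⊗[k] A)) :
    tDecompUnits k K F A (σ • x) u = σ • tDecompUnits k K F A x u := by
  apply Units.ext
  rw [coe_tDecompUnits, H42.coe_smul_units, H42.coe_smul_units, coe_tDecompUnits, tDecomp_smul]

/-- The projection to the `u`-factor on units. -/
def tProjUnits (u : MaximalSpectrum (K ⊗[k] A)) :
    (F ⊗[k] A)ˣ →* (F ⊗[K] Factor k K A u)ˣ :=
  (Pi.evalMonoidHom _ u).comp (tDecompUnits k K F A).toMonoidHom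

@[simp] theorem tProjUnits_apply (u : MaximalSpectrum (K ⊗[k] A)) (x : (F ⊗[k] A)ˣ) :
    tProjUnits k K F A u x = tDecompUnits k K F A x u := rfl

theorem tProjUnits_smul (σ : F ≃ₐ[K] F) (x : (F ⊗[k] A)ˣ) (u : MaximalSpectrum (K ⊗[k] A)) :
    tProjUnits k K F A u (σ • x) = σ • tProjUnits k K F A u x :=
  tDecompUnits_smul k K F A σ x u

theorem tProjUnits_jointly_injective (x y : (F ⊗[k] A)ˣ)
    (h : ∀ u, tProjUnits k K F A u x = tProjUnits k K F A u y) : x = y :=
  (tDecompUnits k K F A).injective (funext h)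

theorem exists_tProjUnits_eq (a : Π u : MaximalSpectrum (K ⊗[k] A), (F ⊗[K] Factor k K A u)ˣ) :
    ∃ x : (F ⊗[k] A)ˣ, ∀ u, tProjUnits k K F A u x = a u :=
  ⟨(tDecompUnits k K F A).symm a, fun u => by simp⟩

end General

section RepPart

variable (k K F A : Type) [Field k] [Field K] [Field F] [CommRing A]
  [Algebra k K] [Algebra k F] [Algebra K F] [IsScalarTower k K F] [Algebra k A]
  [IsArtinianRing (K ⊗[k] A)] [IsReduced (K ⊗[k] A)]

/-- The projection to the `u`-factor as a morphism of `Gal(F/K)`-representations. -/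
def tProjRep (u : MaximalSpectrum (K ⊗[k] A)) :
    Rep.ofMulDistribMulAction (F ≃ₐ[K] F) (F ⊗[k] A)ˣ ⟶
      Rep.ofMulDistribMulAction (F ≃ₐ[K] F) (F ⊗[K] Factor k K A u)ˣ :=
  Rep.ofHom
    { toLinearMap := (tProjUnits k K F A u).toAdditive.toIntLinearMap
      isIntertwining' := fun σ => LinearMap.ext fun x =>
        congrArg Additive.ofMul (tProjUnits_smul k K F A σ (Additive.toMul x) u) }

theorem tProjRep_hom_apply (u : MaximalSpectrum (K ⊗[k] A))
    (x : (Rep.ofMulDistribMulAction (F ≃ₐ[K] F) (F ⊗[k] A)ˣ).V) :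
    (tProjRep k K F A u).hom x = Additive.ofMul (tProjUnits k K F A u (Additive.toMul x)) := rfl

/-- `hinj` of `H48.prodMap_bijective`. -/
theorem tProjRep_hinj (x y : (Rep.ofMulDistribMulAction (F ≃ₐ[K] F) (F ⊗[k] A)ˣ).V)
    (h : ∀ u, (tProjRep k K F A u).hom x = (tProjRep k K F A u).hom y) : x = y := by
  have := tProjUnits_jointly_injective k K F A (Additive.toMul x) (Additive.toMul y)
    (fun u => congrArg Additive.toMul (h u))
  exact congrArg Additive.ofMul this

/-- `hsurj` of `H48.prodMap_bijective`. -/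
theorem tProjRep_hsurj
    (a : ∀ u : MaximalSpectrum (K ⊗[k] A),
      (Rep.ofMulDistribMulAction (F ≃ₐ[K] F) (F ⊗[K] Factor k K A u)ˣ).V) :
    ∃ x : (Rep.ofMulDistribMulAction (F ≃ₐ[K] F) (F ⊗[k] A)ˣ).V,
      ∀ u, (tProjRep k K F A u).hom x = a u := by
  obtain ⟨x, hx⟩ := exists_tProjUnits_eq k K F A (fun u => Additive.toMul (a u))
  exact ⟨Additive.ofMul x, fun u => congrArg Additive.ofMul (hx u)⟩

end RepPart

section Specialisation

open H23

variable (K F : Type*) [Field K] [NumberField K] [Field F] [NumberField F] [Algebra K F]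
  (q : Nat.Primes)

instance isArtinianRing_loc : IsArtinianRing (Loc K q) :=
  isArtinianRing_tensor_of_finite ℚ K ℚ_[q]

instance isReduced_loc : IsReduced (Loc K q) :=
  isReduced_tensor_of_isSeparable ℚ K ℚ_[q]

/-- The completion `K_u` of `K` at the place `u` above `q`, as the residue field of
`Loc K q = K ⊗[ℚ] ℚ_[q]` at the maximal ideal `u`. -/
abbrev LocFactor (u : MaximalSpectrum (Loc K q)) : Type _ := Factor ℚ K ℚ_[q] u

/-- `F ⊗ ℚ_q ≃ Π_{u | q} F ⊗[K] K_u`, `Gal(F/K)`-equivariantly (`tDecomp_smul`). -/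
abbrev locDecomp : Loc F q ≃ₐ[F] Π u : MaximalSpectrum (Loc K q), F ⊗[K] LocFactor K q u :=
  tDecomp ℚ K F ℚ_[q]

/-- `(F ⊗ ℚ_q)ˣ ≃ Π_{u | q} (F ⊗[K] K_u)ˣ`, `Gal(F/K)`-equivariantly (`tDecompUnits_smul`). -/
abbrev locDecompUnits :
    (Loc F q)ˣ ≃* Π u : MaximalSpectrum (Loc K q), (F ⊗[K] LocFactor K q u)ˣ :=
  tDecompUnits ℚ K F ℚ_[q]

example (σ : F ≃ₐ[K] F) (x : (Loc F q)ˣ) (u : MaximalSpectrum (Loc K q)) :
    locDecompUnits K F q (σ • x) u = σ • locDecompUnits K F q x u :=
  tDecompUnits_smul ℚ K F ℚ_[q] σ x u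

end Specialisation
end
end Fermat.Agent.CFT.H18
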