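/-
CFT layer C, package C-EXIST (helper51), part (EX0): the abstract index count.

For an exact sequence `E -d-> J -φ-> C -> 1` of commutative groups such that an element of `E`
which becomes an `n`-th power in `J` is an `n`-th power in `E`:
`#(C / Cⁿ) * #(E / Eⁿ) = #(J / Jⁿ)`.
-/
import Mathlib

set_option autoImplicit false

namespace Fermat.Agent.CFT.H51

section AbstractCount

variable {E J C : Type*} [CommGroup E] [CommGroup J] [CommGroup C]

/-- The subgroup of `n`-th powers. -/
abbrev powSubgroup (G : Type*) [CommGroup G] (n : ℕ) : Subgroup G :=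
  (powMonoidHom n : G →* G).range

theorem mem_powSubgroup_iff {G : Type*} [CommGroup G] {n : ℕ} {x : G} :
    x ∈ powSubgroup G n ↔ ∃ y : G, y ^ n = x := Iff.rfl

theorem map_mem_powSubgroup {G H : Type*} [CommGroup G] [CommGroup H] (f : G →* H) {n : ℕ} {x : G}
    (hx : x ∈ powSubgroup G n) : f x ∈ powSubgroup H n := by
  obtain ⟨y, rfl⟩ := hx
  exact ⟨f y, by simp⟩

/-- The map induced on `G / Gⁿ → H / Hⁿ`. -/
def quotPowMap {G H : Type*} [CommGroup G] [CommGroup H] (f : G →* H) (n : ℕ) :
    G ⧸ powSubgroup G n →* H ⧸ powSubgroup H n :=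
  QuotientGroup.map _ _ f (fun _ hx => map_mem_powSubgroup f hx)

@[simp] theorem quotPowMap_mk {G H : Type*} [CommGroup G] [CommGroup H] (f : G →* H) (n : ℕ)
    (x : G) : quotPowMap f n (QuotientGroup.mk x) = QuotientGroup.mk (f x) := rfl

theorem quotPowMap_surjective {G H : Type*} [CommGroup G] [CommGroup H] (f : G →* H) (n : ℕ)
    (hf : Function.Surjective f) : Function.Surjective (quotPowMap f n) := by
  intro y
  induction y using QuotientGroup.induction_on with
  | H y =>
    obtain ⟨x, rfl⟩ := hf y
    exact ⟨QuotientGroup.mk x, rfl⟩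

/-- Injectivity of `E / Eⁿ → J / Jⁿ` is exactly the "key" condition. -/
theorem quotPowMap_injective_iff {G H : Type*} [CommGroup G] [CommGroup H] (f : G →* H) (n : ℕ) :
    Function.Injective (quotPowMap f n) ↔
      ∀ e : G, f e ∈ powSubgroup H n → e ∈ powSubgroup G n := by
  rw [injective_iff_map_eq_one]
  constructor
  · intro h e he
    have := h (QuotientGroup.mk e) (by
      rw [quotPowMap_mk]
      exact (QuotientGroup.eq_one_iff _).2 he)
    exact (QuotientGroup.eq_one_iff _).1 this
  · intro h x hx
    induction x using QuotientGroup.induction_on with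
    | H x =>
      rw [quotPowMap_mk] at hx
      exact (QuotientGroup.eq_one_iff _).2 (h x ((QuotientGroup.eq_one_iff _).1 hx))

/-- Exactness in the middle of `E / Eⁿ → J / Jⁿ → C / Cⁿ`. -/
theorem ker_quotPowMap_eq_range (d : E →* J) (φ : J →* C) (hφ : Function.Surjective φ)
    (hker : φ.ker = d.range) (n : ℕ) :
    (quotPowMap φ n).ker = (quotPowMap d n).range := by
  ext x
  induction x using QuotientGroup.induction_on with
  | H j =>
    rw [MonoidHom.mem_ker, quotPowMap_mk, QuotientGroup.eq_one_iff]
    constructor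
    · rintro ⟨c, hc⟩
      obtain ⟨j', rfl⟩ := hφ c
      have h1 : j * (j' ^ n)⁻¹ ∈ φ.ker := by
        rw [MonoidHom.mem_ker, map_mul, map_inv, map_pow]
        simp only [powMonoidHom_apply] at hc
        rw [hc, mul_inv_cancel]
      rw [hker] at h1
      obtain ⟨e, he⟩ := h1
      refine ⟨QuotientGroup.mk e, ?_⟩
      rw [quotPowMap_mk, he]
      rw [QuotientGroup.eq]
      refine ⟨j', ?_⟩
      simp only [powMonoidHom_apply]
      group
    · rintro ⟨y, hy⟩
      induction y using QuotientGroup.induction_on with
      | H e =>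
        rw [quotPowMap_mk, QuotientGroup.eq] at hy
        have h2 : φ (d e) = 1 := by
          have : d e ∈ φ.ker := by rw [hker]; exact ⟨e, rfl⟩
          exact this
        have h3 := map_mem_powSubgroup φ hy
        rw [map_mul, map_inv, h2, inv_one, one_mul] at h3
        exact h3

/-- **(EX0)** The abstract index count. -/
theorem card_quot_pow_mul (d : E →* J) (φ : J →* C) (hφ : Function.Surjective φ)
    (hker : φ.ker = d.range) (n : ℕ)
    (hkey : ∀ e : E, d e ∈ powSubgroup J n → e ∈ powSubgroup E n) :
    Nat.card (C ⧸ powSubgroup C n) * Nat.card (E ⧸ powSubgroup E n) =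
      Nat.card (J ⧸ powSubgroup J n) := by
  have hinj : Function.Injective (quotPowMap d n) := (quotPowMap_injective_iff d n).2 hkey
  have hsurj := quotPowMap_surjective φ n hφ
  have hex := ker_quotPowMap_eq_range d φ hφ hker n
  have h1 : Nat.card (quotPowMap φ n).ker * (quotPowMap φ n).ker.index =
      Nat.card (J ⧸ powSubgroup J n) := Subgroup.card_mul_index _
  rw [Subgroup.index_ker, MonoidHom.range_eq_top.2 hsurj, Subgroup.card_top, hex] at h1
  rw [← h1, mul_comm]
  congr 1
  exact Nat.card_congr (Equiv.ofInjective _ hinj)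

/-- Finiteness of `C / Cⁿ` from that of `J / Jⁿ`. -/
theorem finite_quot_pow_of_surjective (φ : J →* C) (hφ : Function.Surjective φ) (n : ℕ)
    [Finite (J ⧸ powSubgroup J n)] : Finite (C ⧸ powSubgroup C n) :=
  Finite.of_surjective _ (quotPowMap_surjective φ n hφ)

end AbstractCount

end Fermat.Agent.CFT.H51
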