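import Mathlib

/-!
# CFT layer C, package C-DICT-places (helper54), part 1

Classification of the nonarchimedean absolute values of a number field `L`: such an absolute
value `w` (nontrivial on `𝓞 L`) is "the same" as the adic valuation at a unique nonzero prime
`primeOfAbv w` of `𝓞 L`.  Mathlib only.
-/

set_option autoImplicit false

namespace Fermat.Agent.CFT.H54

open NumberField IsDedekindDomain Polynomial

section Classification

variable {L : Type*} [Field L] [NumberField L] (w : AbsoluteValue L ℝ)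

/-- A nonarchimedean absolute value is `≤ 1` on algebraic integers. -/
theorem abv_le_one_of_isIntegral (hw : IsNonarchimedean w) {x : L} (hx : IsIntegral ℤ x) :
    w x ≤ 1 := by
  by_contra hgt
  rw [not_le] at hgt
  obtain ⟨f, hfm, hfx⟩ := hx
  have hdeg : f.natDegree ≠ 0 := by
    intro h0
    have : f = 1 := hfm.natDegree_eq_zero.mp h0
    rw [this] at hfx
    simp at hfx
  set n := f.natDegree with hn
  -- `x ^ n = - ∑ i < n, a_i x ^ i`
  have hsum : x ^ n = - ∑ i ∈ Finset.range n, ((f.coeff i : ℤ) : L) * x ^ i := by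
    have h1 := hfx
    rw [eval₂_eq_sum_range, Finset.sum_range_succ, ← hn] at h1
    have h2 : f.coeff n = 1 := hfm.coeff_natDegree
    rw [h2] at h1
    simp only [eq_intCast, Int.cast_one, one_mul] at h1
    linear_combination h1
  have hne : (Finset.range n).Nonempty := Finset.nonempty_range_iff.mpr hdeg
  have h3 : w (x ^ n) ≤ (Finset.range n).sup' hne fun i => w (((f.coeff i : ℤ) : L) * x ^ i) := by
    rw [hsum, map_neg_eq_map]
    exact hw.apply_sum_le_sup hne
  obtain ⟨i, hi, hle⟩ := (Finset.le_sup'_iff hne).mp h3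
  rw [Finset.mem_range] at hi
  have h4 : w (((f.coeff i : ℤ) : L)) ≤ 1 := hw.apply_intCast_le_one
  have h5 : w (((f.coeff i : ℤ) : L) * x ^ i) ≤ w x ^ i := by
    rw [map_mul, map_pow]
    exact mul_le_of_le_one_left (pow_nonneg (w.nonneg x) i) h4
  have h6 : w x ^ i < w x ^ n := pow_lt_pow_right₀ hgt hi
  rw [map_pow] at hle
  linarith

theorem abv_le_one_of_integer (hw : IsNonarchimedean w) (x : 𝓞 L) : w (x : L) ≤ 1 :=
  abv_le_one_of_isIntegral w hw x.2

/-- The ideal of integers of absolute value `< 1`. -/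
def idealOfAbv (hw : IsNonarchimedean w) : Ideal (𝓞 L) where
  carrier := {x | w (x : L) < 1}
  add_mem' := by
    intro a b ha hb
    change w ((a : L) + (b : L)) < 1
    exact lt_of_le_of_lt (hw _ _) (max_lt ha hb)
  zero_mem' := by simp
  smul_mem' := by
    intro c x hx
    change w ((c : L) * (x : L)) < 1
    rw [map_mul]
    exact mul_lt_one_of_nonneg_of_lt_one_right (abv_le_one_of_integer w hw c) (w.nonneg _) hx

theorem mem_idealOfAbv {hw : IsNonarchimedean w} {x : 𝓞 L} :
    x ∈ idealOfAbv w hw ↔ w (x : L) < 1 := Iff.rfl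

theorem idealOfAbv_isPrime (hw : IsNonarchimedean w) : (idealOfAbv w hw).IsPrime := by
  refine ⟨?_, ?_⟩
  · intro h
    have : (1 : 𝓞 L) ∈ idealOfAbv w hw := by rw [h]; trivial
    rw [mem_idealOfAbv] at this
    simp at this
  · intro a b hab
    have hab' : w ((a : L) * (b : L)) < 1 := hab
    rw [map_mul] at hab'
    by_contra hcon
    push Not at hcon
    rw [mem_idealOfAbv, mem_idealOfAbv, not_lt, not_lt] at hcon
    have h1 : w (a : L) = 1 := le_antisymm (abv_le_one_of_integer w hw a) hcon.1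
    have h2 : w (b : L) = 1 := le_antisymm (abv_le_one_of_integer w hw b) hcon.2
    rw [h1, h2] at hab'
    norm_num at hab'

/-- The prime of `𝓞 L` attached to a nonarchimedean absolute value which is nontrivial on
`𝓞 L`. -/
def primeOfAbv (hw : IsNonarchimedean w) (hnt : ∃ x : 𝓞 L, x ≠ 0 ∧ w (x : L) < 1) :
    HeightOneSpectrum (𝓞 L) where
  asIdeal := idealOfAbv w hw
  isPrime := idealOfAbv_isPrime w hw
  ne_bot := by
    obtain ⟨x, hx0, hx⟩ := hnt
    intro h
    have : x ∈ idealOfAbv w hw := hx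
    rw [h, Ideal.mem_bot] at this
    exact hx0 this

variable {w} {hw : IsNonarchimedean w} {hnt : ∃ x : 𝓞 L, x ≠ 0 ∧ w (x : L) < 1}

theorem mem_primeOfAbv {x : 𝓞 L} : x ∈ (primeOfAbv w hw hnt).asIdeal ↔ w (x : L) < 1 := Iff.rfl

theorem abv_eq_one_of_notMem {x : 𝓞 L} (hx : x ∉ (primeOfAbv w hw hnt).asIdeal) :
    w (x : L) = 1 := by
  rw [mem_primeOfAbv, not_lt] at hx
  exact le_antisymm (abv_le_one_of_integer w hw x) hx

/-- `v(x) ≤ 1 → w(x) ≤ 1`. -/
theorem abv_le_one_of_valuation_le_one {x : L}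
    (hx : (primeOfAbv w hw hnt).valuation L x ≤ 1) : w x ≤ 1 := by
  obtain ⟨n, d, hnd⟩ := (primeOfAbv w hw hnt).exists_primeCompl_mul_eq_of_integer x hx
  have hd : w (algebraMap (𝓞 L) L d) = 1 := abv_eq_one_of_notMem d.2
  have h1 := congrArg w hnd
  rw [map_mul, hd, mul_one] at h1
  rw [h1]
  exact abv_le_one_of_integer w hw n

/-- `v(x) < 1 → w(x) < 1`. -/
theorem abv_lt_one_of_valuation_lt_one {x : L}
    (hx : (primeOfAbv w hw hnt).valuation L x < 1) : w x < 1 := by
  obtain ⟨n, d, hnd⟩ := (primeOfAbv w hw hnt).exists_primeCompl_mul_eq_of_integer x hx.le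
  have hd : w (algebraMap (𝓞 L) L d) = 1 := abv_eq_one_of_notMem d.2
  have h1 := congrArg w hnd
  rw [map_mul, hd, mul_one] at h1
  rw [h1]
  have h2 : (primeOfAbv w hw hnt).valuation L (algebraMap (𝓞 L) L n) < 1 := by
    rw [← hnd, map_mul]
    have hd' : (primeOfAbv w hw hnt).valuation L (algebraMap (𝓞 L) L d) = 1 := by
      rw [HeightOneSpectrum.valuation_of_algebraMap,
        HeightOneSpectrum.intValuation_eq_one_iff_mem_primeCompl]
      exact d.2
    rw [hd', mul_one]
    exact hx
  rw [HeightOneSpectrum.valuation_lt_one_iff_mem] at h2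
  exact h2

theorem abv_le_one_iff {x : L} : w x ≤ 1 ↔ (primeOfAbv w hw hnt).valuation L x ≤ 1 := by
  constructor
  · intro h
    by_contra hcon
    rw [not_le] at hcon
    have hx0 : x ≠ 0 := by
      rintro rfl
      simp at hcon
    have h1 : (primeOfAbv w hw hnt).valuation L x⁻¹ < 1 := by
      rw [map_inv₀]
      exact inv_lt_one_of_one_lt₀ hcon
    have h2 := abv_lt_one_of_valuation_lt_one h1
    rw [map_inv₀] at h2
    have h3 : 0 < w x := w.pos hx0
    have h4 : 1 < w x := by
      by_contra h5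
      rw [not_lt] at h5
      have : 1 ≤ (w x)⁻¹ := (one_le_inv₀ h3).mpr h5
      linarith
    linarith
  · exact abv_le_one_of_valuation_le_one

theorem abv_lt_one_iff {x : L} : w x < 1 ↔ (primeOfAbv w hw hnt).valuation L x < 1 := by
  constructor
  · intro h
    by_contra hcon
    rw [not_lt] at hcon
    have hx0 : x ≠ 0 := by
      rintro rfl
      simp at hcon
    have h1 : (primeOfAbv w hw hnt).valuation L x⁻¹ ≤ 1 := by
      rw [map_inv₀]
      exact inv_le_one_of_one_le₀ hcon
    have h2 := abv_le_one_of_valuation_le_one h1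
    rw [map_inv₀] at h2
    have h3 : 0 < w x := w.pos hx0
    have : 1 ≤ w x := by
      rw [inv_le_one₀ h3] at h2
      exact h2
    linarith
  · exact abv_lt_one_of_valuation_lt_one

theorem abv_eq_one_iff {x : L} : w x = 1 ↔ (primeOfAbv w hw hnt).valuation L x = 1 := by
  have h1 := abv_le_one_iff (w := w) (hw := hw) (hnt := hnt) (x := x)
  have h2 := abv_lt_one_iff (w := w) (hw := hw) (hnt := hnt) (x := x)
  constructor
  · intro h
    refine le_antisymm (h1.mp h.le) ?_
    by_contra hcon
    rw [not_le] at hcon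
    have := h2.mpr hcon
    linarith
  · intro h
    refine le_antisymm (h1.mpr h.le) ?_
    by_contra hcon
    rw [not_le] at hcon
    have := h2.mp hcon
    rw [h] at this
    exact lt_irrefl _ this

/-- **Exact formula.** If `π` is a uniformizer at the prime of `w`, then
`w x = (w π) ^ (ord x)` where `ord x = -log (v x)` is the normalised additive valuation. -/
theorem abv_eq_zpow {π : L}
    (hπ : (primeOfAbv w hw hnt).valuation L π = WithZero.exp (-1 : ℤ)) {x : L} (hx : x ≠ 0) :
    w x = w π ^ (-(WithZero.log ((primeOfAbv w hw hnt).valuation L x))) := by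
  set v := primeOfAbv w hw hnt with hv
  have hvx : v.valuation L x ≠ 0 := (Valuation.ne_zero_iff _).mpr hx
  have hπ0 : π ≠ 0 := by
    rintro rfl
    rw [map_zero] at hπ
    exact WithZero.exp_ne_zero hπ.symm
  set n : ℤ := -(WithZero.log (v.valuation L x)) with hn
  have h1 : v.valuation L (x / π ^ n) = 1 := by
    rw [map_div₀, map_zpow₀, hπ, ← WithZero.exp_zsmul, smul_eq_mul, mul_neg, mul_one, hn, neg_neg,
      WithZero.exp_log hvx]
    exact div_self hvx
  have h2 : w (x / π ^ n) = 1 := abv_eq_one_iff.mpr h1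
  rw [map_div₀, map_zpow₀] at h2
  have h3 : w π ^ n ≠ 0 := zpow_ne_zero _ (w.ne_zero hπ0)
  field_simp at h2
  exact h2

/-- The value of `w` at a uniformizer is `< 1` and positive. -/
theorem abv_uniformizer_lt_one {π : L}
    (hπ : (primeOfAbv w hw hnt).valuation L π = WithZero.exp (-1 : ℤ)) : w π < 1 := by
  apply abv_lt_one_of_valuation_lt_one (hw := hw) (hnt := hnt)
  rw [hπ, ← WithZero.exp_zero, WithZero.exp_lt_exp]
  decide

end Classification

section Uniqueness

variable {L : Type*} [Field L] [NumberField L]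

/-- **Uniqueness.** Two nonarchimedean absolute values on a number field with the same prime
which agree at one nonzero element of that prime are equal. -/
theorem abv_eq_of_primeOfAbv_eq {w w' : AbsoluteValue L ℝ} {hw : IsNonarchimedean w}
    {hw' : IsNonarchimedean w'} {hnt : ∃ x : 𝓞 L, x ≠ 0 ∧ w (x : L) < 1}
    {hnt' : ∃ x : 𝓞 L, x ≠ 0 ∧ w' (x : L) < 1}
    (hP : primeOfAbv w hw hnt = primeOfAbv w' hw' hnt') {y : L} (hy0 : y ≠ 0)
    (hy : (primeOfAbv w hw hnt).valuation L y < 1) (h : w y = w' y) : w = w' := by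
  obtain ⟨π, hπ⟩ := (primeOfAbv w hw hnt).valuation_exists_uniformizer L
  have hπ' : (primeOfAbv w' hw' hnt').valuation L π = WithZero.exp (-1 : ℤ) := by rw [← hP]; exact hπ
  have hπ0 : π ≠ 0 := by
    rintro rfl
    rw [map_zero] at hπ
    exact WithZero.exp_ne_zero hπ.symm
  have hvy : (primeOfAbv w hw hnt).valuation L y ≠ 0 := (Valuation.ne_zero_iff _).mpr hy0
  -- the exponent of `y` is positive
  set k : ℤ := -(WithZero.log ((primeOfAbv w hw hnt).valuation L y)) with hk
  have hkpos : 0 < k := by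
    have : WithZero.log ((primeOfAbv w hw hnt).valuation L y) < 0 := by
      have h1 := (WithZero.log_lt_log hvy one_ne_zero).mpr hy
      rw [WithZero.log_one] at h1
      exact h1
    omega
  have e1 := abv_eq_zpow (w := w) (hw := hw) (hnt := hnt) hπ hy0
  have e2 := abv_eq_zpow (w := w') (hw := hw') (hnt := hnt') hπ' hy0
  rw [← hP] at e2
  rw [← hk] at e1 e2
  have e3 : w π ^ k = w' π ^ k := by rw [← e1, ← e2, h]
  obtain ⟨m, hm⟩ := Int.eq_ofNat_of_zero_le hkpos.le
  rw [hm, zpow_natCast, zpow_natCast] at e3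
  have hm0 : m ≠ 0 := by
    rintro rfl
    rw [hm] at hkpos
    exact lt_irrefl _ hkpos
  have e4 : w π = w' π :=
    (pow_left_inj₀ (w.nonneg π) (w'.nonneg π) hm0).mp e3
  ext x
  by_cases hx : x = 0
  · rw [hx, map_zero, map_zero]
  · rw [abv_eq_zpow (w := w) (hw := hw) (hnt := hnt) hπ hx,
      abv_eq_zpow (w := w') (hw := hw') (hnt := hnt') hπ' hx, ← hP, e4]

end Uniqueness

end Fermat.Agent.CFT.H54
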