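import Mathlib
import Fermat.Agent.CFT.H42_AdeleDefs
import Fermat.Agent.CFT.LocDefs
import Fermat.Agent.CFT.H54_AbsClass

/-!
# CFT layer C, package C-DICT-places (helper54), stage 2: places of `L ⊗[ℚ] ℚ_[p]`

For a number field `L : Type` and `p : Nat.Primes`, the maximal ideals `𝔪` of
`H42.locAlg L p = L ⊗[ℚ] ℚ_[p]` are the places of `L` above `p`:

* `Place L p := MaximalSpectrum (locAlg L p)` (finite);
* `locField 𝔪` the residue field, a finite extension of `ℚ_[p]` (layer-B vocabulary applies);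
* `absAt 𝔪 : AbsoluteValue L ℝ`, `x ↦ Loc.nrm p (locField 𝔪) (toLocField 𝔪 x)`;
* `primeAt 𝔪 : HeightOneSpectrum (𝓞 L)`, the prime `{x | absAt 𝔪 x < 1}`, which contains `p`;
* the dictionary `absAt 𝔪 x ⋈ 1 ↔ (primeAt 𝔪).valuation L x ⋈ 1`.
-/

set_option autoImplicit false
set_option linter.unusedSectionVars false
set_option linter.style.haveILetI false
set_option warn.classDefReducibility false

namespace Fermat.Agent.CFT.H54

open NumberField IsDedekindDomain TensorProduct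
open Fermat.Agent.CFT

section Defs

variable (L : Type) [Field L] [NumberField L] (p : Nat.Primes)

/-- The places of `L` above `p`: maximal ideals of `L ⊗[ℚ] ℚ_[p]`. -/
abbrev Place : Type := MaximalSpectrum (H42.locAlg L p)

variable {L p}

/-- The local field at a place: the residue field of `L ⊗[ℚ] ℚ_[p]` at `𝔪`. -/
def locField (𝔪 : Place L p) : Type := H42.locAlg L p ⧸ 𝔪.asIdeal

/-- The field structure of `locField 𝔪`, as a plain (semireducible) definition: instance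
unification must treat it as opaque, since `locField 𝔪` is not reducibly a quotient. -/
noncomputable def locField.fieldStr (𝔪 : Place L p) : Field (locField 𝔪) :=
  @Ideal.Quotient.field _ _ 𝔪.asIdeal 𝔪.isMaximal

noncomputable instance locField.instField (𝔪 : Place L p) : Field (locField 𝔪) :=
  locField.fieldStr 𝔪

/-- The quotient map `L ⊗[ℚ] ℚ_[p] → locField 𝔪`. -/
noncomputable def locMk (𝔪 : Place L p) : H42.locAlg L p →+* locField 𝔪 :=
  Ideal.Quotient.mk 𝔪.asIdeal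

theorem locMk_surjective (𝔪 : Place L p) : Function.Surjective (locMk 𝔪) :=
  Ideal.Quotient.mk_surjective

theorem locMk_eq_zero_iff (𝔪 : Place L p) (a : H42.locAlg L p) :
    locMk 𝔪 a = 0 ↔ a ∈ 𝔪.asIdeal :=
  Ideal.Quotient.eq_zero_iff_mem

noncomputable instance locField.instAlgebraPadic (𝔪 : Place L p) : Algebra ℚ_[p] (locField 𝔪) :=
  ((locMk 𝔪).comp
    (Algebra.TensorProduct.includeRight : ℚ_[p] →ₐ[ℚ] L ⊗[ℚ] ℚ_[p]).toRingHom).toAlgebra

noncomputable instance locField.instAlgebra (𝔪 : Place L p) : Algebra L (locField 𝔪) :=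
  ((locMk 𝔪).comp
    (Algebra.TensorProduct.includeLeft : L →ₐ[ℚ] L ⊗[ℚ] ℚ_[p]).toRingHom).toAlgebra

instance locField.instCharZero (𝔪 : Place L p) : CharZero (locField 𝔪) :=
  charZero_of_injective_ringHom (algebraMap L (locField 𝔪)).injective

instance locField.instIsScalarTowerRat (𝔪 : Place L p) : IsScalarTower ℚ ℚ_[p] (locField 𝔪) :=
  IsScalarTower.of_algebraMap_eq (fun q => by rw [eq_ratCast, eq_ratCast, map_ratCast])

instance locField.instIsScalarTowerRat' (𝔪 : Place L p) : IsScalarTower ℚ L (locField 𝔪) :=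
  IsScalarTower.of_algebraMap_eq (fun q => by rw [eq_ratCast, eq_ratCast, map_ratCast])

/-- The embedding `L → locField 𝔪`. -/
noncomputable def toLocField (𝔪 : Place L p) : L →+* locField 𝔪 := algebraMap L (locField 𝔪)

theorem toLocField_apply (𝔪 : Place L p) (x : L) : toLocField 𝔪 x = locMk 𝔪 (x ⊗ₜ 1) := rfl

theorem algebraMap_padic_apply (𝔪 : Place L p) (c : ℚ_[p]) :
    algebraMap ℚ_[p] (locField 𝔪) c = locMk 𝔪 (1 ⊗ₜ c) := rfl

theorem locMk_tmul (𝔪 : Place L p) (x : L) (c : ℚ_[p]) :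
    locMk 𝔪 (x ⊗ₜ c) = toLocField 𝔪 x * algebraMap ℚ_[p] (locField 𝔪) c := by
  rw [toLocField_apply, algebraMap_padic_apply, ← map_mul, Algebra.TensorProduct.tmul_mul_tmul,
    mul_one, one_mul]

theorem toLocField_injective (𝔪 : Place L p) : Function.Injective (toLocField 𝔪) :=
  (toLocField 𝔪).injective

/-- The `ℚ_[p]`-algebra map `ℚ_[p] ⊗[ℚ] L → locField 𝔪`. -/
noncomputable def fromBaseChange (𝔪 : Place L p) : ℚ_[p] ⊗[ℚ] L →ₐ[ℚ_[p]] locField 𝔪 :=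
  Algebra.TensorProduct.lift (Algebra.ofId ℚ_[p] (locField 𝔪)) (toLocField 𝔪).toRatAlgHom
    (fun _ _ => Commute.all _ _)

theorem fromBaseChange_tmul (𝔪 : Place L p) (c : ℚ_[p]) (x : L) :
    fromBaseChange 𝔪 (c ⊗ₜ x) = algebraMap ℚ_[p] (locField 𝔪) c * toLocField 𝔪 x := by
  simp [fromBaseChange, Algebra.ofId_apply, RingHom.toRatAlgHom]

theorem fromBaseChange_surjective (𝔪 : Place L p) : Function.Surjective (fromBaseChange 𝔪) := by
  intro y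
  obtain ⟨a, rfl⟩ := locMk_surjective 𝔪 y
  induction a using TensorProduct.induction_on with
  | zero => exact ⟨0, by simp⟩
  | tmul x c => exact ⟨c ⊗ₜ x, by rw [fromBaseChange_tmul, locMk_tmul, mul_comm]⟩
  | add a b ha hb =>
    obtain ⟨a', ha'⟩ := ha
    obtain ⟨b', hb'⟩ := hb
    exact ⟨a' + b', by rw [map_add, map_add, ha', hb']⟩

instance locField.instFiniteDimensional (𝔪 : Place L p) :
    FiniteDimensional ℚ_[p] (locField 𝔪) :=
  Module.Finite.of_surjective (fromBaseChange 𝔪).toLinearMap (fromBaseChange_surjective 𝔪)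

end Defs

section Abs

variable {L : Type} [Field L] [NumberField L] {p : Nat.Primes}

/-- The norm of the image of `a : L ⊗[ℚ] ℚ_[p]` in `locField 𝔪`. -/
noncomputable def locNorm (𝔪 : Place L p) (a : H42.locAlg L p) : ℝ :=
  Loc.nrm p (locField 𝔪) (locMk 𝔪 a)

theorem locNorm_def (𝔪 : Place L p) (a : H42.locAlg L p) :
    locNorm 𝔪 a = Loc.nrm p (locField 𝔪) (locMk 𝔪 a) := rfl

theorem locNorm_nonneg (𝔪 : Place L p) (a : H42.locAlg L p) : 0 ≤ locNorm 𝔪 a :=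
  Loc.nrm_nonneg _ _

theorem locNorm_mul (𝔪 : Place L p) (a b : H42.locAlg L p) :
    locNorm 𝔪 (a * b) = locNorm 𝔪 a * locNorm 𝔪 b := by
  rw [locNorm_def, map_mul, Loc.nrm_mul]; rfl

theorem locNorm_add_le_max (𝔪 : Place L p) (a b : H42.locAlg L p) :
    locNorm 𝔪 (a + b) ≤ max (locNorm 𝔪 a) (locNorm 𝔪 b) := by
  rw [locNorm_def, map_add]
  exact Loc.nrm_add_le_max _ _ _

theorem locNorm_neg (𝔪 : Place L p) (a : H42.locAlg L p) : locNorm 𝔪 (-a) = locNorm 𝔪 a := by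
  rw [locNorm_def, map_neg, Loc.nrm_neg]; rfl

theorem locNorm_sub_le_max (𝔪 : Place L p) (a b : H42.locAlg L p) :
    locNorm 𝔪 (a - b) ≤ max (locNorm 𝔪 a) (locNorm 𝔪 b) := by
  rw [sub_eq_add_neg]
  exact (locNorm_add_le_max 𝔪 a (-b)).trans (by rw [locNorm_neg])

theorem locNorm_zero (𝔪 : Place L p) : locNorm 𝔪 0 = 0 := by
  rw [locNorm_def, map_zero, Loc.nrm_zero]

theorem locNorm_one (𝔪 : Place L p) : locNorm 𝔪 1 = 1 := by
  rw [locNorm_def, map_one, Loc.nrm_one]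

theorem locNorm_eq_zero_iff (𝔪 : Place L p) (a : H42.locAlg L p) :
    locNorm 𝔪 a = 0 ↔ a ∈ 𝔪.asIdeal := by
  rw [locNorm_def, Loc.nrm_eq_zero_iff, locMk_eq_zero_iff]

/-- The absolute value on `L` attached to a place `𝔪` above `p`, normalised by `|p| = 1/p`. -/
noncomputable def absAt (𝔪 : Place L p) : AbsoluteValue L ℝ where
  toFun x := Loc.nrm p (locField 𝔪) (toLocField 𝔪 x)
  map_mul' x y := by rw [map_mul, Loc.nrm_mul]
  nonneg' x := Loc.nrm_nonneg _ _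
  eq_zero' x := by rw [Loc.nrm_eq_zero_iff, map_eq_zero]
  add_le' x y := by
    rw [map_add]
    exact (Loc.nrm_add_le_max _ _ _).trans
      (max_le_add_of_nonneg (Loc.nrm_nonneg _ _) (Loc.nrm_nonneg _ _))

theorem absAt_apply (𝔪 : Place L p) (x : L) :
    absAt 𝔪 x = Loc.nrm p (locField 𝔪) (toLocField 𝔪 x) := rfl

theorem absAt_eq_locNorm (𝔪 : Place L p) (x : L) : absAt 𝔪 x = locNorm 𝔪 (x ⊗ₜ 1) := rfl

theorem isNonarchimedean_absAt (𝔪 : Place L p) : IsNonarchimedean (absAt 𝔪) := by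
  intro x y
  rw [absAt_apply, absAt_apply, absAt_apply, map_add]
  exact Loc.nrm_add_le_max _ _ _

theorem locNorm_tmul (𝔪 : Place L p) (x : L) (c : ℚ_[p]) :
    locNorm 𝔪 (x ⊗ₜ c) = absAt 𝔪 x * ‖c‖ := by
  rw [locNorm_def, locMk_tmul, Loc.nrm_mul, Loc.nrm_algebraMap, absAt_apply]

theorem absAt_ratCast (𝔪 : Place L p) (r : ℚ) : absAt 𝔪 (r : L) = ‖(r : ℚ_[p])‖ := by
  rw [absAt_apply, map_ratCast, ← map_ratCast (algebraMap ℚ_[p] (locField 𝔪)),
    Loc.nrm_algebraMap]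

theorem absAt_natCast_p (𝔪 : Place L p) : absAt 𝔪 ((p : ℕ) : L) = ((p : ℕ) : ℝ)⁻¹ := by
  have h := absAt_ratCast 𝔪 ((p : ℕ) : ℚ)
  rw [Rat.cast_natCast, Rat.cast_natCast, Padic.norm_p] at h
  exact h

theorem absAt_natCast_p_lt_one (𝔪 : Place L p) : absAt 𝔪 ((p : ℕ) : L) < 1 := by
  rw [absAt_natCast_p]
  exact inv_lt_one_of_one_lt₀ (by exact_mod_cast p.2.one_lt)

theorem exists_absAt_lt_one (𝔪 : Place L p) : ∃ x : 𝓞 L, x ≠ 0 ∧ absAt 𝔪 (x : L) < 1 := by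
  refine ⟨((p : ℕ) : 𝓞 L), ?_, ?_⟩
  · exact_mod_cast p.2.ne_zero
  · have h := absAt_natCast_p_lt_one 𝔪
    simpa using h

/-- The prime of `𝓞 L` attached to a place `𝔪` above `p`: `{x | absAt 𝔪 x < 1}`. -/
noncomputable def primeAt (𝔪 : Place L p) : HeightOneSpectrum (𝓞 L) :=
  primeOfAbv (absAt 𝔪) (isNonarchimedean_absAt 𝔪) (exists_absAt_lt_one 𝔪)

theorem mem_primeAt (𝔪 : Place L p) {x : 𝓞 L} :
    x ∈ (primeAt 𝔪).asIdeal ↔ absAt 𝔪 (x : L) < 1 := Iff.rfl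

theorem natCast_mem_primeAt (𝔪 : Place L p) : ((p : ℕ) : 𝓞 L) ∈ (primeAt 𝔪).asIdeal := by
  rw [mem_primeAt]
  have h := absAt_natCast_p_lt_one 𝔪
  simpa using h

/-- (V) `|x|_𝔪 ≤ 1 ↔ v_P(x) ≤ 1`, `P = primeAt 𝔪`. -/
theorem absAt_le_one_iff (𝔪 : Place L p) {x : L} :
    absAt 𝔪 x ≤ 1 ↔ (primeAt 𝔪).valuation L x ≤ 1 := abv_le_one_iff

/-- (V) `|x|_𝔪 < 1 ↔ v_P(x) < 1`, `P = primeAt 𝔪`. -/
theorem absAt_lt_one_iff (𝔪 : Place L p) {x : L} :
    absAt 𝔪 x < 1 ↔ (primeAt 𝔪).valuation L x < 1 := abv_lt_one_iff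

/-- (V) `|x|_𝔪 = 1 ↔ v_P(x) = 1`, `P = primeAt 𝔪`. -/
theorem absAt_eq_one_iff (𝔪 : Place L p) {x : L} :
    absAt 𝔪 x = 1 ↔ (primeAt 𝔪).valuation L x = 1 := abv_eq_one_iff

/-- (V) exact formula: `|x|_𝔪 = |π|_𝔪 ^ ord_P(x)` for a uniformizer `π` at `P = primeAt 𝔪`. -/
theorem absAt_eq_zpow (𝔪 : Place L p) {π : L}
    (hπ : (primeAt 𝔪).valuation L π = WithZero.exp (-1 : ℤ)) {x : L} (hx : x ≠ 0) :
    absAt 𝔪 x = absAt 𝔪 π ^ (-(WithZero.log ((primeAt 𝔪).valuation L x))) :=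
  abv_eq_zpow hπ hx

/-- Two places with the same prime have the same absolute value. -/
theorem absAt_eq_of_primeAt_eq {𝔪 𝔪' : Place L p} (h : primeAt 𝔪 = primeAt 𝔪') :
    absAt 𝔪 = absAt 𝔪' := by
  refine abv_eq_of_primeOfAbv_eq (y := ((p : ℕ) : L)) h ?_ ?_ ?_
  · exact_mod_cast p.2.ne_zero
  · exact (absAt_lt_one_iff 𝔪).mp (absAt_natCast_p_lt_one 𝔪)
  · rw [absAt_natCast_p, absAt_natCast_p]

end Abs

section Injective

variable {L : Type} [Field L] [NumberField L] {p : Nat.Primes}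

/-- **Approximation.** `L` is dense in `L ⊗[ℚ] ℚ_[p]` for the norms of any finite set of
places. -/
theorem exists_locNorm_sub_lt (T : Finset (Place L p)) (a : H42.locAlg L p) {ε : ℝ}
    (hε : 0 < ε) : ∃ y : L, ∀ 𝔪 ∈ T, locNorm 𝔪 (a - y ⊗ₜ[ℚ] (1 : ℚ_[p])) < ε := by
  induction a using TensorProduct.induction_on with
  | zero =>
    refine ⟨0, fun 𝔪 _ => ?_⟩
    rw [zero_tmul, sub_zero, locNorm_zero]
    exact hε
  | tmul x c =>
    set M : ℝ := 1 + ∑ 𝔪 ∈ T, absAt 𝔪 x with hM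
    have hsum : 0 ≤ ∑ 𝔪 ∈ T, absAt 𝔪 x := Finset.sum_nonneg (fun 𝔪 _ => (absAt 𝔪).nonneg x)
    have hMpos : 0 < M := by linarith
    obtain ⟨r, hr⟩ := Padic.rat_dense p c (div_pos hε hMpos)
    refine ⟨r • x, fun 𝔪 h𝔪 => ?_⟩
    have e1 : x ⊗ₜ[ℚ] c - (r • x) ⊗ₜ[ℚ] (1 : ℚ_[p]) = x ⊗ₜ[ℚ] (c - (r : ℚ_[p])) := by
      rw [tmul_sub, smul_tmul, Rat.smul_one_eq_cast]
    rw [e1, locNorm_tmul]
    have h1 : absAt 𝔪 x ≤ M := by
      have : absAt 𝔪 x ≤ ∑ 𝔪 ∈ T, absAt 𝔪 x :=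
        Finset.single_le_sum (f := fun 𝔪 => absAt 𝔪 x) (fun 𝔪 _ => (absAt 𝔪).nonneg x) h𝔪
      linarith
    calc absAt 𝔪 x * ‖c - (r : ℚ_[p])‖ ≤ M * ‖c - (r : ℚ_[p])‖ :=
          mul_le_mul_of_nonneg_right h1 (norm_nonneg _)
      _ < M * (ε / M) := mul_lt_mul_of_pos_left hr hMpos
      _ = ε := by field_simp
  | add a b ha hb =>
    obtain ⟨ya, hya⟩ := ha
    obtain ⟨yb, hyb⟩ := hb
    refine ⟨ya + yb, fun 𝔪 h𝔪 => ?_⟩
    have e1 : a + b - (ya + yb) ⊗ₜ[ℚ] (1 : ℚ_[p]) =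
        (a - ya ⊗ₜ[ℚ] (1 : ℚ_[p])) + (b - yb ⊗ₜ[ℚ] (1 : ℚ_[p])) := by
      rw [add_tmul]; abel
    rw [e1]
    exact (locNorm_add_le_max 𝔪 _ _).trans_lt (max_lt (hya 𝔪 h𝔪) (hyb 𝔪 h𝔪))

/-- If `|x - 1| < 1` then `|x| = 1` (nonarchimedean). -/
theorem absAt_eq_one_of_sub_one_lt (𝔪 : Place L p) {x : L} (h : absAt 𝔪 (x - 1) < 1) :
    absAt 𝔪 x = 1 := by
  have hna := isNonarchimedean_absAt 𝔪
  apply le_antisymm
  · have h1 : absAt 𝔪 x ≤ max (absAt 𝔪 (x - 1)) (absAt 𝔪 1) := by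
      have := hna (x - 1) 1
      rwa [sub_add_cancel] at this
    rw [map_one] at h1
    exact h1.trans (max_le h.le le_rfl)
  · by_contra hcon
    rw [not_le] at hcon
    have h1 : absAt 𝔪 1 ≤ max (absAt 𝔪 x) (absAt 𝔪 (x - 1)) := by
      have := hna x (-(x - 1))
      rw [map_neg_eq_map] at this
      have e : x + -(x - 1) = 1 := by ring
      rwa [e] at this
    rw [map_one] at h1
    have : max (absAt 𝔪 x) (absAt 𝔪 (x - 1)) < 1 := max_lt hcon h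
    linarith

/-- (B), injectivity: a place above `p` is determined by its prime of `𝓞 L`. -/
theorem primeAt_injective : Function.Injective (primeAt : Place L p → HeightOneSpectrum (𝓞 L)) := by
  intro 𝔪 𝔪' h
  by_contra hne
  have habs := absAt_eq_of_primeAt_eq h
  have hne' : 𝔪.asIdeal ≠ 𝔪'.asIdeal := fun h' => hne (MaximalSpectrum.ext h')
  have hcop : IsCoprime 𝔪.asIdeal 𝔪'.asIdeal := by
    haveI := 𝔪.isMaximal
    haveI := 𝔪'.isMaximal
    exact Ideal.isCoprime_of_isMaximal hne'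
  obtain ⟨u, hu, e, he, hue⟩ := Ideal.isCoprime_iff_exists.mp hcop
  classical
  obtain ⟨y, hy⟩ := exists_locNorm_sub_lt ({𝔪, 𝔪'} : Finset (Place L p)) e one_pos
  have h1 := hy 𝔪 (by simp)
  have h2 := hy 𝔪' (by simp)
  -- at `𝔪`: `e ≡ 1`
  have e1 : locNorm 𝔪 (e - y ⊗ₜ[ℚ] (1 : ℚ_[p])) = absAt 𝔪 (y - 1) := by
    rw [← locNorm_neg, absAt_eq_locNorm, locNorm_def, locNorm_def]
    congr 1
    rw [← sub_eq_zero, ← map_sub, locMk_eq_zero_iff]
    have : -(e - y ⊗ₜ[ℚ] (1 : ℚ_[p])) - (y - 1) ⊗ₜ[ℚ] (1 : ℚ_[p]) = u := by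
      rw [sub_tmul, ← Algebra.TensorProduct.one_def, ← hue]; ring
    rw [this]
    exact hu
  -- at `𝔪'`: `e ≡ 0`
  have e2 : locNorm 𝔪' (e - y ⊗ₜ[ℚ] (1 : ℚ_[p])) = absAt 𝔪' y := by
    rw [← locNorm_neg, absAt_eq_locNorm, locNorm_def, locNorm_def]
    congr 1
    rw [← sub_eq_zero, ← map_sub, locMk_eq_zero_iff]
    have : -(e - y ⊗ₜ[ℚ] (1 : ℚ_[p])) - y ⊗ₜ[ℚ] (1 : ℚ_[p]) = -e := by ring
    rw [this]
    exact 𝔪'.asIdeal.neg_mem he
  rw [e1] at h1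
  rw [e2] at h2
  have h3 := absAt_eq_one_of_sub_one_lt 𝔪 h1
  rw [habs] at h3
  linarith

end Injective

end Fermat.Agent.CFT.H54
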