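import Mathlib
import Fermat.Agent.CFT.H54_Places

/-!
# CFT layer C, package C-DICT-places (helper54), stage 2b: every prime above `p` is a place

* `placeOfEmb σ : Place L p` for `σ : L →ₐ[ℚ] AlgebraicClosure ℚ_[p]`, with
  `absAt (placeOfEmb σ) x = spectralNorm ℚ_[p] _ (σ x)`;
* the `p`-part of the product formula: `‖(N_{L/ℚ} x : ℚ_[p])‖ = ∏_σ absAt (placeOfEmb σ) x`;
* `exists_primeAt_eq`: every prime `P` of `𝓞 L` containing `p` is `primeAt 𝔪`;
* `placeEquiv : Place L p ≃ {P : HeightOneSpectrum (𝓞 L) // (p : 𝓞 L) ∈ P.asIdeal}`.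
-/

set_option autoImplicit false
set_option linter.unusedSectionVars false
set_option linter.style.haveILetI false

namespace Fermat.Agent.CFT.H54

open NumberField IsDedekindDomain TensorProduct
open Fermat.Agent.CFT

section Artinian

variable (L : Type) [Field L] [NumberField L] (p : Nat.Primes)

instance isArtinianRing_locAlg : IsArtinianRing (H42.locAlg L p) := by
  letI : Algebra ℚ_[p] (L ⊗[ℚ] ℚ_[p]) := Algebra.TensorProduct.rightAlgebra
  haveI : Module.Finite ℚ_[p] (L ⊗[ℚ] ℚ_[p]) :=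
    Module.Finite.equiv (Algebra.TensorProduct.commRight ℚ ℚ_[p] L).toLinearEquiv
  exact IsArtinianRing.of_finite ℚ_[p] _

instance finite_place : Finite (Place L p) := inferInstance

end Artinian

section Emb

variable {L : Type} [Field L] [NumberField L] {p : Nat.Primes}

local notation "E" => AlgebraicClosure ℚ_[p]

/-- The ring map `L ⊗[ℚ] ℚ_[p] → ℚ_p-bar` attached to an embedding `σ`. -/
noncomputable def embLift (σ : L →ₐ[ℚ] AlgebraicClosure ℚ_[p]) :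
    H42.locAlg L p →ₐ[ℚ] AlgebraicClosure ℚ_[p] :=
  Algebra.TensorProduct.lift σ (IsScalarTower.toAlgHom ℚ ℚ_[p] (AlgebraicClosure ℚ_[p]))
    (fun _ _ => Commute.all _ _)

theorem embLift_tmul (σ : L →ₐ[ℚ] AlgebraicClosure ℚ_[p]) (x : L) (c : ℚ_[p]) :
    embLift σ (x ⊗ₜ c) = σ x * algebraMap ℚ_[p] (AlgebraicClosure ℚ_[p]) c := by
  simp [embLift]

/-- The place of `L` above `p` attached to an embedding `σ : L → ℚ_p-bar`. -/
noncomputable def placeOfEmb (σ : L →ₐ[ℚ] AlgebraicClosure ℚ_[p]) : Place L p :=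
  ⟨RingHom.ker (embLift σ), by
    haveI : (RingHom.ker (embLift σ)).IsPrime := RingHom.ker_isPrime (embLift σ)
    exact IsArtinianRing.isMaximal_of_isPrime _⟩

theorem mem_placeOfEmb (σ : L →ₐ[ℚ] AlgebraicClosure ℚ_[p]) (a : H42.locAlg L p) :
    a ∈ (placeOfEmb σ).asIdeal ↔ embLift σ a = 0 := Iff.rfl

/-- The embedding `locField (placeOfEmb σ) → ℚ_p-bar`. -/
noncomputable def locFieldEmb (σ : L →ₐ[ℚ] AlgebraicClosure ℚ_[p]) :
    locField (placeOfEmb σ) →ₐ[ℚ_[p]] AlgebraicClosure ℚ_[p] where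
  toRingHom := (Ideal.Quotient.lift (placeOfEmb σ).asIdeal (embLift σ).toRingHom
    (fun a ha => ha) : locField (placeOfEmb σ) →+* AlgebraicClosure ℚ_[p])
  commutes' c := by
    change Ideal.Quotient.lift (placeOfEmb σ).asIdeal (embLift σ).toRingHom (fun a ha => ha)
      (Ideal.Quotient.mk _ ((1 : L) ⊗ₜ[ℚ] c)) = _
    rw [Ideal.Quotient.lift_mk]
    change embLift σ ((1 : L) ⊗ₜ[ℚ] c) = _
    rw [embLift_tmul, map_one, one_mul]

theorem locFieldEmb_locMk (σ : L →ₐ[ℚ] AlgebraicClosure ℚ_[p]) (a : H42.locAlg L p) :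
    locFieldEmb σ (locMk (placeOfEmb σ) a) = embLift σ a := rfl

theorem locFieldEmb_toLocField (σ : L →ₐ[ℚ] AlgebraicClosure ℚ_[p]) (x : L) :
    locFieldEmb σ (toLocField (placeOfEmb σ) x) = σ x := by
  rw [toLocField_apply, locFieldEmb_locMk, embLift_tmul, map_one, mul_one]

/-- The spectral norm is invariant under `ℚ_[p]`-embeddings. -/
theorem spectralNorm_algHom {F F' : Type*} [Field F] [Field F'] [Algebra ℚ_[p] F]
    [Algebra ℚ_[p] F'] (ψ : F →ₐ[ℚ_[p]] F') (y : F) :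
    spectralNorm ℚ_[p] F' (ψ y) = spectralNorm ℚ_[p] F y := by
  unfold spectralNorm
  rw [minpoly.algHom_eq ψ ψ.injective]

theorem absAt_placeOfEmb (σ : L →ₐ[ℚ] AlgebraicClosure ℚ_[p]) (x : L) :
    absAt (placeOfEmb σ) x = spectralNorm ℚ_[p] (AlgebraicClosure ℚ_[p]) (σ x) := by
  rw [absAt_apply, Loc.nrm_def, ← spectralNorm_algHom (locFieldEmb σ), locFieldEmb_toLocField]

/-- The `p`-part of the product formula. -/
theorem norm_padic_eq_prod (x : L) :
    ‖((Algebra.norm ℚ x : ℚ) : ℚ_[p])‖ =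
      ∏ σ : L →ₐ[ℚ] AlgebraicClosure ℚ_[p], absAt (placeOfEmb σ) x := by
  have h1 := Algebra.norm_eq_prod_embeddings ℚ (AlgebraicClosure ℚ_[p]) x
  have h2 : spectralNorm ℚ_[p] (AlgebraicClosure ℚ_[p])
      (algebraMap ℚ (AlgebraicClosure ℚ_[p]) (Algebra.norm ℚ x)) =
      ‖((Algebra.norm ℚ x : ℚ) : ℚ_[p])‖ := by
    rw [IsScalarTower.algebraMap_apply ℚ ℚ_[p] (AlgebraicClosure ℚ_[p]), spectralNorm_extends,
      eq_ratCast]
  rw [← h2, h1, ← spectralMulAlgNorm_def, map_prod]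
  refine Finset.prod_congr rfl (fun σ _ => ?_)
  rw [spectralMulAlgNorm_def, absAt_placeOfEmb]

end Emb

section Surjective

variable {L : Type} [Field L] [NumberField L] {p : Nat.Primes}

/-- A prime of `𝓞 L` containing `p` has norm divisible by `p`. -/
theorem dvd_absNorm_of_natCast_mem {P : Ideal (𝓞 L)} (hP : P ≠ ⊤)
    (hp : ((p : ℕ) : 𝓞 L) ∈ P) : (p : ℕ) ∣ Ideal.absNorm P := by
  by_contra hnd
  have hcop : Nat.Coprime (p : ℕ) (Ideal.absNorm P) := (Nat.Prime.coprime_iff_not_dvd p.2).mpr hnd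
  obtain ⟨a, b, hab⟩ := Nat.isCoprime_iff_coprime.mpr hcop
  have h1 : ((a * ((p : ℕ) : ℤ) + b * (Ideal.absNorm P : ℤ) : ℤ) : 𝓞 L) = 1 := by
    rw [hab, Int.cast_one]
  apply hP
  rw [Ideal.eq_top_iff_one, ← h1]
  push_cast
  exact P.add_mem (P.mul_mem_left _ hp) (P.mul_mem_left _ (Ideal.absNorm_mem P))

/-- If `x` lies in a prime `P` of `𝓞 L` above `p` then `|N_{L/ℚ} x|_p < 1`. -/
theorem norm_padic_lt_one_of_mem {P : Ideal (𝓞 L)} (hP : P ≠ ⊤)
    (hp : ((p : ℕ) : 𝓞 L) ∈ P) {x : 𝓞 L} (hx : x ∈ P) :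
    ‖((Algebra.norm ℚ (x : L) : ℚ) : ℚ_[p])‖ < 1 := by
  rw [← Algebra.coe_norm_int, Rat.cast_intCast, Padic.norm_intCast_lt_one_iff]
  exact (Int.natCast_dvd_natCast.mpr (dvd_absNorm_of_natCast_mem hP hp)).trans
    (Ideal.absNorm_dvd_norm_of_mem hx)

/-- (B), surjectivity: every prime of `𝓞 L` containing `p` comes from a place above `p`. -/
theorem exists_primeAt_eq (P : HeightOneSpectrum (𝓞 L)) (hp : ((p : ℕ) : 𝓞 L) ∈ P.asIdeal) :
    ∃ 𝔪 : Place L p, primeAt 𝔪 = P := by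
  classical
  by_contra hcon
  simp only [not_exists] at hcon
  haveI : Fintype (Place L p) := Fintype.ofFinite _
  -- an embedding, hence a place
  obtain ⟨σ₀⟩ : Nonempty (L →ₐ[ℚ] AlgebraicClosure ℚ_[p]) :=
    ⟨IsAlgClosed.lift (R := ℚ) (S := L) (M := AlgebraicClosure ℚ_[p])⟩
  -- prime avoidance
  have havoid : ¬ ((P.asIdeal : Set (𝓞 L)) ⊆
      ⋃ 𝔪 ∈ ((Finset.univ : Finset (Place L p)) : Set (Place L p)), ((primeAt 𝔪).asIdeal : Set (𝓞 L))) := by
    rw [Ideal.subset_union_prime (placeOfEmb σ₀) (placeOfEmb σ₀)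
      (fun 𝔪 _ _ _ => (primeAt 𝔪).isPrime)]
    rintro ⟨𝔪, -, hle⟩
    have hmax : P.asIdeal.IsMaximal := P.isMaximal
    have := hmax.eq_of_le (primeAt 𝔪).isPrime.ne_top hle
    exact hcon 𝔪 (HeightOneSpectrum.ext this.symm)
  rw [Set.not_subset] at havoid
  obtain ⟨x, hxP, hx⟩ := havoid
  have hx' : ∀ 𝔪 : Place L p, absAt 𝔪 (x : L) = 1 := by
    intro 𝔪
    apply abv_eq_one_of_notMem (hw := isNonarchimedean_absAt 𝔪) (hnt := exists_absAt_lt_one 𝔪)
    intro hmem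
    apply hx
    simp only [Finset.coe_univ, Set.mem_univ, Set.iUnion_true, Set.mem_iUnion, SetLike.mem_coe]
    exact ⟨𝔪, hmem⟩
  have h1 := norm_padic_lt_one_of_mem (p := p) P.isPrime.ne_top hp hxP
  rw [norm_padic_eq_prod] at h1
  have h2 : ∏ σ : L →ₐ[ℚ] AlgebraicClosure ℚ_[p], absAt (placeOfEmb σ) (x : L) = 1 :=
    Finset.prod_eq_one (fun σ _ => hx' _)
  rw [h2] at h1
  exact lt_irrefl _ h1

/-- (B): the places of `L` above `p` are the primes of `𝓞 L` containing `p`. -/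
noncomputable def placeEquiv (L : Type) [Field L] [NumberField L] (p : Nat.Primes) :
    Place L p ≃ {P : HeightOneSpectrum (𝓞 L) // ((p : ℕ) : 𝓞 L) ∈ P.asIdeal} :=
  Equiv.ofBijective (fun 𝔪 => ⟨primeAt 𝔪, natCast_mem_primeAt 𝔪⟩)
    ⟨fun 𝔪 𝔪' h => primeAt_injective (congrArg Subtype.val h),
     fun P => by
      obtain ⟨𝔪, h𝔪⟩ := exists_primeAt_eq P.1 P.2
      exact ⟨𝔪, Subtype.ext h𝔪⟩⟩

@[simp] theorem placeEquiv_apply (𝔪 : Place L p) : (placeEquiv L p 𝔪 : HeightOneSpectrum (𝓞 L)) =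
    primeAt 𝔪 := rfl

theorem primeAt_placeEquiv_symm (P : {P : HeightOneSpectrum (𝓞 L) // ((p : ℕ) : 𝓞 L) ∈ P.asIdeal}) :
    primeAt ((placeEquiv L p).symm P) = P.1 := by
  have := (placeEquiv L p).apply_symm_apply P
  exact congrArg Subtype.val this

/-- Every place is the place of an embedding into `ℚ_p-bar`. -/
theorem exists_placeOfEmb_eq (𝔪 : Place L p) :
    ∃ σ : L →ₐ[ℚ] AlgebraicClosure ℚ_[p], placeOfEmb σ = 𝔪 := by
  -- extend `ℚ_[p] → locField 𝔪` to an embedding of `locField 𝔪` into the algebraic closure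
  let ψ : locField 𝔪 →ₐ[ℚ_[p]] AlgebraicClosure ℚ_[p] :=
    IsAlgClosed.lift (R := ℚ_[p]) (S := locField 𝔪) (M := AlgebraicClosure ℚ_[p])
  let σ : L →ₐ[ℚ] AlgebraicClosure ℚ_[p] :=
    (ψ.toRingHom.comp (toLocField 𝔪)).toRatAlgHom
  refine ⟨σ, ?_⟩
  apply primeAt_injective
  apply HeightOneSpectrum.ext
  ext x
  rw [mem_primeAt, mem_primeAt, absAt_placeOfEmb, absAt_apply, Loc.nrm_def,
    ← spectralNorm_algHom ψ]
  rfl

end Surjective

end Fermat.Agent.CFT.H54
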