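import Mathlib

set_option autoImplicit false
set_option linter.unusedSectionVars false

/-!
# CFT / C-SUnit-Galois (helper63), part 1: ring automorphisms acting on height one primes

For a Dedekind domain `B` with fraction field `L` and a ring automorphism `e` of `B` extending to
an automorphism `σ` of `L`, we transport height one primes along `e` (`specMap e w = e(w)`) and
prove that the adic valuations are equivariant: `(specMap e w).valuation L (σ x) = w.valuation L x`.
-/

namespace Fermat.Agent.CFT.H63

open IsDedekindDomain

section Dedekind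

variable {B : Type*} [CommRing B] [IsDedekindDomain B]

/-- The image of a height one prime under a ring automorphism. -/
noncomputable def specMap (e : B ≃+* B) (w : HeightOneSpectrum B) : HeightOneSpectrum B where
  asIdeal := w.asIdeal.map e
  isPrime := Ideal.map_isPrime_of_equiv e
  ne_bot := by
    intro h
    exact w.ne_bot ((Ideal.map_eq_bot_iff_of_injective e.injective).mp h)

@[simp]
theorem specMap_asIdeal (e : B ≃+* B) (w : HeightOneSpectrum B) :
    (specMap e w).asIdeal = w.asIdeal.map e := rfl

theorem specMap_refl (w : HeightOneSpectrum B) : specMap (RingEquiv.refl B) w = w := by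
  apply HeightOneSpectrum.ext
  rw [specMap_asIdeal]
  exact Ideal.map_id _

theorem specMap_trans (e f : B ≃+* B) (w : HeightOneSpectrum B) :
    specMap (e.trans f) w = specMap f (specMap e w) := by
  apply HeightOneSpectrum.ext
  rw [specMap_asIdeal, specMap_asIdeal, specMap_asIdeal]
  exact (Ideal.map_map (e : B →+* B) (f : B →+* B)).symm

theorem specMap_symm_specMap (e : B ≃+* B) (w : HeightOneSpectrum B) :
    specMap e.symm (specMap e w) = w := by
  rw [← specMap_trans, RingEquiv.self_trans_symm, specMap_refl]

theorem specMap_specMap_symm (e : B ≃+* B) (w : HeightOneSpectrum B) :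
    specMap e (specMap e.symm w) = w := by
  rw [← specMap_trans, RingEquiv.symm_trans_self, specMap_refl]

theorem mem_specMap_iff (e : B ≃+* B) (w : HeightOneSpectrum B) (x : B) :
    e x ∈ (specMap e w).asIdeal ↔ x ∈ w.asIdeal := by
  rw [specMap_asIdeal, Ideal.mem_map_of_equiv]
  constructor
  · rintro ⟨y, hy, hxy⟩
    rwa [← e.injective hxy]
  · intro hx
    exact ⟨x, hx, rfl⟩

theorem map_le_map_iff_equiv (e : B ≃+* B) (I J : Ideal B) :
    I.map e ≤ J.map e ↔ I ≤ J := by
  constructor
  · intro h x hx
    have : e x ∈ J.map e := h (Ideal.mem_map_of_mem _ hx)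
    rw [Ideal.mem_map_of_equiv] at this
    obtain ⟨y, hy, hxy⟩ := this
    rwa [← e.injective hxy]
  · exact fun h => Ideal.map_mono h

theorem intValuation_specMap (e : B ≃+* B) (w : HeightOneSpectrum B) (x : B) :
    (specMap e w).intValuation (e x) = w.intValuation x := by
  rcases eq_or_ne x 0 with rfl | hx
  · simp
  have hex : e x ≠ 0 := by
    intro h
    exact hx (e.injective (by rw [h, map_zero]))
  rw [HeightOneSpectrum.intValuation_eq_exp_neg_multiplicity _ hex,
    HeightOneSpectrum.intValuation_eq_exp_neg_multiplicity _ hx]
  congr 3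
  apply multiplicity_eq_of_emultiplicity_eq
  rw [emultiplicity_eq_emultiplicity_iff]
  intro n
  have h1 : Ideal.span {e x} = (Ideal.span {x}).map e := by
    rw [Ideal.map_span, Set.image_singleton]
  rw [specMap_asIdeal, h1, ← Ideal.map_pow, Ideal.dvd_iff_le, Ideal.dvd_iff_le,
    map_le_map_iff_equiv]

variable (L : Type*) [Field L] [Algebra B L] [IsFractionRing B L]

/-- Equivariance of adic valuations: if the automorphism `σ` of `L` restricts to `e` on `B`,
then `(e w).valuation (σ x) = w.valuation x`. -/
theorem valuation_specMap (e : B ≃+* B) (σ : L ≃+* L)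
    (hσ : ∀ b : B, σ (algebraMap B L b) = algebraMap B L (e b)) (w : HeightOneSpectrum B) (x : L) :
    (specMap e w).valuation L (σ x) = w.valuation L x := by
  obtain ⟨a, b, _, rfl⟩ := IsFractionRing.div_surjective (A := B) x
  rw [map_div₀, hσ, hσ, map_div₀, map_div₀, HeightOneSpectrum.valuation_of_algebraMap,
    HeightOneSpectrum.valuation_of_algebraMap, HeightOneSpectrum.valuation_of_algebraMap,
    HeightOneSpectrum.valuation_of_algebraMap, intValuation_specMap, intValuation_specMap]

theorem valuation_specMap_symm (e : B ≃+* B) (σ : L ≃+* L)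
    (hσ : ∀ b : B, σ (algebraMap B L b) = algebraMap B L (e b)) (w : HeightOneSpectrum B) (x : L) :
    w.valuation L (σ x) = (specMap e.symm w).valuation L x := by
  conv_lhs => rw [← specMap_specMap_symm e w]
  exact valuation_specMap L e σ hσ _ x

end Dedekind

end Fermat.Agent.CFT.H63
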