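import Mathlib
import Fermat.Agent.CFT.H63_SpecAction
import Fermat.Agent.Kummer.H63_Hilbert92

set_option autoImplicit false
set_option linter.unusedSectionVars false

/-!
# CFT / C-SUnit-Galois (helper63), part 2: the Galois module of `S`-units

`L/K` number fields.  For a set `S` of finite places of `L` stable under `Gal(L/K)` we let
`Gal(L/K)` act on the `S`-units of `L` (`sunitsEnd`), in the vocabulary of
`Fermat.Agent.Kummer.H63_Abstract` (`fixedSub`, `normEnd`, `normKer`).  For `S` the set of places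
above a set `T` of places of `K` and `L/K` cyclic with generator `σ`, the fixed part is the image
of the `T`-units of `K` (`range_sunitsIncl`).
-/

namespace Fermat.Agent.CFT.H63

open IsDedekindDomain NumberField Fermat.Agent.Kummer.H63

variable {K L : Type*} [Field K] [Field L] [Algebra K L] [NumberField K] [NumberField L]

/-- The action of `Gal(L/K)` on the finite places of `L`. -/
noncomputable def galSpec (σ : L ≃ₐ[K] L) (w : HeightOneSpectrum (𝓞 L)) :
    HeightOneSpectrum (𝓞 L) :=
  specMap (RingOfIntegers.mapRingEquiv σ.toRingEquiv) w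

theorem galSpec_one (w : HeightOneSpectrum (𝓞 L)) : galSpec (1 : L ≃ₐ[K] L) w = w :=
  specMap_refl w

theorem galSpec_mul (σ τ : L ≃ₐ[K] L) (w : HeightOneSpectrum (𝓞 L)) :
    galSpec (σ * τ) w = galSpec σ (galSpec τ w) :=
  specMap_trans (RingOfIntegers.mapRingEquiv τ.toRingEquiv)
    (RingOfIntegers.mapRingEquiv σ.toRingEquiv) w

theorem galSpec_inv_galSpec (σ : L ≃ₐ[K] L) (w : HeightOneSpectrum (𝓞 L)) :
    galSpec σ⁻¹ (galSpec σ w) = w := by
  rw [← galSpec_mul, inv_mul_cancel, galSpec_one]

theorem galSpec_galSpec_inv (σ : L ≃ₐ[K] L) (w : HeightOneSpectrum (𝓞 L)) :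
    galSpec σ (galSpec σ⁻¹ w) = w := by
  rw [← galSpec_mul, mul_inv_cancel, galSpec_one]

/-- Equivariance of the adic valuations. -/
theorem valuation_galSpec (σ : L ≃ₐ[K] L) (w : HeightOneSpectrum (𝓞 L)) (x : L) :
    (galSpec σ w).valuation L (σ x) = w.valuation L x :=
  valuation_specMap L (RingOfIntegers.mapRingEquiv σ.toRingEquiv) σ.toRingEquiv (fun _ => rfl) w x

theorem valuation_apply_eq (σ : L ≃ₐ[K] L) (w : HeightOneSpectrum (𝓞 L)) (x : L) :
    w.valuation L (σ x) = (galSpec σ⁻¹ w).valuation L x := by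
  conv_lhs => rw [← galSpec_galSpec_inv σ w]
  exact valuation_galSpec σ _ x

theorem mem_galSpec_iff (σ : L ≃ₐ[K] L) (w : HeightOneSpectrum (𝓞 L)) (x : 𝓞 L) :
    RingOfIntegers.mapRingEquiv σ.toRingEquiv x ∈ (galSpec σ w).asIdeal ↔ x ∈ w.asIdeal :=
  mem_specMap_iff _ w x

/-- The Galois action preserves the prime of `K` below. -/
theorem galSpec_under (σ : L ≃ₐ[K] L) (w : HeightOneSpectrum (𝓞 L)) :
    (galSpec σ w).under (𝓞 K) = w.under (𝓞 K) := by
  apply HeightOneSpectrum.ext
  ext x
  simp only [HeightOneSpectrum.under_asIdeal, Ideal.mem_comap]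
  have h : RingOfIntegers.mapRingEquiv σ.toRingEquiv (algebraMap (𝓞 K) (𝓞 L) x)
      = algebraMap (𝓞 K) (𝓞 L) x := by
    apply RingOfIntegers.ext
    change σ (algebraMap K L (x : K)) = algebraMap K L (x : K)
    exact σ.commutes _
  rw [← mem_galSpec_iff σ w, h]

section Action

variable (S : Set (HeightOneSpectrum (𝓞 L)))

/-- The action of `σ` on `S`-units, for a Galois-stable set `S` of finite places of `L`. -/
noncomputable def sunitsMap (hS : ∀ (τ : L ≃ₐ[K] L), ∀ w ∈ S, galSpec τ w ∈ S) (σ : L ≃ₐ[K] L) :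
    S.unit L →* S.unit L where
  toFun x := ⟨Units.map (σ : L →* L) (x : Lˣ), fun v hv => by
    change v.valuation L (σ ((x : Lˣ) : L)) = 1
    rw [valuation_apply_eq]
    apply x.property
    intro hmem
    apply hv
    have := hS σ _ hmem
    rwa [galSpec_galSpec_inv] at this⟩
  map_one' := by ext; simp
  map_mul' x y := by ext; simp

variable {S}

theorem sunitsMap_coe (hS : ∀ (τ : L ≃ₐ[K] L), ∀ w ∈ S, galSpec τ w ∈ S) (σ : L ≃ₐ[K] L)
    (x : S.unit L) : (((sunitsMap S hS σ x : S.unit L) : Lˣ) : L) = σ ((x : Lˣ) : L) := rfl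

/-- The value in `L` of an additively written `S`-unit. -/
noncomputable def sval (u : Additive (S.unit L)) : L := (((Additive.toMul u : S.unit L) : Lˣ) : L)

theorem sval_injective : Function.Injective (sval : Additive (S.unit L) → L) := by
  intro u v h
  apply Additive.toMul.injective
  apply Subtype.ext
  exact Units.ext h

theorem sval_ne_zero (u : Additive (S.unit L)) : sval u ≠ 0 :=
  ((Additive.toMul u : S.unit L) : Lˣ).ne_zero

theorem sval_zero : sval (0 : Additive (S.unit L)) = 1 := rfl

theorem sval_add (u v : Additive (S.unit L)) : sval (u + v) = sval u * sval v := rfl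

theorem sval_neg (u : Additive (S.unit L)) : sval (-u) = (sval u)⁻¹ := by
  apply eq_inv_of_mul_eq_one_left
  rw [← sval_add, neg_add_cancel, sval_zero]

theorem sval_sub (u v : Additive (S.unit L)) : sval (u - v) = sval u / sval v := by
  rw [sub_eq_add_neg, sval_add, sval_neg, div_eq_mul_inv]

theorem sval_sum {ι : Type*} (s : Finset ι) (f : ι → Additive (S.unit L)) :
    sval (∑ i ∈ s, f i) = ∏ i ∈ s, sval (f i) := by
  classical
  induction s using Finset.induction_on with
  | empty => simp [sval_zero]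
  | insert a s ha ih => rw [Finset.sum_insert ha, Finset.prod_insert ha, sval_add, ih]

theorem valuation_sval (u : Additive (S.unit L)) {w : HeightOneSpectrum (𝓞 L)} (hw : w ∉ S) :
    w.valuation L (sval u) = 1 :=
  (Additive.toMul u).property w hw

variable (S) in
/-- The Galois action on `S`-units as endomorphisms of the additive group. -/
noncomputable def sunitsEnd (hS : ∀ (τ : L ≃ₐ[K] L), ∀ w ∈ S, galSpec τ w ∈ S) :
    (L ≃ₐ[K] L) →* Module.End ℤ (Additive (S.unit L)) where
  toFun σ := (MonoidHom.toAdditive (sunitsMap S hS σ)).toIntLinearMap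
  map_one' := by
    apply LinearMap.ext
    intro u
    apply sval_injective
    rfl
  map_mul' σ τ := by
    apply LinearMap.ext
    intro u
    apply sval_injective
    rfl

theorem sval_sunitsEnd (hS : ∀ (τ : L ≃ₐ[K] L), ∀ w ∈ S, galSpec τ w ∈ S) (σ : L ≃ₐ[K] L)
    (u : Additive (S.unit L)) : sval (sunitsEnd S hS σ u) = σ (sval u) := rfl

theorem sval_normEnd (hS : ∀ (τ : L ≃ₐ[K] L), ∀ w ∈ S, galSpec τ w ∈ S) (p : ℕ) (σ : L ≃ₐ[K] L)
    (u : Additive (S.unit L)) :
    sval (normEnd p (sunitsEnd S hS σ) u) = ∏ i ∈ Finset.range p, (σ ^ i) (sval u) := by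
  rw [normEnd, LinearMap.sum_apply, sval_sum]
  apply Finset.prod_congr rfl
  intro i _
  rw [← map_pow, sval_sunitsEnd]

end Action

end Fermat.Agent.CFT.H63
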