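import Mathlib
import Fermat.Agent.CFT.H63_SUnitGalois

set_option autoImplicit false
set_option linter.unusedSectionVars false

/-!
# CFT / C-SUnit-Galois (helper63), part 3: the fixed part of the `S`-units

For `T` a set of finite places of `K` and `S = aboveSet L T` the places of `L` above `T`, the
`T`-units of `K` embed into the `S`-units of `L` (`sunitsIncl`) and, for `L/K` cyclic with
generator `σ`, the image is exactly the `σ`-fixed part (`range_sunitsIncl`).
-/

namespace Fermat.Agent.CFT.H63

open IsDedekindDomain NumberField Fermat.Agent.Kummer.H63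

variable {K L : Type*} [Field K] [Field L] [Algebra K L] [NumberField K] [NumberField L]

section Fixed

variable (L) in
/-- The set of finite places of `L` above a set `T` of finite places of `K`. -/
def aboveSet (T : Set (HeightOneSpectrum (𝓞 K))) : Set (HeightOneSpectrum (𝓞 L)) :=
  {w | w.under (𝓞 K) ∈ T}

theorem mem_aboveSet {T : Set (HeightOneSpectrum (𝓞 K))} {w : HeightOneSpectrum (𝓞 L)} :
    w ∈ aboveSet L T ↔ w.under (𝓞 K) ∈ T := Iff.rfl

theorem aboveSet_stable (T : Set (HeightOneSpectrum (𝓞 K))) (τ : L ≃ₐ[K] L) :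
    ∀ w ∈ aboveSet L T, galSpec τ w ∈ aboveSet L T := by
  intro w hw
  rw [mem_aboveSet, galSpec_under]
  exact hw

theorem exists_under_eq (v : HeightOneSpectrum (𝓞 K)) :
    ∃ w : HeightOneSpectrum (𝓞 L), w.under (𝓞 K) = v := by
  obtain ⟨P, hP, hPv⟩ := Ideal.exists_ideal_over_prime_of_isIntegral_of_isDomain (S := 𝓞 L)
    v.asIdeal (by
      rw [(RingHom.injective_iff_ker_eq_bot _).mp (FaithfulSMul.algebraMap_injective (𝓞 K) (𝓞 L))]
      exact bot_le)
  refine ⟨⟨P, hP, ?_⟩, HeightOneSpectrum.ext hPv⟩
  rintro rfl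
  apply v.ne_bot
  rw [← hPv]
  exact Ideal.comap_bot_of_injective _ (FaithfulSMul.algebraMap_injective (𝓞 K) (𝓞 L))

/-- Valuations of elements of `K` at a place of `L`. -/
theorem valuation_algebraMap_eq (w : HeightOneSpectrum (𝓞 L)) (x : K) :
    w.valuation L (algebraMap K L x) = (w.under (𝓞 K)).valuation K x ^
      (w.under (𝓞 K)).asIdeal.ramificationIdx' w.asIdeal := by
  have : w.asIdeal.LiesOver (w.under (𝓞 K)).asIdeal := by
    rw [HeightOneSpectrum.under_asIdeal]
    infer_instance
  exact (HeightOneSpectrum.valuation_liesOver L (w.under (𝓞 K)) w x).symm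

theorem ramificationIdx'_under_ne_zero (w : HeightOneSpectrum (𝓞 L)) :
    (w.under (𝓞 K)).asIdeal.ramificationIdx' w.asIdeal ≠ 0 := by
  have : w.asIdeal.LiesOver (w.under (𝓞 K)).asIdeal := by
    rw [HeightOneSpectrum.under_asIdeal]
    infer_instance
  exact Ideal.IsDedekindDomain.ramificationIdx'_ne_zero_of_liesOver w.asIdeal (w.under (𝓞 K)).ne_bot

theorem valuation_algebraMap_eq_one_iff (w : HeightOneSpectrum (𝓞 L)) (x : K) :
    w.valuation L (algebraMap K L x) = 1 ↔ (w.under (𝓞 K)).valuation K x = 1 := by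
  rw [valuation_algebraMap_eq, pow_eq_one_iff_left (ramificationIdx'_under_ne_zero w)]

variable (L) in
/-- The inclusion of the `T`-units of `K` into the units of `L` for the places above `T`. -/
noncomputable def sunitsInclHom (T : Set (HeightOneSpectrum (𝓞 K))) :
    T.unit K →* (aboveSet L T).unit L where
  toFun x := ⟨Units.map (algebraMap K L : K →* L) (x : Kˣ), fun w hw => by
    change w.valuation L (algebraMap K L ((x : Kˣ) : K)) = 1
    rw [valuation_algebraMap_eq_one_iff]
    exact x.property _ hw⟩
  map_one' := by ext; simp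
  map_mul' x y := by ext; simp

variable (L) in
/-- The inclusion of `T`-units of `K`, additively. -/
noncomputable def sunitsIncl (T : Set (HeightOneSpectrum (𝓞 K))) :
    Additive (T.unit K) →ₗ[ℤ] Additive ((aboveSet L T).unit L) :=
  (MonoidHom.toAdditive (sunitsInclHom L T)).toIntLinearMap

theorem sval_sunitsIncl (T : Set (HeightOneSpectrum (𝓞 K))) (u : Additive (T.unit K)) :
    sval (sunitsIncl L T u) = algebraMap K L (sval u) := rfl

theorem sunitsIncl_injective (T : Set (HeightOneSpectrum (𝓞 K))) :
    Function.Injective (sunitsIncl L T) := by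
  intro u v h
  apply sval_injective
  apply (algebraMap K L).injective
  rw [← sval_sunitsIncl, ← sval_sunitsIncl, h]

/-- The fixed part of the `S`-units of `L` (for `S` the places above `T`) under a generator of
the cyclic group `Gal(L/K)` is the group of `T`-units of `K`. -/
theorem range_sunitsIncl [IsGalois K L] (T : Set (HeightOneSpectrum (𝓞 K))) (σ : L ≃ₐ[K] L)
    (hσ : ∀ τ : L ≃ₐ[K] L, τ ∈ Subgroup.zpowers σ) :
    LinearMap.range (sunitsIncl L T) =
      fixedSub (sunitsEnd (aboveSet L T) (aboveSet_stable T) σ) := by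
  ext u
  rw [mem_fixedSub, LinearMap.mem_range]
  constructor
  · rintro ⟨a, rfl⟩
    apply sval_injective
    rw [sval_sunitsEnd, sval_sunitsIncl, σ.commutes]
  · intro hu
    have h1 : σ (sval u) = sval u := by rw [← sval_sunitsEnd (aboveSet_stable T), hu]
    have hfix : ∀ τ : L ≃ₐ[K] L, τ (sval u) = sval u := by
      intro τ
      obtain ⟨n, rfl⟩ := Subgroup.mem_zpowers_iff.mp (hσ τ)
      have hmem : σ ∈ MulAction.stabilizer (L ≃ₐ[K] L) (sval u) := h1
      exact Subgroup.zpow_mem _ hmem n
    obtain ⟨a, ha⟩ := (IsGalois.mem_range_algebraMap_iff_fixed (F := K) (sval u)).mpr hfix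
    have ha0 : a ≠ 0 := by
      rintro rfl
      rw [map_zero] at ha
      exact sval_ne_zero u ha.symm
    have hmem : Units.mk0 a ha0 ∈ T.unit K := by
      intro v hv
      obtain ⟨w, rfl⟩ := exists_under_eq (L := L) v
      rw [Units.val_mk0, ← valuation_algebraMap_eq_one_iff, ha]
      exact valuation_sval u hv
    refine ⟨Additive.ofMul ⟨Units.mk0 a ha0, hmem⟩, ?_⟩
    apply sval_injective
    rw [sval_sunitsIncl]
    exact ha

end Fixed

end Fermat.Agent.CFT.H63
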