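import Mathlib
import Fermat.Agent.CFT.H63_SUnitFixed

set_option autoImplicit false
set_option linter.unusedSectionVars false

/-!
# CFT / C-FIRST (helper63), part 2: the class group is generated by finitely many primes

For a number field `F` there is a finite set `T₀` of finite places such that every finitely
supported family of exponents `a` is realised outside `T₀` by a principal divisor:
`∃ y : Fˣ, ∀ Q ∉ T₀, ord_Q y = a Q` (`exists_finset_forall_exists_valuation_eq`).  This is
`J_F = Fˣ · J_{F,T}` (equivalently `Cl_T(F) = 0`) in vocabulary-neutral form.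
-/

namespace Fermat.Agent.CFT.H63

open IsDedekindDomain NumberField WithZero
open scoped nonZeroDivisors

section Dedekind

variable {R : Type*} [CommRing R] [IsDedekindDomain R] (K : Type*) [Field K] [Algebra R K]
  [IsFractionRing R K]

/-- From an equation of ideals `(x) I = (y) J` to the valuations of `y / x`. -/
theorem valuation_div_of_span_mul_eq (Q : HeightOneSpectrum R) {x y : R} (hx : x ≠ 0)
    (hy : y ≠ 0) {I J : Ideal R} (hI : I ≠ ⊥) (hJ : J ≠ ⊥)
    (h : Ideal.span {x} * I = Ideal.span {y} * J) :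
    Q.valuation K (algebraMap R K y / algebraMap R K x) =
      exp ((multiplicity Q.asIdeal J : ℤ) - (multiplicity Q.asIdeal I : ℤ)) := by
  have hsx : Ideal.span {x} ≠ ⊥ := by simpa using hx
  have hsy : Ideal.span {y} ≠ ⊥ := by simpa using hy
  have h1 : multiplicity Q.asIdeal (Ideal.span {x} * I) =
      multiplicity Q.asIdeal (Ideal.span {x}) + multiplicity Q.asIdeal I :=
    multiplicity_mul Q.prime (FiniteMultiplicity.of_prime_left Q.prime (mul_ne_zero hsx hI))
  have h2 : multiplicity Q.asIdeal (Ideal.span {y} * J) =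
      multiplicity Q.asIdeal (Ideal.span {y}) + multiplicity Q.asIdeal J :=
    multiplicity_mul Q.prime (FiniteMultiplicity.of_prime_left Q.prime (mul_ne_zero hsy hJ))
  rw [h] at h1
  rw [h1] at h2
  rw [map_div₀, HeightOneSpectrum.valuation_of_algebraMap,
    HeightOneSpectrum.valuation_of_algebraMap,
    HeightOneSpectrum.intValuation_eq_exp_neg_multiplicity _ hx,
    HeightOneSpectrum.intValuation_eq_exp_neg_multiplicity _ hy, ← exp_sub]
  congr 1
  omega

end Dedekind

section NumberField

variable (F : Type*) [Field F] [NumberField F]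

/-- A chosen nonzero integral ideal in each ideal class. -/
noncomputable def classRepIdeal (c : ClassGroup (𝓞 F)) : (Ideal (𝓞 F))⁰ :=
  (ClassGroup.mk0_surjective c).choose

theorem mk0_classRepIdeal (c : ClassGroup (𝓞 F)) : ClassGroup.mk0 (classRepIdeal F c) = c :=
  (ClassGroup.mk0_surjective c).choose_spec

/-- The (finite) set of finite places dividing one of the chosen class representatives. -/
def classGenSet : Set (HeightOneSpectrum (𝓞 F)) :=
  ⋃ c : ClassGroup (𝓞 F), {Q | Q.asIdeal ∣ (classRepIdeal F c : Ideal (𝓞 F))}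

theorem classGenSet_finite : (classGenSet F).Finite := by
  apply Set.finite_iUnion
  intro c
  exact Ideal.finite_factors (nonZeroDivisors.coe_ne_zero (classRepIdeal F c))

variable {F}

open scoped Classical in
theorem exists_valuation_single (T₀ : Set (HeightOneSpectrum (𝓞 F))) (hT : classGenSet F ⊆ T₀)
    (P : HeightOneSpectrum (𝓞 F)) :
    ∃ y : Fˣ, ∀ Q : HeightOneSpectrum (𝓞 F), Q ∉ T₀ →
      Q.valuation F (y : F) = exp (-(if Q = P then (1 : ℤ) else 0)) := by
  classical
  have hP0 : P.asIdeal ∈ (Ideal (𝓞 F))⁰ := mem_nonZeroDivisors_of_ne_zero P.ne_bot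
  set c := ClassGroup.mk0 ⟨P.asIdeal, hP0⟩ with hc
  have hJ := mk0_classRepIdeal F c
  rw [hc, eq_comm, ClassGroup.mk0_eq_mk0_iff] at hJ
  obtain ⟨x, y, hx, hy, hxy⟩ := hJ
  have hx' : algebraMap (𝓞 F) F x ≠ 0 := by
    simpa using hx
  have hy' : algebraMap (𝓞 F) F y ≠ 0 := by
    simpa using hy
  refine ⟨Units.mk0 (algebraMap (𝓞 F) F y / algebraMap (𝓞 F) F x) (div_ne_zero hy' hx'), ?_⟩
  intro Q hQ
  rw [Units.val_mk0, valuation_div_of_span_mul_eq F Q hx hy P.ne_bot
    (nonZeroDivisors.coe_ne_zero (classRepIdeal F c)) hxy]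
  have h1 : multiplicity Q.asIdeal (classRepIdeal F c : Ideal (𝓞 F)) = 0 := by
    rw [multiplicity_eq_zero]
    intro hdvd
    exact hQ (hT (Set.mem_iUnion.mpr ⟨c, hdvd⟩))
  have h2 : multiplicity Q.asIdeal P.asIdeal = if Q = P then 1 else 0 := by
    split_ifs with hQP
    · rw [hQP]
      exact multiplicity_self
    · rw [multiplicity_eq_zero]
      intro hdvd
      apply hQP
      apply HeightOneSpectrum.ext
      have hle : P.asIdeal ≤ Q.asIdeal := Ideal.le_of_dvd hdvd
      exact (P.isMaximal.eq_of_le Q.isPrime.ne_top hle).symm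
  rw [h1, h2]
  congr 1
  split_ifs <;> simp

/-- **Finite generation of the class group by primes**, valuation form: for every set `T₀` of
finite places containing `classGenSet F` and every finitely supported exponent family `a` there is
`y ∈ Fˣ` with `ord_Q y = a Q` for all `Q ∉ T₀`. -/
theorem exists_valuation_eq_of_subset (T₀ : Set (HeightOneSpectrum (𝓞 F)))
    (hT : classGenSet F ⊆ T₀) (a : HeightOneSpectrum (𝓞 F) →₀ ℤ) :
    ∃ y : Fˣ, ∀ Q : HeightOneSpectrum (𝓞 F), Q ∉ T₀ →
      Q.valuation F (y : F) = exp (-(a Q)) := by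
  classical
  induction a using Finsupp.induction_linear with
  | zero =>
    refine ⟨1, fun Q _ => ?_⟩
    simp
  | add f g hf hg =>
    obtain ⟨y, hy⟩ := hf
    obtain ⟨z, hz⟩ := hg
    refine ⟨y * z, fun Q hQ => ?_⟩
    rw [Units.val_mul, map_mul, hy Q hQ, hz Q hQ, ← exp_add, Finsupp.add_apply]
    congr 1
    ring
  | single P n =>
    obtain ⟨y, hy⟩ := exists_valuation_single T₀ hT P
    refine ⟨y ^ n, fun Q hQ => ?_⟩
    rw [Units.val_zpow_eq_zpow_val, map_zpow₀, hy Q hQ, ← exp_zsmul, Finsupp.single_apply]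
    congr 1
    by_cases h : Q = P
    · rw [if_pos h, if_pos h.symm]
      simp
    · rw [if_neg h, if_neg (fun h' => h h'.symm)]
      simp

variable (F) in
theorem exists_finset_forall_exists_valuation_eq :
    ∃ T₀ : Finset (HeightOneSpectrum (𝓞 F)), ∀ T : Set (HeightOneSpectrum (𝓞 F)),
      (T₀ : Set (HeightOneSpectrum (𝓞 F))) ⊆ T → ∀ a : HeightOneSpectrum (𝓞 F) →₀ ℤ,
        ∃ y : Fˣ, ∀ Q : HeightOneSpectrum (𝓞 F), Q ∉ T →
          Q.valuation F (y : F) = exp (-(a Q)) := by
  refine ⟨(classGenSet_finite F).toFinset, fun T hT a => ?_⟩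
  apply exists_valuation_eq_of_subset T _ a
  intro Q hQ
  apply hT
  simpa using hQ

end NumberField

section Relative

variable (K L : Type*) [Field K] [Field L] [Algebra K L] [NumberField K] [NumberField L]

/-- Relative, Galois-stable version: there is a finite set `T₀` of finite places of `K` such that
for every `T ⊇ T₀` every finitely supported exponent family on the places of `L` is realised
outside the places above `T` by a principal divisor (`J_L = Lˣ · J_{L,T}`). -/
theorem exists_finset_forall_exists_valuation_eq_above :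
    ∃ T₀ : Finset (HeightOneSpectrum (𝓞 K)), ∀ T : Set (HeightOneSpectrum (𝓞 K)),
      (T₀ : Set (HeightOneSpectrum (𝓞 K))) ⊆ T → ∀ a : HeightOneSpectrum (𝓞 L) →₀ ℤ,
        ∃ y : Lˣ, ∀ Q : HeightOneSpectrum (𝓞 L), Q ∉ aboveSet L T →
          Q.valuation L (y : L) = exp (-(a Q)) := by
  classical
  refine ⟨(classGenSet_finite L).toFinset.image (fun Q => Q.under (𝓞 K)), fun T hT a => ?_⟩
  apply exists_valuation_eq_of_subset (aboveSet L T) _ a
  intro Q hQ
  rw [mem_aboveSet]
  apply hT
  simp only [Finset.coe_image, Set.Finite.coe_toFinset, Set.mem_image]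
  exact ⟨Q, hQ, rfl⟩

end Relative

end Fermat.Agent.CFT.H63
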