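import Mathlib
import Fermat.Agent.CFT.H10_SUnitVal

set_option autoImplicit false

/-!
# CFT / C-SUnit-theorem (helper10), part 2: Dirichlet's `S`-unit theorem

For a number field `K` and a finite set `S` of finite places, the group of `S`-units is finitely
generated of rank `Units.rank K + #S`.
-/

namespace Fermat.Agent.CFT.H10

open IsDedekindDomain

section Dedekind

variable {R : Type*} [CommRing R] [IsDedekindDomain R] (K : Type*) [Field K] [Algebra R K]
  [IsFractionRing R K]

open scoped Classical in
theorem intValuation_of_span_eq_pow (v : HeightOneSpectrum R) {π : R} {h : ℕ}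
    (hπ : Ideal.span {π} = v.asIdeal ^ h) : v.intValuation π = WithZero.exp (-(h : ℤ)) := by
  have hπ0 : π ≠ 0 := by
    rintro rfl
    rw [Ideal.span_singleton_eq_bot.mpr rfl] at hπ
    exact v.ne_bot (pow_eq_zero_iff (n := h) (by
      rintro rfl
      rw [pow_zero, Ideal.one_eq_top] at hπ
      exact bot_ne_top hπ) |>.mp hπ.symm)
  have hne : Associates.mk v.asIdeal ≠ 0 := by
    rw [Ne, Associates.mk_eq_zero]
    exact v.ne_bot
  rw [v.intValuation_def, if_neg hπ0, hπ, Associates.mk_pow,
    Associates.count_pow hne v.associates_irreducible,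
    Associates.count_self v.associates_irreducible, mul_one]

theorem intValuation_eq_one_of_span_eq_pow {v w : HeightOneSpectrum R} (hwv : w ≠ v) {π : R}
    {h : ℕ} (hπ : Ideal.span {π} = v.asIdeal ^ h) : w.intValuation π = 1 := by
  rw [HeightOneSpectrum.intValuation_eq_one_iff]
  intro hmem
  have h1 : v.asIdeal ^ h ≤ w.asIdeal := by
    rw [← hπ, Ideal.span_singleton_le_iff_mem]
    exact hmem
  have h2 : v.asIdeal ≤ w.asIdeal := w.isPrime.le_of_pow_le h1
  have h3 : v.asIdeal = w.asIdeal := v.isMaximal.eq_of_le w.isPrime.ne_top h2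
  exact hwv (HeightOneSpectrum.ext h3.symm)

variable (S : Finset (HeightOneSpectrum R))

open scoped Classical in
/-- If `v ^ h = (π)` with `v ∈ S`, then `π` is an `S`-unit whose valuation vector is `-h` at `v`
and `0` elsewhere. -/
theorem exists_sUnit_of_span_eq_pow {v : HeightOneSpectrum R} (hv : v ∈ S) {π : R} {h : ℕ}
    (hπ : Ideal.span {π} = v.asIdeal ^ h) :
    ∃ x : (S : Set (HeightOneSpectrum R)).unit K,
      ∀ w : S, valHom K S x w = if w.1 = v then Multiplicative.ofAdd (-(h : ℤ)) else 1 := by
  have hπ0 : algebraMap R K π ≠ 0 := by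
    intro h0
    have : π = 0 := IsFractionRing.injective R K (by rw [h0, map_zero])
    rw [this, Ideal.span_singleton_eq_bot.mpr rfl] at hπ
    rcases Nat.eq_zero_or_pos h with rfl | hpos
    · rw [pow_zero, Ideal.one_eq_top] at hπ
      exact bot_ne_top hπ
    · exact v.ne_bot (pow_eq_zero_iff hpos.ne' |>.mp hπ.symm)
  have hval : ∀ w : HeightOneSpectrum R, w ≠ v → w.valuation K (algebraMap R K π) = 1 := by
    intro w hw
    rw [HeightOneSpectrum.valuation_of_algebraMap, intValuation_eq_one_of_span_eq_pow hw hπ]
  refine ⟨⟨Units.mk0 _ hπ0, fun w hw => ?_⟩, fun w => ?_⟩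
  · rw [Units.val_mk0]
    apply hval
    rintro rfl
    exact hw (by simpa using hv)
  · rw [valHom_apply]
    apply WithZero.coe_injective
    rw [coe_ordHom]
    show w.1.valuation K (algebraMap R K π) = _
    split_ifs with hwv
    · rw [hwv, HeightOneSpectrum.valuation_of_algebraMap, intValuation_of_span_eq_pow v hπ]
      rfl
    · rw [hval w.1 hwv]
      rfl

end Dedekind

section NumberField

open NumberField

variable (K : Type*) [Field K] [NumberField K] (S : Finset (HeightOneSpectrum (𝓞 K)))

/-- Some power of every finite place is principal (finiteness of the class group). -/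
theorem exists_span_eq_pow_classNumber (v : HeightOneSpectrum (𝓞 K)) :
    ∃ π : 𝓞 K, Ideal.span {π} = v.asIdeal ^ classNumber K := by
  have hmem : v.asIdeal ∈ nonZeroDivisors (Ideal (𝓞 K)) := mem_nonZeroDivisors_of_ne_zero v.ne_bot
  have h1 : ClassGroup.mk0 (⟨v.asIdeal, hmem⟩ ^ classNumber K : nonZeroDivisors (Ideal (𝓞 K))) = 1 := by
    rw [map_pow, classNumber]
    exact pow_card_eq_one
  rw [ClassGroup.mk0_eq_one_iff] at h1
  obtain ⟨π, hπ⟩ := h1.principal
  refine ⟨π, ?_⟩
  rw [SubmonoidClass.coe_pow] at hπ
  exact hπ.symm

/-- The additive valuation vector of an `S`-unit, as a `ℤ`-linear map. -/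
noncomputable def valLin :
    Additive ((S : Set (HeightOneSpectrum (𝓞 K))).unit K) →ₗ[ℤ] (S → ℤ) :=
  AddMonoidHom.toIntLinearMap
    { toFun := fun a w => Multiplicative.toAdd (valHom K S (Additive.toMul a) w)
      map_zero' := by
        funext w
        simp
      map_add' := fun a b => by
        funext w
        simp [map_mul] }

theorem valLin_apply (a : Additive ((S : Set (HeightOneSpectrum (𝓞 K))).unit K)) (w : S) :
    valLin K S a w = Multiplicative.toAdd (valHom K S (Additive.toMul a) w) := rfl

theorem mem_ker_valLin (a : Additive ((S : Set (HeightOneSpectrum (𝓞 K))).unit K)) :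
    a ∈ LinearMap.ker (valLin K S) ↔ Additive.toMul a ∈ (valHom K S).ker := by
  rw [LinearMap.mem_ker, MonoidHom.mem_ker]
  constructor
  · intro h
    funext w
    have := congrFun h w
    rw [valLin_apply] at this
    exact this
  · intro h
    funext w
    rw [valLin_apply, h]
    rfl

/-- The units of `𝓞 K` inside the `S`-units, additively. -/
noncomputable def unitsLin :
    Additive (𝓞 K)ˣ →ₗ[ℤ] Additive ((S : Set (HeightOneSpectrum (𝓞 K))).unit K) :=
  (MonoidHom.toAdditive (unitsToSUnit K S)).toIntLinearMap

theorem unitsLin_injective : Function.Injective (unitsLin K S) := fun _ _ h =>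
  unitsToSUnit_injective K S h

theorem range_unitsLin : LinearMap.range (unitsLin K S) = LinearMap.ker (valLin K S) := by
  ext a
  rw [mem_ker_valLin, ← range_unitsToSUnit]
  constructor
  · rintro ⟨u, rfl⟩
    exact ⟨Additive.toMul u, rfl⟩
  · rintro ⟨u, hu⟩
    exact ⟨Additive.ofMul u, hu⟩

theorem finrank_ker_valLin :
    Module.finrank ℤ (LinearMap.ker (valLin K S)) = NumberField.Units.rank K := by
  rw [← range_unitsLin, ← NumberField.Units.finrank_eq]
  exact (LinearEquiv.ofInjective (unitsLin K S) (unitsLin_injective K S)).finrank_eq.symm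

theorem fg_ker_valLin : (LinearMap.ker (valLin K S)).FG := by
  rw [← range_unitsLin, LinearMap.range_eq_map]
  exact (Module.finite_def.mp inferInstance).map _

open scoped Classical in
theorem smul_mem_range_valLin (c : S → ℤ) :
    (-(classNumber K : ℤ)) • c ∈ LinearMap.range (valLin K S) := by
  have hsingle : ∀ v : S, (fun w : S => if v = w then (-(classNumber K : ℤ)) else 0)
      ∈ LinearMap.range (valLin K S) := by
    intro v
    obtain ⟨π, hπ⟩ := exists_span_eq_pow_classNumber K v.1
    obtain ⟨x, hx⟩ := exists_sUnit_of_span_eq_pow K S v.2 hπ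
    refine ⟨Additive.ofMul x, ?_⟩
    funext w
    rw [valLin_apply, toMul_ofMul, hx w]
    by_cases hwv : v = w
    · rw [if_pos hwv, if_pos (by rw [hwv])]
      rfl
    · rw [if_neg hwv, if_neg (fun h => hwv (Subtype.ext h.symm))]
      rfl
  have hc : (-(classNumber K : ℤ)) • c
      = ∑ v : S, c v • (fun w : S => if v = w then (-(classNumber K : ℤ)) else 0) := by
    funext w
    simp [Finset.sum_apply, mul_comm]
  rw [hc]
  exact Submodule.sum_mem _ fun v _ => Submodule.smul_mem _ _ (hsingle v)

theorem finrank_range_valLin :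
    Module.finrank ℤ (LinearMap.range (valLin K S)) = S.card := by
  apply le_antisymm
  · have := Submodule.finrank_le (LinearMap.range (valLin K S))
    rwa [Module.finrank_pi, Fintype.card_coe] at this
  · have hne : (-(classNumber K : ℤ)) ≠ 0 := by
      rw [neg_ne_zero]
      exact_mod_cast (classNumber_ne_zero K)
    let g : (S → ℤ) →ₗ[ℤ] LinearMap.range (valLin K S) :=
      { toFun := fun c => ⟨(-(classNumber K : ℤ)) • c, smul_mem_range_valLin K S c⟩
        map_add' := fun a b => by ext; simp [mul_add]
        map_smul' := fun m a => by ext; simp [mul_left_comm] }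
    have hg : Function.Injective g := by
      intro a b hab
      have h1 : (-(classNumber K : ℤ)) • a = (-(classNumber K : ℤ)) • b := congrArg Subtype.val hab
      funext w
      have h2 := congrFun h1 w
      simp only [Pi.smul_apply, smul_eq_mul] at h2
      exact mul_left_cancel₀ hne h2
    have := LinearMap.finrank_le_finrank_of_injective hg
    rwa [Module.finrank_pi, Fintype.card_coe] at this

/-- **Dirichlet's `S`-unit theorem**, finite generation. -/
instance sUnit_finite :
    Module.Finite ℤ (Additive ((S : Set (HeightOneSpectrum (𝓞 K))).unit K)) := by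
  rw [Module.finite_def]
  apply Submodule.fg_of_fg_map_of_fg_inf_ker (valLin K S)
  · rw [Submodule.map_top]
    exact IsNoetherian.noetherian _
  · rw [top_inf_eq]
    exact fg_ker_valLin K S

/-- **Dirichlet's `S`-unit theorem**: the rank of the group of `S`-units is
`Units.rank K + #S = #{infinite places} + #S - 1`. -/
theorem finrank_sUnit :
    Module.finrank ℤ (Additive ((S : Set (HeightOneSpectrum (𝓞 K))).unit K))
      = NumberField.Units.rank K + S.card := by
  have h1 := Submodule.finrank_quotient_add_finrank (LinearMap.ker (valLin K S))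
  rw [(valLin K S).quotKerEquivRange.finrank_eq, finrank_range_valLin, finrank_ker_valLin] at h1
  rw [← h1, add_comm]

end NumberField

end Fermat.Agent.CFT.H10
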