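import Fermat.Agent.S14.H63_Herbrand

set_option autoImplicit false

/-!
# The exact Herbrand quotient of a finitely generated `ℤ[C_p]`-module

For a finitely generated abelian group `E` with an endomorphism `σ` such that `σ ^ p = 1`
(`p` prime), both `Ĥ⁰ = E^σ / N E` and `H¹ = ker N / (σ - 1) E` are finite and
`|H¹| * p ^ rank (E^σ) = |Ĥ⁰| * p ^ k` where `k * (p - 1) = rank E - rank E^σ`.
-/

namespace Fermat.Agent.CFT.H63

open Module Submodule Polynomial Fermat.Agent.Kummer.H63 Fermat.Agent.S14.H63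

section Poly

/-- `p` is `(X - 1)^(p-1)` times a polynomial modulo the `p`-th cyclotomic polynomial. -/
lemma exists_mul_sub_pow_eq (p : ℕ) [hp : Fact p.Prime] :
    ∃ V U : ℤ[X], V * (X - 1) ^ (p - 1) =
      C (p : ℤ) + (∑ i ∈ Finset.range p, (X : ℤ[X]) ^ i) * U := by
  have : NeZero p := ⟨hp.out.ne_zero⟩
  have : NeZero ((p : ℕ) : ℚ) := ⟨by exact_mod_cast hp.out.ne_zero⟩
  have hcyc : IsCyclotomicExtension {p} ℚ (CyclotomicField p ℚ) :=
    CyclotomicField.isCyclotomicExtension p ℚ
  have hζ := IsCyclotomicExtension.zeta_spec p ℚ (CyclotomicField p ℚ)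
  obtain ⟨z, hz, hpz⟩ := hζ.self_sub_one_pow_dvd_order (k := p - 1)
    (Nat.sub_lt hp.out.pos one_pos)
  rw [Algebra.adjoin_singleton_eq_range_aeval] at hz
  obtain ⟨V, rfl⟩ := hz
  have hroot : aeval (IsCyclotomicExtension.zeta p ℚ (CyclotomicField p ℚ))
      (V * (X - 1) ^ (p - 1) - C (p : ℤ)) = 0 := by
    rw [map_sub, map_mul, map_pow, map_sub, aeval_X, map_one, aeval_C, sub_eq_zero,
      eq_intCast, Int.cast_natCast]
    exact hpz.symm
  have hdvd : cyclotomic p ℤ ∣ V * (X - 1) ^ (p - 1) - C (p : ℤ) := by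
    rw [cyclotomic_eq_minpoly hζ hp.out.pos]
    exact minpoly.isIntegrallyClosed_dvd (hζ.isIntegral hp.out.pos) hroot
  obtain ⟨U, hU⟩ := hdvd
  refine ⟨V, U, ?_⟩
  rw [← cyclotomic_prime ℤ p, ← hU]
  ring

end Poly

variable {E : Type*} [AddCommGroup E] {p : ℕ} {σ : Module.End ℤ E}

lemma exists_mul_sub_pow_eq_smul [hp : Fact p.Prime] :
    ∃ v u : Module.End ℤ E, Commute v σ ∧ Commute u σ ∧
      v * (σ - 1) ^ (p - 1) = (p : ℤ) • (1 : Module.End ℤ E) + normEnd p σ * u := by
  obtain ⟨V, U, hVU⟩ := exists_mul_sub_pow_eq p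
  refine ⟨aeval σ V, aeval σ U, ?_, ?_, ?_⟩
  · have := (Commute.all V X).map (aeval σ)
    simpa using this
  · have := (Commute.all U X).map (aeval σ)
    simpa using this
  · have := congrArg (aeval σ) hVU
    simpa [normEnd, map_sum, Algebra.smul_def] using this

/-- `|det (σ - 1)|^(p-1)` on the kernel of the norm divides `p ^ rank`. -/
lemma det_pow_dvd_pow [Module.Finite ℤ E] [hp : Fact p.Prime] (hσ : σ ^ p = 1) :
    (LinearMap.det (torsionQuotMap (phiM hσ))).natAbs ^ (p - 1) ∣
      p ^ finrank ℤ (normKer p σ) := by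
  have : Module.Free ℤ (normKer p σ ⧸ torsion ℤ (normKer p σ)) :=
    Module.free_of_finite_type_torsion_free'
  obtain ⟨v, u, hvσ, huσ, hvu⟩ := exists_mul_sub_pow_eq_smul (p := p) (σ := σ)
  have hvN : Commute v (normEnd p σ) := by
    rw [normEnd]
    exact Commute.sum_right _ _ _ (fun i _ => hvσ.pow_right i)
  have hvM : ∀ x ∈ normKer p σ, v x ∈ normKer p σ := by
    intro x hx
    rw [LinearMap.mem_ker] at hx ⊢
    rw [← Module.End.mul_apply, ← hvN.eq, Module.End.mul_apply, hx, map_zero]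
  let vM : Module.End ℤ (normKer p σ) := v.restrict hvM
  have huN : Commute u (normEnd p σ) := by
    rw [normEnd]
    exact Commute.sum_right _ _ _ (fun i _ => huσ.pow_right i)
  have key : vM * (phiM hσ) ^ (p - 1) = (p : ℤ) • (1 : Module.End ℤ (normKer p σ)) := by
    rw [phiM, Module.End.pow_restrict]
    ext x
    have hx : normEnd p σ x.1 = 0 := LinearMap.mem_ker.mp x.2
    have h1 := congrArg (fun f : Module.End ℤ E => f x.1) hvu
    simp only [Module.End.mul_apply, LinearMap.add_apply, LinearMap.smul_apply,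
      Module.End.one_apply] at h1
    have h2 : normEnd p σ (u x.1) = 0 := by
      rw [← Module.End.mul_apply, ← huN.eq, Module.End.mul_apply, hx, map_zero]
    rw [h2, add_zero] at h1
    simp only [Module.End.mul_apply, LinearMap.coe_restrict_apply, LinearMap.smul_apply,
      Module.End.one_apply, SetLike.val_smul, vM]
    exact h1
  have hdet : LinearMap.det (torsionQuotMap vM) *
      (LinearMap.det (torsionQuotMap (phiM hσ))) ^ (p - 1) =
      (p : ℤ) ^ finrank ℤ (normKer p σ) := by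
    rw [← map_pow, ← torsionQuotHom_apply, ← torsionQuotHom_apply, ← map_pow, ← map_mul,
      ← map_mul, key, map_zsmul, map_one, LinearMap.det_smul, map_one, mul_one,
      finrank_quot_torsion]
  have h1 : (LinearMap.det (torsionQuotMap (phiM hσ))) ^ (p - 1) ∣
      (p : ℤ) ^ finrank ℤ (normKer p σ) := Dvd.intro_left _ hdet
  have h2 := Int.natAbs_dvd_natAbs.mpr h1
  rwa [Int.natAbs_pow, Int.natAbs_pow, Int.natAbs_natCast] at h2

/-- The determinant of `σ - 1` on the kernel of the norm is `p ^ k` with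
`k * (p - 1) = rank (ker N)`. -/
lemma exists_det_eq_pow [Module.Finite ℤ E] [hp : Fact p.Prime] (hσ : σ ^ p = 1) :
    ∃ k : ℕ, k * (p - 1) = finrank ℤ (normKer p σ) ∧
      (LinearMap.det (torsionQuotMap (phiM hσ))).natAbs = p ^ k := by
  have h1 := det_pow_dvd_pow (p := p) hσ
  have h2 := pow_dvd_det_pow (p := p) hσ
  have h3 := Nat.dvd_antisymm h1 h2
  set d := (LinearMap.det (torsionQuotMap (phiM hσ))).natAbs with hd
  have hp1 : p - 1 ≠ 0 := by have := hp.out.two_le; omega
  have hdvd : d ∣ p ^ finrank ℤ (normKer p σ) :=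
    (dvd_pow_self d hp1).trans h1
  obtain ⟨k, _, hk⟩ := (Nat.dvd_prime_pow hp.out).mp hdvd
  refine ⟨k, ?_, hk⟩
  rw [hk, ← pow_mul] at h3
  exact Nat.pow_right_injective hp.out.two_le h3

/-- **The Herbrand quotient of a finitely generated `ℤ[C_p]`-module** (exact form). -/
theorem herbrand_eq [Module.Finite ℤ E] [hp : Fact p.Prime] (hσ : σ ^ p = 1) :
    ∃ k : ℕ, k * (p - 1) + finrank ℤ (fixedSub σ) = finrank ℤ E ∧
    0 < Nat.card (fixedSub σ ⧸ LinearMap.range (normTo hσ)) ∧
    0 < Nat.card (normKer p σ ⧸ LinearMap.range (phiTo hσ)) ∧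
    Nat.card (normKer p σ ⧸ LinearMap.range (phiTo hσ)) * p ^ finrank ℤ (fixedSub σ) =
      Nat.card (fixedSub σ ⧸ LinearMap.range (normTo hσ)) * p ^ k := by
  obtain ⟨k, hk, hdk⟩ := exists_det_eq_pow (p := p) hσ
  have ha := card_quotient_range (phiM hσ) (phiM_torsion hσ)
  have hb := card_quotient_smul (fixedSub σ) p hp.out.ne_zero
  have hc := card_ker_phiM_eq hσ
  have hrank := finrank_normKer (p := p) hσ
  have hfin : Finite (LinearMap.ker (pF p σ)) := by
    apply Module.finite_of_fg_torsion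
    rintro ⟨x, hx⟩
    refine ⟨⟨(p : ℤ), mem_nonZeroDivisors_of_ne_zero (by exact_mod_cast hp.out.ne_zero)⟩, ?_⟩
    apply Subtype.ext
    have : pF p σ x = 0 := hx
    rw [Submonoid.smul_def]
    simpa using this
  have hcpos : 0 < Nat.card (LinearMap.ker (pF p σ)) := Nat.card_pos
  rw [hc, hdk] at ha
  set c := Nat.card (LinearMap.ker (pF p σ)) with hcdef
  set f := finrank ℤ (fixedSub σ) with hf
  have i1 := AddSubgroup.relIndex_mul_index
    (H := (LinearMap.range (phiM hσ)).toAddSubgroup)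
    (K := (LinearMap.range (phiTo hσ)).toAddSubgroup) (by
      rintro _ ⟨x, rfl⟩
      exact ⟨x.1, Subtype.ext rfl⟩)
  have i2 := AddSubgroup.relIndex_mul_index
    (H := (LinearMap.range (pF p σ)).toAddSubgroup)
    (K := (LinearMap.range (normTo hσ)).toAddSubgroup) (by
      rw [← map_normTo_fixedSub hσ]
      rintro _ ⟨x, _, rfl⟩
      exact ⟨x, rfl⟩)
  rw [relIndex_eq hσ] at i1
  set r := (LinearMap.range (pF p σ)).toAddSubgroup.relIndex
    (LinearMap.range (normTo hσ)).toAddSubgroup with hr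
  have j1 : (LinearMap.range (phiM hσ)).toAddSubgroup.index =
      Nat.card (normKer p σ ⧸ LinearMap.range (phiM hσ)) := by
    rw [AddSubgroup.index_eq_card]; rfl
  have j2 : (LinearMap.range (phiTo hσ)).toAddSubgroup.index =
      Nat.card (normKer p σ ⧸ LinearMap.range (phiTo hσ)) := by
    rw [AddSubgroup.index_eq_card]; rfl
  have j3 : (LinearMap.range (pF p σ)).toAddSubgroup.index =
      Nat.card (fixedSub σ ⧸ LinearMap.range (pF p σ)) := by
    rw [AddSubgroup.index_eq_card]; rfl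
  have j4 : (LinearMap.range (normTo hσ)).toAddSubgroup.index =
      Nat.card (fixedSub σ ⧸ LinearMap.range (normTo hσ)) := by
    rw [AddSubgroup.index_eq_card]; rfl
  rw [j1, j2, ha] at i1
  rw [j3, j4, hb] at i2
  set H1 := Nat.card (normKer p σ ⧸ LinearMap.range (phiTo hσ)) with hH1
  set H0 := Nat.card (fixedSub σ ⧸ LinearMap.range (normTo hσ)) with hH0
  -- i1 : r * H1 = c * p ^ k ; i2 : r * H0 = c * p ^ f
  have hppos : 0 < p := hp.out.pos
  have hpf : 0 < c * p ^ f := Nat.mul_pos hcpos (pow_pos hppos f)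
  have hpk : 0 < c * p ^ k := Nat.mul_pos hcpos (pow_pos hppos k)
  have hrpos : 0 < r := by
    rcases Nat.eq_zero_or_pos r with h | h
    · rw [h, zero_mul] at i2; omega
    · exact h
  have hH0pos : 0 < H0 := by
    rcases Nat.eq_zero_or_pos H0 with h | h
    · rw [h, mul_zero] at i2; omega
    · exact h
  have hH1pos : 0 < H1 := by
    rcases Nat.eq_zero_or_pos H1 with h | h
    · rw [h, mul_zero] at i1; omega
    · exact h
  refine ⟨k, by omega, hH0pos, hH1pos, ?_⟩
  have key : (r * c) * (H1 * p ^ f) = (r * c) * (H0 * p ^ k) := by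
    calc (r * c) * (H1 * p ^ f) = (r * H1) * (c * p ^ f) := by ring
      _ = (c * p ^ k) * (r * H0) := by rw [i1, i2]
      _ = (r * c) * (H0 * p ^ k) := by ring
  exact Nat.eq_of_mul_eq_mul_left (Nat.mul_pos hrpos hcpos) key

end Fermat.Agent.CFT.H63
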