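import Mathlib
import Fermat.Agent.CFT.H63_SUnitFixed
import Fermat.Agent.CFT.H10_SUnitRank
import Fermat.Agent.CFT.H63_HerbrandExact
import Fermat.Agent.S14.H63_UnitsSetup

set_option autoImplicit false
set_option linter.unusedSectionVars false

/-!
# CFT / C-SUnit-Galois (helper63), part 4: the Herbrand quotient of the `S`-units

`L/K` cyclic of odd prime degree `p`, `T` a finite set of finite places of `K`, `E = U_{L,T}` the
group of elements of `Lˣ` which are units outside the places above `T`.  Then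
`|Ĥ⁰(G, E)| * p = |H¹(G, E)| * ∏_{v ∈ T} e_v f_v` (`sunits_herbrand_eq`).
-/

namespace Fermat.Agent.CFT.H63

open IsDedekindDomain NumberField Module Fermat.Agent.Kummer.H63 Fermat.Agent.S14.H63

variable {K L : Type*} [Field K] [Field L] [Algebra K L] [NumberField K] [NumberField L]

section Count

variable (L) in
/-- The places of `L` above `v` correspond to the primes over `v`. -/
noncomputable def fiberEquiv (v : HeightOneSpectrum (𝓞 K)) :
    {w : HeightOneSpectrum (𝓞 L) // w.under (𝓞 K) = v} ≃ v.asIdeal.primesOver (𝓞 L) where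
  toFun w := ⟨w.1.asIdeal, w.1.isPrime, ⟨(congrArg HeightOneSpectrum.asIdeal w.2).symm⟩⟩
  invFun P := ⟨⟨P.1, P.2.1, by
      intro h
      apply v.ne_bot
      have h2 := P.2.2.over
      rw [h2, h]
      exact Ideal.comap_bot_of_injective _ (FaithfulSMul.algebraMap_injective (𝓞 K) (𝓞 L))⟩,
    HeightOneSpectrum.ext P.2.2.over.symm⟩
  left_inv w := rfl
  right_inv P := rfl

instance fiber_finite (v : HeightOneSpectrum (𝓞 K)) :
    Finite {w : HeightOneSpectrum (𝓞 L) // w.under (𝓞 K) = v} := by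
  have : Finite (v.asIdeal.primesOver (𝓞 L)) :=
    (IsDedekindDomain.primesOver_finite v.asIdeal (𝓞 L)).to_subtype
  exact Finite.of_equiv _ (fiberEquiv L v).symm

theorem card_fiber (v : HeightOneSpectrum (𝓞 K)) :
    Nat.card {w : HeightOneSpectrum (𝓞 L) // w.under (𝓞 K) = v}
      = (v.asIdeal.primesOver (𝓞 L)).ncard := by
  rw [Nat.card_congr (fiberEquiv L v)]
  rfl

theorem aboveSet_finite (T : Finset (HeightOneSpectrum (𝓞 K))) :
    (aboveSet L (T : Set (HeightOneSpectrum (𝓞 K)))).Finite := by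
  have : aboveSet L (T : Set (HeightOneSpectrum (𝓞 K)))
      = ⋃ v ∈ T, {w : HeightOneSpectrum (𝓞 L) | w.under (𝓞 K) = v} := by
    ext w
    simp [aboveSet]
  rw [this]
  exact Set.Finite.biUnion T.finite_toSet (fun v _ => @Set.toFinite _ _ (fiber_finite v))

theorem ncard_aboveSet (T : Finset (HeightOneSpectrum (𝓞 K))) :
    (aboveSet L (T : Set (HeightOneSpectrum (𝓞 K)))).ncard
      = ∑ v ∈ T, (v.asIdeal.primesOver (𝓞 L)).ncard := by
  classical
  rw [Set.ncard_eq_toFinset_card _ (aboveSet_finite T)]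
  rw [Finset.card_eq_sum_card_fiberwise (f := fun w => w.under (𝓞 K)) (t := T)]
  · apply Finset.sum_congr rfl
    intro v hv
    rw [← card_fiber (L := L) v, ← Set.ncard_coe_finset]
    have : ((Finset.filter (fun w : HeightOneSpectrum (𝓞 L) => w.under (𝓞 K) = v)
        (aboveSet_finite (L := L) T).toFinset : Finset (HeightOneSpectrum (𝓞 L))) :
        Set (HeightOneSpectrum (𝓞 L))) = {w | w.under (𝓞 K) = v} := by
      ext w
      simp only [Finset.coe_filter, Set.Finite.mem_toFinset, mem_aboveSet, Finset.mem_coe,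
        Set.mem_ofPred_eq, and_iff_right_iff_imp]
      rintro rfl
      exact hv
    rw [this]
    exact (Nat.card_coe_set_eq _).symm
  · intro w hw
    simpa [mem_aboveSet] using hw

end Count

section Rank

theorem sUnit_finite_of_finite (S : Set (HeightOneSpectrum (𝓞 L))) (hS : S.Finite) :
    Module.Finite ℤ (Additive (S.unit L)) := by
  obtain ⟨F, rfl⟩ := hS.exists_finset_coe
  exact H10.sUnit_finite L F

theorem finrank_sUnit_of_finite (S : Set (HeightOneSpectrum (𝓞 L))) (hS : S.Finite) :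
    finrank ℤ (Additive (S.unit L)) = NumberField.Units.rank L + S.ncard := by
  obtain ⟨F, rfl⟩ := hS.exists_finset_coe
  rw [H10.finrank_sUnit, Set.ncard_coe_finset]

end Rank

section Herbrand

variable [IsGalois K L] {p : ℕ} [hp : Fact p.Prime]

theorem sunitsEnd_pow_eq_one {S : Set (HeightOneSpectrum (𝓞 L))}
    (hS : ∀ (τ : L ≃ₐ[K] L), ∀ w ∈ S, galSpec τ w ∈ S) (hKL : Module.finrank K L = p)
    (σ : L ≃ₐ[K] L) : (sunitsEnd S hS σ) ^ p = 1 := by
  rw [← map_pow, aut_pow_eq_one hKL, map_one]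

/-- Local numerology in a Galois extension of prime degree `p`: at each finite place `v` of `K`
the local degree `n_v = e_v f_v` is `p ^ ε` with `ε ∈ {0, 1}` and the number of places above is
`g_v = p - (p - 1) ε`. -/
theorem exists_local_exp (hKL : Module.finrank K L = p) (v : HeightOneSpectrum (𝓞 K)) :
    ∃ ε : ℕ, v.asIdeal.ramificationIdxIn (𝓞 L) * v.asIdeal.inertiaDegIn (𝓞 L) = p ^ ε ∧
      (v.asIdeal.primesOver (𝓞 L)).ncard + (p - 1) * ε = p := by
  have h := Ideal.ncard_primesOver_mul_ramificationIdxIn_mul_inertiaDegIn v.asIdeal (𝓞 L)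
    (L ≃ₐ[K] L)
  rw [card_aut_eq hKL] at h
  have hp1 := hp.out.one_le
  rcases (Nat.dvd_prime hp.out).mp ⟨_, h.symm⟩ with hg | hg
  · refine ⟨1, ?_, ?_⟩
    · rw [hg, one_mul] at h
      rw [h, pow_one]
    · rw [hg, mul_one]
      omega
  · refine ⟨0, ?_, ?_⟩
    · rw [hg] at h
      have := Nat.eq_of_mul_eq_mul_left hp.out.pos (h.trans (mul_one p).symm)
      rw [this, pow_zero]
    · rw [hg, mul_zero, add_zero]

/-- **Herbrand quotient of `S`-units**: `L/K` cyclic of odd prime degree `p`, `T` a finite set of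
finite places of `K`, `E` the group of units of `L` outside the places above `T`. Then `Ĥ⁰(G, E)`
and `H¹(G, E)` are finite and `|Ĥ⁰| * p = |H¹| * ∏_{v ∈ T} n_v` with `n_v = e_v f_v` the local
degrees, i.e. `h(E) = (∏ n_v) / p`. -/
theorem sunits_herbrand_eq (hp2 : p ≠ 2) (hKL : Module.finrank K L = p) (σ : L ≃ₐ[K] L)
    (hσ : ∀ τ : L ≃ₐ[K] L, τ ∈ Subgroup.zpowers σ) (T : Finset (HeightOneSpectrum (𝓞 K))) :
    0 < Nat.card (fixedSub (sunitsEnd (aboveSet L (T : Set (HeightOneSpectrum (𝓞 K))))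
        (aboveSet_stable _) σ) ⧸
      LinearMap.range (normTo (sunitsEnd_pow_eq_one (aboveSet_stable _) hKL σ))) ∧
    0 < Nat.card (normKer p (sunitsEnd (aboveSet L (T : Set (HeightOneSpectrum (𝓞 K))))
        (aboveSet_stable _) σ) ⧸
      LinearMap.range (phiTo (sunitsEnd_pow_eq_one (aboveSet_stable _) hKL σ))) ∧
    Nat.card (fixedSub (sunitsEnd (aboveSet L (T : Set (HeightOneSpectrum (𝓞 K))))
        (aboveSet_stable _) σ) ⧸
      LinearMap.range (normTo (sunitsEnd_pow_eq_one (aboveSet_stable _) hKL σ))) * p =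
    Nat.card (normKer p (sunitsEnd (aboveSet L (T : Set (HeightOneSpectrum (𝓞 K))))
        (aboveSet_stable _) σ) ⧸
      LinearMap.range (phiTo (sunitsEnd_pow_eq_one (aboveSet_stable _) hKL σ))) *
      ∏ v ∈ T, (v.asIdeal.ramificationIdxIn (𝓞 L) * v.asIdeal.inertiaDegIn (𝓞 L)) := by
  have hfinT : (T : Set (HeightOneSpectrum (𝓞 K))).Finite := T.finite_toSet
  have := sUnit_finite_of_finite (aboveSet L (T : Set (HeightOneSpectrum (𝓞 K))))
    (aboveSet_finite T)
  have := sUnit_finite_of_finite (T : Set (HeightOneSpectrum (𝓞 K))) hfinT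
  have hodd : Odd (Module.finrank K L) := by
    rw [hKL]; exact hp.out.odd_of_ne_two hp2
  have hunr : IsUnramifiedAtInfinitePlaces K L := IsUnramifiedAtInfinitePlaces_of_odd_finrank hodd
  have hplaces := IsUnramifiedAtInfinitePlaces.card_infinitePlace K L
  rw [hKL] at hplaces
  have hsK : 0 < Fintype.card (InfinitePlace K) := Fintype.card_pos
  have hsL : 0 < Fintype.card (InfinitePlace L) := Fintype.card_pos
  set s := Fintype.card (InfinitePlace K) with hs
  -- ranks
  have hE : finrank ℤ (Additive ((aboveSet L (T : Set (HeightOneSpectrum (𝓞 K)))).unit L)) + 1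
      = p * s + ∑ v ∈ T, (v.asIdeal.primesOver (𝓞 L)).ncard := by
    rw [finrank_sUnit_of_finite _ (aboveSet_finite T), ncard_aboveSet, Units.rank, mul_comm p s,
      ← hplaces]
    omega
  have hF : finrank ℤ (fixedSub (sunitsEnd (aboveSet L (T : Set (HeightOneSpectrum (𝓞 K))))
      (aboveSet_stable _) σ)) + 1 = s + T.card := by
    rw [← range_sunitsIncl (T : Set (HeightOneSpectrum (𝓞 K))) σ hσ,
      ← (LinearEquiv.ofInjective (sunitsIncl L (T : Set (HeightOneSpectrum (𝓞 K))))
        (sunitsIncl_injective _)).finrank_eq,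
      finrank_sUnit_of_finite _ hfinT, Set.ncard_coe_finset, Units.rank]
    omega
  obtain ⟨k, hk, h0, h1, hkey⟩ := herbrand_eq (p := p)
    (sunitsEnd_pow_eq_one (aboveSet_stable (L := L) (T : Set (HeightOneSpectrum (𝓞 K)))) hKL σ)
  refine ⟨h0, h1, ?_⟩
  -- local exponents
  choose ε hε1 hε2 using fun v : HeightOneSpectrum (𝓞 K) => exists_local_exp (L := L) hKL v
  have hprod : ∏ v ∈ T, (v.asIdeal.ramificationIdxIn (𝓞 L) * v.asIdeal.inertiaDegIn (𝓞 L))
      = p ^ (∑ v ∈ T, ε v) := by
    rw [← Finset.prod_pow_eq_pow_sum]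
    exact Finset.prod_congr rfl fun v _ => hε1 v
  have hsum : ∑ v ∈ T, (v.asIdeal.primesOver (𝓞 L)).ncard + (p - 1) * ∑ v ∈ T, ε v
      = p * T.card := by
    rw [Finset.mul_sum, ← Finset.sum_add_distrib, Finset.sum_congr rfl fun v _ => hε2 v,
      Finset.sum_const, smul_eq_mul, mul_comm]
  rw [hprod]
  set b := ∑ v ∈ T, ε v with hb
  set g := ∑ v ∈ T, (v.asIdeal.primesOver (𝓞 L)).ncard with hg
  set f := finrank ℤ (fixedSub (sunitsEnd (aboveSet L (T : Set (HeightOneSpectrum (𝓞 K))))
      (aboveSet_stable _) σ)) with hf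
  set e := finrank ℤ (Additive ((aboveSet L (T : Set (HeightOneSpectrum (𝓞 K)))).unit L)) with he
  obtain ⟨p', rfl⟩ : ∃ p', p = p' + 1 := ⟨p - 1, (Nat.sub_add_cancel hp.out.one_le).symm⟩
  have hp' : 1 ≤ p' := by have := hp.out.two_le; omega
  simp only [add_tsub_cancel_right] at hk hsum
  -- k + b = f + 1
  have hkb : k + b = f + 1 := by
    have h2 : (k + b) * p' = (f + 1) * p' := by
      have e1 : (p' + 1) * s = p' * s + s := by ring
      have e2 : (p' + 1) * T.card = p' * T.card + T.card := by ring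
      have e3 : (k + b) * p' = k * p' + p' * b := by ring
      have e4 : (f + 1) * p' = p' * s + p' * T.card := by rw [hF]; ring
      omega
    exact Nat.eq_of_mul_eq_mul_right (by omega) h2
  have hpf : 0 < (p' + 1) ^ f := pow_pos (by omega) f
  apply Nat.eq_of_mul_eq_mul_right hpf
  calc _ = Nat.card (fixedSub (sunitsEnd (aboveSet L (T : Set (HeightOneSpectrum (𝓞 K))))
        (aboveSet_stable _) σ) ⧸ LinearMap.range (normTo (sunitsEnd_pow_eq_one
          (aboveSet_stable _) hKL σ))) * (p' + 1) ^ (k + b) := by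
        rw [hkb, pow_succ]; ring
    _ = _ := by
        rw [pow_add, ← mul_assoc, ← hkey]; ring

end Herbrand

end Fermat.Agent.CFT.H63
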