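import Mathlib
import Fermat.Agent.CFT.H6_Herbrand
import Fermat.Agent.CFT.H63_SUnitHerbrand

set_option autoImplicit false
set_option linter.unusedSectionVars false

/-!
# CFT / C-FIRST (helper63), part 1: abstract first inequality

Bridge between the `fixedSub / normKer` vocabulary (`Kummer/H63_Abstract`, `S14/H63_Herbrand`) and
helper6's Herbrand quotient `Fermat.Agent.CFT.H6.herbrand`, the Herbrand quotient of the `S`-units
in that vocabulary, and the abstract glue for the first inequality: if `I = D + j(J)` and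
`j⁻¹(D) = e(E)` then `h(I/D) = h(J)/h(E)`.
-/

namespace Fermat.Agent.CFT.H63

open Module Fermat.Agent.Kummer.H63 Fermat.Agent.S14.H63 Fermat.Agent.CFT.H6

universe u

section Bridge

variable {E : Type*} [AddCommGroup E]

/-- General bridge: the cardinality of `ker f / im g` is helper6's `hIndex f g`. -/
theorem card_quot_range_codRestrict_eq_hIndex (f g : Module.End ℤ E)
    (h : ∀ x, g x ∈ LinearMap.ker f) :
    Nat.card (LinearMap.ker f ⧸ LinearMap.range (g.codRestrict (LinearMap.ker f) h)) =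
      hIndex f.toAddMonoidHom g.toAddMonoidHom := by
  unfold hIndex AddSubgroup.relIndex AddSubgroup.index
  let e : (LinearMap.ker f) ≃+ f.toAddMonoidHom.ker :=
    { toFun := fun x => ⟨x.1, x.2⟩
      invFun := fun x => ⟨x.1, x.2⟩
      left_inv := fun _ => rfl
      right_inv := fun _ => rfl
      map_add' := fun _ _ => rfl }
  refine Nat.card_congr (QuotientAddGroup.congr
    (LinearMap.range (g.codRestrict (LinearMap.ker f) h)).toAddSubgroup
    (g.toAddMonoidHom.range.addSubgroupOf f.toAddMonoidHom.ker) e ?_).toEquiv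
  ext y
  simp only [AddSubgroup.mem_map, Submodule.mem_toAddSubgroup, LinearMap.mem_range,
    AddSubgroup.mem_addSubgroupOf, AddMonoidHom.mem_range]
  constructor
  · rintro ⟨_, ⟨x, rfl⟩, rfl⟩
    exact ⟨x, rfl⟩
  · rintro ⟨x, hx⟩
    refine ⟨g.codRestrict (LinearMap.ker f) h x, ⟨x, rfl⟩, ?_⟩
    apply Subtype.ext
    exact hx

variable {p : ℕ} {σ : Module.End ℤ E}

/-- `|Ĥ⁰| = hIndex (σ - 1) N`. -/
theorem hIndex_sub_one_normEnd (hσ : σ ^ p = 1) :
    hIndex (σ - 1).toAddMonoidHom (normEnd p σ).toAddMonoidHom =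
      Nat.card (fixedSub σ ⧸ LinearMap.range (normTo hσ)) :=
  (card_quot_range_codRestrict_eq_hIndex (σ - 1) (normEnd p σ)
    (normEnd_apply_mem_fixedSub hσ)).symm

/-- `|H¹| = hIndex N (σ - 1)`. -/
theorem hIndex_normEnd_sub_one (hσ : σ ^ p = 1) :
    hIndex (normEnd p σ).toAddMonoidHom (σ - 1).toAddMonoidHom =
      Nat.card (normKer p σ ⧸ LinearMap.range (phiTo hσ)) :=
  (card_quot_range_codRestrict_eq_hIndex (normEnd p σ) (σ - 1)
    (sub_apply_mem_normKer hσ)).symm

theorem normEnd_comp_sub_one (hσ : σ ^ p = 1) :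
    (normEnd p σ).toAddMonoidHom.comp (σ - 1).toAddMonoidHom = 0 := by
  ext x
  have := normEnd_mul_sub (p := p) hσ
  exact DFunLike.congr_fun this x

theorem sub_one_comp_normEnd (hσ : σ ^ p = 1) :
    (σ - 1).toAddMonoidHom.comp (normEnd p σ).toAddMonoidHom = 0 := by
  ext x
  have := sub_mul_normEnd (p := p) hσ
  exact DFunLike.congr_fun this x

end Bridge

section SUnits

open IsDedekindDomain NumberField

variable {K L : Type*} [Field K] [Field L] [Algebra K L] [NumberField K] [NumberField L]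
  [IsGalois K L] {p : ℕ} [hp : Fact p.Prime]

/-- **Herbrand quotient of the `S`-units** in helper6's vocabulary:
`h(U_{L,T}) = (∏_{v ∈ T} e_v f_v) / p` for `L/K` cyclic of odd prime degree `p`. -/
theorem sunits_herbrand (hp2 : p ≠ 2) (hKL : Module.finrank K L = p) (σ : L ≃ₐ[K] L)
    (hσ : ∀ τ : L ≃ₐ[K] L, τ ∈ Subgroup.zpowers σ) (T : Finset (HeightOneSpectrum (𝓞 K))) :
    HerbrandDefined
      (sunitsEnd (aboveSet L (T : Set (HeightOneSpectrum (𝓞 K)))) (aboveSet_stable _) σ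
        - 1).toAddMonoidHom
      (normEnd p (sunitsEnd (aboveSet L (T : Set (HeightOneSpectrum (𝓞 K))))
        (aboveSet_stable _) σ)).toAddMonoidHom ∧
    herbrand
      (sunitsEnd (aboveSet L (T : Set (HeightOneSpectrum (𝓞 K)))) (aboveSet_stable _) σ
        - 1).toAddMonoidHom
      (normEnd p (sunitsEnd (aboveSet L (T : Set (HeightOneSpectrum (𝓞 K))))
        (aboveSet_stable _) σ)).toAddMonoidHom =
      ((∏ v ∈ T, (v.asIdeal.ramificationIdxIn (𝓞 L) * v.asIdeal.inertiaDegIn (𝓞 L)) : ℕ) : ℚ)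
        / p := by
  obtain ⟨h0, h1, hkey⟩ := sunits_herbrand_eq hp2 hKL σ hσ T
  have hE := sunitsEnd_pow_eq_one (aboveSet_stable (L := L) (T : Set (HeightOneSpectrum (𝓞 K))))
    hKL σ
  rw [← hIndex_sub_one_normEnd hE, ← hIndex_normEnd_sub_one hE] at hkey
  rw [← hIndex_sub_one_normEnd hE] at h0
  rw [← hIndex_normEnd_sub_one hE] at h1
  refine ⟨⟨h0.ne', h1.ne'⟩, ?_⟩
  unfold herbrand
  have hp0 : (p : ℚ) ≠ 0 := Nat.cast_ne_zero.mpr hp.out.ne_zero
  have h1' : ((hIndex (normEnd p (sunitsEnd (aboveSet L (T : Set (HeightOneSpectrum (𝓞 K))))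
        (aboveSet_stable _) σ)).toAddMonoidHom
      (sunitsEnd (aboveSet L (T : Set (HeightOneSpectrum (𝓞 K)))) (aboveSet_stable _) σ
        - 1).toAddMonoidHom : ℕ) : ℚ) ≠ 0 := Nat.cast_ne_zero.mpr h1.ne'
  rw [div_eq_div_iff h1' hp0, mul_comm ((∏ v ∈ T, _ : ℕ) : ℚ)]
  exact_mod_cast hkey

end SUnits

section Glue

variable {E J I : Type u} [AddCommGroup E] [AddCommGroup J] [AddCommGroup I]

/-- **Abstract glue**: `I = D + j(J)` and `j⁻¹(D) = e(E)` give an exact sequence
`0 → E → J → I/D → 0` compatible with the endomorphism pairs. -/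
theorem herbrandExact_of_cover {fE gE : E →+ E} {fJ gJ : J →+ J} {fI gI : I →+ I}
    (hE₁ : gE.comp fE = 0) (hE₂ : fE.comp gE = 0) (hJ₁ : gJ.comp fJ = 0) (hJ₂ : fJ.comp gJ = 0)
    (hI₁ : gI.comp fI = 0) (hI₂ : fI.comp gI = 0)
    (D : AddSubgroup I) (hfD : D ≤ D.comap fI) (hgD : D ≤ D.comap gI)
    (e : E →+ J) (he : Function.Injective e) (hef : e.comp fE = fJ.comp e)
    (heg : e.comp gE = gJ.comp e)
    (j : J →+ I) (hjf : j.comp fJ = fI.comp j) (hjg : j.comp gJ = gI.comp j)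
    (hcover : ∀ x : I, ∃ y : J, x - j y ∈ D)
    (hker : ∀ y : J, j y ∈ D ↔ y ∈ e.range) :
    HerbrandExact fE gE fJ gJ (quotEnd fI D hfD) (quotEnd gI D hgD) e
      ((QuotientAddGroup.mk' D).comp j) where
  gfA := hE₁
  fgA := hE₂
  gfB := hJ₁
  fgB := hJ₂
  gfC := (herbrandExact_sub_quot hI₁ hI₂ D hfD hgD).gfC
  fgC := (herbrandExact_sub_quot hI₁ hI₂ D hfD hgD).fgC
  inj := he
  surj := by
    intro c
    obtain ⟨x, rfl⟩ := QuotientAddGroup.mk'_surjective D c
    obtain ⟨y, hy⟩ := hcover x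
    refine ⟨y, ?_⟩
    simp only [AddMonoidHom.coe_comp, Function.comp_apply, QuotientAddGroup.mk'_apply]
    rw [QuotientAddGroup.eq]
    have : -j y + x = x - j y := by abel
    rw [this]
    exact hy
  exact := by
    intro y
    simp only [AddMonoidHom.coe_comp, Function.comp_apply, QuotientAddGroup.mk'_apply,
      QuotientAddGroup.eq_zero_iff]
    rw [hker]
    rfl
  i_f := hef
  i_g := heg
  p_f := by
    ext y
    simp only [AddMonoidHom.coe_comp, Function.comp_apply, QuotientAddGroup.mk'_apply, quotEnd_mk]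
    rw [show j (fJ y) = fI (j y) from DFunLike.congr_fun hjf y]
  p_g := by
    ext y
    simp only [AddMonoidHom.coe_comp, Function.comp_apply, QuotientAddGroup.mk'_apply, quotEnd_mk]
    rw [show j (gJ y) = gI (j y) from DFunLike.congr_fun hjg y]

/-- `h(I/D) = h(J)/h(E)` in the situation of `herbrandExact_of_cover`. -/
theorem herbrand_quot_of_cover {fE gE : E →+ E} {fJ gJ : J →+ J} {fI gI : I →+ I}
    (hE₁ : gE.comp fE = 0) (hE₂ : fE.comp gE = 0) (hJ₁ : gJ.comp fJ = 0) (hJ₂ : fJ.comp gJ = 0)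
    (hI₁ : gI.comp fI = 0) (hI₂ : fI.comp gI = 0)
    (D : AddSubgroup I) (hfD : D ≤ D.comap fI) (hgD : D ≤ D.comap gI)
    (e : E →+ J) (he : Function.Injective e) (hef : e.comp fE = fJ.comp e)
    (heg : e.comp gE = gJ.comp e)
    (j : J →+ I) (hjf : j.comp fJ = fI.comp j) (hjg : j.comp gJ = gI.comp j)
    (hcover : ∀ x : I, ∃ y : J, x - j y ∈ D)
    (hker : ∀ y : J, j y ∈ D ↔ y ∈ e.range)
    (hdE : HerbrandDefined fE gE) (hdJ : HerbrandDefined fJ gJ) :
    HerbrandDefined (quotEnd fI D hfD) (quotEnd gI D hgD) ∧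
      herbrand (quotEnd fI D hfD) (quotEnd gI D hgD) = herbrand fJ gJ / herbrand fE gE := by
  have hex := herbrandExact_of_cover hE₁ hE₂ hJ₁ hJ₂ hI₁ hI₂ D hfD hgD e he hef heg j hjf hjg
    hcover hker
  refine ⟨hex.defined_right hdE hdJ, ?_⟩
  rw [hex.herbrand_mul_of_left_mid hdE hdJ, mul_div_cancel_left₀ _ hdE.herbrand_ne_zero]

end Glue

section Prod

variable {A B : Type u} [AddCommGroup A] [AddCommGroup B]

/-- The split exact sequence `0 → A → A × B → B → 0`. -/
theorem herbrandExact_prod {fA gA : A →+ A} {fB gB : B →+ B}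
    (hA₁ : gA.comp fA = 0) (hA₂ : fA.comp gA = 0) (hB₁ : gB.comp fB = 0) (hB₂ : fB.comp gB = 0) :
    HerbrandExact fA gA (fA.prodMap fB) (gA.prodMap gB) fB gB (AddMonoidHom.inl A B)
      (AddMonoidHom.snd A B) where
  gfA := hA₁
  fgA := hA₂
  gfB := by
    ext x
    · exact DFunLike.congr_fun hA₁ x.1
    · exact DFunLike.congr_fun hB₁ x.2
  fgB := by
    ext x
    · exact DFunLike.congr_fun hA₂ x.1
    · exact DFunLike.congr_fun hB₂ x.2
  gfC := hB₁
  fgC := hB₂
  inj := fun x y h => by simpa using congrArg Prod.fst h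
  surj := fun b => ⟨(0, b), rfl⟩
  exact := by
    intro x
    constructor
    · intro hx
      refine ⟨x.1, ?_⟩
      ext
      · rfl
      · exact hx.symm
    · rintro ⟨a, rfl⟩
      rfl
  i_f := by
    ext x
    · rfl
    · simp
  i_g := by
    ext x
    · rfl
    · simp
  p_f := rfl
  p_g := rfl

theorem herbrand_prodMap {fA gA : A →+ A} {fB gB : B →+ B}
    (hA₁ : gA.comp fA = 0) (hA₂ : fA.comp gA = 0) (hB₁ : gB.comp fB = 0) (hB₂ : fB.comp gB = 0)
    (hdA : HerbrandDefined fA gA) (hdB : HerbrandDefined fB gB) :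
    HerbrandDefined (fA.prodMap fB) (gA.prodMap gB) ∧
      herbrand (fA.prodMap fB) (gA.prodMap gB) = herbrand fA gA * herbrand fB gB := by
  have hex := herbrandExact_prod hA₁ hA₂ hB₁ hB₂
  exact ⟨hex.defined_mid hdA hdB, hex.herbrand_mul hdA hdB⟩

end Prod

section First

variable {E A B I : Type u} [AddCommGroup E] [AddCommGroup A] [AddCommGroup B] [AddCommGroup I]

/-- From the value of the Herbrand quotient to the index equality. -/
theorem hIndex_eq_mul_of_herbrand_eq {C : Type*} [AddCommGroup C] {f g : C →+ C} {n : ℕ}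
    (hd : HerbrandDefined f g) (h : herbrand f g = n) : hIndex f g = n * hIndex g f := by
  unfold herbrand at h
  have h2 : ((hIndex g f : ℕ) : ℚ) ≠ 0 := Nat.cast_ne_zero.mpr hd.2
  rw [div_eq_iff h2] at h
  exact_mod_cast h

/-- **Abstract first inequality** (hybrid idele model): `E` the `T`-units, `A` the `S`-idele part,
`B` the permutation module on the primes in `T \ S`, `I` the full formation module, `D` the
principal part. If `I = D + j(A × B)`, `j⁻¹(D) = e(E)`, `h(A) h(B) = N` and `h(E) = N / p`,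
then `h(I/D) = p`; hence `|Ĥ⁰(I/D)| = p |H¹(I/D)|`. -/
theorem first_inequality_abstract {fE gE : E →+ E} {fA gA : A →+ A} {fB gB : B →+ B}
    {fI gI : I →+ I}
    (hE₁ : gE.comp fE = 0) (hE₂ : fE.comp gE = 0) (hA₁ : gA.comp fA = 0) (hA₂ : fA.comp gA = 0)
    (hB₁ : gB.comp fB = 0) (hB₂ : fB.comp gB = 0) (hI₁ : gI.comp fI = 0) (hI₂ : fI.comp gI = 0)
    (D : AddSubgroup I) (hfD : D ≤ D.comap fI) (hgD : D ≤ D.comap gI)
    (e : E →+ A × B) (he : Function.Injective e) (hef : e.comp fE = (fA.prodMap fB).comp e)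
    (heg : e.comp gE = (gA.prodMap gB).comp e)
    (j : A × B →+ I) (hjf : j.comp (fA.prodMap fB) = fI.comp j)
    (hjg : j.comp (gA.prodMap gB) = gI.comp j)
    (hcover : ∀ x : I, ∃ y : A × B, x - j y ∈ D)
    (hker : ∀ y : A × B, j y ∈ D ↔ y ∈ e.range)
    (hdE : HerbrandDefined fE gE) (hdA : HerbrandDefined fA gA) (hdB : HerbrandDefined fB gB)
    {N : ℚ} {p : ℕ} (hp : p ≠ 0) (hN : herbrand fA gA * herbrand fB gB = N)
    (hEN : herbrand fE gE = N / p) :
    HerbrandDefined (quotEnd fI D hfD) (quotEnd gI D hgD) ∧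
      herbrand (quotEnd fI D hfD) (quotEnd gI D hgD) = p ∧
      hIndex (quotEnd fI D hfD) (quotEnd gI D hgD) =
        p * hIndex (quotEnd gI D hgD) (quotEnd fI D hfD) := by
  obtain ⟨hdJ, hJ⟩ := herbrand_prodMap hA₁ hA₂ hB₁ hB₂ hdA hdB
  have hex1 := herbrandExact_prod hA₁ hA₂ hB₁ hB₂
  obtain ⟨hdC, hC⟩ := herbrand_quot_of_cover hE₁ hE₂ hex1.gfB hex1.fgB hI₁ hI₂ D hfD hgD e he
    hef heg j hjf hjg hcover hker hdE hdJ
  have hp0 : (p : ℚ) ≠ 0 := Nat.cast_ne_zero.mpr hp
  have hN0 : N ≠ 0 := by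
    rw [← hN]
    exact mul_ne_zero hdA.herbrand_ne_zero hdB.herbrand_ne_zero
  have hval : herbrand (quotEnd fI D hfD) (quotEnd gI D hgD) = p := by
    rw [hC, hJ, hN, hEN]
    field_simp
  exact ⟨hdC, hval, hIndex_eq_mul_of_herbrand_eq hdC hval⟩

end First

end Fermat.Agent.CFT.H63
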