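import Mathlib
import Fermat.Agent.CFT.H63_SUnitHerbrand

set_option autoImplicit false
set_option linter.unusedSectionVars false

/-!
# CFT / C-FIRST (helper63), part 3: fixed places of a generator

`L/K` cyclic of prime degree `p` with generator `σ`, `T` a finite set of finite places of `K`.
The permutation `abovePerm T σ` of the places of `L` above `T` has `p ^ #Fix = ∏_{v ∈ T} e_v f_v`
(`pow_card_fixedPoints_abovePerm`): this converts the Herbrand quotient `p ^ #Fix` of the
permutation module on the places above `T` (C-PERM) into the product of the local degrees.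
-/

namespace Fermat.Agent.CFT.H63

open IsDedekindDomain NumberField Module Fermat.Agent.Kummer.H63 Fermat.Agent.S14.H63
open scoped Pointwise

variable {K L : Type*} [Field K] [Field L] [Algebra K L] [NumberField K] [NumberField L]

theorem galSpec_asIdeal_eq_smul (σ : L ≃ₐ[K] L) (w : HeightOneSpectrum (𝓞 L)) :
    (galSpec σ w).asIdeal = σ • w.asIdeal := by
  rw [Ideal.pointwise_smul_def]
  rfl

/-- Transitivity of the Galois action on the places above a given place. -/
theorem exists_galSpec_eq [IsGalois K L] {w w' : HeightOneSpectrum (𝓞 L)}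
    (h : w.under (𝓞 K) = w'.under (𝓞 K)) : ∃ σ : L ≃ₐ[K] L, galSpec σ w = w' := by
  have h1 : w.asIdeal.LiesOver (w.under (𝓞 K)).asIdeal := ⟨rfl⟩
  have h2 : w'.asIdeal.LiesOver (w.under (𝓞 K)).asIdeal := ⟨by rw [h]; rfl⟩
  obtain ⟨σ, hσ⟩ := Ideal.exists_smul_eq_of_isGaloisGroup (w.under (𝓞 K)).asIdeal w.asIdeal
    w'.asIdeal (L ≃ₐ[K] L)
  exact ⟨σ, HeightOneSpectrum.ext (by rw [galSpec_asIdeal_eq_smul, hσ])⟩

theorem galSpec_pow_eq {σ : L ≃ₐ[K] L} {w : HeightOneSpectrum (𝓞 L)} (h : galSpec σ w = w)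
    (n : ℕ) : galSpec (σ ^ n) w = w := by
  induction n with
  | zero => rw [pow_zero, galSpec_one]
  | succ n ih => rw [pow_succ, galSpec_mul, h, ih]

theorem galSpec_inv_eq {σ : L ≃ₐ[K] L} {w : HeightOneSpectrum (𝓞 L)} (h : galSpec σ w = w) :
    galSpec σ⁻¹ w = w := by
  conv_lhs => rw [← h]
  exact galSpec_inv_galSpec σ w

theorem galSpec_eq_of_mem_zpowers {σ τ : L ≃ₐ[K] L} {w : HeightOneSpectrum (𝓞 L)}
    (h : galSpec σ w = w) (hτ : τ ∈ Subgroup.zpowers σ) : galSpec τ w = w := by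
  obtain ⟨n, rfl⟩ := Subgroup.mem_zpowers_iff.mp hτ
  cases n with
  | ofNat n => rw [Int.ofNat_eq_natCast, zpow_natCast]; exact galSpec_pow_eq h n
  | negSucc n => rw [zpow_negSucc]; exact galSpec_inv_eq (galSpec_pow_eq h (n + 1))

section Fixed

variable [IsGalois K L] {p : ℕ} [hp : Fact p.Prime]

/-- Above a place `v` of `K`, a generator `σ` of the cyclic group `Gal(L/K)` of prime order `p`
has `1` fixed place if `v` does not split and `0` fixed places if `v` splits; in both cases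
`p ^ #fixed = e_v f_v`. -/
theorem pow_ncard_fixed_fiber (hKL : Module.finrank K L = p) (σ : L ≃ₐ[K] L)
    (hσ : ∀ τ : L ≃ₐ[K] L, τ ∈ Subgroup.zpowers σ) (v : HeightOneSpectrum (𝓞 K)) :
    p ^ ({w : HeightOneSpectrum (𝓞 L) | w.under (𝓞 K) = v ∧ galSpec σ w = w}).ncard =
      v.asIdeal.ramificationIdxIn (𝓞 L) * v.asIdeal.inertiaDegIn (𝓞 L) := by
  have h := Ideal.ncard_primesOver_mul_ramificationIdxIn_mul_inertiaDegIn v.asIdeal (𝓞 L)
    (L ≃ₐ[K] L)
  rw [card_aut_eq hKL, ← card_fiber (L := L) v] at h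
  rcases (Nat.dvd_prime hp.out).mp ⟨_, h.symm⟩ with hg | hg
  · -- one place above `v`
    rw [hg, one_mul] at h
    rw [h]
    obtain ⟨hsub, hne⟩ := Nat.card_eq_one_iff_unique.mp hg
    obtain ⟨w₀⟩ := hne
    have hfix : galSpec σ w₀.1 = w₀.1 := by
      have : (⟨galSpec σ w₀.1, by rw [galSpec_under]; exact w₀.2⟩ :
          {w : HeightOneSpectrum (𝓞 L) // w.under (𝓞 K) = v}) = w₀ := Subsingleton.elim _ _
      exact congrArg Subtype.val this
    have hset : {w : HeightOneSpectrum (𝓞 L) | w.under (𝓞 K) = v ∧ galSpec σ w = w}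
        = {w₀.1} := by
      ext w
      simp only [Set.mem_ofPred_eq, Set.mem_singleton_iff]
      constructor
      · rintro ⟨hw, -⟩
        exact congrArg Subtype.val (Subsingleton.elim (⟨w, hw⟩ :
          {w : HeightOneSpectrum (𝓞 L) // w.under (𝓞 K) = v}) w₀)
      · rintro rfl
        exact ⟨w₀.2, hfix⟩
    rw [hset, Set.ncard_singleton, pow_one]
  · -- `p` places above `v`
    rw [hg] at h
    have hn : v.asIdeal.ramificationIdxIn (𝓞 L) * v.asIdeal.inertiaDegIn (𝓞 L) = 1 :=
      Nat.eq_of_mul_eq_mul_left hp.out.pos (h.trans (mul_one p).symm)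
    rw [hn]
    have hset : {w : HeightOneSpectrum (𝓞 L) | w.under (𝓞 K) = v ∧ galSpec σ w = w} = ∅ := by
      ext w
      simp only [Set.mem_ofPred_eq, Set.mem_empty_iff_false, iff_false, not_and]
      intro hw hfix
      have hsub : Subsingleton {w : HeightOneSpectrum (𝓞 L) // w.under (𝓞 K) = v} := by
        refine ⟨fun a b => ?_⟩
        have ha : a = ⟨w, hw⟩ := by
          obtain ⟨τ, hτ⟩ := exists_galSpec_eq (w := w) (w' := a.1) (by rw [hw, a.2])
          apply Subtype.ext
          rw [← hτ]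
          exact galSpec_eq_of_mem_zpowers hfix (hσ τ)
        have hb : b = ⟨w, hw⟩ := by
          obtain ⟨τ, hτ⟩ := exists_galSpec_eq (w := w) (w' := b.1) (by rw [hw, b.2])
          apply Subtype.ext
          rw [← hτ]
          exact galSpec_eq_of_mem_zpowers hfix (hσ τ)
        rw [ha, hb]
      have hle : Nat.card {w : HeightOneSpectrum (𝓞 L) // w.under (𝓞 K) = v} ≤ 1 :=
        Finite.card_le_one_iff_subsingleton.mpr hsub
      have := hp.out.two_le
      omega
    rw [hset, Set.ncard_empty, pow_zero]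

/-- The fixed places of `σ` above a finite set `T` of places of `K`:
`p ^ #Fix = ∏_{v ∈ T} e_v f_v`. -/
theorem pow_ncard_fixed_above (hKL : Module.finrank K L = p) (σ : L ≃ₐ[K] L)
    (hσ : ∀ τ : L ≃ₐ[K] L, τ ∈ Subgroup.zpowers σ) (T : Finset (HeightOneSpectrum (𝓞 K))) :
    p ^ ({w : HeightOneSpectrum (𝓞 L) |
        w ∈ aboveSet L (T : Set (HeightOneSpectrum (𝓞 K))) ∧ galSpec σ w = w}).ncard =
      ∏ v ∈ T, (v.asIdeal.ramificationIdxIn (𝓞 L) * v.asIdeal.inertiaDegIn (𝓞 L)) := by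
  classical
  have hfin : {w : HeightOneSpectrum (𝓞 L) |
      w ∈ aboveSet L (T : Set (HeightOneSpectrum (𝓞 K))) ∧ galSpec σ w = w}.Finite :=
    (aboveSet_finite (L := L) T).subset (fun w hw => hw.1)
  have hcard : ({w : HeightOneSpectrum (𝓞 L) |
      w ∈ aboveSet L (T : Set (HeightOneSpectrum (𝓞 K))) ∧ galSpec σ w = w}).ncard =
      ∑ v ∈ T, ({w : HeightOneSpectrum (𝓞 L) | w.under (𝓞 K) = v ∧ galSpec σ w = w}).ncard := by
    rw [Set.ncard_eq_toFinset_card _ hfin,
      Finset.card_eq_sum_card_fiberwise (f := fun w => w.under (𝓞 K)) (t := T)]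
    · apply Finset.sum_congr rfl
      intro v hv
      rw [← Set.ncard_coe_finset]
      congr 1
      ext w
      simp only [Finset.coe_filter, Set.Finite.mem_toFinset, Set.mem_ofPred_eq, mem_aboveSet,
        Finset.mem_coe]
      constructor
      · rintro ⟨⟨-, h2⟩, h3⟩
        exact ⟨h3, h2⟩
      · rintro ⟨h1, h2⟩
        exact ⟨⟨h1 ▸ hv, h2⟩, h1⟩
    · intro w hw
      have := (hfin.mem_toFinset.mp hw).1
      simpa [mem_aboveSet] using this
  rw [hcard, ← Finset.prod_pow_eq_pow_sum]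
  exact Finset.prod_congr rfl fun v _ => pow_ncard_fixed_fiber hKL σ hσ v

end Fixed

section Perm

/-- The permutation of the places above `T` induced by `σ ∈ Gal(L/K)`. -/
noncomputable def abovePerm (T : Set (HeightOneSpectrum (𝓞 K))) :
    (L ≃ₐ[K] L) →* Equiv.Perm (aboveSet L T) where
  toFun σ :=
    { toFun := fun w => ⟨galSpec σ w.1, aboveSet_stable T σ w.1 w.2⟩
      invFun := fun w => ⟨galSpec σ⁻¹ w.1, aboveSet_stable T σ⁻¹ w.1 w.2⟩
      left_inv := fun w => Subtype.ext (galSpec_inv_galSpec σ w.1)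
      right_inv := fun w => Subtype.ext (galSpec_galSpec_inv σ w.1) }
  map_one' := by
    apply Equiv.ext
    intro w
    exact Subtype.ext (galSpec_one (K := K) w.1)
  map_mul' σ τ := by
    apply Equiv.ext
    intro w
    exact Subtype.ext (galSpec_mul σ τ w.1)

@[simp] theorem abovePerm_apply_coe (T : Set (HeightOneSpectrum (𝓞 K))) (σ : L ≃ₐ[K] L)
    (w : aboveSet L T) : ((abovePerm T σ w : aboveSet L T) : HeightOneSpectrum (𝓞 L))
      = galSpec σ w.1 := rfl

variable [IsGalois K L] {p : ℕ} [hp : Fact p.Prime]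

/-- `p ^ #Fix(σ | places above T) = ∏_{v ∈ T} e_v f_v`, for the permutation `abovePerm`. -/
theorem pow_card_fixedPoints_abovePerm (hKL : Module.finrank K L = p) (σ : L ≃ₐ[K] L)
    (hσ : ∀ τ : L ≃ₐ[K] L, τ ∈ Subgroup.zpowers σ) (T : Finset (HeightOneSpectrum (𝓞 K))) :
    p ^ Nat.card (Function.fixedPoints (abovePerm (L := L) (T : Set (HeightOneSpectrum (𝓞 K))) σ)) =
      ∏ v ∈ T, (v.asIdeal.ramificationIdxIn (𝓞 L) * v.asIdeal.inertiaDegIn (𝓞 L)) := by
  rw [← pow_ncard_fixed_above hKL σ hσ T, ← Nat.card_coe_set_eq]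
  congr 1
  refine Nat.card_congr
    { toFun := fun w => ⟨w.1.1, w.1.2, congrArg Subtype.val w.2⟩
      invFun := fun w => ⟨⟨w.1, w.2.1⟩, Subtype.ext w.2.2⟩
      left_inv := fun _ => rfl
      right_inv := fun _ => rfl }

end Perm

end Fermat.Agent.CFT.H63
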