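import Mathlib
import Fermat.Agent.CFT.H23_CDefs
import Fermat.Agent.CFT.H6_HerbrandEnd
import Fermat.Agent.CFT.H63_FirstIneqAbstract
import Fermat.Agent.CFT.H63_ClassGen
import Fermat.Agent.CFT.H63_PlacePerm

set_option autoImplicit false
set_option linter.unusedSectionVars false

/-!
# CFT / C-FIRST (helper63), part 4: the first inequality in the hybrid model

`F/K` cyclic of odd prime degree `p` with generator `σ`, `S` a nonempty finite set of rational
primes, `CS S F = (J_{F,S} × Div^S(F)) / Fˣ` helper23's hybrid idele class group (`H23_CDefs`).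
We construct the exact sequence `0 → E_{F,T} → J_{F,S} × ℤ[X_T] → CS S F → 0` (`T ⊇ S` finite with
`Cl_T(F) = 0`, `X_T` the places above `T \ S`) equivariantly for `σ` and deduce
`h(CS S F) = h(J_{F,S}) · h(ℤ[X_T]) / h(E_{F,T}) = p` (`herbrand_CS`), from the two inputs
(A) `h(J_{F,S}) = ∏_{u | S} n_u` and (B) `h(ℤ[X]) = p ^ #Fix` (C-PERM), using the landed
`sunits_herbrand` for `h(E_{F,T}) = (∏_{u ∈ T} n_u) / p`.
-/

namespace Fermat.Agent.CFT.H63

open IsDedekindDomain NumberField Module
open Fermat.Agent.Kummer.H63 Fermat.Agent.S14.H63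
open Fermat.Agent.CFT.H23 Fermat.Agent.CFT.H42 Fermat.Agent.CFT.H10 Fermat.Agent.CFT.H6
open scoped TensorProduct

section Dict

variable (S : Finset Nat.Primes) (K : Type*) {F : Type*} [Field K] [NumberField K] [Field F]
  [NumberField F] [Algebra K F]

/-- helper23's action on primes is `galSpec`. -/
theorem smul_prime_eq_galSpec (σ : F ≃ₐ[K] F) (v : HeightOneSpectrum (𝓞 F)) :
    σ • v = galSpec σ v := by
  apply HeightOneSpectrum.ext
  rw [smul_prime_def, asIdeal_equivOfRingEquiv]
  rfl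

/-- The finite places of `K` above the rational primes in `S`. -/
def primesAboveS : Set (HeightOneSpectrum (𝓞 K)) :=
  {u | ∃ q ∈ S, ((q : ℕ) : 𝓞 K) ∈ u.asIdeal}

theorem primesAboveS_finite : (primesAboveS S K).Finite := by
  have : primesAboveS S K = ⋃ q ∈ S, {u : HeightOneSpectrum (𝓞 K) | ((q : ℕ) : 𝓞 K) ∈ u.asIdeal} := by
    ext u
    simp [primesAboveS]
  rw [this]
  refine Set.Finite.biUnion S.finite_toSet (fun q _ => ?_)
  have hq : Ideal.span {((q : ℕ) : 𝓞 K)} ≠ 0 := by
    rw [Ne, Ideal.zero_eq_bot, Ideal.span_singleton_eq_bot]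
    exact_mod_cast q.2.ne_zero
  refine (Ideal.finite_factors hq).subset ?_
  intro u hu
  simp only [Set.mem_ofPred_eq] at hu ⊢
  rw [Ideal.dvd_span_singleton]
  exact hu

variable {K}

theorem outside_iff_under_notMem (w : HeightOneSpectrum (𝓞 F)) :
    (∀ q ∈ S, ((q : ℕ) : 𝓞 F) ∉ w.asIdeal) ↔ w.under (𝓞 K) ∉ primesAboveS S K := by
  simp only [primesAboveS, Set.mem_ofPred_eq, not_exists, not_and, HeightOneSpectrum.under_asIdeal,
    Ideal.mem_comap, map_natCast]

end Dict

section Instances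

variable (S : Finset Nat.Primes) (F : Type*) [Field F] [NumberField F]

noncomputable instance instAddCommGroupAdditiveCS : AddCommGroup (Additive (CS S F)) :=
  inferInstance

noncomputable instance instAddCommGroupAdditiveIdS : AddCommGroup (Additive (IdS S F)) :=
  inferInstance

noncomputable instance instAddCommGroupAdditiveJS : AddCommGroup (Additive (JS S F)) :=
  inferInstance

end Instances

section Data

variable (S : Finset Nat.Primes) {K F : Type*} [Field K] [NumberField K] [Field F]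
  [NumberField F] [Algebra K F] (T : Finset (HeightOneSpectrum (𝓞 K)))
  {T' : Finset (HeightOneSpectrum (𝓞 K))}

variable (F T') in
/-- The places of `F` above `T'` (a set of places of `K` not above `S`), as a type. -/
abbrev XT : Type _ := aboveSet F (T' : Set (HeightOneSpectrum (𝓞 K)))

/-- The places above `T'` are outside `S`. -/
def toOutside (hT' : ∀ u ∈ T', u ∉ primesAboveS S K) (w : XT F T') : PrimesOutside S F :=
  ⟨w.1, (outside_iff_under_notMem S w.1).mpr (hT' _ w.2)⟩

theorem toOutside_injective (hT' : ∀ u ∈ T', u ∉ primesAboveS S K) :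
    Function.Injective (toOutside (F := F) S hT') := by
  intro a b h
  apply Subtype.ext
  exact congrArg (fun v : PrimesOutside S F => v.1) h

theorem mem_range_toOutside_iff (hT' : ∀ u ∈ T', u ∉ primesAboveS S K) (v : PrimesOutside S F) :
    v ∈ Set.range (toOutside (F := F) S hT') ↔ v.1.under (𝓞 K) ∈ T' := by
  constructor
  · rintro ⟨w, rfl⟩
    exact w.2
  · intro h
    exact ⟨⟨v.1, h⟩, Subtype.ext rfl⟩

variable (F) in
/-- The `T`-units of `F`, additively. -/
abbrev EU : Type _ := Additive ((aboveSet F (T : Set (HeightOneSpectrum (𝓞 K)))).unit F)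

variable (F T') in
/-- The middle term `J_{F,S} × ℤ[X_T]`. -/
abbrev JT : Type _ := Additive (JS S F) × (XT F T' →₀ ℤ)

/-- `E_T → J_{F,S} × ℤ[X_T]`. -/
noncomputable def iMap (hT' : ∀ u ∈ T', u ∉ primesAboveS S K) : EU F T →ₗ[ℤ] JT S F T' :=
  AddMonoidHom.toIntLinearMap
    { toFun := fun u => (Additive.ofMul (diagJ S F ((Additive.toMul u : _) : Fˣ)),
        Finsupp.comapDomain (toOutside S hT')
          (Multiplicative.toAdd (divS S F ((Additive.toMul u : _) : Fˣ)))
          (toOutside_injective S hT').injOn)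
      map_zero' := by
        refine Prod.ext ?_ ?_
        · simp
        · ext w
          simp
      map_add' := fun u v => by
        refine Prod.ext ?_ ?_
        · simp
        · ext w
          simp [Finsupp.comapDomain_apply] }

theorem iMap_fst (hT' : ∀ u ∈ T', u ∉ primesAboveS S K) (u : EU F T) :
    (iMap S T hT' u).1 = Additive.ofMul (diagJ S F ((Additive.toMul u : _) : Fˣ)) := rfl

theorem iMap_snd_apply (hT' : ∀ u ∈ T', u ∉ primesAboveS S K) (u : EU F T) (w : XT F T') :
    (iMap S T hT' u).2 w = Multiplicative.toAdd (ordAt F w.1 ((Additive.toMul u : _) : Fˣ)) := by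
  show (Finsupp.comapDomain _ _ _) w = _
  rw [Finsupp.comapDomain_apply]
  rfl

/-- `J_{F,S} × ℤ[X_T] → IdS S F`, additively. -/
noncomputable def jMap (hT' : ∀ u ∈ T', u ∉ primesAboveS S K) :
    JT S F T' →+ Additive (IdS S F) where
  toFun y := Additive.ofMul
    (Additive.toMul y.1, Multiplicative.ofAdd (Finsupp.mapDomain (toOutside S hT') y.2))
  map_zero' := by
    simp
  map_add' y z := by
    simp only [Prod.fst_add, Prod.snd_add, toMul_add, Finsupp.mapDomain_add, ofAdd_add]
    rfl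

/-- `J_{F,S} × ℤ[X_T] → CS S F`, additively. -/
noncomputable def qMap (hT' : ∀ u ∈ T', u ∉ primesAboveS S K) :
    JT S F T' →ₗ[ℤ] Additive (CS S F) :=
  ((toCS S F).toAdditive.comp (jMap S hT')).toIntLinearMap

theorem qMap_apply (hT' : ∀ u ∈ T', u ∉ primesAboveS S K) (y : JT S F T') :
    qMap S hT' y = Additive.ofMul (toCS S F
      (Additive.toMul y.1, Multiplicative.ofAdd (Finsupp.mapDomain (toOutside S hT') y.2))) := rfl

theorem toLocUnits_injective (q : Nat.Primes) : Function.Injective (toLocUnits F q) := by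
  apply Units.map_injective
  exact Algebra.TensorProduct.includeLeft_injective (S := F) (A := F) (B := ℚ_[q])
    (algebraMap ℚ ℚ_[q]).injective

theorem diagJ_injective (hS : S.Nonempty) : Function.Injective (diagJ S F) := by
  obtain ⟨q, hq⟩ := hS
  intro x y h
  exact toLocUnits_injective q (congrFun h ⟨q, hq⟩)

theorem iMap_injective (hS : S.Nonempty) (hT' : ∀ u ∈ T', u ∉ primesAboveS S K) :
    Function.Injective (iMap (F := F) S T hT') := by
  intro u v h
  have h1 : (iMap S T hT' u).1 = (iMap S T hT' v).1 := by rw [h]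
  rw [iMap_fst, iMap_fst] at h1
  have h2 := diagJ_injective (F := F) S hS (Additive.ofMul.injective h1)
  exact Additive.toMul.injective (Subtype.ext h2)

/-- The order of a `T`-unit vanishes outside `T`. -/
theorem ordAt_eq_one_of_unit {x : Fˣ} {R : Set (HeightOneSpectrum (𝓞 F))} (hx : x ∈ R.unit F)
    {w : HeightOneSpectrum (𝓞 F)} (hw : w ∉ R) : ordAt F w x = 1 := by
  rw [ordAt_apply, inv_eq_one, ordHom_eq_one_iff]
  exact hx w hw

theorem valuation_eq_exp_neg_ordAt (w : HeightOneSpectrum (𝓞 F)) (x : Fˣ) :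
    w.valuation F (x : F) = WithZero.exp (-(Multiplicative.toAdd (ordAt F w x))) := by
  rw [← coe_ordHom, ordAt_apply, toAdd_inv, neg_neg]
  rfl

theorem ordAt_eq_of_valuation_eq {w : HeightOneSpectrum (𝓞 F)} {x : Fˣ} {n : ℤ}
    (h : w.valuation F (x : F) = WithZero.exp (-n)) : Multiplicative.toAdd (ordAt F w x) = n := by
  rw [valuation_eq_exp_neg_ordAt] at h
  have := WithZero.exp_injective h
  omega

variable {T}

theorem support_divS_subset (hT : ∀ u, u ∈ T ↔ (u ∈ primesAboveS S K ∨ u ∈ T'))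
    (hT' : ∀ u ∈ T', u ∉ primesAboveS S K) (u : EU F T) :
    ((Multiplicative.toAdd (divS S F ((Additive.toMul u : _) : Fˣ))).support :
      Set (PrimesOutside S F)) ⊆ Set.range (toOutside (F := F) S hT') := by
  intro v hv
  rw [mem_range_toOutside_iff]
  by_contra hvT'
  have hvS : v.1.under (𝓞 K) ∉ primesAboveS S K := (outside_iff_under_notMem S v.1).mp v.2
  have hvT : v.1 ∉ aboveSet F (T : Set (HeightOneSpectrum (𝓞 K))) := by
    rw [mem_aboveSet, Finset.mem_coe, hT]
    rintro (h | h)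
    · exact hvS h
    · exact hvT' h
  have h1 := ordAt_eq_one_of_unit (Additive.toMul u).2 hvT
  rw [Finset.mem_coe, Finsupp.mem_support_iff, divS_apply, h1] at hv
  exact hv rfl

theorem qMap_iMap (hT : ∀ u, u ∈ T ↔ (u ∈ primesAboveS S K ∨ u ∈ T'))
    (hT' : ∀ u ∈ T', u ∉ primesAboveS S K) (u : EU F T) :
    qMap S hT' (iMap S T hT' u) = 0 := by
  rw [qMap_apply]
  have h1 : Finsupp.mapDomain (toOutside S hT') (iMap S T hT' u).2 =
      Multiplicative.toAdd (divS S F ((Additive.toMul u : _) : Fˣ)) :=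
    Finsupp.mapDomain_comapDomain _ (toOutside_injective S hT') _ (support_divS_subset S hT hT' u)
  rw [h1, iMap_fst]
  show Additive.ofMul (toCS S F (diag S F ((Additive.toMul u : _) : Fˣ))) = 0
  have : toCS S F (diag S F ((Additive.toMul u : _) : Fˣ)) = 1 := by
    rw [toCS, QuotientGroup.mk'_apply, QuotientGroup.eq_one_iff]
    exact ⟨_, rfl⟩
  rw [this]
  rfl

theorem exact_iMap_qMap (hT : ∀ u, u ∈ T ↔ (u ∈ primesAboveS S K ∨ u ∈ T'))
    (hT' : ∀ u ∈ T', u ∉ primesAboveS S K) :
    Function.Exact (iMap (F := F) S T hT') (qMap S hT') := by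
  intro y
  constructor
  · intro hy
    rw [qMap_apply] at hy
    have hy' : toCS S F (Additive.toMul y.1,
        Multiplicative.ofAdd (Finsupp.mapDomain (toOutside S hT') y.2)) = 1 := hy
    rw [toCS, QuotientGroup.mk'_apply, QuotientGroup.eq_one_iff] at hy'
    obtain ⟨z, hz⟩ := hy'
    have hz1 : diagJ S F z = Additive.toMul y.1 := congrArg Prod.fst hz
    have hz2 : divS S F z = Multiplicative.ofAdd (Finsupp.mapDomain (toOutside S hT') y.2) :=
      congrArg Prod.snd hz
    have hzT : z ∈ (aboveSet F (T : Set (HeightOneSpectrum (𝓞 K)))).unit F := by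
      intro w hw
      have hwT : w.under (𝓞 K) ∉ T := hw
      have hwS : w.under (𝓞 K) ∉ primesAboveS S K := fun h => hwT ((hT _).mpr (Or.inl h))
      have hwT' : w.under (𝓞 K) ∉ T' := fun h => hwT ((hT _).mpr (Or.inr h))
      let v : PrimesOutside S F := ⟨w, (outside_iff_under_notMem S w).mpr hwS⟩
      have h1 : Multiplicative.toAdd (divS S F z) v = 0 := by
        rw [hz2, toAdd_ofAdd]
        apply Finsupp.mapDomain_of_notMem_range
        rw [mem_range_toOutside_iff]
        exact hwT'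
      rw [divS_apply] at h1
      rw [valuation_eq_exp_neg_ordAt, h1, neg_zero, WithZero.exp_zero]
    refine ⟨Additive.ofMul ⟨z, hzT⟩, ?_⟩
    refine Prod.ext ?_ ?_
    · rw [iMap_fst]
      show Additive.ofMul (diagJ S F z) = y.1
      rw [hz1]
      rfl
    · show Finsupp.comapDomain (toOutside S hT') (Multiplicative.toAdd (divS S F z)) _ = y.2
      simp only [hz2, toAdd_ofAdd]
      exact Finsupp.comapDomain_mapDomain _ (toOutside_injective S hT') _
  · rintro ⟨u, rfl⟩
    exact qMap_iMap S hT hT' u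

theorem qMap_surjective (hT : ∀ u, u ∈ T ↔ (u ∈ primesAboveS S K ∨ u ∈ T'))
    (hT' : ∀ u ∈ T', u ∉ primesAboveS S K)
    (hcl : classGenSet F ⊆ aboveSet F (T : Set (HeightOneSpectrum (𝓞 K)))) :
    Function.Surjective (qMap (F := F) S hT') := by
  intro c
  obtain ⟨x, hx⟩ := QuotientGroup.mk'_surjective (diag S F).range (Additive.toMul c)
  set d : DivS S F := Multiplicative.toAdd x.2 with hd
  obtain ⟨z, hz⟩ := exists_valuation_eq_of_subset _ hcl
    (Finsupp.mapDomain (fun v : PrimesOutside S F => v.1) d)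
  have hinj : Function.Injective (fun v : PrimesOutside S F => v.1) := Subtype.val_injective
  -- the divisor of `x / z` is supported on `X_T`
  have hsupp : ((d - Multiplicative.toAdd (divS S F z)).support : Set (PrimesOutside S F)) ⊆
      Set.range (toOutside (F := F) S hT') := by
    intro v hv
    rw [mem_range_toOutside_iff]
    by_contra hvT'
    have hvS : v.1.under (𝓞 K) ∉ primesAboveS S K := (outside_iff_under_notMem S v.1).mp v.2
    have hvT : v.1 ∉ aboveSet F (T : Set (HeightOneSpectrum (𝓞 K))) := by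
      rw [mem_aboveSet, Finset.mem_coe, hT]
      rintro (h | h)
      · exact hvS h
      · exact hvT' h
    have h1 := hz v.1 hvT
    rw [Finsupp.mapDomain_apply hinj] at h1
    have h2 := ordAt_eq_of_valuation_eq h1
    rw [Finset.mem_coe, Finsupp.mem_support_iff, Finsupp.sub_apply, divS_apply, h2, sub_self] at hv
    exact hv rfl
  refine ⟨(Additive.ofMul (x.1 / diagJ S F z), Finsupp.comapDomain (toOutside S hT')
    (d - Multiplicative.toAdd (divS S F z)) (toOutside_injective S hT').injOn), ?_⟩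
  rw [qMap_apply]
  apply Additive.toMul.injective
  rw [toMul_ofMul, ← hx]
  simp only [toMul_ofMul]
  rw [Finsupp.mapDomain_comapDomain _ (toOutside_injective S hT') _ hsupp]
  have hxz : ((x.1 / diagJ S F z, Multiplicative.ofAdd (d - Multiplicative.toAdd (divS S F z))) :
      IdS S F) = x / diag S F z := by
    refine Prod.ext rfl ?_
    show Multiplicative.ofAdd (d - Multiplicative.toAdd (divS S F z)) = x.2 / divS S F z
    rw [hd]
    rfl
  rw [hxz, toCS, QuotientGroup.mk'_apply, QuotientGroup.mk'_apply, QuotientGroup.eq]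
  rw [inv_div, div_mul_cancel]
  exact ⟨z, rfl⟩

end Data

section Equivariance

/-- Permutations act on the permutation module `X →₀ ℤ`. -/
noncomputable def permEnd (X : Type*) : Equiv.Perm X →* Module.End ℤ (X →₀ ℤ) where
  toFun s := Finsupp.lmapDomain ℤ ℤ s
  map_one' := by
    ext x
    simp
  map_mul' s t := by
    apply LinearMap.ext
    intro d
    show Finsupp.mapDomain (s * t) d = Finsupp.mapDomain s (Finsupp.mapDomain t d)
    rw [← Finsupp.mapDomain_comp]
    rfl

theorem permEnd_apply {X : Type*} (s : Equiv.Perm X) (d : X →₀ ℤ) :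
    permEnd X s d = Finsupp.mapDomain s d := rfl

theorem permEnd_apply_apply {X : Type*} (s : Equiv.Perm X) (d : X →₀ ℤ) (x : X) :
    permEnd X s d x = d (s⁻¹ x) := by
  rw [permEnd_apply, Finsupp.mapDomain_equiv_apply]
  rfl

theorem prodMap_pow {M N : Type*} [AddCommGroup M] [AddCommGroup N] (a : Module.End ℤ M)
    (b : Module.End ℤ N) (n : ℕ) :
    (LinearMap.prodMap a b : Module.End ℤ (M × N)) ^ n = LinearMap.prodMap (a ^ n) (b ^ n) := by
  induction n with
  | zero => simp only [pow_zero]; exact LinearMap.prodMap_one.symm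
  | succ n ih => rw [pow_succ, pow_succ, pow_succ, ih, LinearMap.prodMap_mul]

variable (S : Finset Nat.Primes) {K F : Type*} [Field K] [NumberField K] [Field F]
  [NumberField F] [Algebra K F] (T : Finset (HeightOneSpectrum (𝓞 K)))
  (T' : Finset (HeightOneSpectrum (𝓞 K))) (σ : F ≃ₐ[K] F)

/-- `σ` on the `S`-ideles. -/
noncomputable abbrev sigA : Module.End ℤ (Additive (JS S F)) :=
  Representation.ofMulDistribMulAction (F ≃ₐ[K] F) (JS S F) σ

/-- `σ` on the permutation module on the places above `T'`. -/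
noncomputable abbrev sigB : Module.End ℤ (XT F T' →₀ ℤ) :=
  permEnd (XT F T') (abovePerm (T' : Set (HeightOneSpectrum (𝓞 K))) σ)

/-- `σ` on the middle term. -/
noncomputable abbrev sigJ : Module.End ℤ (JT S F T') :=
  LinearMap.prodMap (sigA S σ) (sigB T' σ)

/-- `σ` on the hybrid idele class group. -/
noncomputable abbrev sigC : Module.End ℤ (Additive (CS S F)) :=
  Representation.ofMulDistribMulAction (F ≃ₐ[K] F) (CS S F) σ

/-- `σ` on the `T`-units. -/
noncomputable abbrev sigE : Module.End ℤ (EU F T) :=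
  sunitsEnd (aboveSet F (T : Set (HeightOneSpectrum (𝓞 K)))) (aboveSet_stable _) σ

variable {p : ℕ}

theorem sigA_pow (hσ : σ ^ p = 1) : sigA S σ ^ p = 1 := by
  rw [sigA, ← map_pow, hσ, map_one]

theorem sigB_pow (hσ : σ ^ p = 1) : sigB T' σ ^ p = 1 := by
  rw [sigB, ← map_pow, ← map_pow, hσ, map_one, map_one]

theorem sigJ_pow (hσ : σ ^ p = 1) : sigJ S T' σ ^ p = 1 := by
  rw [sigJ, prodMap_pow, sigA_pow S σ hσ, sigB_pow T' σ hσ, LinearMap.prodMap_one]

theorem sigC_pow (hσ : σ ^ p = 1) : sigC S σ ^ p = 1 := by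
  rw [sigC, ← map_pow, hσ, map_one]

theorem sigE_pow (hσ : σ ^ p = 1) : sigE T σ ^ p = 1 := by
  rw [sigE, ← map_pow, hσ, map_one]

variable {T'}

theorem diagJ_map (x : Fˣ) : diagJ S F (Units.map (σ : F →* F) x) = σ • diagJ S F x := by
  have h := congrArg Prod.fst (diag_smul S F K σ x)
  rw [smul_units_eq] at h
  exact h

theorem ordAt_map (w : HeightOneSpectrum (𝓞 F)) (x : Fˣ) :
    ordAt F w (Units.map (σ : F →* F) x) = ordAt F (galSpec σ⁻¹ w) x := by
  rw [ordAt_apply, ordAt_apply]
  congr 1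
  apply WithZero.coe_injective
  rw [coe_ordHom, coe_ordHom]
  exact valuation_apply_eq σ w (x : F)

theorem iMap_sigE (hT' : ∀ u ∈ T', u ∉ primesAboveS S K) (u : EU F T) :
    iMap S T hT' (sigE T σ u) = sigJ S T' σ (iMap S T hT' u) := by
  refine Prod.ext ?_ ?_
  · rw [iMap_fst]
    show Additive.ofMul (diagJ S F (Units.map (σ : F →* F) ((Additive.toMul u : _) : Fˣ))) = _
    rw [diagJ_map]
    rfl
  · ext w
    rw [iMap_snd_apply]
    show _ = permEnd (XT F T') (abovePerm (T' : Set (HeightOneSpectrum (𝓞 K))) σ)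
      (iMap S T hT' u).2 w
    rw [permEnd_apply_apply, iMap_snd_apply]
    show Multiplicative.toAdd (ordAt F w.1 (Units.map (σ : F →* F)
      ((Additive.toMul u : _) : Fˣ))) = _
    rw [ordAt_map, ← map_inv]
    rfl

theorem toOutside_abovePerm (hT' : ∀ u ∈ T', u ∉ primesAboveS S K) (w : XT F T') :
    toOutside S hT' (abovePerm (T' : Set (HeightOneSpectrum (𝓞 K))) σ w) =
      σ • toOutside S hT' w := by
  apply Subtype.ext
  rw [coe_smul_primesOutside, smul_prime_eq_galSpec]
  rfl

theorem qMap_sigJ (hT' : ∀ u ∈ T', u ∉ primesAboveS S K) (y : JT S F T') :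
    qMap S hT' (sigJ S T' σ y) = sigC S σ (qMap S hT' y) := by
  rw [qMap_apply, qMap_apply]
  show _ = Additive.ofMul (σ • toCS S F _)
  rw [smul_toCS]
  congr 2
  refine Prod.ext rfl ?_
  show Multiplicative.ofAdd (Finsupp.mapDomain (toOutside S hT')
    (Finsupp.mapDomain (abovePerm (T' : Set (HeightOneSpectrum (𝓞 K))) σ) y.2)) =
    Multiplicative.ofAdd (σ • Finsupp.mapDomain (toOutside S hT') y.2)
  congr 1
  rw [Finsupp.comapSMul_def, ← Finsupp.mapDomain_comp, ← Finsupp.mapDomain_comp]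
  congr 1
  funext w
  exact toOutside_abovePerm S σ hT' w

end Equivariance

section Final

variable (S : Finset Nat.Primes) {K F : Type*} [Field K] [NumberField K] [Field F]
  [NumberField F] [Algebra K F] {p : ℕ}

/-- `h(A × B) = h(A) h(B)` for the middle term. -/
theorem herbrand_sigJ (T' : Finset (HeightOneSpectrum (𝓞 K))) (σ : F ≃ₐ[K] F) (hσ : σ ^ p = 1)
    (hdA : HerbrandDefined (endF (sigA S σ)) (endN p (sigA S σ)))
    (hdB : HerbrandDefined (endF (sigB T' σ)) (endN p (sigB T' σ))) :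
    HerbrandDefined (endF (sigJ S T' σ)) (endN p (sigJ S T' σ)) ∧
      herbrand (endF (sigJ S T' σ)) (endN p (sigJ S T' σ)) =
        herbrand (endF (sigA S σ)) (endN p (sigA S σ)) *
          herbrand (endF (sigB T' σ)) (endN p (sigB T' σ)) := by
  have hex := herbrandExact_of_end (sigA_pow S σ hσ) (sigJ_pow S T' σ hσ) (sigB_pow T' σ hσ)
    (LinearMap.inl ℤ (Additive (JS S F)) (XT F T' →₀ ℤ))
    (LinearMap.snd ℤ (Additive (JS S F)) (XT F T' →₀ ℤ))
    LinearMap.inl_injective LinearMap.snd_surjective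
    (by
      intro y
      constructor
      · intro hy
        exact ⟨y.1, Prod.ext rfl (by simpa using hy.symm)⟩
      · rintro ⟨a, rfl⟩
        rfl)
    (fun x => by
      refine Prod.ext rfl ?_
      simp)
    (fun x => rfl)
  exact ⟨hex.defined_mid hdA hdB, hex.herbrand_mul hdA hdB⟩

variable [IsGalois K F] [hp : Fact p.Prime]

/-- **First inequality in the hybrid model**, with the local input `h(J_{F,S}) = ∏_{u | S} n_u`
and the permutation-module input `h(ℤ[X]) = p ^ #Fix` as hypotheses: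
`h(CS S F) = p` for `F/K` cyclic of odd prime degree `p`. -/
theorem herbrand_CS_of (hp2 : p ≠ 2) (hKF : Module.finrank K F = p) (σ : F ≃ₐ[K] F)
    (hσ : ∀ τ : F ≃ₐ[K] F, τ ∈ Subgroup.zpowers σ) (hS : S.Nonempty)
    {SK T T' : Finset (HeightOneSpectrum (𝓞 K))}
    (hSK : ∀ u, u ∈ SK ↔ u ∈ primesAboveS S K)
    (hT : ∀ u, u ∈ T ↔ (u ∈ primesAboveS S K ∨ u ∈ T'))
    (hT' : ∀ u ∈ T', u ∉ primesAboveS S K)
    (hcl : classGenSet F ⊆ aboveSet F (T : Set (HeightOneSpectrum (𝓞 K))))
    (hA : HerbrandDefined (endF (sigA S σ)) (endN p (sigA S σ)) ∧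
      herbrand (endF (sigA S σ)) (endN p (sigA S σ)) =
        ((∏ u ∈ SK, (u.asIdeal.ramificationIdxIn (𝓞 F) * u.asIdeal.inertiaDegIn (𝓞 F)) : ℕ) : ℚ))
    (hB : HerbrandDefined (endF (sigB T' σ)) (endN p (sigB T' σ)) ∧
      herbrand (endF (sigB T' σ)) (endN p (sigB T' σ)) =
        ((p ^ Nat.card (Function.fixedPoints
          (abovePerm (L := F) (T' : Set (HeightOneSpectrum (𝓞 K))) σ)) : ℕ) : ℚ)) :
    HerbrandDefined (endF (sigC S σ)) (endN p (sigC S σ)) ∧
      herbrand (endF (sigC S σ)) (endN p (sigC S σ)) = p := by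
  classical
  have hσp : σ ^ p = 1 := aut_pow_eq_one hKF σ
  have hex := herbrandExact_of_end (sigE_pow T σ hσp) (sigJ_pow S T' σ hσp) (sigC_pow S σ hσp)
    (iMap S T hT') (qMap S hT') (iMap_injective S T hS hT') (qMap_surjective S hT hT' hcl)
    (exact_iMap_qMap S hT hT') (iMap_sigE S T σ hT') (qMap_sigJ S σ hT')
  obtain ⟨hdE, hE⟩ := sunits_herbrand hp2 hKF σ hσ T
  obtain ⟨hdJ, hJ⟩ := herbrand_sigJ S T' σ hσp hA.1 hB.1
  have hdE' : HerbrandDefined (endF (sigE T σ)) (endN p (sigE T σ)) := hdE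
  have hE' : herbrand (endF (sigE T σ)) (endN p (sigE T σ)) =
      ((∏ v ∈ T, (v.asIdeal.ramificationIdxIn (𝓞 F) * v.asIdeal.inertiaDegIn (𝓞 F)) : ℕ) : ℚ)
        / p := hE
  refine ⟨hex.defined_right hdE' hdJ, ?_⟩
  have hmul := hex.herbrand_mul_of_left_mid hdE' hdJ
  rw [hJ, hA.2, hB.2, hE', pow_card_fixedPoints_abovePerm hKF σ hσ T'] at hmul
  -- `∏_T = ∏_SK * ∏_T'`
  have hTu : T = SK ∪ T' := by
    ext u
    rw [Finset.mem_union, hT, hSK]
  have hdisj : Disjoint SK T' := by
    rw [Finset.disjoint_left]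
    intro u hu hu'
    exact hT' u hu' ((hSK u).mp hu)
  rw [hTu, Finset.prod_union hdisj] at hmul
  have hp0 : (p : ℚ) ≠ 0 := Nat.cast_ne_zero.mpr hp.out.ne_zero
  have hne : ((∏ v ∈ SK, (v.asIdeal.ramificationIdxIn (𝓞 F) * v.asIdeal.inertiaDegIn (𝓞 F)) : ℕ)
      : ℚ) * ((∏ v ∈ T', (v.asIdeal.ramificationIdxIn (𝓞 F) * v.asIdeal.inertiaDegIn (𝓞 F)) : ℕ)
      : ℚ) ≠ 0 := by
    rw [← hA.2]
    have hBne : ((∏ v ∈ T', (v.asIdeal.ramificationIdxIn (𝓞 F) *
        v.asIdeal.inertiaDegIn (𝓞 F)) : ℕ) : ℚ) ≠ 0 := by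
      rw [← pow_card_fixedPoints_abovePerm hKF σ hσ T']
      exact_mod_cast pow_ne_zero _ hp.out.ne_zero
    exact mul_ne_zero hA.1.herbrand_ne_zero hBne
  push_cast at hmul hne ⊢
  field_simp at hmul
  have := mul_left_cancel₀ hne hmul
  exact this.symm

variable (K F) in
/-- Existence of the auxiliary sets of places: `SK` = places of `K` above `S`, `T'` = finitely
many further places such that the places above `T = SK ∪ T'` generate the class group of `F`. -/
theorem exists_aux_places :
    ∃ SK T T' : Finset (HeightOneSpectrum (𝓞 K)),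
      (∀ u, u ∈ SK ↔ u ∈ primesAboveS S K) ∧
      (∀ u, u ∈ T ↔ (u ∈ primesAboveS S K ∨ u ∈ T')) ∧
      (∀ u ∈ T', u ∉ primesAboveS S K) ∧
      classGenSet F ⊆ aboveSet F (T : Set (HeightOneSpectrum (𝓞 K))) := by
  classical
  set SK := (primesAboveS_finite S K).toFinset with hSKdef
  set T₀ := (classGenSet_finite F).toFinset.image (fun Q => Q.under (𝓞 K)) with hT₀
  set T' := T₀.filter (fun u => u ∉ primesAboveS S K) with hT'def
  have hSK : ∀ u, u ∈ SK ↔ u ∈ primesAboveS S K := fun u => by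
    rw [hSKdef, Set.Finite.mem_toFinset]
  refine ⟨SK, SK ∪ T', T', hSK, ?_, ?_, ?_⟩
  · intro u
    rw [Finset.mem_union, hSK]
  · intro u hu
    exact (Finset.mem_filter.mp hu).2
  · intro Q hQ
    rw [mem_aboveSet, Finset.mem_coe, Finset.mem_union, hSK]
    by_cases h : Q.under (𝓞 K) ∈ primesAboveS S K
    · exact Or.inl h
    · refine Or.inr (Finset.mem_filter.mpr ⟨?_, h⟩)
      rw [hT₀, Finset.mem_image]
      exact ⟨Q, (classGenSet_finite F).mem_toFinset.mpr hQ, rfl⟩

/-- **First inequality in the hybrid model** (`h(CS S F) = p`), with the two inputs in universal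
form: (A) the Herbrand quotient of the `S`-ideles is the product of the local degrees above `S`
(layers B + C-LOC/C-COH); (B) the Herbrand quotient of a permutation module on places is
`p ^ #Fix` (C-PERM). -/
theorem herbrand_CS (hp2 : p ≠ 2) (hKF : Module.finrank K F = p) (σ : F ≃ₐ[K] F)
    (hσ : ∀ τ : F ≃ₐ[K] F, τ ∈ Subgroup.zpowers σ) (hS : S.Nonempty)
    (hA : ∀ SK : Finset (HeightOneSpectrum (𝓞 K)), (∀ u, u ∈ SK ↔ u ∈ primesAboveS S K) →
      HerbrandDefined (endF (sigA S σ)) (endN p (sigA S σ)) ∧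
      herbrand (endF (sigA S σ)) (endN p (sigA S σ)) =
        ((∏ u ∈ SK, (u.asIdeal.ramificationIdxIn (𝓞 F) * u.asIdeal.inertiaDegIn (𝓞 F)) : ℕ) : ℚ))
    (hB : ∀ T' : Finset (HeightOneSpectrum (𝓞 K)),
      HerbrandDefined (endF (sigB T' σ)) (endN p (sigB T' σ)) ∧
      herbrand (endF (sigB T' σ)) (endN p (sigB T' σ)) =
        ((p ^ Nat.card (Function.fixedPoints
          (abovePerm (L := F) (T' : Set (HeightOneSpectrum (𝓞 K))) σ)) : ℕ) : ℚ)) :
    HerbrandDefined (endF (sigC S σ)) (endN p (sigC S σ)) ∧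
      herbrand (endF (sigC S σ)) (endN p (sigC S σ)) = p ∧
      hIndex (endF (sigC S σ)) (endN p (sigC S σ)) =
        p * hIndex (endN p (sigC S σ)) (endF (sigC S σ)) := by
  obtain ⟨SK, T, T', hSK, hT, hT', hcl⟩ := exists_aux_places S K F
  obtain ⟨hd, hval⟩ := herbrand_CS_of S hp2 hKF σ hσ hS hSK hT hT' hcl (hA SK hSK) (hB T')
  exact ⟨hd, hval, hIndex_eq_mul_of_herbrand_eq hd hval⟩

end Final

end Fermat.Agent.CFT.H63
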