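import Mathlib
import Fermat.Agent.CFT.H23_CDefs
import Fermat.Agent.CFT.H18_LocDecomp
import Fermat.Agent.CFT.H54_PlacesSurj
import Fermat.Agent.CFT.H63_FirstIneqHybrid
import Fermat.Agent.CFT.H10_LocalPowIndexLoc
import Fermat.Agent.CFT.H51_ExistCount

set_option autoImplicit false

/-!
# CFT / C-EXIST (b) (helper10): `#(J_T / J_T ^ p) = p ^ (2 #T_K + [K : ℚ])`

`K` a number field containing a primitive `p`-th root of unity, `T ∋ p` a finite set of rational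
primes, `J_T = JS T K = Π_{q ∈ T} (K ⊗ ℚ_q)ˣ`.  Then
`#(J_T / J_T ^ p) = p ^ (2 * Σ_{q ∈ T} #{places of K above q} + [K : ℚ])`
(places = maximal ideals of `K ⊗ ℚ_q`, helper54's `Place K q`).
-/

namespace Fermat.Agent.CFT.H10

open scoped TensorProduct NumberField
open IsDedekindDomain Fermat.Agent.CFT.H23 Fermat.Agent.CFT.H51 Fermat.Agent.CFT.H54
open Fermat.Agent.CFT Fermat.Agent.CFT.H63

section Generic

/-- `#(G / G ^ p)` is invariant under isomorphism. -/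
theorem card_quot_pow_congr {G H : Type*} [CommGroup G] [CommGroup H] (φ : G ≃* H) (p : ℕ) :
    Nat.card (G ⧸ powSubgroup G p) = Nat.card (H ⧸ powSubgroup H p) :=
  Nat.card_congr (QuotientGroup.congr _ _ φ (range_powMonoidHom_map_equiv φ p)).toEquiv

variable {ι : Type*} [Fintype ι] {G : ι → Type*} [∀ i, CommGroup (G i)]

/-- `#(G / G ^ p)` is multiplicative in finite products. -/
theorem card_pi_quot_pow (p : ℕ) :
    Nat.card ((∀ i, G i) ⧸ powSubgroup (∀ i, G i) p) =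
      ∏ i, Nat.card (G i ⧸ powSubgroup (G i) p) := by
  let f : (∀ i, G i) →* ∀ i, G i ⧸ powSubgroup (G i) p :=
    MonoidHom.pi fun i => (QuotientGroup.mk' _).comp (Pi.evalMonoidHom G i)
  have hf : Function.Surjective f := fun y =>
    ⟨fun i => (QuotientGroup.mk_surjective (y i)).choose,
      funext fun i => (QuotientGroup.mk_surjective (y i)).choose_spec⟩
  have hker : f.ker = powSubgroup (∀ i, G i) p := by
    ext x
    rw [MonoidHom.mem_ker]
    constructor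
    · intro h
      have h' : ∀ i, x i ∈ powSubgroup (G i) p := fun i =>
        (QuotientGroup.eq_one_iff _).1 (congrFun h i)
      choose y hy using h'
      exact ⟨y, funext hy⟩
    · rintro ⟨y, rfl⟩
      funext i
      exact (QuotientGroup.eq_one_iff _).2 ⟨y i, rfl⟩
  rw [← hker, Nat.card_congr (QuotientGroup.quotientKerEquivOfSurjective f hf).toEquiv, Nat.card_pi]

end Generic

section Local

variable (K : Type) [Field K] [NumberField K] (q : Nat.Primes)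

/-- `K ⊗ ℚ_q ≃ Π_{𝔪 | q} K_𝔪` (Mathlib's structure theorem for reduced artinian rings). -/
noncomputable def locEquivPi : Loc K q ≃+* ∀ 𝔪 : Place K q, locField 𝔪 :=
  (IsArtinianRing.equivPi (Loc K q)).toRingEquiv

theorem locEquivPi_apply (x : Loc K q) (𝔪 : Place K q) : locEquivPi K q x 𝔪 = locMk 𝔪 x := rfl

/-- `(K ⊗ ℚ_q)ˣ ≃ Π_{𝔪 | q} K_𝔪ˣ`. -/
noncomputable def locUnitsEquivPi : (Loc K q)ˣ ≃* ∀ 𝔪 : Place K q, (locField 𝔪)ˣ :=
  (Units.mapEquiv (locEquivPi K q).toMulEquiv).trans MulEquiv.piUnits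

/-- The `ℚ_q`-algebra map `ℚ_q ⊗ K → Π_{𝔪 | q} K_𝔪`. -/
noncomputable def baseChangeToPi : ℚ_[q] ⊗[ℚ] K →ₐ[ℚ_[q]] ∀ 𝔪 : Place K q, locField 𝔪 :=
  AlgHom.pi fun 𝔪 => fromBaseChange 𝔪

theorem baseChangeToPi_eq (x : ℚ_[q] ⊗[ℚ] K) :
    baseChangeToPi K q x = locEquivPi K q (Algebra.TensorProduct.comm ℚ ℚ_[q] K x) := by
  induction x using TensorProduct.induction_on with
  | zero => simp
  | tmul c y =>
    funext 𝔪
    show fromBaseChange 𝔪 (c ⊗ₜ y) = locMk 𝔪 (y ⊗ₜ c)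
    rw [fromBaseChange_tmul, locMk_tmul, mul_comm]
  | add a b ha hb => rw [map_add, map_add, map_add, ha, hb]

theorem baseChangeToPi_bijective : Function.Bijective (baseChangeToPi K q) := by
  have h : (baseChangeToPi K q : ℚ_[q] ⊗[ℚ] K → ∀ 𝔪 : Place K q, locField 𝔪)
      = (locEquivPi K q) ∘ (Algebra.TensorProduct.comm ℚ ℚ_[q] K) :=
    funext fun x => baseChangeToPi_eq K q x
  rw [h]
  exact (locEquivPi K q).bijective.comp (Algebra.TensorProduct.comm ℚ ℚ_[q] K).bijective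

/-- `Σ_{𝔪 | q} [K_𝔪 : ℚ_q] = [K : ℚ]`. -/
theorem sum_finrank_locField [Fintype (Place K q)] :
    ∑ 𝔪 : Place K q, Module.finrank ℚ_[q] (locField 𝔪) = Module.finrank ℚ K := by
  classical
  have e : (ℚ_[q] ⊗[ℚ] K) ≃ₗ[ℚ_[q]] ∀ 𝔪 : Place K q, locField 𝔪 :=
    LinearEquiv.ofBijective (baseChangeToPi K q).toLinearMap (baseChangeToPi_bijective K q)
  rw [← Module.finrank_pi_fintype ℚ_[q], ← e.finrank_eq, Module.finrank_baseChange]

variable {K q}

/-- `#(K_𝔪ˣ / p) = p ^ 2 · (p ^ [K_𝔪 : ℚ_q] if q = p)` when `μ_p ⊆ K`. -/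
theorem card_locField_units_quot_pow {p : ℕ} (hp : p.Prime) {ζ : K} (hζ : IsPrimitiveRoot ζ p)
    (𝔪 : Place K q) :
    Nat.card ((locField 𝔪)ˣ ⧸ powSubgroup (locField 𝔪)ˣ p) =
      p ^ 2 * (if p = (q : ℕ) then p ^ Module.finrank ℚ_[q] (locField 𝔪) else 1) := by
  have : NeZero p := ⟨hp.ne_zero⟩
  have hζ' : IsPrimitiveRoot (toLocField 𝔪 ζ) p :=
    hζ.map_of_injective (toLocField_injective 𝔪)
  have h := card_units_quot_pow_loc (q : ℕ) (locField 𝔪) hp
  rw [hζ'.card_rootsOfUnity] at h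
  rw [show powSubgroup (locField 𝔪)ˣ p = (powMonoidHom p : (locField 𝔪)ˣ →* (locField 𝔪)ˣ).range
    from rfl, h, sq]

end Local

section Global

variable (T : Finset Nat.Primes) (K : Type) [Field K] [NumberField K]

/-- **(b)** `#(J_T / J_T ^ p) = p ^ (2 Σ_{q ∈ T} #{𝔪 | q} + [K : ℚ])` when `μ_p ⊆ K`, `p ∈ T`. -/
theorem card_JS_quot_pow {p : ℕ} (hp : p.Prime) (hpT : (⟨p, hp⟩ : Nat.Primes) ∈ T) {ζ : K}
    (hζ : IsPrimitiveRoot ζ p) :
    Nat.card (JS T K ⧸ powSubgroup (JS T K) p) =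
      p ^ (2 * ∑ q : T, Nat.card (MaximalSpectrum (Loc K q.1)) + Module.finrank ℚ K) := by
  classical
  have hloc : ∀ q : T, Nat.card ((Loc K q.1)ˣ ⧸ powSubgroup (Loc K q.1)ˣ p) =
      p ^ (2 * Nat.card (MaximalSpectrum (Loc K q.1))) *
        (if p = (q.1 : ℕ) then p ^ Module.finrank ℚ K else 1) := by
    intro q
    haveI : Fintype (Place K q.1) := Fintype.ofFinite _
    rw [card_quot_pow_congr (locUnitsEquivPi K q.1) p, card_pi_quot_pow,
      Finset.prod_congr rfl fun 𝔪 _ => card_locField_units_quot_pow hp hζ 𝔪,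
      Finset.prod_mul_distrib, Finset.prod_const, Finset.card_univ, ← pow_mul,
      Nat.card_eq_fintype_card, mul_comm 2]
    congr 1
    by_cases hpq : p = (q.1 : ℕ)
    · simp only [if_pos hpq]
      rw [Finset.prod_pow_eq_pow_sum, sum_finrank_locField]
    · simp only [if_neg hpq]
      exact Finset.prod_const_one
  rw [card_pi_quot_pow, Finset.prod_congr rfl fun q _ => hloc q, Finset.prod_mul_distrib,
    Finset.prod_pow_eq_pow_sum, pow_add, ← Finset.mul_sum]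
  congr 1
  rw [Finset.prod_eq_single_of_mem (⟨⟨p, hp⟩, hpT⟩ : T) (Finset.mem_univ _)]
  · rw [if_pos rfl]
  · intro q _ hq
    rw [if_neg]
    intro h
    apply hq
    apply Subtype.ext
    apply Subtype.ext
    exact h.symm

/-- a prime of `𝓞 K` contains at most one rational prime. -/
theorem eq_of_natCast_mem_of_natCast_mem {q q' : Nat.Primes} (P : HeightOneSpectrum (𝓞 K))
    (h : ((q : ℕ) : 𝓞 K) ∈ P.asIdeal) (h' : ((q' : ℕ) : 𝓞 K) ∈ P.asIdeal) : q = q' := by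
  by_contra hne
  have hcop : Nat.Coprime (q : ℕ) (q' : ℕ) :=
    (Nat.coprime_primes q.2 q'.2).2 fun h => hne (Subtype.ext h)
  obtain ⟨a, b, hab⟩ := Nat.isCoprime_iff_coprime.2 hcop
  have h1 : (1 : 𝓞 K) ∈ P.asIdeal := by
    have h2 : ((a : ℤ) : 𝓞 K) * ((q : ℕ) : 𝓞 K) + ((b : ℤ) : 𝓞 K) * ((q' : ℕ) : 𝓞 K) = 1 := by
      have := congrArg (Int.cast : ℤ → 𝓞 K) hab
      push_cast at this
      exact this
    rw [← h2]
    exact P.asIdeal.add_mem (P.asIdeal.mul_mem_left _ h) (P.asIdeal.mul_mem_left _ h')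
  exact P.isPrime.ne_top ((Ideal.eq_top_iff_one _).2 h1)

/-- The number of places of `K` above `T` (maximal ideals of the `K ⊗ ℚ_q`) is the number of
primes of `𝓞 K` above `T`. -/
theorem sum_card_place_eq (TK : Finset (HeightOneSpectrum (𝓞 K)))
    (hTK : ∀ u, u ∈ TK ↔ u ∈ primesAboveS T K) :
    ∑ q : T, Nat.card (MaximalSpectrum (Loc K q.1)) = TK.card := by
  classical
  have h1 : ∀ q : T, Nat.card (MaximalSpectrum (Loc K q.1)) =
      Nat.card {P : HeightOneSpectrum (𝓞 K) // (((q.1 : Nat.Primes) : ℕ) : 𝓞 K) ∈ P.asIdeal} :=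
    fun q => Nat.card_congr (placeEquiv K q.1)
  haveI : ∀ q : T, Finite
      {P : HeightOneSpectrum (𝓞 K) // (((q.1 : Nat.Primes) : ℕ) : 𝓞 K) ∈ P.asIdeal} :=
    fun q => Finite.of_equiv _ (placeEquiv K q.1)
  rw [Finset.sum_congr rfl fun q _ => h1 q, ← Nat.card_sigma, ← Nat.card_eq_finsetCard TK]
  refine Nat.card_congr (Equiv.ofBijective
    (fun x : (Σ q : T, {P : HeightOneSpectrum (𝓞 K) //
        (((q.1 : Nat.Primes) : ℕ) : 𝓞 K) ∈ P.asIdeal}) =>
      (⟨x.2.1, (hTK _).2 ⟨x.1.1, x.1.2, x.2.2⟩⟩ : TK)) ⟨?_, ?_⟩)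
  · rintro ⟨q, P, hP⟩ ⟨q', P', hP'⟩ h
    have hPP : P = P' := congrArg Subtype.val h
    subst hPP
    have hqq : q = q' := Subtype.ext (eq_of_natCast_mem_of_natCast_mem K P hP hP')
    subst hqq
    rfl
  · rintro ⟨P, hP⟩
    obtain ⟨q, hq, hqP⟩ := (hTK P).1 hP
    exact ⟨⟨⟨q, hq⟩, P, hqP⟩, rfl⟩

/-- **(b)**, final form: `#(J_T / J_T ^ p) = p ^ (2 #T_K + [K : ℚ])`. -/
theorem card_JS_quot_pow' {p : ℕ} (hp : p.Prime) (hpT : (⟨p, hp⟩ : Nat.Primes) ∈ T) {ζ : K}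
    (hζ : IsPrimitiveRoot ζ p) (TK : Finset (HeightOneSpectrum (𝓞 K)))
    (hTK : ∀ u, u ∈ TK ↔ u ∈ primesAboveS T K) :
    Nat.card (JS T K ⧸ powSubgroup (JS T K) p) = p ^ (2 * TK.card + Module.finrank ℚ K) := by
  rw [card_JS_quot_pow T K hp hpT hζ, sum_card_place_eq T K TK hTK]

end Global

end Fermat.Agent.CFT.H10
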