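import Mathlib

set_option autoImplicit false

/-!
# CFT / C-Kummer-theory (helper10), part 1: the cyclic step

`E` a field containing a primitive `p`-th root of unity `ζ` (`p` prime), `F = E(β)` with
`β ^ p = b ∈ E`, `b` not a `p`-th power in `E`.  If `γ ∈ F` satisfies `γ ^ p ∈ E ∖ {0}` then
`γ = c * β ^ i` with `c ∈ E`.
-/

namespace Fermat.Agent.CFT.H10

open Polynomial IntermediateField

variable {E F : Type*} [Field E] [Field F] [Algebra E F] {p : ℕ}

theorem isSplittingField_of_adjoin_eq_top (hp : p.Prime) {ζ : E} (hζ : IsPrimitiveRoot ζ p) {b : E}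
    {β : F} (hβ : β ^ p = algebraMap E F b) (htop : E⟮β⟯ = ⊤) :
    IsSplittingField E F (X ^ p - C b) := by
  have hint : IsIntegral E β := by
    refine ⟨X ^ p - C b, monic_X_pow_sub_C b hp.ne_zero, ?_⟩
    rw [eval₂_sub, eval₂_X_pow, eval₂_C, hβ, sub_self]
  constructor
  · rw [Polynomial.map_sub, Polynomial.map_pow, Polynomial.map_C, Polynomial.map_X]
    exact X_pow_sub_C_splits_of_isPrimitiveRoot
      (hζ.map_of_injective (algebraMap E F).injective) hβ
  · rw [eq_top_iff, ← IntermediateField.top_toSubalgebra, ← htop,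
      IntermediateField.adjoin_simple_toSubalgebra_of_isAlgebraic hint.isAlgebraic]
    apply Algebra.adjoin_mono
    rw [Set.singleton_subset_iff, mem_rootSet_of_ne (X_pow_sub_C_ne_zero hp.pos b), aeval_def,
      eval₂_sub, eval₂_X_pow, eval₂_C, hβ, sub_self]

/-- **Cyclic Kummer step.** -/
theorem exists_eq_mul_pow_of_pow_eq (hp : p.Prime) {ζ : E} (hζ : IsPrimitiveRoot ζ p) {b : E}
    (hb : ∀ c : E, c ^ p ≠ b) {β : F} (hβ : β ^ p = algebraMap E F b) (htop : E⟮β⟯ = ⊤) {a : E}
    (ha : a ≠ 0) {γ : F} (hγ : γ ^ p = algebraMap E F a) :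
    ∃ (c : E) (i : ℕ), i < p ∧ γ = algebraMap E F c * β ^ i := by
  have hirr : Irreducible (X ^ p - C b) := X_pow_sub_C_irreducible_of_prime hp hb
  have hsplit : IsSplittingField E F (X ^ p - C b) :=
    isSplittingField_of_adjoin_eq_top hp hζ hβ htop
  have hne : NeZero p := ⟨hp.ne_zero⟩
  have hζ' : (primitiveRoots p E).Nonempty := ⟨ζ, (mem_primitiveRoots hp.pos).mpr hζ⟩
  have hgal : IsGalois E F := isGalois_of_isSplittingField_X_pow_sub_C hζ' hirr F
  have hfd : FiniteDimensional E F := Polynomial.IsSplittingField.finiteDimensional F (X ^ p - C b)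
  -- the generator of the Galois group
  set Φ := autEquivZmod hirr F hζ with hΦ
  have hσ : ∀ m : ℕ, Φ.symm (Multiplicative.ofAdd (m : ZMod p)) β = ζ ^ m • β :=
    fun m => autEquivZmod_symm_apply_natCast hirr F hβ hζ m
  -- nonvanishing
  have hb0 : b ≠ 0 := by
    rintro rfl
    exact hb 0 (zero_pow hp.ne_zero)
  have hβ0 : β ≠ 0 := by
    rintro rfl
    rw [zero_pow hp.ne_zero] at hβ
    exact hb0 ((algebraMap E F).injective (by rw [← hβ, map_zero]))
  have hγ0 : γ ≠ 0 := by
    rintro rfl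
    rw [zero_pow hp.ne_zero] at hγ
    exact ha ((algebraMap E F).injective (by rw [← hγ, map_zero]))
  -- action of the generator on γ
  set σ := Φ.symm (Multiplicative.ofAdd ((1 : ℕ) : ZMod p)) with hσdef
  have hζF : IsPrimitiveRoot (algebraMap E F ζ) p := hζ.map_of_injective (algebraMap E F).injective
  have hquot : (σ γ / γ) ^ p = 1 := by
    rw [div_pow, ← map_pow, hγ, AlgEquiv.commutes, div_self]
    rw [← hγ]
    exact pow_ne_zero _ hγ0
  obtain ⟨i, hip, hi⟩ := hζF.eq_pow_of_pow_eq_one hquot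
  have hσγ : σ γ = algebraMap E F ζ ^ i * γ := by
    rw [hi, div_mul_cancel₀ _ hγ0]
  have hσβ : σ β = algebraMap E F ζ * β := by
    have := hσ 1
    rw [pow_one, Algebra.smul_def] at this
    exact this
  -- δ := γ / β ^ i is fixed by σ, hence by everything
  have hδ : σ (γ / β ^ i) = γ / β ^ i := by
    rw [map_div₀, map_pow, hσγ, hσβ, mul_pow]
    have h1 : algebraMap E F ζ ^ i ≠ 0 := pow_ne_zero _ (hζF.ne_zero hp.ne_zero)
    have h2 : β ^ i ≠ 0 := pow_ne_zero _ hβ0
    field_simp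
  have hall : ∀ τ : F ≃ₐ[E] F, τ (γ / β ^ i) = γ / β ^ i := by
    intro τ
    obtain ⟨m, hm⟩ : ∃ m : ℕ, τ = σ ^ m := by
      refine ⟨(Multiplicative.toAdd (Φ τ)).val, ?_⟩
      apply Φ.injective
      rw [map_pow, hσdef, MulEquiv.apply_symm_apply, Nat.cast_one, ← ofAdd_nsmul, nsmul_one,
        ZMod.natCast_zmod_val]
      rfl
    rw [hm]
    clear hm
    induction m with
    | zero => simp
    | succ k ih => rw [pow_succ, AlgEquiv.mul_apply, hδ, ih]
  obtain ⟨c, hc⟩ := (IsGalois.mem_range_algebraMap_iff_fixed (F := E) (E := F) _).mpr hall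
  refine ⟨c, i, hip, ?_⟩
  rw [hc, div_mul_cancel₀ _ (pow_ne_zero _ hβ0)]

end Fermat.Agent.CFT.H10
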