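import Mathlib
import Fermat.Agent.CFT.H10_KummerStep

set_option autoImplicit false

/-!
# CFT / C-Kummer-theory (helper10), part 2: descent of `p`-th powers and the degree

`K ∋ ζ` primitive `p`-th root of unity, `β i ^ p = b i ∈ Kˣ` in an extension `Ω`,
`M_s = K(β i : i ∈ s)`.
* `descent`: `a ∈ Kˣ` a `p`-th power in `M_s` ⟹ `a = c ^ p * ∏_{i ∈ s} b i ^ e i`.
* `finrank_kummer`: for `p`-independent `b` the degree `[M_s : K]` is `p ^ #s`.
-/

namespace Fermat.Agent.CFT.H10

open Polynomial IntermediateField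

section Step'

variable {E F : Type*} [Field E] [Field F] [Algebra E F] {p : ℕ}

/-- The cyclic Kummer step for an element `γ` of the subfield `E(β)` of an arbitrary extension. -/
theorem exists_eq_mul_pow_of_mem_adjoin (hp : p.Prime) {ζ : E} (hζ : IsPrimitiveRoot ζ p) {b : E}
    (hb : ∀ c : E, c ^ p ≠ b) {β : F} (hβ : β ^ p = algebraMap E F b) {a : E} (ha : a ≠ 0)
    {γ : F} (hγmem : γ ∈ E⟮β⟯) (hγ : γ ^ p = algebraMap E F a) :
    ∃ (c : E) (i : ℕ), i < p ∧ γ = algebraMap E F c * β ^ i := by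
  have htop : E⟮(AdjoinSimple.gen E β : E⟮β⟯)⟯ = ⊤ := by
    apply IntermediateField.lift_injective
    rw [lift_adjoin_simple, lift_top]
    rfl
  have hβ'p : (AdjoinSimple.gen E β : E⟮β⟯) ^ p = algebraMap E E⟮β⟯ b := by
    apply Subtype.ext
    rw [IntermediateField.coe_pow, AdjoinSimple.coe_gen, hβ]
    rfl
  have hγ'p : (⟨γ, hγmem⟩ : E⟮β⟯) ^ p = algebraMap E E⟮β⟯ a := by
    apply Subtype.ext
    rw [IntermediateField.coe_pow, hγ]
    rfl
  obtain ⟨c, i, hi, hc⟩ := exists_eq_mul_pow_of_pow_eq hp hζ hb hβ'p htop ha hγ'p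
  refine ⟨c, i, hi, ?_⟩
  have := congrArg (Subtype.val) hc
  rw [IntermediateField.coe_mul, IntermediateField.coe_pow, AdjoinSimple.coe_gen] at this
  exact this

end Step'

variable {K Ω : Type*} [Field K] [Field Ω] [Algebra K Ω] {p : ℕ} {ι : Type*} [DecidableEq ι]

/-- The Kummer field `K(β i : i ∈ s)`. -/
def kummerField (K : Type*) {Ω : Type*} [Field K] [Field Ω] [Algebra K Ω] {ι : Type*} (β : ι → Ω)
    (s : Finset ι) : IntermediateField K Ω :=
  IntermediateField.adjoin K (β '' (s : Set ι))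

omit [DecidableEq ι] in
theorem kummerField_empty (β : ι → Ω) : kummerField K β ∅ = ⊥ := by
  unfold kummerField
  rw [Finset.coe_empty, Set.image_empty, adjoin_empty]

theorem kummerField_insert (β : ι → Ω) (s : Finset ι) (j : ι) :
    kummerField K β (insert j s)
      = ((kummerField K β s)⟮β j⟯).restrictScalars K := by
  unfold kummerField
  rw [adjoin_adjoin_left, Finset.coe_insert, Set.image_insert_eq, Set.union_singleton]

omit [DecidableEq ι] in
theorem kummerField_mono (β : ι → Ω) {s t : Finset ι} (h : s ⊆ t) :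
    kummerField K β s ≤ kummerField K β t :=
  IntermediateField.adjoin.mono K _ _ (Set.image_mono (Finset.coe_subset.mpr h))

omit [DecidableEq ι] in
theorem mem_kummerField (β : ι → Ω) {s : Finset ι} {i : ι} (hi : i ∈ s) :
    β i ∈ kummerField K β s :=
  IntermediateField.subset_adjoin K _ ⟨i, Finset.mem_coe.mpr hi, rfl⟩

/-- If `b j` is a `p`-th power in a subfield `E ∋ ζ`, then the root `β j` lies in `E`. -/
theorem root_mem_of_pow_eq (hp : p.Prime) {ζ : K} (hζ : IsPrimitiveRoot ζ p)
    (E : IntermediateField K Ω) {x : Ω} {c : E} (hx : x ^ p = (c : Ω) ^ p) (hx0 : x ≠ 0) :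
    x ∈ E := by
  have hc0 : (c : Ω) ≠ 0 := by
    intro h
    rw [h, zero_pow hp.ne_zero] at hx
    exact hx0 (pow_eq_zero_iff hp.ne_zero |>.mp hx)
  have hne : NeZero p := ⟨hp.ne_zero⟩
  have hζΩ : IsPrimitiveRoot (algebraMap K Ω ζ) p :=
    hζ.map_of_injective (algebraMap K Ω).injective
  have h1 : (x / (c : Ω)) ^ p = 1 := by
    rw [div_pow, hx, div_self (pow_ne_zero _ hc0)]
  obtain ⟨k, -, hk⟩ := hζΩ.eq_pow_of_pow_eq_one h1
  have : x = algebraMap K Ω ζ ^ k * (c : Ω) := by
    rw [hk, div_mul_cancel₀ _ hc0]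
  rw [this]
  exact E.mul_mem (pow_mem (E.algebraMap_mem ζ) k) c.2

variable (hp : p.Prime) {ζ : K} (hζ : IsPrimitiveRoot ζ p) (b : ι → K) (β : ι → Ω)
  (hβ : ∀ i, β i ^ p = algebraMap K Ω (b i)) (hb0 : ∀ i, b i ≠ 0)

include hp hζ hβ hb0 in
/-- **Descent of `p`-th powers** (`Kˣ ∩ M^{×p} = ⟨b⟩ K^{×p}`). -/
theorem descent (s : Finset ι) :
    ∀ a : K, a ≠ 0 → ∀ γ ∈ kummerField K β s, γ ^ p = algebraMap K Ω a →
      ∃ (c : K) (e : ι → ℕ), a = c ^ p * ∏ i ∈ s, b i ^ e i := by
  induction s using Finset.induction_on with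
  | empty =>
    intro a _ γ hγmem hγ
    rw [kummerField_empty, IntermediateField.mem_bot] at hγmem
    obtain ⟨c, rfl⟩ := hγmem
    refine ⟨c, fun _ => 0, ?_⟩
    rw [Finset.prod_empty, mul_one]
    apply (algebraMap K Ω).injective
    rw [map_pow, hγ]
  | insert j s hj ih =>
    intro a ha γ hγmem hγ
    set E := kummerField K β s with hE
    rw [kummerField_insert, IntermediateField.mem_restrictScalars] at hγmem
    have hβj0 : β j ≠ 0 := by
      intro h
      have := hβ j
      rw [h, zero_pow hp.ne_zero] at this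
      exact hb0 j ((algebraMap K Ω).injective (by rw [← this, map_zero]))
    by_cases hpow : ∃ c : E, c ^ p = algebraMap K E (b j)
    · -- `β j ∈ E` already
      obtain ⟨c, hc⟩ := hpow
      have hmem : β j ∈ E := by
        refine root_mem_of_pow_eq hp hζ E (c := c) ?_ hβj0
        rw [hβ j]
        have := congrArg (Subtype.val) hc
        simpa using this.symm
      have hbot : E⟮β j⟯ = ⊥ := by
        rw [IntermediateField.adjoin_simple_eq_bot_iff, IntermediateField.mem_bot]
        exact ⟨⟨β j, hmem⟩, rfl⟩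
      rw [hbot, IntermediateField.mem_bot] at hγmem
      obtain ⟨γ', rfl⟩ := hγmem
      obtain ⟨c', e, hce⟩ := ih a ha (γ' : Ω) γ'.2 hγ
      refine ⟨c', Function.update e j 0, ?_⟩
      rw [Finset.prod_insert hj, Function.update_self, pow_zero, one_mul, hce]
      congr 1
      refine Finset.prod_congr rfl fun i hi => ?_
      rw [Function.update_of_ne (fun (h : i = j) => hj (h ▸ hi))]
    · -- genuine cyclic step over `E`
      simp only [not_exists] at hpow
      have hζE : IsPrimitiveRoot (algebraMap K E ζ) p :=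
        hζ.map_of_injective (algebraMap K E).injective
      have hβE : β j ^ p = algebraMap E Ω (algebraMap K E (b j)) := by
        rw [hβ j]
        rfl
      have haE : algebraMap K E a ≠ 0 := by
        rw [Ne, map_eq_zero_iff _ (algebraMap K E).injective]
        exact ha
      have hγE : γ ^ p = algebraMap E Ω (algebraMap K E a) := by
        rw [hγ]
        rfl
      obtain ⟨c, i, -, hc⟩ := exists_eq_mul_pow_of_mem_adjoin hp hζE hpow hβE haE hγmem hγE
      -- `c ^ p = a / b j ^ i`
      have hcp : ((c : E) : Ω) ^ p = algebraMap K Ω (a * (b j ^ i)⁻¹) := by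
        have h1 : γ ^ p = ((c : E) : Ω) ^ p * (β j ^ p) ^ i := by
          rw [hc, mul_pow, ← pow_mul, ← pow_mul, mul_comm i p]
          rfl
        rw [hγ, hβ j] at h1
        rw [map_mul, map_inv₀, map_pow, h1]
        have : (algebraMap K Ω (b j)) ^ i ≠ 0 := by
          apply pow_ne_zero
          rw [Ne, map_eq_zero_iff _ (algebraMap K Ω).injective]
          exact hb0 j
        field_simp
      have ha' : a * (b j ^ i)⁻¹ ≠ 0 :=
        mul_ne_zero ha (inv_ne_zero (pow_ne_zero _ (hb0 j)))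
      obtain ⟨c', e, hce⟩ := ih _ ha' (c : Ω) c.2 hcp
      refine ⟨c', Function.update e j i, ?_⟩
      rw [Finset.prod_insert hj, Function.update_self]
      have hprod : ∏ x ∈ s, b x ^ Function.update e j i x = ∏ x ∈ s, b x ^ e x := by
        refine Finset.prod_congr rfl fun x hx => ?_
        rw [Function.update_of_ne (fun (h : x = j) => hj (h ▸ hx))]
      rw [hprod]
      have hbi : b j ^ i ≠ 0 := pow_ne_zero _ (hb0 j)
      calc a = (a * (b j ^ i)⁻¹) * b j ^ i := by field_simp
        _ = (c' ^ p * ∏ x ∈ s, b x ^ e x) * b j ^ i := by rw [hce]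
        _ = c' ^ p * (b j ^ i * ∏ x ∈ s, b x ^ e x) := by ring

end Fermat.Agent.CFT.H10
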