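import Mathlib
import Fermat.Agent.CFT.H10_KummerDescent

set_option autoImplicit false

/-!
# CFT / C-Kummer-theory (helper10), part 3: the degree of a Kummer extension

For a `p`-independent family `b` the field `K(β i : i ∈ s)`, `β i ^ p = b i`, has degree `p ^ #s`.
-/

namespace Fermat.Agent.CFT.H10

open Polynomial IntermediateField

variable {K Ω : Type*} [Field K] [Field Ω] [Algebra K Ω] {p : ℕ} {ι : Type*} [DecidableEq ι]

/-- `p`-independence of the family `b` on the finite set `s`: the only monomials in the `b i`,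
`i ∈ s`, which are `p`-th powers are the obvious ones. -/
def PIndepOn (p : ℕ) (b : ι → K) (s : Finset ι) : Prop :=
  ∀ e : ι → ℕ, (∃ c : K, ∏ i ∈ s, b i ^ e i = c ^ p) → ∀ i ∈ s, p ∣ e i

theorem PIndepOn.mono {b : ι → K} {s t : Finset ι} (h : s ⊆ t) (ht : PIndepOn p b t) :
    PIndepOn p b s := by
  intro e ⟨c, hc⟩ i hi
  have key := ht (fun i => if i ∈ s then e i else 0) ⟨c, ?_⟩ i (h hi)
  · simpa [hi] using key
  · rw [← hc, ← Finset.prod_subset h]
    · exact Finset.prod_congr rfl fun x hx => by simp [hx]
    · intro x _ hx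
      simp [hx]

variable (hp : p.Prime) {ζ : K} (hζ : IsPrimitiveRoot ζ p) (b : ι → K) (β : ι → Ω)
  (hβ : ∀ i, β i ^ p = algebraMap K Ω (b i)) (hb0 : ∀ i, b i ≠ 0)

include hp hζ hβ hb0 in
/-- For a `p`-independent family, `b j` is not a `p`-th power in `K(β i : i ∈ s)`, `j ∉ s`. -/
theorem not_pow_of_pIndepOn {s : Finset ι} {j : ι} (hj : j ∉ s)
    (hind : PIndepOn p b (insert j s)) (c : kummerField K β s) :
    c ^ p ≠ algebraMap K (kummerField K β s) (b j) := by
  intro hc
  have hcΩ : (c : Ω) ^ p = algebraMap K Ω (b j) := by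
    have := congrArg Subtype.val hc
    rw [IntermediateField.coe_pow] at this
    exact this
  obtain ⟨c', e, hce⟩ := descent hp hζ b β hβ hb0 s (b j) (hb0 j) (c : Ω) c.2 hcΩ
  have hc'0 : c' ≠ 0 := by
    rintro rfl
    rw [zero_pow hp.ne_zero, zero_mul] at hce
    exact hb0 j hce
  have hrel : ∏ i ∈ insert j s, b i ^ (Function.update e j (p - 1)) i = (b j / c') ^ p := by
    rw [Finset.prod_insert hj, Function.update_self]
    have hprod : ∏ x ∈ s, b x ^ Function.update e j (p - 1) x = ∏ x ∈ s, b x ^ e x := by
      refine Finset.prod_congr rfl fun x hx => ?_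
      rw [Function.update_of_ne (fun (h : x = j) => hj (h ▸ hx))]
    rw [hprod]
    have h1 : ∏ x ∈ s, b x ^ e x = b j / c' ^ p := by
      rw [eq_div_iff (pow_ne_zero _ hc'0), mul_comm]
      exact hce.symm
    rw [h1, div_pow]
    have hp1 : b j ^ p = b j ^ (p - 1) * b j := by
      rw [← pow_succ, Nat.sub_add_cancel hp.pos]
    rw [hp1]
    ring
  have hdvd := hind _ ⟨_, hrel⟩ j (Finset.mem_insert_self j s)
  rw [Function.update_self] at hdvd
  have h2 := hp.two_le
  exact absurd (Nat.le_of_dvd (by omega) hdvd) (by omega)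

include hp hζ hβ hb0 in
/-- **Degree of a Kummer extension**: `[K(β i : i ∈ s) : K] = p ^ #s` for `p`-independent `b`. -/
theorem finrank_kummerField (s : Finset ι) (hind : PIndepOn p b s) :
    Module.finrank K (kummerField K β s) = p ^ s.card := by
  induction s using Finset.induction_on with
  | empty =>
    rw [kummerField_empty, Finset.card_empty, pow_zero]
    exact IntermediateField.finrank_bot
  | insert j s hj ih =>
    have ih' := ih (hind.mono (Finset.subset_insert j s))
    set E := kummerField K β s with hE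
    have hpow := not_pow_of_pIndepOn hp hζ b β hβ hb0 hj hind
    have hirr : Irreducible (X ^ p - C (algebraMap K E (b j))) :=
      X_pow_sub_C_irreducible_of_prime hp hpow
    have haeval : aeval (β j) (X ^ p - C (algebraMap K E (b j))) = 0 := by
      rw [map_sub, map_pow, aeval_X, aeval_C, hβ j]
      exact sub_self _
    have hint : IsIntegral E (β j) :=
      ⟨_, monic_X_pow_sub_C _ hp.ne_zero, haeval⟩
    have hmin : minpoly E (β j) = X ^ p - C (algebraMap K E (b j)) :=
      (minpoly.eq_of_irreducible_of_monic hirr haeval (monic_X_pow_sub_C _ hp.ne_zero)).symm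
    have hdeg : Module.finrank E E⟮β j⟯ = p := by
      rw [IntermediateField.adjoin.finrank hint, hmin, natDegree_X_pow_sub_C]
    have htower : Module.finrank K E * Module.finrank E E⟮β j⟯ = Module.finrank K E⟮β j⟯ :=
      Module.finrank_mul_finrank K E E⟮β j⟯
    rw [kummerField_insert, Finset.card_insert_of_notMem hj, pow_succ, ← ih', ← hdeg]
    exact htower.symm

end Fermat.Agent.CFT.H10
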