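import Mathlib
import Fermat.Agent.CFT.H10_KummerDegree

set_option autoImplicit false

/-!
# CFT / C-Kummer-theory (helper10), part 4: the Galois group of a Kummer extension

`M = K(β i : i ∈ s)` is Galois over `K`, and `σ ↦ (σ β i / β i)_i` is an injective homomorphism
`Gal(M/K) →* Multiplicative (s → ZMod p)`, bijective when `b` is `p`-independent.
-/

namespace Fermat.Agent.CFT.H10

open Polynomial IntermediateField

variable {K Ω : Type*} [Field K] [Field Ω] [Algebra K Ω] {p : ℕ} {ι : Type*} [DecidableEq ι]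

variable (hp : p.Prime) {ζ : K} (hζ : IsPrimitiveRoot ζ p) (b : ι → K) (β : ι → Ω)
  (hβ : ∀ i, β i ^ p = algebraMap K Ω (b i)) (hb0 : ∀ i, b i ≠ 0)

include hp hβ in
omit [DecidableEq ι] in
theorem isIntegral_root (i : ι) : IsIntegral K (β i) := by
  refine ⟨X ^ p - C (b i), monic_X_pow_sub_C _ hp.ne_zero, ?_⟩
  rw [eval₂_sub, eval₂_X_pow, eval₂_C, hβ i, sub_self]

include hp hβ in
omit [DecidableEq ι] in
theorem finiteDimensional_kummerField (s : Finset ι) :
    FiniteDimensional K (kummerField K β s) := by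
  unfold kummerField
  have : Finite (β '' (s : Set ι)) := (s.finite_toSet.image β).to_subtype
  apply IntermediateField.finiteDimensional_adjoin
  rintro x ⟨i, -, rfl⟩
  exact isIntegral_root hp b β hβ i

include hp hζ hβ hb0 in
omit [DecidableEq ι] in
theorem isSeparable_kummerField (s : Finset ι) :
    Algebra.IsSeparable K (kummerField K β s) := by
  unfold kummerField
  rw [IntermediateField.isSeparable_adjoin_iff_isSeparable]
  rintro x ⟨i, -, rfl⟩
  have hne : NeZero p := ⟨hp.ne_zero⟩
  have hpK : (p : K) ≠ 0 := (hζ.neZero').ne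
  have hsep : (X ^ p - C (b i)).Separable := separable_X_pow_sub_C (b i) hpK (hb0 i)
  refine hsep.of_dvd (minpoly.dvd K (β i) ?_)
  rw [map_sub, map_pow, aeval_X, aeval_C, hβ i, sub_self]

include hp hζ hβ hb0 in
omit [DecidableEq ι] in
/-- the Kummer field is the field generated by all roots of `∏_{i ∈ s} (X ^ p - b i)`. -/
theorem kummerField_eq_adjoin_rootSet (s : Finset ι) :
    kummerField K β s = adjoin K ((∏ i ∈ s, (X ^ p - C (b i))).rootSet Ω) := by
  have hne0 : ∏ i ∈ s, (X ^ p - C (b i) : K[X]) ≠ 0 :=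
    Finset.prod_ne_zero_iff.mpr fun i _ => X_pow_sub_C_ne_zero hp.pos (b i)
  rw [rootSet_prod _ _ hne0]
  apply le_antisymm
  · apply IntermediateField.adjoin.mono
    rintro x ⟨i, hi, rfl⟩
    refine Set.mem_biUnion hi ?_
    rw [mem_rootSet_of_ne (X_pow_sub_C_ne_zero hp.pos (b i)), map_sub, map_pow, aeval_X, aeval_C,
      hβ i, sub_self]
  · rw [IntermediateField.adjoin_le_iff]
    intro x hx
    obtain ⟨i, hi, hxi⟩ := Set.mem_iUnion₂.mp hx
    rw [mem_rootSet_of_ne (X_pow_sub_C_ne_zero hp.pos (b i)), map_sub, map_pow, aeval_X, aeval_C,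
      sub_eq_zero] at hxi
    have hx0 : x ≠ 0 := by
      rintro rfl
      rw [zero_pow hp.ne_zero] at hxi
      exact hb0 i ((algebraMap K Ω).injective (by rw [← hxi, map_zero]))
    refine root_mem_of_pow_eq hp hζ (kummerField K β s)
      (c := ⟨β i, mem_kummerField β (Finset.mem_coe.mp hi)⟩) ?_ hx0
    rw [hxi, hβ i]

include hp hζ hβ hb0 in
omit [DecidableEq ι] in
theorem normal_kummerField (s : Finset ι) : Normal K (kummerField K β s) := by
  rw [kummerField_eq_adjoin_rootSet hp hζ b β hβ hb0 s]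
  have hζΩ : IsPrimitiveRoot (algebraMap K Ω ζ) p :=
    hζ.map_of_injective (algebraMap K Ω).injective
  have hsplit : ((∏ i ∈ s, (X ^ p - C (b i))).map (algebraMap K Ω)).Splits := by
    rw [Polynomial.map_prod]
    refine Splits.prod fun i _ => ?_
    rw [Polynomial.map_sub, Polynomial.map_pow, Polynomial.map_C, Polynomial.map_X]
    exact X_pow_sub_C_splits_of_isPrimitiveRoot hζΩ (hβ i)
  exact Normal.of_isSplittingField (hFEp := adjoin_rootSet_isSplittingField hsplit)
    (∏ i ∈ s, (X ^ p - C (b i)))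

include hp hζ hβ hb0 in
omit [DecidableEq ι] in
/-- A Kummer extension is Galois. -/
theorem isGalois_kummerField (s : Finset ι) : IsGalois K (kummerField K β s) :=
  { to_isSeparable := isSeparable_kummerField hp hζ b β hβ hb0 s
    to_normal := normal_kummerField hp hζ b β hβ hb0 s }

end Fermat.Agent.CFT.H10
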