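import Mathlib
import Fermat.Agent.CFT.H10_KummerGalois

set_option autoImplicit false

/-!
# CFT / C-Kummer-theory (helper10), part 5: `Gal(K(β i : i ∈ s)/K) ≃ (ℤ/p)^s`

`kummerExp σ i : ZMod p` is the exponent with `σ (β i) = ζ ^ (kummerExp σ i).val * β i`;
`kummerHom : Gal(M/K) →* Multiplicative (s → ZMod p)` is injective, and bijective for
`p`-independent `b` (`kummerEquiv`).
-/

namespace Fermat.Agent.CFT.H10

open Polynomial IntermediateField

variable {K Ω : Type*} [Field K] [Field Ω] [Algebra K Ω] {p : ℕ} {ι : Type*} [DecidableEq ι]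

/-- the generator `β i`, `i ∈ s`, as an element of the Kummer field. -/
def kummerGen (K : Type*) {Ω : Type*} [Field K] [Field Ω] [Algebra K Ω] {ι : Type*} (β : ι → Ω)
    (s : Finset ι) (i : s) : kummerField K β s :=
  ⟨β i, mem_kummerField β i.2⟩

omit [DecidableEq ι] in
@[simp] theorem coe_kummerGen (β : ι → Ω) (s : Finset ι) (i : s) :
    (kummerGen K β s i : Ω) = β i := rfl

section General

variable {F : Type*} [Field F] [Algebra K F]

/-- two elements with the same `p`-th power differ by a power of `ζ`. -/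
theorem exists_zeta_pow_mul_of_pow_eq (hp : p.Prime) {ζ : K} (hζ : IsPrimitiveRoot ζ p) {x y : F}
    (hy : y ≠ 0) (h : x ^ p = y ^ p) : ∃ k : ZMod p, x = algebraMap K F ζ ^ k.val * y := by
  have hne : NeZero p := ⟨hp.ne_zero⟩
  have hζF : IsPrimitiveRoot (algebraMap K F ζ) p :=
    hζ.map_of_injective (algebraMap K F).injective
  have h1 : (x / y) ^ p = 1 := by
    rw [div_pow, h, div_self (pow_ne_zero _ hy)]
  obtain ⟨k, hk, hkx⟩ := hζF.eq_pow_of_pow_eq_one h1
  refine ⟨(k : ZMod p), ?_⟩
  rw [ZMod.val_natCast_of_lt hk, hkx, div_mul_cancel₀ _ hy]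

theorem zeta_pow_val_add (hp : p.Prime) {ζ : K} (hζ : IsPrimitiveRoot ζ p) (j k : ZMod p) :
    ζ ^ (j + k).val = ζ ^ j.val * ζ ^ k.val := by
  have hne : NeZero p := ⟨hp.ne_zero⟩
  rw [ZMod.val_add, ← pow_add, ← pow_eq_pow_mod _ hζ.pow_eq_one]

theorem zeta_pow_val_injective (hp : p.Prime) {ζ : K} (hζ : IsPrimitiveRoot ζ p) {j k : ZMod p}
    (h : ζ ^ j.val = ζ ^ k.val) : j = k := by
  have hne : NeZero p := ⟨hp.ne_zero⟩
  exact ZMod.val_injective p (hζ.pow_inj (ZMod.val_lt j) (ZMod.val_lt k) h)

end General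

variable (hp : p.Prime) {ζ : K} (hζ : IsPrimitiveRoot ζ p) (b : ι → K) (β : ι → Ω)
  (hβ : ∀ i, β i ^ p = algebraMap K Ω (b i)) (hb0 : ∀ i, b i ≠ 0)

include hβ in
omit [DecidableEq ι] in
theorem kummerGen_pow (s : Finset ι) (i : s) :
    kummerGen K β s i ^ p = algebraMap K (kummerField K β s) (b i) := by
  apply Subtype.ext
  rw [IntermediateField.coe_pow, coe_kummerGen, hβ]
  rfl

include hp hβ hb0 in
omit [DecidableEq ι] in
theorem kummerGen_ne_zero (s : Finset ι) (i : s) : kummerGen K β s i ≠ 0 := by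
  intro h
  have h1 := kummerGen_pow b β hβ s i
  rw [h, zero_pow hp.ne_zero] at h1
  exact hb0 i ((algebraMap K (kummerField K β s)).injective (by rw [← h1, map_zero]))

include hp hζ hβ hb0 in
omit [DecidableEq ι] in
theorem exists_kummerExp (s : Finset ι) (σ : kummerField K β s ≃ₐ[K] kummerField K β s) (i : s) :
    ∃ k : ZMod p, σ (kummerGen K β s i)
      = algebraMap K (kummerField K β s) ζ ^ k.val * kummerGen K β s i := by
  refine exists_zeta_pow_mul_of_pow_eq hp hζ (kummerGen_ne_zero hp b β hβ hb0 s i) ?_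
  rw [← map_pow, kummerGen_pow b β hβ s i, AlgEquiv.commutes]

/-- the Kummer exponent: `σ (β i) = ζ ^ (kummerExp σ i).val * β i`. -/
noncomputable def kummerExp (s : Finset ι) (σ : kummerField K β s ≃ₐ[K] kummerField K β s)
    (i : s) : ZMod p :=
  Classical.choose (exists_kummerExp hp hζ b β hβ hb0 s σ i)

omit [DecidableEq ι] in
theorem kummerExp_spec (s : Finset ι) (σ : kummerField K β s ≃ₐ[K] kummerField K β s) (i : s) :
    σ (kummerGen K β s i)
      = algebraMap K (kummerField K β s) ζ ^ (kummerExp hp hζ b β hβ hb0 s σ i).val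
        * kummerGen K β s i :=
  Classical.choose_spec (exists_kummerExp hp hζ b β hβ hb0 s σ i)

omit [DecidableEq ι] in
theorem kummerExp_eq_of (s : Finset ι) (σ : kummerField K β s ≃ₐ[K] kummerField K β s) (i : s)
    {k : ZMod p}
    (h : σ (kummerGen K β s i) = algebraMap K (kummerField K β s) ζ ^ k.val * kummerGen K β s i) :
    kummerExp hp hζ b β hβ hb0 s σ i = k := by
  have h1 := kummerExp_spec hp hζ b β hβ hb0 s σ i
  rw [h] at h1
  have h2 := mul_right_cancel₀ (kummerGen_ne_zero hp b β hβ hb0 s i) h1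
  have hζM : IsPrimitiveRoot (algebraMap K (kummerField K β s) ζ) p :=
    hζ.map_of_injective (algebraMap K (kummerField K β s)).injective
  exact (zeta_pow_val_injective hp hζM h2).symm

omit [DecidableEq ι] in
theorem kummerExp_mul (s : Finset ι) (σ τ : kummerField K β s ≃ₐ[K] kummerField K β s) (i : s) :
    kummerExp hp hζ b β hβ hb0 s (σ * τ) i
      = kummerExp hp hζ b β hβ hb0 s σ i + kummerExp hp hζ b β hβ hb0 s τ i := by
  apply kummerExp_eq_of
  have hζM : IsPrimitiveRoot (algebraMap K (kummerField K β s) ζ) p :=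
    hζ.map_of_injective (algebraMap K (kummerField K β s)).injective
  rw [AlgEquiv.mul_apply, kummerExp_spec hp hζ b β hβ hb0 s τ i, map_mul, map_pow,
    AlgEquiv.commutes, kummerExp_spec hp hζ b β hβ hb0 s σ i, zeta_pow_val_add hp hζM]
  ring

omit [DecidableEq ι] in
theorem kummerExp_one (s : Finset ι) (i : s) :
    kummerExp hp hζ b β hβ hb0 s 1 i = 0 := by
  apply kummerExp_eq_of
  have hne : NeZero p := ⟨hp.ne_zero⟩
  rw [AlgEquiv.one_apply, ZMod.val_zero, pow_zero, one_mul]

/-- **the Kummer homomorphism** `Gal(M/K) →* (ℤ/p)^s`. -/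
noncomputable def kummerHom (s : Finset ι) :
    (kummerField K β s ≃ₐ[K] kummerField K β s) →* Multiplicative (s → ZMod p) where
  toFun σ := Multiplicative.ofAdd fun i => kummerExp hp hζ b β hβ hb0 s σ i
  map_one' := by
    apply Multiplicative.toAdd.injective
    funext i
    exact kummerExp_one hp hζ b β hβ hb0 s i
  map_mul' σ τ := by
    apply Multiplicative.toAdd.injective
    funext i
    exact kummerExp_mul hp hζ b β hβ hb0 s σ τ i

omit [DecidableEq ι] in
theorem kummerHom_apply (s : Finset ι) (σ : kummerField K β s ≃ₐ[K] kummerField K β s) (i : s) :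
    Multiplicative.toAdd (kummerHom hp hζ b β hβ hb0 s σ) i = kummerExp hp hζ b β hβ hb0 s σ i :=
  rfl

omit [DecidableEq ι] in
/-- an automorphism of the Kummer field is determined by its Kummer exponents. -/
theorem kummerHom_injective (s : Finset ι) :
    Function.Injective (kummerHom hp hζ b β hβ hb0 s) := by
  rw [injective_iff_map_eq_one]
  intro σ hσ
  have hne : NeZero p := ⟨hp.ne_zero⟩
  have hfix : ∀ i : s, σ (kummerGen K β s i) = kummerGen K β s i := by
    intro i
    have h0 : kummerExp hp hζ b β hβ hb0 s σ i = 0 := by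
      rw [← kummerHom_apply, hσ]
      rfl
    have := kummerExp_spec hp hζ b β hβ hb0 s σ i
    rwa [h0, ZMod.val_zero, pow_zero, one_mul] at this
  have key : (σ : kummerField K β s →ₐ[K] kummerField K β s)
      = AlgHom.id K (kummerField K β s) := by
    refine IntermediateField.algHom_ext_of_eq_adjoin K (s := β '' (s : Set ι)) rfl ?_
    rintro x ⟨i, hi, rfl⟩
    exact hfix ⟨i, Finset.mem_coe.mp hi⟩
  ext x
  have := congrArg (fun f : kummerField K β s →ₐ[K] kummerField K β s => (f x : Ω)) key
  simpa using this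

include hp hζ hβ hb0 in
omit [DecidableEq ι] in
/-- `Gal(M/K)` is abelian. -/
theorem kummer_comm (s : Finset ι) (σ τ : kummerField K β s ≃ₐ[K] kummerField K β s) :
    σ * τ = τ * σ := by
  apply kummerHom_injective hp hζ b β hβ hb0 s
  rw [map_mul, map_mul, mul_comm]

include hp hζ hβ hb0 in
omit [DecidableEq ι] in
/-- `Gal(M/K)` has exponent `p`. -/
theorem kummer_pow_eq_one (s : Finset ι) (σ : kummerField K β s ≃ₐ[K] kummerField K β s) :
    σ ^ p = 1 := by
  apply kummerHom_injective hp hζ b β hβ hb0 s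
  rw [map_pow, map_one]
  apply Multiplicative.toAdd.injective
  rw [toAdd_pow, toAdd_one]
  funext i
  simp

include hp hζ hβ hb0 in
/-- **Galois group of a Kummer extension**: for `p`-independent `b` the Kummer homomorphism is
bijective. -/
theorem kummerHom_bijective (s : Finset ι) (hind : PIndepOn p b s) :
    Function.Bijective (kummerHom hp hζ b β hβ hb0 s) := by
  have hne : NeZero p := ⟨hp.ne_zero⟩
  have hfd := finiteDimensional_kummerField hp b β hβ s
  have hgal := isGalois_kummerField hp hζ b β hβ hb0 s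
  refine (kummerHom_injective hp hζ b β hβ hb0 s).bijective_of_nat_card_le ?_
  rw [IsGalois.card_aut_eq_finrank, finrank_kummerField hp hζ b β hβ hb0 s hind]
  change Nat.card (s → ZMod p) ≤ _
  rw [Nat.card_fun, Nat.card_zmod, Nat.card_eq_fintype_card, Fintype.card_coe]

/-- `Gal(K(β i : i ∈ s)/K) ≃* (ℤ/p)^s` for `p`-independent `b`. -/
noncomputable def kummerEquiv (s : Finset ι) (hind : PIndepOn p b s) :
    (kummerField K β s ≃ₐ[K] kummerField K β s) ≃* Multiplicative (s → ZMod p) :=
  MulEquiv.ofBijective (kummerHom hp hζ b β hβ hb0 s)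
    (kummerHom_bijective hp hζ b β hβ hb0 s hind)

include hp hζ hβ hb0 in
/-- for `p`-independent `b`, every system of exponents is realised by a unique automorphism. -/
theorem existsUnique_algEquiv (s : Finset ι) (hind : PIndepOn p b s) (e : s → ZMod p) :
    ∃! σ : kummerField K β s ≃ₐ[K] kummerField K β s, ∀ i : s,
      σ (kummerGen K β s i)
        = algebraMap K (kummerField K β s) ζ ^ (e i).val * kummerGen K β s i := by
  obtain ⟨σ, hσ⟩ := (kummerHom_bijective hp hζ b β hβ hb0 s hind).2 (Multiplicative.ofAdd e)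
  have hσi : ∀ i : s, kummerExp hp hζ b β hβ hb0 s σ i = e i := by
    intro i
    rw [← kummerHom_apply, hσ]
    rfl
  refine ⟨σ, fun i => ?_, fun τ hτ => ?_⟩
  · rw [← hσi i]
    exact kummerExp_spec hp hζ b β hβ hb0 s σ i
  · apply kummerHom_injective hp hζ b β hβ hb0 s
    apply Multiplicative.toAdd.injective
    funext i
    rw [kummerHom_apply, kummerHom_apply, hσi i]
    exact kummerExp_eq_of hp hζ b β hβ hb0 s τ i (hτ i)

end Fermat.Agent.CFT.H10
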