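import Mathlib
import Fermat.Agent.CFT.H10_SUnitRank
import Fermat.Agent.CFT.H10_KummerEquiv

set_option autoImplicit false

/-!
# CFT / C-EXIST-kummer-count (helper10), part 1: `K_T / K_T ^ p = (ℤ/p)^t`

`K` a number field containing a primitive `p`-th root of unity, `T` a finite set of finite places.
The group of `T`-units modulo `p`-th powers has a basis `b 0, …, b (t-1)`,
`t = Units.rank K + #T + 1`, which is `p`-independent in `K` (`PIndepOn`), so that
`K(K_T^{1/p})` has degree `p ^ t` and Galois group `(ℤ/p)^t` (see `H10_KummerEquiv`).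
-/

namespace Fermat.Agent.CFT.H10

open Module

section Abstract

variable {A : Type*} [AddCommGroup A] [Module.Finite ℤ A]

/-- A f.g. abelian group whose torsion is generated by `a₀` has a "basis modulo torsion". -/
theorem exists_basis_mod_torsion (a₀ : A) (ha₀ : ∃ n : ℤ, n ≠ 0 ∧ n • a₀ = 0)
    (htors : ∀ x : A, (∃ n : ℤ, n ≠ 0 ∧ n • x = 0) → ∃ m : ℤ, x = m • a₀) :
    ∃ a : Fin (finrank ℤ A) → A,
      (∀ x : A, ∃ (m : ℤ) (e : Fin (finrank ℤ A) → ℤ), x = m • a₀ + ∑ i, e i • a i) ∧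
      (∀ (q : ℤ) (m : ℤ) (e : Fin (finrank ℤ A) → ℤ) (y : A),
        m • a₀ + ∑ i, e i • a i = q • y → (∀ i, q ∣ e i) ∧ ∃ z : A, m • a₀ = q • z) := by
  classical
  set Q := A ⧸ Submodule.torsion ℤ A with hQ
  have hfree : Module.Free ℤ Q := inferInstance
  have hrank : finrank ℤ Q = finrank ℤ A := by
    have h1 := Submodule.finrank_quotient_add_finrank (Submodule.torsion ℤ A)
    have h2 : finrank ℤ (Submodule.torsion ℤ A) = 0 := by
      apply Module.finrank_eq_zero_of_rank_eq_zero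
      rw [rank_eq_zero_iff]
      rintro ⟨x, hx⟩
      obtain ⟨n, hn⟩ := (Submodule.mem_torsion_iff x).mp hx
      exact ⟨(n : ℤ), nonZeroDivisors.coe_ne_zero n, Subtype.ext hn⟩
    rw [h2, add_zero] at h1
    exact h1
  let f : Basis (Fin (finrank ℤ A)) ℤ Q := Module.finBasisOfFinrankEq ℤ Q hrank
  have hsurj : Function.Surjective (Submodule.mkQ (Submodule.torsion ℤ A)) :=
    Submodule.mkQ_surjective _
  choose lift hlift using hsurj
  have ha₀' : Submodule.mkQ (Submodule.torsion ℤ A) a₀ = 0 := by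
    rw [Submodule.mkQ_apply, Submodule.Quotient.mk_eq_zero, Submodule.mem_torsion_iff]
    obtain ⟨n, hn0, hn⟩ := ha₀
    exact ⟨⟨n, mem_nonZeroDivisors_of_ne_zero hn0⟩, hn⟩
  refine ⟨fun i => lift (f i), ?_, ?_⟩
  · intro x
    have hx : (Submodule.mkQ (Submodule.torsion ℤ A))
        (x - ∑ i, f.repr (Submodule.mkQ _ x) i • lift (f i)) = 0 := by
      rw [map_sub, map_sum]
      simp only [map_smul, hlift]
      rw [f.sum_repr, sub_self]
    rw [Submodule.mkQ_apply, Submodule.Quotient.mk_eq_zero, Submodule.mem_torsion_iff] at hx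
    obtain ⟨n, hn⟩ := hx
    obtain ⟨m, hm⟩ := htors _ ⟨(n : ℤ), nonZeroDivisors.coe_ne_zero n, hn⟩
    exact ⟨m, fun i => f.repr (Submodule.mkQ _ x) i, by rw [← hm]; abel⟩
  · intro q m e y h
    have h1 := congrArg (Submodule.mkQ (Submodule.torsion ℤ A)) h
    rw [map_add, map_smul, ha₀', smul_zero, zero_add, map_sum, map_smul] at h1
    simp only [map_smul, hlift] at h1
    have h2 : ∀ i, e i = q * f.repr (Submodule.mkQ _ y) i := by
      intro i
      have h3 := congrArg (fun v => (f.repr v : Fin (finrank ℤ A) → ℤ) i) h1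
      simp only [Basis.repr_sum_self, map_smul, Finsupp.smul_apply, smul_eq_mul] at h3
      exact h3
    refine ⟨fun i => ⟨_, h2 i⟩, y - ∑ i, f.repr (Submodule.mkQ _ y) i • lift (f i), ?_⟩
    rw [smul_sub, ← h, Finset.smul_sum]
    have : ∑ i, q • f.repr (Submodule.mkQ _ y) i • lift (f i) = ∑ i, e i • lift (f i) := by
      refine Finset.sum_congr rfl fun i _ => ?_
      rw [h2 i, mul_smul]
    rw [this]
    abel

/-- If moreover `a₀` has order `w` divisible by `p`, then `a₀, a 1, …, a r` is a basis of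
`A / p A`. -/
theorem exists_basis_mod_prime (a₀ : A) (w : ℤ) (hw : w ≠ 0) (hwa : w • a₀ = 0)
    (hord : ∀ m : ℤ, m • a₀ = 0 → w ∣ m)
    (htors : ∀ x : A, (∃ n : ℤ, n ≠ 0 ∧ n • x = 0) → ∃ m : ℤ, x = m • a₀)
    {p : ℤ} (hp0 : p ≠ 0) (hpw : p ∣ w) :
    ∃ a : Fin (finrank ℤ A) → A,
      (∀ x : A, ∃ (m : ℤ) (e : Fin (finrank ℤ A) → ℤ), x = m • a₀ + ∑ i, e i • a i) ∧
      (∀ (m : ℤ) (e : Fin (finrank ℤ A) → ℤ) (y : A),
        m • a₀ + ∑ i, e i • a i = p • y → p ∣ m ∧ ∀ i, p ∣ e i) := by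
  obtain ⟨a, hgen, hind⟩ := exists_basis_mod_torsion a₀ ⟨w, hw, hwa⟩ htors
  refine ⟨a, hgen, fun m e y h => ?_⟩
  obtain ⟨he, z, hz⟩ := hind p m e y h
  refine ⟨?_, he⟩
  -- `z` is torsion
  have hzt : (p * w) • z = 0 := by
    rw [mul_comm, mul_smul, ← hz, smul_comm, hwa, smul_zero]
  obtain ⟨k, hk⟩ := htors z ⟨p * w, mul_ne_zero hp0 hw, hzt⟩
  have h0 : (m - p * k) • a₀ = 0 := by
    rw [sub_smul, mul_smul, ← hk, hz, sub_self]
  have h1 := hord _ h0
  have h2 : p ∣ m - p * k := hpw.trans h1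
  have h3 : p ∣ p * k := dvd_mul_right p k
  exact (dvd_sub_left h3).mp h2 |> fun h => h

end Abstract

section NumberField

open NumberField IsDedekindDomain

variable (K : Type*) [Field K] [NumberField K] (T : Finset (HeightOneSpectrum (𝓞 K)))

/-- a torsion `T`-unit comes from a root of unity of `𝓞 K`. -/
theorem sUnit_torsion (x : Additive ((T : Set (HeightOneSpectrum (𝓞 K))).unit K)) {n : ℤ}
    (hn : n ≠ 0) (hx : n • x = 0) :
    ∃ u : (𝓞 K)ˣ, x = unitsLin K T (Additive.ofMul u) ∧ u ∈ NumberField.Units.torsion K := by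
  have hval : valLin K T x = 0 := by
    have h1 : n • valLin K T x = 0 := by rw [← map_smul, hx, map_zero]
    exact (smul_eq_zero.mp h1).resolve_left hn
  have hmem : x ∈ LinearMap.range (unitsLin K T) := by
    rw [range_unitsLin]
    exact hval
  obtain ⟨a, rfl⟩ := hmem
  refine ⟨Additive.toMul a, rfl, ?_⟩
  have h2 : n • a = 0 := by
    apply unitsLin_injective K T
    rw [map_smul, hx, map_zero]
  unfold NumberField.Units.torsion
  rw [CommGroup.mem_torsion, isOfFinOrder_iff_zpow_eq_one]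
  exact ⟨n, hn, congrArg Additive.toMul h2⟩

/-- the torsion units are generated by one element of order `torsionOrder K`. -/
theorem exists_torsion_generator :
    ∃ g : (𝓞 K)ˣ, g ∈ NumberField.Units.torsion K ∧
      (∀ u ∈ NumberField.Units.torsion K, ∃ m : ℤ, u = g ^ m) ∧
      g ^ (NumberField.Units.torsionOrder K : ℤ) = 1 ∧
      ∀ m : ℤ, g ^ m = 1 → (NumberField.Units.torsionOrder K : ℤ) ∣ m := by
  obtain ⟨⟨g, hg⟩, hgen⟩ := IsCyclic.exists_generator (α := NumberField.Units.torsion K)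
  have hord : orderOf (⟨g, hg⟩ : NumberField.Units.torsion K)
      = NumberField.Units.torsionOrder K :=
    orderOf_eq_card_of_forall_mem_zpowers hgen
  have hord' : orderOf g = NumberField.Units.torsionOrder K := by
    rw [← hord]
    exact (Subgroup.orderOf_mk g hg).symm
  refine ⟨g, hg, fun u hu => ?_, ?_, fun m hm => ?_⟩
  · obtain ⟨m, hm⟩ := Subgroup.mem_zpowers_iff.mp (hgen ⟨u, hu⟩)
    exact ⟨m, by simpa using (congrArg Subtype.val hm).symm⟩
  · rw [← hord', zpow_natCast, pow_orderOf_eq_one]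
  · rw [← hord']
    exact orderOf_dvd_iff_zpow_eq_one.mpr hm

omit [NumberField K] in
/-- `p` divides the number of roots of unity of a field containing a primitive `p`-th root. -/
theorem dvd_torsionOrder {p : ℕ} (hp : p.Prime) {ζ : K} (hζ : IsPrimitiveRoot ζ p) :
    p ∣ NumberField.Units.torsionOrder K := by
  have hne : NeZero p := ⟨hp.ne_zero⟩
  have h1 : IsPrimitiveRoot hζ.toInteger p := hζ.toInteger_isPrimitiveRoot
  have hu : IsUnit hζ.toInteger := h1.isUnit hp.ne_zero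
  have h2 : IsPrimitiveRoot hu.unit p := by
    rw [← IsPrimitiveRoot.coe_units_iff]
    exact h1
  have hmem : hu.unit ∈ NumberField.Units.torsion K := by
    unfold NumberField.Units.torsion
    rw [CommGroup.mem_torsion, isOfFinOrder_iff_pow_eq_one]
    exact ⟨p, hp.pos, h2.pow_eq_one⟩
  have := Subgroup.orderOf_dvd_natCard (NumberField.Units.torsion K) hmem
  rwa [← h2.eq_orderOf] at this

/-- a `p`-th root in `K` of a `T`-unit is a `T`-unit. -/
theorem mem_sUnit_of_pow_mem {p : ℕ} (hp0 : p ≠ 0) {c : Kˣ}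
    (hc : c ^ p ∈ (T : Set (HeightOneSpectrum (𝓞 K))).unit K) :
    c ∈ (T : Set (HeightOneSpectrum (𝓞 K))).unit K := by
  intro v hv
  have h1 := hc v hv
  rw [Units.val_pow_eq_pow_val, map_pow] at h1
  exact (pow_eq_one_iff.mp h1).resolve_right hp0

/-- **`K_T / K_T ^ p = (ℤ/p)^t`**, `t = Units.rank K + #T + 1`, in the form of a `p`-independent
basis. -/
theorem exists_pIndep_sUnit_basis {p : ℕ} (hp : p.Prime) {ζ : K} (hζ : IsPrimitiveRoot ζ p) :
    ∃ b : Fin (NumberField.Units.rank K + T.card + 1) → Kˣ,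
      (∀ i, b i ∈ (T : Set (HeightOneSpectrum (𝓞 K))).unit K) ∧
      PIndepOn p (fun i => ((b i : Kˣ) : K)) Finset.univ ∧
      ∀ u ∈ (T : Set (HeightOneSpectrum (𝓞 K))).unit K,
        ∃ c ∈ (T : Set (HeightOneSpectrum (𝓞 K))).unit K,
          ∃ e : Fin (NumberField.Units.rank K + T.card + 1) → ℕ, u = c ^ p * ∏ i, b i ^ e i := by
  classical
  obtain ⟨g, hg, hgen, hgw, hgord⟩ := exists_torsion_generator K
  set U := (T : Set (HeightOneSpectrum (𝓞 K))).unit K with hU
  set a₀ : Additive U := unitsLin K T (Additive.ofMul g) with ha₀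
  have hw : (NumberField.Units.torsionOrder K : ℤ) ≠ 0 := by
    exact_mod_cast NumberField.Units.torsionOrder_ne_zero K
  have hwa : (NumberField.Units.torsionOrder K : ℤ) • a₀ = 0 := by
    rw [ha₀, ← map_smul, ← ofMul_zpow, hgw, ofMul_one, map_zero]
  have hord : ∀ m : ℤ, m • a₀ = 0 → (NumberField.Units.torsionOrder K : ℤ) ∣ m := by
    intro m hm
    rw [ha₀, ← map_smul, ← ofMul_zpow] at hm
    have h1 : Additive.ofMul (g ^ m) = 0 := unitsLin_injective K T (by rw [hm, map_zero])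
    exact hgord m (congrArg Additive.toMul h1)
  have htors : ∀ x : Additive U, (∃ n : ℤ, n ≠ 0 ∧ n • x = 0) → ∃ m : ℤ, x = m • a₀ := by
    rintro x ⟨n, hn, hx⟩
    obtain ⟨u, rfl, hu⟩ := sUnit_torsion K T x hn hx
    obtain ⟨m, rfl⟩ := hgen u hu
    exact ⟨m, by rw [ha₀, ← map_smul, ← ofMul_zpow]⟩
  have hp0 : (p : ℤ) ≠ 0 := by exact_mod_cast hp.ne_zero
  have hpw : (p : ℤ) ∣ (NumberField.Units.torsionOrder K : ℤ) := by
    exact_mod_cast dvd_torsionOrder K hp hζ
  have key := exists_basis_mod_prime a₀ _ hw hwa hord htors hp0 hpw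
  rw [finrank_sUnit K T] at key
  obtain ⟨a, hgen', hind⟩ := key
  -- the basis in `A = Additive U`
  set aU : Fin (NumberField.Units.rank K + T.card + 1) → Additive U := Fin.cons a₀ a with haU
  refine ⟨fun i => ((Additive.toMul (aU i) : U) : Kˣ), fun i => (Additive.toMul (aU i)).2, ?_, ?_⟩
  · -- independence
    intro e ⟨c, hc⟩ i _
    have hc0 : c ≠ 0 := by
      intro h0
      rw [h0, zero_pow hp.ne_zero, Finset.prod_eq_zero_iff] at hc
      obtain ⟨j, -, hj⟩ := hc
      exact (pow_ne_zero _ (Units.ne_zero _)) hj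
    have hcU : (Units.mk0 c hc0) ^ p = ∏ j, ((Additive.toMul (aU j) : U) : Kˣ) ^ e j := by
      apply Units.ext
      rw [Units.val_pow_eq_pow_val, Units.val_mk0, ← hc, Units.coe_prod]
      simp
    have hprodmem : ∏ j, ((Additive.toMul (aU j) : U) : Kˣ) ^ e j ∈ U :=
      Subgroup.prod_mem _ fun j _ => Subgroup.pow_mem _ (Additive.toMul (aU j)).2 _
    have hcmem : Units.mk0 c hc0 ∈ U := mem_sUnit_of_pow_mem K T hp.ne_zero (hcU ▸ hprodmem)
    have hA : ∑ j, (e j : ℤ) • aU j = (p : ℤ) • Additive.ofMul (⟨Units.mk0 c hc0, hcmem⟩ : U) := by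
      apply Additive.toMul.injective
      apply Subtype.ext
      simp only [toMul_sum, toMul_ofMul, natCast_zsmul, toMul_nsmul]
      rw [Subgroup.coe_pow, hcU]
      simp
    rw [Fin.sum_univ_succ] at hA
    simp only [haU, Fin.cons_zero, Fin.cons_succ] at hA
    obtain ⟨h0, hs⟩ := hind _ _ _ hA
    refine Fin.cases ?_ (fun j => ?_) i
    · exact_mod_cast h0
    · exact_mod_cast hs j
  · -- generation
    intro u hu
    obtain ⟨m, e, hx⟩ := hgen' (Additive.ofMul (⟨u, hu⟩ : U))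
    set E : Fin (NumberField.Units.rank K + T.card + 1) → ℤ := Fin.cons m e with hE
    have hx' : Additive.ofMul (⟨u, hu⟩ : U) = ∑ j, E j • aU j := by
      rw [Fin.sum_univ_succ]
      simp only [hE, haU, Fin.cons_zero, Fin.cons_succ]
      exact hx
    have hsplit : ∀ j, E j • aU j
        = p • ((E j / (p : ℤ)) • aU j) + ((E j % (p : ℤ)).toNat) • aU j := by
      intro j
      have h1 : ((E j % (p : ℤ)).toNat : ℤ) = E j % (p : ℤ) :=
        Int.toNat_of_nonneg (Int.emod_nonneg _ hp0)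
      have h2 : E j = (p : ℤ) * (E j / p) + ((E j % (p : ℤ)).toNat : ℤ) := by
        rw [h1]
        exact (Int.mul_ediv_add_emod _ _).symm
      conv_lhs => rw [h2]
      module
    refine ⟨((Additive.toMul (∑ j, (E j / (p : ℤ)) • aU j) : U) : Kˣ),
      (Additive.toMul (∑ j, (E j / (p : ℤ)) • aU j)).2, fun j => (E j % (p : ℤ)).toNat, ?_⟩
    have hfinal : Additive.ofMul (⟨u, hu⟩ : U)
        = p • (∑ j, (E j / (p : ℤ)) • aU j) + ∑ j, ((E j % (p : ℤ)).toNat) • aU j := by
      rw [hx', Finset.sum_congr rfl fun j _ => hsplit j, Finset.sum_add_distrib]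
      congr 1
      exact (Finset.smul_sum (r := p) (f := fun j => (E j / (p : ℤ)) • aU j)
        (s := Finset.univ)).symm
    have := congrArg (fun y : Additive U => ((Additive.toMul y : U) : Kˣ)) hfinal
    simp only [toMul_ofMul, toMul_add, toMul_nsmul, toMul_sum, Subgroup.coe_mul, Subgroup.coe_pow]
      at this
    rw [this]
    congr 1
    simp

end NumberField

section KummerField

open IntermediateField

variable {K Ω : Type*} [Field K] [Field Ω] [Algebra K Ω] {p : ℕ} {ι : Type*}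

/-- a `p`-th root of a monomial `c ^ p * ∏ b i ^ e i` lies in the Kummer field. -/
theorem root_mem_kummerField_of_eq (hp : p.Prime) {ζ : K} (hζ : IsPrimitiveRoot ζ p)
    (b : ι → K) (β : ι → Ω) (hβ : ∀ i, β i ^ p = algebraMap K Ω (b i)) (s : Finset ι)
    {u : K} (hu0 : u ≠ 0) {c : K} {e : ι → ℕ} (hu : u = c ^ p * ∏ i ∈ s, b i ^ e i)
    {γ : Ω} (hγ : γ ^ p = algebraMap K Ω u) : γ ∈ kummerField K β s := by
  have hδmem : algebraMap K Ω c * ∏ i ∈ s, β i ^ e i ∈ kummerField K β s :=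
    mul_mem ((kummerField K β s).algebraMap_mem c)
      (prod_mem fun i hi => pow_mem (mem_kummerField β hi) _)
  have hγ0 : γ ≠ 0 := by
    rintro rfl
    rw [zero_pow hp.ne_zero] at hγ
    exact hu0 ((algebraMap K Ω).injective (by rw [← hγ, map_zero]))
  refine root_mem_of_pow_eq hp hζ (kummerField K β s)
    (c := ⟨_, hδmem⟩) ?_ hγ0
  rw [hγ, hu, mul_pow, ← Finset.prod_pow, map_mul, map_pow, map_prod]
  congr 1
  refine Finset.prod_congr rfl fun i _ => ?_
  rw [map_pow, ← hβ i, ← pow_mul, ← pow_mul, mul_comm]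

end KummerField

section Main

open NumberField IsDedekindDomain

variable (K : Type*) [Field K] [NumberField K] (T : Finset (HeightOneSpectrum (𝓞 K)))
  {Ω : Type*} [Field Ω] [Algebra K Ω] {p : ℕ} (hp : p.Prime) {ζ : K} (hζ : IsPrimitiveRoot ζ p)
  {t : ℕ} (b : Fin t → Kˣ) (β : Fin t → Ω) (hβ : ∀ i, β i ^ p = algebraMap K Ω (b i))

include hp hζ hβ in
omit [NumberField K] in
/-- `[K(K_T^{1/p}) : K] = p ^ t`. -/
theorem finrank_sUnit_kummerField (hind : PIndepOn p (fun i => ((b i : Kˣ) : K)) Finset.univ) :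
    Module.finrank K (kummerField K β Finset.univ) = p ^ t := by
  have := finrank_kummerField hp hζ (fun i => ((b i : Kˣ) : K)) β hβ (fun i => (b i).ne_zero)
    Finset.univ hind
  rwa [Finset.card_univ, Fintype.card_fin] at this

include hp hζ hβ in
/-- every `p`-th root of a `T`-unit lies in `K(K_T^{1/p})`. -/
theorem root_mem_sUnit_kummerField
    (hgen : ∀ u ∈ (T : Set (HeightOneSpectrum (𝓞 K))).unit K,
      ∃ c ∈ (T : Set (HeightOneSpectrum (𝓞 K))).unit K, ∃ e : Fin t → ℕ,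
        u = c ^ p * ∏ i, b i ^ e i)
    {u : Kˣ} (hu : u ∈ (T : Set (HeightOneSpectrum (𝓞 K))).unit K) {γ : Ω}
    (hγ : γ ^ p = algebraMap K Ω (u : K)) : γ ∈ kummerField K β Finset.univ := by
  obtain ⟨c, -, e, hce⟩ := hgen u hu
  refine root_mem_kummerField_of_eq hp hζ (fun i => ((b i : Kˣ) : K)) β hβ Finset.univ
    u.ne_zero (c := (c : K)) (e := e) ?_ hγ
  rw [hce]
  simp

include hp hζ hβ in
/-- an element of `K` which becomes a `p`-th power in `K(K_T^{1/p})` is a `T`-unit times a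
`p`-th power. -/
theorem exists_sUnit_of_pow_mem_kummerField
    (hbU : ∀ i, b i ∈ (T : Set (HeightOneSpectrum (𝓞 K))).unit K)
    {a : K} (ha : a ≠ 0) {γ : Ω} (hγmem : γ ∈ kummerField K β Finset.univ)
    (hγ : γ ^ p = algebraMap K Ω a) :
    ∃ c : K, ∃ u ∈ (T : Set (HeightOneSpectrum (𝓞 K))).unit K, a = c ^ p * (u : K) := by
  obtain ⟨c, e, hce⟩ := descent hp hζ (fun i => ((b i : Kˣ) : K)) β hβ (fun i => (b i).ne_zero)
    Finset.univ a ha γ hγmem hγ
  refine ⟨c, ∏ i, b i ^ e i, Subgroup.prod_mem _ fun i _ => Subgroup.pow_mem _ (hbU i) _, ?_⟩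
  rw [hce]
  simp

end Main

end Fermat.Agent.CFT.H10
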