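/-
CFT layer C, package C-EXIST (helper51), part (EX1): the index count in the hybrid model.

`T` a finite set of rational primes with `Cl_T(K) = 0` (in the form `divS T K` surjective).  Then
`JS T K → CS T K` is onto with kernel the image of the `T`-units `E_T := (divS T K).ker`, hence
`#(CS T K / p) * #(E_T / p) = #(JS T K / p)` provided a `T`-unit which is a `p`-th power in
`JS T K` is a `p`-th power in `K` (the KEY lemma, see `H51_ExistKey`).
-/
import Fermat.Agent.CFT.H23_CDefs
import Fermat.Agent.CFT.H51_ExistCount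

set_option autoImplicit false

namespace Fermat.Agent.CFT.H51

open scoped TensorProduct NumberField
open IsDedekindDomain Fermat.Agent.CFT.H23 Fermat.Agent.CFT.H42 Fermat.Agent.CFT.H10

noncomputable section

variable (T : Finset Nat.Primes) (K : Type*) [Field K] [NumberField K]

/-- The `T`-units of `K` in the hybrid vocabulary: elements with trivial divisor outside `T`. -/
def unitsS : Subgroup Kˣ := (divS T K).ker

theorem mem_unitsS_iff {x : Kˣ} : x ∈ unitsS T K ↔ divS T K x = 1 := MonoidHom.mem_ker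

/-- `Cl_T(K) = 0`: every divisor prime to `T` is principal. -/
def ClassTrivial : Prop := Function.Surjective (divS T K)

/-- The map `J_T → C_T`, `j ↦ [(j, 0)]`. -/
def jsToCS : JS T K →* CS T K := (toCS T K).comp (MonoidHom.inl (JS T K) (Multiplicative (DivS T K)))

theorem jsToCS_apply (j : JS T K) : jsToCS T K j = toCS T K (j, 1) := rfl

/-- The diagonal embedding of the `T`-units into the `T`-ideles. -/
def diagUnits : unitsS T K →* JS T K := (diagJ T K).comp (unitsS T K).subtype

theorem diagUnits_apply (e : unitsS T K) : diagUnits T K e = diagJ T K (e : Kˣ) := rfl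

theorem diag_of_mem_unitsS {x : Kˣ} (hx : x ∈ unitsS T K) : diag T K x = (diagJ T K x, 1) := by
  refine Prod.ext rfl ?_
  exact (mem_unitsS_iff T K).1 hx

/-- If `Cl_T(K) = 0` then `J_T → C_T` is onto. -/
theorem jsToCS_surjective (hCl : ClassTrivial T K) : Function.Surjective (jsToCS T K) := by
  intro c
  induction c using QuotientGroup.induction_on with
  | H x =>
    obtain ⟨j, D⟩ := x
    obtain ⟨y, hy⟩ := hCl D
    refine ⟨j * (diagJ T K y)⁻¹, ?_⟩
    rw [jsToCS_apply]
    show (QuotientGroup.mk (j * (diagJ T K y)⁻¹, 1) : CS T K) = QuotientGroup.mk (j, D)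
    rw [QuotientGroup.eq]
    refine ⟨y, ?_⟩
    refine Prod.ext ?_ ?_
    · show diagJ T K y = (j * (diagJ T K y)⁻¹)⁻¹ * j
      group
    · show divS T K y = (1 : Multiplicative (DivS T K))⁻¹ * D
      rw [hy, inv_one, one_mul]

/-- The kernel of `J_T → C_T` is the image of the `T`-units. -/
theorem ker_jsToCS : (jsToCS T K).ker = (diagUnits T K).range := by
  ext j
  rw [MonoidHom.mem_ker, jsToCS_apply]
  show (QuotientGroup.mk (j, 1) : CS T K) = 1 ↔ _
  rw [QuotientGroup.eq_one_iff]
  constructor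
  · rintro ⟨x, hx⟩
    have h1 : diagJ T K x = j := congrArg Prod.fst hx
    have h2 : divS T K x = 1 := congrArg Prod.snd hx
    exact ⟨⟨x, (mem_unitsS_iff T K).2 h2⟩, h1⟩
  · rintro ⟨e, rfl⟩
    exact ⟨(e : Kˣ), diag_of_mem_unitsS T K e.2⟩

/-- `Multiplicative (DivS T K)` is torsion free: `D ^ n = 1 → D = 1`. -/
theorem divS_pow_eq_one {n : ℕ} (hn : n ≠ 0) {D : Multiplicative (DivS T K)} (h : D ^ n = 1) :
    D = 1 := by
  have h1 : n • Multiplicative.toAdd D = 0 := by
    have := congrArg Multiplicative.toAdd h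
    simpa using this
  have h2 : Multiplicative.toAdd D = 0 := by
    ext v
    have h3 := DFunLike.congr_fun h1 v
    simp only [Finsupp.smul_apply, Finsupp.zero_apply, smul_eq_mul, nsmul_eq_mul] at h3
    rcases mul_eq_zero.1 h3 with h4 | h4
    · exact absurd (by exact_mod_cast h4) hn
    · simpa using h4
  exact congrArg Multiplicative.ofAdd h2

/-- An `n`-th root of a `T`-unit is a `T`-unit. -/
theorem mem_unitsS_of_pow_mem {n : ℕ} (hn : n ≠ 0) {x : Kˣ} (hx : x ^ n ∈ unitsS T K) :
    x ∈ unitsS T K := by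
  rw [mem_unitsS_iff] at hx ⊢
  rw [map_pow] at hx
  exact divS_pow_eq_one T K hn hx

/-- **(EX1)** The index count in the hybrid model: if `Cl_T(K) = 0` and every `T`-unit which is a
`p`-th power in `J_T` is a `p`-th power in `K`, then
`#(C_T / p) * #(E_T / p) = #(J_T / p)`. -/
theorem card_CS_quot_pow_mul (hCl : ClassTrivial T K) {p : ℕ} (hp : p ≠ 0)
    (hkey : ∀ ε : Kˣ, ε ∈ unitsS T K → diagJ T K ε ∈ powSubgroup (JS T K) p →
      ∃ η : Kˣ, η ^ p = ε) :
    Nat.card (CS T K ⧸ powSubgroup (CS T K) p) *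
        Nat.card (unitsS T K ⧸ powSubgroup (unitsS T K) p) =
      Nat.card (JS T K ⧸ powSubgroup (JS T K) p) := by
  refine card_quot_pow_mul (diagUnits T K) (jsToCS T K) (jsToCS_surjective T K hCl)
    (ker_jsToCS T K) p ?_
  intro e he
  obtain ⟨η, hη⟩ := hkey (e : Kˣ) e.2 he
  have hmem : η ∈ unitsS T K := mem_unitsS_of_pow_mem T K hp (by rw [hη]; exact e.2)
  exact ⟨⟨η, hmem⟩, Subtype.ext hη⟩

/-- Finiteness of `C_T / p` from that of `J_T / p` when `Cl_T(K) = 0`. -/
theorem finite_CS_quot_pow (hCl : ClassTrivial T K) (p : ℕ)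
    [Finite (JS T K ⧸ powSubgroup (JS T K) p)] : Finite (CS T K ⧸ powSubgroup (CS T K) p) :=
  finite_quot_pow_of_surjective (jsToCS T K) (jsToCS_surjective T K hCl) p

end

end Fermat.Agent.CFT.H51
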