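import Mathlib
import Fermat.Agent.CFT.H10_SUnitKummer
import Fermat.Agent.CFT.H51_ExistHybrid
import Fermat.Agent.CFT.H63_FirstIneqHybrid

set_option autoImplicit false

/-!
# CFT / C-EXIST (a) (helper10): `#(E_T / E_T ^ p) = p ^ (r + #T_K + 1)`

`K` a number field containing a primitive `p`-th root of unity, `T` a finite set of rational
primes, `E_T = H51.unitsS T K = (divS T K).ker` the `T`-units in the hybrid vocabulary.

* `card_quot_pow_of_basis` : generic count for a commutative group with a "basis modulo `p`";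
* `unitsS_eq_sUnit` : `unitsS T K = (T_K).unit K` (Mathlib's `S`-units), `T_K` the primes of `K`
  above `T` (helper63's `primesAboveS`);
* `card_unitsS_quot_pow` : the count.
-/

namespace Fermat.Agent.CFT.H10

open scoped NumberField
open IsDedekindDomain Fermat.Agent.CFT.H23 Fermat.Agent.CFT.H51 Fermat.Agent.CFT.H63

section Abstract

variable {G : Type*} [CommGroup G]

theorem pow_eq_one_quot_powSubgroup (p : ℕ) (x : G ⧸ powSubgroup G p) : x ^ p = 1 := by
  induction x using QuotientGroup.induction_on with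
  | H g =>
    rw [← QuotientGroup.mk_pow, QuotientGroup.eq_one_iff]
    exact ⟨g, rfl⟩

/-- A commutative group with a "basis modulo `p`-th powers" of cardinality `t` has
`#(G / G ^ p) = p ^ t`. -/
theorem card_quot_pow_of_basis {p t : ℕ} (hp : p.Prime) (b : Fin t → G)
    (hgen : ∀ u : G, ∃ c : G, ∃ e : Fin t → ℕ, u = c ^ p * ∏ i, b i ^ e i)
    (hind : ∀ e : Fin t → ℕ, (∃ c : G, ∏ i, b i ^ e i = c ^ p) → ∀ i, p ∣ e i) :
    Nat.card (G ⧸ powSubgroup G p) = p ^ t := by
  have : Fact p.Prime := ⟨hp⟩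
  have : NeZero p := ⟨hp.ne_zero⟩
  set Q := G ⧸ powSubgroup G p with hQ
  have hQp : ∀ x : Q, x ^ p = 1 := pow_eq_one_quot_powSubgroup p
  let f : (Fin t → ZMod p) → Q := fun e => ∏ i, (QuotientGroup.mk (b i) : Q) ^ (e i).val
  have hf : Function.Bijective f := by
    constructor
    · intro e e' hee'
      -- the difference is a `p`-th power
      have h1 : (QuotientGroup.mk (∏ i, b i ^ ((e i).val + (p - 1) * (e' i).val)) : Q) = 1 := by
        rw [QuotientGroup.mk_prod]
        have h2 : ∀ i, (QuotientGroup.mk (b i ^ ((e i).val + (p - 1) * (e' i).val)) : Q)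
            = (QuotientGroup.mk (b i) : Q) ^ (e i).val *
              ((QuotientGroup.mk (b i) : Q) ^ (e' i).val) ^ (p - 1) := by
          intro i
          rw [QuotientGroup.mk_pow, pow_add, ← pow_mul, mul_comm (p - 1)]
        rw [Finset.prod_congr rfl fun i _ => h2 i, Finset.prod_mul_distrib, Finset.prod_pow]
        change f e * (f e') ^ (p - 1) = 1
        rw [hee', ← pow_succ', Nat.sub_add_cancel hp.one_le, hQp]
      rw [QuotientGroup.eq_one_iff] at h1
      obtain ⟨c, hc⟩ := h1
      have h3 := hind _ ⟨c, hc.symm⟩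
      funext i
      have h4 : (((e i).val + (p - 1) * (e' i).val : ℕ) : ZMod p) = 0 :=
        (ZMod.natCast_eq_zero_iff _ _).2 (h3 i)
      simp only [Nat.cast_add, Nat.cast_mul, Nat.cast_sub hp.one_le, ZMod.natCast_val,
        ZMod.cast_id', id_eq, Nat.cast_one, ZMod.natCast_self, zero_sub] at h4
      linear_combination h4
    · intro x
      induction x using QuotientGroup.induction_on with
      | H u =>
        obtain ⟨c, e, rfl⟩ := hgen u
        refine ⟨fun i => (e i : ZMod p), ?_⟩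
        show ∏ i, (QuotientGroup.mk (b i) : Q) ^ ((e i : ZMod p)).val = _
        rw [QuotientGroup.mk_mul, QuotientGroup.mk_pow, hQp, one_mul, QuotientGroup.mk_prod]
        refine Finset.prod_congr rfl fun i _ => ?_
        rw [QuotientGroup.mk_pow, ZMod.val_natCast]
        exact (pow_eq_pow_mod _ (hQp _)).symm
  rw [← Nat.card_congr (Equiv.ofBijective f hf), Nat.card_fun, Nat.card_zmod, Nat.card_fin]

end Abstract

section Bridge

variable (T : Finset Nat.Primes) (K : Type*) [Field K] [NumberField K]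

/-- membership in the hybrid `T`-units, place by place. -/
theorem mem_unitsS_iff_forall (x : Kˣ) :
    x ∈ unitsS T K ↔
      ∀ v : HeightOneSpectrum (𝓞 K), v ∉ primesAboveS T K → v.valuation K (x : K) = 1 := by
  rw [mem_unitsS_iff]
  constructor
  · intro h v hv
    have hv' : ∀ q ∈ T, ((q : ℕ) : 𝓞 K) ∉ v.asIdeal := fun q hq hqv => hv ⟨q, hq, hqv⟩
    have h1 : Multiplicative.toAdd (divS T K x) ⟨v, hv'⟩ = 0 := by rw [h]; rfl
    rw [divS_apply, ordAt_apply] at h1
    have h2 : (ordHom K v x)⁻¹ = 1 := h1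
    rw [inv_eq_one] at h2
    exact (ordHom_eq_one_iff K v x).1 h2
  · intro h
    apply Multiplicative.toAdd.injective
    ext v
    rw [divS_apply, ordAt_apply]
    have hv : v.1 ∉ primesAboveS T K := fun ⟨q, hq, hqv⟩ => v.2 q hq hqv
    have h2 := (ordHom_eq_one_iff K v.1 x).2 (h v.1 hv)
    rw [h2]
    rfl

/-- The hybrid `T`-units are Mathlib's `T_K`-units, `T_K` the primes of `K` above `T`. -/
theorem unitsS_eq_sUnit (TK : Finset (HeightOneSpectrum (𝓞 K)))
    (hTK : ∀ u, u ∈ TK ↔ u ∈ primesAboveS T K) :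
    unitsS T K = (TK : Set (HeightOneSpectrum (𝓞 K))).unit K := by
  ext x
  rw [mem_unitsS_iff_forall]
  show _ ↔ ∀ (v) (_ : v ∉ (TK : Set (HeightOneSpectrum (𝓞 K)))), v.valuation K (x : K) = 1
  constructor
  · intro h v hv
    exact h v fun hv' => hv (Finset.mem_coe.2 ((hTK v).2 hv'))
  · intro h v hv
    exact h v fun hv' => hv ((hTK v).1 (Finset.mem_coe.1 hv'))

/-- **(a)** `#(E_T / E_T ^ p) = p ^ (r + #T_K + 1)` when `μ_p ⊆ K`. -/
theorem card_unitsS_quot_pow {p : ℕ} (hp : p.Prime) {ζ : K} (hζ : IsPrimitiveRoot ζ p)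
    (TK : Finset (HeightOneSpectrum (𝓞 K))) (hTK : ∀ u, u ∈ TK ↔ u ∈ primesAboveS T K) :
    Nat.card (unitsS T K ⧸ powSubgroup (unitsS T K) p) =
      p ^ (NumberField.Units.rank K + TK.card + 1) := by
  classical
  obtain ⟨b, hb, hind, hgen⟩ := exists_pIndep_sUnit_basis K TK hp hζ
  have hE := unitsS_eq_sUnit T K TK hTK
  have hbE : ∀ i, b i ∈ unitsS T K := fun i => hE ▸ hb i
  refine card_quot_pow_of_basis hp (fun i => (⟨b i, hbE i⟩ : unitsS T K)) ?_ ?_
  · intro u
    obtain ⟨c, hc, e, hu⟩ := hgen (u : Kˣ) (hE ▸ u.2)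
    refine ⟨⟨c, hE ▸ hc⟩, e, Subtype.ext ?_⟩
    rw [hu]
    simp
  · rintro e ⟨c, hc⟩ i
    refine hind e ⟨((c : Kˣ) : K), ?_⟩ i (Finset.mem_univ i)
    have h1 := congrArg (fun y : unitsS T K => ((y : Kˣ) : K)) hc
    simpa using h1

end Bridge

end Fermat.Agent.CFT.H10
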