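import Mathlib

set_option autoImplicit false
set_option linter.unusedSectionVars false

/-!
# Ray class groups (ideal theoretic, finite modulus)

For a number field `K` and an integral ideal `𝔪`, the ray class group modulo `𝔪` is defined as the
quotient of the monoid of nonzero integral ideals coprime to `𝔪` by the congruence
`I ∼ J ↔ ∃ a b, a ≡ b mod 𝔪, a prime to 𝔪, (a) I = (b) J`.
It is a finite commutative group.
-/

open NumberField Ideal
open scoped nonZeroDivisors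

noncomputable section

namespace Fermat.Agent.CFT.H34

variable (K : Type*) [Field K] [NumberField K] (𝔪 : Ideal (𝓞 K))

/-- nonzero integral ideals coprime to `𝔪` -/
def coprimeIdeals : Submonoid (Ideal (𝓞 K))⁰ where
  carrier := {I | IsCoprime (I : Ideal (𝓞 K)) 𝔪}
  mul_mem' := fun {a b} ha hb => by
    show IsCoprime ((a * b : (Ideal (𝓞 K))⁰) : Ideal (𝓞 K)) 𝔪
    rw [Submonoid.coe_mul]
    exact IsCoprime.mul_left ha hb
  one_mem' := by
    show IsCoprime ((1 : (Ideal (𝓞 K))⁰) : Ideal (𝓞 K)) 𝔪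
    rw [Submonoid.coe_one]
    exact isCoprime_one_left

variable {K} in
/-- `a` is nonzero and invertible modulo `𝔪` -/
def IsRayUnit (a : 𝓞 K) : Prop :=
  a ≠ 0 ∧ IsCoprime (Ideal.span ({a} : Set (𝓞 K))) 𝔪

variable {K 𝔪}

theorem mem_coprimeIdeals {I : (Ideal (𝓞 K))⁰} :
    I ∈ coprimeIdeals K 𝔪 ↔ IsCoprime (I : Ideal (𝓞 K)) 𝔪 := Iff.rfl

/-- the underlying ideal -/
abbrev coprimeIdeals.ideal (I : coprimeIdeals K 𝔪) : Ideal (𝓞 K) := ((I : (Ideal (𝓞 K))⁰) : Ideal (𝓞 K))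


theorem IsRayUnit.mul {a b : 𝓞 K} (ha : IsRayUnit 𝔪 a) (hb : IsRayUnit 𝔪 b) :
    IsRayUnit 𝔪 (a * b) := by
  refine ⟨mul_ne_zero ha.1 hb.1, ?_⟩
  rw [← Ideal.span_singleton_mul_span_singleton]
  exact IsCoprime.mul_left ha.2 hb.2

theorem isRayUnit_one : IsRayUnit 𝔪 (1 : 𝓞 K) :=
  ⟨one_ne_zero, by
    show IsCoprime (Ideal.span ({1} : Set (𝓞 K))) 𝔪
    rw [Ideal.span_singleton_one, ← Ideal.one_eq_top]; exact isCoprime_one_left⟩

/-- coprimality to `𝔪` only depends on the class mod `𝔪` -/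
theorem isCoprime_span_of_sub_mem {a b : 𝓞 K} (h : a - b ∈ 𝔪)
    (ha : IsCoprime (span {a}) 𝔪) : IsCoprime (span {b}) 𝔪 := by
  rw [Ideal.isCoprime_iff_exists] at ha ⊢
  obtain ⟨x, hx, y, hy, hxy⟩ := ha
  obtain ⟨c, rfl⟩ := Ideal.mem_span_singleton'.mp hx
  refine ⟨c * b, Ideal.mem_span_singleton'.mpr ⟨c, rfl⟩, c * (a - b) + y,
    𝔪.add_mem (𝔪.mul_mem_left c h) hy, ?_⟩
  rw [← hxy]; ring

theorem IsRayUnit.of_sub_mem {a b : 𝓞 K} (ha : IsRayUnit 𝔪 a) (hb : b ≠ 0) (h : a - b ∈ 𝔪) :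
    IsRayUnit 𝔪 b := ⟨hb, isCoprime_span_of_sub_mem h ha.2⟩

variable (K 𝔪) in
/-- the ray equivalence relation on ideals coprime to `𝔪` -/
def rayRel (I J : coprimeIdeals K 𝔪) : Prop :=
  ∃ a b : 𝓞 K, IsRayUnit 𝔪 a ∧ IsRayUnit 𝔪 b ∧ a - b ∈ 𝔪 ∧
    span {a} * coprimeIdeals.ideal I = span {b} * coprimeIdeals.ideal J

theorem rayRel_refl (I : coprimeIdeals K 𝔪) : rayRel K 𝔪 I I :=
  ⟨1, 1, isRayUnit_one, isRayUnit_one, by simp, rfl⟩

theorem rayRel_symm {I J : coprimeIdeals K 𝔪} (h : rayRel K 𝔪 I J) : rayRel K 𝔪 J I := by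
  obtain ⟨a, b, ha, hb, hab, h⟩ := h
  refine ⟨b, a, hb, ha, ?_, h.symm⟩
  rw [← neg_sub]; exact 𝔪.neg_mem hab

theorem rayRel_trans {I J L : coprimeIdeals K 𝔪} (h1 : rayRel K 𝔪 I J) (h2 : rayRel K 𝔪 J L) :
    rayRel K 𝔪 I L := by
  obtain ⟨a, b, ha, hb, hab, h⟩ := h1
  obtain ⟨c, d, hc, hd, hcd, h'⟩ := h2
  refine ⟨a * c, b * d, ha.mul hc, hb.mul hd, ?_, ?_⟩
  · have : a * c - b * d = c * (a - b) + b * (c - d) := by ring
    rw [this]
    exact 𝔪.add_mem (𝔪.mul_mem_left c hab) (𝔪.mul_mem_left b hcd)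
  · rw [← Ideal.span_singleton_mul_span_singleton, ← Ideal.span_singleton_mul_span_singleton]
    calc span {a} * span {c} * coprimeIdeals.ideal I
        = span {c} * (span {a} * coprimeIdeals.ideal I) := by ring
      _ = span {c} * (span {b} * coprimeIdeals.ideal J) := by rw [h]
      _ = span {b} * (span {c} * coprimeIdeals.ideal J) := by ring
      _ = span {b} * (span {d} * coprimeIdeals.ideal L) := by rw [h']
      _ = span {b} * span {d} * coprimeIdeals.ideal L := by ring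

theorem rayRel_mul {I J I' J' : coprimeIdeals K 𝔪} (h1 : rayRel K 𝔪 I J)
    (h2 : rayRel K 𝔪 I' J') : rayRel K 𝔪 (I * I') (J * J') := by
  obtain ⟨a, b, ha, hb, hab, h⟩ := h1
  obtain ⟨c, d, hc, hd, hcd, h'⟩ := h2
  refine ⟨a * c, b * d, ha.mul hc, hb.mul hd, ?_, ?_⟩
  · have : a * c - b * d = c * (a - b) + b * (c - d) := by ring
    rw [this]
    exact 𝔪.add_mem (𝔪.mul_mem_left c hab) (𝔪.mul_mem_left b hcd)
  · rw [← Ideal.span_singleton_mul_span_singleton, ← Ideal.span_singleton_mul_span_singleton]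
    have e1 : coprimeIdeals.ideal (I * I') = coprimeIdeals.ideal I * coprimeIdeals.ideal I' := rfl
    have e2 : coprimeIdeals.ideal (J * J') = coprimeIdeals.ideal J * coprimeIdeals.ideal J' := rfl
    rw [e1, e2]
    calc span {a} * span {c} * (coprimeIdeals.ideal I * coprimeIdeals.ideal I')
        = (span {a} * coprimeIdeals.ideal I) * (span {c} * coprimeIdeals.ideal I') := by ring
      _ = (span {b} * coprimeIdeals.ideal J) * (span {d} * coprimeIdeals.ideal J') := by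
          rw [h, h']
      _ = span {b} * span {d} * (coprimeIdeals.ideal J * coprimeIdeals.ideal J') := by ring

variable (K 𝔪) in
/-- the ray congruence -/
def rayCon : Con (coprimeIdeals K 𝔪) where
  r := rayRel K 𝔪
  iseqv := ⟨rayRel_refl, rayRel_symm, rayRel_trans⟩
  mul' := rayRel_mul

variable (K 𝔪) in
/-- **The ray class group modulo `𝔪`** (as a commutative monoid; it is a finite group). -/
abbrev RayClassGroup : Type _ := (rayCon K 𝔪).Quotient

/-- the class of an ideal coprime to `𝔪` -/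
def rayClass : coprimeIdeals K 𝔪 →* RayClassGroup K 𝔪 := (rayCon K 𝔪).mk'

theorem rayClass_surjective : Function.Surjective (rayClass (K := K) (𝔪 := 𝔪)) :=
  Con.mk'_surjective

theorem rayClass_eq_iff {I J : coprimeIdeals K 𝔪} :
    rayClass I = rayClass J ↔ rayRel K 𝔪 I J := by
  show ((I : (rayCon K 𝔪).Quotient) = J) ↔ _
  rw [Con.eq]; rfl

/-- an ideal coprime to `𝔪` contains a nonzero element congruent to `1` modulo `𝔪` -/
theorem exists_mem_sub_one_mem (I : coprimeIdeals K 𝔪) :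
    ∃ a : 𝓞 K, a ∈ coprimeIdeals.ideal I ∧ a ≠ 0 ∧ a - 1 ∈ 𝔪 := by
  have hI : IsCoprime (coprimeIdeals.ideal I) 𝔪 := I.2
  obtain ⟨x, hx, y, hy, hxy⟩ := Ideal.isCoprime_iff_exists.mp hI
  by_cases hx0 : x = 0
  · -- then `𝔪 = ⊤`
    have hy1 : y = 1 := by rw [← hxy, hx0, zero_add]
    have htop : 𝔪 = ⊤ := (Ideal.eq_top_iff_one 𝔪).mpr (hy1 ▸ hy)
    have hne : coprimeIdeals.ideal I ≠ ⊥ := by
      have := (I : (Ideal (𝓞 K))⁰).2
      exact nonZeroDivisors.ne_zero this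
    obtain ⟨a, ha, ha0⟩ := Submodule.exists_mem_ne_zero_of_ne_bot hne
    exact ⟨a, ha, ha0, by rw [htop]; exact Submodule.mem_top⟩
  · refine ⟨x, hx, hx0, ?_⟩
    have : x - 1 = -y := by rw [← hxy]; ring
    rw [this]; exact 𝔪.neg_mem hy

/-- a nonzero element congruent to `1` mod `𝔪` is a ray unit -/
theorem isRayUnit_of_sub_one_mem {a : 𝓞 K} (ha0 : a ≠ 0) (ha : a - 1 ∈ 𝔪) : IsRayUnit 𝔪 a := by
  refine (isRayUnit_one (𝔪 := 𝔪)).of_sub_mem ha0 ?_
  rw [← neg_sub]; exact 𝔪.neg_mem ha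

/-- the principal ideal generated by a ray unit, as an element of `coprimeIdeals` -/
def principalCoprime (a : 𝓞 K) (ha : IsRayUnit 𝔪 a) : coprimeIdeals K 𝔪 :=
  ⟨⟨span {a}, mem_nonZeroDivisors_of_ne_zero (by
      rw [Ne, Ideal.zero_eq_bot, Ideal.span_singleton_eq_bot]; exact ha.1)⟩, ha.2⟩

@[simp] theorem principalCoprime_ideal (a : 𝓞 K) (ha : IsRayUnit 𝔪 a) :
    coprimeIdeals.ideal (principalCoprime a ha) = span {a} := rfl

/-- principal ideals generated by elements `≡ 1 mod 𝔪` are trivial in the ray class group -/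
theorem rayClass_principal_eq_one {a : 𝓞 K} (ha0 : a ≠ 0) (ha : a - 1 ∈ 𝔪) :
    rayClass (principalCoprime a (isRayUnit_of_sub_one_mem ha0 ha)) = 1 := by
  rw [← map_one (rayClass (K := K) (𝔪 := 𝔪)), rayClass_eq_iff]
  refine ⟨1, a, isRayUnit_one, isRayUnit_of_sub_one_mem ha0 ha, ?_, ?_⟩
  · rw [← neg_sub]; exact 𝔪.neg_mem ha
  · rw [principalCoprime_ideal]
    show span {1} * span {a} = span {a} * ((1 : (Ideal (𝓞 K))⁰) : Ideal (𝓞 K))
    rw [Submonoid.coe_one, mul_comm, Ideal.span_singleton_one, Ideal.one_eq_top]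

/-- the class of a principal ideal generated by a ray unit only depends on the generator
mod `𝔪` -/
theorem rayClass_principal_congr {a b : 𝓞 K} (ha : IsRayUnit 𝔪 a) (hb : IsRayUnit 𝔪 b)
    (hab : a - b ∈ 𝔪) : rayClass (principalCoprime a ha) = rayClass (principalCoprime b hb) := by
  rw [rayClass_eq_iff]
  refine ⟨b, a, hb, ha, ?_, ?_⟩
  · rw [← neg_sub]; exact 𝔪.neg_mem hab
  · rw [principalCoprime_ideal, principalCoprime_ideal, mul_comm]

/-- every ray class is invertible -/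
theorem exists_mul_rayClass_eq_one (I : coprimeIdeals K 𝔪) :
    ∃ J : coprimeIdeals K 𝔪, rayClass (I * J) = 1 := by
  obtain ⟨a, haI, ha0, ha⟩ := exists_mem_sub_one_mem I
  have hdvd : coprimeIdeals.ideal I ∣ span {a} := by
    rw [Ideal.dvd_iff_le, Ideal.span_singleton_le_iff_mem]; exact haI
  obtain ⟨J, hJ⟩ := hdvd
  have hau : IsRayUnit 𝔪 a := isRayUnit_of_sub_one_mem ha0 ha
  have hJ0 : J ≠ ⊥ := by
    rintro rfl
    rw [Ideal.mul_bot, Ideal.span_singleton_eq_bot] at hJ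
    exact ha0 hJ
  have hJc : IsCoprime J 𝔪 := by
    have h := hau.2
    rw [hJ] at h
    exact IsCoprime.of_mul_left_right h
  refine ⟨⟨⟨J, mem_nonZeroDivisors_of_ne_zero hJ0⟩, hJc⟩, ?_⟩
  have : I * ⟨⟨J, mem_nonZeroDivisors_of_ne_zero hJ0⟩, hJc⟩ = principalCoprime a hau := by
    apply Subtype.ext; apply Subtype.ext
    show coprimeIdeals.ideal I * J = span {a}
    exact hJ.symm
  rw [this]
  exact rayClass_principal_eq_one ha0 ha

theorem isUnit_rayClassGroup (x : RayClassGroup K 𝔪) : IsUnit x := by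
  obtain ⟨I, rfl⟩ := rayClass_surjective x
  obtain ⟨J, hJ⟩ := exists_mul_rayClass_eq_one I
  rw [map_mul] at hJ
  exact IsUnit.of_mul_eq_one _ hJ

instance : CommGroup (RayClassGroup K 𝔪) := commGroupOfIsUnit isUnit_rayClassGroup

/-- multiplication by an element coprime to `𝔪` can be cancelled modulo `𝔪` -/
theorem mem_of_mul_mem_of_isCoprime {a t : 𝓞 K} (ha : IsCoprime (span {a}) 𝔪)
    (h : a * t ∈ 𝔪) : t ∈ 𝔪 := by
  obtain ⟨x, hx, y, hy, hxy⟩ := Ideal.isCoprime_iff_exists.mp ha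
  obtain ⟨c, rfl⟩ := Ideal.mem_span_singleton'.mp hx
  have : t = c * (a * t) + y * t := by
    calc t = (c * a + y) * t := by rw [hxy, one_mul]
      _ = c * (a * t) + y * t := by ring
  rw [this]
  exact 𝔪.add_mem (𝔪.mul_mem_left c h) (𝔪.mul_mem_right t hy)

theorem rayClass_eq_one_iff (J : coprimeIdeals K 𝔪) :
    rayClass J = 1 ↔ ∃ γ : 𝓞 K, γ ≠ 0 ∧ γ - 1 ∈ 𝔪 ∧ coprimeIdeals.ideal J = span {γ} := by
  constructor
  · intro h
    rw [← map_one (rayClass (K := K) (𝔪 := 𝔪)), rayClass_eq_iff] at h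
    obtain ⟨a, b, ha, hb, hab, h⟩ := h
    have h1 : coprimeIdeals.ideal (1 : coprimeIdeals K 𝔪) = ⊤ := by
      show ((1 : (Ideal (𝓞 K))⁰) : Ideal (𝓞 K)) = ⊤
      rw [Submonoid.coe_one, Ideal.one_eq_top]
    rw [h1, Ideal.mul_top] at h
    -- `b ∈ (a) J ⊆ (a)`
    have hb' : b ∈ span ({a} : Set (𝓞 K)) := by
      have h2 : b ∈ span ({a} : Set (𝓞 K)) * coprimeIdeals.ideal J := by
        rw [h]; exact Ideal.mem_span_singleton_self b
      have h3 : span ({a} : Set (𝓞 K)) * coprimeIdeals.ideal J ≤ span ({a} : Set (𝓞 K)) :=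
        Ideal.mul_le_left
      exact h3 h2
    obtain ⟨γ, hγ⟩ := Ideal.mem_span_singleton'.mp hb'
    -- hγ : γ * a = b
    have hγ0 : γ ≠ 0 := by
      rintro rfl
      rw [zero_mul] at hγ
      exact hb.1 hγ.symm
    refine ⟨γ, hγ0, ?_, ?_⟩
    · apply mem_of_mul_mem_of_isCoprime ha.2
      have : a * (γ - 1) = -(a - b) := by rw [← hγ]; ring
      rw [this]; exact 𝔪.neg_mem hab
    · have ha0 : span ({a} : Set (𝓞 K)) ≠ 0 := by
        rw [Ne, Ideal.zero_eq_bot, Ideal.span_singleton_eq_bot]; exact ha.1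
      apply mul_left_cancel₀ ha0
      rw [h, Ideal.span_singleton_mul_span_singleton, ← hγ, mul_comm]
  · rintro ⟨γ, hγ0, hγ, hJ⟩
    have : J = principalCoprime γ (isRayUnit_of_sub_one_mem hγ0 hγ) := by
      apply Subtype.ext; apply Subtype.ext
      exact hJ
    rw [this]
    exact rayClass_principal_eq_one hγ0 hγ

end Fermat.Agent.CFT.H34
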