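import Mathlib
import Fermat.Agent.CFT.H34_RayClass

set_option autoImplicit false
set_option linter.unusedSectionVars false

/-!
# Finiteness of the ray class group and the class map on all nonzero ideals
-/

open NumberField Ideal IsDedekindDomain
open scoped nonZeroDivisors

noncomputable section

namespace Fermat.Agent.CFT.H34

variable {K : Type*} [Field K] [NumberField K] {𝔪 : Ideal (𝓞 K)}

variable (K 𝔪) in
/-- the ideal class of an ideal prime to `𝔪` -/
def coprimeToClassGroup : coprimeIdeals K 𝔪 →* ClassGroup (𝓞 K) :=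
  (ClassGroup.mk0 (R := 𝓞 K)).comp (coprimeIdeals K 𝔪).subtype

theorem coprimeToClassGroup_apply (I : coprimeIdeals K 𝔪) :
    coprimeToClassGroup K 𝔪 I = ClassGroup.mk0 (I : (Ideal (𝓞 K))⁰) := rfl

variable (K 𝔪) in
/-- the canonical map from the ray class group to the class group -/
def rayToClassGroup : RayClassGroup K 𝔪 →* ClassGroup (𝓞 K) :=
  (rayCon K 𝔪).lift (coprimeToClassGroup K 𝔪) (by
    intro I J h
    obtain ⟨a, b, ha, hb, _, h⟩ := h
    show coprimeToClassGroup K 𝔪 I = coprimeToClassGroup K 𝔪 J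
    rw [coprimeToClassGroup_apply, coprimeToClassGroup_apply, ClassGroup.mk0_eq_mk0_iff]
    exact ⟨a, b, ha.1, hb.1, h⟩)

theorem rayToClassGroup_rayClass (I : coprimeIdeals K 𝔪) :
    rayToClassGroup K 𝔪 (rayClass I) = ClassGroup.mk0 (I : (Ideal (𝓞 K))⁰) := rfl

open scoped Classical in
variable (K 𝔪) in
/-- the class of the principal ideal generated by a lift of a residue class -/
def residueToRay (r : 𝓞 K ⧸ 𝔪) : RayClassGroup K 𝔪 :=
  if h : ∃ d : 𝓞 K, IsRayUnit 𝔪 d ∧ Ideal.Quotient.mk 𝔪 d = r then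
    rayClass (principalCoprime h.choose h.choose_spec.1) else 1

theorem residueToRay_mk {d : 𝓞 K} (hd : IsRayUnit 𝔪 d) :
    residueToRay K 𝔪 (Ideal.Quotient.mk 𝔪 d) = rayClass (principalCoprime d hd) := by
  have h : ∃ d' : 𝓞 K, IsRayUnit 𝔪 d' ∧ Ideal.Quotient.mk 𝔪 d' = Ideal.Quotient.mk 𝔪 d :=
    ⟨d, hd, rfl⟩
  unfold residueToRay
  rw [dif_pos h]
  exact rayClass_principal_congr _ _ (Ideal.Quotient.eq.mp h.choose_spec.2)

theorem ker_rayToClassGroup_subset :
    ((rayToClassGroup K 𝔪).ker : Set (RayClassGroup K 𝔪)) ⊆ Set.range (residueToRay K 𝔪) := by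
  intro x hx
  obtain ⟨I, rfl⟩ := rayClass_surjective x
  have h1 : rayToClassGroup K 𝔪 (rayClass I) = 1 := hx
  rw [rayToClassGroup_rayClass] at h1
  have h2 : (coprimeIdeals.ideal I).IsPrincipal :=
    (ClassGroup.mk0_eq_one_iff (I : (Ideal (𝓞 K))⁰).2).mp h1
  obtain ⟨d, hd⟩ := h2
  have hd' : coprimeIdeals.ideal I = span {d} := hd
  have hd0 : d ≠ 0 := by
    rintro rfl
    have h0 : coprimeIdeals.ideal I ≠ 0 := nonZeroDivisors.ne_zero (I : (Ideal (𝓞 K))⁰).2
    apply h0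
    rw [hd', Ideal.zero_eq_bot, Ideal.span_singleton_eq_bot]
  have hdu : IsRayUnit 𝔪 d := ⟨hd0, by rw [← hd']; exact I.2⟩
  refine ⟨Ideal.Quotient.mk 𝔪 d, ?_⟩
  rw [residueToRay_mk hdu]
  congr 1
  apply Subtype.ext; apply Subtype.ext
  exact hd'.symm

/-- **the ray class group is finite** -/
theorem finite_rayClassGroup (h𝔪 : 𝔪 ≠ ⊥) : Finite (RayClassGroup K 𝔪) := by
  have : Finite (𝓞 K ⧸ 𝔪) := Ideal.finiteQuotientOfFreeOfNeBot 𝔪 h𝔪
  rw [(rayToClassGroup K 𝔪).finite_iff_finite_ker_range]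
  refine ⟨?_, inferInstance⟩
  exact ((Set.finite_range (residueToRay K 𝔪)).subset ker_rayToClassGroup_subset).to_subtype

open scoped Classical in
variable (K 𝔪) in
/-- the ray class of a nonzero ideal, `0` if the ideal is not prime to `𝔪` -/
def rayClassMap : (Ideal (𝓞 K))⁰ →* WithZero (RayClassGroup K 𝔪) where
  toFun I := if h : I ∈ coprimeIdeals K 𝔪 then ((rayClass ⟨I, h⟩ : RayClassGroup K 𝔪) :
    WithZero (RayClassGroup K 𝔪)) else 0
  map_one' := by
    rw [dif_pos (coprimeIdeals K 𝔪).one_mem]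
    have : (⟨1, (coprimeIdeals K 𝔪).one_mem⟩ : coprimeIdeals K 𝔪) = 1 := rfl
    rw [this, map_one]; rfl
  map_mul' I J := by
    by_cases hI : I ∈ coprimeIdeals K 𝔪
    · by_cases hJ : J ∈ coprimeIdeals K 𝔪
      · rw [dif_pos hI, dif_pos hJ, dif_pos ((coprimeIdeals K 𝔪).mul_mem hI hJ)]
        have : (⟨I * J, (coprimeIdeals K 𝔪).mul_mem hI hJ⟩ : coprimeIdeals K 𝔪) =
            ⟨I, hI⟩ * ⟨J, hJ⟩ := rfl
        rw [this, map_mul]; rfl
      · have hIJ : I * J ∉ coprimeIdeals K 𝔪 := by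
          intro h
          apply hJ
          have h' : IsCoprime ((I : Ideal (𝓞 K)) * (J : Ideal (𝓞 K))) 𝔪 := h
          exact IsCoprime.of_mul_left_right h'
        rw [dif_neg hJ, dif_neg hIJ, mul_zero]
    · have hIJ : I * J ∉ coprimeIdeals K 𝔪 := by
        intro h
        apply hI
        have h' : IsCoprime ((I : Ideal (𝓞 K)) * (J : Ideal (𝓞 K))) 𝔪 := h
        exact IsCoprime.of_mul_left_left h'
      rw [dif_neg hI, dif_neg hIJ, zero_mul]

open scoped Classical in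
theorem rayClassMap_apply (I : (Ideal (𝓞 K))⁰) :
    rayClassMap K 𝔪 I = if h : I ∈ coprimeIdeals K 𝔪 then
      ((rayClass ⟨I, h⟩ : RayClassGroup K 𝔪) : WithZero (RayClassGroup K 𝔪)) else 0 := rfl

theorem rayClassMap_of_mem {I : (Ideal (𝓞 K))⁰} (h : I ∈ coprimeIdeals K 𝔪) :
    rayClassMap K 𝔪 I = ((rayClass ⟨I, h⟩ : RayClassGroup K 𝔪) : WithZero _) := by
  rw [rayClassMap_apply, dif_pos h]

theorem rayClassMap_of_not_mem {I : (Ideal (𝓞 K))⁰} (h : I ∉ coprimeIdeals K 𝔪) :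
    rayClassMap K 𝔪 I = 0 := by
  rw [rayClassMap_apply, dif_neg h]

theorem rayClassMap_eq_zero_iff {I : (Ideal (𝓞 K))⁰} :
    rayClassMap K 𝔪 I = 0 ↔ I ∉ coprimeIdeals K 𝔪 := by
  constructor
  · intro h hI
    rw [rayClassMap_of_mem hI] at h
    exact WithZero.coe_ne_zero h
  · exact rayClassMap_of_not_mem

theorem rayClassMap_eq_coe_iff {I : (Ideal (𝓞 K))⁰} {C : RayClassGroup K 𝔪} :
    rayClassMap K 𝔪 I = (C : WithZero (RayClassGroup K 𝔪)) ↔
      ∃ h : I ∈ coprimeIdeals K 𝔪, rayClass ⟨I, h⟩ = C := by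
  constructor
  · intro h
    by_cases hI : I ∈ coprimeIdeals K 𝔪
    · rw [rayClassMap_of_mem hI] at h
      exact ⟨hI, WithZero.coe_injective h⟩
    · rw [rayClassMap_of_not_mem hI] at h
      exact absurd h.symm WithZero.coe_ne_zero
  · rintro ⟨hI, rfl⟩
    exact rayClassMap_of_mem hI

/-- only finitely many primes are not prime to `𝔪` -/
theorem finite_setOf_rayClassMap_eq_zero (h𝔪 : 𝔪 ≠ ⊥) :
    {P : HeightOneSpectrum (𝓞 K) |
      rayClassMap K 𝔪 ⟨P.asIdeal, mem_nonZeroDivisors_of_ne_zero P.ne_bot⟩ = 0}.Finite := by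
  refine (Ideal.finite_factors (I := 𝔪) h𝔪).subset ?_
  intro P hP
  rw [Set.mem_ofPred_eq, rayClassMap_eq_zero_iff] at hP
  show P.asIdeal ∣ 𝔪
  rw [Ideal.dvd_iff_le]
  by_contra hle
  apply hP
  show IsCoprime P.asIdeal 𝔪
  rw [Ideal.isCoprime_iff_sup_eq]
  have hmax : P.asIdeal.IsMaximal := P.isMaximal
  by_contra htop
  have heq : P.asIdeal = P.asIdeal ⊔ 𝔪 := hmax.eq_of_le htop le_sup_left
  apply hle
  rw [heq]
  exact le_sup_right

end Fermat.Agent.CFT.H34
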