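import Mathlib
import Fermat.Agent.CFT.H34_RayFinite

set_option autoImplicit false
set_option linter.unusedSectionVars false

/-!
# The ray class group in terms of divisors

The free abelian group on the primes not dividing `𝔪` maps onto the ray class group modulo `𝔪`,
and the kernel consists of the divisors of the `c / b` with `b, c` integral, prime to `𝔪` and
`b ≡ c mod 𝔪`.
-/

open NumberField Ideal IsDedekindDomain WithZero
open scoped nonZeroDivisors

noncomputable section

namespace Fermat.Agent.CFT.H34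

variable {K : Type*} [Field K] [NumberField K] {𝔪 : Ideal (𝓞 K)}

variable (K 𝔪) in
/-- the primes of `𝓞 K` not dividing `𝔪` -/
abbrev PrimesCoprime : Type _ := {v : HeightOneSpectrum (𝓞 K) // IsCoprime v.asIdeal 𝔪}

/-- a prime not dividing `𝔪`, as an ideal prime to `𝔪` -/
def primeCoprime (v : PrimesCoprime K 𝔪) : coprimeIdeals K 𝔪 :=
  ⟨⟨v.1.asIdeal, mem_nonZeroDivisors_of_ne_zero v.1.ne_bot⟩, v.2⟩

@[simp] theorem primeCoprime_ideal (v : PrimesCoprime K 𝔪) :
    coprimeIdeals.ideal (primeCoprime v) = v.1.asIdeal := rfl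

variable (K 𝔪) in
/-- the class of a divisor prime to `𝔪` -/
def rayOfDiv : Multiplicative (PrimesCoprime K 𝔪 →₀ ℤ) →* RayClassGroup K 𝔪 where
  toFun D := (Multiplicative.toAdd D).prod fun v n => rayClass (primeCoprime v) ^ n
  map_one' := by
    rw [toAdd_one, Finsupp.prod_zero_index]
  map_mul' D E := by
    rw [toAdd_mul, Finsupp.prod_add_index' (fun _ => zpow_zero _) (fun _ _ _ => zpow_add _ _ _)]

theorem rayOfDiv_ofAdd (D : PrimesCoprime K 𝔪 →₀ ℤ) :
    rayOfDiv K 𝔪 (Multiplicative.ofAdd D) = D.prod fun v n => rayClass (primeCoprime v) ^ n := rfl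

theorem rayOfDiv_single (v : PrimesCoprime K 𝔪) (n : ℤ) :
    rayOfDiv K 𝔪 (Multiplicative.ofAdd (Finsupp.single v n)) = rayClass (primeCoprime v) ^ n := by
  rw [rayOfDiv_ofAdd, Finsupp.prod_single_index (zpow_zero _)]

theorem ideal_ne_zero (I : coprimeIdeals K 𝔪) : coprimeIdeals.ideal I ≠ 0 :=
  nonZeroDivisors.ne_zero (I : (Ideal (𝓞 K))⁰).2

/-- the divisor of an integral ideal prime to `𝔪` -/
def divIdeal (I : coprimeIdeals K 𝔪) : PrimesCoprime K 𝔪 →₀ ℤ :=
  Finsupp.ofSupportFinite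
    (fun v => (multiplicity v.1.asIdeal (coprimeIdeals.ideal I) : ℤ)) (by
      have h := Ideal.finite_factors (ideal_ne_zero I)
      refine (h.preimage (Subtype.val_injective.injOn)).subset ?_
      intro v hv
      have hv' : (multiplicity v.1.asIdeal (coprimeIdeals.ideal I) : ℤ) ≠ 0 := hv
      show v.1.asIdeal ∣ coprimeIdeals.ideal I
      by_contra hnd
      exact hv' (by exact_mod_cast multiplicity_eq_zero.mpr hnd))

theorem divIdeal_apply (I : coprimeIdeals K 𝔪) (v : PrimesCoprime K 𝔪) :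
    divIdeal I v = (multiplicity v.1.asIdeal (coprimeIdeals.ideal I) : ℤ) := rfl

theorem divIdeal_mul (I J : coprimeIdeals K 𝔪) : divIdeal (I * J) = divIdeal I + divIdeal J := by
  ext v
  rw [Finsupp.add_apply, divIdeal_apply, divIdeal_apply, divIdeal_apply]
  have e : coprimeIdeals.ideal (I * J) = coprimeIdeals.ideal I * coprimeIdeals.ideal J := rfl
  rw [e, multiplicity_mul v.1.prime
    (FiniteMultiplicity.of_prime_left v.1.prime (mul_ne_zero (ideal_ne_zero I) (ideal_ne_zero J)))]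
  push_cast
  rfl

theorem divIdeal_one : divIdeal (1 : coprimeIdeals K 𝔪) = 0 := by
  ext v
  rw [divIdeal_apply, Finsupp.zero_apply]
  have e : coprimeIdeals.ideal (1 : coprimeIdeals K 𝔪) = 1 := rfl
  rw [e]
  have : ¬ v.1.asIdeal ∣ 1 := by
    intro h
    exact v.1.isPrime.ne_top (Ideal.isUnit_iff.mp (isUnit_of_dvd_one h))
  exact_mod_cast multiplicity_eq_zero.mpr this

variable (K 𝔪) in
/-- the divisor of an integral ideal prime to `𝔪`, as a monoid homomorphism -/
def divIdealHom : coprimeIdeals K 𝔪 →* Multiplicative (PrimesCoprime K 𝔪 →₀ ℤ) where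
  toFun I := Multiplicative.ofAdd (divIdeal I)
  map_one' := by rw [divIdeal_one]; rfl
  map_mul' I J := by rw [divIdeal_mul]; rfl

theorem divIdealHom_apply (I : coprimeIdeals K 𝔪) :
    divIdealHom K 𝔪 I = Multiplicative.ofAdd (divIdeal I) := rfl

theorem divIdeal_primeCoprime (w : PrimesCoprime K 𝔪) :
    divIdeal (primeCoprime w) = Finsupp.single w 1 := by
  classical
  ext v
  rw [divIdeal_apply, primeCoprime_ideal, Finsupp.single_apply]
  by_cases h : w = v
  · subst h
    rw [if_pos rfl, multiplicity_self]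
    rfl
  · rw [if_neg h]
    have : ¬ v.1.asIdeal ∣ w.1.asIdeal := by
      intro hd
      apply h
      have hle : w.1.asIdeal ≤ v.1.asIdeal := Ideal.le_of_dvd hd
      have heq : w.1.asIdeal = v.1.asIdeal :=
        w.1.isMaximal.eq_of_le v.1.isPrime.ne_top hle
      exact Subtype.ext (HeightOneSpectrum.ext heq)
    exact_mod_cast multiplicity_eq_zero.mpr this

/-- **the class of the divisor of an integral ideal is the class of the ideal** -/
theorem rayOfDiv_divIdeal (I : coprimeIdeals K 𝔪) :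
    rayOfDiv K 𝔪 (Multiplicative.ofAdd (divIdeal I)) = rayClass I := by
  suffices H : ∀ (J : Ideal (𝓞 K)) (h0 : J ∈ (Ideal (𝓞 K))⁰) (hc : IsCoprime J 𝔪),
      rayOfDiv K 𝔪 (Multiplicative.ofAdd (divIdeal ⟨⟨J, h0⟩, hc⟩)) =
        rayClass ⟨⟨J, h0⟩, hc⟩ by
    obtain ⟨⟨J, h0⟩, hc⟩ := I
    exact H J h0 hc
  intro J
  induction J using UniqueFactorizationMonoid.induction_on_prime with
  | h₁ =>
    intro h0
    exact absurd rfl (nonZeroDivisors.ne_zero h0)
  | h₂ x hx =>
    intro h0 hc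
    have hx1 : x = 1 := by
      rw [Ideal.isUnit_iff] at hx
      rw [hx, Ideal.one_eq_top]
    subst hx1
    have e : (⟨⟨1, h0⟩, hc⟩ : coprimeIdeals K 𝔪) = 1 := rfl
    rw [e, divIdeal_one, map_one]
    rfl
  | h₃ a p ha hp ih =>
    intro h0 hc
    have hp0 : p ≠ ⊥ := hp.ne_zero
    have hpP : p.IsPrime := (Ideal.prime_iff_isPrime hp0).mp hp
    have hc' : IsCoprime (p * a) 𝔪 := hc
    have hpc : IsCoprime p 𝔪 := IsCoprime.of_mul_left_left hc'
    have hac : IsCoprime a 𝔪 := IsCoprime.of_mul_left_right hc'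
    let v : PrimesCoprime K 𝔪 := ⟨⟨p, hpP, hp0⟩, hpc⟩
    have ha0 : a ∈ (Ideal (𝓞 K))⁰ := mem_nonZeroDivisors_of_ne_zero ha
    have e : (⟨⟨p * a, h0⟩, hc⟩ : coprimeIdeals K 𝔪) = primeCoprime v * ⟨⟨a, ha0⟩, hac⟩ := rfl
    rw [e, divIdeal_mul, ofAdd_add, map_mul, map_mul, ih ha0 hac, divIdeal_primeCoprime,
      rayOfDiv_single, zpow_one]

theorem rayOfDiv_surjective : Function.Surjective (rayOfDiv K 𝔪) := by
  intro x
  obtain ⟨I, rfl⟩ := rayClass_surjective x
  exact ⟨_, rayOfDiv_divIdeal I⟩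

/-- every divisor prime to `𝔪` is a difference of divisors of integral ideals prime to `𝔪` -/
theorem exists_divIdeal_sub (D : PrimesCoprime K 𝔪 →₀ ℤ) :
    ∃ I J : coprimeIdeals K 𝔪, D = divIdeal I - divIdeal J := by
  induction D using Finsupp.induction_linear with
  | zero => exact ⟨1, 1, by rw [sub_self]⟩
  | add f g hf hg =>
    obtain ⟨I₁, J₁, h₁⟩ := hf
    obtain ⟨I₂, J₂, h₂⟩ := hg
    refine ⟨I₁ * I₂, J₁ * J₂, ?_⟩
    rw [divIdeal_mul, divIdeal_mul, h₁, h₂]
    abel
  | single w n =>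
    have hpow : ∀ k : ℕ, divIdeal (primeCoprime w ^ k) = Finsupp.single w (k : ℤ) := by
      intro k
      have := map_pow (divIdealHom K 𝔪) (primeCoprime w) k
      rw [divIdealHom_apply, divIdealHom_apply, divIdeal_primeCoprime, ← ofAdd_nsmul] at this
      have h2 := Multiplicative.ofAdd.injective this
      rw [h2, Finsupp.smul_single, nsmul_eq_mul, mul_one]
    rcases Int.le_total 0 n with hn | hn
    · refine ⟨primeCoprime w ^ n.toNat, 1, ?_⟩
      rw [hpow, divIdeal_one, sub_zero, Int.toNat_of_nonneg hn]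
    · refine ⟨1, primeCoprime w ^ (-n).toNat, ?_⟩
      rw [hpow, divIdeal_one, zero_sub, Int.toNat_of_nonneg (by omega), ← Finsupp.single_neg,
        neg_neg]

/-- From an equation of ideals `(x) I = (y) J` to the valuations of `y / x`. -/
theorem valuation_div_of_span_mul_eq' (Q : HeightOneSpectrum (𝓞 K)) {x y : 𝓞 K} (hx : x ≠ 0)
    (hy : y ≠ 0) {I J : Ideal (𝓞 K)} (hI : I ≠ ⊥) (hJ : J ≠ ⊥)
    (h : Ideal.span {x} * I = Ideal.span {y} * J) :
    Q.valuation K ((y : K) / (x : K)) =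
      exp ((multiplicity Q.asIdeal J : ℤ) - (multiplicity Q.asIdeal I : ℤ)) := by
  have hsx : Ideal.span {x} ≠ ⊥ := by simpa using hx
  have hsy : Ideal.span {y} ≠ ⊥ := by simpa using hy
  have h1 : multiplicity Q.asIdeal (Ideal.span {x} * I) =
      multiplicity Q.asIdeal (Ideal.span {x}) + multiplicity Q.asIdeal I :=
    multiplicity_mul Q.prime (FiniteMultiplicity.of_prime_left Q.prime (mul_ne_zero hsx hI))
  have h2 : multiplicity Q.asIdeal (Ideal.span {y} * J) =
      multiplicity Q.asIdeal (Ideal.span {y}) + multiplicity Q.asIdeal J :=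
    multiplicity_mul Q.prime (FiniteMultiplicity.of_prime_left Q.prime (mul_ne_zero hsy hJ))
  rw [h] at h1
  rw [h1] at h2
  have ex : (x : K) = algebraMap (𝓞 K) K x := rfl
  have ey : (y : K) = algebraMap (𝓞 K) K y := rfl
  rw [ex, ey, map_div₀, HeightOneSpectrum.valuation_of_algebraMap,
    HeightOneSpectrum.valuation_of_algebraMap,
    HeightOneSpectrum.intValuation_eq_exp_neg_multiplicity _ hx,
    HeightOneSpectrum.intValuation_eq_exp_neg_multiplicity _ hy, ← exp_sub]
  congr 1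
  omega

/-- a ray unit is a unit at every prime not prime to `𝔪` -/
theorem IsRayUnit.valuation_eq_one {b : 𝓞 K} (hb : IsRayUnit 𝔪 b) (v : HeightOneSpectrum (𝓞 K))
    (hv : ¬ IsCoprime v.asIdeal 𝔪) : v.valuation K (b : K) = 1 := by
  have eb : (b : K) = algebraMap (𝓞 K) K b := rfl
  rw [eb, HeightOneSpectrum.valuation_of_algebraMap]
  have hle : 𝔪 ≤ v.asIdeal := by
    by_contra hle
    apply hv
    rw [Ideal.isCoprime_iff_sup_eq]
    by_contra htop
    have heq : v.asIdeal = v.asIdeal ⊔ 𝔪 := v.isMaximal.eq_of_le htop le_sup_left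
    apply hle
    rw [heq]
    exact le_sup_right
  have hbv : b ∉ v.asIdeal := by
    intro hbv
    have h1 : Ideal.span {b} ⊔ 𝔪 ≤ v.asIdeal :=
      sup_le ((Ideal.span_singleton_le_iff_mem _).mpr hbv) hle
    rw [Ideal.isCoprime_iff_sup_eq.mp hb.2] at h1
    exact v.isPrime.ne_top (top_le_iff.mp h1)
  exact HeightOneSpectrum.intValuation_eq_one_iff.mpr hbv

/-- **The kernel of the divisor class map**: a divisor prime to `𝔪` with trivial ray class is the
divisor of `c / b` with `b, c` integral, prime to `𝔪` and congruent modulo `𝔪`. -/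
theorem exists_of_rayOfDiv_eq_one (D : PrimesCoprime K 𝔪 →₀ ℤ)
    (h : rayOfDiv K 𝔪 (Multiplicative.ofAdd D) = 1) :
    ∃ b c : 𝓞 K, IsRayUnit 𝔪 b ∧ IsRayUnit 𝔪 c ∧ b - c ∈ 𝔪 ∧
      (∀ v : PrimesCoprime K 𝔪, v.1.valuation K ((c : K) / (b : K)) = exp (-(D v))) ∧
      ∀ v : HeightOneSpectrum (𝓞 K), ¬ IsCoprime v.asIdeal 𝔪 →
        v.valuation K ((c : K) / (b : K)) = 1 := by
  obtain ⟨I, J, hD⟩ := exists_divIdeal_sub D
  have h1 : rayClass I = rayClass J := by
    rw [hD, sub_eq_add_neg, ofAdd_add, ofAdd_neg, map_mul, map_inv, rayOfDiv_divIdeal,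
      rayOfDiv_divIdeal, mul_inv_eq_one] at h
    exact h
  obtain ⟨b, c, hb, hc, hbc, hIJ⟩ := rayClass_eq_iff.mp h1
  refine ⟨b, c, hb, hc, hbc, fun v => ?_, fun v hv => ?_⟩
  · rw [valuation_div_of_span_mul_eq' v.1 hb.1 hc.1 (ideal_ne_zero I) (ideal_ne_zero J) hIJ, hD,
      Finsupp.sub_apply, divIdeal_apply, divIdeal_apply, neg_sub]
  · rw [map_div₀, hb.valuation_eq_one v hv, hc.valuation_eq_one v hv, div_one]

/-- **Principal divisors of elements `≡ 1 mod^× 𝔪` have trivial ray class.** -/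
theorem rayOfDiv_eq_one_of_valuation {b c : 𝓞 K} (hb : IsRayUnit 𝔪 b) (hc : IsRayUnit 𝔪 c)
    (hbc : b - c ∈ 𝔪) (D : PrimesCoprime K 𝔪 →₀ ℤ)
    (hD : ∀ v : PrimesCoprime K 𝔪, v.1.valuation K ((c : K) / (b : K)) = exp (-(D v))) :
    rayOfDiv K 𝔪 (Multiplicative.ofAdd D) = 1 := by
  have hD' : D = divIdeal (principalCoprime c hc) - divIdeal (principalCoprime b hb) := by
    ext v
    have h1 := hD v
    have ex : (b : K) = algebraMap (𝓞 K) K b := rfl
    have ey : (c : K) = algebraMap (𝓞 K) K c := rfl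
    rw [ex, ey, map_div₀, HeightOneSpectrum.valuation_of_algebraMap,
      HeightOneSpectrum.valuation_of_algebraMap,
      HeightOneSpectrum.intValuation_eq_exp_neg_multiplicity _ hb.1,
      HeightOneSpectrum.intValuation_eq_exp_neg_multiplicity _ hc.1, ← exp_sub, exp_inj] at h1
    rw [Finsupp.sub_apply, divIdeal_apply, divIdeal_apply, principalCoprime_ideal,
      principalCoprime_ideal]
    omega
  rw [hD', sub_eq_add_neg, ofAdd_add, ofAdd_neg, map_mul, map_inv, rayOfDiv_divIdeal,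
    rayOfDiv_divIdeal, mul_inv_eq_one]
  exact rayClass_principal_congr hc hb (by rw [← neg_sub]; exact 𝔪.neg_mem hbc)

end Fermat.Agent.CFT.H34
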