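import Mathlib
import Fermat.Agent.S14.H34_LatticeCount

set_option autoImplicit false
set_option linter.unusedSectionVars false

/-!
# Counting points of a lattice coset with an error term

Translation-invariant versions of the results of `Fermat.Agent.S14.H34_LatticeCount`:
`#((v + L) ∩ t • s) = vol(s) / covol(L) * t ^ n + O(t ^ (n - 1))`, uniformly in `v`.
-/

open MeasureTheory Set Bornology Module ZLattice
open scoped Pointwise NNReal Topology

noncomputable section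

namespace Fermat.Agent.CFT.H34

open Fermat.Agent.S14.H34

variable {ι : Type*} [Fintype ι] {κ : Type*} [Fintype κ]

/-- standard lattice, translated set: the estimate is uniform in the translation `v`. -/
theorem abs_ncard_intPts_smul_sub_vadd_le {s : Set (ι → ℝ)} (hs : IsBounded s) {m : ℕ}
    (φ : Fin m → (κ → ℝ) → (ι → ℝ)) (K : ℝ≥0)
    (hφ : ∀ j, LipschitzOnWith K (φ j) (Set.Icc 0 1))
    (hfr : frontier s ⊆ ⋃ j, φ j '' Set.Icc 0 1) {t : ℝ} (ht : 1 ≤ t) (v : ι → ℝ) :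
    |((intPts ((fun x => x - v) '' (t • s))).ncard : ℝ) - volume.real s * t ^ Fintype.card ι| ≤
      (m * 2 ^ Fintype.card κ * (2 * ⌈(K : ℝ)⌉₊ + 1) ^ Fintype.card ι : ℕ) *
        t ^ Fintype.card κ := by
  have ht0 : 0 < t := lt_of_lt_of_le one_pos ht
  set w : ι → ℝ := t⁻¹ • v with hw
  set s' : Set (ι → ℝ) := (fun x => x - w) '' s with hs'
  have hs'b : IsBounded s' :=
    (IsometryEquiv.subRight w).isometry.lipschitz.isBounded_image hs
  have hvol : volume.real s' = volume.real s := by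
    have h1 : s' = (fun x => x + w) ⁻¹' s := by
      ext x
      simp only [hs', Set.mem_image, Set.mem_preimage]
      constructor
      · rintro ⟨y, hy, rfl⟩
        simpa using hy
      · intro hx
        exact ⟨x + w, hx, by simp⟩
    rw [measureReal_def, measureReal_def, h1, measure_preimage_add_right]
  have hφ' : ∀ j, LipschitzOnWith K (fun u => φ j u - w) (Set.Icc 0 1) := by
    intro j x hx y hy
    simpa using hφ j hx hy
  have hfr' : frontier s' ⊆ ⋃ j, (fun u => φ j u - w) '' Set.Icc 0 1 := by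
    have h1 : frontier s' = (fun x => x - w) '' frontier s :=
      ((Homeomorph.subRight w).image_frontier s).symm
    rw [h1]
    rintro _ ⟨x, hx, rfl⟩
    obtain ⟨j, u, hu, rfl⟩ := Set.mem_iUnion.mp (hfr hx)
    exact Set.mem_iUnion.mpr ⟨j, u, hu, rfl⟩
  have key := abs_ncard_intPts_smul_sub_le hs'b (fun j u => φ j u - w) K hφ' hfr' ht
  have hset : t • s' = (fun x => x - v) '' (t • s) := by
    ext x
    simp only [hs', Set.mem_smul_set, Set.mem_image]
    constructor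
    · rintro ⟨_, ⟨y, hy, rfl⟩, rfl⟩
      refine ⟨t • y, ⟨y, hy, rfl⟩, ?_⟩
      rw [smul_sub, hw, smul_smul, mul_inv_cancel₀ ht0.ne', one_smul]
    · rintro ⟨_, ⟨y, hy, rfl⟩, rfl⟩
      refine ⟨y - w, ⟨y, hy, rfl⟩, ?_⟩
      rw [smul_sub, hw, smul_smul, mul_inv_cancel₀ ht0.ne', one_smul]
  rw [hset, hvol] at key
  exact key

section general

variable {E : Type*} [NormedAddCommGroup E] [InnerProductSpace ℝ E] [FiniteDimensional ℝ E]
  [MeasurableSpace E] [BorelSpace E]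
variable (L : Submodule ℤ E) [DiscreteTopology L] [IsZLattice ℝ L]

theorem card_inter_coset_eq (S : Set E) (v : E) :
    Nat.card ↑(S ∩ {x | x - v ∈ L}) = Nat.card ↑(((fun x => x - v) '' S) ∩ (L : Set E)) := by
  refine Nat.card_congr ⟨fun x => ⟨x.1 - v, ⟨x.1, x.2.1, rfl⟩, x.2.2⟩,
    fun y => ⟨y.1 + v, ?_, ?_⟩, fun x => ?_, fun y => ?_⟩
  · obtain ⟨z, hz, hzy⟩ := y.2.1
    have : y.1 + v = z := by rw [← hzy]; simp
    rw [this]; exact hz
  · simpa using y.2.2
  · ext; simp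
  · ext; simp

/-- **Counting points of a lattice coset with error term**, uniformly in the coset. -/
theorem exists_abs_card_smul_inter_coset_sub_le {s : Set E} (hs : IsBounded s)
    (hsm : NullMeasurableSet s) {κ : Type*} [Fintype κ] {m : ℕ}
    (φ : Fin m → (κ → ℝ) → E) (K : ℝ≥0)
    (hφ : ∀ j, LipschitzOnWith K (φ j) (Set.Icc 0 1))
    (hfr : frontier s ⊆ ⋃ j, φ j '' Set.Icc 0 1) :
    ∃ C : ℝ, ∀ t : ℝ, 1 ≤ t → ∀ v : E,
      |(Nat.card ↑(t • s ∩ {x | x - v ∈ L}) : ℝ) -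
        volume.real s / covolume L * t ^ finrank ℝ E| ≤ C * t ^ Fintype.card κ := by
  let b := Module.Free.chooseBasis ℤ L
  set ι := Module.Free.ChooseBasisIndex ℤ L
  set e := (b.ofZLatticeBasis ℝ L).equivFunL with he
  have hcard : Fintype.card ι = finrank ℝ E := by
    rw [← finrank_eq_card_chooseBasisIndex, ZLattice.rank ℝ L]
  have hs' : IsBounded (e '' s) := by
    rw [← NormedSpace.isVonNBounded_iff ℝ] at hs ⊢
    exact Bornology.IsVonNBounded.image hs (e : E →L[ℝ] ι → ℝ)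
  have hφ' : ∀ j, LipschitzOnWith (‖(e : E →L[ℝ] ι → ℝ)‖₊ * K) (e ∘ φ j) (Set.Icc 0 1) :=
    fun j => (e : E →L[ℝ] ι → ℝ).lipschitz.comp_lipschitzOnWith (hφ j)
  have hfr' : frontier (e '' s) ⊆ ⋃ j, (e ∘ φ j) '' Set.Icc 0 1 := by
    have h1 : frontier (e '' s) = e '' frontier s := (e.toHomeomorph.image_frontier s).symm
    rw [h1]
    rintro _ ⟨x, hx, rfl⟩
    obtain ⟨j, u, hu, rfl⟩ := Set.mem_iUnion.mp (hfr hx)
    exact Set.mem_iUnion.mpr ⟨j, u, hu, rfl⟩
  have hvol : volume.real (e '' s) = volume.real s / covolume L := by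
    have := ZLattice.volume_image_eq_volume_div_covolume' L b hsm
    simp only [measureReal_def]
    rw [show (e '' s) = (b.ofZLatticeBasis ℝ L).equivFun '' s from rfl, this, ENNReal.toReal_div,
      ENNReal.toReal_ofReal (covolume_pos L volume).le]
  refine ⟨((m * 2 ^ Fintype.card κ *
    (2 * ⌈((‖(e : E →L[ℝ] ι → ℝ)‖₊ * K : ℝ≥0) : ℝ)⌉₊ + 1) ^ Fintype.card ι : ℕ) : ℝ),
    fun t ht v => ?_⟩
  have key := abs_ncard_intPts_smul_sub_vadd_le hs' (fun j => e ∘ φ j) _ hφ' hfr' ht (e v)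
  have himg : (fun y => y - e v) '' (t • (e '' s)) =
      (b.ofZLatticeBasis ℝ L).equivFun '' ((fun x => x - v) '' (t • s)) := by
    rw [show (e '' s) = (b.ofZLatticeBasis ℝ L).equivFun '' s from rfl, ← image_smul_set,
      Set.image_image, Set.image_image]
    refine Set.image_congr fun x _ => ?_
    rw [map_sub]
    rfl
  rw [himg, ncard_intPts_image_eq L b, ← card_inter_coset_eq, hvol, hcard] at key
  rw [hcard]
  exact key

/-- cone version, uniform in the coset -/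
theorem exists_abs_card_cone_coset_sub_le {X : Set E} {F : E → ℝ}
    (hX : ∀ ⦃x⦄ ⦃r : ℝ⦄, x ∈ X → 0 < r → r • x ∈ X)
    (h₁ : ∀ x ⦃r : ℝ⦄, 0 ≤ r → F (r • x) = r ^ finrank ℝ E * (F x))
    (h₂ : IsBounded {x ∈ X | F x ≤ 1}) (h₃ : NullMeasurableSet {x ∈ X | F x ≤ 1})
    {κ : Type*} [Fintype κ] (hκ : Fintype.card κ + 1 = finrank ℝ E) {m : ℕ}
    (φ : Fin m → (κ → ℝ) → E) (K : ℝ≥0)
    (hφ : ∀ j, LipschitzOnWith K (φ j) (Set.Icc 0 1))
    (hfr : frontier {x ∈ X | F x ≤ 1} ⊆ ⋃ j, φ j '' Set.Icc 0 1) :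
    ∃ C : ℝ, ∀ c : ℝ, 1 ≤ c → ∀ v : E,
      |(Nat.card ↑({x ∈ X | F x ≤ c} ∩ {x | x - v ∈ L}) : ℝ) -
        volume.real {x ∈ X | F x ≤ 1} / covolume L * c| ≤
        C * c ^ (1 - 1 / (finrank ℝ E : ℝ)) := by
  obtain ⟨C, hC⟩ := exists_abs_card_smul_inter_coset_sub_le L h₂ h₃ φ K hφ hfr
  refine ⟨C, fun c hc v => ?_⟩
  have hn : 0 < finrank ℝ E := by omega
  have hn' : (finrank ℝ E : ℝ) ≠ 0 := by exact_mod_cast hn.ne'
  have hc0 : 0 < c := lt_of_lt_of_le one_pos hc
  set t := c ^ (1 / (finrank ℝ E : ℝ)) with ht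
  have ht1 : 1 ≤ t := Real.one_le_rpow hc (by positivity)
  have ht0 : 0 < t := lt_of_lt_of_le one_pos ht1
  have htn : t ^ finrank ℝ E = c := by
    rw [ht, ← Real.rpow_natCast, ← Real.rpow_mul hc0.le, one_div, inv_mul_cancel₀ hn',
      Real.rpow_one]
  have htk : t ^ Fintype.card κ = c ^ (1 - 1 / (finrank ℝ E : ℝ)) := by
    have h1 : (Fintype.card κ : ℝ) = finrank ℝ E - 1 := by
      rw [← hκ]; push_cast; ring
    rw [ht, ← Real.rpow_natCast, ← Real.rpow_mul hc0.le, h1]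
    congr 1
    field_simp
  have hset : t • {x ∈ X | F x ≤ 1} = {x ∈ X | F x ≤ c} := by
    rw [smul_cone_le_one_eq hX h₁ ht0, htn]
  have := hC t ht1 v
  rwa [hset, htn, htk] at this

end general

end Fermat.Agent.CFT.H34
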