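import Mathlib
import Fermat.Agent.S14.H34_IdealCount
import Fermat.Agent.CFT.H34_CosetCount
import Fermat.Agent.CFT.H34_RayClass

set_option autoImplicit false
set_option linter.unusedSectionVars false

/-!
# Counting integral ideals in a ray class, with error term
-/

open Ideal Filter NumberField NumberField.InfinitePlace NumberField.mixedEmbedding
  NumberField.mixedEmbedding.euclidean NumberField.mixedEmbedding.fundamentalCone
  NumberField.Units Submodule Topology MeasureTheory Bornology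
open scoped nonZeroDivisors Real NNReal

noncomputable section

namespace Fermat.Agent.CFT.H34

open Fermat.Agent.S14.H34

variable (K : Type*) [Field K] [NumberField K]

open scoped Classical in
variable {K} in
/-- transport of the coset counting set from the Euclidean mixed space to the mixed space -/
def latticeConeCosetEquiv (J : (Ideal (𝓞 K))⁰) (s : ℝ) (v : mixedSpace K) :
    ↑({x | x ∈ (toMixed K) ⁻¹' fundamentalCone K ∧ mixedEmbedding.norm ((toMixed K) x) ≤ s} ∩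
      {x | x - (toMixed K).symm v ∈
        (ZLattice.comap (E := mixedSpace K) (F := euclidean.mixedSpace K) ℝ
          (idealLattice K ((FractionalIdeal.mk0 K) J)) (toMixed K).toLinearMap)})
      ≃ ↑({x | x ∈ fundamentalCone K ∧ mixedEmbedding.norm x ≤ s} ∩
        {x | x - v ∈ idealLattice K (FractionalIdeal.mk0 K J)}) := by
  refine ((toMixed K).toEquiv.image _).trans (Equiv.setCongr ?_)
  ext x
  constructor
  · rintro ⟨y, ⟨⟨h1, h2⟩, h3⟩, rfl⟩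
    refine ⟨⟨h1, h2⟩, ?_⟩
    have h4 : (toMixed K) (y - (toMixed K).symm v) ∈
        idealLattice K (FractionalIdeal.mk0 K J) := h3
    rw [map_sub, ContinuousLinearEquiv.apply_symm_apply] at h4
    exact h4
  · rintro ⟨⟨h1, h2⟩, h3⟩
    refine ⟨(toMixed K).symm x, ⟨⟨?_, ?_⟩, ?_⟩, ?_⟩
    · show (toMixed K) ((toMixed K).symm x) ∈ fundamentalCone K
      rw [ContinuousLinearEquiv.apply_symm_apply]; exact h1
    · show mixedEmbedding.norm ((toMixed K) ((toMixed K).symm x)) ≤ s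
      rw [ContinuousLinearEquiv.apply_symm_apply]; exact h2
    · show (toMixed K) ((toMixed K).symm x - (toMixed K).symm v) ∈
        idealLattice K (FractionalIdeal.mk0 K J)
      rw [map_sub, ContinuousLinearEquiv.apply_symm_apply,
        ContinuousLinearEquiv.apply_symm_apply]
      exact h3
    · exact (toMixed K).apply_symm_apply x

set_option backward.isDefEq.respectTransparency false in
open scoped Classical in
/-- lattice coset points in the fundamental cone, with error term, uniformly in the coset -/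
theorem exists_cone_coset_count_error (J : (Ideal (𝓞 K))⁰) :
    ∃ C : ℝ, ∀ c : ℝ, 1 ≤ c → ∀ v : mixedSpace K,
      |(Nat.card ↑({x | x ∈ fundamentalCone K ∧ mixedEmbedding.norm x ≤ c} ∩
          {x | x - v ∈ idealLattice K (FractionalIdeal.mk0 K J)}) : ℝ) -
        volume.real ((toMixed K) ⁻¹' normLeOne K) / ZLattice.covolume (ZLattice.comap (E := mixedSpace K) (F := euclidean.mixedSpace K) ℝ
          (mixedEmbedding.idealLattice K (FractionalIdeal.mk0 K J)) (toMixed K).toLinearMap) * c| ≤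
        C * c ^ (1 - 1 / (Module.finrank ℚ K : ℝ)) := by
  obtain ⟨κ', hκ'F, hκ', m, φ, Lc, hφ, hcov⟩ :=
    Fermat.Agent.S14.H38.exists_lipschitz_cover_frontier_normLeOne K
  have h₁ : ∀ s : ℝ,
    {x | x ∈ toMixed K ⁻¹' fundamentalCone K ∧ mixedEmbedding.norm (toMixed K x) ≤ s} =
      toMixed K ⁻¹' {x | x ∈ fundamentalCone K ∧ mixedEmbedding.norm x ≤ s} := fun _ ↦ rfl
  have h₂ : {x | x ∈ fundamentalCone K ∧ mixedEmbedding.norm x ≤ 1} = normLeOne K := by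
    ext; simp
  have hfin : Module.finrank ℝ (euclidean.mixedSpace K) = Module.finrank ℚ K :=
    euclidean.finrank K
  let ψ : Fin m → (κ' → ℝ) → euclidean.mixedSpace K := fun j => (toMixed K).symm ∘ φ j
  have hψ : ∀ j, LipschitzOnWith
      (‖((toMixed K).symm : mixedSpace K →L[ℝ] euclidean.mixedSpace K)‖₊ * Lc) (ψ j)
      (Set.Icc 0 1) := fun j =>
    ((toMixed K).symm : mixedSpace K →L[ℝ] euclidean.mixedSpace K).lipschitz.comp_lipschitzOnWith
      (hφ j)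
  have hfr : frontier {x | x ∈ toMixed K ⁻¹' fundamentalCone K ∧
      mixedEmbedding.norm (toMixed K x) ≤ 1} ⊆ ⋃ j, ψ j '' Set.Icc 0 1 := by
    rw [h₁, h₂, ← (toMixed K).coe_toHomeomorph, ← Homeomorph.preimage_frontier]
    intro x hx
    obtain ⟨j, u, hu, huv⟩ := Set.mem_iUnion.mp (hcov hx)
    refine Set.mem_iUnion.mpr ⟨j, u, hu, ?_⟩
    simp only [ψ, Function.comp_apply, huv]
    exact (toMixed K).symm_apply_apply x
  have key := exists_abs_card_cone_coset_sub_le (E := euclidean.mixedSpace K) (ZLattice.comap (E := mixedSpace K) (F := euclidean.mixedSpace K) ℝ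
          (mixedEmbedding.idealLattice K (FractionalIdeal.mk0 K J)) (toMixed K).toLinearMap)
    (X := (toMixed K) ⁻¹' (fundamentalCone K))
    (F := fun x ↦ mixedEmbedding.norm (toMixed K x))
    (fun _ _ _ h ↦ by rwa [Set.mem_preimage, map_smul, smul_mem_iff_mem h.ne'])
    (fun _ _ h ↦ by rw [map_smul, mixedEmbedding.norm_smul, euclidean.finrank, abs_of_nonneg h])
    (by
      rw [h₁, h₂]
      exact (toMixed K).antilipschitz.isBounded_preimage (isBounded_normLeOne K))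
    (by
      rw [h₁, h₂]
      exact ((toMixed K).continuous.measurable (measurableSet_normLeOne K)).nullMeasurableSet)
    (hfin ▸ hκ') ψ _ hψ hfr
  obtain ⟨C, hC⟩ := key
  refine ⟨C, fun c hc v => ?_⟩
  have := hC c hc ((toMixed K).symm v)
  rw [hfin, h₁ 1, h₂] at this
  rwa [Nat.card_congr (latticeConeCosetEquiv J c v)] at this

variable {K}
variable {𝔪 : Ideal (𝓞 K)}

variable (K) in
theorem card_integerSet_eq (P : (Ideal (𝓞 K))⁰ → Prop) :
    Nat.card {a : integerSet K // P (integerSetEquiv K a).1.1} =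
      Nat.card {I : (Ideal (𝓞 K))⁰ // IsPrincipal (I : Ideal (𝓞 K)) ∧ P I} * torsionOrder K := by
  rw [torsionOrder, ← Nat.card_prod]
  refine Nat.card_congr ?_
  calc {a : integerSet K // P (integerSetEquiv K a).1.1}
      ≃ {y : {I : (Ideal (𝓞 K))⁰ // IsPrincipal I.1} × torsion K // P y.1.1} :=
        Equiv.subtypeEquiv (integerSetEquiv K) (fun _ => Iff.rfl)
    _ ≃ {I : {I : (Ideal (𝓞 K))⁰ // IsPrincipal I.1} // P I.1} × torsion K :=
        Equiv.prodSubtypeFstEquivSubtypeProd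
          (p := fun I : {I : (Ideal (𝓞 K))⁰ // IsPrincipal I.1} ↦ P I.1)
    _ ≃ {I : (Ideal (𝓞 K))⁰ // IsPrincipal (I : Ideal (𝓞 K)) ∧ P I} × torsion K :=
        Equiv.prodCongrLeft fun _ ↦
          (Equiv.subtypeSubtypeEquivSubtypeInter
            (fun I : (Ideal (𝓞 K))⁰ ↦ IsPrincipal I.1) (fun I ↦ P I))

/-- predicate on nonzero ideals: divisible by `𝔟`, generated by an element `≡ 1 mod 𝔪`,
norm `≤ c` -/
def RayPred (𝔟 : coprimeIdeals K 𝔪) (c : ℝ) (J : (Ideal (𝓞 K))⁰) : Prop :=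
  coprimeIdeals.ideal 𝔟 ∣ (J : Ideal (𝓞 K)) ∧
    (∃ γ : 𝓞 K, γ - 1 ∈ 𝔪 ∧ (J : Ideal (𝓞 K)) = span {γ}) ∧
    (absNorm (J : Ideal (𝓞 K)) : ℝ) ≤ c

theorem absNorm_ideal_pos (𝔟 : coprimeIdeals K 𝔪) :
    (0 : ℝ) < absNorm (coprimeIdeals.ideal 𝔟) := by
  exact_mod_cast absNorm_pos_of_nonZeroDivisors (𝔟 : (Ideal (𝓞 K))⁰)

theorem card_rayClass_eq (𝔟 : coprimeIdeals K 𝔪) (x : ℝ) :
    Nat.card {I : coprimeIdeals K 𝔪 //
        rayClass (I * 𝔟) = 1 ∧ (absNorm (coprimeIdeals.ideal I) : ℝ) ≤ x} =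
      Nat.card {J : (Ideal (𝓞 K))⁰ // IsPrincipal (J : Ideal (𝓞 K)) ∧
        RayPred 𝔟 (x * absNorm (coprimeIdeals.ideal 𝔟)) J} := by
  have hb := absNorm_ideal_pos 𝔟
  have key : ∀ I : coprimeIdeals K 𝔪,
      rayClass (I * 𝔟) = 1 ∧ (absNorm (coprimeIdeals.ideal I) : ℝ) ≤ x →
      IsPrincipal (((I * 𝔟 : coprimeIdeals K 𝔪) : (Ideal (𝓞 K))⁰) : Ideal (𝓞 K)) ∧
        RayPred 𝔟 (x * absNorm (coprimeIdeals.ideal 𝔟))
          ((I * 𝔟 : coprimeIdeals K 𝔪) : (Ideal (𝓞 K))⁰) := by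
    rintro I ⟨h1, h2⟩
    obtain ⟨γ, hγ0, hγ, hJ⟩ := (rayClass_eq_one_iff _).mp h1
    have e : coprimeIdeals.ideal (I * 𝔟) = coprimeIdeals.ideal I * coprimeIdeals.ideal 𝔟 := rfl
    refine ⟨?_, ?_, ⟨γ, hγ, hJ⟩, ?_⟩
    · show IsPrincipal (coprimeIdeals.ideal (I * 𝔟))
      rw [hJ]; exact ⟨γ, rfl⟩
    · show coprimeIdeals.ideal 𝔟 ∣ coprimeIdeals.ideal (I * 𝔟)
      rw [e]; exact Dvd.intro_left _ rfl
    · show (absNorm (coprimeIdeals.ideal (I * 𝔟)) : ℝ) ≤ _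
      rw [e, map_mul, Nat.cast_mul]
      exact mul_le_mul_of_nonneg_right h2 hb.le
  refine Nat.card_congr (Equiv.ofBijective (fun I => ⟨_, key I.1 I.2⟩) ⟨?_, ?_⟩)
  · rintro ⟨I, hI⟩ ⟨I', hI'⟩ h
    have h' : coprimeIdeals.ideal I * coprimeIdeals.ideal 𝔟 =
        coprimeIdeals.ideal I' * coprimeIdeals.ideal 𝔟 := by
      have := congrArg (fun J : {J : (Ideal (𝓞 K))⁰ // _} => ((J : (Ideal (𝓞 K))⁰) : Ideal (𝓞 K))) h
      exact this
    have hb0 : coprimeIdeals.ideal 𝔟 ≠ 0 := nonZeroDivisors.ne_zero (𝔟 : (Ideal (𝓞 K))⁰).2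
    have := mul_right_cancel₀ hb0 h'
    apply Subtype.ext; apply Subtype.ext; apply Subtype.ext
    exact this
  · rintro ⟨J, hJp, hdvd, ⟨γ, hγ, hJγ⟩, hN⟩
    obtain ⟨I', hI'⟩ := hdvd
    have hJ0 : (J : Ideal (𝓞 K)) ≠ 0 := nonZeroDivisors.ne_zero J.2
    have hI0 : I' ≠ 0 := by
      rintro rfl
      rw [mul_zero] at hI'
      exact hJ0 hI'
    have hγ0 : γ ≠ 0 := by
      rintro rfl
      rw [hJγ] at hJ0
      exact hJ0 (by rw [Ideal.zero_eq_bot, Ideal.span_singleton_eq_bot])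
    have hJc : IsCoprime (J : Ideal (𝓞 K)) 𝔪 := by
      rw [hJγ]; exact (isRayUnit_of_sub_one_mem hγ0 hγ).2
    have hIc : IsCoprime I' 𝔪 := by
      rw [hI'] at hJc
      exact IsCoprime.of_mul_left_right hJc
    let I : coprimeIdeals K 𝔪 := ⟨⟨I', mem_nonZeroDivisors_of_ne_zero hI0⟩, hIc⟩
    have e : coprimeIdeals.ideal (I * 𝔟) = (J : Ideal (𝓞 K)) := by
      show I' * coprimeIdeals.ideal 𝔟 = _
      rw [hI', mul_comm]
    refine ⟨⟨I, ?_, ?_⟩, ?_⟩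
    · rw [rayClass_eq_one_iff]
      exact ⟨γ, hγ0, hγ, e.trans hJγ⟩
    · show (absNorm I' : ℝ) ≤ x
      rw [hI', map_mul, Nat.cast_mul, mul_comm] at hN
      exact le_of_mul_le_mul_right hN hb
    · apply Subtype.ext; apply Subtype.ext
      exact e

/-- residues `r` modulo `𝔪` for which some global unit `u` has `u r = 1` -/
def unitResidues (𝔪 : Ideal (𝓞 K)) : Set (𝓞 K ⧸ 𝔪) :=
  {r | ∃ u : (𝓞 K)ˣ, Ideal.Quotient.mk 𝔪 (u : 𝓞 K) * r = 1}

theorem exists_generator_iff (γ₀ : 𝓞 K) :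
    (∃ γ : 𝓞 K, γ - 1 ∈ 𝔪 ∧ span ({γ₀} : Set (𝓞 K)) = span {γ}) ↔
      Ideal.Quotient.mk 𝔪 γ₀ ∈ unitResidues 𝔪 := by
  constructor
  · rintro ⟨γ, hγ, h⟩
    rw [Ideal.span_singleton_eq_span_singleton] at h
    obtain ⟨u, hu⟩ := h
    refine ⟨u, ?_⟩
    rw [← map_mul, mul_comm, hu, ← map_one (Ideal.Quotient.mk 𝔪), Ideal.Quotient.eq]
    exact hγ
  · rintro ⟨u, hu⟩
    refine ⟨(u : 𝓞 K) * γ₀, ?_, ?_⟩
    · rw [← Ideal.Quotient.eq, map_mul, map_one]; exact hu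
    · rw [Ideal.span_singleton_eq_span_singleton]
      exact ⟨u, mul_comm _ _⟩

theorem rayPred_integerSetEquiv_iff (𝔟 : coprimeIdeals K 𝔪) (c : ℝ) (a : integerSet K) :
    RayPred 𝔟 c (integerSetEquiv K a).1.1 ↔
      (preimageOfMemIntegerSet a : 𝓞 K) ∈ coprimeIdeals.ideal 𝔟 ∧
      Ideal.Quotient.mk 𝔪 (preimageOfMemIntegerSet a : 𝓞 K) ∈ unitResidues 𝔪 ∧
      mixedEmbedding.norm (a : mixedSpace K) ≤ c := by
  unfold RayPred
  rw [integerSetEquiv_apply_fst, Ideal.dvd_span_singleton, exists_generator_iff,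
    ← intNorm_coe, intNorm, absNorm_span_singleton]

theorem exists_mem_mk_eq (𝔟 : coprimeIdeals K 𝔪) (r : 𝓞 K ⧸ 𝔪) :
    ∃ β : 𝓞 K, β ∈ coprimeIdeals.ideal 𝔟 ∧ Ideal.Quotient.mk 𝔪 β = r := by
  obtain ⟨t, rfl⟩ := Ideal.Quotient.mk_surjective r
  have hI : IsCoprime (coprimeIdeals.ideal 𝔟) 𝔪 := 𝔟.2
  obtain ⟨b, hb, m, hm, hbm⟩ := Ideal.isCoprime_iff_exists.mp hI
  refine ⟨t * b, Ideal.mul_mem_left _ t hb, ?_⟩
  rw [Ideal.Quotient.eq]
  have : t * b - t = -(t * m) := by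
    have hb' : b = 1 - m := by rw [← hbm]; ring
    rw [hb']; ring
  rw [this]
  exact 𝔪.neg_mem (𝔪.mul_mem_left t hm)

/-- the product `𝔟 𝔪` as a nonzero ideal -/
def mulModulus (h𝔪 : 𝔪 ≠ ⊥) (𝔟 : coprimeIdeals K 𝔪) : (Ideal (𝓞 K))⁰ :=
  (𝔟 : (Ideal (𝓞 K))⁰) * ⟨𝔪, mem_nonZeroDivisors_of_ne_zero h𝔪⟩

theorem coe_mulModulus (h𝔪 : 𝔪 ≠ ⊥) (𝔟 : coprimeIdeals K 𝔪) :
    (mulModulus h𝔪 𝔟 : Ideal (𝓞 K)) = coprimeIdeals.ideal 𝔟 * 𝔪 := rfl

theorem mem_mulModulus_iff (h𝔪 : 𝔪 ≠ ⊥) (𝔟 : coprimeIdeals K 𝔪) (x : 𝓞 K) :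
    x ∈ (mulModulus h𝔪 𝔟 : Ideal (𝓞 K)) ↔ x ∈ coprimeIdeals.ideal 𝔟 ∧ x ∈ 𝔪 := by
  have hI : IsCoprime (coprimeIdeals.ideal 𝔟) 𝔪 := 𝔟.2
  rw [coe_mulModulus, Ideal.mul_eq_inf_of_isCoprime hI, Ideal.mem_inf]

theorem card_coset_eq (h𝔪 : 𝔪 ≠ ⊥) (𝔟 : coprimeIdeals K 𝔪) (c : ℝ) (β : 𝓞 K)
    (hβ : β ∈ coprimeIdeals.ideal 𝔟) (r : 𝓞 K ⧸ 𝔪) (hr : Ideal.Quotient.mk 𝔪 β = r) :
    Nat.card {a : integerSet K // (preimageOfMemIntegerSet a : 𝓞 K) ∈ coprimeIdeals.ideal 𝔟 ∧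
        Ideal.Quotient.mk 𝔪 (preimageOfMemIntegerSet a : 𝓞 K) = r ∧
        mixedEmbedding.norm (a : mixedSpace K) ≤ c} =
      Nat.card ↑({y | y ∈ fundamentalCone K ∧ mixedEmbedding.norm y ≤ c} ∩
        {y | y - mixedEmbedding K (β : K) ∈
          idealLattice K (FractionalIdeal.mk0 K (mulModulus h𝔪 𝔟))}) := by
  subst hr
  have hmem : ∀ y : mixedSpace K, y - mixedEmbedding K (β : K) ∈
      idealLattice K (FractionalIdeal.mk0 K (mulModulus h𝔪 𝔟)) ↔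
      ∃ l : 𝓞 K, l ∈ (mulModulus h𝔪 𝔟 : Ideal (𝓞 K)) ∧
        mixedEmbedding K (l : K) = y - mixedEmbedding K (β : K) := by
    intro y
    rw [mem_idealLattice, FractionalIdeal.coe_mk0]
    constructor
    · rintro ⟨z, hz, h⟩
      obtain ⟨l, hl, rfl⟩ := (FractionalIdeal.mem_coeIdeal _).mp hz
      exact ⟨l, hl, h⟩
    · rintro ⟨l, hl, h⟩
      exact ⟨(l : K), (FractionalIdeal.mem_coeIdeal _).mpr ⟨l, hl, rfl⟩, h⟩
  refine Nat.card_congr (Equiv.ofBijective (fun a => ⟨(a.1 : mixedSpace K), ?_⟩) ⟨?_, ?_⟩)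
  · obtain ⟨a, h1, h2, h3⟩ := a
    refine ⟨⟨a.2.1, h3⟩, ?_⟩
    show (a : mixedSpace K) - mixedEmbedding K (β : K) ∈
      idealLattice K (FractionalIdeal.mk0 K (mulModulus h𝔪 𝔟))
    rw [hmem]
    refine ⟨(preimageOfMemIntegerSet a : 𝓞 K) - β, ?_, ?_⟩
    · rw [mem_mulModulus_iff]
      exact ⟨Ideal.sub_mem _ h1 hβ, Ideal.Quotient.eq.mp h2⟩
    · rw [← mixedEmbedding_preimageOfMemIntegerSet a, ← map_sub]
      rfl
  · rintro ⟨a, ha⟩ ⟨a', ha'⟩ h
    have : (a : mixedSpace K) = a' := Subtype.mk.inj h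
    apply Subtype.ext; apply Subtype.ext
    exact this
  · rintro ⟨y, ⟨hy1, hy2⟩, hy3⟩
    have hy3' : y - mixedEmbedding K (β : K) ∈
      idealLattice K (FractionalIdeal.mk0 K (mulModulus h𝔪 𝔟)) := hy3
    rw [hmem] at hy3'
    obtain ⟨l, hl, h⟩ := hy3'
    rw [mem_mulModulus_iff] at hl
    have hy : mixedEmbedding K ((β + l : 𝓞 K) : K) = y := by
      have : ((β + l : 𝓞 K) : K) = (β : K) + (l : K) := by push_cast; rfl
      rw [this, map_add, h]; abel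
    have hmem' : mixedEmbedding K ((β + l : 𝓞 K) : K) ∈ integerSet K :=
      mem_integerSet.mpr ⟨hy ▸ hy1, β + l, rfl⟩
    have hpre := preimageOfMemIntegerSet_mixedEmbedding hmem'
    refine ⟨⟨⟨mixedEmbedding K ((β + l : 𝓞 K) : K), hmem'⟩, ?_, ?_, ?_⟩, ?_⟩
    · rw [hpre]; exact Ideal.add_mem _ hβ hl.1
    · rw [hpre, map_add, add_eq_left, Ideal.Quotient.eq_zero_iff_mem]; exact hl.2
    · show mixedEmbedding.norm (mixedEmbedding K ((β + l : 𝓞 K) : K)) ≤ c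
      rw [hy]; exact hy2
    · apply Subtype.ext
      exact hy

theorem finite_integerSet_norm_le (c : ℝ) :
    Finite {a : integerSet K // mixedEmbedding.norm (a : mixedSpace K) ≤ c} := by
  have hfin : Finite ↥{I : (Ideal (𝓞 K))⁰ | absNorm (I : Ideal (𝓞 K)) ≤ ⌊c⌋₊} :=
    (Ideal.finite_setOfPred_absNorm_le₀ ⌊c⌋₊).to_subtype
  have hbound : ∀ a : {a : integerSet K // mixedEmbedding.norm (a : mixedSpace K) ≤ c},
      (integerSetEquiv K a.1).1.1 ∈
        {I : (Ideal (𝓞 K))⁰ | absNorm (I : Ideal (𝓞 K)) ≤ ⌊c⌋₊} := by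
    rintro ⟨a, ha⟩
    show absNorm ((integerSetEquiv K a).1.1 : Ideal (𝓞 K)) ≤ ⌊c⌋₊
    rw [integerSetEquiv_apply_fst, absNorm_span_singleton]
    have h0 : (0 : ℝ) ≤ c := le_trans (mixedEmbedding.norm_nonneg _) ha
    rw [Nat.le_floor_iff h0]
    have := intNorm_coe a
    rw [intNorm] at this
    rw [this]; exact ha
  let f : {a : integerSet K // mixedEmbedding.norm (a : mixedSpace K) ≤ c} →
      ↥{I : (Ideal (𝓞 K))⁰ | absNorm (I : Ideal (𝓞 K)) ≤ ⌊c⌋₊} × torsion K :=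
    fun a => (⟨(integerSetEquiv K a.1).1.1, hbound a⟩, (integerSetEquiv K a.1).2)
  refine Finite.of_injective f ?_
  rintro ⟨a, ha⟩ ⟨a', ha'⟩ h
  have h1 : (integerSetEquiv K a).1.1 = (integerSetEquiv K a').1.1 :=
    congrArg (fun z => (z.1 : (Ideal (𝓞 K))⁰)) h
  have h2 : (integerSetEquiv K a).2 = (integerSetEquiv K a').2 := by
    have := congrArg Prod.snd h
    exact this
  have : integerSetEquiv K a = integerSetEquiv K a' := Prod.ext (Subtype.ext h1) h2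
  exact Subtype.ext ((integerSetEquiv K).injective this)

/-- decomposition according to the residue class modulo `𝔪` -/
def fiberEquiv (𝔟 : coprimeIdeals K 𝔪) (c : ℝ) :
    {a : integerSet K // (preimageOfMemIntegerSet a : 𝓞 K) ∈ coprimeIdeals.ideal 𝔟 ∧
        Ideal.Quotient.mk 𝔪 (preimageOfMemIntegerSet a : 𝓞 K) ∈ unitResidues 𝔪 ∧
        mixedEmbedding.norm (a : mixedSpace K) ≤ c} ≃
    Σ r : ↥(unitResidues 𝔪),
      {a : integerSet K // (preimageOfMemIntegerSet a : 𝓞 K) ∈ coprimeIdeals.ideal 𝔟 ∧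
        Ideal.Quotient.mk 𝔪 (preimageOfMemIntegerSet a : 𝓞 K) = (r : 𝓞 K ⧸ 𝔪) ∧
        mixedEmbedding.norm (a : mixedSpace K) ≤ c} where
  toFun a := ⟨⟨_, a.2.2.1⟩, ⟨a.1, a.2.1, rfl, a.2.2.2⟩⟩
  invFun x := ⟨x.2.1, x.2.2.1, (by rw [x.2.2.2.1]; exact x.1.2), x.2.2.2.2⟩
  left_inv a := rfl
  right_inv := by
    rintro ⟨⟨r, hr⟩, ⟨a, h1, h2, h3⟩⟩
    dsimp only at h2
    subst h2
    rfl

variable (K 𝔪) in
/-- the main-term constant for ray classes modulo `𝔪` -/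
def rayKappa : ℝ := (Nat.card ↥(unitResidues 𝔪) : ℝ) * kappa K / absNorm 𝔪

set_option backward.isDefEq.respectTransparency false in
open scoped Classical in
theorem card_rayClass_mul_torsionOrder (h𝔪 : 𝔪 ≠ ⊥) (𝔟 : coprimeIdeals K 𝔪)
    [Fintype ↥(unitResidues 𝔪)]
    (β : 𝓞 K ⧸ 𝔪 → 𝓞 K) (hβ1 : ∀ r, β r ∈ coprimeIdeals.ideal 𝔟)
    (hβ2 : ∀ r, Ideal.Quotient.mk 𝔪 (β r) = r) (x : ℝ) :
    Nat.card {I : coprimeIdeals K 𝔪 //
        rayClass (I * 𝔟) = 1 ∧ (absNorm (coprimeIdeals.ideal I) : ℝ) ≤ x} * torsionOrder K =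
      ∑ r : ↥(unitResidues 𝔪),
        Nat.card ↑({y | y ∈ fundamentalCone K ∧
            mixedEmbedding.norm y ≤ x * absNorm (coprimeIdeals.ideal 𝔟)} ∩
          {y | y - mixedEmbedding K (β r : K) ∈
            idealLattice K (FractionalIdeal.mk0 K (mulModulus h𝔪 𝔟))}) := by
  set c := x * absNorm (coprimeIdeals.ideal 𝔟) with hc
  have := finite_integerSet_norm_le (K := K) c
  have hfinr : ∀ r : ↥(unitResidues 𝔪), Finite
      {a : integerSet K // (preimageOfMemIntegerSet a : 𝓞 K) ∈ coprimeIdeals.ideal 𝔟 ∧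
        Ideal.Quotient.mk 𝔪 (preimageOfMemIntegerSet a : 𝓞 K) = (r : 𝓞 K ⧸ 𝔪) ∧
        mixedEmbedding.norm (a : mixedSpace K) ≤ c} := fun r =>
    Finite.of_injective
      (fun a => (⟨a.1, a.2.2.2⟩ : {a : integerSet K // mixedEmbedding.norm (a : mixedSpace K) ≤ c}))
      (fun a a' h => Subtype.ext (congrArg (fun z => z.1) h))
  rw [card_rayClass_eq 𝔟 x, ← card_integerSet_eq K (RayPred 𝔟 c),
    Nat.card_congr (Equiv.subtypeEquivRight (rayPred_integerSetEquiv_iff 𝔟 c)),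
    Nat.card_congr (fiberEquiv 𝔟 c), Nat.card_sigma]
  refine Finset.sum_congr rfl fun r _ => ?_
  exact card_coset_eq h𝔪 𝔟 c (β r) (hβ1 r) r (hβ2 r)

set_option backward.isDefEq.respectTransparency false in
open scoped Classical in
/-- **Ideal counting in a ray class, with error term**: for `𝔟` prime to `𝔪`, the number of
integral ideals `I` prime to `𝔪` with `I 𝔟` in the trivial ray class and `N I ≤ x` is
`rayKappa K 𝔪 * x + O(x^(1 - 1/n))`, the main term being independent of `𝔟`. -/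
theorem exists_rayClass_count_error (h𝔪 : 𝔪 ≠ ⊥) (𝔟 : coprimeIdeals K 𝔪) :
    ∃ M : ℝ, ∀ x : ℝ, 1 ≤ x →
      |(Nat.card {I : coprimeIdeals K 𝔪 //
          rayClass (I * 𝔟) = 1 ∧ (absNorm (coprimeIdeals.ideal I) : ℝ) ≤ x} : ℝ) -
        rayKappa K 𝔪 * x| ≤ M * x ^ (1 - 1 / (Module.finrank ℚ K : ℝ)) := by
  have : Finite (𝓞 K ⧸ 𝔪) := Ideal.finiteQuotientOfFreeOfNeBot 𝔪 h𝔪
  haveI : Fintype ↥(unitResidues 𝔪) := Fintype.ofFinite _
  obtain ⟨C₀, hC₀⟩ := exists_cone_coset_count_error K (mulModulus h𝔪 𝔟)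
  choose β hβ1 hβ2 using exists_mem_mk_eq 𝔟
  have hNb := absNorm_ideal_pos 𝔟
  have hNb1 : (1 : ℝ) ≤ absNorm (coprimeIdeals.ideal 𝔟) := by
    exact_mod_cast Nat.one_le_iff_ne_zero.mpr
      (absNorm_ne_zero_of_nonZeroDivisors (𝔟 : (Ideal (𝓞 K))⁰))
  have hNm : (0 : ℝ) < absNorm 𝔪 := by
    have : absNorm 𝔪 ≠ 0 := by
      rw [Ne, Ideal.absNorm_eq_zero_iff]; exact h𝔪
    exact_mod_cast Nat.pos_of_ne_zero this
  have hw : (0 : ℝ) < torsionOrder K := by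
    exact_mod_cast Nat.pos_of_ne_zero (torsionOrder_ne_zero K)
  have hn : (1 : ℝ) ≤ Module.finrank ℚ K := by
    exact_mod_cast (Module.finrank_pos : 0 < Module.finrank ℚ K)
  have hexp1 : 1 - 1 / (Module.finrank ℚ K : ℝ) ≤ 1 := by
    have : 0 ≤ 1 / (Module.finrank ℚ K : ℝ) := by positivity
    linarith
  set R : ℝ := (Nat.card ↥(unitResidues 𝔪) : ℝ) with hR
  have hR0 : 0 ≤ R := Nat.cast_nonneg _
  refine ⟨R * |C₀| * absNorm (coprimeIdeals.ideal 𝔟) / torsionOrder K, fun x hx => ?_⟩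
  have hx0 : 0 < x := lt_of_lt_of_le one_pos hx
  set c := x * absNorm (coprimeIdeals.ideal 𝔟) with hc
  have hc1 : 1 ≤ c := by
    rw [hc]; nlinarith
  have e1 := card_rayClass_mul_torsionOrder h𝔪 𝔟 β hβ1 hβ2 x
  have e3 := const_eq_kappa K (mulModulus h𝔪 𝔟)
  set V := volume.real ((toMixed K) ⁻¹' normLeOne K) /
    ZLattice.covolume (ZLattice.comap (E := mixedSpace K) (F := euclidean.mixedSpace K) ℝ
      (mixedEmbedding.idealLattice K (FractionalIdeal.mk0 K (mulModulus h𝔪 𝔟)))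
      (toMixed K).toLinearMap) with hV
  set Nc := (Nat.card {I : coprimeIdeals K 𝔪 //
      rayClass (I * 𝔟) = 1 ∧ (absNorm (coprimeIdeals.ideal I) : ℝ) ≤ x} : ℝ) with hNc
  have e1' : Nc * torsionOrder K = ∑ r : ↥(unitResidues 𝔪),
      (Nat.card ↑({y | y ∈ fundamentalCone K ∧ mixedEmbedding.norm y ≤ c} ∩
          {y | y - mixedEmbedding K (β r : K) ∈
            idealLattice K (FractionalIdeal.mk0 K (mulModulus h𝔪 𝔟))}) : ℝ) := by
    rw [hNc, ← Nat.cast_mul, e1, Nat.cast_sum]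
  have hNJ : (absNorm (mulModulus h𝔪 𝔟 : Ideal (𝓞 K)) : ℝ) =
      absNorm (coprimeIdeals.ideal 𝔟) * absNorm 𝔪 := by
    rw [coe_mulModulus, map_mul, Nat.cast_mul]
  have hRcard : R = (Finset.univ : Finset ↥(unitResidues 𝔪)).card := by
    rw [hR, Finset.card_univ, Nat.card_eq_fintype_card]
  have e4 : Nc - rayKappa K 𝔪 * x =
      (∑ r : ↥(unitResidues 𝔪),
        ((Nat.card ↑({y | y ∈ fundamentalCone K ∧ mixedEmbedding.norm y ≤ c} ∩
          {y | y - mixedEmbedding K (β r : K) ∈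
            idealLattice K (FractionalIdeal.mk0 K (mulModulus h𝔪 𝔟))}) : ℝ) - V * c)) /
        torsionOrder K := by
    rw [Finset.sum_sub_distrib, ← e1', Finset.sum_const, nsmul_eq_mul, ← hRcard, rayKappa, ← hR,
      ← e3, hNJ, hc]
    field_simp
  rw [e4, abs_div, abs_of_pos hw, div_le_iff₀ hw]
  have h5 : c ^ (1 - 1 / (Module.finrank ℚ K : ℝ)) ≤
      x ^ (1 - 1 / (Module.finrank ℚ K : ℝ)) * absNorm (coprimeIdeals.ideal 𝔟) := by
    rw [hc, Real.mul_rpow hx0.le (by linarith)]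
    apply mul_le_mul_of_nonneg_left _ (Real.rpow_nonneg hx0.le _)
    calc (absNorm (coprimeIdeals.ideal 𝔟) : ℝ) ^ (1 - 1 / (Module.finrank ℚ K : ℝ))
        ≤ (absNorm (coprimeIdeals.ideal 𝔟) : ℝ) ^ (1 : ℝ) :=
          Real.rpow_le_rpow_of_exponent_le hNb1 hexp1
      _ = absNorm (coprimeIdeals.ideal 𝔟) := Real.rpow_one _
  have h6 : ∀ r : ↥(unitResidues 𝔪),
      |(Nat.card ↑({y | y ∈ fundamentalCone K ∧ mixedEmbedding.norm y ≤ c} ∩
          {y | y - mixedEmbedding K (β r : K) ∈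
            idealLattice K (FractionalIdeal.mk0 K (mulModulus h𝔪 𝔟))}) : ℝ) - V * c| ≤
        |C₀| * (x ^ (1 - 1 / (Module.finrank ℚ K : ℝ)) * absNorm (coprimeIdeals.ideal 𝔟)) := by
    intro r
    refine (hC₀ c hc1 (mixedEmbedding K (β r : K))).trans ?_
    exact (mul_le_mul_of_nonneg_right (le_abs_self _) (Real.rpow_nonneg (by linarith) _)).trans
      (mul_le_mul_of_nonneg_left h5 (abs_nonneg _))
  calc _ ≤ ∑ r : ↥(unitResidues 𝔪),
        |(Nat.card ↑({y | y ∈ fundamentalCone K ∧ mixedEmbedding.norm y ≤ c} ∩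
          {y | y - mixedEmbedding K (β r : K) ∈
            idealLattice K (FractionalIdeal.mk0 K (mulModulus h𝔪 𝔟))}) : ℝ) - V * c| :=
        Finset.abs_sum_le_sum_abs _ _
    _ ≤ ∑ _r : ↥(unitResidues 𝔪),
        |C₀| * (x ^ (1 - 1 / (Module.finrank ℚ K : ℝ)) * absNorm (coprimeIdeals.ideal 𝔟)) :=
        Finset.sum_le_sum fun r _ => h6 r
    _ = R * |C₀| * absNorm (coprimeIdeals.ideal 𝔟) / torsionOrder K *
          x ^ (1 - 1 / (Module.finrank ℚ K : ℝ)) * torsionOrder K := by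
        rw [Finset.sum_const, nsmul_eq_mul, ← hRcard]
        field_simp

end Fermat.Agent.CFT.H34
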