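import Mathlib
import Fermat.Agent.S14.H31_EulerChi
import Fermat.Agent.S14.H79_SecondInequalityMain

/-!
# CFT / layer C : the analytic second inequality for generalized (ray) class data

* `card_le_of_bounds_eventually` : the abstract squeeze of `S14.H79` with eventual hypotheses.
* `hasProd_idealSeries` : Euler product of `∑_I ψ(I) N(I)^(-s)` for every multiplicative function
  `ψ` on the nonzero ideals of a number field with `‖ψ‖ ≤ 1` (e.g. a ray class character extended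
  by zero).
* `index_le_finrank_of_classData` : for an extension `M / E` of number fields, a finite abelian
  group `G`, a finite set `T` of bad primes and classes `g P ∈ G` of the primes of `E`, whose
  character twisted series are bounded near `1⁺` for nontrivial characters: every subgroup of `G`
  containing the classes of the primes outside `T` with a degree one prime of `M` above has index
  at most `[M : E]`.
-/

set_option autoImplicit false

open NumberField Ideal IsDedekindDomain nonZeroDivisors Filter Topology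

namespace Fermat.Agent.CFT.H79

open Fermat.Agent.S14 Fermat.Agent.S14.H72 Fermat.Agent.S14.H79 Fermat.Agent.S14.H31

noncomputable section

/-- **Abstract second inequality**, analytic hypotheses as eventual statements at `1⁺`. -/
theorem card_le_of_bounds_eventually {P : Type*} {G : Type*} [CommGroup G] [Finite G]
    (N : P → ℝ) (hN : ∀ p, 2 ≤ N p) (g : P → G)
    (hsum : ∀ s : ℝ, 1 < s → Summable fun p => N p ^ (-s))
    (L : (G →* ℂˣ) → ℝ → ℂ)
    (hprod : ∀ (χ : G →* ℂˣ) (s : ℝ), 1 < s →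
      HasProd (fun p => (1 - ((χ (g p) : ℂˣ) : ℂ) * ((N p ^ (-s) : ℝ) : ℂ))⁻¹) (L χ s))
    (hA : ∃ A : ℝ, ∀ᶠ s in 𝓝[>] (1 : ℝ), ‖L 1 s‖ ≤ A / (s - 1))
    (hB : ∀ χ : G →* ℂˣ, χ ≠ 1 → ∃ B : ℝ, ∀ᶠ s in 𝓝[>] (1 : ℝ), ‖L χ s‖ ≤ B)
    (n : ℕ) (hn : 0 < n)
    (hC : ∃ C : ℝ, ∀ᶠ s in 𝓝[>] (1 : ℝ),
      (1 / n : ℝ) * Real.log (1 / (s - 1)) - C ≤ ∑' p : {p // g p = 1}, N p.1 ^ (-s)) :
    Nat.card G ≤ n := by
  classical
  obtain ⟨A, hA⟩ := hA
  obtain ⟨C, hC⟩ := hC
  have hfin : Finite (G →* ℂˣ) := inferInstance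
  have hB' : ∀ χ : G →* ℂˣ, ∃ B : ℝ, χ ≠ 1 →
      ∀ᶠ s in 𝓝[>] (1 : ℝ), ‖L χ s‖ ≤ B := fun χ => by
    by_cases hχ : χ = 1
    · exact ⟨0, fun h => absurd hχ h⟩
    · obtain ⟨B, hB⟩ := hB χ hχ
      exact ⟨B, fun _ => hB⟩
  choose B hBs using hB'
  have hall : ∀ᶠ s in 𝓝[>] (1 : ℝ), (‖L 1 s‖ ≤ A / (s - 1) ∧
      (1 / n : ℝ) * Real.log (1 / (s - 1)) - C ≤ ∑' p : {p // g p = 1}, N p.1 ^ (-s)) ∧
      ∀ χ : G →* ℂˣ, χ ≠ 1 → ‖L χ s‖ ≤ B χ := by
    refine (hA.and hC).and ?_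
    rw [Filter.eventually_all]
    intro χ
    by_cases hχ : χ = 1
    · exact Filter.Eventually.of_forall fun s h => absurd hχ h
    · exact (hBs χ hχ).mono fun s hs _ => hs
  obtain ⟨δ, hδ, hδs⟩ := exists_delta_of_eventually hall
  exact card_le_of_bounds_near N hN g hsum L δ hδ hprod A (fun s hs hs2 => (hδs s hs hs2).1.1)
    (fun χ hχ => ⟨B χ, fun s hs hs2 => (hδs s hs hs2).2 χ hχ⟩) n hn C
    (fun s hs hs2 => (hδs s hs hs2).1.2)

variable (E : Type*) [Field E] [NumberField E]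

/-- the Dirichlet series `∑_I ψ(I) N(I)^(-s)` attached to a function on nonzero ideals -/
def idealSeries (ψ : (Ideal (𝓞 E))⁰ → ℂ) (s : ℝ) : ℂ :=
  ∑' I : (Ideal (𝓞 E))⁰, ψ I * (absNorm (I : Ideal (𝓞 E)) : ℂ) ^ (-(s : ℂ))

variable {E}

theorem norm_normCpowHom (s : ℝ) (I : (Ideal (𝓞 E))⁰) :
    ‖normCpowHom E (s : ℂ) I‖ = (absNorm (I : Ideal (𝓞 E)) : ℝ) ^ (-s) := by
  have hpos : 0 < absNorm (I : Ideal (𝓞 E)) := by
    refine Nat.pos_of_ne_zero fun h => ?_
    exact (mem_nonZeroDivisors_iff_ne_zero.mp I.2) (absNorm_eq_zero_iff.mp h)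
  show ‖(absNorm (I : Ideal (𝓞 E)) : ℂ) ^ (-(s : ℂ))‖ = _
  rw [Complex.norm_natCast_cpow_of_pos hpos]
  simp

theorem norm_term_le (ψ : (Ideal (𝓞 E))⁰ →* ℂ) (hψ : ∀ I, ‖ψ I‖ ≤ 1) (s : ℝ)
    (I : (Ideal (𝓞 E))⁰) :
    ‖ψ I * (absNorm (I : Ideal (𝓞 E)) : ℂ) ^ (-(s : ℂ))‖ ≤
      (absNorm (I : Ideal (𝓞 E)) : ℝ) ^ (-s) := by
  have h := norm_normCpowHom (E := E) s I
  rw [norm_mul]
  calc ‖ψ I‖ * ‖(absNorm (I : Ideal (𝓞 E)) : ℂ) ^ (-(s : ℂ))‖
      ≤ 1 * ‖(absNorm (I : Ideal (𝓞 E)) : ℂ) ^ (-(s : ℂ))‖ :=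
        mul_le_mul_of_nonneg_right (hψ I) (norm_nonneg _)
    _ = _ := by rw [one_mul]; exact h

/-- absolute summability of `∑_I ψ(I) N(I)^(-s)` for `‖ψ‖ ≤ 1`, `s > 1` -/
theorem summable_norm_idealSeries_term (ψ : (Ideal (𝓞 E))⁰ →* ℂ) (hψ : ∀ I, ‖ψ I‖ ≤ 1)
    {s : ℝ} (hs : 1 < s) :
    Summable fun I : (Ideal (𝓞 E))⁰ => ‖ψ I * (absNorm (I : Ideal (𝓞 E)) : ℂ) ^ (-(s : ℂ))‖ :=
  Summable.of_nonneg_of_le (fun _ => norm_nonneg _) (norm_term_le ψ hψ s)
    (summable_absNorm_rpow_nonzero E hs)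

/-- **General Euler product** for a multiplicative function on the nonzero ideals of a number
field, bounded by `1`. -/
theorem hasProd_idealSeries (ψ : (Ideal (𝓞 E))⁰ →* ℂ) (hψ : ∀ I, ‖ψ I‖ ≤ 1)
    {s : ℝ} (hs : 1 < s) :
    HasProd (fun P : HeightOneSpectrum (𝓞 E) =>
      (1 - ψ (primeIdeal0 E P) * (absNorm P.asIdeal : ℂ) ^ (-(s : ℂ)))⁻¹) (idealSeries E ψ s) := by
  set φ : (Ideal (𝓞 E))⁰ →* ℂ := ψ * normCpowHom E (s : ℂ) with hφ
  have hφapply : ∀ I, φ I = ψ I * (absNorm (I : Ideal (𝓞 E)) : ℂ) ^ (-(s : ℂ)) := fun I => rfl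
  set x : HeightOneSpectrum (𝓞 E) → ℂ := fun P => φ (primeIdeal0 E P) with hxdef
  have hx : ∀ P, ‖x P‖ < 1 := fun P => by
    show ‖φ (primeIdeal0 E P)‖ < 1
    rw [hφapply]
    refine lt_of_le_of_lt (norm_term_le ψ hψ s _) ?_
    exact lt_of_le_of_lt (primeTerm_le_half E hs.le P) (by norm_num)
  have hterm : ∀ k, cmono x k = φ (expsEquiv0 E k) := fun k => by
    rw [expsEquiv0_apply]
    unfold idealOfExps0 cmono
    rw [map_finsuppProd]
    simp [hxdef]
  have hsum : Summable fun k : HeightOneSpectrum (𝓞 E) →₀ ℕ => ‖cmono x k‖ := by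
    have h := (expsEquiv0 E).summable_iff.mpr (summable_norm_idealSeries_term ψ hψ hs)
    refine h.congr fun k => ?_
    rw [hterm k]
    rfl
  have h := hasProd_of_summable_norm_cmono x hx hsum
  have htsum : ∑' k : HeightOneSpectrum (𝓞 E) →₀ ℕ, cmono x k = idealSeries E ψ s := by
    unfold idealSeries
    rw [← (expsEquiv0 E).tsum_eq]
    exact tsum_congr fun k => hterm k
  rw [htsum] at h
  exact h

/-- `‖∑_I ψ(I) N(I)^(-s)‖ ≤ ζ_E(s)` -/
theorem norm_idealSeries_le (ψ : (Ideal (𝓞 E))⁰ →* ℂ) (hψ : ∀ I, ‖ψ I‖ ≤ 1)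
    {s : ℝ} (hs : 1 < s) : ‖idealSeries E ψ s‖ ≤ ‖classL E 1 s‖ := by
  have h1 : ‖idealSeries E ψ s‖ ≤ zetaReal E s := by
    unfold idealSeries
    refine (norm_tsum_le_tsum_norm (summable_norm_idealSeries_term ψ hψ hs)).trans ?_
    rw [← tsum_absNorm_rpow_nonzero E hs]
    exact (summable_norm_idealSeries_term ψ hψ hs).tsum_le_tsum (norm_term_le ψ hψ s)
      (summable_absNorm_rpow_nonzero E hs)
  have h2 : ‖classL E 1 s‖ = zetaReal E s := by
    rw [← dedekindZeta_eq_classL_one E s hs, dedekindZeta_eq_zetaReal E hs, Complex.norm_real,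
      Real.norm_of_nonneg (le_trans zero_le_one (one_le_zetaReal E hs))]
  rw [h2]
  exact h1

variable (E) (M : Type*) [Field M] [NumberField M] [Algebra E M]

/-- **Second inequality for generalized (ray) class data.**  `G` a finite abelian group, `T` a
finite set of bad primes of `E`, `g P ∈ G` the class of the prime `P`, and for every character `χ`
of `G` a multiplicative function `ψ χ` on the nonzero ideals of `E`, bounded by `1`, with
`ψ χ P = χ (g P)` off `T` and `ψ χ P = 0` on `T`, such that `∑_I ψ χ (I) N(I)^(-s)` is bounded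
near `1⁺` for `χ ≠ 1`.  Then every subgroup `H` of `G` containing `g P` for all `P ∉ T` having a
prime of `M` of relative degree one above has index at most `[M : E]`. -/
theorem index_le_finrank_of_classData
    {G : Type*} [CommGroup G] [Finite G]
    (T : Set (HeightOneSpectrum (𝓞 E))) (hT : T.Finite)
    (g : HeightOneSpectrum (𝓞 E) → G)
    (ψ : (G →* ℂˣ) → (Ideal (𝓞 E))⁰ →* ℂ)
    (hgood : ∀ (χ : G →* ℂˣ) (P : HeightOneSpectrum (𝓞 E)), P ∉ T →
      ψ χ (primeIdeal0 E P) = ((χ (g P) : ℂˣ) : ℂ))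
    (hbad : ∀ (χ : G →* ℂˣ) (P : HeightOneSpectrum (𝓞 E)), P ∈ T → ψ χ (primeIdeal0 E P) = 0)
    (hnorm : ∀ (χ : G →* ℂˣ) (I : (Ideal (𝓞 E))⁰), ‖ψ χ I‖ ≤ 1)
    (hB : ∀ χ : G →* ℂˣ, χ ≠ 1 →
      ∃ B : ℝ, ∀ᶠ s in 𝓝[>] (1 : ℝ), ‖idealSeries E (ψ χ) s‖ ≤ B)
    (H : Subgroup G)
    (hH : ∀ P : HeightOneSpectrum (𝓞 E), P ∉ T → P ∈ splitPrimes E M → g P ∈ H) :
    H.index ≤ Module.finrank E M := by
  classical
  set π : G →* G ⧸ H := QuotientGroup.mk' H with hπ
  have hπsurj : Function.Surjective π := QuotientGroup.mk'_surjective H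
  have hcomp_ne : ∀ χ' : (G ⧸ H) →* ℂˣ, χ' ≠ 1 → χ'.comp π ≠ 1 := fun χ' hχ' h =>
    hχ' (MonoidHom.ext fun x => by
      obtain ⟨y, rfl⟩ := hπsurj x
      exact DFunLike.congr_fun h y)
  -- the index type: primes outside `T`
  let P' : Type _ := {P : HeightOneSpectrum (𝓞 E) // P ∉ T}
  let N : P' → ℝ := fun p => (absNorm p.1.asIdeal : ℝ)
  let g' : P' → G ⧸ H := fun p => π (g p.1)
  have hsumE := summable_primeIdeal_rpow E
  have key := card_le_of_bounds_eventually (P := P') (G := G ⧸ H) N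
    (fun p => two_le_absNorm E p.1) g'
    (fun s hs => (hsumE s hs).subtype _)
    (fun χ' s => idealSeries E (ψ (χ'.comp π)) s) ?_ ?_ ?_ (Module.finrank E M)
    Module.finrank_pos ?_
  · rwa [Subgroup.index_eq_card]
  · -- Euler products
    intro χ' s hs
    have h := hasProd_idealSeries (ψ (χ'.comp π)) (hnorm _) hs
    have hsupp : Function.mulSupport (fun P : HeightOneSpectrum (𝓞 E) =>
        (1 - ψ (χ'.comp π) (primeIdeal0 E P) * (absNorm P.asIdeal : ℂ) ^ (-(s : ℂ)))⁻¹) ⊆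
        {P | P ∉ T} := by
      intro P hP
      by_contra hPT
      have hPT' : P ∈ T := not_not.mp hPT
      apply hP
      simp [hbad _ P hPT']
    have h2 := (hasProd_subtype_iff_of_mulSupport_subset hsupp).mpr h
    refine h2.congr_fun ?_
    intro p
    simp only [Function.comp_apply, N, g']
    rw [hgood _ p.1 p.2, natCast_cpow_neg, MonoidHom.comp_apply]
  · -- the trivial character
    obtain ⟨A, hA⟩ := exists_classL_one_bound E
    refine ⟨A, ?_⟩
    filter_upwards [hA, self_mem_nhdsWithin] with s hs hs1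
    exact (norm_idealSeries_le _ (hnorm _) hs1).trans hs
  · -- nontrivial characters
    intro χ' hχ'
    exact hB _ (hcomp_ne χ' hχ')
  · -- density
    obtain ⟨C, hC⟩ := exists_splitPrimes_lower' E M
    refine ⟨C + hT.toFinset.card, ?_⟩
    filter_upwards [hC, self_mem_nhdsWithin] with s hs hs1
    have hs1' : (1 : ℝ) < s := hs1
    set F : HeightOneSpectrum (𝓞 E) → ℝ := fun P => (absNorm P.asIdeal : ℝ) ^ (-s) with hF
    have hF0 : ∀ P, 0 ≤ F P := fun P => Real.rpow_nonneg (Nat.cast_nonneg _) _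
    have hF1 : ∀ P, F P ≤ 1 := fun P => by
      have := (rpow_neg_mem_Icc (two_le_absNorm E P) hs1').2
      linarith
    have hFs : Summable F := hsumE s hs1'
    set A : Set (HeightOneSpectrum (𝓞 E)) := {P | P ∉ T ∧ π (g P) = 1} with hAdef
    -- rewrite the target sum as a sum over `A`
    have e1 : ∑' p : {p : P' // g' p = 1}, N p.1 ^ (-s) = ∑' P : A, F P.1 := by
      exact ((Equiv.subtypeSubtypeEquivSubtypeInter (fun P : HeightOneSpectrum (𝓞 E) => P ∉ T)
        (fun P => π (g P) = 1)).tsum_eq (fun P : A => F P.1)).symm ▸ rfl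
    rw [e1]
    have hsub : splitPrimes E M ⊆ A ∪ T := by
      intro P hP
      by_cases hPT : P ∈ T
      · exact Or.inr hPT
      · refine Or.inl ⟨hPT, ?_⟩
        rw [hπ, QuotientGroup.mk'_apply, QuotientGroup.eq_one_iff]
        exact hH P hPT hP
    have h1 : ∑' P : splitPrimes E M, F P.1 ≤ ∑' P : A, F P.1 + ∑' P : T, F P.1 := by
      rw [tsum_subtype (splitPrimes E M) F, tsum_subtype A F, tsum_subtype T F,
        ← (hFs.indicator A).tsum_add (hFs.indicator T)]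
      refine (hFs.indicator _).tsum_le_tsum (fun P => ?_) ((hFs.indicator A).add (hFs.indicator T))
      by_cases hP : P ∈ splitPrimes E M
      · rw [Set.indicator_of_mem hP]
        rcases hsub hP with h | h
        · rw [Set.indicator_of_mem h]
          linarith [Set.indicator_nonneg (fun P _ => hF0 P) P (s := T)]
        · rw [Set.indicator_of_mem h]
          linarith [Set.indicator_nonneg (fun P _ => hF0 P) P (s := A)]
      · rw [Set.indicator_of_notMem hP]
        exact add_nonneg (Set.indicator_nonneg (fun P _ => hF0 P) P)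
          (Set.indicator_nonneg (fun P _ => hF0 P) P)
    have h2 : ∑' P : T, F P.1 ≤ hT.toFinset.card := by
      have : Fintype T := hT.fintype
      rw [tsum_fintype]
      calc ∑ P : T, F P.1 ≤ ∑ _P : T, (1 : ℝ) := Finset.sum_le_sum fun P _ => hF1 P.1
        _ = (hT.toFinset.card : ℝ) := by
          rw [Finset.sum_const, nsmul_eq_mul, mul_one, Finset.card_univ,
            Set.Finite.card_toFinset]
    have h3 : (1 / (Module.finrank E M : ℕ) : ℝ) * Real.log (1 / (s - 1)) - C ≤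
        ∑' P : splitPrimes E M, F P.1 := hs
    linarith

end

end Fermat.Agent.CFT.H79
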