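import Mathlib
import Fermat.Agent.S14.H98_LBounded
import Fermat.Agent.CFT.H79_RaySqueeze

/-!
# CFT / layer C : boundedness of ideal Dirichlet series from partial sums

Generalisation of `S14.H98.classLSeries_bounded_of` from class group characters to arbitrary
coefficient functions on the nonzero ideals of a number field, and to arbitrary "class data"
`cl : ideals → Option G` (ideals in no class contribute `0`) with equidistributed ideal counts.

* `norm_idealSeries_le_of_partial_sums` : partial sums `O(n^r)`, `r < 1`, bound the series on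
  `(1, 2]`.
* `norm_sum_classData_le` : if the number of ideals of norm `≤ x` in each class `C : G` is
  `κ x + O(x^r)` with `κ` independent of `C`, the partial sums of a nontrivial character are
  `O(x^r)`.
* `exists_bound_idealSeries_of_count` : hence the twisted series is bounded on `(1, 2]`.
-/

set_option autoImplicit false

open NumberField Ideal IsDedekindDomain nonZeroDivisors Filter Topology

namespace Fermat.Agent.CFT.H79

open Fermat.Agent.S14 Fermat.Agent.S14.H98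

noncomputable section

variable {K : Type*} [Field K] [NumberField K]

/-- partial sums `O(n^r)` with `r < 1` bound `∑_I ψ(I) N(I)^(-s)` on `(1, 2]` -/
theorem norm_idealSeries_le_of_partial_sums (ψ : (Ideal (𝓞 K))⁰ → ℂ) {r A : ℝ}
    (hr0 : 0 ≤ r) (hr1 : r < 1) (hA0 : 0 ≤ A)
    (hA : ∀ n : ℕ, ‖∑ I ∈ idealsLE K n, ψ I‖ ≤ A * (n : ℝ) ^ r)
    {s : ℝ} (hs1 : 1 < s) (hs2 : s ≤ 2) :
    ‖idealSeries K ψ s‖ ≤ 2 * A / (1 - r) := by
  have hB0 : 0 ≤ 2 * A / (1 - r) := div_nonneg (by positivity) (by linarith)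
  unfold idealSeries
  by_cases hsum : Summable fun I : (Ideal (𝓞 K))⁰ => ψ I *
        (absNorm (I : Ideal (𝓞 K)) : ℂ) ^ (-(s : ℂ))
  · have hH := hasSum_term_of_summable ψ (s : ℂ) hsum
    have hS : LSeriesSummable (idealCoeff ψ) s := hH.summable
    have hL : LSeries (idealCoeff ψ) s =
        ∑' I : (Ideal (𝓞 K))⁰, ψ I * (absNorm (I : Ideal (𝓞 K)) : ℂ) ^ (-(s : ℂ)) := hH.tsum_eq
    rw [← hL]
    have hC : ∀ n : ℕ, ‖∑ k ∈ Finset.Icc 1 n, idealCoeff ψ k‖ ≤ A * (n : ℝ) ^ r := by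
      intro n
      rw [sum_idealCoeff]
      exact hA n
    refine (norm_LSeries_le_of_partial_sums hr0 hr1 hA0 hC hs1 hS).trans ?_
    rw [div_le_div_iff₀ (by linarith) (by linarith)]
    have h1 : s * A ≤ 2 * A := mul_le_mul_of_nonneg_right hs2 hA0
    have h2 : 0 ≤ 2 * A := by positivity
    nlinarith
  · rw [tsum_eq_zero_of_not_summable hsum, norm_zero]
    exact hB0

section ClassData

variable {G : Type*} [Group G] [Fintype G]

/-- the coefficient function of a character for class data `cl` (ideals in no class give `0`) -/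
def coeffOfClassData (cl : (Ideal (𝓞 K))⁰ → Option G) (χ : G →* ℂˣ) (I : (Ideal (𝓞 K))⁰) : ℂ :=
  match cl I with
  | none => 0
  | some c => ((χ c : ℂˣ) : ℂ)

theorem coeffOfClassData_of_eq_some {cl : (Ideal (𝓞 K))⁰ → Option G} (χ : G →* ℂˣ)
    {I : (Ideal (𝓞 K))⁰} {c : G} (h : cl I = some c) :
    coeffOfClassData cl χ I = ((χ c : ℂˣ) : ℂ) := by
  unfold coeffOfClassData
  rw [h]

theorem coeffOfClassData_of_eq_none {cl : (Ideal (𝓞 K))⁰ → Option G} (χ : G →* ℂˣ)
    {I : (Ideal (𝓞 K))⁰} (h : cl I = none) : coeffOfClassData cl χ I = 0 := by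
  unfold coeffOfClassData
  rw [h]

open scoped Classical in
theorem card_filter_classData (cl : (Ideal (𝓞 K))⁰ → Option G) (n : ℕ) (C : G) :
    ((idealsLE K n).filter (fun I : (Ideal (𝓞 K))⁰ => cl I = some C)).card =
      Nat.card {I : (Ideal (𝓞 K))⁰ // (absNorm (I : Ideal (𝓞 K)) : ℝ) ≤ (n : ℝ) ∧
        cl I = some C} := by
  symm
  refine Nat.subtype_card _ fun I => ?_
  simp [mem_idealsLE]

open scoped Classical in
theorem sum_classData (cl : (Ideal (𝓞 K))⁰ → Option G) (χ : G →* ℂˣ) (n : ℕ) :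
    ∑ I ∈ idealsLE K n, coeffOfClassData cl χ I =
      ∑ C : G, ((χ C : ℂˣ) : ℂ) *
        (Nat.card {I : (Ideal (𝓞 K))⁰ // (absNorm (I : Ideal (𝓞 K)) : ℝ) ≤ (n : ℝ) ∧
          cl I = some C} : ℂ) := by
  rw [← Finset.sum_fiberwise (s := idealsLE K n) (g := cl)]
  rw [Fintype.sum_option]
  have h0 : ∑ I ∈ idealsLE K n with cl I = none, coeffOfClassData cl χ I = 0 :=
    Finset.sum_eq_zero fun I hI => coeffOfClassData_of_eq_none χ (Finset.mem_filter.mp hI).2
  rw [h0, zero_add]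
  refine Finset.sum_congr rfl fun C _ => ?_
  rw [← card_filter_classData, Finset.sum_congr rfl (g := fun _ => ((χ C : ℂˣ) : ℂ))]
  · rw [Finset.sum_const, nsmul_eq_mul, mul_comm]
  · intro I hI
    exact coeffOfClassData_of_eq_some χ (Finset.mem_filter.mp hI).2

/-- If the ideals of norm `≤ x` are equidistributed over the classes with a power saving error
term, the partial sums of a nontrivial character are `O(n^r)`. -/
theorem norm_sum_classData_le (cl : (Ideal (𝓞 K))⁰ → Option G) {κ M r : ℝ}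
    (hcount : ∀ (C : G) (x : ℝ), 1 ≤ x →
      |(Nat.card {I : (Ideal (𝓞 K))⁰ // (absNorm (I : Ideal (𝓞 K)) : ℝ) ≤ x ∧
          cl I = some C} : ℝ) - κ * x| ≤ M * x ^ r)
    (χ : G →* ℂˣ) (hχ : χ ≠ 1) (n : ℕ) :
    ‖∑ I ∈ idealsLE K n, coeffOfClassData cl χ I‖ ≤
      ((Fintype.card G : ℝ) * M) * (n : ℝ) ^ r := by
  have hG : 0 < Fintype.card G := Fintype.card_pos
  have hM0 : 0 ≤ M := by
    have h := hcount 1 1 le_rfl
    simp only [Real.one_rpow, mul_one] at h
    exact (abs_nonneg _).trans h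
  rcases Nat.eq_zero_or_pos n with rfl | hn
  · have : idealsLE K 0 = ∅ := by
      ext I
      simp only [mem_idealsLE, Finset.notMem_empty, iff_false, not_le]
      exact one_le_absNorm I
    rw [this, Finset.sum_empty, norm_zero]
    positivity
  have hn1 : (1 : ℝ) ≤ n := by exact_mod_cast hn
  rw [sum_classData]
  have h0 : ∑ C : G, ((χ C : ℂˣ) : ℂ) * ((κ * n : ℝ) : ℂ) = 0 := by
    rw [← Finset.sum_mul, sum_units_char_eq_zero χ hχ, zero_mul]
  rw [← sub_zero (∑ C : G, _), ← h0, ← Finset.sum_sub_distrib]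
  refine (norm_sum_le _ _).trans ?_
  have : ∀ C ∈ (Finset.univ : Finset G),
      ‖((χ C : ℂˣ) : ℂ) * (Nat.card {I : (Ideal (𝓞 K))⁰ //
          (absNorm (I : Ideal (𝓞 K)) : ℝ) ≤ (n : ℝ) ∧ cl I = some C} : ℂ) -
          ((χ C : ℂˣ) : ℂ) * ((κ * n : ℝ) : ℂ)‖ ≤ M * (n : ℝ) ^ r := by
    intro C _
    rw [← mul_sub, norm_mul]
    have hχ1 : ‖((χ C : ℂˣ) : ℂ)‖ = 1 := by
      have hfin : IsOfFinOrder (χ C) := χ.isOfFinOrder (isOfFinOrder_of_finite C)
      obtain ⟨k, hk, hk1⟩ := hfin.exists_pow_eq_one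
      have : ‖((χ C : ℂˣ) : ℂ)‖ ^ k = 1 := by
        rw [← norm_pow, ← Units.val_pow_eq_pow_val, hk1, Units.val_one, norm_one]
      exact (pow_eq_one_iff_of_nonneg (norm_nonneg _) hk.ne').mp this
    rw [hχ1, one_mul]
    have := hcount C n hn1
    rw [← Complex.ofReal_natCast, ← Complex.ofReal_sub, Complex.norm_real, Real.norm_eq_abs]
    exact this
  refine (Finset.sum_le_sum this).trans ?_
  rw [Finset.sum_const, Finset.card_univ, nsmul_eq_mul, mul_assoc]

/-- **Bounded twisted series** from equidistribution of ideals over the classes with a power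
saving error term. -/
theorem exists_bound_idealSeries_of_count (cl : (Ideal (𝓞 K))⁰ → Option G) {κ M r : ℝ}
    (hr0 : 0 ≤ r) (hr1 : r < 1)
    (hcount : ∀ (C : G) (x : ℝ), 1 ≤ x →
      |(Nat.card {I : (Ideal (𝓞 K))⁰ // (absNorm (I : Ideal (𝓞 K)) : ℝ) ≤ x ∧
          cl I = some C} : ℝ) - κ * x| ≤ M * x ^ r)
    (χ : G →* ℂˣ) (hχ : χ ≠ 1) :
    ∃ B : ℝ, ∀ s : ℝ, 1 < s → s ≤ 2 → ‖idealSeries K (coeffOfClassData cl χ) s‖ ≤ B := by
  have hM0 : 0 ≤ M := by
    have h := hcount 1 1 le_rfl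
    simp only [Real.one_rpow, mul_one] at h
    exact (abs_nonneg _).trans h
  refine ⟨2 * ((Fintype.card G : ℝ) * M) / (1 - r), fun s hs1 hs2 => ?_⟩
  exact norm_idealSeries_le_of_partial_sums _ hr0 hr1 (by positivity)
    (norm_sum_classData_le cl hcount χ hχ) hs1 hs2

/-- the same as an eventual statement at `1⁺` (the `hB` shape of
`index_le_finrank_of_classData`) -/
theorem exists_bound_idealSeries_of_count_eventually (cl : (Ideal (𝓞 K))⁰ → Option G)
    {κ M r : ℝ} (hr0 : 0 ≤ r) (hr1 : r < 1)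
    (hcount : ∀ (C : G) (x : ℝ), 1 ≤ x →
      |(Nat.card {I : (Ideal (𝓞 K))⁰ // (absNorm (I : Ideal (𝓞 K)) : ℝ) ≤ x ∧
          cl I = some C} : ℝ) - κ * x| ≤ M * x ^ r)
    (χ : G →* ℂˣ) (hχ : χ ≠ 1) :
    ∃ B : ℝ, ∀ᶠ s in 𝓝[>] (1 : ℝ), ‖idealSeries K (coeffOfClassData cl χ) s‖ ≤ B := by
  obtain ⟨B, hB⟩ := exists_bound_idealSeries_of_count cl hr0 hr1 hcount χ hχ
  refine ⟨B, ?_⟩
  filter_upwards [Ioc_mem_nhdsGT (show (1 : ℝ) < 2 by norm_num)] with s hs
  exact hB s hs.1 hs.2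

end ClassData

end

end Fermat.Agent.CFT.H79
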