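import Mathlib
import Fermat.Agent.CFT.H79_RaySqueeze
import Fermat.Agent.CFT.H79_SeriesBounded

/-!
# CFT / layer C : analytic second inequality from an equidistributed ideal count

`index_le_finrank_of_count` : let `M / E` be an extension of number fields, `G` a finite abelian
group and `cl : (Ideal (𝓞 E))⁰ →* WithZero G` a multiplicative class map (value `0` = "not prime to
the modulus").  If only finitely many primes have class `0` and the number of ideals of norm `≤ x`
in each class `C : G` is `κ x + O(x^r)`, `r < 1`, with `κ` independent of `C`, then every subgroup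
`H` of `G` containing the classes of all primes of `E` with a prime of `M` of relative degree one
above has index at most `[M : E]`.
-/

set_option autoImplicit false

open NumberField Ideal IsDedekindDomain nonZeroDivisors Filter Topology

namespace Fermat.Agent.CFT.H79

open Fermat.Agent.S14 Fermat.Agent.S14.H79

noncomputable section

variable {E : Type*} [Field E] [NumberField E]
variable {G : Type*} [CommGroup G] [Fintype G]

/-- the multiplicative function `I ↦ χ (cl I)` (zero where `cl I = 0`) -/
def psiOfClassMap (cl : (Ideal (𝓞 E))⁰ →* WithZero G) (χ : G →* ℂˣ) : (Ideal (𝓞 E))⁰ →* ℂ where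
  toFun I := coeffOfClassData (fun I => (cl I : Option G)) χ I
  map_one' := by
    have h : (cl 1 : Option G) = some 1 := by rw [map_one]; rfl
    rw [coeffOfClassData_of_eq_some χ h, map_one, Units.val_one]
  map_mul' I J := by
    have hmul : cl (I * J) = cl I * cl J := map_mul cl I J
    rcases hI : cl I with _ | a
    · have h1 : (cl (I * J) : Option G) = none := by
        rw [hmul, hI]; rfl
      rw [coeffOfClassData_of_eq_none χ h1, coeffOfClassData_of_eq_none χ hI, zero_mul]
    · rcases hJ : cl J with _ | b
      · have h1 : (cl (I * J) : Option G) = none := by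
          rw [hmul, hI, hJ]; rfl
        rw [coeffOfClassData_of_eq_none χ h1, coeffOfClassData_of_eq_none χ hJ, mul_zero]
      · have h1 : (cl (I * J) : Option G) = some (a * b) := by
          rw [hmul, hI, hJ]; rfl
        rw [coeffOfClassData_of_eq_some χ h1, coeffOfClassData_of_eq_some χ hI,
          coeffOfClassData_of_eq_some χ hJ, map_mul, Units.val_mul]

theorem psiOfClassMap_apply (cl : (Ideal (𝓞 E))⁰ →* WithZero G) (χ : G →* ℂˣ)
    (I : (Ideal (𝓞 E))⁰) :
    psiOfClassMap cl χ I = coeffOfClassData (fun I => (cl I : Option G)) χ I := rfl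

theorem norm_psiOfClassMap_le (cl : (Ideal (𝓞 E))⁰ →* WithZero G) (χ : G →* ℂˣ)
    (I : (Ideal (𝓞 E))⁰) : ‖psiOfClassMap cl χ I‖ ≤ 1 := by
  rw [psiOfClassMap_apply]
  rcases hI : cl I with _ | a
  · rw [coeffOfClassData_of_eq_none χ hI, norm_zero]
    exact zero_le_one
  · rw [coeffOfClassData_of_eq_some χ hI, norm_char_apply]

variable (E) (M : Type*) [Field M] [NumberField M] [Algebra E M]

/-- **Analytic second inequality from an equidistributed ideal count** (ray class form). -/
theorem index_le_finrank_of_count
    (cl : (Ideal (𝓞 E))⁰ →* WithZero G)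
    (hT : {P : HeightOneSpectrum (𝓞 E) | cl (primeIdeal0 E P) = 0}.Finite)
    {κ C₀ r : ℝ} (hr0 : 0 ≤ r) (hr1 : r < 1)
    (hcount : ∀ (C : G) (x : ℝ), 1 ≤ x →
      |(Nat.card {I : (Ideal (𝓞 E))⁰ // (absNorm (I : Ideal (𝓞 E)) : ℝ) ≤ x ∧
          cl I = (C : WithZero G)} : ℝ) - κ * x| ≤ C₀ * x ^ r)
    (H : Subgroup G)
    (hH : ∀ (P : HeightOneSpectrum (𝓞 E)) (c : G), P ∈ splitPrimes E M →
      cl (primeIdeal0 E P) = (c : WithZero G) → c ∈ H) :
    H.index ≤ Module.finrank E M := by
  classical
  set T : Set (HeightOneSpectrum (𝓞 E)) := {P | cl (primeIdeal0 E P) = 0} with hTdef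
  -- the class of a prime (junk value `1` on `T`)
  let g : HeightOneSpectrum (𝓞 E) → G := fun P =>
    match cl (primeIdeal0 E P) with
    | none => 1
    | some c => c
  have hg : ∀ P, P ∉ T → cl (primeIdeal0 E P) = ((g P : G) : WithZero G) := by
    intro P hP
    rcases h : cl (primeIdeal0 E P) with _ | c
    · exact absurd h hP
    · simp only [g, h]
      rfl
  refine index_le_finrank_of_classData E M T hT g (psiOfClassMap cl) ?_ ?_
    (norm_psiOfClassMap_le cl) ?_ H ?_
  · intro χ P hP
    rw [psiOfClassMap_apply]
    exact coeffOfClassData_of_eq_some χ (hg P hP)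
  · intro χ P hP
    rw [psiOfClassMap_apply]
    exact coeffOfClassData_of_eq_none χ hP
  · intro χ hχ
    exact exists_bound_idealSeries_of_count_eventually (fun I => (cl I : Option G)) hr0 hr1
      hcount χ hχ
  · intro P hPT hP
    exact hH P (g P) hP (hg P hPT)

end

end Fermat.Agent.CFT.H79
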