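import Mathlib
import Fermat.Agent.CFT.H34_RayCount
import Fermat.Agent.CFT.H34_RayFinite
import Fermat.Agent.CFT.H79_RayMain

set_option autoImplicit false
set_option linter.unusedSectionVars false

/-!
# The analytic second inequality for ray class groups

For number fields `M / E` (no Galois hypothesis) and a nonzero integral ideal `𝔪` of `E`, every
subgroup of the ray class group of `E` modulo `𝔪` containing the classes of the primes `P ∤ 𝔪`
having a prime of `M` of relative degree one above them has index at most `[M : E]`.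
-/

open NumberField Ideal IsDedekindDomain
open scoped nonZeroDivisors

noncomputable section

namespace Fermat.Agent.CFT.H34

open Fermat.Agent.S14.H79

variable {K : Type*} [Field K] [NumberField K] {𝔪 : Ideal (𝓞 K)}

/-- the ideals of norm `≤ x` in the ray class `C` correspond to the ideals `I` prime to `𝔪` of
norm `≤ x` with `I 𝔟 ∼ 1`, for `𝔟` in the inverse class -/
theorem card_rayClassMap_eq (C : RayClassGroup K 𝔪) (𝔟 : coprimeIdeals K 𝔪)
    (h𝔟 : rayClass 𝔟 = C⁻¹) (x : ℝ) :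
    Nat.card {I : (Ideal (𝓞 K))⁰ // (absNorm (I : Ideal (𝓞 K)) : ℝ) ≤ x ∧
        rayClassMap K 𝔪 I = (C : WithZero (RayClassGroup K 𝔪))} =
      Nat.card {I : coprimeIdeals K 𝔪 //
        rayClass (I * 𝔟) = 1 ∧ (absNorm (coprimeIdeals.ideal I) : ℝ) ≤ x} := by
  have key : ∀ I : coprimeIdeals K 𝔪, rayClass (I * 𝔟) = 1 ↔ rayClass I = C := by
    intro I
    rw [map_mul, h𝔟, mul_inv_eq_one]
  refine Nat.card_congr
    { toFun := fun I => ⟨⟨I.1, (rayClassMap_eq_coe_iff.mp I.2.2).1⟩,
        (key _).mpr (rayClassMap_eq_coe_iff.mp I.2.2).2, I.2.1⟩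
      invFun := fun I => ⟨I.1.1, I.2.2, rayClassMap_eq_coe_iff.mpr ⟨I.1.2, (key _).mp I.2.1⟩⟩
      left_inv := fun I => rfl
      right_inv := fun I => rfl }

variable (K 𝔪) in
/-- **Ideal counting with error term in ray classes**, in the shape consumed by
`H79.index_le_finrank_of_count`: uniform constants in the class. -/
theorem exists_rayClassMap_count_error (h𝔪 : 𝔪 ≠ ⊥) :
    ∃ C₀ : ℝ, ∀ (C : RayClassGroup K 𝔪) (x : ℝ), 1 ≤ x →
      |(Nat.card {I : (Ideal (𝓞 K))⁰ // (absNorm (I : Ideal (𝓞 K)) : ℝ) ≤ x ∧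
          rayClassMap K 𝔪 I = (C : WithZero (RayClassGroup K 𝔪))} : ℝ) - rayKappa K 𝔪 * x| ≤
        C₀ * x ^ (1 - 1 / (Module.finrank ℚ K : ℝ)) := by
  classical
  have : Finite (RayClassGroup K 𝔪) := finite_rayClassGroup h𝔪
  have : Fintype (RayClassGroup K 𝔪) := Fintype.ofFinite _
  choose 𝔟 h𝔟 using fun C : RayClassGroup K 𝔪 => rayClass_surjective (K := K) (𝔪 := 𝔪) C⁻¹
  choose M hM using fun C : RayClassGroup K 𝔪 => exists_rayClass_count_error h𝔪 (𝔟 C)
  refine ⟨∑ C, |M C|, fun C x hx => ?_⟩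
  rw [card_rayClassMap_eq C (𝔟 C) (h𝔟 C) x]
  refine (hM C x hx).trans ?_
  apply mul_le_mul_of_nonneg_right _ (Real.rpow_nonneg (by linarith) _)
  exact (le_abs_self _).trans
    (Finset.single_le_sum (f := fun C => |M C|) (fun _ _ => abs_nonneg _) (Finset.mem_univ C))

/-- **The analytic second inequality for ray class groups.**  `E ⊆ M` number fields (no Galois
hypothesis), `𝔪 ≠ 0` an integral ideal of `E`.  If a subgroup `H` of the ray class group modulo `𝔪`
contains the classes of all primes `P ∤ 𝔪` of `E` having a prime of `M` of relative degree one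
above, then `[Cl_𝔪 : H] ≤ [M : E]`. -/
theorem second_inequality_rayClass (E M : Type*) [Field E] [NumberField E] [Field M]
    [NumberField M] [Algebra E M] {𝔪 : Ideal (𝓞 E)} (h𝔪 : 𝔪 ≠ ⊥)
    (H : Subgroup (RayClassGroup E 𝔪))
    (hH : ∀ (P : HeightOneSpectrum (𝓞 E)) (hP : primeIdeal0 E P ∈ coprimeIdeals E 𝔪),
      P ∈ splitPrimes E M → rayClass ⟨primeIdeal0 E P, hP⟩ ∈ H) :
    H.index ≤ Module.finrank E M := by
  classical
  have : Finite (RayClassGroup E 𝔪) := finite_rayClassGroup h𝔪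
  have : Fintype (RayClassGroup E 𝔪) := Fintype.ofFinite _
  obtain ⟨C₀, hC₀⟩ := exists_rayClassMap_count_error E 𝔪 h𝔪
  have hn : (1 : ℝ) ≤ Module.finrank ℚ E := by
    exact_mod_cast (Module.finrank_pos : 0 < Module.finrank ℚ E)
  have hr0 : 0 ≤ 1 - 1 / (Module.finrank ℚ E : ℝ) := by
    rw [sub_nonneg, div_le_one (by linarith)]; exact hn
  have hr1 : 1 - 1 / (Module.finrank ℚ E : ℝ) < 1 := by
    have : 0 < 1 / (Module.finrank ℚ E : ℝ) := by positivity
    linarith
  refine Fermat.Agent.CFT.H79.index_le_finrank_of_count E M (rayClassMap E 𝔪)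
    (finite_setOf_rayClassMap_eq_zero h𝔪) hr0 hr1 hC₀ H ?_
  intro P c hP hc
  obtain ⟨hmem, rfl⟩ := rayClassMap_eq_coe_iff.mp hc
  exact hH P hmem hP

end Fermat.Agent.CFT.H34
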