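import Mathlib
import Fermat.Agent.CFT.H23_CDefs
import Fermat.Agent.CFT.H34_RayDiv
import Fermat.Agent.CFT.H34_RayMain

set_option autoImplicit false
set_option linter.unusedSectionVars false

/-!
# The analytic second inequality on the divisor group outside `S`

`index_divS_le` : in the vocabulary of `H23_CDefs`, every subgroup `R` of the group of divisors
outside `S` containing the split primes and the principal divisors of the `c = b / a` with
`a ≡ b mod N` prime to `N` has index at most `[F : K]`.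
-/

open NumberField Ideal IsDedekindDomain WithZero
open scoped nonZeroDivisors

noncomputable section

namespace Fermat.Agent.CFT.H34

open Fermat.Agent.CFT.H23 Fermat.Agent.CFT.H10

/-- a prime ideal containing a nonzero natural number contains one of its prime factors -/
theorem exists_prime_dvd_of_natCast_mem {R : Type*} [CommRing R] (P : Ideal R) [hP : P.IsPrime] :
    ∀ (N : ℕ), N ≠ 0 → (N : R) ∈ P → ∃ q : ℕ, q.Prime ∧ q ∣ N ∧ (q : R) ∈ P := by
  intro N
  induction N using Nat.strong_induction_on with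
  | _ N ih =>
    intro hN0 hN
    by_cases hN1 : N = 1
    · subst hN1
      rw [Nat.cast_one] at hN
      exact absurd ((Ideal.eq_top_iff_one P).mpr hN) hP.ne_top
    · have hq : (N.minFac).Prime := Nat.minFac_prime hN1
      have hdvd : N.minFac ∣ N := Nat.minFac_dvd N
      obtain ⟨M, hM⟩ := hdvd
      have hM0 : M ≠ 0 := by
        rintro rfl
        rw [mul_zero] at hM
        exact hN0 hM
      have hMlt : M < N := by
        rw [hM]
        have h2 : 2 ≤ N.minFac := hq.two_le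
        have hMpos : 0 < M := Nat.pos_of_ne_zero hM0
        nlinarith
      have hcast : (N : R) = (N.minFac : R) * (M : R) := by
        conv_lhs => rw [hM]
        rw [Nat.cast_mul]
      rw [hcast] at hN
      rcases hP.mem_or_mem hN with h | h
      · exact ⟨N.minFac, hq, Nat.minFac_dvd N, h⟩
      · obtain ⟨q, hq', hqM, hqP⟩ := ih M hMlt hM0 h
        exact ⟨q, hq', hM ▸ Dvd.dvd.mul_left hqM _, hqP⟩

variable (S : Finset Nat.Primes) {K : Type*} [Field K] [NumberField K]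

/-- `v` is prime to `N` iff it lies outside `S`, when `S` is the set of prime divisors of `N` -/
theorem isCoprime_span_natCast_iff (N : ℕ) (hN0 : N ≠ 0)
    (hN : ∀ q : Nat.Primes, (q : ℕ) ∣ N ↔ q ∈ S) (v : HeightOneSpectrum (𝓞 K)) :
    IsCoprime v.asIdeal (Ideal.span {((N : ℕ) : 𝓞 K)}) ↔
      ∀ q ∈ S, ((q : ℕ) : 𝓞 K) ∉ v.asIdeal := by
  constructor
  · intro hc q hq hqv
    obtain ⟨M, hM⟩ := (hN q).mpr hq
    have hNv : ((N : ℕ) : 𝓞 K) ∈ v.asIdeal := by
      rw [hM, Nat.cast_mul]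
      exact Ideal.mul_mem_right _ _ hqv
    rw [Ideal.isCoprime_iff_sup_eq] at hc
    have hle : v.asIdeal ⊔ Ideal.span {((N : ℕ) : 𝓞 K)} ≤ v.asIdeal :=
      sup_le le_rfl ((Ideal.span_singleton_le_iff_mem _).mpr hNv)
    rw [hc] at hle
    exact v.isPrime.ne_top (top_le_iff.mp hle)
  · intro hout
    rw [Ideal.isCoprime_iff_sup_eq]
    by_contra htop
    have heq : v.asIdeal = v.asIdeal ⊔ Ideal.span {((N : ℕ) : 𝓞 K)} :=
      v.isMaximal.eq_of_le htop le_sup_left
    have hNv : ((N : ℕ) : 𝓞 K) ∈ v.asIdeal := by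
      rw [heq]
      exact Ideal.mem_sup_right (Ideal.mem_span_singleton_self _)
    have := v.isPrime
    obtain ⟨q, hq, hqN, hqv⟩ := exists_prime_dvd_of_natCast_mem v.asIdeal N hN0 hNv
    exact hout ⟨q, hq⟩ ((hN ⟨q, hq⟩).mp hqN) hqv

/-- the primes outside `S` are the primes prime to `N` -/
def primesOutsideEquiv (N : ℕ) (hN0 : N ≠ 0) (hN : ∀ q : Nat.Primes, (q : ℕ) ∣ N ↔ q ∈ S) :
    PrimesOutside S K ≃ PrimesCoprime K (Ideal.span {((N : ℕ) : 𝓞 K)}) where
  toFun v := ⟨v.1, (isCoprime_span_natCast_iff S N hN0 hN v.1).mpr v.2⟩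
  invFun v := ⟨v.1, (isCoprime_span_natCast_iff S N hN0 hN v.1).mp v.2⟩
  left_inv _ := rfl
  right_inv _ := rfl

/-- the class of a divisor outside `S` in the ray class group modulo `N` -/
def rayOfDivS (N : ℕ) (hN0 : N ≠ 0) (hN : ∀ q : Nat.Primes, (q : ℕ) ∣ N ↔ q ∈ S) :
    Multiplicative (DivS S K) →* RayClassGroup K (Ideal.span {((N : ℕ) : 𝓞 K)}) :=
  (rayOfDiv K (Ideal.span {((N : ℕ) : 𝓞 K)})).comp
    (AddMonoidHom.toMultiplicative
      (Finsupp.domCongr (primesOutsideEquiv S N hN0 hN) :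
        (PrimesOutside S K →₀ ℤ) ≃+ _).toAddMonoidHom)

theorem rayOfDivS_ofAdd (N : ℕ) (hN0 : N ≠ 0) (hN : ∀ q : Nat.Primes, (q : ℕ) ∣ N ↔ q ∈ S)
    (D : DivS S K) :
    rayOfDivS S N hN0 hN (Multiplicative.ofAdd D) =
      rayOfDiv K (Ideal.span {((N : ℕ) : 𝓞 K)})
        (Multiplicative.ofAdd (Finsupp.equivMapDomain (primesOutsideEquiv S N hN0 hN) D)) := rfl

theorem rayOfDivS_surjective (N : ℕ) (hN0 : N ≠ 0)
    (hN : ∀ q : Nat.Primes, (q : ℕ) ∣ N ↔ q ∈ S) :
    Function.Surjective (rayOfDivS (K := K) S N hN0 hN) := by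
  intro x
  obtain ⟨D, rfl⟩ := rayOfDiv_surjective x
  refine ⟨Multiplicative.ofAdd
    (Finsupp.equivMapDomain (primesOutsideEquiv S N hN0 hN).symm (Multiplicative.toAdd D)), ?_⟩
  rw [rayOfDivS_ofAdd, ← Finsupp.equivMapDomain_trans, Equiv.symm_trans_self,
    Finsupp.equivMapDomain_refl]
  rfl

theorem span_natCast_ne_bot (N : ℕ) (hN0 : N ≠ 0) :
    Ideal.span {((N : ℕ) : 𝓞 K)} ≠ ⊥ := by
  rw [Ne, Ideal.span_singleton_eq_bot]
  exact_mod_cast hN0

/-- the kernel of `rayOfDivS` consists of principal divisors of elements `≡ 1 mod^× N` -/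
theorem exists_of_rayOfDivS_eq_one (N : ℕ) (hN0 : N ≠ 0)
    (hN : ∀ q : Nat.Primes, (q : ℕ) ∣ N ↔ q ∈ S) (D : DivS S K)
    (h : rayOfDivS S N hN0 hN (Multiplicative.ofAdd D) = 1) :
    ∃ (c : Kˣ) (a b : 𝓞 K), IsRayUnit (Ideal.span {((N : ℕ) : 𝓞 K)}) a ∧
      IsRayUnit (Ideal.span {((N : ℕ) : 𝓞 K)}) b ∧ a - b ∈ Ideal.span {((N : ℕ) : 𝓞 K)} ∧
      (c : K) * (a : K) = (b : K) ∧ divS S K c = Multiplicative.ofAdd D := by
  rw [rayOfDivS_ofAdd] at h
  obtain ⟨b, c, hb, hc, hbc, hval, -⟩ := exists_of_rayOfDiv_eq_one _ h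
  have hb0 : (b : K) ≠ 0 := by
    exact_mod_cast hb.1
  have hc0 : (c : K) ≠ 0 := by
    exact_mod_cast hc.1
  refine ⟨Units.mk0 ((c : K) / (b : K)) (div_ne_zero hc0 hb0), b, c, hb, hc, hbc, ?_, ?_⟩
  · rw [Units.val_mk0, div_mul_cancel₀ _ hb0]
  · apply congrArg Multiplicative.ofAdd
    ext v
    show Multiplicative.toAdd (ordAt K v.1 (Units.mk0 ((c : K) / (b : K)) _)) = D v
    have h1 := hval (primesOutsideEquiv S N hN0 hN v)
    rw [Finsupp.equivMapDomain_apply, Equiv.symm_apply_apply] at h1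
    have h2 := coe_ordHom K v.1 (Units.mk0 ((c : K) / (b : K)) (div_ne_zero hc0 hb0))
    rw [Units.val_mk0] at h2
    have h3 : ((ordHom K v.1 (Units.mk0 ((c : K) / (b : K)) (div_ne_zero hc0 hb0)) :
        Multiplicative ℤ) : WithZero (Multiplicative ℤ)) = exp (-(D v)) := by
      rw [h2]; exact h1
    have h4 : ordHom K v.1 (Units.mk0 ((c : K) / (b : K)) (div_ne_zero hc0 hb0)) =
        Multiplicative.ofAdd (-(D v)) := WithZero.coe_injective h3
    rw [ordAt_apply, h4]
    simp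

variable {F : Type*} [Field F] [NumberField F] [Algebra K F]

/-- **The analytic second inequality on divisors outside `S`.** -/
theorem index_divS_le (N : ℕ) (hN0 : N ≠ 0) (hN : ∀ q : Nat.Primes, (q : ℕ) ∣ N ↔ q ∈ S)
    (R : Subgroup (Multiplicative (DivS S K)))
    (hsplit : ∀ v : PrimesOutside S K, v.1 ∈ Fermat.Agent.S14.H79.splitPrimes K F →
      Multiplicative.ofAdd (Finsupp.single v (1 : ℤ)) ∈ R)
    (hprin : ∀ (c : Kˣ) (a b : 𝓞 K), IsRayUnit (Ideal.span {((N : ℕ) : 𝓞 K)}) a →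
      IsRayUnit (Ideal.span {((N : ℕ) : 𝓞 K)}) b → a - b ∈ Ideal.span {((N : ℕ) : 𝓞 K)} →
      (c : K) * (a : K) = (b : K) → divS S K c ∈ R) :
    R.index ≠ 0 ∧ R.index ≤ Module.finrank K F := by
  have h𝔪 := span_natCast_ne_bot (K := K) N hN0
  have hfin : Finite (RayClassGroup K (Ideal.span {((N : ℕ) : 𝓞 K)})) := finite_rayClassGroup h𝔪
  set φ := rayOfDivS (K := K) S N hN0 hN with hφ
  have hsurj : Function.Surjective φ := rayOfDivS_surjective S N hN0 hN
  have hker : φ.ker ≤ R := by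
    intro D hD
    obtain ⟨c, a, b, ha, hb, hab, hc, hdiv⟩ :=
      exists_of_rayOfDivS_eq_one S N hN0 hN (Multiplicative.toAdd D) hD
    have := hprin c a b ha hb hab hc
    rw [hdiv] at this
    exact this
  have hidx : (R.map φ).index = R.index := Subgroup.index_map_eq _ hsurj hker
  have hle : (R.map φ).index ≤ Module.finrank K F := by
    refine second_inequality_rayClass K F h𝔪 (R.map φ) ?_
    intro P hP hPs
    let v' : PrimesCoprime K (Ideal.span {((N : ℕ) : 𝓞 K)}) := ⟨P, hP⟩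
    let v : PrimesOutside S K := (primesOutsideEquiv S N hN0 hN).symm v'
    refine ⟨Multiplicative.ofAdd (Finsupp.single v (1 : ℤ)), hsplit v hPs, ?_⟩
    rw [hφ, rayOfDivS_ofAdd, Finsupp.equivMapDomain_single, Equiv.apply_symm_apply,
      rayOfDiv_single, zpow_one]
    rfl
  rw [← hidx]
  exact ⟨Subgroup.index_ne_zero_of_finite, hle⟩

end Fermat.Agent.CFT.H34
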