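import Mathlib

set_option autoImplicit false

/-!
# CFT / C-EXIST (c) (helper10), abstract part: norms in split Kummer algebras

`K` a field with a primitive `p`-th root of unity `ζ`, `B` a commutative `K`-algebra with an action
of a finite group `G` fixing `K`, `χ : G → ZMod p` a bijection, `u ∈ B` with `u ^ p = 1` and
`g • u = ζ ^ χ(g) u`.  Then `B` contains a complete system of orthogonal idempotents
`e_a` (`a : ZMod p`) permuted simply transitively by `G`, and every `G`-fixed unit `j` of `B`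
is a norm: `j = ∏ g, g • y` with `y = 1 + (j - 1) e_0`.
-/

namespace Fermat.Agent.CFT.H10

open Polynomial

section Vanish

variable {K B : Type*} [Field K] [CommRing B] [Algebra K B] {p : ℕ} [NeZero p] {ζ : K}

/-- the `p` nodes `ζ ^ a`. -/
def kNode (ζ : K) (a : ZMod p) : K := ζ ^ a.val

theorem kNode_injective (hζ : IsPrimitiveRoot ζ p) : Function.Injective (kNode (p := p) ζ) := by
  intro a b hab
  exact ZMod.val_injective p (hζ.pow_inj (ZMod.val_lt a) (ZMod.val_lt b) hab)

theorem kNode_mul (hζ : IsPrimitiveRoot ζ p) (a b : ZMod p) :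
    kNode ζ a * kNode ζ b = kNode ζ (a + b) := by
  unfold kNode
  rw [← pow_add, ZMod.val_add]
  exact pow_eq_pow_mod _ hζ.pow_eq_one

/-- A polynomial vanishing at all `p`-th roots of unity kills every `u` with `u ^ p = 1`. -/
theorem aeval_eq_zero_of_forall_eval (hζ : IsPrimitiveRoot ζ p) (P : K[X])
    (hP : ∀ a : ZMod p, P.eval (kNode ζ a) = 0) {u : B} (hu : u ^ p = 1) : aeval u P = 0 := by
  have hm : (X ^ p - 1 : K[X]).Monic := monic_X_pow_sub_C (1 : K) (NeZero.ne p)
  have hr : P %ₘ (X ^ p - 1) = 0 := by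
    refine eq_zero_of_natDegree_lt_card_of_eval_eq_zero _ (kNode_injective hζ) (fun a => ?_) ?_
    · rw [modByMonic_eq_sub_mul_div P (X ^ p - 1), eval_sub, eval_mul, hP, eval_sub, eval_pow, eval_X,
        eval_one]
      have : kNode ζ a ^ p = 1 := by
        unfold kNode
        rw [← pow_mul, mul_comm, pow_mul, hζ.pow_eq_one, one_pow]
      rw [this, sub_self, zero_mul, sub_zero]
    · rw [ZMod.card]
      have h1 : (X ^ p - 1 : K[X]).natDegree = p := natDegree_X_pow_sub_C (n := p) (r := (1 : K))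
      have h2 := natDegree_modByMonic_lt P hm (by
        intro h
        have := congrArg natDegree h
        rw [h1, natDegree_one] at this
        exact NeZero.ne p this)
      rwa [h1] at h2
  have h3 := modByMonic_add_div P (X ^ p - 1)
  rw [hr, zero_add] at h3
  rw [← h3, map_mul, map_sub, map_pow, aeval_X, map_one, hu, sub_self, zero_mul]

/-- two polynomials with the same values at the `p`-th roots of unity agree on `u`. -/
theorem aeval_eq_of_forall_eval (hζ : IsPrimitiveRoot ζ p) (P Q : K[X])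
    (hPQ : ∀ a : ZMod p, P.eval (kNode ζ a) = Q.eval (kNode ζ a)) {u : B} (hu : u ^ p = 1) :
    aeval u P = aeval u Q := by
  rw [← sub_eq_zero, ← map_sub]
  exact aeval_eq_zero_of_forall_eval hζ _ (fun a => by rw [eval_sub, hPQ a, sub_self]) hu

/-- The idempotents `e_a`. -/
noncomputable def kIdem (ζ : K) (u : B) (a : ZMod p) : B :=
  aeval u (Lagrange.basis Finset.univ (kNode (p := p) ζ) a)

theorem eval_basis_kNode (hζ : IsPrimitiveRoot ζ p) (a c : ZMod p) :
    (Lagrange.basis Finset.univ (kNode (p := p) ζ) a).eval (kNode ζ c) = if a = c then 1 else 0 := by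
  split_ifs with h
  · subst h
    exact Lagrange.eval_basis_self (kNode_injective hζ).injOn (Finset.mem_univ _)
  · exact Lagrange.eval_basis_of_ne h (Finset.mem_univ _)

theorem kIdem_mul_self (hζ : IsPrimitiveRoot ζ p) {u : B} (hu : u ^ p = 1) (a : ZMod p) :
    kIdem ζ u a * kIdem ζ u a = kIdem ζ u a := by
  unfold kIdem
  rw [← map_mul]
  refine aeval_eq_of_forall_eval hζ _ _ (fun c => ?_) hu
  rw [eval_mul, eval_basis_kNode hζ]
  split_ifs <;> simp

theorem kIdem_mul_of_ne (hζ : IsPrimitiveRoot ζ p) {u : B} (hu : u ^ p = 1) {a b : ZMod p}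
    (hab : a ≠ b) : kIdem ζ u a * kIdem ζ u b = 0 := by
  unfold kIdem
  rw [← map_mul, ← map_zero (aeval (R := K) u)]
  refine aeval_eq_of_forall_eval hζ _ _ (fun c => ?_) hu
  rw [eval_mul, eval_basis_kNode hζ, eval_basis_kNode hζ, eval_zero]
  by_cases h1 : a = c
  · have h2 : ¬ b = c := fun h => hab (h1.trans h.symm)
    rw [if_neg h2, mul_zero]
  · rw [if_neg h1, zero_mul]

theorem sum_kIdem (hζ : IsPrimitiveRoot ζ p) (u : B) : ∑ a : ZMod p, kIdem ζ u a = 1 := by
  unfold kIdem
  rw [← map_sum, Lagrange.sum_basis (kNode_injective hζ).injOn ⟨0, Finset.mem_univ _⟩, map_one]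

/-- `aeval (ζ^k u) (basis a) = e_{a - k}`. -/
theorem aeval_mul_basis (hζ : IsPrimitiveRoot ζ p) {u : B} (hu : u ^ p = 1) (k a : ZMod p) :
    aeval (algebraMap K B (kNode ζ k) * u) (Lagrange.basis Finset.univ (kNode (p := p) ζ) a)
      = kIdem ζ u (a - k) := by
  have h1 : algebraMap K B (kNode ζ k) * u = aeval u (C (kNode ζ k) * X : K[X]) := by
    rw [map_mul, aeval_C, aeval_X]
  rw [h1, ← aeval_comp]
  unfold kIdem
  refine aeval_eq_of_forall_eval hζ _ _ (fun c => ?_) hu
  rw [eval_comp, eval_mul, eval_C, eval_X, kNode_mul hζ, eval_basis_kNode hζ,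
    eval_basis_kNode hζ]
  by_cases h : a = k + c
  · rw [if_pos h, if_pos (by rw [h]; ring)]
  · rw [if_neg h, if_neg (fun h' => h (by rw [← h']; ring))]

end Vanish

section Norm

variable {K B G : Type*} [Field K] [CommRing B] [Algebra K B] [Group G] [Fintype G]
  [MulSemiringAction G B] {p : ℕ} [NeZero p] {ζ : K}

omit [Fintype G] in
theorem smul_aeval_eq (hK : ∀ (g : G) (c : K), g • algebraMap K B c = algebraMap K B c)
    (g : G) (u : B) (P : K[X]) : g • aeval u P = aeval (g • u) P := by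
  have h := hom_eval₂ P (algebraMap K B) (MulSemiringAction.toRingHom G B g) u
  have hc : (MulSemiringAction.toRingHom G B g).comp (algebraMap K B) = algebraMap K B :=
    RingHom.ext fun c => hK g c
  rw [hc] at h
  exact h

theorem smul_kIdem (hζ : IsPrimitiveRoot ζ p)
    (hK : ∀ (g : G) (c : K), g • algebraMap K B c = algebraMap K B c) (χ : G → ZMod p)
    {u : B} (hu : u ^ p = 1) (hgu : ∀ g : G, g • u = algebraMap K B (ζ ^ (χ g).val) * u)
    (g : G) (a : ZMod p) : g • kIdem ζ u a = kIdem ζ u (a - χ g) := by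
  unfold kIdem
  rw [smul_aeval_eq hK, hgu]
  exact aeval_mul_basis hζ hu (χ g) a

theorem prod_one_add_mul_kIdem (hζ : IsPrimitiveRoot ζ p) {u : B} (hu : u ^ p = 1) (c : B)
    (s : Finset (ZMod p)) :
    ∏ a ∈ s, (1 + c * kIdem ζ u a) = 1 + c * ∑ a ∈ s, kIdem ζ u a := by
  classical
  induction s using Finset.induction_on with
  | empty => simp
  | insert b s hb ih =>
    rw [Finset.prod_insert hb, Finset.sum_insert hb, ih]
    have h0 : kIdem ζ u b * ∑ a ∈ s, kIdem ζ u a = 0 := by
      rw [Finset.mul_sum]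
      refine Finset.sum_eq_zero fun a ha => kIdem_mul_of_ne hζ hu ?_
      rintro rfl
      exact hb ha
    linear_combination (c * c) * h0

/-- **Split norm, abstract form**: every `G`-fixed unit of `B` is a norm. -/
theorem exists_unit_prod_smul_eq (hζ : IsPrimitiveRoot ζ p)
    (hK : ∀ (g : G) (c : K), g • algebraMap K B c = algebraMap K B c) (χ : G → ZMod p)
    (hχ : Function.Bijective χ) (u : B) (hu : u ^ p = 1)
    (hgu : ∀ g : G, g • u = algebraMap K B (ζ ^ (χ g).val) * u) (j : Bˣ)
    (hj : ∀ g : G, g • (j : B) = j) : ∃ y : Bˣ, ∏ g : G, g • (y : B) = j := by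
  set e := kIdem (p := p) ζ u with he
  have hee : e 0 * e 0 = e 0 := kIdem_mul_self hζ hu 0
  have hjj : (j : B) * ((j⁻¹ : Bˣ) : B) = 1 := Units.mul_inv j
  refine ⟨⟨1 + ((j : B) - 1) * e 0, 1 + (((j⁻¹ : Bˣ) : B) - 1) * e 0, ?_, ?_⟩, ?_⟩
  · linear_combination (((j : B) - 1) * (((j⁻¹ : Bˣ) : B) - 1)) * hee + (e 0) * hjj
  · linear_combination (((j : B) - 1) * (((j⁻¹ : Bˣ) : B) - 1)) * hee + (e 0) * hjj
  · show ∏ g : G, g • (1 + ((j : B) - 1) * e 0) = j
    have h1 : ∀ g : G, g • (1 + ((j : B) - 1) * e 0) = 1 + ((j : B) - 1) * e (0 - χ g) := by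
      intro g
      rw [smul_add, smul_one, smul_mul', smul_sub, smul_one, hj, he, smul_kIdem hζ hK χ hu hgu]
    rw [Finset.prod_congr rfl fun g _ => h1 g]
    have h2 : Function.Bijective fun g : G => (0 : ZMod p) - χ g := by
      constructor
      · intro g g' h
        apply hχ.1
        have h' : (0 : ZMod p) - χ g = 0 - χ g' := h
        linear_combination -h'
      · intro a
        obtain ⟨g, hg⟩ := hχ.2 (-a)
        exact ⟨g, by show (0 : ZMod p) - χ g = a; rw [hg]; ring⟩
    rw [Fintype.prod_bijective (fun g : G => (0 : ZMod p) - χ g) h2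
      (fun g => 1 + ((j : B) - 1) * e (0 - χ g)) (fun a => 1 + ((j : B) - 1) * e a) (fun _ => rfl),
      he, prod_one_add_mul_kIdem hζ hu, sum_kIdem hζ]
    ring

end Norm

end Fermat.Agent.CFT.H10
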