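/-
CFT layer C, package C-MAPS (helper23), part 1: functoriality of the hybrid formation module in
the field.  For number fields `K ⊆ F` (`[Algebra K F]`):
* `PrimesOutside.under`, `ramIdx`, `locMap`,
* `JS.baseChange`, `DivS.baseChange`, `IdS.baseChange`, `CS.baseChange`,
* `IdS.baseChange_diag`, Galois invariance of the image.
-/
import Mathlib
import Fermat.Agent.CFT.H23_CDefs
import Fermat.Agent.CFT.H63_SUnitFixed

set_option autoImplicit false

namespace Fermat.Agent.CFT.H23

open scoped TensorProduct NumberField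
open IsDedekindDomain Fermat.Agent.CFT.H42 Fermat.Agent.CFT.H10 Fermat.Agent.CFT.H63

noncomputable section

variable (S : Finset Nat.Primes) (K F : Type*) [Field K] [NumberField K] [Field F] [NumberField F]
  [Algebra K F]

/-! ### Primes -/

theorem natCast_mem_under_iff (w : HeightOneSpectrum (𝓞 F)) (n : ℕ) :
    ((n : ℕ) : 𝓞 K) ∈ (w.under (𝓞 K)).asIdeal ↔ ((n : ℕ) : 𝓞 F) ∈ w.asIdeal := by
  rw [HeightOneSpectrum.under_asIdeal, Ideal.under_def, Ideal.mem_comap, map_natCast]

/-- The prime of `K` below a prime of `F` outside `S`. -/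
def PrimesOutside.under (w : PrimesOutside S F) : PrimesOutside S K :=
  ⟨w.1.under (𝓞 K), fun q hq h => w.2 q hq ((natCast_mem_under_iff K F w.1 _).1 h)⟩

@[simp] theorem PrimesOutside.under_val (w : PrimesOutside S F) :
    (PrimesOutside.under S K F w).1 = w.1.under (𝓞 K) := rfl

/-- The ramification index of a prime of `F` over `K` (helper63's convention). -/
def ramIdx (w : HeightOneSpectrum (𝓞 F)) : ℕ :=
  (w.under (𝓞 K)).asIdeal.ramificationIdx' w.asIdeal

theorem ramIdx_ne_zero (w : HeightOneSpectrum (𝓞 F)) : ramIdx K F w ≠ 0 :=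
  ramificationIdx'_under_ne_zero w

/-- `ord_w(x) = e(w) · ord_v(x)` for `x ∈ K`. -/
theorem ordHom_algebraMap (w : HeightOneSpectrum (𝓞 F)) (x : Kˣ) :
    ordHom F w (Units.map (algebraMap K F : K →* F) x) =
      (ordHom K (w.under (𝓞 K)) x) ^ ramIdx K F w := by
  apply WithZero.coe_injective
  rw [WithZero.coe_pow, coe_ordHom, coe_ordHom]
  exact valuation_algebraMap_eq w (x : K)

/-- The primes of `F` above a given prime of `K` form a finite set. -/
theorem finite_setOf_under_eq (v : HeightOneSpectrum (𝓞 K)) :
    {w : HeightOneSpectrum (𝓞 F) | w.under (𝓞 K) = v}.Finite := by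
  have hfin := IsDedekindDomain.primesOver_finite v.asIdeal (𝓞 F)
  refine Set.Finite.of_injOn (f := fun w : HeightOneSpectrum (𝓞 F) => w.asIdeal)
    (fun w hw => ?_) (fun w _ w' _ h => HeightOneSpectrum.ext h) hfin
  have hw' : w.under (𝓞 K) = v := hw
  refine ⟨w.isPrime, ⟨?_⟩⟩
  rw [← hw', HeightOneSpectrum.under_asIdeal]

/-! ### Base change -/

/-- `K ⊗ ℚ_q → F ⊗ ℚ_q`. -/
def locMap (q : Nat.Primes) : Loc K q →ₐ[ℚ] Loc F q :=
  Algebra.TensorProduct.map (IsScalarTower.toAlgHom ℚ K F) (AlgHom.id ℚ ℚ_[q])

@[simp] theorem locMap_tmul (q : Nat.Primes) (x : K) (a : ℚ_[q]) :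
    locMap K F q (x ⊗ₜ[ℚ] a) = algebraMap K F x ⊗ₜ[ℚ] a := rfl

theorem locMap_algebraMap (q : Nat.Primes) (x : K) :
    locMap K F q (algebraMap K (Loc K q) x) = algebraMap F (Loc F q) (algebraMap K F x) := by
  rw [Algebra.TensorProduct.algebraMap_apply, Algebra.TensorProduct.algebraMap_apply]
  simp

/-- Base change of `S`-ideles. -/
def JS.baseChange : JS S K →* JS S F :=
  MonoidHom.pi fun q => (Units.map (locMap K F q.1 : Loc K q.1 →* Loc F q.1)).comp
    (Pi.evalMonoidHom _ q)

theorem JS.baseChange_apply (x : JS S K) (q : S) :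
    ((JS.baseChange S K F x q : (Loc F q.1)ˣ) : Loc F q.1) = locMap K F q.1 (x q : Loc K q.1) := rfl

theorem JS.baseChange_diagJ (x : Kˣ) :
    JS.baseChange S K F (diagJ S K x) = diagJ S F (Units.map (algebraMap K F : K →* F) x) := by
  funext q
  apply Units.ext
  exact locMap_algebraMap K F q.1 (x : K)

/-- Base change of divisors: `(baseChange D) w = e(w) · D(w ∩ K)`. -/
def DivS.baseChange : DivS S K →+ DivS S F where
  toFun D := Finsupp.ofSupportFinite
    (fun w : PrimesOutside S F => (ramIdx K F w.1 : ℤ) * D (PrimesOutside.under S K F w)) <| by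
      have hfin : (⋃ v ∈ D.support,
          {w : PrimesOutside S F | PrimesOutside.under S K F w = v}).Finite := by
        refine Set.Finite.biUnion D.support.finite_toSet fun v _ => ?_
        refine ((finite_setOf_under_eq K F v.1).preimage
          (Subtype.val_injective.injOn)).subset ?_
        intro w hw
        have hw' : PrimesOutside.under S K F w = v := hw
        show w.1.under (𝓞 K) = v.1
        rw [← hw']
        rfl
      refine hfin.subset ?_
      intro w hw
      have hw' : (ramIdx K F w.1 : ℤ) * D (PrimesOutside.under S K F w) ≠ 0 := hw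
      simp only [Set.mem_iUnion]
      refine ⟨PrimesOutside.under S K F w, ?_, rfl⟩
      rw [Finsupp.mem_support_iff]
      intro h0
      exact hw' (by rw [h0, mul_zero])
  map_zero' := by
    ext w
    simp [Finsupp.ofSupportFinite_coe]
  map_add' D D' := by
    ext w
    simp [Finsupp.ofSupportFinite_coe, mul_add]

theorem DivS.baseChange_apply (D : DivS S K) (w : PrimesOutside S F) :
    DivS.baseChange S K F D w = (ramIdx K F w.1 : ℤ) * D (PrimesOutside.under S K F w) := rfl

theorem DivS.baseChange_divS (x : Kˣ) :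
    DivS.baseChange S K F (Multiplicative.toAdd (divS S K x)) =
      Multiplicative.toAdd (divS S F (Units.map (algebraMap K F : K →* F) x)) := by
  ext w
  rw [DivS.baseChange_apply, divS_apply, divS_apply, ordAt_apply, ordAt_apply,
    ordHom_algebraMap, PrimesOutside.under_val]
  simp [toAdd_pow]

/-- Base change of hybrid ideles. -/
def IdS.baseChange : IdS S K →* IdS S F :=
  MonoidHom.prodMap (JS.baseChange S K F) (DivS.baseChange S K F).toMultiplicative

theorem IdS.baseChange_fst (x : IdS S K) :
    (IdS.baseChange S K F x).1 = JS.baseChange S K F x.1 := rfl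

theorem IdS.baseChange_snd (x : IdS S K) :
    Multiplicative.toAdd (IdS.baseChange S K F x).2 =
      DivS.baseChange S K F (Multiplicative.toAdd x.2) := rfl

theorem IdS.baseChange_diag (x : Kˣ) :
    IdS.baseChange S K F (diag S K x) = diag S F (Units.map (algebraMap K F : K →* F) x) := by
  refine Prod.ext (JS.baseChange_diagJ S K F x) ?_
  show Multiplicative.ofAdd (DivS.baseChange S K F (Multiplicative.toAdd (divS S K x))) = _
  rw [DivS.baseChange_divS]
  rfl

/-- Base change of hybrid idele classes. -/
def CS.baseChange : CS S K →* CS S F :=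
  QuotientGroup.map _ _ (IdS.baseChange S K F) <| by
    rintro _ ⟨x, rfl⟩
    exact ⟨Units.map (algebraMap K F : K →* F) x, (IdS.baseChange_diag S K F x).symm⟩

theorem CS.baseChange_toCS (x : IdS S K) :
    CS.baseChange S K F (toCS S K x) = toCS S F (IdS.baseChange S K F x) := rfl

end

end Fermat.Agent.CFT.H23
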