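/-
CFT layer C, package C-MAPS (helper23), part 2: Galois invariance, injectivity and DESCENT for the
hybrid formation module.  `F/K` number fields.
-/
import Mathlib
import Fermat.Agent.CFT.H23_CMaps
import Fermat.Agent.CFT.H63_PlacePerm

set_option autoImplicit false

namespace Fermat.Agent.CFT.H23

open scoped TensorProduct NumberField
open IsDedekindDomain Fermat.Agent.CFT.H42 Fermat.Agent.CFT.H10 Fermat.Agent.CFT.H63

noncomputable section

variable (S : Finset Nat.Primes) (K F : Type*) [Field K] [NumberField K] [Field F] [NumberField F]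
  [Algebra K F]

/-! ### Compatibility with helper63's `galSpec` -/

theorem smul_prime_eq_galSpec (σ : F ≃ₐ[K] F) (w : HeightOneSpectrum (𝓞 F)) :
    σ • w = galSpec σ w := by
  apply HeightOneSpectrum.ext
  rw [smul_prime_def, asIdeal_equivOfRingEquiv]
  show _ = (specMap (NumberField.RingOfIntegers.mapRingEquiv σ.toRingEquiv) w).asIdeal
  rw [specMap_asIdeal]
  rfl

theorem under_smul (σ : F ≃ₐ[K] F) (w : HeightOneSpectrum (𝓞 F)) :
    (σ • w).under (𝓞 K) = w.under (𝓞 K) := by
  rw [smul_prime_eq_galSpec, galSpec_under]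

theorem PrimesOutside.under_smul (σ : F ≃ₐ[K] F) (w : PrimesOutside S F) :
    PrimesOutside.under S K F (σ • w) = PrimesOutside.under S K F w :=
  Subtype.ext (H23.under_smul K F σ w.1)

theorem exists_smul_eq_of_under_eq [IsGalois K F] {w w' : HeightOneSpectrum (𝓞 F)}
    (h : w.under (𝓞 K) = w'.under (𝓞 K)) : ∃ σ : F ≃ₐ[K] F, σ • w = w' := by
  obtain ⟨σ, hσ⟩ := exists_galSpec_eq h
  exact ⟨σ, by rw [smul_prime_eq_galSpec, hσ]⟩

theorem PrimesOutside.exists_smul_eq_of_under_eq [IsGalois K F] {w w' : PrimesOutside S F}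
    (h : PrimesOutside.under S K F w = PrimesOutside.under S K F w') :
    ∃ σ : F ≃ₐ[K] F, σ • w = w' := by
  obtain ⟨σ, hσ⟩ := H23.exists_smul_eq_of_under_eq K F (w := w.1) (w' := w'.1)
    (congrArg Subtype.val h)
  exact ⟨σ, Subtype.ext hσ⟩

/-- every prime of `K` outside `S` has a prime of `F` outside `S` above it -/
theorem PrimesOutside.exists_under_eq (v : PrimesOutside S K) :
    ∃ w : PrimesOutside S F, PrimesOutside.under S K F w = v := by
  obtain ⟨w, hw⟩ := H63.exists_under_eq (L := F) v.1
  refine ⟨⟨w, fun q hq h => v.2 q hq ?_⟩, Subtype.ext hw⟩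
  rw [← hw]
  exact (natCast_mem_under_iff K F w _).2 h

/-- The ramification index is constant on Galois orbits. -/
theorem ramIdx_smul (σ : F ≃ₐ[K] F) (w : HeightOneSpectrum (𝓞 F)) :
    ramIdx K F (σ • w) = ramIdx K F w := by
  obtain ⟨π, hπ⟩ := (w.under (𝓞 K)).valuation_exists_uniformizer K
  have h1 : (σ • w).valuation F (algebraMap K F π) =
      ((σ • w).under (𝓞 K)).valuation K π ^ ramIdx K F (σ • w) := valuation_algebraMap_eq (σ • w) π
  have h2 : w.valuation F (algebraMap K F π) =
      (w.under (𝓞 K)).valuation K π ^ ramIdx K F w := valuation_algebraMap_eq w π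
  have h3 : (σ • w).valuation F (algebraMap K F π) = w.valuation F (algebraMap K F π) := by
    have := valuation_smul_smul F K σ w (algebraMap K F π)
    rwa [σ.commutes] at this
  rw [under_smul, hπ] at h1
  rw [hπ] at h2
  rw [h1, h2] at h3
  have hlt : (WithZero.exp (-1 : ℤ) : WithZero (Multiplicative ℤ)) < 1 := by
    rw [← WithZero.exp_zero, WithZero.exp_lt_exp]; norm_num
  exact (pow_right_injective₀ (WithZero.exp_pos) hlt.ne) h3

/-! ### Galois invariance of the image of base change -/

theorem smul_locMap (q : Nat.Primes) (σ : F ≃ₐ[K] F) (y : Loc K q) :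
    σ • locMap K F q y = locMap K F q y :=
  smul_baseIncl σ y

theorem smul_JS_baseChange (σ : F ≃ₐ[K] F) (x : JS S K) :
    σ • JS.baseChange S K F x = JS.baseChange S K F x := by
  funext q
  apply Units.ext
  exact smul_locMap K F q.1 σ (x q : Loc K q.1)

theorem smul_DivS_baseChange (σ : F ≃ₐ[K] F) (D : DivS S K) :
    σ • DivS.baseChange S K F D = DivS.baseChange S K F D := by
  ext w
  rw [smul_divS_apply, DivS.baseChange_apply, DivS.baseChange_apply,
    PrimesOutside.under_smul, coe_smul_primesOutside, ramIdx_smul]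

theorem smul_IdS_baseChange (σ : F ≃ₐ[K] F) (x : IdS S K) :
    σ • IdS.baseChange S K F x = IdS.baseChange S K F x := by
  refine Prod.ext (smul_JS_baseChange S K F σ x.1) ?_
  show Multiplicative.ofAdd (σ • DivS.baseChange S K F (Multiplicative.toAdd x.2)) = _
  rw [smul_DivS_baseChange]
  rfl

theorem smul_CS_baseChange (σ : F ≃ₐ[K] F) (c : CS S K) :
    σ • CS.baseChange S K F c = CS.baseChange S K F c := by
  induction c using QuotientGroup.induction_on with
  | H x => exact congrArg (toCS S F) (smul_IdS_baseChange S K F σ x)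

/-! ### Injectivity -/

theorem locMap_injective (q : Nat.Primes) : Function.Injective (locMap K F q) :=
  baseIncl_injective

theorem JS.baseChange_injective : Function.Injective (JS.baseChange S K F) := by
  intro x y h
  funext q
  apply Units.ext
  apply locMap_injective K F q.1
  exact congrArg (fun z : JS S F => ((z q : (Loc F q.1)ˣ) : Loc F q.1)) h

theorem DivS.baseChange_injective : Function.Injective (DivS.baseChange S K F) := by
  rw [injective_iff_map_eq_zero]
  intro D hD
  ext v
  obtain ⟨w, hw⟩ := PrimesOutside.exists_under_eq S K F v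
  have := DFunLike.congr_fun hD w
  rw [DivS.baseChange_apply, hw] at this
  simpa [ramIdx_ne_zero K F w.1] using this

theorem IdS.baseChange_injective : Function.Injective (IdS.baseChange S K F) := by
  intro x y h
  refine Prod.ext (JS.baseChange_injective S K F (congrArg Prod.fst h)) ?_
  have h2 := congrArg (fun z : IdS S F => Multiplicative.toAdd z.2) h
  exact congrArg Multiplicative.ofAdd (DivS.baseChange_injective S K F h2)

/-! ### Injectivity of the diagonal -/

theorem toLocUnits_injective (q : Nat.Primes) : Function.Injective (toLocUnits F q) := by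
  intro x y h
  apply Units.ext
  have hinj : Function.Injective (algebraMap F (Loc F q)) := by
    have := Algebra.TensorProduct.includeLeft_injective (R := ℚ) (S := F) (A := F) (B := ℚ_[q])
      (algebraMap ℚ ℚ_[q]).injective
    exact this
  exact hinj (congrArg Units.val h)

theorem diag_injective (hS : S.Nonempty) : Function.Injective (diag S F) := by
  obtain ⟨q, hq⟩ := hS
  intro x y h
  apply toLocUnits_injective F q
  have h1 := congrArg Prod.fst h
  exact congrFun h1 ⟨q, hq⟩

/-! ### Descent -/

/-- `F/K` is unramified at all primes outside `S`. -/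
def UnramOutside : Prop := ∀ w : PrimesOutside S F, ramIdx K F w.1 = 1

theorem exists_units_map_eq {A B : Type*} [Monoid A] [Monoid B] (f : A →* B)
    (hf : Function.Injective f) (u : Bˣ) (h1 : (u : B) ∈ Set.range f)
    (h2 : ((u⁻¹ : Bˣ) : B) ∈ Set.range f) : ∃ a : Aˣ, Units.map f a = u := by
  obtain ⟨a, ha⟩ := h1
  obtain ⟨b, hb⟩ := h2
  refine ⟨⟨a, b, hf ?_, hf ?_⟩, Units.ext ha⟩
  · rw [map_mul, ha, hb, map_one, Units.mul_inv]
  · rw [map_mul, ha, hb, map_one, Units.inv_mul]

section Generic

variable {G M : Type*} [Group G] [CommGroup M] [MulDistribMulAction G M]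

theorem smul_div_cocycle (y : M) (σ τ : G) :
    (σ * τ) • y / y = σ • (τ • y / y) * (σ • y / y) := by
  rw [mul_smul, smul_div', div_mul_div_cancel]

theorem smul_div_eq_of_smul_eq (y d : M) (σ : G) (h : σ • d = d * (σ • y / y)) :
    σ • (y / d) = y / d := by
  rw [smul_div', h, div_eq_div_iff_mul_eq_mul, mul_comm y, mul_assoc, div_mul_cancel, mul_comm]

end Generic

section Galois

variable [IsGalois K F]

omit [IsGalois K F] in
theorem finiteDimensional_of_numberField : FiniteDimensional K F :=
  Module.Finite.of_restrictScalars_finite ℚ K F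

theorem mem_range_JS_baseChange (y : JS S F) (hy : ∀ σ : F ≃ₐ[K] F, σ • y = y) :
    y ∈ (JS.baseChange S K F).range := by
  have := finiteDimensional_of_numberField K F
  have key : ∀ q : S, ∃ a : (Loc K q.1)ˣ,
      Units.map (locMap K F q.1 : Loc K q.1 →* Loc F q.1) a = y q := by
    intro q
    have hfix : ∀ σ : F ≃ₐ[K] F, σ • (y q) = y q := fun σ => congrFun (hy σ) q
    apply exists_units_map_eq _ (locMap_injective K F q.1)
    · have : ((y q : (Loc F q.1)ˣ) : Loc F q.1) ∈ (baseIncl (k := ℚ) (K := K) (L := F)
          (A := ℚ_[q.1])).range :=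
        mem_range_baseIncl_of_fixed _ fun σ => by
          have := congrArg Units.val (hfix σ)
          exact this
      obtain ⟨a, ha⟩ := this
      exact ⟨a, ha⟩
    · have : (((y q)⁻¹ : (Loc F q.1)ˣ) : Loc F q.1) ∈ (baseIncl (k := ℚ) (K := K) (L := F)
          (A := ℚ_[q.1])).range :=
        mem_range_baseIncl_of_fixed _ fun σ => by
          have h1 : σ • (y q)⁻¹ = (y q)⁻¹ := by rw [smul_inv', hfix σ]
          exact congrArg Units.val h1
      obtain ⟨a, ha⟩ := this
      exact ⟨a, ha⟩
  choose a ha using key
  exact ⟨a, funext fun q => ha q⟩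

theorem mem_range_DivS_baseChange (hur : UnramOutside S K F) (D' : DivS S F)
    (hD : ∀ σ : F ≃ₐ[K] F, σ • D' = D') : ∃ D : DivS S K, DivS.baseChange S K F D = D' := by
  classical
  choose wOf hwOf using PrimesOutside.exists_under_eq S K F
  have hfin : (Function.support fun v : PrimesOutside S K => D' (wOf v)).Finite := by
    refine (D'.support.finite_toSet.image (PrimesOutside.under S K F)).subset ?_
    intro v hv
    have hv' : D' (wOf v) ≠ 0 := hv
    exact ⟨wOf v, by simpa using hv', hwOf v⟩
  refine ⟨Finsupp.ofSupportFinite _ hfin, ?_⟩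
  ext w
  rw [DivS.baseChange_apply, hur w, Nat.cast_one, one_mul]
  show D' (wOf (PrimesOutside.under S K F w)) = D' w
  obtain ⟨σ, hσ⟩ := PrimesOutside.exists_smul_eq_of_under_eq S K F
    (w := w) (w' := wOf (PrimesOutside.under S K F w)) (hwOf _).symm
  rw [← hσ]
  have := DFunLike.congr_fun (hD σ⁻¹) w
  rw [smul_divS_apply, inv_inv] at this
  exact this

theorem mem_range_IdS_baseChange_iff (hur : UnramOutside S K F) (y : IdS S F) :
    y ∈ (IdS.baseChange S K F).range ↔ ∀ σ : F ≃ₐ[K] F, σ • y = y := by
  constructor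
  · rintro ⟨x, rfl⟩ σ
    exact smul_IdS_baseChange S K F σ x
  · intro hy
    obtain ⟨a, ha⟩ := mem_range_JS_baseChange S K F y.1 fun σ => congrArg Prod.fst (hy σ)
    obtain ⟨D, hD⟩ := mem_range_DivS_baseChange S K F hur (Multiplicative.toAdd y.2) fun σ =>
      congrArg (fun z : IdS S F => Multiplicative.toAdd z.2) (hy σ)
    refine ⟨(a, Multiplicative.ofAdd D), Prod.ext ha ?_⟩
    show Multiplicative.ofAdd (DivS.baseChange S K F D) = y.2
    rw [hD]
    rfl

theorem mem_range_algebraMap_units_of_fixed (b : Fˣ) (hb : ∀ σ : F ≃ₐ[K] F, σ • b = b) :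
    ∃ a : Kˣ, Units.map (algebraMap K F : K →* F) a = b := by
  have := finiteDimensional_of_numberField K F
  have hmem : ∀ x : F, (∀ σ : F ≃ₐ[K] F, σ x = x) → x ∈ Set.range (algebraMap K F) := by
    intro x hx
    have : x ∈ (⊥ : IntermediateField K F) := by
      rw [IsGalois.mem_bot_iff_fixed]
      exact hx
    exact IntermediateField.mem_bot.mp this
  apply exists_units_map_eq _ (algebraMap K F).injective
  · exact hmem _ fun σ => congrArg Units.val (hb σ)
  · refine hmem _ fun σ => ?_
    have h1 : σ • b⁻¹ = b⁻¹ := by rw [smul_inv', hb σ]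
    exact congrArg Units.val h1

theorem CS.baseChange_injective (hS : S.Nonempty) : Function.Injective (CS.baseChange S K F) := by
  rw [injective_iff_map_eq_one]
  intro c hc
  induction c using QuotientGroup.induction_on with
  | H x =>
    have hx : IdS.baseChange S K F x ∈ (diag S F).range := by
      have : toCS S F (IdS.baseChange S K F x) = 1 := hc
      exact (QuotientGroup.eq_one_iff _).1 this
    obtain ⟨b, hb⟩ := hx
    have hbfix : ∀ σ : F ≃ₐ[K] F, σ • b = b := by
      intro σ
      apply diag_injective S F hS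
      rw [diag_smul, hb, smul_IdS_baseChange]
    obtain ⟨a, ha⟩ := mem_range_algebraMap_units_of_fixed K F b hbfix
    have hxa : x = diag S K a := by
      apply IdS.baseChange_injective S K F
      rw [IdS.baseChange_diag, ha, hb]
    show toCS S K x = 1
    rw [hxa]
    exact (QuotientGroup.eq_one_iff _).2 ⟨a, rfl⟩

theorem mem_range_CS_baseChange_iff (hS : S.Nonempty) (hur : UnramOutside S K F) (c : CS S F) :
    c ∈ (CS.baseChange S K F).range ↔ ∀ σ : F ≃ₐ[K] F, σ • c = c := by
  constructor
  · rintro ⟨x, rfl⟩ σ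
    exact smul_CS_baseChange S K F σ x
  · intro hc
    have := finiteDimensional_of_numberField K F
    induction c using QuotientGroup.induction_on with
    | H y =>
      -- `σ • y = y * diag (f σ)`
      have hex : ∀ σ : F ≃ₐ[K] F, ∃ b : Fˣ, diag S F b = σ • y / y := by
        intro σ
        have h1 : toCS S F (σ • y) = toCS S F y := hc σ
        have h2 : (σ • y / y) ∈ (diag S F).range := by
          rw [← QuotientGroup.eq_one_iff]
          show toCS S F (σ • y / y) = 1
          rw [map_div, h1, div_self']
        exact h2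
      choose f hf using hex
      have hcoc : groupCohomology.IsMulCocycle₁ f := by
        intro σ τ
        apply diag_injective S F hS
        rw [map_mul, diag_smul, hf, hf, hf]
        exact smul_div_cocycle y σ τ
      obtain ⟨β, hβ⟩ := groupCohomology.isMulCoboundary₁_of_isMulCocycle₁_of_aut_to_units f hcoc
      have hfix : ∀ σ : F ≃ₐ[K] F, σ • (y / diag S F β) = y / diag S F β := by
        intro σ
        refine smul_div_eq_of_smul_eq (G := F ≃ₐ[K] F) (M := IdS S F) y (diag S F β) σ ?_
        have h3 : σ • β = β * f σ := by rw [← hβ σ]; simp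
        rw [← diag_smul, h3, map_mul, hf]
      obtain ⟨x, hx⟩ := (mem_range_IdS_baseChange_iff S K F hur _).2 hfix
      refine ⟨toCS S K x, ?_⟩
      rw [CS.baseChange_toCS, hx, map_div]
      have : toCS S F (diag S F β) = 1 := (QuotientGroup.eq_one_iff _).2 ⟨β, rfl⟩
      rw [this, div_one]
      rfl

end Galois

end

end Fermat.Agent.CFT.H23
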