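import Mathlib
import Fermat.Agent.CFT.H23_CDescent
import Fermat.Agent.CFT.H10_SplitNormAbs

set_option autoImplicit false

/-!
# CFT / C-EXIST (c) (helper10): the split-norm lemma in the hybrid vocabulary

`L = K(α)`, `α ^ p = ε ∈ K`, cyclic of prime degree `p` over a number field `K ∋ ζ_p`.  If `ε` is
a `p`-th power in `J_T(K)` (i.e. locally at all places above `T`) then every `T`-idele of `K` is a
norm from `J_T(L)`: `JS.baseChange T K L j = ∏ σ, σ • y`.
-/

namespace Fermat.Agent.CFT.H10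

open scoped TensorProduct NumberField
open IsDedekindDomain Fermat.Agent.CFT.H23 Fermat.Agent.CFT.H42

section Char

variable {K L : Type*} [Field K] [Field L] [Algebra K L] {p : ℕ}

/-- A simple Kummer extension of prime degree is generated by the radical. -/
theorem adjoin_radical_eq_top (hp : p.Prime) (hdeg : Module.finrank K L = p) (α : L)
    (hαK : ∀ c : K, algebraMap K L c ≠ α) : IntermediateField.adjoin K {α} = ⊤ := by
  have : FiniteDimensional K L := Module.finite_of_finrank_pos (by rw [hdeg]; exact hp.pos)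
  have hdvd : Module.finrank K (IntermediateField.adjoin K {α}) ∣ p := by
    rw [← hdeg]
    exact Module.finrank_dvd_finrank_right K (IntermediateField.adjoin K {α}) L
  rcases (Nat.dvd_prime hp).1 hdvd with h1 | h1
  · exfalso
    rw [IntermediateField.finrank_eq_one_iff, IntermediateField.adjoin_simple_eq_bot_iff,
      IntermediateField.mem_bot] at h1
    obtain ⟨c, hc⟩ := h1
    exact hαK c hc
  · apply IntermediateField.eq_of_le_of_finrank_eq le_top
    rw [h1, IntermediateField.finrank_top', hdeg]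

/-- The Kummer character `χ : Gal(L/K) → ZMod p` of a radical generator, a bijection. -/
theorem exists_kummerChar_bijective [IsGalois K L] (hp : p.Prime)
    (hdeg : Module.finrank K L = p) {ζ : K} (hζ : IsPrimitiveRoot ζ p) {ε : K} (hε0 : ε ≠ 0)
    (α : L) (hα : α ^ p = algebraMap K L ε) (hαK : ∀ c : K, algebraMap K L c ≠ α) :
    ∃ χ : (L ≃ₐ[K] L) → ZMod p, Function.Bijective χ ∧
      ∀ σ : L ≃ₐ[K] L, σ α = algebraMap K L (ζ ^ (χ σ).val) * α := by
  have : NeZero p := ⟨hp.ne_zero⟩
  have : FiniteDimensional K L := Module.finite_of_finrank_pos (by rw [hdeg]; exact hp.pos)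
  have hζL : IsPrimitiveRoot (algebraMap K L ζ) p := hζ.map_of_injective (algebraMap K L).injective
  have hα0 : α ≠ 0 := by
    rintro rfl
    rw [zero_pow hp.ne_zero] at hα
    exact hε0 ((algebraMap K L).injective (by rw [← hα, map_zero]))
  have hex : ∀ σ : L ≃ₐ[K] L, ∃ i < p, algebraMap K L ζ ^ i = σ α / α := by
    intro σ
    apply hζL.eq_pow_of_pow_eq_one
    rw [div_pow, ← map_pow, hα, σ.commutes, div_self]
    rw [← hα]
    exact pow_ne_zero _ hα0
  choose i hi hiα using hex
  have hspec : ∀ σ : L ≃ₐ[K] L, σ α = algebraMap K L (ζ ^ ((i σ : ℕ) : ZMod p).val) * α := by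
    intro σ
    rw [ZMod.val_natCast_of_lt (hi σ), map_pow, hiα σ, div_mul_cancel₀ _ hα0]
  refine ⟨fun σ => ((i σ : ℕ) : ZMod p), ?_, hspec⟩
  have hinj : Function.Injective fun σ : L ≃ₐ[K] L => ((i σ : ℕ) : ZMod p) := by
    intro σ τ hστ
    have hστ' : ((i σ : ℕ) : ZMod p) = ((i τ : ℕ) : ZMod p) := hστ
    have h1 : σ α = τ α := by rw [hspec σ, hspec τ, hστ']
    have htop := adjoin_radical_eq_top hp hdeg α hαK
    have halg : IsAlgebraic K α := Algebra.IsAlgebraic.isAlgebraic α
    have h2 : Algebra.adjoin K {α} = ⊤ := by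
      rw [← IntermediateField.adjoin_simple_toSubalgebra_of_isAlgebraic halg, htop,
        IntermediateField.top_toSubalgebra]
    have h3 : (σ : L →ₐ[K] L) = (τ : L →ₐ[K] L) :=
      AlgHom.ext_of_adjoin_eq_top h2 (by
        intro x hx
        rw [Set.mem_singleton_iff] at hx
        subst hx
        exact h1)
    ext x
    exact DFunLike.congr_fun h3 x
  refine hinj.bijective_of_nat_card_le ?_
  rw [Nat.card_zmod, IsGalois.card_aut_eq_finrank, hdeg]

end Char

section Hybrid

variable (T : Finset Nat.Primes) {K L : Type*} [Field K] [NumberField K] [Field L] [NumberField L]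
  [Algebra K L]

/-- **(c) SPLIT-NORM**: if `ε` is a `p`-th power in `J_T(K)` then every `T`-idele of `K` is a
norm from `L = K(ε^{1/p})`. -/
theorem exists_JS_norm [IsGalois K L] {p : ℕ} (hp : p.Prime) (hdeg : Module.finrank K L = p)
    {ζ : K} (hζ : IsPrimitiveRoot ζ p) (ε : Kˣ) (α : L) (hα : α ^ p = algebraMap K L (ε : K))
    (hαK : ∀ c : K, algebraMap K L c ≠ α) (η : JS T K) (hη : η ^ p = diagJ T K ε) (j : JS T K) :
    ∃ y : JS T L, JS.baseChange T K L j = ∏ σ : L ≃ₐ[K] L, σ • y := by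
  classical
  have : NeZero p := ⟨hp.ne_zero⟩
  obtain ⟨χ, hχ, hχα⟩ := exists_kummerChar_bijective hp hdeg hζ ε.ne_zero α hα hαK
  -- work place by place
  have key : ∀ q : T, ∃ y : (Loc L q.1)ˣ,
      ∏ σ : L ≃ₐ[K] L, σ • (y : Loc L q.1) = locMap K L q.1 (j q : Loc K q.1) := by
    intro q
    letI : Algebra K (Loc L q.1) :=
      ((algebraMap L (Loc L q.1)).comp (algebraMap K L)).toAlgebra
    have halg : ∀ c : K, algebraMap K (Loc L q.1) c = algebraMap L (Loc L q.1) (algebraMap K L c) :=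
      fun _ => rfl
    have hK : ∀ (g : L ≃ₐ[K] L) (c : K),
        g • algebraMap K (Loc L q.1) c = algebraMap K (Loc L q.1) c := by
      intro g c
      rw [halg, H42.smul_algebraMap, g.commutes]
    -- the element `u`
    set E : (Loc L q.1)ˣ := Units.map (locMap K L q.1 : Loc K q.1 →* Loc L q.1) (η q) with hE
    have hEp : ((E ^ p : (Loc L q.1)ˣ) : Loc L q.1) = algebraMap L (Loc L q.1) (α ^ p) := by
      rw [hE, ← map_pow]
      have h1 : (η q) ^ p = toLocUnits K q.1 ε := congrFun hη q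
      rw [h1, hα]
      exact locMap_algebraMap K L q.1 (ε : K)
    set u : Loc L q.1 := algebraMap L (Loc L q.1) α * ((E⁻¹ : (Loc L q.1)ˣ) : Loc L q.1) with hu
    have hup : u ^ p = 1 := by
      rw [hu, mul_pow, ← map_pow, ← hEp, ← Units.val_pow_eq_pow_val, ← Units.val_mul, inv_pow,
        mul_inv_cancel, Units.val_one]
    have hEinv : ∀ g : L ≃ₐ[K] L, g • ((E⁻¹ : (Loc L q.1)ˣ) : Loc L q.1)
        = ((E⁻¹ : (Loc L q.1)ˣ) : Loc L q.1) := by
      intro g
      have h1 : ((E⁻¹ : (Loc L q.1)ˣ) : Loc L q.1)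
          = locMap K L q.1 (((η q)⁻¹ : (Loc K q.1)ˣ) : Loc K q.1) := by
        rw [hE, ← map_inv]
        rfl
      rw [h1, smul_locMap]
    have hgu : ∀ g : L ≃ₐ[K] L, g • u = algebraMap K (Loc L q.1) (ζ ^ (χ g).val) * u := by
      intro g
      have h1 : g • u = g • algebraMap L (Loc L q.1) α * g • ((E⁻¹ : (Loc L q.1)ˣ) : Loc L q.1) :=
        smul_mul' g (algebraMap L (Loc L q.1) α) ((E⁻¹ : (Loc L q.1)ˣ) : Loc L q.1)
      rw [h1, hEinv, H42.smul_algebraMap, hχα g, halg, map_mul, mul_assoc]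
    -- the unit `j`
    set J : (Loc L q.1)ˣ := Units.map (locMap K L q.1 : Loc K q.1 →* Loc L q.1) (j q) with hJ
    have hJfix : ∀ g : L ≃ₐ[K] L, g • (J : Loc L q.1) = J := by
      intro g
      exact smul_locMap K L q.1 g (j q : Loc K q.1)
    obtain ⟨y, hy⟩ := exists_unit_prod_smul_eq hζ hK χ hχ u hup hgu J hJfix
    exact ⟨y, hy⟩
  choose y hy using key
  refine ⟨y, ?_⟩
  funext q
  apply Units.ext
  rw [JS.baseChange_apply, ← hy q, Finset.prod_apply, Units.coe_prod]
  rfl

end Hybrid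

end Fermat.Agent.CFT.H10
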