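/-
CFT layer C, package C-MAPS (helper23), part 3: the Galois norm on the hybrid formation module,
the norm subgroup of `CS S K`, and the identification `CS S K ⧸ N ≃ Ĥ⁰(Gal(F/K), CS S F)`
(layer-A model `A.H0hat`) obtained from Galois descent.
-/
import Mathlib
import Fermat.Agent.CFT.H23_CDescent
import Fermat.Agent.CFT.A_Defs

set_option autoImplicit false

namespace Fermat.Agent.CFT.H23

open scoped TensorProduct NumberField
open IsDedekindDomain

noncomputable section

/-! ### The multiplicative norm of a finite group action -/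

section Generic

variable (G M : Type*) [Group G] [Fintype G] [CommGroup M] [MulDistribMulAction G M]

/-- The multiplicative norm `m ↦ ∏ g, g • m`. -/
def mulNorm : M →* M where
  toFun m := ∏ g : G, g • m
  map_one' := by simp
  map_mul' a b := by simp only [smul_mul']; exact Finset.prod_mul_distrib

theorem mulNorm_apply (m : M) : mulNorm G M m = ∏ g : G, g • m := rfl

theorem smul_mulNorm (h : G) (m : M) : h • mulNorm G M m = mulNorm G M m := by
  rw [mulNorm_apply, Finset.smul_prod']
  simp only [← mul_smul]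
  exact Fintype.prod_equiv (Equiv.mulLeft h) _ _ (fun g => rfl)

theorem mulNorm_smul (h : G) (m : M) : mulNorm G M (h • m) = mulNorm G M m := by
  rw [mulNorm_apply, mulNorm_apply]
  simp only [← mul_smul]
  exact Fintype.prod_equiv (Equiv.mulRight h) _ _ (fun g => rfl)

theorem mulNorm_of_fixed (m : M) (hm : ∀ g : G, g • m = m) :
    mulNorm G M m = m ^ Fintype.card G := by
  rw [mulNorm_apply]
  simp only [hm]
  rw [Finset.prod_const, Finset.card_univ]

variable {M} in
theorem map_mulNorm {N : Type*} [CommGroup N] [MulDistribMulAction G N] (f : M →* N)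
    (hf : ∀ (g : G) (m : M), f (g • m) = g • f m) (m : M) :
    f (mulNorm G M m) = mulNorm G N (f m) := by
  rw [mulNorm_apply, mulNorm_apply, map_prod]
  simp only [hf]

variable {G M} in
/-- The subgroup of elements of `M₀` that become norms in `M`. -/
def normSubgroupOf {M₀ : Type*} [CommGroup M₀] (bc : M₀ →* M) : Subgroup M₀ :=
  (mulNorm G M).range.comap bc

variable {G M} in
theorem mem_normSubgroupOf {M₀ : Type*} [CommGroup M₀] (bc : M₀ →* M) (c : M₀) :
    c ∈ normSubgroupOf (G := G) bc ↔ ∃ m : M, mulNorm G M m = bc c := Iff.rfl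

end Generic

section GenericRep

variable (G M : Type) [Group G] [Fintype G] [CommGroup M] [MulDistribMulAction G M]

theorem norm_ofMulDistribMulAction (a : Additive M) :
    (Representation.ofMulDistribMulAction G M).norm a =
      Additive.ofMul (mulNorm G M (Additive.toMul a)) := by
  apply Additive.toMul.injective
  rw [Representation.norm_ofMulDistribMulAction_eq]
  rfl

omit [Fintype G] in
theorem mem_invariants_ofMulDistribMulAction (a : Additive M) :
    a ∈ (Representation.ofMulDistribMulAction G M).invariants ↔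
      ∀ g : G, g • Additive.toMul a = Additive.toMul a := by
  rw [Representation.mem_invariants]
  exact forall_congr' fun g => Additive.toMul.injective.eq_iff.symm

/-! ### Abstract descent data: `M₀ → M` injective with image the `G`-fixed elements -/

variable {G M}
variable {M₀ : Type*} [CommGroup M₀] (bc : M₀ →* M)

/-- `M₀ → M^G`, as an additive map into the invariants of the associated representation. -/
def invOfBase (hfix : ∀ (c : M₀) (g : G), g • bc c = bc c) :
    Additive M₀ →+ (Rep.ofMulDistribMulAction G M).ρ.invariants where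
  toFun a := ⟨Additive.ofMul (bc (Additive.toMul a)),
    fun g => congrArg Additive.ofMul (hfix (Additive.toMul a) g)⟩
  map_zero' := Subtype.ext (congrArg Additive.ofMul (map_one bc))
  map_add' _ _ := Subtype.ext (congrArg Additive.ofMul (map_mul bc _ _))

/-- `M₀ → M^G → Ĥ⁰(G, M)`, as an additive map. -/
def toH0hatAdd (hfix : ∀ (c : M₀) (g : G), g • bc c = bc c) :
    Additive M₀ →+ Fermat.Agent.CFT.A.H0hat (Rep.ofMulDistribMulAction G M) :=
  (Fermat.Agent.CFT.A.H0hat.mk (Rep.ofMulDistribMulAction G M)).toAddMonoidHom.comp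
    (invOfBase bc hfix)

theorem toH0hatAdd_apply (hfix : ∀ (c : M₀) (g : G), g • bc c = bc c) (a : Additive M₀) :
    toH0hatAdd bc hfix a =
      Fermat.Agent.CFT.A.H0hat.mk (Rep.ofMulDistribMulAction G M) (invOfBase bc hfix a) := rfl

theorem toH0hatAdd_eq_zero_iff (hfix : ∀ (c : M₀) (g : G), g • bc c = bc c) (a : Additive M₀) :
    toH0hatAdd bc hfix a = 0 ↔ Additive.toMul a ∈ normSubgroupOf (G := G) bc := by
  rw [toH0hatAdd_apply, Fermat.Agent.CFT.A.H0hat.mk_eq_zero_iff, mem_normSubgroupOf]
  constructor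
  · rintro ⟨b, hb⟩
    refine ⟨Additive.toMul (show Additive M from b), ?_⟩
    have h1 := norm_ofMulDistribMulAction G M b
    have h2 : (Representation.ofMulDistribMulAction G M).norm b
        = Additive.ofMul (bc (Additive.toMul a)) := hb
    rw [h1] at h2
    exact Additive.ofMul.injective h2
  · rintro ⟨m, hm⟩
    refine ⟨Additive.ofMul m, ?_⟩
    have h1 := norm_ofMulDistribMulAction G M (Additive.ofMul m)
    show (Representation.ofMulDistribMulAction G M).norm (Additive.ofMul m)
        = Additive.ofMul (bc (Additive.toMul a))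
    rw [h1]
    exact congrArg Additive.ofMul hm

theorem toH0hatAdd_surjective (hfix : ∀ (c : M₀) (g : G), g • bc c = bc c)
    (hrange : ∀ m : M, (∀ g : G, g • m = m) → ∃ c : M₀, bc c = m) :
    Function.Surjective (toH0hatAdd bc hfix) := by
  intro z
  obtain ⟨⟨a, ha⟩, rfl⟩ := Fermat.Agent.CFT.A.H0hat.mk_surjective _ z
  obtain ⟨c, hc⟩ := hrange (Additive.toMul (show Additive M from a))
    ((mem_invariants_ofMulDistribMulAction G M a).1 ha)
  refine ⟨Additive.ofMul c, ?_⟩
  rw [toH0hatAdd_apply]
  congr 1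
  exact Subtype.ext (congrArg Additive.ofMul hc)

/-- `M₀ → Ĥ⁰(G, M)` as a multiplicative map. -/
def toH0hat (hfix : ∀ (c : M₀) (g : G), g • bc c = bc c) :
    M₀ →* Multiplicative (Fermat.Agent.CFT.A.H0hat (Rep.ofMulDistribMulAction G M)) :=
  AddMonoidHom.toMultiplicativeRight (toH0hatAdd bc hfix)

theorem toH0hat_apply (hfix : ∀ (c : M₀) (g : G), g • bc c = bc c) (c : M₀) :
    toH0hat bc hfix c = Multiplicative.ofAdd (toH0hatAdd bc hfix (Additive.ofMul c)) := rfl

theorem toH0hat_apply_toAdd_eq_zero_iff (hfix : ∀ (c : M₀) (g : G), g • bc c = bc c) (c : M₀) :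
    Multiplicative.toAdd (toH0hat bc hfix c) = 0 ↔ c ∈ normSubgroupOf (G := G) bc :=
  toH0hatAdd_eq_zero_iff bc hfix (Additive.ofMul c)

theorem ker_toH0hat (hfix : ∀ (c : M₀) (g : G), g • bc c = bc c) :
    (toH0hat bc hfix).ker = normSubgroupOf (G := G) bc := by
  ext c
  rw [MonoidHom.mem_ker, ← toH0hat_apply_toAdd_eq_zero_iff]
  exact Iff.rfl

theorem toH0hat_surjective (hfix : ∀ (c : M₀) (g : G), g • bc c = bc c)
    (hrange : ∀ m : M, (∀ g : G, g • m = m) → ∃ c : M₀, bc c = m) :
    Function.Surjective (toH0hat bc hfix) := by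
  intro z
  obtain ⟨a, ha⟩ := toH0hatAdd_surjective bc hfix hrange (Multiplicative.toAdd z)
  refine ⟨Additive.toMul a, ?_⟩
  rw [toH0hat_apply]
  exact congrArg Multiplicative.ofAdd ha

/-- `M₀ ⧸ N ≃ Ĥ⁰(G, M)`. -/
def quotNormEquivH0hat (hfix : ∀ (c : M₀) (g : G), g • bc c = bc c)
    (hrange : ∀ m : M, (∀ g : G, g • m = m) → ∃ c : M₀, bc c = m) :
    M₀ ⧸ normSubgroupOf (G := G) bc ≃*
      Multiplicative (Fermat.Agent.CFT.A.H0hat (Rep.ofMulDistribMulAction G M)) :=
  (QuotientGroup.quotientMulEquivOfEq (ker_toH0hat bc hfix).symm).trans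
    (QuotientGroup.quotientKerEquivOfSurjective _ (toH0hat_surjective bc hfix hrange))

theorem card_H0hat_eq_index (hfix : ∀ (c : M₀) (g : G), g • bc c = bc c)
    (hrange : ∀ m : M, (∀ g : G, g • m = m) → ∃ c : M₀, bc c = m) :
    Nat.card (Fermat.Agent.CFT.A.H0hat (Rep.ofMulDistribMulAction G M)) =
      (normSubgroupOf (G := G) bc).index := by
  rw [Subgroup.index, ← Nat.card_congr (quotNormEquivH0hat bc hfix hrange).symm.toEquiv]
  exact Nat.card_congr Multiplicative.ofAdd

end GenericRep

/-! ### The Galois norm on the hybrid formation module -/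

section Concrete

variable (S : Finset Nat.Primes) (K F : Type*) [Field K] [NumberField K] [Field F] [NumberField F]
  [Algebra K F]

/-- `CS S F` is commutative for the quotient-group structure (instance search does not see this
through `QuotientGroup.Quotient.group`); makes `H.Normal` available for `H : Subgroup (CS S F)`. -/
instance isMulCommutative_CS : IsMulCommutative (CS S F) := ⟨⟨fun a b => mul_comm a b⟩⟩

/-- The Galois norm `x ↦ ∏ σ, σ • x` on the hybrid ideles of `F`. -/
def galNormIdS : IdS S F →* IdS S F := mulNorm (F ≃ₐ[K] F) (IdS S F)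

/-- The Galois norm `c ↦ ∏ σ, σ • c` on the hybrid idele class group of `F`. -/
def galNorm : CS S F →* CS S F := mulNorm (F ≃ₐ[K] F) (CS S F)

theorem galNorm_apply (c : CS S F) : galNorm S K F c = ∏ σ : F ≃ₐ[K] F, σ • c := rfl

theorem galNormIdS_apply (x : IdS S F) : galNormIdS S K F x = ∏ σ : F ≃ₐ[K] F, σ • x := rfl

theorem galNorm_toCS (x : IdS S F) :
    galNorm S K F (toCS S F x) = toCS S F (galNormIdS S K F x) :=
  by
  rw [galNorm_apply, galNormIdS_apply, map_prod]
  rfl

theorem smul_galNorm (σ : F ≃ₐ[K] F) (c : CS S F) : σ • galNorm S K F c = galNorm S K F c :=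
  smul_mulNorm _ _ σ c

theorem galNorm_smul (σ : F ≃ₐ[K] F) (c : CS S F) : galNorm S K F (σ • c) = galNorm S K F c :=
  mulNorm_smul _ _ σ c

theorem galNorm_baseChange [IsGalois K F] (c : CS S K) :
    galNorm S K F (CS.baseChange S K F c) = CS.baseChange S K F c ^ Module.finrank K F := by
  rw [← IsGalois.card_aut_eq_finrank, Nat.card_eq_fintype_card]
  exact mulNorm_of_fixed _ _ _ (fun σ => smul_CS_baseChange S K F σ c)

/-- The norm subgroup `N_{F/K} CS S F ⊆ CS S K`: the classes that become Galois norms in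
`CS S F`. -/
def normSubgroup : Subgroup (CS S K) :=
  @normSubgroupOf (F ≃ₐ[K] F) (CS S F) _ _ (QuotientGroup.Quotient.commGroup _) (csAction S F K)
    (CS S K) (QuotientGroup.Quotient.commGroup _) (CS.baseChange S K F)

theorem mem_normSubgroup_iff (c : CS S K) :
    c ∈ normSubgroup S K F ↔ ∃ m : CS S F, galNorm S K F m = CS.baseChange S K F c := Iff.rfl

theorem pow_finrank_mem_normSubgroup [IsGalois K F] (c : CS S K) :
    c ^ Module.finrank K F ∈ normSubgroup S K F := by
  rw [mem_normSubgroup_iff]
  exact ⟨CS.baseChange S K F c, by rw [galNorm_baseChange, map_pow]⟩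

end Concrete

section ConcreteRep

variable (S : Finset Nat.Primes) (K F : Type) [Field K] [NumberField K] [Field F] [NumberField F]
  [Algebra K F] [IsGalois K F]

omit [IsGalois K F] in
theorem CS.baseChange_fixed (c : CS S K) (σ : F ≃ₐ[K] F) :
    σ • CS.baseChange S K F c = CS.baseChange S K F c := smul_CS_baseChange S K F σ c

theorem CS.exists_baseChange_eq (hS : S.Nonempty) (hur : UnramOutside S K F) (m : CS S F)
    (hm : ∀ σ : F ≃ₐ[K] F, σ • m = m) : ∃ c : CS S K, CS.baseChange S K F c = m :=
  (mem_range_CS_baseChange_iff S K F hS hur m).2 hm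

/-- The map `CS S K → Ĥ⁰(Gal(F/K), CS S F)` (layer-A model `A.H0hat`). -/
def toH0hatCS : CS S K →* Multiplicative (Fermat.Agent.CFT.A.H0hat (repCS S F K)) :=
  @toH0hat (F ≃ₐ[K] F) (CS S F) _ _ (QuotientGroup.Quotient.commGroup _) (csAction S F K) (CS S K)
    (QuotientGroup.Quotient.commGroup _) (CS.baseChange S K F) (CS.baseChange_fixed S K F)

omit [IsGalois K F] in
theorem ker_toH0hatCS : (toH0hatCS S K F).ker = normSubgroup S K F :=
  @ker_toH0hat (F ≃ₐ[K] F) (CS S F) _ _ (QuotientGroup.Quotient.commGroup _) (csAction S F K)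
    (CS S K) (QuotientGroup.Quotient.commGroup _) (CS.baseChange S K F) (CS.baseChange_fixed S K F)

theorem toH0hatCS_surjective (hS : S.Nonempty) (hur : UnramOutside S K F) :
    Function.Surjective (toH0hatCS S K F) :=
  @toH0hat_surjective (F ≃ₐ[K] F) (CS S F) _ _ (QuotientGroup.Quotient.commGroup _)
    (csAction S F K) (CS S K) (QuotientGroup.Quotient.commGroup _) (CS.baseChange S K F)
    (CS.baseChange_fixed S K F) (CS.exists_baseChange_eq S K F hS hur)

/-- **`CS S K ⧸ N_{F/K} CS S F ≃ Ĥ⁰(Gal(F/K), CS S F)`** (layer-A model `A.H0hat`), from Galois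
descent `(CS S F)^G = CS S K`; `F/K` Galois and unramified outside `S`, `S ≠ ∅`. -/
def quotNormSubgroupEquiv (hS : S.Nonempty) (hur : UnramOutside S K F) :
    CS S K ⧸ normSubgroup S K F ≃*
      Multiplicative (Fermat.Agent.CFT.A.H0hat (repCS S F K)) :=
  (QuotientGroup.quotientMulEquivOfEq (ker_toH0hatCS S K F).symm).trans
    (QuotientGroup.quotientKerEquivOfSurjective _ (toH0hatCS_surjective S K F hS hur))

/-- `|Ĥ⁰(Gal(F/K), CS S F)| = [CS S K : N_{F/K} CS S F]`. -/
theorem card_H0hat_repCS (hS : S.Nonempty) (hur : UnramOutside S K F) :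
    Nat.card (Fermat.Agent.CFT.A.H0hat (repCS S F K)) = (normSubgroup S K F).index := by
  rw [Subgroup.index, ← Nat.card_congr (quotNormSubgroupEquiv S K F hS hur).symm.toEquiv]
  exact Nat.card_congr Multiplicative.ofAdd

end ConcreteRep

end

end Fermat.Agent.CFT.H23
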