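import Mathlib

/-!
# Permutation modules for a permutation of prime order (CFT layer C, package C-PERM)

`X` any type, `s : Equiv.Perm X` with `s ^ p = 1`, `p` prime. On `X →₀ ℤ` put
`T := permEnd s` (`(T f) y = f (s⁻¹ y)`, `T (single x c) = single (s x) c`) and
`N := permNorm p s = ∑_{i<p} T^i`.

* `exists_eq_sub_of_permNorm_eq_zero` : `N f = 0 → ∃ g, f = T g - g`   (`H¹ = Ĥ⁻¹ = 0`);
* `exists_eq_permNorm` : `T f = f → (∀ z fixed, p ∣ f z) → ∃ g, f = N g`
  (`Ĥ⁰ = ⊕_{fixed points} ℤ/p`).
-/

namespace Fermat.Agent.CFT.H41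

open Finset

section Core

variable {X : Type*}

/-- The permutation action of `Equiv.Perm X` on `X →₀ ℤ`. -/
noncomputable def permEnd : Equiv.Perm X →* Module.End ℤ (X →₀ ℤ) where
  toFun s := Finsupp.lmapDomain ℤ ℤ s
  map_one' := by
    ext x y
    simp
  map_mul' s t := by
    ext x y
    simp

@[simp] lemma permEnd_single (s : Equiv.Perm X) (x : X) (c : ℤ) :
    permEnd s (Finsupp.single x c) = Finsupp.single (s x) c := by
  simp [permEnd]

lemma permEnd_eq_mapDomain (s : Equiv.Perm X) (f : X →₀ ℤ) :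
    permEnd s f = Finsupp.mapDomain s f := rfl

@[simp] lemma permEnd_apply (s : Equiv.Perm X) (f : X →₀ ℤ) (y : X) :
    permEnd s f y = f (s⁻¹ y) := by
  rw [permEnd_eq_mapDomain, Finsupp.mapDomain_equiv_apply]
  rfl

/-- The norm `∑_{i<p} T^i`. -/
noncomputable def permNorm (p : ℕ) (s : Equiv.Perm X) : Module.End ℤ (X →₀ ℤ) :=
  ∑ i ∈ range p, permEnd (s ^ i)

lemma permNorm_eq_sum_pow (p : ℕ) (s : Equiv.Perm X) :
    permNorm p s = ∑ i ∈ range p, (permEnd s) ^ i := by
  simp [permNorm, map_pow]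

lemma permNorm_apply (p : ℕ) (s : Equiv.Perm X) (f : X →₀ ℤ) (y : X) :
    permNorm p s f y = ∑ i ∈ range p, f ((s⁻¹ ^ i) y) := by
  simp only [permNorm, LinearMap.sum_apply, Finsupp.finsetSum_apply, permEnd_apply, inv_pow]

lemma permNorm_single (p : ℕ) (s : Equiv.Perm X) (x : X) (c : ℤ) :
    permNorm p s (Finsupp.single x c) = ∑ i ∈ range p, Finsupp.single ((s ^ i) x) c := by
  simp only [permNorm, LinearMap.sum_apply, permEnd_single]

lemma permEnd_comp_permNorm {p : ℕ} {s : Equiv.Perm X} (hs : s ^ p = 1) :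
    permEnd s * permNorm p s = permNorm p s := by
  rw [permNorm_eq_sum_pow, Finset.mul_sum]
  have h1 : ∀ i ∈ range p, permEnd s * permEnd s ^ i = permEnd s ^ (i + 1) := fun i _ => by
    rw [pow_succ']
  rw [Finset.sum_congr rfl h1]
  have := Finset.sum_range_succ' (fun i => permEnd s ^ i) p
  have h2 := Finset.sum_range_succ (fun i => permEnd s ^ i) p
  rw [h2] at this
  simp only [pow_zero] at this
  have hp : permEnd s ^ p = 1 := by rw [← map_pow, hs, map_one]
  rw [hp] at this
  exact (add_right_cancel this).symm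

lemma permNorm_comp_permEnd {p : ℕ} {s : Equiv.Perm X} (hs : s ^ p = 1) :
    permNorm p s * permEnd s = permNorm p s := by
  have hcomm : permNorm p s * permEnd s = permEnd s * permNorm p s := by
    rw [permNorm_eq_sum_pow, Finset.mul_sum, Finset.sum_mul]
    refine Finset.sum_congr rfl fun i _ => ?_
    rw [← pow_succ, ← pow_succ']
  rw [hcomm, permEnd_comp_permNorm hs]

lemma permEnd_permNorm_apply {p : ℕ} {s : Equiv.Perm X} (hs : s ^ p = 1) (f : X →₀ ℤ) :
    permEnd s (permNorm p s f) = permNorm p s f := by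
  rw [← Module.End.mul_apply, permEnd_comp_permNorm hs]

lemma permNorm_permEnd_apply {p : ℕ} {s : Equiv.Perm X} (hs : s ^ p = 1) (f : X →₀ ℤ) :
    permNorm p s (permEnd s f) = permNorm p s f := by
  rw [← Module.End.mul_apply, permNorm_comp_permEnd hs]

/-- Injectivity of `i ↦ v^i x` on `i < p` for a non-fixed point of a permutation of prime order. -/
lemma pow_apply_injOn {p : ℕ} (hp : p.Prime) {v : Equiv.Perm X} (hv : v ^ p = 1) {x : X}
    (hx : v x ≠ x) : Set.InjOn (fun i : ℕ => (v ^ i) x) (Set.Iio p) := by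
  have hper : Function.IsPeriodicPt v p x := by
    change v^[p] x = x
    rw [Equiv.Perm.iterate_eq_pow, hv]; rfl
  have hdvd := hper.minimalPeriod_dvd
  have hmin : Function.minimalPeriod v x = p := by
    rcases (Nat.dvd_prime hp).mp hdvd with h | h
    · exact absurd (Function.minimalPeriod_eq_one_iff_isFixedPt.mp h) hx
    · exact h
  have := Function.iterate_injOn_Iio_minimalPeriod (f := v) (x := x)
  rw [hmin] at this
  intro i hi j hj hij
  apply this hi hj
  simpa [Equiv.Perm.iterate_eq_pow] using hij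

/-- The part of `f` supported on the `v`-orbit of `x` (for `v` of prime order `p`, `x` not fixed). -/
noncomputable def orbitPart (v : Equiv.Perm X) (p : ℕ) (x : X) (f : X →₀ ℤ) : X →₀ ℤ :=
  ∑ i ∈ range p, Finsupp.single ((v ^ i) x) (f ((v ^ i) x))

lemma orbitPart_apply (v : Equiv.Perm X) (p : ℕ) (x : X) (f : X →₀ ℤ) (y : X) :
    orbitPart v p x f y = ∑ i ∈ range p, Finsupp.single ((v ^ i) x) (f ((v ^ i) x)) y := by
  simp only [orbitPart, Finsupp.finsetSum_apply]

lemma orbitPart_apply_pow {p : ℕ} (hp : p.Prime) {v : Equiv.Perm X} (hv : v ^ p = 1) {x : X}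
    (hx : v x ≠ x) (f : X →₀ ℤ) {j : ℕ} (hj : j < p) :
    orbitPart v p x f ((v ^ j) x) = f ((v ^ j) x) := by
  classical
  rw [orbitPart_apply, Finset.sum_eq_single j]
  · simp
  · intro i hi hij
    rw [Finsupp.single_apply, if_neg]
    intro h
    exact hij (pow_apply_injOn hp hv hx (Finset.mem_range.mp hi) hj h)
  · intro h
    exact absurd (Finset.mem_range.mpr hj) h

lemma orbitPart_apply_of_ne (v : Equiv.Perm X) (p : ℕ) (x : X) (f : X →₀ ℤ) {y : X}
    (hy : ∀ i < p, (v ^ i) x ≠ y) : orbitPart v p x f y = 0 := by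
  classical
  rw [orbitPart_apply]
  refine Finset.sum_eq_zero fun i hi => ?_
  rw [Finsupp.single_apply, if_neg (hy i (Finset.mem_range.mp hi))]

lemma sub_orbitPart_apply {p : ℕ} (hp : p.Prime) {v : Equiv.Perm X} (hv : v ^ p = 1) {x : X}
    (hx : v x ≠ x) (f : X →₀ ℤ) (y : X) :
    (f - orbitPart v p x f) y = 0 ∨ ((f - orbitPart v p x f) y = f y ∧ y ≠ x) := by
  by_cases hy : ∃ i < p, (v ^ i) x = y
  · obtain ⟨i, hi, rfl⟩ := hy
    left
    rw [Finsupp.sub_apply, orbitPart_apply_pow hp hv hx f hi, sub_self]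
  · push Not at hy
    right
    refine ⟨?_, ?_⟩
    · rw [Finsupp.sub_apply, orbitPart_apply_of_ne v p x f hy, sub_zero]
    · intro h
      exact hy 0 hp.pos (by simp [h])

lemma card_support_sub_orbitPart_lt {p : ℕ} (hp : p.Prime) {v : Equiv.Perm X} (hv : v ^ p = 1)
    {x : X} (hx : v x ≠ x) (f : X →₀ ℤ) (hxf : x ∈ f.support) :
    (f - orbitPart v p x f).support.card < f.support.card := by
  apply Finset.card_lt_card
  refine ⟨?_, ?_⟩
  · intro y hy
    rw [Finsupp.mem_support_iff] at hy ⊢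
    rcases sub_orbitPart_apply hp hv hx f y with h | ⟨h, -⟩
    · exact absurd h hy
    · rwa [h] at hy
  · intro hsub
    have := hsub hxf
    rw [Finsupp.mem_support_iff] at this
    rcases sub_orbitPart_apply hp hv hx f x with h | ⟨-, h⟩
    · exact this h
    · exact h rfl

/-- Key step of (P1): the orbit part of `f` at `x` is in the image of `T - 1` when the orbit sum
vanishes. Here the orbit is parametrised by `s⁻¹`. No hypothesis on `x`. -/
lemma orbitPart_inv_eq_sub {p : ℕ} (s : Equiv.Perm X) (x : X) (f : X →₀ ℤ)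
    (hsum : ∑ i ∈ range p, f ((s⁻¹ ^ i) x) = 0) :
    ∃ g : X →₀ ℤ, orbitPart s⁻¹ p x f = permEnd s g - g := by
  set a : ℕ → ℤ := fun i => f ((s⁻¹ ^ i) x) with ha
  set S : ℕ → ℤ := fun i => ∑ j ∈ range i, a j with hS
  have hS0 : S 0 = 0 := by simp [hS]
  have hSp : S p = 0 := hsum
  have hSsucc : ∀ i, S (i + 1) = S i + a i := fun i => Finset.sum_range_succ _ _
  refine ⟨∑ i ∈ range p, Finsupp.single ((s⁻¹ ^ (i + 1)) x) (S (i + 1)), ?_⟩
  have h1 : permEnd s (∑ i ∈ range p, Finsupp.single ((s⁻¹ ^ (i + 1)) x) (S (i + 1))) =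
      ∑ i ∈ range p, Finsupp.single ((s⁻¹ ^ i) x) (S (i + 1)) := by
    rw [map_sum]
    refine Finset.sum_congr rfl fun i _ => ?_
    rw [permEnd_single]
    congr 1
    rw [pow_succ', Equiv.Perm.mul_apply]
    simp
  have h2 : (∑ i ∈ range p, Finsupp.single ((s⁻¹ ^ (i + 1)) x) (S (i + 1)) : X →₀ ℤ) =
      ∑ i ∈ range p, Finsupp.single ((s⁻¹ ^ i) x) (S i) := by
    have e1 := Finset.sum_range_succ' (fun i => (Finsupp.single ((s⁻¹ ^ i) x) (S i) : X →₀ ℤ)) p
    have e2 := Finset.sum_range_succ (fun i => (Finsupp.single ((s⁻¹ ^ i) x) (S i) : X →₀ ℤ)) p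
    rw [e2] at e1
    simp only [hSp, hS0, Finsupp.single_zero, add_zero] at e1
    exact e1.symm
  rw [h1, h2, ← Finset.sum_sub_distrib, orbitPart]
  refine Finset.sum_congr rfl fun i _ => ?_
  rw [← Finsupp.single_sub, hSsucc, add_sub_cancel_left]

lemma inv_apply_eq_self {s : Equiv.Perm X} {x : X} (h : s x = x) : s⁻¹ x = x := by
  rw [Equiv.Perm.inv_eq_iff_eq, h]

lemma permNorm_apply_of_fixed (p : ℕ) {s : Equiv.Perm X} {x : X} (h : s x = x) (f : X →₀ ℤ) :
    permNorm p s f x = (p : ℤ) * f x := by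
  rw [permNorm_apply]
  have : ∀ i ∈ range p, f ((s⁻¹ ^ i) x) = f x := fun i _ => by
    rw [Equiv.Perm.pow_apply_eq_self_of_apply_eq_self (inv_apply_eq_self h)]
  rw [Finset.sum_congr rfl this]
  simp

/-- **(P1)** `ker N = im (T - 1)` on the permutation module of a permutation of prime order. -/
theorem exists_eq_sub_of_permNorm_eq_zero {p : ℕ} (hp : p.Prime) {s : Equiv.Perm X}
    (hs : s ^ p = 1) (f : X →₀ ℤ) (hf : permNorm p s f = 0) :
    ∃ g : X →₀ ℤ, f = permEnd s g - g := by
  induction' h : f.support.card using Nat.strong_induction_on with n ih generalizing f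
  by_cases hf0 : f = 0
  · exact ⟨0, by simp [hf0]⟩
  obtain ⟨x, hx⟩ : ∃ x, x ∈ f.support := Finsupp.support_nonempty_iff.mpr hf0
  by_cases hsx : s x = x
  · exfalso
    have h1 := permNorm_apply_of_fixed p hsx f
    rw [hf, Finsupp.zero_apply] at h1
    rcases mul_eq_zero.mp h1.symm with h2 | h2
    · exact hp.ne_zero (by exact_mod_cast h2)
    · exact (Finsupp.mem_support_iff.mp hx) h2
  · have hux : s⁻¹ x ≠ x := by
      intro h
      apply hsx
      rw [Equiv.Perm.inv_eq_iff_eq] at h
      exact h.symm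
    have hu : s⁻¹ ^ p = 1 := by rw [inv_pow, hs, inv_one]
    have hsum : ∑ i ∈ range p, f ((s⁻¹ ^ i) x) = 0 := by
      rw [← permNorm_apply, hf]; rfl
    obtain ⟨g, hg⟩ := orbitPart_inv_eq_sub s x f hsum
    have hlt := card_support_sub_orbitPart_lt hp hu hux f hx
    have hN : permNorm p s (f - orbitPart s⁻¹ p x f) = 0 := by
      rw [map_sub, hf, hg, map_sub, permNorm_permEnd_apply hs, sub_self, sub_zero]
    obtain ⟨g', hg'⟩ := ih _ (h ▸ hlt) _ hN rfl
    refine ⟨g + g', ?_⟩
    rw [map_add, add_sub_add_comm, ← hg, ← hg']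
    abel

/-- **(P2)** an invariant element whose values at the fixed points are divisible by `p` is a
norm. -/
theorem exists_eq_permNorm {p : ℕ} (hp : p.Prime) {s : Equiv.Perm X} (hs : s ^ p = 1)
    (f : X →₀ ℤ) (hf : permEnd s f = f) (hdiv : ∀ z, s z = z → (p : ℤ) ∣ f z) :
    ∃ g : X →₀ ℤ, f = permNorm p s g := by
  induction' h : f.support.card using Nat.strong_induction_on with n ih generalizing f
  by_cases hf0 : f = 0
  · exact ⟨0, by simp [hf0]⟩
  obtain ⟨x, hx⟩ : ∃ x, x ∈ f.support := Finsupp.support_nonempty_iff.mpr hf0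
  by_cases hsx : s x = x
  · obtain ⟨c, hc⟩ := hdiv x hsx
    have hN : permNorm p s (Finsupp.single x c) = Finsupp.single x (f x) := by
      rw [permNorm_single]
      have : ∀ i ∈ range p, (Finsupp.single ((s ^ i) x) c : X →₀ ℤ) = Finsupp.single x c :=
        fun i _ => by rw [Equiv.Perm.pow_apply_eq_self_of_apply_eq_self hsx]
      rw [Finset.sum_congr rfl this, Finset.sum_const, Finset.card_range, hc,
        ← Finsupp.smul_single' (p : ℤ) x c]
      simp
    have hlt : (f - Finsupp.single x (f x)).support.card < f.support.card := by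
      classical
      rw [← Finsupp.erase_eq_sub_single, Finsupp.support_erase]
      exact Finset.card_erase_lt_of_mem hx
    have hT : permEnd s (f - Finsupp.single x (f x)) = f - Finsupp.single x (f x) := by
      rw [map_sub, hf, permEnd_single, hsx]
    have hd : ∀ z, s z = z → (p : ℤ) ∣ (f - Finsupp.single x (f x)) z := by
      intro z hz
      rw [Finsupp.sub_apply]
      refine dvd_sub (hdiv z hz) ?_
      rw [← hN, permNorm_apply_of_fixed p hz]
      exact dvd_mul_right _ _
    obtain ⟨g', hg'⟩ := ih _ (h ▸ hlt) _ hT hd rfl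
    refine ⟨Finsupp.single x c + g', ?_⟩
    rw [map_add, hN, ← hg']
    abel
  · have hconst : ∀ i : ℕ, f ((s ^ i) x) = f x := by
      intro i
      induction i with
      | zero => simp
      | succ i ih =>
        have := DFunLike.congr_fun hf ((s ^ (i + 1)) x)
        rw [permEnd_apply] at this
        rw [← this, pow_succ', Equiv.Perm.mul_apply, Equiv.Perm.inv_def, Equiv.symm_apply_apply]
        exact ih
    have hO : orbitPart s p x f = permNorm p s (Finsupp.single x (f x)) := by
      rw [permNorm_single, orbitPart]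
      exact Finset.sum_congr rfl fun i _ => by rw [hconst]
    have hlt := card_support_sub_orbitPart_lt hp hs hsx f hx
    have hT : permEnd s (f - orbitPart s p x f) = f - orbitPart s p x f := by
      rw [map_sub, hf, hO, permEnd_permNorm_apply hs]
    have hd : ∀ z, s z = z → (p : ℤ) ∣ (f - orbitPart s p x f) z := by
      intro z hz
      rw [Finsupp.sub_apply, hO, permNorm_apply_of_fixed p hz]
      exact dvd_sub (hdiv z hz) (dvd_mul_right _ _)
    obtain ⟨g', hg'⟩ := ih _ (h ▸ hlt) _ hT hd rfl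
    refine ⟨Finsupp.single x (f x) + g', ?_⟩
    rw [map_add, ← hO, ← hg']
    abel

end Core

end Fermat.Agent.CFT.H41
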