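import Mathlib
import Fermat.Agent.CFT.H41_Perm
import Fermat.Agent.CFT.H6_HerbrandRep

/-!
# Herbrand indices of permutation modules (CFT layer C, package C-PERM)

In the vocabulary of `H6_Herbrand` (`hIndex`, `herbrand`, `HerbrandDefined`): for a permutation
`s` of `X` with `s ^ p = 1`, `p` prime, on `X →₀ ℤ`:

* `hIndex_permNormAdd_permSub : hIndex N (T - 1) = 1`;
* `hIndex_permSub_permNormAdd : hIndex (T - 1) N = Nat.card (fixedPoints s →₀ ZMod p)`
  (`= p ^ #fixedPoints` if there are finitely many fixed points);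
* `herbrand_perm : herbrand (T - 1) N = p ^ #fixedPoints`.
-/

namespace Fermat.Agent.CFT.H41

open Finset Fermat.Agent.CFT.H6

variable {X : Type*} {p : ℕ} {s : Equiv.Perm X}

/-- `T - 1` as an additive endomorphism of `X →₀ ℤ`. -/
noncomputable def permSub (s : Equiv.Perm X) : (X →₀ ℤ) →+ (X →₀ ℤ) :=
  (permEnd s - 1 : Module.End ℤ (X →₀ ℤ)).toAddMonoidHom

/-- The norm `∑_{i<p} T^i` as an additive endomorphism of `X →₀ ℤ`. -/
noncomputable def permNormAdd (p : ℕ) (s : Equiv.Perm X) : (X →₀ ℤ) →+ (X →₀ ℤ) :=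
  (permNorm p s).toAddMonoidHom

@[simp] lemma permSub_apply (s : Equiv.Perm X) (f : X →₀ ℤ) : permSub s f = permEnd s f - f := rfl

@[simp] lemma permNormAdd_apply (p : ℕ) (s : Equiv.Perm X) (f : X →₀ ℤ) :
    permNormAdd p s f = permNorm p s f := rfl

lemma permNormAdd_comp_permSub (hs : s ^ p = 1) : (permNormAdd p s).comp (permSub s) = 0 := by
  refine AddMonoidHom.ext fun f => ?_
  simp only [AddMonoidHom.comp_apply, permSub_apply, permNormAdd_apply, map_sub,
    permNorm_permEnd_apply hs, sub_self, AddMonoidHom.zero_apply]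

lemma permSub_comp_permNormAdd (hs : s ^ p = 1) : (permSub s).comp (permNormAdd p s) = 0 := by
  refine AddMonoidHom.ext fun f => ?_
  simp only [AddMonoidHom.comp_apply, permSub_apply, permNormAdd_apply,
    permEnd_permNorm_apply hs, sub_self, AddMonoidHom.zero_apply]

lemma mem_ker_permSub {f : X →₀ ℤ} : f ∈ (permSub s).ker ↔ permEnd s f = f := by
  rw [AddMonoidHom.mem_ker, permSub_apply, sub_eq_zero]

lemma mem_ker_permNormAdd {f : X →₀ ℤ} : f ∈ (permNormAdd p s).ker ↔ permNorm p s f = 0 :=
  Iff.rfl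

lemma mem_range_permSub {f : X →₀ ℤ} : f ∈ (permSub s).range ↔ ∃ g, f = permEnd s g - g := by
  simp only [AddMonoidHom.mem_range, permSub_apply, eq_comm]

lemma mem_range_permNormAdd {f : X →₀ ℤ} :
    f ∈ (permNormAdd p s).range ↔ ∃ g, f = permNorm p s g := by
  simp only [AddMonoidHom.mem_range, permNormAdd_apply, eq_comm]

/-- `Ĥ⁻¹ = H¹ = 0` for permutation modules of a cyclic group of prime order. -/
theorem hIndex_permNormAdd_permSub (hp : p.Prime) (hs : s ^ p = 1) :
    hIndex (permNormAdd p s) (permSub s) = 1 := by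
  unfold hIndex
  rw [AddSubgroup.relIndex_eq_one]
  intro f hf
  exact mem_range_permSub.mpr (exists_eq_sub_of_permNorm_eq_zero hp hs f hf)

/-- Evaluation at the fixed points, modulo `p`. -/
noncomputable def evFix (p : ℕ) (s : Equiv.Perm X) :
    (X →₀ ℤ) →+ (Function.fixedPoints s →₀ ZMod p) :=
  (Finsupp.mapRange.addMonoidHom (Int.castAddHom (ZMod p))).comp
    (Finsupp.comapDomain.addMonoidHom Subtype.val_injective)

@[simp] lemma evFix_apply (p : ℕ) (s : Equiv.Perm X) (f : X →₀ ℤ) (z : Function.fixedPoints s) :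
    evFix p s f z = ((f z : ℤ) : ZMod p) := by
  simp [evFix]

lemma evFix_eq_zero_iff (p : ℕ) (s : Equiv.Perm X) (f : X →₀ ℤ) :
    evFix p s f = 0 ↔ ∀ z, s z = z → (p : ℤ) ∣ f z := by
  constructor
  · intro h z hz
    have := DFunLike.congr_fun h ⟨z, hz⟩
    rw [evFix_apply, Finsupp.zero_apply] at this
    exact (ZMod.intCast_zmod_eq_zero_iff_dvd _ _).mp this
  · intro h
    ext ⟨z, hz⟩
    rw [evFix_apply, Finsupp.zero_apply]
    exact (ZMod.intCast_zmod_eq_zero_iff_dvd _ _).mpr (h z hz)

/-- Every finitely supported function on the fixed points with values in `ZMod p` comes from an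
invariant element. -/
lemma exists_invariant_evFix_eq (p : ℕ) [NeZero p] (s : Equiv.Perm X)
    (φ : Function.fixedPoints s →₀ ZMod p) :
    ∃ f : X →₀ ℤ, permEnd s f = f ∧ evFix p s f = φ := by
  let ψ : Function.fixedPoints s →₀ ℤ := φ.mapRange (fun a => (a.val : ℤ)) (by simp)
  refine ⟨Finsupp.mapDomain Subtype.val ψ, ?_, ?_⟩
  · rw [permEnd_eq_mapDomain, ← Finsupp.mapDomain_comp]
    congr 1
    ext z
    exact z.2
  · ext z
    rw [evFix_apply, Finsupp.mapDomain_apply Subtype.val_injective]
    simp [ψ]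

/-- An invariant element is a norm iff its values at the fixed points are divisible by `p`. -/
theorem mem_range_permNormAdd_iff (hp : p.Prime) (hs : s ^ p = 1) {f : X →₀ ℤ}
    (hf : permEnd s f = f) : f ∈ (permNormAdd p s).range ↔ evFix p s f = 0 := by
  rw [evFix_eq_zero_iff, mem_range_permNormAdd]
  constructor
  · rintro ⟨g, rfl⟩ z hz
    rw [permNorm_apply_of_fixed p hz]
    exact dvd_mul_right _ _
  · intro h
    exact exists_eq_permNorm hp hs f hf h

/-- `Ĥ⁰ = ⊕_{fixed points} ℤ/p`, as an index. -/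
theorem hIndex_permSub_permNormAdd (hp : p.Prime) (hs : s ^ p = 1) :
    hIndex (permSub s) (permNormAdd p s) = Nat.card (Function.fixedPoints s →₀ ZMod p) := by
  have : NeZero p := ⟨hp.ne_zero⟩
  unfold hIndex AddSubgroup.relIndex
  let φ : (permSub s).ker →+ (Function.fixedPoints s →₀ ZMod p) :=
    (evFix p s).comp (permSub s).ker.subtype
  have hker : φ.ker = (permNormAdd p s).range.addSubgroupOf (permSub s).ker := by
    ext ⟨f, hf⟩
    rw [AddMonoidHom.mem_ker, AddSubgroup.mem_addSubgroupOf]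
    change evFix p s f = 0 ↔ f ∈ (permNormAdd p s).range
    exact (mem_range_permNormAdd_iff hp hs (mem_ker_permSub.mp hf)).symm
  have hsurj : Function.Surjective φ := by
    intro ψ
    obtain ⟨f, hf, hfψ⟩ := exists_invariant_evFix_eq p s ψ
    exact ⟨⟨f, mem_ker_permSub.mpr hf⟩, hfψ⟩
  rw [← hker, AddSubgroup.index_ker, AddMonoidHom.range_eq_top.mpr hsurj, AddSubgroup.card_top]

theorem card_fixedPoints_finsupp_zmod (p : ℕ) (s : Equiv.Perm X)
    [Finite (Function.fixedPoints s)] :
    Nat.card (Function.fixedPoints s →₀ ZMod p) = p ^ Nat.card (Function.fixedPoints s) := by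
  rw [Nat.card_congr Finsupp.equivFunOnFinite, Nat.card_fun, Nat.card_zmod]

theorem hIndex_permSub_permNormAdd_of_finite (hp : p.Prime) (hs : s ^ p = 1)
    [Finite (Function.fixedPoints s)] :
    hIndex (permSub s) (permNormAdd p s) = p ^ Nat.card (Function.fixedPoints s) := by
  rw [hIndex_permSub_permNormAdd hp hs, card_fixedPoints_finsupp_zmod]

theorem herbrandDefined_perm (hp : p.Prime) (hs : s ^ p = 1) [Finite (Function.fixedPoints s)] :
    HerbrandDefined (permSub s) (permNormAdd p s) := by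
  refine ⟨?_, ?_⟩
  · rw [hIndex_permSub_permNormAdd_of_finite hp hs]
    exact pow_ne_zero _ hp.ne_zero
  · rw [hIndex_permNormAdd_permSub hp hs]
    exact one_ne_zero

/-- The Herbrand quotient of a permutation module of a cyclic group of prime order `p` is
`p ^ #fixed points`. -/
theorem herbrand_perm (hp : p.Prime) (hs : s ^ p = 1) [Finite (Function.fixedPoints s)] :
    herbrand (permSub s) (permNormAdd p s) = (p : ℚ) ^ Nat.card (Function.fixedPoints s) := by
  unfold herbrand
  rw [hIndex_permSub_permNormAdd_of_finite hp hs, hIndex_permNormAdd_permSub hp hs]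
  simp

end Fermat.Agent.CFT.H41
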