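import Mathlib
import Fermat.Agent.CFT.H41_PermHerbrand
import Fermat.Agent.Kummer.H63_Abstract

/-!
# Permutation representations of a cyclic group of prime order (CFT layer C, package C-PERM)

`G` a finite group acting on a type `X`, `ρ : Representation ℤ G V` a representation which is
identified, via `e : V ≃ₗ[ℤ] (X →₀ ℤ)`, with the permutation representation of `X`
(`IsPermRepn ρ e`). If `G` has prime order `p` and `g` generates `G`, then, in the vocabulary of
`H6_HerbrandRep`:

* `hm1Card_of_isPermRepn : hm1Card ρ g = 1`;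
* `h0Card_of_isPermRepn : h0Card ρ g = p ^ #(fixed points of G on X)`;
* `herbrandRepn_of_isPermRepn : herbrandRepn ρ g = p ^ #(fixed points)`.

Instances of `IsPermRepn`: `permRepn G X` (on `X →₀ ℤ`) and Mathlib's
`Representation.ofMulAction ℤ G X` (on `MonoidAlgebra ℤ X`).
-/

namespace Fermat.Agent.CFT.H41

open Finset Fermat.Agent.CFT.H6

section Bridge63

variable {X : Type*}

/-- The norm of `H41_Perm` is the `normEnd` of `Kummer/H63_Abstract` for `σ = permEnd s`. -/
lemma permNorm_eq_normEnd (p : ℕ) (s : Equiv.Perm X) :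
    permNorm p s = Fermat.Agent.Kummer.H63.normEnd p (permEnd s) :=
  permNorm_eq_sum_pow p s

lemma permEnd_pow_eq_one {p : ℕ} {s : Equiv.Perm X} (hs : s ^ p = 1) : permEnd s ^ p = 1 := by
  rw [← map_pow, hs, map_one]

lemma permSub_eq (s : Equiv.Perm X) :
    permSub s = (permEnd s - 1 : Module.End ℤ (X →₀ ℤ)).toAddMonoidHom := rfl

lemma permNormAdd_eq (p : ℕ) (s : Equiv.Perm X) :
    permNormAdd p s = (Fermat.Agent.Kummer.H63.normEnd p (permEnd s)).toAddMonoidHom := by
  rw [← permNorm_eq_normEnd]
  rfl

end Bridge63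

section SumRange

variable {G : Type*} [Group G] [Fintype G] {M : Type*} [AddCommMonoid M]

/-- Summing over a finite cyclic group is summing over the powers of a generator. -/
lemma sum_univ_eq_sum_range_pow {g : G} (hg : ∀ x, x ∈ Subgroup.zpowers g) (F : G → M) :
    ∑ h : G, F h = ∑ i ∈ range (Nat.card G), F (g ^ i) := by
  classical
  rw [← IsCyclic.image_range_card hg, Finset.sum_image]
  intro i hi j hj hij
  have hord := orderOf_eq_card_of_forall_mem_zpowers hg
  refine pow_injOn_Iio_orderOf (x := g) ?_ ?_ hij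
  · rw [hord]; exact Finset.mem_range.mp hi
  · rw [hord]; exact Finset.mem_range.mp hj

end SumRange

section Repn

variable {G : Type*} [Group G] {X : Type*} [MulAction G X] {V : Type*} [AddCommGroup V]
  [Module ℤ V]

/-- `ρ` is, via `e`, the permutation representation of the `G`-set `X`. -/
def IsPermRepn (ρ : Representation ℤ G V) (e : V ≃ₗ[ℤ] (X →₀ ℤ)) : Prop :=
  ∀ (g : G) (v : V), e (ρ g v) = permEnd (MulAction.toPerm g) (e v)

variable (G X) in
/-- The permutation representation of `G` on `X →₀ ℤ`. -/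
noncomputable def permRepn : Representation ℤ G (X →₀ ℤ) :=
  permEnd.comp (MulAction.toPermHom G X)

@[simp] lemma permRepn_apply (g : G) (f : X →₀ ℤ) (x : X) : permRepn G X g f x = f (g⁻¹ • x) := by
  change permEnd (MulAction.toPerm g) f x = _
  rw [permEnd_apply]
  rfl

@[simp] lemma permRepn_single (g : G) (x : X) (c : ℤ) :
    permRepn G X g (Finsupp.single x c) = Finsupp.single (g • x) c := by
  change permEnd (MulAction.toPerm g) _ = _
  rw [permEnd_single]
  rfl

lemma isPermRepn_permRepn : IsPermRepn (permRepn G X) (LinearEquiv.refl ℤ (X →₀ ℤ)) :=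
  fun _ _ => rfl

lemma isPermRepn_ofMulAction :
    IsPermRepn (Representation.ofMulAction ℤ G X) (MonoidAlgebra.coeffLinearEquiv ℤ) := by
  intro g v
  ext x
  rw [permEnd_apply]
  exact Representation.coeff_ofMulAction g v x

lemma fixedPoints_toPerm_eq {g : G} (hg : ∀ x, x ∈ Subgroup.zpowers g) :
    Function.fixedPoints (MulAction.toPerm g : Equiv.Perm X) = MulAction.fixedPoints G X := by
  ext x
  constructor
  · intro hx h
    have : Subgroup.zpowers g ≤ MulAction.stabilizer G x := by
      rw [Subgroup.zpowers_le]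
      exact hx
    exact this (hg h)
  · intro hx
    exact hx g

lemma toPerm_pow_card (g : G) : (MulAction.toPerm g : Equiv.Perm X) ^ Nat.card G = 1 := by
  rw [← MulAction.toPermHom_apply, ← map_pow, pow_card_eq_one', map_one]

variable [Fintype G] {ρ : Representation ℤ G V} {e : V ≃ₗ[ℤ] (X →₀ ℤ)}

lemma IsPermRepn.map_sigmaSubOne (h : IsPermRepn ρ e) (g : G) (v : V) :
    e (sigmaSubOne ρ g v) = permSub (MulAction.toPerm g) (e v) := by
  rw [sigmaSubOne_apply, map_sub, h g v, permSub_apply]

lemma IsPermRepn.map_normAdd (h : IsPermRepn ρ e) {g : G} (hg : ∀ x, x ∈ Subgroup.zpowers g)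
    (v : V) : e (normAdd ρ v) = permNormAdd (Nat.card G) (MulAction.toPerm g) (e v) := by
  rw [normAdd_apply, Representation.norm, LinearMap.sum_apply, map_sum,
    sum_univ_eq_sum_range_pow hg, permNormAdd_apply, permNorm, LinearMap.sum_apply]
  refine Finset.sum_congr rfl fun i _ => ?_
  rw [h, ← MulAction.toPermHom_apply, ← MulAction.toPermHom_apply, map_pow]

variable {p : ℕ}

/-- `Ĥ⁻¹ = 0` for a permutation representation of a cyclic group of prime order. -/
theorem hm1Card_of_isPermRepn (h : IsPermRepn ρ e) (hp : p.Prime) (hcard : Nat.card G = p) {g : G}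
    (hg : ∀ x, x ∈ Subgroup.zpowers g) : hm1Card ρ g = 1 := by
  subst hcard
  unfold hm1Card
  rw [← hIndex_congr e.toAddEquiv (fA := normAdd ρ) (gA := sigmaSubOne ρ g)
    (fun v => h.map_normAdd hg v) (fun v => h.map_sigmaSubOne g v)]
  exact hIndex_permNormAdd_permSub hp (toPerm_pow_card g)

/-- `Ĥ⁰ = ⊕_{fixed points} ℤ/p` for a permutation representation of a cyclic group of prime order,
as a cardinality. -/
theorem h0Card_of_isPermRepn (h : IsPermRepn ρ e) (hp : p.Prime) (hcard : Nat.card G = p) {g : G}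
    (hg : ∀ x, x ∈ Subgroup.zpowers g) [Finite (MulAction.fixedPoints G X)] :
    h0Card ρ g = p ^ Nat.card (MulAction.fixedPoints G X) := by
  subst hcard
  unfold h0Card
  rw [← hIndex_congr e.toAddEquiv (fA := sigmaSubOne ρ g) (gA := normAdd ρ)
    (fun v => h.map_sigmaSubOne g v) (fun v => h.map_normAdd hg v)]
  have hfix := fixedPoints_toPerm_eq (X := X) hg
  have : Finite (Function.fixedPoints (MulAction.toPerm g : Equiv.Perm X)) := by
    rw [hfix]; infer_instance
  rw [hIndex_permSub_permNormAdd_of_finite hp (toPerm_pow_card g), hfix]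

/-- If `G` has infinitely many fixed points on `X` then `Ĥ⁰` is infinite. -/
theorem h0Card_of_isPermRepn_of_infinite (h : IsPermRepn ρ e) (hp : p.Prime)
    (hcard : Nat.card G = p) {g : G} (hg : ∀ x, x ∈ Subgroup.zpowers g)
    [Infinite (MulAction.fixedPoints G X)] : h0Card ρ g = 0 := by
  subst hcard
  unfold h0Card
  rw [← hIndex_congr e.toAddEquiv (fA := sigmaSubOne ρ g) (gA := normAdd ρ)
    (fun v => h.map_sigmaSubOne g v) (fun v => h.map_normAdd hg v)]
  have hfix := fixedPoints_toPerm_eq (X := X) hg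
  rw [hIndex_permSub_permNormAdd hp (toPerm_pow_card g), hfix]
  have : Fact (1 < Nat.card G) := ⟨hp.one_lt⟩
  have : Nontrivial (ZMod (Nat.card G)) := inferInstance
  exact Nat.card_eq_zero_of_infinite

theorem herbrandDefinedRepn_of_isPermRepn (h : IsPermRepn ρ e) (hp : p.Prime)
    (hcard : Nat.card G = p) {g : G} (hg : ∀ x, x ∈ Subgroup.zpowers g)
    [Finite (MulAction.fixedPoints G X)] : HerbrandDefinedRepn ρ g := by
  refine ⟨?_, ?_⟩
  · change h0Card ρ g ≠ 0
    rw [h0Card_of_isPermRepn h hp hcard hg]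
    exact pow_ne_zero _ hp.ne_zero
  · change hm1Card ρ g ≠ 0
    rw [hm1Card_of_isPermRepn h hp hcard hg]
    exact one_ne_zero

/-- The Herbrand quotient of a permutation representation of a cyclic group of prime order `p`
is `p ^ #fixed points`. -/
theorem herbrandRepn_of_isPermRepn (h : IsPermRepn ρ e) (hp : p.Prime) (hcard : Nat.card G = p)
    {g : G} (hg : ∀ x, x ∈ Subgroup.zpowers g) [Finite (MulAction.fixedPoints G X)] :
    herbrandRepn ρ g = (p : ℚ) ^ Nat.card (MulAction.fixedPoints G X) := by
  rw [herbrandRepn_eq, h0Card_of_isPermRepn h hp hcard hg, hm1Card_of_isPermRepn h hp hcard hg]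
  simp

end Repn

section Cohomology

variable {G : Type} [CommGroup G] [Fintype G] {X : Type*} [MulAction G X] {V : Type}
  [AddCommGroup V] {ρ : Representation ℤ G V} {e : V ≃ₗ[ℤ] (X →₀ ℤ)} {p : ℕ}

/-- The odd-degree cohomology of a permutation module of a cyclic group of prime order vanishes. -/
theorem subsingleton_groupCohomology_odd_of_isPermRepn (h : IsPermRepn ρ e) (hp : p.Prime)
    (hcard : Nat.card G = p) {g : G} (hg : ∀ x, x ∈ Subgroup.zpowers g) (i : ℕ) (hi : Odd i) :
    Subsingleton (groupCohomology (Rep.of ρ) i) := by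
  have h1 := card_groupCohomology_odd (Rep.of ρ) g hg i hi
  rw [Rep.of_ρ, hm1Card_of_isPermRepn h hp hcard hg] at h1
  exact (Nat.card_eq_one_iff_unique.mp h1).1

/-- The positive even-degree cohomology of a permutation module of a cyclic group of prime order
`p` has `p ^ #fixed points` elements. -/
theorem card_groupCohomology_even_of_isPermRepn (h : IsPermRepn ρ e) (hp : p.Prime)
    (hcard : Nat.card G = p) {g : G} (hg : ∀ x, x ∈ Subgroup.zpowers g)
    [Finite (MulAction.fixedPoints G X)] (i : ℕ) [NeZero i] (hi : Even i) :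
    Nat.card (groupCohomology (Rep.of ρ) i) = p ^ Nat.card (MulAction.fixedPoints G X) := by
  rw [card_groupCohomology_even (Rep.of ρ) g hg i hi, Rep.of_ρ,
    h0Card_of_isPermRepn h hp hcard hg]

end Cohomology

end Fermat.Agent.CFT.H41
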