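import Mathlib
import Fermat.Agent.CFT.H41_PermRep

/-!
# `H¹(G, ℤ[X]) = 0` for every finite group `G` (CFT layer C, package C-PERM)

* `exists_eq_sub_of_cocycle` : every 1-cocycle `c : G → (X →₀ ℤ)` is a coboundary (elementary);
* `IsPermRepn.exists_eq_sub_of_cocycle` : the same for any representation identified with the
  permutation representation;
* `subsingleton_H1_of_isPermRepn` : `Subsingleton (groupCohomology.H1 (Rep.of ρ))`.
-/

namespace Fermat.Agent.CFT.H41

open Finset

section GeneralH1

variable {G : Type*} [Group G] {X : Type*} [MulAction G X]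

lemma permEnd_toPerm_apply (g : G) (f : X →₀ ℤ) (y : X) :
    permEnd (MulAction.toPerm g) f y = f (g⁻¹ • y) := by
  rw [permEnd_apply]
  rfl

/-- **`H¹(G, ℤ[X]) = 0` for a finite group `G`**, elementary form: every 1-cocycle with values in
a permutation module is a coboundary. -/
theorem exists_eq_sub_of_cocycle [Finite G] (c : G → X →₀ ℤ)
    (hc : ∀ g h, c (g * h) = permEnd (MulAction.toPerm g) (c h) + c g) :
    ∃ f : X →₀ ℤ, ∀ g, c g = permEnd (MulAction.toPerm g) f - f := by
  classical
  have : Fintype G := Fintype.ofFinite G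
  have hc' : ∀ (g h : G) (y : X), c (g * h) y = c h (g⁻¹ • y) + c g y := by
    intro g h y
    rw [hc, Finsupp.add_apply, permEnd_toPerm_apply]
  have h1 : c 1 = 0 := by
    ext y
    have := hc' 1 1 y
    rw [mul_one, inv_one, one_smul] at this
    rw [Finsupp.zero_apply]
    linarith
  have hstab : ∀ (x : X) (h : G), h • x = x → c h x = 0 := by
    intro x h hx
    have hx' : h⁻¹ • x = x := by rw [inv_smul_eq_iff, hx]
    have hpow : ∀ n : ℕ, c (h ^ n) x = n * c h x := by
      intro n
      induction n with
      | zero => simp [h1]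
      | succ n ih =>
        rw [pow_succ', hc', hx', ih]
        push_cast
        ring
    have h2 := hpow (orderOf h)
    rw [pow_orderOf_eq_one, h1, Finsupp.zero_apply] at h2
    rcases mul_eq_zero.mp h2.symm with h3 | h3
    · exact absurd (by exact_mod_cast h3) (orderOf_pos h).ne'
    · exact h3
  have hsame : ∀ (x₀ : X) (u u' : G), u • x₀ = u' • x₀ → c u' (u • x₀) = c u (u • x₀) := by
    intro x₀ u u' huu'
    have hh : (u⁻¹ * u') • x₀ = x₀ := by rw [mul_smul, ← huu', inv_smul_smul]
    have := hc' u (u⁻¹ * u') (u • x₀)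
    rwa [mul_inv_cancel_left, inv_smul_smul, hstab x₀ _ hh, zero_add] at this
  let r : X → X := fun y => (Quotient.mk (MulAction.orbitRel G X) y).out
  have hr : ∀ y, ∃ t : G, t • r y = y := by
    intro y
    have : (MulAction.orbitRel G X) (r y) y := Quotient.mk_out (s := MulAction.orbitRel G X) y
    rw [MulAction.orbitRel_apply] at this
    have := MulAction.mem_orbit_symm.mp this
    exact this
  choose t ht using hr
  have hrs : ∀ (g : G) (y : X), r (g • y) = r y := by
    intro g y
    have : Quotient.mk (MulAction.orbitRel G X) (g • y) = Quotient.mk (MulAction.orbitRel G X) y := by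
      apply Quotient.sound
      change (MulAction.orbitRel G X) (g • y) y
      rw [MulAction.orbitRel_apply]
      exact MulAction.mem_orbit y g
    simp only [r, this]
  let Z : Finset X := Finset.univ.biUnion (fun g : G => (c g).support)
  let f : X →₀ ℤ := Finsupp.onFinset Z (fun y => - c (t y) y) (by
    intro y hy
    rw [Finset.mem_biUnion]
    refine ⟨t y, Finset.mem_univ _, ?_⟩
    rw [Finsupp.mem_support_iff]
    intro h0
    exact hy (by rw [h0, neg_zero]))
  refine ⟨f, fun g => ?_⟩
  ext y
  rw [Finsupp.sub_apply, permEnd_toPerm_apply]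
  change c g y = - c (t (g⁻¹ • y)) (g⁻¹ • y) - (- c (t y) y)
  have e1 := hc' g (t (g⁻¹ • y)) y
  have e2 : (g * t (g⁻¹ • y)) • r y = y := by
    rw [mul_smul, ← hrs g⁻¹ y, ht, smul_inv_smul]
  have e3 := hsame (r y) (g * t (g⁻¹ • y)) (t y) (by rw [e2, ht])
  rw [e2] at e3
  rw [← e3] at e1
  linarith

end GeneralH1

section GeneralH1Rep

variable {G : Type*} [Group G] [Finite G] {X : Type*} [MulAction G X] {V : Type*}
  [AddCommGroup V] [Module ℤ V] {ρ : Representation ℤ G V} {e : V ≃ₗ[ℤ] (X →₀ ℤ)}

/-- Every 1-cocycle of a finite group with values in a permutation representation is a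
coboundary. -/
theorem IsPermRepn.exists_eq_sub_of_cocycle (h : IsPermRepn ρ e) (c : G → V)
    (hc : ∀ g g', c (g * g') = ρ g (c g') + c g) : ∃ v : V, ∀ g, c g = ρ g v - v := by
  obtain ⟨f, hf⟩ := Fermat.Agent.CFT.H41.exists_eq_sub_of_cocycle (fun g => e (c g)) (by
    intro g g'
    simp only [hc, map_add, h g])
  refine ⟨e.symm f, fun g => ?_⟩
  apply e.injective
  rw [hf g, map_sub, h g, LinearEquiv.apply_symm_apply]

end GeneralH1Rep

section GeneralH1Coh

variable {G : Type} [Group G] [Finite G] {X : Type*} [MulAction G X] {V : Type}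
  [AddCommGroup V] {ρ : Representation ℤ G V} {e : V ≃ₗ[ℤ] (X →₀ ℤ)}

/-- `H¹(G, ℤ[X]) = 0` for every finite group `G` and every `G`-set `X`. -/
theorem subsingleton_H1_of_isPermRepn (h : IsPermRepn ρ e) :
    Subsingleton (groupCohomology.H1 (Rep.of ρ)) := by
  refine ⟨fun a b => ?_⟩
  have key : ∀ a : groupCohomology.H1 (Rep.of ρ), a = 0 := by
    intro a
    induction a using groupCohomology.H1_induction_on with
    | h x =>
      rw [groupCohomology.H1π_eq_zero_iff]
      have hx := (groupCohomology.mem_cocycles₁_iff (A := Rep.of ρ) x).mp x.2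
      obtain ⟨v, hv⟩ := h.exists_eq_sub_of_cocycle (fun g => x g) (by
        intro g g'
        exact hx g g')
      refine ⟨v, ?_⟩
      funext g
      exact (hv g).symm
  rw [key a, key b]

end GeneralH1Coh

end Fermat.Agent.CFT.H41
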