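import Mathlib

/-!
# CFT / layer C : elementwise API for `groupCohomology A n` in arbitrary degree `n`

Mathlib describes `H⁰, H¹, H²` by explicit cocycles; for general `n` we provide:
* `cls A n f hf : groupCohomology A n` : the class of a cocycle `f : (Fin n → G) → A`;
* `exists_cls` : every class is of this form;
* `cls_eq_zero_iff_succ`, `cls_eq_zero_iff_zero` : a class vanishes iff the cocycle is a coboundary;
* `map_cls` : functoriality in the coefficients on representatives.
-/

set_option autoImplicit false

namespace Fermat.Agent.CFT.H48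

open CategoryTheory groupCohomology Rep

universe u

variable {k G : Type u} [CommRing k] [Group G]

/-- the cocycle condition in degree `n` -/
def IsCocycle (A : Rep.{u} k G) (n : ℕ) (f : (Fin n → G) → A.V) : Prop :=
  inhomogeneousCochains.d A n f = 0

/-- the cohomology class of a cocycle -/
noncomputable def cls (A : Rep.{u} k G) (n : ℕ) (f : (Fin n → G) → A.V) (hf : IsCocycle A n f) :
    groupCohomology A n :=
  groupCohomology.π A n (cocyclesMk f hf)

theorem exists_cls (A : Rep.{u} k G) (n : ℕ) (x : groupCohomology A n) :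
    ∃ (f : (Fin n → G) → A.V) (hf : IsCocycle A n f), x = cls A n f hf := by
  induction x using groupCohomology_induction_on with
  | h z =>
    have hz : inhomogeneousCochains.d A n (iCocycles A n z) = 0 := by
      have := (inhomogeneousCochains A).iCycles_d n (n + 1)
      have h2 := congrArg (fun φ => φ z) (congrArg (fun φ => (ModuleCat.Hom.hom φ : _ → _)) this)
      simpa [inhomogeneousCochains.d_def] using h2
    refine ⟨iCocycles A n z, hz, ?_⟩
    unfold cls
    congr 1
    apply (ModuleCat.mono_iff_injective (iCocycles A n)).1 inferInstance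
    rw [iCocycles_mk]


/-- a class vanishes iff its cocycle is in the image of the previous differential -/
theorem cls_eq_zero_iff (A : Rep.{u} k G) (n : ℕ) (f : (Fin n → G) → A.V) (hf : IsCocycle A n f) :
    cls A n f hf = 0 ↔
      ∃ h : (inhomogeneousCochains A).X ((ComplexShape.up ℕ).prev n),
        (inhomogeneousCochains A).d ((ComplexShape.up ℕ).prev n) n h = f := by
  set K := inhomogeneousCochains A
  set j := (ComplexShape.up ℕ).prev n
  let T := ShortComplex.mk (K.toCycles j n) (K.homologyπ n) (K.toCycles_comp_homologyπ j n)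
  have hT : T.Exact := T.exact_of_g_is_cokernel (K.homologyIsCokernel j n rfl)
  rw [ShortComplex.moduleCat_exact_iff] at hT
  constructor
  · intro h0
    obtain ⟨y, hy⟩ := hT (cocyclesMk f hf) h0
    refine ⟨y, ?_⟩
    have := congrArg (iCocycles A n) hy
    rw [iCocycles_mk] at this
    rw [← this]
    exact (congrArg (fun φ => (ModuleCat.Hom.hom φ) y) (K.toCycles_i j n)).symm
  · rintro ⟨y, hy⟩
    have : K.toCycles j n y = cocyclesMk f hf := by
      apply (ModuleCat.mono_iff_injective (iCocycles A n)).1 inferInstance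
      rw [iCocycles_mk, ← hy]
      exact congrArg (fun φ => (ModuleCat.Hom.hom φ) y) (K.toCycles_i j n)
    unfold cls
    rw [← this]
    exact congrArg (fun φ => (ModuleCat.Hom.hom φ) y) (K.toCycles_comp_homologyπ j n)


/-- in positive degree a class vanishes iff its cocycle is a coboundary -/
theorem cls_eq_zero_iff_succ (A : Rep.{u} k G) (n : ℕ) (f : (Fin (n + 1) → G) → A.V)
    (hf : IsCocycle A (n + 1) f) :
    cls A (n + 1) f hf = 0 ↔ ∃ h : (Fin n → G) → A.V, inhomogeneousCochains.d A n h = f := by
  rw [cls_eq_zero_iff]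
  have hp : (ComplexShape.up ℕ).prev (n + 1) = n := CochainComplex.prev_nat_succ n
  constructor
  · rintro ⟨h, hh⟩
    revert h
    rw [hp]
    intro h hh
    exact ⟨h, by rw [← hh, inhomogeneousCochains.d_def]⟩
  · rintro ⟨h, hh⟩
    rw [hp]
    exact ⟨h, by rw [← hh, inhomogeneousCochains.d_def]⟩

/-- in degree zero a class vanishes iff its cocycle vanishes -/
theorem cls_eq_zero_iff_zero (A : Rep.{u} k G) (f : (Fin 0 → G) → A.V) (hf : IsCocycle A 0 f) :
    cls A 0 f hf = 0 ↔ f = 0 := by
  rw [cls_eq_zero_iff]
  have hp : (ComplexShape.up ℕ).prev 0 = 0 := CochainComplex.prev_nat_zero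
  have hd : (inhomogeneousCochains A).d 0 0 = 0 :=
    (inhomogeneousCochains A).shape 0 0 (by simp)
  constructor
  · rintro ⟨h, hh⟩
    revert h
    rw [hp]
    intro h hh
    rw [← hh, hd]
    rfl
  · rintro rfl
    rw [hp]
    exact ⟨0, by simp⟩


theorem isCocycle_comp {A B : Rep.{u} k G} (φ : A ⟶ B) (n : ℕ) {f : (Fin n → G) → A.V}
    (hf : IsCocycle A n f) : IsCocycle B n (fun g => φ.hom (f g)) := by
  unfold IsCocycle at hf ⊢
  have hcomm := (cochainsMap (MonoidHom.id G) φ).comm n (n + 1)
  rw [inhomogeneousCochains.d_def, inhomogeneousCochains.d_def] at hcomm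
  have h2 := congrArg (fun ψ => (ModuleCat.Hom.hom ψ) f) hcomm
  simp only [ModuleCat.hom_comp, LinearMap.coe_comp, Function.comp_apply] at h2
  erw [hf, map_zero] at h2
  exact h2

/-- functoriality in the coefficients, on representatives -/
theorem map_cls {A B : Rep.{u} k G} (φ : A ⟶ B) (n : ℕ) (f : (Fin n → G) → A.V)
    (hf : IsCocycle A n f) :
    groupCohomology.map (MonoidHom.id G) φ n (cls A n f hf) =
      cls B n (fun g => φ.hom (f g)) (isCocycle_comp φ n hf) := by
  unfold cls
  rw [π_map_apply]
  congr 1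
  apply (ModuleCat.mono_iff_injective (iCocycles B n)).1 inferInstance
  rw [iCocycles_mk]
  have := congrArg (fun ψ => (ModuleCat.Hom.hom ψ) (cocyclesMk f hf))
    (HomologicalComplex.cyclesMap_i (cochainsMap (MonoidHom.id G) φ) n)
  simp only [ModuleCat.hom_comp, LinearMap.coe_comp, Function.comp_apply] at this
  rw [this, iCocycles_mk]
  rfl


section linearity

variable (A : Rep.{u} k G) (n : ℕ)

theorem isCocycle_zero : IsCocycle A n 0 := by
  unfold IsCocycle
  exact map_zero _

variable {A n}

theorem isCocycle_add {f g : (Fin n → G) → A.V} (hf : IsCocycle A n f) (hg : IsCocycle A n g) :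
    IsCocycle A n (f + g) := by
  unfold IsCocycle at *
  rw [map_add, hf, hg, add_zero]

theorem isCocycle_neg {f : (Fin n → G) → A.V} (hf : IsCocycle A n f) : IsCocycle A n (-f) := by
  unfold IsCocycle at *
  rw [map_neg, hf, neg_zero]

theorem isCocycle_sub {f g : (Fin n → G) → A.V} (hf : IsCocycle A n f) (hg : IsCocycle A n g) :
    IsCocycle A n (f - g) := by
  unfold IsCocycle at *
  rw [map_sub, hf, hg, sub_zero]

theorem isCocycle_smul (c : k) {f : (Fin n → G) → A.V} (hf : IsCocycle A n f) :
    IsCocycle A n (c • f) := by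
  unfold IsCocycle at *
  rw [map_smul, hf, smul_zero]

theorem isCocycle_d (h : (Fin n → G) → A.V) :
    IsCocycle A (n + 1) (inhomogeneousCochains.d A n h) := by
  unfold IsCocycle
  exact congrArg (fun φ => (ModuleCat.Hom.hom φ) h) (inhomogeneousCochains.d_comp_d n A)

theorem cls_congr {f g : (Fin n → G) → A.V} (hf : IsCocycle A n f) (h : f = g) :
    cls A n f hf = cls A n g (h ▸ hf) := by
  subst h
  rfl

theorem cocyclesMk_add {f g : (Fin n → G) → A.V} (hf : IsCocycle A n f) (hg : IsCocycle A n g) :
    cocyclesMk (f + g) (isCocycle_add hf hg) = cocyclesMk f hf + cocyclesMk g hg := by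
  apply (ModuleCat.mono_iff_injective (iCocycles A n)).1 inferInstance
  rw [map_add, iCocycles_mk, iCocycles_mk, iCocycles_mk]

theorem cocyclesMk_smul (c : k) {f : (Fin n → G) → A.V} (hf : IsCocycle A n f) :
    cocyclesMk (c • f) (isCocycle_smul c hf) = c • cocyclesMk f hf := by
  apply (ModuleCat.mono_iff_injective (iCocycles A n)).1 inferInstance
  rw [map_smul, iCocycles_mk, iCocycles_mk]

theorem cls_add {f g : (Fin n → G) → A.V} (hf : IsCocycle A n f) (hg : IsCocycle A n g) :
    cls A n (f + g) (isCocycle_add hf hg) = cls A n f hf + cls A n g hg := by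
  unfold cls
  rw [cocyclesMk_add hf hg, map_add]

theorem cls_smul (c : k) {f : (Fin n → G) → A.V} (hf : IsCocycle A n f) :
    cls A n (c • f) (isCocycle_smul c hf) = c • cls A n f hf := by
  unfold cls
  rw [cocyclesMk_smul c hf, map_smul]

theorem cls_zero : cls A n 0 (isCocycle_zero A n) = 0 := by
  have h1 : cls A n 0 (isCocycle_zero A n) =
      cls A n ((0 : k) • (0 : (Fin n → G) → A.V)) (isCocycle_smul 0 (isCocycle_zero A n)) :=
    cls_congr _ (zero_smul k _).symm
  rw [h1, cls_smul (0 : k) (isCocycle_zero A n), zero_smul]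

theorem cls_neg {f : (Fin n → G) → A.V} (hf : IsCocycle A n f) :
    cls A n (-f) (isCocycle_neg hf) = - cls A n f hf := by
  have h1 : cls A n (-f) (isCocycle_neg hf) = cls A n ((-1 : k) • f) (isCocycle_smul (-1) hf) :=
    cls_congr _ (neg_one_smul k f).symm
  rw [h1, cls_smul (-1 : k) hf, neg_one_smul]

theorem cls_sub {f g : (Fin n → G) → A.V} (hf : IsCocycle A n f) (hg : IsCocycle A n g) :
    cls A n (f - g) (isCocycle_sub hf hg) = cls A n f hf - cls A n g hg := by
  have h1 : cls A n (f - g) (isCocycle_sub hf hg) =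
      cls A n (f + -g) (isCocycle_add hf (isCocycle_neg hg)) :=
    cls_congr _ (sub_eq_add_neg f g)
  rw [h1, cls_add hf (isCocycle_neg hg), cls_neg hg, sub_eq_add_neg]

/-- two cocycles of positive degree are cohomologous iff they differ by a coboundary -/
theorem cls_eq_cls_iff_succ {n : ℕ} {f g : (Fin (n + 1) → G) → A.V}
    (hf : IsCocycle A (n + 1) f) (hg : IsCocycle A (n + 1) g) :
    cls A (n + 1) f hf = cls A (n + 1) g hg ↔
      ∃ h : (Fin n → G) → A.V, inhomogeneousCochains.d A n h = f - g := by
  rw [← sub_eq_zero, ← cls_sub hf hg, cls_eq_zero_iff_succ]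

/-- two cocycles of degree zero are cohomologous iff they are equal -/
theorem cls_eq_cls_iff_zero {f g : (Fin 0 → G) → A.V}
    (hf : IsCocycle A 0 f) (hg : IsCocycle A 0 g) :
    cls A 0 f hf = cls A 0 g hg ↔ f = g := by
  rw [← sub_eq_zero, ← cls_sub hf hg, cls_eq_zero_iff_zero, sub_eq_zero]

end linearity

end Fermat.Agent.CFT.H48
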