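import Mathlib
import Fermat.Agent.CFT.H48_CohElem

/-!
# CFT / layer C : group cohomology commutes with products

Let `P : Rep k G` be a "product" of a family `A i : Rep k G`: morphisms `pr i : P ⟶ A i` such that
`x ↦ (pr i x)ᵢ` is a bijection `P → Π i, A i`.  Then for every `n` the map
`Hⁿ(G, P) → Π i, Hⁿ(G, A i)` induced by the `pr i` is bijective (no finiteness assumption).
-/

set_option autoImplicit false

namespace Fermat.Agent.CFT.H48

open CategoryTheory groupCohomology Rep

universe u

variable {k G : Type u} [CommRing k] [Group G]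

/-- the differential commutes with morphisms of coefficients -/
theorem d_comp_hom {A B : Rep.{u} k G} (φ : A ⟶ B) (n : ℕ) (h : (Fin n → G) → A.V) :
    inhomogeneousCochains.d B n (fun g => φ.hom (h g)) =
      fun g => φ.hom (inhomogeneousCochains.d A n h g) := by
  have hcomm := (cochainsMap (MonoidHom.id G) φ).comm n (n + 1)
  rw [inhomogeneousCochains.d_def, inhomogeneousCochains.d_def] at hcomm
  have h2 := congrArg (fun ψ => (ModuleCat.Hom.hom ψ) h) hcomm
  simp only [ModuleCat.hom_comp, LinearMap.coe_comp, Function.comp_apply] at h2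
  exact h2

section prod

variable {ι : Type*} (P : Rep.{u} k G) (A : ι → Rep.{u} k G) (pr : ∀ i, P ⟶ A i)

/-- the comparison map `Hⁿ(G, P) → Π i, Hⁿ(G, A i)` -/
noncomputable def prodMap (n : ℕ) (x : groupCohomology P n) : ∀ i, groupCohomology (A i) n :=
  fun i => groupCohomology.map (MonoidHom.id G) (pr i) n x

variable {P A pr}

theorem prodMap_injective
    (hinj : ∀ x y : P.V, (∀ i, (pr i).hom x = (pr i).hom y) → x = y)
    (hsurj : ∀ a : (∀ i, (A i).V), ∃ x : P.V, ∀ i, (pr i).hom x = a i) (n : ℕ) :
    Function.Injective (prodMap P A pr n) := by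
  have hinj0 : ∀ x : P.V, (∀ i, (pr i).hom x = 0) → x = 0 := fun x hx =>
    hinj x 0 fun i => by rw [hx i, map_zero]
  intro x y hxy
  rw [← sub_eq_zero]
  have h0 : ∀ i, groupCohomology.map (MonoidHom.id G) (pr i) n (x - y) = 0 := fun i => by
    rw [map_sub, sub_eq_zero]
    exact congrFun hxy i
  generalize x - y = z at h0
  obtain ⟨f, hf, rfl⟩ := exists_cls P n z
  simp only [map_cls] at h0
  cases n with
  | zero =>
    have hf0 : f = 0 := by
      funext g
      apply hinj0
      intro i
      have := (cls_eq_zero_iff_zero (A i) _ _).1 (h0 i)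
      exact congrFun this g
    rw [cls_congr hf hf0]
    exact cls_zero
  | succ n =>
    have hex : ∀ i, ∃ h : (Fin n → G) → (A i).V,
        inhomogeneousCochains.d (A i) n h = fun g => (pr i).hom (f g) := fun i =>
      (cls_eq_zero_iff_succ (A i) n _ _).1 (h0 i)
    choose h hh using hex
    choose H hH using fun g : Fin n → G => hsurj (fun i => h i g)
    rw [cls_eq_zero_iff_succ]
    refine ⟨H, ?_⟩
    funext g
    apply hinj
    intro i
    have h1 := congrFun (d_comp_hom (pr i) n H) g
    rw [← h1]
    have h2 : (fun g => (pr i).hom (H g)) = h i := funext fun g => hH g i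
    rw [h2, hh i]

theorem prodMap_surjective
    (hinj : ∀ x y : P.V, (∀ i, (pr i).hom x = (pr i).hom y) → x = y)
    (hsurj : ∀ a : (∀ i, (A i).V), ∃ x : P.V, ∀ i, (pr i).hom x = a i) (n : ℕ) :
    Function.Surjective (prodMap P A pr n) := by
  have hinj0 : ∀ x : P.V, (∀ i, (pr i).hom x = 0) → x = 0 := fun x hx =>
    hinj x 0 fun i => by rw [hx i, map_zero]
  intro y
  choose f hf hy using fun i => exists_cls (A i) n (y i)
  choose F hF using fun g : Fin n → G => hsurj (fun i => f i g)
  have hFi : ∀ i, (fun g => (pr i).hom (F g)) = f i := fun i => funext fun g => hF g i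
  have hcoc : IsCocycle P n F := by
    unfold IsCocycle
    funext g
    apply hinj0
    intro i
    have h1 := congrFun (d_comp_hom (pr i) n F) g
    rw [← h1, hFi i]
    exact congrFun (hf i) g
  refine ⟨cls P n F hcoc, ?_⟩
  funext i
  unfold prodMap
  rw [map_cls, hy i]
  exact cls_congr _ (hFi i)

theorem prodMap_bijective
    (hinj : ∀ x y : P.V, (∀ i, (pr i).hom x = (pr i).hom y) → x = y)
    (hsurj : ∀ a : (∀ i, (A i).V), ∃ x : P.V, ∀ i, (pr i).hom x = a i) (n : ℕ) :
    Function.Bijective (prodMap P A pr n) :=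
  ⟨prodMap_injective hinj hsurj n, prodMap_surjective hinj hsurj n⟩

/-- if all factors have vanishing `Hⁿ` then so has the product -/
theorem subsingleton_of_prod
    (hinj : ∀ x y : P.V, (∀ i, (pr i).hom x = (pr i).hom y) → x = y)
    (hsurj : ∀ a : (∀ i, (A i).V), ∃ x : P.V, ∀ i, (pr i).hom x = a i) (n : ℕ)
    (h : ∀ i, Subsingleton (groupCohomology (A i) n)) :
    Subsingleton (groupCohomology P n) :=
  ⟨fun _ _ => prodMap_injective hinj hsurj n (funext fun _ => Subsingleton.elim _ _)⟩

end prod

end Fermat.Agent.CFT.H48
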