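/-
CFT layer C, package C-COH (helper48): Hilbert's Theorem 90 for étale `G`-algebras.

`G` a finite group acting by ring automorphisms on a commutative ring `E` with finitely many
maximal ideals (e.g. a finite-dimensional algebra over a field), `k` an infinite field with
`Algebra k E` on which `G` acts trivially, `F` a field with a faithful `G`-action and a
`G`-equivariant ring homomorphism `F → E`.  Then every 1-cocycle `G → Eˣ` is a coboundary:
`H¹(G, Eˣ) = 0`.  Typical instance: `E = F ⊗[ℚ] ℚ_[q]`, `G = Gal(F/K)`, `k = ℚ_[q]`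
(no decomposition of `E` into local fields, no Shapiro lemma needed).  Mathlib only.
-/
import Mathlib

set_option autoImplicit false

namespace Fermat.Agent.CFT.H48

open groupCohomology

noncomputable section

attribute [local instance] Units.mulDistribMulActionRight

section Poincare

variable {G E : Type*} [Group G] [Fintype G] [CommRing E] [MulSemiringAction G E]

/-- The Poincaré series `x ↦ ∑ h, c h * h • x` of a map `c : G → Eˣ`. -/
def poincare (c : G → Eˣ) (x : E) : E := ∑ h : G, (c h : E) * h • x

theorem poincare_add (c : G → Eˣ) (x y : E) :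
    poincare c (x + y) = poincare c x + poincare c y := by
  unfold poincare
  rw [← Finset.sum_add_distrib]
  refine Finset.sum_congr rfl fun h _ => ?_
  rw [smul_add, mul_add]

theorem poincare_mul_of_fixed (c : G → Eˣ) {a : E} (ha : ∀ g : G, g • a = a) (x : E) :
    poincare c (a * x) = a * poincare c x := by
  unfold poincare
  rw [Finset.mul_sum]
  refine Finset.sum_congr rfl fun h _ => ?_
  rw [smul_mul', ha h]
  ring

theorem smul_poincare {c : G → Eˣ} (hc : IsMulCocycle₁ c) (g : G) (x : E) :
    g • poincare c x = (((c g)⁻¹ : Eˣ) : E) * poincare c x := by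
  unfold poincare
  calc g • ∑ h : G, (c h : E) * h • x
      = ∑ h : G, ((g • c h : Eˣ) : E) * (g * h) • x := by
        rw [Finset.smul_sum]
        refine Finset.sum_congr rfl fun h _ => ?_
        rw [smul_mul', mul_smul, Units.coe_smul]
    _ = ∑ h : G, (((c g)⁻¹ : Eˣ) : E) * ((c (g * h) : E) * (g * h) • x) := by
        refine Finset.sum_congr rfl fun h _ => ?_
        rw [hc g h, Units.val_mul, ← mul_assoc, ← mul_assoc]
        congr 1
        rw [mul_comm (((c g)⁻¹ : Eˣ) : E), mul_assoc, Units.inv_mul, mul_one]
    _ = (((c g)⁻¹ : Eˣ) : E) * ∑ h : G, (c h : E) * h • x := by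
        rw [Finset.mul_sum]
        exact Fintype.sum_equiv (Equiv.mulLeft g) _ _ (fun h => rfl)

/-- If some value of the Poincaré series of a 1-cocycle is a unit, the cocycle is a coboundary. -/
theorem isMulCoboundary₁_of_isUnit_poincare {c : G → Eˣ} (hc : IsMulCocycle₁ c) {x : E}
    (hx : IsUnit (poincare c x)) : IsMulCoboundary₁ c := by
  refine ⟨hx.unit⁻¹, fun g => ?_⟩
  have h1 : g • hx.unit = (c g)⁻¹ * hx.unit := by
    apply Units.ext
    rw [Units.coe_smul, Units.val_mul, IsUnit.unit_spec, smul_poincare hc]
  rw [smul_inv', h1, mul_inv, inv_inv, div_eq_mul_inv, inv_inv, mul_assoc, inv_mul_cancel,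
    mul_one]

end Poincare

section Nonvanishing

variable {G E F : Type*} [Group G] [Fintype G] [CommRing E] [MulSemiringAction G E]
  [Field F] [MulSemiringAction G F] [FaithfulSMul G F]

/-- Dedekind independence: modulo any maximal ideal, the Poincaré series is not identically
zero. -/
theorem exists_poincare_notMem (ι : F →+* E) (hι : ∀ (g : G) (y : F), ι (g • y) = g • ι y)
    (c : G → Eˣ) (m : Ideal E) [hm : m.IsMaximal] :
    ∃ x : E, poincare c x ∉ m := by
  classical
  by_contra hcon
  push Not at hcon
  let _ : Field (E ⧸ m) := Ideal.Quotient.field m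
  let χ : G → (E →* E ⧸ m) := fun h =>
    ((Ideal.Quotient.mk m : E →+* E ⧸ m) : E →* E ⧸ m).comp
      ((MulSemiringAction.toRingHom G E h : E →+* E) : E →* E)
  have hχ : Function.Injective χ := by
    intro h h' hh
    apply FaithfulSMul.eq_of_smul_eq_smul (α := F)
    intro y
    have h1 : ((Ideal.Quotient.mk m).comp ι) (h • y) = ((Ideal.Quotient.mk m).comp ι) (h' • y) := by
      simp only [RingHom.comp_apply, hι]
      exact DFunLike.congr_fun hh (ι y)
    exact ((Ideal.Quotient.mk m).comp ι).injective h1
  have hli : LinearIndependent (E ⧸ m) (fun h : G => (χ h : E → E ⧸ m)) :=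
    (linearIndependent_monoidHom E (E ⧸ m)).comp χ hχ
  have hzero : ∑ h : G, (Ideal.Quotient.mk m (c h : E)) • (χ h : E → E ⧸ m) = 0 := by
    funext x
    rw [Finset.sum_apply]
    simp only [Pi.smul_apply, smul_eq_mul, Pi.zero_apply]
    have : Ideal.Quotient.mk m (poincare c x) = 0 :=
      Ideal.Quotient.eq_zero_iff_mem.2 (hcon x)
    rw [← this]
    unfold poincare
    rw [map_sum]
    refine Finset.sum_congr rfl fun h _ => ?_
    rw [map_mul]
    rfl
  have h1 := Fintype.linearIndependent_iff.1 hli _ hzero 1
  have h2 : (c 1 : E) ∈ m := Ideal.Quotient.eq_zero_iff_mem.1 h1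
  exact hm.ne_top (Ideal.eq_top_of_isUnit_mem m h2 (c 1).isUnit)

variable {k : Type*} [Field k] [Infinite k] [Algebra k E] [Finite (MaximalSpectrum E)]

/-- Some value of the Poincaré series is a unit. -/
theorem exists_isUnit_poincare (ι : F →+* E) (hι : ∀ (g : G) (y : F), ι (g • y) = g • ι y)
    (hlin : ∀ (g : G) (a : k), g • algebraMap k E a = algebraMap k E a) (c : G → Eˣ) :
    ∃ x : E, IsUnit (poincare c x) := by
  classical
  let P : E →ₗ[k] E :=
    { toFun := poincare c
      map_add' := poincare_add c
      map_smul' := fun a x => by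
        simp only [RingHom.id_apply, Algebra.smul_def]
        exact poincare_mul_of_fixed c (fun g => hlin g a) x }
  let W : MaximalSpectrum E → Subspace k E := fun m =>
    (m.asIdeal.restrictScalars k).comap P
  by_contra hcon
  push Not at hcon
  have hcov : ⋃ m, (W m : Set E) = Set.univ := by
    rw [Set.eq_univ_iff_forall]
    intro x
    obtain ⟨I, hI, hxI⟩ := exists_max_ideal_of_mem_nonunits (hcon x)
    exact Set.mem_iUnion.2 ⟨⟨I, hI⟩, hxI⟩
  obtain ⟨m, hm⟩ := Subspace.exists_eq_top_of_iUnion_eq_univ hcov
  have := m.isMaximal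
  obtain ⟨x, hx⟩ := exists_poincare_notMem ι hι c m.asIdeal
  have hxW : x ∈ W m := by rw [hm]; exact Submodule.mem_top
  exact hx hxW

end Nonvanishing

section Main

variable {G E F k : Type*} [Group G] [Finite G] [CommRing E] [MulSemiringAction G E]
  [Field F] [MulSemiringAction G F] [FaithfulSMul G F]
  [Field k] [Infinite k] [Algebra k E] [Finite (MaximalSpectrum E)]

/-- **Hilbert 90 for étale `G`-algebras** (Noether form): `G` finite acting on a commutative ring
`E` with finitely many maximal ideals, linearly over an infinite field `k`, and a `G`-equivariant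
ring homomorphism from a field `F` with faithful `G`-action. Every multiplicative 1-cocycle
`G → Eˣ` is a coboundary. -/
theorem isMulCoboundary₁_of_isMulCocycle₁_of_etale (ι : F →+* E)
    (hι : ∀ (g : G) (y : F), ι (g • y) = g • ι y)
    (hlin : ∀ (g : G) (a : k), g • algebraMap k E a = algebraMap k E a)
    (c : G → Eˣ) (hc : IsMulCocycle₁ c) : IsMulCoboundary₁ c := by
  cases nonempty_fintype G
  obtain ⟨x, hx⟩ := exists_isUnit_poincare (k := k) ι hι hlin c
  exact isMulCoboundary₁_of_isUnit_poincare hc hx

end Main

section H1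

variable (G E F k : Type) [Group G] [Finite G] [CommRing E] [MulSemiringAction G E]
  [Field F] [MulSemiringAction G F] [FaithfulSMul G F]
  [Field k] [Infinite k] [Algebra k E] [Finite (MaximalSpectrum E)]

/-- **Hilbert 90 for étale `G`-algebras**, cohomological form: `H¹(G, Eˣ) = 0`. -/
theorem subsingleton_H1_units_of_etale (ι : F →+* E)
    (hι : ∀ (g : G) (y : F), ι (g • y) = g • ι y)
    (hlin : ∀ (g : G) (a : k), g • algebraMap k E a = algebraMap k E a) :
    Subsingleton (H1 (Rep.ofMulDistribMulAction G Eˣ)) := by
  refine ⟨fun a b => ?_⟩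
  have key : ∀ a : H1 (Rep.ofMulDistribMulAction G Eˣ), a = 0 := fun a =>
    H1_induction_on a fun x => (H1π_eq_zero_iff _).2 <| by
      refine (coboundariesOfIsMulCoboundary₁ ?_).2
      rcases isMulCoboundary₁_of_isMulCocycle₁_of_etale (k := k) ι hι hlin x.1
        (isMulCocycle₁_of_mem_cocycles₁ _ x.2) with ⟨β, hβ⟩
      use β
  rw [key a, key b]

end H1

end

end Fermat.Agent.CFT.H48
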