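/-
CFT layer C, package C-COH (helper48): `H¹(Gal(L/K), (L ⊗[k] A)ˣ) = 0` for a finite extension
`L/K` of fields over `k` and an infinite field `A` over `k` (e.g. `k = ℚ`, `A = ℚ_[q]`:
the local algebra `locAlg L q = L ⊗[ℚ] ℚ_[q]` of helper42's adele vocabulary), and for finite
products of such modules (the `S`-idele part of the hybrid formation module).
-/
import Mathlib
import Fermat.Agent.CFT.H42_AdeleDefs
import Fermat.Agent.CFT.H48_Hilbert90Etale
import Fermat.Agent.CFT.H48_CohProd

set_option autoImplicit false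

namespace Fermat.Agent.CFT.H48

open groupCohomology
open scoped TensorProduct

noncomputable section

section Tensor

variable {k K L A : Type*} [Field k] [Field K] [Field L] [Field A]
  [Algebra k K] [Algebra k L] [Algebra K L] [IsScalarTower k K L] [Algebra k A]

/-- `L ⊗[k] A` has finitely many maximal ideals when `L/k` is finite and `A` is a field. -/
theorem finite_maximalSpectrum_tensor [FiniteDimensional k L] :
    Finite (MaximalSpectrum (L ⊗[k] A)) := by
  have h1 : Module.Finite A (A ⊗[k] L) := inferInstance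
  have h2 : IsArtinianRing (A ⊗[k] L) := IsArtinianRing.of_finite A (A ⊗[k] L)
  have h3 : IsArtinianRing (L ⊗[k] A) :=
    (Algebra.TensorProduct.comm k A L).toRingEquiv.isArtinianRing
  infer_instance

/-- **Hilbert 90 for `L ⊗[k] A`** (Noether form): every 1-cocycle of `Gal(L/K)` with values in
`(L ⊗[k] A)ˣ` (helper42's action through the left factor) is a coboundary. -/
theorem isMulCoboundary₁_tensor_units [FiniteDimensional k L] [Infinite A]
    (c : (L ≃ₐ[K] L) → (L ⊗[k] A)ˣ) (hc : IsMulCocycle₁ c) : IsMulCoboundary₁ c := by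
  have : FiniteDimensional K L := FiniteDimensional.right k K L
  have : Finite (MaximalSpectrum (L ⊗[k] A)) := finite_maximalSpectrum_tensor
  let _ : Algebra A (L ⊗[k] A) := Algebra.TensorProduct.rightAlgebra
  refine isMulCoboundary₁_of_isMulCocycle₁_of_etale (k := A) (F := L)
    (algebraMap L (L ⊗[k] A)) (fun g y => (H42.smul_algebraMap g y).symm) ?_ c hc
  intro g a
  show g • ((1 : L) ⊗ₜ[k] a) = (1 : L) ⊗ₜ[k] a
  rw [H42.smul_tmul_left, map_one]

end Tensor

section H1

variable (k K L A : Type) [Field k] [Field K] [Field L] [Field A]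
  [Algebra k K] [Algebra k L] [Algebra K L] [IsScalarTower k K L] [Algebra k A]

/-- **Hilbert 90 for `L ⊗[k] A`**, cohomological form. -/
theorem subsingleton_H1_tensor_units [FiniteDimensional k L] [Infinite A] :
    Subsingleton (H1 (Rep.ofMulDistribMulAction (L ≃ₐ[K] L) (L ⊗[k] A)ˣ)) := by
  refine ⟨fun a b => ?_⟩
  have key : ∀ a : H1 (Rep.ofMulDistribMulAction (L ≃ₐ[K] L) (L ⊗[k] A)ˣ), a = 0 := fun a =>
    H1_induction_on a fun x => (H1π_eq_zero_iff _).2 <| by
      refine (coboundariesOfIsMulCoboundary₁ ?_).2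
      rcases isMulCoboundary₁_tensor_units (k := k) (K := K) (L := L) (A := A) x.1
        (isMulCocycle₁_of_mem_cocycles₁ _ x.2) with ⟨β, hβ⟩
      use β
  rw [key a, key b]

end H1

section LocAlg

variable (K L : Type) [Field K] [Field L] [Algebra ℚ K] [Algebra ℚ L] [Algebra K L]
  [IsScalarTower ℚ K L] [FiniteDimensional ℚ L]

/-- `H¹(Gal(L/K), (L ⊗ ℚ_q)ˣ) = 0` for helper42's local algebra `locAlg L q`. -/
theorem subsingleton_H1_locAlg_units (q : Nat.Primes) :
    Subsingleton (H1 (Rep.ofMulDistribMulAction (L ≃ₐ[K] L) (H42.locAlg L q)ˣ)) :=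
  subsingleton_H1_tensor_units ℚ K L ℚ_[q]

/-- `H¹(Gal(L/K), (L ⊗ ℝ)ˣ) = 0`. -/
theorem subsingleton_H1_realAlg_units :
    Subsingleton (H1 (Rep.ofMulDistribMulAction (L ≃ₐ[K] L) (H42.realAlg L)ˣ)) :=
  subsingleton_H1_tensor_units ℚ K L ℝ

end LocAlg

end

end Fermat.Agent.CFT.H48
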