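/-
CFT layer C, package C-COH (helper48): `H¹(Gal(F/K), IdS S F) = 0` for the hybrid idele module
`IdS S F = (∏_{q ∈ S} (F ⊗ ℚ_q)ˣ) × Div^S(F)` of helper23's `H23_CDefs`.

The `S`-idele factor is handled by Hilbert 90 for étale algebras (`H48_Hilbert90Etale`,
`H48_IdeleH1`), the divisor factor is a permutation module (helper41's `H41_PermH1`).
-/
import Mathlib
import Fermat.Agent.CFT.H23_CDefs
import Fermat.Agent.CFT.H41_PermH1
import Fermat.Agent.CFT.H48_IdeleH1

set_option autoImplicit false

namespace Fermat.Agent.CFT.H48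

open groupCohomology
open scoped TensorProduct NumberField

noncomputable section

section Elementary

variable (S : Finset Nat.Primes) (F : Type*) [Field F] [NumberField F]
  (K : Type*) [Field K] [CharZero K] [Algebra K F]

/-- Every 1-cocycle of `Gal(F/K)` with values in the `S`-ideles `JS S F` is a coboundary. -/
theorem isMulCoboundary₁_JS (c : (F ≃ₐ[K] F) → H23.JS S F) (hc : IsMulCocycle₁ c) :
    IsMulCoboundary₁ c := by
  have hq : ∀ q : S, IsMulCoboundary₁ (fun g => c g q) := by
    intro q
    apply isMulCoboundary₁_tensor_units (k := ℚ) (K := K) (L := F) (A := ℚ_[(q.1 : ℕ)])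
    intro g h
    exact congrFun (hc g h) q
  choose β hβ using hq
  refine ⟨β, fun g => ?_⟩
  funext q
  exact hβ q g

/-- The Galois action on divisors is the permutation action. -/
theorem smul_divS_eq_permEnd (σ : F ≃ₐ[K] F) (D : H23.DivS S F) :
    σ • D = H41.permEnd (MulAction.toPerm σ) D := by
  ext v
  rw [H23.smul_divS_apply, H41.permEnd_toPerm_apply]

/-- Every 1-cocycle of `Gal(F/K)` with values in the divisors outside `S` is a coboundary. -/
theorem isMulCoboundary₁_DivS [FiniteDimensional K F]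
    (c : (F ≃ₐ[K] F) → Multiplicative (H23.DivS S F)) (hc : IsMulCocycle₁ c) :
    IsMulCoboundary₁ c := by
  obtain ⟨f, hf⟩ := H41.exists_eq_sub_of_cocycle (fun g => Multiplicative.toAdd (c g)) (by
    intro g h
    rw [← smul_divS_eq_permEnd]
    have := congrArg Multiplicative.toAdd (hc g h)
    exact this)
  refine ⟨Multiplicative.ofAdd f, fun g => ?_⟩
  apply Multiplicative.toAdd.injective
  have := hf g
  rw [← smul_divS_eq_permEnd] at this
  exact this.symm

/-- **`H¹(Gal(F/K), IdS S F) = 0`**, elementary form. -/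
theorem isMulCoboundary₁_IdS (c : (F ≃ₐ[K] F) → H23.IdS S F) (hc : IsMulCocycle₁ c) :
    IsMulCoboundary₁ c := by
  have : FiniteDimensional K F := FiniteDimensional.right ℚ K F
  obtain ⟨β₁, h₁⟩ := isMulCoboundary₁_JS S F K (fun g => (c g).1) (fun g h => by
    exact congrArg Prod.fst (hc g h))
  obtain ⟨β₂, h₂⟩ := isMulCoboundary₁_DivS S F K (fun g => (c g).2) (fun g h => by
    exact congrArg Prod.snd (hc g h))
  refine ⟨(β₁, β₂), fun g => ?_⟩
  exact Prod.ext (h₁ g) (h₂ g)

end Elementary

section Coh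

variable (S : Finset Nat.Primes) (F : Type) [Field F] [NumberField F]
  (K : Type) [Field K] [CharZero K] [Algebra K F]

/-- **`H¹(Gal(F/K), IdS S F) = 0`** for the hybrid idele module. -/
theorem subsingleton_H1_repIdS : Subsingleton (H1 (H23.repIdS S F K)) := by
  refine ⟨fun a b => ?_⟩
  have key : ∀ a : H1 (H23.repIdS S F K), a = 0 := fun a =>
    H1_induction_on a fun x => (H1π_eq_zero_iff _).2 <| by
      refine (coboundariesOfIsMulCoboundary₁ ?_).2
      rcases isMulCoboundary₁_IdS S F K x.1 (isMulCocycle₁_of_mem_cocycles₁ _ x.2) with ⟨β, hβ⟩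
      use β
  rw [key a, key b]

/-- `H¹(Gal(F/K), JS S F) = 0`. -/
theorem subsingleton_H1_JS :
    Subsingleton (H1 (Rep.ofMulDistribMulAction (F ≃ₐ[K] F) (H23.JS S F))) := by
  refine ⟨fun a b => ?_⟩
  have key : ∀ a : H1 (Rep.ofMulDistribMulAction (F ≃ₐ[K] F) (H23.JS S F)), a = 0 := fun a =>
    H1_induction_on a fun x => (H1π_eq_zero_iff _).2 <| by
      refine (coboundariesOfIsMulCoboundary₁ ?_).2
      rcases isMulCoboundary₁_JS S F K x.1 (isMulCocycle₁_of_mem_cocycles₁ _ x.2) with ⟨β, hβ⟩
      use β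
  rw [key a, key b]

end Coh

end

end Fermat.Agent.CFT.H48
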