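import Mathlib
import Fermat.Agent.CFT.H63_FirstIneqHybrid
import Fermat.Agent.CFT.H41_PermHerbrand

set_option autoImplicit false
set_option linter.unusedSectionVars false

/-!
# CFT / C-FIRST (helper63), part 5: the first inequality in the hybrid model, with C-PERM plugged in

`herbrand_CS_of_local`: for `F/K` cyclic of odd prime degree `p`, `h(CS S F) = p` as soon as the
Herbrand quotient of the `S`-ideles `J_{F,S} = ∏_{q ∈ S} (F ⊗ ℚ_q)ˣ` is the product of the local
degrees `e_u f_u` over the places `u` of `K` above `S` (the only remaining input, from layer B and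
C-LOC / C-COH).
-/

namespace Fermat.Agent.CFT.H63

open IsDedekindDomain NumberField Module
open Fermat.Agent.Kummer.H63 Fermat.Agent.S14.H63
open Fermat.Agent.CFT.H23 Fermat.Agent.CFT.H6

variable (S : Finset Nat.Primes) {K F : Type*} [Field K] [NumberField K] [Field F]
  [NumberField F] [Algebra K F] {p : ℕ}

theorem permEnd_eq {X : Type*} (s : Equiv.Perm X) : permEnd X s = H41.permEnd s := rfl

theorem endF_permEnd {X : Type*} (s : Equiv.Perm X) : endF (permEnd X s) = H41.permSub s := rfl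

theorem endN_permEnd {X : Type*} (s : Equiv.Perm X) :
    endN p (permEnd X s) = H41.permNormAdd p s := by
  unfold endN H41.permNormAdd
  rw [H41.permNorm_eq_sum_pow]
  rfl

/-- Input (B) of `herbrand_CS`, from helper41's C-PERM. -/
theorem herbrand_sigB [hp : Fact p.Prime] (T' : Finset (HeightOneSpectrum (𝓞 K))) (σ : F ≃ₐ[K] F)
    (hσ : σ ^ p = 1) :
    HerbrandDefined (endF (sigB T' σ)) (endN p (sigB T' σ)) ∧
      herbrand (endF (sigB T' σ)) (endN p (sigB T' σ)) =
        ((p ^ Nat.card (Function.fixedPoints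
          (abovePerm (L := F) (T' : Set (HeightOneSpectrum (𝓞 K))) σ)) : ℕ) : ℚ) := by
  have hs : (abovePerm (L := F) (T' : Set (HeightOneSpectrum (𝓞 K))) σ) ^ p = 1 := by
    rw [← map_pow, hσ, map_one]
  have hfin : Finite (XT F T') := (aboveSet_finite (L := F) T').to_subtype
  have : Finite (Function.fixedPoints
      (abovePerm (L := F) (T' : Set (HeightOneSpectrum (𝓞 K))) σ)) :=
    Subtype.finite
  rw [sigB, endF_permEnd, endN_permEnd]
  refine ⟨H41.herbrandDefined_perm hp.out hs, ?_⟩
  rw [H41.herbrand_perm hp.out hs]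
  push_cast
  rfl

variable [IsGalois K F] [hp : Fact p.Prime]

/-- **First inequality in the hybrid model**: `F/K` cyclic of odd prime degree `p` with generator
`σ`, `S ≠ ∅`. If the Herbrand quotient of the `S`-ideles of `F` is the product of the local degrees
above `S`, then `Ĥ⁰(G, CS S F)` and `H¹(G, CS S F)` are finite, `h(CS S F) = p` and
`|Ĥ⁰(G, CS S F)| = p · |H¹(G, CS S F)|`. -/
theorem herbrand_CS_of_local (hp2 : p ≠ 2) (hKF : Module.finrank K F = p) (σ : F ≃ₐ[K] F)
    (hσ : ∀ τ : F ≃ₐ[K] F, τ ∈ Subgroup.zpowers σ) (hS : S.Nonempty)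
    (hA : ∀ SK : Finset (HeightOneSpectrum (𝓞 K)), (∀ u, u ∈ SK ↔ u ∈ primesAboveS S K) →
      HerbrandDefined (endF (sigA S σ)) (endN p (sigA S σ)) ∧
      herbrand (endF (sigA S σ)) (endN p (sigA S σ)) =
        ((∏ u ∈ SK, (u.asIdeal.ramificationIdxIn (𝓞 F) * u.asIdeal.inertiaDegIn (𝓞 F)) : ℕ) :
          ℚ)) :
    HerbrandDefined (endF (sigC S σ)) (endN p (sigC S σ)) ∧
      herbrand (endF (sigC S σ)) (endN p (sigC S σ)) = p ∧
      hIndex (endF (sigC S σ)) (endN p (sigC S σ)) =
        p * hIndex (endN p (sigC S σ)) (endF (sigC S σ)) :=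
  herbrand_CS S hp2 hKF σ hσ hS hA (fun T' => herbrand_sigB T' σ (aut_pow_eq_one hKF σ))

section RepVocabulary

/-- For a cyclic group of order `p` generated by `g`, the norm of a representation is
`∑_{i<p} ρ(g)^i`. -/
theorem norm_eq_normEnd {G V : Type*} [Group G] [Fintype G] [AddCommGroup V]
    (ρ : Representation ℤ G V) (g : G) (hg : ∀ x : G, x ∈ Subgroup.zpowers g) {n : ℕ}
    (hcard : Nat.card G = n) : ρ.norm = normEnd n (ρ g) := by
  classical
  have hord : orderOf g = n := by
    rw [orderOf_eq_card_of_forall_mem_zpowers hg, hcard]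
  rw [Representation.norm, normEnd, ← IsCyclic.image_range_orderOf hg, Finset.sum_image, hord]
  · apply Finset.sum_congr rfl
    intro i _
    rw [map_pow]
  · intro i hi j hj hij
    exact pow_injOn_Iio_orderOf (by simpa using hi) (by simpa using hj) hij

/-- The first inequality in helper6's `Rep` vocabulary, for `repCS S F K`. -/
theorem herbrandRepn_repCS (hp2 : p ≠ 2) (hKF : Module.finrank K F = p) (σ : F ≃ₐ[K] F)
    (hσ : ∀ τ : F ≃ₐ[K] F, τ ∈ Subgroup.zpowers σ) (hS : S.Nonempty)
    (hA : ∀ SK : Finset (HeightOneSpectrum (𝓞 K)), (∀ u, u ∈ SK ↔ u ∈ primesAboveS S K) →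
      HerbrandDefined (endF (sigA S σ)) (endN p (sigA S σ)) ∧
      herbrand (endF (sigA S σ)) (endN p (sigA S σ)) =
        ((∏ u ∈ SK, (u.asIdeal.ramificationIdxIn (𝓞 F) * u.asIdeal.inertiaDegIn (𝓞 F)) : ℕ) :
          ℚ)) :
    HerbrandDefinedRepn (repCS S F K).ρ σ ∧ herbrandRepn (repCS S F K).ρ σ = p ∧
      h0Card (repCS S F K).ρ σ = p * hm1Card (repCS S F K).ρ σ := by
  have hnorm : (repCS S F K).ρ.norm = normEnd p ((repCS S F K).ρ σ) :=
    norm_eq_normEnd _ σ hσ (card_aut_eq hKF)
  have hN : normAdd (repCS S F K).ρ = endN p (sigC S σ) := by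
    unfold normAdd
    rw [hnorm]
    rfl
  have hF : sigmaSubOne (repCS S F K).ρ σ = endF (sigC S σ) := rfl
  unfold HerbrandDefinedRepn herbrandRepn h0Card hm1Card
  rw [hN, hF]
  exact herbrand_CS_of_local S hp2 hKF σ hσ hS hA

end RepVocabulary

end Fermat.Agent.CFT.H63
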