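import Mathlib
import Fermat.Agent.CFT.H63_FirstIneqFinal

set_option autoImplicit false
set_option linter.unusedSectionVars false

/-!
# CFT / C-FIRST (helper63), part 7: the place dictionary (D) for the `S`-ideles

helper48 (C-COH) computes the Herbrand quotient of `J_{F,S} = ∏_{q ∈ S} (F ⊗ ℚ_q)ˣ` as
`p ^ #{σ-stable maximal ideals of the F ⊗ ℚ_q, q ∈ S}` (semilocal `Ĥ⁰` + Hilbert 90).  Here we
convert the exponent into the number of `σ`-fixed primes of `𝓞 F` above `S`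
(`sum_card_fixedMax_eq`), given any bijection `e q` between the maximal ideals of `F ⊗ ℚ_q` and the
primes above `q` that matches fixed points (C-DICT-places), and deduce the hypothesis `hA` of
`herbrand_CS_of_local` (`hA_of_semilocal`).
-/

namespace Fermat.Agent.CFT.H63

open IsDedekindDomain NumberField Module
open Fermat.Agent.Kummer.H63 Fermat.Agent.S14.H63
open Fermat.Agent.CFT.H23 Fermat.Agent.CFT.H6

variable (S : Finset Nat.Primes) {K F : Type*} [Field K] [NumberField K] [Field F]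
  [NumberField F] [Algebra K F] {p : ℕ}

/-- Two distinct rational primes do not lie in the same prime of `𝓞 F`. -/
theorem primes_eq_of_mem (w : HeightOneSpectrum (𝓞 F)) {q q' : Nat.Primes}
    (hq : ((q : ℕ) : 𝓞 F) ∈ w.asIdeal) (hq' : ((q' : ℕ) : 𝓞 F) ∈ w.asIdeal) : q = q' := by
  by_contra hne
  have hcop : Nat.Coprime (q : ℕ) (q' : ℕ) :=
    (Nat.coprime_primes q.2 q'.2).mpr (fun h => hne (Subtype.ext h))
  have h1 : ((Nat.gcd (q : ℕ) (q' : ℕ) : ℤ) : 𝓞 F) ∈ w.asIdeal := by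
    rw [Nat.gcd_eq_gcd_ab]
    push_cast
    exact w.asIdeal.add_mem (w.asIdeal.mul_mem_right _ hq) (w.asIdeal.mul_mem_right _ hq')
  rw [hcop] at h1
  apply w.isPrime.ne_top
  rw [Ideal.eq_top_iff_one]
  simpa using h1

variable {S} in
theorem mem_aboveSet_SK_iff {SK : Finset (HeightOneSpectrum (𝓞 K))}
    (hSK : ∀ u, u ∈ SK ↔ u ∈ primesAboveS S K) (w : HeightOneSpectrum (𝓞 F)) :
    w ∈ aboveSet F (SK : Set (HeightOneSpectrum (𝓞 K))) ↔
      ∃ q ∈ S, ((q : ℕ) : 𝓞 F) ∈ w.asIdeal := by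
  rw [mem_aboveSet, Finset.mem_coe, hSK]
  have := outside_iff_under_notMem (K := K) S w
  constructor
  · intro h
    by_contra hcon
    push Not at hcon
    exact (this.mp hcon) h
  · rintro ⟨q, hq, hqw⟩ 
    by_contra hcon
    exact (this.mpr hcon) q hq hqw

/-- **Dictionary (D)**: the number of `σ`-stable maximal ideals of the local algebras `F ⊗ ℚ_q`,
`q ∈ S`, is the number of `σ`-fixed primes of `𝓞 F` above `S`. -/
theorem sum_card_fixedMax_eq (σ : F ≃ₐ[K] F)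
    (e : ∀ q : S, MaximalSpectrum (Loc F q.1) → HeightOneSpectrum (𝓞 F))
    (he_inj : ∀ q, Function.Injective (e q))
    (he_range : ∀ (q : S) (w : HeightOneSpectrum (𝓞 F)),
      (∃ m, e q m = w) ↔ ((q.1 : ℕ) : 𝓞 F) ∈ w.asIdeal)
    (he_fix : ∀ (q : S) (m : MaximalSpectrum (Loc F q.1)),
      (∀ x, x ∈ m.asIdeal ↔ σ • x ∈ m.asIdeal) ↔ σ • e q m = e q m)
    (SK : Finset (HeightOneSpectrum (𝓞 K))) (hSK : ∀ u, u ∈ SK ↔ u ∈ primesAboveS S K) :
    ∑ q : S, Nat.card {m : MaximalSpectrum (Loc F q.1) //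
        ∀ x, x ∈ m.asIdeal ↔ σ • x ∈ m.asIdeal} =
      Nat.card (Function.fixedPoints
        (abovePerm (L := F) (SK : Set (HeightOneSpectrum (𝓞 K))) σ)) := by
  classical
  have hmem : ∀ (q : S) (m : MaximalSpectrum (Loc F q.1)),
      e q m ∈ aboveSet F (SK : Set (HeightOneSpectrum (𝓞 K))) := fun q m =>
    (mem_aboveSet_SK_iff hSK _).mpr ⟨q.1, q.2, (he_range q _).mp ⟨m, rfl⟩⟩
  have hfinX : Finite (aboveSet F (SK : Set (HeightOneSpectrum (𝓞 K)))) :=
    (aboveSet_finite (L := F) SK).to_subtype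
  have hfin : ∀ q : S, Finite {m : MaximalSpectrum (Loc F q.1) //
      ∀ x, x ∈ m.asIdeal ↔ σ • x ∈ m.asIdeal} := by
    intro q
    refine Finite.of_injective
      (fun m => (⟨e q m.1, hmem q m.1⟩ : aboveSet F (SK : Set (HeightOneSpectrum (𝓞 K))))) ?_
    intro a b hab
    exact Subtype.ext (he_inj q (congrArg Subtype.val hab))
  rw [← Nat.card_sigma]
  have hfixpt : ∀ x : (Σ q : S, {m : MaximalSpectrum (Loc F q.1) //
      ∀ x, x ∈ m.asIdeal ↔ σ • x ∈ m.asIdeal}),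
      (⟨e x.1 x.2.1, hmem x.1 x.2.1⟩ : aboveSet F (SK : Set (HeightOneSpectrum (𝓞 K)))) ∈
        Function.fixedPoints (abovePerm (L := F) (SK : Set (HeightOneSpectrum (𝓞 K))) σ) := by
    intro x
    show abovePerm (L := F) (SK : Set (HeightOneSpectrum (𝓞 K))) σ ⟨e x.1 x.2.1, _⟩ = _
    apply Subtype.ext
    rw [abovePerm_apply_coe, ← smul_prime_eq_galSpec]
    exact (he_fix x.1 x.2.1).mp x.2.2
  refine Nat.card_congr (Equiv.ofBijective (fun x => ⟨_, hfixpt x⟩) ⟨?_, ?_⟩)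
  · rintro ⟨q, m, hm⟩ ⟨q', m', hm'⟩ h
    have h1 : e q m = e q' m' := congrArg (fun z => (z.1 : aboveSet F _).1) h
    have hq : q = q' := by
      apply Subtype.ext
      refine primes_eq_of_mem (e q m) ((he_range q _).mp ⟨m, rfl⟩) ?_
      rw [h1]
      exact (he_range q' _).mp ⟨m', rfl⟩
    subst hq
    have hm2 : m = m' := he_inj q h1
    subst hm2
    rfl
  · rintro ⟨⟨w, hw⟩, hfix⟩
    have hw' : ∃ q ∈ S, ((q : ℕ) : 𝓞 F) ∈ w.asIdeal := (mem_aboveSet_SK_iff hSK w).mp hw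
    obtain ⟨q, hq, hqw⟩ := hw'
    obtain ⟨m, hm⟩ := (he_range ⟨q, hq⟩ w).mpr hqw
    have hfix' : σ • w = w := by
      have := congrArg Subtype.val hfix
      rw [smul_prime_eq_galSpec]
      exact this
    refine ⟨⟨⟨q, hq⟩, m, (he_fix ⟨q, hq⟩ m).mpr (by rw [hm]; exact hfix')⟩, ?_⟩
    apply Subtype.ext
    apply Subtype.ext
    exact hm

variable [IsGalois K F] [hp : Fact p.Prime]

/-- The hypothesis `hA` of `herbrand_CS_of_local` from helper48's semilocal computation of the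
Herbrand quotient of the `S`-ideles and the place dictionary. -/
theorem hA_of_semilocal (hKF : Module.finrank K F = p) (σ : F ≃ₐ[K] F)
    (hσ : ∀ τ : F ≃ₐ[K] F, τ ∈ Subgroup.zpowers σ)
    (h48 : hIndex (endF (sigA S σ)) (endN p (sigA S σ)) =
        p ^ (∑ q : S, Nat.card {m : MaximalSpectrum (Loc F q.1) //
          ∀ x, x ∈ m.asIdeal ↔ σ • x ∈ m.asIdeal}) ∧
      hIndex (endN p (sigA S σ)) (endF (sigA S σ)) = 1)
    (e : ∀ q : S, MaximalSpectrum (Loc F q.1) → HeightOneSpectrum (𝓞 F))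
    (he_inj : ∀ q, Function.Injective (e q))
    (he_range : ∀ (q : S) (w : HeightOneSpectrum (𝓞 F)),
      (∃ m, e q m = w) ↔ ((q.1 : ℕ) : 𝓞 F) ∈ w.asIdeal)
    (he_fix : ∀ (q : S) (m : MaximalSpectrum (Loc F q.1)),
      (∀ x, x ∈ m.asIdeal ↔ σ • x ∈ m.asIdeal) ↔ σ • e q m = e q m) :
    ∀ SK : Finset (HeightOneSpectrum (𝓞 K)), (∀ u, u ∈ SK ↔ u ∈ primesAboveS S K) →
      HerbrandDefined (endF (sigA S σ)) (endN p (sigA S σ)) ∧
      herbrand (endF (sigA S σ)) (endN p (sigA S σ)) =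
        ((∏ u ∈ SK, (u.asIdeal.ramificationIdxIn (𝓞 F) * u.asIdeal.inertiaDegIn (𝓞 F)) : ℕ) :
          ℚ) := by
  intro SK hSK
  have hcount := sum_card_fixedMax_eq S σ e he_inj he_range he_fix SK hSK
  have hprod := pow_card_fixedPoints_abovePerm (L := F) hKF σ hσ SK
  rw [hcount, hprod] at h48
  have hne : (∏ u ∈ SK, (u.asIdeal.ramificationIdxIn (𝓞 F) * u.asIdeal.inertiaDegIn (𝓞 F))) ≠ 0 := by
    rw [← hprod]
    exact pow_ne_zero _ hp.out.ne_zero
  refine ⟨⟨?_, ?_⟩, ?_⟩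
  · rw [h48.1]
    exact hne
  · rw [h48.2]
    exact one_ne_zero
  · unfold herbrand
    rw [h48.1, h48.2]
    simp

end Fermat.Agent.CFT.H63
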