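import Mathlib
import Fermat.Agent.CFT.H63_FirstIneqLocal

set_option autoImplicit false
set_option linter.unusedSectionVars false

/-!
# CFT / C-FIRST (helper63), part 8: element form of the first inequality (for C-EXIST, EX2)

`exists_invariant_not_norm`: for `F/K` cyclic of odd prime degree `p` there is a `Gal(F/K)`-invariant
class of `CS S F` which is not a norm, in the two spellings `∏_{i<p} σ^i • y` and
`∏_{τ ∈ Gal(F/K)} τ • y`.  Conditional on `hA` only (see `hA_of_semilocal`).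
-/

namespace Fermat.Agent.CFT.H63

open IsDedekindDomain NumberField Module
open Fermat.Agent.Kummer.H63 Fermat.Agent.S14.H63
open Fermat.Agent.CFT.H23 Fermat.Agent.CFT.H6

variable (S : Finset Nat.Primes) {K F : Type*} [Field K] [NumberField K] [Field F]
  [NumberField F] [Algebra K F] {p : ℕ}

theorem sigC_pow_apply (σ : F ≃ₐ[K] F) (i : ℕ) (c : CS S F) :
    (sigC S σ ^ i) (Additive.ofMul c) = Additive.ofMul (σ ^ i • c) := by
  rw [sigC, ← map_pow]
  rfl

theorem endN_sigC_apply (σ : F ≃ₐ[K] F) (y : CS S F) :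
    endN p (sigC S σ) (Additive.ofMul y) =
      Additive.ofMul (∏ i ∈ Finset.range p, σ ^ i • y) := by
  rw [endN_apply, normEnd, LinearMap.sum_apply, ofMul_prod]
  exact Finset.sum_congr rfl fun i _ => sigC_pow_apply S σ i y

theorem endF_sigC_apply (σ : F ≃ₐ[K] F) (c : CS S F) :
    endF (sigC S σ) (Additive.ofMul c) = Additive.ofMul (σ • c / c) := rfl

/-- The product over the cyclic Galois group is the product over the powers of a generator. -/
theorem prod_smul_eq_prod_range [IsGalois K F] [Fintype (F ≃ₐ[K] F)]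
    (hKF : Module.finrank K F = p) (σ : F ≃ₐ[K] F)
    (hσ : ∀ τ : F ≃ₐ[K] F, τ ∈ Subgroup.zpowers σ) (y : CS S F) :
    ∏ τ : F ≃ₐ[K] F, τ • y = ∏ i ∈ Finset.range p, σ ^ i • y := by
  classical
  have hord : orderOf σ = p := by
    rw [orderOf_eq_card_of_forall_mem_zpowers hσ, IsGalois.card_aut_eq_finrank, hKF]
  rw [← IsCyclic.image_range_orderOf hσ, Finset.prod_image, hord]
  intro i hi j hj hij
  exact pow_injOn_Iio_orderOf (by simpa using hi) (by simpa using hj) hij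

variable [IsGalois K F] [hp : Fact p.Prime]

/-- **First inequality, element form**: there is a `σ`-invariant class of `CS S F` which is not a
norm `∏_{i<p} σ^i • y`. -/
theorem exists_invariant_not_norm (hp2 : p ≠ 2) (hKF : Module.finrank K F = p) (σ : F ≃ₐ[K] F)
    (hσ : ∀ τ : F ≃ₐ[K] F, τ ∈ Subgroup.zpowers σ) (hS : S.Nonempty)
    (hA : ∀ SK : Finset (HeightOneSpectrum (𝓞 K)), (∀ u, u ∈ SK ↔ u ∈ primesAboveS S K) →
      HerbrandDefined (endF (sigA S σ)) (endN p (sigA S σ)) ∧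
      herbrand (endF (sigA S σ)) (endN p (sigA S σ)) =
        ((∏ u ∈ SK, (u.asIdeal.ramificationIdxIn (𝓞 F) * u.asIdeal.inertiaDegIn (𝓞 F)) : ℕ) :
          ℚ)) :
    ∃ c : CS S F, σ • c = c ∧ ∀ y : CS S F, c ≠ ∏ i ∈ Finset.range p, σ ^ i • y := by
  obtain ⟨hdef, -, hcard⟩ := herbrand_CS_of_local S hp2 hKF σ hσ hS hA
  have hne1 : hIndex (endF (sigC S σ)) (endN p (sigC S σ)) ≠ 1 := by
    intro h1
    rw [h1] at hcard
    have h2 := hp.out.two_le
    have h3 : hIndex (endN p (sigC S σ)) (endF (sigC S σ)) ≠ 0 := hdef.2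
    have h4 : 1 ≤ hIndex (endN p (sigC S σ)) (endF (sigC S σ)) := Nat.one_le_iff_ne_zero.mpr h3
    nlinarith
  unfold hIndex at hne1
  rw [Ne, AddSubgroup.relIndex_eq_one] at hne1
  obtain ⟨c, hc, hcn⟩ := SetLike.not_le_iff_exists.mp hne1
  refine ⟨Additive.toMul c, ?_, ?_⟩
  · have h1 : endF (sigC S σ) (Additive.ofMul (Additive.toMul c)) = 0 := hc
    rw [endF_sigC_apply] at h1
    have h2 : σ • Additive.toMul c / Additive.toMul c = 1 := Additive.ofMul.injective h1
    exact div_eq_one.mp h2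
  · intro y hy
    apply hcn
    refine ⟨Additive.ofMul y, ?_⟩
    rw [endN_sigC_apply, ← hy]
    rfl

/-- Same with the norm written as a product over the Galois group. -/
theorem exists_invariant_not_galNorm [Fintype (F ≃ₐ[K] F)] (hp2 : p ≠ 2)
    (hKF : Module.finrank K F = p) (σ : F ≃ₐ[K] F)
    (hσ : ∀ τ : F ≃ₐ[K] F, τ ∈ Subgroup.zpowers σ) (hS : S.Nonempty)
    (hA : ∀ SK : Finset (HeightOneSpectrum (𝓞 K)), (∀ u, u ∈ SK ↔ u ∈ primesAboveS S K) →
      HerbrandDefined (endF (sigA S σ)) (endN p (sigA S σ)) ∧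
      herbrand (endF (sigA S σ)) (endN p (sigA S σ)) =
        ((∏ u ∈ SK, (u.asIdeal.ramificationIdxIn (𝓞 F) * u.asIdeal.inertiaDegIn (𝓞 F)) : ℕ) :
          ℚ)) :
    ∃ c : CS S F, (∀ τ : F ≃ₐ[K] F, τ • c = c) ∧
      ∀ y : CS S F, c ≠ ∏ τ : F ≃ₐ[K] F, τ • y := by
  obtain ⟨c, hc, hcn⟩ := exists_invariant_not_norm S hp2 hKF σ hσ hS hA
  refine ⟨c, ?_, ?_⟩
  · intro τ
    obtain ⟨n, rfl⟩ := Subgroup.mem_zpowers_iff.mp (hσ τ)
    have hfix : σ ∈ MulAction.stabilizer (F ≃ₐ[K] F) c := hc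
    exact (MulAction.stabilizer (F ≃ₐ[K] F) c).zpow_mem hfix n
  · intro y
    rw [prod_smul_eq_prod_range S hKF σ hσ y]
    exact hcn y

end Fermat.Agent.CFT.H63
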