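import Mathlib
import Fermat.Agent.CFT.H63_FirstIneqFinal
import Fermat.Agent.CFT.A_Defs

set_option autoImplicit false
set_option linter.unusedSectionVars false

/-!
# CFT / C-FIRST (helper63), part 6: the first inequality in the elementary Tate models

`|Ĥ⁰(G, CS S F)| = p · |Ĥ⁻¹(G, CS S F)|` for `A.H0hat`, `A.Hm1hat` of `A_Defs` (the shape consumed by
helper9's `H9.prime_layer_of_inequalities`).
-/

namespace Fermat.Agent.CFT.H63

open IsDedekindDomain NumberField Module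
open Fermat.Agent.CFT.H23 Fermat.Agent.CFT.H6

variable (S : Finset Nat.Primes) {K F : Type} [Field K] [NumberField K] [Field F]
  [NumberField F] [Algebra K F] [IsGalois K F] {p : ℕ} [hp : Fact p.Prime]

/-- **First inequality** for `repCS S F K` in the `A_Defs` models: `Ĥ⁰` is finite and
`|Ĥ⁰| = p · |Ĥ⁻¹|`. -/
theorem card_H0hat_repCS (hp2 : p ≠ 2) (hKF : Module.finrank K F = p) (σ : F ≃ₐ[K] F)
    (hσ : ∀ τ : F ≃ₐ[K] F, τ ∈ Subgroup.zpowers σ) (hS : S.Nonempty)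
    (hA : ∀ SK : Finset (HeightOneSpectrum (𝓞 K)), (∀ u, u ∈ SK ↔ u ∈ primesAboveS S K) →
      HerbrandDefined (endF (sigA S σ)) (endN p (sigA S σ)) ∧
      herbrand (endF (sigA S σ)) (endN p (sigA S σ)) =
        ((∏ u ∈ SK, (u.asIdeal.ramificationIdxIn (𝓞 F) * u.asIdeal.inertiaDegIn (𝓞 F)) : ℕ) :
          ℚ)) :
    Nat.card (Fermat.Agent.CFT.A.H0hat (repCS S F K)) ≠ 0 ∧
      Nat.card (Fermat.Agent.CFT.A.Hm1hat (repCS S F K)) ≠ 0 ∧
      Nat.card (Fermat.Agent.CFT.A.H0hat (repCS S F K)) =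
        p * Nat.card (Fermat.Agent.CFT.A.Hm1hat (repCS S F K)) := by
  obtain ⟨hd, -, hcard⟩ := herbrandRepn_repCS S hp2 hKF σ hσ hS hA
  have h0 : Nat.card (Fermat.Agent.CFT.A.H0hat (repCS S F K)) = h0Card (repCS S F K).ρ σ :=
    card_invariants_quot_norm (repCS S F K).ρ σ hσ
  have h1 : Nat.card (Fermat.Agent.CFT.A.Hm1hat (repCS S F K)) = hm1Card (repCS S F K).ρ σ :=
    card_kerNorm_quot_aug (repCS S F K).ρ σ hσ
  rw [h0, h1]
  exact ⟨hd.1, hd.2, hcard⟩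

end Fermat.Agent.CFT.H63
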