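/-
CFT layer C, package C-COH (helper48): the `Ĥ⁰`-index `[M^τ : N_τ M]` of an endomorphism `τ` of a
commutative group `M` (written multiplicatively) with `N_τ = ∏_{k<p} τ^k`, and the bridge to
helper6's additive vocabulary `hIndex (endF ·) (endN p ·)` on `Additive M`.
-/
import Mathlib
import Fermat.Agent.CFT.H6_HerbrandEnd

set_option autoImplicit false

namespace Fermat.Agent.CFT.H48

open Fermat.Agent.CFT.H6 Fermat.Agent.Kummer.H63

noncomputable section

section Generic

variable {M : Type*} [CommGroup M]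

/-- The "norm" `x ↦ ∏_{k<p} τ^k x`. -/
def normHom (τ : M →* M) (p : ℕ) : M →* M where
  toFun x := ∏ k ∈ Finset.range p, (⇑τ)^[k] x
  map_one' := by
    apply Finset.prod_eq_one
    intro k _
    exact iterate_map_one τ k
  map_mul' x y := by
    rw [← Finset.prod_mul_distrib]
    refine Finset.prod_congr rfl fun k _ => ?_
    exact iterate_map_mul τ k x y

theorem normHom_apply (τ : M →* M) (p : ℕ) (x : M) :
    normHom τ p x = ∏ k ∈ Finset.range p, (⇑τ)^[k] x := rfl

/-- The subgroup of `τ`-fixed elements. -/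
def fixSub (τ : M →* M) : Subgroup M := MonoidHom.eqLocus τ (MonoidHom.id M)

theorem mem_fixSub {τ : M →* M} {x : M} : x ∈ fixSub τ ↔ τ x = x := Iff.rfl

/-- `[M^τ : N_τ M ∩ M^τ]`. -/
def h0Index (τ : M →* M) (p : ℕ) : ℕ := (normHom τ p).range.relIndex (fixSub τ)

/-- `[ker N_τ : (τ - 1) M ∩ ker N_τ]`. -/
def h1Index (τ : M →* M) (p : ℕ) : ℕ :=
  (MonoidHom.range ((τ : M →* M) / MonoidHom.id M)).relIndex (normHom τ p).ker

/-- The additive endomorphism of `Additive M` attached to `τ`. -/
def addEnd (τ : M →* M) : Module.End ℤ (Additive M) := (MonoidHom.toAdditive τ).toIntLinearMap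

@[simp] theorem addEnd_apply (τ : M →* M) (x : Additive M) :
    addEnd τ x = Additive.ofMul (τ x.toMul) := rfl

theorem addEnd_pow_apply (τ : M →* M) (k : ℕ) (x : Additive M) :
    (addEnd τ ^ k) x = Additive.ofMul ((⇑τ)^[k] x.toMul) := by
  induction k generalizing x with
  | zero => simp
  | succ k ih =>
    rw [pow_succ, Module.End.mul_apply, ih, Function.iterate_succ_apply]
    rfl

theorem normEnd_addEnd_apply (τ : M →* M) (p : ℕ) (x : Additive M) :
    normEnd p (addEnd τ) x = Additive.ofMul (normHom τ p x.toMul) := by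
  rw [normEnd, LinearMap.sum_apply, normHom_apply, ofMul_prod]
  refine Finset.sum_congr rfl fun k _ => ?_
  exact addEnd_pow_apply τ k x

theorem ker_endF_addEnd (τ : M →* M) :
    (endF (addEnd τ)).ker = Subgroup.toAddSubgroup (fixSub τ) := by
  ext x
  rw [AddMonoidHom.mem_ker, endF_apply, sub_eq_zero]
  rfl

theorem range_endN_addEnd (τ : M →* M) (p : ℕ) :
    (endN p (addEnd τ)).range = Subgroup.toAddSubgroup (normHom τ p).range := by
  ext x
  constructor
  · rintro ⟨y, rfl⟩
    exact ⟨y.toMul, (normEnd_addEnd_apply τ p y).symm⟩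
  · rintro ⟨y, hy⟩
    exact ⟨Additive.ofMul y, (normEnd_addEnd_apply τ p (Additive.ofMul y)).trans hy⟩

theorem ker_endN_addEnd (τ : M →* M) (p : ℕ) :
    (endN p (addEnd τ)).ker = Subgroup.toAddSubgroup (normHom τ p).ker := by
  ext x
  rw [AddMonoidHom.mem_ker, endN_apply, normEnd_addEnd_apply]
  rfl

theorem range_endF_addEnd (τ : M →* M) :
    (endF (addEnd τ)).range =
      Subgroup.toAddSubgroup (MonoidHom.range ((τ : M →* M) / MonoidHom.id M)) := by
  ext x
  constructor
  · rintro ⟨y, rfl⟩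
    exact ⟨y.toMul, rfl⟩
  · rintro ⟨y, hy⟩
    exact ⟨Additive.ofMul y, hy⟩

/-- Bridge: helper6's `hIndex (σ - 1) N` on `Additive M` is `h0Index`. -/
theorem hIndex_endF_endN_addEnd (τ : M →* M) (p : ℕ) :
    hIndex (endF (addEnd τ)) (endN p (addEnd τ)) = h0Index τ p := by
  unfold hIndex h0Index
  rw [ker_endF_addEnd, range_endN_addEnd, Subgroup.relIndex_toAddSubgroup]

/-- Bridge: helper6's `hIndex N (σ - 1)` on `Additive M` is `h1Index`. -/
theorem hIndex_endN_endF_addEnd (τ : M →* M) (p : ℕ) :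
    hIndex (endN p (addEnd τ)) (endF (addEnd τ)) = h1Index τ p := by
  unfold hIndex h1Index
  rw [ker_endN_addEnd, range_endF_addEnd, Subgroup.relIndex_toAddSubgroup]

/-- `h1Index = 1` iff every element of norm one is of the form `τ y / y`. -/
theorem h1Index_eq_one_of_forall {τ : M →* M} {p : ℕ}
    (h : ∀ x : M, normHom τ p x = 1 → ∃ y : M, τ y / y = x) : h1Index τ p = 1 := by
  unfold h1Index
  rw [Subgroup.relIndex_eq_one]
  intro x hx
  obtain ⟨y, hy⟩ := h x hx
  exact ⟨y, hy⟩

end Generic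

end

end Fermat.Agent.CFT.H48
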