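import Mathlib
import Fermat.Agent.CFT.H48_H0Index

set_option autoImplicit false
set_option linter.unusedSectionVars false

/-!
# CFT / C-FIRST (helper63), part 12: `h0Index` of a finite product

`h0Index_piHom`: for a finite family of commutative groups `M i` with endomorphisms `τ i`, the
`Ĥ⁰`-index of the componentwise endomorphism of `Π i, M i` is the product of the `Ĥ⁰`-indices.
Dependent versions of `Subgroup.index_pi`.
-/

namespace Fermat.Agent.CFT.H63

open Fermat.Agent.CFT

section Index

variable {ι : Type*} [Fintype ι] {M : ι → Type*} [∀ i, Group (M i)]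

/-- Dependent version of `Subgroup.index_pi`. -/
theorem index_pi_dep (H : ∀ i, Subgroup (M i)) :
    (Subgroup.pi Set.univ H).index = ∏ i, (H i).index := by
  simp_rw [Subgroup.index, ← Nat.card_pi]
  refine Nat.card_congr
    ((Quotient.congrRight (fun x y ↦ ?_)).trans (Setoid.piQuotientEquiv _).symm)
  rw [QuotientGroup.leftRel_pi]

/-- `↥(Π K_i) ≃* Π ↥K_i`. -/
def piSubgroupEquiv (K : ∀ i, Subgroup (M i)) :
    (Subgroup.pi Set.univ K) ≃* (∀ i, K i) where
  toFun x i := ⟨x.1 i, x.2 i (Set.mem_univ i)⟩
  invFun y := ⟨fun i => (y i).1, fun i _ => (y i).2⟩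
  left_inv _ := rfl
  right_inv _ := rfl
  map_mul' _ _ := rfl

/-- Dependent relative index of products. -/
theorem relIndex_pi_dep (H K : ∀ i, Subgroup (M i)) :
    (Subgroup.pi Set.univ H).relIndex (Subgroup.pi Set.univ K) =
      ∏ i, (H i).relIndex (K i) := by
  unfold Subgroup.relIndex
  rw [← index_pi_dep (fun i => (H i).subgroupOf (K i))]
  have hcomap : (Subgroup.pi Set.univ H).subgroupOf (Subgroup.pi Set.univ K) =
      (Subgroup.pi Set.univ (fun i => (H i).subgroupOf (K i))).comap
        (piSubgroupEquiv K).toMonoidHom := by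
    ext x
    simp only [Subgroup.mem_subgroupOf, Subgroup.mem_pi, Set.mem_univ, forall_true_left,
      Subgroup.mem_comap]
    rfl
  rw [hcomap, Subgroup.index_comap_of_surjective _ (piSubgroupEquiv K).surjective]

end Index

section H0

variable {ι : Type*} {M : ι → Type*} [∀ i, CommGroup (M i)]

/-- The componentwise endomorphism of a product. -/
def piHom (τ : ∀ i, M i →* M i) : (∀ i, M i) →* (∀ i, M i) where
  toFun x i := τ i (x i)
  map_one' := by
    funext i
    exact map_one (τ i)
  map_mul' x y := by
    funext i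
    exact map_mul (τ i) (x i) (y i)

@[simp] theorem piHom_apply (τ : ∀ i, M i →* M i) (x : ∀ i, M i) (i : ι) :
    piHom τ x i = τ i (x i) := rfl

theorem piHom_iterate (τ : ∀ i, M i →* M i) (k : ℕ) (x : ∀ i, M i) (i : ι) :
    ((⇑(piHom τ))^[k] x) i = (⇑(τ i))^[k] (x i) := by
  induction k generalizing x with
  | zero => rfl
  | succ k ih => rw [Function.iterate_succ_apply, ih, Function.iterate_succ_apply, piHom_apply]

theorem normHom_piHom_apply (τ : ∀ i, M i →* M i) (p : ℕ) (x : ∀ i, M i) (i : ι) :
    H48.normHom (piHom τ) p x i = H48.normHom (τ i) p (x i) := by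
  rw [H48.normHom_apply, H48.normHom_apply, Finset.prod_apply]
  exact Finset.prod_congr rfl fun k _ => piHom_iterate τ k x i

theorem fixSub_piHom (τ : ∀ i, M i →* M i) :
    H48.fixSub (piHom τ) = Subgroup.pi Set.univ (fun i => H48.fixSub (τ i)) := by
  ext x
  simp only [H48.mem_fixSub, Subgroup.mem_pi, Set.mem_univ, forall_true_left]
  constructor
  · intro h i
    exact congrFun h i
  · intro h
    funext i
    exact h i

theorem range_normHom_piHom (τ : ∀ i, M i →* M i) (p : ℕ) :
    (H48.normHom (piHom τ) p).range =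
      Subgroup.pi Set.univ (fun i => (H48.normHom (τ i) p).range) := by
  ext x
  simp only [MonoidHom.mem_range, Subgroup.mem_pi, Set.mem_univ, forall_true_left]
  constructor
  · rintro ⟨y, rfl⟩ i
    exact ⟨y i, (normHom_piHom_apply τ p y i).symm⟩
  · intro h
    choose y hy using h
    refine ⟨y, ?_⟩
    funext i
    rw [normHom_piHom_apply, hy]

/-- **`Ĥ⁰`-index of a finite product.** -/
theorem h0Index_piHom [Fintype ι] (τ : ∀ i, M i →* M i) (p : ℕ) :
    H48.h0Index (piHom τ) p = ∏ i, H48.h0Index (τ i) p := by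
  unfold H48.h0Index
  rw [range_normHom_piHom, fixSub_piHom, relIndex_pi_dep]

end H0

end Fermat.Agent.CFT.H63
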