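/-
CFT layer C, package C-COH (helper48): the `Ĥ⁰`-index of the unit group of a semilocal ring with
an automorphism of prime order.

`E` a commutative ring with finitely many maximal ideals and zero Jacobson radical, `σ : E ≃+* E`
with `σ ^ p = 1`, `p` prime.  Then
`[(Eˣ)^σ : N(Eˣ)] = ∏_{m maximal, σ m = m} [((E/m)ˣ)^σ : N((E/m)ˣ)]`
(the free orbits of `σ` on the maximal ideals do not contribute).  Pure Chinese remainder theorem.
-/
import Mathlib
import Fermat.Agent.CFT.H48_H0Index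

set_option autoImplicit false

namespace Fermat.Agent.CFT.H48

noncomputable section

section Basic

variable {E : Type*} [CommRing E] (σ : E ≃+* E)

/-- `σ` on units. -/
def uAut : Eˣ →* Eˣ := Units.map (σ : E →* E)

@[simp] theorem coe_uAut (x : Eˣ) : ((uAut σ x : Eˣ) : E) = σ (x : E) := rfl

theorem coe_uAut_iterate (k : ℕ) (x : Eˣ) :
    (((⇑(uAut σ))^[k] x : Eˣ) : E) = (σ ^ k) (x : E) := by
  induction k generalizing x with
  | zero => simp
  | succ k ih =>
    rw [Function.iterate_succ_apply, ih, coe_uAut, pow_succ, RingAut.mul_apply]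

theorem coe_normHom_uAut (p : ℕ) (x : Eˣ) :
    ((normHom (uAut σ) p x : Eˣ) : E) = ∏ k ∈ Finset.range p, (σ ^ k) (x : E) := by
  rw [normHom_apply, Units.coe_prod]
  exact Finset.prod_congr rfl fun k _ => coe_uAut_iterate σ k x

theorem pow_apply_eq_self_of_fixed {x : E} (hx : σ x = x) (k : ℕ) : (σ ^ k) x = x := by
  induction k with
  | zero => simp
  | succ k ih => rw [pow_succ, RingAut.mul_apply, hx, ih]

/-- The preimage action of `σ` on the maximal spectrum. -/
def cmap (m : MaximalSpectrum E) : MaximalSpectrum E :=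
  ⟨m.asIdeal.comap (σ : E →+* E),
    have := m.isMaximal
    Ideal.comap_isMaximal_of_surjective (σ : E →+* E) σ.surjective⟩

theorem mem_cmap {m : MaximalSpectrum E} {x : E} :
    x ∈ (cmap σ m).asIdeal ↔ σ x ∈ m.asIdeal := Iff.rfl

theorem mem_cmap_iterate (k : ℕ) {m : MaximalSpectrum E} {x : E} :
    x ∈ ((cmap σ)^[k] m).asIdeal ↔ (σ ^ k) x ∈ m.asIdeal := by
  induction k generalizing m x with
  | zero => simp
  | succ k ih =>
    rw [Function.iterate_succ_apply, ih, mem_cmap, pow_succ', RingAut.mul_apply]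

theorem cmap_injective : Function.Injective (cmap σ) := by
  intro m₁ m₂ h
  apply MaximalSpectrum.ext
  ext x
  have h1 : σ.symm x ∈ (cmap σ m₁).asIdeal ↔ σ.symm x ∈ (cmap σ m₂).asIdeal := by rw [h]
  rw [mem_cmap, mem_cmap, RingEquiv.apply_symm_apply] at h1
  exact h1

theorem cmap_iterate_period {p : ℕ} (hσ : σ ^ p = 1) (m : MaximalSpectrum E) :
    (cmap σ)^[p] m = m := by
  apply MaximalSpectrum.ext
  ext x
  rw [mem_cmap_iterate, hσ]
  rfl

theorem cmap_iterate_mul {p : ℕ} (hσ : σ ^ p = 1) (k : ℕ) (m : MaximalSpectrum E) :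
    (cmap σ)^[p * k] m = m := by
  rw [Function.iterate_mul]
  have : (cmap σ)^[p] = id := funext (cmap_iterate_period σ hσ)
  rw [this, Function.iterate_id]
  rfl

theorem one_notMem (m : MaximalSpectrum E) : (1 : E) ∉ m.asIdeal :=
  (Ideal.ne_top_iff_one _).1 m.isMaximal.ne_top

theorem unit_notMem (m : MaximalSpectrum E) (u : Eˣ) : (u : E) ∉ m.asIdeal := fun h =>
  m.isMaximal.ne_top (Ideal.eq_top_of_isUnit_mem _ h u.isUnit)

theorem notMem_of_mk_eq_unit (m : MaximalSpectrum E) {a : E} (v : (E ⧸ m.asIdeal)ˣ)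
    (h : Ideal.Quotient.mk m.asIdeal a = (v : E ⧸ m.asIdeal)) : a ∉ m.asIdeal := by
  intro ha
  have h0 : (v : E ⧸ m.asIdeal) = 0 := by rw [← h]; exact Ideal.Quotient.eq_zero_iff_mem.2 ha
  have h1 : (1 : E ⧸ m.asIdeal) = 0 := by
    rw [← v.mul_inv, h0, zero_mul]
  have : (1 : E) ∈ m.asIdeal := Ideal.Quotient.eq_zero_iff_mem.1 (by rw [map_one]; exact h1)
  exact one_notMem m this

/-- Chinese remainder theorem for units of a semilocal ring. -/
theorem exists_unit_crt [Finite (MaximalSpectrum E)] (a : MaximalSpectrum E → E)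
    (ha : ∀ m, a m ∉ m.asIdeal) : ∃ u : Eˣ, ∀ m, (u : E) - a m ∈ m.asIdeal := by
  have hpair : Pairwise (Function.onFun IsCoprime fun m : MaximalSpectrum E => m.asIdeal) := by
    intro m m' hne
    have := m.isMaximal
    have := m'.isMaximal
    exact Ideal.isCoprime_of_isMaximal (fun h => hne (MaximalSpectrum.ext h))
  obtain ⟨x, hx⟩ := Ideal.exists_forall_sub_mem_ideal hpair a
  have hunit : IsUnit x := by
    by_contra hnu
    obtain ⟨I, hI, hxI⟩ := exists_max_ideal_of_mem_nonunits (mem_nonunits_iff.2 hnu)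
    have h1 := hx ⟨I, hI⟩
    have h2 : a ⟨I, hI⟩ ∈ I := by
      have : a ⟨I, hI⟩ = x - (x - a ⟨I, hI⟩) := by ring
      rw [this]
      exact I.sub_mem hxI h1
    exact ha ⟨I, hI⟩ h2
  exact ⟨hunit.unit, fun m => by rw [IsUnit.unit_spec]; exact hx m⟩

end Basic

section Residue

variable {E : Type*} [CommRing E] (σ : E ≃+* E)

/-- Reduction of units modulo a maximal ideal. -/
def red (m : MaximalSpectrum E) : Eˣ →* (E ⧸ m.asIdeal)ˣ :=
  Units.map (Ideal.Quotient.mk m.asIdeal : E →* E ⧸ m.asIdeal)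

@[simp] theorem coe_red (m : MaximalSpectrum E) (x : Eˣ) :
    ((red m x : (E ⧸ m.asIdeal)ˣ) : E ⧸ m.asIdeal) = Ideal.Quotient.mk m.asIdeal (x : E) := rfl

/-- The ring endomorphism of `E ⧸ m` induced by `σ` when `σ` fixes `m`. -/
def qRing (m : MaximalSpectrum E) (h : cmap σ m = m) : E ⧸ m.asIdeal →+* E ⧸ m.asIdeal :=
  Ideal.quotientMap m.asIdeal (σ : E →+* E)
    (le_of_eq (congrArg MaximalSpectrum.asIdeal h).symm)

@[simp] theorem qRing_mk (m : MaximalSpectrum E) (h : cmap σ m = m) (x : E) :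
    qRing σ m h (Ideal.Quotient.mk m.asIdeal x) = Ideal.Quotient.mk m.asIdeal (σ x) := by
  unfold qRing
  rw [Ideal.quotientMap_mk]
  rfl

/-- The endomorphism of `(E ⧸ m)ˣ` induced by `σ` when `σ` fixes `m`. -/
def qAut (m : MaximalSpectrum E) (h : cmap σ m = m) : (E ⧸ m.asIdeal)ˣ →* (E ⧸ m.asIdeal)ˣ :=
  Units.map (qRing σ m h : E ⧸ m.asIdeal →* E ⧸ m.asIdeal)

@[simp] theorem coe_qAut (m : MaximalSpectrum E) (h : cmap σ m = m) (v : (E ⧸ m.asIdeal)ˣ) :
    ((qAut σ m h v : (E ⧸ m.asIdeal)ˣ) : E ⧸ m.asIdeal) = qRing σ m h (v : E ⧸ m.asIdeal) := rfl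

theorem qAut_red (m : MaximalSpectrum E) (h : cmap σ m = m) (x : Eˣ) :
    qAut σ m h (red m x) = red m (uAut σ x) := by
  apply Units.ext
  rw [coe_qAut, coe_red, qRing_mk, coe_red, coe_uAut]

theorem qAut_iterate_red (m : MaximalSpectrum E) (h : cmap σ m = m) (k : ℕ) (x : Eˣ) :
    (⇑(qAut σ m h))^[k] (red m x) = red m ((⇑(uAut σ))^[k] x) := by
  have hs : Function.Semiconj (red m) (uAut σ) (qAut σ m h) := fun x => (qAut_red σ m h x).symm
  exact ((hs.iterate_right k) x).symm

theorem red_normHom (m : MaximalSpectrum E) (h : cmap σ m = m) (p : ℕ) (x : Eˣ) :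
    red m (normHom (uAut σ) p x) = normHom (qAut σ m h) p (red m x) := by
  rw [normHom_apply, normHom_apply, map_prod]
  exact Finset.prod_congr rfl fun k _ => (qAut_iterate_red σ m h k x).symm

end Residue

section Main

variable {E : Type*} [CommRing E] (σ : E ≃+* E) (p : ℕ)

/-- The maximal ideals fixed by `σ`. -/
abbrev FixMax : Type _ := {m : MaximalSpectrum E // cmap σ m = m}

/-- The local group `((E/m)ˣ)^σ / N((E/m)ˣ)` at a fixed maximal ideal. -/
abbrev LocQ (m : FixMax σ) : Type _ :=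
  fixSub (qAut σ m.1 m.2) ⧸
    ((normHom (qAut σ m.1 m.2) p).range.subgroupOf (fixSub (qAut σ m.1 m.2)))

/-- Reduction of `σ`-fixed units modulo a fixed maximal ideal. -/
def redFix (m : FixMax σ) : fixSub (uAut σ) →* fixSub (qAut σ m.1 m.2) :=
  ((red m.1).comp (fixSub (uAut σ)).subtype).codRestrict _ (fun x => by
    rw [mem_fixSub]
    show qAut σ m.1 m.2 (red m.1 (x : Eˣ)) = red m.1 (x : Eˣ)
    rw [qAut_red, mem_fixSub.1 x.2])

@[simp] theorem coe_redFix (m : FixMax σ) (x : fixSub (uAut σ)) :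
    ((redFix σ m x : fixSub (qAut σ m.1 m.2)) : (E ⧸ m.1.asIdeal)ˣ) = red m.1 (x : Eˣ) := rfl

/-- The comparison map `(Eˣ)^σ → ∏_{m fixed} ((E/m)ˣ)^σ / N`. -/
def psi : fixSub (uAut σ) →* ∀ m : FixMax σ, LocQ σ p m :=
  MonoidHom.pi fun m => (QuotientGroup.mk' _).comp (redFix σ m)

theorem psi_apply (x : fixSub (uAut σ)) (m : FixMax σ) :
    psi σ p x m = QuotientGroup.mk (redFix σ m x) := rfl

theorem psi_eq_one_iff (x : fixSub (uAut σ)) :
    psi σ p x = 1 ↔ ∀ m : FixMax σ, ∃ w : (E ⧸ m.1.asIdeal)ˣ,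
      normHom (qAut σ m.1 m.2) p w = red m.1 (x : Eˣ) := by
  constructor
  · intro h m
    have h1 : psi σ p x m = 1 := by rw [h]; rfl
    rw [psi_apply, QuotientGroup.eq_one_iff, Subgroup.mem_subgroupOf] at h1
    obtain ⟨w, hw⟩ := h1
    exact ⟨w, hw⟩
  · intro h
    funext m
    rw [psi_apply]
    show (QuotientGroup.mk (redFix σ m x) : LocQ σ p m) = 1
    rw [QuotientGroup.eq_one_iff, Subgroup.mem_subgroupOf]
    obtain ⟨w, hw⟩ := h m
    exact ⟨w, hw⟩

end Main

section Surj

variable {E : Type*} [CommRing E] (σ : E ≃+* E) (p : ℕ)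

theorem psi_surjective [Finite (MaximalSpectrum E)]
    (hJ : ∀ x : E, (∀ m : MaximalSpectrum E, x ∈ m.asIdeal) → x = 0) :
    Function.Surjective (psi σ p) := by
  classical
  intro f
  have hv : ∀ m : FixMax σ, ∃ v : fixSub (qAut σ m.1 m.2),
      (QuotientGroup.mk v : LocQ σ p m) = f m := fun m => QuotientGroup.mk_surjective (f m)
  choose v hv using hv
  have ha : ∀ m : FixMax σ, ∃ a : E, Ideal.Quotient.mk m.1.asIdeal a =
      ((v m : (E ⧸ m.1.asIdeal)ˣ) : E ⧸ m.1.asIdeal) := fun m => Ideal.Quotient.mk_surjective _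
  choose a ha using ha
  let A : MaximalSpectrum E → E := fun m => if h : cmap σ m = m then a ⟨m, h⟩ else 1
  have hA : ∀ m, A m ∉ m.asIdeal := by
    intro m
    by_cases h : cmap σ m = m
    · simp only [A, dif_pos h]
      exact notMem_of_mk_eq_unit m _ (ha ⟨m, h⟩)
    · simp only [A, dif_neg h]
      exact one_notMem m
  obtain ⟨u, hu⟩ := exists_unit_crt A hA
  have hfix : uAut σ u = u := by
    apply Units.ext
    rw [coe_uAut, ← sub_eq_zero]
    apply hJ
    intro m
    by_cases h : cmap σ m = m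
    · have h1 : (u : E) - a ⟨m, h⟩ ∈ m.asIdeal := by
        have := hu m
        simpa only [A, dif_pos h] using this
      have h2 : σ ((u : E) - a ⟨m, h⟩) ∈ m.asIdeal := by
        have : (u : E) - a ⟨m, h⟩ ∈ (cmap σ m).asIdeal := by rw [h]; exact h1
        exact (mem_cmap σ).1 this
      have h3 : σ (a ⟨m, h⟩) - a ⟨m, h⟩ ∈ m.asIdeal := by
        rw [← Ideal.Quotient.eq, ← qRing_mk σ m h, ha ⟨m, h⟩, ← coe_qAut]
        have := mem_fixSub.1 (v ⟨m, h⟩).2
        rw [this]
      have : σ (u : E) - u =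
          σ ((u : E) - a ⟨m, h⟩) + (σ (a ⟨m, h⟩) - a ⟨m, h⟩) - ((u : E) - a ⟨m, h⟩) := by
        rw [map_sub]; ring
      rw [this]
      exact m.asIdeal.sub_mem (m.asIdeal.add_mem h2 h3) h1
    · have h' : ¬ cmap σ (cmap σ m) = cmap σ m := fun hh => h (cmap_injective σ hh)
      have h1 : (u : E) - 1 ∈ m.asIdeal := by
        have := hu m
        simpa only [A, dif_neg h] using this
      have h2 : (u : E) - 1 ∈ (cmap σ m).asIdeal := by
        have := hu (cmap σ m)
        simpa only [A, dif_neg h'] using this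
      have h3 : σ (u : E) - 1 ∈ m.asIdeal := by
        have := (mem_cmap σ).1 h2
        rwa [map_sub, map_one] at this
      have : σ (u : E) - u = (σ (u : E) - 1) - ((u : E) - 1) := by ring
      rw [this]
      exact m.asIdeal.sub_mem h3 h1
  refine ⟨⟨u, mem_fixSub.2 hfix⟩, ?_⟩
  funext m
  rw [psi_apply, ← hv m]
  congr 1
  apply Subtype.ext
  apply Units.ext
  rw [coe_redFix, coe_red, ← ha m, Ideal.Quotient.eq]
  have := hu m.1
  simpa only [A, dif_pos m.2] using this

end Surj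

section Ker

variable {E : Type*} [CommRing E] (σ : E ≃+* E) (p : ℕ)

/-- Free orbits: if `m` is not fixed, the ideals `(cmap σ)^[k] m`, `k < p`, are distinct. -/
theorem cmap_iterate_injOn [hp : Fact p.Prime] (hσ : σ ^ p = 1) {m : MaximalSpectrum E}
    (hm : ¬ cmap σ m = m) : Set.InjOn (fun k => (cmap σ)^[k] m) (Set.Iio p) := by
  have hper : Function.IsPeriodicPt (cmap σ) p m := cmap_iterate_period σ hσ m
  have hmin : Function.minimalPeriod (cmap σ) m = p :=
    Function.minimalPeriod_eq_prime hper hm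
  have := Function.iterate_injOn_Iio_minimalPeriod (f := cmap σ) (x := m)
  rwa [hmin] at this

theorem cmap_iterate_not_fixed {m : MaximalSpectrum E}
    (hm : ¬ cmap σ m = m) (k : ℕ) : ¬ cmap σ ((cmap σ)^[k] m) = (cmap σ)^[k] m := by
  intro h
  apply hm
  have h1 : cmap σ ((cmap σ)^[k] m) = (cmap σ)^[k] (cmap σ m) :=
    (Function.iterate_succ_apply' (cmap σ) k m).symm.trans
      (Function.iterate_succ_apply (cmap σ) k m)
  rw [h1] at h
  exact ((cmap_injective σ).iterate k) h

/-- The orbit relation of `cmap σ`. -/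
def orbSetoid (hp : 0 < p) (hσ : σ ^ p = 1) : Setoid (MaximalSpectrum E) where
  r m m' := ∃ k, (cmap σ)^[k] m = m'
  iseqv := by
    refine ⟨fun m => ⟨0, rfl⟩, ?_, ?_⟩
    · rintro m m' ⟨k, rfl⟩
      refine ⟨(p - 1) * k, ?_⟩
      rw [← Function.iterate_add_apply]
      have : (p - 1) * k + k = p * k := by
        rw [← Nat.succ_mul, Nat.succ_eq_add_one, Nat.sub_add_cancel hp]
      rw [this]
      exact cmap_iterate_mul σ hσ k m
    · rintro m m' m'' ⟨k, rfl⟩ ⟨j, rfl⟩
      exact ⟨j + k, Function.iterate_add_apply _ j k m⟩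

theorem ker_psi [hp : Fact p.Prime] (hσ : σ ^ p = 1) [Finite (MaximalSpectrum E)]
    (hJ : ∀ x : E, (∀ m : MaximalSpectrum E, x ∈ m.asIdeal) → x = 0) :
    (psi σ p).ker = (normHom (uAut σ) p).range.subgroupOf (fixSub (uAut σ)) := by
  classical
  ext x
  rw [MonoidHom.mem_ker, psi_eq_one_iff, Subgroup.mem_subgroupOf]
  constructor
  · intro h
    choose w hw using h
    have hb : ∀ m : FixMax σ, ∃ b : E, Ideal.Quotient.mk m.1.asIdeal b =
        ((w m : (E ⧸ m.1.asIdeal)ˣ) : E ⧸ m.1.asIdeal) := fun m => Ideal.Quotient.mk_surjective _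
    choose b hb using hb
    let s := orbSetoid σ p hp.out.pos hσ
    let rep : MaximalSpectrum E → MaximalSpectrum E := fun m => (Quotient.mk s m).out
    have hrep : ∀ m, ∃ k, (cmap σ)^[k] m = rep m := fun m =>
      s.symm (Quotient.mk_out (s := s) m)
    have hrep_eq : ∀ m k, rep ((cmap σ)^[k] m) = rep m := fun m k => by
      show (Quotient.mk s _).out = (Quotient.mk s _).out
      congr 1
      exact Quotient.sound (s.symm ⟨k, rfl⟩)
    have hxfix : σ ((x : Eˣ) : E) = ((x : Eˣ) : E) := by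
      have := mem_fixSub.1 x.2
      exact congrArg Units.val this
    let C : MaximalSpectrum E → E := fun m =>
      if h : cmap σ m = m then b ⟨m, h⟩ else if rep m = m then ((x : Eˣ) : E) else 1
    have hC : ∀ m, C m ∉ m.asIdeal := by
      intro m
      by_cases h : cmap σ m = m
      · simp only [C, dif_pos h]
        exact notMem_of_mk_eq_unit m _ (hb ⟨m, h⟩)
      · by_cases h2 : rep m = m
        · simp only [C, dif_neg h, if_pos h2]
          exact unit_notMem m _
        · simp only [C, dif_neg h, if_neg h2]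
          exact one_notMem m
    obtain ⟨z, hz⟩ := exists_unit_crt C hC
    refine ⟨z, ?_⟩
    apply Units.ext
    rw [coe_normHom_uAut, ← sub_eq_zero]
    apply hJ
    intro m
    rw [← Ideal.Quotient.eq]
    by_cases h : cmap σ m = m
    · have h1 : red m z = w ⟨m, h⟩ := by
        apply Units.ext
        rw [coe_red, ← hb ⟨m, h⟩, Ideal.Quotient.eq]
        have := hz m
        simpa only [C, dif_pos h] using this
      have h2 := red_normHom σ m h p z
      rw [h1, hw ⟨m, h⟩] at h2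
      have h3 := congrArg (fun v : (E ⧸ m.asIdeal)ˣ => (v : E ⧸ m.asIdeal)) h2
      simp only [coe_red, coe_normHom_uAut] at h3
      exact h3
    · rw [map_prod]
      obtain ⟨k0', hk0'⟩ := hrep m
      have hk0 : (cmap σ)^[k0' % p] m = rep m := by
        rw [← hk0']
        conv_rhs => rw [← Nat.mod_add_div k0' p]
        rw [Function.iterate_add_apply, cmap_iterate_mul σ hσ]
      have hk0lt : k0' % p < p := Nat.mod_lt _ hp.out.pos
      have hfactor : ∀ k ∈ Finset.range p, Ideal.Quotient.mk m.asIdeal ((σ ^ k) (z : E)) =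
          if k = k0' % p then Ideal.Quotient.mk m.asIdeal ((x : Eˣ) : E) else 1 := by
        intro k hk
        have hk' : k < p := Finset.mem_range.1 hk
        have hnf : ¬ cmap σ ((cmap σ)^[k] m) = (cmap σ)^[k] m := cmap_iterate_not_fixed σ h k
        have hzk := hz ((cmap σ)^[k] m)
        have hCk : C ((cmap σ)^[k] m) =
            if rep m = (cmap σ)^[k] m then ((x : Eˣ) : E) else 1 := by
          simp only [C, dif_neg hnf, hrep_eq m k]
        have h1 : (σ ^ k) ((z : E) - C ((cmap σ)^[k] m)) ∈ m.asIdeal :=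
          (mem_cmap_iterate σ k).1 hzk
        rw [map_sub, ← Ideal.Quotient.eq] at h1
        rw [h1, hCk]
        by_cases hkk : k = k0' % p
        · rw [if_pos hkk, if_pos (by rw [hkk, hk0]), pow_apply_eq_self_of_fixed σ hxfix]
        · have hne : ¬ rep m = (cmap σ)^[k] m := by
            intro heq
            apply hkk
            apply cmap_iterate_injOn σ p hσ h (Set.mem_Iio.2 hk') (Set.mem_Iio.2 hk0lt)
            show (cmap σ)^[k] m = (cmap σ)^[k0' % p] m
            rw [hk0, heq]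
          rw [if_neg hkk, if_neg hne, map_one, map_one]
      rw [Finset.prod_congr rfl hfactor, Finset.prod_ite_eq', if_pos (Finset.mem_range.2 hk0lt)]
  · rintro ⟨z, hz⟩ m
    exact ⟨red m.1 z, by rw [← red_normHom, hz]⟩

end Ker

section Final

variable {E : Type*} [CommRing E] (σ : E ≃+* E) (p : ℕ)

theorem card_locQ (m : FixMax σ) : Nat.card (LocQ σ p m) = h0Index (qAut σ m.1 m.2) p := rfl

/-- **`Ĥ⁰` of the units of a semilocal ring**: the comparison map induces an isomorphism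
`(Eˣ)^σ / N(Eˣ) ≃ ∏_{m fixed} ((E/m)ˣ)^σ / N((E/m)ˣ)`. -/
def h0Equiv [Fact p.Prime] (hσ : σ ^ p = 1) [Finite (MaximalSpectrum E)]
    (hJ : ∀ x : E, (∀ m : MaximalSpectrum E, x ∈ m.asIdeal) → x = 0) :
    (fixSub (uAut σ) ⧸ (normHom (uAut σ) p).range.subgroupOf (fixSub (uAut σ))) ≃*
      (∀ m : FixMax σ, LocQ σ p m) :=
  (QuotientGroup.quotientMulEquivOfEq (ker_psi σ p hσ hJ).symm).trans
    (QuotientGroup.quotientKerEquivOfSurjective (psi σ p) (psi_surjective σ p hJ))

theorem h0Index_uAut_eq_card [Fact p.Prime] (hσ : σ ^ p = 1) [Finite (MaximalSpectrum E)]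
    (hJ : ∀ x : E, (∀ m : MaximalSpectrum E, x ∈ m.asIdeal) → x = 0) :
    h0Index (uAut σ) p = Nat.card (∀ m : FixMax σ, LocQ σ p m) :=
  Nat.card_congr (h0Equiv σ p hσ hJ).toEquiv

/-- `[(Eˣ)^σ : N(Eˣ)] = ∏_{m fixed} [((E/m)ˣ)^σ : N((E/m)ˣ)]`. -/
theorem h0Index_uAut_eq_prod [Fact p.Prime] (hσ : σ ^ p = 1) [Finite (MaximalSpectrum E)]
    [Fintype (FixMax σ)]
    (hJ : ∀ x : E, (∀ m : MaximalSpectrum E, x ∈ m.asIdeal) → x = 0) :
    h0Index (uAut σ) p = ∏ m : FixMax σ, h0Index (qAut σ m.1 m.2) p := by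
  rw [h0Index_uAut_eq_card σ p hσ hJ, Nat.card_pi]
  rfl

/-- If every local index at a fixed maximal ideal is `c`, then
`[(Eˣ)^σ : N(Eˣ)] = c ^ #{fixed maximal ideals}`. -/
theorem h0Index_uAut_eq_pow [Fact p.Prime] (hσ : σ ^ p = 1) [Finite (MaximalSpectrum E)]
    (hJ : ∀ x : E, (∀ m : MaximalSpectrum E, x ∈ m.asIdeal) → x = 0) (c : ℕ)
    (hloc : ∀ m : FixMax σ, h0Index (qAut σ m.1 m.2) p = c) :
    h0Index (uAut σ) p = c ^ Nat.card (FixMax σ) := by
  have : Fintype (FixMax σ) := Fintype.ofFinite _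
  rw [h0Index_uAut_eq_prod σ p hσ hJ, Finset.prod_congr rfl (fun m _ => hloc m),
    Finset.prod_const, Finset.card_univ, Nat.card_eq_fintype_card]

end Final

end

end Fermat.Agent.CFT.H48
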