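import Mathlib
import Fermat.Agent.CFT.H54_PlacesSurj
import Fermat.Agent.CFT.H42_TensorAction
import Fermat.Agent.CFT.H23_CDefs

/-!
# CFT layer C, package C-DICT-places (helper54), stage 3: Galois equivariance

`Gal(L/K)` acts on `L ⊗[ℚ] ℚ_[p]` through the left factor (helper42's
`H42.tensorMulSemiringAction`), hence on the places `Place L p`; the bijection
`primeAt : Place L p → primes of 𝓞 L above p` is equivariant for helper23's
`H23.primesMulAction`.
-/

set_option autoImplicit false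
set_option linter.unusedSectionVars false
set_option linter.style.haveILetI false

namespace Fermat.Agent.CFT.H54

open NumberField IsDedekindDomain TensorProduct
open Fermat.Agent.CFT

section Gal

variable {L : Type} [Field L] [NumberField L] {p : Nat.Primes}
  {K : Type*} [Field K] [CharZero K] [Algebra K L]

/-- The action of `σ ∈ Gal(L/K)` on the places of `L` above `p`: `σ • 𝔪 = σ(𝔪)`. -/
noncomputable def smulPlace (σ : L ≃ₐ[K] L) (𝔪 : Place L p) : Place L p :=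
  ⟨𝔪.asIdeal.comap (MulSemiringAction.toRingHom (L ≃ₐ[K] L) (H42.locAlg L p) σ⁻¹), by
    haveI := 𝔪.isMaximal
    haveI : (𝔪.asIdeal.comap
        (MulSemiringAction.toRingHom (L ≃ₐ[K] L) (H42.locAlg L p) σ⁻¹)).IsPrime :=
      Ideal.IsPrime.comap _
    exact IsArtinianRing.isMaximal_of_isPrime _⟩

theorem mem_smulPlace (σ : L ≃ₐ[K] L) (𝔪 : Place L p) (a : H42.locAlg L p) :
    a ∈ (smulPlace σ 𝔪).asIdeal ↔ σ⁻¹ • a ∈ 𝔪.asIdeal := Iff.rfl

theorem smul_mem_smulPlace (σ : L ≃ₐ[K] L) (𝔪 : Place L p) (a : H42.locAlg L p) :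
    σ • a ∈ (smulPlace σ 𝔪).asIdeal ↔ a ∈ 𝔪.asIdeal := by
  rw [mem_smulPlace, inv_smul_smul]

theorem smulPlace_one (𝔪 : Place L p) : smulPlace (1 : L ≃ₐ[K] L) 𝔪 = 𝔪 := by
  apply MaximalSpectrum.ext
  ext a
  rw [mem_smulPlace, inv_one, one_smul]

theorem smulPlace_mul (σ τ : L ≃ₐ[K] L) (𝔪 : Place L p) :
    smulPlace (σ * τ) 𝔪 = smulPlace σ (smulPlace τ 𝔪) := by
  apply MaximalSpectrum.ext
  ext a
  rw [mem_smulPlace, mem_smulPlace, mem_smulPlace, mul_inv_rev, mul_smul]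

/-- `Gal(L/K)` acts on the places of `L` above `p`. (A `def`, not an instance: activate it
with `attribute [local instance]` or `letI`.) -/
noncomputable abbrev placeMulAction : MulAction (L ≃ₐ[K] L) (Place L p) where
  smul := smulPlace
  one_smul := smulPlace_one
  mul_smul := smulPlace_mul

theorem smulPlace_eq_self_iff (σ : L ≃ₐ[K] L) (𝔪 : Place L p) :
    smulPlace σ 𝔪 = 𝔪 ↔ ∀ a, a ∈ 𝔪.asIdeal ↔ σ • a ∈ 𝔪.asIdeal := by
  constructor
  · intro h a
    conv_rhs => rw [← h]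
    rw [smul_mem_smulPlace]
  · intro h
    apply MaximalSpectrum.ext
    ext a
    rw [mem_smulPlace, h (σ⁻¹ • a), smul_inv_smul]

/-- The `ℚ_[p]`-isomorphism `locField 𝔪 → locField (σ • 𝔪)` induced by `σ` (as an algebra map). -/
noncomputable def locFieldMap (σ : L ≃ₐ[K] L) (𝔪 : Place L p) :
    locField 𝔪 →ₐ[ℚ_[p]] locField (smulPlace σ 𝔪) where
  toRingHom := (Ideal.Quotient.lift 𝔪.asIdeal
    ((locMk (smulPlace σ 𝔪)).comp (MulSemiringAction.toRingHom (L ≃ₐ[K] L) (H42.locAlg L p) σ))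
    (fun a ha => by
      rw [RingHom.comp_apply, locMk_eq_zero_iff, MulSemiringAction.toRingHom_apply,
        smul_mem_smulPlace]
      exact ha) : locField 𝔪 →+* locField (smulPlace σ 𝔪))
  commutes' c := by
    change Ideal.Quotient.lift 𝔪.asIdeal _ _ (Ideal.Quotient.mk _ ((1 : L) ⊗ₜ[ℚ] c)) = _
    rw [Ideal.Quotient.lift_mk, RingHom.comp_apply, MulSemiringAction.toRingHom_apply,
      H42.smul_tmul_left, map_one]
    rfl

theorem locFieldMap_locMk (σ : L ≃ₐ[K] L) (𝔪 : Place L p) (a : H42.locAlg L p) :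
    locFieldMap σ 𝔪 (locMk 𝔪 a) = locMk (smulPlace σ 𝔪) (σ • a) := rfl

theorem locFieldMap_toLocField (σ : L ≃ₐ[K] L) (𝔪 : Place L p) (x : L) :
    locFieldMap σ 𝔪 (toLocField 𝔪 x) = toLocField (smulPlace σ 𝔪) (σ x) := by
  rw [toLocField_apply, locFieldMap_locMk, H42.smul_tmul_left, toLocField_apply]

/-- The local norms are Galois-equivariant. -/
theorem locNorm_smulPlace (σ : L ≃ₐ[K] L) (𝔪 : Place L p) (a : H42.locAlg L p) :
    locNorm (smulPlace σ 𝔪) (σ • a) = locNorm 𝔪 a := by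
  rw [locNorm_def, locNorm_def, ← locFieldMap_locMk, Loc.nrm_def, Loc.nrm_def,
    spectralNorm_algHom]

/-- `|σ x|_{σ 𝔪} = |x|_𝔪`. -/
theorem absAt_smulPlace (σ : L ≃ₐ[K] L) (𝔪 : Place L p) (x : L) :
    absAt (smulPlace σ 𝔪) (σ x) = absAt 𝔪 x := by
  rw [absAt_apply, absAt_apply, ← locFieldMap_toLocField, Loc.nrm_def, Loc.nrm_def,
    spectralNorm_algHom]

theorem absAt_smulPlace' (σ : L ≃ₐ[K] L) (𝔪 : Place L p) (x : L) :
    absAt (smulPlace σ 𝔪) x = absAt 𝔪 (σ⁻¹ x) := by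
  rw [← absAt_smulPlace σ 𝔪 (σ⁻¹ x)]
  congr 1
  exact (AlgEquiv.apply_symm_apply σ x).symm

/-- (Eq) `primeAt` is `Gal(L/K)`-equivariant (for helper23's `H23.primesMulAction`). -/
theorem primeAt_smulPlace (σ : L ≃ₐ[K] L) (𝔪 : Place L p) :
    primeAt (smulPlace σ 𝔪) = σ • primeAt 𝔪 := by
  apply HeightOneSpectrum.ext
  ext x
  rw [H23.mem_smul_prime_iff, mem_primeAt, mem_primeAt, absAt_smulPlace']
  rfl

/-- (Eq), fixed-point form: `𝔪` is `σ`-stable iff `σ` fixes the prime `primeAt 𝔪`. -/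
theorem primeAt_fixed_iff (σ : L ≃ₐ[K] L) (𝔪 : Place L p) :
    (∀ a, a ∈ 𝔪.asIdeal ↔ σ • a ∈ 𝔪.asIdeal) ↔ σ • primeAt 𝔪 = primeAt 𝔪 := by
  rw [← smulPlace_eq_self_iff, ← primeAt_smulPlace]
  constructor
  · intro h
    rw [h]
  · intro h
    exact primeAt_injective h

/-- The range of `primeAt`: exactly the primes containing `p`. -/
theorem exists_primeAt_eq_iff (w : HeightOneSpectrum (𝓞 L)) :
    (∃ 𝔪 : Place L p, primeAt 𝔪 = w) ↔ ((p : ℕ) : 𝓞 L) ∈ w.asIdeal := by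
  constructor
  · rintro ⟨𝔪, rfl⟩
    exact natCast_mem_primeAt 𝔪
  · exact exists_primeAt_eq w

end Gal

end Fermat.Agent.CFT.H54
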