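import Fermat.Agent.CFT.LocDefs

/-!
# CFT layer B: definitional glue for Galois cohomology of `Lˣ`

* `Loc.infl K F M n` : inflation `Hⁿ(Gal(F/K), Fˣ) → Hⁿ(Gal(M/K), Mˣ)` for a tower `K ⊆ F ⊆ M`
  with `F/K` normal;
* `Loc.rest K F M n` : restriction `Hⁿ(Gal(M/K), Mˣ) → Hⁿ(Gal(M/F), Mˣ)`;
* `Loc.normSubgroup K L` : the norm subgroup `N_{L/K} Lˣ ≤ Kˣ`;
* `Loc.cexp`, `Loc.stdCocycle` : the standard 2-cocycle `(g^i, g^j) ↦ a^[i + j ≥ n]` of a cyclic
  group with generator `g` of order `n`;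
* `Loc.unrCocycle q E`, `Loc.unrClass q E` : the unramified fundamental cocycle / class of an
  unramified extension `E/ℚ_q` (standard cocycle of the uniformizer `q` w.r.t. the Frobenius).

Only definitions and trivial lemmas; all theorems live in the package files.
-/

set_option autoImplicit false
set_option linter.unusedSectionVars false

open CategoryTheory groupCohomology

namespace Fermat.Agent.CFT.Loc

section Maps

variable (K F M : Type) [Field K] [Field F] [Field M] [Algebra K F] [Algebra K M] [Algebra F M]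
  [IsScalarTower K F M]

/-- The inclusion `Fˣ → Mˣ`, equivariant along restriction `Gal(M/K) → Gal(F/K)`
(`F/K` normal). -/
noncomputable def unitsInflHom [Normal K F] :
    Rep.res (AlgEquiv.restrictNormalHom F : (M ≃ₐ[K] M) →* (F ≃ₐ[K] F))
      (Rep.ofAlgebraAutOnUnits K F) ⟶ Rep.ofAlgebraAutOnUnits K M :=
  Rep.ofHom ⟨(MonoidHom.toAdditive (Units.map (algebraMap F M : F →* M))).toIntLinearMap,
    fun g => by
      ext x
      show algebraMap F M ((AlgEquiv.restrictNormalHom F g) ((Additive.toMul x : Fˣ) : F)) =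
        g (algebraMap F M ((Additive.toMul x : Fˣ) : F))
      exact AlgEquiv.restrictNormal_commutes g F _⟩

/-- Inflation `Hⁿ(Gal(F/K), Fˣ) → Hⁿ(Gal(M/K), Mˣ)` for a tower `K ⊆ F ⊆ M`, `F/K` normal. -/
noncomputable def infl [Normal K F] (n : ℕ) :
    groupCohomology (Rep.ofAlgebraAutOnUnits K F) n ⟶
      groupCohomology (Rep.ofAlgebraAutOnUnits K M) n :=
  groupCohomology.map (AlgEquiv.restrictNormalHom F) (unitsInflHom K F M) n

/-- The identity `Mˣ → Mˣ`, equivariant along `Gal(M/F) → Gal(M/K)`. -/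
noncomputable def unitsRestHom :
    Rep.res (AlgEquiv.restrictScalarsHom K : (M ≃ₐ[F] M) →* (M ≃ₐ[K] M))
      (Rep.ofAlgebraAutOnUnits K M) ⟶ Rep.ofAlgebraAutOnUnits F M :=
  Rep.ofHom ⟨LinearMap.id, fun g => by
    ext x
    rfl⟩

/-- Restriction `Hⁿ(Gal(M/K), Mˣ) → Hⁿ(Gal(M/F), Mˣ)` for a tower `K ⊆ F ⊆ M`. -/
noncomputable def rest (n : ℕ) :
    groupCohomology (Rep.ofAlgebraAutOnUnits K M) n ⟶
      groupCohomology (Rep.ofAlgebraAutOnUnits F M) n :=
  groupCohomology.map (AlgEquiv.restrictScalarsHom K) (unitsRestHom K F M) n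

end Maps

section Norm

variable (K L : Type) [Field K] [Field L] [Algebra K L]

/-- The norm subgroup `N_{L/K} Lˣ ≤ Kˣ`. -/
noncomputable def normSubgroup : Subgroup Kˣ :=
  (Units.map (Algebra.norm K : L →* K)).range

theorem mem_normSubgroup_iff (x : Kˣ) :
    x ∈ normSubgroup K L ↔ ∃ y : Lˣ, Algebra.norm K (y : L) = x := by
  constructor
  · rintro ⟨y, rfl⟩
    exact ⟨y, rfl⟩
  · rintro ⟨y, hy⟩
    exact ⟨y, Units.ext hy⟩

end Norm

section Std

variable {G : Type} [Group G] {A : Type} [CommGroup A]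

/-- The exponent of `x` with respect to `g`: the least `i : ℕ` with `g ^ i = x`
(junk value `0` if `x` is not a power of `g`). -/
noncomputable def cexp (g x : G) : ℕ := by
  classical exact if h : ∃ i : ℕ, g ^ i = x then Nat.find h else 0

theorem pow_cexp (g x : G) (h : ∃ i : ℕ, g ^ i = x) : g ^ cexp g x = x := by
  classical
  unfold cexp
  rw [dif_pos h]
  exact Nat.find_spec h

theorem cexp_le (g x : G) (i : ℕ) (h : g ^ i = x) : cexp g x ≤ i := by
  classical
  unfold cexp
  rw [dif_pos ⟨i, h⟩]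
  exact Nat.find_min' _ h

/-- The standard 2-cocycle of a cyclic group with generator `g` attached to an invariant
element `a`: `(g^i, g^j) ↦ a` if `i + j ≥ orderOf g` and `1` otherwise (`0 ≤ i, j < orderOf g`). -/
noncomputable def stdCocycle (g : G) (a : A) : G × G → A := fun p =>
  by classical exact if orderOf g ≤ cexp g p.1 + cexp g p.2 then a else 1

theorem stdCocycle_apply (g : G) (a : A) (x y : G) [Decidable (orderOf g ≤ cexp g x + cexp g y)] :
    stdCocycle g a (x, y) = if orderOf g ≤ cexp g x + cexp g y then a else 1 := by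
  unfold stdCocycle
  simp only
  congr

end Std

section Unr

variable (q : ℕ) [Fact q.Prime]
variable (E : Type) [Field E] [Algebra ℚ_[q] E] [FiniteDimensional ℚ_[q] E]

/-- `q` as a unit of `E`. -/
noncomputable def qUnit : Eˣ :=
  Units.mk0 (algebraMap ℚ_[q] E (q : ℚ_[q])) (by
    rw [Ne, map_eq_zero_iff _ (algebraMap ℚ_[q] E).injective]
    exact_mod_cast (Fact.out : q.Prime).ne_zero)

/-- The unramified fundamental cocycle of `E/ℚ_q`: the standard cocycle of the uniformizer `q`
with respect to the Frobenius. -/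
noncomputable def unrCocycle : (E ≃ₐ[ℚ_[q]] E) × (E ≃ₐ[ℚ_[q]] E) → Eˣ :=
  stdCocycle (frob q ℚ_[q] E) (qUnit q E)

/-- The unramified fundamental class `u_{E/ℚ_q} ∈ H²(Gal(E/ℚ_q), Eˣ)` (junk `0` if
`unrCocycle` is not a cocycle, i.e. if `E/ℚ_q` is not unramified). -/
noncomputable def unrClass : H2 (Rep.ofAlgebraAutOnUnits ℚ_[q] E) := by
  classical exact
    if h : IsMulCocycle₂ (unrCocycle q E) then
      (H2π (Rep.ofAlgebraAutOnUnits ℚ_[q] E)).hom (cocyclesOfIsMulCocycle₂ h)
    else 0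

theorem unrClass_eq (h : IsMulCocycle₂ (unrCocycle q E)) :
    unrClass q E =
      (H2π (Rep.ofAlgebraAutOnUnits ℚ_[q] E)).hom (cocyclesOfIsMulCocycle₂ h) := by
  unfold unrClass
  rw [dif_pos h]

end Unr

end Fermat.Agent.CFT.Loc

namespace Fermat.Agent.CFT.Loc

section UnrRel

variable (q : ℕ) [Fact q.Prime]
variable (K : Type) [Field K] [Algebra ℚ_[q] K] [FiniteDimensional ℚ_[q] K]
variable (E : Type) [Field E] [Algebra ℚ_[q] E] [FiniteDimensional ℚ_[q] E]
variable [Algebra K E] [IsScalarTower ℚ_[q] K E]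

/-- `ϖ` is a uniformizer of `K`: an element of maximal absolute value `< 1`. -/
def IsUniformizer (ϖ : K) : Prop :=
  nrm q K ϖ < 1 ∧ ∀ x : K, nrm q K x < 1 → nrm q K x ≤ nrm q K ϖ

/-- The standard cocycle of `a ∈ Kˣ` with respect to the Frobenius of `E/K`
(general base field `K`; for `a` a uniformizer and `E/K` unramified this is the unramified
fundamental cocycle of `E/K`). -/
noncomputable def unrCocycleRel (a : Kˣ) : (E ≃ₐ[K] E) × (E ≃ₐ[K] E) → Eˣ :=
  stdCocycle (frob q K E) (Units.map (algebraMap K E : K →* E) a)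

/-- The class of `unrCocycleRel q K E a` in `H²(Gal(E/K), Eˣ)` (junk `0` if it is not a
cocycle). -/
noncomputable def unrClassRel (a : Kˣ) : H2 (Rep.ofAlgebraAutOnUnits K E) := by
  classical exact
    if h : IsMulCocycle₂ (unrCocycleRel q K E a) then
      (H2π (Rep.ofAlgebraAutOnUnits K E)).hom (cocyclesOfIsMulCocycle₂ h)
    else 0

theorem unrClassRel_eq (a : Kˣ) (h : IsMulCocycle₂ (unrCocycleRel q K E a)) :
    unrClassRel q K E a =
      (H2π (Rep.ofAlgebraAutOnUnits K E)).hom (cocyclesOfIsMulCocycle₂ h) := by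
  unfold unrClassRel
  rw [dif_pos h]

theorem map_qUnit : Units.map (algebraMap ℚ_[q] E : ℚ_[q] →* E) (qUnit q ℚ_[q]) = qUnit q E := by
  apply Units.ext
  rfl

theorem unrCocycle_eq_rel : unrCocycle q E = unrCocycleRel q ℚ_[q] E (qUnit q ℚ_[q]) := by
  unfold unrCocycle unrCocycleRel
  rw [map_qUnit]

theorem unrClass_eq_rel : unrClass q E = unrClassRel q ℚ_[q] E (qUnit q ℚ_[q]) := by
  classical
  by_cases h : IsMulCocycle₂ (unrCocycle q E)
  · have h' : IsMulCocycle₂ (unrCocycleRel q ℚ_[q] E (qUnit q ℚ_[q])) := by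
      rw [← unrCocycle_eq_rel]; exact h
    rw [unrClass_eq q E h, unrClassRel_eq q ℚ_[q] E _ h']
    congr 1
    apply Subtype.ext
    show Additive.ofMul ∘ unrCocycle q E = Additive.ofMul ∘ unrCocycleRel q ℚ_[q] E (qUnit q ℚ_[q])
    rw [unrCocycle_eq_rel]
  · have h' : ¬ IsMulCocycle₂ (unrCocycleRel q ℚ_[q] E (qUnit q ℚ_[q])) := by
      rw [← unrCocycle_eq_rel]; exact h
    unfold unrClass unrClassRel
    rw [dif_neg h, dif_neg h']

end UnrRel

end Fermat.Agent.CFT.Loc
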