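/-
helper85 — CFT layer B, package `B-HERBRAND-H2card-glue`:
for a finite cyclic Galois extension `L/K` of arbitrary fields,
`#H²(Gal(L/K), Lˣ) = [Kˣ : N_{L/K} Lˣ]`.
-/
import Mathlib
import Fermat.Agent.CFT.LocMaps
import Fermat.Agent.CFT.H6_HerbrandRep

set_option autoImplicit false
set_option linter.unusedSectionVars false

namespace Fermat.Agent.CFT.H85

open groupCohomology Fermat.Agent.CFT

section

variable (K L : Type) [Field K] [Field L] [Algebra K L] [FiniteDimensional K L] [IsGalois K L]

/-- `Kˣ →* Lˣ`. -/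
noncomputable abbrev unitsMap : Kˣ →* Lˣ := Units.map (algebraMap K L : K →* L)

lemma unitsMap_injective : Function.Injective (unitsMap K L) :=
  Units.map_injective (f := (algebraMap K L : K →* L)) (algebraMap K L).injective

lemma norm_units_apply (a : Additive Lˣ) :
    (((Additive.toMul ((Rep.ofAlgebraAutOnUnits K L).ρ.norm a) : Lˣ) : L)) =
      algebraMap K L (Algebra.norm K ((Additive.toMul a : Lˣ) : L)) :=
  groupCohomology.norm_ofAlgebraAutOnUnits_eq (K := K) (L := L) (Additive.toMul a)

/-- The invariants of `Lˣ` are the image of `Kˣ`. -/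
theorem invariants_units_eq :
    ((Rep.ofAlgebraAutOnUnits K L).ρ.invariants).toAddSubgroup =
      Subgroup.toAddSubgroup ((⊤ : Subgroup Kˣ).map (unitsMap K L)) := by
  ext a
  constructor
  · intro ha
    have hfix : ∀ σ : L ≃ₐ[K] L, σ ((Additive.toMul a : Lˣ) : L) = ((Additive.toMul a : Lˣ) : L) := by
      intro σ
      have h := congrArg (fun u : Additive Lˣ => ((Additive.toMul u : Lˣ) : L)) (ha σ)
      exact h
    obtain ⟨b, hb⟩ := (IsGalois.mem_range_algebraMap_iff_fixed (F := K) (E := L) _).2 hfix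
    have hb0 : b ≠ 0 := by
      rintro rfl
      rw [map_zero] at hb
      exact (Additive.toMul a : Lˣ).ne_zero hb.symm
    exact ⟨Units.mk0 b hb0, Subgroup.mem_top _, Units.ext hb⟩
  · rintro ⟨b, -, hb⟩ σ
    have h : Units.map (σ : L →* L) (unitsMap K L b) = unitsMap K L b := by
      apply Units.ext
      exact σ.commutes (b : K)
    have ha : a = Additive.ofMul (unitsMap K L b) := congrArg Additive.ofMul hb.symm
    rw [ha]
    exact congrArg Additive.ofMul h

/-- The image of the norm of `Lˣ` is the image of the norm subgroup of `Kˣ`. -/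
theorem range_norm_units_eq :
    (LinearMap.range (Rep.ofAlgebraAutOnUnits K L).ρ.norm).toAddSubgroup =
      Subgroup.toAddSubgroup ((Loc.normSubgroup K L).map (unitsMap K L)) := by
  ext a
  constructor
  · rintro ⟨y, rfl⟩
    refine ⟨Units.map (Algebra.norm K : L →* K) (Additive.toMul y), ⟨_, rfl⟩, ?_⟩
    apply Units.ext
    exact (norm_units_apply K L y).symm
  · rintro ⟨b, ⟨y, rfl⟩, hb⟩
    refine ⟨Additive.ofMul y, ?_⟩
    have h : Additive.toMul ((Rep.ofAlgebraAutOnUnits K L).ρ.norm (Additive.ofMul y)) =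
        unitsMap K L (Units.map (Algebra.norm K : L →* K) y) := by
      apply Units.ext
      exact norm_units_apply K L (Additive.ofMul y)
    exact congrArg Additive.ofMul (h.trans hb)

variable [IsCyclic (L ≃ₐ[K] L)]

/-- For a finite cyclic Galois extension `L/K` of fields,
`#H²(Gal(L/K), Lˣ) = [Kˣ : N_{L/K} Lˣ]`. -/
theorem card_H2_eq_index_normSubgroup :
    Nat.card (H2 (Rep.ofAlgebraAutOnUnits K L)) = (Loc.normSubgroup K L).index := by
  obtain ⟨g, hg⟩ := IsCyclic.exists_generator (α := L ≃ₐ[K] L)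
  let _ : CommGroup (L ≃ₐ[K] L) := IsCyclic.commGroup
  have h1 := H6.card_groupCohomology_even (Rep.ofAlgebraAutOnUnits K L) g hg 2 (by decide)
  have h2 := H6.h0Card_eq (Rep.ofAlgebraAutOnUnits K L).ρ g hg
  have h3 : Nat.card (H2 (Rep.ofAlgebraAutOnUnits K L)) =
      H6.h0Card (Rep.ofAlgebraAutOnUnits K L).ρ g := h1
  rw [h3, h2, invariants_units_eq, range_norm_units_eq]
  change ((Loc.normSubgroup K L).map (unitsMap K L)).relIndex
    ((⊤ : Subgroup Kˣ).map (unitsMap K L)) = _
  rw [Subgroup.relIndex_map_map_of_injective _ _ (unitsMap_injective K L),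
    Subgroup.relIndex_top_right]

/-- Skeleton2 `card_H2_of_isCyclic`, from the index formula. -/
theorem card_H2_of_isCyclic_of_index
    (h : (Loc.normSubgroup K L).index = Module.finrank K L) :
    Nat.card (H2 (Rep.ofAlgebraAutOnUnits K L)) = Module.finrank K L := by
  rw [card_H2_eq_index_normSubgroup, h]

omit [IsCyclic (L ≃ₐ[K] L)] in
/-- Skeleton3 `card_H2_of_prime_degree`, from the index formula in prime degree. -/
theorem card_H2_of_prime_degree_of_index (p : ℕ) (hp : p.Prime)
    (hdeg : Module.finrank K L = p) (h : (Loc.normSubgroup K L).index = p) :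
    Nat.card (H2 (Rep.ofAlgebraAutOnUnits K L)) = p := by
  have : Fact p.Prime := ⟨hp⟩
  have : IsCyclic (L ≃ₐ[K] L) :=
    isCyclic_of_prime_card (p := p) (by rw [IsGalois.card_aut_eq_finrank, hdeg])
  rw [card_H2_eq_index_normSubgroup, h]

end

end Fermat.Agent.CFT.H85
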