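import Fermat.Agent.CFT.H25_RootsOfUnity

/-!
# Teichmüller lifts (norm language)

`E` a complete nonarchimedean normed field with finite residue field of cardinality `Q`.
For every `x` with `‖x‖ ≤ 1` the sequence `x ^ (Q ^ j)` converges to `teich x` with
`teich x ^ Q = teich x` and `‖teich x - x‖ < 1`.  Consequently `E` contains a primitive
`(Q - 1)`-th root of unity.  No Hensel lemma is used.
-/

set_option autoImplicit false
set_option linter.unusedSectionVars false
set_option linter.style.haveILetI false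

noncomputable section

namespace Fermat.Agent.CFT.H25

open IsLocalRing Finset Filter Topology

section Estimates

variable {E : Type*} [NormedField E] [IsUltrametricDist E]

theorem norm_geom_sum₂_le_one {a b : E} (ha : ‖a‖ ≤ 1) (hb : ‖b‖ ≤ 1) (n : ℕ) :
    ‖∑ i ∈ range n, a ^ i * b ^ (n - 1 - i)‖ ≤ 1 := by
  refine IsUltrametricDist.norm_sum_le_of_forall_le_of_nonneg zero_le_one fun i _ => ?_
  rw [norm_mul, norm_pow, norm_pow]
  exact mul_le_one₀ (pow_le_one₀ (norm_nonneg _) ha) (pow_nonneg (norm_nonneg _) _)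
    (pow_le_one₀ (norm_nonneg _) hb)

/-- `‖a ^ n - b ^ n‖ ≤ ‖a - b‖` for integers `a`, `b`. -/
theorem norm_pow_sub_pow_le {a b : E} (ha : ‖a‖ ≤ 1) (hb : ‖b‖ ≤ 1) (n : ℕ) :
    ‖a ^ n - b ^ n‖ ≤ ‖a - b‖ := by
  rw [← geom_sum₂_mul a b n, norm_mul]
  calc ‖∑ i ∈ range n, a ^ i * b ^ (n - 1 - i)‖ * ‖a - b‖ ≤ 1 * ‖a - b‖ :=
        mul_le_mul_of_nonneg_right (norm_geom_sum₂_le_one ha hb n) (norm_nonneg _)
    _ = ‖a - b‖ := one_mul _

/-- The key estimate: `‖a ^ n - b ^ n‖ ≤ ‖a - b‖ * max ‖n‖ ‖a - b‖`. -/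
theorem norm_pow_sub_pow_le_mul {a b : E} (ha : ‖a‖ ≤ 1) (hb : ‖b‖ ≤ 1) (n : ℕ) :
    ‖a ^ n - b ^ n‖ ≤ ‖a - b‖ * max ‖(n : E)‖ ‖a - b‖ := by
  rw [← geom_sum₂_mul a b n, norm_mul, mul_comm]
  refine mul_le_mul_of_nonneg_left ?_ (norm_nonneg _)
  have hsplit : ∑ i ∈ range n, a ^ i * b ^ (n - 1 - i)
      = ∑ i ∈ range n, (a ^ i - b ^ i) * b ^ (n - 1 - i) + (n : E) * b ^ (n - 1) := by
    have h1 : ∀ i ∈ range n, a ^ i * b ^ (n - 1 - i)
        = (a ^ i - b ^ i) * b ^ (n - 1 - i) + b ^ (n - 1) := by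
      intro i hi
      have hi' : i < n := mem_range.mp hi
      have : b ^ (n - 1) = b ^ i * b ^ (n - 1 - i) := by
        rw [← pow_add]; congr 1; omega
      rw [this]; ring
    rw [sum_congr rfl h1, sum_add_distrib, sum_const, card_range, nsmul_eq_mul]
  rw [hsplit]
  refine (IsUltrametricDist.norm_add_le_max _ _).trans (max_le ?_ ?_)
  · refine le_trans ?_ (le_max_right _ _)
    refine IsUltrametricDist.norm_sum_le_of_forall_le_of_nonneg (norm_nonneg _) fun i _ => ?_
    rw [norm_mul, norm_pow]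
    calc ‖a ^ i - b ^ i‖ * ‖b‖ ^ (n - 1 - i) ≤ ‖a ^ i - b ^ i‖ * 1 :=
          mul_le_mul_of_nonneg_left (pow_le_one₀ (norm_nonneg _) hb) (norm_nonneg _)
      _ = ‖a ^ i - b ^ i‖ := mul_one _
      _ ≤ ‖a - b‖ := norm_pow_sub_pow_le ha hb i
  · refine le_trans ?_ (le_max_left _ _)
    rw [norm_mul, norm_pow]
    calc ‖(n : E)‖ * ‖b‖ ^ (n - 1) ≤ ‖(n : E)‖ * 1 :=
          mul_le_mul_of_nonneg_left (pow_le_one₀ (norm_nonneg _) hb) (norm_nonneg _)
      _ = ‖(n : E)‖ := mul_one _

end Estimates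

section Teich

variable {E : Type*} [NormedField E] [IsUltrametricDist E] [Finite (resField E)]

variable (E) in
/-- The cardinality of the residue field has norm `< 1`. -/
theorem norm_natCast_card_lt_one : ‖((Nat.card (resField E) : ℕ) : E)‖ < 1 := by
  classical
  haveI := Fintype.ofFinite (resField E)
  have hmem : ((Nat.card (resField E) : ℕ) : E) ∈ intRing E :=
    mem_intRing.mpr (norm_natCast_le_one' _)
  have h1 : (⟨((Nat.card (resField E) : ℕ) : E), hmem⟩ : intRing E)
      = ((Nat.card (resField E) : ℕ) : intRing E) := by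
    apply Subtype.ext; simp
  have : residue (intRing E) ⟨((Nat.card (resField E) : ℕ) : E), hmem⟩ = 0 := by
    rw [h1, map_natCast, Nat.card_eq_fintype_card, Nat.cast_card_eq_zero]
  exact (residue_eq_zero_iff_norm_lt_one _).mp this

/-- `x ^ Q ≡ x` modulo the maximal ideal. -/
theorem norm_pow_card_sub_lt_one {x : E} (hx : ‖x‖ ≤ 1) :
    ‖x ^ Nat.card (resField E) - x‖ < 1 := by
  classical
  haveI := Fintype.ofFinite (resField E)
  have h : residue (intRing E) (mkInt x hx ^ Nat.card (resField E))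
      = residue (intRing E) (mkInt x hx) := by
    rw [map_pow, Nat.card_eq_fintype_card, FiniteField.pow_card]
  rw [residue_eq_iff] at h
  simpa using h

/-- The Teichmüller sequence `x ^ (Q ^ j)`. -/
def teichSeq (x : E) (j : ℕ) : E := x ^ (Nat.card (resField E) ^ j)

theorem teichSeq_zero (x : E) : teichSeq x 0 = x := by simp [teichSeq]

theorem teichSeq_succ (x : E) (j : ℕ) :
    teichSeq x (j + 1) = teichSeq x j ^ Nat.card (resField E) := by
  simp only [teichSeq]; rw [← pow_mul, pow_succ]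

theorem norm_teichSeq_le_one {x : E} (hx : ‖x‖ ≤ 1) (j : ℕ) : ‖teichSeq x j‖ ≤ 1 := by
  rw [teichSeq, norm_pow]; exact pow_le_one₀ (norm_nonneg _) hx

/-- The contraction constant. -/
def teichConst (x : E) : ℝ :=
  max ‖((Nat.card (resField E) : ℕ) : E)‖ ‖x ^ Nat.card (resField E) - x‖

theorem teichConst_lt_one {x : E} (hx : ‖x‖ ≤ 1) : teichConst x < 1 :=
  max_lt (norm_natCast_card_lt_one E) (norm_pow_card_sub_lt_one hx)

theorem teichConst_nonneg (x : E) : 0 ≤ teichConst x :=
  (norm_nonneg _).trans (le_max_left _ _)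

theorem norm_teichSeq_succ_sub_le {x : E} (hx : ‖x‖ ≤ 1) (j : ℕ) :
    ‖teichSeq x (j + 1) - teichSeq x j‖
      ≤ ‖x ^ Nat.card (resField E) - x‖ * teichConst x ^ j := by
  induction j with
  | zero => simp [teichSeq]
  | succ j ih =>
    have key := norm_pow_sub_pow_le_mul (norm_teichSeq_le_one hx (j + 1))
      (norm_teichSeq_le_one hx j) (Nat.card (resField E))
    rw [← teichSeq_succ, ← teichSeq_succ] at key
    refine key.trans ?_
    rw [pow_succ, ← mul_assoc]
    have hc := teichConst_nonneg x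
    have hc1 := (teichConst_lt_one hx).le
    have hr : ‖x ^ Nat.card (resField E) - x‖ ≤ teichConst x := le_max_right _ _
    refine mul_le_mul ih (max_le (le_max_left _ _) ?_) (le_max_of_le_left (norm_nonneg _))
      (mul_nonneg (norm_nonneg _) (pow_nonneg hc _))
    refine ih.trans ?_
    calc ‖x ^ Nat.card (resField E) - x‖ * teichConst x ^ j
        ≤ teichConst x * 1 := mul_le_mul hr (pow_le_one₀ hc hc1) (pow_nonneg hc _) hc
      _ = teichConst x := mul_one _

theorem norm_teichSeq_sub_le {x : E} (hx : ‖x‖ ≤ 1) (j : ℕ) :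
    ‖teichSeq x j - x‖ ≤ ‖x ^ Nat.card (resField E) - x‖ := by
  induction j with
  | zero => simp [teichSeq]
  | succ j ih =>
    have : teichSeq x (j + 1) - x = (teichSeq x (j + 1) - teichSeq x j) + (teichSeq x j - x) := by
      ring
    rw [this]
    refine (IsUltrametricDist.norm_add_le_max _ _).trans (max_le ?_ ih)
    refine (norm_teichSeq_succ_sub_le hx j).trans ?_
    calc ‖x ^ Nat.card (resField E) - x‖ * teichConst x ^ j
        ≤ ‖x ^ Nat.card (resField E) - x‖ * 1 :=
          mul_le_mul_of_nonneg_left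
            (pow_le_one₀ (teichConst_nonneg x) (teichConst_lt_one hx).le) (norm_nonneg _)
      _ = _ := mul_one _

theorem cauchySeq_teichSeq {x : E} (hx : ‖x‖ ≤ 1) : CauchySeq (teichSeq x) := by
  refine cauchySeq_of_le_geometric (teichConst x) ‖x ^ Nat.card (resField E) - x‖
    (teichConst_lt_one hx) fun j => ?_
  rw [dist_comm, dist_eq_norm]
  exact norm_teichSeq_succ_sub_le hx j

variable [CompleteSpace E]

/-- The Teichmüller lift of (the residue class of) an integer `x`. -/
def teich (x : E) : E := limUnder atTop (teichSeq x)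

theorem tendsto_teichSeq {x : E} (hx : ‖x‖ ≤ 1) : Tendsto (teichSeq x) atTop (𝓝 (teich x)) :=
  (cauchySeq_teichSeq hx).tendsto_limUnder

theorem teich_pow_card {x : E} (hx : ‖x‖ ≤ 1) : teich x ^ Nat.card (resField E) = teich x := by
  have h1 : Tendsto (fun j => teichSeq x (j + 1)) atTop (𝓝 (teich x)) :=
    (tendsto_teichSeq hx).comp (tendsto_add_atTop_nat 1)
  have h2 : Tendsto (fun j => teichSeq x (j + 1)) atTop (𝓝 (teich x ^ Nat.card (resField E))) := by
    simp only [teichSeq_succ]
    exact (tendsto_teichSeq hx).pow _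
  exact tendsto_nhds_unique h2 h1

theorem norm_teich_sub_lt_one {x : E} (hx : ‖x‖ ≤ 1) : ‖teich x - x‖ < 1 := by
  have h1 : Tendsto (fun j => ‖teichSeq x j - x‖) atTop (𝓝 ‖teich x - x‖) :=
    ((tendsto_teichSeq hx).sub_const x).norm
  exact lt_of_le_of_lt (le_of_tendsto' h1 (norm_teichSeq_sub_le hx))
    (norm_pow_card_sub_lt_one hx)

theorem norm_teich_eq_one {x : E} (hx : ‖x‖ = 1) : ‖teich x‖ = 1 := by
  have h := norm_teich_sub_lt_one hx.le
  have : teich x = (teich x - x) + x := by ring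
  rw [this, IsUltrametricDist.norm_add_eq_max_of_norm_ne_norm (by rw [hx]; exact h.ne), hx]
  exact max_eq_right h.le

theorem teich_pow_card_sub_one {x : E} (hx : ‖x‖ = 1) :
    teich x ^ (Nat.card (resField E) - 1) = 1 := by
  have h0 : teich x ≠ 0 := by
    intro h0
    have := norm_teich_eq_one hx
    rw [h0, norm_zero] at this
    exact zero_ne_one this
  have hQ : 1 ≤ Nat.card (resField E) := Nat.one_le_iff_ne_zero.mpr Nat.card_pos.ne'
  have h1 := teich_pow_card hx.le
  have h2 : teich x ^ (Nat.card (resField E) - 1) * teich x = 1 * teich x := by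
    rw [← pow_succ, Nat.sub_add_cancel hQ, one_mul, h1]
  exact mul_right_cancel₀ h0 h2

variable (E) in
/-- A complete nonarchimedean field with residue field of `Q` elements contains a primitive
`(Q - 1)`-th root of unity. -/
theorem exists_isPrimitiveRoot_card_sub_one :
    ∃ ζ : E, IsPrimitiveRoot ζ (Nat.card (resField E) - 1) := by
  classical
  haveI := Fintype.ofFinite (resField E)
  obtain ⟨g, hg⟩ := IsCyclic.exists_generator (α := (resField E)ˣ)
  obtain ⟨x, hxg⟩ := residue_surjective (R := intRing E) (g : resField E)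
  have hx1 : ‖(x : E)‖ = 1 := by
    rw [← residue_ne_zero_iff_norm_eq_one, hxg]
    exact g.ne_zero
  refine ⟨teich (x : E), teich_pow_card_sub_one hx1, fun l hl => ?_⟩
  have hord : orderOf g = Nat.card (resField E) - 1 := by
    rw [orderOf_eq_card_of_forall_mem_zpowers hg, Nat.card_units]
  rw [← hord]
  apply orderOf_dvd_of_pow_eq_one
  apply Units.ext
  rw [Units.val_pow_eq_pow_val, Units.val_one, ← hxg]
  have hT : ‖teich (x : E)‖ ≤ 1 := (norm_teich_eq_one hx1).le
  have hres : residue (intRing E) x = residue (intRing E) (mkInt (teich (x : E)) hT) := by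
    rw [residue_eq_iff, coe_mkInt, norm_sub_rev]
    exact norm_teich_sub_lt_one hx1.le
  rw [hres, ← map_pow, ← map_one (residue (intRing E))]
  congr 1
  apply Subtype.ext
  simpa using hl

end Teich

end Fermat.Agent.CFT.H25
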