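import Fermat.Agent.CFT.H25_LocalGalois

/-!
# Value groups and residue degree (norm language)

For an isometric extension `L/K` of nonarchimedean normed fields:
* `norm_le_norm_sum`: for residually independent integers `x i` of `L` and `a i : K`,
  `‖a j‖ ≤ ‖∑ i, a i • x i‖` (so the norm of the sum is the maximum of the `‖a i‖`);
* `exists_norm_eq_of_finrank_eq`: if `[k_L : k_K] = [L : K]` then `L` and `K` have the same value
  group (`e = 1`);
* `span_lifts_eq_top`: if `K` is complete and discretely valued and `L`, `K` have the same value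
  group, then lifts of generators of `k_L / k_K` generate `L / K`;
* `finrank_resField_eq_of_unramified`: hence `[k_L : k_K] = [L : K]`.
-/

set_option autoImplicit false
set_option linter.unusedSectionVars false
set_option linter.style.haveILetI false

noncomputable section

namespace Fermat.Agent.CFT.H25

open IsLocalRing Finset

section Sum

variable {K L : Type*} [NormedField K] [IsUltrametricDist K] [NormedField L]
  [IsUltrametricDist L] [NormedAlgebra K L]

/-- For residually independent integers, every coefficient is bounded by the norm of the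
combination. -/
theorem norm_le_norm_sum {ι : Type*} [Fintype ι] (x : ι → intRing L)
    (h : LinearIndependent (resField K) (fun i => residue (intRing L) (x i))) (a : ι → K)
    (j : ι) : ‖a j‖ ≤ ‖∑ i, a i • ((x i : intRing L) : L)‖ := by
  classical
  obtain ⟨j₀, -, hj₀⟩ := Finset.exists_max_image Finset.univ (fun i => ‖a i‖)
    ⟨j, Finset.mem_univ _⟩
  refine (hj₀ j (Finset.mem_univ _)).trans ?_
  by_cases ha0 : a j₀ = 0
  · rw [ha0, norm_zero]; exact norm_nonneg _
  have hc : ∀ i, ‖a i / a j₀‖ ≤ 1 := fun i => by
    rw [norm_div]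
    exact div_le_one_of_le₀ (hj₀ i (Finset.mem_univ _)) (norm_nonneg _)
  set c : ι → intRing K := fun i => mkInt (a i / a j₀) (hc i) with hcdef
  set S : intRing L := ∑ i, algebraMap (intRing K) (intRing L) (c i) * x i with hS
  have hSval : (S : L) = (a j₀)⁻¹ • ∑ i, a i • ((x i : intRing L) : L) := by
    rw [hS, AddSubmonoidClass.coe_finsetSum, Finset.smul_sum]
    refine Finset.sum_congr rfl fun i _ => ?_
    simp only [MulMemClass.coe_mul, algebraMap_intRing_apply, hcdef, coe_mkInt]
    rw [Algebra.smul_def, Algebra.smul_def, ← mul_assoc, ← map_mul]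
    congr 2
    field_simp
  have hres : residue (intRing L) S ≠ 0 := by
    intro h0
    rw [hS, map_sum] at h0
    have h0' : ∑ i, residue (intRing K) (c i) • residue (intRing L) (x i) = 0 := by
      rw [← h0]
      refine Finset.sum_congr rfl fun i _ => ?_
      rw [map_mul, Algebra.smul_def]
      rfl
    have := Fintype.linearIndependent_iff.mp h (fun i => residue (intRing K) (c i)) h0' j₀
    rw [residue_eq_zero_iff_norm_lt_one] at this
    simp only [hcdef, coe_mkInt, div_self ha0, norm_one, lt_self_iff_false] at this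
  have hS1 : ‖(S : L)‖ = 1 := (residue_ne_zero_iff_norm_eq_one S).mp hres
  rw [hSval, norm_smul, norm_inv] at hS1
  have hpos : 0 < ‖a j₀‖ := norm_pos_iff.mpr ha0
  have : ‖∑ i, a i • ((x i : intRing L) : L)‖ = ‖a j₀‖ := by
    field_simp at hS1
    linarith
  exact this.ge

/-- Upper bound: the norm of a combination of integers is at most the largest coefficient. -/
theorem norm_sum_le_of_forall_le {ι : Type*} [Fintype ι] (x : ι → intRing L) (a : ι → K)
    {r : ℝ} (hr : 0 ≤ r) (ha : ∀ i, ‖a i‖ ≤ r) : ‖∑ i, a i • ((x i : intRing L) : L)‖ ≤ r := by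
  refine IsUltrametricDist.norm_sum_le_of_forall_le_of_nonneg hr fun i _ => ?_
  rw [norm_smul]
  calc ‖a i‖ * ‖((x i : intRing L) : L)‖ ≤ ‖a i‖ * 1 :=
        mul_le_mul_of_nonneg_left (norm_le_one (x i)) (norm_nonneg _)
    _ = ‖a i‖ := mul_one _
    _ ≤ r := ha i

/-- The norm of a combination of residually independent integers is the norm of a coefficient. -/
theorem exists_norm_sum_eq {ι : Type*} [Fintype ι] (x : ι → intRing L)
    (h : LinearIndependent (resField K) (fun i => residue (intRing L) (x i))) (a : ι → K) :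
    ∃ c : K, ‖∑ i, a i • ((x i : intRing L) : L)‖ = ‖c‖ := by
  classical
  by_cases hι : Nonempty ι
  · obtain ⟨j₀, -, hj₀⟩ := Finset.exists_max_image Finset.univ (fun i => ‖a i‖)
      ⟨hι.some, Finset.mem_univ _⟩
    exact ⟨a j₀, le_antisymm
      (norm_sum_le_of_forall_le x a (norm_nonneg _) fun i => hj₀ i (Finset.mem_univ _))
      (norm_le_norm_sum x h a j₀)⟩
  · haveI : IsEmpty ι := not_nonempty_iff.mp hι
    exact ⟨0, by simp⟩

/-- A combination of residually independent integers is integral iff all coefficients are. -/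
theorem norm_sum_le_one_iff {ι : Type*} [Fintype ι] (x : ι → intRing L)
    (h : LinearIndependent (resField K) (fun i => residue (intRing L) (x i))) (a : ι → K) :
    ‖∑ i, a i • ((x i : intRing L) : L)‖ ≤ 1 ↔ ∀ i, ‖a i‖ ≤ 1 :=
  ⟨fun hs i => (norm_le_norm_sum x h a i).trans hs,
    fun ha => norm_sum_le_of_forall_le x a zero_le_one ha⟩

variable (K L)

/-- If the residue degree equals the degree, the value groups coincide (`e = 1`). -/
theorem exists_norm_eq_of_finrank_eq [FiniteDimensional K L]
    (hfn : Module.finrank (resField K) (resField L) = Module.finrank K L) (y : L) :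
    ∃ c : K, ‖y‖ = ‖c‖ := by
  classical
  set f := Module.finrank (resField K) (resField L) with hf
  let b : Module.Basis (Fin f) (resField K) (resField L) := Module.finBasis _ _
  choose lift hlift using fun z : resField L => residue_surjective (R := intRing L) z
  set x : Fin f → intRing L := fun i => lift (b i) with hx
  have hli : LinearIndependent (resField K) (fun i => residue (intRing L) (x i)) := by
    have : (fun i => residue (intRing L) (x i)) = b := by
      funext i; exact hlift (b i)
    rw [this]
    exact b.linearIndependent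
  have hliK := linearIndependent_of_residue (K := K) x hli
  have hspan : Submodule.span K (Set.range fun i => ((x i : intRing L) : L)) = ⊤ :=
    hliK.span_eq_top_of_card_eq_finrank' (by rw [Fintype.card_fin, hfn])
  have hy : y ∈ Submodule.span K (Set.range fun i => ((x i : intRing L) : L)) := by
    rw [hspan]; trivial
  obtain ⟨a, rfl⟩ := (Submodule.mem_span_range_iff_exists_fun K).mp hy
  exact exists_norm_sum_eq x hli a

end Sum

section Discrete

variable {K L : Type*} [NontriviallyNormedField K] [IsUltrametricDist K] [CompleteSpace K]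
  [NormedField L] [IsUltrametricDist L] [NormedAlgebra K L]

/-- `K` is discretely valued: there is an element of largest norm `< 1`. -/
def IsDiscrete (K : Type*) [NormedField K] : Prop :=
  ∃ ϖ : K, ‖ϖ‖ < 1 ∧ ∀ x : K, ‖x‖ < 1 → ‖x‖ ≤ ‖ϖ‖

/-- `L` and `K` have the same value group. -/
def SameValueGroup (K L : Type*) [NormedField K] [NormedField L] : Prop :=
  ∀ y : L, ∃ c : K, ‖y‖ = ‖c‖

/-- One step of the approximation. -/
theorem exists_approx {ϖ : K} (hϖ : ∀ x : K, ‖x‖ < 1 → ‖x‖ ≤ ‖ϖ‖)
    (hunr : SameValueGroup K L) {ι : Type*} [Fintype ι] (x : ι → intRing L)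
    (hspan : ⊤ ≤ Submodule.span (resField K) (Set.range fun i => residue (intRing L) (x i)))
    (y : L) :
    ∃ a : ι → K, (∀ i, ‖a i‖ ≤ ‖y‖) ∧
      ‖y - ∑ i, a i • ((x i : intRing L) : L)‖ ≤ ‖ϖ‖ * ‖y‖ := by
  classical
  by_cases hy : y = 0
  · exact ⟨fun _ => 0, by simp [hy], by simp [hy]⟩
  obtain ⟨c, hc⟩ := hunr y
  have hc0 : c ≠ 0 := by
    rintro rfl
    rw [norm_zero, norm_eq_zero] at hc
    exact hy hc
  have hcpos : 0 < ‖c‖ := norm_pos_iff.mpr hc0
  have hu : ‖c⁻¹ • y‖ ≤ 1 := by
    rw [norm_smul, norm_inv, hc, inv_mul_cancel₀ hcpos.ne']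
  set u : intRing L := mkInt (c⁻¹ • y) hu with hudef
  have hmem : residue (intRing L) u ∈
      Submodule.span (resField K) (Set.range fun i => residue (intRing L) (x i)) :=
    hspan trivial
  obtain ⟨abar, habar⟩ := (Submodule.mem_span_range_iff_exists_fun (resField K)).mp hmem
  choose a0 ha0 using fun i => residue_surjective (R := intRing K) (abar i)
  set w : intRing L := ∑ i, algebraMap (intRing K) (intRing L) (a0 i) * x i with hw
  have hres : residue (intRing L) u = residue (intRing L) w := by
    rw [← habar, hw, map_sum]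
    refine Finset.sum_congr rfl fun i _ => ?_
    rw [map_mul, Algebra.smul_def, ← ha0 i]
    rfl
  rw [residue_eq_iff] at hres
  obtain ⟨d, hd⟩ := hunr ((u : L) - w)
  have hd' : ‖(u : L) - w‖ ≤ ‖ϖ‖ := by
    rw [hd]; apply hϖ; rw [← hd]; exact hres
  have hwval : (w : L) = ∑ i, ((a0 i : intRing K) : K) • ((x i : intRing L) : L) := by
    rw [hw, AddSubmonoidClass.coe_finsetSum]
    refine Finset.sum_congr rfl fun i _ => ?_
    simp only [MulMemClass.coe_mul, algebraMap_intRing_apply]
    rw [Algebra.smul_def]
  refine ⟨fun i => c * (a0 i : K), fun i => ?_, ?_⟩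
  · rw [norm_mul, hc]
    calc ‖c‖ * ‖((a0 i : intRing K) : K)‖ ≤ ‖c‖ * 1 :=
          mul_le_mul_of_nonneg_left (norm_le_one (a0 i)) (norm_nonneg _)
      _ = ‖c‖ := mul_one _
  · have : y - ∑ i, (c * (a0 i : K)) • ((x i : intRing L) : L) = c • ((u : L) - w) := by
      rw [hwval, smul_sub, Finset.smul_sum]
      simp only [hudef, coe_mkInt, smul_smul]
      rw [mul_inv_cancel₀ hc0, one_smul]
    rw [this, norm_smul, hc, mul_comm]
    exact mul_le_mul_of_nonneg_right hd' (norm_nonneg _)

/-- Iterated approximation. -/
theorem exists_approx_pow {ϖ : K} (hϖ1 : ‖ϖ‖ < 1) (hϖ : ∀ x : K, ‖x‖ < 1 → ‖x‖ ≤ ‖ϖ‖)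
    (hunr : SameValueGroup K L) {ι : Type*} [Fintype ι] (x : ι → intRing L)
    (hspan : ⊤ ≤ Submodule.span (resField K) (Set.range fun i => residue (intRing L) (x i)))
    (y : L) (k : ℕ) :
    ∃ a : ι → K, (∀ i, ‖a i‖ ≤ ‖y‖) ∧
      ‖y - ∑ i, a i • ((x i : intRing L) : L)‖ ≤ ‖ϖ‖ ^ k * ‖y‖ := by
  classical
  induction k with
  | zero =>
    exact ⟨fun _ => 0, fun i => by simp, by simp⟩
  | succ k ih =>
    obtain ⟨a, ha, hak⟩ := ih
    obtain ⟨a', ha', hak'⟩ := exists_approx hϖ hunr x hspan (y - ∑ i, a i • ((x i : intRing L) : L))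
    have hle : ‖y - ∑ i, a i • ((x i : intRing L) : L)‖ ≤ ‖y‖ := by
      refine hak.trans ?_
      have h1 : ‖ϖ‖ ^ k ≤ 1 := pow_le_one₀ (norm_nonneg _) hϖ1.le
      calc ‖ϖ‖ ^ k * ‖y‖ ≤ 1 * ‖y‖ := mul_le_mul_of_nonneg_right h1 (norm_nonneg _)
        _ = ‖y‖ := one_mul _
    refine ⟨fun i => a i + a' i, fun i => ?_, ?_⟩
    · exact (IsUltrametricDist.norm_add_le_max _ _).trans (max_le (ha i) ((ha' i).trans hle))
    · have : y - ∑ i, (a i + a' i) • ((x i : intRing L) : L)
          = (y - ∑ i, a i • ((x i : intRing L) : L)) - ∑ i, a' i • ((x i : intRing L) : L) := by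
        simp only [add_smul, Finset.sum_add_distrib]
        abel
      rw [this]
      refine hak'.trans ?_
      rw [pow_succ', mul_assoc]
      exact mul_le_mul_of_nonneg_left hak (norm_nonneg _)

/-- If `K` is complete and discretely valued and `L/K` has the same value group, then lifts of
generators of the residue extension generate `L` over `K`. -/
theorem span_lifts_eq_top (hdisc : IsDiscrete K) (hunr : SameValueGroup K L) {ι : Type*}
    [Fintype ι] (x : ι → intRing L)
    (hspan : ⊤ ≤ Submodule.span (resField K) (Set.range fun i => residue (intRing L) (x i))) :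
    Submodule.span K (Set.range fun i => ((x i : intRing L) : L)) = ⊤ := by
  classical
  obtain ⟨ϖ, hϖ1, hϖ⟩ := hdisc
  set V := Submodule.span K (Set.range fun i => ((x i : intRing L) : L)) with hV
  haveI : FiniteDimensional K V := FiniteDimensional.span_of_finite K (Set.finite_range _)
  have hclosed : IsClosed (V : Set L) := Submodule.closed_of_finiteDimensional V
  rw [eq_top_iff]
  intro y _
  have hmem : y ∈ closure (V : Set L) := by
    rw [Metric.mem_closure_iff]
    intro ε hε
    obtain ⟨k, hk⟩ : ∃ k : ℕ, ‖ϖ‖ ^ k * ‖y‖ < ε := by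
      have := (tendsto_pow_atTop_nhds_zero_of_lt_one (norm_nonneg ϖ) hϖ1).mul_const ‖y‖
      rw [zero_mul] at this
      exact ((this.eventually (gt_mem_nhds hε)).exists)
    obtain ⟨a, -, ha⟩ := exists_approx_pow hϖ1 hϖ hunr x hspan y k
    refine ⟨∑ i, a i • ((x i : intRing L) : L), ?_, ?_⟩
    · exact Submodule.sum_mem _ fun i _ =>
        Submodule.smul_mem _ _ (Submodule.subset_span ⟨i, rfl⟩)
    · rw [dist_eq_norm]
      exact lt_of_le_of_lt ha hk
  rwa [hclosed.closure_eq] at hmem

variable (K L) in
/-- Complete, discretely valued base, same value group: residue degree equals degree. -/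
theorem finrank_resField_eq_of_unramified [FiniteDimensional K L] (hdisc : IsDiscrete K)
    (hunr : SameValueGroup K L) :
    Module.finrank (resField K) (resField L) = Module.finrank K L := by
  classical
  refine le_antisymm (finrank_resField_le K L) ?_
  set f := Module.finrank (resField K) (resField L) with hf
  let b : Module.Basis (Fin f) (resField K) (resField L) := Module.finBasis _ _
  choose lift hlift using fun z : resField L => residue_surjective (R := intRing L) z
  set x : Fin f → intRing L := fun i => lift (b i) with hx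
  have hb : (fun i => residue (intRing L) (x i)) = b := by
    funext i; exact hlift (b i)
  have hspan : ⊤ ≤ Submodule.span (resField K)
      (Set.range fun i => residue (intRing L) (x i)) := by
    rw [hb, b.span_eq]
  have htop := span_lifts_eq_top hdisc hunr x hspan
  have := finrank_range_le_card (R := K) (fun i => ((x i : intRing L) : L))
  rw [Set.finrank, htop, finrank_top, Fintype.card_fin] at this
  exact this

end Discrete

end Fermat.Agent.CFT.H25
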