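import Fermat.Agent.CFT.H25_Unramified
import Fermat.Agent.CFT.H25_ValueGroup
import Fermat.Agent.CFT.H25_Teichmuller

/-!
# Structure of unramified extensions (norm language)

`K` complete, discretely valued (`IsDiscrete K`), finite residue field of cardinality `Q`;
`L/K` finite, isometric, with the same value group (`SameValueGroup K L`).  Then
`L = K(ζ_{Q^n-1})`, `n = [L:K]`; hence `L/K` is Galois, cyclic, generated by the unique Frobenius,
and any two such `L` of the same degree are `K`-isomorphic.
Conversely the cyclotomic extension `K(ζ_{Q^n-1})` has the same value group as `K`.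
-/

set_option autoImplicit false
set_option linter.unusedSectionVars false
set_option linter.style.haveILetI false

noncomputable section

namespace Fermat.Agent.CFT.H25

open IsLocalRing Finset IntermediateField

variable {K L : Type*} [NontriviallyNormedField K] [IsUltrametricDist K] [CompleteSpace K]
  [NormedField L] [IsUltrametricDist L] [NormedAlgebra K L] [Finite (resField K)]

section Converse

variable {n : ℕ} [hcyc : IsCyclotomicExtension {resCard K ^ n - 1} K L]

include hcyc in
variable (K L) in
/-- The cyclotomic extension `K(ζ_{Q^n-1})` has the same value group as `K`. -/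
theorem sameValueGroup_cyc (hn : n ≠ 0) : SameValueGroup K L := by
  haveI := finiteDimensional_cyc K L (n := n)
  exact exists_norm_eq_of_finrank_eq K L (card_chain K L hn).1

variable [FiniteDimensional K L]

/-- Uniqueness of the Frobenius. -/
theorem eq_frobCyc_of_norm_sub_pow_lt (hn : n ≠ 0) (φ : L ≃ₐ[K] L)
    (hφ : ∀ x : L, ‖x‖ ≤ 1 → ‖φ x - x ^ resCard K‖ < 1) : φ = frobCyc K L hn := by
  apply redHom_injective (n := n) hn
  rw [redHom_frobCyc]
  ext y
  obtain ⟨x, rfl⟩ := residue_surjective y
  rw [redHom_apply_residue, resFrob_apply, ← map_pow, residue_eq_iff]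
  exact hφ x (norm_le_one x)

end Converse

section Structure

variable [FiniteDimensional K L]

variable (K L) in
/-- An unramified extension of degree `n` is generated by the `(Q^n-1)`-th roots of unity. -/
theorem isCyclotomicExtension_of_unramified (hdisc : IsDiscrete K) (hunr : SameValueGroup K L) :
    IsCyclotomicExtension {resCard K ^ Module.finrank K L - 1} K L := by
  classical
  set n := Module.finrank K L with hndef
  have hn : n ≠ 0 := Module.finrank_pos.ne'
  have hf := finrank_resField_eq_of_unramified K L hdisc hunr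
  haveI : Finite (resField L) := Module.finite_of_finite (resField K)
  haveI : CompleteSpace L := FiniteDimensional.complete K L
  have hcard : Nat.card (resField L) = resCard K ^ n := by
    rw [hndef, ← hf]; exact Module.natCard_eq_pow_finrank
  obtain ⟨ζ, hζ⟩ := exists_isPrimitiveRoot_card_sub_one L
  rw [hcard] at hζ
  haveI : NeZero (resCard K ^ n - 1) := ⟨m_ne_zero (K := K) hn⟩
  haveI hM : IsCyclotomicExtension {resCard K ^ n - 1} K K⟮ζ⟯ :=
    hζ.intermediateField_adjoin_isCyclotomicExtension K
  have hdeg : Module.finrank K K⟮ζ⟯ = n := finrank_cyc K K⟮ζ⟯ hn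
  have htop : K⟮ζ⟯ = ⊤ := by
    apply IntermediateField.eq_of_le_of_finrank_eq le_top
    rw [hdeg, IntermediateField.finrank_top']
  exact IsCyclotomicExtension.equiv {resCard K ^ n - 1} K K⟮ζ⟯
    ((IntermediateField.equivOfEq htop).trans IntermediateField.topEquiv)

variable (K L) in
theorem isGalois_of_unramified (hdisc : IsDiscrete K) (hunr : SameValueGroup K L) :
    IsGalois K L :=
  haveI := isCyclotomicExtension_of_unramified K L hdisc hunr
  isGalois_cyc K L (n := Module.finrank K L)

variable (K L) in
/-- The Frobenius of an unramified extension. -/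
def frobUnr (hdisc : IsDiscrete K) (hunr : SameValueGroup K L) : L ≃ₐ[K] L :=
  haveI := isCyclotomicExtension_of_unramified K L hdisc hunr
  frobCyc K L (n := Module.finrank K L) Module.finrank_pos.ne'

theorem norm_frobUnr_sub_pow_lt (hdisc : IsDiscrete K) (hunr : SameValueGroup K L) (x : L)
    (hx : ‖x‖ ≤ 1) : ‖frobUnr K L hdisc hunr x - x ^ resCard K‖ < 1 :=
  haveI := isCyclotomicExtension_of_unramified K L hdisc hunr
  norm_frobCyc_sub_pow_lt (n := Module.finrank K L) Module.finrank_pos.ne' x hx

theorem eq_frobUnr_of_norm_sub_pow_lt (hdisc : IsDiscrete K) (hunr : SameValueGroup K L)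
    (φ : L ≃ₐ[K] L) (hφ : ∀ x : L, ‖x‖ ≤ 1 → ‖φ x - x ^ resCard K‖ < 1) :
    φ = frobUnr K L hdisc hunr :=
  haveI := isCyclotomicExtension_of_unramified K L hdisc hunr
  eq_frobCyc_of_norm_sub_pow_lt (n := Module.finrank K L) Module.finrank_pos.ne' φ hφ

theorem orderOf_frobUnr (hdisc : IsDiscrete K) (hunr : SameValueGroup K L) :
    orderOf (frobUnr K L hdisc hunr) = Module.finrank K L :=
  haveI := isCyclotomicExtension_of_unramified K L hdisc hunr
  orderOf_frobCyc (n := Module.finrank K L) Module.finrank_pos.ne'

theorem mem_zpowers_frobUnr (hdisc : IsDiscrete K) (hunr : SameValueGroup K L) (σ : L ≃ₐ[K] L) :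
    σ ∈ Subgroup.zpowers (frobUnr K L hdisc hunr) := by
  haveI := isCyclotomicExtension_of_unramified K L hdisc hunr
  obtain ⟨k, hk⟩ := exists_frobCyc_pow_eq (n := Module.finrank K L) Module.finrank_pos.ne' σ
  exact Subgroup.mem_zpowers_iff.mpr ⟨(k : ℤ), by rw [zpow_natCast]; exact hk⟩

/-- Any automorphism satisfying the Frobenius congruence generates the Galois group and has
order `[L : K]`. -/
theorem mem_zpowers_of_norm_sub_pow_lt (hdisc : IsDiscrete K) (hunr : SameValueGroup K L)
    (φ : L ≃ₐ[K] L) (hφ : ∀ x : L, ‖x‖ ≤ 1 → ‖φ x - x ^ resCard K‖ < 1) (σ : L ≃ₐ[K] L) :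
    σ ∈ Subgroup.zpowers φ := by
  rw [eq_frobUnr_of_norm_sub_pow_lt hdisc hunr φ hφ]
  exact mem_zpowers_frobUnr hdisc hunr σ

theorem orderOf_of_norm_sub_pow_lt (hdisc : IsDiscrete K) (hunr : SameValueGroup K L)
    (φ : L ≃ₐ[K] L) (hφ : ∀ x : L, ‖x‖ ≤ 1 → ‖φ x - x ^ resCard K‖ < 1) :
    orderOf φ = Module.finrank K L := by
  rw [eq_frobUnr_of_norm_sub_pow_lt hdisc hunr φ hφ]
  exact orderOf_frobUnr hdisc hunr

end Structure

section Uniqueness

variable {L' : Type*} [NormedField L'] [IsUltrametricDist L'] [NormedAlgebra K L']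
  [FiniteDimensional K L] [FiniteDimensional K L']

variable (K L L') in
/-- Two unramified extensions of the same degree are isomorphic. -/
theorem nonempty_algEquiv_of_unramified (hdisc : IsDiscrete K) (hunr : SameValueGroup K L)
    (hunr' : SameValueGroup K L') (hdeg : Module.finrank K L = Module.finrank K L') :
    Nonempty (L ≃ₐ[K] L') := by
  haveI h1 := isCyclotomicExtension_of_unramified K L hdisc hunr
  haveI h2 := isCyclotomicExtension_of_unramified K L' hdisc hunr'
  rw [← hdeg] at h2
  haveI : NeZero (resCard K ^ Module.finrank K L - 1) :=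
    ⟨m_ne_zero (K := K) Module.finrank_pos.ne'⟩
  exact ⟨IsCyclotomicExtension.algEquiv {resCard K ^ Module.finrank K L - 1} K L L'⟩

end Uniqueness

end Fermat.Agent.CFT.H25
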