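import Fermat.Agent.CFT.LocDefs
import Fermat.Agent.CFT.H25_UnramStructure

/-!
# Bridge: finite extensions of `ℚ_[q]` (vocabulary `Loc`) as normed fields (norm language)

For `K` an abstract finite extension of `ℚ_[q]`, the spectral norm makes `K` a complete
nonarchimedean nontrivially normed field (`nnf q K`), proper, discretely valued
(`isDiscrete_loc`), with finite residue field (`finite_resField_loc`) of cardinality a power of `q`.
For a tower `K → L` we get `NormedAlgebra K L` (`nalgTower`).  `Loc.O q K = intRing K`.
-/

set_option autoImplicit false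
set_option linter.unusedSectionVars false
set_option linter.style.haveILetI false

noncomputable section

namespace Fermat.Agent.CFT.H25

open Fermat.Agent.CFT IsLocalRing

section Padic

variable (q : ℕ) [Fact q.Prime]

/-- The unit ball of `ℚ_[q]` is `ℤ_[q]`. -/
def intRingPadicEquiv : intRing ℚ_[q] ≃+* ℤ_[q] where
  toFun x := ⟨x, mem_intRing.mp x.2⟩
  invFun x := ⟨x, mem_intRing.mpr x.2⟩
  left_inv x := rfl
  right_inv x := rfl
  map_mul' x y := rfl
  map_add' x y := rfl

/-- The residue field of `ℚ_[q]` is `ZMod q`. -/
def resFieldPadicEquiv : resField ℚ_[q] ≃+* ZMod q :=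
  (ResidueField.mapEquiv (intRingPadicEquiv q)).trans PadicInt.residueField

instance finite_resField_padic : Finite (resField ℚ_[q]) :=
  Finite.of_equiv _ (resFieldPadicEquiv q).symm.toEquiv

theorem card_resField_padic : Nat.card (resField ℚ_[q]) = q := by
  rw [Nat.card_congr (resFieldPadicEquiv q).toEquiv, Nat.card_zmod]

end Padic

section Field

variable (q : ℕ) [Fact q.Prime]
variable (K : Type) [Field K] [Algebra ℚ_[q] K] [FiniteDimensional ℚ_[q] K]
variable (L : Type) [Field L] [Algebra ℚ_[q] L] [FiniteDimensional ℚ_[q] L]

/-- The spectral normed field structure on a finite extension of `ℚ_[q]`. -/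
@[reducible] def nnf : NontriviallyNormedField K := spectralNorm.nontriviallyNormedField ℚ_[q] K

theorem norm_eq_nrm (x : K) : @norm K (nnf q K).toNorm x = Loc.nrm q K x := rfl

theorem ultra : letI := nnf q K; IsUltrametricDist K := by
  letI := nnf q K
  exact IsUltrametricDist.isUltrametricDist_of_isNonarchimedean_norm
    (isNonarchimedean_spectralNorm (K := ℚ_[q]) (L := K))

theorem complete : letI := nnf q K; CompleteSpace K :=
  spectralNorm.completeSpace ℚ_[q] K

/-- `K` is a normed algebra over `ℚ_[q]`. -/
@[reducible] def nalg : letI := nnf q K; NormedAlgebra ℚ_[q] K :=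
  spectralNorm.normedAlgebra ℚ_[q] K

theorem proper_loc : letI := nnf q K; ProperSpace K := by
  letI := nnf q K
  letI := nalg q K
  exact FiniteDimensional.proper ℚ_[q] K

theorem finite_resField_loc : letI := nnf q K; haveI := ultra q K; Finite (resField K) := by
  letI := nnf q K
  haveI := ultra q K
  letI := nalg q K
  haveI : Module.Finite (resField ℚ_[q]) (resField K) := finite_resField ℚ_[q] K
  exact Module.finite_of_finite (resField ℚ_[q])

/-- The residue cardinality is a power of `q`. -/
theorem resCard_loc_eq_pow : letI := nnf q K; haveI := ultra q K; letI := nalg q K;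
    resCard K = q ^ Module.finrank (resField ℚ_[q]) (resField K) := by
  letI := nnf q K
  haveI := ultra q K
  letI := nalg q K
  haveI : Module.Finite (resField ℚ_[q]) (resField K) := finite_resField ℚ_[q] K
  rw [resCard, Module.natCard_eq_pow_finrank (K := resField ℚ_[q]) (V := resField K),
    card_resField_padic]

/-- `K` is discretely valued. -/
theorem isDiscrete_loc : letI := nnf q K; IsDiscrete K := by
  letI := nnf q K
  haveI := ultra q K
  haveI := proper_loc q K
  have hcl : IsClosed (Metric.ball (0 : K) 1) := IsUltrametricDist.isClosed_ball 0 1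
  have hcpt : IsCompact (Metric.ball (0 : K) 1) :=
    Metric.isCompact_of_isClosed_isBounded hcl Metric.isBounded_ball
  obtain ⟨ϖ, hϖ, hmax⟩ := hcpt.exists_isMaxOn ⟨0, Metric.mem_ball_self one_pos⟩
    (continuous_norm.continuousOn)
  refine ⟨ϖ, by simpa using hϖ, fun x hx => ?_⟩
  exact hmax (by simpa using hx)

theorem O_eq_intRing : letI := nnf q K; haveI := ultra q K; Loc.O q K = intRing K := by
  letI := nnf q K
  haveI := ultra q K
  ext x
  rw [Loc.mem_O_iff, mem_intRing]
  rfl

theorem card_residueField_congr {F : Type*} [Field F] {A B : ValuationSubring F} (h : A = B) :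
    Nat.card (ResidueField A) = Nat.card (ResidueField B) := by
  subst h; rfl

theorem resCard_eq : letI := nnf q K; haveI := ultra q K; Loc.resCard q K = resCard K := by
  letI := nnf q K
  haveI := ultra q K
  exact card_residueField_congr (O_eq_intRing q K)

variable [Algebra K L] [IsScalarTower ℚ_[q] K L]

/-- For a tower `ℚ_[q] → K → L`, `L` is a normed algebra over `K`. -/
@[reducible] def nalgTower : letI := nnf q K; letI := nnf q L; NormedAlgebra K L :=
  letI := nnf q K
  letI := nalg q K
  spectralNorm.normedAlgebra' ℚ_[q] K L

theorem isUnramified_iff_sameValueGroup : letI := nnf q K; letI := nnf q L;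
    Loc.IsUnramified q K L ↔ SameValueGroup K L := Iff.rfl

end Field

end Fermat.Agent.CFT.H25
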