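import Mathlib

/-!
# CFT layer B, package B-HERBRAND-lattice (helper8)

Norm-language setting: `K` a complete nonarchimedean nontrivially normed field, `L/K` a finite
Galois extension of normed fields.  We construct the *normal basis lattice* subgroups
`V r = {u : Lˣ | cn (u - 1) ≤ r}` where `cn` is the coordinate sup-norm with respect to an
integral normal basis, and prove in elementary form that `Ĥ⁰(G, V) = 0` and, for cyclic `G`,
`Ĥ⁻¹(G, V) = 0`.
-/

set_option autoImplicit false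
set_option linter.unusedSectionVars false

open Module

noncomputable section

namespace Fermat.Agent.CFT.H8

section Generic

variable {K L : Type*} [NontriviallyNormedField K] [IsUltrametricDist K] [CompleteSpace K]
  [NormedField L] [IsUltrametricDist L] [NormedAlgebra K L] [FiniteDimensional K L]
variable {ι : Type*} [Fintype ι] (b : Basis ι K L)

/-- coordinate sup-norm with respect to the basis `b`. -/
def cn (x : L) : ℝ := ‖b.equivFun x‖

lemma cn_nonneg (x : L) : 0 ≤ cn b x := norm_nonneg _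

@[simp] lemma cn_zero : cn b 0 = 0 := by simp [cn]

lemma cn_eq_zero_iff {x : L} : cn b x = 0 ↔ x = 0 := by
  simp [cn]

lemma cn_neg (x : L) : cn b (-x) = cn b x := by simp [cn]

lemma cn_add_le_max (x y : L) : cn b (x + y) ≤ max (cn b x) (cn b y) := by
  simp only [cn, map_add]
  exact IsUltrametricDist.norm_add_le_max _ _

lemma cn_sub_le_max (x y : L) : cn b (x - y) ≤ max (cn b x) (cn b y) := by
  rw [sub_eq_add_neg]
  exact (cn_add_le_max b x (-y)).trans (by rw [cn_neg])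

lemma cn_add_le {x y : L} {r : ℝ} (hx : cn b x ≤ r) (hy : cn b y ≤ r) : cn b (x + y) ≤ r :=
  (cn_add_le_max b x y).trans (max_le hx hy)

lemma cn_sub_le {x y : L} {r : ℝ} (hx : cn b x ≤ r) (hy : cn b y ≤ r) : cn b (x - y) ≤ r :=
  (cn_sub_le_max b x y).trans (max_le hx hy)

lemma cn_smul (c : K) (x : L) : cn b (c • x) = ‖c‖ * cn b x := by
  simp only [cn, map_smul, norm_smul]

lemma cn_sum_le {α : Type*} (s : Finset α) (f : α → L) {C : ℝ} (hC : 0 ≤ C)
    (h : ∀ i ∈ s, cn b (f i) ≤ C) : cn b (∑ i ∈ s, f i) ≤ C := by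
  simp only [cn, map_sum]
  exact IsUltrametricDist.norm_sum_le_of_forall_le_of_nonneg hC h

lemma cn_le_iff {x : L} {r : ℝ} (hr : 0 ≤ r) : cn b x ≤ r ↔ ∀ i, ‖b.repr x i‖ ≤ r := by
  unfold cn
  rw [pi_norm_le_iff_of_nonneg hr]
  rfl

lemma norm_repr_le_cn (x : L) (i : ι) : ‖b.repr x i‖ ≤ cn b x :=
  norm_le_pi_norm (b.equivFun x) i

lemma cn_basis_le_one (i : ι) : cn b (b i) ≤ 1 := by
  classical
  rw [cn_le_iff b zero_le_one]
  intro j
  rw [Basis.repr_self, Finsupp.single_apply]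
  split_ifs <;> simp

lemma cn_smul_basis_le (c : K) (i : ι) : cn b (c • b i) ≤ ‖c‖ := by
  rw [cn_smul]
  exact mul_le_of_le_one_right (norm_nonneg _) (cn_basis_le_one b i)

/-- if the basis vectors have norm at most one, the norm is bounded by the coordinate norm. -/
lemma norm_le_cn (hb : ∀ i, ‖b i‖ ≤ 1) (x : L) : ‖x‖ ≤ cn b x := by
  conv_lhs => rw [← b.sum_repr x]
  refine IsUltrametricDist.norm_sum_le_of_forall_le_of_nonneg (cn_nonneg b x) (fun i _ => ?_)
  rw [norm_smul]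
  calc ‖b.repr x i‖ * ‖b i‖ ≤ ‖b.repr x i‖ * 1 :=
        mul_le_mul_of_nonneg_left (hb i) (norm_nonneg _)
    _ = ‖b.repr x i‖ := mul_one _
    _ ≤ cn b x := norm_repr_le_cn b x i

/-- the structure constant bound. -/
def mulConst : ℝ := 1 + ∑ i, ∑ j, cn b (b i * b j)

lemma one_le_mulConst : 1 ≤ mulConst b := by
  unfold mulConst
  have : 0 ≤ ∑ i, ∑ j, cn b (b i * b j) :=
    Finset.sum_nonneg fun i _ => Finset.sum_nonneg fun j _ => cn_nonneg b _
  linarith

lemma mulConst_pos : 0 < mulConst b := lt_of_lt_of_le one_pos (one_le_mulConst b)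

lemma cn_basis_mul_le (i j : ι) : cn b (b i * b j) ≤ mulConst b := by
  unfold mulConst
  have h1 : cn b (b i * b j) ≤ ∑ j', cn b (b i * b j') :=
    Finset.single_le_sum (f := fun j' => cn b (b i * b j')) (fun j' _ => cn_nonneg b _)
      (Finset.mem_univ j)
  have h2 : ∑ j', cn b (b i * b j') ≤ ∑ i', ∑ j', cn b (b i' * b j') :=
    Finset.single_le_sum (f := fun i' => ∑ j', cn b (b i' * b j'))
      (fun i' _ => Finset.sum_nonneg fun j' _ => cn_nonneg b _) (Finset.mem_univ i)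
  linarith

lemma cn_mul_le (x y : L) : cn b (x * y) ≤ mulConst b * cn b x * cn b y := by
  have hx := b.sum_repr x
  have hy := b.sum_repr y
  have hxy : x * y = ∑ i, ∑ j, (b.repr x i * b.repr y j) • (b i * b j) := by
    conv_lhs => rw [← hx, ← hy]
    rw [Finset.sum_mul_sum]
    refine Finset.sum_congr rfl fun i _ => Finset.sum_congr rfl fun j _ => ?_
    rw [smul_mul_smul_comm]
  rw [hxy]
  have hC : 0 ≤ mulConst b * cn b x * cn b y :=
    mul_nonneg (mul_nonneg (mulConst_pos b).le (cn_nonneg b x)) (cn_nonneg b y)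
  refine cn_sum_le b _ _ hC fun i _ => cn_sum_le b _ _ hC fun j _ => ?_
  rw [cn_smul, norm_mul]
  calc ‖b.repr x i‖ * ‖b.repr y j‖ * cn b (b i * b j)
      ≤ cn b x * cn b y * mulConst b := by
        refine mul_le_mul (mul_le_mul (norm_repr_le_cn b x i) (norm_repr_le_cn b y j)
          (norm_nonneg _) (cn_nonneg b x)) (cn_basis_mul_le b i j) (cn_nonneg b _)
          (mul_nonneg (cn_nonneg b x) (cn_nonneg b y))
    _ = mulConst b * cn b x * cn b y := by ring

lemma continuous_equivFun : Continuous (b.equivFun : L → ι → K) :=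
  LinearMap.continuous_of_finiteDimensional (b.equivFun : L →ₗ[K] ι → K)

lemma continuous_cn : Continuous (cn b) := (continuous_equivFun b).norm

lemma isClosed_cn_le (r : ℝ) : IsClosed {x : L | cn b x ≤ r} :=
  isClosed_le (continuous_cn b) continuous_const

/-- the coordinate norm is bounded by a multiple of the norm. -/
lemma exists_cn_le_mul_norm : ∃ C : ℝ, 0 < C ∧ ∀ x : L, cn b x ≤ C * ‖x‖ := by
  let f : L →L[K] (ι → K) := ⟨(b.equivFun : L →ₗ[K] ι → K), continuous_equivFun b⟩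
  refine ⟨‖f‖ + 1, by positivity, fun x => ?_⟩
  have h := f.le_opNorm x
  have h2 : ‖f‖ * ‖x‖ ≤ (‖f‖ + 1) * ‖x‖ :=
    mul_le_mul_of_nonneg_right (by linarith) (norm_nonneg _)
  exact h.trans h2

/-! ### Multiplicative estimates -/

lemma cn_mul_le_of_le {x y : L} {r s : ℝ} (hx : cn b x ≤ r) (hy : cn b y ≤ s) :
    cn b (x * y) ≤ mulConst b * r * s := by
  refine (cn_mul_le b x y).trans ?_
  have hr : 0 ≤ r := (cn_nonneg b x).trans hx
  exact mul_le_mul (mul_le_mul_of_nonneg_left hx (mulConst_pos b).le) hy (cn_nonneg b y)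
    (mul_nonneg (mulConst_pos b).le hr)

/-- multiplying an element of the ball of radius `s` by `1 + (small)` stays in the ball. -/
lemma cn_mul_one_add_le {x a : L} {r s : ℝ} (hCr : mulConst b * r ≤ 1) (hx : cn b x ≤ s)
    (ha : cn b a ≤ r) : cn b (x * (1 + a)) ≤ s := by
  have hs : 0 ≤ s := (cn_nonneg b x).trans hx
  rw [mul_add, mul_one]
  refine cn_add_le b hx ?_
  calc cn b (x * a) ≤ mulConst b * s * r := cn_mul_le_of_le b hx ha
    _ = s * (mulConst b * r) := by ring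
    _ ≤ s * 1 := mul_le_mul_of_nonneg_left hCr hs
    _ = s := mul_one s

/-- expansion of a finite product `∏ (1 + f i)` to first order. -/
lemma cn_prod_one_add_sub_le {α : Type*} [DecidableEq α] (s : Finset α) (f : α → L) {r : ℝ}
    (hCr : mulConst b * r ≤ 1) (hf : ∀ i ∈ s, cn b (f i) ≤ r) :
    cn b (∏ i ∈ s, (1 + f i) - 1 - ∑ i ∈ s, f i) ≤ mulConst b * r * r := by
  induction s using Finset.induction_on with
  | empty =>
    simp only [Finset.prod_empty, Finset.sum_empty, sub_self, cn_zero]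
    have hr : 0 ≤ r ∨ r < 0 := le_or_gt 0 r
    nlinarith [mulConst_pos b, mul_self_nonneg r]
  | insert a s ha ih =>
    have hr : 0 ≤ r := (cn_nonneg b (f a)).trans (hf a (Finset.mem_insert_self a s))
    have hCrr : mulConst b * r * r ≤ r := by
      calc mulConst b * r * r ≤ 1 * r := mul_le_mul_of_nonneg_right hCr hr
        _ = r := one_mul r
    have ih' := ih (fun i hi => hf i (Finset.mem_insert_of_mem hi))
    have hS : cn b (∑ i ∈ s, f i) ≤ r :=
      cn_sum_le b s f hr (fun i hi => hf i (Finset.mem_insert_of_mem hi))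
    rw [Finset.prod_insert ha, Finset.sum_insert ha]
    set P := ∏ i ∈ s, (1 + f i) with hP
    set S := ∑ i ∈ s, f i with hSdef
    have hE : cn b (P - 1 - S) ≤ mulConst b * r * r := ih'
    have hid : (1 + f a) * P - 1 - (f a + S) = (P - 1 - S) + f a * (S + (P - 1 - S)) := by ring
    rw [hid]
    refine cn_add_le b hE ?_
    have hSE : cn b (S + (P - 1 - S)) ≤ r := cn_add_le b hS (hE.trans hCrr)
    exact cn_mul_le_of_le b (hf a (Finset.mem_insert_self a s)) hSE

/-! ### The subgroups `V r` -/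

/-- `V b r`: the units `u` of `L` with `cn (u - 1) ≤ r`. -/
def V (r : ℝ) (hr : 0 ≤ r) (hCr : mulConst b * r < 1) : Subgroup Lˣ where
  carrier := {u | cn b ((u : L) - 1) ≤ r}
  one_mem' := by simp [hr]
  mul_mem' := by
    intro u v hu hv
    simp only [Set.mem_ofPred_eq] at hu hv ⊢
    have hid : ((u * v : Lˣ) : L) - 1 = ((u : L) - 1) * (1 + ((v : L) - 1)) + ((v : L) - 1) := by
      push_cast; ring
    rw [hid]
    exact cn_add_le b (cn_mul_one_add_le b hCr.le hu hv) hv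
  inv_mem' := by
    intro u hu
    simp only [Set.mem_ofPred_eq] at hu ⊢
    set a : L := (u : L) - 1 with ha
    set t : L := ((u⁻¹ : Lˣ) : L) - 1 with ht
    have hrel : t = -a - a * t := by
      have h1 : (u : L) * ((u⁻¹ : Lˣ) : L) = 1 := by simp
      have hu' : (u : L) = 1 + a := by rw [ha]; ring
      have hui : ((u⁻¹ : Lˣ) : L) = 1 + t := by rw [ht]; ring
      rw [hu', hui] at h1
      linear_combination h1
    by_contra hcon
    rw [not_le] at hcon
    have h1 : cn b t ≤ max (cn b (-a)) (cn b (a * t)) := by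
      conv_lhs => rw [hrel]
      exact cn_sub_le_max b _ _
    rw [cn_neg] at h1
    have h2 : cn b (a * t) ≤ mulConst b * r * cn b t := cn_mul_le_of_le b hu le_rfl
    have h3 : mulConst b * r * cn b t < cn b t := by
      have hpos : 0 < cn b t := lt_of_le_of_lt hr hcon
      calc mulConst b * r * cn b t < 1 * cn b t := mul_lt_mul_of_pos_right hCr hpos
        _ = cn b t := one_mul _
    rcases le_max_iff.1 h1 with h4 | h4
    · exact absurd (h4.trans hu) (not_le.2 hcon)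
    · exact absurd (h4.trans h2) (not_le.2 h3)

lemma mem_V_iff {r : ℝ} {hr : 0 ≤ r} {hCr : mulConst b * r < 1} {u : Lˣ} :
    u ∈ V b r hr hCr ↔ cn b ((u : L) - 1) ≤ r := Iff.rfl

lemma V_mono {r s : ℝ} {hr : 0 ≤ r} {hCr : mulConst b * r < 1} {hs : 0 ≤ s}
    {hCs : mulConst b * s < 1} (hrs : r ≤ s) : V b r hr hCr ≤ V b s hs hCs :=
  fun _ hu => le_trans (mem_V_iff b |>.1 hu) hrs

lemma lt_one_of_mulConst_mul_lt {r : ℝ} (hr : 0 ≤ r) (hCr : mulConst b * r < 1) : r < 1 := by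
  have := one_le_mulConst b
  nlinarith

/-- elements of `V r` have norm one. -/
lemma norm_eq_one_of_mem_V (hb : ∀ i, ‖b i‖ ≤ 1) {r : ℝ} {hr : 0 ≤ r}
    {hCr : mulConst b * r < 1} {u : Lˣ} (hu : u ∈ V b r hr hCr) : ‖(u : L)‖ = 1 := by
  have h1 : ‖(u : L) - 1‖ < 1 :=
    lt_of_le_of_lt ((norm_le_cn b hb _).trans hu) (lt_one_of_mulConst_mul_lt b hr hCr)
  have h2 : (u : L) = ((u : L) - 1) + 1 := by ring
  rw [h2]
  have := IsUltrametricDist.norm_add_eq_max_of_norm_ne_norm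
    (x := (u : L) - 1) (y := (1 : L)) (by rw [norm_one]; exact h1.ne)
  rw [this, norm_one]
  exact max_eq_right h1.le

/-- `V r` contains a norm-neighbourhood of `1`. -/
lemma exists_ball_subset_V {r : ℝ} (hr : 0 < r) (hCr : mulConst b * r < 1) :
    ∃ ε : ℝ, 0 < ε ∧ ∀ u : Lˣ, ‖(u : L) - 1‖ < ε → u ∈ V b r hr.le hCr := by
  obtain ⟨C, hC, hCn⟩ := exists_cn_le_mul_norm b
  refine ⟨r / C, div_pos hr hC, fun u hu => ?_⟩
  rw [mem_V_iff]
  calc cn b ((u : L) - 1) ≤ C * ‖(u : L) - 1‖ := hCn _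
    _ ≤ C * (r / C) := mul_le_mul_of_nonneg_left hu.le hC.le
    _ = r := by field_simp

/-! ### Successive approximation -/

/-- **Successive approximation.**  Let `Φ` be an endomorphism of `Lˣ` which is continuous (in the
sense that it is given by a function `Φc : L → L` continuous away from `0`), with image in a
subgroup `Z`.  If every `v ∈ Z ∩ V r` (`r ≤ r₀`) can be written as `v = Φ w * v'` with `w ∈ V r`
and `v' ∈ V (r/2)`, then every `v ∈ Z ∩ V r₀` is of the form `Φ w` with `w ∈ V r₀`. -/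
theorem exists_of_step (hb : ∀ i, ‖b i‖ ≤ 1) (Φ : Lˣ →* Lˣ) (Φc : L → L)
    (hΦc : ∀ u : Lˣ, ((Φ u : Lˣ) : L) = Φc u)
    (hcont : ∀ x : L, x ≠ 0 → ContinuousAt Φc x)
    (Z : Subgroup Lˣ) (hZ : ∀ u, Φ u ∈ Z)
    {r₀ : ℝ} (hr₀ : 0 < r₀) (hC : mulConst b * r₀ < 1)
    (hstep : ∀ r, 0 < r → r ≤ r₀ → ∀ v ∈ Z, cn b ((v : L) - 1) ≤ r →
        ∃ w : Lˣ, cn b ((w : L) - 1) ≤ r ∧ cn b (((v / Φ w : Lˣ) : L) - 1) ≤ r / 2)
    (v : Lˣ) (hvZ : v ∈ Z) (hv : cn b ((v : L) - 1) ≤ r₀) :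
    ∃ w : Lˣ, cn b ((w : L) - 1) ≤ r₀ ∧ Φ w = v := by
  have : CompleteSpace L := FiniteDimensional.complete K L
  -- radii
  have hrad : ∀ j : ℕ, 0 < r₀ / 2 ^ j := fun j => by positivity
  have hradle : ∀ j : ℕ, r₀ / 2 ^ j ≤ r₀ := fun j =>
    div_le_self hr₀.le (one_le_pow₀ (by norm_num))
  have hCrad : ∀ j : ℕ, mulConst b * (r₀ / 2 ^ j) < 1 := fun j =>
    lt_of_le_of_lt (mul_le_mul_of_nonneg_left (hradle j) (mulConst_pos b).le) hC
  -- the invariant
  let Inv : ℕ × Lˣ × Lˣ → Prop := fun s =>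
    s.2.1 ∈ Z ∧ cn b ((s.2.1 : L) - 1) ≤ r₀ / 2 ^ s.1 ∧ cn b ((s.2.2 : L) - 1) ≤ r₀ ∧
      v = s.2.1 * Φ s.2.2
  have hnext : ∀ s : {s // Inv s}, ∃ s' : {s // Inv s}, s'.1.1 = s.1.1 + 1 ∧
      ‖(s'.1.2.2 : L) - (s.1.2.2 : L)‖ ≤ r₀ / 2 ^ s.1.1 := by
    rintro ⟨⟨j, vj, Wj⟩, h1, h2, h3, h4⟩
    obtain ⟨w, hw1, hw2⟩ := hstep (r₀ / 2 ^ j) (hrad j) (hradle j) vj h1 h2
    have hwV : w ∈ V b r₀ hr₀.le hC := (mem_V_iff b).2 (hw1.trans (hradle j))
    have hWV : Wj ∈ V b r₀ hr₀.le hC := (mem_V_iff b).2 h3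
    refine ⟨⟨(j + 1, vj / Φ w, Wj * w), ?_, ?_, ?_, ?_⟩, rfl, ?_⟩
    · exact Z.div_mem h1 (hZ w)
    · show cn b (((vj / Φ w : Lˣ) : L) - 1) ≤ r₀ / 2 ^ (j + 1)
      rw [pow_succ, ← div_div]
      exact hw2
    · exact (mem_V_iff b).1 ((V b r₀ hr₀.le hC).mul_mem hWV hwV)
    · show v = vj / Φ w * Φ (Wj * w)
      rw [map_mul, h4]
      show vj * Φ Wj = vj / Φ w * (Φ Wj * Φ w)
      rw [div_mul_eq_mul_div, ← mul_assoc, mul_div_cancel_right]
    · show ‖((Wj * w : Lˣ) : L) - (Wj : L)‖ ≤ r₀ / 2 ^ j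
      have hid : ((Wj * w : Lˣ) : L) - (Wj : L) = (Wj : L) * ((w : L) - 1) := by
        push_cast; ring
      rw [hid, norm_mul, norm_eq_one_of_mem_V b hb hWV, one_mul]
      exact (norm_le_cn b hb _).trans hw1
  choose next hnext1 hnext2 using hnext
  have h0 : Inv (0, v, 1) := by
    refine ⟨hvZ, ?_, ?_, ?_⟩
    · simpa using hv
    · simp [hr₀.le]
    · simp
  let seq : ℕ → {s // Inv s} := fun n => next^[n] ⟨(0, v, 1), h0⟩
  have hseq_succ : ∀ n, seq (n + 1) = next (seq n) := fun n =>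
    Function.iterate_succ_apply' next n _
  have hidx : ∀ n, (seq n).1.1 = n := by
    intro n
    induction n with
    | zero => rfl
    | succ n ih => rw [hseq_succ, hnext1, ih]
  let W : ℕ → L := fun n => ((seq n).1.2.2 : L)
  have hdist : ∀ n, dist (W n) (W (n + 1)) ≤ r₀ * (1 / 2) ^ n := by
    intro n
    rw [dist_comm, dist_eq_norm]
    have := hnext2 (seq n)
    rw [hidx n] at this
    show ‖((seq (n + 1)).1.2.2 : L) - ((seq n).1.2.2 : L)‖ ≤ _
    rw [hseq_succ]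
    calc _ ≤ r₀ / 2 ^ n := this
      _ = r₀ * (1 / 2) ^ n := by rw [one_div, inv_pow, div_eq_mul_inv]
  have hcau : CauchySeq W := cauchySeq_of_le_geometric (1 / 2) r₀ (by norm_num) hdist
  obtain ⟨w₀, hw₀⟩ := cauchySeq_tendsto_of_complete hcau
  -- the limit lies in the closed set `{x | cn (x - 1) ≤ r₀}`
  have hclosed : IsClosed {x : L | cn b (x - 1) ≤ r₀} :=
    (isClosed_cn_le b r₀).preimage (continuous_id.sub continuous_const)
  have hw₀mem : cn b (w₀ - 1) ≤ r₀ :=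
    hclosed.mem_of_tendsto hw₀ (Filter.Eventually.of_forall fun n => (seq n).2.2.2.1)
  have hr₀1 : r₀ < 1 := lt_one_of_mulConst_mul_lt b hr₀.le hC
  have hw₀ne : w₀ ≠ 0 := by
    rintro rfl
    have h1 : ‖(0 : L) - 1‖ ≤ r₀ := (norm_le_cn b hb _).trans hw₀mem
    rw [zero_sub, norm_neg, norm_one] at h1
    linarith
  -- the values `Φ (W n)` converge to `v`
  have hv1 : ‖(v : L)‖ = 1 :=
    norm_eq_one_of_mem_V b hb (r := r₀) (hr := hr₀.le) (hCr := hC) ((mem_V_iff b).2 hv)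
  have hΦW : ∀ n, ‖Φc (W n) - (v : L)‖ ≤ r₀ * (1 / 2) ^ n := by
    intro n
    obtain ⟨h1, h2, h3, h4⟩ := (seq n).2
    rw [hidx n] at h2
    set vn : Lˣ := (seq n).1.2.1 with hvn
    set Wn : Lˣ := (seq n).1.2.2 with hWn
    have hvnV : vn ∈ V b (r₀ / 2 ^ n) (hrad n).le (hCrad n) := (mem_V_iff b).2 h2
    have hinv := (mem_V_iff b).1 ((V b (r₀ / 2 ^ n) (hrad n).le (hCrad n)).inv_mem hvnV)
    have hΦ : Φ Wn = v * vn⁻¹ := by
      rw [h4]
      show Φ Wn = vn * Φ Wn * vn⁻¹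
      rw [mul_comm vn, mul_assoc, mul_inv_cancel, mul_one]
    have hval : Φc (W n) = (v : L) * ((vn⁻¹ : Lˣ) : L) := by
      show Φc ((Wn : Lˣ) : L) = _
      rw [← hΦc, hΦ]
      push_cast
      rfl
    rw [hval]
    have hid : (v : L) * ((vn⁻¹ : Lˣ) : L) - (v : L) = (v : L) * (((vn⁻¹ : Lˣ) : L) - 1) := by
      ring
    rw [hid, norm_mul, hv1, one_mul]
    calc ‖((vn⁻¹ : Lˣ) : L) - 1‖ ≤ cn b (((vn⁻¹ : Lˣ) : L) - 1) := norm_le_cn b hb _
      _ ≤ r₀ / 2 ^ n := hinv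
      _ = r₀ * (1 / 2) ^ n := by rw [one_div, inv_pow, div_eq_mul_inv]
  have hlim1 : Filter.Tendsto (fun n => Φc (W n)) Filter.atTop (nhds (v : L)) := by
    rw [tendsto_iff_norm_sub_tendsto_zero]
    refine squeeze_zero (fun n => norm_nonneg _) hΦW ?_
    have : Filter.Tendsto (fun n : ℕ => r₀ * (1 / 2 : ℝ) ^ n) Filter.atTop (nhds (r₀ * 0)) :=
      (tendsto_pow_atTop_nhds_zero_of_lt_one (by norm_num) (by norm_num)).const_mul r₀
    simpa using this
  have hlim2 : Filter.Tendsto (fun n => Φc (W n)) Filter.atTop (nhds (Φc w₀)) :=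
    (hcont w₀ hw₀ne).tendsto.comp hw₀
  have hfinal : Φc w₀ = (v : L) := tendsto_nhds_unique hlim2 hlim1
  refine ⟨Units.mk0 w₀ hw₀ne, by simpa using hw₀mem, ?_⟩
  apply Units.ext
  rw [hΦc]
  simpa using hfinal

end Generic

/-! ## The Galois situation -/

section Galois

variable {K L : Type*} [NontriviallyNormedField K] [IsUltrametricDist K] [CompleteSpace K]
  [NormedField L] [IsUltrametricDist L] [NormedAlgebra K L] [FiniteDimensional K L]

/-- Over a complete base, automorphisms are isometries. -/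
theorem norm_algEquiv (σ : L ≃ₐ[K] L) (x : L) : ‖σ x‖ = ‖x‖ := by
  rw [NormedAlgebra.norm_eq_spectralNorm K x, NormedAlgebra.norm_eq_spectralNorm K (σ x)]
  exact (spectralNorm_eq_of_equiv σ x).symm

lemma continuous_algEquiv (σ : L ≃ₐ[K] L) : Continuous (σ : L → L) :=
  LinearMap.continuous_of_finiteDimensional (σ.toLinearMap : L →ₗ[K] L)

/-- there is a normal basis consisting of elements of norm at most one. -/
theorem exists_integral_normal_basis [IsGalois K L] :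
    ∃ b : Basis (L ≃ₐ[K] L) K L, (∀ σ τ : L ≃ₐ[K] L, σ (b τ) = b (σ * τ)) ∧ ∀ τ, ‖b τ‖ ≤ 1 := by
  set nb := IsGalois.normalBasis K L with hnb
  set m : ℝ := ‖nb 1‖ with hm
  have hmpos : 0 < m + 1 := by positivity
  obtain ⟨c, hc0, hc1⟩ := NormedField.exists_norm_lt K (r := 1 / (m + 1)) (by positivity)
  have hcne : c ≠ 0 := norm_pos_iff.1 hc0
  refine ⟨nb.isUnitSMul (w := fun _ => c) (fun _ => hcne.isUnit), ?_, ?_⟩
  · intro σ τ
    rw [Basis.isUnitSMul_apply, Basis.isUnitSMul_apply, map_smul, hnb,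
      IsGalois.normalBasis_apply τ, IsGalois.normalBasis_apply (σ * τ)]
    rfl
  · intro τ
    rw [Basis.isUnitSMul_apply, norm_smul, hnb, IsGalois.normalBasis_apply τ, norm_algEquiv]
    have h1 : ‖c‖ * m ≤ 1 / (m + 1) * m :=
      mul_le_mul_of_nonneg_right hc1.le (norm_nonneg _)
    have h2 : 1 / (m + 1) * m ≤ 1 := by
      rw [one_div, inv_mul_le_iff₀ hmpos]
      linarith
    exact h1.trans h2

variable (b : Basis (L ≃ₐ[K] L) K L) (hbG : ∀ σ τ : L ≃ₐ[K] L, σ (b τ) = b (σ * τ))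

include hbG

lemma repr_algEquiv (σ τ : L ≃ₐ[K] L) (x : L) : b.repr (σ x) (σ * τ) = b.repr x τ := by
  have h : σ x = ∑ τ', b.repr x (σ⁻¹ * τ') • b τ' := by
    conv_lhs => rw [← b.sum_repr x]
    rw [map_sum]
    simp_rw [map_smul, hbG]
    exact Fintype.sum_equiv (Equiv.mulLeft σ) _ _ (fun τ' => by simp)
  rw [h, b.repr_sum_self]
  simp

lemma cn_algEquiv_le (σ : L ≃ₐ[K] L) (x : L) : cn b (σ x) ≤ cn b x := by
  rw [cn_le_iff b (cn_nonneg b x)]
  intro τ
  have := repr_algEquiv b hbG σ (σ⁻¹ * τ) x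
  rw [mul_inv_cancel_left] at this
  rw [this]
  exact norm_repr_le_cn b x _

lemma cn_algEquiv (σ : L ≃ₐ[K] L) (x : L) : cn b (σ x) = cn b x := by
  refine le_antisymm (cn_algEquiv_le b hbG σ x) ?_
  have := cn_algEquiv_le b hbG σ⁻¹ (σ x)
  simpa using this

/-- the subgroups `V r` are Galois stable. -/
lemma map_mem_V {r : ℝ} {hr : 0 ≤ r} {hCr : mulConst b * r < 1} (σ : L ≃ₐ[K] L) {u : Lˣ}
    (hu : u ∈ V b r hr hCr) : Units.map (σ : L →* L) u ∈ V b r hr hCr := by
  rw [mem_V_iff] at hu ⊢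
  have : ((Units.map (σ : L →* L) u : Lˣ) : L) - 1 = σ ((u : L) - 1) := by
    simp
  rw [this, cn_algEquiv b hbG]
  exact hu

omit hbG in
/-- the norm map on units. -/
def normU : Lˣ →* Lˣ := ∏ τ : L ≃ₐ[K] L, Units.map (τ : L →* L)

omit hbG in
lemma coe_normU (u : Lˣ) : ((normU (K := K) u : Lˣ) : L) = ∏ τ : L ≃ₐ[K] L, τ (u : L) := by
  unfold normU
  rw [MonoidHom.finsetProd_apply, Units.coe_prod]
  rfl

omit hbG in
lemma map_normU (σ : L ≃ₐ[K] L) (u : Lˣ) :
    Units.map (σ : L →* L) (normU (K := K) u) = normU (K := K) u := by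
  apply Units.ext
  rw [Units.coe_map, coe_normU]
  simp only [MonoidHom.coe_coe, map_prod]
  exact Fintype.prod_equiv (Equiv.mulLeft σ) _ _ (fun τ => rfl)

omit hbG in
lemma normU_map (σ : L ≃ₐ[K] L) (u : Lˣ) :
    normU (K := K) (Units.map (σ : L →* L) u) = normU (K := K) u := by
  apply Units.ext
  rw [coe_normU, coe_normU]
  simp only [Units.coe_map, MonoidHom.coe_coe]
  exact Fintype.prod_equiv (Equiv.mulRight σ) _ _ (fun τ => rfl)

lemma normU_mem_V {r : ℝ} {hr : 0 ≤ r} {hCr : mulConst b * r < 1} {u : Lˣ}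
    (hu : u ∈ V b r hr hCr) : normU (K := K) u ∈ V b r hr hCr := by
  unfold normU
  rw [MonoidHom.finsetProd_apply]
  exact Subgroup.prod_mem _ (fun τ _ => map_mem_V b hbG τ hu)

omit hbG in
/-- the subgroup of Galois-fixed units. -/
def fixedU : Subgroup Lˣ where
  carrier := {u | ∀ τ : L ≃ₐ[K] L, Units.map (τ : L →* L) u = u}
  one_mem' := by simp
  mul_mem' := by
    intro u v hu hv τ
    rw [map_mul, hu τ, hv τ]
  inv_mem' := by
    intro u hu τ
    rw [map_inv, hu τ]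

/-- dividing by an element of `V r` does not change the estimate. -/
lemma cn_div_sub_one_le {r s : ℝ} {hr : 0 ≤ r} {hCr : mulConst b * r < 1} {v u : Lˣ}
    (hu : u ∈ V b r hr hCr) (h : cn b ((v : L) - (u : L)) ≤ s) :
    cn b (((v / u : Lˣ) : L) - 1) ≤ s := by
  have hinv := (mem_V_iff b).1 ((V b r hr hCr).inv_mem hu)
  have hid : ((v / u : Lˣ) : L) - 1 = ((v : L) - (u : L)) * (1 + (((u⁻¹ : Lˣ) : L) - 1)) := by
    have hune : (u : L) ≠ 0 := u.ne_zero
    rw [Units.val_div_eq_div_val, Units.val_inv_eq_inv_val]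
    field_simp
    ring
  rw [hid]
  exact cn_mul_one_add_le b hCr.le h hinv

omit hbG in
lemma one_add_ne_zero_of_cn_le (hb : ∀ i, ‖b i‖ ≤ 1) {x : L} {r : ℝ} (hr1 : r < 1)
    (hx : cn b x ≤ r) : 1 + x ≠ 0 := by
  intro h
  have hx1 : x = -1 := by linear_combination h
  have : ‖x‖ ≤ r := (norm_le_cn b hb x).trans hx
  rw [hx1, norm_neg, norm_one] at this
  linarith

/-- **Step for `Ĥ⁰`.** -/
lemma step_zero (hb : ∀ i, ‖b i‖ ≤ 1) {r : ℝ} (hr : 0 < r) (hCr : 2 * (mulConst b * r) ≤ 1)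
    (v : Lˣ) (hv : v ∈ fixedU (K := K) (L := L)) (hvr : cn b ((v : L) - 1) ≤ r) :
    ∃ w : Lˣ, cn b ((w : L) - 1) ≤ r ∧ cn b (((v / normU (K := K) w : Lˣ) : L) - 1) ≤ r / 2 := by
  classical
  have hCr1 : mulConst b * r < 1 := by linarith
  have hCr' : mulConst b * r ≤ 1 := hCr1.le
  have hr1 : r < 1 := lt_one_of_mulConst_mul_lt b hr.le hCr1
  set a : L := (v : L) - 1 with ha
  have hfix : ∀ τ : L ≃ₐ[K] L, τ a = a := by
    intro τ
    have := congrArg (fun u : Lˣ => (u : L)) (hv τ)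
    simp only [Units.coe_map, MonoidHom.coe_coe] at this
    rw [ha, map_sub, map_one, this]
  set s : K := b.repr a 1 with hs
  have hcoord : ∀ τ : L ≃ₐ[K] L, b.repr a τ = s := by
    intro τ
    have := repr_algEquiv b hbG τ 1 a
    rw [hfix τ, mul_one] at this
    exact this
  have hsum : ∑ τ : L ≃ₐ[K] L, s • b τ = a := by
    conv_rhs => rw [← b.sum_repr a]
    exact Finset.sum_congr rfl (fun τ _ => by rw [hcoord τ])
  have hsr : ‖s‖ ≤ r := (norm_repr_le_cn b a 1).trans hvr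
  have hsb : ∀ τ : L ≃ₐ[K] L, cn b (s • b τ) ≤ r := fun τ => (cn_smul_basis_le b s τ).trans hsr
  have hw0 : (1 : L) + s • b 1 ≠ 0 := one_add_ne_zero_of_cn_le b hb hr1 (hsb 1)
  set w : Lˣ := Units.mk0 _ hw0 with hw
  have hwV : w ∈ V b r hr.le hCr1 := by
    rw [mem_V_iff]
    simpa [hw] using hsb 1
  refine ⟨w, (mem_V_iff b).1 hwV, ?_⟩
  have hNw : ((normU (K := K) w : Lˣ) : L) = ∏ τ : L ≃ₐ[K] L, (1 + s • b τ) := by
    rw [coe_normU]
    refine Finset.prod_congr rfl (fun τ _ => ?_)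
    simp only [hw, Units.val_mk0, map_add, map_one, map_smul, hbG, mul_one]
  have hexp := cn_prod_one_add_sub_le b (Finset.univ : Finset (L ≃ₐ[K] L))
    (fun τ => s • b τ) hCr' (fun τ _ => hsb τ)
  rw [hsum, ← hNw] at hexp
  have h2 : mulConst b * r * r ≤ r / 2 := by
    have : mulConst b * r * r ≤ (1 / 2) * r := mul_le_mul_of_nonneg_right (by linarith) hr.le
    linarith
  refine (cn_div_sub_one_le b hbG (normU_mem_V b hbG hwV) ?_)
  have hid : (v : L) - ((normU (K := K) w : Lˣ) : L) =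
      -(((normU (K := K) w : Lˣ) : L) - 1 - a) := by rw [ha]; ring
  rw [hid, cn_neg]
  exact hexp.trans h2

/-- **`Ĥ⁰(G, V r₀) = 0`**: every Galois-fixed element of `V r₀` is the norm of an element of
`V r₀`. -/
theorem exists_normU_eq (hb : ∀ i, ‖b i‖ ≤ 1) {r₀ : ℝ} (hr₀ : 0 < r₀)
    (hC : 2 * (mulConst b * r₀) ≤ 1) (v : Lˣ) (hv : v ∈ fixedU (K := K) (L := L))
    (hvr : cn b ((v : L) - 1) ≤ r₀) :
    ∃ w : Lˣ, cn b ((w : L) - 1) ≤ r₀ ∧ normU (K := K) w = v := by
  have hC1 : mulConst b * r₀ < 1 := by linarith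
  refine exists_of_step b hb (normU (K := K)) (fun x => ∏ τ : L ≃ₐ[K] L, τ x)
    (fun u => coe_normU u) (fun x _ => ?_) (fixedU (K := K) (L := L))
    (fun u τ => map_normU τ u) hr₀ hC1 (fun r hr hrr₀ v hv hvr => ?_) v hv hvr
  · exact (continuous_finsetProd _ (fun τ _ => continuous_algEquiv τ)).continuousAt
  · refine step_zero b hbG hb hr ?_ v hv hvr
    have : mulConst b * r ≤ mulConst b * r₀ :=
      mul_le_mul_of_nonneg_left hrr₀ (mulConst_pos b).le
    linarith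

omit hbG in
/-- Abel summation identity used in the cyclic step. -/
lemma sum_partial_smul_sub {M : Type*} [AddCommGroup M] [Module K M] (c : ℕ → K) (x : ℕ → M)
    (n : ℕ) :
    ∑ j ∈ Finset.range n, (∑ i ∈ Finset.range (j + 1), c i) • (x j - x (j + 1)) =
      ∑ j ∈ Finset.range n, c j • x j - (∑ i ∈ Finset.range n, c i) • x n := by
  induction n with
  | zero => simp
  | succ n ih =>
    rw [Finset.sum_range_succ, ih, Finset.sum_range_succ (fun j => c j • x j),
      Finset.sum_range_succ c n]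
    module

omit hbG in
/-- sums over a cyclic group as sums over powers of a generator. -/
lemma sum_eq_sum_range_pow {M : Type*} [AddCommMonoid M] (σ : L ≃ₐ[K] L)
    (hσ : ∀ τ : L ≃ₐ[K] L, τ ∈ Subgroup.zpowers σ) (f : (L ≃ₐ[K] L) → M) :
    ∑ τ, f τ = ∑ j ∈ Finset.range (orderOf σ), f (σ ^ j) := by
  classical
  rw [← IsCyclic.image_range_orderOf hσ, Finset.sum_image]
  intro i hi j hj hij
  exact pow_injOn_Iio_orderOf (by simpa using hi) (by simpa using hj) hij

/-- the "trace" of an element in terms of its coordinates. -/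
lemma sum_algEquiv_eq (a : L) :
    ∑ τ : L ≃ₐ[K] L, τ a = (∑ ρ : L ≃ₐ[K] L, b.repr a ρ) • ∑ τ : L ≃ₐ[K] L, b τ := by
  have h1 : ∀ τ : L ≃ₐ[K] L, τ a = ∑ ρ : L ≃ₐ[K] L, b.repr a ρ • b (τ * ρ) := by
    intro τ
    conv_lhs => rw [← b.sum_repr a]
    rw [map_sum]
    simp_rw [map_smul, hbG]
  simp_rw [h1]
  rw [Finset.sum_comm, Finset.sum_smul]
  refine Finset.sum_congr rfl (fun ρ _ => ?_)
  rw [← Finset.smul_sum]
  congr 1
  exact Fintype.sum_equiv (Equiv.mulRight ρ) _ _ (fun τ => rfl)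

omit hbG in
lemma repr_sum_basis_one : b.repr (∑ τ : L ≃ₐ[K] L, b τ) 1 = 1 := by
  have h : ∑ τ : L ≃ₐ[K] L, b τ = ∑ τ : L ≃ₐ[K] L, (fun _ => (1 : K)) τ • b τ := by simp
  rw [h, b.repr_sum_self]

/-- **Step for `Ĥ⁻¹`** (cyclic case). -/
lemma step_one (hb : ∀ i, ‖b i‖ ≤ 1) (σ : L ≃ₐ[K] L)
    (hσ : ∀ τ : L ≃ₐ[K] L, τ ∈ Subgroup.zpowers σ) {r : ℝ} (hr : 0 < r)
    (hCr : 2 * (mulConst b * r) ≤ 1) (v : Lˣ) (hv : normU (K := K) v = 1)
    (hvr : cn b ((v : L) - 1) ≤ r) :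
    ∃ w : Lˣ, cn b ((w : L) - 1) ≤ r ∧
      cn b (((v / (Units.map (σ : L →* L) w / w) : Lˣ) : L) - 1) ≤ r / 2 := by
  classical
  have hCr1 : mulConst b * r < 1 := by linarith
  have hCr' : mulConst b * r ≤ 1 := hCr1.le
  have hr1 : r < 1 := lt_one_of_mulConst_mul_lt b hr.le hCr1
  have h2 : mulConst b * r * r ≤ r / 2 := by
    have : mulConst b * r * r ≤ (1 / 2) * r := mul_le_mul_of_nonneg_right (by linarith) hr.le
    linarith
  have hCrr0 : 0 ≤ mulConst b * r * r :=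
    mul_nonneg (mul_nonneg (mulConst_pos b).le hr.le) hr.le
  set a : L := (v : L) - 1 with ha
  set n : ℕ := orderOf σ with hn
  set c : ℕ → K := fun j => b.repr a (σ ^ j) with hc
  set E : ℕ → K := fun j => ∑ i ∈ Finset.range j, c i with hE
  set s : K := E n with hs
  have hcr : ∀ j, ‖c j‖ ≤ r := fun j => (norm_repr_le_cn b a _).trans hvr
  have hEr : ∀ j, ‖E j‖ ≤ r := fun j =>
    IsUltrametricDist.norm_sum_le_of_forall_le_of_nonneg hr.le (fun i _ => hcr i)
  have hpow : σ ^ n = 1 := pow_orderOf_eq_one σ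
  -- expansion of `a` along the powers of `σ`
  have ha_exp : ∑ j ∈ Finset.range n, c j • b (σ ^ j) = a := by
    rw [← sum_eq_sum_range_pow σ hσ (fun τ => b.repr a τ • b τ)]
    exact b.sum_repr a
  have hs_eq : s = ∑ ρ : L ≃ₐ[K] L, b.repr a ρ := by
    rw [sum_eq_sum_range_pow σ hσ (fun τ => b.repr a τ)]
  -- the trace of `a` is small
  have hprod : ∏ τ : L ≃ₐ[K] L, (1 + τ a) = 1 := by
    have := congrArg (fun u : Lˣ => (u : L)) hv
    simp only [coe_normU, Units.val_one] at this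
    have h1 : ∀ τ : L ≃ₐ[K] L, 1 + τ a = τ (v : L) := by
      intro τ
      rw [ha, map_sub, map_one]
      ring
    simp_rw [h1]
    exact this
  have hexp := cn_prod_one_add_sub_le b (Finset.univ : Finset (L ≃ₐ[K] L))
    (fun τ => τ a) hCr' (fun τ _ => by rw [cn_algEquiv b hbG]; exact hvr)
  rw [hprod, sub_self, zero_sub, cn_neg, sum_algEquiv_eq b hbG a, ← hs_eq] at hexp
  have hs_small : ‖s‖ ≤ mulConst b * r * r := by
    have h1 := norm_repr_le_cn b (s • ∑ τ : L ≃ₐ[K] L, b τ) 1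
    rw [map_smul, Finsupp.smul_apply, repr_sum_basis_one, smul_eq_mul, mul_one] at h1
    exact h1.trans hexp
  -- the element `bb`
  set bb : L := -∑ j ∈ Finset.range n, E (j + 1) • b (σ ^ j) with hbb
  have hbbr : cn b bb ≤ r := by
    rw [hbb, cn_neg]
    exact cn_sum_le b _ _ hr.le (fun j _ => (cn_smul_basis_le b _ _).trans (hEr _))
  have hσbb : σ bb - bb = a - s • b 1 := by
    have h1 : σ bb = -∑ j ∈ Finset.range n, E (j + 1) • b (σ ^ (j + 1)) := by
      rw [hbb, map_neg, map_sum]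
      congr 1
      refine Finset.sum_congr rfl (fun j _ => ?_)
      rw [map_smul, hbG, ← pow_succ']
    have h3 := sum_partial_smul_sub (K := K) c (fun j => b (σ ^ j)) n
    simp only [hpow] at h3
    rw [ha_exp] at h3
    rw [h1, hbb, ← h3]
    simp only [smul_sub, Finset.sum_sub_distrib]
    abel
  have hw0 : (1 : L) + bb ≠ 0 := one_add_ne_zero_of_cn_le b hb hr1 hbbr
  set w : Lˣ := Units.mk0 _ hw0 with hw
  have hwV : w ∈ V b r hr.le hCr1 := by
    rw [mem_V_iff]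
    simpa [hw] using hbbr
  refine ⟨w, (mem_V_iff b).1 hwV, ?_⟩
  have hrew : v / (Units.map (σ : L →* L) w / w) = (v * w) / Units.map (σ : L →* L) w := by
    rw [div_div_eq_mul_div]
  rw [hrew]
  refine cn_div_sub_one_le b hbG (map_mem_V b hbG σ hwV) ?_
  have hid : ((v * w : Lˣ) : L) - ((Units.map (σ : L →* L) w : Lˣ) : L) = s • b 1 + a * bb := by
    have hv' : (v : L) = 1 + a := by rw [ha]; ring
    simp only [Units.val_mul, Units.coe_map, MonoidHom.coe_coe, hw, Units.val_mk0, map_add,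
      map_one, hv']
    linear_combination (-1 : L) * hσbb
  rw [hid]
  refine cn_add_le b ?_ ?_
  · exact ((cn_smul_basis_le b s 1).trans hs_small).trans h2
  · exact (cn_mul_le_of_le b hvr hbbr).trans h2

/-- **`Ĥ⁻¹(G, V r₀) = 0`** for cyclic `G = ⟨σ⟩`: every element of `V r₀` of norm one is of the
form `σ w / w` with `w ∈ V r₀`. -/
theorem exists_div_eq_of_normU_eq_one (hb : ∀ i, ‖b i‖ ≤ 1) (σ : L ≃ₐ[K] L)
    (hσ : ∀ τ : L ≃ₐ[K] L, τ ∈ Subgroup.zpowers σ) {r₀ : ℝ} (hr₀ : 0 < r₀)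
    (hC : 2 * (mulConst b * r₀) ≤ 1) (v : Lˣ) (hv : normU (K := K) v = 1)
    (hvr : cn b ((v : L) - 1) ≤ r₀) :
    ∃ w : Lˣ, cn b ((w : L) - 1) ≤ r₀ ∧ Units.map (σ : L →* L) w / w = v := by
  have hC1 : mulConst b * r₀ < 1 := by linarith
  refine exists_of_step b hb (Units.map (σ : L →* L) / MonoidHom.id Lˣ) (fun x => σ x / x)
    (fun u => ?_) (fun x hx => ?_) (normU (K := K)).ker (fun u => ?_) hr₀ hC1
    (fun r hr hrr₀ v hv hvr => ?_) v (MonoidHom.mem_ker.2 hv) hvr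
  · simp [MonoidHom.div_apply, Units.val_div_eq_div_val]
  · exact ((continuous_algEquiv σ).continuousAt).div continuousAt_id hx
  · rw [MonoidHom.mem_ker, MonoidHom.div_apply, map_div, MonoidHom.id_apply, normU_map,
      div_self']
  · have h := step_one b hbG hb σ hσ hr (by
      have : mulConst b * r ≤ mulConst b * r₀ :=
        mul_le_mul_of_nonneg_left hrr₀ (mulConst_pos b).le
      linarith) v (MonoidHom.mem_ker.1 hv) hvr
    simpa [MonoidHom.div_apply] using h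

end Galois

/-! ## Packaged statement -/

section Main

variable (K L : Type*) [NontriviallyNormedField K] [IsUltrametricDist K] [CompleteSpace K]
  [NormedField L] [IsUltrametricDist L] [NormedAlgebra K L] [FiniteDimensional K L]
  [IsGalois K L]

lemma normU_apply (u : Lˣ) :
    normU (K := K) u = ∏ τ : L ≃ₐ[K] L, Units.map (τ : L →* L) u := by
  unfold normU
  rw [MonoidHom.finsetProd_apply]

/-- **Normal basis lattice.**  For a finite Galois extension `L/K` of normed fields over a complete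
nonarchimedean base, there is a Galois-stable open subgroup `V` of the group of norm-one units of
`L` such that every Galois-fixed element of `V` is the norm of an element of `V` (`Ĥ⁰(G,V) = 0`)
and, whenever `σ` generates the Galois group, every element of `V` of norm one has the form
`σ w / w` with `w ∈ V` (`Ĥ⁻¹(G,V) = 0`). -/
theorem exists_stable_open_subgroup :
    ∃ V : Subgroup Lˣ,
      (∀ τ : L ≃ₐ[K] L, ∀ v ∈ V, Units.map (τ : L →* L) v ∈ V) ∧
      (∀ v ∈ V, ‖(v : L)‖ = 1) ∧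
      (∃ ε : ℝ, 0 < ε ∧ ∀ u : Lˣ, ‖(u : L) - 1‖ < ε → u ∈ V) ∧
      (∀ v ∈ V, (∀ τ : L ≃ₐ[K] L, Units.map (τ : L →* L) v = v) →
        ∃ w ∈ V, ∏ τ : L ≃ₐ[K] L, Units.map (τ : L →* L) w = v) ∧
      (∀ σ : L ≃ₐ[K] L, (∀ τ : L ≃ₐ[K] L, τ ∈ Subgroup.zpowers σ) → ∀ v ∈ V,
        ∏ τ : L ≃ₐ[K] L, Units.map (τ : L →* L) v = 1 →
          ∃ w ∈ V, Units.map (σ : L →* L) w / w = v) := by
  obtain ⟨b, hbG, hb⟩ := exists_integral_normal_basis (K := K) (L := L)
  set r₀ : ℝ := 1 / (2 * mulConst b) with hr₀def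
  have hr₀ : 0 < r₀ := by
    have := mulConst_pos b
    positivity
  have hC : 2 * (mulConst b * r₀) ≤ 1 := by
    have := mulConst_pos b
    rw [hr₀def]
    field_simp
    exact le_refl _
  have hC1 : mulConst b * r₀ < 1 := by linarith
  refine ⟨V b r₀ hr₀.le hC1, fun τ v hv => map_mem_V b hbG τ hv,
    fun v hv => norm_eq_one_of_mem_V b hb hv, exists_ball_subset_V b hr₀ hC1, ?_, ?_⟩
  · intro v hv hfix
    obtain ⟨w, hw1, hw2⟩ := exists_normU_eq b hbG hb hr₀ hC v hfix ((mem_V_iff b).1 hv)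
    exact ⟨w, (mem_V_iff b).2 hw1, by rw [← normU_apply K L, hw2]⟩
  · intro σ hσ v hv hN
    rw [← normU_apply K L] at hN
    obtain ⟨w, hw1, hw2⟩ :=
      exists_div_eq_of_normU_eq_one b hbG hb σ hσ hr₀ hC v hN ((mem_V_iff b).1 hv)
    exact ⟨w, (mem_V_iff b).2 hw1, hw2⟩

end Main

end Fermat.Agent.CFT.H8
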