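/-
CFT project, layer B, package B-HERBRAND (helper8): the local norm index, Herbrand form.

For a cyclic Galois extension `L/K` of complete discretely valued nonarchimedean fields with
compact unit sphere: `[ker (σ - 1) : N Lˣ] = [L : K]` (`hIndex_divA_normA`), hence
`#H²(G, Lˣ) = [L : K]` (`card_H2_of_normed`), and the Skeleton2 statement `card_H2_of_isCyclic`
for finite extensions of `ℚ_[q]`.

Route: Herbrand quotient (helper6 `H6_Herbrand`), the normal-basis lattice `V`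
(`H8_NormalLattice`: both Tate groups of `V` vanish), compactness (finite index of `V` in the
norm-one units), the valuation sequence, and Hilbert 90 (Mathlib).
-/
import Mathlib
import Fermat.Agent.CFT.H6_Herbrand
import Fermat.Agent.CFT.H6_HerbrandRep
import Fermat.Agent.CFT.H8_NormalLattice
import Fermat.Agent.CFT.H25_LocBridge

set_option linter.unusedSectionVars false

namespace Fermat.Agent.CFT.H8

open Fermat.Agent.CFT.H6

section Abstract

lemma hIndex_zero_nsmul_int (n : ℕ) :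
    hIndex (0 : ℤ →+ ℤ) (nsmulAddMonoidHom n) = n := by
  unfold hIndex
  rw [AddMonoidHom.ker_zero, AddSubgroup.relIndex_top_right]
  have : (nsmulAddMonoidHom (α := ℤ) n).range = AddSubgroup.zmultiples (n : ℤ) := by
    ext x
    simp only [AddMonoidHom.mem_range, nsmulAddMonoidHom_apply, nsmul_eq_mul,
      AddSubgroup.mem_zmultiples_iff, smul_eq_mul]
    constructor
    · rintro ⟨y, rfl⟩; exact ⟨y, by ring⟩
    · rintro ⟨y, rfl⟩; exact ⟨y, by ring⟩
  rw [this, Int.index_zmultiples, Int.natAbs_natCast]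

lemma hIndex_nsmul_zero_int (n : ℕ) (hn : n ≠ 0) :
    hIndex (nsmulAddMonoidHom n) (0 : ℤ →+ ℤ) = 1 := by
  unfold hIndex
  rw [AddSubgroup.relIndex_eq_one]
  intro x hx
  simp only [AddMonoidHom.mem_ker, nsmulAddMonoidHom_apply, nsmul_eq_mul, mul_eq_zero,
    Nat.cast_eq_zero] at hx
  rcases hx with h | h
  · exact absurd h hn
  · rw [h]; exact zero_mem _

theorem herbrand_eq_of_valuation {A : Type} [AddCommGroup A] {f g : A →+ A}
    (hgf : g.comp f = 0) (hfg : f.comp g = 0) (v : A →+ ℤ) (hv : Function.Surjective v)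
    (n : ℕ) (hn : n ≠ 0) (hvf : ∀ x, v (f x) = 0) (hvg : ∀ x, v (g x) = n • v x)
    (V : AddSubgroup A) (hVv : ∀ x ∈ V, v x = 0) (hfV : V ≤ V.comap f) (hgV : V ≤ V.comap g)
    (h0 : ∀ x ∈ V, f x = 0 → ∃ w ∈ V, g w = x) (h1 : ∀ x ∈ V, g x = 0 → ∃ w ∈ V, f w = x)
    (S : Set A) (hS : S.Finite) (hcov : ∀ x, v x = 0 → ∃ s ∈ S, x - s ∈ V) :
    HerbrandDefined f g ∧ herbrand f g = n := by
  have hV1 : hIndex (subEnd f V hfV) (subEnd g V hgV) = 1 := by
    unfold hIndex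
    rw [AddSubgroup.relIndex_eq_one]
    intro x hx
    rw [AddMonoidHom.mem_ker] at hx
    have hx' : f (x : A) = 0 := by
      have := congrArg (Subtype.val) hx
      simpa using this
    obtain ⟨w, hw, hwx⟩ := h0 x x.2 hx'
    exact ⟨⟨w, hw⟩, Subtype.ext (by simpa using hwx)⟩
  have hV2 : hIndex (subEnd g V hgV) (subEnd f V hfV) = 1 := by
    unfold hIndex
    rw [AddSubgroup.relIndex_eq_one]
    intro x hx
    rw [AddMonoidHom.mem_ker] at hx
    have hx' : g (x : A) = 0 := by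
      have := congrArg (Subtype.val) hx
      simpa using this
    obtain ⟨w, hw, hwx⟩ := h1 x x.2 hx'
    exact ⟨⟨w, hw⟩, Subtype.ext (by simpa using hwx)⟩
  have hVd : HerbrandDefined (subEnd f V hfV) (subEnd g V hgV) := by
    refine ⟨?_, ?_⟩
    · rw [hV1]; exact one_ne_zero
    · rw [hV2]; exact one_ne_zero
  have hVh : herbrand (subEnd f V hfV) (subEnd g V hgV) = 1 := by
    unfold herbrand
    rw [hV1, hV2]; simp
  have hexV := herbrandExact_sub_quot hgf hfg V hfV hgV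
  -- the induced map on the quotient
  have hVker : V ≤ v.ker := fun x hx => by
    rw [AddMonoidHom.mem_ker]; exact hVv x hx
  let φ : A ⧸ V →+ ℤ := QuotientAddGroup.lift V v hVker
  have hφ : ∀ x : A, φ (QuotientAddGroup.mk x) = v x := fun x => rfl
  have hφf : φ.comp (quotEnd f V hfV) = (0 : ℤ →+ ℤ).comp φ := by
    ext x
    simp [φ, hvf]
  have hφg : φ.comp (quotEnd g V hgV) = (nsmulAddMonoidHom n : ℤ →+ ℤ).comp φ := by
    ext x
    simp [φ, hvg]
  have hφsurj : Function.Surjective φ := by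
    intro k
    obtain ⟨x, rfl⟩ := hv k
    exact ⟨QuotientAddGroup.mk x, rfl⟩
  have : φ.range.FiniteIndex := by
    rw [AddMonoidHom.range_eq_top.mpr hφsurj]
    infer_instance
  have : Finite φ.ker := by
    have hsub : (φ.ker : Set (A ⧸ V)) ⊆ (QuotientAddGroup.mk '' S) := by
      intro y hy
      induction y using QuotientAddGroup.induction_on with
      | H x =>
        have hx : v x = 0 := hy
        obtain ⟨s, hs, hxs⟩ := hcov x hx
        refine ⟨s, hs, ?_⟩
        rw [QuotientAddGroup.eq, neg_add_eq_sub]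
        exact hxs
    exact (hS.image _).subset hsub |>.to_subtype
  have hZ1 : (nsmulAddMonoidHom n : ℤ →+ ℤ).comp (0 : ℤ →+ ℤ) = 0 := by ext; simp
  have hZ2 : (0 : ℤ →+ ℤ).comp (nsmulAddMonoidHom n : ℤ →+ ℤ) = 0 := by ext; simp
  have hZd : HerbrandDefined (0 : ℤ →+ ℤ) (nsmulAddMonoidHom n) := by
    refine ⟨?_, ?_⟩
    · rw [hIndex_zero_nsmul_int]; exact hn
    · rw [hIndex_nsmul_zero_int n hn]; exact one_ne_zero
  have hZh : herbrand (0 : ℤ →+ ℤ) (nsmulAddMonoidHom n) = n := by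
    unfold herbrand
    rw [hIndex_zero_nsmul_int, hIndex_nsmul_zero_int n hn]; simp
  have hQd : HerbrandDefined (quotEnd f V hfV) (quotEnd g V hgV) :=
    (herbrandDefined_iff_of_finite_ker_coker hexV.gfC hexV.fgC hZ1 hZ2 φ hφf hφg).mpr hZd
  have hQh : herbrand (quotEnd f V hfV) (quotEnd g V hgV) = n := by
    rw [herbrand_eq_of_finite_ker_coker hexV.gfC hexV.fgC hZ1 hZ2 φ hφf hφg hQd, hZh]
  refine ⟨hexV.defined_mid hVd hQd, ?_⟩
  rw [hexV.herbrand_mul hVd hQd, hVh, hQh, one_mul]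

end Abstract

section Field

variable {K L : Type} [NontriviallyNormedField K] [IsUltrametricDist K] [CompleteSpace K]
  [NormedField L] [IsUltrametricDist L] [NormedAlgebra K L] [FiniteDimensional K L]

/-- `x ↦ σ x / x` on `Additive Lˣ`. -/
noncomputable def divA (σ : L ≃ₐ[K] L) : Additive Lˣ →+ Additive Lˣ :=
  MonoidHom.toAdditive (Units.map (σ : L →* L) / MonoidHom.id Lˣ)

/-- the norm on `Additive Lˣ`. -/
noncomputable def normA : Additive Lˣ →+ Additive Lˣ :=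
  MonoidHom.toAdditive (normU (K := K) (L := L))

lemma divA_apply (σ : L ≃ₐ[K] L) (x : Additive Lˣ) :
    divA σ x = Additive.ofMul (Units.map (σ : L →* L) x.toMul / x.toMul) := rfl

lemma normA_apply (x : Additive Lˣ) :
    normA (K := K) x = Additive.ofMul (normU (K := K) x.toMul) := rfl

lemma normA_comp_divA (σ : L ≃ₐ[K] L) : (normA (K := K)).comp (divA σ) = 0 := by
  refine AddMonoidHom.ext fun x => ?_
  rw [AddMonoidHom.comp_apply, divA_apply, normA_apply, toMul_ofMul, map_div, normU_map,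
    div_self']
  rfl

lemma divA_comp_normA (σ : L ≃ₐ[K] L) : (divA σ).comp (normA (K := K)) = 0 := by
  refine AddMonoidHom.ext fun x => ?_
  rw [AddMonoidHom.comp_apply, divA_apply, normA_apply, toMul_ofMul, map_normU, div_self']
  rfl

/-- discreteness of the value group, from an element of largest norm below one. -/
lemma exists_zpow_eq_norm {ϖ : L} (h1 : ‖ϖ‖ < 1) (hmax : ∀ x : L, ‖x‖ < 1 → ‖x‖ ≤ ‖ϖ‖)
    (h0 : 0 < ‖ϖ‖) {x : L} (hx : x ≠ 0) : ∃ k : ℤ, ‖x‖ = ‖ϖ‖ ^ k := by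
  have hy : 1 < ‖ϖ‖⁻¹ := (one_lt_inv₀ h0).2 h1
  obtain ⟨n, hn1, hn2⟩ := exists_mem_Ioc_zpow (norm_pos_iff.2 hx) hy
  refine ⟨-(n + 1), ?_⟩
  set z : L := x * ϖ ^ (n + 1) with hz
  have hznorm : ‖z‖ = ‖x‖ * ‖ϖ‖ ^ (n + 1) := by rw [hz, norm_mul, norm_zpow]
  have hrpos : 0 < ‖ϖ‖ ^ (n + 1) := zpow_pos h0 _
  have hle : ‖z‖ ≤ 1 := by
    rw [hznorm]
    rw [inv_zpow, ← zpow_neg] at hn2
    calc ‖x‖ * ‖ϖ‖ ^ (n + 1) ≤ ‖ϖ‖ ^ (-(n + 1)) * ‖ϖ‖ ^ (n + 1) :=
          mul_le_mul_of_nonneg_right hn2 hrpos.le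
      _ = 1 := by rw [← zpow_add₀ h0.ne']; simp
  have hgt : ‖ϖ‖ < ‖z‖ := by
    rw [hznorm]
    rw [inv_zpow, ← zpow_neg] at hn1
    calc ‖ϖ‖ = ‖ϖ‖ ^ (-n) * ‖ϖ‖ ^ (n + 1) := by
          rw [← zpow_add₀ h0.ne']; simp
      _ < ‖x‖ * ‖ϖ‖ ^ (n + 1) := mul_lt_mul_of_pos_right hn1 hrpos
  have hz1 : ‖z‖ = 1 := by
    rcases lt_or_eq_of_le hle with h | h
    · exact absurd (hmax z h) (not_le.2 hgt)
    · exact h
  rw [hznorm] at hz1
  rw [zpow_neg]
  exact eq_inv_of_mul_eq_one_left hz1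

section Val

variable {ϖ : L} (h0 : 0 < ‖ϖ‖) (h1 : ‖ϖ‖ < 1) (hmax : ∀ x : L, ‖x‖ < 1 → ‖x‖ ≤ ‖ϖ‖)

/-- the normalized valuation, as a function. -/
noncomputable def valFun (x : Additive Lˣ) : ℤ :=
  Classical.choose (exists_zpow_eq_norm h1 hmax h0 (x.toMul).ne_zero)

lemma valFun_spec (x : Additive Lˣ) : ‖(x.toMul : L)‖ = ‖ϖ‖ ^ valFun h0 h1 hmax x :=
  Classical.choose_spec (exists_zpow_eq_norm h1 hmax h0 (x.toMul).ne_zero)

include h0 h1 in
lemma zpow_norm_inj {a b : ℤ} (h : ‖ϖ‖ ^ a = ‖ϖ‖ ^ b) : a = b :=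
  zpow_right_injective₀ h0 h1.ne h

lemma valFun_eq_of (x : Additive Lˣ) (k : ℤ) (h : ‖(x.toMul : L)‖ = ‖ϖ‖ ^ k) :
    valFun h0 h1 hmax x = k :=
  zpow_norm_inj h0 h1 ((valFun_spec h0 h1 hmax x).symm.trans h)

/-- the normalized valuation `Additive Lˣ →+ ℤ`. -/
noncomputable def valA : Additive Lˣ →+ ℤ :=
  AddMonoidHom.mk' (valFun h0 h1 hmax) (by
    intro a b
    apply valFun_eq_of
    rw [toMul_add, Units.val_mul, norm_mul, valFun_spec h0 h1 hmax, valFun_spec h0 h1 hmax,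
      zpow_add₀ h0.ne'])

lemma valA_spec (x : Additive Lˣ) : ‖(x.toMul : L)‖ = ‖ϖ‖ ^ valA h0 h1 hmax x :=
  valFun_spec h0 h1 hmax x

lemma valA_eq_of (x : Additive Lˣ) (k : ℤ) (h : ‖(x.toMul : L)‖ = ‖ϖ‖ ^ k) :
    valA h0 h1 hmax x = k :=
  valFun_eq_of h0 h1 hmax x k h

lemma valA_eq_zero_iff (x : Additive Lˣ) : valA h0 h1 hmax x = 0 ↔ ‖(x.toMul : L)‖ = 1 := by
  constructor
  · intro h
    rw [valA_spec h0 h1 hmax x, h, zpow_zero]
  · intro h
    exact valA_eq_of h0 h1 hmax x 0 (by rw [h, zpow_zero])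

lemma valA_surjective : Function.Surjective (valA h0 h1 hmax) := by
  intro k
  refine ⟨Additive.ofMul ((Units.mk0 ϖ (norm_pos_iff.1 h0)) ^ k), ?_⟩
  apply valA_eq_of
  rw [toMul_ofMul, Units.val_zpow_eq_zpow_val, Units.val_mk0, norm_zpow]

lemma valA_divA (σ : L ≃ₐ[K] L) (x : Additive Lˣ) : valA h0 h1 hmax (divA σ x) = 0 := by
  rw [valA_eq_zero_iff, divA_apply, toMul_ofMul, Units.val_div_eq_div_val, norm_div,
    Units.coe_map, MonoidHom.coe_coe, norm_algEquiv, div_self]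
  exact (norm_pos_iff.2 x.toMul.ne_zero).ne'

lemma valA_normA [IsGalois K L] (x : Additive Lˣ) :
    valA h0 h1 hmax (normA (K := K) x) = Module.finrank K L • valA h0 h1 hmax x := by
  apply valA_eq_of
  rw [normA_apply, toMul_ofMul, coe_normU, norm_prod]
  simp only [norm_algEquiv]
  rw [Finset.prod_const, Finset.card_univ, ← Nat.card_eq_fintype_card,
    IsGalois.card_aut_eq_finrank, valA_spec h0 h1 hmax x, ← zpow_natCast, ← zpow_mul, nsmul_eq_mul,
    mul_comm]

end Val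

section Hilbert90

variable [IsGalois K L]

/-- Hilbert 90: the kernel of the norm is the image of `σ - 1`. -/
lemma hIndex_normA_divA (σ : L ≃ₐ[K] L) (hσ : ∀ τ : L ≃ₐ[K] L, τ ∈ Subgroup.zpowers σ) :
    hIndex (normA (K := K)) (divA σ) = 1 := by
  have : IsCyclic (L ≃ₐ[K] L) := ⟨⟨σ, hσ⟩⟩
  unfold hIndex
  rw [AddSubgroup.relIndex_eq_one]
  intro x hx
  rw [AddMonoidHom.mem_ker, normA_apply] at hx
  have hx1 : normU (K := K) x.toMul = 1 := hx
  have hx2 : algebraMap K L (Algebra.norm K (x.toMul : L)) = 1 := by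
    rw [Algebra.norm_eq_prod_automorphisms, ← coe_normU, hx1, Units.val_one]
  have hx3 : Algebra.norm K (x.toMul : L) = 1 :=
    (algebraMap K L).injective (by rw [hx2, map_one])
  obtain ⟨y, hy⟩ := groupCohomology.exists_div_of_norm_eq_one hσ hx3
  refine ⟨Additive.ofMul y⁻¹, ?_⟩
  rw [divA_apply, toMul_ofMul]
  apply congrArg Additive.ofMul
  apply Units.ext
  rw [map_inv, inv_div_inv, Units.val_div_eq_div_val, Units.coe_map, MonoidHom.coe_coe]
  exact hy

end Hilbert90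

section MainIndex

variable [IsGalois K L]

/-- an element fixed by a generator is fixed by everything. -/
lemma map_eq_of_generator (σ : L ≃ₐ[K] L) (hσ : ∀ τ : L ≃ₐ[K] L, τ ∈ Subgroup.zpowers σ)
    (u : Lˣ) (hu : Units.map (σ : L →* L) u = u) (τ : L ≃ₐ[K] L) :
    Units.map (τ : L →* L) u = u := by
  have h1 : σ ∈ MulAction.stabilizer (L ≃ₐ[K] L) u := by
    rw [MulAction.mem_stabilizer_iff, AlgEquiv.smul_units_def]
    exact hu
  have h2 := (Subgroup.zpowers_le.2 h1) (hσ τ)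
  rw [MulAction.mem_stabilizer_iff, AlgEquiv.smul_units_def] at h2
  exact h2

/-- finitely many cosets of an open subgroup cover the units of norm one. -/
lemma exists_finite_cover [ProperSpace L] (V : Subgroup Lˣ) {ε : ℝ} (hε : 0 < ε)
    (hV : ∀ u : Lˣ, ‖(u : L) - 1‖ < ε → u ∈ V) :
    ∃ S : Set (Additive Lˣ), S.Finite ∧ ∀ x : Additive Lˣ, ‖(x.toMul : L)‖ = 1 →
      ∃ s ∈ S, x - s ∈ Subgroup.toAddSubgroup V := by
  obtain ⟨t, hts, htfin, htcov⟩ :=
    (isCompact_sphere (0 : L) 1).finite_cover_balls hε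
  refine ⟨{y : Additive Lˣ | ((y.toMul : Lˣ) : L) ∈ t}, ?_, ?_⟩
  · refine htfin.preimage ?_
    intro a _ b _ hab
    exact Additive.toMul.injective (Units.ext hab)
  · intro x hx
    have hxs : ((x.toMul : Lˣ) : L) ∈ Metric.sphere (0 : L) 1 := by
      simpa using hx
    have := htcov hxs
    simp only [Set.mem_iUnion, Metric.mem_ball, exists_prop] at this
    obtain ⟨c, hct, hc⟩ := this
    have hc1 : ‖c‖ = 1 := by simpa using hts hct
    have hc0 : c ≠ 0 := norm_pos_iff.1 (by rw [hc1]; exact one_pos)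
    refine ⟨Additive.ofMul (Units.mk0 c hc0), ?_, ?_⟩
    · show ((Units.mk0 c hc0 : Lˣ) : L) ∈ t
      exact hct
    · show x.toMul / Units.mk0 c hc0 ∈ V
      apply hV
      rw [Units.val_div_eq_div_val, Units.val_mk0, div_sub_one hc0, norm_div, hc1, div_one,
        ← dist_eq_norm]
      exact hc

/-- **Local norm index, Herbrand form.**  For a cyclic extension `L/K` of complete discretely
valued fields with compact unit sphere, `[ker (σ - 1) : N Lˣ] = [L : K]`. -/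
theorem hIndex_divA_normA [ProperSpace L] (σ : L ≃ₐ[K] L)
    (hσ : ∀ τ : L ≃ₐ[K] L, τ ∈ Subgroup.zpowers σ)
    (hdisc : ∃ ϖ : L, ‖ϖ‖ < 1 ∧ ∀ x : L, ‖x‖ < 1 → ‖x‖ ≤ ‖ϖ‖) :
    hIndex (divA σ) (normA (K := K)) = Module.finrank K L := by
  obtain ⟨ϖ, h1, hmax⟩ := hdisc
  have h0 : 0 < ‖ϖ‖ := by
    obtain ⟨c, hc0, hc1⟩ := NormedField.exists_norm_lt_one K
    have hcL : ‖algebraMap K L c‖ = ‖c‖ := norm_algebraMap' L c
    exact lt_of_lt_of_le hc0 (hcL ▸ hmax _ (by rw [hcL]; exact hc1))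
  obtain ⟨V, hVstab, hVnorm, ⟨ε, hε, hVball⟩, hV0, hV1⟩ := exists_stable_open_subgroup K L
  obtain ⟨S, hS, hcov⟩ := exists_finite_cover V hε hVball
  have hn : Module.finrank K L ≠ 0 := Module.finrank_pos.ne'
  have key := herbrand_eq_of_valuation (normA_comp_divA (K := K) σ) (divA_comp_normA σ)
    (valA h0 h1 hmax) (valA_surjective h0 h1 hmax) (Module.finrank K L) hn
    (valA_divA h0 h1 hmax σ) (valA_normA h0 h1 hmax) (Subgroup.toAddSubgroup V)
    (fun x hx => (valA_eq_zero_iff h0 h1 hmax x).2 (hVnorm x.toMul hx))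
    (fun x hx => V.div_mem (hVstab σ _ hx) hx)
    (fun x hx => by
      show normU (K := K) x.toMul ∈ V
      rw [normU_apply]
      exact Subgroup.prod_mem _ (fun τ _ => hVstab τ _ hx))
    (fun x hx hfx => by
      have hfix : Units.map (σ : L →* L) x.toMul = x.toMul := by
        have : Units.map (σ : L →* L) x.toMul / x.toMul = 1 := hfx
        exact div_eq_one.1 this
      obtain ⟨w, hw, hwx⟩ := hV0 x.toMul hx (map_eq_of_generator σ hσ _ hfix)
      refine ⟨Additive.ofMul w, hw, ?_⟩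
      rw [normA_apply, toMul_ofMul, normU_apply, hwx]
      rfl)
    (fun x hx hgx => by
      have hN : ∏ τ : L ≃ₐ[K] L, Units.map (τ : L →* L) x.toMul = 1 := by
        rw [← normU_apply]
        exact hgx
      obtain ⟨w, hw, hwx⟩ := hV1 σ hσ x.toMul hx hN
      refine ⟨Additive.ofMul w, hw, ?_⟩
      rw [divA_apply, toMul_ofMul, hwx]
      rfl)
    S hS (fun x hx => hcov x ((valA_eq_zero_iff h0 h1 hmax x).1 hx))
  obtain ⟨-, hh⟩ := key
  unfold herbrand at hh
  rw [hIndex_normA_divA σ hσ, Nat.cast_one, div_one] at hh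
  exact_mod_cast hh

end MainIndex

section Cohomology

variable [IsGalois K L]

lemma sigmaSubOne_eq_divA (σ : L ≃ₐ[K] L) :
    (sigmaSubOne (Rep.ofAlgebraAutOnUnits K L).ρ σ : Additive Lˣ →+ Additive Lˣ) = divA σ := by
  refine AddMonoidHom.ext fun x => ?_
  rw [divA_apply]
  rfl

lemma normAdd_eq_normA :
    (normAdd (Rep.ofAlgebraAutOnUnits K L).ρ : Additive Lˣ →+ Additive Lˣ) = normA (K := K) := by
  refine AddMonoidHom.ext fun x => ?_
  rw [normA_apply, normU_apply]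
  show (Rep.ofAlgebraAutOnUnits K L).ρ.norm x = _
  rw [Representation.norm, LinearMap.sum_apply, ofMul_prod]
  exact Finset.sum_congr rfl (fun τ _ => rfl)

attribute [local instance] IsCyclic.commGroup in
/-- **`#H²` of a cyclic local extension, norm language.** -/
theorem card_H2_of_normed [ProperSpace L] [IsCyclic (L ≃ₐ[K] L)]
    (hdisc : ∃ ϖ : L, ‖ϖ‖ < 1 ∧ ∀ x : L, ‖x‖ < 1 → ‖x‖ ≤ ‖ϖ‖) :
    Nat.card (groupCohomology.H2 (Rep.ofAlgebraAutOnUnits K L)) = Module.finrank K L := by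
  obtain ⟨σ, hσ⟩ := IsCyclic.exists_generator (α := L ≃ₐ[K] L)
  rw [card_groupCohomology_even (Rep.ofAlgebraAutOnUnits K L) σ hσ 2 (by decide)]
  show hIndex (A := Additive Lˣ) (sigmaSubOne (Rep.ofAlgebraAutOnUnits K L).ρ σ)
    (normAdd (Rep.ofAlgebraAutOnUnits K L).ρ) = _
  rw [sigmaSubOne_eq_divA, normAdd_eq_normA, hIndex_divA_normA σ hσ hdisc]

end Cohomology

end Field

section Loc

set_option linter.style.haveILetI false in
/-- **B-HERBRAND (Skeleton2 `card_H2_of_isCyclic`).**  `#H²(G, Lˣ) = [L:K]` for a cyclic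
extension of finite extensions of `ℚ_[q]`. -/
theorem card_H2_of_isCyclic (q : ℕ) [Fact q.Prime]
    (K : Type) [Field K] [Algebra ℚ_[q] K] [FiniteDimensional ℚ_[q] K]
    (L : Type) [Field L] [Algebra ℚ_[q] L] [FiniteDimensional ℚ_[q] L]
    [Algebra K L] [IsScalarTower ℚ_[q] K L] [IsGalois K L] [IsCyclic (L ≃ₐ[K] L)] :
    Nat.card (groupCohomology.H2 (Rep.ofAlgebraAutOnUnits K L)) = Module.finrank K L := by
  letI := H25.nnf q K
  letI := H25.nnf q L
  haveI := H25.ultra q K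
  haveI := H25.ultra q L
  haveI := H25.complete q K
  letI := H25.nalgTower q K L
  haveI := H25.proper_loc q L
  haveI : FiniteDimensional K L := FiniteDimensional.right ℚ_[q] K L
  exact card_H2_of_normed (K := K) (L := L) (H25.isDiscrete_loc q L)

end Loc

end Fermat.Agent.CFT.H8
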