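/-
CFT project, layer B, package B-HERBRAND (helper8): the local norm index formula
`[Kˣ : N_{L/K} Lˣ] = [L : K]` for cyclic extensions of finite extensions of `ℚ_[q]`
(Skeleton2 `index_normSubgroup_of_isCyclic`), from `card_H2_of_isCyclic` and helper85's
identification `#H² = [Kˣ : N Lˣ]`.
-/
import Fermat.Agent.CFT.H8_LocalNormIndex
import Fermat.Agent.CFT.H85_H2NormIndex

set_option autoImplicit false

namespace Fermat.Agent.CFT.H8

open Fermat.Agent.CFT

/-- **Local norm index for cyclic extensions**: `[Kˣ : N Lˣ] = [L:K]`. -/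
theorem index_normSubgroup_of_isCyclic (q : ℕ) [Fact q.Prime]
    (K : Type) [Field K] [Algebra ℚ_[q] K] [FiniteDimensional ℚ_[q] K]
    (L : Type) [Field L] [Algebra ℚ_[q] L] [FiniteDimensional ℚ_[q] L]
    [Algebra K L] [IsScalarTower ℚ_[q] K L] [IsGalois K L] [IsCyclic (L ≃ₐ[K] L)] :
    (Loc.normSubgroup K L).index = Module.finrank K L := by
  have : FiniteDimensional K L := FiniteDimensional.right ℚ_[q] K L
  rw [← H85.card_H2_eq_index_normSubgroup K L, card_H2_of_isCyclic q K L]

/-- The same with the norm subgroup spelled out. -/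
theorem index_range_norm_of_isCyclic (q : ℕ) [Fact q.Prime]
    (K : Type) [Field K] [Algebra ℚ_[q] K] [FiniteDimensional ℚ_[q] K]
    (L : Type) [Field L] [Algebra ℚ_[q] L] [FiniteDimensional ℚ_[q] L]
    [Algebra K L] [IsScalarTower ℚ_[q] K L] [IsGalois K L] [IsCyclic (L ≃ₐ[K] L)] :
    ((Units.map (Algebra.norm K : L →* K)).range).index = Module.finrank K L :=
  index_normSubgroup_of_isCyclic q K L

/-- Prime-degree form (helper85's `PrimeDegreeNormIndex`). -/
theorem index_normSubgroup_of_prime_degree (q : ℕ) [Fact q.Prime]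
    (K : Type) [Field K] [Algebra ℚ_[q] K] [FiniteDimensional ℚ_[q] K]
    (L : Type) [Field L] [Algebra ℚ_[q] L] [FiniteDimensional ℚ_[q] L]
    [Algebra K L] [IsScalarTower ℚ_[q] K L] [IsGalois K L] (p : ℕ) (hp : p.Prime)
    (hdeg : Module.finrank K L = p) : (Loc.normSubgroup K L).index = p := by
  have : FiniteDimensional K L := FiniteDimensional.right ℚ_[q] K L
  have : Fact p.Prime := ⟨hp⟩
  have : IsCyclic (L ≃ₐ[K] L) :=
    isCyclic_of_prime_card (p := p) (by rw [IsGalois.card_aut_eq_finrank, hdeg])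
  rw [index_normSubgroup_of_isCyclic q K L, hdeg]

end Fermat.Agent.CFT.H8
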