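import Mathlib
import Fermat.Agent.CFT.H8_NormIndexLoc
import Fermat.Agent.CFT.H6_HerbrandEnd

set_option autoImplicit false
set_option linter.unusedSectionVars false

/-!
# CFT / C-FIRST (helper63), part 9: the local input (L) of the semilocal `Ĥ⁰`

For a finite extension `M` of `ℚ_[q]` with a `ℚ_[q]`-automorphism `s` of prime order `p`, the
invariants of `s` on `Mˣ` modulo the norms `∏_{i<p} s^i y` have order `p`
(`hIndex_units_of_prime_order`), from the local norm index theorem of layer B
(`H8.index_normSubgroup_of_prime_degree`) for `M` over the fixed field of `s`.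
-/

namespace Fermat.Agent.CFT.H63

open Module Fermat.Agent.Kummer.H63 Fermat.Agent.CFT.H6

section Field

variable {k M : Type*} [Field k] [Field M] [Algebra k M] [FiniteDimensional k M]
  (s : M ≃ₐ[k] M) {p : ℕ}

/-- The fixed field of the cyclic group generated by `s`. -/
abbrev fixS : IntermediateField k M := IntermediateField.fixedField (Subgroup.zpowers s)

theorem mem_fixS_iff (x : M) : x ∈ fixS s ↔ s x = x := by
  rw [IntermediateField.mem_fixedField_iff]
  constructor
  · intro h
    exact h s (Subgroup.mem_zpowers s)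
  · intro h f hf
    obtain ⟨n, rfl⟩ := Subgroup.mem_zpowers_iff.mp hf
    have hmem : s ∈ MulAction.stabilizer (M ≃ₐ[k] M) x := h
    exact (MulAction.stabilizer (M ≃ₐ[k] M) x).zpow_mem hmem n

instance isGalois_fixS : IsGalois (fixS s) M :=
  IsGalois.of_fixed_field M (Subgroup.zpowers s)

theorem finrank_fixS (hp : p.Prime) (hs1 : s ≠ 1) (hsp : s ^ p = 1) :
    finrank (fixS s) M = p := by
  have : Fact p.Prime := ⟨hp⟩
  rw [IntermediateField.finrank_fixedField_eq_card, Nat.card_zpowers, orderOf_eq_prime hsp hs1]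

/-- The norm to the fixed field of `s` is `∏_{i<p} s^i`. -/
theorem algebraMap_norm_fixS (hp : p.Prime) (hs1 : s ≠ 1) (hsp : s ^ p = 1) (y : M) :
    algebraMap (fixS s) M (Algebra.norm (fixS s) y) = ∏ i ∈ Finset.range p, (s ^ i) y := by
  classical
  have : Fact p.Prime := ⟨hp⟩
  have hord : orderOf s = p := orderOf_eq_prime hsp hs1
  rw [Algebra.norm_eq_prod_automorphisms]
  let e := IntermediateField.subgroupEquivAlgEquiv (Subgroup.zpowers s)
  have hfo : IsOfFinOrder s := isOfFinOrder_iff_pow_eq_one.mpr ⟨p, hp.pos, hsp⟩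
  let e2 : Fin (orderOf s) ≃ Subgroup.zpowers s := finEquivZPowers hfo
  rw [← Finset.prod_equiv (s := Finset.univ) (t := Finset.univ) (e2.trans e.toEquiv)
    (f := fun i : Fin (orderOf s) => (s ^ (i : ℕ)) y) (g := fun σ => σ y) (by simp)]
  · rw [Fin.prod_univ_eq_prod_range (fun i => (s ^ i) y) (orderOf s), hord]
  · intro i _
    rfl

end Field

section Local

variable (q : ℕ) [Fact q.Prime] (M : Type) [Field M] [Algebra ℚ_[q] M]
  [FiniteDimensional ℚ_[q] M] (s : M ≃ₐ[ℚ_[q]] M) {p : ℕ}

/-- **Local input (L)**: `M/ℚ_q` finite, `s` an automorphism of prime order `p`, `τ` the induced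
endomorphism of `Additive Mˣ`. Then `[(Mˣ)^s : N Mˣ] = p`. -/
theorem hIndex_units_of_prime_order (hp : p.Prime) (hs1 : s ≠ 1) (hsp : s ^ p = 1)
    (τ : Module.End ℤ (Additive Mˣ))
    (hτ : ∀ x : Mˣ, ((Additive.toMul (τ (Additive.ofMul x)) : Mˣ) : M) = s x) :
    hIndex (endF τ) (endN p τ) = p := by
  have hτ' : ∀ (i : ℕ) (x : Mˣ),
      ((Additive.toMul ((τ ^ i) (Additive.ofMul x)) : Mˣ) : M) = (s ^ i) x := by
    intro i
    induction i with
    | zero => intro x; simp
    | succ i ih =>
      intro x
      rw [pow_succ', Module.End.mul_apply, pow_succ']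
      have := hτ (Additive.toMul ((τ ^ i) (Additive.ofMul x)))
      rw [ofMul_toMul] at this
      rw [this, ih]
      rfl
  have hdeg : finrank (fixS s) M = p := finrank_fixS s hp hs1 hsp
  have hidx := H8.index_normSubgroup_of_prime_degree q (fixS s) M p hp hdeg
  set φ : Additive (fixS s)ˣ →+ Additive Mˣ :=
    (Units.map (algebraMap (fixS s) M : (fixS s) →* M)).toAdditive with hφ
  have hφinj : Function.Injective φ := by
    intro a b hab
    have h1 : Units.map (algebraMap (fixS s) M : (fixS s) →* M) (Additive.toMul a) =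
        Units.map (algebraMap (fixS s) M : (fixS s) →* M) (Additive.toMul b) := hab
    have h2 := Units.map_injective (f := (algebraMap (fixS s) M : (fixS s) →* M))
      (algebraMap (fixS s) M).injective h1
    exact h2
  have hker : (⊤ : AddSubgroup (Additive (fixS s)ˣ)).map φ = (endF τ).ker := by
    ext a
    rw [AddSubgroup.mem_map, AddMonoidHom.mem_ker, endF_apply, sub_eq_zero]
    constructor
    · rintro ⟨x, -, rfl⟩
      apply Additive.toMul.injective
      apply Units.ext
      have h1 := hτ (Additive.toMul (φ x))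
      rw [ofMul_toMul] at h1
      rw [h1]
      exact (mem_fixS_iff s _).mp (Additive.toMul x : (fixS s)ˣ).val.2
    · intro h
      have h1 := hτ (Additive.toMul a)
      rw [ofMul_toMul, h] at h1
      have hmem : ((Additive.toMul a : Mˣ) : M) ∈ fixS s := (mem_fixS_iff s _).mpr h1.symm
      have hmem' : (((Additive.toMul a)⁻¹ : Mˣ) : M) ∈ fixS s := by
        rw [Units.val_inv_eq_inv_val]
        exact (fixS s).inv_mem hmem
      refine ⟨Additive.ofMul ⟨⟨_, hmem⟩, ⟨_, hmem'⟩, ?_, ?_⟩, trivial, ?_⟩
      · apply Subtype.ext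
        simp
      · apply Subtype.ext
        simp
      · apply Additive.toMul.injective
        apply Units.ext
        rfl
  have hrange : ((Loc.normSubgroup (fixS s) M).toAddSubgroup).map φ = (endN p τ).range := by
    have hval : ∀ y : Mˣ, φ (Additive.ofMul (Units.map (Algebra.norm (fixS s) : M →* fixS s) y)) =
        endN p τ (Additive.ofMul y) := by
      intro y
      apply Additive.toMul.injective
      apply Units.ext
      show algebraMap (fixS s) M (Algebra.norm (fixS s) (y : M)) = _
      rw [algebraMap_norm_fixS s hp hs1 hsp, endN_apply, normEnd, LinearMap.sum_apply,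
        toMul_sum, Units.coe_prod]
      exact Finset.prod_congr rfl fun i _ => (hτ' i y).symm
    ext a
    rw [AddSubgroup.mem_map, AddMonoidHom.mem_range]
    constructor
    · rintro ⟨x, hx, rfl⟩
      obtain ⟨y, hy⟩ := hx
      refine ⟨Additive.ofMul y, ?_⟩
      rw [← hval y]
      exact congrArg (fun z => φ (Additive.ofMul z)) hy
    · rintro ⟨y, rfl⟩
      refine ⟨Additive.ofMul (Units.map (Algebra.norm (fixS s) : M →* fixS s) (Additive.toMul y)),
        ⟨Additive.toMul y, rfl⟩, ?_⟩
      rw [hval]
      rfl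
  unfold hIndex
  rw [← hrange, ← hker, AddSubgroup.relIndex_map_map_of_injective _ _ hφinj,
    AddSubgroup.relIndex_top_right, Subgroup.index_toAddSubgroup, hidx]

end Local

end Fermat.Agent.CFT.H63
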