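import Mathlib
import Fermat.Agent.CFT.H63_LocalCyclicIndex
import Fermat.Agent.CFT.H48_SemilocalH0
import Fermat.Agent.CFT.H54_PlacesGal

set_option autoImplicit false
set_option linter.unusedSectionVars false

/-!
# CFT / C-FIRST (helper63), part 10: hypothesis (L) of helper48's semilocal `Ĥ⁰` theorem

For a `σ`-stable maximal ideal `m` of `F ⊗ ℚ_q` (`σ ∈ Gal(F/K)` of prime order `p`), the residue
field `(F ⊗ ℚ_q)/m` is a finite extension of `ℚ_q` on which `σ` induces an automorphism of order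
`p`; hence `[((E/m)ˣ)^σ : N (E/m)ˣ] = p` by the local norm index theorem
(`h0Index_qAut_loc`, in the exact shape of helper48's `hloc`).
-/

namespace Fermat.Agent.CFT.H63

open Module TensorProduct Fermat.Agent.Kummer.H63 Fermat.Agent.CFT.H6
open Fermat.Agent.CFT

variable {F : Type} [Field F] [NumberField F] {K : Type*} [Field K] [CharZero K] [Algebra K F]
  {q : Nat.Primes} {p : ℕ}

local instance : Fact (q : ℕ).Prime := ⟨q.2⟩

/-- The automorphism of `F ⊗ ℚ_q` induced by `σ`. -/
noncomputable abbrev locAut (q : Nat.Primes) (σ : F ≃ₐ[K] F) : H23.Loc F q ≃+* H23.Loc F q :=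
  MulSemiringAction.toRingAut (F ≃ₐ[K] F) (H23.Loc F q) σ

theorem locAut_apply (σ : F ≃ₐ[K] F) (a : H23.Loc F q) : locAut q σ a = σ • a := rfl

/-- The `ℚ_q`-algebra endomorphism of the residue field induced by `σ`. -/
noncomputable def resHom (σ : F ≃ₐ[K] F) (m : MaximalSpectrum (H23.Loc F q))
    (h : H48.cmap (locAut q σ) m = m) : H54.locField m →ₐ[ℚ_[q]] H54.locField m where
  toRingHom := (H48.qRing (locAut q σ) m h : H54.locField m →+* H54.locField m)
  commutes' c := by
    change H48.qRing (locAut q σ) m h (Ideal.Quotient.mk _ ((1 : F) ⊗ₜ[ℚ] c)) = _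
    rw [H48.qRing_mk, locAut_apply, H42.smul_tmul_left, map_one]
    rfl

theorem resHom_locMk (σ : F ≃ₐ[K] F) (m : MaximalSpectrum (H23.Loc F q))
    (h : H48.cmap (locAut q σ) m = m) (a : H23.Loc F q) :
    resHom σ m h (H54.locMk m a) = H54.locMk m (σ • a) :=
  H48.qRing_mk (locAut q σ) m h a

/-- The `ℚ_q`-automorphism of the residue field induced by `σ`. -/
noncomputable def resAut (σ : F ≃ₐ[K] F) (m : MaximalSpectrum (H23.Loc F q))
    (h : H48.cmap (locAut q σ) m = m) : H54.locField m ≃ₐ[ℚ_[q]] H54.locField m :=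
  AlgEquiv.ofBijective (resHom σ m h) (AlgHom.bijective (resHom σ m h))

theorem resAut_locMk (σ : F ≃ₐ[K] F) (m : MaximalSpectrum (H23.Loc F q))
    (h : H48.cmap (locAut q σ) m = m) (a : H23.Loc F q) :
    resAut σ m h (H54.locMk m a) = H54.locMk m (σ • a) :=
  resHom_locMk σ m h a

theorem resAut_pow_locMk (σ : F ≃ₐ[K] F) (m : MaximalSpectrum (H23.Loc F q))
    (h : H48.cmap (locAut q σ) m = m) (k : ℕ) (a : H23.Loc F q) :
    (resAut σ m h ^ k) (H54.locMk m a) = H54.locMk m (σ ^ k • a) := by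
  induction k generalizing a with
  | zero => simp
  | succ k ih =>
    rw [pow_succ, AlgEquiv.mul_apply, resAut_locMk, ih, pow_succ, mul_smul]

theorem resAut_pow_eq_one (σ : F ≃ₐ[K] F) (m : MaximalSpectrum (H23.Loc F q))
    (h : H48.cmap (locAut q σ) m = m) (hσp : σ ^ p = 1) : resAut σ m h ^ p = 1 := by
  ext x
  obtain ⟨a, rfl⟩ := H54.locMk_surjective m x
  rw [resAut_pow_locMk, hσp, one_smul]
  rfl

theorem resAut_ne_one (σ : F ≃ₐ[K] F) (m : MaximalSpectrum (H23.Loc F q))
    (h : H48.cmap (locAut q σ) m = m) (hσ1 : σ ≠ 1) : resAut σ m h ≠ 1 := by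
  intro h1
  apply hσ1
  ext x
  have h2 : resAut σ m h (H54.toLocField m x) = H54.toLocField m x := by
    rw [h1]
    rfl
  rw [H54.toLocField_apply, resAut_locMk, H42.smul_tmul_left, ← H54.toLocField_apply,
    ← H54.toLocField_apply] at h2
  exact H54.toLocField_injective m h2

/-- **Hypothesis (L)** of the semilocal `Ĥ⁰` theorem, in helper48's shape. -/
theorem h0Index_qAut_loc (hp : p.Prime) (σ : F ≃ₐ[K] F) (hσ1 : σ ≠ 1) (hσp : σ ^ p = 1)
    (m : MaximalSpectrum (H23.Loc F q))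
    (h : H48.cmap (MulSemiringAction.toRingAut (F ≃ₐ[K] F) (H23.Loc F q) σ) m = m) :
    H48.h0Index (H48.qAut (MulSemiringAction.toRingAut (F ≃ₐ[K] F) (H23.Loc F q) σ) m h) p = p := by
  rw [← H48.hIndex_endF_endN_addEnd]
  refine hIndex_units_of_prime_order (q : ℕ) (H54.locField m) (resAut σ m h) hp
    (resAut_ne_one σ m h hσ1) (resAut_pow_eq_one σ m h hσp)
    (H48.addEnd (H48.qAut (locAut q σ) m h)) ?_
  intro x
  rfl

end Fermat.Agent.CFT.H63
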