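import Mathlib
import Fermat.Agent.CFT.H9_Cup
import Fermat.Agent.CFT.H85_InfRes

/-!
# CFT / Layer A : package A-Cup, part 2 (helper9)

* the cup product as linear maps `A^G → Z²(G, A)`, `A^G → H²(G, A)`, `Ĥ⁰(G, A) → H²(G, A)`;
* explicit periodicity for cyclic groups: if `nakN χ s = 1` (e.g. `G` cyclic of order `m`
  generated by `s` and `χ s = 1`), then `a ↦ a ∪ δχ` is a bijection `Ĥ⁰(G, A) → H²(G, A)`;
* functoriality of the cup product along `f : G →* H`, `φ : res f A ⟶ B` (restriction,
  inflation, change of coefficients).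
-/

set_option autoImplicit false
set_option linter.unusedSectionVars false

noncomputable section

open groupCohomology CategoryTheory

namespace Fermat.Agent.CFT.H9

section Linear

variable {k : Type} [CommRing k] {G : Type} [Group G] [Fintype G] (A : Rep.{0} k G)

/-- `a ↦ a ∪ ε` as a linear map `A^G → Z²(G, A)`. -/
def cupLeft (ε : cocycles₂ (Rep.trivial k G k)) : A.ρ.invariants →ₗ[k] cocycles₂ A where
  toFun a := cup a ε
  map_add' a a' := cup_add_left a a' ε
  map_smul' c a := cup_smul_left c a ε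

@[simp] lemma cupLeft_apply (ε : cocycles₂ (Rep.trivial k G k)) (a : A.ρ.invariants) :
    cupLeft A ε a = cup a ε := rfl

/-- `a ↦ [a ∪ ε]` as a linear map `A^G → H²(G, A)`. -/
def cupH2 (ε : cocycles₂ (Rep.trivial k G k)) : A.ρ.invariants →ₗ[k] groupCohomology A 2 :=
  (H2π A).hom ∘ₗ cupLeft A ε

@[simp] lemma cupH2_apply (ε : cocycles₂ (Rep.trivial k G k)) (a : A.ρ.invariants) :
    cupH2 A ε a = H2π A (cup a ε) := rfl

lemma normInv_le_ker_cupH2 (ε : cocycles₂ (Rep.trivial k G k)) :
    Fermat.Agent.CFT.A.normInv A ≤ LinearMap.ker (cupH2 A ε) := by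
  intro a ha
  obtain ⟨b, hb⟩ : ∃ b : A.V, A.ρ.norm b = a.1 := by
    simpa [Fermat.Agent.CFT.A.normInv] using ha
  have h1 : a = normInvElt A b := Subtype.ext hb.symm
  rw [LinearMap.mem_ker, cupH2_apply, h1]
  exact H2π_cup_norm b ε

/-- `a ↦ [a ∪ ε]` as a linear map `Ĥ⁰(G, A) → H²(G, A)`. -/
def cupH0hat (ε : cocycles₂ (Rep.trivial k G k)) :
    Fermat.Agent.CFT.A.H0hat A →ₗ[k] groupCohomology A 2 :=
  Submodule.liftQ _ (cupH2 A ε) (normInv_le_ker_cupH2 A ε)

@[simp] lemma cupH0hat_mk (ε : cocycles₂ (Rep.trivial k G k)) (a : A.ρ.invariants) :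
    cupH0hat A ε (Fermat.Agent.CFT.A.H0hat.mk A a) = H2π A (cup a ε) := rfl

variable {A}

/-- If `a ∪ ε` is a coboundary `d c` then `nakS ε s • a = N_G (c s)`. -/
theorem nakS_smul_eq_norm_of_cup_eq_d (a : A.ρ.invariants) (ε : cocycles₂ (Rep.trivial k G k))
    (c : G → A.V) (hc : d₁₂ A c = (cup a ε : G × G → A.V)) (s : G) :
    nakS (fun p => ε p) s • a.1 = A.ρ.norm (c s) := by
  have h1 := nak_coboundary (A := A) c s
  have h2 : (fun p : G × G => A.ρ p.1 (c p.2) - c (p.1 * p.2) + c p.1) = (cup a ε : G × G → A.V) := by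
    rw [← hc]
    funext ⟨g, h⟩
    rw [d₁₂_hom_apply]
  rw [h2] at h1
  rw [← h1, nak, nakS, Finset.sum_smul]
  rfl

section Periodicity

variable {m : ℕ} [NeZero m]

lemma nakN_eq_one_iff (χ : G →* Multiplicative (ZMod m)) (s : G) :
    nakN χ s = 1 ↔ m = Fintype.card G * lift χ s := by
  have h := nakN_spec χ s
  have hm : 0 < m := Nat.pos_of_ne_zero (NeZero.ne m)
  constructor
  · intro h1
    rw [h1, mul_one] at h
    exact h
  · intro h1
    have : m * nakN χ s = m * 1 := by rw [mul_one, h]; exact h1.symm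
    exact Nat.eq_of_mul_eq_mul_left hm this

/-- Surjectivity part of periodicity: every class is a cup product with `δχ`. -/
theorem H2π_cup_bock_of_nakN_eq_one (u : cocycles₂ A) (χ : G →* Multiplicative (ZMod m)) (s : G)
    (h : nakN χ s = 1) : H2π A (cup (nakInv u s) (bock k χ)) = H2π A u := by
  rw [H2π_cup_bock, h, Nat.cast_one, one_smul]

/-- Injectivity part of periodicity: `a ∪ δχ = 0` iff `a` is a norm. -/
theorem H2π_cup_bock_eq_zero_iff_norm (a : A.ρ.invariants) (χ : G →* Multiplicative (ZMod m))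
    (s : G) (h : nakN χ s = 1) :
    H2π A (cup a (bock k χ)) = 0 ↔ ∃ b : A.V, A.ρ.norm b = a.1 := by
  constructor
  · intro h0
    rw [H2π_eq_zero_iff] at h0
    obtain ⟨c, hc⟩ := h0
    refine ⟨c s, ?_⟩
    have h1 := nakS_smul_eq_norm_of_cup_eq_d a (bock k χ) c hc s
    rw [nakS_bock, h, Nat.cast_one, one_smul] at h1
    exact h1.symm
  · rintro ⟨b, hb⟩
    have h1 : a = normInvElt A b := Subtype.ext hb.symm
    rw [h1]
    exact H2π_cup_norm b (bock k χ)

/-- **Explicit periodicity**: if `nakN χ s = 1` (e.g. `G` cyclic of order `m` generated by `s`,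
`χ s = 1`) then `a ↦ [a ∪ δχ]` is a bijection `Ĥ⁰(G, A) → H²(G, A)`. -/
theorem cupH0hat_bock_bijective (χ : G →* Multiplicative (ZMod m)) (s : G) (h : nakN χ s = 1) :
    Function.Bijective (cupH0hat A (bock k χ)) := by
  constructor
  · rw [injective_iff_map_eq_zero]
    intro x hx
    obtain ⟨a, rfl⟩ := Fermat.Agent.CFT.A.H0hat.mk_surjective A x
    rw [cupH0hat_mk, H2π_cup_bock_eq_zero_iff_norm a χ s h] at hx
    exact (Fermat.Agent.CFT.A.H0hat.mk_eq_zero_iff A a).2 hx
  · intro y
    induction y using H2_induction_on with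
    | h u =>
      exact ⟨Fermat.Agent.CFT.A.H0hat.mk A (nakInv u s), by
        rw [cupH0hat_mk]; exact H2π_cup_bock_of_nakN_eq_one u χ s h⟩

end Periodicity

end Linear

/-! ### Functoriality of the cup product -/

section Functoriality

variable {k : Type} [CommRing k] {G H : Type} [Group G] [Group H]
  {A : Rep.{0} k H} {B : Rep.{0} k G} (f : G →* H) (φ : Rep.res f A ⟶ B)

/-- The image of an invariant under `φ : res f A ⟶ B` is an invariant. -/
def invMap (a : A.ρ.invariants) : B.ρ.invariants :=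
  ⟨φ.hom a.1, fun g => by
    have h1 := Rep.hom_comm_apply φ g a.1
    have h2 : (Rep.res f A).ρ g a.1 = a.1 := a.2 (f g)
    rw [h2] at h1
    exact h1.symm⟩

@[simp] lemma invMap_coe (a : A.ρ.invariants) : (invMap f φ a).1 = φ.hom a.1 := rfl

/-- Pull-back of scalar `2`-cocycles along a group homomorphism. -/
def scalarComap (ε : cocycles₂ (Rep.trivial k H k)) : cocycles₂ (Rep.trivial k G k) :=
  ⟨fun p => ε (f p.1, f p.2), by
    rw [mem_cocycles₂_iff]
    intro g h j
    have := scalar_cocycle_spec ε (f g) (f h) (f j)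
    simpa [map_mul] using this⟩

@[simp] lemma scalarComap_apply (ε : cocycles₂ (Rep.trivial k H k)) (p : G × G) :
    scalarComap f ε p = ε (f p.1, f p.2) := rfl

lemma scalarComap_bock {m : ℕ} [NeZero m] (χ : H →* Multiplicative (ZMod m)) :
    scalarComap f (bock k χ) = bock k (χ.comp f) := by
  ext g h
  rfl

/-- Cocycle-level naturality of the cup product. -/
theorem mapCocycles₂_cup (a : A.ρ.invariants) (ε : cocycles₂ (Rep.trivial k H k)) :
    mapCocycles₂ f φ (cup a ε) = cup (invMap f φ a) (scalarComap f ε) := by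
  ext g h
  show φ.hom (ε (f g, f h) • a.1) = ε (f g, f h) • φ.hom a.1
  rw [map_smul]

/-- **Naturality of the cup product** in `H²`: for `f : G →* H` and `φ : res f A ⟶ B`,
`map f φ [a ∪ ε] = [φ a ∪ f^* ε]`.  (`f = S.subtype`, `φ = 𝟙`: restriction; `f = mk' N`,
`φ = inclusion of `A^N`: inflation; `f = id`: change of coefficients.) -/
theorem map_H2π_cup (a : A.ρ.invariants) (ε : cocycles₂ (Rep.trivial k H k)) :
    (map f φ 2).hom (H2π A (cup a ε)) = H2π B (cup (invMap f φ a) (scalarComap f ε)) := by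
  rw [← mapCocycles₂_cup]
  exact H2π_comp_map_apply f φ (cup a ε)

theorem map_H2π_cup_bock {m : ℕ} [NeZero m] (a : A.ρ.invariants)
    (χ : H →* Multiplicative (ZMod m)) :
    (map f φ 2).hom (H2π A (cup a (bock k χ)))
      = H2π B (cup (invMap f φ a) (bock k (χ.comp f))) := by
  rw [map_H2π_cup, scalarComap_bock]

end Functoriality

/-! ### Characters with a cyclic quotient: `a ∪ δχ = 0` iff `a` is a norm from `A^{ker χ}` -/

section KerNorm

variable {k : Type} [CommRing k] {G : Type} [Group G] {m : ℕ} [NeZero m]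

lemma toAdd_eq_one_of_lift_eq_one (χ : G →* Multiplicative (ZMod m)) (s : G)
    (hs : lift χ s = 1) : Multiplicative.toAdd (χ s) = 1 := by
  have h1 : ((Multiplicative.toAdd (χ s)).val : ZMod m) = Multiplicative.toAdd (χ s) :=
    ZMod.natCast_zmod_val _
  rw [lift] at hs
  rw [hs, Nat.cast_one] at h1
  exact h1.symm

/-- A character taking the value `1 ∈ ℤ/m` is surjective. -/
lemma surjective_of_lift_eq_one (χ : G →* Multiplicative (ZMod m)) (s : G)
    (hs : lift χ s = 1) : Function.Surjective χ := by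
  intro y
  refine ⟨s ^ (Multiplicative.toAdd y).val, ?_⟩
  rw [map_pow]
  apply Multiplicative.toAdd.injective
  rw [toAdd_pow, toAdd_eq_one_of_lift_eq_one χ s hs, nsmul_eq_mul, mul_one]
  exact ZMod.natCast_zmod_val _

/-- An injective character taking the value `1 ∈ ℤ/m` has source of order `m`. -/
lemma card_eq_of_injective_of_lift_eq_one [Fintype G] (χ : G →* Multiplicative (ZMod m))
    (hinj : Function.Injective χ) (s : G) (hs : lift χ s = 1) : Fintype.card G = m := by
  have h1 := Fintype.card_of_bijective ⟨hinj, surjective_of_lift_eq_one χ s hs⟩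
  rw [h1, Fintype.card_multiplicative, ZMod.card]

lemma nakN_eq_one_of_injective [Fintype G] (χ : G →* Multiplicative (ZMod m))
    (hinj : Function.Injective χ) (s : G) (hs : lift χ s = 1) : nakN χ s = 1 := by
  rw [nakN_eq_one_iff, hs, mul_one, card_eq_of_injective_of_lift_eq_one χ hinj s hs]

omit [NeZero m] in
lemma lift_kerLift (χ : G →* Multiplicative (ZMod m)) (s : G) :
    lift (QuotientGroup.kerLift χ) (s : G ⧸ χ.ker) = lift χ s := rfl

lemma nakN_kerLift_eq_one (χ : G →* Multiplicative (ZMod m)) [Fintype (G ⧸ χ.ker)] (s : G)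
    (hs : lift χ s = 1) : nakN (QuotientGroup.kerLift χ) (s : G ⧸ χ.ker) = 1 :=
  nakN_eq_one_of_injective _ (QuotientGroup.kerLift_injective χ) _ (by rw [lift_kerLift, hs])

/-- For a prime `p`, a nontrivial character `G → ℤ/p` takes the value `1`. -/
lemma exists_lift_eq_one_of_ne_one {p : ℕ} [hp : Fact p.Prime]
    (χ : G →* Multiplicative (ZMod p)) (hχ : χ ≠ 1) : ∃ s : G, lift χ s = 1 := by
  obtain ⟨g, hg⟩ : ∃ g, χ g ≠ 1 := by
    by_contra h
    exact hχ (MonoidHom.ext fun g => by
      by_contra hg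
      exact h ⟨g, hg⟩)
  set x : ZMod p := Multiplicative.toAdd (χ g) with hx
  have hx0 : x ≠ 0 := fun h => hg (by
    apply Multiplicative.toAdd.injective
    rw [← hx, h]; rfl)
  refine ⟨g ^ (x⁻¹).val, ?_⟩
  have h1 : Multiplicative.toAdd (χ (g ^ (x⁻¹).val)) = 1 := by
    rw [map_pow, toAdd_pow, ← hx, nsmul_eq_mul, ZMod.natCast_zmod_val, inv_mul_cancel₀ hx0]
  rw [lift, h1]
  exact ZMod.val_one p

variable {A : Rep.{0} k G}

/-- A `G`-invariant, viewed as a `G ⧸ N`-invariant of `A^N`. -/
def invDown (N : Subgroup G) [N.Normal] (a : A.ρ.invariants) :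
    (A.quotientToInvariants N).ρ.invariants :=
  ⟨⟨a.1, fun n => a.2 n⟩, fun q => by
    induction q using QuotientGroup.induction_on with
    | H g => exact Subtype.ext (a.2 g)⟩

@[simp] lemma invDown_coe (N : Subgroup G) [N.Normal] (a : A.ρ.invariants) :
    ((invDown N a).1 : A.V) = a.1 := rfl

lemma invMap_invDown (N : Subgroup G) [N.Normal] (a : A.ρ.invariants) :
    invMap (QuotientGroup.mk' N) (Rep.ofHom <| A.ρ.quotientToInvariants_lift N) (invDown N a)
      = a := Subtype.ext rfl

/-- **Inflation of cup products**: `inf (a ∪ δχ̄) = a ∪ δ(χ̄ ∘ π)`. -/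
theorem inflation_H2π_cup_bock (N : Subgroup G) [N.Normal] (a : A.ρ.invariants)
    (χ' : G ⧸ N →* Multiplicative (ZMod m)) :
    (map (QuotientGroup.mk' N) (Rep.ofHom <| A.ρ.quotientToInvariants_lift N) 2).hom
        (H2π (A.quotientToInvariants N) (cup (invDown N a) (bock k χ')))
      = H2π A (cup a (bock k (χ'.comp (QuotientGroup.mk' N)))) := by
  rw [map_H2π_cup_bock, invMap_invDown]

theorem inflation_H2π_cup_bock_kerLift (a : A.ρ.invariants) (χ : G →* Multiplicative (ZMod m)) :
    (map (QuotientGroup.mk' χ.ker) (Rep.ofHom <| A.ρ.quotientToInvariants_lift χ.ker) 2).hom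
        (H2π (A.quotientToInvariants χ.ker)
          (cup (invDown χ.ker a) (bock k (QuotientGroup.kerLift χ))))
      = H2π A (cup a (bock k χ)) := by
  rw [inflation_H2π_cup_bock]
  congr 3

/-- **Norm criterion**: let `χ : G → ℤ/m` be a character taking the value `1` (so `G / ker χ` is
cyclic of order `m`), and assume that inflation `H²(G / ker χ, A^{ker χ}) → H²(G, A)` is
injective (e.g. `H¹(ker χ, A) = 0`).  Then `a ∪ δχ = 0` in `H²(G, A)` iff `a` is a norm from
`A^{ker χ}`. -/
theorem H2π_cup_bock_eq_zero_iff_norm_ker (χ : G →* Multiplicative (ZMod m))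
    [Fintype (G ⧸ χ.ker)] (s : G) (hs : lift χ s = 1)
    (hinf : Function.Injective
      (map (QuotientGroup.mk' χ.ker) (Rep.ofHom <| A.ρ.quotientToInvariants_lift χ.ker) 2 :
        groupCohomology (A.quotientToInvariants χ.ker) 2 ⟶ groupCohomology A 2).hom)
    (a : A.ρ.invariants) :
    H2π A (cup a (bock k χ)) = 0 ↔
      ∃ b : (A.quotientToInvariants χ.ker).V,
        (((A.quotientToInvariants χ.ker).ρ.norm b : (A.quotientToInvariants χ.ker).V) : A.V)
          = a.1 := by
  rw [← inflation_H2π_cup_bock_kerLift, map_eq_zero_iff _ hinf,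
    H2π_cup_bock_eq_zero_iff_norm (invDown χ.ker a) (QuotientGroup.kerLift χ) (s : G ⧸ χ.ker)
      (nakN_kerLift_eq_one χ s hs)]
  constructor
  · rintro ⟨b, hb⟩
    exact ⟨b, by rw [hb]; rfl⟩
  · rintro ⟨b, hb⟩
    exact ⟨b, Subtype.ext hb⟩

/-- A `G ⧸ N`-invariant of `A^N`, viewed as a `G`-invariant of `A`. -/
def invUp (N : Subgroup G) [N.Normal] (a : (A.quotientToInvariants N).ρ.invariants) :
    A.ρ.invariants :=
  ⟨(a.1 : A.V), fun g => congrArg Subtype.val (a.2 (g : G ⧸ N))⟩

@[simp] lemma invDown_invUp (N : Subgroup G) [N.Normal]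
    (a : (A.quotientToInvariants N).ρ.invariants) : invDown N (invUp N a) = a :=
  Subtype.ext (Subtype.ext rfl)

@[simp] lemma invUp_invDown (N : Subgroup G) [N.Normal] (a : A.ρ.invariants) :
    invUp N (invDown N a) = a := Subtype.ext rfl

/-- **Every inflated class is a cup product**: if `χ` takes the value `1`, every class
inflated from `H²(G / ker χ, A^{ker χ})` is of the form `a ∪ δχ` with `a ∈ A^G`. -/
theorem exists_cup_bock_eq_inflation (χ : G →* Multiplicative (ZMod m))
    [Fintype (G ⧸ χ.ker)] (s : G) (hs : lift χ s = 1)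
    (y : groupCohomology (A.quotientToInvariants χ.ker) 2) :
    ∃ a : A.ρ.invariants, H2π A (cup a (bock k χ)) =
      (map (QuotientGroup.mk' χ.ker) (Rep.ofHom <| A.ρ.quotientToInvariants_lift χ.ker) 2 :
        groupCohomology (A.quotientToInvariants χ.ker) 2 ⟶ groupCohomology A 2).hom y := by
  induction y using H2_induction_on with
  | h u =>
    refine ⟨invUp χ.ker (nakInv u (s : G ⧸ χ.ker)), ?_⟩
    rw [← inflation_H2π_cup_bock_kerLift, invDown_invUp,
      H2π_cup_bock_of_nakN_eq_one u _ _ (nakN_kerLift_eq_one χ s hs)]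

/-- **Norm criterion**, with the inflation hypothesis discharged by `H¹(ker χ, A) = 0`
(inflation-restriction, `H85_InfRes`). -/
theorem H2π_cup_bock_eq_zero_iff_norm_ker' (χ : G →* Multiplicative (ZMod m))
    [Fintype (G ⧸ χ.ker)] (s : G) (hs : lift χ s = 1)
    (h1 : Limits.IsZero (groupCohomology (Rep.res χ.ker.subtype A) 1))
    (a : A.ρ.invariants) :
    H2π A (cup a (bock k χ)) = 0 ↔
      ∃ b : (A.quotientToInvariants χ.ker).V,
        (((A.quotientToInvariants χ.ker).ρ.norm b : (A.quotientToInvariants χ.ker).V) : A.V)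
          = a.1 := by
  refine H2π_cup_bock_eq_zero_iff_norm_ker χ s hs ?_ a
  have := Fermat.Agent.CFT.H85.inflation_injective (A := A) (S := χ.ker) (n := 2) (by norm_num)
    (fun i hi1 hi2 => by
      obtain rfl : i = 1 := by omega
      exact h1)
  exact this

end KerNorm

end Fermat.Agent.CFT.H9
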