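import Mathlib
import Fermat.Agent.CFT.H9_CupFunct

/-!
# CFT / Layer A : package A-Cup, part 3 (helper9): cyclic groups

For a finite cyclic group `G` (with a chosen generator, or just `[IsCyclic G]`) the explicit
periodicity isomorphism `Ĥ⁰(G, A) = A^G / N_G A ≃ H²(G, A)`, `a ↦ [a ∪ δχ]`.
-/

set_option autoImplicit false
set_option linter.unusedSectionVars false
set_option linter.style.haveILetI false

noncomputable section

open groupCohomology CategoryTheory

namespace Fermat.Agent.CFT.H9

variable {k : Type} [CommRing k] {G : Type} [Group G] [Fintype G] (A : Rep.{0} k G)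

section Generator

variable {g : G} (hg : ∀ x, x ∈ Subgroup.zpowers g) {n : ℕ} [NeZero n] (hn : Nat.card G = n)

/-- The character `G → ℤ/n` of a cyclic group of order `n` sending the generator `g` to `1`. -/
def genChar : G →* Multiplicative (ZMod n) :=
  (zmodMulEquivOfGenerator hg hn).symm.toMonoidHom

lemma genChar_apply_generator : genChar hg hn g = Multiplicative.ofAdd 1 :=
  zmodMulEquivOfGenerator_symm_apply_generator hg hn

lemma genChar_injective : Function.Injective (genChar hg hn) :=
  (zmodMulEquivOfGenerator hg hn).symm.injective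

lemma lift_genChar_generator (h1 : n ≠ 1) : lift (genChar hg hn) g = 1 := by
  rw [lift, genChar_apply_generator]
  exact ZMod.val_one'' h1

lemma nakN_genChar_generator (h1 : n ≠ 1) : nakN (genChar hg hn) g = 1 :=
  nakN_eq_one_of_injective _ (genChar_injective hg hn) g (lift_genChar_generator hg hn h1)

/-- **Periodicity for a cyclic group with generator `g`**: `a ↦ [a ∪ δχ_g]` is a bijection
`Ĥ⁰(G, A) → H²(G, A)`. -/
theorem cupH0hat_genChar_bijective (h1 : n ≠ 1) :
    Function.Bijective (cupH0hat A (bock k (genChar hg hn))) :=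
  cupH0hat_bock_bijective _ g (nakN_genChar_generator hg hn h1)

end Generator

/-- For the trivial group both `Ĥ⁰` and `H²` vanish. -/
lemma subsingleton_H0hat_of_subsingleton [Subsingleton G] :
    Subsingleton (Fermat.Agent.CFT.A.H0hat A) := by
  refine ⟨fun x y => ?_⟩
  obtain ⟨a, rfl⟩ := Fermat.Agent.CFT.A.H0hat.mk_surjective A x
  obtain ⟨b, rfl⟩ := Fermat.Agent.CFT.A.H0hat.mk_surjective A y
  rw [← sub_eq_zero, ← map_sub, Fermat.Agent.CFT.A.H0hat.mk_eq_zero_iff]
  refine ⟨(a - b).1, ?_⟩
  rw [Representation.norm, LinearMap.sum_apply]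
  have : ∀ x : G, A.ρ x (a - b).1 = (a - b).1 := fun x => (a - b).2 x
  simp only [this]
  rw [Finset.sum_const, Finset.card_univ, Fintype.card_eq_one_of_forall_eq (i := (1 : G))
    (fun j => Subsingleton.elim j 1), one_smul]

/-- **Cyclic periodicity, existence form**: for a finite cyclic group `G`,
`Ĥ⁰(G, A) ≃ H²(G, A)` as `k`-modules. -/
theorem nonempty_linearEquiv_H0hat_H2 [IsCyclic G] :
    Nonempty (Fermat.Agent.CFT.A.H0hat A ≃ₗ[k] groupCohomology A 2) := by
  by_cases h1 : Nat.card G = 1
  · haveI : Subsingleton G := (Nat.card_eq_one_iff_unique.1 h1).1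
    haveI := subsingleton_H0hat_of_subsingleton A
    haveI : Subsingleton (groupCohomology A 2) :=
      ModuleCat.subsingleton_of_isZero (isZero_groupCohomology_succ_of_subsingleton A 1)
    exact ⟨{ (0 : Fermat.Agent.CFT.A.H0hat A →ₗ[k] groupCohomology A 2) with
      invFun := 0
      left_inv := fun x => Subsingleton.elim _ _
      right_inv := fun x => Subsingleton.elim _ _ }⟩
  · obtain ⟨g, hg⟩ := IsCyclic.exists_generator (α := G)
    haveI : NeZero (Nat.card G) := ⟨Nat.card_pos.ne'⟩
    exact ⟨LinearEquiv.ofBijective _ (cupH0hat_genChar_bijective A hg rfl h1)⟩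

/-- Cardinality form of cyclic periodicity. -/
theorem card_H0hat_eq_card_H2 [IsCyclic G] :
    Nat.card (Fermat.Agent.CFT.A.H0hat A) = Nat.card (groupCohomology A 2) := by
  obtain ⟨e⟩ := nonempty_linearEquiv_H0hat_H2 A
  exact Nat.card_congr e.toEquiv

end Fermat.Agent.CFT.H9
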