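import Mathlib
import Fermat.Agent.CFT.H9_CupCyclic
import Fermat.Agent.CFT.H36_Cyclic
import Fermat.Agent.CFT.H98_LowDeg

/-!
# CFT / Layer A : the elementary Tate groups of a finite cyclic group (helper9)

Glue of `H36_Cyclic` (parity isomorphisms of Tate cohomology), `H98_LowDeg` (Tate cohomology in
degrees `0`, `-1` in the elementary models) and `H9_CupCyclic`:
for `G` finite cyclic, `Ĥ⁻¹(G, A) = ker N / I_G A ≃ H¹(G, A)` and `Ĥ⁰(G, A) = A^G / N A ≃ H²(G, A)`.
-/

set_option autoImplicit false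
set_option linter.style.haveILetI false

noncomputable section

open groupCohomology CategoryTheory

namespace Fermat.Agent.CFT.H9

variable {k : Type} [CommRing k] {G : Type} [Group G] [Fintype G] [IsCyclic G] (A : Rep.{0} k G)

/-- For a finite cyclic group, `ker N / I_G A ≃ H¹(G, A)`. -/
def Hm1hatEquivH1 : Fermat.Agent.CFT.A.Hm1hat A ≃ₗ[k] groupCohomology A 1 :=
  (Fermat.Agent.CFT.H98.tateNegOneEquiv A).symm.trans
    (Fermat.Agent.CFT.H36.tateIsoH1 A (-1) ⟨-1, by ring⟩).toLinearEquiv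

theorem card_Hm1hat_eq_card_H1 :
    Nat.card (Fermat.Agent.CFT.A.Hm1hat A) = Nat.card (groupCohomology A 1) :=
  Nat.card_congr (Hm1hatEquivH1 A).toEquiv

theorem subsingleton_H1_iff_subsingleton_Hm1hat :
    Subsingleton (groupCohomology A 1) ↔ Subsingleton (Fermat.Agent.CFT.A.Hm1hat A) :=
  (Hm1hatEquivH1 A).symm.toEquiv.subsingleton_congr

end Fermat.Agent.CFT.H9

namespace Fermat.Agent.CFT.H9

section PrimeLayer

variable {k : Type} [CommRing k] {G : Type} [Group G] [Fintype G] (A : Rep.{0} k G)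

/-- **Prime layer criterion**: for `G` of prime order `p`, the first inequality
`|Ĥ⁰| = p · |Ĥ⁻¹|` and the second inequality `|Ĥ⁰| ≤ p` (with `Ĥ⁰` finite) give
`H¹(G, A) = 0` and `|H²(G, A)| = p`. -/
theorem prime_layer_of_inequalities {p : ℕ} (hp : p.Prime) (hG : Nat.card G = p)
    (h0 : Nat.card (Fermat.Agent.CFT.A.H0hat A) ≠ 0)
    (hfirst : Nat.card (Fermat.Agent.CFT.A.H0hat A)
      = p * Nat.card (Fermat.Agent.CFT.A.Hm1hat A))
    (hsecond : Nat.card (Fermat.Agent.CFT.A.H0hat A) ≤ p) :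
    Subsingleton (groupCohomology A 1) ∧ Nat.card (groupCohomology A 2) = p := by
  haveI : Fact p.Prime := ⟨hp⟩
  haveI : IsCyclic G := isCyclic_of_prime_card hG
  have hpos : 0 < p := hp.pos
  have hm1 : Nat.card (Fermat.Agent.CFT.A.Hm1hat A) = 1 := by
    have h1 : Nat.card (Fermat.Agent.CFT.A.Hm1hat A) ≠ 0 := by
      intro h
      rw [h, mul_zero] at hfirst
      exact h0 hfirst
    have h2 : p * Nat.card (Fermat.Agent.CFT.A.Hm1hat A) ≤ p * 1 := by
      rw [mul_one, ← hfirst]; exact hsecond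
    have h3 := Nat.le_of_mul_le_mul_left h2 hpos
    omega
  refine ⟨?_, ?_⟩
  · rw [subsingleton_H1_iff_subsingleton_Hm1hat]
    exact (Nat.card_eq_one_iff_unique.1 hm1).1
  · rw [← card_H0hat_eq_card_H2, hfirst, hm1, mul_one]

/-- Same conclusion in the divisibility form consumed by `H40.PrimeLayers`. -/
theorem prime_layer_of_inequalities' {p : ℕ} (hp : p.Prime) (hG : Nat.card G = p)
    (h0 : Nat.card (Fermat.Agent.CFT.A.H0hat A) ≠ 0)
    (hfirst : Nat.card (Fermat.Agent.CFT.A.H0hat A)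
      = p * Nat.card (Fermat.Agent.CFT.A.Hm1hat A))
    (hsecond : Nat.card (Fermat.Agent.CFT.A.H0hat A) ≤ p) :
    Subsingleton (groupCohomology A 1) ∧ Nat.card (groupCohomology A 2) ∣ p := by
  obtain ⟨h1, h2⟩ := prime_layer_of_inequalities A hp hG h0 hfirst hsecond
  exact ⟨h1, h2 ▸ dvd_rfl⟩

end PrimeLayer

end Fermat.Agent.CFT.H9
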