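import Mathlib
import Fermat.Agent.CFT.H63_FirstIneqExport
import Fermat.Agent.CFT.H63_FirstIneqTate
import Fermat.Agent.CFT.H63_LocalL
import Fermat.Agent.CFT.H63_H0IndexPi
import Fermat.Agent.CFT.H18_LocDecomp
import Fermat.Agent.CFT.H9_CyclicCards
import Fermat.Agent.CFT.H48_IdSH1

set_option autoImplicit false
set_option linter.unusedSectionVars false
set_option linter.unusedVariables false

/-!
# CFT / C-FIRST (helper63), part 11: the UNCONDITIONAL first inequality in the hybrid model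

`F/K` cyclic of odd prime degree `p` (number fields in `Type`), `S ≠ ∅` a finite set of rational
primes.  Then for the hybrid idele class group `CS S F` of `H23_CDefs`:
`Ĥ⁰(G, CS S F)` and `Ĥ⁻¹(G, CS S F)` are finite, the Herbrand quotient is `p`, and
`|Ĥ⁰| = p · |Ĥ⁻¹|` (`first_inequality_repCS`), in all the shapes consumed downstream.

Inputs: helper48's semilocal `Ĥ⁰` theorem and Hilbert 90 for étale algebras, the local norm index
(layer B, through `h0Index_qAut_loc`), helper54's place dictionary, helper41's C-PERM, the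
`S`-unit Herbrand quotient.
-/

namespace Fermat.Agent.CFT.H63

open IsDedekindDomain NumberField Module
open Fermat.Agent.Kummer.H63 Fermat.Agent.S14.H63
open Fermat.Agent.CFT.H23 Fermat.Agent.CFT.H6

variable (S : Finset Nat.Primes) {K F : Type} [Field K] [NumberField K] [Field F]
  [NumberField F] [Algebra K F] {p : ℕ}

/-- The two indices of the `S`-ideles for `σ`. -/
def JSHerbrand (p : ℕ) (σ : F ≃ₐ[K] F) : Prop :=
  hIndex (endF (sigA S σ)) (endN p (sigA S σ)) =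
      p ^ (∑ q : S, Nat.card {m : MaximalSpectrum (Loc F q.1) //
        ∀ x, x ∈ m.asIdeal ↔ σ • x ∈ m.asIdeal}) ∧
    hIndex (endN p (sigA S σ)) (endF (sigA S σ)) = 1

/-- Vanishing of the Jacobson radical of a reduced artinian ring, in elementwise form. -/
theorem eq_zero_of_forall_mem_maximal {E : Type*} [CommRing E] [IsArtinianRing E] [IsReduced E]
    (x : E) (hx : ∀ m : MaximalSpectrum E, x ∈ m.asIdeal) : x = 0 := by
  have h1 : x ∈ (⊥ : Ideal E).jacobson := by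
    rw [Ideal.jacobson, Ideal.mem_sInf]
    intro I hI
    exact hx ⟨I, hI.2⟩
  rw [IsArtinianRing.jacobson_eq_radical] at h1
  have h2 : IsNilpotent x := by
    obtain ⟨n, hn⟩ := h1
    exact ⟨n, hn⟩
  exact h2.eq_zero

theorem sigA_eq_addEnd (σ : F ≃ₐ[K] F) :
    sigA S σ = H48.addEnd (piHom (fun q : S => H48.uAut (locAut q.1 σ))) := by
  apply LinearMap.ext
  intro x
  rfl

theorem locAut_pow_eq_one (q : Nat.Primes) (σ : F ≃ₐ[K] F) (hσp : σ ^ p = 1) :
    locAut q σ ^ p = 1 := by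
  unfold locAut
  rw [← map_pow, hσp, map_one]

theorem cmap_locAut_eq_iff (q : Nat.Primes) (σ : F ≃ₐ[K] F) (m : MaximalSpectrum (Loc F q)) :
    H48.cmap (locAut q σ) m = m ↔ ∀ x, x ∈ m.asIdeal ↔ σ • x ∈ m.asIdeal := by
  constructor
  · intro h x
    have h1 : x ∈ (H48.cmap (locAut q σ) m).asIdeal ↔ x ∈ m.asIdeal := by rw [h]
    rw [H48.mem_cmap, locAut_apply] at h1
    exact h1.symm
  · intro h
    apply MaximalSpectrum.ext
    ext x
    rw [H48.mem_cmap, locAut_apply]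
    exact (h x).symm

variable [IsGalois K F] [hp : Fact p.Prime]

/-- A generator of `Gal(F/K)` for `F/K` Galois of prime degree. -/
theorem exists_generator (hKF : Module.finrank K F = p) :
    ∃ σ : F ≃ₐ[K] F, ∀ τ : F ≃ₐ[K] F, τ ∈ Subgroup.zpowers σ := by
  have hcard : Nat.card (F ≃ₐ[K] F) = p := by rw [IsGalois.card_aut_eq_finrank, hKF]
  have : IsCyclic (F ≃ₐ[K] F) := isCyclic_of_prime_card hcard
  exact IsCyclic.exists_generator

theorem generator_ne_one (hKF : Module.finrank K F = p) (σ : F ≃ₐ[K] F)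
    (hσ : ∀ τ : F ≃ₐ[K] F, τ ∈ Subgroup.zpowers σ) : σ ≠ 1 := by
  intro h1
  have hcard : Nat.card (F ≃ₐ[K] F) = p := by rw [IsGalois.card_aut_eq_finrank, hKF]
  have hsub : Subsingleton (F ≃ₐ[K] F) := by
    refine ⟨fun a b => ?_⟩
    have ha := hσ a
    have hb := hσ b
    rw [h1, Subgroup.zpowers_one_eq_bot, Subgroup.mem_bot] at ha hb
    rw [ha, hb]
  have : Nat.card (F ≃ₐ[K] F) = 1 := Nat.card_unique
  rw [hcard] at this
  exact hp.out.one_lt.ne' this

/-- **`Ĥ⁰` of the `S`-ideles**: `[J^σ : N J] = p ^ #{σ-stable maximal ideals}`. -/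
theorem hIndex_endF_endN_sigA (hKF : Module.finrank K F = p) (σ : F ≃ₐ[K] F)
    (hσ : ∀ τ : F ≃ₐ[K] F, τ ∈ Subgroup.zpowers σ) :
    hIndex (endF (sigA S σ)) (endN p (sigA S σ)) =
      p ^ (∑ q : S, Nat.card {m : MaximalSpectrum (Loc F q.1) //
        ∀ x, x ∈ m.asIdeal ↔ σ • x ∈ m.asIdeal}) := by
  have hσp : σ ^ p = 1 := aut_pow_eq_one hKF σ
  have hσ1 : σ ≠ 1 := generator_ne_one hKF σ hσ
  rw [sigA_eq_addEnd, H48.hIndex_endF_endN_addEnd, h0Index_piHom, ← Finset.prod_pow_eq_pow_sum]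
  refine Finset.prod_congr rfl fun q _ => ?_
  have hfin : Finite (MaximalSpectrum (Loc F q.1)) := inferInstance
  rw [H48.h0Index_uAut_eq_pow (locAut q.1 σ) p (locAut_pow_eq_one q.1 σ hσp)
    (fun x hx => eq_zero_of_forall_mem_maximal x hx) p
    (fun m => h0Index_qAut_loc hp.out σ hσ1 hσp m.1 m.2)]
  congr 1
  exact Nat.card_congr (Equiv.subtypeEquivRight (cmap_locAut_eq_iff q.1 σ))

/-- **`H¹` of the `S`-ideles** (Hilbert 90 for étale algebras, helper48), index form. -/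
theorem hIndex_endN_endF_sigA (hKF : Module.finrank K F = p) (σ : F ≃ₐ[K] F)
    (hσ : ∀ τ : F ≃ₐ[K] F, τ ∈ Subgroup.zpowers σ) :
    hIndex (endN p (sigA S σ)) (endF (sigA S σ)) = 1 := by
  classical
  let A : Rep ℤ (F ≃ₐ[K] F) := Rep.ofMulDistribMulAction (F ≃ₐ[K] F) (JS S F)
  have hcyc : IsCyclic (F ≃ₐ[K] F) := ⟨σ, hσ⟩
  have hnorm : A.ρ.norm = normEnd p (A.ρ σ) :=
    norm_eq_normEnd _ σ hσ (by rw [IsGalois.card_aut_eq_finrank, hKF])
  have hN : normAdd A.ρ = endN p (sigA S σ) := by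
    unfold normAdd
    rw [hnorm]
    rfl
  have hF : sigmaSubOne A.ρ σ = endF (sigA S σ) := rfl
  have h1 : Nat.card (Fermat.Agent.CFT.A.Hm1hat A) = hm1Card A.ρ σ :=
    card_kerNorm_quot_aug A.ρ σ hσ
  have h2 : Nat.card (Fermat.Agent.CFT.A.Hm1hat A) = Nat.card (groupCohomology A 1) :=
    H9.card_Hm1hat_eq_card_H1 A
  have h3 : Subsingleton (groupCohomology A 1) := H48.subsingleton_H1_JS S F K
  have h4 : Nat.card (groupCohomology A 1) = 1 := Nat.card_unique
  rw [← hN, ← hF]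
  show hm1Card A.ρ σ = 1
  rw [← h1, h2, h4]

theorem jsHerbrand (hKF : Module.finrank K F = p) (σ : F ≃ₐ[K] F)
    (hσ : ∀ τ : F ≃ₐ[K] F, τ ∈ Subgroup.zpowers σ) : JSHerbrand S p σ :=
  ⟨hIndex_endF_endN_sigA S hKF σ hσ, hIndex_endN_endF_sigA S hKF σ hσ⟩

/-- The former hypothesis `hA`: the Herbrand quotient of the `S`-ideles is the product of the
local degrees above `S`. -/
theorem herbrand_sigA (hKF : Module.finrank K F = p) (σ : F ≃ₐ[K] F)
    (hσ : ∀ τ : F ≃ₐ[K] F, τ ∈ Subgroup.zpowers σ) :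
    ∀ SK : Finset (HeightOneSpectrum (𝓞 K)), (∀ u, u ∈ SK ↔ u ∈ primesAboveS S K) →
      HerbrandDefined (endF (sigA S σ)) (endN p (sigA S σ)) ∧
      herbrand (endF (sigA S σ)) (endN p (sigA S σ)) =
        ((∏ u ∈ SK, (u.asIdeal.ramificationIdxIn (𝓞 F) * u.asIdeal.inertiaDegIn (𝓞 F)) : ℕ) :
          ℚ) :=
  hA_of_semilocal S hKF σ hσ (jsHerbrand S hKF σ hσ) (fun q => H54.primeAt)
    (fun q => H54.primeAt_injective) (fun q w => H54.exists_primeAt_eq_iff w)
    (fun q m => H54.primeAt_fixed_iff σ m)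

/-- **First inequality, Herbrand form**: `h(CS S F) = p`. -/
theorem herbrand_CS_uncond (hp2 : p ≠ 2) (hKF : Module.finrank K F = p) (σ : F ≃ₐ[K] F)
    (hσ : ∀ τ : F ≃ₐ[K] F, τ ∈ Subgroup.zpowers σ) (hS : S.Nonempty) :
    HerbrandDefined (endF (sigC S σ)) (endN p (sigC S σ)) ∧
      herbrand (endF (sigC S σ)) (endN p (sigC S σ)) = p ∧
      hIndex (endF (sigC S σ)) (endN p (sigC S σ)) =
        p * hIndex (endN p (sigC S σ)) (endF (sigC S σ)) :=
  herbrand_CS_of_local S hp2 hKF σ hσ hS (herbrand_sigA S hKF σ hσ)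

/-- **First inequality, helper6's `Rep` vocabulary.** -/
theorem herbrandRepn_repCS_uncond (hp2 : p ≠ 2) (hKF : Module.finrank K F = p) (σ : F ≃ₐ[K] F)
    (hσ : ∀ τ : F ≃ₐ[K] F, τ ∈ Subgroup.zpowers σ) (hS : S.Nonempty) :
    HerbrandDefinedRepn (repCS S F K).ρ σ ∧ herbrandRepn (repCS S F K).ρ σ = p ∧
      h0Card (repCS S F K).ρ σ = p * hm1Card (repCS S F K).ρ σ :=
  herbrandRepn_repCS S hp2 hKF σ hσ hS (herbrand_sigA S hKF σ hσ)

/-- **First inequality, Tate-group form** (input `h0`, `hfirst` of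
`H9.prime_layer_of_inequalities` for `A := repCS S F K`): `F/K` Galois of odd prime degree `p`,
`S ≠ ∅`. -/
theorem first_inequality_repCS (hp2 : p ≠ 2) (hKF : Module.finrank K F = p) (hS : S.Nonempty) :
    Nat.card (Fermat.Agent.CFT.A.H0hat (repCS S F K)) ≠ 0 ∧
      Nat.card (Fermat.Agent.CFT.A.Hm1hat (repCS S F K)) ≠ 0 ∧
      Nat.card (Fermat.Agent.CFT.A.H0hat (repCS S F K)) =
        p * Nat.card (Fermat.Agent.CFT.A.Hm1hat (repCS S F K)) := by
  obtain ⟨σ, hσ⟩ := exists_generator (K := K) (F := F) hKF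
  exact card_H0hat_repCS S hp2 hKF σ hσ hS (herbrand_sigA S hKF σ hσ)

/-- **First inequality, element form**: a `Gal(F/K)`-invariant class of `CS S F` which is not a
norm. -/
theorem exists_invariant_not_galNorm_uncond [Fintype (F ≃ₐ[K] F)] (hp2 : p ≠ 2)
    (hKF : Module.finrank K F = p) (hS : S.Nonempty) :
    ∃ c : CS S F, (∀ τ : F ≃ₐ[K] F, τ • c = c) ∧
      ∀ y : CS S F, c ≠ ∏ τ : F ≃ₐ[K] F, τ • y := by
  obtain ⟨σ, hσ⟩ := exists_generator (K := K) (F := F) hKF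
  exact exists_invariant_not_galNorm S hp2 hKF σ hσ hS (herbrand_sigA S hKF σ hσ)

end Fermat.Agent.CFT.H63
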