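/-
CFT layer C, package C-EXIST (helper3, co-owner): arithmetic inputs of the existence theorem mod `p`
at level `S` (helper51's plan v3), in `H23.normSubgroup` vocabulary.

* (N1) `exists_not_mem_normSubgroup`, `normSubgroup_ne_top` : for `M/K` cyclic of odd prime degree
  `p`, unramified outside `S ≠ ∅`, the norm subgroup of `CS S K` is proper (first inequality +
  Galois descent) -- the core of right-nondegeneracy (hnd);
* (N2) `jsToCS_mem_normSubgroup` : if `ε` is a `p`-th power in `JS S K` then the class of every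
  `S`-idele is a norm from `K(ε^{1/p})` (helper10's split-norm) -- the core of (hsplit);
* (N3) `ClS S K`, `csToClS`, `ker_csToClS`, `csModJsEquiv : CS S K ⧸ range (jsToCS) ≃* ClS S K`.
-/
import Mathlib
import Fermat.Agent.CFT.H23_CNorm
import Fermat.Agent.CFT.H51_ExistHybrid
import Fermat.Agent.CFT.H10_ExistSplitNorm
import Fermat.Agent.CFT.H63_FirstIneqUncond

set_option autoImplicit false

namespace Fermat.Agent.CFT.H3

open scoped TensorProduct NumberField
open IsDedekindDomain Fermat.Agent.CFT.H23 Fermat.Agent.CFT.H10 Fermat.Agent.CFT.H51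

noncomputable section

/-! ### (N1) the norm subgroup of a cyclic layer of odd prime degree is proper -/

section N1

variable (S : Finset Nat.Primes) {K M : Type} [Field K] [NumberField K] [Field M] [NumberField M]
  [Algebra K M] [IsGalois K M] {p : ℕ} [Fact p.Prime]

/-- **First inequality, norm-subgroup form**: some class of `CS S K` is not a norm from `M`. -/
theorem exists_not_mem_normSubgroup (hp2 : p ≠ 2) (hKM : Module.finrank K M = p)
    (hS : S.Nonempty) (hur : UnramOutside S K M) : ∃ a : CS S K, a ∉ normSubgroup S K M := by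
  obtain ⟨c, hc, hcn⟩ := H63.exists_invariant_not_galNorm_uncond S hp2 hKM hS
  obtain ⟨a, ha⟩ := CS.exists_baseChange_eq S K M hS hur c hc
  refine ⟨a, fun h => ?_⟩
  obtain ⟨m, hm⟩ := (mem_normSubgroup_iff S K M a).1 h
  refine hcn m ?_
  rw [← ha, ← hm, galNorm_apply]

theorem normSubgroup_ne_top (hp2 : p ≠ 2) (hKM : Module.finrank K M = p)
    (hS : S.Nonempty) (hur : UnramOutside S K M) : normSubgroup S K M ≠ ⊤ := by
  obtain ⟨a, ha⟩ := exists_not_mem_normSubgroup S hp2 hKM hS hur
  intro h
  exact ha (h ▸ Subgroup.mem_top a)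

end N1

/-! ### (N2) locally trivial Kummer classes: every `S`-idele class is a norm -/

section N2

variable (S : Finset Nat.Primes) {K L : Type*} [Field K] [NumberField K] [Field L] [NumberField L]
  [Algebra K L]

theorem fst_galNormIdS (x : IdS S L) :
    (galNormIdS S K L x).1 = ∏ σ : L ≃ₐ[K] L, σ • x.1 := by
  rw [galNormIdS_apply, Prod.fst_prod]
  rfl

theorem snd_galNormIdS (x : IdS S L) :
    (galNormIdS S K L x).2 = ∏ σ : L ≃ₐ[K] L, σ • x.2 := by
  rw [galNormIdS_apply, Prod.snd_prod]
  rfl

/-- **Split places: everything is a norm.** If `ε = η ^ p` in `JS S K` then the class of every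
`S`-idele of `K` is a norm from `L = K(ε^{1/p})`. -/
theorem jsToCS_mem_normSubgroup [IsGalois K L] {p : ℕ} (hp : p.Prime)
    (hdeg : Module.finrank K L = p) {ζ : K} (hζ : IsPrimitiveRoot ζ p) (ε : Kˣ) (α : L)
    (hα : α ^ p = algebraMap K L (ε : K)) (hαK : ∀ c : K, algebraMap K L c ≠ α) (η : JS S K)
    (hη : η ^ p = diagJ S K ε) (j : JS S K) : jsToCS S K j ∈ normSubgroup S K L := by
  obtain ⟨y, hy⟩ := exists_JS_norm S hp hdeg hζ ε α hα hαK η hη j
  rw [mem_normSubgroup_iff]
  refine ⟨toCS S L (y, 1), ?_⟩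
  rw [galNorm_toCS, jsToCS_apply, CS.baseChange_toCS]
  congr 1
  refine Prod.ext ?_ ?_
  · rw [fst_galNormIdS, IdS.baseChange_fst]
    exact hy.symm
  · rw [snd_galNormIdS]
    show ∏ σ : L ≃ₐ[K] L, σ • (1 : Multiplicative (DivS S L)) = (IdS.baseChange S K L (j, 1)).2
    have h1 : (IdS.baseChange S K L (j, 1)).2 = 1 := by
      show (DivS.baseChange S K L).toMultiplicative 1 = 1
      exact map_one _
    rw [h1]
    exact Finset.prod_eq_one fun σ _ => smul_one σ

end N2

/-! ### (N3) the `S`-class group of the hybrid model -/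

section N3

variable (S : Finset Nat.Primes) (K : Type*) [Field K] [NumberField K]

/-- The `S`-class group: divisors prime to `S` modulo principal divisors. -/
abbrev ClS : Type _ := Multiplicative (DivS S K) ⧸ (divS S K).range

/-- The map `CS S K → Cl_S(K)`, `[(j, D)] ↦ [D]`. -/
def csToClS : CS S K →* ClS S K :=
  QuotientGroup.map _ _ (MonoidHom.snd (JS S K) (Multiplicative (DivS S K))) <| by
    rintro _ ⟨x, rfl⟩
    exact ⟨x, rfl⟩

theorem csToClS_toCS (x : IdS S K) :
    csToClS S K (toCS S K x) = (QuotientGroup.mk x.2 : ClS S K) := rfl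

theorem csToClS_surjective : Function.Surjective (csToClS S K) := by
  intro c
  induction c using QuotientGroup.induction_on with
  | H D => exact ⟨toCS S K (1, D), rfl⟩

/-- The kernel of `CS S K → Cl_S(K)` is the image of the `S`-ideles. -/
theorem ker_csToClS : (csToClS S K).ker = (jsToCS S K).range := by
  ext c
  induction c using QuotientGroup.induction_on with
  | H x =>
    obtain ⟨j, D⟩ := x
    rw [MonoidHom.mem_ker]
    show (QuotientGroup.mk D : ClS S K) = 1 ↔ _
    rw [QuotientGroup.eq_one_iff]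
    constructor
    · rintro ⟨y, hy⟩
      refine ⟨j * (diagJ S K y)⁻¹, ?_⟩
      rw [jsToCS_apply]
      show (QuotientGroup.mk (j * (diagJ S K y)⁻¹, 1) : CS S K) = QuotientGroup.mk (j, D)
      rw [QuotientGroup.eq]
      refine ⟨y, Prod.ext ?_ ?_⟩
      · show diagJ S K y = (j * (diagJ S K y)⁻¹)⁻¹ * j
        group
      · show divS S K y = (1 : Multiplicative (DivS S K))⁻¹ * D
        rw [hy, inv_one, one_mul]
    · rintro ⟨j', hj'⟩
      rw [jsToCS_apply] at hj'
      have h1 : (QuotientGroup.mk (j', 1) : CS S K) = QuotientGroup.mk (j, D) := hj'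
      rw [QuotientGroup.eq] at h1
      obtain ⟨y, hy⟩ := h1
      refine ⟨y, ?_⟩
      have h2 := congrArg Prod.snd hy
      have h3 : divS S K y = (1 : Multiplicative (DivS S K))⁻¹ * D := h2
      rw [h3, inv_one, one_mul]

/-- `CS S K ⧸ (image of JS S K) ≃ Cl_S(K)`. -/
def csModJsEquiv : CS S K ⧸ (jsToCS S K).range ≃* ClS S K :=
  (QuotientGroup.quotientMulEquivOfEq (ker_csToClS S K).symm).trans
    (QuotientGroup.quotientKerEquivOfSurjective _ (csToClS_surjective S K))

end N3

end

end Fermat.Agent.CFT.H3
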