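import Mathlib
import Fermat.Agent.CFT.H3_ExistInputs
import Fermat.Agent.CFT.H34_RayBridge
import Fermat.Agent.CFT.H10_ExistJS
import Fermat.Agent.CFT.H10_ExistUnits

set_option autoImplicit false

/-!
# CFT / C-EXIST (helper10): finiteness of `Cl_S`, of `C_S / p`, and the Kummer sequence count

`K` a number field, `S` a finite set of rational primes, hybrid vocabulary of `H23_CDefs`.

* `finite_ClS` : `Cl_S(K) = Div^S / principal` (helper3's `ClS`) is finite;
* `card_quot_pow_eq_card_torsion` : `#(G / Gⁿ) = #G[n]` for a finite commutative group;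
* `finite_JS_quot_pow`, `finite_CS_quot_pow` : `J_S / p` and `C_S / p` are finite (FIN at finite
  level);
* `XS S K p` : the Kummer classes unramified outside `S` (`p ∣ ord_v x` for all `v ∉ S`), with
  the Kummer sequence `1 → E_S / p → X_S / Kˣᵖ → Cl_S[p] → 1` in the form of the count
  `card_XS_quot`.
-/

namespace Fermat.Agent.CFT.H10

open scoped NumberField
open IsDedekindDomain Fermat.Agent.CFT.H23 Fermat.Agent.CFT.H51 Fermat.Agent.CFT.H3

section Generic

/-- `#(G / Gⁿ) = #G[n]` for a finite commutative group. -/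
theorem card_quot_pow_eq_card_torsion {G : Type*} [CommGroup G] [Finite G] (n : ℕ) :
    Nat.card (G ⧸ powSubgroup G n) = Nat.card {c : G // c ^ n = 1} := by
  have h1 := Subgroup.card_mul_index (powMonoidHom n : G →* G).ker
  have h2 := Subgroup.card_mul_index (powSubgroup G n)
  rw [Subgroup.index_ker] at h1
  have h3 : Nat.card (powSubgroup G n) ≠ 0 := Nat.card_pos.ne'
  have h4 : (powSubgroup G n).index = Nat.card (powMonoidHom n : G →* G).ker := by
    have : Nat.card (powSubgroup G n) * (powSubgroup G n).index =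
        Nat.card (powSubgroup G n) * Nat.card (powMonoidHom n : G →* G).ker := by
      rw [h2, mul_comm, h1]
    exact Nat.eq_of_mul_eq_mul_left (Nat.pos_of_ne_zero h3) this
  rw [← Subgroup.index_eq_card, h4]
  exact Nat.card_congr (Equiv.subtypeEquivRight fun c => Iff.rfl)

/-- Finiteness of `C / Cⁿ` from an exact sequence `J → C → Q` with `J / Jⁿ` and `Q` finite. -/
theorem finite_quot_pow_of_exact {J C Q : Type*} [CommGroup J] [CommGroup C] [CommGroup Q]
    (φ : J →* C) (ψ : C →* Q) (hex : ψ.ker = φ.range) (n : ℕ)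
    [Finite (J ⧸ powSubgroup J n)] [Finite Q] : Finite (C ⧸ powSubgroup C n) := by
  let Ψ : C ⧸ powSubgroup C n →* Q ⧸ (powSubgroup C n).map ψ :=
    QuotientGroup.map _ _ ψ (Subgroup.le_comap_map ψ _)
  rw [Ψ.finite_iff_finite_ker_range]
  refine ⟨?_, inferInstance⟩
  have hker : (Ψ.ker : Set (C ⧸ powSubgroup C n)) ⊆ Set.range (quotPowMap φ n) := by
    intro x hx
    induction x using QuotientGroup.induction_on with
    | H c =>
      have h1 : (QuotientGroup.mk (ψ c) : Q ⧸ (powSubgroup C n).map ψ) = 1 := hx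
      rw [QuotientGroup.eq_one_iff] at h1
      obtain ⟨d, hd, hdc⟩ := h1
      have h2 : c * d⁻¹ ∈ ψ.ker := by
        rw [MonoidHom.mem_ker, map_mul, map_inv, hdc, mul_inv_cancel]
      rw [hex] at h2
      obtain ⟨j, hj⟩ := h2
      refine ⟨QuotientGroup.mk j, ?_⟩
      rw [quotPowMap_mk, hj]
      rw [QuotientGroup.eq]
      have : (c * d⁻¹)⁻¹ * c = d := by group
      rw [this]
      exact hd
  exact ((Set.finite_range _).subset hker).to_subtype

end Generic

section ClassGroup

variable (S : Finset Nat.Primes) (K : Type*) [Field K] [NumberField K]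

theorem prod_primes_dvd_iff_mem (q : Nat.Primes) : (q : ℕ) ∣ (∏ r ∈ S, (r : ℕ)) ↔ q ∈ S := by
  constructor
  · intro h
    obtain ⟨r, hr, hqr⟩ := (Prime.dvd_finsetProd_iff (Nat.Prime.prime q.2) _).mp h
    have : (q : ℕ) = r := (Nat.prime_dvd_prime_iff_eq q.2 r.2).mp hqr
    rwa [Subtype.ext this]
  · intro h
    exact Finset.dvd_prod_of_mem _ h

/-- **The `S`-class group is finite** (quotient of a ray class group). -/
instance finite_ClS : Finite (ClS S K) := by
  classical
  have hN0 : (∏ r ∈ S, (r : ℕ)) ≠ 0 := Finset.prod_ne_zero_iff.mpr (fun r _ => r.2.ne_zero)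
  have hN := prod_primes_dvd_iff_mem S
  have h𝔪 := H34.span_natCast_ne_bot (K := K) _ hN0
  have : Finite (H34.RayClassGroup K (Ideal.span {((∏ r ∈ S, (r : ℕ) : ℕ) : 𝓞 K)})) :=
    H34.finite_rayClassGroup h𝔪
  have hker : (H34.rayOfDivS (K := K) S _ hN0 hN).ker ≤ (divS S K).range := by
    intro D hD
    obtain ⟨c, a, b, -, -, -, -, hdiv⟩ :=
      H34.exists_of_rayOfDivS_eq_one S _ hN0 hN (Multiplicative.toAdd D) hD
    exact ⟨c, hdiv⟩
  have : (divS S K).range.FiniteIndex := Subgroup.finiteIndex_of_le hker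
  exact Subgroup.finite_quotient_of_finiteIndex

/-- `#(Cl_S / p) = #Cl_S[p]`. -/
theorem card_ClS_quot_pow (p : ℕ) :
    Nat.card (ClS S K ⧸ powSubgroup (ClS S K) p) = Nat.card {c : ClS S K // c ^ p = 1} :=
  card_quot_pow_eq_card_torsion p

end ClassGroup

section Fin

open Fermat.Agent.CFT.H54 Fermat.Agent.CFT Fermat.Agent.CFT.H63

variable (S : Finset Nat.Primes) (K : Type) [Field K] [NumberField K]

/-- `K_𝔪ˣ / p` is finite (no root of unity needed). -/
theorem card_locField_units_quot_pow_ne_zero {q : Nat.Primes} {p : ℕ} (hp : p.Prime)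
    (𝔪 : Place K q) : Nat.card ((locField 𝔪)ˣ ⧸ powSubgroup (locField 𝔪)ˣ p) ≠ 0 := by
  have : NeZero p := ⟨hp.ne_zero⟩
  have h := card_units_quot_pow_loc (q : ℕ) (locField 𝔪) hp
  rw [show powSubgroup (locField 𝔪)ˣ p = (powMonoidHom p : (locField 𝔪)ˣ →* (locField 𝔪)ˣ).range
    from rfl, h]
  have h1 : Nat.card (rootsOfUnity p (locField 𝔪)) ≠ 0 := Nat.card_pos.ne'
  refine mul_ne_zero (mul_ne_zero hp.ne_zero h1) ?_
  split_ifs
  · exact pow_ne_zero _ hp.ne_zero
  · exact one_ne_zero

/-- `(K ⊗ ℚ_q)ˣ / p` is finite. -/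
theorem card_loc_units_quot_pow_ne_zero (q : Nat.Primes) {p : ℕ} (hp : p.Prime) :
    Nat.card ((Loc K q)ˣ ⧸ powSubgroup (Loc K q)ˣ p) ≠ 0 := by
  classical
  haveI : Fintype (Place K q) := Fintype.ofFinite _
  rw [card_quot_pow_congr (locUnitsEquivPi K q) p, card_pi_quot_pow]
  exact Finset.prod_ne_zero_iff.2 fun 𝔪 _ => card_locField_units_quot_pow_ne_zero K hp 𝔪

/-- `J_S / p` is finite. -/
theorem card_JS_quot_pow_ne_zero {p : ℕ} (hp : p.Prime) :
    Nat.card (JS S K ⧸ powSubgroup (JS S K) p) ≠ 0 := by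
  classical
  rw [card_pi_quot_pow]
  exact Finset.prod_ne_zero_iff.2 fun q _ => card_loc_units_quot_pow_ne_zero K q.1 hp

theorem finite_JS_quot_pow {p : ℕ} (hp : p.Prime) :
    Finite (JS S K ⧸ powSubgroup (JS S K) p) :=
  Nat.finite_of_card_ne_zero (card_JS_quot_pow_ne_zero S K hp)

/-- **FIN at finite level**: `C_S(K) / p` is finite. -/
theorem finite_CS_quot_pow {p : ℕ} (hp : p.Prime) :
    Finite (CS S K ⧸ powSubgroup (CS S K) p) := by
  have := finite_JS_quot_pow S K hp
  exact finite_quot_pow_of_exact (jsToCS S K) (csToClS S K) (ker_csToClS S K) p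

end Fin

end Fermat.Agent.CFT.H10
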