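import Mathlib
import Fermat.Agent.CFT.H10_ExistUnits
import Fermat.Agent.CFT.H10_ExistJS

set_option autoImplicit false

/-!
# CFT / C-EXIST (h3) (helper10): `#(J_T / p) ≤ #(E_T / p) ^ 2`

Numeric consequence of the two counts `H10.card_unitsS_quot_pow` and `H10.card_JS_quot_pow'`:
`[K : ℚ] = r₁ + 2 r₂ ≤ 2 (r₁ + r₂) = 2 (rank + 1)`.
-/

namespace Fermat.Agent.CFT.H10

open scoped NumberField
open IsDedekindDomain NumberField Fermat.Agent.CFT.H23 Fermat.Agent.CFT.H51 Fermat.Agent.CFT.H63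

/-- `[K : ℚ] ≤ 2 (rank 𝓞_K^× + 1)`. -/
theorem finrank_le_two_mul_rank_add_one (K : Type*) [Field K] [NumberField K] :
    Module.finrank ℚ K ≤ 2 * (NumberField.Units.rank K + 1) := by
  have h1 := InfinitePlace.card_add_two_mul_card_eq_rank K
  have h2 : Fintype.card (InfinitePlace K)
      = InfinitePlace.nrRealPlaces K + InfinitePlace.nrComplexPlaces K :=
    InfinitePlace.card_eq_nrRealPlaces_add_nrComplexPlaces K
  have h3 : 0 < Fintype.card (InfinitePlace K) := Fintype.card_pos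
  unfold NumberField.Units.rank
  omega

variable (T : Finset Nat.Primes) (K : Type) [Field K] [NumberField K]

/-- **(h3)**: `#(J_T / J_T ^ p) ≤ #(E_T / E_T ^ p) ^ 2` (`μ_p ⊆ K`, `p ∈ T`). -/
theorem card_JS_quot_pow_le_sq {p : ℕ} (hp : p.Prime) (hpT : (⟨p, hp⟩ : Nat.Primes) ∈ T) {ζ : K}
    (hζ : IsPrimitiveRoot ζ p) :
    Nat.card (JS T K ⧸ powSubgroup (JS T K) p) ≤
      Nat.card (unitsS T K ⧸ powSubgroup (unitsS T K) p) ^ 2 := by
  classical
  set TK := (primesAboveS_finite T K).toFinset with hTKdef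
  have hTK : ∀ u, u ∈ TK ↔ u ∈ primesAboveS T K := fun u => Set.Finite.mem_toFinset _
  rw [card_JS_quot_pow' T K hp hpT hζ TK hTK, card_unitsS_quot_pow T K hp hζ TK hTK, ← pow_mul]
  apply Nat.pow_le_pow_right hp.pos
  have := finrank_le_two_mul_rank_add_one K
  omega

/-- `[K : ℚ] = 2 (rank 𝓞_K^× + 1)` when `K` contains a primitive `k`-th root of unity, `k > 2`
(`K` is totally complex). -/
theorem finrank_eq_two_mul_rank_add_one {K : Type*} [Field K] [NumberField K] {k : ℕ}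
    (hk : 2 < k) {ζ : K} (hζ : IsPrimitiveRoot ζ k) :
    Module.finrank ℚ K = 2 * (NumberField.Units.rank K + 1) := by
  have h0 := NumberField.InfinitePlace.IsPrimitiveRoot.nrRealPlaces_eq_zero_of_two_lt hk hζ
  have h1 := InfinitePlace.card_add_two_mul_card_eq_rank K
  have h2 : Fintype.card (InfinitePlace K)
      = InfinitePlace.nrRealPlaces K + InfinitePlace.nrComplexPlaces K :=
    InfinitePlace.card_eq_nrRealPlaces_add_nrComplexPlaces K
  have h3 : 0 < Fintype.card (InfinitePlace K) := Fintype.card_pos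
  unfold NumberField.Units.rank
  omega

/-- **(h3), equality form**: `#(J_T / J_T ^ p) = #(E_T / E_T ^ p) ^ 2` for `p` odd
(`μ_p ⊆ K`, `p ∈ T`). -/
theorem card_JS_quot_pow_eq_sq {p : ℕ} (hp : p.Prime) (hp2 : p ≠ 2)
    (hpT : (⟨p, hp⟩ : Nat.Primes) ∈ T) {ζ : K} (hζ : IsPrimitiveRoot ζ p) :
    Nat.card (JS T K ⧸ powSubgroup (JS T K) p) =
      Nat.card (unitsS T K ⧸ powSubgroup (unitsS T K) p) ^ 2 := by
  classical
  set TK := (primesAboveS_finite T K).toFinset with hTKdef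
  have hTK : ∀ u, u ∈ TK ↔ u ∈ primesAboveS T K := fun u => Set.Finite.mem_toFinset _
  have h2 : 2 < p := lt_of_le_of_ne hp.two_le (Ne.symm hp2)
  rw [card_JS_quot_pow' T K hp hpT hζ TK hTK, card_unitsS_quot_pow T K hp hζ TK hTK, ← pow_mul,
    finrank_eq_two_mul_rank_add_one h2 hζ]
  congr 1
  ring

end Fermat.Agent.CFT.H10
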