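import Mathlib
import Fermat.Agent.CFT.H10_ExistClS

set_option autoImplicit false

/-!
# CFT / C-EXIST (helper10): the Kummer sequence `1 → E_S / p → X_S / Kˣᵖ → Cl_S[p] → 1`

`K` a number field, `S` a finite set of rational primes, hybrid vocabulary of `H23_CDefs`.

* `XS S K p` : the subgroup of `x ∈ Kˣ` with `p ∣ ord_v x` for all primes `v` outside `S`
  (the Kummer classes unramified outside `S`);
* `exists_pow_eq_divS` : for `x ∈ X_S` the divisor of `x` is a `p`-th power;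
* `kummerToClS : X_S →* Cl_S`, `x ↦ [div_S(x) / p]`, with kernel `E_S · Kˣᵖ` and range `Cl_S[p]`;
* `relIndex_pow_XS`, `card_XS_quot` : `[X_S : Kˣᵖ] = #(E_S / p) · #Cl_S[p]`.
-/

namespace Fermat.Agent.CFT.H10

open scoped NumberField
open IsDedekindDomain Fermat.Agent.CFT.H23 Fermat.Agent.CFT.H51 Fermat.Agent.CFT.H3

section KummerSeq

variable (S : Finset Nat.Primes) (K : Type*) [Field K] [NumberField K] (p : ℕ)

/-- The Kummer classes unramified outside `S`: `p ∣ ord_v x` for every prime `v` outside `S`. -/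
def XS : Subgroup Kˣ where
  carrier := {x | ∀ v : PrimesOutside S K, ∃ k : ℤ,
    Multiplicative.toAdd (ordAt K v.1 x) = p * k}
  one_mem' := fun v => ⟨0, by simp⟩
  mul_mem' := by
    intro x y hx hy v
    obtain ⟨a, ha⟩ := hx v
    obtain ⟨b, hb⟩ := hy v
    exact ⟨a + b, by rw [map_mul, toAdd_mul, ha, hb, mul_add]⟩
  inv_mem' := by
    intro x hx v
    obtain ⟨a, ha⟩ := hx v
    exact ⟨-a, by rw [map_inv, toAdd_inv, ha, mul_neg]⟩

variable {S K p}

theorem mem_XS_iff {x : Kˣ} : x ∈ XS S K p ↔ ∀ v : PrimesOutside S K, ∃ k : ℤ,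
    Multiplicative.toAdd (ordAt K v.1 x) = p * k := Iff.rfl

variable (S K p)

theorem powSubgroup_le_XS : powSubgroup Kˣ p ≤ XS S K p := by
  rintro _ ⟨y, rfl⟩ v
  refine ⟨Multiplicative.toAdd (ordAt K v.1 y), ?_⟩
  show Multiplicative.toAdd (ordAt K v.1 (y ^ p)) = _
  rw [map_pow, toAdd_pow, nsmul_eq_mul]

theorem unitsS_le_XS : unitsS S K ≤ XS S K p := by
  intro x hx v
  refine ⟨0, ?_⟩
  rw [mul_zero, ← divS_apply, (mem_unitsS_iff S K).1 hx]
  rfl

variable {S K p}

/-- For `x ∈ X_S` the divisor of `x` outside `S` is a `p`-th power. -/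
theorem exists_pow_eq_divS {x : Kˣ} (hx : x ∈ XS S K p) :
    ∃ D : Multiplicative (DivS S K), D ^ p = divS S K x := by
  refine ⟨Multiplicative.ofAdd (Finsupp.mapRange (fun n : ℤ => n / (p : ℤ)) (by simp)
    (Multiplicative.toAdd (divS S K x))), ?_⟩
  rw [← ofAdd_nsmul]
  apply congrArg Multiplicative.ofAdd
  ext v
  obtain ⟨k, hk⟩ := hx v
  have hv : (Multiplicative.toAdd (divS S K x)) v = p * k := hk
  show (p • Finsupp.mapRange (fun n : ℤ => n / (p : ℤ)) _
    (Multiplicative.toAdd (divS S K x))) v = (Multiplicative.toAdd (divS S K x)) v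
  rw [Finsupp.smul_apply, Finsupp.mapRange_apply, nsmul_eq_mul, hv]
  by_cases hp : (p : ℤ) = 0
  · rw [hp]; simp
  · rw [Int.mul_ediv_cancel_left _ hp]

/-- conversely, if the divisor of `x` is a `p`-th power then `x ∈ X_S`. -/
theorem mem_XS_of_pow_eq_divS {x : Kˣ} {D : Multiplicative (DivS S K)}
    (h : D ^ p = divS S K x) : x ∈ XS S K p := by
  intro v
  refine ⟨Multiplicative.toAdd D v, ?_⟩
  rw [← divS_apply, ← h, toAdd_pow, Finsupp.smul_apply, nsmul_eq_mul]

theorem mem_XS_iff_exists_pow_eq_divS {x : Kˣ} :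
    x ∈ XS S K p ↔ ∃ D : Multiplicative (DivS S K), D ^ p = divS S K x :=
  ⟨exists_pow_eq_divS, fun ⟨_, h⟩ => mem_XS_of_pow_eq_divS h⟩

variable (S K p)

/-- The `p`-th root of the divisor of `x ∈ X_S`. -/
noncomputable def rootDiv (x : XS S K p) : Multiplicative (DivS S K) :=
  (exists_pow_eq_divS x.2).choose

theorem rootDiv_pow (x : XS S K p) : rootDiv S K p x ^ p = divS S K (x : Kˣ) :=
  (exists_pow_eq_divS x.2).choose_spec

variable {S K p}

theorem rootDiv_eq (hp : p ≠ 0) (x : XS S K p) {D : Multiplicative (DivS S K)}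
    (h : D ^ p = divS S K (x : Kˣ)) : rootDiv S K p x = D := by
  have h1 : (rootDiv S K p x * D⁻¹) ^ p = 1 := by
    rw [mul_pow, inv_pow, rootDiv_pow, h, mul_inv_cancel]
  exact mul_inv_eq_one.1 (divS_pow_eq_one S K hp h1)

variable (S K)

/-- The boundary map of the Kummer sequence: `X_S → Cl_S`, `x ↦ [div_S(x) / p]`. -/
noncomputable def kummerToClS (hp : p ≠ 0) : XS S K p →* ClS S K :=
  MonoidHom.mk' (fun x => (QuotientGroup.mk (rootDiv S K p x) : ClS S K)) <| by
    intro x y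
    rw [← QuotientGroup.mk_mul]
    congr 1
    refine rootDiv_eq hp (x * y) ?_
    rw [mul_pow, rootDiv_pow, rootDiv_pow, Subgroup.coe_mul, map_mul]

theorem kummerToClS_apply (hp : p ≠ 0) (x : XS S K p) :
    kummerToClS S K hp x = (QuotientGroup.mk (rootDiv S K p x) : ClS S K) := rfl

/-- the kernel of the boundary map is `E_S · Kˣᵖ`. -/
theorem ker_kummerToClS (hp : p ≠ 0) :
    (kummerToClS S K hp).ker = (unitsS S K ⊔ powSubgroup Kˣ p).subgroupOf (XS S K p) := by
  ext x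
  rw [MonoidHom.mem_ker, kummerToClS_apply, QuotientGroup.eq_one_iff, Subgroup.mem_subgroupOf]
  constructor
  · rintro ⟨y, hy⟩
    have h1 : divS S K ((x : Kˣ) * (y ^ p)⁻¹) = 1 := by
      rw [map_mul, map_inv, map_pow, hy, rootDiv_pow, mul_inv_cancel]
    have h2 : (x : Kˣ) = ((x : Kˣ) * (y ^ p)⁻¹) * y ^ p := by group
    rw [h2]
    exact Subgroup.mul_mem_sup ((mem_unitsS_iff S K).2 h1) ⟨y, rfl⟩
  · intro hx
    rw [Subgroup.mem_sup] at hx
    obtain ⟨e, he, _, ⟨y, rfl⟩, hxy⟩ := hx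
    refine ⟨y, ?_⟩
    symm
    refine rootDiv_eq hp x ?_
    rw [← map_pow, ← hxy, map_mul, (mem_unitsS_iff S K).1 he, one_mul]
    rfl

/-- the range of the boundary map is `Cl_S[p]`. -/
theorem range_kummerToClS (hp : p ≠ 0) :
    (kummerToClS S K hp).range = (powMonoidHom p : ClS S K →* ClS S K).ker := by
  ext c
  rw [MonoidHom.mem_ker, powMonoidHom_apply]
  constructor
  · rintro ⟨x, rfl⟩
    rw [kummerToClS_apply, ← QuotientGroup.mk_pow, rootDiv_pow, QuotientGroup.eq_one_iff]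
    exact ⟨_, rfl⟩
  · intro hc
    induction c using QuotientGroup.induction_on with
    | H D =>
      rw [← QuotientGroup.mk_pow, QuotientGroup.eq_one_iff] at hc
      obtain ⟨x, hx⟩ := hc
      refine ⟨⟨x, mem_XS_of_pow_eq_divS hx.symm⟩, ?_⟩
      rw [kummerToClS_apply]
      congr 1
      exact rootDiv_eq hp _ hx.symm

/-- `Kˣᵖ ∩ E_S = E_Sᵖ`. -/
theorem powSubgroup_subgroupOf_unitsS (hp : p ≠ 0) :
    (powSubgroup Kˣ p).subgroupOf (unitsS S K) = powSubgroup (unitsS S K) p := by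
  ext x
  rw [Subgroup.mem_subgroupOf]
  constructor
  · rintro ⟨y, hy⟩
    have hy' : y ^ p = (x : Kˣ) := hy
    have hmem : y ∈ unitsS S K := mem_unitsS_of_pow_mem S K hp (by rw [hy']; exact x.2)
    exact ⟨⟨y, hmem⟩, Subtype.ext hy'⟩
  · rintro ⟨y, rfl⟩
    exact ⟨(y : Kˣ), rfl⟩

/-- **The Kummer sequence count**, index form:
`[X_S : Kˣᵖ] = #(E_S / E_Sᵖ) · #Cl_S[p]`. -/
theorem relIndex_pow_XS (hp : p ≠ 0) :
    (powSubgroup Kˣ p).relIndex (XS S K p) =
      Nat.card (unitsS S K ⧸ powSubgroup (unitsS S K) p) *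
        Nat.card {c : ClS S K // c ^ p = 1} := by
  have hle1 : powSubgroup Kˣ p ≤ unitsS S K ⊔ powSubgroup Kˣ p := le_sup_right
  have hle2 : unitsS S K ⊔ powSubgroup Kˣ p ≤ XS S K p :=
    sup_le (unitsS_le_XS S K p) (powSubgroup_le_XS S K p)
  rw [← Subgroup.relIndex_mul_relIndex _ _ _ hle1 hle2, Subgroup.relIndex_sup_right]
  congr 1
  · rw [Subgroup.relIndex, powSubgroup_subgroupOf_unitsS S K hp, Subgroup.index_eq_card]
  · rw [Subgroup.relIndex, ← ker_kummerToClS S K hp, Subgroup.index_ker,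
      range_kummerToClS S K hp]
    exact Nat.card_congr (Equiv.subtypeEquivRight fun c => Iff.rfl)

/-- **The Kummer sequence count**, quotient form. -/
theorem card_XS_quot (hp : p ≠ 0) :
    Nat.card (XS S K p ⧸ (powSubgroup Kˣ p).subgroupOf (XS S K p)) =
      Nat.card (unitsS S K ⧸ powSubgroup (unitsS S K) p) *
        Nat.card {c : ClS S K // c ^ p = 1} := by
  rw [← Subgroup.index_eq_card]
  exact relIndex_pow_XS S K hp

/-- the index `[X_S : Kˣᵖ]` is finite (nonzero) as soon as `E_S / p` is. -/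
theorem relIndex_pow_XS_ne_zero (hp : p ≠ 0)
    (hE : Nat.card (unitsS S K ⧸ powSubgroup (unitsS S K) p) ≠ 0) :
    (powSubgroup Kˣ p).relIndex (XS S K p) ≠ 0 := by
  rw [relIndex_pow_XS S K hp]
  have : Nonempty {c : ClS S K // c ^ p = 1} := ⟨⟨1, one_pow p⟩⟩
  exact mul_ne_zero hE Nat.card_pos.ne'

end KummerSeq

end Fermat.Agent.CFT.H10
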