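import Mathlib
import Fermat.Agent.CFT.H10_ExistKummerSeq
import Fermat.Agent.CFT.H10_ExistIneq

set_option autoImplicit false

/-!
# CFT / C-EXIST (T3) (helper10): the count `hcount` of the existence theorem at level `S`

`#(J_S / p) · [C_S : ι(J_S) · C_Sᵖ]² ≤ [X_S : Kˣᵖ]²` for `K ∋ μ_p`, `p ∈ S`: the left factor is at
most `#(E_S / p)²`, the index is `#(Cl_S / p) = #Cl_S[p]`, and `[X_S : Kˣᵖ] = #(E_S / p) · #Cl_S[p]`
(Kummer sequence).  This is the hypothesis `hcount` of `H3.exists_pow_eq_of_pairing` at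
`C := CS S K`, `J := JS S K`, `ι := jsToCS S K`, `G := Kˣ`, `X := XS S K p`.
-/

namespace Fermat.Agent.CFT.H10

open scoped NumberField
open IsDedekindDomain Fermat.Agent.CFT.H23 Fermat.Agent.CFT.H51 Fermat.Agent.CFT.H3
  Fermat.Agent.CFT.H63

section Generic

/-- For `φ : C → Q` onto with kernel `ι(J)`: `[C : ι(J) · Cⁿ] = #(Q / Qⁿ)`. -/
theorem index_range_sup_pow_eq {J C Q : Type*} [CommGroup J] [CommGroup C] [CommGroup Q]
    (ι : J →* C) (φ : C →* Q) (hφ : Function.Surjective φ) (hker : φ.ker = ι.range) (n : ℕ) :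
    (ι.range ⊔ powSubgroup C n).index = Nat.card (Q ⧸ powSubgroup Q n) := by
  have h1 : ι.range ⊔ powSubgroup C n = (powSubgroup Q n).comap φ := by
    ext x
    rw [Subgroup.mem_comap, Subgroup.mem_sup]
    constructor
    · rintro ⟨y, hy, _, ⟨c, rfl⟩, rfl⟩
      rw [← hker] at hy
      rw [map_mul, MonoidHom.mem_ker.1 hy, one_mul]
      exact ⟨φ c, by simp⟩
    · rintro ⟨q, hq⟩
      obtain ⟨c, rfl⟩ := hφ q
      have hq' : φ c ^ n = φ x := hq
      refine ⟨x * (c ^ n)⁻¹, ?_, c ^ n, ⟨c, rfl⟩, by group⟩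
      rw [← hker, MonoidHom.mem_ker, map_mul, map_inv, map_pow, hq', mul_inv_cancel]
  rw [h1, Subgroup.index_comap_of_surjective _ hφ, Subgroup.index_eq_card]

end Generic

section Count

variable (S : Finset Nat.Primes) (K : Type) [Field K] [NumberField K] {p : ℕ}

/-- `[C_S : ι(J_S) · C_Sᵖ] = #Cl_S[p]`. -/
theorem index_range_jsToCS_sup_pow (p : ℕ) :
    ((jsToCS S K).range ⊔ powSubgroup (CS S K) p).index =
      Nat.card {c : ClS S K // c ^ p = 1} := by
  have h := @index_range_sup_pow_eq (JS S K) (CS S K) (ClS S K) Pi.commGroup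
    (QuotientGroup.Quotient.commGroup _) (QuotientGroup.Quotient.commGroup _)
    (jsToCS S K) (csToClS S K) (csToClS_surjective S K) (ker_csToClS S K) p
  exact h.trans (card_ClS_quot_pow S K p)

/-- `#(E_S / p) ≠ 0` when `μ_p ⊆ K`. -/
theorem card_unitsS_quot_pow_ne_zero (hp : p.Prime) {ζ : K} (hζ : IsPrimitiveRoot ζ p) :
    Nat.card (unitsS S K ⧸ powSubgroup (unitsS S K) p) ≠ 0 := by
  classical
  set SK := (primesAboveS_finite S K).toFinset with hSKdef
  have hSK : ∀ u, u ∈ SK ↔ u ∈ primesAboveS S K := fun u => Set.Finite.mem_toFinset _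
  rw [card_unitsS_quot_pow S K hp hζ SK hSK]
  exact pow_ne_zero _ hp.ne_zero

/-- `[X_S : Kˣᵖ]` is finite. -/
theorem relIndex_pow_XS_ne_zero' (hp : p.Prime) {ζ : K} (hζ : IsPrimitiveRoot ζ p) :
    (powSubgroup Kˣ p).relIndex (XS S K p) ≠ 0 :=
  relIndex_pow_XS_ne_zero S K hp.ne_zero (card_unitsS_quot_pow_ne_zero S K hp hζ)

/-- **(T3)** the count of the existence theorem at level `S` (no parity hypothesis needed). -/
theorem count_levelS' (hp : p.Prime) (hpS : (⟨p, hp⟩ : Nat.Primes) ∈ S) {ζ : K}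
    (hζ : IsPrimitiveRoot ζ p) :
    Nat.card (JS S K ⧸ powSubgroup (JS S K) p) *
        ((jsToCS S K).range ⊔ powSubgroup (CS S K) p).index ^ 2 ≤
      ((powSubgroup Kˣ p).relIndex (XS S K p)) ^ 2 := by
  rw [index_range_jsToCS_sup_pow S K p, relIndex_pow_XS S K hp.ne_zero, mul_pow]
  exact Nat.mul_le_mul_right _ (card_JS_quot_pow_le_sq S K hp hpS hζ)

/-- **(T3)** in the signature of the hand-out. -/
theorem count_levelS (hp : p.Prime) (_hp2 : p ≠ 2) (hpS : (⟨p, hp⟩ : Nat.Primes) ∈ S) {ζ : K}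
    (hζ : IsPrimitiveRoot ζ p) :
    Nat.card (JS S K ⧸ powSubgroup (JS S K) p) *
        ((jsToCS S K).range ⊔ powSubgroup (CS S K) p).index ^ 2 ≤
      ((powSubgroup Kˣ p).relIndex (XS S K p)) ^ 2 :=
  count_levelS' S K hp hpS hζ

end Count

end Fermat.Agent.CFT.H10
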