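/-
CFT layer C, package C-ARTIN (ideal side), helper27.

The Artin map on divisors prime to `S` in the hybrid vocabulary of `H23_CDefs`:
`artinDiv S L : Multiplicative (DivS S K) →* Gal(L/K)`, `D ↦ ∏_v Frob_v ^ (D v)`,
built on the S14 Artin API (`Fermat.Agent.S14.H27`).
-/
import Mathlib
import Fermat.Agent.CFT.H23_CDefs
import Fermat.Agent.S14.H27_BaseChange
import Fermat.Agent.S14.H27_Split
import Fermat.Agent.S14.H27_Tower

set_option autoImplicit false

namespace Fermat.Agent.CFT.H27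

open NumberField IsDedekindDomain UniqueFactorizationMonoid
open Fermat.Agent.CFT.H23 Fermat.Agent.CFT.H10
open scoped IsMulCommutative Pointwise

noncomputable section

section Defs

variable (S : Finset Nat.Primes) {K : Type*} [Field K] [NumberField K]
  (L : Type*) [Field L] [NumberField L] [Algebra K L] [IsGalois K L]
  [IsMulCommutative Gal(L/K)]

/-- The Frobenius of the abelian extension `L/K` at a finite place of `K`
(junk value when the place ramifies). -/
def frobV (v : HeightOneSpectrum (𝓞 K)) : Gal(L/K) := S14.H27.frobP L v.asIdeal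

/-- The Artin map on all `ℤ`-divisors of `K`. -/
def artinZ : Multiplicative (HeightOneSpectrum (𝓞 K) →₀ ℤ) →* Gal(L/K) where
  toFun D := (Multiplicative.toAdd D).prod fun v n => frobV L v ^ n
  map_one' := Finsupp.prod_zero_index
  map_mul' D E := Finsupp.prod_add_index' (fun v => zpow_zero _) (fun v m n => zpow_add _ m n)

/-- The Artin map on the divisors prime to `S` (hybrid vocabulary of `H23_CDefs`). -/
def artinDiv : Multiplicative (DivS S K) →* Gal(L/K) where
  toFun D := (Multiplicative.toAdd D).prod fun v n => frobV L v.1 ^ n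
  map_one' := Finsupp.prod_zero_index
  map_mul' D E := Finsupp.prod_add_index' (fun v => zpow_zero _) (fun v m n => zpow_add _ m n)

theorem artinZ_apply (D : Multiplicative (HeightOneSpectrum (𝓞 K) →₀ ℤ)) :
    artinZ L D = (Multiplicative.toAdd D).prod fun v n => frobV L v ^ n := rfl

theorem artinDiv_apply (D : Multiplicative (DivS S K)) :
    artinDiv S L D = (Multiplicative.toAdd D).prod fun v n => frobV L v.1 ^ n := rfl

theorem artinZ_single (v : HeightOneSpectrum (𝓞 K)) (n : ℤ) :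
    artinZ L (Multiplicative.ofAdd (Finsupp.single v n)) = frobV L v ^ n := by
  rw [artinZ_apply, toAdd_ofAdd, Finsupp.prod_single_index (zpow_zero _)]

theorem artinDiv_single (v : PrimesOutside S K) (n : ℤ) :
    artinDiv S L (Multiplicative.ofAdd (Finsupp.single v n)) = frobV L v.1 ^ n := by
  rw [artinDiv_apply, toAdd_ofAdd, Finsupp.prod_single_index (zpow_zero _)]

/-- Forgetting that a divisor is prime to `S`. -/
def forgetS : DivS S K →+ (HeightOneSpectrum (𝓞 K) →₀ ℤ) :=
  Finsupp.mapDomain.addMonoidHom Subtype.val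

theorem forgetS_single (v : PrimesOutside S K) (n : ℤ) :
    forgetS S (Finsupp.single v n) = Finsupp.single v.1 n := by
  simp [forgetS]

theorem artinZ_forgetS (D : DivS S K) :
    artinZ L (Multiplicative.ofAdd (forgetS S D)) = artinDiv S L (Multiplicative.ofAdd D) := by
  induction D using Finsupp.induction_linear with
  | zero =>
    rw [map_zero]
    exact (map_one (artinZ L)).trans (map_one (artinDiv S L)).symm
  | add D E hD hE =>
    rw [map_add, ofAdd_add, ofAdd_add, map_mul, map_mul, hD, hE]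
  | single v n => rw [forgetS_single, artinZ_single, artinDiv_single]

/-- Two homs out of the divisor group agree as soon as they agree on the primes. -/
theorem hom_ext_single {G : Type*} [Group G] {f g : Multiplicative (DivS S K) →* G}
    (h : ∀ v : PrimesOutside S K, f (Multiplicative.ofAdd (Finsupp.single v 1)) =
      g (Multiplicative.ofAdd (Finsupp.single v 1))) : f = g := by
  apply MonoidHom.toAdditiveRight.injective
  apply Finsupp.addHom_ext
  intro v n
  have hn : Finsupp.single v n = n • Finsupp.single v (1 : ℤ) := by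
    rw [Finsupp.smul_single, smul_eq_mul, mul_one]
  rw [hn, map_zsmul, map_zsmul]
  exact congrArg _ (congrArg Additive.ofMul (h v))

end Defs

section Unram

variable (S : Finset Nat.Primes) (K L : Type*) [Field K] [NumberField K]
  [Field L] [NumberField L] [Algebra K L]

/-- `L/K` is unramified at every finite place not above `S`. -/
def IsUnramOutside : Prop :=
  ∀ (𝔓 : Ideal (𝓞 L)) [𝔓.IsPrime], 𝔓 ≠ ⊥ → (∀ q ∈ S, ((q : ℕ) : 𝓞 L) ∉ 𝔓) →
    Algebra.IsUnramifiedAt (𝓞 K) 𝔓

variable {K L}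

theorem natCast_mem_iff_of_under_eq {𝔓 : Ideal (𝓞 L)} {𝔭 : Ideal (𝓞 K)}
    (h : 𝔓.under (𝓞 K) = 𝔭) (q : ℕ) : (q : 𝓞 L) ∈ 𝔓 ↔ (q : 𝓞 K) ∈ 𝔭 := by
  rw [← h, Ideal.under_def, Ideal.mem_comap, map_natCast]

variable {S}

theorem IsUnramOutside.isUnramifiedAt (h : IsUnramOutside S K L) (v : PrimesOutside S K)
    (𝔓 : Ideal (𝓞 L)) [𝔓.IsPrime] (h𝔓 : 𝔓 ≠ ⊥) (hu : 𝔓.under (𝓞 K) = v.1.asIdeal) :
    Algebra.IsUnramifiedAt (𝓞 K) 𝔓 :=
  h 𝔓 h𝔓 fun q hq hmem => v.2 q hq ((natCast_mem_iff_of_under_eq hu q).1 hmem)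

/-- The `ramificationIdx = 1` form of `IsUnramOutside`. -/
theorem isUnramOutside_iff_ramificationIdx :
    IsUnramOutside S K L ↔ ∀ (𝔓 : Ideal (𝓞 L)) [𝔓.IsPrime], 𝔓 ≠ ⊥ →
      (∀ q ∈ S, ((q : ℕ) : 𝓞 L) ∉ 𝔓) → 𝔓.ramificationIdx (𝓞 K) = 1 := by
  constructor
  · intro h 𝔓 _ h𝔓 hS
    exact Ideal.ramificationIdx_eq_one_iff.2 (h 𝔓 h𝔓 hS)
  · intro h 𝔓 _ h𝔓 hS
    exact Ideal.ramificationIdx_eq_one_iff.1 (h 𝔓 h𝔓 hS)

end Unram

section Restrict

variable {S : Finset Nat.Primes} {K L L' : Type*} [Field K] [Field L] [Field L']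
  [NumberField K] [NumberField L] [NumberField L']
  [Algebra K L] [Algebra L L'] [Algebra K L'] [IsScalarTower K L L']
  [IsGalois K L] [IsGalois K L'] [IsMulCommutative Gal(L/K)] [IsMulCommutative Gal(L'/K)]

/-- (A2) **Restriction to a subextension**: `Art_{L'/K}(D)|_L = Art_{L/K}(D)`. -/
theorem restrictNormalHom_artinDiv (hL : IsUnramOutside S K L) (D : Multiplicative (DivS S K)) :
    AlgEquiv.restrictNormalHom L (artinDiv S L' D) = artinDiv S L D := by
  have key : (AlgEquiv.restrictNormalHom L : Gal(L'/K) →* Gal(L/K)).comp (artinDiv S L') =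
      artinDiv S L := by
    apply hom_ext_single
    intro v
    rw [MonoidHom.comp_apply, artinDiv_single, artinDiv_single, zpow_one, zpow_one]
    exact S14.H27.restrictNormalHom_frobP (L := L) (L' := L') v.1.asIdeal
      fun 𝔓 _ h𝔓 hu => hL.isUnramifiedAt v 𝔓 h𝔓 hu
  exact DFunLike.congr_fun key D

end Restrict

section Norm

variable (S : Finset Nat.Primes) (K : Type*) {E : Type*} [Field K] [Field E]
  [NumberField K] [NumberField E] [Algebra K E]

/-- The prime of `K` below a prime of `E` outside `S`. -/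
def underOutside (w : PrimesOutside S E) : PrimesOutside S K :=
  ⟨HeightOneSpectrum.under (𝓞 K) w.1, fun q hq h => w.2 q hq
    ((natCast_mem_iff_of_under_eq (K := K) (L := E) rfl q).2 h)⟩

theorem underOutside_asIdeal (w : PrimesOutside S E) :
    (underOutside S K w).1.asIdeal = w.1.asIdeal.under (𝓞 K) := rfl

/-- The norm map on divisors prime to `S`: `w ↦ f(w|v) • v`. -/
def normDiv : DivS S E →+ DivS S K :=
  Finsupp.liftAddHom fun w : PrimesOutside S E =>
    (Finsupp.singleAddHom (underOutside S K w)).comp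
      (AddMonoidHom.mulLeft ((w.1.asIdeal.inertiaDeg (𝓞 K) : ℕ) : ℤ))

theorem normDiv_single (w : PrimesOutside S E) (n : ℤ) :
    normDiv S K (Finsupp.single w n) =
      Finsupp.single (underOutside S K w) (((w.1.asIdeal.inertiaDeg (𝓞 K) : ℕ) : ℤ) * n) := by
  simp [normDiv]

end Norm

section BaseChange

variable {S : Finset Nat.Primes} {K E L L' : Type*} [Field K] [Field E] [Field L] [Field L']
  [NumberField K] [NumberField E] [NumberField L] [NumberField L']
  [Algebra K E] [Algebra K L] [Algebra E L'] [Algebra L L'] [Algebra K L']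
  [IsScalarTower K E L'] [IsScalarTower K L L'] [IsGalois K L] [IsGalois E L']
  [IsMulCommutative Gal(L/K)] [IsMulCommutative Gal(L'/E)]

/-- (A3) **Base change / norm compatibility**: for `K ⊆ E`, `L/K` abelian, `L'/E` abelian with
`L ⊆ L'`: `Art_{L'/E}(D)|_L = Art_{L/K}(N_{E/K} D)`. -/
theorem resHom_artinDiv (hL : IsUnramOutside S K L) (D : Multiplicative (DivS S E)) :
    S14.H27.resHom K L (artinDiv S L' D) =
      artinDiv S L (Multiplicative.ofAdd (normDiv S K (Multiplicative.toAdd D))) := by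
  have key : (S14.H27.resHom K L).comp (artinDiv S L') =
      (artinDiv S L).comp (AddMonoidHom.toMultiplicative (normDiv S K (E := E))) := by
    apply hom_ext_single
    intro w
    rw [MonoidHom.comp_apply, MonoidHom.comp_apply, artinDiv_single, zpow_one]
    show _ = artinDiv S L (Multiplicative.ofAdd (normDiv S K (Finsupp.single w 1)))
    rw [normDiv_single, mul_one, artinDiv_single, zpow_natCast]
    exact S14.H27.resHom_frobP (L := L) (L' := L') w.1.asIdeal w.1.ne_bot
      fun 𝔓 _ h𝔓 hu => hL.isUnramifiedAt (underOutside S K w) 𝔓 h𝔓 hu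
  exact DFunLike.congr_fun key D

end BaseChange

section NormsDie

variable {S : Finset Nat.Primes} {K L : Type*} [Field K] [Field L] [NumberField K] [NumberField L]
  [Algebra K L] [IsGalois K L] [IsMulCommutative Gal(L/K)]

/-- The order of the Frobenius at an unramified place is the residue degree. -/
theorem orderOf_frobV (hL : IsUnramOutside S K L) (w : PrimesOutside S L) :
    orderOf (frobV L (underOutside S K w).1) = w.1.asIdeal.inertiaDeg (𝓞 K) := by
  have : w.1.asIdeal.LiesOver (underOutside S K w).1.asIdeal := ⟨rfl⟩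
  exact S14.H27.orderOf_frobP (underOutside S K w).1.asIdeal (underOutside S K w).1.ne_bot
    w.1.asIdeal (hL.isUnramifiedAt (underOutside S K w) w.1.asIdeal w.1.ne_bot rfl)

/-- (A4) **Norms from `L` are killed by the Artin map of `L/K`.** -/
theorem artinDiv_normDiv (hL : IsUnramOutside S K L) (D : DivS S L) :
    artinDiv S L (Multiplicative.ofAdd (normDiv S K D)) = 1 := by
  have key : (artinDiv S L).comp (AddMonoidHom.toMultiplicative (normDiv S K (E := L))) = 1 := by
    apply hom_ext_single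
    intro w
    rw [MonoidHom.comp_apply, MonoidHom.one_apply]
    show artinDiv S L (Multiplicative.ofAdd (normDiv S K (Finsupp.single w 1))) = 1
    rw [normDiv_single, mul_one, artinDiv_single, zpow_natCast, ← orderOf_frobV hL w,
      pow_orderOf_eq_one]
  exact DFunLike.congr_fun key (Multiplicative.ofAdd D)

end NormsDie

section ConjPre

variable {K₀ K : Type*} [Field K₀] [Field K] [CharZero K₀] [NumberField K] [Algebra K₀ K]

/-- The action of `H23_CDefs` on the primes is Mathlib's pointwise action on ideals. -/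
theorem asIdeal_smul (g : K ≃ₐ[K₀] K) (v : HeightOneSpectrum (𝓞 K)) :
    (g • v).asIdeal = g • v.asIdeal := by
  ext x
  rw [mem_smul_prime_iff, Ideal.mem_pointwise_smul_iff_inv_smul_mem]

end ConjPre

section Conj

variable {S : Finset Nat.Primes} {K₀ K L : Type*} [Field K₀] [Field K] [Field L]
  [NumberField K₀] [NumberField K] [NumberField L]
  [Algebra K₀ K] [Algebra K L] [Algebra K₀ L] [IsScalarTower K₀ K L] [Normal K₀ K]

/-- Conjugation by `τ ∈ Gal(L/K₀)` on `Gal(L/K)` as a group endomorphism. -/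
def conjTowerHom (τ : Gal(L/K₀)) : Gal(L/K) →* Gal(L/K) where
  toFun := S14.H27.conjTower τ
  map_one' := S14.H27.conjTower_one τ
  map_mul' := S14.H27.conjTower_mul τ

theorem conjTowerHom_apply (τ : Gal(L/K₀)) (σ : Gal(L/K)) (x : L) :
    conjTowerHom τ σ x = τ (σ (τ.symm x)) := rfl

variable [IsGalois K L] [IsMulCommutative Gal(L/K)]

/-- (A5) **Galois equivariance**: for `K₀ ⊆ K ⊆ L` with `K/K₀` normal and `τ ∈ Gal(L/K₀)`:
`Art_{L/K}(τ|_K • D) = τ Art_{L/K}(D) τ⁻¹`. -/
theorem artinDiv_smul (hL : IsUnramOutside S K L) (τ : Gal(L/K₀)) (D : DivS S K) :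
    artinDiv S L (Multiplicative.ofAdd (τ.restrictNormal K • D)) =
      conjTowerHom τ (artinDiv S L (Multiplicative.ofAdd D)) := by
  have key : (artinDiv S L).comp (AddMonoidHom.toMultiplicative
      (DistribSMul.toAddMonoidHom (DivS S K) (τ.restrictNormal K))) =
      (conjTowerHom τ).comp (artinDiv S L) := by
    apply hom_ext_single
    intro v
    rw [MonoidHom.comp_apply, MonoidHom.comp_apply, artinDiv_single, zpow_one]
    show artinDiv S L (Multiplicative.ofAdd (τ.restrictNormal K • Finsupp.single v 1)) = _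
    rw [Finsupp.comapSMul_single, artinDiv_single, zpow_one]
    show S14.H27.frobP L (τ.restrictNormal K • v).1.asIdeal = _
    rw [coe_smul_primesOutside, asIdeal_smul]
    apply S14.H27.frobP_smul_tower
    intro 𝔓 _ h𝔓 hu
    refine hL.isUnramifiedAt (τ.restrictNormal K • v) 𝔓 h𝔓 ?_
    rw [hu, coe_smul_primesOutside, asIdeal_smul]
  exact DFunLike.congr_fun key (Multiplicative.ofAdd D)

theorem artinDiv_smul_apply (hL : IsUnramOutside S K L) (τ : Gal(L/K₀)) (D : DivS S K) (x : L) :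
    artinDiv S L (Multiplicative.ofAdd (τ.restrictNormal K • D)) x =
      τ (artinDiv S L (Multiplicative.ofAdd D) (τ.symm x)) := by
  rw [artinDiv_smul hL]; rfl

end Conj

section Ideals

variable (S : Finset Nat.Primes) (K : Type*) [Field K] [NumberField K]

open Classical in
/-- The divisor outside `S` of a prime ideal: the prime itself if it is a nonzero prime not
above `S`, and `0` otherwise. -/
def primeDiv (𝔭 : Ideal (𝓞 K)) : DivS S K :=
  if h : (𝔭.IsPrime ∧ 𝔭 ≠ ⊥) ∧ ∀ q ∈ S, ((q : ℕ) : 𝓞 K) ∉ 𝔭 then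
    Finsupp.single (⟨⟨𝔭, h.1.1, h.1.2⟩, h.2⟩ : PrimesOutside S K) 1
  else 0

theorem primeDiv_of_outside (v : PrimesOutside S K) :
    primeDiv S K v.1.asIdeal = Finsupp.single v 1 := by
  rw [primeDiv, dif_pos ⟨⟨v.1.isPrime, v.1.ne_bot⟩, v.2⟩]
  rfl

theorem primeDiv_of_not {𝔭 : Ideal (𝓞 K)}
    (h : ¬ ((𝔭.IsPrime ∧ 𝔭 ≠ ⊥) ∧ ∀ q ∈ S, ((q : ℕ) : 𝓞 K) ∉ 𝔭)) : primeDiv S K 𝔭 = 0 := by
  rw [primeDiv, dif_neg h]

open Classical in
theorem primeDiv_apply (𝔭 : Ideal (𝓞 K)) (v : PrimesOutside S K) :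
    primeDiv S K 𝔭 v = if 𝔭 = v.1.asIdeal then 1 else 0 := by
  by_cases h : (𝔭.IsPrime ∧ 𝔭 ≠ ⊥) ∧ ∀ q ∈ S, ((q : ℕ) : 𝓞 K) ∉ 𝔭
  · rw [primeDiv, dif_pos h, Finsupp.single_apply]
    congr 1
    apply propext
    constructor
    · intro h1; rw [← h1]
    · intro h1
      apply Subtype.ext
      apply HeightOneSpectrum.ext
      exact h1
  · rw [primeDiv_of_not S K h, Finsupp.zero_apply, if_neg]
    rintro rfl
    exact h ⟨⟨v.1.isPrime, v.1.ne_bot⟩, v.2⟩

/-- The divisor outside `S` of an integral ideal (value `0` at the zero ideal). -/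
def idealDiv (𝔞 : Ideal (𝓞 K)) : DivS S K := ((normalizedFactors 𝔞).map (primeDiv S K)).sum

@[simp]
theorem idealDiv_one : idealDiv S K 1 = 0 := by
  rw [idealDiv, normalizedFactors_one, Multiset.map_zero, Multiset.sum_zero]

theorem idealDiv_mul {𝔞 𝔟 : Ideal (𝓞 K)} (h𝔞 : 𝔞 ≠ ⊥) (h𝔟 : 𝔟 ≠ ⊥) :
    idealDiv S K (𝔞 * 𝔟) = idealDiv S K 𝔞 + idealDiv S K 𝔟 := by
  rw [idealDiv, idealDiv, idealDiv, normalizedFactors_mul (by simpa using h𝔞) (by simpa using h𝔟),
    Multiset.map_add, Multiset.sum_add]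

theorem idealDiv_pow {𝔞 : Ideal (𝓞 K)} (h𝔞 : 𝔞 ≠ ⊥) (n : ℕ) :
    idealDiv S K (𝔞 ^ n) = n • idealDiv S K 𝔞 := by
  induction n with
  | zero => rw [pow_zero, zero_nsmul, idealDiv_one]
  | succ n ih => rw [pow_succ, idealDiv_mul S K (pow_ne_zero n h𝔞) h𝔞, ih, succ_nsmul]

theorem idealDiv_prime (𝔭 : Ideal (𝓞 K)) [𝔭.IsPrime] (h𝔭 : 𝔭 ≠ ⊥) :
    idealDiv S K 𝔭 = primeDiv S K 𝔭 := by
  have hirr : Irreducible 𝔭 := (Ideal.prime_of_isPrime h𝔭 inferInstance).irreducible
  rw [idealDiv, normalizedFactors_irreducible hirr, normalize_eq, Multiset.map_singleton,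
    Multiset.sum_singleton]

theorem idealDiv_apply (𝔞 : Ideal (𝓞 K)) (v : PrimesOutside S K) :
    idealDiv S K 𝔞 v = (Multiset.count v.1.asIdeal (normalizedFactors 𝔞) : ℤ) := by
  classical
  rw [idealDiv]
  generalize normalizedFactors 𝔞 = s
  induction s using Multiset.induction_on with
  | empty => simp
  | cons 𝔭 s ih =>
    rw [Multiset.map_cons, Multiset.sum_cons, Finsupp.add_apply, ih, primeDiv_apply,
      Multiset.count_cons]
    by_cases h : 𝔭 = v.1.asIdeal
    · rw [if_pos h, if_pos h.symm]; push_cast; ring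
    · rw [if_neg h, if_neg (Ne.symm h)]; push_cast; ring

/-- The principal divisor of a nonzero integer of `K` is the divisor of the principal ideal. -/
theorem divS_mk0 (x : 𝓞 K) (hx : x ≠ 0) :
    divS S K (Units.mk0 (x : K) (by simpa using hx)) =
      Multiplicative.ofAdd (idealDiv S K (Ideal.span {x})) := by
  apply Multiplicative.toAdd.injective
  ext v
  rw [divS_apply, toAdd_ofAdd, idealDiv_apply, ordAt_apply]
  have hspan : (Ideal.span {x} : Ideal (𝓞 K)) ≠ 0 := by
    simpa [Ideal.zero_eq_bot, Ideal.span_singleton_eq_bot] using hx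
  have h1 : ((ordHom K v.1 (Units.mk0 (x : K) (by simpa using hx)) : Multiplicative ℤ) :
      WithZero (Multiplicative ℤ)) = WithZero.exp
        (-(Multiset.count v.1.asIdeal (normalizedFactors (Ideal.span {x})) : ℤ)) := by
    rw [coe_ordHom, Units.val_mk0]
    have : ((x : 𝓞 K) : K) = algebraMap (𝓞 K) K x := rfl
    rw [this, HeightOneSpectrum.valuation_of_algebraMap, HeightOneSpectrum.intValuation_if_neg _ hx,
      Ideal.count_associates_factors_eq hspan v.1.isPrime v.1.ne_bot]
  have h2 : ordHom K v.1 (Units.mk0 (x : K) (by simpa using hx)) = Multiplicative.ofAdd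
      (-(Multiset.count v.1.asIdeal (normalizedFactors (Ideal.span {x})) : ℤ)) :=
    WithZero.coe_injective h1
  rw [h2, ← ofAdd_neg, neg_neg, toAdd_ofAdd]

variable {K} (L : Type*) [Field L] [NumberField L] [Algebra K L] [IsGalois K L]
  [IsMulCommutative Gal(L/K)]

theorem artinDiv_primeDiv_of_outside {𝔭 : Ideal (𝓞 K)}
    (h : (𝔭.IsPrime ∧ 𝔭 ≠ ⊥) ∧ ∀ q ∈ S, ((q : ℕ) : 𝓞 K) ∉ 𝔭) :
    artinDiv S L (Multiplicative.ofAdd (primeDiv S K 𝔭)) = S14.H27.frobP L 𝔭 := by
  rw [primeDiv, dif_pos h, artinDiv_single, zpow_one]; rfl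

theorem artinDiv_primeDiv_of_not {𝔭 : Ideal (𝓞 K)}
    (h : ¬ ((𝔭.IsPrime ∧ 𝔭 ≠ ⊥) ∧ ∀ q ∈ S, ((q : ℕ) : 𝓞 K) ∉ 𝔭)) :
    artinDiv S L (Multiplicative.ofAdd (primeDiv S K 𝔭)) = 1 := by
  rw [primeDiv_of_not S K h, ofAdd_zero, map_one]

/-- The Artin map of `idealDiv 𝔞` as a product over the prime factors of `𝔞`. -/
theorem artinDiv_idealDiv (𝔞 : Ideal (𝓞 K)) :
    artinDiv S L (Multiplicative.ofAdd (idealDiv S K 𝔞)) =
      ((normalizedFactors 𝔞).map fun 𝔭 =>
        artinDiv S L (Multiplicative.ofAdd (primeDiv S K 𝔭))).prod := by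
  rw [idealDiv]
  generalize normalizedFactors 𝔞 = s
  induction s using Multiset.induction_on with
  | empty => simp
  | cons 𝔭 s ih =>
    rw [Multiset.map_cons, Multiset.sum_cons, ofAdd_add, map_mul, ih, Multiset.map_cons,
      Multiset.prod_cons]

/-- On integral ideals prime to `S`, `artinDiv` is the S14 Artin map. -/
theorem artinDiv_idealDiv_of_coprime {𝔞 : Ideal (𝓞 K)}
    (h : ∀ 𝔭 ∈ normalizedFactors 𝔞, ∀ q ∈ S, ((q : ℕ) : 𝓞 K) ∉ 𝔭) :
    artinDiv S L (Multiplicative.ofAdd (idealDiv S K 𝔞)) = S14.H27.artin L 𝔞 := by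
  rw [artinDiv_idealDiv, S14.H27.artin]
  congr 1
  apply Multiset.map_congr rfl
  intro 𝔭 h𝔭
  have hprime := prime_of_normalized_factor 𝔭 h𝔭
  exact artinDiv_primeDiv_of_outside S L
    ⟨⟨Ideal.isPrime_of_prime hprime, hprime.ne_zero⟩, h 𝔭 h𝔭⟩

end Ideals

end

end Fermat.Agent.CFT.H27
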