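/-
CFT layer C, package C-ARTIN (ideal side), helper27.

Compatibility of the Artin map on divisors with the base-change maps of `H23_CMaps`:
`N_{E/K} ∘ baseChange = [E:K]` on divisors, hence
`Art_{L'/E}(baseChange D)|_L = Art_{L/K}(D) ^ [E:K]`.
-/
import Mathlib
import Fermat.Agent.CFT.H27_ArtinDiv
import Fermat.Agent.CFT.H23_CMaps
import Fermat.Agent.CFT.H63_SUnitHerbrand

set_option autoImplicit false

namespace Fermat.Agent.CFT.H27

open NumberField IsDedekindDomain
open Fermat.Agent.CFT.H23 Fermat.Agent.CFT.H10 Fermat.Agent.CFT.H63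
open scoped IsMulCommutative

noncomputable section

section Fibre

variable (S : Finset Nat.Primes) (K E : Type*) [Field K] [NumberField K] [Field E] [NumberField E]
  [Algebra K E]

theorem underOutside_eq_under (w : PrimesOutside S E) :
    underOutside S K w = PrimesOutside.under S K E w := rfl

/-- helper23's `ramIdx` is the ramification index of Mathlib. -/
theorem ramIdx_eq_ramificationIdx (w : HeightOneSpectrum (𝓞 E)) :
    ramIdx K E w = w.asIdeal.ramificationIdx (𝓞 K) := by
  have : w.asIdeal.LiesOver (w.under (𝓞 K)).asIdeal := by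
    rw [HeightOneSpectrum.under_asIdeal]
    infer_instance
  exact Ideal.ramificationIdx'_eq_ramificationIdx (w.under (𝓞 K)).asIdeal w.asIdeal
    (w.under (𝓞 K)).ne_bot

instance fibre_fintype (v : HeightOneSpectrum (𝓞 K)) :
    Fintype {w : HeightOneSpectrum (𝓞 E) // w.under (𝓞 K) = v} := Fintype.ofFinite _

/-- The fundamental identity `∑_{w | v} e_w f_w = [E : K]` over the places above `v`. -/
theorem sum_ramIdx_mul_inertiaDeg (v : HeightOneSpectrum (𝓞 K)) :
    ∑ w : {w : HeightOneSpectrum (𝓞 E) // w.under (𝓞 K) = v},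
      ramIdx K E w.1 * w.1.asIdeal.inertiaDeg (𝓞 K) = Module.finrank K E := by
  haveI : Fintype (v.asIdeal.primesOver (𝓞 E)) := Fintype.ofFinite _
  have h1 := Ideal.sum_ramification_inertia_eq_finrank (R := 𝓞 K) (S := 𝓞 E) (p := v.asIdeal)
  rw [← IsFractionRing.finrank_eq (𝓞 K) K (𝓞 E) E] at h1
  rw [← h1]
  apply Fintype.sum_equiv (fiberEquiv E v)
  intro w
  rw [ramIdx_eq_ramificationIdx]
  rfl

/-- The primes outside `S` of `E` above a given prime outside `S` of `K`. -/
def fibreEquivOutside (v : PrimesOutside S K) :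
    {w : PrimesOutside S E // PrimesOutside.under S K E w = v} ≃
      {w : HeightOneSpectrum (𝓞 E) // w.under (𝓞 K) = v.1} where
  toFun w := ⟨w.1.1, congrArg Subtype.val w.2⟩
  invFun w := ⟨⟨w.1, fun q hq h => v.2 q hq (by
    have := (natCast_mem_under_iff K E w.1 q).2 h
    rwa [w.2] at this)⟩, Subtype.ext w.2⟩
  left_inv w := rfl
  right_inv w := rfl

instance fibreOutside_finite (v : PrimesOutside S K) :
    Finite {w : PrimesOutside S E // PrimesOutside.under S K E w = v} :=
  Finite.of_equiv _ (fibreEquivOutside S K E v).symm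

instance fibreOutside_fintype (v : PrimesOutside S K) :
    Fintype {w : PrimesOutside S E // PrimesOutside.under S K E w = v} := Fintype.ofFinite _

theorem sum_ramIdx_mul_inertiaDeg_outside (v : PrimesOutside S K) :
    ∑ w : {w : PrimesOutside S E // PrimesOutside.under S K E w = v},
      ramIdx K E w.1.1 * w.1.1.asIdeal.inertiaDeg (𝓞 K) = Module.finrank K E := by
  rw [← sum_ramIdx_mul_inertiaDeg K E v.1]
  exact Fintype.sum_equiv (fibreEquivOutside S K E v) _ _ fun w => rfl

/-- Base change of a prime divisor as a finite sum over the fibre. -/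
theorem baseChange_single (v : PrimesOutside S K) (n : ℤ) :
    DivS.baseChange S K E (Finsupp.single v n) =
      ∑ w : {w : PrimesOutside S E // PrimesOutside.under S K E w = v},
        Finsupp.single w.1 ((ramIdx K E w.1.1 : ℤ) * n) := by
  classical
  ext w₀
  rw [DivS.baseChange_apply, Finsupp.finsetSum_apply]
  by_cases h : PrimesOutside.under S K E w₀ = v
  · rw [Finset.sum_eq_single (⟨w₀, h⟩ : {w : PrimesOutside S E //
      PrimesOutside.under S K E w = v})]
    · rw [Finsupp.single_eq_same, h, Finsupp.single_eq_same]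
    · intro w _ hw
      rw [Finsupp.single_apply, if_neg]
      intro h'
      exact hw (Subtype.ext h')
    · intro h'
      exact absurd (Finset.mem_univ _) h'
  · rw [Finsupp.single_apply, if_neg (Ne.symm h), mul_zero]
    symm
    apply Finset.sum_eq_zero
    intro w _
    rw [Finsupp.single_apply, if_neg]
    intro h'
    exact h (h' ▸ w.2)

/-- **`N_{E/K} ∘ baseChange = [E : K]`** on divisors prime to `S`. -/
theorem normDiv_baseChange (D : DivS S K) :
    normDiv S K (DivS.baseChange S K E D) = Module.finrank K E • D := by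
  have key : (normDiv S K (E := E)).comp (DivS.baseChange S K E) =
      (Module.finrank K E) • AddMonoidHom.id (DivS S K) := by
    apply Finsupp.addHom_ext
    intro v n
    rw [AddMonoidHom.comp_apply, baseChange_single, map_sum]
    have h1 : ∀ w : {w : PrimesOutside S E // PrimesOutside.under S K E w = v},
        normDiv S K (Finsupp.single w.1 ((ramIdx K E w.1.1 : ℤ) * n)) =
          Finsupp.single v
            (((ramIdx K E w.1.1 * w.1.1.asIdeal.inertiaDeg (𝓞 K) : ℕ) : ℤ) * n) := by
      intro w
      rw [normDiv_single, underOutside_eq_under, w.2]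
      congr 1
      push_cast
      ring
    rw [Finset.sum_congr rfl fun w _ => h1 w, ← Finsupp.single_finsetSum, ← Finset.sum_mul,
      ← Nat.cast_sum, sum_ramIdx_mul_inertiaDeg_outside]
    rw [AddMonoidHom.smul_apply, AddMonoidHom.id_apply, Finsupp.smul_single, nsmul_eq_mul]
  exact DFunLike.congr_fun key D

end Fibre

section Unram

variable (S : Finset Nat.Primes) (K L : Type*) [Field K] [NumberField K] [Field L] [NumberField L]
  [Algebra K L]

/-- Bridge between `IsUnramOutside` and the `ramIdx` form used in `H23_CMaps`. -/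
theorem isUnramOutside_iff_ramIdx :
    IsUnramOutside S K L ↔ ∀ w : PrimesOutside S L, ramIdx K L w.1 = 1 := by
  rw [isUnramOutside_iff_ramificationIdx]
  constructor
  · intro h w
    rw [ramIdx_eq_ramificationIdx]
    exact h w.1.asIdeal w.1.ne_bot w.2
  · intro h 𝔓 _ h𝔓 hS
    have := h ⟨⟨𝔓, inferInstance, h𝔓⟩, hS⟩
    rwa [ramIdx_eq_ramificationIdx] at this

end Unram

section BaseChange

variable {S : Finset Nat.Primes} {K E L L' : Type*} [Field K] [Field E] [Field L] [Field L']
  [NumberField K] [NumberField E] [NumberField L] [NumberField L']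
  [Algebra K E] [Algebra K L] [Algebra E L'] [Algebra L L'] [Algebra K L']
  [IsScalarTower K E L'] [IsScalarTower K L L'] [IsGalois K L] [IsGalois E L']
  [IsMulCommutative Gal(L/K)] [IsMulCommutative Gal(L'/E)]

/-- **Base change for divisors of the base field**: for `D` a divisor of `K`,
`Art_{L'/E}(D_E)|_L = Art_{L/K}(D) ^ [E : K]`. -/
theorem resHom_artinDiv_baseChange (hL : IsUnramOutside S K L) (D : DivS S K) :
    S14.H27.resHom K L (artinDiv S L' (Multiplicative.ofAdd (DivS.baseChange S K E D))) =
      artinDiv S L (Multiplicative.ofAdd D) ^ Module.finrank K E := by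
  rw [resHom_artinDiv hL, toAdd_ofAdd, normDiv_baseChange, ofAdd_nsmul, map_pow]

end BaseChange

end

end Fermat.Agent.CFT.H27
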