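import Mathlib
import Fermat.Agent.CFT.H23_CDescent
import Fermat.Agent.CFT.H27_ArtinDivMaps
import Fermat.Agent.CFT.H10_ExistUnits

set_option autoImplicit false

/-!
# CFT / C-EXIST (d) (helper10): `K(ε^{1/p})` is unramified outside `T`

`K` a number field, `T ∋ p` a finite set of rational primes, `ε` a `T`-unit of `K`
(`ε ∈ H51.unitsS T K`).  Then any number field `L = K(α)`, `α ^ p = ε`, satisfies
`H23.UnramOutside T K L` (`unramOutside_of_radical`; no Galois or degree hypothesis), and when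
`μ_p ⊆ K` and `ε` is not a `p`-th power such an `L` exists, cyclic of degree `p` over `K`
(`exists_kummer_ext`).

Method: the different.  `N := ∏ T`; `ε' := N ^ (p m) ε ∈ 𝓞 K` for `m` large, `x := N ^ m α ∈ 𝓞 L`
generates `L / K` and is a root of `f = X ^ p - ε'` with `f'(x) = p x ^ (p - 1)` prime to every
`𝔓 ∤ T`; Mathlib's `aeval_derivative_mem_differentIdeal` and `not_dvd_differentIdeal_iff`.
-/

namespace Fermat.Agent.CFT.H10

open scoped NumberField WithZero
open IsDedekindDomain Polynomial Fermat.Agent.CFT.H23 Fermat.Agent.CFT.H51 Fermat.Agent.CFT.H63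

section Criterion

variable {K L : Type*} [Field K] [NumberField K] [Field L] [NumberField L] [Algebra K L]

/-- **Unramifiedness criterion via the different**: if `x ∈ 𝓞 L` generates `L / K`, is a root of
`f ∈ 𝓞 K [X]` and `f'(x) ∉ 𝔓`, then `𝔓` is unramified over `K`. -/
theorem isUnramifiedAt_of_aeval_derivative_notMem (x : 𝓞 L)
    (hx : Algebra.adjoin K {algebraMap (𝓞 L) L x} = ⊤) (f : (𝓞 K)[X]) (hf : aeval x f = 0)
    (𝔓 : Ideal (𝓞 L)) [𝔓.IsPrime] (h : aeval x (derivative f) ∉ 𝔓) :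
    Algebra.IsUnramifiedAt (𝓞 K) 𝔓 := by
  apply not_dvd_differentIdeal_iff.mp
  intro hdvd
  apply h
  have hint : IsIntegral (𝓞 K) x := Algebra.IsIntegral.isIntegral x
  obtain ⟨g, hg⟩ := minpoly.isIntegrallyClosed_dvd hint hf
  have h1 := aeval_derivative_mem_differentIdeal (𝓞 K) K L x hx
  have h2 : aeval x (derivative f) = aeval x (derivative (minpoly (𝓞 K) x)) * aeval x g := by
    rw [hg, derivative_mul, map_add, map_mul, map_mul, minpoly.aeval, zero_mul, add_zero]
  rw [h2]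
  exact 𝔓.mul_mem_right _ (Ideal.le_of_dvd hdvd h1)

end Criterion

section Integral

variable (T : Finset Nat.Primes) (K : Type*) [Field K] [NumberField K]

/-- `N = ∏_{q ∈ T} q`. -/
def primeProd : ℕ := ∏ q ∈ T, (q : ℕ)

theorem primeProd_ne_zero : primeProd T ≠ 0 :=
  Finset.prod_ne_zero_iff.2 fun q _ => q.2.ne_zero

theorem natCast_primeProd_mem {u : HeightOneSpectrum (𝓞 K)} (hu : u ∈ primesAboveS T K) :
    ((primeProd T : ℕ) : 𝓞 K) ∈ u.asIdeal := by
  obtain ⟨q, hq, hqu⟩ := hu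
  obtain ⟨c, hc⟩ : (q : ℕ) ∣ primeProd T := Finset.dvd_prod_of_mem (fun q : Nat.Primes => (q : ℕ)) hq
  rw [hc, Nat.cast_mul]
  exact u.asIdeal.mul_mem_right _ hqu

theorem natCast_primeProd_notMem {v : HeightOneSpectrum (𝓞 K)} (hv : v ∉ primesAboveS T K) :
    ((primeProd T : ℕ) : 𝓞 K) ∉ v.asIdeal := by
  intro h
  unfold primeProd at h
  rw [Nat.cast_prod] at h
  obtain ⟨q, hq, hqv⟩ := (v.isPrime.prod_mem_iff).1 h
  exact hv ⟨q, hq, hqv⟩

theorem valuation_primeProd_eq_one {v : HeightOneSpectrum (𝓞 K)} (hv : v ∉ primesAboveS T K) :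
    v.valuation K ((primeProd T : ℕ) : K) = 1 := by
  have h1 : ((primeProd T : ℕ) : K) = algebraMap (𝓞 K) K ((primeProd T : ℕ) : 𝓞 K) := by
    rw [map_natCast]
  rw [h1, HeightOneSpectrum.valuation_of_algebraMap]
  refine le_antisymm (v.intValuation_le_one _) (not_lt.1 fun h => ?_)
  exact natCast_primeProd_notMem T K hv ((v.intValuation_lt_one_iff_mem _).1 h)

theorem valuation_primeProd_le {u : HeightOneSpectrum (𝓞 K)} (hu : u ∈ primesAboveS T K) :
    u.valuation K ((primeProd T : ℕ) : K) ≤ WithZero.exp (-1 : ℤ) := by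
  have h1 : ((primeProd T : ℕ) : K) = algebraMap (𝓞 K) K ((primeProd T : ℕ) : 𝓞 K) := by
    rw [map_natCast]
  rw [h1, HeightOneSpectrum.valuation_of_algebraMap]
  have := (u.intValuation_le_pow_iff_mem ((primeProd T : ℕ) : 𝓞 K) 1).2
    (by rw [pow_one]; exact natCast_primeProd_mem T K hu)
  simpa using this

/-- For `m` large, `N ^ m ε` is integral at every place (`ε` a `T`-unit). -/
theorem exists_forall_valuation_pow_mul_le (ε : Kˣ) (hε : ε ∈ unitsS T K) :
    ∃ m₀ : ℕ, ∀ m : ℕ, m₀ ≤ m → ∀ u : HeightOneSpectrum (𝓞 K),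
      u.valuation K (((primeProd T : ℕ) : K) ^ m * (ε : K)) ≤ 1 := by
  classical
  set TK := (primesAboveS_finite T K).toFinset with hTK
  refine ⟨TK.sup fun u => (WithZero.log (u.valuation K (ε : K))).toNat, fun m hm u => ?_⟩
  rw [map_mul, map_pow]
  by_cases hu : u ∈ primesAboveS T K
  · have hγ : u.valuation K (ε : K) ≠ 0 := (Valuation.ne_zero_iff _).2 ε.ne_zero
    have h1 : (WithZero.log (u.valuation K (ε : K))).toNat ≤ m :=
      le_trans (Finset.le_sup (f := fun u => (WithZero.log (u.valuation K (ε : K))).toNat)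
        ((Set.Finite.mem_toFinset _).2 hu)) hm
    have h2 : WithZero.log (u.valuation K (ε : K)) ≤ (m : ℤ) :=
      le_trans (Int.self_le_toNat _) (by exact_mod_cast h1)
    have h3 : u.valuation K (ε : K) ≤ WithZero.exp (m : ℤ) := by
      rw [← WithZero.exp_log hγ]
      exact WithZero.exp_le_exp.2 h2
    have h4 : u.valuation K ((primeProd T : ℕ) : K) ^ m ≤ WithZero.exp (-(m : ℤ)) := by
      calc u.valuation K ((primeProd T : ℕ) : K) ^ m ≤ WithZero.exp (-1 : ℤ) ^ m :=
            pow_le_pow_left' (valuation_primeProd_le T K hu) m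
        _ = WithZero.exp (-(m : ℤ)) := by
            rw [← WithZero.exp_nsmul]
            simp
    calc u.valuation K ((primeProd T : ℕ) : K) ^ m * u.valuation K (ε : K)
        ≤ WithZero.exp (-(m : ℤ)) * WithZero.exp (m : ℤ) := mul_le_mul' h4 h3
      _ = 1 := by rw [← WithZero.exp_add, neg_add_cancel, WithZero.exp_zero]
  · rw [valuation_primeProd_eq_one T K hu, one_pow, one_mul,
      (mem_unitsS_iff_forall T K ε).1 hε u hu]

end Integral

section Radical

variable (T : Finset Nat.Primes) {K L : Type*} [Field K] [NumberField K] [Field L] [NumberField L]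
  [Algebra K L]

/-- **(d)**: `L = K(α)`, `α ^ p = ε` a `T`-unit, `p ∈ T` ⇒ `L / K` is unramified outside `T`. -/
theorem unramOutside_of_radical {p : ℕ} (hp : p.Prime) (hpT : (⟨p, hp⟩ : Nat.Primes) ∈ T)
    (ε : Kˣ) (hε : ε ∈ unitsS T K) (α : L) (hα : α ^ p = algebraMap K L (ε : K))
    (htop : Algebra.adjoin K {α} = ⊤) : UnramOutside T K L := by
  refine (H27.isUnramOutside_iff_ramIdx T K L).1 ?_
  intro 𝔓 _ h𝔓 hS
  obtain ⟨m₀, hm₀⟩ := exists_forall_valuation_pow_mul_le T K ε hε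
  -- the integral `T`-unit `ε' = N ^ (p m₀) ε`
  have hle : m₀ ≤ p * m₀ := Nat.le_mul_of_pos_left _ hp.pos
  obtain ⟨e', he'⟩ := HeightOneSpectrum.mem_integers_of_valuation_le_one K
    (((primeProd T : ℕ) : K) ^ (p * m₀) * (ε : K)) (hm₀ _ hle)
  -- the integral generator `x = N ^ m₀ α`
  set y : L := ((primeProd T : ℕ) : L) ^ m₀ * α with hy
  have hyp : y ^ p = algebraMap (𝓞 K) L e' := by
    rw [IsScalarTower.algebraMap_apply (𝓞 K) K L, he', hy, mul_pow, ← pow_mul, hα, map_mul,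
      map_pow, map_natCast, mul_comm m₀ p]
  have hyint : IsIntegral (𝓞 K) y :=
    IsIntegral.of_pow hp.pos (by rw [hyp]; exact isIntegral_algebraMap)
  set x : 𝓞 L := IsIntegralClosure.mk' (𝓞 L) y hyint with hxdef
  have hxy : algebraMap (𝓞 L) L x = y := IsIntegralClosure.algebraMap_mk' (𝓞 L) y hyint
  have hN0 : ((primeProd T : ℕ) : K) ^ m₀ ≠ 0 :=
    pow_ne_zero _ (Nat.cast_ne_zero.2 (primeProd_ne_zero T))
  have hxtop : Algebra.adjoin K {algebraMap (𝓞 L) L x} = ⊤ := by
    rw [hxy, eq_top_iff, ← htop]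
    apply Algebra.adjoin_le
    intro z hz
    rw [Set.mem_singleton_iff] at hz
    rw [hz]
    have h1 : α = (((primeProd T : ℕ) : K) ^ m₀)⁻¹ • y := by
      rw [hy, Algebra.smul_def, map_inv₀, map_pow, map_natCast, ← mul_assoc, inv_mul_cancel₀,
        one_mul]
      have := (algebraMap K L).injective.ne hN0
      simpa using this
    rw [h1]
    exact Subalgebra.smul_mem _ (Algebra.subset_adjoin (Set.mem_singleton y)) _
  -- the polynomial
  set f : (𝓞 K)[X] := X ^ p - C e' with hf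
  have hfx : aeval x f = 0 := by
    apply (FaithfulSMul.algebraMap_injective (𝓞 L) L)
    rw [hf, map_sub, map_pow, aeval_X, aeval_C, map_sub, map_pow, hxy, hyp, map_zero,
      ← IsScalarTower.algebraMap_apply, sub_self]
  have hf' : aeval x (derivative f) = ((p : ℕ) : 𝓞 L) * x ^ (p - 1) := by
    rw [hf, derivative_sub, derivative_C, sub_zero, derivative_X_pow, map_mul, map_pow, aeval_X,
      aeval_C, map_natCast]
  refine isUnramifiedAt_of_aeval_derivative_notMem x hxtop f hfx 𝔓 ?_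
  rw [hf']
  intro hmem
  rcases (‹𝔓.IsPrime›.mem_or_mem hmem) with h1 | h1
  · exact hS ⟨p, hp⟩ hpT h1
  · have hx𝔓 : x ∈ 𝔓 := ‹𝔓.IsPrime›.mem_of_pow_mem _ h1
    -- then `e' ∈ 𝔓 ∩ 𝓞 K`, contradicting `v(ε') = 1`
    have hxp : x ^ p = algebraMap (𝓞 K) (𝓞 L) e' := by
      apply (FaithfulSMul.algebraMap_injective (𝓞 L) L)
      rw [map_pow, hxy, hyp, ← IsScalarTower.algebraMap_apply]
    have he𝔓 : algebraMap (𝓞 K) (𝓞 L) e' ∈ 𝔓 := hxp ▸ 𝔓.pow_mem_of_mem hx𝔓 p hp.pos
    set w : HeightOneSpectrum (𝓞 L) := ⟨𝔓, ‹𝔓.IsPrime›, h𝔓⟩ with hw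
    have hvout : w.under (𝓞 K) ∉ primesAboveS T K :=
      (outside_iff_under_notMem T w).1 hS
    have hev : e' ∈ (w.under (𝓞 K)).asIdeal := by
      rw [HeightOneSpectrum.under_asIdeal, Ideal.under_def, Ideal.mem_comap]
      exact he𝔓
    have hval : (w.under (𝓞 K)).valuation K (algebraMap (𝓞 K) K e') < 1 :=
      ((w.under (𝓞 K)).valuation_lt_one_iff_mem e').2 hev
    rw [he', map_mul, map_pow, valuation_primeProd_eq_one T K hvout, one_pow, one_mul,
      (mem_unitsS_iff_forall T K ε).1 hε _ hvout] at hval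
    exact lt_irrefl _ hval

end Radical

section Existence

universe u

variable (T : Finset Nat.Primes) (K : Type u) [Field K] [NumberField K]

/-- **(d), existence**: for a `T`-unit `ε` which is not a `p`-th power (`μ_p ⊆ K`, `p ∈ T`) there
is a cyclic extension `L = K(ε^{1/p})` of degree `p`, unramified outside `T`. -/
theorem exists_kummer_ext {p : ℕ} (hp : p.Prime) (hpT : (⟨p, hp⟩ : Nat.Primes) ∈ T) {ζ : K}
    (hζ : IsPrimitiveRoot ζ p) (ε : Kˣ) (hε : ε ∈ unitsS T K) (hεp : ∀ c : K, c ^ p ≠ (ε : K)) :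
    ∃ (L : Type u) (_ : Field L) (_ : NumberField L) (_ : Algebra K L) (_ : IsGalois K L),
      Module.finrank K L = p ∧ UnramOutside T K L ∧
        ∃ α : L, α ^ p = algebraMap K L (ε : K) ∧ ∀ c : K, algebraMap K L c ≠ α := by
  have H : Irreducible (X ^ p - C (ε : K)) := X_pow_sub_C_irreducible_of_prime hp hεp
  haveI := Fact.mk H
  have hζ' : (primitiveRoots p K).Nonempty := ⟨ζ, (mem_primitiveRoots hp.pos).2 hζ⟩
  haveI : Module.Finite K (AdjoinRoot (X ^ p - C (ε : K))) :=
    (AdjoinRoot.powerBasis H.ne_zero).finite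
  haveI : NumberField (AdjoinRoot (X ^ p - C (ε : K))) := NumberField.of_module_finite K _
  haveI : IsSplittingField K (AdjoinRoot (X ^ p - C (ε : K))) (X ^ p - C (ε : K)) :=
    isSplittingField_AdjoinRoot_X_pow_sub_C hζ' H
  have hgal : IsGalois K (AdjoinRoot (X ^ p - C (ε : K))) :=
    isGalois_of_isSplittingField_X_pow_sub_C hζ' H _
  have hroot : (AdjoinRoot.root (X ^ p - C (ε : K))) ^ p
      = algebraMap K (AdjoinRoot (X ^ p - C (ε : K))) (ε : K) := by
    have h := AdjoinRoot.eval₂_root (X ^ p - C (ε : K))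
    rw [eval₂_sub, eval₂_pow, eval₂_X, eval₂_C, sub_eq_zero] at h
    exact h
  refine ⟨AdjoinRoot (X ^ p - C (ε : K)), inferInstance, inferInstance, inferInstance, hgal,
    finrank_of_isSplittingField_X_pow_sub_C hζ' H _, ?_, AdjoinRoot.root _, hroot, ?_⟩
  · exact unramOutside_of_radical T hp hpT ε hε _ hroot AdjoinRoot.adjoinRoot_eq_top
  · intro c hc
    apply hεp c
    apply (algebraMap K (AdjoinRoot (X ^ p - C (ε : K)))).injective
    rw [map_pow, hc, hroot]

end Existence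

end Fermat.Agent.CFT.H10
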