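import Mathlib
import Fermat.Agent.CFT.H10_ExistUnram

set_option autoImplicit false

/-!
# CFT / C-EXIST (d'), generalised (helper10): `K(ε^{1/p})` is unramified where `p ∣ ord_v ε`

`K` a number field, `S ∋ p` a finite set of rational primes, `ε ∈ Kˣ` with `p ∣ ord_v(ε)` for
every prime `v` of `K` outside `S`.  Then any number field `L = K(α)`, `α ^ p = ε`, satisfies
`H23.UnramOutside S K L`.  (Special case `ord_v ε = 0`: `H10.unramOutside_of_radical`.)
-/

namespace Fermat.Agent.CFT.H10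

open scoped NumberField WithZero
open IsDedekindDomain Polynomial Fermat.Agent.CFT.H23 Fermat.Agent.CFT.H51 Fermat.Agent.CFT.H63

section Core

variable {K L : Type*} [Field K] [NumberField K] [Field L] [NumberField L] [Algebra K L]

/-- Core of the different argument: if `c ^ p ε = e' ∈ 𝓞 K` is prime to `𝔓` and `𝔓 ∤ p`, then
`𝔓` is unramified in `L = K(α)`, `α ^ p = ε`. -/
theorem isUnramifiedAt_of_radical_core {p : ℕ} (hp : p.Prime) (ε : K) (α : L)
    (hα : α ^ p = algebraMap K L ε) (htop : Algebra.adjoin K {α} = ⊤)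
    (𝔓 : Ideal (𝓞 L)) [𝔓.IsPrime] (hp𝔓 : ((p : ℕ) : 𝓞 L) ∉ 𝔓)
    (c : K) (hc : c ≠ 0) (e' : 𝓞 K) (he' : algebraMap (𝓞 K) K e' = c ^ p * ε)
    (he'𝔓 : algebraMap (𝓞 K) (𝓞 L) e' ∉ 𝔓) : Algebra.IsUnramifiedAt (𝓞 K) 𝔓 := by
  set y : L := algebraMap K L c * α with hy
  have hyp : y ^ p = algebraMap (𝓞 K) L e' := by
    rw [IsScalarTower.algebraMap_apply (𝓞 K) K L, he', hy, mul_pow, hα, map_mul, map_pow]
  have hyint : IsIntegral (𝓞 K) y :=
    IsIntegral.of_pow hp.pos (by rw [hyp]; exact isIntegral_algebraMap)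
  set x : 𝓞 L := IsIntegralClosure.mk' (𝓞 L) y hyint with hxdef
  have hxy : algebraMap (𝓞 L) L x = y := IsIntegralClosure.algebraMap_mk' (𝓞 L) y hyint
  have hxtop : Algebra.adjoin K {algebraMap (𝓞 L) L x} = ⊤ := by
    rw [hxy, eq_top_iff, ← htop]
    apply Algebra.adjoin_le
    intro z hz
    rw [Set.mem_singleton_iff] at hz
    rw [hz]
    have h1 : α = c⁻¹ • y := by
      rw [hy, Algebra.smul_def, map_inv₀, ← mul_assoc, inv_mul_cancel₀, one_mul]
      exact (algebraMap K L).injective.ne hc |> fun h => by simpa using h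
    rw [h1]
    exact Subalgebra.smul_mem _ (Algebra.subset_adjoin (Set.mem_singleton y)) _
  set f : (𝓞 K)[X] := X ^ p - C e' with hf
  have hfx : aeval x f = 0 := by
    apply (FaithfulSMul.algebraMap_injective (𝓞 L) L)
    rw [hf, map_sub, map_pow, aeval_X, aeval_C, map_sub, map_pow, hxy, hyp, map_zero,
      ← IsScalarTower.algebraMap_apply, sub_self]
  have hf' : aeval x (derivative f) = ((p : ℕ) : 𝓞 L) * x ^ (p - 1) := by
    rw [hf, derivative_sub, derivative_C, sub_zero, derivative_X_pow, map_mul, map_pow, aeval_X,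
      aeval_C, map_natCast]
  refine isUnramifiedAt_of_aeval_derivative_notMem x hxtop f hfx 𝔓 ?_
  rw [hf']
  intro hmem
  rcases (‹𝔓.IsPrime›.mem_or_mem hmem) with h1 | h1
  · exact hp𝔓 h1
  · have hx𝔓 : x ∈ 𝔓 := ‹𝔓.IsPrime›.mem_of_pow_mem _ h1
    have hxp : x ^ p = algebraMap (𝓞 K) (𝓞 L) e' := by
      apply (FaithfulSMul.algebraMap_injective (𝓞 L) L)
      rw [map_pow, hxy, hyp, ← IsScalarTower.algebraMap_apply]
    exact he'𝔓 (hxp ▸ 𝔓.pow_mem_of_mem hx𝔓 p hp.pos)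

end Core

section General

variable (S : Finset Nat.Primes) {K L : Type*} [Field K] [NumberField K] [Field L] [NumberField L]
  [Algebra K L]

/-- `v(x) = exp (- ord_v x)` in helper23's normalisation. -/
theorem valuation_eq_exp_neg_ordAt (v : HeightOneSpectrum (𝓞 K)) (x : Kˣ) :
    v.valuation K (x : K) = WithZero.exp (-(Multiplicative.toAdd (ordAt K v x))) := by
  rw [← coe_ordHom, ordAt_apply, toAdd_inv, neg_neg]
  rfl

/-- **(d')**: `L = K(α)`, `α ^ p = ε`, `p ∈ S`, `p ∣ ord_v ε` for all `v` outside `S` ⇒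
`L / K` is unramified outside `S`. -/
theorem unramOutside_of_radical_of_dvd {p : ℕ} (hp : p.Prime) (hpS : (⟨p, hp⟩ : Nat.Primes) ∈ S)
    (ε : Kˣ)
    (hε : ∀ v : PrimesOutside S K, ∃ k : ℤ, Multiplicative.toAdd (ordAt K v.1 ε) = p * k)
    (α : L) (hα : α ^ p = algebraMap K L (ε : K)) (htop : Algebra.adjoin K {α} = ⊤) :
    UnramOutside S K L := by
  refine (H27.isUnramOutside_iff_ramIdx S K L).1 ?_
  intro 𝔓 _ h𝔓 hS
  set w : HeightOneSpectrum (𝓞 L) := ⟨𝔓, ‹𝔓.IsPrime›, h𝔓⟩ with hw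
  set v : HeightOneSpectrum (𝓞 K) := w.under (𝓞 K) with hv
  have hvS : ∀ q ∈ S, ((q : ℕ) : 𝓞 K) ∉ v.asIdeal := fun q hq h =>
    hS q hq ((natCast_mem_under_iff K L w _).1 h)
  obtain ⟨k, hk⟩ := hε ⟨v, hvS⟩
  -- a uniformizer at `v`
  obtain ⟨π, hπ⟩ := v.valuation_exists_uniformizer K
  have hπ0 : π ≠ 0 := by
    rintro rfl
    rw [map_zero] at hπ
    exact WithZero.exp_ne_zero.symm hπ
  -- `ε₀ = ε π ^ (-p k)` is a unit at `v`
  have hε₀ : v.valuation K ((π ^ k)⁻¹ ^ p * (ε : K)) = 1 := by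
    rw [map_mul, map_pow, map_inv₀, map_zpow₀, hπ, valuation_eq_exp_neg_ordAt, hk,
      ← WithZero.exp_zsmul, ← WithZero.exp_neg, ← WithZero.exp_nsmul, ← WithZero.exp_add,
      ← WithZero.exp_zero]
    congr 1
    simp only [smul_eq_mul, nsmul_eq_mul]
    ring
  obtain ⟨n, d, hnd⟩ := v.exists_primeCompl_mul_eq_of_integer ((π ^ k)⁻¹ ^ p * (ε : K)) hε₀.le
  have hd : (d : 𝓞 K) ∉ v.asIdeal := d.2
  have hd0 : algebraMap (𝓞 K) K (d : 𝓞 K) ≠ 0 := by
    intro h
    apply hd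
    have : (d : 𝓞 K) = 0 := (FaithfulSMul.algebraMap_injective (𝓞 K) K) (by rw [h, map_zero])
    rw [this]
    exact v.asIdeal.zero_mem
  -- `e' = d ^ (p - 1) n = (d π ^ (-k)) ^ p ε`
  have he' : algebraMap (𝓞 K) K ((d : 𝓞 K) ^ (p - 1) * n)
      = (algebraMap (𝓞 K) K (d : 𝓞 K) * (π ^ k)⁻¹) ^ p * (ε : K) := by
    rw [map_mul, map_pow, ← hnd, mul_pow]
    have h1 : algebraMap (𝓞 K) K (d : 𝓞 K) ^ p
        = algebraMap (𝓞 K) K (d : 𝓞 K) ^ (p - 1) * algebraMap (𝓞 K) K (d : 𝓞 K) := by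
      rw [← pow_succ, Nat.sub_add_cancel hp.one_le]
    rw [h1]
    ring
  have hn : n ∉ v.asIdeal := by
    intro hn
    have h1 : v.valuation K (algebraMap (𝓞 K) K n) < 1 := (v.valuation_lt_one_iff_mem n).2 hn
    rw [← hnd, map_mul, hε₀, one_mul] at h1
    exact hd ((v.valuation_lt_one_iff_mem _).1 h1)
  have he'v : (d : 𝓞 K) ^ (p - 1) * n ∉ v.asIdeal := fun h =>
    (v.isPrime.mem_or_mem h).elim (fun h => hd (v.isPrime.mem_of_pow_mem _ h)) hn
  refine isUnramifiedAt_of_radical_core hp (ε : K) α hα htop 𝔓 (hS ⟨p, hp⟩ hpS)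
    (algebraMap (𝓞 K) K (d : 𝓞 K) * (π ^ k)⁻¹)
    (mul_ne_zero hd0 (inv_ne_zero (zpow_ne_zero _ hπ0))) _ he' ?_
  intro h
  apply he'v
  show (d : 𝓞 K) ^ (p - 1) * n ∈ Ideal.comap (algebraMap (𝓞 K) (𝓞 L)) 𝔓
  rw [Ideal.mem_comap]
  exact h

/-- **(d')** in the `S ⊆ T` form: `ε` a `T`-unit with `p ∣ ord_v ε` at the primes above `T`
outside `S`. -/
theorem unramOutside_of_radical_of_dvd' (T : Finset Nat.Primes) {p : ℕ} (hp : p.Prime)
    (hpS : (⟨p, hp⟩ : Nat.Primes) ∈ S) (ε : Kˣ) (hεT : ε ∈ unitsS T K)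
    (hεR : ∀ v : PrimesOutside S K, v.1 ∈ primesAboveS T K →
      ∃ k : ℤ, Multiplicative.toAdd (ordAt K v.1 ε) = p * k)
    (α : L) (hα : α ^ p = algebraMap K L (ε : K)) (htop : Algebra.adjoin K {α} = ⊤) :
    UnramOutside S K L := by
  refine unramOutside_of_radical_of_dvd S hp hpS ε (fun v => ?_) α hα htop
  by_cases hv : v.1 ∈ primesAboveS T K
  · exact hεR v hv
  · refine ⟨0, ?_⟩
    have h1 := (mem_unitsS_iff_forall T K ε).1 hεT v.1 hv
    rw [valuation_eq_exp_neg_ordAt, ← WithZero.exp_zero, WithZero.exp_inj] at h1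
    rw [mul_zero]
    omega

end General

section Existence

universe u

variable (S : Finset Nat.Primes) (K : Type u) [Field K] [NumberField K]

/-- **(d'), existence**: for `x ∈ Kˣ` with `p ∣ ord_v x` outside `S` which is not a `p`-th power
(`μ_p ⊆ K`, `p ∈ S`) there is a cyclic extension `M = K(x^{1/p})` of degree `p`, unramified
outside `S`. -/
theorem exists_kummer_ext_of_dvd {p : ℕ} (hp : p.Prime) (hpS : (⟨p, hp⟩ : Nat.Primes) ∈ S) {ζ : K}
    (hζ : IsPrimitiveRoot ζ p) (ε : Kˣ)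
    (hε : ∀ v : PrimesOutside S K, ∃ k : ℤ, Multiplicative.toAdd (ordAt K v.1 ε) = p * k)
    (hεp : ∀ c : K, c ^ p ≠ (ε : K)) :
    ∃ (L : Type u) (_ : Field L) (_ : NumberField L) (_ : Algebra K L) (_ : IsGalois K L),
      Module.finrank K L = p ∧ UnramOutside S K L ∧
        ∃ α : L, α ^ p = algebraMap K L (ε : K) ∧ ∀ c : K, algebraMap K L c ≠ α := by
  have H : Irreducible (X ^ p - C (ε : K)) := X_pow_sub_C_irreducible_of_prime hp hεp
  haveI := Fact.mk H
  have hζ' : (primitiveRoots p K).Nonempty := ⟨ζ, (mem_primitiveRoots hp.pos).2 hζ⟩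
  haveI : Module.Finite K (AdjoinRoot (X ^ p - C (ε : K))) :=
    (AdjoinRoot.powerBasis H.ne_zero).finite
  haveI : NumberField (AdjoinRoot (X ^ p - C (ε : K))) := NumberField.of_module_finite K _
  haveI : IsSplittingField K (AdjoinRoot (X ^ p - C (ε : K))) (X ^ p - C (ε : K)) :=
    isSplittingField_AdjoinRoot_X_pow_sub_C hζ' H
  have hgal : IsGalois K (AdjoinRoot (X ^ p - C (ε : K))) :=
    isGalois_of_isSplittingField_X_pow_sub_C hζ' H _
  have hroot : (AdjoinRoot.root (X ^ p - C (ε : K))) ^ p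
      = algebraMap K (AdjoinRoot (X ^ p - C (ε : K))) (ε : K) := by
    have h := AdjoinRoot.eval₂_root (X ^ p - C (ε : K))
    rw [eval₂_sub, eval₂_pow, eval₂_X, eval₂_C, sub_eq_zero] at h
    exact h
  refine ⟨AdjoinRoot (X ^ p - C (ε : K)), inferInstance, inferInstance, inferInstance, hgal,
    finrank_of_isSplittingField_X_pow_sub_C hζ' H _, ?_, AdjoinRoot.root _, hroot, ?_⟩
  · exact unramOutside_of_radical_of_dvd S hp hpS ε hε _ hroot AdjoinRoot.adjoinRoot_eq_top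
  · intro c hc
    apply hεp c
    apply (algebraMap K (AdjoinRoot (X ^ p - C (ε : K)))).injective
    rw [map_pow, hc, hroot]

end Existence

end Fermat.Agent.CFT.H10
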