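import Mathlib
import Fermat.Prelude.Def_GroupCohomology_ContinuousUnramified
import Fermat.Agent.S14.H67_Reduction

/-!
# CFT layer E, item (a): splitting fields and normal levels

`GQ = Gal(ℚ̄/ℚ)`.  Vocabulary of the frozen S55 statement: `F.IsUnramifiedOutside S`
(`F` finite over `ℚ`, and every inertia group `A.inertiaSubgroupIn ℚ`, `A` over `q ∉ S`, fixes `F`).

* `mem_inertiaSubgroupIn_iff`, `conj_mem_inertiaSubgroupIn` : inertia groups of conjugate places
  are conjugate.
* `IsUnramifiedOutside.normalClosure`, `exists_isGalois_ge` : normal (Galois) levels are cofinal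
  among the levels unramified outside `S`.
* `exists_splittingField` : under the hypotheses `hsm`, `hMur` of S55 the kernel of `M.ρ` is
  `F.fixingSubgroup` for a finite Galois `F/ℚ` unramified outside `S`.
* `cycloChar_eq_one_of_mem_inertia` : the mod `p` cyclotomic character is unramified outside `p`.
* `hsm_dualTwist`, `hMur_dualTwist` : the hypotheses of S55 pass to `M.dualTwist (cycloChar p)`.
-/

set_option autoImplicit false

namespace Fermat.Agent.CFT.H69

open ExtCitation IntermediateField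
open scoped Pointwise

local notation "GQ" => (AlgebraicClosure ℚ ≃ₐ[ℚ] AlgebraicClosure ℚ)
local notation "Qbar" => AlgebraicClosure ℚ

local instance isAlgebraicQb : Algebra.IsAlgebraic ℚ (AlgebraicClosure ℚ) :=
  AlgebraicClosure.isAlgebraic ℚ
local instance isAlgClosureQb : IsAlgClosure ℚ (AlgebraicClosure ℚ) :=
  ⟨inferInstance, inferInstance⟩
local instance isGaloisQb : IsGalois ℚ (AlgebraicClosure ℚ) := IsSepClosure.isGalois

/-! ### Decomposition and inertia groups in elementary terms -/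

theorem mem_decomposition_iff {A : ValuationSubring Qbar} {σ : GQ} :
    σ ∈ A.decompositionSubgroup ℚ ↔ ∀ x : Qbar, σ x ∈ A ↔ x ∈ A := by
  rw [ValuationSubring.decompositionSubgroup, MulAction.mem_stabilizer_iff]
  constructor
  · intro h x
    have h1 : ∀ y : Qbar, y ∈ A ↔ σ⁻¹ • y ∈ A := by
      intro y
      rw [← ValuationSubring.mem_pointwise_smul_iff_inv_smul_mem, h]
    have h2 := h1 (σ x)
    have h3 : σ⁻¹ • (σ x) = x := by
      change σ⁻¹ • (σ • x) = x
      rw [inv_smul_smul]
    rw [h3] at h2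
    exact h2
  · intro h
    apply ValuationSubring.ext
    intro x
    rw [ValuationSubring.mem_pointwise_smul_iff_inv_smul_mem]
    have h2 := h (σ⁻¹ • x)
    have h3 : σ (σ⁻¹ • x) = x := by
      change σ • (σ⁻¹ • x) = x
      rw [smul_inv_smul]
    rw [h3] at h2
    exact h2.symm

theorem mem_inertiaSubgroupIn_iff {A : ValuationSubring Qbar} {σ : GQ} :
    σ ∈ A.inertiaSubgroupIn ℚ ↔
      σ ∈ A.decompositionSubgroup ℚ ∧ ∀ x ∈ A, σ x - x ∈ A.nonunits := by
  constructor
  · rintro ⟨τ, hτ, rfl⟩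
    refine ⟨τ.2, fun x hx => ?_⟩
    have hker : MulSemiringAction.toRingAut (A.decompositionSubgroup ℚ)
        (IsLocalRing.ResidueField A) τ = 1 := hτ
    have h1 : τ • (IsLocalRing.residue A ⟨x, hx⟩) = IsLocalRing.residue A ⟨x, hx⟩ := by
      have := congrArg (fun f : RingAut (IsLocalRing.ResidueField A) =>
        f (IsLocalRing.residue A ⟨x, hx⟩)) hker
      simpa using this
    rw [← IsLocalRing.ResidueField.residue_smul] at h1
    have h2 : IsLocalRing.residue A (τ • (⟨x, hx⟩ : A) - ⟨x, hx⟩) = 0 := by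
      rw [map_sub, h1, sub_self]
    rw [IsLocalRing.residue_eq_zero_iff] at h2
    exact (ValuationSubring.coe_mem_nonunits_iff (A := A)).2 h2
  · rintro ⟨hσ, h⟩
    refine ⟨⟨σ, hσ⟩, ?_, rfl⟩
    change MulSemiringAction.toRingAut (A.decompositionSubgroup ℚ)
        (IsLocalRing.ResidueField A) ⟨σ, hσ⟩ = 1
    ext r
    obtain ⟨a, rfl⟩ := IsLocalRing.residue_surjective r
    change (⟨σ, hσ⟩ : A.decompositionSubgroup ℚ) • IsLocalRing.residue A a
      = IsLocalRing.residue A a
    rw [← IsLocalRing.ResidueField.residue_smul, ← sub_eq_zero, ← map_sub,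
      IsLocalRing.residue_eq_zero_iff, ← ValuationSubring.coe_mem_nonunits_iff]
    exact h a a.2

theorem mem_smul_iff (σ : GQ) (A : ValuationSubring Qbar) (x : Qbar) :
    x ∈ σ • A ↔ σ⁻¹ x ∈ A :=
  ValuationSubring.mem_pointwise_smul_iff_inv_smul_mem

theorem mem_nonunits_smul_iff (σ : GQ) (A : ValuationSubring Qbar) (x : Qbar) :
    x ∈ (σ • A).nonunits ↔ σ⁻¹ x ∈ A.nonunits := by
  rw [ValuationSubring.mem_nonunits_iff_or, ValuationSubring.mem_nonunits_iff_or, mem_smul_iff,
    map_inv₀, map_eq_zero]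

theorem liesOverPrime_smul (σ : GQ) {A : ValuationSubring Qbar} {q : ℕ}
    (hA : A.LiesOverPrime q) : (σ • A).LiesOverPrime q := by
  unfold ValuationSubring.LiesOverPrime at hA ⊢
  rw [mem_nonunits_smul_iff, map_natCast]
  exact hA

/-- inertia groups of conjugate places are conjugate. -/
theorem conj_mem_inertiaSubgroupIn (σ : GQ) {A : ValuationSubring Qbar} {g : GQ}
    (hg : g ∈ (σ • A).inertiaSubgroupIn ℚ) : σ⁻¹ * g * σ ∈ A.inertiaSubgroupIn ℚ := by
  rw [mem_inertiaSubgroupIn_iff] at hg ⊢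
  obtain ⟨hd, hi⟩ := hg
  rw [mem_decomposition_iff] at hd
  constructor
  · rw [mem_decomposition_iff]
    intro x
    have h1 := hd (σ x)
    rw [mem_smul_iff, mem_smul_iff] at h1
    have h2 : σ⁻¹ (σ x) = x := by
      change (σ⁻¹ * σ) x = x
      rw [inv_mul_cancel]; rfl
    rw [h2] at h1
    exact h1
  · intro x hx
    have hx' : σ x ∈ σ • A := by
      rw [mem_smul_iff]
      change (σ⁻¹ * σ) x ∈ A
      rw [inv_mul_cancel]; exact hx
    have h1 := hi (σ x) hx'
    rw [mem_nonunits_smul_iff, map_sub] at h1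
    have h2 : σ⁻¹ (σ x) = x := by
      change (σ⁻¹ * σ) x = x
      rw [inv_mul_cancel]; rfl
    rw [h2] at h1
    exact h1

/-! ### Normal levels are cofinal -/

/-- every `ℚ`-embedding of an intermediate field into `ℚ̄` is induced by an element of `GQ`. -/
theorem exists_galois_extends (F : IntermediateField ℚ Qbar) (f : F →ₐ[ℚ] Qbar) :
    ∃ σ : GQ, ∀ y : F, σ (y : Qbar) = f y := by
  let f' : Qbar →ₐ[ℚ] Qbar := f.liftNormal Qbar
  let σ : GQ := AlgEquiv.ofBijective f' (AlgHom.normal_bijective ℚ Qbar Qbar f')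
  refine ⟨σ, fun y => ?_⟩
  exact f.liftNormal_commutes Qbar y

theorem mem_fixingSubgroup_iff' (F : IntermediateField ℚ Qbar) (g : GQ) :
    g ∈ F.fixingSubgroup ↔ ∀ x ∈ F, g x = x := by
  rw [IntermediateField.mem_fixingSubgroup_iff]

/-- the normal closure of a level unramified outside `S` is unramified outside `S`. -/
theorem IsUnramifiedOutside.normalClosure {S : Finset Nat.Primes}
    {F : IntermediateField ℚ Qbar} (hF : F.IsUnramifiedOutside S) :
    (IntermediateField.normalClosure ℚ F Qbar).IsUnramifiedOutside S := by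
  haveI := hF.1
  refine ⟨normalClosure.is_finiteDimensional ℚ F Qbar, fun q hq A hA g hg => ?_⟩
  -- the fixed field of `g` contains every conjugate of `F`
  have key : IntermediateField.normalClosure ℚ F Qbar ≤
      IntermediateField.fixedField (Subgroup.zpowers g) := by
    rw [normalClosure_le_iff]
    rintro f x ⟨y, rfl⟩
    obtain ⟨σ, hσ⟩ := exists_galois_extends F f
    rw [IntermediateField.mem_fixedField_iff]
    intro h hh
    obtain ⟨n, rfl⟩ := Subgroup.mem_zpowers_iff.mp hh
    -- `σ⁻¹ g σ` is in the inertia group of `σ⁻¹ • A`, which lies over `q`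
    have hA' : (σ⁻¹ • A).LiesOverPrime (q : ℕ) := liesOverPrime_smul σ⁻¹ hA
    have hg' : g ∈ (σ • (σ⁻¹ • A)).inertiaSubgroupIn ℚ := by
      rw [smul_inv_smul]; exact hg
    have h1 := hF.2 q hq (σ⁻¹ • A) hA' (conj_mem_inertiaSubgroupIn σ hg')
    rw [mem_fixingSubgroup_iff'] at h1
    have h2 := h1 (y : Qbar) y.2
    have h3 : g (σ (y : Qbar)) = σ (y : Qbar) := by
      have : (σ⁻¹ * g * σ) (y : Qbar) = σ⁻¹ (g (σ (y : Qbar))) := rfl
      rw [this] at h2
      have h4 := congrArg σ h2
      have h5 : σ (σ⁻¹ (g (σ (y : Qbar)))) = g (σ (y : Qbar)) := by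
        change (σ * σ⁻¹) (g (σ (y : Qbar))) = _
        rw [mul_inv_cancel]; rfl
      rw [h5] at h4
      exact h4
    have h6 : ∀ k : ℕ, (g ^ k) (f y) = f y := by
      intro k
      induction k with
      | zero => rfl
      | succ k ih =>
        rw [pow_succ, AlgEquiv.mul_apply, ← hσ y, h3, hσ y, ih]
    have h7 : ∀ k : ℕ, ((g ^ k)⁻¹) (f y) = f y := by
      intro k
      have := congrArg ((g ^ k)⁻¹ : GQ) (h6 k)
      have h8 : ((g ^ k)⁻¹ : GQ) ((g ^ k) (f y)) = f y := by
        change ((g ^ k)⁻¹ * (g ^ k)) (f y) = f y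
        rw [inv_mul_cancel]; rfl
      rw [h8] at this
      exact this.symm
    rcases Int.eq_nat_or_neg n with ⟨k, rfl | rfl⟩
    · rw [zpow_natCast]; exact h6 k
    · rw [zpow_neg, zpow_natCast]; exact h7 k
  rw [mem_fixingSubgroup_iff']
  intro x hx
  have := key hx
  rw [IntermediateField.mem_fixedField_iff] at this
  exact this g (Subgroup.mem_zpowers g)

/-- Galois levels are cofinal among the levels unramified outside `S`. -/
theorem exists_isGalois_ge {S : Finset Nat.Primes} {F : IntermediateField ℚ Qbar}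
    (hF : F.IsUnramifiedOutside S) :
    ∃ F' : IntermediateField ℚ Qbar, F ≤ F' ∧ F'.IsUnramifiedOutside S ∧ IsGalois ℚ F' ∧
      F'.fixingSubgroup.Normal := by
  refine ⟨IntermediateField.normalClosure ℚ F Qbar, IntermediateField.le_normalClosure F,
    IsUnramifiedOutside.normalClosure hF, IsGalois.normalClosure ℚ F Qbar, ?_⟩
  rw [InfiniteGalois.normal_iff_isGalois]
  exact IsGalois.normalClosure ℚ F Qbar

/-! ### The splitting field of a finite discrete `GQ`-module -/

section Splitting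

variable {k : Type} [CommRing k] (M : Rep k GQ)

/-- finitely many elements of a discrete module are fixed by a common open subgroup. -/
theorem exists_level_fixing_finset
    (hsm : ∀ m : M, ∃ F : IntermediateField ℚ Qbar, FiniteDimensional ℚ F ∧
      ∀ s ∈ F.fixingSubgroup, M.ρ s m = m) (t : Finset M) :
    ∃ F : IntermediateField ℚ Qbar, FiniteDimensional ℚ F ∧
      ∀ m ∈ t, ∀ s ∈ F.fixingSubgroup, M.ρ s m = m := by
  classical
  induction t using Finset.induction_on with
  | empty => exact ⟨⊥, inferInstance, fun m hm => absurd hm (Finset.notMem_empty m)⟩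
  | insert a t _ ih =>
    obtain ⟨F₁, hF₁, h₁⟩ := hsm a
    obtain ⟨F₂, hF₂, h₂⟩ := ih
    haveI := hF₁; haveI := hF₂
    refine ⟨F₁ ⊔ F₂, IntermediateField.finiteDimensional_sup F₁ F₂, fun m hm s hs => ?_⟩
    rcases Finset.mem_insert.mp hm with rfl | hm
    · exact h₁ s (IntermediateField.fixingSubgroup_antitone le_sup_left hs)
    · exact h₂ m hm s (IntermediateField.fixingSubgroup_antitone le_sup_right hs)

/-- **Splitting field.** Under the hypotheses `hsm` (discreteness) and `hMur` (unramified outside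
`S`) of S55, the kernel of the action on a finitely generated module `M` is `F.fixingSubgroup`
for a finite Galois extension `F/ℚ` unramified outside `S`. -/
theorem exists_splittingField (S : Finset Nat.Primes) [Module.Finite k M]
    (hsm : ∀ m : M, ∃ F : IntermediateField ℚ Qbar, FiniteDimensional ℚ F ∧
      ∀ s ∈ F.fixingSubgroup, M.ρ s m = m)
    (hMur : ∀ q : Nat.Primes, q ∉ S → ∀ A : ValuationSubring Qbar,
      A.LiesOverPrime (q : ℕ) → ∀ g ∈ A.inertiaSubgroupIn ℚ, M.ρ g = 1) :
    ∃ F : IntermediateField ℚ Qbar, F.IsUnramifiedOutside S ∧ IsGalois ℚ F ∧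
      F.fixingSubgroup.Normal ∧ ∀ s : GQ, s ∈ F.fixingSubgroup ↔ M.ρ s = 1 := by
  obtain ⟨t, ht⟩ := (Module.Finite.fg_top : (⊤ : Submodule k M).FG)
  obtain ⟨F₀, hF₀, h₀⟩ := exists_level_fixing_finset M hsm t
  haveI := hF₀
  -- the kernel of the action
  let K : Subgroup GQ := MonoidHom.ker M.ρ
  have hle : F₀.fixingSubgroup ≤ K := by
    intro s hs
    change M.ρ s = 1
    apply LinearMap.ext_on ht
    intro m hm
    exact h₀ m hm s hs
  have hopen : IsOpen (K : Set GQ) := Subgroup.isOpen_mono hle F₀.fixingSubgroup_isOpen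
  have hclosed : IsClosed (K : Set GQ) := Subgroup.isClosed_of_isOpen K hopen
  let Kc : ClosedSubgroup GQ := ⟨K, hclosed⟩
  have hfix : (IntermediateField.fixedField K).fixingSubgroup = K :=
    InfiniteGalois.fixingSubgroup_fixedField Kc
  have hFle : IntermediateField.fixedField K ≤ F₀ := by
    have h1 := IntermediateField.fixedField_antitone (F := ℚ) (E := Qbar) hle
    rwa [InfiniteGalois.fixedField_fixingSubgroup] at h1
  have hfin : FiniteDimensional ℚ (IntermediateField.fixedField K) :=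
    FiniteDimensional.of_injective (IntermediateField.inclusion hFle).toLinearMap
      (IntermediateField.inclusion_injective hFle)
  have hnormal : (IntermediateField.fixedField K).fixingSubgroup.Normal := by
    rw [hfix]
    exact MonoidHom.normal_ker M.ρ
  refine ⟨IntermediateField.fixedField K, ⟨hfin, fun q hq A hA g hg => ?_⟩,
    (InfiniteGalois.normal_iff_isGalois _).mp hnormal, hnormal, fun s => ?_⟩
  · rw [hfix]
    exact hMur q hq A hA g hg
  · rw [hfix]
    exact MonoidHom.mem_ker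

end Splitting

/-! ### The cyclotomic character is unramified outside `p` -/

section Cyclo

/-- the image of a primitive `m`-th root of unity in a domain where `m ≠ 0` is primitive. -/
theorem isPrimitiveRoot_map_of_ne_zero {R T : Type*} [CommRing R] [IsDomain R] [CommRing T]
    [IsDomain T] (f : R →+* T) {m : ℕ} (hm0 : 0 < m) (hmT : (m : T) ≠ 0) {ζ : R}
    (hζ : IsPrimitiveRoot ζ m) : IsPrimitiveRoot (f ζ) m := by
  haveI : NeZero (m : T) := ⟨hmT⟩
  rw [← Polynomial.isRoot_cyclotomic_iff, ← Polynomial.map_cyclotomic m f]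
  exact (hζ.isRoot_cyclotomic hm0).map

theorem mem_of_pow_eq_one (A : ValuationSubring Qbar) {x : Qbar} {n : ℕ} (hn : 0 < n)
    (hx : x ^ n = 1) : x ∈ A := by
  rcases A.mem_or_inv_mem x with h | h
  · exact h
  · have h1 : x = x⁻¹ ^ (n - 1) := by
      have hx0 : x ≠ 0 := by
        rintro rfl
        rw [zero_pow hn.ne'] at hx
        exact zero_ne_one hx
      have h2 : x ^ n = x ^ (n - 1) * x := by rw [← pow_succ, Nat.sub_add_cancel hn]
      rw [h2] at hx
      rw [inv_pow]
      exact eq_inv_of_mul_eq_one_right hx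
    rw [h1]
    exact pow_mem h _

/-- a prime different from the residue characteristic is a unit at the place `A`. -/
theorem natCast_not_mem_nonunits {p q : ℕ} (hp : p.Prime) (hq : q.Prime) (hqp : q ≠ p)
    {A : ValuationSubring Qbar} (hA : A.LiesOverPrime q) : (p : Qbar) ∉ A.nonunits := by
  intro hpA
  have hcop : IsCoprime (p : ℤ) (q : ℤ) :=
    Nat.isCoprime_iff_coprime.mpr ((Nat.coprime_primes hp hq).mpr (Ne.symm hqp))
  obtain ⟨a, b, hab⟩ := hcop
  have hp' : ((p : ↥A) : ↥A) ∈ IsLocalRing.maximalIdeal ↥A := by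
    rw [← ValuationSubring.coe_mem_nonunits_iff]
    simpa using hpA
  have hq' : ((q : ↥A) : ↥A) ∈ IsLocalRing.maximalIdeal ↥A := by
    rw [← ValuationSubring.coe_mem_nonunits_iff]
    have : (q : Qbar) ∈ A.nonunits := hA
    simpa using this
  have h1 : ((a : ↥A) * (p : ↥A) + (b : ↥A) * (q : ↥A)) ∈ IsLocalRing.maximalIdeal ↥A :=
    Ideal.add_mem _ (Ideal.mul_mem_left _ _ hp') (Ideal.mul_mem_left _ _ hq')
  have h2 : ((a : ↥A) * (p : ↥A) + (b : ↥A) * (q : ↥A)) = 1 := by
    have := congrArg (fun z : ℤ => (z : ↥A)) hab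
    simpa using this
  rw [h2] at h1
  exact (Ideal.ne_top_iff_one _).mp (IsLocalRing.maximalIdeal.isMaximal ↥A).ne_top h1

variable (p : ℕ) [Fact p.Prime]

/-- **The mod `p` cyclotomic character is unramified outside `p`.** -/
theorem cycloChar_eq_one_of_mem_inertia {q : ℕ} (hq : q.Prime) (hqp : q ≠ p)
    {A : ValuationSubring Qbar} (hA : A.LiesOverPrime q) {g : GQ}
    (hg : g ∈ A.inertiaSubgroupIn ℚ) : cycloChar p g = 1 := by
  have hp : p.Prime := Fact.out
  haveI : NeZero p := ⟨hp.ne_zero⟩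
  obtain ⟨ζ, hζ⟩ := Fermat.Agent.S14.H67.exists_primitiveRoot p
  have hζA : ζ ∈ A := mem_of_pow_eq_one A hp.pos hζ.pow_eq_one
  let ζA : ↥A := ⟨ζ, hζA⟩
  have hζA' : IsPrimitiveRoot ζA p :=
    IsPrimitiveRoot.of_map_of_injective (f := A.subtype) (by exact hζ) Subtype.val_injective
  -- `p` is nonzero in the residue field
  have hpk : ((p : ℕ) : IsLocalRing.ResidueField ↥A) ≠ 0 := by
    rw [← map_natCast (IsLocalRing.residue ↥A), Ne, IsLocalRing.residue_eq_zero_iff,
      ← ValuationSubring.coe_mem_nonunits_iff]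
    simpa using natCast_not_mem_nonunits hp hq hqp hA
  have h₀ : IsPrimitiveRoot (IsLocalRing.residue ↥A ζA) p :=
    isPrimitiveRoot_map_of_ne_zero (IsLocalRing.residue ↥A) hp.pos hpk hζA'
  -- the action of `g` on `ζ`
  set a := ((cycloChar p g : ZMod p)).val with ha
  have hspec : g ζ = ζ ^ a := Fermat.Agent.S14.H67.cycloChar_spec_primitive p g hζ
  have hin := ((mem_inertiaSubgroupIn_iff.mp hg).2 ζ hζA)
  rw [hspec] at hin
  have hin' : ζA ^ a - ζA ∈ IsLocalRing.maximalIdeal ↥A := by
    rw [← ValuationSubring.coe_mem_nonunits_iff]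
    simpa using hin
  rw [← IsLocalRing.residue_eq_zero_iff, map_sub, map_pow, sub_eq_zero] at hin'
  have h1 : IsLocalRing.residue ↥A ζA ^ a = IsLocalRing.residue ↥A ζA ^ 1 := by
    rw [hin', pow_one]
  rw [(h₀.isOfFinOrder (NeZero.ne _)).pow_inj_mod, ← h₀.eq_orderOf] at h1
  -- conclude
  have h2 : ((a : ℕ) : ZMod p) = ((1 : ℕ) : ZMod p) := (ZMod.natCast_eq_natCast_iff' a 1 p).mpr h1
  rw [ha, ZMod.natCast_zmod_val, Nat.cast_one] at h2
  exact Units.ext h2

end Cyclo

/-! ### The hypotheses of S55 for the Tate dual `M.dualTwist (cycloChar p)` -/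

section DualTwist

variable (p : ℕ) [Fact p.Prime]

/-- the cyclotomic character is trivial on an open subgroup. -/
theorem exists_level_cycloChar :
    ∃ F : IntermediateField ℚ Qbar, FiniteDimensional ℚ F ∧
      ∀ s ∈ F.fixingSubgroup, cycloChar p s = 1 := by
  have hp : p.Prime := Fact.out
  haveI : NeZero p := ⟨hp.ne_zero⟩
  obtain ⟨ζ, hζ⟩ := Fermat.Agent.S14.H67.exists_primitiveRoot p
  have hint : IsIntegral ℚ ζ := Algebra.IsIntegral.isIntegral ζ
  refine ⟨ℚ⟮ζ⟯, IntermediateField.adjoin.finiteDimensional hint, fun s hs => ?_⟩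
  rw [mem_fixingSubgroup_iff'] at hs
  have h1 : s ζ = ζ := hs ζ (IntermediateField.mem_adjoin_simple_self ℚ ζ)
  have h2 : (cycloChar p s : ZMod p) = 1 := by
    apply Fermat.Agent.S14.H67.cycloChar_eq_of_primitive p s hζ
    rw [h1, ZMod.val_one'' (by have := hp.one_lt; omega), pow_one]
  exact Units.ext h2

variable {p}
variable (M : Rep (ZMod p) GQ)

/-- a finitely generated discrete module is fixed pointwise by an open subgroup. -/
theorem exists_level_le_ker [Module.Finite (ZMod p) M]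
    (hsm : ∀ m : M, ∃ F : IntermediateField ℚ Qbar, FiniteDimensional ℚ F ∧
      ∀ s ∈ F.fixingSubgroup, M.ρ s m = m) :
    ∃ F : IntermediateField ℚ Qbar, FiniteDimensional ℚ F ∧
      ∀ s ∈ F.fixingSubgroup, M.ρ s = 1 := by
  obtain ⟨t, ht⟩ := (Module.Finite.fg_top : (⊤ : Submodule (ZMod p) M).FG)
  obtain ⟨F₀, hF₀, h₀⟩ := exists_level_fixing_finset M hsm t
  refine ⟨F₀, hF₀, fun s hs => ?_⟩
  apply LinearMap.ext_on ht
  intro m hm
  exact h₀ m hm s hs

theorem dualTwist_ρ_eq_one {g : GQ} (h1 : M.ρ g⁻¹ = 1) (h2 : cycloChar p g = 1) :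
    (M.dualTwist (cycloChar p)).ρ g = 1 := by
  apply LinearMap.ext
  intro f
  rw [Rep.dualTwist_ρ_apply, h1, h2, Units.val_one, one_smul]
  exact LinearMap.comp_id f

/-- `hsm` of S55 for the Tate dual. -/
theorem hsm_dualTwist [Module.Finite (ZMod p) M]
    (hsm : ∀ m : M, ∃ F : IntermediateField ℚ Qbar, FiniteDimensional ℚ F ∧
      ∀ s ∈ F.fixingSubgroup, M.ρ s m = m) :
    ∀ f : M.dualTwist (cycloChar p), ∃ F : IntermediateField ℚ Qbar, FiniteDimensional ℚ F ∧
      ∀ s ∈ F.fixingSubgroup, (M.dualTwist (cycloChar p)).ρ s f = f := by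
  intro f
  obtain ⟨F₁, hF₁, h₁⟩ := exists_level_le_ker M hsm
  obtain ⟨F₂, hF₂, h₂⟩ := exists_level_cycloChar p
  haveI := hF₁; haveI := hF₂
  refine ⟨F₁ ⊔ F₂, IntermediateField.finiteDimensional_sup F₁ F₂, fun s hs => ?_⟩
  have hs1 : s ∈ F₁.fixingSubgroup := IntermediateField.fixingSubgroup_antitone le_sup_left hs
  have hs2 : s ∈ F₂.fixingSubgroup := IntermediateField.fixingSubgroup_antitone le_sup_right hs
  rw [dualTwist_ρ_eq_one M (h₁ s⁻¹ (inv_mem hs1)) (h₂ s hs2)]
  rfl

/-- `hMur` of S55 for the Tate dual (needs `p ∈ S`). -/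
theorem hMur_dualTwist (S : Finset Nat.Primes) (hpS : pPrime p ∈ S)
    (hMur : ∀ q : Nat.Primes, q ∉ S → ∀ A : ValuationSubring Qbar,
      A.LiesOverPrime (q : ℕ) → ∀ g ∈ A.inertiaSubgroupIn ℚ, M.ρ g = 1) :
    ∀ q : Nat.Primes, q ∉ S → ∀ A : ValuationSubring Qbar,
      A.LiesOverPrime (q : ℕ) → ∀ g ∈ A.inertiaSubgroupIn ℚ,
        (M.dualTwist (cycloChar p)).ρ g = 1 := by
  intro q hq A hA g hg
  have hqp : (q : ℕ) ≠ p := by
    intro h
    apply hq
    have : q = pPrime p := Subtype.ext h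
    rw [this]; exact hpS
  exact dualTwist_ρ_eq_one M (hMur q hq A hA g⁻¹ (inv_mem hg))
    (cycloChar_eq_one_of_mem_inertia p q.2 hqp hA hg)

instance finiteDimensional_dualTwist [FiniteDimensional (ZMod p) M] :
    FiniteDimensional (ZMod p) (M.dualTwist (cycloChar p)) :=
  inferInstanceAs (FiniteDimensional (ZMod p) (Module.Dual (ZMod p) M))

end DualTwist

end Fermat.Agent.CFT.H69
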