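import Fermat.Agent.CFT.H55_LevelRes
import Fermat.Agent.CFT.H69_SplittingField
import Fermat.Prelude.Def_GroupCohomology_ContinuousUnramified

/-!
# The level structures on `G_ℚ` and on the local Galois groups used by the frozen S55 statement

* `allLevels` : all `F.fixingSubgroup`, `F/ℚ` finite.
* `globalLevels S` : all `F.fixingSubgroup`, `F` unramified outside `S` (frozen predicate).
* `pullLevels r := allLevels.comap r` for `r : H →* G_ℚ` (the frozen `IsLevelConstant₁ r`).
* the frozen level-constancy predicates are literally the `IsConst` predicates of these structures.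
-/

set_option autoImplicit false

open CategoryTheory groupCohomology ExtCitation IntermediateField

namespace Fermat.Agent.CFT

local notation "GQ" => (AlgebraicClosure ℚ ≃ₐ[ℚ] AlgebraicClosure ℚ)
local notation "Qbar" => AlgebraicClosure ℚ

local instance isAlgebraicQb55 : Algebra.IsAlgebraic ℚ (AlgebraicClosure ℚ) :=
  AlgebraicClosure.isAlgebraic ℚ
local instance isAlgClosureQb55 : IsAlgClosure ℚ (AlgebraicClosure ℚ) :=
  ⟨inferInstance, inferInstance⟩
local instance isGaloisQb55 : IsGalois ℚ (AlgebraicClosure ℚ) := IsSepClosure.isGalois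

/-- the fixing subgroup of a finite extension has finite index. -/
lemma finiteIndex_fixingSubgroup (F : IntermediateField ℚ Qbar) [FiniteDimensional ℚ F] :
    F.fixingSubgroup.FiniteIndex := by
  rw [Subgroup.finiteIndex_iff, ← IntermediateField.finrank_eq_fixingSubgroup_index]
  exact Module.finrank_pos.ne'

/-- All finite levels of `G_ℚ`. -/
def allLevels : LevelStructure GQ where
  levels := {N | ∃ F : IntermediateField ℚ Qbar, FiniteDimensional ℚ F ∧ N = F.fixingSubgroup}
  nonempty := ⟨_, ⊥, inferInstance, rfl⟩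
  finiteIndex := by
    rintro _ ⟨F, hF, rfl⟩
    exact finiteIndex_fixingSubgroup F
  directed := by
    rintro _ ⟨F, hF, rfl⟩ _ ⟨F', hF', rfl⟩
    exact ⟨_, ⟨F ⊔ F', IntermediateField.finiteDimensional_sup F F', rfl⟩, by
      rw [IntermediateField.fixingSubgroup_sup]⟩
  exists_normal := by
    rintro _ ⟨F, hF, rfl⟩
    refine ⟨_, ⟨IntermediateField.normalClosure ℚ F Qbar,
      normalClosure.is_finiteDimensional ℚ F Qbar, rfl⟩,
      IntermediateField.fixingSubgroup_antitone (IntermediateField.le_normalClosure F), ?_⟩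
    rw [InfiniteGalois.normal_iff_isGalois]
    exact IsGalois.normalClosure ℚ F Qbar

/-- The levels of `G_S`: fixing subgroups of finite extensions unramified outside `S`. -/
def globalLevels (S : Finset Nat.Primes) : LevelStructure GQ where
  levels := {N | ∃ F : IntermediateField ℚ Qbar, F.IsUnramifiedOutside S ∧ N = F.fixingSubgroup}
  nonempty := ⟨_, ⊥, IntermediateField.isUnramifiedOutside_bot S, rfl⟩
  finiteIndex := by
    rintro _ ⟨F, hF, rfl⟩
    have := hF.1
    exact finiteIndex_fixingSubgroup F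
  directed := by
    rintro _ ⟨F, hF, rfl⟩ _ ⟨F', hF', rfl⟩
    exact ⟨_, ⟨F ⊔ F', hF.sup hF', rfl⟩, by rw [IntermediateField.fixingSubgroup_sup]⟩
  exists_normal := by
    rintro _ ⟨F, hF, rfl⟩
    obtain ⟨F', hle, hF', -, hnor⟩ := H69.exists_isGalois_ge hF
    exact ⟨_, ⟨F', hF', rfl⟩, IntermediateField.fixingSubgroup_antitone hle, hnor⟩

/-- The level structure on the source of `r : H →* G_ℚ` pulled back from all finite levels. -/
noncomputable abbrev pullLevels {H : Type} [Group H] (r : H →* GQ) : LevelStructure H := allLevels.comap r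

lemma mem_allLevels_iff (N : Subgroup GQ) :
    N ∈ allLevels.levels ↔
      ∃ F : IntermediateField ℚ Qbar, FiniteDimensional ℚ F ∧ N = F.fixingSubgroup := Iff.rfl

lemma mem_globalLevels_iff (S : Finset Nat.Primes) (N : Subgroup GQ) :
    N ∈ (globalLevels S).levels ↔
      ∃ F : IntermediateField ℚ Qbar, F.IsUnramifiedOutside S ∧ N = F.fixingSubgroup := Iff.rfl

/-! ### The frozen predicates are the `IsConst` predicates -/

section Predicates

variable {H : Type} [Group H] (r : H →* GQ) (S : Finset Nat.Primes) {X : Type*}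

lemma isLevelConstant₁_iff (f : H → X) :
    IsLevelConstant₁ r f ↔ (pullLevels r).IsConst₁ f := by
  constructor
  · rintro ⟨F, hF, h⟩
    exact ⟨_, ⟨_, ⟨F, hF, rfl⟩, rfl⟩, fun g s hs => h g s hs⟩
  · rintro ⟨_, ⟨_, ⟨F, hF, rfl⟩, rfl⟩, h⟩
    exact ⟨F, hF, fun g s hs => h g s hs⟩

lemma isLevelConstant₂_iff (f : H × H → X) :
    IsLevelConstant₂ r f ↔ (pullLevels r).IsConst₂ f := by
  constructor
  · rintro ⟨F, hF, h⟩
    exact ⟨_, ⟨_, ⟨F, hF, rfl⟩, rfl⟩, fun g g' s s' hs hs' => h g g' s s' hs hs'⟩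
  · rintro ⟨_, ⟨_, ⟨F, hF, rfl⟩, rfl⟩, h⟩
    exact ⟨F, hF, fun g g' s s' hs hs' => h g g' s s' hs hs'⟩

lemma isLevelConstantS₁_iff (f : GQ → X) :
    IsLevelConstantS₁ S f ↔ (globalLevels S).IsConst₁ f := by
  constructor
  · rintro ⟨F, hF, h⟩
    exact ⟨_, ⟨F, hF, rfl⟩, fun g s hs => h g s hs⟩
  · rintro ⟨_, ⟨F, hF, rfl⟩, h⟩
    exact ⟨F, hF, fun g s hs => h g s hs⟩

lemma isLevelConstantS₂_iff (f : GQ × GQ → X) :
    IsLevelConstantS₂ S f ↔ (globalLevels S).IsConst₂ f := by
  constructor
  · rintro ⟨F, hF, h⟩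
    exact ⟨_, ⟨F, hF, rfl⟩, fun g g' s s' hs hs' => h g g' s s' hs hs'⟩
  · rintro ⟨_, ⟨F, hF, rfl⟩, h⟩
    exact ⟨F, hF, fun g g' s s' hs hs' => h g g' s s' hs hs'⟩

end Predicates

/-! ### Continuity -/

/-- Every `r : H →* G_ℚ` is continuous from the pulled back levels to the `S`-levels. -/
lemma continuous_pullLevels_globalLevels {H : Type} [Group H] (r : H →* GQ)
    (S : Finset Nat.Primes) : (pullLevels r).Continuous (globalLevels S) r := by
  rintro _ ⟨F, hF, rfl⟩
  exact ⟨_, ⟨_, ⟨F, hF.1, rfl⟩, rfl⟩, le_rfl⟩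

lemma continuous_pullLevels_allLevels {H : Type} [Group H] (r : H →* GQ) :
    (pullLevels r).Continuous allLevels r :=
  LevelStructure.continuous_comap allLevels r

end Fermat.Agent.CFT
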