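import Mathlib
import Fermat.Prelude.Def_GaloisRep_CompletionBridge

set_option autoImplicit false

/-!
# The local Galois group at `q` is the decomposition group of `padicPlace q`

`localGaloisToGlobal q : Gal(PadicAlgCl q / ℚ_[q]) →* Gal(Qbar / ℚ)` is injective and its range is
the decomposition subgroup of `padicPlace q`.
-/

open Polynomial IntermediateField

noncomputable section

namespace Fermat.Agent.CFT.H15

variable (q : ℕ) [Fact q.Prime]

/-- Every element of `PadicAlgCl q` algebraic over `ℚ` is in the range of `padicEmbedding q`. -/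
theorem mem_range_padicEmbedding_of_aroots {g : ℚ[X]} {b : PadicAlgCl q}
    (hb : b ∈ g.aroots (PadicAlgCl q)) : b ∈ Set.range (padicEmbedding q) := by
  have hmap : g.map (algebraMap ℚ (PadicAlgCl q)) =
      (g.map (algebraMap ℚ (AlgebraicClosure ℚ))).map (padicEmbedding q).toRingHom := by
    rw [Polynomial.map_map]
    congr 1
    exact Subsingleton.elim _ _
  rw [Polynomial.aroots_def, hmap, Splits.roots_map (IsAlgClosed.splits _), Multiset.mem_map] at hb
  obtain ⟨a, _, ha⟩ := hb
  exact ⟨a, ha⟩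

theorem denseRange_algebraMap_rat_padic : DenseRange (algebraMap ℚ ℚ_[q]) := by
  have : (algebraMap ℚ ℚ_[q] : ℚ → ℚ_[q]) = ((↑) : ℚ → ℚ_[q]) := by
    ext r; simp
  rw [this]
  exact Padic.denseRange_ratCast q

/-- Approximation: every element of `PadicAlgCl q` is arbitrarily close to the image of an
algebraic number. -/
theorem exists_norm_sub_padicEmbedding_lt (a : PadicAlgCl q) {δ : ℝ} (hδ : 0 < δ) :
    ∃ x : AlgebraicClosure ℚ, ‖a - padicEmbedding q x‖ < δ := by
  have haint : IsIntegral ℚ_[q] a := (PadicAlgCl.isAlgebraic q).isAlgebraic a |>.isIntegral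
  set f := minpoly ℚ_[q] a with hf
  have fmon : f.Monic := minpoly.monic haint
  have fa0 : f.aeval a = 0 := minpoly.aeval _ _
  have fnatdeg0 : f.natDegree ≠ 0 := (minpoly.natDegree_pos haint).ne'
  have hε : (δ / (max ‖a‖ 1)) ^ f.natDegree / (f.natDegree + 1) > 0 := by positivity
  obtain ⟨g, gmon, gdeg, gcoeff⟩ :=
    exists_monic_and_natDegree_eq_and_norm_map_algebraMap_coeff_sub_lt
      (denseRange_algebraMap_rat_padic q) fmon hε
  obtain ⟨b, hb, hab⟩ := exists_aroots_norm_sub_lt_of_norm_coeff_sub_lt (L := PadicAlgCl q)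
      hε fa0 fmon (gmon.map _) (gdeg ▸ (g.natDegree_map _)) gcoeff (IsAlgClosed.splits _)
  have hab : ‖a - b‖ < δ := by
    rw [← Real.rpow_natCast, ← mul_comm_div, div_self, one_mul,
        ← Real.rpow_mul (div_pos hδ (by positivity)).le, mul_inv_cancel₀] at hab
    · simpa [mul_assoc, div_mul_cancel₀ _ (by positivity : (max ‖a‖ 1) > 0).ne'] using hab
    · simp [fnatdeg0]
    · positivity
  have hb' : b ∈ g.aroots (PadicAlgCl q) := by
    rw [Polynomial.aroots_def] at hb ⊢
    rwa [Polynomial.map_map, ← IsScalarTower.algebraMap_eq] at hb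
  obtain ⟨x, rfl⟩ := mem_range_padicEmbedding_of_aroots q hb'
  exact ⟨x, hab⟩

theorem denseRange_padicEmbedding : DenseRange (padicEmbedding q) := by
  rw [Metric.denseRange_iff]
  intro a r hr
  obtain ⟨x, hx⟩ := exists_norm_sub_padicEmbedding_lt q a hr
  exact ⟨x, by rwa [dist_eq_norm]⟩

/-- Krasner: every element of `PadicAlgCl q` lies in `ℚ_[q]⟮ι x⟯` for some algebraic number `x`. -/
theorem exists_mem_adjoin_padicEmbedding (a : PadicAlgCl q) :
    ∃ x : AlgebraicClosure ℚ, a ∈ ℚ_[q]⟮padicEmbedding q x⟯ := by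
  classical
  have haint : IsIntegral ℚ_[q] a := (PadicAlgCl.isAlgebraic q).isAlgebraic a |>.isIntegral
  let T : Finset (PadicAlgCl q) := ((minpoly ℚ_[q] a).rootSet (PadicAlgCl q)).toFinset.erase a
  let U : Finset ℝ := insert (1 : ℝ) (T.image fun x => ‖a - x‖)
  have hU : U.Nonempty := Finset.insert_nonempty _ _
  let δ : ℝ := U.min' hU
  have δpos : 0 < δ := by
    have hmem : δ ∈ U := Finset.min'_mem U hU
    rcases Finset.mem_insert.1 hmem with h | h
    · rw [h]; exact one_pos
    · obtain ⟨x, hx, hxe⟩ := Finset.mem_image.1 h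
      rw [← hxe, norm_pos_iff, sub_ne_zero]
      exact (Finset.ne_of_mem_erase hx).symm
  have norm_sub_le : ∀ a' : PadicAlgCl q, IsConjRoot ℚ_[q] a a' → a ≠ a' → δ ≤ ‖a - a'‖ := by
    intro a' conj ne
    apply Finset.min'_le
    apply Finset.mem_insert_of_mem
    apply Finset.mem_image_of_mem
    rw [Finset.mem_erase]
    refine ⟨ne.symm, ?_⟩
    rw [Set.mem_toFinset, ← isConjRoot_iff_mem_minpoly_rootSet haint]
    exact conj
  obtain ⟨x, hx⟩ := exists_norm_sub_padicEmbedding_lt q a δpos
  have hxint : IsIntegral ℚ_[q] (padicEmbedding q x) :=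
    (PadicAlgCl.isAlgebraic q).isAlgebraic _ |>.isIntegral
  exact ⟨x, IsKrasner.krasner (minpoly.irreducible haint).separable (IsAlgClosed.splits _) hxint
    fun a' h1 h2 => lt_of_lt_of_le hx (norm_sub_le a' h1 h2)⟩

/-- `PadicAlgCl q` is generated over `ℚ_[q]` by the algebraic numbers. -/
theorem adjoin_range_padicEmbedding_eq_top :
    IntermediateField.adjoin ℚ_[q] (Set.range (padicEmbedding q)) = ⊤ := by
  rw [eq_top_iff]
  intro a _
  obtain ⟨x, hx⟩ := exists_mem_adjoin_padicEmbedding q a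
  have hsub : ({padicEmbedding q x} : Set (PadicAlgCl q)) ⊆ Set.range (padicEmbedding q) :=
    Set.singleton_subset_iff.2 ⟨x, rfl⟩
  exact IntermediateField.adjoin.mono _ _ _ hsub hx

/-- Two `ℚ_[q]`-algebra endomorphisms of `PadicAlgCl q` agreeing on algebraic numbers agree. -/
theorem algHom_ext_of_padicEmbedding {τ τ' : PadicAlgCl q →ₐ[ℚ_[q]] PadicAlgCl q}
    (h : ∀ x : AlgebraicClosure ℚ, τ (padicEmbedding q x) = τ' (padicEmbedding q x)) : τ = τ' := by
  ext a
  have hmem : a ∈ IntermediateField.adjoin ℚ_[q] (Set.range (padicEmbedding q)) := by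
    rw [adjoin_range_padicEmbedding_eq_top]; trivial
  induction hmem using IntermediateField.adjoin_induction with
  | mem y hy => obtain ⟨x, rfl⟩ := hy; exact h x
  | algebraMap r => simp
  | add y z _ _ hy hz => simp [hy, hz]
  | inv y _ hy => simp [hy]
  | mul y z _ _ hy hz => simp [hy, hz]

theorem localGaloisToGlobal_injective : Function.Injective (localGaloisToGlobal q) := by
  rw [injective_iff_map_eq_one]
  intro τ hτ
  have h : ∀ x : AlgebraicClosure ℚ, τ (padicEmbedding q x) = padicEmbedding q x := by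
    intro x
    rw [← padicEmbedding_localGaloisToGlobal, hτ]
    rfl
  have : (τ : PadicAlgCl q →ₐ[ℚ_[q]] PadicAlgCl q) = AlgHom.id _ _ :=
    algHom_ext_of_padicEmbedding q (fun x => by simpa using h x)
  ext a
  have := congrArg (fun f : PadicAlgCl q →ₐ[ℚ_[q]] PadicAlgCl q => f a) this
  simpa using this

/-! ### Elements of the decomposition group are isometries -/

open scoped Pointwise

theorem smul_mem_of_mem_decompositionSubgroup {σ : AlgebraicClosure ℚ ≃ₐ[ℚ] AlgebraicClosure ℚ}
    (hσ : σ ∈ (padicPlace q).decompositionSubgroup ℚ) {x : AlgebraicClosure ℚ}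
    (hx : x ∈ padicPlace q) : σ x ∈ padicPlace q := by
  have h1 : σ • x ∈ σ • padicPlace q := ValuationSubring.smul_mem_pointwise_smul _ _ _ hx
  rw [MulAction.mem_stabilizer_iff.1 hσ] at h1
  exact h1

theorem norm_padicEmbedding_natCast_self :
    ‖padicEmbedding q ((q : ℕ) : AlgebraicClosure ℚ)‖ = (q : ℝ)⁻¹ := by
  rw [map_natCast, ← map_natCast (algebraMap ℚ_[q] (PadicAlgCl q)), PadicAlgCl.norm_extends,
    Padic.norm_p]

theorem mem_padicPlace_iff_norm_le {x : AlgebraicClosure ℚ} :
    x ∈ padicPlace q ↔ ‖padicEmbedding q x‖ ≤ 1 := by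
  rw [mem_padicPlace_iff, ← NNReal.coe_le_coe, coe_nnnorm, NNReal.coe_one]

theorem norm_padicEmbedding_apply_le {σ : AlgebraicClosure ℚ ≃ₐ[ℚ] AlgebraicClosure ℚ}
    (hσ : σ ∈ (padicPlace q).decompositionSubgroup ℚ) (x : AlgebraicClosure ℚ) :
    ‖padicEmbedding q (σ x)‖ ≤ ‖padicEmbedding q x‖ := by
  by_contra hlt
  rw [not_le] at hlt
  set s := ‖padicEmbedding q x‖ with hs
  set t := ‖padicEmbedding q (σ x)‖ with ht
  have hq1 : (1 : ℝ) < q := by exact_mod_cast (Fact.out : q.Prime).one_lt
  have hq0 : (0 : ℝ) < q := by linarith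
  have hx0 : x ≠ 0 := by
    rintro rfl
    simp only [map_zero, norm_zero, hs, ht] at hlt
    exact lt_irrefl _ hlt
  have hs0 : 0 < s := by
    rw [hs, norm_pos_iff]
    exact (_root_.map_ne_zero _).2 hx0
  have hts : 1 < t / s := by rwa [one_lt_div hs0]
  obtain ⟨b, hb⟩ := pow_unbounded_of_one_lt (q : ℝ) hts
  obtain ⟨n, hn1, hn2⟩ := exists_mem_Ico_zpow (pow_pos hs0 b) hq1
  -- the test element
  set y : AlgebraicClosure ℚ := x ^ b * ((q : ℕ) : AlgebraicClosure ℚ) ^ (n + 1) with hy
  have hNy : ‖padicEmbedding q y‖ = s ^ b * ((q : ℝ) ^ (n + 1))⁻¹ := by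
    rw [hy, map_mul, map_pow, map_zpow₀, norm_mul, norm_pow, norm_zpow,
      norm_padicEmbedding_natCast_self, inv_zpow]
  have hNσy : ‖padicEmbedding q (σ y)‖ = t ^ b * ((q : ℝ) ^ (n + 1))⁻¹ := by
    rw [hy, map_mul, map_pow, map_zpow₀, map_natCast, map_mul, map_pow, map_zpow₀, norm_mul,
      norm_pow, norm_zpow, norm_padicEmbedding_natCast_self, inv_zpow]
  have hqpos : 0 < (q : ℝ) ^ (n + 1) := zpow_pos hq0 _
  have hymem : y ∈ padicPlace q := by
    rw [mem_padicPlace_iff_norm_le, hNy, ← div_eq_mul_inv, div_le_one hqpos]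
    exact hn2.le
  have hσy : ¬ σ y ∈ padicPlace q := by
    rw [mem_padicPlace_iff_norm_le, hNσy, ← div_eq_mul_inv, div_le_one hqpos, not_le]
    calc (q : ℝ) ^ (n + 1) = q ^ n * q := by rw [zpow_add_one₀ hq0.ne']
      _ ≤ s ^ b * q := by gcongr
      _ < s ^ b * (t / s) ^ b := by gcongr
      _ = t ^ b := by rw [div_pow, mul_div_cancel₀ _ (pow_pos hs0 b).ne']
  exact hσy (smul_mem_of_mem_decompositionSubgroup q hσ hymem)

theorem norm_padicEmbedding_apply_of_mem_decompositionSubgroup
    {σ : AlgebraicClosure ℚ ≃ₐ[ℚ] AlgebraicClosure ℚ}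
    (hσ : σ ∈ (padicPlace q).decompositionSubgroup ℚ) (x : AlgebraicClosure ℚ) :
    ‖padicEmbedding q (σ x)‖ = ‖padicEmbedding q x‖ := by
  refine le_antisymm (norm_padicEmbedding_apply_le q hσ x) ?_
  have h := norm_padicEmbedding_apply_le q (inv_mem hσ) (σ x)
  have h2 : σ⁻¹ (σ x) = x := by
    change σ.symm (σ x) = x
    exact σ.symm_apply_apply x
  rwa [h2] at h

/-! ### Extending a decomposition-group element to `PadicAlgCl q` through `ℂ_[q]` -/

/-- The normed field structure on `Qbar` induced by `padicEmbedding q`. -/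
@[reducible] def qbarNormedField : NormedField (AlgebraicClosure ℚ) :=
  NormedField.induced (AlgebraicClosure ℚ) (PadicAlgCl q) (padicEmbedding q)
    (padicEmbedding q).injective

/-- `Qbar → ℂ_[q]`. -/
def toPadicComplex : AlgebraicClosure ℚ →+* ℂ_[q] :=
  (algebraMap (PadicAlgCl q) ℂ_[q]).comp (padicEmbedding q).toRingHom

theorem toPadicComplex_apply (x : AlgebraicClosure ℚ) :
    toPadicComplex q x = ((padicEmbedding q x : PadicAlgCl q) : ℂ_[q]) := rfl

theorem norm_toPadicComplex (x : AlgebraicClosure ℚ) :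
    ‖toPadicComplex q x‖ = ‖padicEmbedding q x‖ := by
  rw [toPadicComplex_apply, PadicComplex.norm_extends]

theorem denseRange_toPadicComplex : DenseRange (toPadicComplex q) := by
  have h := DenseRange.comp (UniformSpace.Completion.denseRange_coe (α := PadicAlgCl q))
    (denseRange_padicEmbedding q) (UniformSpace.Completion.continuous_coe _)
  exact h

theorem isUniformInducing_toPadicComplex :
    @IsUniformInducing _ _ (qbarNormedField q).toUniformSpace _ (toPadicComplex q) := by
  let := qbarNormedField q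
  have h : Isometry (toPadicComplex q) :=
    AddMonoidHomClass.isometry_of_norm (toPadicComplex q) (fun x => norm_toPadicComplex q x)
  exact h.isUniformInducing

theorem uniformContinuous_toPadicComplex_comp
    {σ : AlgebraicClosure ℚ ≃ₐ[ℚ] AlgebraicClosure ℚ}
    (hσ : σ ∈ (padicPlace q).decompositionSubgroup ℚ) :
    @UniformContinuous _ _ (qbarNormedField q).toUniformSpace _
      ((toPadicComplex q).comp (σ : AlgebraicClosure ℚ →+* AlgebraicClosure ℚ)) := by
  let := qbarNormedField q
  have h : Isometry ((toPadicComplex q).comp (σ : AlgebraicClosure ℚ →+* AlgebraicClosure ℚ)) :=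
    AddMonoidHomClass.isometry_of_norm _ (fun x => by
      rw [RingHom.comp_apply, norm_toPadicComplex]
      exact norm_padicEmbedding_apply_of_mem_decompositionSubgroup q hσ x)
  exact h.uniformContinuous

/-- The continuous extension of a decomposition group element to `ℂ_[q]`. -/
def extendComplex {σ : AlgebraicClosure ℚ ≃ₐ[ℚ] AlgebraicClosure ℚ}
    (hσ : σ ∈ (padicPlace q).decompositionSubgroup ℚ) : ℂ_[q] →+* ℂ_[q] :=
  letI := qbarNormedField q
  IsDenseInducing.extendRingHom (isUniformInducing_toPadicComplex q) (denseRange_toPadicComplex q)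
    (uniformContinuous_toPadicComplex_comp q hσ)

theorem extendComplex_toPadicComplex {σ : AlgebraicClosure ℚ ≃ₐ[ℚ] AlgebraicClosure ℚ}
    (hσ : σ ∈ (padicPlace q).decompositionSubgroup ℚ) (x : AlgebraicClosure ℚ) :
    extendComplex q hσ (toPadicComplex q x) = toPadicComplex q (σ x) := by
  let := qbarNormedField q
  exact IsDenseInducing.extend_eq
    ((isUniformInducing_toPadicComplex q).isDenseInducing (denseRange_toPadicComplex q))
    (uniformContinuous_toPadicComplex_comp q hσ).continuous x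

theorem continuous_extendComplex {σ : AlgebraicClosure ℚ ≃ₐ[ℚ] AlgebraicClosure ℚ}
    (hσ : σ ∈ (padicPlace q).decompositionSubgroup ℚ) : Continuous (extendComplex q hσ) := by
  let := qbarNormedField q
  exact (uniformContinuous_uniformly_extend (isUniformInducing_toPadicComplex q)
    (denseRange_toPadicComplex q) (uniformContinuous_toPadicComplex_comp q hσ)).continuous

theorem extendComplex_algebraMap {σ : AlgebraicClosure ℚ ≃ₐ[ℚ] AlgebraicClosure ℚ}
    (hσ : σ ∈ (padicPlace q).decompositionSubgroup ℚ) (r : ℚ_[q]) :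
    extendComplex q hσ (algebraMap ℚ_[q] ℂ_[q] r) = algebraMap ℚ_[q] ℂ_[q] r := by
  have h := DenseRange.equalizer (Padic.denseRange_ratCast q)
    (g := fun r : ℚ_[q] => extendComplex q hσ (algebraMap ℚ_[q] ℂ_[q] r))
    (h := fun r : ℚ_[q] => algebraMap ℚ_[q] ℂ_[q] r)
    ((continuous_extendComplex q hσ).comp (continuous_algebraMap ℚ_[q] ℂ_[q]))
    (continuous_algebraMap ℚ_[q] ℂ_[q]) (by
      ext r
      simp only [Function.comp_apply, map_ratCast])
  exact congrFun h r

/-- The extension as a `ℚ_[q]`-algebra endomorphism of `ℂ_[q]`. -/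
def extendComplexAlgHom {σ : AlgebraicClosure ℚ ≃ₐ[ℚ] AlgebraicClosure ℚ}
    (hσ : σ ∈ (padicPlace q).decompositionSubgroup ℚ) : ℂ_[q] →ₐ[ℚ_[q]] ℂ_[q] :=
  { extendComplex q hσ with
    commutes' := extendComplex_algebraMap q hσ }

/-- Roots in a bigger field of a polynomial over `k` come from an algebraically closed
intermediate field. -/
theorem mem_range_of_mem_aroots {k K₁ K₂ : Type*} [Field k] [Field K₁] [Field K₂] [Algebra k K₁]
    [Algebra k K₂] [IsAlgClosed K₁] (φ : K₁ →ₐ[k] K₂) {g : k[X]} {b : K₂}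
    (hb : b ∈ g.aroots K₂) : b ∈ Set.range φ := by
  have hmap : g.map (algebraMap k K₂) = (g.map (algebraMap k K₁)).map φ.toRingHom := by
    rw [Polynomial.map_map]
    congr 1
    ext r
    simp
  rw [Polynomial.aroots_def, hmap, Splits.roots_map (IsAlgClosed.splits _), Multiset.mem_map] at hb
  obtain ⟨a, _, ha⟩ := hb
  exact ⟨a, ha⟩

/-- The inclusion `PadicAlgCl q → ℂ_[q]` as an algebra map. -/
def toComplexAlgHom : PadicAlgCl q →ₐ[ℚ_[q]] ℂ_[q] :=
  IsScalarTower.toAlgHom ℚ_[q] (PadicAlgCl q) ℂ_[q]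

theorem toComplexAlgHom_apply (z : PadicAlgCl q) : toComplexAlgHom q z = (z : ℂ_[q]) := rfl

theorem toComplexAlgHom_injective : Function.Injective (toComplexAlgHom q) :=
  (toComplexAlgHom q).toRingHom.injective

theorem mem_range_toComplexAlgHom_of_isIntegral {w : ℂ_[q]} (hw : IsIntegral ℚ_[q] w) :
    w ∈ (toComplexAlgHom q).range := by
  have hmem : w ∈ (minpoly ℚ_[q] w).aroots ℂ_[q] := by
    rw [Polynomial.mem_aroots]
    exact ⟨minpoly.ne_zero hw, minpoly.aeval _ _⟩
  exact mem_range_of_mem_aroots (toComplexAlgHom q) hmem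

theorem extendComplex_mem_range {σ : AlgebraicClosure ℚ ≃ₐ[ℚ] AlgebraicClosure ℚ}
    (hσ : σ ∈ (padicPlace q).decompositionSubgroup ℚ) (z : PadicAlgCl q) :
    ((extendComplexAlgHom q hσ).comp (toComplexAlgHom q)) z ∈ (toComplexAlgHom q).range := by
  apply mem_range_toComplexAlgHom_of_isIntegral
  have hz : IsIntegral ℚ_[q] z := (PadicAlgCl.isAlgebraic q).isAlgebraic z |>.isIntegral
  exact hz.map _

/-- The extension of `σ` to a `ℚ_[q]`-endomorphism of `PadicAlgCl q`. -/
def extendAlgHom {σ : AlgebraicClosure ℚ ≃ₐ[ℚ] AlgebraicClosure ℚ}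
    (hσ : σ ∈ (padicPlace q).decompositionSubgroup ℚ) : PadicAlgCl q →ₐ[ℚ_[q]] PadicAlgCl q :=
  ((AlgEquiv.ofInjectiveField (toComplexAlgHom q)).symm : _ →ₐ[ℚ_[q]] PadicAlgCl q).comp
    (AlgHom.codRestrict ((extendComplexAlgHom q hσ).comp (toComplexAlgHom q))
      (toComplexAlgHom q).range (extendComplex_mem_range q hσ))

theorem toComplexAlgHom_extendAlgHom {σ : AlgebraicClosure ℚ ≃ₐ[ℚ] AlgebraicClosure ℚ}
    (hσ : σ ∈ (padicPlace q).decompositionSubgroup ℚ) (z : PadicAlgCl q) :
    toComplexAlgHom q (extendAlgHom q hσ z) = extendComplex q hσ (z : ℂ_[q]) := by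
  have h := (AlgEquiv.ofInjectiveField (toComplexAlgHom q)).apply_symm_apply
    (AlgHom.codRestrict ((extendComplexAlgHom q hσ).comp (toComplexAlgHom q))
      (toComplexAlgHom q).range (extendComplex_mem_range q hσ) z)
  have h2 := congrArg Subtype.val h
  exact h2

theorem extendAlgHom_padicEmbedding {σ : AlgebraicClosure ℚ ≃ₐ[ℚ] AlgebraicClosure ℚ}
    (hσ : σ ∈ (padicPlace q).decompositionSubgroup ℚ) (x : AlgebraicClosure ℚ) :
    extendAlgHom q hσ (padicEmbedding q x) = padicEmbedding q (σ x) := by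
  apply toComplexAlgHom_injective q
  rw [toComplexAlgHom_extendAlgHom]
  exact extendComplex_toPadicComplex q hσ x

/-- The extension of `σ` as an element of the local Galois group. -/
def extendAlgEquiv {σ : AlgebraicClosure ℚ ≃ₐ[ℚ] AlgebraicClosure ℚ}
    (hσ : σ ∈ (padicPlace q).decompositionSubgroup ℚ) : PadicAlgCl q ≃ₐ[ℚ_[q]] PadicAlgCl q :=
  AlgEquiv.ofBijective (extendAlgHom q hσ) (Algebra.IsAlgebraic.algHom_bijective _)

theorem localGaloisToGlobal_extendAlgEquiv {σ : AlgebraicClosure ℚ ≃ₐ[ℚ] AlgebraicClosure ℚ}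
    (hσ : σ ∈ (padicPlace q).decompositionSubgroup ℚ) :
    localGaloisToGlobal q (extendAlgEquiv q hσ) = σ := by
  ext x
  have hinj : Function.Injective (padicEmbedding q) := (padicEmbedding q).injective
  apply hinj
  rw [padicEmbedding_localGaloisToGlobal]
  exact extendAlgHom_padicEmbedding q hσ x

/-- **The image of the local Galois group is the decomposition group.** -/
theorem range_localGaloisToGlobal :
    (localGaloisToGlobal q).range = (padicPlace q).decompositionSubgroup ℚ := by
  apply le_antisymm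
  · rintro _ ⟨τ, rfl⟩
    exact localGaloisToGlobal_mem_decompositionSubgroup q τ
  · intro σ hσ
    exact ⟨extendAlgEquiv q hσ, localGaloisToGlobal_extendAlgEquiv q hσ⟩

/-- The local Galois group is isomorphic to the decomposition group. -/
def localGaloisEquivDecomposition :
    (PadicAlgCl q ≃ₐ[ℚ_[q]] PadicAlgCl q) ≃* ↥((padicPlace q).decompositionSubgroup ℚ) :=
  (MonoidHom.ofInjective (localGaloisToGlobal_injective q)).trans
    (MulEquiv.subgroupCongr (range_localGaloisToGlobal q))

@[simp] theorem coe_localGaloisEquivDecomposition (τ : PadicAlgCl q ≃ₐ[ℚ_[q]] PadicAlgCl q) :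
    (localGaloisEquivDecomposition q τ : AlgebraicClosure ℚ ≃ₐ[ℚ] AlgebraicClosure ℚ) =
      localGaloisToGlobal q τ := rfl

end Fermat.Agent.CFT.H15
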