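import Mathlib
import Fermat.Prelude.Def_ExtEndgame_ProductionDatum
import Fermat.Agent.CFT.H15_LocalToGlobal

set_option autoImplicit false

/-!
# `primeLocalToGlobal q` is injective with range the decomposition group of `primeLocalPlace q`

Wrappers of `H15_LocalToGlobal` for the `Nat.Primes`-indexed definitions of
`Def_ExtEndgame_ProductionDatum`.
-/

open ExtCitation

noncomputable section

namespace Fermat.Agent.CFT.H15

theorem primeLocalToGlobal_injective (q : Nat.Primes) :
    Function.Injective (primeLocalToGlobal q) :=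
  letI : Fact (q : ℕ).Prime := ⟨q.2⟩
  localGaloisToGlobal_injective (q : ℕ)

theorem range_primeLocalToGlobal (q : Nat.Primes) :
    (primeLocalToGlobal q).range = (primeLocalPlace q).decompositionSubgroup ℚ :=
  letI : Fact (q : ℕ).Prime := ⟨q.2⟩
  range_localGaloisToGlobal (q : ℕ)

theorem primeLocalToGlobal_mem_decompositionSubgroup (q : Nat.Primes)
    (τ : primeLocalGaloisGroup q) :
    primeLocalToGlobal q τ ∈ (primeLocalPlace q).decompositionSubgroup ℚ := by
  rw [← range_primeLocalToGlobal]
  exact ⟨τ, rfl⟩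

theorem exists_primeLocalToGlobal_eq (q : Nat.Primes)
    {σ : AlgebraicClosure ℚ ≃ₐ[ℚ] AlgebraicClosure ℚ}
    (hσ : σ ∈ (primeLocalPlace q).decompositionSubgroup ℚ) :
    ∃ τ : primeLocalGaloisGroup q, primeLocalToGlobal q τ = σ := by
  rw [← range_primeLocalToGlobal] at hσ
  exact hσ

/-- The local Galois group at `q` is isomorphic to the decomposition group of
`primeLocalPlace q`. -/
def primeLocalEquivDecomposition (q : Nat.Primes) :
    primeLocalGaloisGroup q ≃* ↥((primeLocalPlace q).decompositionSubgroup ℚ) :=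
  (MonoidHom.ofInjective (primeLocalToGlobal_injective q)).trans
    (MulEquiv.subgroupCongr (range_primeLocalToGlobal q))

@[simp] theorem coe_primeLocalEquivDecomposition (q : Nat.Primes) (τ : primeLocalGaloisGroup q) :
    (primeLocalEquivDecomposition q τ : AlgebraicClosure ℚ ≃ₐ[ℚ] AlgebraicClosure ℚ) =
      primeLocalToGlobal q τ := rfl

/-- `x ∈ (padicPlace q).nonunits` iff `‖ι x‖ < 1`. -/
theorem mem_nonunits_padicPlace_iff (q : ℕ) [Fact q.Prime] {x : AlgebraicClosure ℚ} :
    x ∈ (padicPlace q).nonunits ↔ ‖padicEmbedding q x‖ < 1 := by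
  rw [ValuationSubring.mem_nonunits_iff_or]
  constructor
  · rintro (rfl | h)
    · simp
    · rw [mem_padicPlace_iff_norm_le, map_inv₀, norm_inv, not_le] at h
      by_contra hge
      rw [not_lt] at hge
      have hpos : 0 < ‖padicEmbedding q x‖ := lt_of_lt_of_le one_pos hge
      exact absurd h (not_lt.2 (inv_le_one_of_one_le₀ hge))
  · intro h
    by_cases hx : x = 0
    · exact Or.inl hx
    · right
      rw [mem_padicPlace_iff_norm_le, map_inv₀, norm_inv, not_le]
      have hpos : 0 < ‖padicEmbedding q x‖ := by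
        rw [norm_pos_iff]; exact (_root_.map_ne_zero _).2 hx
      exact (one_lt_inv₀ hpos).2 h

theorem padicPlace_liesOverPrime (q : ℕ) [Fact q.Prime] : (padicPlace q).LiesOverPrime q := by
  change ((q : ℕ) : AlgebraicClosure ℚ) ∈ (padicPlace q).nonunits
  rw [mem_nonunits_padicPlace_iff, norm_padicEmbedding_natCast_self]
  exact inv_lt_one_of_one_lt₀ (by exact_mod_cast (Fact.out : q.Prime).one_lt)

theorem primeLocalPlace_liesOverPrime (q : Nat.Primes) :
    (primeLocalPlace q).LiesOverPrime (q : ℕ) :=
  letI : Fact (q : ℕ).Prime := ⟨q.2⟩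
  padicPlace_liesOverPrime (q : ℕ)

end Fermat.Agent.CFT.H15
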