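import Mathlib

/-!
# Level structures and level cohomology (degrees 0..3)

Vocabulary shared by layers D0 / D1 / E of the CFT project.

A *level structure* on a group `H` is a directed family of finite-index subgroups which is
cofinally normal.  A cochain is *level-constant* when it is invariant under right translation
by some member of the family in every variable.  This is exactly the shape of the frozen
definitions `IsLevelConstant₁ r`, `IsLevelConstantS₁ S`, ... (take the family of all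
`(F.fixingSubgroup).comap r`).

All modules are Mathlib `Rep k H`; the differentials in degree `≤ 2` are Mathlib's `d₀₁ d₁₂ d₂₃`.
-/

set_option autoImplicit false

universe u

open CategoryTheory groupCohomology

namespace Fermat.Agent.CFT

/-- A directed family of finite-index subgroups of `H`, cofinally normal. -/
structure LevelStructure (H : Type u) [Group H] where
  levels : Set (Subgroup H)
  nonempty : levels.Nonempty
  finiteIndex : ∀ N ∈ levels, N.FiniteIndex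
  directed : ∀ N₁ ∈ levels, ∀ N₂ ∈ levels, ∃ N₃ ∈ levels, N₃ ≤ N₁ ⊓ N₂
  exists_normal : ∀ N ∈ levels, ∃ N' ∈ levels, N' ≤ N ∧ N'.Normal

/-- The preimage of a finite-index subgroup has finite index. -/
lemma finiteIndex_comap_of_finiteIndex {G G' : Type*} [Group G] [Group G'] (f : G' →* G)
    (N : Subgroup G) [N.FiniteIndex] : (N.comap f).FiniteIndex := by
  rw [Subgroup.finiteIndex_iff, Subgroup.index_comap]
  exact (Subgroup.instFiniteIndex_subgroupOf N f.range).index_ne_zero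

namespace LevelStructure

variable {H : Type u} [Group H] (𝓛 : LevelStructure H)

/-- A subgroup is *open* if it contains a level. -/
def IsOpen (U : Subgroup H) : Prop := ∃ N ∈ 𝓛.levels, N ≤ U

/-- Pull back a level structure along a group homomorphism. -/
def comap {H' : Type u} [Group H'] (φ : H' →* H) : LevelStructure H' where
  levels := (fun N => N.comap φ) '' 𝓛.levels
  nonempty := 𝓛.nonempty.image _
  finiteIndex := by
    rintro _ ⟨N, hN, rfl⟩
    have := 𝓛.finiteIndex N hN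
    exact finiteIndex_comap_of_finiteIndex φ N
  directed := by
    rintro _ ⟨N₁, h₁, rfl⟩ _ ⟨N₂, h₂, rfl⟩
    obtain ⟨N₃, h₃, hle⟩ := 𝓛.directed N₁ h₁ N₂ h₂
    exact ⟨_, ⟨N₃, h₃, rfl⟩, by
      rw [← Subgroup.comap_inf]; exact Subgroup.comap_mono hle⟩
  exists_normal := by
    rintro _ ⟨N, hN, rfl⟩
    obtain ⟨N', hN', hle, hnor⟩ := 𝓛.exists_normal N hN
    exact ⟨_, ⟨N', hN', rfl⟩, Subgroup.comap_mono hle, hnor.comap φ⟩

/-- The level structure induced on a subgroup. -/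
abbrev restrict (U : Subgroup H) : LevelStructure U := 𝓛.comap U.subtype

section Const

variable {X : Type*}

/-- Level-constant functions of one variable. -/
def IsConst₁ (f : H → X) : Prop :=
  ∃ N ∈ 𝓛.levels, ∀ g s, s ∈ N → f (g * s) = f g

/-- Level-constant functions of two variables. -/
def IsConst₂ (f : H × H → X) : Prop :=
  ∃ N ∈ 𝓛.levels, ∀ g g' s s', s ∈ N → s' ∈ N → f (g * s, g' * s') = f (g, g')

/-- Level-constant functions of three variables. -/
def IsConst₃ (f : H × H × H → X) : Prop :=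
  ∃ N ∈ 𝓛.levels, ∀ g g' g'' s s' s'', s ∈ N → s' ∈ N → s'' ∈ N →
    f (g * s, g' * s', g'' * s'') = f (g, g', g'')

variable {𝓛}

lemma IsConst₁.comp {Y : Type*} {f : H → X} (hf : 𝓛.IsConst₁ f) (φ : X → Y) :
    𝓛.IsConst₁ (φ ∘ f) := by
  obtain ⟨N, hN, h⟩ := hf
  exact ⟨N, hN, fun g s hs => by simp only [Function.comp_apply, h g s hs]⟩

lemma IsConst₂.comp {Y : Type*} {f : H × H → X} (hf : 𝓛.IsConst₂ f) (φ : X → Y) :
    𝓛.IsConst₂ (φ ∘ f) := by
  obtain ⟨N, hN, h⟩ := hf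
  exact ⟨N, hN, fun g g' s s' hs hs' => by simp only [Function.comp_apply, h g g' s s' hs hs']⟩

lemma IsConst₃.comp {Y : Type*} {f : H × H × H → X} (hf : 𝓛.IsConst₃ f) (φ : X → Y) :
    𝓛.IsConst₃ (φ ∘ f) := by
  obtain ⟨N, hN, h⟩ := hf
  exact ⟨N, hN, fun g g' g'' s s' s'' hs hs' hs'' => by
    simp only [Function.comp_apply, h g g' g'' s s' s'' hs hs' hs'']⟩

variable (𝓛)

lemma isConst₁_const (x : X) : 𝓛.IsConst₁ (fun _ : H => x) := by
  obtain ⟨N, hN⟩ := 𝓛.nonempty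
  exact ⟨N, hN, fun _ _ _ => rfl⟩

lemma isConst₂_const (x : X) : 𝓛.IsConst₂ (fun _ : H × H => x) := by
  obtain ⟨N, hN⟩ := 𝓛.nonempty
  exact ⟨N, hN, fun _ _ _ _ _ _ => rfl⟩

lemma isConst₃_const (x : X) : 𝓛.IsConst₃ (fun _ : H × H × H => x) := by
  obtain ⟨N, hN⟩ := 𝓛.nonempty
  exact ⟨N, hN, fun _ _ _ _ _ _ _ _ _ => rfl⟩

variable {𝓛}

lemma IsConst₁.add [Add X] {f f' : H → X} (hf : 𝓛.IsConst₁ f) (hf' : 𝓛.IsConst₁ f') :
    𝓛.IsConst₁ (f + f') := by
  obtain ⟨N, hN, h⟩ := hf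
  obtain ⟨N', hN', h'⟩ := hf'
  obtain ⟨N'', hN'', hle⟩ := 𝓛.directed N hN N' hN'
  refine ⟨N'', hN'', fun g s hs => ?_⟩
  simp only [Pi.add_apply]
  rw [h g s (hle hs).1, h' g s (hle hs).2]

lemma IsConst₂.add [Add X] {f f' : H × H → X} (hf : 𝓛.IsConst₂ f) (hf' : 𝓛.IsConst₂ f') :
    𝓛.IsConst₂ (f + f') := by
  obtain ⟨N, hN, h⟩ := hf
  obtain ⟨N', hN', h'⟩ := hf'
  obtain ⟨N'', hN'', hle⟩ := 𝓛.directed N hN N' hN'
  refine ⟨N'', hN'', fun g g' s s' hs hs' => ?_⟩
  simp only [Pi.add_apply]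
  rw [h g g' s s' (hle hs).1 (hle hs').1, h' g g' s s' (hle hs).2 (hle hs').2]

lemma IsConst₃.add [Add X] {f f' : H × H × H → X} (hf : 𝓛.IsConst₃ f)
    (hf' : 𝓛.IsConst₃ f') : 𝓛.IsConst₃ (f + f') := by
  obtain ⟨N, hN, h⟩ := hf
  obtain ⟨N', hN', h'⟩ := hf'
  obtain ⟨N'', hN'', hle⟩ := 𝓛.directed N hN N' hN'
  refine ⟨N'', hN'', fun g g' g'' s s' s'' hs hs' hs'' => ?_⟩
  simp only [Pi.add_apply]
  rw [h g g' g'' s s' s'' (hle hs).1 (hle hs').1 (hle hs'').1,
    h' g g' g'' s s' s'' (hle hs).2 (hle hs').2 (hle hs'').2]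

end Const

noncomputable section Rep

variable {k : Type u} [CommRing k] (A : Rep k H)

/-- A representation is *discrete* for `𝓛` if every vector is fixed by some level. -/
def IsDiscrete : Prop := ∀ a : A, ∃ N ∈ 𝓛.levels, ∀ n ∈ N, A.ρ n a = a

/-- Level-constant `1`-cochains. -/
def cochains₁ : Submodule k (H → A) where
  carrier := {f | 𝓛.IsConst₁ f}
  add_mem' hf hf' := hf.add hf'
  zero_mem' := 𝓛.isConst₁_const (0 : A)
  smul_mem' c _ hf := hf.comp (c • ·)

/-- Level-constant `2`-cochains. -/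
def cochains₂ : Submodule k (H × H → A) where
  carrier := {f | 𝓛.IsConst₂ f}
  add_mem' hf hf' := hf.add hf'
  zero_mem' := 𝓛.isConst₂_const (0 : A)
  smul_mem' c _ hf := hf.comp (c • ·)

/-- Level-constant `3`-cochains. -/
def cochains₃ : Submodule k (H × H × H → A) where
  carrier := {f | 𝓛.IsConst₃ f}
  add_mem' hf hf' := hf.add hf'
  zero_mem' := 𝓛.isConst₃_const (0 : A)
  smul_mem' c _ hf := hf.comp (c • ·)

lemma mem_cochains₁_iff (f : H → A) : f ∈ 𝓛.cochains₁ A ↔ 𝓛.IsConst₁ f := Iff.rfl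
lemma mem_cochains₂_iff (f : H × H → A) : f ∈ 𝓛.cochains₂ A ↔ 𝓛.IsConst₂ f := Iff.rfl
lemma mem_cochains₃_iff (f : H × H × H → A) : f ∈ 𝓛.cochains₃ A ↔ 𝓛.IsConst₃ f := Iff.rfl

/-- The differential `C³ → C⁴` written out (Mathlib stops at `d₂₃`). -/
def d₃₄ : (H × H × H → A) →ₗ[k] (H × H × H × H → A) where
  toFun f x := A.ρ x.1 (f (x.2.1, x.2.2.1, x.2.2.2)) - f (x.1 * x.2.1, x.2.2.1, x.2.2.2)
    + f (x.1, x.2.1 * x.2.2.1, x.2.2.2) - f (x.1, x.2.1, x.2.2.1 * x.2.2.2)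
    + f (x.1, x.2.1, x.2.2.1)
  map_add' f f' := by
    ext x
    simp only [Pi.add_apply, map_add]
    abel
  map_smul' c f := by
    ext x
    simp only [Pi.smul_apply, map_smul, RingHom.id_apply, smul_add, smul_sub]

/-- Level `1`-cocycles. -/
def cocycles₁ : Submodule k (H → A) := groupCohomology.cocycles₁ A ⊓ 𝓛.cochains₁ A

/-- Level `2`-cocycles. -/
def cocycles₂ : Submodule k (H × H → A) := groupCohomology.cocycles₂ A ⊓ 𝓛.cochains₂ A

/-- Level `3`-cocycles. -/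
def cocycles₃ : Submodule k (H × H × H → A) := LinearMap.ker (d₃₄ A) ⊓ 𝓛.cochains₃ A

/-- Level `1`-coboundaries: all `g ↦ g • a - a` (level-constant as soon as `A` is discrete). -/
def coboundaries₁ (_𝓛 : LevelStructure H) : Submodule k (H → A) :=
  groupCohomology.coboundaries₁ A

/-- Level `2`-coboundaries: `d` of level `1`-cochains. -/
def coboundaries₂ : Submodule k (H × H → A) := (𝓛.cochains₁ A).map (d₁₂ A).hom

/-- Level `3`-coboundaries: `d` of level `2`-cochains. -/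
def coboundaries₃ : Submodule k (H × H × H → A) := (𝓛.cochains₂ A).map (d₂₃ A).hom

/-- `H⁰`: the invariants. -/
abbrev H0 : Submodule k A := A.ρ.invariants

/-- Level `H¹`. -/
abbrev H1 : Type u :=
  ↥(𝓛.cocycles₁ A) ⧸ (𝓛.coboundaries₁ A).comap (𝓛.cocycles₁ A).subtype

/-- Level `H²`. -/
abbrev H2 : Type u :=
  ↥(𝓛.cocycles₂ A) ⧸ (𝓛.coboundaries₂ A).comap (𝓛.cocycles₂ A).subtype

/-- Level `H³`. -/
abbrev H3 : Type u :=
  ↥(𝓛.cocycles₃ A) ⧸ (𝓛.coboundaries₃ A).comap (𝓛.cocycles₃ A).subtype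

/-- Projection from level `1`-cocycles to `H¹`. -/
abbrev H1π : ↥(𝓛.cocycles₁ A) →ₗ[k] 𝓛.H1 A := Submodule.mkQ _

/-- Projection from level `2`-cocycles to `H²`. -/
abbrev H2π : ↥(𝓛.cocycles₂ A) →ₗ[k] 𝓛.H2 A := Submodule.mkQ _

/-- Projection from level `3`-cocycles to `H³`. -/
abbrev H3π : ↥(𝓛.cocycles₃ A) →ₗ[k] 𝓛.H3 A := Submodule.mkQ _

end Rep

end LevelStructure

end Fermat.Agent.CFT
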