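import Mathlib
import Fermat.Agent.S54.FrobExists
import Fermat.Agent.S14.H54_Dict
import Fermat.Agent.CFT.H69_SplittingField

/-!
# Frobenius elements at a GIVEN place of `ℚ̄`

`exists_frob_at` : for every valuation subring `A` of `ℚ̄` over a rational prime `ℓ` there is
`σ` in the decomposition group of `A` with `σ x ≡ x ^ ℓ` modulo the maximal ideal, for all `x ∈ A`.
`frob_apply_of_pow_eq_one` : such a `σ` acts on roots of unity of order prime to `ℓ` by `ζ ↦ ζ ^ ℓ`.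
-/

set_option autoImplicit false

namespace Fermat.Agent.CFT.H69

open Fermat.Agent.S54 Fermat.Agent.S14.H54
open scoped Pointwise

local notation "Qbar" => AlgebraicClosure ℚ

attribute [local instance] isAlgebraic_Qbar isAlgClosure_Qbar isGalois_Qbar

/-- a Frobenius element for a given maximal ideal of `Zbar` over `ℓ`. -/
theorem exists_stabilizer_frob_of (ℓ : ℕ) (hℓ : ℓ.Prime) (Q : Ideal Zbar) [hQmax : Q.IsMaximal]
    (hQover : Q.comap (algebraMap ℤ Zbar) = Ideal.span {(ℓ : ℤ)}) :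
    ∃ σ : GQ, (∀ b : Zbar, σ • b ∈ Q ↔ b ∈ Q) ∧ ∀ b : Zbar, σ • b - b ^ ℓ ∈ Q := by
  classical
  let P : Ideal ℤ := Ideal.span {(ℓ : ℤ)}
  haveI hPmax : P.IsMaximal :=
    PrincipalIdealRing.isMaximal_of_irreducible (Nat.prime_iff_prime_int.mp hℓ).irreducible
  haveI hlo : Q.LiesOver P := ⟨hQover.symm⟩
  letI : TopologicalSpace Zbar := ⊥
  haveI : DiscreteTopology Zbar := ⟨rfl⟩
  haveI := continuousSMul_Zbar
  haveI := isInvariant_Zbar
  letI := Ideal.Quotient.field P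
  letI := Ideal.Quotient.field Q
  haveI : Finite (ℤ ⧸ P) := Nat.finite_of_card_ne_zero (by
    rw [Int.card_ideal_quot]; exact hℓ.ne_zero)
  letI : Fintype (ℤ ⧸ P) := Fintype.ofFinite _
  haveI : Algebra.IsAlgebraic (ℤ ⧸ P) (Zbar ⧸ Q) := Algebra.IsIntegral.isAlgebraic
  let frob := FiniteField.frobeniusAlgEquivOfAlgebraic (ℤ ⧸ P) (Zbar ⧸ Q)
  obtain ⟨⟨σ, hσ⟩, hσfrob⟩ :=
    Ideal.Quotient.stabilizerHom_surjective_of_profinite (G := GQ) P Q frob
  have hcard : Fintype.card (ℤ ⧸ P) = ℓ := by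
    rw [← Nat.card_eq_fintype_card]; exact Int.card_ideal_quot ℓ
  refine ⟨σ, ?_, ?_⟩
  · intro b
    have hσ' : σ • Q = Q := hσ
    constructor
    · intro h
      rw [← hσ'] at h
      exact (Ideal.smul_mem_pointwise_smul_iff).mp h
    · intro h
      rw [← hσ']
      exact (Ideal.smul_mem_pointwise_smul_iff).mpr h
  · intro b
    have h1 := congrArg (fun f => f (Ideal.Quotient.mk Q b)) hσfrob
    simp only [Ideal.Quotient.stabilizerHom_apply] at h1
    have h1' : Ideal.Quotient.mk Q (σ • b) = frob (Ideal.Quotient.mk Q b) := h1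
    rw [← Ideal.Quotient.eq]
    rw [h1']
    change (Ideal.Quotient.mk Q b) ^ (Fintype.card (ℤ ⧸ P)) = _
    rw [hcard, map_pow]

/-- **Frobenius at a given place.** -/
theorem exists_frob_at {A : ValuationSubring Qbar} {ℓ : ℕ} (hℓ : ℓ.Prime)
    (hA : A.LiesOverPrime ℓ) :
    ∃ σ : GQ, σ ∈ A.decompositionSubgroup ℚ ∧ ∀ x ∈ A, σ x - x ^ ℓ ∈ A.nonunits := by
  haveI := idealOf_isMaximal hℓ hA
  obtain ⟨σ, hσQ, hfrob⟩ := exists_stabilizer_frob_of ℓ hℓ (idealOf A) (idealOf_liesOver hℓ hA)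
  refine ⟨σ, mem_decomposition_of_stabilizes hℓ hA σ hσQ, fun x hx => ?_⟩
  exact frob_congr A (idealOf A) hℓ hA (fun q hq => hq) σ hσQ hfrob hx

/-- **Roots of unity are detected modulo the place.** If `m` is a unit at `A`, `ζ` is a primitive
`m`-th root of unity and `σ ζ ≡ ζ ^ t` modulo the maximal ideal of `A`, then `σ ζ = ζ ^ t`. -/
theorem apply_eq_pow_of_sub_mem_nonunits {A : ValuationSubring Qbar} {m : ℕ} (hm0 : 0 < m)
    (hmA : (m : Qbar) ∉ A.nonunits) {ζ : Qbar} (hζ : IsPrimitiveRoot ζ m) (σ : GQ) (t : ℕ)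
    (h : σ ζ - ζ ^ t ∈ A.nonunits) : σ ζ = ζ ^ t := by
  haveI : NeZero m := ⟨hm0.ne'⟩
  have hζA : ζ ∈ A := mem_of_pow_eq_one A hm0 hζ.pow_eq_one
  let ζA : ↥A := ⟨ζ, hζA⟩
  have hζA' : IsPrimitiveRoot ζA m :=
    IsPrimitiveRoot.of_map_of_injective (f := A.subtype) (by exact hζ) Subtype.val_injective
  have hmk : ((m : ℕ) : IsLocalRing.ResidueField ↥A) ≠ 0 := by
    rw [← map_natCast (IsLocalRing.residue ↥A), Ne, IsLocalRing.residue_eq_zero_iff,
      ← ValuationSubring.coe_mem_nonunits_iff]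
    simpa using hmA
  have h₀ : IsPrimitiveRoot (IsLocalRing.residue ↥A ζA) m :=
    isPrimitiveRoot_map_of_ne_zero (IsLocalRing.residue ↥A) hm0 hmk hζA'
  have hpow : (σ ζ) ^ m = 1 := by rw [← map_pow, hζ.pow_eq_one, map_one]
  obtain ⟨a, -, ha⟩ := hζ.eq_pow_of_pow_eq_one hpow
  rw [← ha] at h ⊢
  have hin' : ζA ^ a - ζA ^ t ∈ IsLocalRing.maximalIdeal ↥A := by
    rw [← ValuationSubring.coe_mem_nonunits_iff]
    simpa using h
  rw [← IsLocalRing.residue_eq_zero_iff, map_sub, map_pow, map_pow, sub_eq_zero,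
    (h₀.isOfFinOrder (NeZero.ne _)).pow_inj_mod, ← h₀.eq_orderOf] at hin'
  rw [(hζ.isOfFinOrder (NeZero.ne _)).pow_inj_mod, ← hζ.eq_orderOf]
  exact hin'

/-- a Frobenius element at a place over `ℓ` acts on roots of unity of order prime to `ℓ`
by `ζ ↦ ζ ^ ℓ`. -/
theorem frob_apply_primitiveRoot {A : ValuationSubring Qbar} {ℓ : ℕ} {σ : GQ}
    (hσ : ∀ x ∈ A, σ x - x ^ ℓ ∈ A.nonunits) {m : ℕ} (hm0 : 0 < m)
    (hmA : (m : Qbar) ∉ A.nonunits) {ζ : Qbar} (hζ : IsPrimitiveRoot ζ m) : σ ζ = ζ ^ ℓ :=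
  apply_eq_pow_of_sub_mem_nonunits hm0 hmA hζ σ ℓ
    (hσ ζ (mem_of_pow_eq_one A hm0 hζ.pow_eq_one))

/-- inertia acts trivially on roots of unity of order prime to the residue characteristic. -/
theorem inertia_apply_primitiveRoot {A : ValuationSubring Qbar} {σ : GQ}
    (hσ : σ ∈ A.inertiaSubgroupIn ℚ) {m : ℕ} (hm0 : 0 < m)
    (hmA : (m : Qbar) ∉ A.nonunits) {ζ : Qbar} (hζ : IsPrimitiveRoot ζ m) : σ ζ = ζ := by
  have h := apply_eq_pow_of_sub_mem_nonunits hm0 hmA hζ σ 1 (by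
    rw [pow_one]
    exact (Fermat.Agent.CFT.H69.mem_inertiaSubgroupIn_iff.mp hσ).2 ζ
      (mem_of_pow_eq_one A hm0 hζ.pow_eq_one))
  rwa [pow_one] at h

/-- a power of a prime different from the residue characteristic is a unit at `A`. -/
theorem natCast_pow_not_mem_nonunits {p q : ℕ} (hp : p.Prime) (hq : q.Prime) (hqp : q ≠ p)
    {A : ValuationSubring Qbar} (hA : A.LiesOverPrime q) (k : ℕ) :
    ((p ^ k : ℕ) : Qbar) ∉ A.nonunits := by
  intro h
  rw [Nat.cast_pow, ValuationSubring.mem_nonunits_iff, map_pow] at h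
  have h1 : A.valuation (p : Qbar) = 1 := by
    have h2 : (p : Qbar) ∈ A := _root_.natCast_mem A p
    have h3 := natCast_not_mem_nonunits hp hq hqp hA
    rw [ValuationSubring.mem_nonunits_iff, not_lt] at h3
    exact le_antisymm ((A.valuation_le_one_iff _).mpr h2) h3
  rw [h1, one_pow] at h
  exact lt_irrefl _ h

end Fermat.Agent.CFT.H69
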