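import Mathlib
import Fermat.Prelude.Def_GroupCohomology_ContinuousUnramified
import Fermat.Agent.CFT.H15_PrimeLocal
import Fermat.Agent.CFT.H69_FrobPlace
import Fermat.Agent.CFT.H55_LevelDefs

/-!
# (DEG): the local degrees of `ℚ_S` are divisible by `p^∞`

For `p` odd, `p ∈ S`, every prime `q`, every level `F` unramified outside `S` and every `n` there is
a level `F' ⊇ F` unramified outside `S` (namely `F(ζ_{p^k})`, `k` large) such that `p ^ n` divides
the index of `Gal(ℚ̄_q / F'_w)` in `Gal(ℚ̄_q / F_w)`, both groups being the preimages of the fixing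
subgroups under `primeLocalToGlobal q`.
-/

set_option autoImplicit false

namespace Fermat.Agent.CFT.H69

open ExtCitation IntermediateField
open scoped Pointwise

local notation "GQ" => (AlgebraicClosure ℚ ≃ₐ[ℚ] AlgebraicClosure ℚ)
local notation "Qbar" => AlgebraicClosure ℚ

local instance isAlgebraicQd : Algebra.IsAlgebraic ℚ (AlgebraicClosure ℚ) :=
  AlgebraicClosure.isAlgebraic ℚ
local instance isAlgClosureQd : IsAlgClosure ℚ (AlgebraicClosure ℚ) :=
  ⟨inferInstance, inferInstance⟩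
local instance isGaloisQd : IsGalois ℚ (AlgebraicClosure ℚ) := IsSepClosure.isGalois

/-! ### Number theory: orders modulo `p ^ k` -/

section NumberTheory

variable {p : ℕ} [hp : Fact p.Prime]

/-- **Orders modulo `p ^ k` grow.** For `p` odd and `a ≥ 2` prime to `p`, the order of `a` in
`(ℤ/p^k)ˣ` is divisible by `p ^ (k - c)`, `c = v_p(a^(p-1) - 1)`. -/
theorem pow_dvd_orderOf_of_coe_eq (hp1 : Odd p) {a : ℕ} (ha2 : 2 ≤ a) (hpa : ¬ p ∣ a) (k : ℕ)
    (u : (ZMod (p ^ k))ˣ) (hu : (u : ZMod (p ^ k)) = (a : ZMod (p ^ k))) :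
    p ^ (k - padicValNat p (a ^ (p - 1) - 1)) ∣ orderOf u := by
  have hpp : p.Prime := hp.out
  haveI : NeZero (p ^ k) := ⟨pow_ne_zero k hpp.ne_zero⟩
  set t := orderOf u with ht
  have ht0 : t ≠ 0 := (orderOf_pos u).ne'
  -- `a ^ t ≡ 1 mod p ^ k`
  have h1 : ((a ^ t : ℕ) : ZMod (p ^ k)) = ((1 : ℕ) : ZMod (p ^ k)) := by
    rw [Nat.cast_pow, ← hu, ← Units.val_pow_eq_pow_val, ht, pow_orderOf_eq_one, Units.val_one,
      Nat.cast_one]
  have hat : 1 ≤ a ^ t := Nat.one_le_pow _ _ (by omega)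
  have h2 : p ^ k ∣ a ^ t - 1 := by
    rw [ZMod.natCast_eq_natCast_iff] at h1
    exact (Nat.modEq_iff_dvd' hat).mp h1.symm
  -- pass to `b = a ^ (p - 1)`
  set b := a ^ (p - 1) with hb
  have hbt : b ^ t = (a ^ t) ^ (p - 1) := by rw [hb, ← pow_mul, ← pow_mul, mul_comm]
  have h3 : p ^ k ∣ b ^ t - 1 ^ t := by
    rw [one_pow, hbt]
    have := Nat.sub_dvd_pow_sub_pow (x := a ^ t) (y := 1) (n := p - 1)
    rw [one_pow] at this
    exact h2.trans this
  have hp1' : 1 ≤ p - 1 := by have := hpp.two_le; omega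
  have hb1 : 1 < b := by
    rw [hb]
    exact Nat.one_lt_pow (by omega) (by omega)
  have hpb : ¬ p ∣ b := fun h => hpa (hpp.dvd_of_dvd_pow h)
  have hpb1 : p ∣ b - 1 := by
    have hcop : IsCoprime (a : ℤ) (p : ℤ) :=
      (Nat.isCoprime_iff_coprime.mpr ((Nat.Prime.coprime_iff_not_dvd hpp).mpr hpa)).symm
    have h4 := Int.ModEq.pow_card_sub_one_eq_one hpp hcop
    have h5 : (p : ℤ) ∣ ((b - 1 : ℕ) : ℤ) := by
      rw [Nat.cast_sub hb1.le, hb]
      push_cast
      exact (Int.modEq_iff_dvd.mp h4.symm)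
    exact_mod_cast h5
  have hlte := padicValNat.pow_sub_pow hp1 hb1 hpb1 hpb ht0
  have hne : b ^ t - 1 ^ t ≠ 0 := by
    rw [one_pow]
    have : 1 < b ^ t := Nat.one_lt_pow ht0 hb1
    omega
  have h6 : k ≤ padicValNat p (b ^ t - 1 ^ t) := (padicValNat_dvd_iff_le hne).mp h3
  rw [hlte] at h6
  rw [padicValNat_dvd_iff_le ht0]
  omega

/-- the `p`-part of the order survives a bounded power. -/
theorem pow_dvd_orderOf_pow {G : Type*} [Monoid G] (x : G) {j d : ℕ} (hd : d ≠ 0)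
    (hx0 : orderOf x ≠ 0) (hj : p ^ j ∣ orderOf x) :
    p ^ (j - padicValNat p d) ∣ orderOf (x ^ d) := by
  rw [orderOf_pow' x hd]
  have hg : Nat.gcd (orderOf x) d ∣ orderOf x := Nat.gcd_dvd_left _ _
  have hg0 : Nat.gcd (orderOf x) d ≠ 0 := Nat.gcd_ne_zero_right hd
  have hq0 : orderOf x / Nat.gcd (orderOf x) d ≠ 0 := by
    intro h
    rw [Nat.div_eq_zero_iff] at h
    rcases h with h | h
    · exact hg0 h
    · exact absurd (Nat.le_of_dvd (Nat.pos_of_ne_zero hx0) hg) (not_le.mpr h)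
  rw [padicValNat_dvd_iff_le hq0, padicValNat.div_of_dvd hg]
  have h1 : j ≤ padicValNat p (orderOf x) := (padicValNat_dvd_iff_le hx0).mp hj
  have h2 : padicValNat p (Nat.gcd (orderOf x) d) ≤ padicValNat p d := by
    rw [← padicValNat_dvd_iff_le hd]
    exact (pow_padicValNat_dvd).trans (Nat.gcd_dvd_right _ _)
  omega

end NumberTheory

/-! ### Group theory: the index of `U ⊓ ker φ` in `U` -/

section GroupTheory

variable {H T : Type*} [Group H] [Group T]

theorem relIndex_inf_ker (φ : H →* T) (U : Subgroup H) :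
    (U ⊓ φ.ker).relIndex U = Nat.card (U.map φ) := by
  rw [Subgroup.relIndex, Subgroup.inf_subgroupOf_left]
  have h1 : φ.ker.subgroupOf U = (φ.comp U.subtype).ker := by
    ext x
    simp [Subgroup.mem_subgroupOf, MonoidHom.mem_ker]
  rw [h1, Subgroup.index_ker]
  apply Nat.card_congr
  refine Equiv.setCongr ?_
  ext y
  simp only [MonoidHom.coe_range, Set.mem_range, MonoidHom.coe_comp, Function.comp_apply,
    Subgroup.coe_subtype, Subgroup.coe_map, Set.mem_image, SetLike.mem_coe]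
  constructor
  · rintro ⟨x, rfl⟩
    exact ⟨x, x.2, rfl⟩
  · rintro ⟨x, hx, rfl⟩
    exact ⟨⟨x, hx⟩, rfl⟩

theorem orderOf_dvd_relIndex_inf_ker [Finite T] (φ : H →* T) (U : Subgroup H) {h : H}
    (hh : h ∈ U) : orderOf (φ h) ∣ (U ⊓ φ.ker).relIndex U := by
  rw [relIndex_inf_ker]
  have hmem : φ h ∈ U.map φ := Subgroup.mem_map_of_mem φ hh
  have := orderOf_dvd_natCard (⟨φ h, hmem⟩ : U.map φ)
  rwa [Subgroup.orderOf_mk] at this

end GroupTheory

/-! ### The cyclotomic character modulo `m` -/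

section Cyclo

variable (m : ℕ) [NeZero m]

theorem card_rootsOfUnity_Qbar : Nat.card (rootsOfUnity m Qbar) = m :=
  IsAlgClosed.card_rootsOfUnity_eq Qbar m

/-- the cyclotomic character modulo `m` of `GQ`. -/
noncomputable def chiM : GQ →* (ZMod m)ˣ :=
  MonoidHom.mk'
    (fun σ => modularCyclotomicCharacter Qbar (card_rootsOfUnity_Qbar m) (σ : Qbar ≃+* Qbar))
    (fun a b => by rw [← map_mul]; congr 1)

variable {m}

theorem chiM_spec (σ : GQ) {ζ : Qbar} (hζ : ζ ^ m = 1) :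
    σ ζ = ζ ^ ((chiM m σ : ZMod m)).val := by
  have hu : IsUnit ζ := IsUnit.of_pow_eq_one hζ (NeZero.ne m)
  obtain ⟨t, rfl⟩ := hu
  have ht : t ∈ rootsOfUnity m Qbar := by
    rw [mem_rootsOfUnity]
    exact Units.ext (by simpa using hζ)
  have h := modularCyclotomicCharacter.spec Qbar (card_rootsOfUnity_Qbar m)
    (σ : Qbar ≃+* Qbar) ht
  simpa [chiM] using h

theorem chiM_eq_of_apply {σ : GQ} {ζ : Qbar} (hζ : IsPrimitiveRoot ζ m) {t : ℕ}
    (h : σ ζ = ζ ^ t) : (chiM m σ : ZMod m) = (t : ZMod m) := by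
  have h1 := chiM_spec σ hζ.pow_eq_one
  rw [h, (hζ.isOfFinOrder (NeZero.ne _)).pow_inj_mod, ← hζ.eq_orderOf] at h1
  have h2 := (ZMod.natCast_eq_natCast_iff' _ _ _).mpr h1
  rw [ZMod.natCast_zmod_val] at h2
  exact h2.symm

theorem chiM_eq_one_iff {σ : GQ} {ζ : Qbar} (hζ : IsPrimitiveRoot ζ m) :
    chiM m σ = 1 ↔ σ ζ = ζ := by
  constructor
  · intro h
    have h1 := chiM_spec σ hζ.pow_eq_one
    rw [h, Units.val_one] at h1
    rcases Nat.lt_or_ge 1 m with hm | hm
    · haveI : Fact (1 < m) := ⟨hm⟩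
      rw [ZMod.val_one, pow_one] at h1
      exact h1
    · have hm1 : m = 1 := le_antisymm hm (Nat.pos_of_ne_zero (NeZero.ne m))
      subst hm1
      have hζ1 : ζ = 1 := by simpa using hζ.pow_eq_one
      rw [hζ1, map_one]
  · intro h
    have h1 : (chiM m σ : ZMod m) = ((1 : ℕ) : ZMod m) :=
      chiM_eq_of_apply hζ (by rw [pow_one]; exact h)
    rw [Nat.cast_one] at h1
    exact Units.ext h1

theorem exists_primitiveRoot_Qbar (m : ℕ) [NeZero m] : ∃ ζ : Qbar, IsPrimitiveRoot ζ m := by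
  have : NeZero (m : Qbar) := ⟨Nat.cast_ne_zero.mpr (NeZero.ne m)⟩
  exact HasEnoughRootsOfUnity.exists_primitiveRoot Qbar m

/-- `g` fixes `ℚ(ζ)` iff it fixes `ζ`. -/
theorem mem_fixingSubgroup_adjoin_simple_iff (ζ : Qbar) (g : GQ) :
    g ∈ (ℚ⟮ζ⟯).fixingSubgroup ↔ g ζ = ζ := by
  rw [mem_fixingSubgroup_iff']
  constructor
  · intro h
    exact h ζ (IntermediateField.mem_adjoin_simple_self ℚ ζ)
  · intro h x hx
    have hle : ℚ⟮ζ⟯ ≤ IntermediateField.fixedField (Subgroup.zpowers g) := by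
      rw [IntermediateField.adjoin_simple_le_iff, IntermediateField.mem_fixedField_iff]
      intro f hf
      obtain ⟨n, rfl⟩ := Subgroup.mem_zpowers_iff.mp hf
      have h6 : ∀ k : ℕ, (g ^ k) ζ = ζ := by
        intro k
        induction k with
        | zero => rfl
        | succ k ih => rw [pow_succ, AlgEquiv.mul_apply, h, ih]
      have h7 : ∀ k : ℕ, ((g ^ k)⁻¹) ζ = ζ := by
        intro k
        have := congrArg ((g ^ k)⁻¹ : GQ) (h6 k)
        have h8 : ((g ^ k)⁻¹ : GQ) ((g ^ k) ζ) = ζ := by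
          change ((g ^ k)⁻¹ * (g ^ k)) ζ = ζ
          rw [inv_mul_cancel]; rfl
        rw [h8] at this
        exact this.symm
      rcases Int.eq_nat_or_neg n with ⟨k, rfl | rfl⟩
      · rw [zpow_natCast]; exact h6 k
      · rw [zpow_neg, zpow_natCast]; exact h7 k
    have := hle hx
    rw [IntermediateField.mem_fixedField_iff] at this
    exact this g (Subgroup.mem_zpowers g)

/-- the fixing subgroup of `F(ζ_m)`. -/
theorem mem_fixingSubgroup_sup_adjoin_iff (F : IntermediateField ℚ Qbar) {ζ : Qbar}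
    (hζ : IsPrimitiveRoot ζ m) (g : GQ) :
    g ∈ (F ⊔ ℚ⟮ζ⟯).fixingSubgroup ↔ g ∈ F.fixingSubgroup ∧ chiM m g = 1 := by
  rw [IntermediateField.fixingSubgroup_sup, Subgroup.mem_inf, mem_fixingSubgroup_adjoin_simple_iff,
    chiM_eq_one_iff hζ]

theorem fixingSubgroup_sup_adjoin (F : IntermediateField ℚ Qbar) {ζ : Qbar}
    (hζ : IsPrimitiveRoot ζ m) :
    (F ⊔ ℚ⟮ζ⟯).fixingSubgroup = F.fixingSubgroup ⊓ (chiM m).ker := by
  ext g
  rw [mem_fixingSubgroup_sup_adjoin_iff F hζ, Subgroup.mem_inf, MonoidHom.mem_ker]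

end Cyclo

/-! ### `F(ζ_{p^k})` is unramified outside `S ∋ p` -/

section Unramified

variable {p : ℕ} [hp : Fact p.Prime]

theorem isUnramifiedOutside_sup_adjoin {S : Finset Nat.Primes} (hpS : pPrime p ∈ S)
    {F : IntermediateField ℚ Qbar} (hF : F.IsUnramifiedOutside S) (k : ℕ) {ζ : Qbar}
    (hζ : IsPrimitiveRoot ζ (p ^ k)) : (F ⊔ ℚ⟮ζ⟯).IsUnramifiedOutside S := by
  have hpp : p.Prime := hp.out
  haveI := hF.1
  have hint : IsIntegral ℚ ζ := Algebra.IsIntegral.isIntegral ζ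
  haveI : FiniteDimensional ℚ ℚ⟮ζ⟯ := IntermediateField.adjoin.finiteDimensional hint
  refine ⟨IntermediateField.finiteDimensional_sup F ℚ⟮ζ⟯, fun q hq A hA g hg => ?_⟩
  have hqp : (q : ℕ) ≠ p := by
    intro h
    apply hq
    have : q = pPrime p := Subtype.ext h
    rw [this]; exact hpS
  rw [IntermediateField.fixingSubgroup_sup, Subgroup.mem_inf, mem_fixingSubgroup_adjoin_simple_iff]
  refine ⟨hF.2 q hq A hA hg, ?_⟩
  exact inertia_apply_primitiveRoot hg (pow_pos hpp.pos k)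
    (natCast_pow_not_mem_nonunits hpp q.2 hqp hA k) hζ

end Unramified

/-! ### Local elements with prescribed cyclotomic character -/

section LocalElements

open Polynomial

variable (p : ℕ) [hp : Fact p.Prime]

/-- `Φ_{p^(k+1)}(X + 1)` is irreducible over `ℚ_p` (Eisenstein). -/
theorem irreducible_cyclotomic_comp_padic (k : ℕ) :
    Irreducible (((cyclotomic (p ^ (k + 1)) ℚ_[p])).comp (X + 1)) := by
  have hpp : p.Prime := hp.out
  set g : ℤ[X] := (cyclotomic (p ^ (k + 1)) ℤ).comp (X + 1) with hg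
  have hgE := cyclotomic_prime_pow_comp_X_add_one_isEisensteinAt p k
  have hgmonic : g.Monic := by
    rw [hg, show (X + 1 : ℤ[X]) = X + C 1 by simp]
    refine (cyclotomic.monic _ ℤ).comp (monic_X_add_C 1) fun h => ?_
    rw [natDegree_X_add_C] at h
    exact zero_ne_one h.symm
  set gZ : ℤ_[p][X] := g.map (Int.castRingHom ℤ_[p]) with hgZ
  have hgZmonic : gZ.Monic := hgmonic.map _
  have hdeg : gZ.natDegree = g.natDegree := hgmonic.natDegree_map _
  have hpnu : ¬ IsUnit (p : ℤ_[p]) := PadicInt.prime_p.not_unit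
  have hPtop : Ideal.span {(p : ℤ_[p])} ≠ ⊤ := by
    rw [Ne, Ideal.span_singleton_eq_top]
    exact hpnu
  have hcoeff0 : g.coeff 0 = (p : ℤ) := by
    rw [hg, coeff_zero_eq_eval_zero, eval_comp, eval_add, eval_X, eval_one, zero_add,
      eval_one_cyclotomic_prime_pow]
  have hE : gZ.IsEisensteinAt (Ideal.span {(p : ℤ_[p])}) := by
    refine Monic.isEisensteinAt_of_mem_of_notMem hgZmonic hPtop (fun {n} hn => ?_) ?_
    · rw [hdeg] at hn
      have h1 := hgE.mem hn
      rw [Ideal.submodule_span_eq, Ideal.mem_span_singleton] at h1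
      obtain ⟨c, hc⟩ := h1
      rw [hgZ, coeff_map, hc, Ideal.mem_span_singleton]
      exact ⟨(c : ℤ_[p]), by simp⟩
    · rw [hgZ, coeff_map, hcoeff0, Ideal.span_singleton_pow, Ideal.mem_span_singleton]
      rintro ⟨c, hc⟩
      apply hpnu
      have hp0 : (p : ℤ_[p]) ≠ 0 := PadicInt.prime_p.ne_zero
      have h2 : (p : ℤ_[p]) * 1 = (p : ℤ_[p]) * ((p : ℤ_[p]) * c) := by
        rw [mul_one, ← mul_assoc, ← sq]
        simpa using hc
      have h3 := mul_left_cancel₀ hp0 h2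
      exact IsUnit.of_mul_eq_one c h3.symm
  have hprime : (Ideal.span {(p : ℤ_[p])}).IsPrime :=
    (Ideal.span_singleton_prime PadicInt.prime_p.ne_zero).mpr PadicInt.prime_p
  have hdegpos : 0 < gZ.natDegree := by
    rw [hdeg, hg, natDegree_comp, show (X + 1 : ℤ[X]) = X + C 1 by simp, natDegree_X_add_C,
      mul_one, natDegree_cyclotomic]
    exact Nat.totient_pos.mpr (pow_pos hpp.pos _)
  have hirrZ : Irreducible gZ := hE.irreducible hprime hgZmonic.isPrimitive hdegpos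
  have hirrQ : Irreducible (gZ.map (algebraMap ℤ_[p] ℚ_[p])) :=
    (Monic.irreducible_iff_irreducible_map_fraction_map hgZmonic).mp hirrZ
  have hmap : gZ.map (algebraMap ℤ_[p] ℚ_[p]) = (cyclotomic (p ^ (k + 1)) ℚ_[p]).comp (X + 1) := by
    rw [hgZ, hg, Polynomial.map_map, Polynomial.map_comp, map_cyclotomic, Polynomial.map_add,
      Polynomial.map_X, Polynomial.map_one]
  rw [← hmap]
  exact hirrQ

/-- the local Galois group at `p` acts transitively on the primitive `p^(k+1)`-th roots of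
unity. -/
theorem exists_algEquiv_padic_pow (k : ℕ) {ξ : PadicAlgCl p}
    (hξ : IsPrimitiveRoot ξ (p ^ (k + 1))) {a : ℕ} (ha : a.Coprime p) :
    ∃ τ : PadicAlgCl p ≃ₐ[ℚ_[p]] PadicAlgCl p, τ ξ = ξ ^ a := by
  have hpp : p.Prime := hp.out
  haveI : Normal ℚ_[p] (PadicAlgCl p) := IsAlgClosure.normal ℚ_[p] (PadicAlgCl p)
  set f : ℚ_[p][X] := (cyclotomic (p ^ (k + 1)) ℚ_[p]).comp (X + 1) with hf
  have hirr := irreducible_cyclotomic_comp_padic p k
  have hmonic : f.Monic := by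
    rw [hf, show (X + 1 : ℚ_[p][X]) = X + C 1 by simp]
    refine (cyclotomic.monic _ _).comp (monic_X_add_C 1) fun h => ?_
    rw [natDegree_X_add_C] at h
    exact zero_ne_one h.symm
  have hpos : 0 < p ^ (k + 1) := pow_pos hpp.pos _
  have hroot : ∀ η : PadicAlgCl p, IsPrimitiveRoot η (p ^ (k + 1)) → aeval (η - 1) f = 0 := by
    intro η hη
    rw [hf, aeval_comp, map_add, aeval_X, aeval_one, sub_add_cancel, aeval_def, eval₂_eq_eval_map,
      map_cyclotomic]
    exact hη.isRoot_cyclotomic hpos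
  have hmin : f = minpoly ℚ_[p] (ξ - 1) :=
    minpoly.eq_of_irreducible_of_monic hirr (hroot ξ hξ) hmonic
  have hξa : IsPrimitiveRoot (ξ ^ a) (p ^ (k + 1)) :=
    hξ.pow_of_coprime a (Nat.Coprime.pow_right _ ha)
  have hev : aeval (ξ ^ a - 1) (minpoly ℚ_[p] (ξ - 1)) = 0 := by
    rw [← hmin]; exact hroot _ hξa
  obtain ⟨τ, hτ⟩ := minpoly.exists_algEquiv_of_root'
    (Algebra.IsAlgebraic.isAlgebraic (ξ - 1)) hev
  refine ⟨τ, ?_⟩
  rw [map_sub, map_one] at hτ
  exact sub_left_injective hτ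

end LocalElements

/-! ### Assembly -/

section Assembly

variable {p : ℕ} [hp : Fact p.Prime]

theorem finiteIndex_fixingSubgroup (F : IntermediateField ℚ Qbar) [FiniteDimensional ℚ F] :
    F.fixingSubgroup.FiniteIndex := by
  haveI : Finite (GQ ⧸ F.fixingSubgroup) :=
    Subgroup.quotient_finite_of_isOpen F.fixingSubgroup F.fixingSubgroup_isOpen
  exact Subgroup.finiteIndex_of_finite_quotient

/-- the element of the local Galois group at `q ≠ p` given by a Frobenius: its cyclotomic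
character modulo every power of `p` is `q`. -/
theorem exists_local_frob (q : Nat.Primes) (hqp : (q : ℕ) ≠ p) :
    ∃ h₀ : primeLocalGaloisGroup q, ∀ k : ℕ,
      haveI : NeZero (p ^ k) := ⟨pow_ne_zero k hp.out.ne_zero⟩
      (chiM (p ^ k) (primeLocalToGlobal q h₀) : ZMod (p ^ k)) = ((q : ℕ) : ZMod (p ^ k)) := by
  have hpp : p.Prime := hp.out
  have hA := Fermat.Agent.CFT.H15.primeLocalPlace_liesOverPrime q
  obtain ⟨σ, hσD, hσ⟩ := exists_frob_at q.2 hA
  obtain ⟨h₀, rfl⟩ := Fermat.Agent.CFT.H15.exists_primeLocalToGlobal_eq q hσD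
  refine ⟨h₀, fun k => ?_⟩
  haveI : NeZero (p ^ k) := ⟨pow_ne_zero k hpp.ne_zero⟩
  obtain ⟨ζ, hζ⟩ := exists_primitiveRoot_Qbar (p ^ k)
  have h1 := frob_apply_primitiveRoot hσ (pow_pos hpp.pos k)
    (natCast_pow_not_mem_nonunits hpp q.2 hqp hA k) hζ
  exact chiM_eq_of_apply hζ h1

/-- elements of the local Galois group at `p` with cyclotomic character `a` modulo `p^(k+1)`. -/
theorem exists_local_cyclo (k : ℕ) {a : ℕ} (ha : a.Coprime p) :
    ∃ h₀ : primeLocalGaloisGroup (pPrime p),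
      haveI : NeZero (p ^ (k + 1)) := ⟨pow_ne_zero _ hp.out.ne_zero⟩
      (chiM (p ^ (k + 1)) (primeLocalToGlobal (pPrime p) h₀) : ZMod (p ^ (k + 1))) =
        (a : ZMod (p ^ (k + 1))) := by
  have hpp : p.Prime := hp.out
  haveI : NeZero (p ^ (k + 1)) := ⟨pow_ne_zero _ hpp.ne_zero⟩
  obtain ⟨ζ, hζ⟩ := exists_primitiveRoot_Qbar (p ^ (k + 1))
  have hξ : IsPrimitiveRoot (padicEmbedding p ζ) (p ^ (k + 1)) :=
    hζ.map_of_injective (padicEmbedding p).toRingHom.injective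
  obtain ⟨τ, hτ⟩ := exists_algEquiv_padic_pow p k hξ ha
  refine ⟨τ, ?_⟩
  have h1 : localGaloisToGlobal p τ ζ = ζ ^ a := by
    apply (padicEmbedding p).toRingHom.injective
    change padicEmbedding p (localGaloisToGlobal p τ ζ) = padicEmbedding p (ζ ^ a)
    rw [padicEmbedding_localGaloisToGlobal, hτ, map_pow]
  exact chiM_eq_of_apply hζ h1

/-- uniform statement: a fixed integer `a ≥ 2` prime to `p` which is the cyclotomic character
modulo `p^(k+1)` of an element of the local Galois group at `q`, for every `k`. -/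
theorem exists_local_element (q : Nat.Primes) :
    ∃ a : ℕ, 2 ≤ a ∧ ¬ p ∣ a ∧ ∀ k : ℕ, ∃ h₀ : primeLocalGaloisGroup q,
      haveI : NeZero (p ^ (k + 1)) := ⟨pow_ne_zero _ hp.out.ne_zero⟩
      (chiM (p ^ (k + 1)) (primeLocalToGlobal q h₀) : ZMod (p ^ (k + 1))) =
        (a : ZMod (p ^ (k + 1))) := by
  have hpp : p.Prime := hp.out
  by_cases hqp : (q : ℕ) = p
  · have hq : q = pPrime p := Subtype.ext hqp
    subst hq
    refine ⟨p + 1, by have := hpp.two_le; omega, ?_, fun k => ?_⟩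
    · intro h
      have : p ∣ 1 := (Nat.dvd_add_right (dvd_refl p)).mp h
      exact hpp.one_lt.ne' (Nat.dvd_one.mp this)
    · exact exists_local_cyclo k (by simp)
  · obtain ⟨h₀, hh⟩ := exists_local_frob (p := p) q hqp
    refine ⟨q, q.2.two_le, ?_, fun k => ⟨h₀, hh (k + 1)⟩⟩
    intro h
    exact hqp ((Nat.prime_dvd_prime_iff_eq hpp q.2).mp h).symm

/-- **(DEG)**: the `p`-part of the local degrees of the levels unramified outside `S ∋ p` is
unbounded, at every prime `q`. -/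
theorem exists_level_pow_dvd_relIndex (hp2 : p ≠ 2) (S : Finset Nat.Primes) (hpS : pPrime p ∈ S)
    (q : Nat.Primes) {F : IntermediateField ℚ Qbar} (hF : F.IsUnramifiedOutside S) (n : ℕ) :
    ∃ F' : IntermediateField ℚ Qbar, F ≤ F' ∧ F'.IsUnramifiedOutside S ∧
      p ^ n ∣ ((F'.fixingSubgroup.comap (primeLocalToGlobal q)).relIndex
        (F.fixingSubgroup.comap (primeLocalToGlobal q))) := by
  have hpp : p.Prime := hp.out
  have hodd : Odd p := hpp.odd_of_ne_two hp2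
  -- pass to a Galois level
  obtain ⟨F₁, hFF₁, hF₁, -, hF₁n⟩ := exists_isGalois_ge hF
  haveI := hF₁.1
  haveI := finiteIndex_fixingSubgroup F₁
  set r := primeLocalToGlobal q with hr
  set U := F.fixingSubgroup.comap r with hU
  set U₁ := F₁.fixingSubgroup.comap r with hU₁
  haveI : U₁.Normal := hF₁n.comap r
  haveI : U₁.FiniteIndex := finiteIndex_comap_of_finiteIndex r F₁.fixingSubgroup
  have hd0 : U₁.index ≠ 0 := Subgroup.FiniteIndex.index_ne_zero
  obtain ⟨a, ha2, hpa, hel⟩ := exists_local_element (p := p) q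
  set c := padicValNat p (a ^ (p - 1) - 1) with hc
  set d := U₁.index with hd
  set k := n + c + padicValNat p d with hk
  haveI : NeZero (p ^ (k + 1)) := ⟨pow_ne_zero _ hpp.ne_zero⟩
  obtain ⟨h₀, hh₀⟩ := hel k
  obtain ⟨ζ, hζ⟩ := exists_primitiveRoot_Qbar (p ^ (k + 1))
  set F' := F₁ ⊔ ℚ⟮ζ⟯ with hF'
  have hF'unr : F'.IsUnramifiedOutside S := isUnramifiedOutside_sup_adjoin hpS hF₁ (k + 1) hζ
  set φ : primeLocalGaloisGroup q →* (ZMod (p ^ (k + 1)))ˣ := (chiM (p ^ (k + 1))).comp r with hφ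
  have hU' : F'.fixingSubgroup.comap r = U₁ ⊓ φ.ker := by
    rw [hF', fixingSubgroup_sup_adjoin F₁ hζ, Subgroup.comap_inf, MonoidHom.comap_ker]
  have hmem : h₀ ^ d ∈ U₁ := Subgroup.pow_index_mem U₁ h₀
  have h1 : orderOf (φ (h₀ ^ d)) ∣ (U₁ ⊓ φ.ker).relIndex U₁ :=
    orderOf_dvd_relIndex_inf_ker φ U₁ hmem
  have h2 : p ^ (k + 1 - c) ∣ orderOf (φ h₀) :=
    pow_dvd_orderOf_of_coe_eq hodd ha2 hpa (k + 1) (φ h₀) hh₀
  have h3 : p ^ (k + 1 - c - padicValNat p d) ∣ orderOf (φ h₀ ^ d) :=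
    pow_dvd_orderOf_pow (φ h₀) hd0 (orderOf_pos (φ h₀)).ne' h2
  rw [← map_pow] at h3
  have h4 : p ^ n ∣ (U₁ ⊓ φ.ker).relIndex U₁ := by
    refine (pow_dvd_pow p ?_).trans (h3.trans h1)
    omega
  have hle1 : U₁ ≤ U := Subgroup.comap_mono (IntermediateField.fixingSubgroup_antitone hFF₁)
  have hle2 : U₁ ⊓ φ.ker ≤ U₁ := inf_le_left
  refine ⟨F', hFF₁.trans le_sup_left, hF'unr, ?_⟩
  rw [hU']
  have h5 := Subgroup.relIndex_mul_relIndex (U₁ ⊓ φ.ker) U₁ U hle2 hle1
  rw [← h5]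
  exact h4.mul_right _

end Assembly

end Fermat.Agent.CFT.H69
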