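import Mathlib
import Fermat.Prelude.Def_GroupCohomology_ContinuousUnramified

set_option autoImplicit false
set_option linter.unusedSectionVars false

/-!
# CFT / layer E (b), global side (helper87)

The frozen level conditions `IsLevelConstantS₁/₂ S` quantify over ALL finite `F/ℚ` unramified
outside `S`.  We show that one may restrict to *Galois* `F`: the normal closure of a field
unramified outside `S` is again unramified outside `S`.
-/

namespace Fermat.Agent.CFT.H87

open scoped Pointwise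

section Inertia

variable {K L : Type*} [Field K] [Field L] [Algebra K L]

/-- Elementwise description of the (frozen) inertia subgroup. -/
theorem mem_inertiaSubgroupIn_iff {A : ValuationSubring L} {σ : L ≃ₐ[K] L} :
    σ ∈ A.inertiaSubgroupIn K ↔
      σ ∈ A.decompositionSubgroup K ∧ ∀ x ∈ A, σ x - x ∈ A.nonunits := by
  constructor
  · rintro ⟨τ, hτ, rfl⟩
    refine ⟨τ.2, fun x hx => ?_⟩
    have hker : MulSemiringAction.toRingAut (A.decompositionSubgroup K)
        (IsLocalRing.ResidueField A) τ = 1 := hτ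
    have h1 : τ • (IsLocalRing.residue A ⟨x, hx⟩) = IsLocalRing.residue A ⟨x, hx⟩ := by
      have := congrArg (fun f : RingAut (IsLocalRing.ResidueField A) =>
        f (IsLocalRing.residue A ⟨x, hx⟩)) hker
      simpa using this
    rw [← IsLocalRing.ResidueField.residue_smul] at h1
    have h2 : IsLocalRing.residue A (τ • (⟨x, hx⟩ : A) - ⟨x, hx⟩) = 0 := by
      rw [map_sub, h1, sub_self]
    rw [IsLocalRing.residue_eq_zero_iff] at h2
    exact (ValuationSubring.coe_mem_nonunits_iff (A := A)).2 h2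
  · rintro ⟨hσ, h⟩
    refine ⟨⟨σ, hσ⟩, ?_, rfl⟩
    change MulSemiringAction.toRingAut (A.decompositionSubgroup K)
        (IsLocalRing.ResidueField A) ⟨σ, hσ⟩ = 1
    ext r
    obtain ⟨a, rfl⟩ := IsLocalRing.residue_surjective r
    change (⟨σ, hσ⟩ : A.decompositionSubgroup K) • IsLocalRing.residue A a
      = IsLocalRing.residue A a
    rw [← IsLocalRing.ResidueField.residue_smul, ← sub_eq_zero, ← map_sub,
      IsLocalRing.residue_eq_zero_iff, ← ValuationSubring.coe_mem_nonunits_iff]
    exact h a a.2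

theorem apply_mem_smul_iff (A : ValuationSubring L) (σ : L ≃ₐ[K] L) (x : L) :
    σ x ∈ σ • A ↔ x ∈ A := by
  rw [ValuationSubring.mem_pointwise_smul_iff_inv_smul_mem, AlgEquiv.smul_def]
  rw [show σ⁻¹ (σ x) = x from σ.symm_apply_apply x]

theorem apply_mem_nonunits_smul_iff (A : ValuationSubring L) (σ : L ≃ₐ[K] L) (x : L) :
    σ x ∈ (σ • A).nonunits ↔ x ∈ A.nonunits := by
  rw [ValuationSubring.mem_nonunits_iff_or, ValuationSubring.mem_nonunits_iff_or, ← map_inv₀,
    apply_mem_smul_iff, map_eq_zero_iff σ σ.injective]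

/-- Conjugating an inertia element gives an inertia element of the conjugate valuation ring. -/
theorem conj_mem_inertiaSubgroupIn {A : ValuationSubring L} {τ : L ≃ₐ[K] L}
    (hτ : τ ∈ A.inertiaSubgroupIn K) (σ : L ≃ₐ[K] L) :
    σ * τ * σ⁻¹ ∈ (σ • A).inertiaSubgroupIn K := by
  rw [mem_inertiaSubgroupIn_iff] at hτ ⊢
  obtain ⟨hdec, hin⟩ := hτ
  constructor
  · have h1 : τ • A = A := hdec
    change (σ * τ * σ⁻¹) • (σ • A) = σ • A
    rw [mul_smul, mul_smul, inv_smul_smul, h1]
  · intro x hx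
    obtain ⟨a, rfl⟩ : ∃ a, σ a = x := ⟨σ⁻¹ x, σ.apply_symm_apply x⟩
    rw [apply_mem_smul_iff] at hx
    have h2 : (σ * τ * σ⁻¹) (σ a) - σ a = σ (τ a - a) := by
      rw [map_sub]
      congr 1
      change σ (τ (σ⁻¹ (σ a))) = σ (τ a)
      rw [show σ⁻¹ (σ a) = a from σ.symm_apply_apply a]
    rw [h2, apply_mem_nonunits_smul_iff]
    exact hin a hx

theorem liesOverPrime_smul {A : ValuationSubring L} {q : ℕ} (hA : A.LiesOverPrime q)
    (σ : L ≃ₐ[K] L) : (σ • A).LiesOverPrime q := by
  unfold ValuationSubring.LiesOverPrime at hA ⊢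
  have := (apply_mem_nonunits_smul_iff A σ (q : L)).mpr hA
  rwa [map_natCast] at this

end Inertia

section NormalClosure

local instance isAlgebraicQbar_h87 : Algebra.IsAlgebraic ℚ (AlgebraicClosure ℚ) :=
  AlgebraicClosure.isAlgebraic ℚ
local instance isAlgClosureQbar_h87 : IsAlgClosure ℚ (AlgebraicClosure ℚ) :=
  ⟨inferInstance, inferInstance⟩
local instance normalQbar_h87 : Normal ℚ (AlgebraicClosure ℚ) :=
  IsAlgClosure.normal ℚ (AlgebraicClosure ℚ)

/-- The Galois closure of `F` inside `ℚbar`, as the compositum of all conjugates. -/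
noncomputable def galClosure (F : IntermediateField ℚ (AlgebraicClosure ℚ)) :
    IntermediateField ℚ (AlgebraicClosure ℚ) :=
  ⨆ σ : (AlgebraicClosure ℚ ≃ₐ[ℚ] AlgebraicClosure ℚ),
    F.map (σ : AlgebraicClosure ℚ →ₐ[ℚ] AlgebraicClosure ℚ)

theorem galClosure_def (F : IntermediateField ℚ (AlgebraicClosure ℚ)) :
    galClosure F = ⨆ σ : (AlgebraicClosure ℚ ≃ₐ[ℚ] AlgebraicClosure ℚ),
      F.map (σ : AlgebraicClosure ℚ →ₐ[ℚ] AlgebraicClosure ℚ) := rfl

theorem le_galClosure (F : IntermediateField ℚ (AlgebraicClosure ℚ)) : F ≤ galClosure F := by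
  rw [galClosure_def]
  refine le_trans ?_ (le_iSup (fun ρ : (AlgebraicClosure ℚ ≃ₐ[ℚ] AlgebraicClosure ℚ) =>
    F.map (ρ : AlgebraicClosure ℚ →ₐ[ℚ] AlgebraicClosure ℚ)) 1)
  intro x hx
  exact ⟨x, hx, rfl⟩

theorem finiteDimensional_galClosure (F : IntermediateField ℚ (AlgebraicClosure ℚ))
    [FiniteDimensional ℚ F] : FiniteDimensional ℚ (galClosure F) := by
  have h := IntermediateField.normalClosure_def'' F
  rw [galClosure_def, ← h]
  infer_instance

theorem isGalois_galClosure (F : IntermediateField ℚ (AlgebraicClosure ℚ)) :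
    IsGalois ℚ (galClosure F) := by
  have h1 : Algebra.IsAlgebraic ℚ ↥(galClosure F) :=
    Algebra.IsAlgebraic.of_injective (IntermediateField.val _) Subtype.val_injective
  have h2 : Normal ℚ ↥(galClosure F) := by
    have key := (IntermediateField.normal_iff_forall_map_le' (K := galClosure F)).mpr (by
      intro σ
      rw [galClosure_def, IntermediateField.map_iSup]
      refine iSup_le fun τ => ?_
      rw [IntermediateField.map_map]
      exact le_iSup (fun ρ : (AlgebraicClosure ℚ ≃ₐ[ℚ] AlgebraicClosure ℚ) =>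
        F.map (ρ : AlgebraicClosure ℚ →ₐ[ℚ] AlgebraicClosure ℚ)) (σ * τ))
    convert key
    exact Subsingleton.elim _ _
  exact ⟨⟩

/-- The Galois closure of a field unramified outside `S` is unramified outside `S`. -/
theorem isUnramifiedOutside_galClosure {S : Finset Nat.Primes}
    {F : IntermediateField ℚ (AlgebraicClosure ℚ)} (hF : F.IsUnramifiedOutside S) :
    (galClosure F).IsUnramifiedOutside S := by
  have := hF.1
  refine ⟨finiteDimensional_galClosure F, fun q hq A hA τ hτ => ?_⟩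
  rw [IntermediateField.mem_fixingSubgroup_iff]
  have hle : galClosure F ≤ IntermediateField.fixedField (Subgroup.zpowers τ) := by
    rw [galClosure_def]
    refine iSup_le fun σ => ?_
    rintro _ ⟨y, hy, rfl⟩
    rw [IntermediateField.mem_fixedField_iff]
    intro ρ hρ
    obtain ⟨n, rfl⟩ := Subgroup.mem_zpowers_iff.mp hρ
    -- `τ` fixes `σ y` since `σ⁻¹ τ σ` is inertia at `σ⁻¹ • A`
    have h1 : σ⁻¹ * τ * σ⁻¹⁻¹ ∈ (σ⁻¹ • A).inertiaSubgroupIn ℚ :=
      conj_mem_inertiaSubgroupIn hτ σ⁻¹
    have h2 := hF.2 q hq (σ⁻¹ • A) (liesOverPrime_smul hA σ⁻¹) h1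
    rw [IntermediateField.mem_fixingSubgroup_iff] at h2
    have h3 := h2 y hy
    have h4 : τ (σ y) = σ y := by
      have : σ ((σ⁻¹ * τ * σ⁻¹⁻¹) y) = σ y := by rw [h3]
      rw [inv_inv] at this
      change σ (σ⁻¹ (τ (σ y))) = σ y at this
      rwa [show σ (σ⁻¹ (τ (σ y))) = τ (σ y) from σ.apply_symm_apply _] at this
    have hmem : τ ∈ MulAction.stabilizer (AlgebraicClosure ℚ ≃ₐ[ℚ] AlgebraicClosure ℚ) (σ y) := h4
    exact Subgroup.zpow_mem _ hmem n
  intro x hx
  have := hle hx
  rw [IntermediateField.mem_fixedField_iff] at this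
  exact this τ (Subgroup.mem_zpowers τ)

end NormalClosure

section LevelConstant

open groupCohomology

variable (S : Finset Nat.Primes)

/-- Frozen `IsLevelConstantS₁` with the witness field Galois over `ℚ`. -/
theorem isLevelConstantS₁_iff_galois {X : Type*}
    (f : (AlgebraicClosure ℚ ≃ₐ[ℚ] AlgebraicClosure ℚ) → X) :
    IsLevelConstantS₁ S f ↔
      ∃ F : IntermediateField ℚ (AlgebraicClosure ℚ), F.IsUnramifiedOutside S ∧ IsGalois ℚ F ∧
        ∀ g s, s ∈ F.fixingSubgroup → f (g * s) = f g := by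
  constructor
  · rintro ⟨F, hF, h⟩
    refine ⟨galClosure F,
      isUnramifiedOutside_galClosure hF, isGalois_galClosure F, fun g s hs => h g s ?_⟩
    exact IntermediateField.fixingSubgroup_antitone (le_galClosure F) hs
  · rintro ⟨F, hF, -, h⟩
    exact ⟨F, hF, h⟩

/-- Frozen `IsLevelConstantS₂` with the witness field Galois over `ℚ`. -/
theorem isLevelConstantS₂_iff_galois {X : Type*}
    (f : (AlgebraicClosure ℚ ≃ₐ[ℚ] AlgebraicClosure ℚ) ×
      (AlgebraicClosure ℚ ≃ₐ[ℚ] AlgebraicClosure ℚ) → X) :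
    IsLevelConstantS₂ S f ↔
      ∃ F : IntermediateField ℚ (AlgebraicClosure ℚ), F.IsUnramifiedOutside S ∧ IsGalois ℚ F ∧
        ∀ g g' s s', s ∈ F.fixingSubgroup → s' ∈ F.fixingSubgroup →
          f (g * s, g' * s') = f (g, g') := by
  constructor
  · rintro ⟨F, hF, h⟩
    refine ⟨galClosure F,
      isUnramifiedOutside_galClosure hF, isGalois_galClosure F,
      fun g g' s s' hs hs' => h g g' s s' ?_ ?_⟩
    · exact IntermediateField.fixingSubgroup_antitone (le_galClosure F) hs
    · exact IntermediateField.fixingSubgroup_antitone (le_galClosure F) hs'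
  · rintro ⟨F, hF, -, h⟩
    exact ⟨F, hF, h⟩

end LevelConstant

end Fermat.Agent.CFT.H87
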