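import Mathlib
import Fermat.Prelude.Def_GroupCohomology_ContinuousUnramified

set_option autoImplicit false
set_option linter.unusedSectionVars false

/-!
# CFT / layer E (b), local side (helper87)

The frozen level conditions `IsLevelConstant₁/₂ (localGaloisToGlobal q)` on the local Galois
group `Gal(PadicAlgCl q / ℚ_q)` quantify over pull-backs of fixing subgroups of number fields.
We show that they are equivalent to invariance under the fixing subgroup of a finite Galois
extension of `ℚ_q` inside `PadicAlgCl q`.  The direction "local level ⇒ frozen level" uses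
Krasner's lemma in the form `adjoin ℚ_q (range padicEmbedding) = ⊤` (an explicit hypothesis
`hK` here; provided by helper15's `H15_LocalToGlobal`).
-/

namespace Fermat.Agent.CFT.H87

open IntermediateField

section Generic

/-- Every finite subextension of a normal separable extension lies in a finite Galois one. -/
theorem exists_galois_ge {k Ω : Type*} [Field k] [Field Ω] [Algebra k Ω] [Normal k Ω]
    [Algebra.IsSeparable k Ω] (K₀ : IntermediateField k Ω) [FiniteDimensional k K₀] :
    ∃ K : IntermediateField k Ω, K₀ ≤ K ∧ FiniteDimensional k K ∧ IsGalois k K := by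
  refine ⟨IntermediateField.normalClosure k K₀ Ω, IntermediateField.le_normalClosure K₀,
    inferInstance, ?_⟩
  have : Algebra.IsSeparable k ↥(IntermediateField.normalClosure k K₀ Ω) :=
    Algebra.isSeparable_tower_bot_of_isSeparable k _ Ω
  exact ⟨⟩

/-- An automorphism fixing a set pointwise lies in the fixing subgroup of the field it
generates. -/
theorem mem_fixingSubgroup_adjoin {k Ω : Type*} [Field k] [Field Ω] [Algebra k Ω]
    (s : Ω ≃ₐ[k] Ω) (T : Set Ω) (h : ∀ t ∈ T, s t = t) : s ∈ (adjoin k T).fixingSubgroup := by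
  rw [IntermediateField.mem_fixingSubgroup_iff]
  have hle : adjoin k T ≤ IntermediateField.fixedField (Subgroup.zpowers s) := by
    rw [adjoin_le_iff]
    intro t ht
    rw [SetLike.mem_coe, IntermediateField.mem_fixedField_iff]
    intro ρ hρ
    obtain ⟨n, rfl⟩ := Subgroup.mem_zpowers_iff.mp hρ
    have hmem : s ∈ MulAction.stabilizer (Ω ≃ₐ[k] Ω) t := h t ht
    exact Subgroup.zpow_mem _ hmem n
  intro x hx
  have := hle hx
  rw [IntermediateField.mem_fixedField_iff] at this
  exact this s (Subgroup.mem_zpowers s)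

/-- A finite-dimensional intermediate field is generated by a finite set. -/
theorem exists_finite_adjoin_eq {k Ω : Type*} [Field k] [Field Ω] [Algebra k Ω]
    (K : IntermediateField k Ω) [FiniteDimensional k K] :
    ∃ t : Set Ω, t.Finite ∧ adjoin k t = K := by
  have h : K.toSubalgebra.FG := by
    apply Subalgebra.fg_of_fg_toSubmodule
    exact (Submodule.fg_top _).mp (Module.Finite.fg_top (R := k) (M := K))
  exact IntermediateField.fg_def.mp (IntermediateField.fg_of_fg_toSubalgebra K h)

end Generic

section Local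

local instance isAlgebraicQbar_h87L : Algebra.IsAlgebraic ℚ (AlgebraicClosure ℚ) :=
  AlgebraicClosure.isAlgebraic ℚ

variable (q : ℕ) [Fact q.Prime]

/-- The pull-back to the local Galois group of the fixing subgroup of a number field contains
the fixing subgroup of a finite Galois extension of `ℚ_q`. -/
theorem exists_local_galois_le_comap (F : IntermediateField ℚ (AlgebraicClosure ℚ))
    [FiniteDimensional ℚ F] :
    ∃ K : IntermediateField ℚ_[q] (PadicAlgCl q), FiniteDimensional ℚ_[q] K ∧ IsGalois ℚ_[q] K ∧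
      ∀ s : PadicAlgCl q ≃ₐ[ℚ_[q]] PadicAlgCl q, s ∈ K.fixingSubgroup →
        localGaloisToGlobal q s ∈ F.fixingSubgroup := by
  obtain ⟨t, htfin, rfl⟩ := exists_finite_adjoin_eq F
  have : Finite ↥((padicEmbedding q) '' t) := (htfin.image _).to_subtype
  have hfd : FiniteDimensional ℚ_[q] (adjoin ℚ_[q] ((padicEmbedding q) '' t)) :=
    IntermediateField.finiteDimensional_adjoin
      (fun x _ => Algebra.IsIntegral.isIntegral (R := ℚ_[q]) x)
  obtain ⟨K, hK₀, hKfd, hKgal⟩ := exists_galois_ge (adjoin ℚ_[q] ((padicEmbedding q) '' t))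
  refine ⟨K, hKfd, hKgal, fun s hs => ?_⟩
  apply mem_fixingSubgroup_adjoin
  intro x hx
  have h1 : padicEmbedding q (localGaloisToGlobal q s x) = padicEmbedding q x := by
    rw [padicEmbedding_localGaloisToGlobal]
    rw [IntermediateField.mem_fixingSubgroup_iff] at hs
    exact hs _ (hK₀ (subset_adjoin _ _ ⟨x, hx, rfl⟩))
  exact (padicEmbedding q).injective h1

/-- Every element of `PadicAlgCl q` lies in the field generated over `ℚ_q` by the image of a
finite set of algebraic numbers (given Krasner density `hK`). -/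
theorem exists_finset_mem_adjoin_image
    (hK : adjoin ℚ_[q] (Set.range (padicEmbedding q)) = ⊤) (b : PadicAlgCl q) :
    ∃ T : Finset (AlgebraicClosure ℚ),
      b ∈ adjoin ℚ_[q] ((padicEmbedding q) '' (T : Set (AlgebraicClosure ℚ))) := by
  classical
  have hb : b ∈ adjoin ℚ_[q] (Set.range (padicEmbedding q)) := by rw [hK]; trivial
  obtain ⟨T₀, hT₀, hbT₀⟩ := IntermediateField.exists_finset_of_mem_adjoin hb
  refine ⟨T₀.preimage (padicEmbedding q) ((padicEmbedding q).injective.injOn), ?_⟩
  have : (padicEmbedding q) '' ((T₀.preimage (padicEmbedding q)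
      ((padicEmbedding q).injective.injOn) : Finset (AlgebraicClosure ℚ)) :
      Set (AlgebraicClosure ℚ)) = (T₀ : Set (PadicAlgCl q)) := by
    rw [Finset.coe_preimage, Set.image_preimage_eq_of_subset hT₀]
  rw [this]
  exact hbT₀

/-- Given Krasner density, the fixing subgroup of a finite extension of `ℚ_q` contains the
pull-back of the fixing subgroup of a number field. -/
theorem exists_global_comap_le
    (hK : adjoin ℚ_[q] (Set.range (padicEmbedding q)) = ⊤)
    (K : IntermediateField ℚ_[q] (PadicAlgCl q)) [FiniteDimensional ℚ_[q] K] :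
    ∃ F : IntermediateField ℚ (AlgebraicClosure ℚ), FiniteDimensional ℚ F ∧
      ∀ s : PadicAlgCl q ≃ₐ[ℚ_[q]] PadicAlgCl q,
        localGaloisToGlobal q s ∈ F.fixingSubgroup → s ∈ K.fixingSubgroup := by
  classical
  obtain ⟨B, hBfin, rfl⟩ := exists_finite_adjoin_eq K
  choose T hT using exists_finset_mem_adjoin_image q hK
  let Tall : Finset (AlgebraicClosure ℚ) := hBfin.toFinset.biUnion T
  have : Finite ↥(Tall : Set (AlgebraicClosure ℚ)) := Tall.finite_toSet.to_subtype
  have hfd : FiniteDimensional ℚ (adjoin ℚ (Tall : Set (AlgebraicClosure ℚ))) :=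
    IntermediateField.finiteDimensional_adjoin
      (fun x _ => Algebra.IsIntegral.isIntegral (R := ℚ) x)
  refine ⟨adjoin ℚ (Tall : Set (AlgebraicClosure ℚ)), hfd, fun s hs => ?_⟩
  rw [IntermediateField.mem_fixingSubgroup_iff] at hs
  apply mem_fixingSubgroup_adjoin
  intro b hb
  have hbT : b ∈ adjoin ℚ_[q] ((padicEmbedding q) '' (T b : Set (AlgebraicClosure ℚ))) := hT b
  have hs' : s ∈ (adjoin ℚ_[q]
      ((padicEmbedding q) '' (T b : Set (AlgebraicClosure ℚ)))).fixingSubgroup := by
    apply mem_fixingSubgroup_adjoin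
    rintro _ ⟨x, hx, rfl⟩
    rw [← padicEmbedding_localGaloisToGlobal]
    congr 1
    apply hs
    apply subset_adjoin
    rw [Finset.mem_coe, Finset.mem_biUnion]
    exact ⟨b, hBfin.mem_toFinset.mpr hb, hx⟩
  rw [IntermediateField.mem_fixingSubgroup_iff] at hs'
  exact hs' b hbT

end Local

section LevelConstant

open groupCohomology

variable (q : ℕ) [Fact q.Prime]

/-- Frozen local level condition (degree 1) in terms of finite Galois extensions of `ℚ_q`. -/
theorem isLevelConstant₁_local_iff
    (hK : adjoin ℚ_[q] (Set.range (padicEmbedding q)) = ⊤) {X : Type*}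
    (f : (PadicAlgCl q ≃ₐ[ℚ_[q]] PadicAlgCl q) → X) :
    IsLevelConstant₁ (localGaloisToGlobal q) f ↔
      ∃ K : IntermediateField ℚ_[q] (PadicAlgCl q), FiniteDimensional ℚ_[q] K ∧
        IsGalois ℚ_[q] K ∧ ∀ g s, s ∈ K.fixingSubgroup → f (g * s) = f g := by
  constructor
  · rintro ⟨F, hF, h⟩
    obtain ⟨K, hKfd, hKgal, hKF⟩ := exists_local_galois_le_comap q F
    exact ⟨K, hKfd, hKgal, fun g s hs => h g s (hKF s hs)⟩
  · rintro ⟨K, hKfd, -, h⟩
    obtain ⟨F, hF, hFK⟩ := exists_global_comap_le q hK K
    exact ⟨F, hF, fun g s hs => h g s (hFK s hs)⟩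

/-- Frozen local level condition (degree 2) in terms of finite Galois extensions of `ℚ_q`. -/
theorem isLevelConstant₂_local_iff
    (hK : adjoin ℚ_[q] (Set.range (padicEmbedding q)) = ⊤) {X : Type*}
    (f : (PadicAlgCl q ≃ₐ[ℚ_[q]] PadicAlgCl q) × (PadicAlgCl q ≃ₐ[ℚ_[q]] PadicAlgCl q) → X) :
    IsLevelConstant₂ (localGaloisToGlobal q) f ↔
      ∃ K : IntermediateField ℚ_[q] (PadicAlgCl q), FiniteDimensional ℚ_[q] K ∧
        IsGalois ℚ_[q] K ∧ ∀ g g' s s', s ∈ K.fixingSubgroup → s' ∈ K.fixingSubgroup →
          f (g * s, g' * s') = f (g, g') := by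
  constructor
  · rintro ⟨F, hF, h⟩
    obtain ⟨K, hKfd, hKgal, hKF⟩ := exists_local_galois_le_comap q F
    exact ⟨K, hKfd, hKgal, fun g g' s s' hs hs' => h g g' s s' (hKF s hs) (hKF s' hs')⟩
  · rintro ⟨K, hKfd, -, h⟩
    obtain ⟨F, hF, hFK⟩ := exists_global_comap_le q hK K
    exact ⟨F, hF, fun g g' s s' hs hs' => h g g' s s' (hFK s hs) (hFK s' hs')⟩

end LevelConstant

end Fermat.Agent.CFT.H87
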