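import Mathlib
import Fermat.Prelude.Def_GroupCohomology_ContinuousUnramified
import Fermat.Agent.CFT.H55_LevelDefs
import Fermat.Agent.CFT.H15_LocalToGlobal
import Fermat.Agent.CFT.H87_LevelCompareGlobal
import Fermat.Agent.CFT.H87_LevelCompareLocal

set_option autoImplicit false
set_option linter.unusedSectionVars false

/-!
# CFT / layer E (b): the concrete level structures and the frozen level conditions (helper87)

In helper55's `LevelStructure` vocabulary (`H55_LevelDefs`):

* `levelsAll : LevelStructure G_ℚ`    — all `F.fixingSubgroup`, `F/ℚ` finite;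
* `levelsS S : LevelStructure G_ℚ`    — all `F.fixingSubgroup`, `F` unramified outside `S`;
* `levelsLocal q : LevelStructure Gal(ℚbar_q/ℚ_q)` — all `K.fixingSubgroup`, `K/ℚ_q` finite.

The frozen predicates are *literally* the `IsConst` predicates of these:
`IsLevelConstant_i r = (levelsAll.comap r).IsConst_i`, `IsLevelConstantS_i S = (levelsS S).IsConst_i`,
and (Krasner, via helper15) `IsLevelConstant_i (localGaloisToGlobal q) = (levelsLocal q).IsConst_i`.
-/

namespace Fermat.Agent.CFT.H87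

open IntermediateField groupCohomology Fermat.Agent.CFT

/-- Abbreviation for the absolute Galois group of `ℚ`. -/
abbrev GQ : Type := AlgebraicClosure ℚ ≃ₐ[ℚ] AlgebraicClosure ℚ

local instance isAlgebraicQbar_h87' : Algebra.IsAlgebraic ℚ (AlgebraicClosure ℚ) :=
  AlgebraicClosure.isAlgebraic ℚ
local instance isAlgClosureQbar_h87' : IsAlgClosure ℚ (AlgebraicClosure ℚ) :=
  ⟨inferInstance, inferInstance⟩
local instance normalQbar_h87' : Normal ℚ (AlgebraicClosure ℚ) :=
  IsAlgClosure.normal ℚ (AlgebraicClosure ℚ)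
local instance isGaloisQbar_h87' : IsGalois ℚ (AlgebraicClosure ℚ) := ⟨⟩

section Generic

variable {k Ω : Type*} [Field k] [Field Ω] [Algebra k Ω]

/-- The fixing subgroup of a finite subextension of a Galois extension has finite index. -/
theorem finiteIndex_fixingSubgroup [IsGalois k Ω]
    (K : IntermediateField k Ω) [FiniteDimensional k K] :
    (K.fixingSubgroup).FiniteIndex := by
  constructor
  rw [← IntermediateField.finrank_eq_fixingSubgroup_index]
  exact Module.finrank_pos.ne'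

/-- The fixing subgroup of a normal subextension is a normal subgroup. -/
theorem normal_fixingSubgroup (K : IntermediateField k Ω) [Normal k K] :
    (K.fixingSubgroup).Normal := by
  rw [← IntermediateField.restrictNormalHom_ker]
  infer_instance

end Generic

theorem normal_galClosure (F : IntermediateField ℚ (AlgebraicClosure ℚ)) :
    Normal ℚ ↥(galClosure F) :=
  (IntermediateField.normal_iff_forall_map_le' (K := galClosure F)).mpr (by
    intro σ
    rw [galClosure_def, IntermediateField.map_iSup]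
    refine iSup_le fun τ => ?_
    rw [IntermediateField.map_map]
    exact le_iSup (fun ρ : (AlgebraicClosure ℚ ≃ₐ[ℚ] AlgebraicClosure ℚ) =>
      F.map (ρ : AlgebraicClosure ℚ →ₐ[ℚ] AlgebraicClosure ℚ)) (σ * τ))

/-! ### The three level structures -/

/-- All fixing subgroups of number fields inside `ℚbar`. -/
noncomputable def levelsAll : LevelStructure GQ where
  levels := {N | ∃ F : IntermediateField ℚ (AlgebraicClosure ℚ), FiniteDimensional ℚ F ∧
    N = F.fixingSubgroup}
  nonempty := ⟨_, ⊥, inferInstance, rfl⟩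
  finiteIndex := by
    rintro _ ⟨F, hF, rfl⟩
    exact finiteIndex_fixingSubgroup F
  directed := by
    rintro _ ⟨F, hF, rfl⟩ _ ⟨F', hF', rfl⟩
    refine ⟨_, ⟨F ⊔ F', IntermediateField.finiteDimensional_sup F F', rfl⟩, ?_⟩
    rw [IntermediateField.fixingSubgroup_sup]
  exists_normal := by
    rintro _ ⟨F, hF, rfl⟩
    have hn := normal_galClosure F
    exact ⟨_, ⟨galClosure F, finiteDimensional_galClosure F, rfl⟩,
      IntermediateField.fixingSubgroup_antitone (le_galClosure F),
      @normal_fixingSubgroup _ _ _ _ _ (galClosure F) hn⟩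

/-- Fixing subgroups of number fields unramified outside `S` (the levels of `G_S`). -/
noncomputable def levelsS (S : Finset Nat.Primes) : LevelStructure GQ where
  levels := {N | ∃ F : IntermediateField ℚ (AlgebraicClosure ℚ), F.IsUnramifiedOutside S ∧
    N = F.fixingSubgroup}
  nonempty := ⟨_, ⊥, IntermediateField.isUnramifiedOutside_bot S, rfl⟩
  finiteIndex := by
    rintro _ ⟨F, hF, rfl⟩
    have := hF.1
    exact finiteIndex_fixingSubgroup F
  directed := by
    rintro _ ⟨F, hF, rfl⟩ _ ⟨F', hF', rfl⟩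
    refine ⟨_, ⟨F ⊔ F', hF.sup hF', rfl⟩, ?_⟩
    rw [IntermediateField.fixingSubgroup_sup]
  exists_normal := by
    rintro _ ⟨F, hF, rfl⟩
    have hn := normal_galClosure F
    exact ⟨_, ⟨galClosure F, isUnramifiedOutside_galClosure hF, rfl⟩,
      IntermediateField.fixingSubgroup_antitone (le_galClosure F),
      @normal_fixingSubgroup _ _ _ _ _ (galClosure F) hn⟩

/-- Fixing subgroups of finite extensions of `ℚ_q` inside `PadicAlgCl q`. -/
noncomputable def levelsLocal (q : ℕ) [Fact q.Prime] :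
    LevelStructure (PadicAlgCl q ≃ₐ[ℚ_[q]] PadicAlgCl q) where
  levels := {N | ∃ K : IntermediateField ℚ_[q] (PadicAlgCl q), FiniteDimensional ℚ_[q] K ∧
    N = K.fixingSubgroup}
  nonempty := ⟨_, ⊥, inferInstance, rfl⟩
  finiteIndex := by
    rintro _ ⟨K, hK, rfl⟩
    exact finiteIndex_fixingSubgroup K
  directed := by
    rintro _ ⟨K, hK, rfl⟩ _ ⟨K', hK', rfl⟩
    refine ⟨_, ⟨K ⊔ K', IntermediateField.finiteDimensional_sup K K', rfl⟩, ?_⟩
    rw [IntermediateField.fixingSubgroup_sup]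
  exists_normal := by
    rintro _ ⟨K, hK, rfl⟩
    obtain ⟨K', hle, hfd, hgal⟩ := exists_galois_ge K
    exact ⟨_, ⟨K', hfd, rfl⟩, IntermediateField.fixingSubgroup_antitone hle,
      normal_fixingSubgroup K'⟩

/-! ### Frozen level conditions = `IsConst` of these structures -/

section Frozen

variable {X : Type*}

theorem isConst₁_levelsS_iff (S : Finset Nat.Primes) (f : GQ → X) :
    (levelsS S).IsConst₁ f ↔ IsLevelConstantS₁ S f := by
  constructor
  · rintro ⟨_, ⟨F, hF, rfl⟩, h⟩
    exact ⟨F, hF, h⟩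
  · rintro ⟨F, hF, h⟩
    exact ⟨_, ⟨F, hF, rfl⟩, h⟩

theorem isConst₂_levelsS_iff (S : Finset Nat.Primes) (f : GQ × GQ → X) :
    (levelsS S).IsConst₂ f ↔ IsLevelConstantS₂ S f := by
  constructor
  · rintro ⟨_, ⟨F, hF, rfl⟩, h⟩
    exact ⟨F, hF, h⟩
  · rintro ⟨F, hF, h⟩
    exact ⟨_, ⟨F, hF, rfl⟩, h⟩

theorem isConst₁_levelsAll_comap_iff {G : Type} [Group G] (r : G →* GQ) (f : G → X) :
    (levelsAll.comap r).IsConst₁ f ↔ IsLevelConstant₁ r f := by
  constructor
  · rintro ⟨_, ⟨_, ⟨F, hF, rfl⟩, rfl⟩, h⟩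
    exact ⟨F, hF, h⟩
  · rintro ⟨F, hF, h⟩
    exact ⟨_, ⟨_, ⟨F, hF, rfl⟩, rfl⟩, h⟩

theorem isConst₂_levelsAll_comap_iff {G : Type} [Group G] (r : G →* GQ) (f : G × G → X) :
    (levelsAll.comap r).IsConst₂ f ↔ IsLevelConstant₂ r f := by
  constructor
  · rintro ⟨_, ⟨_, ⟨F, hF, rfl⟩, rfl⟩, h⟩
    exact ⟨F, hF, h⟩
  · rintro ⟨F, hF, h⟩
    exact ⟨_, ⟨_, ⟨F, hF, rfl⟩, rfl⟩, h⟩

variable (q : ℕ) [Fact q.Prime]

/-- **Krasner**: the frozen local level condition is the level condition of `levelsLocal q`. -/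
theorem isConst₁_levelsLocal_iff (f : (PadicAlgCl q ≃ₐ[ℚ_[q]] PadicAlgCl q) → X) :
    (levelsLocal q).IsConst₁ f ↔ IsLevelConstant₁ (localGaloisToGlobal q) f := by
  rw [isLevelConstant₁_local_iff q (H15.adjoin_range_padicEmbedding_eq_top q)]
  constructor
  · rintro ⟨_, ⟨K, hK, rfl⟩, h⟩
    obtain ⟨K', hle, hfd, hgal⟩ := exists_galois_ge K
    exact ⟨K', hfd, hgal, fun g s hs =>
      h g s (IntermediateField.fixingSubgroup_antitone hle hs)⟩
  · rintro ⟨K, hfd, -, h⟩
    exact ⟨_, ⟨K, hfd, rfl⟩, h⟩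

theorem isConst₂_levelsLocal_iff
    (f : (PadicAlgCl q ≃ₐ[ℚ_[q]] PadicAlgCl q) × (PadicAlgCl q ≃ₐ[ℚ_[q]] PadicAlgCl q) → X) :
    (levelsLocal q).IsConst₂ f ↔ IsLevelConstant₂ (localGaloisToGlobal q) f := by
  rw [isLevelConstant₂_local_iff q (H15.adjoin_range_padicEmbedding_eq_top q)]
  constructor
  · rintro ⟨_, ⟨K, hK, rfl⟩, h⟩
    obtain ⟨K', hle, hfd, hgal⟩ := exists_galois_ge K
    exact ⟨K', hfd, hgal, fun g g' s s' hs hs' =>
      h g g' s s' (IntermediateField.fixingSubgroup_antitone hle hs)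
        (IntermediateField.fixingSubgroup_antitone hle hs')⟩
  · rintro ⟨K, hfd, -, h⟩
    exact ⟨_, ⟨K, hfd, rfl⟩, h⟩

/-- The two local level structures have the same level-constant functions. -/
theorem isConst₁_levelsLocal_iff_comap (f : (PadicAlgCl q ≃ₐ[ℚ_[q]] PadicAlgCl q) → X) :
    (levelsLocal q).IsConst₁ f ↔ (levelsAll.comap (localGaloisToGlobal q)).IsConst₁ f := by
  rw [isConst₁_levelsLocal_iff, isConst₁_levelsAll_comap_iff]

theorem isConst₂_levelsLocal_iff_comap
    (f : (PadicAlgCl q ≃ₐ[ℚ_[q]] PadicAlgCl q) × (PadicAlgCl q ≃ₐ[ℚ_[q]] PadicAlgCl q) → X) :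
    (levelsLocal q).IsConst₂ f ↔ (levelsAll.comap (localGaloisToGlobal q)).IsConst₂ f := by
  rw [isConst₂_levelsLocal_iff, isConst₂_levelsAll_comap_iff]

end Frozen

end Fermat.Agent.CFT.H87
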