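import Mathlib
import Fermat.Prelude.Def_GroupCohomology_ContinuousUnramified
import Fermat.Agent.CFT.H69_Deg
import Fermat.Agent.CFT.H87_Levels

/-!
# (DEG) in `LevelStructure` vocabulary

`H69_Deg.exists_level_pow_dvd_relIndex` restated for the coarse local level structure
`(levelsS S).comap (primeLocalToGlobal q)` of helper87's `H87_Levels` (the structure called
`𝓛'_v` in the D4 blueprints): every level / every open subgroup contains a (normal) level whose
relative index is divisible by any prescribed power of `p`.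
-/

set_option autoImplicit false

namespace Fermat.Agent.CFT.H69

open ExtCitation IntermediateField Fermat.Agent.CFT

/-- The coarse level structure on the local Galois group at `q`: pull-backs of the levels of
`G_S` along `primeLocalToGlobal q`. -/
noncomputable abbrev levelsCoarse (S : Finset Nat.Primes) (q : Nat.Primes) :
    LevelStructure (primeLocalGaloisGroup q) :=
  (H87.levelsS S).comap (primeLocalToGlobal q)

theorem mem_levelsCoarse_iff (S : Finset Nat.Primes) (q : Nat.Primes)
    (N : Subgroup (primeLocalGaloisGroup q)) :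
    N ∈ (levelsCoarse S q).levels ↔
      ∃ F : IntermediateField ℚ (AlgebraicClosure ℚ), F.IsUnramifiedOutside S ∧
        N = F.fixingSubgroup.comap (primeLocalToGlobal q) := by
  constructor
  · rintro ⟨_, ⟨F, hF, rfl⟩, rfl⟩
    exact ⟨F, hF, rfl⟩
  · rintro ⟨F, hF, rfl⟩
    exact ⟨_, ⟨F, hF, rfl⟩, rfl⟩


/-- For a normal subgroup `K ≤ H` the relative index of the preimages divides `[H : K]`. -/
theorem relIndex_comap_dvd_of_normal {G G' : Type*} [Group G] [Group G'] (f : G' →* G)
    (K H : Subgroup G) [K.Normal] :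
    (K.comap f).relIndex (H.comap f) ∣ K.relIndex H := by
  classical
  have : (K.subgroupOf H).Normal := Subgroup.normal_subgroupOf
  -- the map `f⁻¹ H → H ⧸ K`
  let ψ : ↥(H.comap f) →* (↥H ⧸ K.subgroupOf H) :=
    (QuotientGroup.mk' (K.subgroupOf H)).comp
      ((f.comp (H.comap f).subtype).codRestrict H (fun x => x.2))
  have hker : ψ.ker = (K.comap f).subgroupOf (H.comap f) := by
    ext x
    simp only [ψ, MonoidHom.mem_ker, MonoidHom.comp_apply, QuotientGroup.mk'_apply,
      QuotientGroup.eq_one_iff, Subgroup.mem_subgroupOf, Subgroup.mem_comap]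
    rfl
  have h1 : (K.comap f).relIndex (H.comap f) = Nat.card ψ.range := by
    rw [Subgroup.relIndex, ← hker, Subgroup.index_ker]
  rw [h1]
  have h2 : K.relIndex H = Nat.card (↥H ⧸ K.subgroupOf H) := rfl
  rw [h2]
  exact Subgroup.card_subgroup_dvd_card ψ.range

variable {p : ℕ} [Fact p.Prime]

/-- **(DEG), level form.** Every level of the coarse local structure contains a level of
relative index divisible by `p ^ n`. -/
theorem exists_level_le_pow_dvd_relIndex (hp2 : p ≠ 2) (S : Finset Nat.Primes)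
    (hpS : pPrime p ∈ S) (q : Nat.Primes) (N : Subgroup (primeLocalGaloisGroup q))
    (hN : N ∈ (levelsCoarse S q).levels) (n : ℕ) :
    ∃ N' ∈ (levelsCoarse S q).levels, N' ≤ N ∧ p ^ n ∣ N'.relIndex N := by
  obtain ⟨F, hF, rfl⟩ := (mem_levelsCoarse_iff S q N).mp hN
  obtain ⟨F', hFF', hF', hdvd⟩ := exists_level_pow_dvd_relIndex hp2 S hpS q hF n
  exact ⟨_, (mem_levelsCoarse_iff S q _).mpr ⟨F', hF', rfl⟩,
    Subgroup.comap_mono (IntermediateField.fixingSubgroup_antitone hFF'), hdvd⟩

/-- **(DEG), open-subgroup form with a normal level.** Every open subgroup `U` of the coarse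
local structure contains a *normal* level `N'` with `p ^ n ∣ [U : N']`. -/
theorem exists_normal_level_le_pow_dvd_relIndex (hp2 : p ≠ 2) (S : Finset Nat.Primes)
    (hpS : pPrime p ∈ S) (q : Nat.Primes) (U : Subgroup (primeLocalGaloisGroup q))
    (hU : (levelsCoarse S q).IsOpen U) (n : ℕ) :
    ∃ N' ∈ (levelsCoarse S q).levels, N'.Normal ∧ N' ≤ U ∧ p ^ n ∣ N'.relIndex U := by
  obtain ⟨N, hN, hNU⟩ := hU
  obtain ⟨N₁, hN₁, hN₁N, hdvd⟩ := exists_level_le_pow_dvd_relIndex hp2 S hpS q N hN n
  obtain ⟨N₂, hN₂, hN₂N₁, hnor⟩ := (levelsCoarse S q).exists_normal N₁ hN₁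
  refine ⟨N₂, hN₂, hnor, hN₂N₁.trans (hN₁N.trans hNU), ?_⟩
  have h1 : N₂.relIndex N₁ * N₁.relIndex N = N₂.relIndex N :=
    Subgroup.relIndex_mul_relIndex N₂ N₁ N hN₂N₁ hN₁N
  have h2 : N₂.relIndex N * N.relIndex U = N₂.relIndex U :=
    Subgroup.relIndex_mul_relIndex N₂ N U (hN₂N₁.trans hN₁N) hNU
  rw [← h2, ← h1]
  exact Dvd.dvd.mul_right (Dvd.dvd.mul_left hdvd _) _

/-- **(DEG), open-subgroup form**: in particular `p ∣ [U : N']` for some level `N' ≤ U`. -/
theorem exists_level_le_dvd_relIndex (hp2 : p ≠ 2) (S : Finset Nat.Primes)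
    (hpS : pPrime p ∈ S) (q : Nat.Primes) (U : Subgroup (primeLocalGaloisGroup q))
    (hU : (levelsCoarse S q).IsOpen U) :
    ∃ N' ∈ (levelsCoarse S q).levels, N'.Normal ∧ N' ≤ U ∧ p ∣ N'.relIndex U := by
  obtain ⟨N', h1, h2, h3, h4⟩ := exists_normal_level_le_pow_dvd_relIndex hp2 S hpS q U hU 1
  exact ⟨N', h1, h2, h3, by simpa using h4⟩

/-- The same statement for the global structure `levelsS S` is immediate from the local one
(`[U : N'] ` is a multiple of the local index); we record the *global* (DIV) hypothesis of D2: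
every open subgroup of `G_S` contains a normal level of index divisible by `p ^ n`. -/
theorem exists_normal_levelS_le_pow_dvd_relIndex (hp2 : p ≠ 2) (S : Finset Nat.Primes)
    (hpS : pPrime p ∈ S)
    (U : Subgroup (AlgebraicClosure ℚ ≃ₐ[ℚ] AlgebraicClosure ℚ))
    (hU : (H87.levelsS S).IsOpen U) (n : ℕ) :
    ∃ N' ∈ (H87.levelsS S).levels, N'.Normal ∧ N' ≤ U ∧ p ^ n ∣ N'.relIndex U := by
  obtain ⟨N, hN, hNU⟩ := hU
  obtain ⟨F, hF, rfl⟩ := hN
  obtain ⟨F', hFF', hF', hdvd⟩ := exists_level_pow_dvd_relIndex hp2 S hpS (pPrime p) hF n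
  have hle : F'.fixingSubgroup ≤ F.fixingSubgroup :=
    IntermediateField.fixingSubgroup_antitone hFF'
  obtain ⟨N₂, hN₂, hN₂N₁, hnor⟩ := (H87.levelsS S).exists_normal F'.fixingSubgroup
    ⟨F', hF', rfl⟩
  refine ⟨N₂, hN₂, hnor, hN₂N₁.trans (hle.trans hNU), ?_⟩
  set r := primeLocalToGlobal (pPrime p) with hr
  -- local multiplicativity
  have hl1 : (N₂.comap r).relIndex (F'.fixingSubgroup.comap r) *
      (F'.fixingSubgroup.comap r).relIndex (F.fixingSubgroup.comap r) =
      (N₂.comap r).relIndex (F.fixingSubgroup.comap r) :=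
    Subgroup.relIndex_mul_relIndex _ _ _ (Subgroup.comap_mono hN₂N₁) (Subgroup.comap_mono hle)
  -- the local relative index divides the global one (`N₂` is normal)
  have hloc : (N₂.comap r).relIndex (F.fixingSubgroup.comap r) ∣
      N₂.relIndex F.fixingSubgroup :=
    relIndex_comap_dvd_of_normal r N₂ F.fixingSubgroup
  have h2 : N₂.relIndex F.fixingSubgroup * F.fixingSubgroup.relIndex U = N₂.relIndex U :=
    Subgroup.relIndex_mul_relIndex N₂ _ U (hN₂N₁.trans hle) hNU
  rw [← h2]
  refine Dvd.dvd.mul_right (dvd_trans ?_ hloc) _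
  rw [← hl1]
  exact Dvd.dvd.mul_left hdvd _

end Fermat.Agent.CFT.H69
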