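import Mathlib
import Fermat.Prelude.Def_GroupCohomology_ContinuousUnramified
import Fermat.Agent.CFT.H69_Deg
import Fermat.Agent.CFT.H87_Levels

/-!
# (DIV) for the fine local level structure

Every open subgroup `U` of `Gal(ℚ̄_q/ℚ_q)` (for the level structure `H87.levelsLocal q` of all
finite extensions of `ℚ_q`) contains a normal level `N'` with `p ^ n ∣ [U : N']`, for every odd
prime `p` (equal to `q` or not) and every `n`.  The tower used is `ℚ_q(ζ_{p^k})`.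
-/

set_option autoImplicit false

namespace Fermat.Agent.CFT.H69

open ExtCitation IntermediateField Fermat.Agent.CFT

local notation "GQ" => (AlgebraicClosure ℚ ≃ₐ[ℚ] AlgebraicClosure ℚ)
local notation "Qbar" => AlgebraicClosure ℚ

local instance isAlgebraicQdl : Algebra.IsAlgebraic ℚ (AlgebraicClosure ℚ) :=
  AlgebraicClosure.isAlgebraic ℚ
local instance isAlgClosureQdl : IsAlgClosure ℚ (AlgebraicClosure ℚ) :=
  ⟨inferInstance, inferInstance⟩
local instance isGaloisQdl : IsGalois ℚ (AlgebraicClosure ℚ) := IsSepClosure.isGalois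

variable {p : ℕ} [hp : Fact p.Prime]

/-- **Core of (DEG).** For a normal subgroup `U₁` of finite index of the local Galois group at
`q` there is a cyclotomic number field `F' = ℚ(ζ_{p^(k+1)})` such that `p ^ n` divides the index
of `U₁ ∩ Gal(ℚ̄_q / F'·ℚ_q)` in `U₁`. -/
theorem exists_cyclo_pow_dvd_relIndex (hp2 : p ≠ 2) (q : Nat.Primes)
    (U₁ : Subgroup (primeLocalGaloisGroup q)) [U₁.Normal] [U₁.FiniteIndex] (n : ℕ) :
    ∃ F' : IntermediateField ℚ Qbar, FiniteDimensional ℚ F' ∧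
      p ^ n ∣ (U₁ ⊓ F'.fixingSubgroup.comap (primeLocalToGlobal q)).relIndex U₁ := by
  have hpp : p.Prime := hp.out
  have hodd : Odd p := hpp.odd_of_ne_two hp2
  set r := primeLocalToGlobal q with hr
  have hd0 : U₁.index ≠ 0 := Subgroup.FiniteIndex.index_ne_zero
  obtain ⟨a, ha2, hpa, hel⟩ := exists_local_element (p := p) q
  set c := padicValNat p (a ^ (p - 1) - 1) with hc
  set d := U₁.index with hd
  set k := n + c + padicValNat p d with hk
  haveI : NeZero (p ^ (k + 1)) := ⟨pow_ne_zero _ hpp.ne_zero⟩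
  obtain ⟨h₀, hh₀⟩ := hel k
  obtain ⟨ζ, hζ⟩ := exists_primitiveRoot_Qbar (p ^ (k + 1))
  set φ : primeLocalGaloisGroup q →* (ZMod (p ^ (k + 1)))ˣ := (chiM (p ^ (k + 1))).comp r with hφ
  have hker : (ℚ⟮ζ⟯).fixingSubgroup.comap r = φ.ker := by
    ext g
    rw [Subgroup.mem_comap, mem_fixingSubgroup_adjoin_simple_iff, MonoidHom.mem_ker, hφ,
      MonoidHom.comp_apply, chiM_eq_one_iff hζ]
  have hfd : FiniteDimensional ℚ ℚ⟮ζ⟯ :=
    IntermediateField.adjoin.finiteDimensional (Algebra.IsIntegral.isIntegral ζ)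
  refine ⟨ℚ⟮ζ⟯, hfd, ?_⟩
  rw [hker]
  have hmem : h₀ ^ d ∈ U₁ := Subgroup.pow_index_mem U₁ h₀
  have h1 : orderOf (φ (h₀ ^ d)) ∣ (U₁ ⊓ φ.ker).relIndex U₁ :=
    orderOf_dvd_relIndex_inf_ker φ U₁ hmem
  have h2 : p ^ (k + 1 - c) ∣ orderOf (φ h₀) :=
    pow_dvd_orderOf_of_coe_eq hodd ha2 hpa (k + 1) (φ h₀) hh₀
  have h3 : p ^ (k + 1 - c - padicValNat p d) ∣ orderOf (φ h₀ ^ d) :=
    pow_dvd_orderOf_pow (φ h₀) hd0 (orderOf_pos (φ h₀)).ne' h2
  rw [← map_pow] at h3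
  refine (pow_dvd_pow p ?_).trans (h3.trans h1)
  omega

/-- The core of (DEG) for `q : ℕ` with `[Fact q.Prime]` (same statement, unbundled prime). -/
theorem exists_cyclo_pow_dvd_relIndex' (hp2 : p ≠ 2) (q : ℕ) [hq : Fact q.Prime]
    (U₁ : Subgroup (PadicAlgCl q ≃ₐ[ℚ_[q]] PadicAlgCl q)) (hnor : U₁.Normal)
    (hfin : U₁.FiniteIndex) (n : ℕ) :
    ∃ F' : IntermediateField ℚ Qbar, FiniteDimensional ℚ F' ∧
      p ^ n ∣ (U₁ ⊓ F'.fixingSubgroup.comap (localGaloisToGlobal q)).relIndex U₁ :=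
  @exists_cyclo_pow_dvd_relIndex p hp hp2 (⟨q, hq.out⟩ : Nat.Primes) U₁ hnor hfin n

/-- **(DIV) for the fine local structure.** Every open subgroup `U` of `Gal(ℚ̄_q/ℚ_q)` contains
a normal level `N'` (fixing subgroup of a finite extension of `ℚ_q`) with `p ^ n ∣ [U : N']`. -/
theorem exists_normal_levelLocal_le_pow_dvd_relIndex (hp2 : p ≠ 2) (q : ℕ) [hq : Fact q.Prime]
    (U : Subgroup (PadicAlgCl q ≃ₐ[ℚ_[q]] PadicAlgCl q))
    (hU : (H87.levelsLocal q).IsOpen U) (n : ℕ) :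
    ∃ N' ∈ (H87.levelsLocal q).levels, N'.Normal ∧ N' ≤ U ∧ p ^ n ∣ N'.relIndex U := by
  obtain ⟨N, hN, hNU⟩ := hU
  -- a normal level `N₁ ≤ N`
  obtain ⟨N₁, hN₁, hN₁N, hnor₁⟩ := (H87.levelsLocal q).exists_normal N hN
  have hfin₁ : N₁.FiniteIndex := (H87.levelsLocal q).finiteIndex N₁ hN₁
  -- the cyclotomic field
  obtain ⟨F', hF'fd, hdvd⟩ :=
    exists_cyclo_pow_dvd_relIndex' (p := p) hp2 q N₁ hnor₁ hfin₁ n
  -- a fine level inside the pull-back of `F'.fixingSubgroup`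
  obtain ⟨K, hKfd, -, hK⟩ := H87.exists_local_galois_le_comap q F'
  have hKle : K.fixingSubgroup ≤ F'.fixingSubgroup.comap (localGaloisToGlobal q) :=
    fun s hs => hK s hs
  obtain ⟨N₂, hN₂, hN₂le⟩ := (H87.levelsLocal q).directed N₁ hN₁ K.fixingSubgroup
    ⟨K, hKfd, rfl⟩
  obtain ⟨N₃, hN₃, hN₃N₂, hnor₃⟩ := (H87.levelsLocal q).exists_normal N₂ hN₂
  set V : Subgroup (PadicAlgCl q ≃ₐ[ℚ_[q]] PadicAlgCl q) :=
    N₁ ⊓ F'.fixingSubgroup.comap (localGaloisToGlobal q) with hV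
  have hN₃V : N₃ ≤ V := hN₃N₂.trans (hN₂le.trans (inf_le_inf_left _ hKle))
  have hVN₁ : V ≤ N₁ := inf_le_left
  refine ⟨N₃, hN₃, hnor₃, hN₃V.trans (hVN₁.trans (hN₁N.trans hNU)), ?_⟩
  have h1 : N₃.relIndex V * V.relIndex N₁ = N₃.relIndex N₁ :=
    Subgroup.relIndex_mul_relIndex N₃ V N₁ hN₃V hVN₁
  have h2 : N₃.relIndex N₁ * N₁.relIndex U = N₃.relIndex U :=
    Subgroup.relIndex_mul_relIndex N₃ N₁ U (hN₃V.trans hVN₁) (hN₁N.trans hNU)
  rw [← h2, ← h1]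
  exact Dvd.dvd.mul_right (Dvd.dvd.mul_left hdvd _) _

end Fermat.Agent.CFT.H69
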