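import Mathlib
import Fermat.Agent.CFT.H55_LevelDefs
import Fermat.Prelude.Def_GroupCohomology_ContinuousH2

/-!
# CFT / layer B (Ω1)+(Ω2): Galois level structures (helper78)

For a field extension `Ω/K` the fixing subgroups of the finite Galois subextensions form a
`LevelStructure` on `Gal(Ω/K)` (official vocabulary of `H55_LevelDefs`).  Special cases:
`localLevels q` on `LocalGal q = Gal(PadicAlgCl q / ℚ_[q])` and `globalLevelsAll` on `G_ℚ`.
When `Ω/K` is Galois the units representation `Rep.ofAlgebraAutOnUnits K Ω` is discrete.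
-/

set_option autoImplicit false

universe u v

open IntermediateField

namespace Fermat.Agent.CFT.H78

open Fermat.Agent.CFT

section Generic

variable (K : Type v) (Ω : Type u) [Field K] [Field Ω] [Algebra K Ω]

/-- The level structure on `Gal(Ω/K)` given by the fixing subgroups of the finite Galois
subextensions of `Ω/K`. -/
def galoisLevels : LevelStructure (Ω ≃ₐ[K] Ω) where
  levels := {U | ∃ F : IntermediateField K Ω,
    FiniteDimensional K F ∧ IsGalois K F ∧ U = F.fixingSubgroup}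
  nonempty := ⟨⊤, ⊥, inferInstance, inferInstance, fixingSubgroup_bot.symm⟩
  finiteIndex := by
    rintro _ ⟨F, hfd, hgal, rfl⟩
    rw [← F.restrictNormalHom_ker]
    exact Subgroup.finiteIndex_ker _
  directed := by
    rintro _ ⟨F₁, h₁, g₁, rfl⟩ _ ⟨F₂, h₂, g₂, rfl⟩
    exact ⟨_, ⟨F₁ ⊔ F₂, inferInstance, inferInstance, rfl⟩, by rw [fixingSubgroup_sup]⟩
  exists_normal := by
    rintro _ ⟨F, hfd, hgal, rfl⟩
    refine ⟨_, ⟨F, hfd, hgal, rfl⟩, le_rfl, ?_⟩
    rw [← F.restrictNormalHom_ker]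
    exact MonoidHom.normal_ker _

variable {K Ω}

theorem mem_galoisLevels_iff {U : Subgroup (Ω ≃ₐ[K] Ω)} :
    U ∈ (galoisLevels K Ω).levels ↔ ∃ F : IntermediateField K Ω,
      FiniteDimensional K F ∧ IsGalois K F ∧ U = F.fixingSubgroup := Iff.rfl

theorem fixingSubgroup_mem_galoisLevels (F : IntermediateField K Ω) [FiniteDimensional K F]
    [IsGalois K F] : F.fixingSubgroup ∈ (galoisLevels K Ω).levels :=
  ⟨F, inferInstance, inferInstance, rfl⟩

/-- every level of `galoisLevels` is a normal subgroup. -/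
theorem normal_of_mem_galoisLevels {U : Subgroup (Ω ≃ₐ[K] Ω)}
    (hU : U ∈ (galoisLevels K Ω).levels) : U.Normal := by
  obtain ⟨F, hfd, hgal, rfl⟩ := hU
  rw [← F.restrictNormalHom_ker]
  exact MonoidHom.normal_ker _

/-- every level of `galoisLevels` has finite index. -/
theorem finiteIndex_of_mem_galoisLevels {U : Subgroup (Ω ≃ₐ[K] Ω)}
    (hU : U ∈ (galoisLevels K Ω).levels) : U.FiniteIndex :=
  (galoisLevels K Ω).finiteIndex U hU

/-- the index of the level attached to a finite Galois subextension `F` of a normal extension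
is `[F : K]`. -/
theorem index_fixingSubgroup_of_isGalois [Normal K Ω] (F : IntermediateField K Ω)
    [FiniteDimensional K F] [IsGalois K F] :
    F.fixingSubgroup.index = Module.finrank K F := by
  rw [← F.restrictNormalHom_ker, Subgroup.index_ker,
    MonoidHom.range_eq_top.mpr (AlgEquiv.restrictNormalHom_surjective Ω), Subgroup.card_top,
    IsGalois.card_aut_eq_finrank]

/-- The quotient of `Gal(Ω/K)` by the level of `F` is `Gal(F/K)`. -/
noncomputable def quotientFixingSubgroupEquiv [Normal K Ω] (F : IntermediateField K Ω)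
    [Normal K F] :
    (Ω ≃ₐ[K] Ω) ⧸ (AlgEquiv.restrictNormalHom (F := K) (K₁ := Ω) F).ker ≃* (F ≃ₐ[K] F) :=
  QuotientGroup.quotientKerEquivOfSurjective _ (AlgEquiv.restrictNormalHom_surjective Ω)

section Open

variable [Normal K Ω]

/-- For a normal extension `Ω/K` and a finite separable subextension `F`, the fixing subgroup of
`F` is open: it contains the level of the normal closure. -/
theorem isOpen_fixingSubgroup (F : IntermediateField K Ω) [FiniteDimensional K F]
    [Algebra.IsSeparable K F] : (galoisLevels K Ω).IsOpen F.fixingSubgroup := by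
  have : Algebra.IsSeparable K ↥(normalClosure K F Ω) := by
    rw [← le_separableClosure_iff, normalClosure_le_iff]
    intro i
    have : Algebra.IsSeparable K i.fieldRange :=
      AlgEquiv.Algebra.isSeparable (AlgEquiv.ofInjectiveField i)
    exact le_separableClosure K Ω _
  have : IsGalois K ↥(normalClosure K F Ω) := ⟨⟩
  refine ⟨_, fixingSubgroup_mem_galoisLevels (normalClosure K F Ω), ?_⟩
  exact IntermediateField.fixingSubgroup_antitone (le_normalClosure F)

/-- a subgroup is open for the Galois levels iff it contains the fixing subgroup of a finite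
separable subextension. -/
theorem isOpen_iff_exists_finiteDimensional [Algebra.IsSeparable K Ω] {U : Subgroup (Ω ≃ₐ[K] Ω)} :
    (galoisLevels K Ω).IsOpen U ↔
      ∃ F : IntermediateField K Ω, FiniteDimensional K F ∧ F.fixingSubgroup ≤ U := by
  constructor
  · rintro ⟨_, ⟨F, hfd, _, rfl⟩, hle⟩
    exact ⟨F, hfd, hle⟩
  · rintro ⟨F, hfd, hle⟩
    obtain ⟨N, hN, hNF⟩ := isOpen_fixingSubgroup (K := K) (Ω := Ω) F
    exact ⟨N, hN, hNF.trans hle⟩

variable {G : Type u} [Group G] (r : G →* (Ω ≃ₐ[K] Ω)) {X : Type*}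

/-- level-constancy for the pulled-back Galois levels, in the shape of the frozen predicate
`groupCohomology.IsLevelConstant₁ r f`. -/
theorem isConst₁_comap_iff [Algebra.IsSeparable K Ω] (f : G → X) :
    ((galoisLevels K Ω).comap r).IsConst₁ f ↔
      ∃ F : IntermediateField K Ω, FiniteDimensional K F ∧
        ∀ g s : G, r s ∈ F.fixingSubgroup → f (g * s) = f g := by
  constructor
  · rintro ⟨_, ⟨_, ⟨F, hfd, _, rfl⟩, rfl⟩, h⟩
    exact ⟨F, hfd, fun g s hs => h g s hs⟩
  · rintro ⟨F, hfd, h⟩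
    obtain ⟨N, hN, hNF⟩ := isOpen_fixingSubgroup (K := K) (Ω := Ω) F
    exact ⟨N.comap r, ⟨N, hN, rfl⟩, fun g s hs => h g s (hNF hs)⟩

/-- two-variable version, shape of `groupCohomology.IsLevelConstant₂ r f`. -/
theorem isConst₂_comap_iff [Algebra.IsSeparable K Ω] (f : G × G → X) :
    ((galoisLevels K Ω).comap r).IsConst₂ f ↔
      ∃ F : IntermediateField K Ω, FiniteDimensional K F ∧
        ∀ g g' s s' : G, r s ∈ F.fixingSubgroup → r s' ∈ F.fixingSubgroup →
          f (g * s, g' * s') = f (g, g') := by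
  constructor
  · rintro ⟨_, ⟨_, ⟨F, hfd, _, rfl⟩, rfl⟩, h⟩
    exact ⟨F, hfd, fun g g' s s' hs hs' => h g g' s s' hs hs'⟩
  · rintro ⟨F, hfd, h⟩
    obtain ⟨N, hN, hNF⟩ := isOpen_fixingSubgroup (K := K) (Ω := Ω) F
    exact ⟨N.comap r, ⟨N, hN, rfl⟩, fun g g' s s' hs hs' => h g g' s s' (hNF hs) (hNF hs')⟩

/-- three-variable version. -/
theorem isConst₃_comap_iff [Algebra.IsSeparable K Ω] (f : G × G × G → X) :
    ((galoisLevels K Ω).comap r).IsConst₃ f ↔
      ∃ F : IntermediateField K Ω, FiniteDimensional K F ∧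
        ∀ g g' g'' s s' s'' : G, r s ∈ F.fixingSubgroup → r s' ∈ F.fixingSubgroup →
          r s'' ∈ F.fixingSubgroup → f (g * s, g' * s', g'' * s'') = f (g, g', g'') := by
  constructor
  · rintro ⟨_, ⟨_, ⟨F, hfd, _, rfl⟩, rfl⟩, h⟩
    exact ⟨F, hfd, fun g g' g'' s s' s'' hs hs' hs'' => h g g' g'' s s' s'' hs hs' hs''⟩
  · rintro ⟨F, hfd, h⟩
    obtain ⟨N, hN, hNF⟩ := isOpen_fixingSubgroup (K := K) (Ω := Ω) F
    exact ⟨N.comap r, ⟨N, hN, rfl⟩, fun g g' g'' s s' s'' hs hs' hs'' =>
      h g g' g'' s s' s'' (hNF hs) (hNF hs') (hNF hs'')⟩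

/-- one-variable version without pull-back. -/
theorem isConst₁_iff [Algebra.IsSeparable K Ω] (f : (Ω ≃ₐ[K] Ω) → X) :
    (galoisLevels K Ω).IsConst₁ f ↔
      ∃ F : IntermediateField K Ω, FiniteDimensional K F ∧
        ∀ g s : Ω ≃ₐ[K] Ω, s ∈ F.fixingSubgroup → f (g * s) = f g := by
  constructor
  · rintro ⟨_, ⟨F, hfd, _, rfl⟩, h⟩
    exact ⟨F, hfd, h⟩
  · rintro ⟨F, hfd, h⟩
    obtain ⟨N, hN, hNF⟩ := isOpen_fixingSubgroup (K := K) (Ω := Ω) F
    exact ⟨N, hN, fun g s hs => h g s (hNF hs)⟩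

/-- two-variable version without pull-back. -/
theorem isConst₂_iff [Algebra.IsSeparable K Ω] (f : (Ω ≃ₐ[K] Ω) × (Ω ≃ₐ[K] Ω) → X) :
    (galoisLevels K Ω).IsConst₂ f ↔
      ∃ F : IntermediateField K Ω, FiniteDimensional K F ∧
        ∀ g g' s s' : Ω ≃ₐ[K] Ω, s ∈ F.fixingSubgroup → s' ∈ F.fixingSubgroup →
          f (g * s, g' * s') = f (g, g') := by
  constructor
  · rintro ⟨_, ⟨F, hfd, _, rfl⟩, h⟩
    exact ⟨F, hfd, h⟩
  · rintro ⟨F, hfd, h⟩
    obtain ⟨N, hN, hNF⟩ := isOpen_fixingSubgroup (K := K) (Ω := Ω) F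
    exact ⟨N, hN, fun g g' s s' hs hs' => h g g' s s' (hNF hs) (hNF hs')⟩

end Open

end Generic

section Discrete

variable (K : Type) (Ω : Type) [Field K] [Field Ω] [Algebra K Ω]

/-- (Ω2) For a Galois extension `Ω/K` (possibly infinite) every element of `Ω` is fixed by
a level. -/
theorem exists_level_fixing [IsGalois K Ω] (x : Ω) :
    ∃ N ∈ (galoisLevels K Ω).levels, ∀ σ ∈ N, σ x = x := by
  have hx : IsIntegral K x := Algebra.IsIntegral.isIntegral x
  have : FiniteDimensional K K⟮x⟯ := IntermediateField.adjoin.finiteDimensional hx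
  have : Algebra.IsSeparable K ↥K⟮x⟯ := inferInstance
  obtain ⟨N, hN, hle⟩ := isOpen_fixingSubgroup (K := K) (Ω := Ω) K⟮x⟯
  refine ⟨N, hN, fun σ hσ => ?_⟩
  exact (hle hσ) ⟨x, IntermediateField.mem_adjoin_simple_self K x⟩

/-- (Ω2) the units representation of a Galois extension is discrete for the Galois levels. -/
theorem isDiscrete_ofAlgebraAutOnUnits [IsGalois K Ω] :
    (galoisLevels K Ω).IsDiscrete (Rep.ofAlgebraAutOnUnits K Ω) := by
  intro a
  obtain ⟨N, hN, h⟩ := exists_level_fixing K Ω ((Additive.toMul a : Ωˣ) : Ω)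
  refine ⟨N, hN, fun σ hσ => ?_⟩
  have h1 : (Rep.ofAlgebraAutOnUnits K Ω).ρ σ a =
      Additive.ofMul (σ • (Additive.toMul a : Ωˣ)) := rfl
  have h2 : σ • (Additive.toMul a : Ωˣ) = Additive.toMul a := by
    apply Units.ext
    exact h σ hσ
  rw [h1, h2]
  rfl

end Discrete

section Local

variable (q : ℕ) [Fact q.Prime]

/-- the local absolute Galois group `Gal(PadicAlgCl q / ℚ_[q])`. -/
abbrev LocalGal : Type := PadicAlgCl q ≃ₐ[ℚ_[q]] PadicAlgCl q

/-- levels of the local Galois group: fixing subgroups of finite Galois subextensions. -/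
noncomputable abbrev localLevels : LevelStructure (LocalGal q) :=
  galoisLevels ℚ_[q] (PadicAlgCl q)

/-- the local formation module `(PadicAlgCl q)ˣ`. -/
noncomputable abbrev localUnits : Rep.{0} ℤ (LocalGal q) :=
  Rep.ofAlgebraAutOnUnits ℚ_[q] (PadicAlgCl q)

theorem isDiscrete_localUnits : (localLevels q).IsDiscrete (localUnits q) :=
  isDiscrete_ofAlgebraAutOnUnits ℚ_[q] (PadicAlgCl q)

end Local

section Global

/-- the absolute Galois group of `ℚ`. -/
abbrev GQ : Type := AlgebraicClosure ℚ ≃ₐ[ℚ] AlgebraicClosure ℚ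

/-- all finite Galois levels of `G_ℚ`. -/
noncomputable abbrev globalLevelsAll : LevelStructure GQ :=
  galoisLevels ℚ (AlgebraicClosure ℚ)

/-- the global units representation `ℚbarˣ`. -/
noncomputable abbrev globalUnits : Rep.{0} ℤ GQ :=
  Rep.ofAlgebraAutOnUnits ℚ (AlgebraicClosure ℚ)

theorem isGalois_Qbar : IsGalois ℚ (AlgebraicClosure ℚ) := by
  have h1 : Algebra.IsAlgebraic ℚ (AlgebraicClosure ℚ) := AlgebraicClosure.isAlgebraic ℚ
  have h2 : IsAlgClosure ℚ (AlgebraicClosure ℚ) := ⟨inferInstance, inferInstance⟩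
  exact IsAlgClosure.isGalois ℚ (AlgebraicClosure ℚ)

theorem isDiscrete_globalUnits : globalLevelsAll.IsDiscrete globalUnits :=
  have := isGalois_Qbar
  isDiscrete_ofAlgebraAutOnUnits ℚ (AlgebraicClosure ℚ)

/-- the frozen predicate `IsLevelConstant₁ r` is level-constancy for the pulled-back Galois
levels of `G_ℚ`. -/
theorem isLevelConstant₁_iff {G : Type} [Group G] (r : G →* GQ) {X : Type*} (f : G → X) :
    groupCohomology.IsLevelConstant₁ r f ↔ (globalLevelsAll.comap r).IsConst₁ f := by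
  have := isGalois_Qbar
  exact (isConst₁_comap_iff r f).symm

/-- the frozen predicate `IsLevelConstant₂ r` is level-constancy for the pulled-back Galois
levels of `G_ℚ`. -/
theorem isLevelConstant₂_iff {G : Type} [Group G] (r : G →* GQ) {X : Type*} (f : G × G → X) :
    groupCohomology.IsLevelConstant₂ r f ↔ (globalLevelsAll.comap r).IsConst₂ f := by
  have := isGalois_Qbar
  exact (isConst₂_comap_iff r f).symm

end Global

end Fermat.Agent.CFT.H78
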