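import Mathlib
import Fermat.Agent.CFT.H55_LevelDefs

/-!
# Functoriality of level cohomology in the pair (group, coefficients)  (CFT / D0-RES)

Vocabulary: `Fermat.Agent.CFT.LevelStructure` (`H55_LevelDefs`).

For a group homomorphism `φ : H' →* H` which is *continuous* for level structures `𝓛'` on `H'` and
`𝓛` on `H` (`IsCont 𝓛' 𝓛 φ`), representations `A : Rep k H`, `B : Rep k H'` and a `k`-linear map
`α : A → B` with `α (φ g • a) = g • α a`, the pull-back of inhomogeneous cochains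
`f ↦ α ∘ f ∘ φⁿ` preserves level-constancy and commutes *strictly* with the differentials
`d₀₁ d₁₂ d₂₃ d₃₄`; hence it induces `k`-linear maps `mapH0 … mapH3` on level cohomology.

* `φ = id` gives functoriality in the coefficients (`coeffH0 … coeffH3` for `f : A ⟶ B`);
* `α = id` gives restriction (`resH0 … resH3`); for an open subgroup `U` take
  `φ = U.subtype`, `𝓛' = 𝓛.restrict U` (`resSubH0 … resSubH3`).
-/

set_option autoImplicit false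

universe u w w'

open CategoryTheory groupCohomology

namespace Fermat.Agent.CFT.H50

open Fermat.Agent.CFT

variable {H H' H'' : Type u} [Group H] [Group H'] [Group H'']

/-! ## Continuity of group homomorphisms for level structures -/

/-- `φ : H' →* H` is continuous for `𝓛'` and `𝓛`: the preimage of every level is open. -/
def IsCont (𝓛' : LevelStructure H') (𝓛 : LevelStructure H) (φ : H' →* H) : Prop :=
  ∀ N ∈ 𝓛.levels, 𝓛'.IsOpen (N.comap φ)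

lemma isCont_id (𝓛 : LevelStructure H) : IsCont 𝓛 𝓛 (MonoidHom.id H) :=
  fun N hN => ⟨N, hN, le_of_eq (Subgroup.comap_id N).symm⟩

lemma isCont_comap (𝓛 : LevelStructure H) (φ : H' →* H) : IsCont (𝓛.comap φ) 𝓛 φ :=
  fun N hN => ⟨N.comap φ, ⟨N, hN, rfl⟩, le_rfl⟩

lemma isCont_subtype (𝓛 : LevelStructure H) (U : Subgroup H) :
    IsCont (𝓛.restrict U) 𝓛 U.subtype :=
  isCont_comap 𝓛 U.subtype

lemma IsCont.comp {𝓛'' : LevelStructure H''} {𝓛' : LevelStructure H'} {𝓛 : LevelStructure H}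
    {ψ : H'' →* H'} {φ : H' →* H} (hψ : IsCont 𝓛'' 𝓛' ψ) (hφ : IsCont 𝓛' 𝓛 φ) :
    IsCont 𝓛'' 𝓛 (φ.comp ψ) := by
  intro N hN
  obtain ⟨N', hN', hle⟩ := hφ N hN
  obtain ⟨N'', hN'', hle'⟩ := hψ N' hN'
  refine ⟨N'', hN'', hle'.trans ?_⟩
  rw [← Subgroup.comap_comap]
  exact Subgroup.comap_mono hle

/-- An open subgroup has finite index. -/
lemma finiteIndex_of_isOpen (𝓛 : LevelStructure H) {U : Subgroup H} (hU : 𝓛.IsOpen U) :
    U.FiniteIndex := by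
  obtain ⟨N, hN, hle⟩ := hU
  have := 𝓛.finiteIndex N hN
  exact Subgroup.finiteIndex_of_le hle

/-- Every open subgroup contains a normal level. -/
lemma exists_normal_level_le (𝓛 : LevelStructure H) {U : Subgroup H} (hU : 𝓛.IsOpen U) :
    ∃ N ∈ 𝓛.levels, N ≤ U ∧ N.Normal := by
  obtain ⟨N, hN, hle⟩ := hU
  obtain ⟨N', hN', hle', hn⟩ := 𝓛.exists_normal N hN
  exact ⟨N', hN', hle'.trans hle, hn⟩

/-- Two open subgroups contain a common normal level. -/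
lemma exists_normal_level_le_inf (𝓛 : LevelStructure H) {U V : Subgroup H} (hU : 𝓛.IsOpen U)
    (hV : 𝓛.IsOpen V) : ∃ N ∈ 𝓛.levels, N ≤ U ∧ N ≤ V ∧ N.Normal := by
  obtain ⟨N₁, hN₁, hle₁⟩ := hU
  obtain ⟨N₂, hN₂, hle₂⟩ := hV
  obtain ⟨N₃, hN₃, hle₃⟩ := 𝓛.directed N₁ hN₁ N₂ hN₂
  obtain ⟨N', hN', hle', hn⟩ := 𝓛.exists_normal N₃ hN₃
  exact ⟨N', hN', (hle'.trans hle₃).trans (inf_le_left.trans hle₁),
    (hle'.trans hle₃).trans (inf_le_right.trans hle₂), hn⟩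

lemma isOpen_inf (𝓛 : LevelStructure H) {U V : Subgroup H} (hU : 𝓛.IsOpen U)
    (hV : 𝓛.IsOpen V) : 𝓛.IsOpen (U ⊓ V) := by
  obtain ⟨N, hN, h₁, h₂, -⟩ := exists_normal_level_le_inf 𝓛 hU hV
  exact ⟨N, hN, le_inf h₁ h₂⟩

lemma isOpen_of_mem_levels (𝓛 : LevelStructure H) {N : Subgroup H} (hN : N ∈ 𝓛.levels) :
    𝓛.IsOpen N := ⟨N, hN, le_rfl⟩

lemma IsOpen.mono (𝓛 : LevelStructure H) {U V : Subgroup H} (hU : 𝓛.IsOpen U) (h : U ≤ V) :
    𝓛.IsOpen V := by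
  obtain ⟨N, hN, hle⟩ := hU
  exact ⟨N, hN, hle.trans h⟩

/-! ## Pull-back of cochains -/

section Pull

variable {k : Type u} [CommRing k] {V : Type w} {V' : Type w'} [AddCommGroup V] [Module k V]
  [AddCommGroup V'] [Module k V']

/-- Pull-back of `1`-cochains along `φ`, pushed forward along `α`. -/
def pull₁ (φ : H' →* H) (α : V →ₗ[k] V') : (H → V) →ₗ[k] (H' → V') where
  toFun f g := α (f (φ g))
  map_add' f f' := by ext g; simp
  map_smul' c f := by ext g; simp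

/-- Pull-back of `2`-cochains. -/
def pull₂ (φ : H' →* H) (α : V →ₗ[k] V') : (H × H → V) →ₗ[k] (H' × H' → V') where
  toFun f g := α (f (φ g.1, φ g.2))
  map_add' f f' := by ext g; simp
  map_smul' c f := by ext g; simp

/-- Pull-back of `3`-cochains. -/
def pull₃ (φ : H' →* H) (α : V →ₗ[k] V') : (H × H × H → V) →ₗ[k] (H' × H' × H' → V') where
  toFun f g := α (f (φ g.1, φ g.2.1, φ g.2.2))
  map_add' f f' := by ext g; simp
  map_smul' c f := by ext g; simp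

/-- Pull-back of `4`-cochains. -/
def pull₄ (φ : H' →* H) (α : V →ₗ[k] V') :
    (H × H × H × H → V) →ₗ[k] (H' × H' × H' × H' → V') where
  toFun f g := α (f (φ g.1, φ g.2.1, φ g.2.2.1, φ g.2.2.2))
  map_add' f f' := by ext g; simp
  map_smul' c f := by ext g; simp

@[simp] lemma pull₁_apply (φ : H' →* H) (α : V →ₗ[k] V') (f : H → V) (g : H') :
    pull₁ φ α f g = α (f (φ g)) := rfl

@[simp] lemma pull₂_apply (φ : H' →* H) (α : V →ₗ[k] V') (f : H × H → V) (g : H' × H') :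
    pull₂ φ α f g = α (f (φ g.1, φ g.2)) := rfl

@[simp] lemma pull₃_apply (φ : H' →* H) (α : V →ₗ[k] V') (f : H × H × H → V)
    (g : H' × H' × H') : pull₃ φ α f g = α (f (φ g.1, φ g.2.1, φ g.2.2)) := rfl

@[simp] lemma pull₄_apply (φ : H' →* H) (α : V →ₗ[k] V') (f : H × H × H × H → V)
    (g : H' × H' × H' × H') :
    pull₄ φ α f g = α (f (φ g.1, φ g.2.1, φ g.2.2.1, φ g.2.2.2)) := rfl

variable {𝓛' : LevelStructure H'} {𝓛 : LevelStructure H} {φ : H' →* H}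

lemma isConst₁_pull (hφ : IsCont 𝓛' 𝓛 φ) (α : V →ₗ[k] V') {f : H → V} (hf : 𝓛.IsConst₁ f) :
    𝓛'.IsConst₁ (pull₁ φ α f) := by
  obtain ⟨N, hN, h⟩ := hf
  obtain ⟨N', hN', hle⟩ := hφ N hN
  refine ⟨N', hN', fun g s hs => ?_⟩
  simp only [pull₁_apply, map_mul]
  rw [h (φ g) (φ s) (hle hs)]

lemma isConst₂_pull (hφ : IsCont 𝓛' 𝓛 φ) (α : V →ₗ[k] V') {f : H × H → V}
    (hf : 𝓛.IsConst₂ f) : 𝓛'.IsConst₂ (pull₂ φ α f) := by
  obtain ⟨N, hN, h⟩ := hf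
  obtain ⟨N', hN', hle⟩ := hφ N hN
  refine ⟨N', hN', fun g g' s s' hs hs' => ?_⟩
  simp only [pull₂_apply, map_mul]
  rw [h (φ g) (φ g') (φ s) (φ s') (hle hs) (hle hs')]

lemma isConst₃_pull (hφ : IsCont 𝓛' 𝓛 φ) (α : V →ₗ[k] V') {f : H × H × H → V}
    (hf : 𝓛.IsConst₃ f) : 𝓛'.IsConst₃ (pull₃ φ α f) := by
  obtain ⟨N, hN, h⟩ := hf
  obtain ⟨N', hN', hle⟩ := hφ N hN
  refine ⟨N', hN', fun g g' g'' s s' s'' hs hs' hs'' => ?_⟩
  simp only [pull₃_apply, map_mul]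
  rw [h (φ g) (φ g') (φ g'') (φ s) (φ s') (φ s'') (hle hs) (hle hs') (hle hs'')]

end Pull

/-! ## Compatibility with the differentials -/

section Diff

variable {k : Type u} [CommRing k] {A : Rep.{u} k H} {B : Rep.{u} k H'}

/-- The equivariance condition on a linear map `α : A → B` over `φ : H' →* H`. -/
def IsEquivariant (φ : H' →* H) (A : Rep.{u} k H) (B : Rep.{u} k H') (α : A.V →ₗ[k] B.V) :
    Prop :=
  ∀ (g : H') (a : A.V), α (A.ρ (φ g) a) = B.ρ g (α a)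

variable {φ : H' →* H} {α : A.V →ₗ[k] B.V}

lemma d₀₁_pull (hα : IsEquivariant φ A B α) (a : A.V) :
    (d₀₁ B).hom (α a) = pull₁ φ α ((d₀₁ A).hom a) := by
  ext g
  simp only [d₀₁_hom_apply, pull₁_apply, map_sub, hα g a]

lemma d₁₂_pull (hα : IsEquivariant φ A B α) (f : H → A.V) :
    (d₁₂ B).hom (pull₁ φ α f) = pull₂ φ α ((d₁₂ A).hom f) := by
  have hα' : ∀ (g : H') (a : A.V), α (A.ρ (φ g) a) = B.ρ g (α a) := hα
  ext g
  simp only [d₁₂_hom_apply, pull₁_apply, pull₂_apply, map_sub, map_add, map_mul, hα']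

lemma d₂₃_pull (hα : IsEquivariant φ A B α) (f : H × H → A.V) :
    (d₂₃ B).hom (pull₂ φ α f) = pull₃ φ α ((d₂₃ A).hom f) := by
  have hα' : ∀ (g : H') (a : A.V), α (A.ρ (φ g) a) = B.ρ g (α a) := hα
  ext g
  simp only [d₂₃_hom_apply, pull₂_apply, pull₃_apply, map_sub, map_add, map_mul, hα']

lemma d₃₄_apply (A : Rep.{u} k H) (f : H × H × H → A.V) (x : H × H × H × H) :
    LevelStructure.d₃₄ A f x =
      A.ρ x.1 (f (x.2.1, x.2.2.1, x.2.2.2)) - f (x.1 * x.2.1, x.2.2.1, x.2.2.2)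
        + f (x.1, x.2.1 * x.2.2.1, x.2.2.2) - f (x.1, x.2.1, x.2.2.1 * x.2.2.2)
        + f (x.1, x.2.1, x.2.2.1) := rfl

lemma d₃₄_pull (hα : IsEquivariant φ A B α) (f : H × H × H → A.V) :
    LevelStructure.d₃₄ B (pull₃ φ α f) = pull₄ φ α (LevelStructure.d₃₄ A f) := by
  have hα' : ∀ (g : H') (a : A.V), α (A.ρ (φ g) a) = B.ρ g (α a) := hα
  ext g
  simp only [d₃₄_apply, pull₃_apply, pull₄_apply, map_sub, map_add, map_mul, hα']

lemma isEquivariant_id (A : Rep.{u} k H) :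
    IsEquivariant (MonoidHom.id H) A A LinearMap.id := fun _ _ => rfl

lemma isEquivariant_res (φ : H' →* H) (A : Rep.{u} k H) :
    IsEquivariant φ A (Rep.res φ A) (LinearMap.id : A.V →ₗ[k] (Rep.res φ A).V) :=
  fun _ _ => rfl

lemma isEquivariant_hom {A A' : Rep.{u} k H} (f : A ⟶ A') :
    IsEquivariant (MonoidHom.id H) A A' f.hom.toLinearMap :=
  fun g a => Rep.hom_comm_apply f g a

lemma isEquivariant_hom_res {B : Rep.{u} k H'} (φ : H' →* H) (A : Rep.{u} k H)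
    (f : Rep.res φ A ⟶ B) :
    IsEquivariant φ A B (f.hom.toLinearMap : A.V →ₗ[k] B.V) :=
  fun g a => Rep.hom_comm_apply f g a

lemma IsEquivariant.comp {C : Rep.{u} k H''} {A : Rep.{u} k H} {B : Rep.{u} k H'}
    {ψ : H'' →* H'} {φ : H' →* H} {α : A.V →ₗ[k] B.V}
    {β : B.V →ₗ[k] C.V} (hα : IsEquivariant φ A B α) (hβ : IsEquivariant ψ B C β) :
    IsEquivariant (φ.comp ψ) A C (β ∘ₗ α) := by
  intro g a
  simp only [MonoidHom.comp_apply, LinearMap.comp_apply]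
  rw [hα (ψ g) a, hβ g (α a)]

end Diff

/-! ## Induced maps on level cohomology -/

noncomputable section Maps

variable {k : Type u} [CommRing k] (𝓛' : LevelStructure H') (𝓛 : LevelStructure H)
  {φ : H' →* H} (hφ : IsCont 𝓛' 𝓛 φ) {A : Rep.{u} k H} {B : Rep.{u} k H'}
  {α : A.V →ₗ[k] B.V} (hα : IsEquivariant φ A B α)

include hφ hα

lemma pull₁_mem_cocycles₁ {f : H → A.V} (hf : f ∈ 𝓛.cocycles₁ A) :
    pull₁ φ α f ∈ 𝓛'.cocycles₁ B := by
  refine ⟨?_, isConst₁_pull hφ α hf.2⟩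
  have h1 : (d₁₂ A).hom f = 0 := hf.1
  show (d₁₂ B).hom (pull₁ φ α f) = 0
  rw [d₁₂_pull hα, h1, map_zero]

lemma pull₂_mem_cocycles₂ {f : H × H → A.V} (hf : f ∈ 𝓛.cocycles₂ A) :
    pull₂ φ α f ∈ 𝓛'.cocycles₂ B := by
  refine ⟨?_, isConst₂_pull hφ α hf.2⟩
  have h1 : (d₂₃ A).hom f = 0 := hf.1
  show (d₂₃ B).hom (pull₂ φ α f) = 0
  rw [d₂₃_pull hα, h1, map_zero]

lemma pull₃_mem_cocycles₃ {f : H × H × H → A.V} (hf : f ∈ 𝓛.cocycles₃ A) :
    pull₃ φ α f ∈ 𝓛'.cocycles₃ B := by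
  refine ⟨?_, isConst₃_pull hφ α hf.2⟩
  have h1 : LevelStructure.d₃₄ A f = 0 := hf.1
  show LevelStructure.d₃₄ B (pull₃ φ α f) = 0
  rw [d₃₄_pull hα, h1, map_zero]

omit hφ in
lemma pull₁_mem_coboundaries₁ {f : H → A.V} (hf : f ∈ 𝓛.coboundaries₁ A) :
    pull₁ φ α f ∈ 𝓛'.coboundaries₁ B := by
  obtain ⟨a, rfl⟩ := hf
  exact ⟨α a, d₀₁_pull hα a⟩

lemma pull₂_mem_coboundaries₂ {f : H × H → A.V} (hf : f ∈ 𝓛.coboundaries₂ A) :
    pull₂ φ α f ∈ 𝓛'.coboundaries₂ B := by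
  obtain ⟨x, hx, rfl⟩ := hf
  exact ⟨pull₁ φ α x, isConst₁_pull hφ α hx, d₁₂_pull hα x⟩

lemma pull₃_mem_coboundaries₃ {f : H × H × H → A.V} (hf : f ∈ 𝓛.coboundaries₃ A) :
    pull₃ φ α f ∈ 𝓛'.coboundaries₃ B := by
  obtain ⟨x, hx, rfl⟩ := hf
  exact ⟨pull₂ φ α x, isConst₂_pull hφ α hx, d₂₃_pull hα x⟩

omit hφ in
/-- Induced map on `H⁰` (invariants). -/
def mapH0 : LevelStructure.H0 A →ₗ[k] LevelStructure.H0 B :=
  LinearMap.codRestrict _ (α ∘ₗ (LevelStructure.H0 A).subtype) (fun a g => by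
    have := a.2 (φ g)
    simp only [LinearMap.comp_apply, Submodule.subtype_apply]
    rw [← hα g a.1, this])

/-- Induced map on level `1`-cocycles. -/
def mapZ1 : ↥(𝓛.cocycles₁ A) →ₗ[k] ↥(𝓛'.cocycles₁ B) :=
  LinearMap.codRestrict _ (pull₁ φ α ∘ₗ (𝓛.cocycles₁ A).subtype)
    (fun f => pull₁_mem_cocycles₁ 𝓛' 𝓛 hφ hα f.2)

/-- Induced map on level `2`-cocycles. -/
def mapZ2 : ↥(𝓛.cocycles₂ A) →ₗ[k] ↥(𝓛'.cocycles₂ B) :=
  LinearMap.codRestrict _ (pull₂ φ α ∘ₗ (𝓛.cocycles₂ A).subtype)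
    (fun f => pull₂_mem_cocycles₂ 𝓛' 𝓛 hφ hα f.2)

/-- Induced map on level `3`-cocycles. -/
def mapZ3 : ↥(𝓛.cocycles₃ A) →ₗ[k] ↥(𝓛'.cocycles₃ B) :=
  LinearMap.codRestrict _ (pull₃ φ α ∘ₗ (𝓛.cocycles₃ A).subtype)
    (fun f => pull₃_mem_cocycles₃ 𝓛' 𝓛 hφ hα f.2)

/-- Induced map on level `H¹`. -/
def mapH1 : 𝓛.H1 A →ₗ[k] 𝓛'.H1 B :=
  Submodule.mapQ _ _ (mapZ1 𝓛' 𝓛 hφ hα) (fun f hf => by
    simp only [Submodule.mem_comap, Submodule.subtype_apply] at hf ⊢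
    exact pull₁_mem_coboundaries₁ 𝓛' 𝓛 hα hf)

/-- Induced map on level `H²`. -/
def mapH2 : 𝓛.H2 A →ₗ[k] 𝓛'.H2 B :=
  Submodule.mapQ _ _ (mapZ2 𝓛' 𝓛 hφ hα) (fun f hf => by
    simp only [Submodule.mem_comap, Submodule.subtype_apply] at hf ⊢
    exact pull₂_mem_coboundaries₂ 𝓛' 𝓛 hφ hα hf)

/-- Induced map on level `H³`. -/
def mapH3 : 𝓛.H3 A →ₗ[k] 𝓛'.H3 B :=
  Submodule.mapQ _ _ (mapZ3 𝓛' 𝓛 hφ hα) (fun f hf => by
    simp only [Submodule.mem_comap, Submodule.subtype_apply] at hf ⊢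
    exact pull₃_mem_coboundaries₃ 𝓛' 𝓛 hφ hα hf)

omit hφ in
@[simp] lemma mapH0_coe (a : LevelStructure.H0 A) :
    ((mapH0 hα a : LevelStructure.H0 B) : B.V) = α a.1 := rfl

@[simp] lemma mapZ1_coe (f : 𝓛.cocycles₁ A) :
    ((mapZ1 𝓛' 𝓛 hφ hα f : 𝓛'.cocycles₁ B) : H' → B.V) = pull₁ φ α f.1 := rfl

@[simp] lemma mapZ2_coe (f : 𝓛.cocycles₂ A) :
    ((mapZ2 𝓛' 𝓛 hφ hα f : 𝓛'.cocycles₂ B) : H' × H' → B.V) = pull₂ φ α f.1 := rfl

@[simp] lemma mapZ3_coe (f : 𝓛.cocycles₃ A) :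
    ((mapZ3 𝓛' 𝓛 hφ hα f : 𝓛'.cocycles₃ B) : H' × H' × H' → B.V) = pull₃ φ α f.1 := rfl

@[simp] lemma mapH1_mk (f : 𝓛.cocycles₁ A) :
    mapH1 𝓛' 𝓛 hφ hα (𝓛.H1π A f) = 𝓛'.H1π B (mapZ1 𝓛' 𝓛 hφ hα f) := rfl

@[simp] lemma mapH2_mk (f : 𝓛.cocycles₂ A) :
    mapH2 𝓛' 𝓛 hφ hα (𝓛.H2π A f) = 𝓛'.H2π B (mapZ2 𝓛' 𝓛 hφ hα f) := rfl

@[simp] lemma mapH3_mk (f : 𝓛.cocycles₃ A) :
    mapH3 𝓛' 𝓛 hφ hα (𝓛.H3π A f) = 𝓛'.H3π B (mapZ3 𝓛' 𝓛 hφ hα f) := rfl

end Maps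

/-! ## Identity and composition -/

noncomputable section Functoriality

variable {k : Type u} [CommRing k]

lemma pull₁_id {V : Type w} [AddCommGroup V] [Module k V] (f : H → V) :
    pull₁ (MonoidHom.id H) (LinearMap.id : V →ₗ[k] V) f = f := rfl

lemma pull₂_id {V : Type w} [AddCommGroup V] [Module k V] (f : H × H → V) :
    pull₂ (MonoidHom.id H) (LinearMap.id : V →ₗ[k] V) f = f := rfl

lemma pull₃_id {V : Type w} [AddCommGroup V] [Module k V] (f : H × H × H → V) :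
    pull₃ (MonoidHom.id H) (LinearMap.id : V →ₗ[k] V) f = f := rfl

variable (𝓛'' : LevelStructure H'') (𝓛' : LevelStructure H') (𝓛 : LevelStructure H)

lemma mapH0_id (A : Rep.{u} k H) : mapH0 (isEquivariant_id A) = LinearMap.id := by
  ext a; rfl

lemma mapH1_id (A : Rep.{u} k H) :
    mapH1 𝓛 𝓛 (isCont_id 𝓛) (isEquivariant_id A) = LinearMap.id := by
  refine LinearMap.ext fun x => ?_
  induction x using Submodule.Quotient.induction_on with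
  | H f => rfl

lemma mapH2_id (A : Rep.{u} k H) :
    mapH2 𝓛 𝓛 (isCont_id 𝓛) (isEquivariant_id A) = LinearMap.id := by
  refine LinearMap.ext fun x => ?_
  induction x using Submodule.Quotient.induction_on with
  | H f => rfl

lemma mapH3_id (A : Rep.{u} k H) :
    mapH3 𝓛 𝓛 (isCont_id 𝓛) (isEquivariant_id A) = LinearMap.id := by
  refine LinearMap.ext fun x => ?_
  induction x using Submodule.Quotient.induction_on with
  | H f => rfl

variable {ψ : H'' →* H'} {φ : H' →* H} (hψ : IsCont 𝓛'' 𝓛' ψ) (hφ : IsCont 𝓛' 𝓛 φ)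
  {A : Rep.{u} k H} {B : Rep.{u} k H'} {C : Rep.{u} k H''} {α : A.V →ₗ[k] B.V}
  {β : B.V →ₗ[k] C.V} (hα : IsEquivariant φ A B α) (hβ : IsEquivariant ψ B C β)

lemma mapH0_comp : mapH0 (hα.comp hβ) = mapH0 hβ ∘ₗ mapH0 hα := by
  ext a; rfl

lemma mapH1_comp :
    mapH1 𝓛'' 𝓛 (hψ.comp hφ) (hα.comp hβ) = mapH1 𝓛'' 𝓛' hψ hβ ∘ₗ mapH1 𝓛' 𝓛 hφ hα := by
  refine LinearMap.ext fun x => ?_
  induction x using Submodule.Quotient.induction_on with
  | H f => rfl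

lemma mapH2_comp :
    mapH2 𝓛'' 𝓛 (hψ.comp hφ) (hα.comp hβ) = mapH2 𝓛'' 𝓛' hψ hβ ∘ₗ mapH2 𝓛' 𝓛 hφ hα := by
  refine LinearMap.ext fun x => ?_
  induction x using Submodule.Quotient.induction_on with
  | H f => rfl

lemma mapH3_comp :
    mapH3 𝓛'' 𝓛 (hψ.comp hφ) (hα.comp hβ) = mapH3 𝓛'' 𝓛' hψ hβ ∘ₗ mapH3 𝓛' 𝓛 hφ hα := by
  refine LinearMap.ext fun x => ?_
  induction x using Submodule.Quotient.induction_on with
  | H f => rfl

end Functoriality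

/-! ## Special cases: coefficient maps and restriction -/

noncomputable section Special

variable {k : Type u} [CommRing k] (𝓛' : LevelStructure H') (𝓛 : LevelStructure H)

/-- Functoriality of `H⁰` in the coefficients. -/
def coeffH0 {A B : Rep.{u} k H} (f : A ⟶ B) : LevelStructure.H0 A →ₗ[k] LevelStructure.H0 B :=
  mapH0 (isEquivariant_hom f)

/-- Functoriality of level `H¹` in the coefficients. -/
def coeffH1 {A B : Rep.{u} k H} (f : A ⟶ B) : 𝓛.H1 A →ₗ[k] 𝓛.H1 B :=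
  mapH1 𝓛 𝓛 (isCont_id 𝓛) (isEquivariant_hom f)

/-- Functoriality of level `H²` in the coefficients. -/
def coeffH2 {A B : Rep.{u} k H} (f : A ⟶ B) : 𝓛.H2 A →ₗ[k] 𝓛.H2 B :=
  mapH2 𝓛 𝓛 (isCont_id 𝓛) (isEquivariant_hom f)

/-- Functoriality of level `H³` in the coefficients. -/
def coeffH3 {A B : Rep.{u} k H} (f : A ⟶ B) : 𝓛.H3 A →ₗ[k] 𝓛.H3 B :=
  mapH3 𝓛 𝓛 (isCont_id 𝓛) (isEquivariant_hom f)

variable {φ : H' →* H} (hφ : IsCont 𝓛' 𝓛 φ) (A : Rep.{u} k H)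

/-- Restriction on `H⁰` along `φ`. -/
def resH0 (φ : H' →* H) (A : Rep.{u} k H) :
    LevelStructure.H0 A →ₗ[k] LevelStructure.H0 (Rep.res φ A) :=
  mapH0 (isEquivariant_res φ A)

/-- Restriction on level `H¹` along a continuous `φ`. -/
def resH1 : 𝓛.H1 A →ₗ[k] 𝓛'.H1 (Rep.res φ A) :=
  mapH1 𝓛' 𝓛 hφ (isEquivariant_res φ A)

/-- Restriction on level `H²` along a continuous `φ`. -/
def resH2 : 𝓛.H2 A →ₗ[k] 𝓛'.H2 (Rep.res φ A) :=
  mapH2 𝓛' 𝓛 hφ (isEquivariant_res φ A)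

/-- Restriction on level `H³` along a continuous `φ`. -/
def resH3 : 𝓛.H3 A →ₗ[k] 𝓛'.H3 (Rep.res φ A) :=
  mapH3 𝓛' 𝓛 hφ (isEquivariant_res φ A)

/-- Restriction to a subgroup `U` (with the induced level structure) on `H⁰`. -/
def resSubH0 (U : Subgroup H) :
    LevelStructure.H0 A →ₗ[k] LevelStructure.H0 (Rep.res U.subtype A) :=
  resH0 U.subtype A

/-- Restriction to a subgroup `U` (with the induced level structure) on `H¹`. -/
def resSubH1 (U : Subgroup H) : 𝓛.H1 A →ₗ[k] (𝓛.restrict U).H1 (Rep.res U.subtype A) :=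
  resH1 (𝓛.restrict U) 𝓛 (isCont_subtype 𝓛 U) A

/-- Restriction to a subgroup `U` (with the induced level structure) on `H²`. -/
def resSubH2 (U : Subgroup H) : 𝓛.H2 A →ₗ[k] (𝓛.restrict U).H2 (Rep.res U.subtype A) :=
  resH2 (𝓛.restrict U) 𝓛 (isCont_subtype 𝓛 U) A

/-- Restriction to a subgroup `U` (with the induced level structure) on `H³`. -/
def resSubH3 (U : Subgroup H) : 𝓛.H3 A →ₗ[k] (𝓛.restrict U).H3 (Rep.res U.subtype A) :=
  resH3 (𝓛.restrict U) 𝓛 (isCont_subtype 𝓛 U) A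

include hφ in
/-- The restriction of a discrete module along a continuous homomorphism is discrete. -/
lemma isDiscrete_res {A : Rep.{w} k H} (hA : 𝓛.IsDiscrete A) : 𝓛'.IsDiscrete (Rep.res φ A) := by
  intro a
  obtain ⟨N, hN, h⟩ := hA a
  obtain ⟨N', hN', hle⟩ := hφ N hN
  exact ⟨N', hN', fun n hn => h (φ n) (hle hn)⟩

end Special

end Fermat.Agent.CFT.H50
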