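import Mathlib
import Fermat.Prelude.Def_GroupCohomology_ContinuousUnramified

/-!
# CFT / L4 bridge: the archimedean place contributes nothing for odd `p`

* abstract part (Mathlib only): if `G` is finite and `Nat.card G` is invertible in `k`, every
  1-cocycle is a 1-coboundary and every 2-cocycle is a 2-coboundary (explicit averaging);
* every function on a finite group mapping injectively to `G_ℚ` is level constant;
* hence for odd `p` the groups `H1 (Rep.res archimedeanLoc M)` and
  `continuousH2 archimedeanLoc (Rep.res archimedeanLoc M)` are trivial.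
-/

set_option autoImplicit false

open CategoryTheory groupCohomology

namespace Fermat.Agent.CFT.H60

universe u

section Abstract

variable {k G : Type u} [CommRing k] [Group G] [Fintype G] (A : Rep k G)

/-- Averaging a 1-cocycle: `|G| • f g = m - g • m` with `m = ∑ h, f h`. -/
theorem card_smul_cocycle₁ {f : G → A} (hf : f ∈ cocycles₁ A) (g : G) :
    (Fintype.card G : k) • f g = (∑ h, f h) - A.ρ g (∑ h, f h) := by
  have h1 : ∀ h : G, f (g * h) = A.ρ g (f h) + f g := fun h => (mem_cocycles₁_iff f).1 hf g h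
  have h2 : ∑ h : G, f (g * h) = ∑ h : G, f h :=
    Fintype.sum_equiv (Equiv.mulLeft g) _ _ (fun _ => rfl)
  have h3 : ∑ h : G, f (g * h) = A.ρ g (∑ h, f h) + (Fintype.card G : k) • f g := by
    simp_rw [h1, Finset.sum_add_distrib, map_sum, Finset.sum_const, Finset.card_univ,
      Nat.cast_smul_eq_nsmul]
  rw [h2] at h3
  exact eq_sub_of_add_eq' h3.symm

/-- Averaging a 2-cocycle: `|G| • f (g, h) = (d₁₂ t) (g, h)` with `t g = ∑ j, f (g, j)`. -/
theorem card_smul_cocycle₂ {f : G × G → A} (hf : f ∈ cocycles₂ A) (g h : G) :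
    (Fintype.card G : k) • f (g, h) =
      A.ρ g (∑ j, f (h, j)) - (∑ j, f (g * h, j)) + ∑ j, f (g, j) := by
  have h1 : ∀ j : G, f (g * h, j) + f (g, h) = A.ρ g (f (h, j)) + f (g, h * j) :=
    fun j => (mem_cocycles₂_iff f).1 hf g h j
  have h2 : ∑ j : G, f (g, h * j) = ∑ j : G, f (g, j) :=
    Fintype.sum_equiv (Equiv.mulLeft h) _ _ (fun _ => rfl)
  have h3 : ∑ j : G, (f (g * h, j) + f (g, h)) = ∑ j : G, (A.ρ g (f (h, j)) + f (g, h * j)) :=
    Finset.sum_congr rfl (fun j _ => h1 j)
  simp_rw [Finset.sum_add_distrib, Finset.sum_const, Finset.card_univ, ← map_sum, h2,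
    ← Nat.cast_smul_eq_nsmul k] at h3
  rw [← eq_sub_iff_add_eq'] at h3
  rw [h3]; abel

variable {A}

/-- If `|G|` is invertible in `k`, every 1-cocycle is a 1-coboundary. -/
theorem cocycles₁_le_coboundaries₁ {u : k} (hu : u * (Fintype.card G : k) = 1) :
    cocycles₁ A ≤ coboundaries₁ A := by
  intro f hf
  refine ⟨-(u • ∑ h, f h), ?_⟩
  funext g
  have := card_smul_cocycle₁ A hf g
  rw [d₀₁_hom_apply]
  calc A.ρ g (-(u • ∑ h, f h)) - -(u • ∑ h, f h)
      = u • ((∑ h, f h) - A.ρ g (∑ h, f h)) := by
        rw [map_neg, map_smul, smul_sub]; abel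
    _ = u • ((Fintype.card G : k) • f g) := by rw [this]
    _ = f g := by rw [smul_smul, hu, one_smul]

/-- If `|G|` is invertible in `k`, every 2-cocycle is `d₁₂` of the averaged cochain
`g ↦ u • ∑ j, f (g, j)`. -/
theorem cocycle₂_eq_d₁₂ {u : k} (hu : u * (Fintype.card G : k) = 1) {f : G × G → A}
    (hf : f ∈ cocycles₂ A) : (d₁₂ A).hom (fun g => u • ∑ j, f (g, j)) = f := by
  funext ⟨g, h⟩
  have := card_smul_cocycle₂ A hf g h
  rw [d₁₂_hom_apply]
  calc A.ρ g (u • ∑ j, f (h, j)) - u • ∑ j, f (g * h, j) + u • ∑ j, f (g, j)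
      = u • (A.ρ g (∑ j, f (h, j)) - (∑ j, f (g * h, j)) + ∑ j, f (g, j)) := by
        rw [map_smul, smul_add, smul_sub]
    _ = u • ((Fintype.card G : k) • f (g, h)) := by rw [this]
    _ = f (g, h) := by rw [smul_smul, hu, one_smul]

theorem cocycles₂_le_coboundaries₂ {u : k} (hu : u * (Fintype.card G : k) = 1) :
    cocycles₂ A ≤ coboundaries₂ A :=
  fun _ hf => ⟨_, cocycle₂_eq_d₁₂ hu hf⟩

theorem subsingleton_H1_of_card_inv {u : k} (hu : u * (Fintype.card G : k) = 1) :
    Subsingleton (H1 A) := by
  refine subsingleton_of_forall_eq 0 (fun x => ?_)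
  induction x using H1_induction_on with
  | h c => exact (H1π_eq_zero_iff c).2 (cocycles₁_le_coboundaries₁ hu c.2)

theorem subsingleton_H2_of_card_inv {u : k} (hu : u * (Fintype.card G : k) = 1) :
    Subsingleton (H2 A) := by
  refine subsingleton_of_forall_eq 0 (fun x => ?_)
  induction x using H2_induction_on with
  | h c => exact (H2π_eq_zero_iff c).2 (cocycles₂_le_coboundaries₂ hu c.2)

end Abstract

section Level

variable {G : Type u} [Group G] [Finite G]
  (r : G →* (AlgebraicClosure ℚ ≃ₐ[ℚ] AlgebraicClosure ℚ))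

/-- A finite group mapping injectively to `G_ℚ` meets the fixing subgroup of a suitable
finite extension only in the identity. -/
theorem exists_field_separating (hr : Function.Injective r) :
    ∃ F : IntermediateField ℚ (AlgebraicClosure ℚ), FiniteDimensional ℚ F ∧
      ∀ s : G, r s ∈ F.fixingSubgroup → s = 1 := by
  classical
  have hx : ∀ s : G, ∃ x : AlgebraicClosure ℚ, s ≠ 1 → r s x ≠ x := by
    intro s
    by_cases hs : s = 1
    · exact ⟨0, fun h => (h hs).elim⟩
    · have hne : r s ≠ 1 := fun h => hs (hr (by rw [h, map_one]))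
      by_contra hcon
      push Not at hcon
      apply hne
      ext x
      exact (hcon x).2
  choose x hx using hx
  refine ⟨IntermediateField.adjoin ℚ (Set.range x), ?_, ?_⟩
  · exact IntermediateField.finiteDimensional_adjoin
      (fun y _ => ((AlgebraicClosure.isAlgebraic ℚ).isAlgebraic y).isIntegral)
  · intro s hs
    by_contra hne
    exact hx s hne ((IntermediateField.mem_fixingSubgroup_iff _ _).1 hs (x s)
      (IntermediateField.subset_adjoin _ _ ⟨s, rfl⟩))

theorem isLevelConstant₁_of_finite (hr : Function.Injective r) {X : Type*} (f : G → X) :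
    IsLevelConstant₁ r f := by
  obtain ⟨F, hF, h⟩ := exists_field_separating r hr
  exact ⟨F, hF, fun g s hs => by rw [h s hs, mul_one]⟩

theorem isLevelConstant₂_of_finite (hr : Function.Injective r) {X : Type*} (f : G × G → X) :
    IsLevelConstant₂ r f := by
  obtain ⟨F, hF, h⟩ := exists_field_separating r hr
  exact ⟨F, hF, fun g g' s s' hs hs' => by rw [h s hs, h s' hs', mul_one, mul_one]⟩

variable {k : Type u} [CommRing k] (M : Rep k G)

/-- For a finite group embedded in `G_ℚ` whose order is invertible in `k`, the "continuous" `H²`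
of the frozen definitions vanishes. -/
theorem subsingleton_continuousH2_of_finite (hr : Function.Injective r) {u : k}
    (hu : u * (Nat.card G : k) = 1) : Subsingleton (continuousH2 r M) := by
  classical
  have : Fintype G := Fintype.ofFinite G
  have hu' : u * (Fintype.card G : k) = 1 := by rwa [Nat.card_eq_fintype_card] at hu
  refine subsingleton_of_forall_eq 0 (fun x => ?_)
  obtain ⟨c, rfl⟩ := Submodule.Quotient.mk_surjective _ x
  refine (continuousH2π_eq_zero_iff r M c).2 ?_
  exact (mem_levelCoboundaries₂_iff r M _).2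
    ⟨_, isLevelConstant₁_of_finite r hr _, cocycle₂_eq_d₁₂ hu' c.2.1⟩

theorem subsingleton_H1_of_finite {u : k} (hu : u * (Nat.card G : k) = 1) :
    Subsingleton (H1 M) := by
  classical
  have : Fintype G := Fintype.ofFinite G
  have hu' : u * (Fintype.card G : k) = 1 := by rwa [Nat.card_eq_fintype_card] at hu
  exact subsingleton_H1_of_card_inv hu'

end Level

section Archimedean

open ExtCitation

instance finite_archimedeanDecomposition : Finite ↥archimedeanDecomposition := by
  have h : IsOfFinOrder complexConjugation :=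
    isOfFinOrder_iff_pow_eq_one.2 ⟨2, by norm_num, complexConjugation_sq⟩
  exact Set.finite_coe_iff.2 h.finite_zpowers

theorem card_archimedeanDecomposition_dvd_two : Nat.card ↥archimedeanDecomposition ∣ 2 := by
  rw [archimedeanDecomposition, Nat.card_zpowers]
  exact orderOf_dvd_of_pow_eq_one complexConjugation_sq

theorem archimedeanLoc_injective : Function.Injective archimedeanLoc :=
  Subgroup.subtype_injective _

variable {k : Type} [CommRing k]

theorem exists_inv_card_archimedeanDecomposition (h2 : IsUnit (2 : k)) :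
    ∃ u : k, u * (Nat.card ↥archimedeanDecomposition : k) = 1 := by
  have hcard := card_archimedeanDecomposition_dvd_two
  have hle : Nat.card ↥archimedeanDecomposition ≤ 2 := Nat.le_of_dvd (by norm_num) hcard
  have hpos : 0 < Nat.card ↥archimedeanDecomposition := Nat.pos_of_dvd_of_pos hcard (by norm_num)
  obtain ⟨v, hv⟩ := h2
  interval_cases hc : Nat.card ↥archimedeanDecomposition
  · exact ⟨1, by simp⟩
  · refine ⟨((v⁻¹ : kˣ) : k), ?_⟩
    rw [Nat.cast_ofNat, ← hv, Units.inv_mul]

variable (M : Rep k (AlgebraicClosure ℚ ≃ₐ[ℚ] AlgebraicClosure ℚ))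

/-- `H¹` of the archimedean decomposition group vanishes when `2` is invertible. -/
theorem subsingleton_H1_archimedean (h2 : IsUnit (2 : k)) :
    Subsingleton (H1 (Rep.res archimedeanLoc M)) := by
  obtain ⟨u, hu⟩ := exists_inv_card_archimedeanDecomposition h2
  exact subsingleton_H1_of_finite _ hu

/-- The frozen "continuous" `H²` of the archimedean decomposition group vanishes when `2` is
invertible. -/
theorem subsingleton_continuousH2_archimedean (h2 : IsUnit (2 : k)) :
    Subsingleton (continuousH2 archimedeanLoc (Rep.res archimedeanLoc M)) := by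
  obtain ⟨u, hu⟩ := exists_inv_card_archimedeanDecomposition h2
  exact subsingleton_continuousH2_of_finite archimedeanLoc _ archimedeanLoc_injective hu

theorem isUnit_two_zmod {p : ℕ} [Fact p.Prime] (hp2 : p ≠ 2) : IsUnit (2 : ZMod p) := by
  have hne : (2 : ZMod p) ≠ 0 := by
    intro h
    have h' : ((2 : ℕ) : ZMod p) = 0 := by exact_mod_cast h
    rw [ZMod.natCast_eq_zero_iff] at h'
    exact hp2 ((Nat.prime_dvd_prime_iff_eq Fact.out Nat.prime_two).1 h')
  exact hne.isUnit

section Sha

variable (S : Finset Nat.Primes)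

/-- `sha₁` only sees the finite places in `S` (when `2` is invertible in the coefficient field). -/
theorem mem_sha₁_iff {K : Type} [Field K] (h2 : IsUnit (2 : K))
    (A : Rep K (AlgebraicClosure ℚ ≃ₐ[ℚ] AlgebraicClosure ℚ)) (x : H1 A) :
    x ∈ sha₁ S A ↔ x ∈ continuousH1S S A ∧
      ∀ q : ↥S, (locRes (extArithLoc S) A (Sum.inr q)).hom x = 0 := by
  rw [sha₁, Submodule.mem_inf, LinearMap.mem_ker]
  refine and_congr_right (fun _ => ⟨fun h q => ?_, fun h => ?_⟩)
  · exact congrFun h (Sum.inr q)
  · funext v
    rcases v with v | q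
    · exact @Subsingleton.elim _ (subsingleton_H1_archimedean A h2) _ _
    · exact h q

/-- Same as `mem_sha₁_iff`, with the localisation map at `q` spelled out. -/
theorem mem_sha₁_iff' {K : Type} [Field K] (h2 : IsUnit (2 : K))
    (A : Rep K (AlgebraicClosure ℚ ≃ₐ[ℚ] AlgebraicClosure ℚ)) (x : H1 A) :
    x ∈ sha₁ S A ↔ x ∈ continuousH1S S A ∧
      ∀ q : ↥S, (groupCohomology.map (primeLocalToGlobal q.1)
        (𝟙 (Rep.res (primeLocalToGlobal q.1) A)) 1).hom x = 0 :=
  mem_sha₁_iff S h2 A x

/-- `sha₂` only sees the finite places in `S` (when `2` is invertible in the coefficient ring). -/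
theorem mem_sha₂_iff {k' : Type} [CommRing k'] (h2 : IsUnit (2 : k'))
    (M : Rep k' (AlgebraicClosure ℚ ≃ₐ[ℚ] AlgebraicClosure ℚ)) (x : continuousH2S S M) :
    x ∈ sha₂ S M ↔ ∀ q : ↥S, locRes₂S S M (primeLocalToGlobal q.1) x = 0 := by
  rw [sha₂, LinearMap.mem_ker]
  refine ⟨fun h q => ?_, fun h => ?_⟩
  · exact congrFun h (Sum.inr q)
  · funext v
    rcases v with v | q
    · exact @Subsingleton.elim _ (subsingleton_continuousH2_archimedean M h2) _ _
    · exact h q

end Sha

end Archimedean

end Fermat.Agent.CFT.H60
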