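import Fermat.Agent.CFT.H87_LevelCohomology
import Fermat.Agent.CFT.H50_LevelRes
import Fermat.Agent.CFT.H60_ArchVanish

/-!
# CFT / E-b part 3: the frozen `sha₁`, `sha₂` in level vocabulary

For a family of local level structures `𝓛loc q` on the frozen local Galois groups
`primeLocalGaloisGroup q` (`q ∈ S`) for which `primeLocalToGlobal q` is continuous towards
`levelsS S`, put

* `ShaL1 S A 𝓛loc hloc := ker ((levelsS S).H1 A → ∏_{q ∈ S} (𝓛loc q).H1 (res A))`,
* `ShaL2 S M 𝓛loc hloc := ker ((levelsS S).H2 M → ∏_{q ∈ S} (𝓛loc q).H2 (res M))`,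

with the restriction maps `H50.resH1`, `H50.resH2` of `H50_LevelRes`.  When `2` is invertible in
the coefficients these are the frozen `sha₁ S A` and `sha₂ S M`:

* `sha₁_eq_map`, `sha₁Equiv : ShaL1 … ≃ₗ sha₁ S A` (any continuous family `𝓛loc`);
* `sha₂_eq_comap`, `sha₂Equiv : sha₂ S M ≃ₗ ShaL2 …` (for `𝓛loc q` cofinal with the frozen local
  levels `levelsAll.comap (primeLocalToGlobal q)`, e.g. `levelsPrime q`);
* `exists_pairing_sha_of_level`: a two-sided nondegenerate pairing `ShaL1 × ShaL2 → k` gives one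
  on `sha₁ × sha₂` (the shape of the frozen statement S55).
-/

set_option autoImplicit false

open CategoryTheory groupCohomology ExtCitation IntermediateField

noncomputable section

namespace Fermat.Agent.CFT.H87

open Fermat.Agent.CFT

universe u

/-! ### Continuity of the localisation homomorphisms -/

section Cont

variable {H H' : Type u} [Group H] [Group H']

/-- Continuity only depends on the cofinality class of the source level structure. -/
theorem Cofinal.isCont {𝓛₁ 𝓛₁' : LevelStructure H'} (h : Cofinal 𝓛₁ 𝓛₁')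
    {𝓛 : LevelStructure H} {φ : H' →* H} (hφ : H50.IsCont 𝓛₁' 𝓛 φ) : H50.IsCont 𝓛₁ 𝓛 φ := by
  intro N hN
  obtain ⟨N', hN', hle⟩ := hφ N hN
  obtain ⟨N'', hN'', hle'⟩ := h.2 N' hN'
  exact ⟨N'', hN'', hle'.trans hle⟩

/-- Continuity only depends on the cofinality class of the target level structure. -/
theorem Cofinal.isCont_right {𝓛 𝓛₀ : LevelStructure H} (h : Cofinal 𝓛 𝓛₀)
    {𝓛' : LevelStructure H'} {φ : H' →* H} (hφ : H50.IsCont 𝓛' 𝓛₀ φ) : H50.IsCont 𝓛' 𝓛 φ := by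
  intro N hN
  obtain ⟨N₀, hN₀, hle⟩ := h.1 N hN
  obtain ⟨N', hN', hle'⟩ := hφ N₀ hN₀
  exact ⟨N', hN', hle'.trans (Subgroup.comap_mono hle)⟩

theorem Cofinal.refl (𝓛 : LevelStructure H) : Cofinal 𝓛 𝓛 :=
  ⟨fun N hN => ⟨N, hN, le_rfl⟩, fun N hN => ⟨N, hN, le_rfl⟩⟩

theorem Cofinal.trans {𝓛₁ 𝓛₂ 𝓛₃ : LevelStructure H} (h : Cofinal 𝓛₁ 𝓛₂) (h' : Cofinal 𝓛₂ 𝓛₃) :
    Cofinal 𝓛₁ 𝓛₃ := by
  refine ⟨fun N hN => ?_, fun N hN => ?_⟩
  · obtain ⟨N', hN', hle⟩ := h.1 N hN
    obtain ⟨N'', hN'', hle'⟩ := h'.1 N' hN'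
    exact ⟨N'', hN'', hle'.trans hle⟩
  · obtain ⟨N', hN', hle⟩ := h'.2 N hN
    obtain ⟨N'', hN'', hle'⟩ := h.2 N' hN'
    exact ⟨N'', hN'', hle'.trans hle⟩

/-- Two level structures with the same level-constant functions (in one variable) are cofinal. -/
theorem cofinal_of_isConst₁_iff {𝓛 𝓛' : LevelStructure H}
    (h : ∀ (X : Type u) (f : H → X), 𝓛.IsConst₁ f ↔ 𝓛'.IsConst₁ f) : Cofinal 𝓛 𝓛' := by
  have key : ∀ {𝓛₁ 𝓛₂ : LevelStructure H},
      (∀ (X : Type u) (f : H → X), 𝓛₁.IsConst₁ f → 𝓛₂.IsConst₁ f) →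
      ∀ N ∈ 𝓛₁.levels, ∃ N' ∈ 𝓛₂.levels, N' ≤ N := by
    intro 𝓛₁ 𝓛₂ h12 N hN
    have h1 : 𝓛₁.IsConst₁ (fun g : H => (QuotientGroup.mk g : H ⧸ N)) :=
      ⟨N, hN, fun g s hs => by
        rw [QuotientGroup.eq]
        simpa using N.inv_mem hs⟩
    obtain ⟨N', hN', h2⟩ := h12 _ _ h1
    refine ⟨N', hN', fun s hs => ?_⟩
    have := h2 1 s hs
    rw [QuotientGroup.eq] at this
    simpa using this
  exact ⟨key fun X f => (h X f).1, key fun X f => (h X f).2⟩

end Cont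

section ContConcrete

/-- `r : G →* G_ℚ` is continuous from the pulled-back full level structure to `levelsS S`. -/
theorem isCont_levelsAll_comap_levelsS (S : Finset Nat.Primes) {G : Type} [Group G]
    (r : G →* GQ) : H50.IsCont (levelsAll.comap r) (levelsS S) r := by
  rintro _ ⟨F, hF, rfl⟩
  exact ⟨_, ⟨_, ⟨F, hF.1, rfl⟩, rfl⟩, le_rfl⟩

/-- `levelsS S` is coarser than `levelsAll`. -/
theorem isCont_id_levelsAll_levelsS (S : Finset Nat.Primes) :
    H50.IsCont levelsAll (levelsS S) (MonoidHom.id GQ) := by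
  rintro _ ⟨F, hF, rfl⟩
  exact ⟨_, ⟨F, hF.1, rfl⟩, le_rfl⟩

variable (q : ℕ) [Fact q.Prime]

/-- **Krasner**: the honest local level structure is cofinal with the pulled-back global one. -/
theorem cofinal_levelsLocal :
    Cofinal (levelsLocal q) (levelsAll.comap (localGaloisToGlobal q)) := by
  constructor
  · rintro _ ⟨K, hK, rfl⟩
    obtain ⟨F, hF, h⟩ := exists_global_comap_le q (H15.adjoin_range_padicEmbedding_eq_top q) K
    exact ⟨_, ⟨_, ⟨F, hF, rfl⟩, rfl⟩, fun s hs => h s hs⟩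
  · rintro _ ⟨_, ⟨F, hF, rfl⟩, rfl⟩
    obtain ⟨K, hK, -, h⟩ := exists_local_galois_le_comap q F
    exact ⟨_, ⟨K, hK, rfl⟩, fun s hs => h s hs⟩

end ContConcrete

section ContPrime

variable (q : Nat.Primes)

theorem cofinal_levelsPrime :
    Cofinal (levelsPrime q) (levelsAll.comap (primeLocalToGlobal q)) :=
  letI : Fact (q : ℕ).Prime := ⟨q.2⟩
  cofinal_levelsLocal (q : ℕ)

theorem isCont_levelsPrime_levelsAll :
    H50.IsCont (levelsPrime q) levelsAll (primeLocalToGlobal q) :=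
  (cofinal_levelsPrime q).isCont (H50.isCont_comap levelsAll (primeLocalToGlobal q))

theorem isCont_levelsPrime_levelsS (S : Finset Nat.Primes) :
    H50.IsCont (levelsPrime q) (levelsS S) (primeLocalToGlobal q) :=
  (cofinal_levelsPrime q).isCont (isCont_levelsAll_comap_levelsS S (primeLocalToGlobal q))

end ContPrime

/-! ### Restriction commutes with the comparison to the abstract `H¹` -/

section GenericRes

variable {H H' : Type u} [Group H] [Group H'] {k : Type u} [CommRing k]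
  (𝓛' : LevelStructure H') (𝓛 : LevelStructure H) {φ : H' →* H} (hφ : H50.IsCont 𝓛' 𝓛 φ)
  (A : Rep k H)

theorem map_H1ToAbstract (y : 𝓛.H1 A) :
    (groupCohomology.map φ (𝟙 (Rep.res φ A)) 1).hom (H1ToAbstract A 𝓛 y) =
      H1ToAbstract (Rep.res φ A) 𝓛' (H50.resH1 𝓛' 𝓛 hφ A y) := by
  obtain ⟨c, rfl⟩ := Submodule.Quotient.mk_surjective _ y
  rw [H1ToAbstract_mk]
  erw [H1π_comp_map_apply]
  rfl

/-- The level restriction of `y` vanishes iff the abstract restriction of its image does. -/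
theorem resH1_eq_zero_iff (y : 𝓛.H1 A) :
    H50.resH1 𝓛' 𝓛 hφ A y = 0 ↔
      (groupCohomology.map φ (𝟙 (Rep.res φ A)) 1).hom (H1ToAbstract A 𝓛 y) = 0 := by
  rw [map_H1ToAbstract 𝓛' 𝓛 hφ A y]
  constructor
  · intro h
    rw [h, map_zero]
  · intro h
    exact H1ToAbstract_injective _ _ (by rw [h, map_zero])

end GenericRes

/-! ### The frozen local `continuousH2` for any cofinal local level structure -/

section CofinalH2

variable {k : Type} [CommRing k] {G : Type} [Group G] (r : G →* GQ) (N : Rep k G)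
  {𝓛' : LevelStructure G} (h : Cofinal 𝓛' (levelsAll.comap r))

include h in
theorem cocycles₂_eq_of_cofinal : 𝓛'.cocycles₂ N = levelCocycles₂ r N := by
  rw [← cocycles₂_levelsAll_comap]
  unfold LevelStructure.cocycles₂
  rw [cochains₂_eq_of_iff N (fun f => h.isConst₂_iff f)]

include h in
theorem coboundaries₂_eq_of_cofinal : 𝓛'.coboundaries₂ N = levelCoboundaries₂ r N := by
  rw [← coboundaries₂_levelsAll_comap]
  unfold LevelStructure.coboundaries₂
  rw [cochains₁_eq_of_iff N (fun f => h.isConst₁_iff f)]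

/-- The frozen `continuousH2 r N` is the level `H²` of any level structure cofinal with
`levelsAll.comap r`. -/
def continuousH2CofinalEquiv : continuousH2 r N ≃ₗ[k] 𝓛'.H2 N :=
  quotCongr (cocycles₂_eq_of_cofinal r N h).symm (coboundaries₂_eq_of_cofinal r N h).symm

@[simp]
theorem continuousH2CofinalEquiv_mk (c : levelCocycles₂ r N) :
    continuousH2CofinalEquiv r N h (continuousH2π r N c) =
      𝓛'.H2π N ⟨c.1, (cocycles₂_eq_of_cofinal r N h).symm ▸ c.2⟩ :=
  quotCongr_mk _ _ c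

end CofinalH2

/-! ### The frozen `locRes₂S` is the level restriction -/

section LocRes

variable {k : Type} [CommRing k] (S : Finset Nat.Primes) (M : Rep k GQ)
  {G : Type} [Group G] (r : G →* GQ) {𝓛' : LevelStructure G}
  (h : Cofinal 𝓛' (levelsAll.comap r)) (hcont : H50.IsCont 𝓛' (levelsS S) r)

theorem continuousH2CofinalEquiv_locRes₂S (x : continuousH2S S M) :
    continuousH2CofinalEquiv r (Rep.res r M) h (locRes₂S S M r x) =
      H50.resH2 𝓛' (levelsS S) hcont M (continuousH2SEquiv S M x) := by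
  obtain ⟨c, rfl⟩ := Submodule.Quotient.mk_surjective _ x
  have h1 : locRes₂S S M r (Submodule.Quotient.mk c) =
      continuousH2π r (Rep.res r M)
        (levelCocycles₂Map (rH := MonoidHom.id _) (rG := r) r (fun _ => rfl)
          (LinearMap.id : M →ₗ[k] Rep.res r M) (fun _ _ => rfl)
          (levelCocyclesS₂ToLevelCocycles₂ S M c)) := rfl
  have h2 : continuousH2SEquiv S M (Submodule.Quotient.mk c) =
      (levelsS S).H2π M ⟨c.1, (cocycles₂_levelsS S M).symm ▸ c.2⟩ :=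
    continuousH2SEquiv_mk S M c
  rw [h1, h2, continuousH2CofinalEquiv_mk]
  rfl

include h in
theorem locRes₂S_eq_zero_iff (x : continuousH2S S M) :
    locRes₂S S M r x = 0 ↔
      H50.resH2 𝓛' (levelsS S) hcont M (continuousH2SEquiv S M x) = 0 := by
  rw [← continuousH2CofinalEquiv_locRes₂S S M r h hcont x, LinearEquiv.map_eq_zero_iff]

end LocRes

/-! ### `ShaL1`, `ShaL2` and the frozen `sha₁`, `sha₂` -/

section Sha

variable (S : Finset Nat.Primes) {k : Type} [CommRing k] (M : Rep k GQ)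
  (𝓛loc : ∀ q : ↥S, LevelStructure (primeLocalGaloisGroup q.1))
  (hloc : ∀ q : ↥S, H50.IsCont (𝓛loc q) (levelsS S) (primeLocalToGlobal q.1))

/-- Total localisation on level `H¹`. -/
def locTotalL1 :
    (levelsS S).H1 M →ₗ[k] ∀ q : ↥S, (𝓛loc q).H1 (Rep.res (primeLocalToGlobal q.1) M) :=
  LinearMap.pi fun q => H50.resH1 (𝓛loc q) (levelsS S) (hloc q) M

/-- Total localisation on level `H²`. -/
def locTotalL2 :
    (levelsS S).H2 M →ₗ[k] ∀ q : ↥S, (𝓛loc q).H2 (Rep.res (primeLocalToGlobal q.1) M) :=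
  LinearMap.pi fun q => H50.resH2 (𝓛loc q) (levelsS S) (hloc q) M

@[simp]
theorem locTotalL1_apply (y : (levelsS S).H1 M) (q : ↥S) :
    locTotalL1 S M 𝓛loc hloc y q = H50.resH1 (𝓛loc q) (levelsS S) (hloc q) M y := rfl

@[simp]
theorem locTotalL2_apply (y : (levelsS S).H2 M) (q : ↥S) :
    locTotalL2 S M 𝓛loc hloc y q = H50.resH2 (𝓛loc q) (levelsS S) (hloc q) M y := rfl

/-- `Ш¹` in level vocabulary: classes in `(levelsS S).H1 M` that vanish at all `q ∈ S`. -/
abbrev ShaL1 : Submodule k ((levelsS S).H1 M) := LinearMap.ker (locTotalL1 S M 𝓛loc hloc)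

/-- `Ш²` in level vocabulary: classes in `(levelsS S).H2 M` that vanish at all `q ∈ S`. -/
abbrev ShaL2 : Submodule k ((levelsS S).H2 M) := LinearMap.ker (locTotalL2 S M 𝓛loc hloc)

theorem mem_ShaL1_iff (y : (levelsS S).H1 M) :
    y ∈ ShaL1 S M 𝓛loc hloc ↔
      ∀ q : ↥S, H50.resH1 (𝓛loc q) (levelsS S) (hloc q) M y = 0 := by
  rw [LinearMap.mem_ker, funext_iff]
  rfl

theorem mem_ShaL2_iff (y : (levelsS S).H2 M) :
    y ∈ ShaL2 S M 𝓛loc hloc ↔
      ∀ q : ↥S, H50.resH2 (𝓛loc q) (levelsS S) (hloc q) M y = 0 := by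
  rw [LinearMap.mem_ker, funext_iff]
  rfl

/-! #### `sha₂` -/

variable (hcof : ∀ q : ↥S, Cofinal (𝓛loc q) (levelsAll.comap (primeLocalToGlobal q.1)))

include hcof in
theorem mem_sha₂_iff_level (h2 : IsUnit (2 : k)) (x : continuousH2S S M) :
    x ∈ sha₂ S M ↔ continuousH2SEquiv S M x ∈ ShaL2 S M 𝓛loc hloc := by
  rw [H60.mem_sha₂_iff S h2 M x, mem_ShaL2_iff]
  exact forall_congr' fun q =>
    locRes₂S_eq_zero_iff S M (primeLocalToGlobal q.1) (hcof q) (hloc q) x

include hcof in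
theorem sha₂_eq_comap (h2 : IsUnit (2 : k)) :
    sha₂ S M = (ShaL2 S M 𝓛loc hloc).comap (continuousH2SEquiv S M).toLinearMap := by
  ext x
  rw [mem_sha₂_iff_level S M 𝓛loc hloc hcof h2 x]
  rfl

/-- The frozen `sha₂ S M` is `ShaL2`. -/
def sha₂Equiv (h2 : IsUnit (2 : k)) : sha₂ S M ≃ₗ[k] ShaL2 S M 𝓛loc hloc :=
  (LinearEquiv.ofEq _ _ (sha₂_eq_comap S M 𝓛loc hloc hcof h2)).trans
    (LinearEquiv.ofSubmodule' (continuousH2SEquiv S M) (ShaL2 S M 𝓛loc hloc))

@[simp]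
theorem sha₂Equiv_coe (h2 : IsUnit (2 : k)) (x : sha₂ S M) :
    (sha₂Equiv S M 𝓛loc hloc hcof h2 x : (levelsS S).H2 M) = continuousH2SEquiv S M x.1 := rfl

end Sha

section Sha1

variable (S : Finset Nat.Primes) {K : Type} [Field K] (A : Rep K GQ)
  (𝓛loc : ∀ q : ↥S, LevelStructure (primeLocalGaloisGroup q.1))
  (hloc : ∀ q : ↥S, H50.IsCont (𝓛loc q) (levelsS S) (primeLocalToGlobal q.1))

theorem mem_sha₁_iff_level (h2 : IsUnit (2 : K)) (x : groupCohomology.H1 A) :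
    x ∈ sha₁ S A ↔ ∃ y ∈ ShaL1 S A 𝓛loc hloc, H1ToAbstract A (levelsS S) y = x := by
  rw [H60.mem_sha₁_iff' S h2 A x, ← range_H1ToAbstract_levelsS]
  constructor
  · rintro ⟨⟨y, rfl⟩, hq⟩
    refine ⟨y, ?_, rfl⟩
    rw [mem_ShaL1_iff]
    intro q
    rw [resH1_eq_zero_iff]
    exact hq q
  · rintro ⟨y, hy, rfl⟩
    refine ⟨⟨y, rfl⟩, fun q => ?_⟩
    rw [mem_ShaL1_iff] at hy
    rw [← resH1_eq_zero_iff (𝓛loc q) (levelsS S) (hloc q) A y]
    exact hy q

theorem sha₁_eq_map (h2 : IsUnit (2 : K)) :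
    sha₁ S A = (ShaL1 S A 𝓛loc hloc).map (H1ToAbstract A (levelsS S)) := by
  ext x
  rw [mem_sha₁_iff_level S A 𝓛loc hloc h2 x, Submodule.mem_map]

/-- `ShaL1` is the frozen `sha₁ S A`. -/
def sha₁Equiv (h2 : IsUnit (2 : K)) : ShaL1 S A 𝓛loc hloc ≃ₗ[K] sha₁ S A :=
  (Submodule.equivMapOfInjective (H1ToAbstract A (levelsS S))
    (H1ToAbstract_injective A (levelsS S)) (ShaL1 S A 𝓛loc hloc)).trans
    (LinearEquiv.ofEq _ _ (sha₁_eq_map S A 𝓛loc hloc h2).symm)

@[simp]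
theorem sha₁Equiv_coe (h2 : IsUnit (2 : K)) (y : ShaL1 S A 𝓛loc hloc) :
    (sha₁Equiv S A 𝓛loc hloc h2 y : groupCohomology.H1 A) = H1ToAbstract A (levelsS S) y.1 := rfl

end Sha1

/-! ### Transport of the pairing -/

section Pairing

variable (S : Finset Nat.Primes) {K : Type} [Field K] (X M : Rep K GQ)
  (𝓛loc : ∀ q : ↥S, LevelStructure (primeLocalGaloisGroup q.1))
  (hloc : ∀ q : ↥S, H50.IsCont (𝓛loc q) (levelsS S) (primeLocalToGlobal q.1))
  (hcof : ∀ q : ↥S, Cofinal (𝓛loc q) (levelsAll.comap (primeLocalToGlobal q.1)))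

include hcof in
/-- A two-sided nondegenerate pairing `ShaL1 X × ShaL2 M → K` gives one on the frozen
`sha₁ S X × sha₂ S M` (the conclusion of S55). -/
theorem exists_pairing_sha_of_level (h2 : IsUnit (2 : K))
    (hB : ∃ B : ShaL1 S X 𝓛loc hloc →ₗ[K] ShaL2 S M 𝓛loc hloc →ₗ[K] K,
      (∀ y, (∀ x, B y x = 0) → y = 0) ∧ (∀ x, (∀ y, B y x = 0) → x = 0)) :
    ∃ B : sha₁ S X →ₗ[K] sha₂ S M →ₗ[K] K,
      (∀ y, (∀ x, B y x = 0) → y = 0) ∧ (∀ x, (∀ y, B y x = 0) → x = 0) := by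
  obtain ⟨B, hl, hr⟩ := hB
  let e₁ := sha₁Equiv S X 𝓛loc hloc h2
  let e₂ := sha₂Equiv S M 𝓛loc hloc hcof h2
  refine ⟨B.compl₁₂ e₁.symm.toLinearMap e₂.toLinearMap, fun y hy => ?_, fun x hx => ?_⟩
  · have : e₁.symm y = 0 := hl _ fun x => by
      have := hy (e₂.symm x)
      simpa using this
    simpa using this
  · have : e₂ x = 0 := hr _ fun y => by
      have := hx (e₁ y)
      simpa using this
    simpa using this

end Pairing

/-! ### The standard choice `𝓛loc q = levelsPrime q` -/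

section Standard

variable (S : Finset Nat.Primes) {k : Type} [CommRing k] (M : Rep k GQ)

/-- `Ш¹` with the honest local level structures `levelsPrime q`. -/
abbrev ShaP1 : Submodule k ((levelsS S).H1 M) :=
  ShaL1 S M (fun q => levelsPrime q.1) (fun q => isCont_levelsPrime_levelsS q.1 S)

/-- `Ш²` with the honest local level structures `levelsPrime q`. -/
abbrev ShaP2 : Submodule k ((levelsS S).H2 M) :=
  ShaL2 S M (fun q => levelsPrime q.1) (fun q => isCont_levelsPrime_levelsS q.1 S)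

/-- S55-shaped conclusion from a nondegenerate pairing `ShaP1 X × ShaP2 M → K`. -/
theorem exists_pairing_sha_of_levelsPrime {K : Type} [Field K] (X M : Rep K GQ)
    (h2 : IsUnit (2 : K))
    (hB : ∃ B : ShaP1 S X →ₗ[K] ShaP2 S M →ₗ[K] K,
      (∀ y, (∀ x, B y x = 0) → y = 0) ∧ (∀ x, (∀ y, B y x = 0) → x = 0)) :
    ∃ B : sha₁ S X →ₗ[K] sha₂ S M →ₗ[K] K,
      (∀ y, (∀ x, B y x = 0) → y = 0) ∧ (∀ x, (∀ y, B y x = 0) → x = 0) :=
  exists_pairing_sha_of_level S X M _ _ (fun q => cofinal_levelsPrime q.1) h2 hB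

end Standard

end Fermat.Agent.CFT.H87
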