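import Mathlib
import Fermat.Prelude.Def_GroupCohomology_ContinuousUnramified
import Fermat.Agent.CFT.H69_DegLevels
import Fermat.Agent.CFT.H69_DegLocal
import Fermat.Agent.CFT.H87_ShaDict
import Fermat.Agent.CFT.H55_GalLevels
import Fermat.Agent.CFT.H78_Levels

/-!
# (DIV) for every concrete level structure of the CFT project

`HasDiv p 𝓛` : every open subgroup `U` contains an open subgroup `V` with `p ^ m ∣ [U : V]`
(the body is verbatim the `HasDIV` of the layer-D skeleton, seam (S-5)).  We prove it, for `p`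
odd, for

* the global structures `H87.levelsS S`, `globalLevels S` (`p ∈ S`);
* the coarse local structure `levelsCoarse S q` (`p ∈ S`, `q` arbitrary);
* the fine local structures `H87.levelsLocal q`, `H87.levelsPrime q`, `H78.localLevels q`,
  `pullLevels (primeLocalToGlobal q)`, `H87.levelsAll.comap (primeLocalToGlobal q)`.
-/

set_option autoImplicit false

universe u

namespace Fermat.Agent.CFT.H69

open ExtCitation IntermediateField Fermat.Agent.CFT

section Generic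

variable {H : Type u} [Group H]

/-- (DIV): every open subgroup has open subgroups of index divisible by any power of `p`. -/
def HasDiv (p : ℕ) (𝓛 : LevelStructure H) : Prop :=
  ∀ U : Subgroup H, 𝓛.IsOpen U → ∀ m : ℕ,
    ∃ V : Subgroup H, 𝓛.IsOpen V ∧ V ≤ U ∧ p ^ m ∣ V.relIndex U

/-- The strong form: `V` may be taken to be a normal level. -/
def HasDivNormal (p : ℕ) (𝓛 : LevelStructure H) : Prop :=
  ∀ U : Subgroup H, 𝓛.IsOpen U → ∀ m : ℕ,
    ∃ N' ∈ 𝓛.levels, N'.Normal ∧ N' ≤ U ∧ p ^ m ∣ N'.relIndex U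

variable {p : ℕ} {𝓛 𝓛' : LevelStructure H}

theorem HasDivNormal.hasDiv (h : HasDivNormal p 𝓛) : HasDiv p 𝓛 := by
  intro U hU m
  obtain ⟨N', hN', -, hle, hdvd⟩ := h U hU m
  exact ⟨N', ⟨N', hN', le_rfl⟩, hle, hdvd⟩

/-- The weak form implies the strong form. -/
theorem HasDiv.hasDivNormal (h : HasDiv p 𝓛) : HasDivNormal p 𝓛 := by
  intro U hU m
  obtain ⟨V, ⟨N, hN, hNV⟩, hVU, hdvd⟩ := h U hU m
  obtain ⟨N', hN', hN'N, hnor⟩ := 𝓛.exists_normal N hN
  refine ⟨N', hN', hnor, hN'N.trans (hNV.trans hVU), ?_⟩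
  have h1 : N'.relIndex V * V.relIndex U = N'.relIndex U :=
    Subgroup.relIndex_mul_relIndex N' V U (hN'N.trans hNV) hVU
  rw [← h1]
  exact Dvd.dvd.mul_left hdvd _

/-- (DIV) only depends on the open subgroups: it passes to any structure with the same open
subgroups, in particular to a mutually cofinal one. -/
theorem HasDiv.of_isOpen_iff (h : HasDiv p 𝓛) (hiff : ∀ U : Subgroup H, 𝓛'.IsOpen U ↔ 𝓛.IsOpen U) :
    HasDiv p 𝓛' := by
  intro U hU m
  obtain ⟨V, hV, hVU, hdvd⟩ := h U ((hiff U).mp hU) m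
  exact ⟨V, (hiff V).mpr hV, hVU, hdvd⟩

theorem isOpen_iff_of_cofinal (hc : H87.Cofinal 𝓛 𝓛') (U : Subgroup H) :
    𝓛'.IsOpen U ↔ 𝓛.IsOpen U := by
  constructor
  · rintro ⟨N', hN', hle⟩
    obtain ⟨N, hN, hNN'⟩ := hc.2 N' hN'
    exact ⟨N, hN, hNN'.trans hle⟩
  · rintro ⟨N, hN, hle⟩
    obtain ⟨N', hN', hN'N⟩ := hc.1 N hN
    exact ⟨N', hN', hN'N.trans hle⟩

theorem HasDiv.of_cofinal (h : HasDiv p 𝓛) (hc : H87.Cofinal 𝓛 𝓛') : HasDiv p 𝓛' :=
  h.of_isOpen_iff (isOpen_iff_of_cofinal hc)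

theorem HasDiv.of_levels_eq (h : HasDiv p 𝓛) (he : 𝓛'.levels = 𝓛.levels) : HasDiv p 𝓛' :=
  h.of_isOpen_iff fun U => by unfold LevelStructure.IsOpen; rw [he]

end Generic

section Concrete

variable {p : ℕ} [Fact p.Prime]

/-! ### Global -/

theorem hasDivNormal_levelsS (hp2 : p ≠ 2) (S : Finset Nat.Primes) (hpS : pPrime p ∈ S) :
    HasDivNormal p (H87.levelsS S) :=
  fun U hU m => exists_normal_levelS_le_pow_dvd_relIndex hp2 S hpS U hU m

theorem hasDiv_levelsS (hp2 : p ≠ 2) (S : Finset Nat.Primes) (hpS : pPrime p ∈ S) :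
    HasDiv p (H87.levelsS S) :=
  (hasDivNormal_levelsS hp2 S hpS).hasDiv

theorem hasDiv_globalLevels (hp2 : p ≠ 2) (S : Finset Nat.Primes) (hpS : pPrime p ∈ S) :
    HasDiv p (globalLevels S) :=
  (hasDiv_levelsS hp2 S hpS).of_levels_eq rfl

/-! ### Coarse local -/

theorem hasDivNormal_levelsCoarse (hp2 : p ≠ 2) (S : Finset Nat.Primes) (hpS : pPrime p ∈ S)
    (q : Nat.Primes) : HasDivNormal p (levelsCoarse S q) :=
  fun U hU m => exists_normal_level_le_pow_dvd_relIndex hp2 S hpS q U hU m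

theorem hasDiv_levelsCoarse (hp2 : p ≠ 2) (S : Finset Nat.Primes) (hpS : pPrime p ∈ S)
    (q : Nat.Primes) : HasDiv p (levelsCoarse S q) :=
  (hasDivNormal_levelsCoarse hp2 S hpS q).hasDiv

/-- the coarse local structure written with helper55's `globalLevels`. -/
theorem hasDiv_globalLevels_comap (hp2 : p ≠ 2) (S : Finset Nat.Primes) (hpS : pPrime p ∈ S)
    (q : Nat.Primes) : HasDiv p ((globalLevels S).comap (primeLocalToGlobal q)) :=
  (hasDiv_levelsCoarse hp2 S hpS q).of_levels_eq rfl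

/-! ### Fine local -/

theorem hasDivNormal_levelsLocal (hp2 : p ≠ 2) (q : ℕ) [Fact q.Prime] :
    HasDivNormal p (H87.levelsLocal q) :=
  fun U hU m => exists_normal_levelLocal_le_pow_dvd_relIndex hp2 q U hU m

theorem hasDiv_levelsLocal (hp2 : p ≠ 2) (q : ℕ) [Fact q.Prime] :
    HasDiv p (H87.levelsLocal q) :=
  (hasDivNormal_levelsLocal hp2 q).hasDiv

theorem hasDiv_levelsPrime (hp2 : p ≠ 2) (q : Nat.Primes) : HasDiv p (H87.levelsPrime q) :=
  letI : Fact (q : ℕ).Prime := ⟨q.2⟩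
  hasDiv_levelsLocal hp2 (q : ℕ)

/-- the frozen-side local structure of helper87: `levelsAll.comap (primeLocalToGlobal q)`. -/
theorem hasDiv_levelsAll_comap (hp2 : p ≠ 2) (q : Nat.Primes) :
    HasDiv p (H87.levelsAll.comap (primeLocalToGlobal q)) :=
  (hasDiv_levelsPrime hp2 q).of_cofinal (H87.cofinal_levelsPrime q)

/-- the frozen-side local structure of helper55: `pullLevels (primeLocalToGlobal q)`. -/
theorem hasDiv_pullLevels (hp2 : p ≠ 2) (q : Nat.Primes) :
    HasDiv p (pullLevels (primeLocalToGlobal q)) :=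
  (hasDiv_levelsAll_comap hp2 q).of_levels_eq rfl

/-- helper78's intrinsic local levels (finite *Galois* subextensions). -/
theorem hasDiv_localLevels (hp2 : p ≠ 2) (q : ℕ) [Fact q.Prime] :
    HasDiv p (H78.localLevels q) := by
  refine (hasDiv_levelsLocal hp2 q).of_isOpen_iff fun U => ?_
  constructor
  · rintro ⟨_, ⟨K, hfd, -, rfl⟩, hle⟩
    exact ⟨_, ⟨K, hfd, rfl⟩, hle⟩
  · rintro ⟨_, ⟨K, hfd, rfl⟩, hle⟩
    obtain ⟨K', hKK', hfd', hgal'⟩ := H87.exists_galois_ge K
    exact ⟨_, ⟨K', hfd', hgal', rfl⟩,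
      (IntermediateField.fixingSubgroup_antitone hKK').trans hle⟩

end Concrete

end Fermat.Agent.CFT.H69
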