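import Mathlib
import Fermat.Prelude.Def_GroupCohomology_ContinuousUnramified

/-!
# CFT, layer C, package C-ES (part 1): Kummer extensions unramified outside `S`

Vocabulary = the frozen one (`ValuationSubring.LiesOverPrime`, `inertiaSubgroupIn`,
`IntermediateField.IsUnramifiedOutside`).

* `root_fixed_of_mem_inertia`: an inertia element fixing `α` and `γ`, where `β ^ n = α`,
  `v α = v γ ^ n` and `n` is a unit of the valuation ring, fixes `β`.
* `IsUnramifiedOutside.sup_adjoin_root`: adjoining an `n`-th root (primes of `n` in `S`) of an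
  element whose valuations outside `S` are `n`-th powers keeps the field unramified outside `S`.
-/

set_option autoImplicit false

namespace Fermat.Agent.CFT.H1

open IntermediateField

section Inertia

variable {K L : Type*} [Field K] [Field L] [Algebra K L]

/-- Elements of the inertia group act trivially modulo the maximal ideal. -/
theorem valuation_sub_lt_one_of_mem_inertia {A : ValuationSubring L}
    {σ : L ≃ₐ[K] L} (hσ : σ ∈ A.inertiaSubgroupIn K) {x : L} (hx : x ∈ A) :
    A.valuation (σ x - x) < 1 := by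
  obtain ⟨τ, hτ, rfl⟩ := hσ
  have hker : MulSemiringAction.toRingAut (A.decompositionSubgroup K)
      (IsLocalRing.ResidueField A) τ = 1 := hτ
  have h1 : τ • (IsLocalRing.residue A ⟨x, hx⟩) = IsLocalRing.residue A ⟨x, hx⟩ := by
    have := congrArg (fun e : RingAut (IsLocalRing.ResidueField A) =>
      e (IsLocalRing.residue A ⟨x, hx⟩)) hker
    simpa using this
  rw [← IsLocalRing.ResidueField.residue_smul] at h1
  have h2 : IsLocalRing.residue A (τ • (⟨x, hx⟩ : A) - ⟨x, hx⟩) = 0 := by
    rw [map_sub, h1, sub_self]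
  rw [IsLocalRing.residue_eq_zero_iff, ValuationSubring.valuation_lt_one_iff] at h2
  exact h2

/-- A root of unity of order dividing `n` which is congruent to `1` modulo the maximal ideal of a
valuation ring in which `n` is a unit equals `1`. -/
theorem eq_one_of_pow_eq_one_of_valuation_sub_one_lt (A : ValuationSubring L) {n : ℕ}
    (hn : A.valuation (n : L) = 1) {ζ : L} (hζ : ζ ^ n = 1)
    (h1 : A.valuation (ζ - 1) < 1) : ζ = 1 := by
  have hpow : ∀ i : ℕ, A.valuation (ζ ^ i - 1) < 1 := by
    intro i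
    induction i with
    | zero => simp
    | succ i ih =>
      have hζA : A.valuation ζ ≤ 1 := by
        have : ζ = (ζ - 1) + 1 := by ring
        rw [this]
        exact le_trans (A.valuation.map_add _ _) (max_le h1.le (by simp))
      have : ζ ^ (i + 1) - 1 = ζ * (ζ ^ i - 1) + (ζ - 1) := by ring
      rw [this]
      refine A.valuation.map_add_lt ?_ h1
      rw [map_mul]
      calc A.valuation ζ * A.valuation (ζ ^ i - 1) ≤ 1 * A.valuation (ζ ^ i - 1) :=
            mul_le_mul_left hζA _
        _ = A.valuation (ζ ^ i - 1) := one_mul _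
        _ < 1 := ih
  have hsum : A.valuation ((∑ i ∈ Finset.range n, ζ ^ i) - (n : L)) < 1 := by
    have : (∑ i ∈ Finset.range n, ζ ^ i) - (n : L) = ∑ i ∈ Finset.range n, (ζ ^ i - 1) := by
      rw [Finset.sum_sub_distrib]; simp
    rw [this]
    exact A.valuation.map_sum_lt one_ne_zero (fun i _ => hpow i)
  have hne : (∑ i ∈ Finset.range n, ζ ^ i) ≠ 0 := by
    intro h0
    rw [h0, zero_sub, Valuation.map_neg, hn] at hsum
    exact lt_irrefl _ hsum
  have hmul := geom_sum_mul ζ n
  rw [hζ, sub_self] at hmul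
  rcases mul_eq_zero.mp hmul with h | h
  · exact absurd h hne
  · exact sub_eq_zero.mp h

/-- **Kummer lemma, inertia form.** Let `σ` be in the inertia group of the valuation ring `A`,
`n` a unit of `A`, `β ^ n = α`, and suppose `σ` fixes `α` and some `γ` with `v α = v γ ^ n`.
Then `σ β = β`. -/
theorem root_fixed_of_mem_inertia (A : ValuationSubring L) {σ : L ≃ₐ[K] L}
    (hσ : σ ∈ A.inertiaSubgroupIn K) {n : ℕ} (hn : A.valuation (n : L) = 1)
    {α β γ : L} (hβ : β ^ n = α) (hα : σ α = α) (hγ : σ γ = γ)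
    (hv : A.valuation α = A.valuation γ ^ n) : σ β = β := by
  have hn0 : n ≠ 0 := by
    rintro rfl
    simp at hn
  by_cases hβ0 : β = 0
  · rw [hβ0, map_zero]
  have hα0 : α ≠ 0 := by rw [← hβ]; exact pow_ne_zero _ hβ0
  have hγ0 : γ ≠ 0 := by
    rintro rfl
    rw [map_zero, zero_pow hn0, Valuation.zero_iff] at hv
    exact hα0 hv
  set δ : L := β / γ with hδ
  have hδpow : A.valuation δ ^ n = 1 := by
    rw [← map_pow, hδ, div_pow, hβ, map_div₀, map_pow, hv]
    exact div_self (pow_ne_zero _ ((Valuation.ne_zero_iff _).mpr hγ0))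
  have hδ1 : A.valuation δ = 1 :=
    (pow_eq_one_iff_of_nonneg zero_le hn0).mp hδpow
  have hδA : δ ∈ A := (A.valuation_le_one_iff _).mp hδ1.le
  have hδ0 : δ ≠ 0 := div_ne_zero hβ0 hγ0
  have hlt := valuation_sub_lt_one_of_mem_inertia hσ hδA
  set ζ : L := σ δ / δ with hζ
  have hζpow : ζ ^ n = 1 := by
    rw [hζ, div_pow, ← map_pow, hδ, div_pow, hβ, map_div₀, map_pow, hα, hγ]
    exact div_self (div_ne_zero hα0 (pow_ne_zero _ hγ0))
  have hζ1 : A.valuation (ζ - 1) < 1 := by
    have : ζ - 1 = (σ δ - δ) / δ := by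
      rw [hζ]; field_simp
    rw [this, map_div₀, hδ1, div_one]
    exact hlt
  have hone := eq_one_of_pow_eq_one_of_valuation_sub_one_lt A hn hζpow hζ1
  have hσδ : σ δ = δ := by
    have := hone
    rw [hζ, div_eq_one_iff_eq hδ0] at this
    exact this
  have : σ β = σ (δ * γ) := by rw [hδ]; congr 1; field_simp
  rw [this, map_mul, hσδ, hγ, hδ]
  field_simp

end Inertia

section Unramified

local notation "Qbar" => AlgebraicClosure ℚ

/-- If `q ≠ ℓ` are primes and `A` lies over `q`, then `ℓ` is a unit of `A`. -/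
theorem valuation_natCast_eq_one_of_liesOverPrime {A : ValuationSubring Qbar} {q : ℕ}
    (hA : A.LiesOverPrime q) {n : ℕ} (hn : Nat.Coprime n q) :
    A.valuation (n : Qbar) = 1 := by
  have hq : A.valuation (q : Qbar) < 1 := A.mem_nonunits_iff.mp hA
  have hint : ∀ m : ℤ, A.valuation (m : Qbar) ≤ 1 := by
    intro m
    rw [A.valuation_le_one_iff]
    exact_mod_cast intCast_mem A.toSubring m
  have hle : A.valuation (n : Qbar) ≤ 1 := by exact_mod_cast hint n
  refine le_antisymm hle ?_
  by_contra hlt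
  rw [not_le] at hlt
  -- Bezout: `n * a + q * b = 1`
  have hb : (n : ℤ) * Nat.gcdA n q + (q : ℤ) * Nat.gcdB n q = 1 := by
    have := Nat.gcd_eq_gcd_ab n q
    rw [hn] at this
    exact_mod_cast this.symm
  have h1 : A.valuation ((n : Qbar) * (Nat.gcdA n q : ℤ) + (q : Qbar) * (Nat.gcdB n q : ℤ)) < 1 := by
    refine A.valuation.map_add_lt ?_ ?_
    · rw [map_mul]
      calc A.valuation (n : Qbar) * A.valuation ((Nat.gcdA n q : ℤ) : Qbar)
          ≤ A.valuation (n : Qbar) * 1 := mul_le_mul_right (hint _) _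
        _ = A.valuation (n : Qbar) := mul_one _
        _ < 1 := hlt
    · rw [map_mul]
      calc A.valuation (q : Qbar) * A.valuation ((Nat.gcdB n q : ℤ) : Qbar)
          ≤ A.valuation (q : Qbar) * 1 := mul_le_mul_right (hint _) _
        _ = A.valuation (q : Qbar) := mul_one _
        _ < 1 := hq
  have h2 : ((n : Qbar) * (Nat.gcdA n q : ℤ) + (q : Qbar) * (Nat.gcdB n q : ℤ)) = 1 := by
    exact_mod_cast congrArg (fun z : ℤ => (z : Qbar)) hb
  rw [h2, map_one] at h1
  exact lt_irrefl _ h1

/-- **Kummer extensions unramified outside `S`.** Let `F` be unramified outside `S`, `n` a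
positive integer all of whose prime factors lie in `S`, `α ∈ F`, `β ^ n = α`, and assume that at
every valuation ring over a prime outside `S` the valuation of `α` is the `n`-th power of the
valuation of an element of `F`. Then `F(β)` is unramified outside `S`. -/
theorem isUnramifiedOutside_sup_adjoin_root {S : Finset Nat.Primes} {n : ℕ}
    (hnS : ∀ ℓ : Nat.Primes, (ℓ : ℕ) ∣ n → ℓ ∈ S)
    {F : IntermediateField ℚ Qbar} (hF : F.IsUnramifiedOutside S) {α β : Qbar} (hα : α ∈ F)
    (hβ : β ^ n = α)
    (hval : ∀ q : Nat.Primes, q ∉ S → ∀ A : ValuationSubring Qbar, A.LiesOverPrime (q : ℕ) →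
      ∃ γ ∈ F, A.valuation α = A.valuation γ ^ n) :
    (F ⊔ ℚ⟮β⟯).IsUnramifiedOutside S := by
  have := hF.1
  have hβint : IsIntegral ℚ β := ((AlgebraicClosure.isAlgebraic ℚ).isIntegral).isIntegral β
  have : FiniteDimensional ℚ ℚ⟮β⟯ := IntermediateField.adjoin.finiteDimensional hβint
  refine ⟨IntermediateField.finiteDimensional_sup F ℚ⟮β⟯, fun q hq A hA σ hσ => ?_⟩
  have hσF : σ ∈ F.fixingSubgroup := hF.2 q hq A hA hσ
  rw [IntermediateField.fixingSubgroup_sup]
  refine Subgroup.mem_inf.mpr ⟨hσF, ?_⟩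
  rw [IntermediateField.mem_fixingSubgroup_iff] at hσF
  obtain ⟨γ, hγF, hv⟩ := hval q hq A hA
  have hcop : Nat.Coprime n q := by
    rw [Nat.coprime_comm, Nat.Prime.coprime_iff_not_dvd q.2]
    intro hdvd
    exact hq (hnS q hdvd)
  have hn : A.valuation (n : Qbar) = 1 := valuation_natCast_eq_one_of_liesOverPrime hA hcop
  have hfix : σ β = β :=
    root_fixed_of_mem_inertia A hσ hn hβ (hσF α hα) (hσF γ hγF) hv
  rw [IntermediateField.mem_fixingSubgroup_iff]
  intro x hx
  have hle : ℚ⟮β⟯ ≤ IntermediateField.fixedField (Subgroup.zpowers σ) := by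
    rw [IntermediateField.adjoin_simple_le_iff]
    rintro ⟨τ, hτ⟩
    obtain ⟨k, rfl⟩ := Subgroup.mem_zpowers_iff.mp hτ
    show (σ ^ k) β = β
    have hinv : ∀ m : ℕ, (σ ^ m) β = β := by
      intro m
      induction m with
      | zero => simp
      | succ m ih => rw [pow_succ, AlgEquiv.mul_apply, hfix, ih]
    cases k with
    | ofNat m => simpa using hinv m
    | negSucc m =>
      rw [zpow_negSucc]
      have := hinv (m + 1)
      calc (σ ^ (m + 1))⁻¹ β = (σ ^ (m + 1))⁻¹ ((σ ^ (m + 1)) β) := by rw [this]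
        _ = β := by
          rw [← AlgEquiv.mul_apply, inv_mul_cancel]; rfl
  have := hle hx
  exact this ⟨σ, Subgroup.mem_zpowers σ⟩

end Unramified

end Fermat.Agent.CFT.H1
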