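import Mathlib
import Fermat.Agent.CFT.H1_KummerUnram

/-!
# CFT, layer C, package C-ES (part 2): the field `ℚ_S`, the `S`-units `E_S`, `p`-divisibility

* `mem_inertiaSubgroupIn_iff`: elementwise characterisation of the frozen inertia subgroup.
* `conj_mem_inertiaSubgroupIn`: `σ I(A) σ⁻¹ ⊆ I(σ • A)`.
* `IsUnramifiedOutside.map`: Galois conjugates of fields unramified outside `S`.
* `QS S`: the maximal extension of `ℚ` unramified outside `S` (union of the finite levels).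
* `sUnits S` (`E_S`): units of `ℚ_S` at all valuation rings over primes outside `S`;
  it is stable under `G_ℚ`, contains all `n`-th roots of its elements and all `n`-th roots of
  unity when the primes of `n` lie in `S`.
-/

set_option autoImplicit false

namespace Fermat.Agent.CFT.H1

open IntermediateField Pointwise

section General

variable {K L : Type*} [Field K] [Field L] [Algebra K L]

theorem valuation_lt_one_iff_inv_notMem (A : ValuationSubring L) {x : L} (hx : x ≠ 0) :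
    A.valuation x < 1 ↔ x⁻¹ ∉ A := by
  rw [← A.valuation_le_one_iff, map_inv₀, not_le]
  have h0 : 0 < A.valuation x := zero_lt_iff.mpr ((Valuation.ne_zero_iff _).mpr hx)
  rw [one_lt_inv₀ h0]

/-- Elementwise characterisation of the (frozen) inertia subgroup. -/
theorem mem_inertiaSubgroupIn_iff (A : ValuationSubring L) (σ : L ≃ₐ[K] L) :
    σ ∈ A.inertiaSubgroupIn K ↔
      σ ∈ A.decompositionSubgroup K ∧ ∀ x ∈ A, A.valuation (σ x - x) < 1 := by
  constructor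
  · intro hσ
    refine ⟨?_, fun x hx => valuation_sub_lt_one_of_mem_inertia hσ hx⟩
    obtain ⟨τ, -, rfl⟩ := hσ
    exact τ.2
  · rintro ⟨hdec, hval⟩
    refine ⟨⟨σ, hdec⟩, ?_, rfl⟩
    show (⟨σ, hdec⟩ : A.decompositionSubgroup K) ∈
      MonoidHom.ker (MulSemiringAction.toRingAut (A.decompositionSubgroup K)
        (IsLocalRing.ResidueField A))
    rw [MonoidHom.mem_ker]
    ext r
    obtain ⟨a, rfl⟩ := IsLocalRing.residue_surjective r
    show (⟨σ, hdec⟩ : A.decompositionSubgroup K) • IsLocalRing.residue A a = _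
    rw [← IsLocalRing.ResidueField.residue_smul]
    simp only [RingAut.one_apply]
    rw [← sub_eq_zero, ← map_sub, IsLocalRing.residue_eq_zero_iff,
      ValuationSubring.valuation_lt_one_iff]
    exact hval a a.2

theorem smul_mem_nonunits_smul (A : ValuationSubring L) (σ : L ≃ₐ[K] L) {z : L}
    (hz : A.valuation z < 1) : (σ • A).valuation (σ z) < 1 := by
  by_cases h0 : z = 0
  · simp [h0]
  rw [valuation_lt_one_iff_inv_notMem _ h0] at hz
  rw [valuation_lt_one_iff_inv_notMem _ ((map_ne_zero σ).mpr h0), ← map_inv₀]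
  intro hmem
  apply hz
  have : σ • z⁻¹ ∈ σ • A := hmem
  exact ValuationSubring.smul_mem_pointwise_smul_iff.mp this

/-- Conjugation of inertia groups. -/
theorem conj_mem_inertiaSubgroupIn (A : ValuationSubring L) (σ : L ≃ₐ[K] L) {τ : L ≃ₐ[K] L}
    (hτ : τ ∈ A.inertiaSubgroupIn K) : σ * τ * σ⁻¹ ∈ (σ • A).inertiaSubgroupIn K := by
  rw [mem_inertiaSubgroupIn_iff] at hτ ⊢
  obtain ⟨hdec, hval⟩ := hτ
  have hdec' : τ • A = A := hdec
  refine ⟨?_, ?_⟩
  · show (σ * τ * σ⁻¹) • (σ • A) = σ • A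
    rw [mul_smul, mul_smul, inv_smul_smul, hdec']
  · intro y hy
    obtain ⟨a, ha, rfl⟩ := (ValuationSubring.mem_smul_pointwise_iff_exists σ y A).mp hy
    have hcancel : σ⁻¹ (σ a) = a := by
      rw [← AlgEquiv.mul_apply, inv_mul_cancel]; rfl
    have : (σ * τ * σ⁻¹) (σ • a) - σ • a = σ (τ a - a) := by
      simp only [AlgEquiv.mul_apply, AlgEquiv.smul_def, map_sub, hcancel]
    rw [this]
    exact smul_mem_nonunits_smul A σ (hval a ha)

theorem liesOverPrime_smul {A : ValuationSubring L} (σ : L ≃ₐ[K] L) {q : ℕ}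
    (hA : A.LiesOverPrime q) : (σ • A).LiesOverPrime q := by
  have h1 : A.valuation (q : L) < 1 := A.mem_nonunits_iff.mp hA
  have h2 := smul_mem_nonunits_smul A σ h1
  rw [map_natCast] at h2
  exact (σ • A).mem_nonunits_iff.mpr h2

theorem valuation_smul_eq_one_iff (A : ValuationSubring L) (σ : L ≃ₐ[K] L) (x : L) :
    (σ • A).valuation (σ x) = 1 ↔ A.valuation x = 1 := by
  by_cases hx : x = 0
  · simp [hx]
  have key : ∀ (B : ValuationSubring L) (y : L), y ≠ 0 →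
      (B.valuation y = 1 ↔ y ∈ B ∧ y⁻¹ ∈ B) := by
    intro B y hy0
    rw [← B.valuation_le_one_iff, ← B.valuation_le_one_iff, map_inv₀]
    have h0 : 0 < B.valuation y := zero_lt_iff.mpr ((Valuation.ne_zero_iff _).mpr hy0)
    constructor
    · intro h; rw [h]; simp
    · rintro ⟨h1, h2⟩
      rw [inv_le_one₀ h0] at h2
      exact le_antisymm h1 h2
  rw [key _ _ ((map_ne_zero σ).mpr hx), key _ _ hx, ← map_inv₀]
  have e1 : σ x ∈ σ • A ↔ x ∈ A :=
    ValuationSubring.smul_mem_pointwise_smul_iff (g := σ) (S := A) (x := x)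
  have e2 : σ x⁻¹ ∈ σ • A ↔ x⁻¹ ∈ A :=
    ValuationSubring.smul_mem_pointwise_smul_iff (g := σ) (S := A) (x := x⁻¹)
  rw [e1, e2]

end General

section QS

local notation "Qbar" => AlgebraicClosure ℚ
local notation "GQ" => (AlgebraicClosure ℚ ≃ₐ[ℚ] AlgebraicClosure ℚ)

variable {S : Finset Nat.Primes}

/-- Galois conjugates of a field unramified outside `S` are unramified outside `S`. -/
theorem isUnramifiedOutside_map {F : IntermediateField ℚ Qbar} (hF : F.IsUnramifiedOutside S)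
    (σ : GQ) : (F.map (σ : Qbar →ₐ[ℚ] Qbar)).IsUnramifiedOutside S := by
  have := hF.1
  refine ⟨inferInstance, fun q hq A hA τ hτ => ?_⟩
  rw [IntermediateField.mem_fixingSubgroup_iff]
  rintro _ ⟨x, hx, rfl⟩
  have h1 := conj_mem_inertiaSubgroupIn A σ⁻¹ hτ
  have h2 := hF.2 q hq (σ⁻¹ • A) (liesOverPrime_smul σ⁻¹ hA) h1
  rw [IntermediateField.mem_fixingSubgroup_iff] at h2
  have h3 := h2 x hx
  simp only [inv_inv, AlgEquiv.mul_apply] at h3
  have h4 : σ (σ⁻¹ (τ (σ x))) = σ x := congrArg σ h3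
  rw [← AlgEquiv.mul_apply, mul_inv_cancel] at h4
  exact h4

/-- The maximal extension `ℚ_S` of `ℚ` unramified outside `S`. -/
def QS (S : Finset Nat.Primes) : IntermediateField ℚ Qbar where
  carrier := {x | ∃ F : IntermediateField ℚ Qbar, F.IsUnramifiedOutside S ∧ x ∈ F}
  mul_mem' := by
    rintro x y ⟨F, hF, hx⟩ ⟨F', hF', hy⟩
    exact ⟨F ⊔ F', hF.sup hF', mul_mem ((le_sup_left : F ≤ F ⊔ F') hx)
      ((le_sup_right : F' ≤ F ⊔ F') hy)⟩
  add_mem' := by
    rintro x y ⟨F, hF, hx⟩ ⟨F', hF', hy⟩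
    exact ⟨F ⊔ F', hF.sup hF', add_mem ((le_sup_left : F ≤ F ⊔ F') hx)
      ((le_sup_right : F' ≤ F ⊔ F') hy)⟩
  algebraMap_mem' r := ⟨⊥, IntermediateField.isUnramifiedOutside_bot S, IntermediateField.algebraMap_mem _ r⟩
  inv_mem' := by
    rintro x ⟨F, hF, hx⟩
    exact ⟨F, hF, inv_mem hx⟩

theorem mem_QS_iff {x : Qbar} :
    x ∈ QS S ↔ ∃ F : IntermediateField ℚ Qbar, F.IsUnramifiedOutside S ∧ x ∈ F := Iff.rfl

theorem le_QS {F : IntermediateField ℚ Qbar} (hF : F.IsUnramifiedOutside S) : F ≤ QS S :=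
  fun _ hx => ⟨F, hF, hx⟩

theorem smul_mem_QS (σ : GQ) {x : Qbar} (hx : x ∈ QS S) : σ x ∈ QS S := by
  obtain ⟨F, hF, hxF⟩ := hx
  exact ⟨_, isUnramifiedOutside_map hF σ, ⟨x, hxF, rfl⟩⟩

/-- `x` is a unit at every valuation ring over a prime outside `S`. -/
def IsUnitOutside (S : Finset Nat.Primes) (x : Qbar) : Prop :=
  ∀ q : Nat.Primes, q ∉ S → ∀ A : ValuationSubring Qbar, A.LiesOverPrime (q : ℕ) →
    A.valuation x = 1

theorem IsUnitOutside.smul {x : Qbar} (hx : IsUnitOutside S x) (σ : GQ) :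
    IsUnitOutside S (σ x) := by
  intro q hq A hA
  have h := hx q hq (σ⁻¹ • A) (liesOverPrime_smul σ⁻¹ hA)
  have h2 := (valuation_smul_eq_one_iff (σ⁻¹ • A) σ x).mpr h
  rwa [smul_inv_smul] at h2

/-- Roots (of order `n` with primes in `S`) of elements of `ℚ_S` which are units outside `S` lie
in `ℚ_S`. -/
theorem root_mem_QS {n : ℕ} (hnS : ∀ ℓ : Nat.Primes, (ℓ : ℕ) ∣ n → ℓ ∈ S) {x y : Qbar}
    (hx : x ∈ QS S) (hxu : IsUnitOutside S x) (hy : y ^ n = x) : y ∈ QS S := by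
  obtain ⟨F, hF, hxF⟩ := hx
  refine ⟨F ⊔ ℚ⟮y⟯, isUnramifiedOutside_sup_adjoin_root hnS hF hxF hy ?_, ?_⟩
  · intro q hq A hA
    exact ⟨1, one_mem _, by rw [hxu q hq A hA, map_one, one_pow]⟩
  · exact (le_sup_right : ℚ⟮y⟯ ≤ F ⊔ ℚ⟮y⟯) (IntermediateField.mem_adjoin_simple_self ℚ y)

theorem IsUnitOutside.of_pow {n : ℕ} (hn : n ≠ 0) {x y : Qbar} (hxu : IsUnitOutside S x)
    (hy : y ^ n = x) : IsUnitOutside S y := by
  intro q hq A hA
  have h := hxu q hq A hA
  rw [← hy, map_pow] at h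
  exact (pow_eq_one_iff_of_nonneg zero_le hn).mp h

/-- The group `E_S` of `S`-units of `ℚ_S`. -/
def sUnits (S : Finset Nat.Primes) : Subgroup Qbarˣ where
  carrier := {x | (x : Qbar) ∈ QS S ∧ IsUnitOutside S (x : Qbar)}
  mul_mem' := by
    rintro x y ⟨hx, hxu⟩ ⟨hy, hyu⟩
    refine ⟨by simpa using mul_mem hx hy, fun q hq A hA => ?_⟩
    rw [Units.val_mul, map_mul, hxu q hq A hA, hyu q hq A hA, one_mul]
  one_mem' := ⟨by simp, fun q hq A hA => by simp⟩
  inv_mem' := by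
    rintro x ⟨hx, hxu⟩
    refine ⟨by simpa using inv_mem hx, fun q hq A hA => ?_⟩
    rw [Units.val_inv_eq_inv_val, map_inv₀, hxu q hq A hA, inv_one]

theorem mem_sUnits_iff {x : Qbarˣ} :
    x ∈ sUnits S ↔ (x : Qbar) ∈ QS S ∧ IsUnitOutside S (x : Qbar) := Iff.rfl

/-- `E_S` is stable under the Galois group. -/
theorem map_mem_sUnits (σ : GQ) {x : Qbarˣ} (hx : x ∈ sUnits S) :
    Units.map (σ : Qbar →* Qbar) x ∈ sUnits S :=
  ⟨smul_mem_QS σ hx.1, hx.2.smul σ⟩

/-- **`E_S` is `n`-divisible** when all primes of `n` lie in `S`: every `n`-th root of an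
`S`-unit is an `S`-unit. -/
theorem root_mem_sUnits {n : ℕ} (hn : n ≠ 0) (hnS : ∀ ℓ : Nat.Primes, (ℓ : ℕ) ∣ n → ℓ ∈ S)
    {x y : Qbarˣ} (hx : x ∈ sUnits S) (hy : y ^ n = x) : y ∈ sUnits S := by
  have hy' : (y : Qbar) ^ n = (x : Qbar) := by rw [← Units.val_pow_eq_pow_val, hy]
  exact ⟨root_mem_QS hnS hx.1 hx.2 hy', hx.2.of_pow hn hy'⟩

theorem exists_root_mem_sUnits {n : ℕ} (hn : n ≠ 0)
    (hnS : ∀ ℓ : Nat.Primes, (ℓ : ℕ) ∣ n → ℓ ∈ S) {x : Qbarˣ} (hx : x ∈ sUnits S) :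
    ∃ y ∈ sUnits S, y ^ n = x := by
  obtain ⟨z, hz⟩ := IsAlgClosed.exists_pow_nat_eq (x : Qbar) (Nat.pos_of_ne_zero hn)
  have hz0 : z ≠ 0 := by
    rintro rfl
    rw [zero_pow hn] at hz
    exact x.ne_zero hz.symm
  refine ⟨Units.mk0 z hz0, ?_, ?_⟩
  · exact root_mem_sUnits hn hnS hx (Units.ext (by simpa using hz))
  · exact Units.ext (by simpa using hz)

/-- All `n`-th roots of unity lie in `E_S` when the primes of `n` lie in `S`. -/
theorem mem_sUnits_of_pow_eq_one {n : ℕ} (hn : n ≠ 0)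
    (hnS : ∀ ℓ : Nat.Primes, (ℓ : ℕ) ∣ n → ℓ ∈ S) {y : Qbarˣ} (hy : y ^ n = 1) :
    y ∈ sUnits S :=
  root_mem_sUnits hn hnS (one_mem _) hy

end QS

end Fermat.Agent.CFT.H1
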