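import Mathlib

/-!
# CFT, layer C, package C-TOP (abstract part): Mathlib-only lemmas

* `hilbert90_top` : Hilbert 90 for a crossed homomorphism of a group `G` acting on a field,
  trivial on a finite-index subgroup `N` (no normality needed) such that `G/N` acts faithfully
  on the `N`-fixed elements.  (Poincaré series + Dedekind independence.)
* `tensor_fixed_mem_range` : Galois descent of invariants in `L ⊗[k] A` for an arbitrary
  group acting on `L` through the left factor.
* `exists_mul_fixed_of_quot_fixed` : the abstract step `(M/E)^U = M^U E / E` from Hilbert 90.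
-/

set_option autoImplicit false

open scoped TensorProduct

namespace Fermat.Agent.CFT.H77

section H90

variable {Ω : Type*} [Field Ω] {G : Type*} [Group G] [MulSemiringAction G Ω]

/-- The submonoid of elements fixed by a subgroup. -/
def fixedSubmonoid (N : Subgroup G) : Submonoid Ω where
  carrier := {x | ∀ n ∈ N, n • x = x}
  mul_mem' := by
    intro x y hx hy n hn
    rw [smul_mul', hx n hn, hy n hn]
  one_mem' := fun n _ => smul_one n

theorem mem_fixedSubmonoid {N : Subgroup G} {x : Ω} :
    x ∈ fixedSubmonoid (Ω := Ω) N ↔ ∀ n ∈ N, n • x = x := Iff.rfl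

/-- **Hilbert 90 at an infinite level.**  `c : G → Ω` a nowhere vanishing crossed
homomorphism, trivial on a finite-index subgroup `N`, where every `g` fixing all `N`-fixed
elements lies in `N`.  Then `c g = b / g • b` for some `b ≠ 0`. -/
theorem hilbert90_top (N : Subgroup G) [N.FiniteIndex]
    (hfaith : ∀ g : G, (∀ x : Ω, (∀ n ∈ N, n • x = x) → g • x = x) → g ∈ N)
    (c : G → Ω) (hc0 : ∀ g, c g ≠ 0) (hc : ∀ g h, c (g * h) = c g * g • c h)
    (hN : ∀ n ∈ N, c n = 1) :
    ∃ b : Ω, b ≠ 0 ∧ ∀ g, c g * g • b = b := by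
  classical
  let _ : Fintype (G ⧸ N) := Subgroup.fintypeQuotientOfFiniteIndex
  -- the Poincaré series
  set φ : Ω → G → Ω := fun a g => c g * g • a with hφ
  have hφN : ∀ a : Ω, (∀ n ∈ N, n • a = a) → ∀ g, ∀ n ∈ N, φ a (g * n) = φ a g := by
    intro a ha g n hn
    simp only [hφ, hc, hN n hn, smul_one, mul_one, mul_smul, ha n hn]
  set b : Ω → Ω := fun a => ∑ q : G ⧸ N, φ a q.out with hb
  have hbρ : ∀ a : Ω, (∀ n ∈ N, n • a = a) → ∀ ρ : G, c ρ * ρ • b a = b a := by
    intro a ha ρ
    have h1 : ∀ q : G ⧸ N, c ρ * ρ • φ a q.out = φ a ((MulAction.toPerm ρ : Equiv.Perm (G ⧸ N)) q).out := by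
      intro q
      have h1 : c ρ * ρ • φ a q.out = φ a (ρ * q.out) := by
        simp only [hφ, hc, smul_mul', mul_smul, mul_assoc]
      rw [h1]
      obtain ⟨n, hn⟩ := QuotientGroup.mk_out_eq_mul N (ρ * q.out)
      have h2 : (MulAction.toPerm ρ : Equiv.Perm (G ⧸ N)) q = ((ρ * q.out : G) : G ⧸ N) := by
        conv_lhs => rw [← QuotientGroup.out_eq' q]
        rfl
      rw [h2, hn, hφN a ha _ n n.2]
    calc c ρ * ρ • b a = ∑ q : G ⧸ N, c ρ * ρ • φ a q.out := by
          simp only [hb, Finset.smul_sum, Finset.mul_sum]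
      _ = ∑ q : G ⧸ N, φ a ((MulAction.toPerm ρ : Equiv.Perm (G ⧸ N)) q).out :=
          Finset.sum_congr rfl fun q _ => h1 q
      _ = b a := Equiv.sum_comp (MulAction.toPerm ρ : Equiv.Perm (G ⧸ N)) (fun q => φ a q.out)
  -- choose `a` with `b a ≠ 0`
  suffices h : ∃ a : Ω, (∀ n ∈ N, n • a = a) ∧ b a ≠ 0 by
    obtain ⟨a, ha, hba⟩ := h
    exact ⟨b a, hba, hbρ a ha⟩
  by_contra hcon
  push Not at hcon
  -- the characters `x ↦ q.out • x` on the fixed submonoid
  let χ : G ⧸ N → (fixedSubmonoid (Ω := Ω) N →* Ω) := fun q =>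
    { toFun := fun x => q.out • (x : Ω)
      map_one' := smul_one _
      map_mul' := fun x y => smul_mul' _ _ _ }
  have hχinj : Function.Injective χ := by
    intro q q' hqq'
    have h3 : q.out⁻¹ * q'.out ∈ N := by
      apply hfaith
      intro x hx
      have h4 : q.out • x = q'.out • x := DFunLike.congr_fun hqq' ⟨x, hx⟩
      rw [mul_smul, ← h4, inv_smul_smul]
    rw [← QuotientGroup.out_eq' q, ← QuotientGroup.out_eq' q']
    exact QuotientGroup.eq.mpr h3
  have hli := (linearIndependent_monoidHom (fixedSubmonoid (Ω := Ω) N) Ω).comp χ hχinj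
  have hzero : ∑ q : G ⧸ N, c q.out • (fun x : fixedSubmonoid (Ω := Ω) N => χ q x) = 0 := by
    funext x
    simp only [Finset.sum_apply, Pi.smul_apply, smul_eq_mul, Pi.zero_apply]
    exact hcon x.1 x.2
  have := (Fintype.linearIndependent_iff.mp hli) (fun q => c q.out) hzero
    ((1 : G) : G ⧸ N)
  exact hc0 _ this

end H90

section Action

variable {k L A : Type*} [CommRing k] [CommRing L] [Algebra k L] [CommRing A] [Algebra k A]
  {G : Type*} [Group G] [MulSemiringAction G L] [SMulCommClass k G L]

/-- the `k`-algebra automorphism of `L` given by `σ` -/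
noncomputable def algEquivOfAction (σ : G) : L ≃ₐ[k] L :=
  { MulSemiringAction.toRingEquiv G L σ with
    commutes' := fun r => by
      show σ • algebraMap k L r = algebraMap k L r
      rw [Algebra.algebraMap_eq_smul_one, ← smul_comm, smul_one] }

@[simp] theorem algEquivOfAction_apply (σ : G) (x : L) :
    algEquivOfAction (k := k) σ x = σ • x := rfl

/-- `σ ⊗ id` as an algebra automorphism of `L ⊗[k] A`. -/
noncomputable def tensorAutOfAction (σ : G) : (L ⊗[k] A) ≃ₐ[k] (L ⊗[k] A) :=
  Algebra.TensorProduct.congr (algEquivOfAction (k := k) σ) AlgEquiv.refl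

@[simp] theorem tensorAutOfAction_tmul (σ : G) (x : L) (a : A) :
    tensorAutOfAction (k := k) (A := A) σ (x ⊗ₜ[k] a) = (σ • x) ⊗ₜ[k] a := rfl

theorem smul_eq_tensorAutOfAction (σ : G) (x : L ⊗[k] A) :
    σ • x = tensorAutOfAction (k := k) (A := A) σ x := by
  induction x using TensorProduct.induction_on with
  | zero => simp
  | tmul l a => rfl
  | add x y hx hy => rw [smul_add, hx, hy, map_add]

/-- A group acting on `L` by `k`-algebra automorphisms acts on `L ⊗[k] A` by ring
automorphisms through the left factor (underlying `DistribMulAction` = Mathlib's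
`TensorProduct.leftDistribMulAction`).  Not an instance, to avoid clashes; instantiate it where
needed. -/
@[reducible] noncomputable def tensorMulSemiringActionOfAction :
    MulSemiringAction G (L ⊗[k] A) :=
  { (TensorProduct.leftDistribMulAction : DistribMulAction G (L ⊗[k] A)) with
    smul_one := fun σ => by rw [smul_eq_tensorAutOfAction, map_one]
    smul_mul := fun σ x y => by simp only [smul_eq_tensorAutOfAction, map_mul] }

end Action

section Descent

variable {k L A : Type*} [Field k] [Field L] [Algebra k L] [CommRing A] [Algebra k A]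
  {G : Type*} [Group G] [MulSemiringAction G L] [SMulCommClass k G L]
  {K : Type*} [Field K] [Algebra k K]

/-- The map `K ⊗[k] A → L ⊗[k] A` induced by `ι : K → L`. -/
noncomputable def inclTensor (ι : K →ₐ[k] L) : K ⊗[k] A →ₐ[k] L ⊗[k] A :=
  Algebra.TensorProduct.map ι (AlgHom.id k A)

@[simp] theorem inclTensor_tmul (ι : K →ₐ[k] L) (x : K) (a : A) :
    inclTensor (A := A) ι (x ⊗ₜ[k] a) = ι x ⊗ₜ[k] a := rfl

theorem inclTensor_injective (ι : K →ₐ[k] L) :
    Function.Injective (inclTensor (A := A) ι) := by
  have : Function.Injective (LinearMap.rTensor A ι.toLinearMap) :=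
    Module.Flat.rTensor_preserves_injective_linearMap _ ι.injective
  intro x y hxy
  apply this
  exact hxy

/-- coordinates of `σ • y` with respect to a basis coming from `A` -/
theorem basis_repr_smul {ι : Type*} (b : Module.Basis ι k A) (σ : G) (y : L ⊗[k] A) (i : ι) :
    (Algebra.TensorProduct.basis L b).repr (σ • y) i =
      σ • (Algebra.TensorProduct.basis L b).repr y i := by
  induction y using TensorProduct.induction_on with
  | zero => simp
  | tmul l a =>
    rw [TensorProduct.smul_tmul']
    simp only [Algebra.TensorProduct.basis_repr_tmul, Finsupp.smul_apply,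
      Finsupp.mapRange_apply, smul_eq_mul, smul_mul']
    congr 1
    rw [Algebra.algebraMap_eq_smul_one, ← smul_comm, smul_one]
  | add y z hy hz => simp only [smul_add, map_add, Finsupp.add_apply, hy, hz]

/-- **Galois descent of invariants** (any group, any subgroup): if the `H`-fixed elements of `L`
lie in the image of `K`, the `H`-fixed elements of `L ⊗[k] A` come from `K ⊗[k] A`. -/
theorem tensor_fixed_mem_range (H : Subgroup G) (ι : K →ₐ[k] L)
    (hK : ∀ x : L, (∀ σ ∈ H, σ • x = x) → x ∈ ι.range)
    (x : L ⊗[k] A) (hx : ∀ σ ∈ H, σ • x = x) :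
    x ∈ (inclTensor (A := A) ι).range := by
  classical
  let b := Module.Free.chooseBasis k A
  let B := Algebra.TensorProduct.basis L b
  have hfix : ∀ i, ∃ c : K, ι c = B.repr x i := by
    intro i
    apply hK
    intro σ hσ
    rw [← basis_repr_smul, hx σ hσ]
  choose c hc using hfix
  refine ⟨∑ i ∈ (B.repr x).support, c i ⊗ₜ[k] b i, ?_⟩
  show inclTensor (A := A) ι _ = x
  rw [map_sum]
  conv_rhs => rw [← B.linearCombination_repr x, Finsupp.linearCombination_apply, Finsupp.sum]
  refine Finset.sum_congr rfl fun i _ => ?_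
  rw [inclTensor_tmul, hc, Algebra.TensorProduct.basis_apply, TensorProduct.smul_tmul',
    smul_eq_mul, mul_one]

theorem smul_inclTensor_of_fixed (H : Subgroup G) (ι : K →ₐ[k] L)
    (hK : ∀ x : K, ∀ σ ∈ H, σ • ι x = ι x) (y : K ⊗[k] A) (σ : G) (hσ : σ ∈ H) :
    σ • inclTensor (A := A) ι y = inclTensor (A := A) ι y := by
  induction y using TensorProduct.induction_on with
  | zero => simp
  | tmul x a => rw [inclTensor_tmul, TensorProduct.smul_tmul', hK x σ hσ]
  | add x y hx hy => simp only [smul_add, map_add, hx, hy]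

/-- equivariance of `inclTensor` for compatible actions on `K` and `L` -/
theorem inclTensor_smul {G' : Type*} [Group G'] [MulSemiringAction G' K] [SMulCommClass k G' K]
    (ι : K →ₐ[k] L) (σ : G) (g : G') (h : ∀ x : K, ι (g • x) = σ • ι x) (y : K ⊗[k] A) :
    inclTensor (A := A) ι (g • y) = σ • inclTensor (A := A) ι y := by
  induction y using TensorProduct.induction_on with
  | zero => simp
  | tmul x a => rw [TensorProduct.smul_tmul', inclTensor_tmul, inclTensor_tmul,
      TensorProduct.smul_tmul', h]
  | add x y hx hy => simp only [smul_add, map_add, hx, hy]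

end Descent

end Fermat.Agent.CFT.H77
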