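import Mathlib
import Fermat.Agent.CFT.H1_QS
import Fermat.Agent.CFT.H55_LevelDefs
import Fermat.Agent.CFT.H87_Levels
import Fermat.Agent.CFT.H77_TopAbstract

/-!
# CFT, layer C, package C-TOP (part 1): the field `ℚ_S` with its `G_ℚ`-action

* `OmegaS S` : the field `ℚ_S = H1.QS S` as a type (a `def`, NOT an `abbrev`, to keep instance
  search away from the subtype), `OmegaS.val`, `OmegaS.incl : OmegaS S →ₐ[ℚ] ℚbar`.
* the `MulSemiringAction` of `G_ℚ` on `OmegaS S` and on `OmegaS S ⊗[ℚ] A`.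
* every element is fixed by a level; the elements fixed by `F.fixingSubgroup` lie in `F`.
-/

set_option autoImplicit false

open scoped TensorProduct

namespace Fermat.Agent.CFT.H77

open IntermediateField Pointwise

local notation "Qbar" => AlgebraicClosure ℚ
local notation "GQ" => (AlgebraicClosure ℚ ≃ₐ[ℚ] AlgebraicClosure ℚ)

local instance isAlgebraicQbar_h77 : Algebra.IsAlgebraic ℚ (AlgebraicClosure ℚ) :=
  AlgebraicClosure.isAlgebraic ℚ
local instance isAlgClosureQbar_h77 : IsAlgClosure ℚ (AlgebraicClosure ℚ) :=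
  ⟨inferInstance, inferInstance⟩
local instance normalQbar_h77 : Normal ℚ (AlgebraicClosure ℚ) :=
  IsAlgClosure.normal ℚ (AlgebraicClosure ℚ)
local instance isGaloisQbar_h77 : IsGalois ℚ (AlgebraicClosure ℚ) := ⟨⟩

variable (S : Finset Nat.Primes)

/-- The field `ℚ_S` as a type. -/
def OmegaS : Type := ↥(H1.QS S)

noncomputable instance omegaField : Field (OmegaS S) := inferInstanceAs (Field ↥(H1.QS S))

instance omegaCharZero : CharZero (OmegaS S) := inferInstanceAs (CharZero ↥(H1.QS S))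

variable {S}

/-- The underlying element of `ℚbar`. -/
def OmegaS.val (x : OmegaS S) : Qbar := Subtype.val x

theorem OmegaS.val_mem (x : OmegaS S) : x.val ∈ H1.QS S := Subtype.property x

/-- Constructor. -/
def OmegaS.mk (x : Qbar) (hx : x ∈ H1.QS S) : OmegaS S := ⟨x, hx⟩

@[simp] theorem OmegaS.val_mk (x : Qbar) (hx : x ∈ H1.QS S) : (OmegaS.mk x hx).val = x := rfl

theorem OmegaS.ext {x y : OmegaS S} (h : x.val = y.val) : x = y := Subtype.ext h

theorem OmegaS.val_injective : Function.Injective (OmegaS.val (S := S)) :=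
  fun _ _ h => OmegaS.ext h

@[simp] theorem OmegaS.val_zero : (0 : OmegaS S).val = 0 := rfl
@[simp] theorem OmegaS.val_one : (1 : OmegaS S).val = 1 := rfl
@[simp] theorem OmegaS.val_add (x y : OmegaS S) : (x + y).val = x.val + y.val := rfl
@[simp] theorem OmegaS.val_mul (x y : OmegaS S) : (x * y).val = x.val * y.val := rfl
@[simp] theorem OmegaS.val_neg (x : OmegaS S) : (-x).val = -x.val := rfl
@[simp] theorem OmegaS.val_sub (x y : OmegaS S) : (x - y).val = x.val - y.val := rfl
@[simp] theorem OmegaS.val_inv (x : OmegaS S) : (x⁻¹).val = (x.val)⁻¹ := rfl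

variable (S)

/-- The inclusion `ℚ_S → ℚbar` as a ring homomorphism. -/
noncomputable def OmegaS.valHom : OmegaS S →+* Qbar := (H1.QS S).toSubfield.subtype

@[simp] theorem OmegaS.valHom_apply (x : OmegaS S) : OmegaS.valHom S x = x.val := rfl

/-- The inclusion `ℚ_S → ℚbar` as a `ℚ`-algebra homomorphism. -/
noncomputable def OmegaS.incl : OmegaS S →ₐ[ℚ] Qbar := (OmegaS.valHom S).toRatAlgHom

@[simp] theorem OmegaS.incl_apply (x : OmegaS S) : OmegaS.incl S x = x.val := rfl

noncomputable instance omegaAction : MulSemiringAction GQ (OmegaS S) where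
  smul σ x := OmegaS.mk (σ x.val) (H1.smul_mem_QS σ x.val_mem)
  one_smul _ := OmegaS.ext rfl
  mul_smul _ _ _ := OmegaS.ext rfl
  smul_zero σ := OmegaS.ext (map_zero σ)
  smul_add σ _ _ := OmegaS.ext (map_add σ _ _)
  smul_one σ := OmegaS.ext (map_one σ)
  smul_mul σ _ _ := OmegaS.ext (map_mul σ _ _)

@[simp] theorem OmegaS.val_smul (σ : GQ) (x : OmegaS S) : (σ • x).val = σ x.val := rfl

instance omegaSMulComm : SMulCommClass GQ ℚ (OmegaS S) where
  smul_comm σ r x := OmegaS.ext (by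
    show σ (r • x).val = (r • (σ • x)).val
    have h1 : ∀ y : OmegaS S, (r • y).val = r • y.val :=
      fun y => map_rat_smul (OmegaS.valHom S) r y
    rw [h1, h1, OmegaS.val_smul]
    exact map_rat_smul σ r _)

instance omegaSMulComm' : SMulCommClass ℚ GQ (OmegaS S) :=
  ⟨fun r σ x => (smul_comm σ r x).symm⟩

/-- `G_ℚ → Aut(ℚ_S/ℚ)`. -/
noncomputable def toAut : GQ →* (OmegaS S ≃ₐ[ℚ] OmegaS S) :=
  MulSemiringAction.toAlgAut GQ ℚ (OmegaS S)

@[simp] theorem toAut_apply (σ : GQ) (x : OmegaS S) : toAut S σ x = σ • x := rfl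

theorem mem_level_of_mem (x : OmegaS S) :
    ∃ F : IntermediateField ℚ Qbar, F.IsUnramifiedOutside S ∧ x.val ∈ F := x.val_mem

/-- every element of `ℚ_S` is fixed by a level -/
theorem omega_fixed_by_level (x : OmegaS S) :
    ∃ F : IntermediateField ℚ Qbar, F.IsUnramifiedOutside S ∧
      ∀ σ ∈ F.fixingSubgroup, σ • x = x := by
  obtain ⟨F, hF, hx⟩ := x.val_mem
  refine ⟨F, hF, fun σ hσ => OmegaS.ext ?_⟩
  exact (IntermediateField.mem_fixingSubgroup_iff F σ).mp hσ x.val hx

/-- the elements of `ℚ_S` fixed by `F.fixingSubgroup` lie in `F` -/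
theorem mem_of_fixed (F : IntermediateField ℚ Qbar) (x : OmegaS S)
    (hx : ∀ σ ∈ F.fixingSubgroup, σ • x = x) : x.val ∈ F := by
  rw [← InfiniteGalois.fixedField_fixingSubgroup F, IntermediateField.mem_fixedField_iff]
  intro σ hσ
  exact congrArg OmegaS.val (hx σ hσ)

section Tensor

variable (A : Type*) [CommRing A] [Algebra ℚ A]

/-- `G_ℚ` acts on `ℚ_S ⊗[ℚ] A` by ring automorphisms through the left factor. -/
noncomputable instance tensorActionTop : MulSemiringAction GQ (OmegaS S ⊗[ℚ] A) :=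
  tensorMulSemiringActionOfAction

@[simp] theorem smul_tmul_top (σ : GQ) (x : OmegaS S) (a : A) :
    σ • (x ⊗ₜ[ℚ] a : OmegaS S ⊗[ℚ] A) = (σ • x) ⊗ₜ[ℚ] a := rfl

/-- every element of `ℚ_S ⊗ A` is fixed by a level -/
theorem tensor_fixed_by_level (x : OmegaS S ⊗[ℚ] A) :
    ∃ F : IntermediateField ℚ Qbar, F.IsUnramifiedOutside S ∧
      ∀ σ ∈ F.fixingSubgroup, σ • x = x := by
  induction x using TensorProduct.induction_on with
  | zero => exact ⟨⊥, IntermediateField.isUnramifiedOutside_bot S, fun σ _ => smul_zero σ⟩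
  | tmul l a =>
    obtain ⟨F, hF, h⟩ := omega_fixed_by_level S l
    exact ⟨F, hF, fun σ hσ => by rw [smul_tmul_top, h σ hσ]⟩
  | add x y hx hy =>
    obtain ⟨F, hF, h⟩ := hx
    obtain ⟨F', hF', h'⟩ := hy
    refine ⟨F ⊔ F', hF.sup hF', fun σ hσ => ?_⟩
    rw [IntermediateField.fixingSubgroup_sup] at hσ
    rw [smul_add, h σ hσ.1, h' σ hσ.2]

end Tensor

end Fermat.Agent.CFT.H77
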