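import Mathlib
import Fermat.Agent.CFT.H77_TopDefs
import Fermat.Agent.CFT.H23_CDefs

/-!
# CFT, layer C, package C-TOP (part 2): the top-level hybrid formation module `CSTop S`

* `PlaceOut S` : the places of `ℚbar` over the primes outside `S`, with the `G_ℚ`-action.
* `DivTop S` : `ℤ`-valued functions on `PlaceOut S` which are invariant under some level and
  supported over finitely many rational primes (`= colim_F DivS S F`).
* `JTop S := (q : S) → (ℚ_S ⊗ ℚ_q)ˣ`, `IdTop S := JTop S × Multiplicative (DivTop S)`.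
* `PrincTop S : Subgroup (IdTop S)`: the pairs `(x ⊗ 1, div x)`, `x ∈ ℚ_Sˣ`, where "`d = div x`"
  is expressed as `x / q ^ d(P)` being a unit at every place `P` over `q ∉ S`.
* `CSTop S := IdTop S ⧸ PrincTop S` and the representations `repJTop`, `repIdTop`, `repCSTop`.
-/

set_option autoImplicit false

open scoped TensorProduct

namespace Fermat.Agent.CFT.H77

open IntermediateField Pointwise Fermat.Agent.CFT

local notation "Qbar" => AlgebraicClosure ℚ
local notation "GQ" => (AlgebraicClosure ℚ ≃ₐ[ℚ] AlgebraicClosure ℚ)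

noncomputable section

variable (S : Finset Nat.Primes)

/-! ### Places outside `S` -/

/-- A place of `ℚbar` over a rational prime outside `S`. -/
structure PlaceOut where
  q : Nat.Primes
  hq : q ∉ S
  A : ValuationSubring Qbar
  hA : A.LiesOverPrime (q : ℕ)

variable {S}

theorem valuation_natCast_le_one (A : ValuationSubring Qbar) (n : ℕ) :
    A.valuation (n : Qbar) ≤ 1 :=
  (A.valuation_le_one_iff _).mpr (natCast_mem A n)

theorem valuation_intCast_le_one (A : ValuationSubring Qbar) (n : ℤ) :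
    A.valuation (n : Qbar) ≤ 1 :=
  (A.valuation_le_one_iff _).mpr (intCast_mem A n)

/-- A valuation ring lies over at most one prime. -/
theorem prime_unique_of_liesOver {A : ValuationSubring Qbar} {q q' : ℕ} (hq : q.Prime)
    (hq' : q'.Prime) (hA : A.LiesOverPrime q) (hA' : A.LiesOverPrime q') : q = q' := by
  by_contra hne
  have hcop : Nat.Coprime q q' := (Nat.coprime_primes hq hq').mpr hne
  have h1 : A.valuation (q : Qbar) < 1 := A.mem_nonunits_iff.mp hA
  have h2 : A.valuation (q' : Qbar) < 1 := A.mem_nonunits_iff.mp hA'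
  have hb : (q : ℤ) * Nat.gcdA q q' + (q' : ℤ) * Nat.gcdB q q' = 1 := by
    have := Nat.gcd_eq_gcd_ab q q'
    rw [hcop.gcd_eq_one] at this
    exact_mod_cast this.symm
  have hb' : (q : Qbar) * (Nat.gcdA q q' : Qbar) + (q' : Qbar) * (Nat.gcdB q q' : Qbar) = 1 := by
    exact_mod_cast congrArg (Int.cast : ℤ → Qbar) hb
  have h3 : A.valuation ((q : Qbar) * (Nat.gcdA q q' : Qbar)) < 1 := by
    rw [map_mul]
    exact mul_lt_one_of_lt_of_le h1 (valuation_intCast_le_one A _)
  have h4 : A.valuation ((q' : Qbar) * (Nat.gcdB q q' : Qbar)) < 1 := by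
    rw [map_mul]
    exact mul_lt_one_of_lt_of_le h2 (valuation_intCast_le_one A _)
  have h5 := A.valuation.map_add_lt h3 h4
  rw [hb', map_one] at h5
  exact lt_irrefl _ h5

theorem PlaceOut.ext_A {P P' : PlaceOut S} (h : P.A = P'.A) : P = P' := by
  rcases P with ⟨q, hq, A, hA⟩
  rcases P' with ⟨q', hq', A', hA'⟩
  simp only at h
  subst h
  have : q = q' := Subtype.ext (prime_unique_of_liesOver q.2 q'.2 hA hA')
  subst this
  rfl

noncomputable instance placeOutAction : MulAction GQ (PlaceOut S) where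
  smul σ P := ⟨P.q, P.hq, σ • P.A, H1.liesOverPrime_smul σ P.hA⟩
  one_smul P := PlaceOut.ext_A (one_smul GQ P.A)
  mul_smul σ τ P := PlaceOut.ext_A (mul_smul σ τ P.A)

@[simp] theorem PlaceOut.smul_A (σ : GQ) (P : PlaceOut S) : (σ • P).A = σ • P.A := rfl
@[simp] theorem PlaceOut.smul_q (σ : GQ) (P : PlaceOut S) : (σ • P).q = P.q := rfl

variable (S)

/-! ### Divisors at the top -/

/-- The divisor group at the top level: functions on the places outside `S`, invariant under a
level and supported over finitely many rational primes. -/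
def DivTop : AddSubgroup (PlaceOut S → ℤ) where
  carrier := {d | (∃ F : IntermediateField ℚ Qbar, F.IsUnramifiedOutside S ∧
      ∀ σ ∈ F.fixingSubgroup, ∀ P : PlaceOut S, d (σ • P) = d P) ∧
    {q : Nat.Primes | ∃ P : PlaceOut S, P.q = q ∧ d P ≠ 0}.Finite}
  zero_mem' := ⟨⟨⊥, IntermediateField.isUnramifiedOutside_bot S, fun _ _ _ => rfl⟩, by simp⟩
  add_mem' := by
    rintro d d' ⟨⟨F, hF, h⟩, hfin⟩ ⟨⟨F', hF', h'⟩, hfin'⟩
    refine ⟨⟨F ⊔ F', hF.sup hF', fun σ hσ P => ?_⟩, (hfin.union hfin').subset ?_⟩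
    · rw [IntermediateField.fixingSubgroup_sup] at hσ
      simp only [Pi.add_apply, h σ hσ.1, h' σ hσ.2]
    · rintro q ⟨P, rfl, hP⟩
      by_cases h0 : d P = 0
      · right
        exact ⟨P, rfl, by simpa [h0] using hP⟩
      · left
        exact ⟨P, rfl, h0⟩
  neg_mem' := by
    rintro d ⟨⟨F, hF, h⟩, hfin⟩
    refine ⟨⟨F, hF, fun σ hσ P => by simp only [Pi.neg_apply, h σ hσ]⟩, ?_⟩
    simpa using hfin

variable {S}

theorem mem_DivTop_iff {d : PlaceOut S → ℤ} : d ∈ DivTop S ↔
    (∃ F : IntermediateField ℚ Qbar, F.IsUnramifiedOutside S ∧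
      ∀ σ ∈ F.fixingSubgroup, ∀ P : PlaceOut S, d (σ • P) = d P) ∧
    {q : Nat.Primes | ∃ P : PlaceOut S, P.q = q ∧ d P ≠ 0}.Finite := Iff.rfl

/-- translation of a divisor: `(σ • d) P = d (σ⁻¹ • P)` -/
noncomputable def DivTop.smulFun (σ : GQ) (d : DivTop S) : DivTop S :=
  ⟨fun P => d.1 (σ⁻¹ • P), by
    obtain ⟨⟨F, hF, h⟩, hfin⟩ := d.2
    refine ⟨⟨F.map (σ : Qbar →ₐ[ℚ] Qbar), H1.isUnramifiedOutside_map hF σ, fun τ hτ P => ?_⟩, ?_⟩
    · have h1 : σ⁻¹ * τ * σ ∈ F.fixingSubgroup := by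
        rw [IntermediateField.mem_fixingSubgroup_iff] at hτ ⊢
        intro x hx
        have := hτ (σ x) ⟨x, hx, rfl⟩
        simp only [AlgEquiv.mul_apply]
        rw [this]
        exact σ.symm_apply_apply x
      have h2 : σ⁻¹ • τ • P = (σ⁻¹ * τ * σ) • σ⁻¹ • P := by
        simp only [mul_smul, smul_inv_smul]
      show d.1 (σ⁻¹ • τ • P) = d.1 (σ⁻¹ • P)
      rw [h2, h _ h1]
    · refine hfin.subset ?_
      rintro q ⟨P, rfl, hP⟩
      exact ⟨σ⁻¹ • P, rfl, hP⟩⟩

noncomputable instance divTopAction : DistribMulAction GQ (DivTop S) where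
  smul σ d := DivTop.smulFun σ d
  one_smul d := Subtype.ext (funext fun P => by
    show d.1 ((1 : GQ)⁻¹ • P) = d.1 P
    rw [inv_one, one_smul])
  mul_smul σ τ d := Subtype.ext (funext fun P => by
    show d.1 ((σ * τ)⁻¹ • P) = d.1 (τ⁻¹ • σ⁻¹ • P)
    rw [mul_inv_rev, mul_smul])
  smul_zero σ := Subtype.ext (funext fun P => rfl)
  smul_add σ d d' := Subtype.ext (funext fun P => rfl)

@[simp] theorem DivTop.smul_apply (σ : GQ) (d : DivTop S) (P : PlaceOut S) :
    (σ • d).1 P = d.1 (σ⁻¹ • P) := rfl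

variable (S)

/-! ### The top-level `S`-ideles -/

/-- The local algebra `ℚ_S ⊗[ℚ] ℚ_q`. -/
abbrev LocTop (q : Nat.Primes) : Type := OmegaS S ⊗[ℚ] ℚ_[q]

/-- The `S`-ideles of `ℚ_S`. -/
abbrev JTop : Type := (q : S) → (LocTop S q.1)ˣ

noncomputable instance omegaUnitsAction : MulDistribMulAction GQ (OmegaS S)ˣ :=
  Units.mulDistribMulActionRight

noncomputable instance locTopUnitsAction (q : Nat.Primes) :
    MulDistribMulAction GQ (LocTop S q)ˣ :=
  Units.mulDistribMulActionRight

noncomputable instance jTopAction : MulDistribMulAction GQ (JTop S) :=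
  Pi.mulDistribMulAction _

@[simp] theorem coe_smul_omegaUnits (σ : GQ) (x : (OmegaS S)ˣ) :
    ((σ • x : (OmegaS S)ˣ) : OmegaS S) = σ • (x : OmegaS S) := rfl

@[simp] theorem coe_smul_locTopUnits (q : Nat.Primes) (σ : GQ) (x : (LocTop S q)ˣ) :
    ((σ • x : (LocTop S q)ˣ) : LocTop S q) = σ • (x : LocTop S q) := rfl

@[simp] theorem jTop_smul_apply (σ : GQ) (x : JTop S) (q : S) : (σ • x) q = σ • x q := rfl

/-- `ℚ_Sˣ → (ℚ_S ⊗ ℚ_q)ˣ`. -/
noncomputable def toLocUnitsTop (q : Nat.Primes) : (OmegaS S)ˣ →* (LocTop S q)ˣ :=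
  Units.map (algebraMap (OmegaS S) (LocTop S q) : OmegaS S →* LocTop S q)

/-- The diagonal map `ℚ_Sˣ → JTop S`. -/
noncomputable def diagJTop : (OmegaS S)ˣ →* JTop S := MonoidHom.pi fun q => toLocUnitsTop S q.1

theorem smul_algebraMap_top (q : Nat.Primes) (σ : GQ) (x : OmegaS S) :
    σ • (algebraMap (OmegaS S) (LocTop S q) x) = algebraMap (OmegaS S) (LocTop S q) (σ • x) := by
  rw [Algebra.TensorProduct.algebraMap_apply, Algebra.TensorProduct.algebraMap_apply]
  rfl

theorem diagJTop_smul (σ : GQ) (x : (OmegaS S)ˣ) : diagJTop S (σ • x) = σ • diagJTop S x := by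
  funext q
  apply Units.ext
  show algebraMap (OmegaS S) (LocTop S q.1) (σ • (x : OmegaS S)) =
    σ • algebraMap (OmegaS S) (LocTop S q.1) (x : OmegaS S)
  rw [smul_algebraMap_top]

theorem toLocUnitsTop_injective (q : Nat.Primes) : Function.Injective (toLocUnitsTop S q) := by
  intro x y hxy
  apply Units.ext
  have h : algebraMap (OmegaS S) (LocTop S q) (x : OmegaS S) =
      algebraMap (OmegaS S) (LocTop S q) (y : OmegaS S) := congrArg Units.val hxy
  exact (algebraMap (OmegaS S) (LocTop S q)).injective h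

/-- The hybrid ideles at the top. -/
abbrev IdTop : Type := JTop S × Multiplicative (DivTop S)

instance idTopCommGroup : CommGroup (IdTop S) := inferInstance

/-- `d` is the divisor of `x`: `x / q ^ d(P)` is a unit at every place `P` outside `S`. -/
def IsDivOf (x : Qbar) (d : PlaceOut S → ℤ) : Prop :=
  ∀ P : PlaceOut S, P.A.valuation (x / ((P.q : ℕ) : Qbar) ^ d P) = 1

variable {S}

theorem IsDivOf.mul {x y : Qbar} {d d' : PlaceOut S → ℤ} (hx : IsDivOf S x d)
    (hy : IsDivOf S y d') : IsDivOf S (x * y) (d + d') := by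
  intro P
  have hq0 : ((P.q : ℕ) : Qbar) ≠ 0 := Nat.cast_ne_zero.mpr P.q.2.ne_zero
  have : x * y / ((P.q : ℕ) : Qbar) ^ (d + d') P =
      (x / ((P.q : ℕ) : Qbar) ^ d P) * (y / ((P.q : ℕ) : Qbar) ^ d' P) := by
    rw [Pi.add_apply, zpow_add₀ hq0]
    field_simp
  rw [this, map_mul, hx P, hy P, one_mul]

theorem IsDivOf.inv {x : Qbar} {d : PlaceOut S → ℤ} (hx : IsDivOf S x d) :
    IsDivOf S x⁻¹ (-d) := by
  intro P
  have : x⁻¹ / ((P.q : ℕ) : Qbar) ^ (-d) P = (x / ((P.q : ℕ) : Qbar) ^ d P)⁻¹ := by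
    rw [Pi.neg_apply, zpow_neg]
    field_simp
  rw [this, map_inv₀, hx P, inv_one]

theorem isDivOf_one : IsDivOf S 1 0 := by
  intro P
  simp

/-- uniqueness of the divisor -/
theorem IsDivOf.unique {x : Qbar} {d d' : PlaceOut S → ℤ} (hx : IsDivOf S x d)
    (hx' : IsDivOf S x d') : d = d' := by
  funext P
  have hq0 : ((P.q : ℕ) : Qbar) ≠ 0 := Nat.cast_ne_zero.mpr P.q.2.ne_zero
  have hlt : P.A.valuation ((P.q : ℕ) : Qbar) < 1 := P.A.mem_nonunits_iff.mp P.hA
  have hne : P.A.valuation ((P.q : ℕ) : Qbar) ≠ 0 := (Valuation.ne_zero_iff _).mpr hq0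
  have h1 := hx P
  have h2 := hx' P
  rw [map_div₀, div_eq_one_iff_eq ((Valuation.ne_zero_iff _).mpr (zpow_ne_zero _ hq0))] at h1 h2
  rw [map_zpow₀] at h1 h2
  have h3 : P.A.valuation ((P.q : ℕ) : Qbar) ^ d P = P.A.valuation ((P.q : ℕ) : Qbar) ^ d' P :=
    h1.symm.trans h2
  exact zpow_right_injective₀ (zero_lt_iff.mpr hne) hlt.ne h3

theorem IsDivOf.smul {x : Qbar} {d : PlaceOut S → ℤ} (hx : IsDivOf S x d) (σ : GQ) :
    IsDivOf S (σ x) (fun P => d (σ⁻¹ • P)) := by
  intro P
  obtain ⟨P', rfl⟩ : ∃ P', P = σ • P' := ⟨σ⁻¹ • P, (smul_inv_smul σ P).symm⟩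
  have h := (H1.valuation_smul_eq_one_iff P'.A σ _).mpr (hx P')
  rw [map_div₀, map_zpow₀, map_natCast] at h
  have e : d (σ⁻¹ • σ • P') = d P' := by rw [inv_smul_smul]
  show (σ • P'.A).valuation (σ x / ((P'.q : ℕ) : Qbar) ^ d (σ⁻¹ • σ • P')) = 1
  rw [e]
  exact h

variable (S)

/-- The principal hybrid ideles at the top: `(x ⊗ 1, div x)` for `x ∈ ℚ_Sˣ`. -/
def PrincTop : Subgroup (IdTop S) where
  carrier := {z | ∃ x : (OmegaS S)ˣ, z.1 = diagJTop S x ∧
    IsDivOf S (x : OmegaS S).val (Multiplicative.toAdd z.2).1}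
  mul_mem' := by
    rintro z z' ⟨x, hx1, hx2⟩ ⟨y, hy1, hy2⟩
    refine ⟨x * y, ?_, ?_⟩
    · rw [Prod.fst_mul, hx1, hy1, map_mul]
    · have := hx2.mul hy2
      simpa using this
  one_mem' := ⟨1, by simp, by simpa using isDivOf_one⟩
  inv_mem' := by
    rintro z ⟨x, hx1, hx2⟩
    refine ⟨x⁻¹, ?_, ?_⟩
    · rw [Prod.fst_inv, hx1, map_inv]
    · have := hx2.inv
      simpa using this

/-- The top-level hybrid idele class group. -/
abbrev CSTop : Type := IdTop S ⧸ PrincTop S

/-- The projection `IdTop S → CSTop S`. -/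
def toCSTop : IdTop S →* CSTop S := QuotientGroup.mk' _

/-! ### The Galois action on the quotient -/

instance idTopAction : MulDistribMulAction GQ (IdTop S) := Prod.mulDistribMulAction

@[simp] theorem idTop_smul_fst (σ : GQ) (z : IdTop S) : (σ • z).1 = σ • z.1 := rfl
@[simp] theorem idTop_smul_snd (σ : GQ) (z : IdTop S) : (σ • z).2 = σ • z.2 := rfl

theorem toAdd_smul_divTop (σ : GQ) (d : Multiplicative (DivTop S)) :
    Multiplicative.toAdd (σ • d) = σ • Multiplicative.toAdd d := rfl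

theorem smul_mem_princTop (σ : GQ) {z : IdTop S} (hz : z ∈ PrincTop S) :
    σ • z ∈ PrincTop S := by
  obtain ⟨x, hx1, hx2⟩ := hz
  refine ⟨σ • x, ?_, ?_⟩
  · rw [idTop_smul_fst, hx1, diagJTop_smul]
  · have := hx2.smul σ
    exact this

/-- The action of `σ` on `CSTop S`, as a group endomorphism. -/
def smulCSTop (σ : GQ) : CSTop S →* CSTop S :=
  QuotientGroup.map _ _ (MulDistribMulAction.toMonoidHom (IdTop S) σ)
    (fun _ hx => smul_mem_princTop S σ hx)

theorem smulCSTop_mk (σ : GQ) (x : IdTop S) :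
    smulCSTop S σ (QuotientGroup.mk x) = QuotientGroup.mk (σ • x) := rfl

/-- `G_ℚ` acts on the top-level hybrid idele class group. -/
instance csTopAction : MulDistribMulAction GQ (CSTop S) where
  smul σ c := smulCSTop S σ c
  one_smul c := by
    induction c using QuotientGroup.induction_on with
    | H x => exact congrArg QuotientGroup.mk (one_smul GQ x)
  mul_smul σ τ c := by
    induction c using QuotientGroup.induction_on with
    | H x => exact congrArg QuotientGroup.mk (mul_smul σ τ x)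
  smul_mul σ a b := map_mul (smulCSTop S σ) a b
  smul_one σ := map_one (smulCSTop S σ)

theorem smul_toCSTop (σ : GQ) (x : IdTop S) : σ • toCSTop S x = toCSTop S (σ • x) := rfl

/-! ### The representations -/

/-- `ℚ_Sˣ` as a representation of `G_ℚ`. -/
abbrev repOmegaUnits : Rep ℤ GQ := Rep.ofMulDistribMulAction GQ (OmegaS S)ˣ

/-- The `S`-ideles of `ℚ_S` as a representation of `G_ℚ`. -/
abbrev repJTop : Rep ℤ GQ := Rep.ofMulDistribMulAction GQ (JTop S)

/-- The hybrid ideles of `ℚ_S` as a representation of `G_ℚ`. -/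
abbrev repIdTop : Rep ℤ GQ := Rep.ofMulDistribMulAction GQ (IdTop S)

/-- The top-level formation module `C_S` as a representation of `G_ℚ`. -/
abbrev repCSTop : Rep ℤ GQ := Rep.ofMulDistribMulAction GQ (CSTop S)

/-- `JTop → IdTop`, `j ↦ (j, 0)`. -/
def jToIdTop : JTop S →* IdTop S := MonoidHom.inl _ _

/-- `JTop → CSTop`. -/
def jToCSTop : JTop S →* CSTop S := (toCSTop S).comp (jToIdTop S)

/-- The projection `IdTop → CSTop` as a morphism of representations. -/
def toCSTopHom : repIdTop S ⟶ repCSTop S :=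
  Rep.ofHom
    { toLinearMap := (toCSTop S).toAdditive.toIntLinearMap
      isIntertwining' := fun _ => LinearMap.ext fun _ => rfl }

/-- `JTop → CSTop` as a morphism of representations. -/
def jToCSTopHom : repJTop S ⟶ repCSTop S :=
  Rep.ofHom
    { toLinearMap := (jToCSTop S).toAdditive.toIntLinearMap
      isIntertwining' := fun σ => LinearMap.ext fun x => by
        show Additive.ofMul (jToCSTop S (σ • Additive.toMul x)) =
          Additive.ofMul (σ • jToCSTop S (Additive.toMul x))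
        apply congrArg Additive.ofMul
        show toCSTop S (jToIdTop S (σ • Additive.toMul x)) =
          σ • toCSTop S (jToIdTop S (Additive.toMul x))
        rw [smul_toCSTop]
        apply congrArg (toCSTop S)
        refine Prod.ext rfl ?_
        show (1 : Multiplicative (DivTop S)) = σ • (1 : Multiplicative (DivTop S))
        rw [smul_one] }

/-! ### Discreteness -/

theorem isUnramifiedOutside_finset_sup {ι : Type*} (s : Finset ι)
    (F : ι → IntermediateField ℚ Qbar) (h : ∀ i ∈ s, (F i).IsUnramifiedOutside S) :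
    (s.sup F).IsUnramifiedOutside S := by
  classical
  induction s using Finset.induction_on with
  | empty => simpa using IntermediateField.isUnramifiedOutside_bot S
  | insert a s _ ih =>
    rw [Finset.sup_insert]
    exact (h a (Finset.mem_insert_self a s)).sup
      (ih fun i hi => h i (Finset.mem_insert_of_mem hi))

/-- every unit of `ℚ_S ⊗ ℚ_q` is fixed by a level -/
theorem locTopUnits_fixed_by_level (q : Nat.Primes) (u : (LocTop S q)ˣ) :
    ∃ F : IntermediateField ℚ Qbar, F.IsUnramifiedOutside S ∧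
      ∀ σ ∈ F.fixingSubgroup, σ • u = u := by
  obtain ⟨F, hF, h⟩ := tensor_fixed_by_level S ℚ_[q] (u : LocTop S q)
  exact ⟨F, hF, fun σ hσ => Units.ext (h σ hσ)⟩

/-- every `S`-idele of `ℚ_S` is fixed by a level -/
theorem jTop_fixed_by_level (x : JTop S) :
    ∃ F : IntermediateField ℚ Qbar, F.IsUnramifiedOutside S ∧
      ∀ σ ∈ F.fixingSubgroup, σ • x = x := by
  classical
  choose F hF h using fun q : S => locTopUnits_fixed_by_level S q.1 (x q)
  refine ⟨Finset.univ.sup F, isUnramifiedOutside_finset_sup S _ F fun q _ => hF q,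
    fun σ hσ => funext fun q => ?_⟩
  have hle : F q ≤ Finset.univ.sup F := Finset.le_sup (Finset.mem_univ q)
  exact h q σ (IntermediateField.fixingSubgroup_antitone hle hσ)

/-- every divisor is fixed by a level -/
theorem divTop_fixed_by_level (d : DivTop S) :
    ∃ F : IntermediateField ℚ Qbar, F.IsUnramifiedOutside S ∧
      ∀ σ ∈ F.fixingSubgroup, σ • d = d := by
  obtain ⟨⟨F, hF, h⟩, -⟩ := d.2
  refine ⟨F, hF, fun σ hσ => Subtype.ext (funext fun P => ?_)⟩
  rw [DivTop.smul_apply]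
  exact h σ⁻¹ (inv_mem hσ) P

/-- every hybrid idele of `ℚ_S` is fixed by a level -/
theorem idTop_fixed_by_level (z : IdTop S) :
    ∃ F : IntermediateField ℚ Qbar, F.IsUnramifiedOutside S ∧
      ∀ σ ∈ F.fixingSubgroup, σ • z = z := by
  obtain ⟨F, hF, h⟩ := jTop_fixed_by_level S z.1
  obtain ⟨F', hF', h'⟩ := divTop_fixed_by_level S (Multiplicative.toAdd z.2)
  refine ⟨F ⊔ F', hF.sup hF', fun σ hσ => ?_⟩
  rw [IntermediateField.fixingSubgroup_sup] at hσ
  refine Prod.ext (h σ hσ.1) ?_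
  show Multiplicative.ofAdd (σ • Multiplicative.toAdd z.2) = z.2
  rw [h' σ hσ.2]
  rfl

/-- discreteness of a multiplicative `G_ℚ`-module all of whose elements are fixed by a level -/
theorem isDiscrete_ofMulDistribMulAction {M : Type} [CommGroup M] [MulDistribMulAction GQ M]
    (h : ∀ m : M, ∃ F : IntermediateField ℚ Qbar, F.IsUnramifiedOutside S ∧
      ∀ σ ∈ F.fixingSubgroup, σ • m = m) :
    (H87.levelsS S).IsDiscrete (Rep.ofMulDistribMulAction GQ M) := by
  intro a
  obtain ⟨F, hF, hfix⟩ := h (Additive.toMul (show Additive M from a))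
  refine ⟨_, ⟨F, hF, rfl⟩, fun σ hσ => ?_⟩
  show Additive.ofMul (σ • Additive.toMul (show Additive M from a)) = a
  rw [hfix σ hσ]
  rfl

theorem omegaUnits_fixed_by_level (u : (OmegaS S)ˣ) :
    ∃ F : IntermediateField ℚ Qbar, F.IsUnramifiedOutside S ∧
      ∀ σ ∈ F.fixingSubgroup, σ • u = u := by
  obtain ⟨F, hF, h⟩ := omega_fixed_by_level S (u : OmegaS S)
  exact ⟨F, hF, fun σ hσ => Units.ext (h σ hσ)⟩

theorem csTop_fixed_by_level (c : CSTop S) :
    ∃ F : IntermediateField ℚ Qbar, F.IsUnramifiedOutside S ∧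
      ∀ σ ∈ F.fixingSubgroup, σ • c = c := by
  obtain ⟨z, rfl⟩ := QuotientGroup.mk_surjective c
  obtain ⟨F, hF, h⟩ := idTop_fixed_by_level S z
  refine ⟨F, hF, fun σ hσ => ?_⟩
  show toCSTop S (σ • z) = _
  rw [h σ hσ]
  rfl

theorem isDiscrete_repOmegaUnits : (H87.levelsS S).IsDiscrete (repOmegaUnits S) :=
  isDiscrete_ofMulDistribMulAction S (omegaUnits_fixed_by_level S)

theorem isDiscrete_repJTop : (H87.levelsS S).IsDiscrete (repJTop S) :=
  isDiscrete_ofMulDistribMulAction S (jTop_fixed_by_level S)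

theorem isDiscrete_repIdTop : (H87.levelsS S).IsDiscrete (repIdTop S) :=
  isDiscrete_ofMulDistribMulAction S (idTop_fixed_by_level S)

theorem isDiscrete_repCSTop : (H87.levelsS S).IsDiscrete (repCSTop S) :=
  isDiscrete_ofMulDistribMulAction S (csTop_fixed_by_level S)

end

end Fermat.Agent.CFT.H77

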