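/-
CFT project, layer D0 (package D0-LES, helper1).

Pure linear algebra: maps between subquotients `Z/(B ∩ Z)` of ambient modules, maps defined by
linear relations, exactness criteria in elementwise form, and the snake lemma for one step of a
short exact sequence of filtered complexes (elementwise hypotheses).  Mathlib only.
-/
import Mathlib

set_option autoImplicit false

namespace Fermat.Agent.CFT.H1

open Submodule

section Subquot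

variable {k : Type*} [CommRing k]
variable {M N P Q : Type*} [AddCommGroup M] [Module k M] [AddCommGroup N] [Module k N]
  [AddCommGroup P] [Module k P] [AddCommGroup Q] [Module k Q]

/-- The map induced on subquotients `Z/(B ∩ Z) → Z'/(B' ∩ Z')` by an ambient linear map. -/
def sqMap {Z B : Submodule k M} {Z' B' : Submodule k N} (f : M →ₗ[k] N)
    (hZ : ∀ x ∈ Z, f x ∈ Z') (hB : ∀ x ∈ Z, x ∈ B → f x ∈ B') :
    (↥Z ⧸ B.comap Z.subtype) →ₗ[k] (↥Z' ⧸ B'.comap Z'.subtype) :=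
  Submodule.mapQ _ _ (f.restrict hZ) (fun x hx => hB x.1 x.2 hx)

lemma sqMap_mk {Z B : Submodule k M} {Z' B' : Submodule k N} (f : M →ₗ[k] N)
    (hZ : ∀ x ∈ Z, f x ∈ Z') (hB : ∀ x ∈ Z, x ∈ B → f x ∈ B') (x : M) (hx : x ∈ Z) :
    sqMap (B := B) (B' := B') f hZ hB (Submodule.Quotient.mk ⟨x, hx⟩) =
      Submodule.Quotient.mk ⟨f x, hZ x hx⟩ := rfl

lemma sq_mk_eq_zero {Z B : Submodule k M} (x : M) (hx : x ∈ Z) :
    (Submodule.Quotient.mk ⟨x, hx⟩ : ↥Z ⧸ B.comap Z.subtype) = 0 ↔ x ∈ B := by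
  rw [Submodule.Quotient.mk_eq_zero]; rfl

lemma sq_mk_eq_mk {Z B : Submodule k M} (x y : M) (hx : x ∈ Z) (hy : y ∈ Z) :
    (Submodule.Quotient.mk ⟨x, hx⟩ : ↥Z ⧸ B.comap Z.subtype) = Submodule.Quotient.mk ⟨y, hy⟩ ↔
      x - y ∈ B := by
  rw [Submodule.Quotient.eq]; rfl

lemma sq_induction {Z B : Submodule k M} {motive : (↥Z ⧸ B.comap Z.subtype) → Prop}
    (h : ∀ (x : M) (hx : x ∈ Z), motive (Submodule.Quotient.mk ⟨x, hx⟩))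
    (y : ↥Z ⧸ B.comap Z.subtype) : motive y := by
  obtain ⟨⟨x, hx⟩, rfl⟩ := Submodule.Quotient.mk_surjective _ y
  exact h x hx

lemma sqMap_id {Z B : Submodule k M} (hZ : ∀ x ∈ Z, (LinearMap.id : M →ₗ[k] M) x ∈ Z)
    (hB : ∀ x ∈ Z, x ∈ B → (LinearMap.id : M →ₗ[k] M) x ∈ B) :
    sqMap (B := B) (B' := B) LinearMap.id hZ hB = LinearMap.id := by
  ext y
  rfl

lemma sqMap_comp {Z₁ B₁ : Submodule k M} {Z₂ B₂ : Submodule k N} {Z₃ B₃ : Submodule k P}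
    (f : M →ₗ[k] N) (g : N →ₗ[k] P)
    (hfZ : ∀ x ∈ Z₁, f x ∈ Z₂) (hfB : ∀ x ∈ Z₁, x ∈ B₁ → f x ∈ B₂)
    (hgZ : ∀ x ∈ Z₂, g x ∈ Z₃) (hgB : ∀ x ∈ Z₂, x ∈ B₂ → g x ∈ B₃)
    (hZ : ∀ x ∈ Z₁, (g ∘ₗ f) x ∈ Z₃) (hB : ∀ x ∈ Z₁, x ∈ B₁ → (g ∘ₗ f) x ∈ B₃) :
    sqMap (B := B₁) (B' := B₃) (g ∘ₗ f) hZ hB =
      (sqMap (B := B₂) (B' := B₃) g hgZ hgB) ∘ₗ (sqMap (B := B₁) (B' := B₂) f hfZ hfB) := by
  ext y
  rfl

/-- Exactness of two consecutive induced maps, from elementwise conditions. -/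
lemma sqMap_exact {Z₁ B₁ : Submodule k M} {Z₂ B₂ : Submodule k N} {Z₃ B₃ : Submodule k P}
    (f : M →ₗ[k] N) (g : N →ₗ[k] P)
    (hfZ : ∀ x ∈ Z₁, f x ∈ Z₂) (hfB : ∀ x ∈ Z₁, x ∈ B₁ → f x ∈ B₂)
    (hgZ : ∀ x ∈ Z₂, g x ∈ Z₃) (hgB : ∀ x ∈ Z₂, x ∈ B₂ → g x ∈ B₃)
    (hgf : ∀ x ∈ Z₁, g (f x) ∈ B₃)
    (hex : ∀ y ∈ Z₂, g y ∈ B₃ → ∃ x ∈ Z₁, y - f x ∈ B₂) :
    Function.Exact (sqMap (B := B₁) (B' := B₂) f hfZ hfB)
      (sqMap (B := B₂) (B' := B₃) g hgZ hgB) := by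
  intro y
  constructor
  · induction y using sq_induction with
    | h y hyZ =>
      intro hy
      rw [sqMap_mk, sq_mk_eq_zero] at hy
      obtain ⟨x, hx, hxy⟩ := hex y hyZ hy
      refine ⟨Submodule.Quotient.mk ⟨x, hx⟩, ?_⟩
      rw [sqMap_mk, sq_mk_eq_mk]
      have : f x - y = -(y - f x) := by abel
      rw [this]
      exact B₂.neg_mem hxy
  · rintro ⟨x, rfl⟩
    induction x using sq_induction with
    | h x hxZ =>
      rw [sqMap_mk, sqMap_mk, sq_mk_eq_zero]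
      exact hgf x hxZ

/-- Injectivity of an induced map from an elementwise condition. -/
lemma sqMap_injective {Z B : Submodule k M} {Z' B' : Submodule k N} (f : M →ₗ[k] N)
    (hZ : ∀ x ∈ Z, f x ∈ Z') (hB : ∀ x ∈ Z, x ∈ B → f x ∈ B')
    (h : ∀ x ∈ Z, f x ∈ B' → x ∈ B) :
    Function.Injective (sqMap (B := B) (B' := B') f hZ hB) := by
  rw [← LinearMap.ker_eq_bot, LinearMap.ker_eq_bot']
  intro y
  induction y using sq_induction with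
  | h x hx =>
    intro hy
    rw [sqMap_mk, sq_mk_eq_zero] at hy
    rw [sq_mk_eq_zero]
    exact h x hx hy

/-- Surjectivity of an induced map from an elementwise condition. -/
lemma sqMap_surjective {Z B : Submodule k M} {Z' B' : Submodule k N} (f : M →ₗ[k] N)
    (hZ : ∀ x ∈ Z, f x ∈ Z') (hB : ∀ x ∈ Z, x ∈ B → f x ∈ B')
    (h : ∀ y ∈ Z', ∃ x ∈ Z, y - f x ∈ B') :
    Function.Surjective (sqMap (B := B) (B' := B') f hZ hB) := by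
  intro y
  induction y using sq_induction with
  | h y hy =>
    obtain ⟨x, hx, hxy⟩ := h y hy
    refine ⟨Submodule.Quotient.mk ⟨x, hx⟩, ?_⟩
    rw [sqMap_mk, sq_mk_eq_mk]
    have : f x - y = -(y - f x) := by abel
    rw [this]
    exact B'.neg_mem hxy

/-! ### Maps of subquotients defined by a linear relation -/

section Rel

variable {Z B : Submodule k M} {Z' B' : Submodule k N}

lemma sqRel_aux (R : Submodule k (M × N))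
    (hwd : ∀ c ∈ Z, c ∈ B → ∀ a ∈ Z', (c, a) ∈ R → a ∈ B')
    {c : M} {a a' : N} (ha : a ∈ Z') (ha' : a' ∈ Z')
    (h : (c, a) ∈ R) (h' : (c, a') ∈ R) : a - a' ∈ B' := by
  have h0 : ((0 : M), a - a') ∈ R := by
    have := R.sub_mem h h'
    simpa using this
  exact hwd 0 Z.zero_mem B.zero_mem _ (Z'.sub_mem ha ha') h0

/-- The map `Z → Z'/(B' ∩ Z')` attached to a total linear relation which is single valued
modulo `B'`. -/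
noncomputable def sqRelAux (R : Submodule k (M × N))
    (htot : ∀ c ∈ Z, ∃ a ∈ Z', (c, a) ∈ R)
    (hwd : ∀ c ∈ Z, c ∈ B → ∀ a ∈ Z', (c, a) ∈ R → a ∈ B') :
    ↥Z →ₗ[k] (↥Z' ⧸ B'.comap Z'.subtype) where
  toFun c := Submodule.Quotient.mk ⟨(htot c.1 c.2).choose, (htot c.1 c.2).choose_spec.1⟩
  map_add' c₁ c₂ := by
    rw [← Submodule.Quotient.mk_add, sq_mk_eq_mk]
    refine sqRel_aux (Z := Z) (B := B) R hwd (htot _ (c₁ + c₂).2).choose_spec.1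
      (Z'.add_mem (htot _ c₁.2).choose_spec.1 (htot _ c₂.2).choose_spec.1)
      (htot _ (c₁ + c₂).2).choose_spec.2 ?_
    have := R.add_mem (htot _ c₁.2).choose_spec.2 (htot _ c₂.2).choose_spec.2
    simpa using this
  map_smul' r c := by
    rw [RingHom.id_apply, ← Submodule.Quotient.mk_smul, sq_mk_eq_mk]
    refine sqRel_aux (Z := Z) (B := B) R hwd (htot _ (r • c).2).choose_spec.1
      (Z'.smul_mem r (htot _ c.2).choose_spec.1)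
      (htot _ (r • c).2).choose_spec.2 ?_
    have := R.smul_mem r (htot _ c.2).choose_spec.2
    simpa using this

/-- The map of subquotients `Z/(B ∩ Z) → Z'/(B' ∩ Z')` attached to a linear relation
`R ⊆ M × N` which is total on `Z` (with values in `Z'`) and sends `B ∩ Z` into `B'`. -/
noncomputable def sqRel (R : Submodule k (M × N))
    (htot : ∀ c ∈ Z, ∃ a ∈ Z', (c, a) ∈ R)
    (hwd : ∀ c ∈ Z, c ∈ B → ∀ a ∈ Z', (c, a) ∈ R → a ∈ B') :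
    (↥Z ⧸ B.comap Z.subtype) →ₗ[k] (↥Z' ⧸ B'.comap Z'.subtype) :=
  Submodule.liftQ _ (sqRelAux (B := B) R htot hwd) (by
    intro c hc
    rw [LinearMap.mem_ker]
    change (Submodule.Quotient.mk _ : ↥Z' ⧸ B'.comap Z'.subtype) = 0
    rw [sq_mk_eq_zero]
    exact hwd c.1 c.2 hc _ (htot c.1 c.2).choose_spec.1 (htot c.1 c.2).choose_spec.2)

lemma sqRel_mk (R : Submodule k (M × N))
    (htot : ∀ c ∈ Z, ∃ a ∈ Z', (c, a) ∈ R)
    (hwd : ∀ c ∈ Z, c ∈ B → ∀ a ∈ Z', (c, a) ∈ R → a ∈ B')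
    {c : M} (hc : c ∈ Z) {a : N} (ha : a ∈ Z') (h : (c, a) ∈ R) :
    sqRel (B := B) (B' := B') R htot hwd (Submodule.Quotient.mk ⟨c, hc⟩) =
      Submodule.Quotient.mk ⟨a, ha⟩ := by
  change (Submodule.Quotient.mk _ : ↥Z' ⧸ B'.comap Z'.subtype) = _
  rw [sq_mk_eq_mk]
  exact sqRel_aux (Z := Z) (B := B) R hwd (htot c hc).choose_spec.1 ha
    (htot c hc).choose_spec.2 h

/-- Exactness `(induced map) ; (relation map)`. -/
lemma exact_sqMap_sqRel {Z₀ B₀ : Submodule k P} (g : P →ₗ[k] M)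
    (hgZ : ∀ x ∈ Z₀, g x ∈ Z) (hgB : ∀ x ∈ Z₀, x ∈ B₀ → g x ∈ B)
    (R : Submodule k (M × N))
    (htot : ∀ c ∈ Z, ∃ a ∈ Z', (c, a) ∈ R)
    (hwd : ∀ c ∈ Z, c ∈ B → ∀ a ∈ Z', (c, a) ∈ R → a ∈ B')
    (h1 : ∀ b ∈ Z₀, ∃ a ∈ Z', (g b, a) ∈ R ∧ a ∈ B')
    (h2 : ∀ c ∈ Z, ∀ a ∈ Z', (c, a) ∈ R → a ∈ B' → ∃ b ∈ Z₀, c - g b ∈ B) :
    Function.Exact (sqMap (B := B₀) (B' := B) g hgZ hgB)
      (sqRel (B := B) (B' := B') R htot hwd) := by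
  intro y
  constructor
  · induction y using sq_induction with
    | h c hc =>
      intro hy
      obtain ⟨a, ha, hca⟩ := htot c hc
      rw [sqRel_mk R htot hwd hc ha hca, sq_mk_eq_zero] at hy
      obtain ⟨b, hb, hcb⟩ := h2 c hc a ha hca hy
      refine ⟨Submodule.Quotient.mk ⟨b, hb⟩, ?_⟩
      rw [sqMap_mk, sq_mk_eq_mk]
      have : g b - c = -(c - g b) := by abel
      rw [this]
      exact B.neg_mem hcb
  · rintro ⟨x, rfl⟩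
    induction x using sq_induction with
    | h b hb =>
      obtain ⟨a, ha, hR, haB⟩ := h1 b hb
      rw [sqMap_mk, sqRel_mk R htot hwd (hgZ b hb) ha hR, sq_mk_eq_zero]
      exact haB

/-- Exactness `(relation map) ; (induced map)`. -/
lemma exact_sqRel_sqMap {Z'' B'' : Submodule k P} (f : N →ₗ[k] P)
    (hfZ : ∀ x ∈ Z', f x ∈ Z'') (hfB : ∀ x ∈ Z', x ∈ B' → f x ∈ B'')
    (R : Submodule k (M × N))
    (htot : ∀ c ∈ Z, ∃ a ∈ Z', (c, a) ∈ R)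
    (hwd : ∀ c ∈ Z, c ∈ B → ∀ a ∈ Z', (c, a) ∈ R → a ∈ B')
    (h1 : ∀ c ∈ Z, ∀ a ∈ Z', (c, a) ∈ R → f a ∈ B'')
    (h2 : ∀ a ∈ Z', f a ∈ B'' → ∃ c ∈ Z, ∃ a₀ ∈ Z', (c, a₀) ∈ R ∧ a - a₀ ∈ B') :
    Function.Exact (sqRel (B := B) (B' := B') R htot hwd)
      (sqMap (B := B') (B' := B'') f hfZ hfB) := by
  intro y
  constructor
  · induction y using sq_induction with
    | h a ha =>
      intro hy
      rw [sqMap_mk, sq_mk_eq_zero] at hy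
      obtain ⟨c, hc, a₀, ha₀, hR, hsub⟩ := h2 a ha hy
      refine ⟨Submodule.Quotient.mk ⟨c, hc⟩, ?_⟩
      rw [sqRel_mk R htot hwd hc ha₀ hR, sq_mk_eq_mk]
      have : a₀ - a = -(a - a₀) := by abel
      rw [this]
      exact B'.neg_mem hsub
  · rintro ⟨x, rfl⟩
    induction x using sq_induction with
    | h c hc =>
      obtain ⟨a, ha, hca⟩ := htot c hc
      rw [sqRel_mk R htot hwd hc ha hca, sqMap_mk, sq_mk_eq_zero]
      exact h1 c hc a ha hca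

/-- Naturality of relation maps. -/
lemma sqRel_natural {M₂ N₂ : Type*} [AddCommGroup M₂] [Module k M₂] [AddCommGroup N₂]
    [Module k N₂] {Z₂ B₂ : Submodule k M₂} {Z₂' B₂' : Submodule k N₂}
    (R : Submodule k (M × N))
    (htot : ∀ c ∈ Z, ∃ a ∈ Z', (c, a) ∈ R)
    (hwd : ∀ c ∈ Z, c ∈ B → ∀ a ∈ Z', (c, a) ∈ R → a ∈ B')
    (R₂ : Submodule k (M₂ × N₂))
    (htot₂ : ∀ c ∈ Z₂, ∃ a ∈ Z₂', (c, a) ∈ R₂)
    (hwd₂ : ∀ c ∈ Z₂, c ∈ B₂ → ∀ a ∈ Z₂', (c, a) ∈ R₂ → a ∈ B₂')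
    (γ : M →ₗ[k] M₂) (hγZ : ∀ x ∈ Z, γ x ∈ Z₂) (hγB : ∀ x ∈ Z, x ∈ B → γ x ∈ B₂)
    (α : N →ₗ[k] N₂) (hαZ : ∀ x ∈ Z', α x ∈ Z₂') (hαB : ∀ x ∈ Z', x ∈ B' → α x ∈ B₂')
    (hR : ∀ c ∈ Z, ∀ a ∈ Z', (c, a) ∈ R → (γ c, α a) ∈ R₂)
    (y : ↥Z ⧸ B.comap Z.subtype) :
    sqMap (B := B') (B' := B₂') α hαZ hαB (sqRel (B := B) (B' := B') R htot hwd y) =
      sqRel (B := B₂) (B' := B₂') R₂ htot₂ hwd₂ (sqMap (B := B) (B' := B₂) γ hγZ hγB y) := by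
  induction y using sq_induction with
  | h c hc =>
    obtain ⟨a, ha, hca⟩ := htot c hc
    rw [sqRel_mk R htot hwd hc ha hca, sqMap_mk, sqMap_mk,
      sqRel_mk R₂ htot₂ hwd₂ (hγZ c hc) (hαZ a ha) (hR c hc a ha hca)]

end Rel

end Subquot

/-! ### One step of the long exact sequence -/

section Snake

variable {k : Type*} [CommRing k]
variable {XA XB XC YA YB YC : Type*}
  [AddCommGroup XA] [Module k XA] [AddCommGroup XB] [Module k XB] [AddCommGroup XC] [Module k XC]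
  [AddCommGroup YA] [Module k YA] [AddCommGroup YB] [Module k YB] [AddCommGroup YC] [Module k YC]

/-- Hypotheses for one step (degrees `X = n`, `Y = n + 1`) of the long exact sequence of a short
exact sequence `A → B → C` of filtered complexes.  `L` = admissible cochains, `Z` = cocycles,
`B` = coboundaries. -/
structure SnakeHyp (dA : XA →ₗ[k] YA) (dB : XB →ₗ[k] YB) (dC : XC →ₗ[k] YC)
    (iX : XA →ₗ[k] XB) (pX : XB →ₗ[k] XC) (iY : YA →ₗ[k] YB) (pY : YB →ₗ[k] YC)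
    (LXA : Submodule k XA) (LXB : Submodule k XB) (LXC : Submodule k XC)
    (ZXA : Submodule k XA) (ZXB BXB : Submodule k XB) (ZXC BXC : Submodule k XC)
    (ZYA BYA : Submodule k YA) (BYB : Submodule k YB) : Prop where
  i_d : ∀ x, iY (dA x) = dB (iX x)
  p_d : ∀ x, pY (dB x) = dC (pX x)
  iY_inj : Function.Injective iY
  pX_iX : ∀ x, pX (iX x) = 0
  iX_L : ∀ x ∈ LXA, iX x ∈ LXB
  pX_L : ∀ x ∈ LXB, pX x ∈ LXC
  exact_L : ∀ b ∈ LXB, pX b = 0 → ∃ a ∈ LXA, iX a = b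
  surj_L : ∀ c ∈ LXC, ∃ b ∈ LXB, pX b = c
  mem_ZXA : ∀ x, x ∈ ZXA ↔ x ∈ LXA ∧ dA x = 0
  mem_ZXB : ∀ x, x ∈ ZXB ↔ x ∈ LXB ∧ dB x = 0
  mem_ZXC : ∀ x, x ∈ ZXC ↔ x ∈ LXC ∧ dC x = 0
  mem_BYA : ∀ y, y ∈ BYA ↔ ∃ x ∈ LXA, dA x = y
  mem_BYB : ∀ y, y ∈ BYB ↔ ∃ x ∈ LXB, dB x = y
  BXB_le : BXB ≤ ZXB
  surj_B : ∀ c ∈ BXC, ∃ b ∈ BXB, pX b = c
  exact_ZY : ∀ y ∈ BYB, pY y = 0 → ∃ a ∈ ZYA, iY a = y
  pY_iY : ∀ y, pY (iY y) = 0

/-- The linear relation defining the connecting map: `c ~ a` iff there is an admissible `b` with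
`p b = c` and `i a = d b`. -/
def snakeRel (dB : XB →ₗ[k] YB) (pX : XB →ₗ[k] XC) (iY : YA →ₗ[k] YB) (LXB : Submodule k XB) :
    Submodule k (XC × YA) where
  carrier := {x | ∃ b ∈ LXB, pX b = x.1 ∧ iY x.2 = dB b}
  add_mem' := by
    rintro x y ⟨b, hb, h1, h2⟩ ⟨b', hb', h1', h2'⟩
    exact ⟨b + b', LXB.add_mem hb hb', by simp [h1, h1'], by simp [h2, h2']⟩
  zero_mem' := ⟨0, LXB.zero_mem, by simp, by simp⟩
  smul_mem' := by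
    rintro r x ⟨b, hb, h1, h2⟩
    exact ⟨r • b, LXB.smul_mem r hb, by simp [h1], by simp [h2]⟩

lemma mem_snakeRel {dB : XB →ₗ[k] YB} {pX : XB →ₗ[k] XC} {iY : YA →ₗ[k] YB}
    {LXB : Submodule k XB} {c : XC} {a : YA} :
    (c, a) ∈ snakeRel dB pX iY LXB ↔ ∃ b ∈ LXB, pX b = c ∧ iY a = dB b := Iff.rfl

variable {dA : XA →ₗ[k] YA} {dB : XB →ₗ[k] YB} {dC : XC →ₗ[k] YC}
    {iX : XA →ₗ[k] XB} {pX : XB →ₗ[k] XC} {iY : YA →ₗ[k] YB} {pY : YB →ₗ[k] YC}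
    {LXA : Submodule k XA} {LXB : Submodule k XB} {LXC : Submodule k XC}
    {ZXA : Submodule k XA} {ZXB BXB : Submodule k XB} {ZXC BXC : Submodule k XC}
    {ZYA BYA : Submodule k YA} {BYB : Submodule k YB}

namespace SnakeHyp

variable (h : SnakeHyp dA dB dC iX pX iY pY LXA LXB LXC ZXA ZXB BXB ZXC BXC ZYA BYA BYB)
include h

lemma tot : ∀ c ∈ ZXC, ∃ a ∈ ZYA, (c, a) ∈ snakeRel dB pX iY LXB := by
  intro c hc
  obtain ⟨hcL, hdc⟩ := (h.mem_ZXC c).1 hc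
  obtain ⟨b, hb, hpb⟩ := h.surj_L c hcL
  obtain ⟨a, ha, hia⟩ := h.exact_ZY (dB b) ((h.mem_BYB _).2 ⟨b, hb, rfl⟩)
    (by rw [h.p_d, hpb, hdc])
  exact ⟨a, ha, b, hb, hpb, hia⟩

lemma wd : ∀ c ∈ ZXC, c ∈ BXC → ∀ a ∈ ZYA, (c, a) ∈ snakeRel dB pX iY LXB → a ∈ BYA := by
  rintro c - hcB a - ⟨b, hb, hpb, hia⟩
  obtain ⟨b', hb', hpb'⟩ := h.surj_B c hcB
  obtain ⟨hb'L, hdb'⟩ := (h.mem_ZXB b').1 (h.BXB_le hb')
  obtain ⟨a', ha', hia'⟩ := h.exact_L (b - b') (LXB.sub_mem hb hb'L)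
    (by rw [map_sub, hpb, hpb', sub_self])
  refine (h.mem_BYA a).2 ⟨a', ha', ?_⟩
  apply h.iY_inj
  rw [h.i_d, hia', map_sub, hdb', sub_zero, hia]

/-- The connecting map `Hⁿ(C) → Hⁿ⁺¹(A)`. -/
noncomputable def δ : (↥ZXC ⧸ BXC.comap ZXC.subtype) →ₗ[k] (↥ZYA ⧸ BYA.comap ZYA.subtype) :=
  sqRel (snakeRel dB pX iY LXB) h.tot h.wd

lemma δ_mk {c : XC} (hc : c ∈ ZXC) {b : XB} (hb : b ∈ LXB) (hpb : pX b = c) {a : YA}
    (ha : a ∈ ZYA) (hia : iY a = dB b) :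
    h.δ (Submodule.Quotient.mk ⟨c, hc⟩) = Submodule.Quotient.mk ⟨a, ha⟩ :=
  sqRel_mk _ h.tot h.wd hc ha ⟨b, hb, hpb, hia⟩

/-- Exactness at `Hⁿ(B)`. -/
theorem exact_B {BXA : Submodule k XA}
    (hiZ : ∀ x ∈ ZXA, iX x ∈ ZXB) (hiB : ∀ x ∈ ZXA, x ∈ BXA → iX x ∈ BXB)
    (hpZ : ∀ x ∈ ZXB, pX x ∈ ZXC) (hpB : ∀ x ∈ ZXB, x ∈ BXB → pX x ∈ BXC) :
    Function.Exact (sqMap (B := BXA) (B' := BXB) iX hiZ hiB)
      (sqMap (B := BXB) (B' := BXC) pX hpZ hpB) := by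
  apply sqMap_exact
  · intro x _
    rw [h.pX_iX]
    exact BXC.zero_mem
  · intro b hb hpb
    obtain ⟨hbL, hdb⟩ := (h.mem_ZXB b).1 hb
    obtain ⟨b', hb', hpb'⟩ := h.surj_B _ hpb
    obtain ⟨hb'L, hdb'⟩ := (h.mem_ZXB b').1 (h.BXB_le hb')
    obtain ⟨a, ha, hia⟩ := h.exact_L (b - b') (LXB.sub_mem hbL hb'L)
      (by rw [map_sub, hpb', sub_self])
    refine ⟨a, (h.mem_ZXA a).2 ⟨ha, ?_⟩, ?_⟩
    · apply h.iY_inj
      rw [h.i_d, hia, map_sub, hdb, hdb', sub_self, map_zero]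
    · rw [hia, sub_sub_cancel]
      exact hb'

/-- Exactness at `Hⁿ(C)`. -/
theorem exact_C (hpZ : ∀ x ∈ ZXB, pX x ∈ ZXC) (hpB : ∀ x ∈ ZXB, x ∈ BXB → pX x ∈ BXC) :
    Function.Exact (sqMap (B := BXB) (B' := BXC) pX hpZ hpB) h.δ := by
  apply exact_sqMap_sqRel
  · intro b hb
    obtain ⟨hbL, hdb⟩ := (h.mem_ZXB b).1 hb
    obtain ⟨a, ha, hia⟩ := h.exact_ZY 0 BYB.zero_mem (map_zero _)
    have ha0 : a = 0 := h.iY_inj (by rw [hia, map_zero])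
    subst ha0
    exact ⟨0, ha, ⟨b, hbL, rfl, by rw [hdb, map_zero]⟩, BYA.zero_mem⟩
  · rintro c - a - ⟨b, hb, hpb, hia⟩ haB
    obtain ⟨a', ha', hda'⟩ := (h.mem_BYA a).1 haB
    refine ⟨b - iX a', (h.mem_ZXB _).2 ⟨LXB.sub_mem hb (h.iX_L a' ha'), ?_⟩, ?_⟩
    · rw [map_sub, ← h.i_d, hda', hia, sub_self]
    · rw [map_sub, h.pX_iX, sub_zero, hpb, sub_self]
      exact BXC.zero_mem

/-- Exactness at `Hⁿ⁺¹(A)`. -/
theorem exact_A {ZYB : Submodule k YB}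
    (hiZ : ∀ x ∈ ZYA, iY x ∈ ZYB) (hiB : ∀ x ∈ ZYA, x ∈ BYA → iY x ∈ BYB) :
    Function.Exact h.δ (sqMap (B := BYA) (B' := BYB) iY hiZ hiB) := by
  apply exact_sqRel_sqMap
  · rintro c - a - ⟨b, hb, -, hia⟩
    exact (h.mem_BYB _).2 ⟨b, hb, hia.symm⟩
  · intro a ha hia
    obtain ⟨b, hb, hdb⟩ := (h.mem_BYB _).1 hia
    refine ⟨pX b, (h.mem_ZXC _).2 ⟨h.pX_L b hb, ?_⟩, a, ha, ⟨b, hb, rfl, hdb.symm⟩, ?_⟩
    · rw [← h.p_d, hdb, h.pY_iY]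
    · rw [sub_self]
      exact BYA.zero_mem

/-- Naturality of the connecting map with respect to a morphism of short exact sequences. -/
theorem δ_natural {XB' XC' YA' YB' XA' YC' : Type*}
    [AddCommGroup XA'] [Module k XA'] [AddCommGroup XB'] [Module k XB']
    [AddCommGroup XC'] [Module k XC'] [AddCommGroup YA'] [Module k YA']
    [AddCommGroup YB'] [Module k YB'] [AddCommGroup YC'] [Module k YC']
    {dA' : XA' →ₗ[k] YA'} {dB' : XB' →ₗ[k] YB'} {dC' : XC' →ₗ[k] YC'}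
    {iX' : XA' →ₗ[k] XB'} {pX' : XB' →ₗ[k] XC'} {iY' : YA' →ₗ[k] YB'} {pY' : YB' →ₗ[k] YC'}
    {LXA' : Submodule k XA'} {LXB' : Submodule k XB'} {LXC' : Submodule k XC'}
    {ZXA' : Submodule k XA'} {ZXB' BXB' : Submodule k XB'} {ZXC' BXC' : Submodule k XC'}
    {ZYA' BYA' : Submodule k YA'} {BYB' : Submodule k YB'}
    (h' : SnakeHyp dA' dB' dC' iX' pX' iY' pY' LXA' LXB' LXC' ZXA' ZXB' BXB' ZXC' BXC'
      ZYA' BYA' BYB')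
    (α : YA →ₗ[k] YA') (βX : XB →ₗ[k] XB') (βY : YB →ₗ[k] YB') (γ : XC →ₗ[k] XC')
    (hβL : ∀ x ∈ LXB, βX x ∈ LXB') (hpβ : ∀ x, pX' (βX x) = γ (pX x))
    (hiα : ∀ y, iY' (α y) = βY (iY y)) (hdβ : ∀ x, βY (dB x) = dB' (βX x))
    (hγZ : ∀ x ∈ ZXC, γ x ∈ ZXC') (hγB : ∀ x ∈ ZXC, x ∈ BXC → γ x ∈ BXC')
    (hαZ : ∀ x ∈ ZYA, α x ∈ ZYA') (hαB : ∀ x ∈ ZYA, x ∈ BYA → α x ∈ BYA')
    (y : ↥ZXC ⧸ BXC.comap ZXC.subtype) :
    sqMap (B := BYA) (B' := BYA') α hαZ hαB (h.δ y) =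
      h'.δ (sqMap (B := BXC) (B' := BXC') γ hγZ hγB y) := by
  apply sqRel_natural
  rintro c - a - ⟨b, hb, hpb, hia⟩
  exact ⟨βX b, hβL b hb, by rw [hpβ, hpb], by rw [hiα, hia, hdβ]⟩

end SnakeHyp

end Snake

end Fermat.Agent.CFT.H1
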