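/-
CFT project, layer D0 (package D0-LES, helper1).

Long exact cohomology sequence `H⁰ … H³` for the level cohomology of `H55_LevelDefs`, for a short
exact sequence of discrete representations, with functoriality and naturality of the connecting
maps.
-/
import Fermat.Agent.CFT.H55_LevelDefs
import Fermat.Agent.CFT.H1_SubquotSnake

set_option autoImplicit false

noncomputable section

universe u

open CategoryTheory groupCohomology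

namespace Fermat.Agent.CFT.H1

open Fermat.Agent.CFT LevelStructure

variable {H : Type u} [Group H] (𝓛 : LevelStructure H) {k : Type u} [CommRing k]

/-! ### Level-constant functions take finitely many values -/

section Finite

variable {X : Type*}

lemma finite_quotient_of_mem_levels {N : Subgroup H} (hN : N ∈ 𝓛.levels) : Finite (H ⧸ N) := by
  have := 𝓛.finiteIndex N hN
  exact Subgroup.finite_quotient_of_finiteIndex

variable {𝓛}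

lemma finite_range_of_isConst₁ {f : H → X} (hf : 𝓛.IsConst₁ f) : (Set.range f).Finite := by
  obtain ⟨N, hN, h⟩ := hf
  have := finite_quotient_of_mem_levels 𝓛 hN
  refine (Set.finite_range (fun q : H ⧸ N => f q.out)).subset ?_
  rintro _ ⟨g, rfl⟩
  obtain ⟨s, hs⟩ := QuotientGroup.mk_out_eq_mul N g
  exact ⟨(g : H ⧸ N), by simp only [hs, h g s s.2]⟩

lemma finite_range_of_isConst₂ {f : H × H → X} (hf : 𝓛.IsConst₂ f) : (Set.range f).Finite := by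
  obtain ⟨N, hN, h⟩ := hf
  have := finite_quotient_of_mem_levels 𝓛 hN
  refine (Set.finite_range (fun q : (H ⧸ N) × (H ⧸ N) => f (q.1.out, q.2.out))).subset ?_
  rintro _ ⟨⟨g, g'⟩, rfl⟩
  obtain ⟨s, hs⟩ := QuotientGroup.mk_out_eq_mul N g
  obtain ⟨s', hs'⟩ := QuotientGroup.mk_out_eq_mul N g'
  exact ⟨((g : H ⧸ N), (g' : H ⧸ N)), by simp only [hs, hs', h g g' s s' s.2 s'.2]⟩

lemma finite_range_of_isConst₃ {f : H × H × H → X} (hf : 𝓛.IsConst₃ f) :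
    (Set.range f).Finite := by
  obtain ⟨N, hN, h⟩ := hf
  have := finite_quotient_of_mem_levels 𝓛 hN
  refine (Set.finite_range
    (fun q : (H ⧸ N) × (H ⧸ N) × (H ⧸ N) => f (q.1.out, q.2.1.out, q.2.2.out))).subset ?_
  rintro _ ⟨⟨g, g', g''⟩, rfl⟩
  obtain ⟨s, hs⟩ := QuotientGroup.mk_out_eq_mul N g
  obtain ⟨s', hs'⟩ := QuotientGroup.mk_out_eq_mul N g'
  obtain ⟨s'', hs''⟩ := QuotientGroup.mk_out_eq_mul N g''
  exact ⟨((g : H ⧸ N), (g' : H ⧸ N), (g'' : H ⧸ N)),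
    by simp only [hs, hs', hs'', h g g' g'' s s' s'' s.2 s'.2 s''.2]⟩

end Finite

/-! ### Good levels -/

section Good

variable {𝓛} {A : Rep.{u} k H}

lemma exists_level_fixing (hA : 𝓛.IsDiscrete A) {T : Set A} (hT : T.Finite) :
    ∃ N ∈ 𝓛.levels, ∀ a ∈ T, ∀ n ∈ N, A.ρ n a = a := by
  induction T, hT using Set.Finite.induction_on with
  | empty =>
    obtain ⟨N, hN⟩ := 𝓛.nonempty
    exact ⟨N, hN, fun a ha => (Set.notMem_empty a ha).elim⟩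
  | @insert a T _ _ ih =>
    obtain ⟨N₁, hN₁, h₁⟩ := ih
    obtain ⟨N₂, hN₂, h₂⟩ := hA a
    obtain ⟨N₃, hN₃, hle⟩ := 𝓛.directed N₁ hN₁ N₂ hN₂
    refine ⟨N₃, hN₃, fun b hb n hn => ?_⟩
    rcases hb with rfl | hb
    · exact h₂ n (hle hn).2
    · exact h₁ b hb n (hle hn).1

/-- A level below two given ones which is moreover normal. -/
lemma exists_normal_le (N₁ : Subgroup H) (h₁ : N₁ ∈ 𝓛.levels) (N₂ : Subgroup H)
    (h₂ : N₂ ∈ 𝓛.levels) : ∃ N ∈ 𝓛.levels, N.Normal ∧ N ≤ N₁ ∧ N ≤ N₂ := by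
  obtain ⟨N₃, h₃, hle⟩ := 𝓛.directed N₁ h₁ N₂ h₂
  obtain ⟨N, hN, hle', hnor⟩ := 𝓛.exists_normal N₃ h₃
  exact ⟨N, hN, hnor, fun x hx => (hle (hle' hx)).1, fun x hx => (hle (hle' hx)).2⟩

lemma exists_good₁ (hA : 𝓛.IsDiscrete A) {f : H → A} (hf : 𝓛.IsConst₁ f) :
    ∃ N ∈ 𝓛.levels, N.Normal ∧ (∀ g s, s ∈ N → f (g * s) = f g) ∧
      ∀ g, ∀ s ∈ N, A.ρ s (f g) = f g := by
  obtain ⟨N₂, hN₂, h₂⟩ := exists_level_fixing hA (finite_range_of_isConst₁ hf)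
  obtain ⟨N₁, hN₁, h₁⟩ := hf
  obtain ⟨N, hN, hnor, hle₁, hle₂⟩ := exists_normal_le N₁ hN₁ N₂ hN₂
  exact ⟨N, hN, hnor, fun g s hs => h₁ g s (hle₁ hs),
    fun g s hs => h₂ _ ⟨g, rfl⟩ s (hle₂ hs)⟩

lemma exists_good₂ (hA : 𝓛.IsDiscrete A) {f : H × H → A} (hf : 𝓛.IsConst₂ f) :
    ∃ N ∈ 𝓛.levels, N.Normal ∧
      (∀ g g' s s', s ∈ N → s' ∈ N → f (g * s, g' * s') = f (g, g')) ∧
      ∀ x, ∀ s ∈ N, A.ρ s (f x) = f x := by
  obtain ⟨N₂, hN₂, h₂⟩ := exists_level_fixing hA (finite_range_of_isConst₂ hf)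
  obtain ⟨N₁, hN₁, h₁⟩ := hf
  obtain ⟨N, hN, hnor, hle₁, hle₂⟩ := exists_normal_le N₁ hN₁ N₂ hN₂
  exact ⟨N, hN, hnor, fun g g' s s' hs hs' => h₁ g g' s s' (hle₁ hs) (hle₁ hs'),
    fun x s hs => h₂ _ ⟨x, rfl⟩ s (hle₂ hs)⟩

lemma exists_good₃ (hA : 𝓛.IsDiscrete A) {f : H × H × H → A} (hf : 𝓛.IsConst₃ f) :
    ∃ N ∈ 𝓛.levels, N.Normal ∧
      (∀ g g' g'' s s' s'', s ∈ N → s' ∈ N → s'' ∈ N →
        f (g * s, g' * s', g'' * s'') = f (g, g', g'')) ∧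
      ∀ x, ∀ s ∈ N, A.ρ s (f x) = f x := by
  obtain ⟨N₂, hN₂, h₂⟩ := exists_level_fixing hA (finite_range_of_isConst₃ hf)
  obtain ⟨N₁, hN₁, h₁⟩ := hf
  obtain ⟨N, hN, hnor, hle₁, hle₂⟩ := exists_normal_le N₁ hN₁ N₂ hN₂
  exact ⟨N, hN, hnor,
    fun g g' g'' s s' s'' hs hs' hs'' => h₁ g g' g'' s s' s'' (hle₁ hs) (hle₁ hs') (hle₁ hs''),
    fun x s hs => h₂ _ ⟨x, rfl⟩ s (hle₂ hs)⟩

end Good

/-! ### The differentials preserve level cochains (discrete coefficients) -/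

section Diff

variable {𝓛} {A : Rep.{u} k H}

lemma mul_mul_conj (g s g' s' : H) : g * s * (g' * s') = g * g' * (g'⁻¹ * s * g' * s') := by
  group

lemma d₀₁_mem_cochains₁ (hA : 𝓛.IsDiscrete A) (a : A) : (d₀₁ A).hom a ∈ 𝓛.cochains₁ A := by
  obtain ⟨N, hN, h⟩ := hA a
  refine ⟨N, hN, fun g s hs => ?_⟩
  simp only [d₀₁_hom_apply, map_mul, Module.End.mul_apply, h s hs]

lemma d₁₂_mem_cochains₂ (hA : 𝓛.IsDiscrete A) {f : H → A} (hf : f ∈ 𝓛.cochains₁ A) :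
    (d₁₂ A).hom f ∈ 𝓛.cochains₂ A := by
  obtain ⟨N, hN, hnor, h₁, h₂⟩ := exists_good₁ hA hf
  refine ⟨N, hN, fun g g' s s' hs hs' => ?_⟩
  have hc : g'⁻¹ * s * g' * s' ∈ N := N.mul_mem (hnor.conj_mem' s hs g') hs'
  simp only [d₁₂_hom_apply, map_mul, Module.End.mul_apply]
  rw [mul_mul_conj, h₁ _ _ hc, h₁ _ _ hs, h₁ _ _ hs', h₂ _ _ hs]

lemma d₂₃_mem_cochains₃ (hA : 𝓛.IsDiscrete A) {f : H × H → A} (hf : f ∈ 𝓛.cochains₂ A) :
    (d₂₃ A).hom f ∈ 𝓛.cochains₃ A := by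
  obtain ⟨N, hN, hnor, h₁, h₂⟩ := exists_good₂ hA hf
  refine ⟨N, hN, fun g g' g'' s s' s'' hs hs' hs'' => ?_⟩
  have hc : g'⁻¹ * s * g' * s' ∈ N := N.mul_mem (hnor.conj_mem' s hs g') hs'
  have hc' : g''⁻¹ * s' * g'' * s'' ∈ N := N.mul_mem (hnor.conj_mem' s' hs' g'') hs''
  simp only [d₂₃_hom_apply, map_mul, Module.End.mul_apply]
  rw [mul_mul_conj g s g' s', mul_mul_conj g' s' g'' s'', h₁ _ _ _ _ hc hs'', h₁ _ _ _ _ hs hc',
    h₁ _ _ _ _ hs hs', h₁ _ _ _ _ hs' hs'', h₂ _ _ hs]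

lemma d₃₄_apply (f : H × H × H → A) (x : H × H × H × H) :
    d₃₄ A f x = A.ρ x.1 (f (x.2.1, x.2.2.1, x.2.2.2)) - f (x.1 * x.2.1, x.2.2.1, x.2.2.2)
    + f (x.1, x.2.1 * x.2.2.1, x.2.2.2) - f (x.1, x.2.1, x.2.2.1 * x.2.2.2)
    + f (x.1, x.2.1, x.2.2.1) := rfl

lemma d₃₄_d₂₃ (f : H × H → A) : d₃₄ A ((d₂₃ A).hom f) = 0 := by
  ext x
  simp only [d₃₄_apply, d₂₃_hom_apply, map_add, map_sub, Pi.zero_apply, mul_assoc,
    ← Module.End.mul_apply, ← map_mul]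
  abel

lemma d₂₃_d₁₂ (f : H → A) : (d₂₃ A).hom ((d₁₂ A).hom f) = 0 := by
  simp

lemma d₁₂_d₀₁ (a : A) : (d₁₂ A).hom ((d₀₁ A).hom a) = 0 := by
  simp

end Diff

/-! ### Functoriality in the coefficients -/

section Functoriality

variable {A B C : Rep.{u} k H}

/-- Post-composition of `I`-indexed families with a morphism of representations. -/
def compL (φ : A ⟶ B) (I : Type u) : (I → A) →ₗ[k] (I → B) := φ.hom.toLinearMap.compLeft I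

@[simp] lemma compL_apply (φ : A ⟶ B) (I : Type u) (f : I → A) (x : I) :
    compL φ I f x = φ.hom (f x) := rfl

lemma compL_id (I : Type u) : compL (𝟙 A) I = LinearMap.id := by
  ext f x
  rfl

lemma compL_comp (φ : A ⟶ B) (ψ : B ⟶ C) (I : Type u) :
    compL (φ ≫ ψ) I = compL ψ I ∘ₗ compL φ I := by
  ext f x
  rfl

lemma compL_d₀₁ (φ : A ⟶ B) (a : A) :
    compL φ H ((d₀₁ A).hom a) = (d₀₁ B).hom (φ.hom a) := by
  ext g
  simp only [compL_apply, d₀₁_hom_apply, map_sub, Rep.hom_comm_apply]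

lemma compL_d₁₂ (φ : A ⟶ B) (f : H → A) :
    compL φ (H × H) ((d₁₂ A).hom f) = (d₁₂ B).hom (compL φ H f) := by
  ext g
  simp only [compL_apply, d₁₂_hom_apply, map_sub, map_add, Rep.hom_comm_apply]

lemma compL_d₂₃ (φ : A ⟶ B) (f : H × H → A) :
    compL φ (H × H × H) ((d₂₃ A).hom f) = (d₂₃ B).hom (compL φ (H × H) f) := by
  ext g
  simp only [compL_apply, d₂₃_hom_apply, map_sub, map_add, Rep.hom_comm_apply]

lemma compL_d₃₄ (φ : A ⟶ B) (f : H × H × H → A) :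
    compL φ (H × H × H × H) (d₃₄ A f) = d₃₄ B (compL φ (H × H × H) f) := by
  ext g
  simp only [compL_apply, d₃₄_apply, map_sub, map_add, Rep.hom_comm_apply]

variable {𝓛}

lemma compL_mem_cochains₁ (φ : A ⟶ B) {f : H → A} (hf : f ∈ 𝓛.cochains₁ A) :
    compL φ H f ∈ 𝓛.cochains₁ B := IsConst₁.comp hf φ.hom

lemma compL_mem_cochains₂ (φ : A ⟶ B) {f : H × H → A} (hf : f ∈ 𝓛.cochains₂ A) :
    compL φ (H × H) f ∈ 𝓛.cochains₂ B := IsConst₂.comp hf φ.hom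

lemma compL_mem_cochains₃ (φ : A ⟶ B) {f : H × H × H → A} (hf : f ∈ 𝓛.cochains₃ A) :
    compL φ (H × H × H) f ∈ 𝓛.cochains₃ B := IsConst₃.comp hf φ.hom

lemma mem_cocycles₁_iff' (f : H → A) :
    f ∈ 𝓛.cocycles₁ A ↔ f ∈ 𝓛.cochains₁ A ∧ (d₁₂ A).hom f = 0 := by
  change (f ∈ LinearMap.ker (d₁₂ A).hom ∧ f ∈ 𝓛.cochains₁ A) ↔ _
  rw [LinearMap.mem_ker, and_comm]

lemma mem_cocycles₂_iff' (f : H × H → A) :
    f ∈ 𝓛.cocycles₂ A ↔ f ∈ 𝓛.cochains₂ A ∧ (d₂₃ A).hom f = 0 := by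
  change (f ∈ LinearMap.ker (d₂₃ A).hom ∧ f ∈ 𝓛.cochains₂ A) ↔ _
  rw [LinearMap.mem_ker, and_comm]

lemma mem_cocycles₃_iff' (f : H × H × H → A) :
    f ∈ 𝓛.cocycles₃ A ↔ f ∈ 𝓛.cochains₃ A ∧ d₃₄ A f = 0 := by
  change (f ∈ LinearMap.ker (d₃₄ A) ∧ f ∈ 𝓛.cochains₃ A) ↔ _
  rw [LinearMap.mem_ker, and_comm]

lemma mem_coboundaries₁_iff (f : H → A) :
    f ∈ 𝓛.coboundaries₁ A ↔ ∃ a : A, (d₀₁ A).hom a = f := Iff.rfl

lemma mem_coboundaries₂_iff (f : H × H → A) :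
    f ∈ 𝓛.coboundaries₂ A ↔ ∃ x ∈ 𝓛.cochains₁ A, (d₁₂ A).hom x = f := Iff.rfl

lemma mem_coboundaries₃_iff (f : H × H × H → A) :
    f ∈ 𝓛.coboundaries₃ A ↔ ∃ x ∈ 𝓛.cochains₂ A, (d₂₃ A).hom x = f := Iff.rfl

lemma compL_mem_cocycles₁ (φ : A ⟶ B) {f : H → A} (hf : f ∈ 𝓛.cocycles₁ A) :
    compL φ H f ∈ 𝓛.cocycles₁ B := by
  rw [mem_cocycles₁_iff'] at hf ⊢
  exact ⟨compL_mem_cochains₁ φ hf.1, by rw [← compL_d₁₂, hf.2, map_zero]⟩

lemma compL_mem_cocycles₂ (φ : A ⟶ B) {f : H × H → A} (hf : f ∈ 𝓛.cocycles₂ A) :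
    compL φ (H × H) f ∈ 𝓛.cocycles₂ B := by
  rw [mem_cocycles₂_iff'] at hf ⊢
  exact ⟨compL_mem_cochains₂ φ hf.1, by rw [← compL_d₂₃, hf.2, map_zero]⟩

lemma compL_mem_cocycles₃ (φ : A ⟶ B) {f : H × H × H → A} (hf : f ∈ 𝓛.cocycles₃ A) :
    compL φ (H × H × H) f ∈ 𝓛.cocycles₃ B := by
  rw [mem_cocycles₃_iff'] at hf ⊢
  exact ⟨compL_mem_cochains₃ φ hf.1, by rw [← compL_d₃₄, hf.2, map_zero]⟩

lemma compL_mem_coboundaries₁ (φ : A ⟶ B) {f : H → A} (hf : f ∈ 𝓛.coboundaries₁ A) :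
    compL φ H f ∈ 𝓛.coboundaries₁ B := by
  obtain ⟨a, rfl⟩ := hf
  exact ⟨φ.hom a, (compL_d₀₁ φ a).symm⟩

lemma compL_mem_coboundaries₂ (φ : A ⟶ B) {f : H × H → A} (hf : f ∈ 𝓛.coboundaries₂ A) :
    compL φ (H × H) f ∈ 𝓛.coboundaries₂ B := by
  obtain ⟨x, hx, rfl⟩ := hf
  exact ⟨compL φ H x, compL_mem_cochains₁ φ hx, (compL_d₁₂ φ x).symm⟩

lemma compL_mem_coboundaries₃ (φ : A ⟶ B) {f : H × H × H → A} (hf : f ∈ 𝓛.coboundaries₃ A) :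
    compL φ (H × H × H) f ∈ 𝓛.coboundaries₃ B := by
  obtain ⟨x, hx, rfl⟩ := hf
  exact ⟨compL φ (H × H) x, compL_mem_cochains₂ φ hx, (compL_d₂₃ φ x).symm⟩

variable (𝓛)

/-- Functoriality of `H⁰`. -/
def H0map (φ : A ⟶ B) : LevelStructure.H0 A →ₗ[k] LevelStructure.H0 B :=
  φ.hom.toLinearMap.restrict (p := A.ρ.invariants) (q := B.ρ.invariants) (fun x hx g => by
    change B.ρ g (φ.hom x) = φ.hom x
    rw [← Rep.hom_comm_apply, hx g])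

@[simp] lemma H0map_coe (φ : A ⟶ B) (x : LevelStructure.H0 A) :
    (H0map φ x : B) = φ.hom x := rfl

/-- Functoriality of level `H¹`. -/
def H1map (φ : A ⟶ B) : 𝓛.H1 A →ₗ[k] 𝓛.H1 B :=
  sqMap (compL φ H) (fun _ hx => compL_mem_cocycles₁ φ hx)
    (fun _ _ hx => compL_mem_coboundaries₁ φ hx)

/-- Functoriality of level `H²`. -/
def H2map (φ : A ⟶ B) : 𝓛.H2 A →ₗ[k] 𝓛.H2 B :=
  sqMap (compL φ (H × H)) (fun _ hx => compL_mem_cocycles₂ φ hx)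
    (fun _ _ hx => compL_mem_coboundaries₂ φ hx)

/-- Functoriality of level `H³`. -/
def H3map (φ : A ⟶ B) : 𝓛.H3 A →ₗ[k] 𝓛.H3 B :=
  sqMap (compL φ (H × H × H)) (fun _ hx => compL_mem_cocycles₃ φ hx)
    (fun _ _ hx => compL_mem_coboundaries₃ φ hx)

lemma H1map_mk (φ : A ⟶ B) (f : H → A) (hf : f ∈ 𝓛.cocycles₁ A) :
    H1map 𝓛 φ (Submodule.Quotient.mk ⟨f, hf⟩) =
      Submodule.Quotient.mk ⟨compL φ H f, compL_mem_cocycles₁ φ hf⟩ := rfl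

lemma H2map_mk (φ : A ⟶ B) (f : H × H → A) (hf : f ∈ 𝓛.cocycles₂ A) :
    H2map 𝓛 φ (Submodule.Quotient.mk ⟨f, hf⟩) =
      Submodule.Quotient.mk ⟨compL φ (H × H) f, compL_mem_cocycles₂ φ hf⟩ := rfl

lemma H3map_mk (φ : A ⟶ B) (f : H × H × H → A) (hf : f ∈ 𝓛.cocycles₃ A) :
    H3map 𝓛 φ (Submodule.Quotient.mk ⟨f, hf⟩) =
      Submodule.Quotient.mk ⟨compL φ (H × H × H) f, compL_mem_cocycles₃ φ hf⟩ := rfl

lemma H0map_id : H0map (𝟙 A) = LinearMap.id := by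
  ext x
  rfl

lemma H1map_id : H1map 𝓛 (𝟙 A) = LinearMap.id := by
  ext x
  rfl

lemma H2map_id : H2map 𝓛 (𝟙 A) = LinearMap.id := by
  ext x
  rfl

lemma H3map_id : H3map 𝓛 (𝟙 A) = LinearMap.id := by
  ext x
  rfl

lemma H0map_comp (φ : A ⟶ B) (ψ : B ⟶ C) :
    H0map (φ ≫ ψ) = H0map ψ ∘ₗ H0map φ := by
  ext x
  rfl

lemma H1map_comp (φ : A ⟶ B) (ψ : B ⟶ C) :
    H1map 𝓛 (φ ≫ ψ) = H1map 𝓛 ψ ∘ₗ H1map 𝓛 φ := by
  ext x
  rfl

lemma H2map_comp (φ : A ⟶ B) (ψ : B ⟶ C) :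
    H2map 𝓛 (φ ≫ ψ) = H2map 𝓛 ψ ∘ₗ H2map 𝓛 φ := by
  ext x
  rfl

lemma H3map_comp (φ : A ⟶ B) (ψ : B ⟶ C) :
    H3map 𝓛 (φ ≫ ψ) = H3map 𝓛 ψ ∘ₗ H3map 𝓛 φ := by
  ext x
  rfl

end Functoriality

/-! ### Coboundaries are cocycles (discrete coefficients) -/

section CobLe

variable {𝓛} {A : Rep.{u} k H}

lemma coboundaries₁_le (hA : 𝓛.IsDiscrete A) : 𝓛.coboundaries₁ A ≤ 𝓛.cocycles₁ A := by
  rintro _ ⟨a, rfl⟩
  rw [mem_cocycles₁_iff']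
  exact ⟨d₀₁_mem_cochains₁ hA a, d₁₂_d₀₁ a⟩

lemma coboundaries₂_le (hA : 𝓛.IsDiscrete A) : 𝓛.coboundaries₂ A ≤ 𝓛.cocycles₂ A := by
  rintro _ ⟨f, hf, rfl⟩
  rw [mem_cocycles₂_iff']
  exact ⟨d₁₂_mem_cochains₂ hA hf, d₂₃_d₁₂ f⟩

lemma coboundaries₃_le (hA : 𝓛.IsDiscrete A) : 𝓛.coboundaries₃ A ≤ 𝓛.cocycles₃ A := by
  rintro _ ⟨f, hf, rfl⟩
  rw [mem_cocycles₃_iff']
  exact ⟨d₂₃_mem_cochains₃ hA hf, d₃₄_d₂₃ f⟩

end CobLe

/-! ### Short exact sequences of representations -/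

/-- A short exact sequence `0 → A → B → C → 0` of representations, in elementwise form. -/
structure IsSES {A B C : Rep.{u} k H} (i : A ⟶ B) (p : B ⟶ C) : Prop where
  inj : Function.Injective i.hom
  surj : Function.Surjective p.hom
  exact : Function.Exact i.hom p.hom

namespace IsSES

variable {𝓛} {A B C : Rep.{u} k H} {i : A ⟶ B} {p : B ⟶ C} (h : IsSES i p)
include h

lemma zero (a : A) : p.hom (i.hom a) = 0 := h.exact.apply_apply_eq_zero a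

lemma discrete_left (hB : 𝓛.IsDiscrete B) : 𝓛.IsDiscrete A := by
  intro a
  obtain ⟨N, hN, hfix⟩ := hB (i.hom a)
  refine ⟨N, hN, fun n hn => h.inj ?_⟩
  rw [Rep.hom_comm_apply, hfix n hn]

lemma discrete_right (hB : 𝓛.IsDiscrete B) : 𝓛.IsDiscrete C := by
  intro c
  obtain ⟨b, rfl⟩ := h.surj c
  obtain ⟨N, hN, hfix⟩ := hB b
  refine ⟨N, hN, fun n hn => ?_⟩
  rw [← Rep.hom_comm_apply, hfix n hn]

lemma compL_injective (I : Type u) : Function.Injective (compL i I) := by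
  intro f f' hff'
  ext x
  exact h.inj (congrFun hff' x)

lemma compL_zero (I : Type u) (f : I → A) : compL p I (compL i I f) = 0 := by
  ext x
  exact h.zero (f x)

/-- Set-theoretic lifting of families along `p`. -/
lemma compL_surjInv (I : Type u) (f : I → C) :
    compL p I (Function.surjInv h.surj ∘ f) = f := by
  ext x
  exact Function.surjInv_eq h.surj (f x)

/-- Set-theoretic retraction of families along `i`. -/
lemma compL_invFun (I : Type u) (f : I → B) (hf : compL p I f = 0) :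
    compL i I (Function.invFun i.hom ∘ f) = f := by
  ext x
  have hx : p.hom (f x) = 0 := congrFun hf x
  exact Function.invFun_eq ((h.exact (f x)).1 hx)

lemma surj_cochains₁ : ∀ c ∈ 𝓛.cochains₁ C, ∃ b ∈ 𝓛.cochains₁ B, compL p H b = c :=
  fun c hc => ⟨_, IsConst₁.comp hc _, h.compL_surjInv H c⟩

lemma surj_cochains₂ : ∀ c ∈ 𝓛.cochains₂ C, ∃ b ∈ 𝓛.cochains₂ B, compL p (H × H) b = c :=
  fun c hc => ⟨_, IsConst₂.comp hc _, h.compL_surjInv _ c⟩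

lemma surj_cochains₃ :
    ∀ c ∈ 𝓛.cochains₃ C, ∃ b ∈ 𝓛.cochains₃ B, compL p (H × H × H) b = c :=
  fun c hc => ⟨_, IsConst₃.comp hc _, h.compL_surjInv _ c⟩

lemma exact_cochains₁ :
    ∀ b ∈ 𝓛.cochains₁ B, compL p H b = 0 → ∃ a ∈ 𝓛.cochains₁ A, compL i H a = b :=
  fun b hb hpb => ⟨_, IsConst₁.comp hb _, h.compL_invFun H b hpb⟩

lemma exact_cochains₂ :
    ∀ b ∈ 𝓛.cochains₂ B, compL p (H × H) b = 0 → ∃ a ∈ 𝓛.cochains₂ A, compL i (H × H) a = b :=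
  fun b hb hpb => ⟨_, IsConst₂.comp hb _, h.compL_invFun _ b hpb⟩

lemma exact_cochains₃ :
    ∀ b ∈ 𝓛.cochains₃ B, compL p (H × H × H) b = 0 →
      ∃ a ∈ 𝓛.cochains₃ A, compL i (H × H × H) a = b :=
  fun b hb hpb => ⟨_, IsConst₃.comp hb _, h.compL_invFun _ b hpb⟩

lemma exact_cocycles₁ :
    ∀ b ∈ 𝓛.cocycles₁ B, compL p H b = 0 → ∃ a ∈ 𝓛.cocycles₁ A, compL i H a = b := by
  intro b hb hpb
  rw [mem_cocycles₁_iff'] at hb
  obtain ⟨a, ha, rfl⟩ := h.exact_cochains₁ b hb.1 hpb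
  refine ⟨a, (mem_cocycles₁_iff' a).2 ⟨ha, h.compL_injective _ ?_⟩, rfl⟩
  rw [compL_d₁₂, hb.2, map_zero]

lemma exact_cocycles₂ :
    ∀ b ∈ 𝓛.cocycles₂ B, compL p (H × H) b = 0 →
      ∃ a ∈ 𝓛.cocycles₂ A, compL i (H × H) a = b := by
  intro b hb hpb
  rw [mem_cocycles₂_iff'] at hb
  obtain ⟨a, ha, rfl⟩ := h.exact_cochains₂ b hb.1 hpb
  refine ⟨a, (mem_cocycles₂_iff' a).2 ⟨ha, h.compL_injective _ ?_⟩, rfl⟩
  rw [compL_d₂₃, hb.2, map_zero]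

lemma exact_cocycles₃ :
    ∀ b ∈ 𝓛.cocycles₃ B, compL p (H × H × H) b = 0 →
      ∃ a ∈ 𝓛.cocycles₃ A, compL i (H × H × H) a = b := by
  intro b hb hpb
  rw [mem_cocycles₃_iff'] at hb
  obtain ⟨a, ha, rfl⟩ := h.exact_cochains₃ b hb.1 hpb
  refine ⟨a, (mem_cocycles₃_iff' a).2 ⟨ha, h.compL_injective _ ?_⟩, rfl⟩
  rw [compL_d₃₄, hb.2, map_zero]

lemma surj_coboundaries₁ :
    ∀ c ∈ 𝓛.coboundaries₁ C, ∃ b ∈ 𝓛.coboundaries₁ B, compL p H b = c := by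
  rintro _ ⟨c, rfl⟩
  obtain ⟨b, rfl⟩ := h.surj c
  exact ⟨_, ⟨b, rfl⟩, compL_d₀₁ p b⟩

lemma surj_coboundaries₂ :
    ∀ c ∈ 𝓛.coboundaries₂ C, ∃ b ∈ 𝓛.coboundaries₂ B, compL p (H × H) b = c := by
  rintro _ ⟨c, hc, rfl⟩
  obtain ⟨b, hb, rfl⟩ := h.surj_cochains₁ c hc
  exact ⟨_, ⟨b, hb, rfl⟩, compL_d₁₂ p b⟩

lemma surj_coboundaries₃ :
    ∀ c ∈ 𝓛.coboundaries₃ C, ∃ b ∈ 𝓛.coboundaries₃ B, compL p (H × H × H) b = c := by
  rintro _ ⟨c, hc, rfl⟩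
  obtain ⟨b, hb, rfl⟩ := h.surj_cochains₂ c hc
  exact ⟨_, ⟨b, hb, rfl⟩, compL_d₂₃ p b⟩

/-- The hypotheses of the abstract snake lemma in degrees `0, 1`. -/
lemma snakeHyp₀ (hB : 𝓛.IsDiscrete B) :
    SnakeHyp (d₀₁ A).hom (d₀₁ B).hom (d₀₁ C).hom i.hom.toLinearMap p.hom.toLinearMap
      (compL i H) (compL p H) ⊤ ⊤ ⊤ (LevelStructure.H0 A) (LevelStructure.H0 B) ⊥
      (LevelStructure.H0 C) ⊥ (𝓛.cocycles₁ A) (𝓛.coboundaries₁ A) (𝓛.coboundaries₁ B) where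
  i_d x := compL_d₀₁ i x
  p_d x := compL_d₀₁ p x
  iY_inj := h.compL_injective H
  pX_iX x := h.zero x
  iX_L _ _ := Submodule.mem_top
  pX_L _ _ := Submodule.mem_top
  exact_L b _ hb := by
    obtain ⟨a, ha⟩ := (h.exact b).1 hb
    exact ⟨a, Submodule.mem_top, ha⟩
  surj_L c _ := by
    obtain ⟨b, hb⟩ := h.surj c
    exact ⟨b, Submodule.mem_top, hb⟩
  mem_ZXA x := by
    change x ∈ A.ρ.invariants ↔ _
    rw [← d₀₁_ker_eq_invariants, LinearMap.mem_ker]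
    exact ⟨fun hx => ⟨Submodule.mem_top, hx⟩, fun hx => hx.2⟩
  mem_ZXB x := by
    change x ∈ B.ρ.invariants ↔ _
    rw [← d₀₁_ker_eq_invariants, LinearMap.mem_ker]
    exact ⟨fun hx => ⟨Submodule.mem_top, hx⟩, fun hx => hx.2⟩
  mem_ZXC x := by
    change x ∈ C.ρ.invariants ↔ _
    rw [← d₀₁_ker_eq_invariants, LinearMap.mem_ker]
    exact ⟨fun hx => ⟨Submodule.mem_top, hx⟩, fun hx => hx.2⟩
  mem_BYA y := ⟨fun ⟨x, hx⟩ => ⟨x, Submodule.mem_top, hx⟩, fun ⟨x, _, hx⟩ => ⟨x, hx⟩⟩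
  mem_BYB y := ⟨fun ⟨x, hx⟩ => ⟨x, Submodule.mem_top, hx⟩, fun ⟨x, _, hx⟩ => ⟨x, hx⟩⟩
  BXB_le := bot_le
  surj_B c hc := ⟨0, Submodule.zero_mem _, by rw [map_zero, (Submodule.mem_bot k).1 hc]⟩
  exact_ZY y hy hpy := h.exact_cocycles₁ y (coboundaries₁_le hB hy) hpy
  pY_iY y := h.compL_zero H y

/-- The hypotheses of the abstract snake lemma in degrees `1, 2`. -/
lemma snakeHyp₁ (hB : 𝓛.IsDiscrete B) :
    SnakeHyp (d₁₂ A).hom (d₁₂ B).hom (d₁₂ C).hom (compL i H) (compL p H)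
      (compL i (H × H)) (compL p (H × H)) (𝓛.cochains₁ A) (𝓛.cochains₁ B) (𝓛.cochains₁ C)
      (𝓛.cocycles₁ A) (𝓛.cocycles₁ B) (𝓛.coboundaries₁ B) (𝓛.cocycles₁ C) (𝓛.coboundaries₁ C)
      (𝓛.cocycles₂ A) (𝓛.coboundaries₂ A) (𝓛.coboundaries₂ B) where
  i_d x := compL_d₁₂ i x
  p_d x := compL_d₁₂ p x
  iY_inj := h.compL_injective _
  pX_iX x := h.compL_zero H x
  iX_L _ hx := compL_mem_cochains₁ i hx
  pX_L _ hx := compL_mem_cochains₁ p hx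
  exact_L := h.exact_cochains₁
  surj_L := h.surj_cochains₁
  mem_ZXA := mem_cocycles₁_iff'
  mem_ZXB := mem_cocycles₁_iff'
  mem_ZXC := mem_cocycles₁_iff'
  mem_BYA := mem_coboundaries₂_iff
  mem_BYB := mem_coboundaries₂_iff
  BXB_le := coboundaries₁_le hB
  surj_B := h.surj_coboundaries₁
  exact_ZY y hy hpy := h.exact_cocycles₂ y (coboundaries₂_le hB hy) hpy
  pY_iY y := h.compL_zero _ y

/-- The hypotheses of the abstract snake lemma in degrees `2, 3`. -/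
lemma snakeHyp₂ (hB : 𝓛.IsDiscrete B) :
    SnakeHyp (d₂₃ A).hom (d₂₃ B).hom (d₂₃ C).hom (compL i (H × H)) (compL p (H × H))
      (compL i (H × H × H)) (compL p (H × H × H))
      (𝓛.cochains₂ A) (𝓛.cochains₂ B) (𝓛.cochains₂ C)
      (𝓛.cocycles₂ A) (𝓛.cocycles₂ B) (𝓛.coboundaries₂ B) (𝓛.cocycles₂ C) (𝓛.coboundaries₂ C)
      (𝓛.cocycles₃ A) (𝓛.coboundaries₃ A) (𝓛.coboundaries₃ B) where
  i_d x := compL_d₂₃ i x
  p_d x := compL_d₂₃ p x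
  iY_inj := h.compL_injective _
  pX_iX x := h.compL_zero _ x
  iX_L _ hx := compL_mem_cochains₂ i hx
  pX_L _ hx := compL_mem_cochains₂ p hx
  exact_L := h.exact_cochains₂
  surj_L := h.surj_cochains₂
  mem_ZXA := mem_cocycles₂_iff'
  mem_ZXB := mem_cocycles₂_iff'
  mem_ZXC := mem_cocycles₂_iff'
  mem_BYA := mem_coboundaries₃_iff
  mem_BYB := mem_coboundaries₃_iff
  BXB_le := coboundaries₂_le hB
  surj_B := h.surj_coboundaries₂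
  exact_ZY y hy hpy := h.exact_cocycles₃ y (coboundaries₃_le hB hy) hpy
  pY_iY y := h.compL_zero _ y

end IsSES

/-! ### The connecting maps and the long exact sequence -/

section LES

variable {A B C : Rep.{u} k H} {i : A ⟶ B} {p : B ⟶ C} (h : IsSES i p) (hB : 𝓛.IsDiscrete B)

/-- The connecting map `H⁰(C) → H¹(A)`. -/
def δ₀ : LevelStructure.H0 C →ₗ[k] 𝓛.H1 A := (h.snakeHyp₀ hB).δ ∘ₗ Submodule.mkQ _

/-- The connecting map `H¹(C) → H²(A)`. -/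
def δ₁ : 𝓛.H1 C →ₗ[k] 𝓛.H2 A := (h.snakeHyp₁ hB).δ

/-- The connecting map `H²(C) → H³(A)`. -/
def δ₂ : 𝓛.H2 C →ₗ[k] 𝓛.H3 A := (h.snakeHyp₂ hB).δ

/-- Explicit description of `δ₀`: lift `c` to `b`, write `g ↦ g b - b` as `i ∘ a`. -/
lemma δ₀_apply (c : LevelStructure.H0 C) (b : B) (hpb : p.hom b = c) (a : H → A)
    (ha : a ∈ 𝓛.cocycles₁ A) (hia : compL i H a = (d₀₁ B).hom b) :
    δ₀ 𝓛 h hB c = Submodule.Quotient.mk ⟨a, ha⟩ :=
  (h.snakeHyp₀ hB).δ_mk c.2 (Submodule.mem_top (x := b)) hpb ha hia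

/-- Explicit description of `δ₁`: lift the cocycle `c` to a level cochain `b`, write `d b` as
`i ∘ a`. -/
lemma δ₁_mk (c : H → C) (hc : c ∈ 𝓛.cocycles₁ C) (b : H → B) (hb : b ∈ 𝓛.cochains₁ B)
    (hpb : compL p H b = c) (a : H × H → A) (ha : a ∈ 𝓛.cocycles₂ A)
    (hia : compL i (H × H) a = (d₁₂ B).hom b) :
    δ₁ 𝓛 h hB (Submodule.Quotient.mk ⟨c, hc⟩) = Submodule.Quotient.mk ⟨a, ha⟩ :=
  (h.snakeHyp₁ hB).δ_mk hc hb hpb ha hia

/-- Explicit description of `δ₂`. -/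
lemma δ₂_mk (c : H × H → C) (hc : c ∈ 𝓛.cocycles₂ C) (b : H × H → B)
    (hb : b ∈ 𝓛.cochains₂ B) (hpb : compL p (H × H) b = c) (a : H × H × H → A)
    (ha : a ∈ 𝓛.cocycles₃ A) (hia : compL i (H × H × H) a = (d₂₃ B).hom b) :
    δ₂ 𝓛 h hB (Submodule.Quotient.mk ⟨c, hc⟩) = Submodule.Quotient.mk ⟨a, ha⟩ :=
  (h.snakeHyp₂ hB).δ_mk hc hb hpb ha hia

include h in
theorem H0map_injective : Function.Injective (H0map i) := by
  intro x y hxy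
  apply Subtype.ext
  apply h.inj
  exact congrArg Subtype.val hxy

include h in
theorem exact_H0map_H0map : Function.Exact (H0map i) (H0map p) := by
  intro y
  constructor
  · intro hy
    have hy' : p.hom (y : B) = 0 := congrArg Subtype.val hy
    obtain ⟨a, ha⟩ := (h.exact _).1 hy'
    refine ⟨⟨a, fun g => h.inj ?_⟩, Subtype.ext ha⟩
    rw [Rep.hom_comm_apply, ha, y.2 g]
  · rintro ⟨x, rfl⟩
    apply Subtype.ext
    exact h.zero _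

theorem exact_H0map_δ₀ : Function.Exact (H0map p) (δ₀ 𝓛 h hB) := by
  have hex := (h.snakeHyp₀ hB).exact_C
    (fun x (hx : x ∈ B.ρ.invariants) => (H0map p ⟨x, hx⟩).2)
    (fun x _ hx => by rw [(Submodule.mem_bot k).1 hx, map_zero]; exact Submodule.zero_mem _)
  intro c
  refine (hex (Submodule.Quotient.mk c)).trans ?_
  constructor
  · rintro ⟨x, hx⟩
    induction x using sq_induction with
    | h b hb =>
      rw [sqMap_mk] at hx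
      have := (sq_mk_eq_mk _ _ _ c.2).1 hx
      rw [Submodule.mem_bot, sub_eq_zero] at this
      exact ⟨⟨b, hb⟩, Subtype.ext this⟩
  · rintro ⟨b, rfl⟩
    exact ⟨Submodule.Quotient.mk b, rfl⟩

theorem exact_δ₀_H1map : Function.Exact (δ₀ 𝓛 h hB) (H1map 𝓛 i) := by
  have hex := (h.snakeHyp₀ hB).exact_A (ZYB := 𝓛.cocycles₁ B)
    (fun _ hx => compL_mem_cocycles₁ i hx) (fun _ _ hx => compL_mem_coboundaries₁ i hx)
  intro x
  refine (hex x).trans ?_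
  constructor
  · rintro ⟨y, rfl⟩
    induction y using sq_induction with
    | h c hc => exact ⟨⟨c, hc⟩, rfl⟩
  · rintro ⟨c, rfl⟩
    exact ⟨Submodule.Quotient.mk c, rfl⟩

include h hB in
theorem exact_H1map_H1map : Function.Exact (H1map 𝓛 i) (H1map 𝓛 p) :=
  (h.snakeHyp₁ hB).exact_B (BXA := 𝓛.coboundaries₁ A) _ _ _ _

theorem exact_H1map_δ₁ : Function.Exact (H1map 𝓛 p) (δ₁ 𝓛 h hB) :=
  (h.snakeHyp₁ hB).exact_C _ _

theorem exact_δ₁_H2map : Function.Exact (δ₁ 𝓛 h hB) (H2map 𝓛 i) :=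
  (h.snakeHyp₁ hB).exact_A (ZYB := 𝓛.cocycles₂ B) _ _

include h hB in
theorem exact_H2map_H2map : Function.Exact (H2map 𝓛 i) (H2map 𝓛 p) :=
  (h.snakeHyp₂ hB).exact_B (BXA := 𝓛.coboundaries₂ A) _ _ _ _

theorem exact_H2map_δ₂ : Function.Exact (H2map 𝓛 p) (δ₂ 𝓛 h hB) :=
  (h.snakeHyp₂ hB).exact_C _ _

theorem exact_δ₂_H3map : Function.Exact (δ₂ 𝓛 h hB) (H3map 𝓛 i) :=
  (h.snakeHyp₂ hB).exact_A (ZYB := 𝓛.cocycles₃ B) _ _

include h hB in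
theorem exact_H3map_H3map : Function.Exact (H3map 𝓛 i) (H3map 𝓛 p) := by
  apply sqMap_exact
  · intro x _
    rw [h.compL_zero]
    exact Submodule.zero_mem _
  · intro b hb hpb
    obtain ⟨b', hb', hpb'⟩ := h.surj_coboundaries₃ _ hpb
    have hb'Z := coboundaries₃_le hB hb'
    obtain ⟨a, ha, hia⟩ := h.exact_cocycles₃ (b - b') (Submodule.sub_mem _ hb hb'Z)
      (by rw [map_sub, hpb', sub_self])
    refine ⟨a, ha, ?_⟩
    rw [hia, sub_sub_cancel]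
    exact hb'

end LES

/-! ### Naturality of the connecting maps -/

section Natural

variable {A B C A' B' C' : Rep.{u} k H} {i : A ⟶ B} {p : B ⟶ C} {i' : A' ⟶ B'} {p' : B' ⟶ C'}
  (h : IsSES i p) (hB : 𝓛.IsDiscrete B) (h' : IsSES i' p') (hB' : 𝓛.IsDiscrete B')
  (α : A ⟶ A') (β : B ⟶ B') (γ : C ⟶ C')

theorem δ₀_natural (hi : ∀ a, i'.hom (α.hom a) = β.hom (i.hom a))
    (hp : ∀ b, p'.hom (β.hom b) = γ.hom (p.hom b)) (c : LevelStructure.H0 C) :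
    H1map 𝓛 α (δ₀ 𝓛 h hB c) = δ₀ 𝓛 h' hB' (H0map γ c) := by
  have := (h.snakeHyp₀ hB).δ_natural (h'.snakeHyp₀ hB') (compL α H) β.hom.toLinearMap
    (compL β H) γ.hom.toLinearMap (fun _ _ => Submodule.mem_top) hp
    (fun y => by ext g; exact hi (y g)) (fun x => (compL_d₀₁ β x))
    (fun x (hx : x ∈ C.ρ.invariants) => (H0map γ ⟨x, hx⟩).2)
    (fun x _ hx => by rw [(Submodule.mem_bot k).1 hx, map_zero]; exact Submodule.zero_mem _)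
    (fun _ hx => compL_mem_cocycles₁ α hx) (fun _ _ hx => compL_mem_coboundaries₁ α hx)
    (Submodule.Quotient.mk c)
  exact this

theorem δ₁_natural (hi : ∀ a, i'.hom (α.hom a) = β.hom (i.hom a))
    (hp : ∀ b, p'.hom (β.hom b) = γ.hom (p.hom b)) (x : 𝓛.H1 C) :
    H2map 𝓛 α (δ₁ 𝓛 h hB x) = δ₁ 𝓛 h' hB' (H1map 𝓛 γ x) :=
  (h.snakeHyp₁ hB).δ_natural (h'.snakeHyp₁ hB') (compL α (H × H)) (compL β H)
    (compL β (H × H)) (compL γ H) (fun _ hx => compL_mem_cochains₁ β hx)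
    (fun y => by ext g; exact hp (y g)) (fun y => by ext g; exact hi (y g))
    (fun x => (compL_d₁₂ β x))
    (fun _ hx => compL_mem_cocycles₁ γ hx) (fun _ _ hx => compL_mem_coboundaries₁ γ hx)
    (fun _ hx => compL_mem_cocycles₂ α hx) (fun _ _ hx => compL_mem_coboundaries₂ α hx) x

theorem δ₂_natural (hi : ∀ a, i'.hom (α.hom a) = β.hom (i.hom a))
    (hp : ∀ b, p'.hom (β.hom b) = γ.hom (p.hom b)) (x : 𝓛.H2 C) :
    H3map 𝓛 α (δ₂ 𝓛 h hB x) = δ₂ 𝓛 h' hB' (H2map 𝓛 γ x) :=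
  (h.snakeHyp₂ hB).δ_natural (h'.snakeHyp₂ hB') (compL α (H × H × H)) (compL β (H × H))
    (compL β (H × H × H)) (compL γ (H × H)) (fun _ hx => compL_mem_cochains₂ β hx)
    (fun y => by ext g; exact hp (y g)) (fun y => by ext g; exact hi (y g))
    (fun x => (compL_d₂₃ β x))
    (fun _ hx => compL_mem_cocycles₂ γ hx) (fun _ _ hx => compL_mem_coboundaries₂ γ hx)
    (fun _ hx => compL_mem_cocycles₃ α hx) (fun _ _ hx => compL_mem_coboundaries₃ α hx) x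

/-- Commutative squares of morphisms, in elementwise form. -/
lemma comm_apply_of_eq {X Y Z W : Rep.{u} k H} {f : X ⟶ Y} {g : Y ⟶ W} {f' : X ⟶ Z}
    {g' : Z ⟶ W} (hcomm : f ≫ g = f' ≫ g') (x : X) : g.hom (f.hom x) = g'.hom (f'.hom x) := by
  have := congrArg (fun φ => φ.hom x) hcomm
  simpa using this

end Natural

end Fermat.Agent.CFT.H1

end
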