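import Mathlib
import Fermat.Agent.CFT.H55_LevelDefs

/-!
# CFT / Layer D0 / D0-ENV : divisible envelopes of discrete modules

For a level structure `𝓛` on a group `H`:

* `coindLevel 𝓛 V` : level-constant functions `H → V` with right translation, a discrete
  representation of `H` (over any commutative ring `k`), divisible as soon as `V` is;
* `Vdiv M` : the divisible group `CharacterModule M → ℚ/ℤ` with the injective additive map
  `embV : M →+ Vdiv M`;
* `envelope 𝓛 N := coindLevel 𝓛 (Vdiv N)` for `N : Rep ℤ H`, with `envelopeι : N ⟶ envelope 𝓛 N`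
  (for discrete `N`), injective, natural in `N`.
-/

set_option autoImplicit false

noncomputable section

open CategoryTheory

namespace Fermat.Agent.CFT.H36

open Fermat.Agent.CFT

section CoindLevel

variable {k : Type} [CommRing k] {H : Type} [Group H] (𝓛 : LevelStructure H)
  (V : Type) [AddCommGroup V] [Module k V]

/-- Level-constant functions `H → V`, as a submodule of all functions. -/
def levelFun : Submodule k (H → V) where
  carrier := {f | 𝓛.IsConst₁ f}
  add_mem' hf hf' := hf.add hf'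
  zero_mem' := 𝓛.isConst₁_const (0 : V)
  smul_mem' c _ hf := hf.comp (c • ·)

variable {V} in
lemma mem_levelFun_iff (f : H → V) : f ∈ levelFun (k := k) 𝓛 V ↔ 𝓛.IsConst₁ f := Iff.rfl

variable {𝓛} in
/-- Right translation preserves level-constant functions. -/
lemma isConst₁_translate {X : Type*} {f : H → X} (hf : 𝓛.IsConst₁ f) (g : H) :
    𝓛.IsConst₁ (fun x => f (x * g)) := by
  obtain ⟨N, hN, h⟩ := hf
  obtain ⟨N', hN', hle, hnor⟩ := 𝓛.exists_normal N hN
  refine ⟨N', hN', fun x s hs => ?_⟩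
  have : x * s * g = x * g * (g⁻¹ * s * g) := by group
  show f (x * s * g) = f (x * g)
  rw [this]
  refine h _ _ (hle ?_)
  have := hnor.conj_mem s hs g⁻¹
  simpa using this

/-- The representation of `H` on level-constant functions `H → V` by right translation:
`(g • f) x = f (x * g)`. -/
def coindLevel : Rep.{0} k H :=
  Rep.of (k := k) (G := H) (X := levelFun (k := k) 𝓛 V)
    { toFun := fun g => (LinearMap.funLeft k V (fun x => x * g)).restrict
        (p := levelFun (k := k) 𝓛 V) (q := levelFun (k := k) 𝓛 V)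
        (fun f hf => isConst₁_translate hf g)
      map_one' := by
        ext f x
        simp [LinearMap.funLeft]
      map_mul' := fun g h => by
        ext f x
        simp [LinearMap.funLeft, mul_assoc] }

lemma coindLevel_ρ_apply (g : H) (f : levelFun (k := k) 𝓛 V) (x : H) :
    (show levelFun (k := k) 𝓛 V from (coindLevel (k := k) 𝓛 V).ρ g f).1 x = f.1 (x * g) := rfl

/-- `coindLevel 𝓛 V` is discrete. -/
theorem isDiscrete_coindLevel : 𝓛.IsDiscrete (coindLevel (k := k) 𝓛 V) := by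
  intro f
  obtain ⟨N, hN, h⟩ := (f : levelFun (k := k) 𝓛 V).2
  refine ⟨N, hN, fun n hn => ?_⟩
  apply Subtype.ext
  funext x
  exact h x n hn

/-- If `V` is `m`-divisible then so is `coindLevel 𝓛 V`. -/
theorem coindLevel_divisible (m : ℕ) (hV : ∀ v : V, ∃ w : V, m • w = v)
    (f : coindLevel (k := k) 𝓛 V) : ∃ f' : coindLevel (k := k) 𝓛 V, m • f' = f := by
  choose root hroot using hV
  let f₀ : levelFun (k := k) 𝓛 V := f
  have hf : 𝓛.IsConst₁ f₀.1 := f₀.2
  refine ⟨(⟨root ∘ f₀.1, hf.comp root⟩ : levelFun (k := k) 𝓛 V), ?_⟩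
  apply Subtype.ext
  funext x
  exact hroot _

/-- Functoriality of `coindLevel` in the value module. -/
def coindLevelMap {V W : Type} [AddCommGroup V] [Module k V] [AddCommGroup W] [Module k W]
    (φ : V →ₗ[k] W) : coindLevel (k := k) 𝓛 V ⟶ coindLevel (k := k) 𝓛 W :=
  Rep.ofHom (ρ := (coindLevel (k := k) 𝓛 V).ρ) (σ := (coindLevel (k := k) 𝓛 W).ρ)
    ⟨(φ.compLeft H).restrict (p := levelFun (k := k) 𝓛 V) (q := levelFun (k := k) 𝓛 W)
      (fun _ hf => hf.comp φ), fun g => by
        ext f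
        rfl⟩

lemma coindLevelMap_apply {V W : Type} [AddCommGroup V] [Module k V] [AddCommGroup W]
    [Module k W] (φ : V →ₗ[k] W) (f : levelFun (k := k) 𝓛 V) (x : H) :
    (show levelFun (k := k) 𝓛 W from (coindLevelMap 𝓛 φ).hom f).1 x = φ (f.1 x) := rfl

end CoindLevel

section Vdiv

/-- The divisible group `V(M) = ∏_{χ : M → ℚ/ℤ} ℚ/ℤ`. -/
def Vdiv (M : Type) [AddCommGroup M] : Type := CharacterModule M → AddCircle (1 : ℚ)

instance (M : Type) [AddCommGroup M] : AddCommGroup (Vdiv M) :=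
  inferInstanceAs (AddCommGroup (CharacterModule M → AddCircle (1 : ℚ)))

/-- The canonical embedding `M → V(M)`, `c ↦ (χ ↦ χ c)`. -/
def embV (M : Type) [AddCommGroup M] : M →+ Vdiv M where
  toFun c := fun χ => χ c
  map_zero' := by funext χ; exact map_zero χ
  map_add' a b := by funext χ; exact map_add χ a b

lemma embV_apply {M : Type} [AddCommGroup M] (c : M) (χ : CharacterModule M) :
    embV M c χ = χ c := rfl

theorem embV_injective (M : Type) [AddCommGroup M] : Function.Injective (embV M) := by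
  rw [injective_iff_map_eq_zero]
  intro a ha
  exact CharacterModule.eq_zero_of_character_apply fun c => congrFun ha c

/-- `V(M)` is divisible. -/
theorem Vdiv_divisible (M : Type) [AddCommGroup M] (m : ℕ) (hm : m ≠ 0) (v : Vdiv M) :
    ∃ w : Vdiv M, m • w = v := by
  refine ⟨fun χ => DivisibleBy.div (v χ) (m : ℤ), ?_⟩
  funext χ
  have := DivisibleBy.div_cancel (α := ℤ) (v χ) (n := (m : ℤ)) (by exact_mod_cast hm)
  show m • DivisibleBy.div (v χ) (m : ℤ) = v χ
  simpa using this

/-- Functoriality of `V(-)`: an additive map `φ : M → M'` induces `V(M) → V(M')`,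
`v ↦ (χ' ↦ v (χ' ∘ φ))`. -/
def VdivMap {M M' : Type} [AddCommGroup M] [AddCommGroup M'] (φ : M →+ M') :
    Vdiv M →+ Vdiv M' where
  toFun v := fun χ' => v (AddMonoidHom.comp χ' φ)
  map_zero' := rfl
  map_add' _ _ := rfl

lemma VdivMap_embV {M M' : Type} [AddCommGroup M] [AddCommGroup M'] (φ : M →+ M') (c : M) :
    VdivMap φ (embV M c) = embV M' (φ c) := rfl

end Vdiv

section GenericK

variable {k : Type} [CommRing k] {H : Type} [Group H]

lemma rho_mul_apply (N : Rep.{0} k H) (g s : H) (c : N.V) : N.ρ (g * s) c = N.ρ g (N.ρ s c) := by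
  rw [map_mul]; rfl

lemma rho_one_apply (N : Rep.{0} k H) (c : N.V) : N.ρ 1 c = c := by
  rw [map_one]; rfl

/-- The additive map underlying a morphism of representations. -/
def homAdd {N N' : Rep.{0} k H} (φ : N ⟶ N') : N.V →+ N'.V := φ.hom.toLinearMap.toAddMonoidHom

@[simp] lemma homAdd_apply {N N' : Rep.{0} k H} (φ : N ⟶ N') (c : N.V) :
    homAdd φ c = φ.hom c := rfl

variable (𝓛 : LevelStructure H) {W : Type} [AddCommGroup W] [Module k W]

variable {𝓛} in
/-- For discrete `N`, the function `g ↦ e (g • c)` is level-constant. -/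
lemma isConst₁_orbit {N : Rep.{0} k H} (hN : 𝓛.IsDiscrete N) (e : N.V →ₗ[k] W) (c : N.V) :
    𝓛.IsConst₁ (fun g : H => e (N.ρ g c)) := by
  obtain ⟨N₀, hN₀, h⟩ := hN c
  refine ⟨N₀, hN₀, fun g s hs => ?_⟩
  show e (N.ρ (g * s) c) = e (N.ρ g c)
  rw [rho_mul_apply, h s hs]

/-- The `k`-linear map underlying `orbitMap`. -/
def orbitLin (N : Rep.{0} k H) (hN : 𝓛.IsDiscrete N) (e : N.V →ₗ[k] W) :
    N.V →ₗ[k] levelFun (k := k) 𝓛 W where
  toFun c := ⟨fun g => e (N.ρ g c), isConst₁_orbit hN e c⟩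
  map_add' a b := by
    apply Subtype.ext
    funext g
    show e (N.ρ g (a + b)) = e (N.ρ g a) + e (N.ρ g b)
    rw [map_add, map_add]
  map_smul' r a := by
    apply Subtype.ext
    funext g
    show e (N.ρ g (r • a)) = r • e (N.ρ g a)
    rw [map_smul, map_smul]

/-- For a discrete representation `N` and a linear map `e : N → W` into a module, the
equivariant map `N → coindLevel 𝓛 W`, `c ↦ (g ↦ e (g • c))`. -/
def orbitMap (N : Rep.{0} k H) (hN : 𝓛.IsDiscrete N) (e : N.V →ₗ[k] W) :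
    N ⟶ coindLevel (k := k) 𝓛 W :=
  Rep.ofHom (ρ := N.ρ) (σ := (coindLevel (k := k) 𝓛 W).ρ)
    ⟨orbitLin 𝓛 N hN e, fun g => by
      refine LinearMap.ext fun c => ?_
      apply Subtype.ext
      funext x
      show e (N.ρ x (N.ρ g c)) = e (N.ρ (x * g) c)
      rw [rho_mul_apply]⟩

lemma orbitMap_apply (N : Rep.{0} k H) (hN : 𝓛.IsDiscrete N) (e : N.V →ₗ[k] W) (c : N.V)
    (x : H) :
    (show levelFun (k := k) 𝓛 W from (orbitMap 𝓛 N hN e).hom c).1 x = e (N.ρ x c) := rfl

theorem orbitMap_injective (N : Rep.{0} k H) (hN : 𝓛.IsDiscrete N) (e : N.V →ₗ[k] W)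
    (he : Function.Injective e) : Function.Injective (orbitMap 𝓛 N hN e).hom := by
  intro a b hab
  have h1 := congrArg (fun f : levelFun (k := k) 𝓛 W => f.1 1) hab
  have h2 : e (N.ρ 1 a) = e (N.ρ 1 b) := h1
  rw [rho_one_apply, rho_one_apply] at h2
  exact he h2

/-- Naturality of `orbitMap`. -/
theorem orbitMap_naturality {N N' : Rep.{0} k H} (hN : 𝓛.IsDiscrete N) (hN' : 𝓛.IsDiscrete N')
    {W' : Type} [AddCommGroup W'] [Module k W'] (e : N.V →ₗ[k] W) (e' : N'.V →ₗ[k] W')
    (φ : N ⟶ N') (ψ : W →ₗ[k] W') (h : ∀ c : N.V, ψ (e c) = e' (φ.hom c)) :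
    orbitMap 𝓛 N hN e ≫ coindLevelMap 𝓛 ψ = φ ≫ orbitMap 𝓛 N' hN' e' := by
  apply Rep.hom_ext
  apply Representation.IntertwiningMap.ext
  refine LinearMap.ext fun c => ?_
  apply Subtype.ext
  funext x
  show ψ (e (N.ρ x c)) = e' (N'.ρ x (φ.hom c))
  rw [h, Rep.hom_comm_apply]

end GenericK

section Envelope

variable {H : Type} [Group H] (𝓛 : LevelStructure H)

/-- Any additive map between `ℤ`-modules (with arbitrary `Module ℤ` instances, found by
unification) is `ℤ`-linear. -/
def intLinearOfAddHom {M M' : Type} [AddCommGroup M] {inst : Module ℤ M} [AddCommGroup M']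
    {inst' : Module ℤ M'} (f : M →+ M') : M →ₗ[ℤ] M' where
  toFun := f
  map_add' := f.map_add
  map_smul' n x := by
    have := map_intCast_smul f ℤ ℤ n x
    simpa using this

@[simp] lemma intLinearOfAddHom_apply {M M' : Type} [AddCommGroup M] {inst : Module ℤ M}
    [AddCommGroup M'] {inst' : Module ℤ M'} (f : M →+ M') (x : M) :
    intLinearOfAddHom (inst := inst) (inst' := inst') f x = f x := rfl

/-- The divisible envelope `I(N)` of `N : Rep ℤ H`: level-constant maps `H → V(N)`. -/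
def envelope (N : Rep.{0} ℤ H) : Rep.{0} ℤ H := coindLevel (k := ℤ) 𝓛 (Vdiv N.V)

theorem isDiscrete_envelope (N : Rep.{0} ℤ H) : 𝓛.IsDiscrete (envelope 𝓛 N) :=
  isDiscrete_coindLevel 𝓛 _

theorem envelope_divisible (N : Rep.{0} ℤ H) (m : ℕ) (hm : m ≠ 0) (f : envelope 𝓛 N) :
    ∃ f' : envelope 𝓛 N, m • f' = f :=
  coindLevel_divisible 𝓛 _ m (Vdiv_divisible N.V m hm) f

/-- The canonical embedding `N → I(N)`, `c ↦ (g ↦ emb (g • c))`. -/
def envelopeι (N : Rep.{0} ℤ H) (hN : 𝓛.IsDiscrete N) : N ⟶ envelope 𝓛 N :=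
  orbitMap 𝓛 N hN (intLinearOfAddHom (embV N.V))

lemma envelopeι_apply (N : Rep.{0} ℤ H) (hN : 𝓛.IsDiscrete N) (c : N.V) (x : H) :
    (show levelFun (k := ℤ) 𝓛 (Vdiv N.V) from (envelopeι 𝓛 N hN).hom c).1 x =
      embV N.V (N.ρ x c) := rfl

theorem envelopeι_injective (N : Rep.{0} ℤ H) (hN : 𝓛.IsDiscrete N) :
    Function.Injective (envelopeι 𝓛 N hN).hom :=
  orbitMap_injective 𝓛 N hN _ (embV_injective N.V)

/-- Functoriality of the envelope. -/
def envelopeMap {N N' : Rep.{0} ℤ H} (φ : N ⟶ N') : envelope 𝓛 N ⟶ envelope 𝓛 N' :=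
  coindLevelMap (k := ℤ) 𝓛
    (intLinearOfAddHom (VdivMap (homAdd φ)))

theorem envelopeι_naturality {N N' : Rep.{0} ℤ H} (hN : 𝓛.IsDiscrete N)
    (hN' : 𝓛.IsDiscrete N') (φ : N ⟶ N') :
    envelopeι 𝓛 N hN ≫ envelopeMap 𝓛 φ = φ ≫ envelopeι 𝓛 N' hN' :=
  orbitMap_naturality 𝓛 hN hN' _ _ φ _ (fun _ => rfl)

end Envelope

section Torsion

variable {k : Type} [CommRing k] {H : Type} [Group H] (p : ℕ)

/-- The `p`-torsion subgroup of an abelian group. -/
def torsionSub (M : Type) [AddCommGroup M] : AddSubgroup M := (nsmulAddMonoidHom p : M →+ M).ker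

lemma mem_torsionSub {M : Type} [AddCommGroup M] (x : M) : x ∈ torsionSub p M ↔ p • x = 0 :=
  Iff.rfl

instance (M : Type) [AddCommGroup M] : Module (ZMod p) (torsionSub p M) :=
  AddCommGroup.zmodModule (n := p) fun x => Subtype.ext (by
    have := x.2
    rw [mem_torsionSub] at this
    simp [this])

/-- Restriction of an additive map to the `p`-torsion subgroups. -/
def torsionRestrict {M M' : Type} [AddCommGroup M] [AddCommGroup M'] (f : M →+ M') :
    torsionSub p M →+ torsionSub p M' :=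
  (f.comp (torsionSub p M).subtype).codRestrict (torsionSub p M') fun x => by
    have := x.2
    rw [mem_torsionSub] at this ⊢
    show p • f x.1 = 0
    rw [← map_nsmul, this, map_zero]

@[simp] lemma torsionRestrict_coe {M M' : Type} [AddCommGroup M] [AddCommGroup M'] (f : M →+ M')
    (x : torsionSub p M) : (torsionRestrict p f x : M') = f x.1 := rfl

/-- The `p`-torsion of a representation, as a representation over `ZMod p`. -/
def torsionRep (M : Rep.{0} k H) : Rep.{0} (ZMod p) H :=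
  Rep.of (k := ZMod p) (G := H) (X := torsionSub p M.V)
    { toFun := fun g => (torsionRestrict p (M.ρ g).toAddMonoidHom).toZModLinearMap p
      map_one' := by
        refine LinearMap.ext fun x => Subtype.ext ?_
        show M.ρ 1 x.1 = x.1
        exact rho_one_apply M x.1
      map_mul' := fun g h => by
        refine LinearMap.ext fun x => Subtype.ext ?_
        show M.ρ (g * h) x.1 = M.ρ g (M.ρ h x.1)
        exact rho_mul_apply M g h x.1 }

lemma torsionRep_ρ_coe (M : Rep.{0} k H) (g : H) (x : torsionSub p M.V) :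
    ((show torsionSub p M.V from (torsionRep p M).ρ g x) : M.V) = M.ρ g x.1 := rfl

/-- Functoriality of the `p`-torsion representation. -/
def torsionMap {M M' : Rep.{0} k H} (φ : M ⟶ M') : torsionRep p M ⟶ torsionRep p M' :=
  Rep.ofHom (ρ := (torsionRep p M).ρ) (σ := (torsionRep p M').ρ)
    ⟨(torsionRestrict p (homAdd φ)).toZModLinearMap p, fun g => by
      refine LinearMap.ext fun x => Subtype.ext ?_
      show φ.hom (M.ρ g x.1) = M'.ρ g (φ.hom x.1)
      exact Rep.hom_comm_apply φ g x.1⟩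

lemma torsionMap_coe {M M' : Rep.{0} k H} (φ : M ⟶ M') (x : torsionSub p M.V) :
    ((show torsionSub p M'.V from (torsionMap p φ).hom x) : M'.V) = φ.hom x.1 := rfl

/-- The torsion representation of a discrete representation is discrete. -/
theorem isDiscrete_torsionRep (𝓛 : LevelStructure H) (M : Rep.{0} k H) (hM : 𝓛.IsDiscrete M) :
    𝓛.IsDiscrete (torsionRep p M) := by
  intro x
  obtain ⟨N, hN, h⟩ := hM (show torsionSub p M.V from x).1
  exact ⟨N, hN, fun n hn => Subtype.ext (h n hn)⟩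

/-! ### Exactness properties of the torsion functor (elementwise) -/

theorem torsionMap_injective {M M' : Rep.{0} k H} (φ : M ⟶ M')
    (hφ : Function.Injective φ.hom) : Function.Injective (torsionMap p φ).hom := by
  intro x y hxy
  have h1 : φ.hom (show torsionSub p M.V from x).1 = φ.hom (show torsionSub p M.V from y).1 :=
    congrArg (fun z : torsionSub p M'.V => z.1) hxy
  exact Subtype.ext (hφ h1)

/-- Left exactness of the torsion functor. -/
theorem torsionMap_exact {A B C : Rep.{0} k H} (ι : A ⟶ B) (π : B ⟶ C)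
    (hex : ∀ x : B.V, π.hom x = 0 ↔ ∃ a : A.V, ι.hom a = x) (hι : Function.Injective ι.hom)
    (y : torsionSub p B.V) :
    (torsionMap p π).hom y = 0 ↔ ∃ a : torsionSub p A.V, (torsionMap p ι).hom a = y := by
  constructor
  · intro hy
    have h1 : π.hom y.1 = 0 := congrArg (fun z : torsionSub p C.V => z.1) hy
    obtain ⟨a, ha⟩ := (hex y.1).1 h1
    have hpa : p • a = 0 := by
      apply hι
      rw [map_nsmul, ha, map_zero]
      exact y.2
    exact ⟨⟨a, hpa⟩, Subtype.ext ha⟩
  · rintro ⟨a, rfl⟩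
    apply Subtype.ext
    show π.hom (ι.hom a.1) = 0
    exact (hex _).2 ⟨a.1, rfl⟩

/-- Right exactness of the torsion functor when the kernel is `p`-divisible. -/
theorem torsionMap_surjective_of_divisible {A B C : Rep.{0} k H} (ι : A ⟶ B) (π : B ⟶ C)
    (hex : ∀ x : B.V, π.hom x = 0 ↔ ∃ a : A.V, ι.hom a = x) (hπ : Function.Surjective π.hom)
    (hA : ∀ a : A.V, ∃ a' : A.V, p • a' = a) :
    Function.Surjective (torsionMap p π).hom := by
  intro z
  let z₀ : torsionSub p C.V := z
  obtain ⟨x, hx⟩ := hπ z₀.1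
  have h1 : π.hom (p • x) = 0 := by
    rw [map_nsmul, hx]
    exact z₀.2
  obtain ⟨a, ha⟩ := (hex _).1 h1
  obtain ⟨a', ha'⟩ := hA a
  have hx' : p • (x - ι.hom a') = 0 := by
    rw [smul_sub, ← map_nsmul, ha', ha, sub_self]
  refine ⟨(⟨x - ι.hom a', hx'⟩ : torsionSub p B.V), Subtype.ext ?_⟩
  show π.hom (x - ι.hom a') = z₀.1
  rw [map_sub, hx, (hex _).2 ⟨a', rfl⟩, sub_zero]

end Torsion

section DivEnvelope

variable {k : Type} [CommRing k] {H : Type} [Group H]

/-- The cokernel of a morphism of representations, as an explicit quotient. -/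
def cokerRep {N I : Rep.{0} k H} (ι : N ⟶ I) : Rep.{0} k H :=
  Rep.quotient I (LinearMap.range ι.hom.toLinearMap) (fun g x hx => by
    obtain ⟨c, rfl⟩ := hx
    exact ⟨N.ρ g c, Rep.hom_comm_apply ι g c⟩)

/-- The projection onto the cokernel. -/
def cokerπ {N I : Rep.{0} k H} (ι : N ⟶ I) : I ⟶ cokerRep ι := Rep.mkQ I _ _

theorem cokerπ_surjective {N I : Rep.{0} k H} (ι : N ⟶ I) :
    Function.Surjective (cokerπ ι).hom :=
  Submodule.mkQ_surjective _

theorem cokerπ_eq_zero_iff {N I : Rep.{0} k H} (ι : N ⟶ I) (x : I.V) :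
    (cokerπ ι).hom x = 0 ↔ ∃ c : N.V, ι.hom c = x := by
  show (Submodule.mkQ _ x) = 0 ↔ _
  rw [Submodule.mkQ_apply, Submodule.Quotient.mk_eq_zero]
  rfl

/-- The universal property of the explicit cokernel. -/
def cokerDesc {N I X : Rep.{0} k H} (ι : N ⟶ I) (f : I ⟶ X)
    (h : ∀ c : N.V, f.hom (ι.hom c) = 0) : cokerRep ι ⟶ X :=
  Rep.ofHom (ρ := (cokerRep ι).ρ) (σ := X.ρ)
    ⟨Submodule.liftQ _ f.hom.toLinearMap (by
      rintro _ ⟨c, rfl⟩
      exact h c), fun g => by
      refine LinearMap.ext fun y => ?_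
      obtain ⟨x, rfl⟩ := Submodule.mkQ_surjective _ y
      exact Rep.hom_comm_apply f g x⟩

lemma cokerDesc_π_apply {N I X : Rep.{0} k H} (ι : N ⟶ I) (f : I ⟶ X)
    (h : ∀ c : N.V, f.hom (ι.hom c) = 0) (x : I.V) :
    (cokerDesc ι f h).hom ((cokerπ ι).hom x) = f.hom x := rfl

lemma cokerπ_comp_cokerDesc {N I X : Rep.{0} k H} (ι : N ⟶ I) (f : I ⟶ X)
    (h : ∀ c : N.V, f.hom (ι.hom c) = 0) : cokerπ ι ≫ cokerDesc ι f h = f := by
  apply Rep.hom_ext
  apply Representation.IntertwiningMap.ext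
  exact LinearMap.ext fun x => rfl

/-- An `m`-divisible envelope of `N`: a short exact sequence `0 → N → I → Q → 0` of
representations with `I` discrete and `m`-divisible. -/
structure DivEnvelope (𝓛 : LevelStructure H) (m : ℕ) (N : Rep.{0} k H) where
  /-- the envelope -/
  I : Rep.{0} k H
  /-- the quotient `I / N` -/
  Q : Rep.{0} k H
  /-- the embedding -/
  ι : N ⟶ I
  /-- the projection -/
  π : I ⟶ Q
  ι_injective : Function.Injective ι.hom
  π_surjective : Function.Surjective π.hom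
  exact : ∀ x : I.V, π.hom x = 0 ↔ ∃ c : N.V, ι.hom c = x
  discrete : 𝓛.IsDiscrete I
  divisible : ∀ x : I.V, ∃ y : I.V, m • y = x

namespace DivEnvelope

variable {𝓛 : LevelStructure H} {m : ℕ} {N : Rep.{0} k H} (E : DivEnvelope 𝓛 m N)

theorem Q_discrete : 𝓛.IsDiscrete E.Q := by
  intro q
  obtain ⟨x, rfl⟩ := E.π_surjective q
  obtain ⟨N₀, hN₀, h⟩ := E.discrete x
  refine ⟨N₀, hN₀, fun n hn => ?_⟩
  rw [← Rep.hom_comm_apply, h n hn]

theorem Q_divisible (q : E.Q.V) : ∃ q' : E.Q.V, m • q' = q := by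
  obtain ⟨x, rfl⟩ := E.π_surjective q
  obtain ⟨y, rfl⟩ := E.divisible x
  exact ⟨E.π.hom y, (map_nsmul _ _ _).symm⟩

/-- The two-term complex `D_N = [I[m] → Q[m]]` of `ZMod m`-representations. -/
def dComplex : torsionRep m E.I ⟶ torsionRep m E.Q := torsionMap m E.π

/-- `H⁰(D_N) = N[m]`: the inclusion `N[m] → I[m]`. -/
def dKer : torsionRep m N ⟶ torsionRep m E.I := torsionMap m E.ι

theorem dKer_injective : Function.Injective E.dKer.hom := torsionMap_injective m E.ι E.ι_injective

theorem dComplex_eq_zero_iff (y : torsionSub m E.I.V) :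
    E.dComplex.hom y = 0 ↔ ∃ a : torsionSub m N.V, E.dKer.hom a = y :=
  torsionMap_exact m E.ι E.π E.exact E.ι_injective y

theorem isDiscrete_dComplex_source : 𝓛.IsDiscrete (torsionRep m E.I) :=
  isDiscrete_torsionRep m 𝓛 E.I E.discrete

theorem isDiscrete_dComplex_target : 𝓛.IsDiscrete (torsionRep m E.Q) :=
  isDiscrete_torsionRep m 𝓛 E.Q E.Q_discrete

/-! ### Passing to a quotient by a divisible subrepresentation -/

variable {S : Rep.{0} k H} (ε : S ⟶ N)

lemma comp_ι_apply (s : S.V) : (ε ≫ E.ι).hom s = E.ι.hom (ε.hom s) := Rep.comp_apply _ _ _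

/-- The envelope `I / S` of `N / S`. -/
abbrev quotI : Rep.{0} k H := cokerRep (ε ≫ E.ι)

/-- The projection `I → I / S`. -/
abbrev quotProj : E.I ⟶ E.quotI ε := cokerπ (ε ≫ E.ι)

lemma quotProj_eq_zero_iff (x : E.I.V) :
    (E.quotProj ε).hom x = 0 ↔ ∃ s : S.V, E.ι.hom (ε.hom s) = x := by
  rw [cokerπ_eq_zero_iff]
  constructor
  · rintro ⟨s, hs⟩
    exact ⟨s, by rw [← comp_ι_apply, hs]⟩
  · rintro ⟨s, hs⟩
    exact ⟨s, by rw [comp_ι_apply, hs]⟩

/-- The embedding `N / S → I / S`. -/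
def quotι : cokerRep ε ⟶ E.quotI ε :=
  cokerDesc ε (E.ι ≫ E.quotProj ε) (fun s => by
    rw [Rep.comp_apply]
    exact (E.quotProj_eq_zero_iff ε _).2 ⟨s, rfl⟩)

lemma quotι_apply (c : N.V) :
    (E.quotι ε).hom ((cokerπ ε).hom c) = (E.quotProj ε).hom (E.ι.hom c) := by
  show (cokerDesc ε (E.ι ≫ E.quotProj ε) _).hom ((cokerπ ε).hom c) = _
  rw [cokerDesc_π_apply, Rep.comp_apply]

/-- The projection `I / S → Q`. -/
def quotπ : E.quotI ε ⟶ E.Q :=
  cokerDesc (ε ≫ E.ι) E.π (fun s => by
    rw [comp_ι_apply]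
    exact (E.exact _).2 ⟨ε.hom s, rfl⟩)

lemma quotπ_apply (x : E.I.V) : (E.quotπ ε).hom ((E.quotProj ε).hom x) = E.π.hom x := rfl

/-- Given an envelope `N → I` and a subrepresentation `ε : S → N`, the induced envelope
`N / S → I / S` with the same quotient `Q`. -/
def quot : DivEnvelope 𝓛 m (cokerRep ε) where
  I := E.quotI ε
  Q := E.Q
  ι := E.quotι ε
  π := E.quotπ ε
  ι_injective := by
    intro a b hab
    obtain ⟨a, rfl⟩ := cokerπ_surjective ε a
    obtain ⟨b, rfl⟩ := cokerπ_surjective ε b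
    rw [quotι_apply, quotι_apply] at hab
    have h1 : (E.quotProj ε).hom (E.ι.hom (a - b)) = 0 := by
      rw [map_sub, map_sub]
      exact sub_eq_zero.2 hab
    obtain ⟨s, hs⟩ := (E.quotProj_eq_zero_iff ε _).1 h1
    have h2 : ε.hom s = a - b := E.ι_injective hs
    have h3 : (cokerπ ε).hom (a - b) = 0 := (cokerπ_eq_zero_iff _ _).2 ⟨s, h2⟩
    rw [map_sub] at h3
    exact sub_eq_zero.1 h3
  π_surjective := by
    intro q
    obtain ⟨x, rfl⟩ := E.π_surjective q
    exact ⟨(E.quotProj ε).hom x, rfl⟩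
  exact := by
    intro y
    obtain ⟨x, rfl⟩ := cokerπ_surjective (ε ≫ E.ι) y
    rw [quotπ_apply]
    constructor
    · intro hx
      obtain ⟨c, rfl⟩ := (E.exact x).1 hx
      exact ⟨(cokerπ ε).hom c, E.quotι_apply ε c⟩
    · rintro ⟨c, hc⟩
      obtain ⟨c, rfl⟩ := cokerπ_surjective ε c
      rw [quotι_apply] at hc
      have h1 : (E.quotProj ε).hom (E.ι.hom c - x) = 0 := by
        rw [map_sub]
        exact sub_eq_zero.2 hc
      obtain ⟨s, hs⟩ := (E.quotProj_eq_zero_iff ε _).1 h1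
      have h2 : x = E.ι.hom (c - ε.hom s) := by
        rw [map_sub, hs]
        abel
      rw [h2]
      exact (E.exact _).2 ⟨_, rfl⟩
  discrete := by
    intro y
    obtain ⟨x, rfl⟩ := cokerπ_surjective (ε ≫ E.ι) y
    obtain ⟨N₀, hN₀, h⟩ := E.discrete x
    refine ⟨N₀, hN₀, fun n hn => ?_⟩
    rw [← Rep.hom_comm_apply, h n hn]
  divisible := by
    intro y
    obtain ⟨x, rfl⟩ := cokerπ_surjective (ε ≫ E.ι) y
    obtain ⟨x', rfl⟩ := E.divisible x
    exact ⟨(cokerπ (ε ≫ E.ι)).hom x', (map_nsmul _ _ _).symm⟩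

/-- The projection `I → I/S` is compatible with the projections to `Q`. -/
theorem quotProj_comp_π : E.quotProj ε ≫ E.quotπ ε = E.π :=
  cokerπ_comp_cokerDesc _ _ _

/-- The termwise exact sequence `0 → S[m] → D_N → D_{N/S} → 0` in degree `0`:
`0 → S[m] → I[m] → (I/S)[m] → 0` is exact when `S` is `m`-divisible. -/
theorem torsion_quot_exact (hε : Function.Injective ε.hom)
    (hS : ∀ s : S.V, ∃ s' : S.V, m • s' = s) :
    Function.Injective (torsionMap m (ε ≫ E.ι)).hom ∧
    (∀ y : torsionSub m E.I.V, (torsionMap m (E.quotProj ε)).hom y = 0 ↔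
      ∃ a : torsionSub m S.V, (torsionMap m (ε ≫ E.ι)).hom a = y) ∧
    Function.Surjective (torsionMap m (E.quotProj ε)).hom := by
  have hinj : Function.Injective (ε ≫ E.ι).hom := fun a b hab => by
    rw [comp_ι_apply, comp_ι_apply] at hab
    exact hε (E.ι_injective hab)
  refine ⟨torsionMap_injective m _ hinj, ?_, ?_⟩
  · exact torsionMap_exact m (ε ≫ E.ι) (E.quotProj ε) (cokerπ_eq_zero_iff _) hinj
  · exact torsionMap_surjective_of_divisible m (ε ≫ E.ι) (E.quotProj ε) (cokerπ_eq_zero_iff _)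
      (cokerπ_surjective _) hS

/-- Compatibility of the two-term complexes: `D_N → D_{N/S}` is a morphism of complexes
(in degree `1` it is the identity of `Q[m]`). -/
theorem dComplex_quot :
    torsionMap m (E.quotProj ε) ≫ (E.quot ε).dComplex = E.dComplex := by
  apply Rep.hom_ext
  apply Representation.IntertwiningMap.ext
  exact LinearMap.ext fun x => rfl

end DivEnvelope

end DivEnvelope

section Canonical

variable {H : Type} [Group H] (𝓛 : LevelStructure H)

/-- **Existence of divisible envelopes**: every discrete `N : Rep ℤ H` has the canonical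
`m`-divisible envelope `I(N)` (for every `m ≠ 0`). -/
def canonicalEnvelope (m : ℕ) (hm : m ≠ 0) (N : Rep.{0} ℤ H) (hN : 𝓛.IsDiscrete N) :
    DivEnvelope 𝓛 m N where
  I := envelope 𝓛 N
  Q := cokerRep (envelopeι 𝓛 N hN)
  ι := envelopeι 𝓛 N hN
  π := cokerπ (envelopeι 𝓛 N hN)
  ι_injective := envelopeι_injective 𝓛 N hN
  π_surjective := cokerπ_surjective _
  exact := cokerπ_eq_zero_iff _
  discrete := isDiscrete_envelope 𝓛 N
  divisible := envelope_divisible 𝓛 N m hm

end Canonical

end Fermat.Agent.CFT.H36
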