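import Mathlib
import Fermat.Agent.CFT.H36_Envelope

/-!
# CFT / Layer D0 / D0-ENV, slice 2

* `torsionCoindIso` : `(coindLevel 𝓛 V)[p] ≅ coindLevel 𝓛 (V[p])` as `ZMod p`-representations, so
  the `Vm` of the W-model attached to the canonical envelope is again coinduced;
* `exists_extension` : for `ε : E ⟶ J` injective and `J` discrete, the embedding
  `E ⟶ envelope 𝓛 E` extends to `J ⟶ envelope 𝓛 E`;
* refinement maps between coinduced modules / envelopes for two level structures on `H`.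
-/

set_option autoImplicit false

noncomputable section

open CategoryTheory

namespace Fermat.Agent.CFT.H36

open Fermat.Agent.CFT

section TorsionCoind

variable {k : Type} [CommRing k] {H : Type} [Group H] (𝓛 : LevelStructure H) (p : ℕ)
  (V : Type) [AddCommGroup V] [Module k V]

/-- forward map of `torsionCoindEquiv` -/
def torsionCoindFwd :
    torsionSub p (levelFun (k := k) 𝓛 V) →+ levelFun (k := ZMod p) 𝓛 (torsionSub p V) where
  toFun t := ⟨fun x => ⟨t.1.1 x, by
      rw [mem_torsionSub]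
      have h := t.2
      rw [mem_torsionSub] at h
      exact congrArg (fun f : levelFun (k := k) 𝓛 V => f.1 x) h⟩, by
    obtain ⟨N, hN, h⟩ := t.1.2
    exact ⟨N, hN, fun g s hs => Subtype.ext (h g s hs)⟩⟩
  map_zero' := rfl
  map_add' _ _ := rfl

/-- backward map of `torsionCoindEquiv` -/
def torsionCoindBwd :
    levelFun (k := ZMod p) 𝓛 (torsionSub p V) →+ torsionSub p (levelFun (k := k) 𝓛 V) where
  toFun h := ⟨⟨fun x => (h.1 x).1, by
      obtain ⟨N, hN, hc⟩ := h.2
      exact ⟨N, hN, fun g s hs => congrArg Subtype.val (hc g s hs)⟩⟩, by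
    rw [mem_torsionSub]
    apply Subtype.ext
    funext x
    have := (h.1 x).2
    rw [mem_torsionSub] at this
    exact this⟩
  map_zero' := rfl
  map_add' _ _ := rfl

/-- `(level-constant maps H → V)[p] ≃ level-constant maps H → V[p]`, `ZMod p`-linearly. -/
def torsionCoindEquiv :
    torsionSub p (levelFun (k := k) 𝓛 V) ≃ₗ[ZMod p]
      levelFun (k := ZMod p) 𝓛 (torsionSub p V) :=
  { (torsionCoindFwd 𝓛 p V).toZModLinearMap p with
    invFun := torsionCoindBwd 𝓛 p V
    left_inv := fun _ => rfl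
    right_inv := fun _ => rfl }

/-- The `p`-torsion of a coinduced module is coinduced:
`(coindLevel 𝓛 V)[p] ≅ coindLevel 𝓛 (V[p])` as representations over `ZMod p`. -/
def torsionCoindIso :
    torsionRep p (coindLevel (k := k) 𝓛 V) ≅ coindLevel (k := ZMod p) 𝓛 (torsionSub p V) :=
  Rep.mkIso (Representation.Equiv.mk (torsionCoindEquiv 𝓛 p V) (fun g => by
    refine LinearMap.ext fun t => ?_
    rfl))

lemma torsionCoindIso_hom_apply (t : torsionSub p (levelFun (k := k) 𝓛 V)) (x : H) :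
    (((show levelFun (k := ZMod p) 𝓛 (torsionSub p V) from
      (torsionCoindIso 𝓛 p V).hom.hom t).1 x : torsionSub p V) : V) = t.1.1 x := rfl

end TorsionCoind

section GenericComp

variable {k : Type} [CommRing k] {H : Type} [Group H] (𝓛 : LevelStructure H)
  {W : Type} [AddCommGroup W] [Module k W]

/-- Precomposition of an orbit map with a morphism of representations. -/
theorem comp_orbitMap {E J : Rep.{0} k H} (ε : E ⟶ J) (hE : 𝓛.IsDiscrete E)
    (hJ : 𝓛.IsDiscrete J) (e₀ : E.V →ₗ[k] W) (f₀ : J.V →ₗ[k] W)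
    (h : ∀ e : E.V, f₀ (ε.hom e) = e₀ e) :
    ε ≫ orbitMap 𝓛 J hJ f₀ = orbitMap 𝓛 E hE e₀ := by
  apply Rep.hom_ext
  apply Representation.IntertwiningMap.ext
  refine LinearMap.ext fun e => ?_
  apply Subtype.ext
  funext g
  show f₀ (J.ρ g (ε.hom e)) = e₀ (E.ρ g e)
  rw [← Rep.hom_comm_apply, h]

end GenericComp

section Extension

/-- Characters extend along injective additive maps (`ℚ/ℤ` is injective). -/
theorem exists_char_extension {E J : Type} [AddCommGroup E] [AddCommGroup J] (ε : E →+ J)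
    (hε : Function.Injective ε) (χ : CharacterModule E) :
    ∃ χ' : CharacterModule J, ∀ e, χ' (ε e) = χ e := by
  obtain ⟨χ', h⟩ := CharacterModule.dual_surjective_of_injective (R := ℤ) ε.toIntLinearMap hε χ
  exact ⟨χ', fun e => DFunLike.congr_fun h e⟩

/-- An extension of `embV E : E → V(E)` to `J` along an injective `ε : E → J`. -/
def extV {E J : Type} [AddCommGroup E] [AddCommGroup J] (ε : E →+ J)
    (hε : Function.Injective ε) : J →+ Vdiv E where
  toFun j := fun χ => (Classical.choose (exists_char_extension ε hε χ)) j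
  map_zero' := by funext χ; exact map_zero _
  map_add' a b := by funext χ; exact map_add _ a b

lemma extV_apply {E J : Type} [AddCommGroup E] [AddCommGroup J] (ε : E →+ J)
    (hε : Function.Injective ε) (e : E) : extV ε hε (ε e) = embV E e := by
  funext χ
  exact Classical.choose_spec (exists_char_extension ε hε χ) e

variable {H : Type} [Group H] (𝓛 : LevelStructure H)

/-- **Extension lemma**: for `ε : E ⟶ J` injective and `J` discrete, an equivariant map
`J ⟶ envelope 𝓛 E` extending the canonical embedding of `E`. -/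
def extensionHom {E J : Rep.{0} ℤ H} (ε : E ⟶ J) (hε : Function.Injective ε.hom)
    (hJ : 𝓛.IsDiscrete J) : J ⟶ envelope 𝓛 E :=
  orbitMap 𝓛 J hJ (intLinearOfAddHom (extV (homAdd ε) hε))

theorem comp_extensionHom {E J : Rep.{0} ℤ H} (ε : E ⟶ J) (hε : Function.Injective ε.hom)
    (hE : 𝓛.IsDiscrete E) (hJ : 𝓛.IsDiscrete J) :
    ε ≫ extensionHom 𝓛 ε hε hJ = envelopeι 𝓛 E hE :=
  comp_orbitMap 𝓛 ε hE hJ _ _ (fun e => extV_apply (homAdd ε) hε e)

theorem exists_extension {E J : Rep.{0} ℤ H} (ε : E ⟶ J) (hε : Function.Injective ε.hom)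
    (hE : 𝓛.IsDiscrete E) (hJ : 𝓛.IsDiscrete J) :
    ∃ f : J ⟶ envelope 𝓛 E, ε ≫ f = envelopeι 𝓛 E hE :=
  ⟨extensionHom 𝓛 ε hε hJ, comp_extensionHom 𝓛 ε hε hE hJ⟩

end Extension

section Refinement

variable {k : Type} [CommRing k] {H : Type} [Group H] (𝓛' 𝓛 : LevelStructure H)

/-- `𝓛'` is coarser than `𝓛`: every `𝓛'`-level is `𝓛`-open. -/
def IsCoarser : Prop := ∀ N ∈ 𝓛'.levels, 𝓛.IsOpen N

variable {𝓛' 𝓛}

lemma IsCoarser.isConst₁ (h : IsCoarser 𝓛' 𝓛) {X : Type*} {f : H → X} (hf : 𝓛'.IsConst₁ f) :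
    𝓛.IsConst₁ f := by
  obtain ⟨N', hN', hc⟩ := hf
  obtain ⟨N, hN, hle⟩ := h N' hN'
  exact ⟨N, hN, fun g s hs => hc g s (hle hs)⟩

lemma IsCoarser.isDiscrete (h : IsCoarser 𝓛' 𝓛) {A : Rep.{0} k H} (hA : 𝓛'.IsDiscrete A) :
    𝓛.IsDiscrete A := by
  intro a
  obtain ⟨N', hN', hc⟩ := hA a
  obtain ⟨N, hN, hle⟩ := h N' hN'
  exact ⟨N, hN, fun n hn => hc n (hle hn)⟩

variable (V : Type) [AddCommGroup V] [Module k V]

/-- The inclusion `coindLevel 𝓛' V ⟶ coindLevel 𝓛 V` for `𝓛'` coarser than `𝓛`. -/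
def coindRefine (h : IsCoarser 𝓛' 𝓛) : coindLevel (k := k) 𝓛' V ⟶ coindLevel (k := k) 𝓛 V :=
  Rep.ofHom (ρ := (coindLevel (k := k) 𝓛' V).ρ) (σ := (coindLevel (k := k) 𝓛 V).ρ)
    ⟨(LinearMap.id : (H → V) →ₗ[k] (H → V)).restrict
      (p := levelFun (k := k) 𝓛' V) (q := levelFun (k := k) 𝓛 V) (fun _ hf => h.isConst₁ hf),
      fun g => by
        refine LinearMap.ext fun f => ?_
        rfl⟩

lemma coindRefine_apply (h : IsCoarser 𝓛' 𝓛) (f : levelFun (k := k) 𝓛' V) (x : H) :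
    (show levelFun (k := k) 𝓛 V from (coindRefine V h).hom f).1 x = f.1 x := rfl

theorem coindRefine_injective (h : IsCoarser 𝓛' 𝓛) :
    Function.Injective (coindRefine (k := k) V h).hom := by
  intro a b hab
  apply Subtype.ext
  exact congrArg (fun f : levelFun (k := k) 𝓛 V => f.1) hab

/-- The image of `coindRefine`: the `𝓛'`-level-constant functions. -/
theorem mem_range_coindRefine_iff (h : IsCoarser 𝓛' 𝓛) (f : levelFun (k := k) 𝓛 V) :
    (∃ f' : levelFun (k := k) 𝓛' V, (coindRefine V h).hom f' = f) ↔ 𝓛'.IsConst₁ f.1 := by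
  constructor
  · rintro ⟨f', rfl⟩
    exact f'.2
  · intro hf
    exact ⟨⟨f.1, hf⟩, rfl⟩

end Refinement

section EnvelopeRefinement

variable {H : Type} [Group H] {𝓛' 𝓛 : LevelStructure H}

/-- Refinement map of envelopes over a morphism `φ : N' ⟶ N`:
`envelope 𝓛' N' ⟶ envelope 𝓛 N` for `𝓛'` coarser than `𝓛`. -/
def envelopeRefine (h : IsCoarser 𝓛' 𝓛) {N' N : Rep.{0} ℤ H} (φ : N' ⟶ N) :
    envelope 𝓛' N' ⟶ envelope 𝓛 N :=
  (show envelope 𝓛' N' ⟶ envelope 𝓛 N' from coindRefine (k := ℤ) (Vdiv N'.V) h) ≫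
    envelopeMap 𝓛 φ

theorem envelopeι_refine (h : IsCoarser 𝓛' 𝓛) {N' N : Rep.{0} ℤ H} (φ : N' ⟶ N)
    (hN' : 𝓛'.IsDiscrete N') (hN : 𝓛.IsDiscrete N) :
    envelopeι 𝓛' N' hN' ≫ envelopeRefine h φ = φ ≫ envelopeι 𝓛 N hN := by
  have h1 : envelopeι 𝓛' N' hN' ≫
      (show envelope 𝓛' N' ⟶ envelope 𝓛 N' from coindRefine (k := ℤ) (Vdiv N'.V) h) =
      envelopeι 𝓛 N' (h.isDiscrete hN') := rfl
  rw [envelopeRefine, ← Category.assoc, h1]
  exact envelopeι_naturality 𝓛 (h.isDiscrete hN') hN φ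

end EnvelopeRefinement

end Fermat.Agent.CFT.H36
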