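import Mathlib
import Fermat.Agent.CFT.H55_LevelDefs

/-!
# Acyclicity of coinduced modules for level cohomology (helper58)

Blueprint v3 of layer D, item (Y1)/(AC): if `B` is a coinduced module (level-constant maps
`H → V` with right translation), then for every open subgroup `U` and every discrete `U`-module
`X` the level cohomology `Hⁿ(U; Hom(X, B))` vanishes for `n = 1, 2`.

We work with an abstract *coinduced structure* `CoindStr 𝓛 B V` on a representation `B`
(an evaluation map `ev : B → (H → V)` identifying `B` with the level-constant maps, under which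
the action becomes right translation), and with a general injective group homomorphism
`φ : H' → H` which is *open* for given level structures `𝓛'`, `𝓛` (`IsOpenHom`).  The cases
`φ = U.subtype` (`U` open) and `φ = id` are provided.
-/

set_option autoImplicit false

universe u

open CategoryTheory groupCohomology

namespace Fermat.Agent.CFT.H58

open Fermat.Agent.CFT

noncomputable section

variable {k : Type u} [CommRing k]

/-- The internal Hom representation `Hom_k(X, B)`, `(g • f) = ρ_B g ∘ f ∘ ρ_X g⁻¹`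
(`= (Rep.ihom X).obj B` by `rfl`). -/
abbrev homRep {G : Type u} [Group G] (X B : Rep.{u} k G) : Rep.{u} k G :=
  Rep.of (Representation.linHom X.ρ B.ρ)

lemma homRep_eq_ihom {G : Type u} [Group G] (X B : Rep.{u} k G) :
    homRep X B = (Rep.ihom X).obj B := rfl

/-! ## Coset representatives for an injective homomorphism -/

section Section

variable {H H' : Type u} [Group H] [Group H'] (φ : H' →* H)

/-- A representative of the coset `y φ(H')`. -/
def rep (y : H) : H := (QuotientGroup.mk y : H ⧸ φ.range).out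

lemma rep_inv_mul_mem (y : H) : (rep φ y)⁻¹ * y ∈ φ.range := by
  have h : (QuotientGroup.mk (rep φ y) : H ⧸ φ.range) = QuotientGroup.mk y :=
    Quotient.out_eq _
  exact QuotientGroup.eq.mp h

/-- The `H'`-component of `y`: `y = rep y * φ (uof y)`. -/
def uof (y : H) : H' := Classical.choose (MonoidHom.mem_range.mp (rep_inv_mul_mem φ y))

lemma φ_uof (y : H) : φ (uof φ y) = (rep φ y)⁻¹ * y :=
  Classical.choose_spec (MonoidHom.mem_range.mp (rep_inv_mul_mem φ y))

lemma rep_mul_uof (y : H) : rep φ y * φ (uof φ y) = y := by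
  rw [φ_uof]; group

lemma rep_mul (y : H) (w : H') : rep φ (y * φ w) = rep φ y := by
  unfold rep
  congr 1
  rw [QuotientGroup.eq]
  have : (y * φ w)⁻¹ * y = φ w⁻¹ := by rw [map_inv]; group
  rw [this]
  exact ⟨w⁻¹, rfl⟩

lemma uof_mul (hφ : Function.Injective φ) (y : H) (w : H') :
    uof φ (y * φ w) = uof φ y * w := by
  apply hφ
  rw [map_mul, φ_uof, φ_uof, rep_mul]
  group

end Section

/-! ## Coinduced structures -/

section Coind

variable {H : Type u} [Group H] (𝓛 : LevelStructure H)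

/-- A *coinduced structure* on `B`: an identification of `B` with the module of level-constant
maps `H → V`, the action of `H` being right translation. -/
structure CoindStr (B : Rep.{u} k H) (V : Type u) [AddCommGroup V] [Module k V] where
  ev : B.V →ₗ[k] (H → V)
  ev_ρ : ∀ (g : H) (b : B.V) (y : H), ev (B.ρ g b) y = ev b (y * g)
  ev_injective : Function.Injective ev
  ev_const : ∀ b : B.V, 𝓛.IsConst₁ (ev b)
  ev_surj : ∀ f : H → V, 𝓛.IsConst₁ f → ∃ b : B.V, ev b = f

variable {𝓛}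

namespace CoindStr

variable {B : Rep.{u} k H} {V : Type u} [AddCommGroup V] [Module k V] (S : CoindStr 𝓛 B V)

/-- The element of `B` with prescribed (level-constant) values. -/
def glue (f : H → V) (hf : 𝓛.IsConst₁ f) : B.V := Classical.choose (S.ev_surj f hf)

@[simp] lemma ev_glue (f : H → V) (hf : 𝓛.IsConst₁ f) : S.ev (S.glue f hf) = f :=
  Classical.choose_spec (S.ev_surj f hf)

/-- A linear family of level-constant functions glues to a linear map into `B`. -/
def glueLin {X : Type u} [AddCommGroup X] [Module k X] (F : X →ₗ[k] (H → V))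
    (hF : ∀ x, 𝓛.IsConst₁ (F x)) : X →ₗ[k] B.V where
  toFun x := S.glue (F x) (hF x)
  map_add' x x' := by
    apply S.ev_injective
    rw [S.ev.map_add]
    simp only [ev_glue]
    exact F.map_add x x'
  map_smul' c x := by
    apply S.ev_injective
    rw [S.ev.map_smul]
    simp only [ev_glue, RingHom.id_apply]
    exact F.map_smul c x

@[simp] lemma ev_glueLin {X : Type u} [AddCommGroup X] [Module k X] (F : X →ₗ[k] (H → V))
    (hF : ∀ x, 𝓛.IsConst₁ (F x)) (x : X) : S.ev (S.glueLin F hF x) = F x :=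
  S.ev_glue (F x) (hF x)

end CoindStr

end Coind

/-- `φ : H' → H` is *open* for the level structures `𝓛'`, `𝓛`: the image of every level of `H'`
contains a level of `H`. -/
def IsOpenHom {H H' : Type u} [Group H] [Group H'] (𝓛 : LevelStructure H)
    (𝓛' : LevelStructure H') (φ : H' →* H) : Prop :=
  ∀ N' ∈ 𝓛'.levels, 𝓛.IsOpen (N'.map φ)

lemma isOpenHom_id {H : Type u} [Group H] (𝓛 : LevelStructure H) :
    IsOpenHom 𝓛 𝓛 (MonoidHom.id H) := by
  intro N' hN'
  exact ⟨N', hN', by rw [Subgroup.map_id]⟩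

lemma isOpenHom_subtype {H : Type u} [Group H] (𝓛 : LevelStructure H) (U : Subgroup H)
    (hU : 𝓛.IsOpen U) : IsOpenHom 𝓛 (𝓛.restrict U) U.subtype := by
  rintro _ ⟨N, hN, rfl⟩
  obtain ⟨N₀, hN₀, hN₀U⟩ := hU
  obtain ⟨N₃, hN₃, hle⟩ := 𝓛.directed N hN N₀ hN₀
  refine ⟨N₃, hN₃, fun s hs => ?_⟩
  have hsU : s ∈ U := hN₀U (hle hs).2
  exact ⟨⟨s, hsU⟩, (hle hs).1, rfl⟩

/-! ## The contracting homotopy -/

lemma homRep_ρ_apply {G : Type u} [Group G] (X B : Rep.{u} k G) (g : G)
    (f : X.V →ₗ[k] B.V) (x : X.V) :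
    ((homRep X B).ρ g f) x = B.ρ g (f (X.ρ g⁻¹ x)) := rfl

section Main

variable {H H' : Type u} [Group H] [Group H'] {𝓛 : LevelStructure H} {𝓛' : LevelStructure H'}
  {φ : H' →* H} (hφ : Function.Injective φ) (hop : IsOpenHom 𝓛 𝓛' φ)
  {B : Rep.{u} k H} {V : Type u} [AddCommGroup V] [Module k V] (S : CoindStr 𝓛 B V)
  (X : Rep.{u} k H')

/-- The function `y ↦ ev (e (u y) (u(y) • x)) (r y)`, linear in `x`. -/
def twist (e : H' → (X.V →ₗ[k] B.V)) : X.V →ₗ[k] (H → V) where
  toFun x y := S.ev (e (uof φ y) (X.ρ (uof φ y) x)) (rep φ y)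
  map_add' x x' := by
    funext y
    simp only [map_add, Pi.add_apply]
  map_smul' c x := by
    funext y
    simp only [map_smul, Pi.smul_apply, RingHom.id_apply]

lemma twist_apply (e : H' → (X.V →ₗ[k] B.V)) (x : X.V) (y : H) :
    twist (φ := φ) S X e x y = S.ev (e (uof φ y) (X.ρ (uof φ y) x)) (rep φ y) := rfl

include hφ hop in
lemma isConst₁_twist (hX : 𝓛'.IsDiscrete X) (e : H' → (X.V →ₗ[k] B.V))
    (he : ∃ N' ∈ 𝓛'.levels, ∀ g s, s ∈ N' → e (g * s) = e g) (x : X.V) :
    𝓛.IsConst₁ (twist (φ := φ) S X e x) := by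
  obtain ⟨N₁, hN₁, h₁⟩ := he
  obtain ⟨N₂, hN₂, h₂⟩ := hX x
  obtain ⟨N', hN', hle'⟩ := 𝓛'.directed N₁ hN₁ N₂ hN₂
  obtain ⟨N, hN, hle⟩ := hop N' hN'
  refine ⟨N, hN, fun y s hs => ?_⟩
  obtain ⟨s', hs', rfl⟩ := hle hs
  rw [twist_apply, twist_apply, rep_mul, uof_mul φ hφ, h₁ _ _ (hle' hs').1, map_mul,
    Module.End.mul_apply, h₂ s' (hle' hs').2]

/-- The glued element of `Hom(X, B)`. -/
def glued (hX : 𝓛'.IsDiscrete X) (e : H' → (X.V →ₗ[k] B.V))
    (he : ∃ N' ∈ 𝓛'.levels, ∀ g s, s ∈ N' → e (g * s) = e g) : X.V →ₗ[k] B.V :=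
  S.glueLin (twist (φ := φ) S X e) (isConst₁_twist hφ hop S X hX e he)

lemma ev_glued (hX : 𝓛'.IsDiscrete X) (e : H' → (X.V →ₗ[k] B.V))
    (he : ∃ N' ∈ 𝓛'.levels, ∀ g s, s ∈ N' → e (g * s) = e g) (x : X.V) (y : H) :
    S.ev (glued hφ hop S X hX e he x) y =
      S.ev (e (uof φ y) (X.ρ (uof φ y) x)) (rep φ y) := by
  unfold glued
  rw [CoindStr.ev_glueLin, twist_apply]

/-- `ev` of the translate `w • (glued e)` -/
lemma ev_ρ_glued (hX : 𝓛'.IsDiscrete X) (e : H' → (X.V →ₗ[k] B.V))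
    (he : ∃ N' ∈ 𝓛'.levels, ∀ g s, s ∈ N' → e (g * s) = e g) (w : H') (x : X.V) (y : H) :
    S.ev (((homRep X (Rep.res φ B)).ρ w (glued hφ hop S X hX e he)) x) y =
      S.ev (e (uof φ y * w) (X.ρ (uof φ y) x)) (rep φ y) := by
  rw [homRep_ρ_apply]
  change S.ev (B.ρ (φ w) _) y = _
  rw [S.ev_ρ, ev_glued, rep_mul, uof_mul φ hφ]
  have h : X.ρ (uof φ y * w) (X.ρ w⁻¹ x) = X.ρ (uof φ y) x := by
    rw [← Module.End.mul_apply, ← map_mul, mul_assoc, mul_inv_cancel, mul_one]
  rw [h]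

/-- `ev` of `u(y) • f` evaluated at `u(y) • x` and `r(y)` is `ev (f x) y`. -/
lemma ev_ρ_uof (f : X.V →ₗ[k] B.V) (x : X.V) (y : H) :
    S.ev (((homRep X (Rep.res φ B)).ρ (uof φ y) f) (X.ρ (uof φ y) x)) (rep φ y) =
      S.ev (f x) y := by
  rw [homRep_ρ_apply]
  change S.ev (B.ρ (φ (uof φ y)) _) (rep φ y) = _
  rw [S.ev_ρ, rep_mul_uof, ← Module.End.mul_apply, ← map_mul, inv_mul_cancel, map_one,
    Module.End.one_apply]

/-! ## Vanishing of `H¹` -/

include hφ hop S in
/-- Every level `1`-cocycle with values in `Hom(X, B)` is a coboundary. -/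
theorem cocycles₁_le_coboundaries₁ (hX : 𝓛'.IsDiscrete X) :
    𝓛'.cocycles₁ (homRep X (Rep.res φ B)) ≤
      groupCohomology.coboundaries₁.{u, u} (homRep X (Rep.res φ B)) := by
  rintro c ⟨hc, hconst⟩
  have hc' := (mem_cocycles₁_iff c).mp hc
  have he : ∃ N' ∈ 𝓛'.levels, ∀ g s, s ∈ N' → c (g * s) = c g := hconst
  refine ⟨glued hφ hop S X hX c he, ?_⟩
  funext w
  rw [d₀₁_hom_apply]
  refine LinearMap.ext fun x => ?_
  apply S.ev_injective
  funext y
  rw [LinearMap.sub_apply, map_sub, Pi.sub_apply, ev_ρ_glued, ev_glued, hc' (uof φ y) w,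
    LinearMap.add_apply, map_add, Pi.add_apply, ev_ρ_uof]
  abel

include hφ hop S in
theorem subsingleton_H1 (hX : 𝓛'.IsDiscrete X) :
    Subsingleton (𝓛'.H1 (homRep X (Rep.res φ B))) := by
  rw [Submodule.Quotient.subsingleton_iff, eq_top_iff]
  intro c _
  exact cocycles₁_le_coboundaries₁ hφ hop S X hX c.2

/-! ## Vanishing of `H²` -/

include hφ hop S in
/-- Every level `2`-cocycle with values in `Hom(X, B)` is a level coboundary. -/
theorem cocycles₂_le_coboundaries₂ (hX : 𝓛'.IsDiscrete X) :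
    𝓛'.cocycles₂ (homRep X (Rep.res φ B)) ≤ 𝓛'.coboundaries₂ (homRep X (Rep.res φ B)) := by
  rintro c ⟨hc, N', hN', hconst⟩
  have hc' := (mem_cocycles₂_iff c).mp hc
  have he : ∀ v : H', ∃ N' ∈ 𝓛'.levels, ∀ g s, s ∈ N' → c (g * s, v) = c (g, v) := fun v =>
    ⟨N', hN', fun g s hs => by
      have := hconst g v s 1 hs (one_mem _)
      rwa [mul_one] at this⟩
  let b : H' → (X.V →ₗ[k] B.V) := fun v => glued hφ hop S X hX (fun w => c (w, v)) (he v)
  have hb : ∀ v x y, S.ev (b v x) y = S.ev (c (uof φ y, v) (X.ρ (uof φ y) x)) (rep φ y) :=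
    fun v x y => ev_glued hφ hop S X hX _ (he v) x y
  refine ⟨b, ⟨N', hN', fun v s hs => ?_⟩, ?_⟩
  · refine LinearMap.ext fun x => ?_
    apply S.ev_injective
    funext y
    rw [hb, hb]
    have := hconst (uof φ y) v 1 s (one_mem _) hs
    rw [mul_one] at this
    rw [this]
  · funext ⟨w, v⟩
    rw [d₁₂_hom_apply]
    refine LinearMap.ext fun x => ?_
    apply S.ev_injective
    funext y
    have h1 : S.ev (((homRep X (Rep.res φ B)).ρ w (b v)) x) y =
        S.ev (c (uof φ y * w, v) (X.ρ (uof φ y) x)) (rep φ y) :=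
      ev_ρ_glued hφ hop S X hX _ (he v) w x y
    have h2 := hc' (uof φ y) w v
    have h3 := ev_ρ_uof (φ := φ) S X (c (w, v)) x y
    have h4 : c (uof φ y * w, v) = (homRep X (Rep.res φ B)).ρ (uof φ y) (c (w, v))
        + c (uof φ y, w * v) - c (uof φ y, w) := by
      rw [← h2]; abel
    rw [LinearMap.add_apply, LinearMap.sub_apply, map_add, map_sub, Pi.add_apply, Pi.sub_apply,
      h1, hb, hb, h4, LinearMap.sub_apply, LinearMap.add_apply, map_sub, map_add, Pi.sub_apply,
      Pi.add_apply, h3]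
    abel

include hφ hop S in
theorem subsingleton_H2 (hX : 𝓛'.IsDiscrete X) :
    Subsingleton (𝓛'.H2 (homRep X (Rep.res φ B))) := by
  rw [Submodule.Quotient.subsingleton_iff, eq_top_iff]
  intro c _
  exact cocycles₂_le_coboundaries₂ hφ hop S X hX c.2

end Main

/-! ## Plain coefficients: `Hⁿ(H'; B) = 0` for `n = 1, 2, 3` -/

section Plain

variable {H H' : Type u} [Group H] [Group H'] {𝓛 : LevelStructure H} {𝓛' : LevelStructure H'}
  {φ : H' →* H} (hφ : Function.Injective φ) (hop : IsOpenHom 𝓛 𝓛' φ)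
  {B : Rep.{u} k H} {V : Type u} [AddCommGroup V] [Module k V] (S : CoindStr 𝓛 B V)

include hφ hop in
lemma isConst₁_twist₀ (e : H' → B.V)
    (he : ∃ N' ∈ 𝓛'.levels, ∀ g s, s ∈ N' → e (g * s) = e g) :
    𝓛.IsConst₁ (fun y => S.ev (e (uof φ y)) (rep φ y)) := by
  obtain ⟨N', hN', h₁⟩ := he
  obtain ⟨N, hN, hle⟩ := hop N' hN'
  refine ⟨N, hN, fun y s hs => ?_⟩
  obtain ⟨s', hs', rfl⟩ := hle hs
  simp only [rep_mul, uof_mul φ hφ, h₁ _ _ hs']

/-- The glued element of `B`. -/
def glued₀ (e : H' → B.V)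
    (he : ∃ N' ∈ 𝓛'.levels, ∀ g s, s ∈ N' → e (g * s) = e g) : B.V :=
  S.glue _ (isConst₁_twist₀ hφ hop S e he)

lemma ev_glued₀ (e : H' → B.V)
    (he : ∃ N' ∈ 𝓛'.levels, ∀ g s, s ∈ N' → e (g * s) = e g) (y : H) :
    S.ev (glued₀ hφ hop S e he) y = S.ev (e (uof φ y)) (rep φ y) := by
  unfold glued₀
  rw [CoindStr.ev_glue]

lemma ev_ρ_glued₀ (e : H' → B.V)
    (he : ∃ N' ∈ 𝓛'.levels, ∀ g s, s ∈ N' → e (g * s) = e g) (w : H') (y : H) :
    S.ev ((Rep.res φ B).ρ w (glued₀ hφ hop S e he)) y = S.ev (e (uof φ y * w)) (rep φ y) := by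
  change S.ev (B.ρ (φ w) _) y = _
  rw [S.ev_ρ, ev_glued₀, rep_mul, uof_mul φ hφ]

lemma ev_ρ_uof₀ (b : B.V) (y : H) :
    S.ev ((Rep.res φ B).ρ (uof φ y) b) (rep φ y) = S.ev b y := by
  change S.ev (B.ρ (φ (uof φ y)) _) (rep φ y) = _
  rw [S.ev_ρ, rep_mul_uof]

include hφ hop S in
theorem cocycles₁_le_coboundaries₁_plain :
    𝓛'.cocycles₁ (Rep.res φ B) ≤ groupCohomology.coboundaries₁.{u, u} (Rep.res φ B) := by
  rintro c ⟨hc, hconst⟩
  have hc' := (mem_cocycles₁_iff c).mp hc
  have he : ∃ N' ∈ 𝓛'.levels, ∀ g s, s ∈ N' → c (g * s) = c g := hconst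
  refine ⟨glued₀ hφ hop S c he, ?_⟩
  funext w
  rw [d₀₁_hom_apply]
  apply S.ev_injective
  funext y
  rw [map_sub, Pi.sub_apply, ev_ρ_glued₀, ev_glued₀, hc' (uof φ y) w, map_add, Pi.add_apply,
    ev_ρ_uof₀]
  abel

include hφ hop S in
theorem subsingleton_H1_plain : Subsingleton (𝓛'.H1 (Rep.res φ B)) := by
  rw [Submodule.Quotient.subsingleton_iff, eq_top_iff]
  intro c _
  exact cocycles₁_le_coboundaries₁_plain hφ hop S c.2

include hφ hop S in
theorem cocycles₂_le_coboundaries₂_plain :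
    𝓛'.cocycles₂ (Rep.res φ B) ≤ 𝓛'.coboundaries₂ (Rep.res φ B) := by
  rintro c ⟨hc, N', hN', hconst⟩
  have hc' := (mem_cocycles₂_iff c).mp hc
  have he : ∀ v : H', ∃ N' ∈ 𝓛'.levels, ∀ g s, s ∈ N' → c (g * s, v) = c (g, v) := fun v =>
    ⟨N', hN', fun g s hs => by
      have := hconst g v s 1 hs (one_mem _)
      rwa [mul_one] at this⟩
  let b : H' → B.V := fun v => glued₀ hφ hop S (fun w => c (w, v)) (he v)
  have hb : ∀ v y, S.ev (b v) y = S.ev (c (uof φ y, v)) (rep φ y) :=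
    fun v y => ev_glued₀ hφ hop S _ (he v) y
  refine ⟨b, ⟨N', hN', fun v s hs => ?_⟩, ?_⟩
  · apply S.ev_injective
    funext y
    rw [hb, hb]
    have := hconst (uof φ y) v 1 s (one_mem _) hs
    rw [mul_one] at this
    rw [this]
  · funext ⟨w, v⟩
    rw [d₁₂_hom_apply]
    apply S.ev_injective
    funext y
    have h1 : S.ev ((Rep.res φ B).ρ w (b v)) y = S.ev (c (uof φ y * w, v)) (rep φ y) :=
      ev_ρ_glued₀ hφ hop S _ (he v) w y
    have h2 := hc' (uof φ y) w v
    have h3 := ev_ρ_uof₀ (φ := φ) S (c (w, v)) y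
    have h4 : c (uof φ y * w, v) = (Rep.res φ B).ρ (uof φ y) (c (w, v))
        + c (uof φ y, w * v) - c (uof φ y, w) := by
      rw [← h2]; abel
    rw [map_add, map_sub, Pi.add_apply, Pi.sub_apply, h1, hb, hb, h4, map_sub, map_add,
      Pi.sub_apply, Pi.add_apply, h3]
    abel

include hφ hop S in
theorem subsingleton_H2_plain : Subsingleton (𝓛'.H2 (Rep.res φ B)) := by
  rw [Submodule.Quotient.subsingleton_iff, eq_top_iff]
  intro c _
  exact cocycles₂_le_coboundaries₂_plain hφ hop S c.2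

include hφ hop S in
theorem cocycles₃_le_coboundaries₃_plain :
    𝓛'.cocycles₃ (Rep.res φ B) ≤ 𝓛'.coboundaries₃ (Rep.res φ B) := by
  rintro c ⟨hc, N', hN', hconst⟩
  have hc' : ∀ g w v v' : H', (Rep.res φ B).ρ g (c (w, v, v')) - c (g * w, v, v')
      + c (g, w * v, v') - c (g, w, v * v') + c (g, w, v) = 0 := fun g w v v' =>
    congrFun (LinearMap.mem_ker.mp hc) (g, w, v, v')
  have he : ∀ v v' : H', ∃ N' ∈ 𝓛'.levels, ∀ g s, s ∈ N' → c (g * s, v, v') = c (g, v, v') :=
    fun v v' => ⟨N', hN', fun g s hs => by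
      have := hconst g v v' s 1 1 hs (one_mem _) (one_mem _)
      rwa [mul_one, mul_one] at this⟩
  let b : H' × H' → B.V := fun p => glued₀ hφ hop S (fun w => c (w, p.1, p.2)) (he p.1 p.2)
  have hb : ∀ v v' y, S.ev (b (v, v')) y = S.ev (c (uof φ y, v, v')) (rep φ y) :=
    fun v v' y => ev_glued₀ hφ hop S _ (he v v') y
  refine ⟨b, ⟨N', hN', fun v v' s s' hs hs' => ?_⟩, ?_⟩
  · apply S.ev_injective
    funext y
    rw [hb, hb]
    have := hconst (uof φ y) v v' 1 s s' (one_mem _) hs hs'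
    rw [mul_one] at this
    rw [this]
  · funext ⟨w, v, v'⟩
    rw [d₂₃_hom_apply]
    apply S.ev_injective
    funext y
    have h1 : S.ev ((Rep.res φ B).ρ w (b (v, v'))) y
        = S.ev (c (uof φ y * w, v, v')) (rep φ y) :=
      ev_ρ_glued₀ hφ hop S _ (he v v') w y
    have h2 := hc' (uof φ y) w v v'
    have h3 := ev_ρ_uof₀ (φ := φ) S (c (w, v, v')) y
    have h4 : c (uof φ y * w, v, v') = (Rep.res φ B).ρ (uof φ y) (c (w, v, v'))
        + c (uof φ y, w * v, v') - c (uof φ y, w, v * v') + c (uof φ y, w, v) := by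
      rw [← sub_eq_zero]
      have h5 : c (uof φ y * w, v, v') - ((Rep.res φ B).ρ (uof φ y) (c (w, v, v'))
          + c (uof φ y, w * v, v') - c (uof φ y, w, v * v') + c (uof φ y, w, v)) =
          -((Rep.res φ B).ρ (uof φ y) (c (w, v, v')) - c (uof φ y * w, v, v')
            + c (uof φ y, w * v, v') - c (uof φ y, w, v * v') + c (uof φ y, w, v)) := by abel
      rw [h5, h2, neg_zero]
    simp only [map_add, map_sub, Pi.add_apply, Pi.sub_apply, h1, hb, h4, h3]
    abel

include hφ hop S in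
theorem subsingleton_H3_plain : Subsingleton (𝓛'.H3 (Rep.res φ B)) := by
  rw [Submodule.Quotient.subsingleton_iff, eq_top_iff]
  intro c _
  exact cocycles₃_le_coboundaries₃_plain hφ hop S c.2

end Plain

/-! ## Special cases: open subgroups and the group itself -/

section Special

variable {H : Type u} [Group H] {𝓛 : LevelStructure H}
  {B : Rep.{u} k H} {V : Type u} [AddCommGroup V] [Module k V] (S : CoindStr 𝓛 B V)

include S in
/-- `H¹(U; Hom(X, B)) = 0` for `U` open, `X` a discrete `U`-module, `B` coinduced. -/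
theorem subsingleton_H1_restrict (U : Subgroup H) (hU : 𝓛.IsOpen U) (X : Rep.{u} k U)
    (hX : (𝓛.restrict U).IsDiscrete X) :
    Subsingleton ((𝓛.restrict U).H1 (homRep X (Rep.res U.subtype B))) :=
  subsingleton_H1 U.subtype_injective (isOpenHom_subtype 𝓛 U hU) S X hX

include S in
/-- `H²(U; Hom(X, B)) = 0` for `U` open, `X` a discrete `U`-module, `B` coinduced. -/
theorem subsingleton_H2_restrict (U : Subgroup H) (hU : 𝓛.IsOpen U) (X : Rep.{u} k U)
    (hX : (𝓛.restrict U).IsDiscrete X) :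
    Subsingleton ((𝓛.restrict U).H2 (homRep X (Rep.res U.subtype B))) :=
  subsingleton_H2 U.subtype_injective (isOpenHom_subtype 𝓛 U hU) S X hX

include S in
/-- `H¹(H; Hom(X, B)) = 0` for `X` discrete, `B` coinduced. -/
theorem subsingleton_H1_self (X : Rep.{u} k H) (hX : 𝓛.IsDiscrete X) :
    Subsingleton (𝓛.H1 (homRep X B)) :=
  subsingleton_H1 (φ := MonoidHom.id H) (fun _ _ h => h) (isOpenHom_id 𝓛) S X hX

include S in
/-- `H²(H; Hom(X, B)) = 0` for `X` discrete, `B` coinduced. -/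
theorem subsingleton_H2_self (X : Rep.{u} k H) (hX : 𝓛.IsDiscrete X) :
    Subsingleton (𝓛.H2 (homRep X B)) :=
  subsingleton_H2 (φ := MonoidHom.id H) (fun _ _ h => h) (isOpenHom_id 𝓛) S X hX

include S in
/-- `Hⁿ(U; B) = 0`, `n = 1, 2, 3`, for `U` open and `B` coinduced. -/
theorem subsingleton_H1_restrict_plain (U : Subgroup H) (hU : 𝓛.IsOpen U) :
    Subsingleton ((𝓛.restrict U).H1 (Rep.res U.subtype B)) :=
  subsingleton_H1_plain U.subtype_injective (isOpenHom_subtype 𝓛 U hU) S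

include S in
theorem subsingleton_H2_restrict_plain (U : Subgroup H) (hU : 𝓛.IsOpen U) :
    Subsingleton ((𝓛.restrict U).H2 (Rep.res U.subtype B)) :=
  subsingleton_H2_plain U.subtype_injective (isOpenHom_subtype 𝓛 U hU) S

include S in
theorem subsingleton_H3_restrict_plain (U : Subgroup H) (hU : 𝓛.IsOpen U) :
    Subsingleton ((𝓛.restrict U).H3 (Rep.res U.subtype B)) :=
  subsingleton_H3_plain U.subtype_injective (isOpenHom_subtype 𝓛 U hU) S

include S in
theorem subsingleton_H1_self_plain : Subsingleton (𝓛.H1 B) :=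
  subsingleton_H1_plain (φ := MonoidHom.id H) (fun _ _ h => h) (isOpenHom_id 𝓛) S

include S in
theorem subsingleton_H2_self_plain : Subsingleton (𝓛.H2 B) :=
  subsingleton_H2_plain (φ := MonoidHom.id H) (fun _ _ h => h) (isOpenHom_id 𝓛) S

include S in
theorem subsingleton_H3_self_plain : Subsingleton (𝓛.H3 B) :=
  subsingleton_H3_plain (φ := MonoidHom.id H) (fun _ _ h => h) (isOpenHom_id 𝓛) S

include S in
/-- A representation with a coinduced structure is discrete. -/
theorem CoindStr.isDiscrete : 𝓛.IsDiscrete B := by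
  intro b
  obtain ⟨N, hN, hb⟩ := S.ev_const b
  refine ⟨N, hN, fun n hn => ?_⟩
  apply S.ev_injective
  funext y
  rw [S.ev_ρ, hb y n hn]

end Special

/-! ## The standard coinduced module: level-constant maps `H → V` -/

section Standard

variable {H : Type u} [Group H] (𝓛 : LevelStructure H) (V : Type u) [AddCommGroup V] [Module k V]

/-- The module of level-constant maps `H → V`. -/
def lcSubmodule : Submodule k (H → V) where
  carrier := {f | 𝓛.IsConst₁ f}
  add_mem' hf hf' := hf.add hf'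
  zero_mem' := 𝓛.isConst₁_const (0 : V)
  smul_mem' c _ hf := hf.comp (c • ·)

omit [AddCommGroup V] in
variable {𝓛 V} in
lemma isConst₁_rightTranslate {f : H → V} (hf : 𝓛.IsConst₁ f) (g : H) :
    𝓛.IsConst₁ (fun y => f (y * g)) := by
  obtain ⟨N, hN, h⟩ := hf
  obtain ⟨N', hN', hle, hnor⟩ := 𝓛.exists_normal N hN
  refine ⟨N', hN', fun y s hs => ?_⟩
  have h1 : y * s * g = y * g * (g⁻¹ * s * g) := by group
  have h2 : g⁻¹ * s * g ∈ N := hle (by simpa using hnor.conj_mem s hs g⁻¹)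
  show f (y * s * g) = f (y * g)
  rw [h1, h (y * g) _ h2]

/-- Right translation on level-constant maps. -/
def lcRepresentation : Representation k H (lcSubmodule (k := k) 𝓛 V) where
  toFun g :=
    { toFun := fun f => ⟨fun y => f.1 (y * g), isConst₁_rightTranslate f.2 g⟩
      map_add' := fun f f' => rfl
      map_smul' := fun c f => rfl }
  map_one' := by
    ext f y
    simp
  map_mul' g h := by
    ext f y
    simp [mul_assoc]

/-- The coinduced module of level-constant maps `H → V`, with right translation. -/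
def lcRep : Rep.{u} k H := Rep.of (lcRepresentation (k := k) 𝓛 V)

lemma lcRep_ρ_apply (g : H) (f : lcSubmodule (k := k) 𝓛 V) (y : H) :
    ((lcRepresentation (k := k) 𝓛 V g f : lcSubmodule (k := k) 𝓛 V) : H → V) y = f.1 (y * g) :=
  rfl

/-- The tautological coinduced structure on `lcRep`. -/
def lcCoindStr : CoindStr 𝓛 (lcRep (k := k) 𝓛 V) V where
  ev := (lcSubmodule (k := k) 𝓛 V).subtype
  ev_ρ _ _ _ := rfl
  ev_injective := Subtype.val_injective
  ev_const b := b.2
  ev_surj f hf := ⟨⟨f, hf⟩, rfl⟩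

lemma isDiscrete_lcRep : 𝓛.IsDiscrete (lcRep (k := k) 𝓛 V) :=
  (lcCoindStr (k := k) 𝓛 V).isDiscrete

end Standard

end

end Fermat.Agent.CFT.H58
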