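/-
CFT project: class modules and (p-)class formations on top of `LevelStructure`
(helper55's `H55_LevelDefs`).  Definitions only.  Chief architect: helper91.

All representation-theoretic definitions are generic in the coefficient ring `k`
(use `k := ℤ` for formation modules); this avoids `ℤ`-module instance diamonds.
-/
import Fermat.Agent.CFT.H55_LevelDefs

set_option autoImplicit false

open CategoryTheory

namespace Fermat.Agent.CFT

/-! ## Finite level: restriction and class modules -/

section FiniteLevel

variable {k : Type} [CommRing k] {G : Type} [Group G]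

/-- Restriction `Hⁿ(G, C) → Hⁿ(H, C)` to a subgroup. -/
noncomputable abbrev resSub (C : Rep.{0} k G) (H : Subgroup G) (n : ℕ) :
    groupCohomology C n ⟶ groupCohomology (Rep.res H.subtype C) n :=
  groupCohomology.map H.subtype (𝟙 (Rep.res H.subtype C)) n

/-- `(C, γ)` is a *class module* for the finite group `G`: for every subgroup `H`,
`H¹(H, C) = 0` and `H²(H, C)` is cyclic of order `|H|`, generated by the restriction of the
fundamental class `γ ∈ H²(G, C)`. -/
structure IsClassModule (C : Rep.{0} k G) (γ : groupCohomology C 2) : Prop where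
  h1 : ∀ H : Subgroup G, Subsingleton (groupCohomology (Rep.res H.subtype C) 1)
  h2_gen : ∀ (H : Subgroup G) (x : groupCohomology (Rep.res H.subtype C) 2),
    ∃ n : ℤ, x = n • (resSub C H 2).hom γ
  h2_order : ∀ H : Subgroup G, addOrderOf ((resSub C H 2).hom γ) = Nat.card H

/-- The `p`-primary version: the class-module conditions are only required for the
`p`-subgroups `H` of `G`.  (For a `p`-group `H` all `Hⁿ(H, C)`, `n ≥ 1`, are `p`-primary, so
nothing is lost; the prime-to-`p` parts are never used.) -/
structure IsPClassModule (p : ℕ) (C : Rep.{0} k G) (γ : groupCohomology C 2) : Prop where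
  h1 : ∀ H : Subgroup G, IsPGroup p H →
    Subsingleton (groupCohomology (Rep.res H.subtype C) 1)
  h2_gen : ∀ H : Subgroup G, IsPGroup p H →
    ∀ x : groupCohomology (Rep.res H.subtype C) 2, ∃ n : ℤ, x = n • (resSub C H 2).hom γ
  h2_order : ∀ H : Subgroup G, IsPGroup p H →
    addOrderOf ((resSub C H 2).hom γ) = Nat.card H

lemma IsClassModule.isPClassModule {C : Rep.{0} k G} {γ : groupCohomology C 2}
    (h : IsClassModule C γ) (p : ℕ) : IsPClassModule p C γ :=
  ⟨fun H _ => h.h1 H, fun H _ => h.h2_gen H, fun H _ => h.h2_order H⟩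

end FiniteLevel

/-! ## Levels: invariants, inflation, class formations -/

section Levels

variable {k : Type} [CommRing k] {Γ : Type} [Group Γ]

/-- Inclusion of invariants `C^U → C^V` for `V ≤ U` (both normal), as a morphism of
`Γ/V`-representations (the `Γ/U`-action restricted along `Γ/V → Γ/U`). -/
noncomputable def invIncl (C : Rep.{0} k Γ) (U V : Subgroup Γ) [U.Normal] [V.Normal] (h : V ≤ U) :
    Rep.res (QuotientGroup.map V U (MonoidHom.id Γ) h) (C.quotientToInvariants U) ⟶
      C.quotientToInvariants V :=
  Rep.ofHom ⟨LinearMap.codRestrict _ (Submodule.subtype _) (fun x g => by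
      have := x.2 ⟨g.1, h g.2⟩
      simpa using this), fun g => by
    induction g using QuotientGroup.induction_on with
    | H g => ext x; rfl⟩

/-- Inflation `Hⁿ(Γ/U, C^U) → Hⁿ(Γ/V, C^V)` for `V ≤ U`. -/
noncomputable def infLevel (C : Rep.{0} k Γ) (U V : Subgroup Γ) [U.Normal] [V.Normal] (h : V ≤ U)
    (n : ℕ) :
    groupCohomology (C.quotientToInvariants U) n ⟶ groupCohomology (C.quotientToInvariants V) n :=
  groupCohomology.map (QuotientGroup.map V U (MonoidHom.id Γ) h) (invIncl C U V h) n

/-- Inflation `Hⁿ(Γ/U, C^U) → Hⁿ(Γ, C)` to the abstract group. -/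
noncomputable def infTop (C : Rep.{0} k Γ) (U : Subgroup Γ) [U.Normal] (n : ℕ) :
    groupCohomology (C.quotientToInvariants U) n ⟶ groupCohomology C n :=
  groupCohomology.map (QuotientGroup.mk' U) (Rep.ofHom <| C.ρ.quotientToInvariants_lift U) n

/-- A *class formation* for the level structure `𝓛`: a discrete `Γ`-module `C` such that for
every NORMAL level `U` the finite group `Γ/U` acting on `C^U` is a class module with
fundamental class `fund U`, compatibly with inflation: `inf (fund U) = [U : V] • fund V` for
normal levels `V ≤ U`. -/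
structure ClassFormation (𝓛 : LevelStructure Γ) (C : Rep.{0} k Γ) where
  discrete : 𝓛.IsDiscrete C
  fund : ∀ (U : Subgroup Γ) (_ : U ∈ 𝓛.levels) [U.Normal],
    groupCohomology (C.quotientToInvariants U) 2
  isClass : ∀ (U : Subgroup Γ) (hU : U ∈ 𝓛.levels) [U.Normal],
    IsClassModule (C.quotientToInvariants U) (fund U hU)
  inf_fund : ∀ (U V : Subgroup Γ) (hU : U ∈ 𝓛.levels) (hV : V ∈ 𝓛.levels) [U.Normal] [V.Normal]
    (h : V ≤ U), (infLevel C U V h 2).hom (fund U hU) = (V.relIndex U) • fund V hV

/-- A *`p`-class formation*: as `ClassFormation`, but the class-module conditions are only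
required on `p`-subgroups, and the inflation compatibility only after restriction to
`p`-subgroups of `Γ/V`.  This is all that the duality theory for `p`-torsion modules uses. -/
structure PClassFormation (p : ℕ) (𝓛 : LevelStructure Γ) (C : Rep.{0} k Γ) where
  discrete : 𝓛.IsDiscrete C
  fund : ∀ (U : Subgroup Γ) (_ : U ∈ 𝓛.levels) [U.Normal],
    groupCohomology (C.quotientToInvariants U) 2
  isClass : ∀ (U : Subgroup Γ) (hU : U ∈ 𝓛.levels) [U.Normal],
    IsPClassModule p (C.quotientToInvariants U) (fund U hU)
  inf_fund : ∀ (U V : Subgroup Γ) (hU : U ∈ 𝓛.levels) (hV : V ∈ 𝓛.levels) [U.Normal] [V.Normal]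
    (h : V ≤ U) (H : Subgroup (Γ ⧸ V)), IsPGroup p H →
      (resSub (C.quotientToInvariants V) H 2).hom ((infLevel C U V h 2).hom (fund U hU)) =
        (V.relIndex U) • (resSub (C.quotientToInvariants V) H 2).hom (fund V hV)

/-- A class formation is a `p`-class formation for every `p`. -/
def ClassFormation.toPClassFormation {𝓛 : LevelStructure Γ} {C : Rep.{0} k Γ}
    (F : ClassFormation 𝓛 C) (p : ℕ) : PClassFormation p 𝓛 C where
  discrete := F.discrete
  fund := F.fund
  isClass U hU _ := (F.isClass U hU).isPClassModule p
  inf_fund U V hU hV _ _ h H _ := by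
    rw [F.inf_fund U V hU hV h, map_nsmul]

end Levels

end Fermat.Agent.CFT
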