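/-
CFT project, layer D: the `W`-model vocabulary (blueprint v3, board #856 / CFT-D).
Definitions + elementary lemmas only.  Chief architect: helper91.

* `RepPairing A B C` : `H`-equivariant bilinear pairings.
* `pair10 : H¹(A) × H⁰(B) → H¹(C)` and `pair01 : H⁰(A) × H¹(B) → H¹(C)` on level cohomology
  (the only "cup products" layer D uses; pure coefficient functoriality).
* `homRep X W`, `evalPairing X W`, `homRepMap X d`.
* `invMap`, the map on invariants.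
-/
import Fermat.Agent.CFT.H91_Formation
import Fermat.Agent.CFT.H50_LevelRes

set_option autoImplicit false

open CategoryTheory

namespace Fermat.Agent.CFT

section Pairings

variable {k : Type} [CommRing k] {H : Type} [Group H]

/-- An `H`-equivariant `k`-bilinear pairing `A × B → C`. -/
structure RepPairing (A B C : Rep.{0} k H) where
  toFun : A.V →ₗ[k] B.V →ₗ[k] C.V
  equivariant : ∀ (g : H) (a : A.V) (b : B.V), toFun (A.ρ g a) (B.ρ g b) = C.ρ g (toFun a b)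

variable (𝓛 : LevelStructure H) {A B C : Rep.{0} k H} (β : RepPairing A B C)

lemma RepPairing.mem_cocycles₁_left {φ : H → A.V} (hφ : φ ∈ 𝓛.cocycles₁ A) {b : B.V}
    (hb : b ∈ B.ρ.invariants) : (fun g => β.toFun (φ g) b) ∈ 𝓛.cocycles₁ C := by
  refine Submodule.mem_inf.2 ⟨?_, ?_⟩
  · rw [groupCohomology.mem_cocycles₁_iff]
    intro g h
    have h1 := (groupCohomology.mem_cocycles₁_iff φ).1 (Submodule.mem_inf.1 hφ).1 g h
    simp only [h1, map_add, LinearMap.add_apply]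
    congr 1
    conv_lhs => rw [← hb g]
    exact β.equivariant g (φ h) b
  · exact LevelStructure.IsConst₁.comp (Submodule.mem_inf.1 hφ).2 (fun a => β.toFun a b)

lemma RepPairing.mem_cocycles₁_right {a : A.V} (ha : a ∈ A.ρ.invariants) {ξ : H → B.V}
    (hξ : ξ ∈ 𝓛.cocycles₁ B) : (fun g => β.toFun a (ξ g)) ∈ 𝓛.cocycles₁ C := by
  refine Submodule.mem_inf.2 ⟨?_, ?_⟩
  · rw [groupCohomology.mem_cocycles₁_iff]
    intro g h
    have h1 := (groupCohomology.mem_cocycles₁_iff ξ).1 (Submodule.mem_inf.1 hξ).1 g h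
    simp only [h1, map_add]
    congr 1
    conv_lhs => rw [← ha g]
    exact β.equivariant g a (ξ h)
  · exact LevelStructure.IsConst₁.comp (Submodule.mem_inf.1 hξ).2 (fun b => β.toFun a b)

/-- The pairing `Z¹(A) × B^H → Z¹(C)`, `(φ, b) ↦ (g ↦ β (φ g) b)`, on level cocycles. -/
noncomputable def pair10Z : 𝓛.cocycles₁ A →ₗ[k] ↥B.ρ.invariants →ₗ[k] 𝓛.cocycles₁ C :=
  LinearMap.mk₂ k (fun φ b => ⟨fun g => β.toFun (φ.1 g) b.1, β.mem_cocycles₁_left 𝓛 φ.2 b.2⟩)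
    (fun φ φ' b => by ext g; simp)
    (fun c φ b => by ext g; simp)
    (fun φ b b' => by ext g; simp)
    (fun c φ b => by ext g; simp)

/-- The pairing `A^H × Z¹(B) → Z¹(C)`, `(a, ξ) ↦ (g ↦ β a (ξ g))`, on level cocycles. -/
noncomputable def pair01Z : ↥A.ρ.invariants →ₗ[k] 𝓛.cocycles₁ B →ₗ[k] 𝓛.cocycles₁ C :=
  LinearMap.mk₂ k (fun a ξ => ⟨fun g => β.toFun a.1 (ξ.1 g), β.mem_cocycles₁_right 𝓛 a.2 ξ.2⟩)
    (fun a a' ξ => by ext g; simp)
    (fun c a ξ => by ext g; simp)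
    (fun a ξ ξ' => by ext g; simp)
    (fun c a ξ => by ext g; simp)

lemma pair10Z_mem_coboundaries (φ : 𝓛.cocycles₁ A) (hφ : φ.1 ∈ 𝓛.coboundaries₁ A)
    (b : B.ρ.invariants) : (pair10Z 𝓛 β φ b).1 ∈ 𝓛.coboundaries₁ C := by
  obtain ⟨a, ha⟩ := hφ
  refine ⟨β.toFun a b.1, ?_⟩
  funext g
  have hg : φ.1 g = A.ρ g a - a := by rw [← ha]; rfl
  show C.ρ g (β.toFun a b.1) - β.toFun a b.1 = β.toFun (φ.1 g) b.1
  rw [hg, map_sub, LinearMap.sub_apply, ← β.equivariant g a b.1, b.2 g]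

lemma pair01Z_mem_coboundaries (a : A.ρ.invariants) (ξ : 𝓛.cocycles₁ B)
    (hξ : ξ.1 ∈ 𝓛.coboundaries₁ B) : (pair01Z 𝓛 β a ξ).1 ∈ 𝓛.coboundaries₁ C := by
  obtain ⟨b, hb⟩ := hξ
  refine ⟨β.toFun a.1 b, ?_⟩
  funext g
  have hg : ξ.1 g = B.ρ g b - b := by rw [← hb]; rfl
  show C.ρ g (β.toFun a.1 b) - β.toFun a.1 b = β.toFun a.1 (ξ.1 g)
  rw [hg, map_sub, ← β.equivariant g a.1 b, a.2 g]

/-- The pairing `H¹(A) × H⁰(B) → H¹(C)` on level cohomology induced by an equivariant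
bilinear pairing: `([φ], b) ↦ [g ↦ β (φ g) b]`. -/
noncomputable def pair10 : 𝓛.H1 A →ₗ[k] ↥B.ρ.invariants →ₗ[k] 𝓛.H1 C :=
  Submodule.liftQ _ ((pair10Z 𝓛 β).compr₂ (𝓛.H1π C)) (by
    intro φ hφ
    rw [LinearMap.mem_ker]
    ext b
    simp only [LinearMap.compr₂_apply, LinearMap.zero_apply]
    exact (Submodule.Quotient.mk_eq_zero _).2 (pair10Z_mem_coboundaries 𝓛 β φ hφ b))

/-- The pairing `H⁰(A) × H¹(B) → H¹(C)` on level cohomology induced by an equivariant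
bilinear pairing: `(a, [ξ]) ↦ [g ↦ β a (ξ g)]`. -/
noncomputable def pair01 : ↥A.ρ.invariants →ₗ[k] 𝓛.H1 B →ₗ[k] 𝓛.H1 C :=
  LinearMap.flip <| Submodule.liftQ _ (((pair01Z 𝓛 β).flip).compr₂ (𝓛.H1π C)) (by
    intro ξ hξ
    rw [LinearMap.mem_ker]
    ext a
    simp only [LinearMap.compr₂_apply, LinearMap.zero_apply, LinearMap.flip_apply]
    exact (Submodule.Quotient.mk_eq_zero _).2 (pair01Z_mem_coboundaries 𝓛 β a ξ hξ))

@[simp] lemma pair10_mk (φ : 𝓛.cocycles₁ A) (b : B.ρ.invariants) :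
    pair10 𝓛 β (𝓛.H1π A φ) b = 𝓛.H1π C (pair10Z 𝓛 β φ b) := rfl

@[simp] lemma pair01_mk (a : A.ρ.invariants) (ξ : 𝓛.cocycles₁ B) :
    pair01 𝓛 β a (𝓛.H1π B ξ) = 𝓛.H1π C (pair01Z 𝓛 β a ξ) := rfl

end Pairings

/-! ## `Hom(X, W)` and the evaluation pairing -/

section HomRep

variable {k : Type} [CommRing k] {H : Type} [Group H]

/-- `Hom_k(X, W)` with the conjugation action `(g • f) x = g • f (g⁻¹ • x)`. -/
noncomputable abbrev homRep (X W : Rep.{0} k H) : Rep.{0} k H :=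
  Rep.of (Representation.linHom X.ρ W.ρ)

lemma homRep_ρ_apply (X W : Rep.{0} k H) (g : H) (f : X.V →ₗ[k] W.V) (x : X.V) :
    ((homRep X W).ρ g f) x = W.ρ g (f (X.ρ g⁻¹ x)) := rfl

/-- `f` is `H`-invariant in `Hom(X, W)` iff it is `H`-equivariant. -/
lemma mem_invariants_homRep_iff (X W : Rep.{0} k H) (f : X.V →ₗ[k] W.V) :
    f ∈ (homRep X W).ρ.invariants ↔ ∀ (g : H) (x : X.V), f (X.ρ g x) = W.ρ g (f x) := by
  constructor
  · intro hf g x
    have h1 := LinearMap.congr_fun (hf g) (X.ρ g x)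
    rw [homRep_ρ_apply] at h1
    rw [← h1]
    congr 2
    rw [← Module.End.mul_apply, ← map_mul, inv_mul_cancel, map_one, Module.End.one_apply]
  · intro hf g
    refine LinearMap.ext fun x => ?_
    rw [homRep_ρ_apply, ← hf g, ← Module.End.mul_apply, ← map_mul, mul_inv_cancel, map_one,
      Module.End.one_apply]

/-- The evaluation pairing `Hom(X, W) × X → W`. -/
noncomputable def evalPairing (X W : Rep.{0} k H) : RepPairing (homRep X W) X W where
  toFun := LinearMap.id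
  equivariant g f x := by
    show ((homRep X W).ρ g f) (X.ρ g x) = W.ρ g (f x)
    rw [homRep_ρ_apply, ← Module.End.mul_apply, ← map_mul, inv_mul_cancel, map_one,
      Module.End.one_apply]

/-- Post-composition `Hom(X, V) → Hom(X, W)` with a morphism `d : V ⟶ W`. -/
noncomputable def homRepMap (X : Rep.{0} k H) {V W : Rep.{0} k H} (d : V ⟶ W) :
    homRep X V ⟶ homRep X W :=
  Rep.ofHom ⟨LinearMap.llcomp k X.V V.V W.V d.hom.toLinearMap, fun g => by
    refine LinearMap.ext fun f => LinearMap.ext fun x => ?_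
    show d.hom (V.ρ g (f (X.ρ g⁻¹ x))) = W.ρ g (d.hom (f (X.ρ g⁻¹ x)))
    exact Rep.hom_comm_apply d g _⟩

/-- Pre-composition `Hom(X', W) → Hom(X, W)` with a morphism `f : X ⟶ X'`. -/
noncomputable def homRepPre {X X' : Rep.{0} k H} (f : X ⟶ X') (W : Rep.{0} k H) :
    homRep X' W ⟶ homRep X W :=
  Rep.ofHom ⟨LinearMap.lcomp k W.V f.hom.toLinearMap, fun g => by
    refine LinearMap.ext fun h => LinearMap.ext fun x => ?_
    show W.ρ g (h (X'.ρ g⁻¹ (f.hom x))) = W.ρ g (h (f.hom (X.ρ g⁻¹ x)))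
    rw [Rep.hom_comm_apply f g⁻¹ x]⟩

end HomRep

/-! ## The `W`-model: data, `T`-groups, duality maps -/

section WModel

variable {p : ℕ} [Fact p.Prime] {H : Type} [Group H]

/-- A finite discrete `ZMod p`-representation. -/
structure IsFinDiscrete (𝓛 : LevelStructure H) (X : Rep.{0} (ZMod p) H) : Prop where
  finite : Finite X.V
  discrete : 𝓛.IsDiscrete X

/-- A `W`-datum on `(H, 𝓛)`: a morphism `d : Vm ⟶ W` of discrete `ZMod p`-representations,
thought of as the 2-term complex `[Vm → W]` in degrees `0, 1`.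
(In the instances `Vm = I[p]`, `W = (I/N)[p]` for a `p`-divisible envelope `N ↪ I`.) -/
structure WDatum (p : ℕ) [Fact p.Prime] (𝓛 : LevelStructure H) where
  Vm : Rep.{0} (ZMod p) H
  W : Rep.{0} (ZMod p) H
  d : Vm ⟶ W
  discrete_Vm : 𝓛.IsDiscrete Vm
  discrete_W : 𝓛.IsDiscrete W

variable {𝓛 : LevelStructure H} (𝒟 : WDatum p 𝓛)

/-- Acyclicity (AC): `Hⁿ(H; Hom(X, Vm)) = 0` for `n = 1, 2` and all finite discrete `X`. -/
def WDatum.IsAcyclic : Prop :=
  ∀ X : Rep.{0} (ZMod p) H, IsFinDiscrete 𝓛 X →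
    Subsingleton (𝓛.H1 (homRep X 𝒟.Vm)) ∧ Subsingleton (𝓛.H2 (homRep X 𝒟.Vm))

/-- `T²(X) = H¹(H; Hom(X, W))` (`= Ext²(X, [Vm → W])` under (AC)). -/
abbrev WDatum.T2 (X : Rep.{0} (ZMod p) H) : Type := 𝓛.H1 (homRep X 𝒟.W)

/-- `T³(X) = H²(H; Hom(X, W))` (`= Ext³(X, [Vm → W])` under (AC)). -/
abbrev WDatum.T3 (X : Rep.{0} (ZMod p) H) : Type := 𝓛.H2 (homRep X 𝒟.W)

/-- The numerator of `T¹(X)`: `Hom_H(X, W)`. -/
noncomputable abbrev WDatum.T1num (X : Rep.{0} (ZMod p) H) : Submodule (ZMod p) (X.V →ₗ[ZMod p] 𝒟.W.V) :=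
  (homRep X 𝒟.W).ρ.invariants

/-- The denominator of `T¹(X)`: the image of `Hom_H(X, Vm)` in `Hom_H(X, W)`. -/
noncomputable def WDatum.T1den (X : Rep.{0} (ZMod p) H) : Submodule (ZMod p) (𝒟.T1num X) :=
  LinearMap.range (H50.coeffH0 (homRepMap X 𝒟.d))

/-- `T¹(X) = Hom_H(X, W) / d ∘ Hom_H(X, Vm)` (`= Ext¹(X, [Vm → W])`). -/
abbrev WDatum.T1 (X : Rep.{0} (ZMod p) H) : Type := 𝒟.T1num X ⧸ 𝒟.T1den X

variable (tr : 𝓛.H1 𝒟.W →ₗ[ZMod p] ZMod p)

/-- `α²(X) : T²(X) → H⁰(H; X)^∨`, `([φ], x) ↦ tr [g ↦ φ(g)(x)]`. -/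
noncomputable def WDatum.alpha2 (X : Rep.{0} (ZMod p) H) :
    𝒟.T2 X →ₗ[ZMod p] Module.Dual (ZMod p) X.ρ.invariants :=
  (pair10 𝓛 (evalPairing X 𝒟.W)).compr₂ tr

/-- `α¹(X)` on the numerator: `Hom_H(X, W) → H¹(H; X)^∨`, `(h, [ξ]) ↦ tr [g ↦ h(ξ g)]`. -/
noncomputable def WDatum.alpha1num (X : Rep.{0} (ZMod p) H) :
    𝒟.T1num X →ₗ[ZMod p] Module.Dual (ZMod p) (𝓛.H1 X) :=
  (pair01 𝓛 (evalPairing X 𝒟.W)).compr₂ tr

/-- Duality in degree 2 holds for `X`: `α²(X)` is bijective. -/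
def WDatum.IsDual2 (X : Rep.{0} (ZMod p) H) : Prop :=
  Function.Bijective (𝒟.alpha2 tr X)

/-- Duality in degree 1 holds for `X`: `α¹(X)` induces a bijection `T¹(X) ≃ H¹(H; X)^∨`,
i.e. it is surjective with kernel `d ∘ Hom_H(X, Vm)`. -/
def WDatum.IsDual1 (X : Rep.{0} (ZMod p) H) : Prop :=
  Function.Surjective (𝒟.alpha1num tr X) ∧ LinearMap.ker (𝒟.alpha1num tr X) = 𝒟.T1den X

end WModel

/-! ## The coinduced module `X⋆ = Map(H/N₀, X)` -/

section Star

variable {k : Type} [CommRing k] {H : Type} [Group H]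

/-- The representation on `Map(H/N₀, X)` with `(g • f) y = g • f (g⁻¹ • y)`. If `N₀` acts
trivially on `X` this is `Coind_{N₀}^H (X|N₀)`, and it is a direct sum of copies of the
permutation module `k[H/N₀]`. -/
noncomputable def starRepresentation (N₀ : Subgroup H) (X : Rep.{0} k H) :
    Representation k H (H ⧸ N₀ → X.V) where
  toFun g :=
    { toFun := fun f y => X.ρ g (f (g⁻¹ • y))
      map_add' := fun f f' => by ext y; simp
      map_smul' := fun c f => by ext y; simp }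
  map_one' := by
    refine LinearMap.ext fun f => funext fun y => ?_
    simp
  map_mul' g h := by
    refine LinearMap.ext fun f => funext fun y => ?_
    simp [mul_smul]

/-- `X⋆ := Map(H/N₀, X)`. -/
noncomputable abbrev starRep (N₀ : Subgroup H) (X : Rep.{0} k H) : Rep.{0} k H :=
  Rep.of (starRepresentation N₀ X)

/-- The embedding `X ↪ X⋆`, `x ↦ (y ↦ x)`. -/
noncomputable def starIncl (N₀ : Subgroup H) (X : Rep.{0} k H) : X ⟶ starRep N₀ X :=
  Rep.ofHom ⟨LinearMap.pi (fun _ => LinearMap.id), fun g => by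
    refine LinearMap.ext fun x => funext fun y => ?_
    rfl⟩

lemma starIncl_injective (N₀ : Subgroup H) (X : Rep.{0} k H) :
    Function.Injective (starIncl N₀ X).hom := by
  intro x x' h
  exact congrFun h (QuotientGroup.mk 1)

end Star

end Fermat.Agent.CFT
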