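/-
CFT project, layer D0, package D0-ENV (helper36), slice 3.

* bridge to helper58's acyclicity theorem (AC): coinduced structures (`H58.CoindStr`) on
  `coindLevel 𝓛 V`, on `envelope 𝓛 N`, on torsion representations and on products; the predicate
  `IsCoinduced 𝓛 B`; consequences: (AC) for `Vm = I[p]` and vanishing of the level cohomology of
  the canonical envelope on every open subgroup;
* the `W`-datum of a divisible envelope (`DivEnvelope.wDatum`) and (AC) for the canonical one;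
* `H1.IsSES` wrappers (input shape of helper1's long exact sequence).
-/
import Fermat.Agent.CFT.H36_Envelope2
import Fermat.Agent.CFT.H58_CoindAcyclic
import Fermat.Agent.CFT.H1_LevelLES
import Fermat.Agent.CFT.H91_WModel

set_option autoImplicit false

open CategoryTheory

namespace Fermat.Agent.CFT.H36

open Fermat.Agent.CFT

noncomputable section

/-! ## Coinduced structures -/

section CoindStr

variable {k : Type} [CommRing k] {H : Type} [Group H] (𝓛 : LevelStructure H)

/-- The tautological coinduced structure on `coindLevel 𝓛 V`. -/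
def coindStr (V : Type) [AddCommGroup V] [Module k V] :
    H58.CoindStr 𝓛 (coindLevel (k := k) 𝓛 V) V where
  ev := (levelFun (k := k) 𝓛 V).subtype
  ev_ρ _ _ _ := rfl
  ev_injective := Subtype.val_injective
  ev_const b := b.2
  ev_surj f hf := ⟨⟨f, hf⟩, rfl⟩

variable {𝓛}

/-- Transport of a coinduced structure along an isomorphism of representations. -/
def coindStrOfIso {B B' : Rep.{0} k H} {V : Type} [AddCommGroup V] [Module k V]
    (S : H58.CoindStr 𝓛 B V) (e : B' ≅ B) : H58.CoindStr 𝓛 B' V where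
  ev := S.ev ∘ₗ e.hom.hom.toLinearMap
  ev_ρ g b y := by
    show S.ev (e.hom.hom (B'.ρ g b)) y = S.ev (e.hom.hom b) (y * g)
    rw [Rep.hom_comm_apply e.hom g b, S.ev_ρ]
  ev_injective := by
    intro b b' h
    have h1 : e.hom.hom b = e.hom.hom b' := S.ev_injective h
    have h2 := congrArg e.inv.hom h1
    have h3 : ∀ x : B'.V, e.inv.hom (e.hom.hom x) = x := fun x => by
      rw [← Rep.comp_apply, e.hom_inv_id]; rfl
    rwa [h3, h3] at h2
  ev_const b := S.ev_const _
  ev_surj f hf := by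
    obtain ⟨b, hb⟩ := S.ev_surj f hf
    refine ⟨e.inv.hom b, ?_⟩
    show S.ev (e.hom.hom (e.inv.hom b)) = f
    have h3 : e.hom.hom (e.inv.hom b) = b := by
      rw [← Rep.comp_apply, e.inv_hom_id]; rfl
    rw [h3, hb]

/-- The `p`-torsion of a coinduced module is coinduced (from `V[p]`). -/
def coindStrTorsion (p : ℕ) {B : Rep.{0} k H} {V : Type} [AddCommGroup V] [Module k V]
    (S : H58.CoindStr 𝓛 B V) : H58.CoindStr 𝓛 (torsionRep p B) (torsionSub p V) where
  ev := AddMonoidHom.toZModLinearMap p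
    { toFun := fun (b : torsionSub p B.V) (y : H) => (⟨S.ev b.1 y, by
        rw [mem_torsionSub]
        have h1 : S.ev (p • b.1) y = p • S.ev b.1 y := by
          rw [map_nsmul]; rfl
        rw [← h1, (mem_torsionSub p b.1).1 b.2, map_zero]; rfl⟩ : torsionSub p V)
      map_zero' := by
        funext y
        apply Subtype.ext
        show S.ev (0 : B.V) y = 0
        rw [map_zero]; rfl
      map_add' := fun b b' => by
        funext y
        apply Subtype.ext
        show S.ev (b.1 + b'.1) y = S.ev b.1 y + S.ev b'.1 y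
        rw [map_add]; rfl }
  ev_ρ g b y := Subtype.ext (S.ev_ρ g (show torsionSub p B.V from b).1 y)
  ev_injective := by
    intro b b' h
    apply Subtype.ext
    apply S.ev_injective
    funext y
    exact congrArg Subtype.val (congrFun h y)
  ev_const b := by
    obtain ⟨N, hN, h⟩ := S.ev_const (show torsionSub p B.V from b).1
    exact ⟨N, hN, fun y n hn => Subtype.ext (h y n hn)⟩
  ev_surj f hf := by
    have hf' : 𝓛.IsConst₁ (fun y => ((f y : torsionSub p V) : V)) := hf.comp Subtype.val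
    obtain ⟨b, hb⟩ := S.ev_surj _ hf'
    have hb0 : p • b = 0 := by
      apply S.ev_injective
      rw [map_nsmul, map_zero, hb]
      funext y
      exact (mem_torsionSub p _).1 (f y).2
    refine ⟨(⟨b, (mem_torsionSub p b).2 hb0⟩ : torsionSub p B.V), ?_⟩
    funext y
    exact Subtype.ext (congrFun hb y)

/-- The product of two coinduced modules is coinduced. -/
def coindStrProd {B B' : Rep.{0} k H} {V V' : Type} [AddCommGroup V] [Module k V]
    [AddCommGroup V'] [Module k V'] (S : H58.CoindStr 𝓛 B V) (S' : H58.CoindStr 𝓛 B' V') :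
    H58.CoindStr 𝓛 (Rep.of (B.ρ.prod B'.ρ)) (V × V') where
  ev :=
    { toFun := fun (b : B.V × B'.V) (y : H) => (S.ev b.1 y, S'.ev b.2 y)
      map_add' := fun b b' => by
        funext y
        show (S.ev (b.1 + b'.1) y, S'.ev (b.2 + b'.2) y) = _
        rw [map_add, map_add]; rfl
      map_smul' := fun c b => by
        funext y
        show (S.ev (c • b.1) y, S'.ev (c • b.2) y) = _
        rw [map_smul, map_smul]; rfl }
  ev_ρ g b y := by
    show (S.ev (B.ρ g b.1) y, S'.ev (B'.ρ g b.2) y) = (S.ev b.1 (y * g), S'.ev b.2 (y * g))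
    rw [S.ev_ρ, S'.ev_ρ]
  ev_injective := by
    intro b b' h
    refine Prod.ext (S.ev_injective ?_) (S'.ev_injective ?_)
    · funext y; exact congrArg Prod.fst (congrFun h y)
    · funext y; exact congrArg Prod.snd (congrFun h y)
  ev_const b := by
    obtain ⟨N, hN, h⟩ := S.ev_const b.1
    obtain ⟨N', hN', h'⟩ := S'.ev_const b.2
    obtain ⟨N'', hN'', hle⟩ := 𝓛.directed N hN N' hN'
    exact ⟨N'', hN'', fun y n hn => Prod.ext (h y n (hle hn).1) (h' y n (hle hn).2)⟩
  ev_surj f hf := by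
    obtain ⟨b, hb⟩ := S.ev_surj _ (hf.comp Prod.fst)
    obtain ⟨b', hb'⟩ := S'.ev_surj _ (hf.comp Prod.snd)
    refine ⟨(b, b'), ?_⟩
    funext y
    exact Prod.ext (congrFun hb y) (congrFun hb' y)

end CoindStr

/-! ## The predicate `IsCoinduced` and acyclicity -/

section IsCoinduced

variable {k : Type} [CommRing k] {H : Type} [Group H]

/-- `B` is (isomorphic to) a module of level-constant maps `H → V` with right translation. -/
def IsCoinduced (𝓛 : LevelStructure H) (B : Rep.{0} k H) : Prop :=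
  ∃ (V : Type) (_ : AddCommGroup V) (_ : Module k V), Nonempty (H58.CoindStr 𝓛 B V)

variable {𝓛 : LevelStructure H}

theorem IsCoinduced.of_coindStr {B : Rep.{0} k H} {V : Type} [AddCommGroup V] [Module k V]
    (S : H58.CoindStr 𝓛 B V) : IsCoinduced 𝓛 B := ⟨V, _, _, ⟨S⟩⟩

variable (𝓛) in
theorem isCoinduced_coindLevel (V : Type) [AddCommGroup V] [Module k V] :
    IsCoinduced 𝓛 (coindLevel (k := k) 𝓛 V) := .of_coindStr (coindStr 𝓛 V)

variable (𝓛) in
theorem isCoinduced_envelope (N : Rep.{0} ℤ H) : IsCoinduced 𝓛 (envelope 𝓛 N) :=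
  isCoinduced_coindLevel (k := ℤ) 𝓛 (Vdiv N.V)

theorem IsCoinduced.of_iso {B B' : Rep.{0} k H} (h : IsCoinduced 𝓛 B) (e : B' ≅ B) :
    IsCoinduced 𝓛 B' := by
  obtain ⟨V, _, _, ⟨S⟩⟩ := h
  exact .of_coindStr (coindStrOfIso S e)

theorem IsCoinduced.torsion {B : Rep.{0} k H} (h : IsCoinduced 𝓛 B) (p : ℕ) :
    IsCoinduced 𝓛 (torsionRep p B) := by
  obtain ⟨V, _, _, ⟨S⟩⟩ := h
  exact .of_coindStr (coindStrTorsion p S)

theorem IsCoinduced.prod {B B' : Rep.{0} k H} (h : IsCoinduced 𝓛 B) (h' : IsCoinduced 𝓛 B') :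
    IsCoinduced 𝓛 (Rep.of (B.ρ.prod B'.ρ)) := by
  obtain ⟨V, _, _, ⟨S⟩⟩ := h
  obtain ⟨V', _, _, ⟨S'⟩⟩ := h'
  exact .of_coindStr (coindStrProd S S')

theorem IsCoinduced.isDiscrete {B : Rep.{0} k H} (h : IsCoinduced 𝓛 B) : 𝓛.IsDiscrete B := by
  obtain ⟨V, _, _, ⟨S⟩⟩ := h
  exact S.isDiscrete

/-- (AC), degree 1: `H¹(H; Hom(X, B)) = 0` for `B` coinduced, `X` discrete. -/
theorem IsCoinduced.subsingleton_H1_hom {B : Rep.{0} k H} (h : IsCoinduced 𝓛 B)
    (X : Rep.{0} k H) (hX : 𝓛.IsDiscrete X) : Subsingleton (𝓛.H1 (homRep X B)) := by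
  obtain ⟨V, _, _, ⟨S⟩⟩ := h
  exact H58.subsingleton_H1_self S X hX

/-- (AC), degree 2: `H²(H; Hom(X, B)) = 0` for `B` coinduced, `X` discrete. -/
theorem IsCoinduced.subsingleton_H2_hom {B : Rep.{0} k H} (h : IsCoinduced 𝓛 B)
    (X : Rep.{0} k H) (hX : 𝓛.IsDiscrete X) : Subsingleton (𝓛.H2 (homRep X B)) := by
  obtain ⟨V, _, _, ⟨S⟩⟩ := h
  exact H58.subsingleton_H2_self S X hX

/-- (AC) on an open subgroup, degree 1. -/
theorem IsCoinduced.subsingleton_H1_hom_restrict {B : Rep.{0} k H} (h : IsCoinduced 𝓛 B)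
    (U : Subgroup H) (hU : 𝓛.IsOpen U) (X : Rep.{0} k U) (hX : (𝓛.restrict U).IsDiscrete X) :
    Subsingleton ((𝓛.restrict U).H1 (homRep X (Rep.res U.subtype B))) := by
  obtain ⟨V, _, _, ⟨S⟩⟩ := h
  exact H58.subsingleton_H1_restrict S U hU X hX

/-- (AC) on an open subgroup, degree 2. -/
theorem IsCoinduced.subsingleton_H2_hom_restrict {B : Rep.{0} k H} (h : IsCoinduced 𝓛 B)
    (U : Subgroup H) (hU : 𝓛.IsOpen U) (X : Rep.{0} k U) (hX : (𝓛.restrict U).IsDiscrete X) :
    Subsingleton ((𝓛.restrict U).H2 (homRep X (Rep.res U.subtype B))) := by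
  obtain ⟨V, _, _, ⟨S⟩⟩ := h
  exact H58.subsingleton_H2_restrict S U hU X hX

/-- Plain coefficients: `Hⁿ(U; B) = 0` for `n = 1, 2, 3`, `U` open, `B` coinduced. -/
theorem IsCoinduced.subsingleton_H1_restrict {B : Rep.{0} k H} (h : IsCoinduced 𝓛 B)
    (U : Subgroup H) (hU : 𝓛.IsOpen U) :
    Subsingleton ((𝓛.restrict U).H1 (Rep.res U.subtype B)) := by
  obtain ⟨V, _, _, ⟨S⟩⟩ := h
  exact H58.subsingleton_H1_restrict_plain S U hU

theorem IsCoinduced.subsingleton_H2_restrict {B : Rep.{0} k H} (h : IsCoinduced 𝓛 B)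
    (U : Subgroup H) (hU : 𝓛.IsOpen U) :
    Subsingleton ((𝓛.restrict U).H2 (Rep.res U.subtype B)) := by
  obtain ⟨V, _, _, ⟨S⟩⟩ := h
  exact H58.subsingleton_H2_restrict_plain S U hU

theorem IsCoinduced.subsingleton_H3_restrict {B : Rep.{0} k H} (h : IsCoinduced 𝓛 B)
    (U : Subgroup H) (hU : 𝓛.IsOpen U) :
    Subsingleton ((𝓛.restrict U).H3 (Rep.res U.subtype B)) := by
  obtain ⟨V, _, _, ⟨S⟩⟩ := h
  exact H58.subsingleton_H3_restrict_plain S U hU

theorem IsCoinduced.subsingleton_H1 {B : Rep.{0} k H} (h : IsCoinduced 𝓛 B) :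
    Subsingleton (𝓛.H1 B) := by
  obtain ⟨V, _, _, ⟨S⟩⟩ := h
  exact H58.subsingleton_H1_self_plain S

theorem IsCoinduced.subsingleton_H2 {B : Rep.{0} k H} (h : IsCoinduced 𝓛 B) :
    Subsingleton (𝓛.H2 B) := by
  obtain ⟨V, _, _, ⟨S⟩⟩ := h
  exact H58.subsingleton_H2_self_plain S

theorem IsCoinduced.subsingleton_H3 {B : Rep.{0} k H} (h : IsCoinduced 𝓛 B) :
    Subsingleton (𝓛.H3 B) := by
  obtain ⟨V, _, _, ⟨S⟩⟩ := h
  exact H58.subsingleton_H3_self_plain S

end IsCoinduced

/-! ## The `W`-datum of a divisible envelope -/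

section WDatum

variable {k : Type} [CommRing k] {H : Type} [Group H] {𝓛 : LevelStructure H}
  {p : ℕ} [Fact p.Prime] {N : Rep.{0} k H}

/-- The `W`-datum `[I[p] → (I/N)[p]]` of a `p`-divisible envelope `N ↪ I`. -/
def DivEnvelope.wDatum (E : DivEnvelope 𝓛 p N) : WDatum p 𝓛 where
  Vm := torsionRep p E.I
  W := torsionRep p E.Q
  d := E.dComplex
  discrete_Vm := E.isDiscrete_dComplex_source
  discrete_W := E.isDiscrete_dComplex_target

@[simp] lemma DivEnvelope.wDatum_Vm (E : DivEnvelope 𝓛 p N) :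
    E.wDatum.Vm = torsionRep p E.I := rfl

@[simp] lemma DivEnvelope.wDatum_W (E : DivEnvelope 𝓛 p N) :
    E.wDatum.W = torsionRep p E.Q := rfl

@[simp] lemma DivEnvelope.wDatum_d (E : DivEnvelope 𝓛 p N) : E.wDatum.d = E.dComplex := rfl

/-- (AC) for the `W`-datum of an envelope whose `I` is coinduced. -/
theorem DivEnvelope.isAcyclic_of_isCoinduced (E : DivEnvelope 𝓛 p N) (h : IsCoinduced 𝓛 E.I) :
    E.wDatum.IsAcyclic := fun X hX =>
  ⟨(h.torsion p).subsingleton_H1_hom X hX.discrete, (h.torsion p).subsingleton_H2_hom X hX.discrete⟩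

end WDatum

section CanonicalAC

variable {H : Type} [Group H] (𝓛 : LevelStructure H)

theorem isCoinduced_canonicalEnvelope (m : ℕ) (hm : m ≠ 0) (N : Rep.{0} ℤ H)
    (hN : 𝓛.IsDiscrete N) : IsCoinduced 𝓛 (canonicalEnvelope 𝓛 m hm N hN).I :=
  isCoinduced_envelope 𝓛 N

/-- **(AC)** for the `W`-datum of the canonical envelope. -/
theorem canonicalEnvelope_isAcyclic (p : ℕ) [Fact p.Prime] (hp : p ≠ 0) (N : Rep.{0} ℤ H)
    (hN : 𝓛.IsDiscrete N) : (canonicalEnvelope 𝓛 p hp N hN).wDatum.IsAcyclic :=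
  (canonicalEnvelope 𝓛 p hp N hN).isAcyclic_of_isCoinduced
    (isCoinduced_canonicalEnvelope 𝓛 p hp N hN)

/-- The hypothesis `hEac` of the layer-D skeleton (D2) for the canonical envelope. -/
theorem canonicalEnvelope_acyclic (m : ℕ) (hm : m ≠ 0) (N : Rep.{0} ℤ H) (hN : 𝓛.IsDiscrete N)
    (U : Subgroup H) (hU : 𝓛.IsOpen U) :
    Subsingleton ((𝓛.restrict U).H1 (Rep.res U.subtype (canonicalEnvelope 𝓛 m hm N hN).I)) ∧
    Subsingleton ((𝓛.restrict U).H2 (Rep.res U.subtype (canonicalEnvelope 𝓛 m hm N hN).I)) :=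
  ⟨(isCoinduced_canonicalEnvelope 𝓛 m hm N hN).subsingleton_H1_restrict U hU,
    (isCoinduced_canonicalEnvelope 𝓛 m hm N hN).subsingleton_H2_restrict U hU⟩

theorem canonicalEnvelope_acyclic₃ (m : ℕ) (hm : m ≠ 0) (N : Rep.{0} ℤ H) (hN : 𝓛.IsDiscrete N)
    (U : Subgroup H) (hU : 𝓛.IsOpen U) :
    Subsingleton ((𝓛.restrict U).H3 (Rep.res U.subtype (canonicalEnvelope 𝓛 m hm N hN).I)) :=
  (isCoinduced_canonicalEnvelope 𝓛 m hm N hN).subsingleton_H3_restrict U hU

end CanonicalAC

/-! ## Short exact sequences in the shape of helper1's LES -/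

section SES

variable {k : Type} [CommRing k] {H : Type} [Group H] {𝓛 : LevelStructure H} {m : ℕ}
  {N : Rep.{0} k H}

/-- `0 → N → I → Q → 0` in the input shape of `H1_LevelLES`. -/
theorem DivEnvelope.isSES (E : DivEnvelope 𝓛 m N) : H1.IsSES E.ι E.π where
  inj := E.ι_injective
  surj := E.π_surjective
  exact := fun x => by
    rw [E.exact x]; rfl

end SES

end

end Fermat.Agent.CFT.H36
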