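/-
CFT project, layer D0 (helper1): bridge between the long exact sequence of `H1_LevelLES` and the
functoriality maps `mapHn / coeffHn / resHn` of `H50_LevelRes`:
* `H50.coeffHn = H1.Hnmap`, the long exact sequence restated for `H50.coeffHn`;
* the connecting maps commute with every `H50.mapHn` (change of group and coefficients), in
  particular with coefficient maps and with restriction;
* `IsSES` from `ShortComplex.ShortExact`, and for restrictions.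
-/
import Fermat.Agent.CFT.H1_LevelLES
import Fermat.Agent.CFT.H50_LevelRes

set_option autoImplicit false

noncomputable section

universe u

open CategoryTheory groupCohomology

namespace Fermat.Agent.CFT.H1

open Fermat.Agent.CFT LevelStructure

/-! ### `IsSES` from categorical short exactness, and under restriction -/

section SES

variable {H H' : Type u} [Group H] [Group H'] {k : Type u} [CommRing k]

lemma IsSES.of_shortExact {S : ShortComplex (Rep.{u} k H)} (hS : S.ShortExact) :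
    IsSES S.f S.g where
  inj := (Rep.mono_iff_injective S.f).1 hS.mono_f
  surj := (Rep.epi_iff_surjective S.g).1 hS.epi_g
  exact := by
    have hex := hS.exact
    rw [← ShortComplex.exact_map_iff_of_faithful _ (forget₂ (Rep.{u} k H) (ModuleCat.{u} k)),
      ShortComplex.moduleCat_exact_iff] at hex
    intro y
    constructor
    · intro hy
      obtain ⟨x, hx⟩ := hex y hy
      exact ⟨x, hx⟩
    · rintro ⟨x, rfl⟩
      have hz : (S.f ≫ S.g).hom x = (0 : S.X₁ ⟶ S.X₃).hom x := by rw [S.zero]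
      exact hz

lemma IsSES.res {A B C : Rep.{u} k H} {i : A ⟶ B} {p : B ⟶ C} (h : IsSES i p) (φ : H' →* H) :
    IsSES (Rep.resMap φ i) (Rep.resMap φ p) where
  inj := h.inj
  surj := h.surj
  exact := h.exact

end SES

/-! ### Comparison of the coefficient maps -/

section Coeff

variable {H : Type u} [Group H] (𝓛 : LevelStructure H) {k : Type u} [CommRing k]
  {A B C : Rep.{u} k H}

lemma coeffH0_eq (φ : A ⟶ B) : H50.coeffH0 φ = H0map φ := rfl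

lemma coeffH1_eq (φ : A ⟶ B) : H50.coeffH1 𝓛 φ = H1map 𝓛 φ := by
  ext x
  rfl

lemma coeffH2_eq (φ : A ⟶ B) : H50.coeffH2 𝓛 φ = H2map 𝓛 φ := by
  ext x
  rfl

lemma coeffH3_eq (φ : A ⟶ B) : H50.coeffH3 𝓛 φ = H3map 𝓛 φ := by
  ext x
  rfl

variable {i : A ⟶ B} {p : B ⟶ C} (h : IsSES i p) (hB : 𝓛.IsDiscrete B)

include h in
theorem coeffH0_injective : Function.Injective (H50.coeffH0 i) := H0map_injective h

include h in
theorem exact_coeffH0_coeffH0 : Function.Exact (H50.coeffH0 i) (H50.coeffH0 p) :=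
  exact_H0map_H0map h

theorem exact_coeffH0_δ₀ : Function.Exact (H50.coeffH0 p) (δ₀ 𝓛 h hB) :=
  exact_H0map_δ₀ 𝓛 h hB

theorem exact_δ₀_coeffH1 : Function.Exact (δ₀ 𝓛 h hB) (H50.coeffH1 𝓛 i) := by
  rw [coeffH1_eq]; exact exact_δ₀_H1map 𝓛 h hB

include h hB in
theorem exact_coeffH1_coeffH1 : Function.Exact (H50.coeffH1 𝓛 i) (H50.coeffH1 𝓛 p) := by
  rw [coeffH1_eq, coeffH1_eq]; exact exact_H1map_H1map 𝓛 h hB

theorem exact_coeffH1_δ₁ : Function.Exact (H50.coeffH1 𝓛 p) (δ₁ 𝓛 h hB) := by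
  rw [coeffH1_eq]; exact exact_H1map_δ₁ 𝓛 h hB

theorem exact_δ₁_coeffH2 : Function.Exact (δ₁ 𝓛 h hB) (H50.coeffH2 𝓛 i) := by
  rw [coeffH2_eq]; exact exact_δ₁_H2map 𝓛 h hB

include h hB in
theorem exact_coeffH2_coeffH2 : Function.Exact (H50.coeffH2 𝓛 i) (H50.coeffH2 𝓛 p) := by
  rw [coeffH2_eq, coeffH2_eq]; exact exact_H2map_H2map 𝓛 h hB

theorem exact_coeffH2_δ₂ : Function.Exact (H50.coeffH2 𝓛 p) (δ₂ 𝓛 h hB) := by
  rw [coeffH2_eq]; exact exact_H2map_δ₂ 𝓛 h hB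

theorem exact_δ₂_coeffH3 : Function.Exact (δ₂ 𝓛 h hB) (H50.coeffH3 𝓛 i) := by
  rw [coeffH3_eq]; exact exact_δ₂_H3map 𝓛 h hB

include h hB in
theorem exact_coeffH3_coeffH3 : Function.Exact (H50.coeffH3 𝓛 i) (H50.coeffH3 𝓛 p) := by
  rw [coeffH3_eq, coeffH3_eq]; exact exact_H3map_H3map 𝓛 h hB

end Coeff

/-! ### The connecting maps commute with change of group and coefficients -/

section MapDelta

variable {H H' : Type u} [Group H] [Group H'] {k : Type u} [CommRing k]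
  (𝓛' : LevelStructure H') (𝓛 : LevelStructure H) {φ : H' →* H} (hφ : H50.IsCont 𝓛' 𝓛 φ)
  {A B C : Rep.{u} k H} {A' B' C' : Rep.{u} k H'}
  {i : A ⟶ B} {p : B ⟶ C} {i' : A' ⟶ B'} {p' : B' ⟶ C'}
  (h : IsSES i p) (hB : 𝓛.IsDiscrete B) (h' : IsSES i' p') (hB' : 𝓛'.IsDiscrete B')
  {α : A.V →ₗ[k] A'.V} {β : B.V →ₗ[k] B'.V} {γ : C.V →ₗ[k] C'.V}
  (hα : H50.IsEquivariant φ A A' α) (hβ : H50.IsEquivariant φ B B' β)
  (hγ : H50.IsEquivariant φ C C' γ)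
  (hi : ∀ a, i'.hom (α a) = β (i.hom a)) (hp : ∀ b, p'.hom (β b) = γ (p.hom b))

include hβ hi hp in
theorem mapH1_δ₀ (c : LevelStructure.H0 C) :
    H50.mapH1 𝓛' 𝓛 hφ hα (δ₀ 𝓛 h hB c) = δ₀ 𝓛' h' hB' (H50.mapH0 hγ c) := by
  obtain ⟨a, ha, hR⟩ := (h.snakeHyp₀ hB).tot c.1 c.2
  obtain ⟨b, -, hpb, hia⟩ := mem_snakeRel.1 hR
  rw [δ₀_apply 𝓛 h hB c b hpb a ha hia]
  refine (δ₀_apply 𝓛' h' hB' (H50.mapH0 hγ c) (β b) ?_ (H50.pull₁ φ α a)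
    (H50.pull₁_mem_cocycles₁ 𝓛' 𝓛 hφ hα ha) ?_).symm
  · have hpb' : p.hom b = c.1 := hpb
    rw [hp, hpb']; rfl
  · rw [H50.d₀₁_pull hβ, ← hia]
    ext g
    exact hi _

include hβ hi hp in
theorem mapH2_δ₁ (x : 𝓛.H1 C) :
    H50.mapH2 𝓛' 𝓛 hφ hα (δ₁ 𝓛 h hB x) = δ₁ 𝓛' h' hB' (H50.mapH1 𝓛' 𝓛 hφ hγ x) := by
  induction x using sq_induction with
  | h c hc =>
    obtain ⟨a, ha, hR⟩ := (h.snakeHyp₁ hB).tot c hc
    obtain ⟨b, hb, hpb, hia⟩ := mem_snakeRel.1 hR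
    rw [δ₁_mk 𝓛 h hB c hc b hb hpb a ha hia]
    refine (δ₁_mk 𝓛' h' hB' (H50.pull₁ φ γ c) (H50.pull₁_mem_cocycles₁ 𝓛' 𝓛 hφ hγ hc)
      (H50.pull₁ φ β b) (H50.isConst₁_pull hφ β hb) ?_ (H50.pull₂ φ α a)
      (H50.pull₂_mem_cocycles₂ 𝓛' 𝓛 hφ hα ha) ?_).symm
    · rw [← hpb]
      ext g
      exact hp _
    · rw [H50.d₁₂_pull hβ, ← hia]
      ext g
      exact hi _

include hβ hi hp in
theorem mapH3_δ₂ (x : 𝓛.H2 C) :
    H50.mapH3 𝓛' 𝓛 hφ hα (δ₂ 𝓛 h hB x) = δ₂ 𝓛' h' hB' (H50.mapH2 𝓛' 𝓛 hφ hγ x) := by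
  induction x using sq_induction with
  | h c hc =>
    obtain ⟨a, ha, hR⟩ := (h.snakeHyp₂ hB).tot c hc
    obtain ⟨b, hb, hpb, hia⟩ := mem_snakeRel.1 hR
    rw [δ₂_mk 𝓛 h hB c hc b hb hpb a ha hia]
    refine (δ₂_mk 𝓛' h' hB' (H50.pull₂ φ γ c) (H50.pull₂_mem_cocycles₂ 𝓛' 𝓛 hφ hγ hc)
      (H50.pull₂ φ β b) (H50.isConst₂_pull hφ β hb) ?_ (H50.pull₃ φ α a)
      (H50.pull₃_mem_cocycles₃ 𝓛' 𝓛 hφ hα ha) ?_).symm
    · rw [← hpb]
      ext g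
      exact hp _
    · rw [H50.d₂₃_pull hβ, ← hia]
      ext g
      exact hi _

end MapDelta

/-! ### Special cases: restriction -/

section ResDelta

variable {H H' : Type u} [Group H] [Group H'] {k : Type u} [CommRing k]
  (𝓛' : LevelStructure H') (𝓛 : LevelStructure H) {φ : H' →* H} (hφ : H50.IsCont 𝓛' 𝓛 φ)
  {A B C : Rep.{u} k H} {i : A ⟶ B} {p : B ⟶ C} (h : IsSES i p) (hB : 𝓛.IsDiscrete B)

theorem resH1_δ₀ (c : LevelStructure.H0 C) :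
    H50.resH1 𝓛' 𝓛 hφ A (δ₀ 𝓛 h hB c) =
      δ₀ 𝓛' (h.res φ) (H50.isDiscrete_res 𝓛' 𝓛 hφ hB) (H50.resH0 φ C c) :=
  mapH1_δ₀ 𝓛' 𝓛 hφ h hB (h.res φ) _ (H50.isEquivariant_res φ A) (H50.isEquivariant_res φ B)
    (H50.isEquivariant_res φ C) (fun _ => rfl) (fun _ => rfl) c

theorem resH2_δ₁ (x : 𝓛.H1 C) :
    H50.resH2 𝓛' 𝓛 hφ A (δ₁ 𝓛 h hB x) =
      δ₁ 𝓛' (h.res φ) (H50.isDiscrete_res 𝓛' 𝓛 hφ hB) (H50.resH1 𝓛' 𝓛 hφ C x) :=
  mapH2_δ₁ 𝓛' 𝓛 hφ h hB (h.res φ) _ (H50.isEquivariant_res φ A) (H50.isEquivariant_res φ B)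
    (H50.isEquivariant_res φ C) (fun _ => rfl) (fun _ => rfl) x

theorem resH3_δ₂ (x : 𝓛.H2 C) :
    H50.resH3 𝓛' 𝓛 hφ A (δ₂ 𝓛 h hB x) =
      δ₂ 𝓛' (h.res φ) (H50.isDiscrete_res 𝓛' 𝓛 hφ hB) (H50.resH2 𝓛' 𝓛 hφ C x) :=
  mapH3_δ₂ 𝓛' 𝓛 hφ h hB (h.res φ) _ (H50.isEquivariant_res φ A) (H50.isEquivariant_res φ B)
    (H50.isEquivariant_res φ C) (fun _ => rfl) (fun _ => rfl) x

end ResDelta

end Fermat.Agent.CFT.H1

end
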