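import Mathlib
import Fermat.Agent.CFT.H55_LevelDefs
import Fermat.Agent.CFT.H50_LevelRes

/-!
# Corestriction (transfer) for level cohomology  (CFT / D0-COR)

`U` a finite-index subgroup of `H`, `σ : Sec U` a set-theoretic section of `H → H ⧸ U`.
For `q : H ⧸ U` and `g : H` put `σ.t q g := (σ q)⁻¹ * g * σ (g⁻¹ • q) ∈ U`.  The transfer of an
inhomogeneous `U`-cochain `f` is

`corC₂ σ f (g₁, g₂) = ∑ q, ρ (σ q) (f (σ.t q g₁, σ.t (g₁⁻¹ • q) g₂))`   (similarly in degrees 0..4).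

It commutes strictly with the differentials, is natural in the coefficients and preserves
level-constancy.  The prism operators `hC₁ … hC₄` give a cochain homotopy
`corC ∘ res - [H : U] = d ∘ h + h ∘ d`.
-/

set_option autoImplicit false

universe u

open CategoryTheory groupCohomology

namespace Fermat.Agent.CFT.H50

open Fermat.Agent.CFT

variable {H : Type u} [Group H]

/-- A set-theoretic section of the projection `H → H ⧸ U`. -/
structure Sec (U : Subgroup H) where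
  /-- the representative of a coset -/
  rep : H ⧸ U → H
  /-- it is a representative -/
  mk_rep : ∀ q, (QuotientGroup.mk (rep q) : H ⧸ U) = q

namespace Sec

variable {U : Subgroup H}

/-- The section given by `Quotient.out`. -/
noncomputable def out (U : Subgroup H) : Sec U where
  rep q := q.out
  mk_rep q := QuotientGroup.out_eq' q

variable (σ : Sec U)

lemma mk_mul_rep (q : H ⧸ U) (g : H) :
    (QuotientGroup.mk (g * σ.rep (g⁻¹ • q)) : H ⧸ U) = q := by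
  have h : (QuotientGroup.mk (g * σ.rep (g⁻¹ • q)) : H ⧸ U)
      = g • (QuotientGroup.mk (σ.rep (g⁻¹ • q)) : H ⧸ U) := rfl
  rw [h, σ.mk_rep, smul_inv_smul]

lemma t_mem (q : H ⧸ U) (g : H) : (σ.rep q)⁻¹ * g * σ.rep (g⁻¹ • q) ∈ U := by
  have h := σ.mk_mul_rep q g
  have h2 : (QuotientGroup.mk (σ.rep q) : H ⧸ U) = QuotientGroup.mk (g * σ.rep (g⁻¹ • q)) := by
    rw [h, σ.mk_rep]
  have := QuotientGroup.eq.mp h2
  rwa [← mul_assoc] at this

/-- The `U`-valued "cocycle" attached to a section. -/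
def t (q : H ⧸ U) (g : H) : U := ⟨(σ.rep q)⁻¹ * g * σ.rep (g⁻¹ • q), σ.t_mem q g⟩

@[simp] lemma coe_t (q : H ⧸ U) (g : H) :
    (σ.t q g : H) = (σ.rep q)⁻¹ * g * σ.rep (g⁻¹ • q) := rfl

lemma rep_mul_t (q : H ⧸ U) (g : H) : σ.rep q * (σ.t q g : H) = g * σ.rep (g⁻¹ • q) := by
  simp only [coe_t]; group

lemma t_mul (q : H ⧸ U) (g g' : H) : σ.t q (g * g') = σ.t q g * σ.t (g⁻¹ • q) g' := by
  apply Subtype.ext
  simp only [coe_t, Subgroup.coe_mul, mul_inv_rev, mul_smul]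
  group

lemma t_one (q : H ⧸ U) : σ.t q 1 = 1 := by
  apply Subtype.ext
  simp

/-- Translating by an element of a normal subgroup contained in `U` does not move cosets. -/
lemma inv_smul_mul_of_normal {M : Subgroup H} [hM : M.Normal] (hMU : M ≤ U) (q : H ⧸ U)
    (g s : H) (hs : s ∈ M) : (g * s)⁻¹ • q = g⁻¹ • q := by
  rw [mul_inv_rev, mul_smul]
  induction q using QuotientGroup.induction_on with
  | H x =>
    show (QuotientGroup.mk (s⁻¹ * (g⁻¹ * x)) : H ⧸ U) = QuotientGroup.mk (g⁻¹ * x)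
    rw [QuotientGroup.eq]
    apply hMU
    have : (s⁻¹ * (g⁻¹ * x))⁻¹ * (g⁻¹ * x) = (g⁻¹ * x)⁻¹ * s * (g⁻¹ * x) := by group
    rw [this]
    have h := hM.conj_mem s hs (g⁻¹ * x)⁻¹
    simpa using h

/-- The effect on `σ.t` of translating on the right by an element of a normal subgroup `M ≤ U`. -/
lemma t_mul_of_normal {M : Subgroup H} [hM : M.Normal] (hMU : M ≤ U) (q : H ⧸ U)
    (g s : H) (hs : s ∈ M) :
    ∃ m : U, (m : H) ∈ M ∧ σ.t q (g * s) = σ.t q g * m := by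
  have hq := inv_smul_mul_of_normal hMU q g s hs
  have hm : (σ.rep (g⁻¹ • q))⁻¹ * s * σ.rep (g⁻¹ • q) ∈ M := by
    have h := hM.conj_mem s hs (σ.rep (g⁻¹ • q))⁻¹
    simpa using h
  refine ⟨⟨_, hMU hm⟩, hm, ?_⟩
  apply Subtype.ext
  simp only [coe_t, Subgroup.coe_mul, hq]
  group

end Sec

/-! ## The transfer on cochains -/

section Transfer

variable {k : Type u} [CommRing k] {U : Subgroup H} [Fintype (H ⧸ U)] (σ : Sec U)
  (A : Rep.{u} k H)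

lemma sum_inv_smul {M : Type*} [AddCommMonoid M] (g : H) (F : H ⧸ U → M) :
    ∑ q, F (g⁻¹ • q) = ∑ q, F q :=
  Equiv.sum_comp (MulAction.toPerm g⁻¹ : H ⧸ U ≃ H ⧸ U) F

omit [Fintype (H ⧸ U)] in
lemma rho_rep_t (q : H ⧸ U) (g : H) (x : A.V) :
    A.ρ (σ.rep q) (A.ρ (σ.t q g : H) x) = A.ρ g (A.ρ (σ.rep (g⁻¹ • q)) x) := by
  rw [← Module.End.mul_apply, ← map_mul, σ.rep_mul_t, map_mul, Module.End.mul_apply]

/-- Transfer in degree `0`: the relative norm. -/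
def corC₀ : A.V →ₗ[k] A.V where
  toFun x := ∑ q, A.ρ (σ.rep q) x
  map_add' x y := by simp only [map_add, Finset.sum_add_distrib]
  map_smul' c x := by simp only [map_smul, Finset.smul_sum, RingHom.id_apply]

/-- Transfer in degree `1`. -/
def corC₁ : (U → A.V) →ₗ[k] (H → A.V) where
  toFun f g := ∑ q, A.ρ (σ.rep q) (f (σ.t q g))
  map_add' f f' := by
    ext g; simp only [Pi.add_apply, map_add, Finset.sum_add_distrib]
  map_smul' c f := by
    ext g; simp only [Pi.smul_apply, map_smul, Finset.smul_sum, RingHom.id_apply]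

/-- Transfer in degree `2`. -/
def corC₂ : (U × U → A.V) →ₗ[k] (H × H → A.V) where
  toFun f g := ∑ q, A.ρ (σ.rep q) (f (σ.t q g.1, σ.t (g.1⁻¹ • q) g.2))
  map_add' f f' := by
    ext g; simp only [Pi.add_apply, map_add, Finset.sum_add_distrib]
  map_smul' c f := by
    ext g; simp only [Pi.smul_apply, map_smul, Finset.smul_sum, RingHom.id_apply]

/-- Transfer in degree `3`. -/
def corC₃ : (U × U × U → A.V) →ₗ[k] (H × H × H → A.V) where
  toFun f g := ∑ q, A.ρ (σ.rep q)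
    (f (σ.t q g.1, σ.t (g.1⁻¹ • q) g.2.1, σ.t (g.2.1⁻¹ • g.1⁻¹ • q) g.2.2))
  map_add' f f' := by
    ext g; simp only [Pi.add_apply, map_add, Finset.sum_add_distrib]
  map_smul' c f := by
    ext g; simp only [Pi.smul_apply, map_smul, Finset.smul_sum, RingHom.id_apply]

/-- Transfer in degree `4`. -/
def corC₄ : (U × U × U × U → A.V) →ₗ[k] (H × H × H × H → A.V) where
  toFun f g := ∑ q, A.ρ (σ.rep q)
    (f (σ.t q g.1, σ.t (g.1⁻¹ • q) g.2.1, σ.t (g.2.1⁻¹ • g.1⁻¹ • q) g.2.2.1,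
      σ.t (g.2.2.1⁻¹ • g.2.1⁻¹ • g.1⁻¹ • q) g.2.2.2))
  map_add' f f' := by
    ext g; simp only [Pi.add_apply, map_add, Finset.sum_add_distrib]
  map_smul' c f := by
    ext g; simp only [Pi.smul_apply, map_smul, Finset.smul_sum, RingHom.id_apply]

lemma corC₀_apply (x : A.V) : corC₀ σ A x = ∑ q, A.ρ (σ.rep q) x := rfl

lemma corC₁_apply (f : U → A.V) (g : H) :
    corC₁ σ A f g = ∑ q, A.ρ (σ.rep q) (f (σ.t q g)) := rfl

lemma corC₂_apply (f : U × U → A.V) (g : H × H) :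
    corC₂ σ A f g = ∑ q, A.ρ (σ.rep q) (f (σ.t q g.1, σ.t (g.1⁻¹ • q) g.2)) := rfl

lemma corC₃_apply (f : U × U × U → A.V) (g : H × H × H) :
    corC₃ σ A f g = ∑ q, A.ρ (σ.rep q)
      (f (σ.t q g.1, σ.t (g.1⁻¹ • q) g.2.1, σ.t (g.2.1⁻¹ • g.1⁻¹ • q) g.2.2)) := rfl

lemma corC₄_apply (f : U × U × U × U → A.V) (g : H × H × H × H) :
    corC₄ σ A f g = ∑ q, A.ρ (σ.rep q)
      (f (σ.t q g.1, σ.t (g.1⁻¹ • q) g.2.1, σ.t (g.2.1⁻¹ • g.1⁻¹ • q) g.2.2.1,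
        σ.t (g.2.2.1⁻¹ • g.2.1⁻¹ • g.1⁻¹ • q) g.2.2.2)) := rfl

omit [Fintype (H ⧸ U)] in
/-- The action of `Rep.res U.subtype A`. -/
lemma res_ρ_apply (u : U) (x : A.V) : (Rep.res U.subtype A).ρ u x = A.ρ (u : H) x := rfl

/-! ### The transfer is a chain map -/

lemma d₀₁_corC₀ (x : A.V) :
    (d₀₁ A).hom (corC₀ σ A x) = corC₁ σ A ((d₀₁ (Rep.res U.subtype A)).hom x) := by
  ext g
  simp only [d₀₁_hom_apply, corC₀_apply, corC₁_apply, MonoidHom.comp_apply, Subgroup.subtype_apply, map_sub, map_sum,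
    Finset.sum_sub_distrib, rho_rep_t]
  rw [sum_inv_smul g (fun q => A.ρ g (A.ρ (σ.rep q) x))]

lemma d₁₂_corC₁ (f : U → A.V) :
    (d₁₂ A).hom (corC₁ σ A f) = corC₂ σ A ((d₁₂ (Rep.res U.subtype A)).hom f) := by
  ext ⟨g₁, g₂⟩
  simp only [d₁₂_hom_apply, corC₁_apply, corC₂_apply, MonoidHom.comp_apply, Subgroup.subtype_apply, map_sub, map_add, map_sum,
    Finset.sum_sub_distrib, Finset.sum_add_distrib, rho_rep_t, ← σ.t_mul]
  rw [sum_inv_smul g₁ (fun q => A.ρ g₁ (A.ρ (σ.rep q) (f (σ.t q g₂))))]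

lemma d₂₃_corC₂ (f : U × U → A.V) :
    (d₂₃ A).hom (corC₂ σ A f) = corC₃ σ A ((d₂₃ (Rep.res U.subtype A)).hom f) := by
  ext ⟨g₁, g₂, g₃⟩
  simp only [d₂₃_hom_apply, corC₂_apply, corC₃_apply, MonoidHom.comp_apply, Subgroup.subtype_apply, map_sub, map_add, map_sum,
    Finset.sum_sub_distrib, Finset.sum_add_distrib, rho_rep_t, ← σ.t_mul, mul_inv_rev, mul_smul]
  rw [sum_inv_smul g₁
    (fun q => A.ρ g₁ (A.ρ (σ.rep q) (f (σ.t q g₂, σ.t (g₂⁻¹ • q) g₃))))]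

lemma d₃₄_corC₃ (f : U × U × U → A.V) :
    LevelStructure.d₃₄ A (corC₃ σ A f)
      = corC₄ σ A (LevelStructure.d₃₄ (Rep.res U.subtype A) f) := by
  ext ⟨g₁, g₂, g₃, g₄⟩
  simp only [d₃₄_apply, corC₃_apply, corC₄_apply, MonoidHom.comp_apply, Subgroup.subtype_apply, map_sub, map_add, map_sum,
    Finset.sum_sub_distrib, Finset.sum_add_distrib, rho_rep_t, ← σ.t_mul, mul_inv_rev, mul_smul]
  rw [sum_inv_smul g₁
    (fun q => A.ρ g₁ (A.ρ (σ.rep q)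
      (f (σ.t q g₂, σ.t (g₂⁻¹ • q) g₃, σ.t (g₃⁻¹ • g₂⁻¹ • q) g₄))))]

end Transfer

/-! ### Naturality in the coefficients -/

section Natural

variable {k : Type u} [CommRing k] {U : Subgroup H} [Fintype (H ⧸ U)] (σ : Sec U)
  {A B : Rep.{u} k H} {α : A.V →ₗ[k] B.V} (hα : IsEquivariant (MonoidHom.id H) A B α)

include hα

lemma corC₀_natural (x : A.V) : α (corC₀ σ A x) = corC₀ σ B (α x) := by
  have hα' : ∀ (g : H) (a : A.V), α (A.ρ g a) = B.ρ g (α a) := hα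
  simp only [corC₀_apply, map_sum, hα']

lemma corC₁_natural (f : U → A.V) :
    pull₁ (MonoidHom.id H) α (corC₁ σ A f) = corC₁ σ B (pull₁ (MonoidHom.id U) α f) := by
  have hα' : ∀ (g : H) (a : A.V), α (A.ρ g a) = B.ρ g (α a) := hα
  ext g
  simp only [pull₁_apply, corC₁_apply, map_sum, hα', MonoidHom.id_apply]

lemma corC₂_natural (f : U × U → A.V) :
    pull₂ (MonoidHom.id H) α (corC₂ σ A f) = corC₂ σ B (pull₂ (MonoidHom.id U) α f) := by
  have hα' : ∀ (g : H) (a : A.V), α (A.ρ g a) = B.ρ g (α a) := hα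
  ext g
  simp only [pull₂_apply, corC₂_apply, map_sum, hα', MonoidHom.id_apply]

lemma corC₃_natural (f : U × U × U → A.V) :
    pull₃ (MonoidHom.id H) α (corC₃ σ A f) = corC₃ σ B (pull₃ (MonoidHom.id U) α f) := by
  have hα' : ∀ (g : H) (a : A.V), α (A.ρ g a) = B.ρ g (α a) := hα
  ext g
  simp only [pull₃_apply, corC₃_apply, map_sum, hα', MonoidHom.id_apply]

end Natural

/-! ### The transfer preserves level-constancy -/

section Const

variable {k : Type u} [CommRing k] {U : Subgroup H} [Fintype (H ⧸ U)] (σ : Sec U)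
  (A : Rep.{u} k H) (𝓛 : LevelStructure H) (hU : 𝓛.IsOpen U)

include hU

lemma isConst₁_corC₁ {f : U → A.V} (hf : (𝓛.restrict U).IsConst₁ f) :
    𝓛.IsConst₁ (corC₁ σ A f) := by
  obtain ⟨_, ⟨N, hN, rfl⟩, h⟩ := hf
  obtain ⟨M, hM, hMU, hMN, hMn⟩ :=
    exists_normal_level_le_inf 𝓛 hU (isOpen_of_mem_levels 𝓛 hN)
  refine ⟨M, hM, fun g s hs => ?_⟩
  simp only [corC₁_apply]
  refine Finset.sum_congr rfl fun q _ => ?_
  obtain ⟨m, hm, e⟩ := σ.t_mul_of_normal hMU q g s hs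
  rw [e, h _ m (hMN hm)]

lemma isConst₂_corC₂ {f : U × U → A.V} (hf : (𝓛.restrict U).IsConst₂ f) :
    𝓛.IsConst₂ (corC₂ σ A f) := by
  obtain ⟨_, ⟨N, hN, rfl⟩, h⟩ := hf
  obtain ⟨M, hM, hMU, hMN, hMn⟩ :=
    exists_normal_level_le_inf 𝓛 hU (isOpen_of_mem_levels 𝓛 hN)
  refine ⟨M, hM, fun g g' s s' hs hs' => ?_⟩
  simp only [corC₂_apply]
  refine Finset.sum_congr rfl fun q _ => ?_
  obtain ⟨m, hm, e⟩ := σ.t_mul_of_normal hMU q g s hs
  obtain ⟨m', hm', e'⟩ := σ.t_mul_of_normal hMU (g⁻¹ • q) g' s' hs'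
  rw [Sec.inv_smul_mul_of_normal hMU q g s hs, e, e', h _ _ m m' (hMN hm) (hMN hm')]

lemma isConst₃_corC₃ {f : U × U × U → A.V} (hf : (𝓛.restrict U).IsConst₃ f) :
    𝓛.IsConst₃ (corC₃ σ A f) := by
  obtain ⟨_, ⟨N, hN, rfl⟩, h⟩ := hf
  obtain ⟨M, hM, hMU, hMN, hMn⟩ :=
    exists_normal_level_le_inf 𝓛 hU (isOpen_of_mem_levels 𝓛 hN)
  refine ⟨M, hM, fun g g' g'' s s' s'' hs hs' hs'' => ?_⟩
  simp only [corC₃_apply]
  refine Finset.sum_congr rfl fun q _ => ?_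
  obtain ⟨m, hm, e⟩ := σ.t_mul_of_normal hMU q g s hs
  obtain ⟨m', hm', e'⟩ := σ.t_mul_of_normal hMU (g⁻¹ • q) g' s' hs'
  obtain ⟨m'', hm'', e''⟩ := σ.t_mul_of_normal hMU (g'⁻¹ • g⁻¹ • q) g'' s'' hs''
  rw [Sec.inv_smul_mul_of_normal hMU q g s hs,
    Sec.inv_smul_mul_of_normal hMU (g⁻¹ • q) g' s' hs', e, e', e'',
    h _ _ _ m m' m'' (hMN hm) (hMN hm') (hMN hm'')]

end Const

/-! ## The prism homotopy `cor ∘ res - [H : U] = d h + h d` -/

section Homotopy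

variable {k : Type u} [CommRing k] {U : Subgroup H} [Fintype (H ⧸ U)] (σ : Sec U)
  (A : Rep.{u} k H)

/-- Prism operator `C¹(H) → C⁰(H)`. -/
def hC₁ : (H → A.V) →ₗ[k] A.V where
  toFun F := ∑ q, F (σ.rep q)
  map_add' F F' := by simp only [Pi.add_apply, Finset.sum_add_distrib]
  map_smul' c F := by simp only [Pi.smul_apply, Finset.smul_sum, RingHom.id_apply]

/-- Prism operator `C²(H) → C¹(H)`. -/
def hC₂ : (H × H → A.V) →ₗ[k] (H → A.V) where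
  toFun F g := ∑ q, (F (σ.rep q, (σ.t q g : H)) - F (g, σ.rep (g⁻¹ • q)))
  map_add' F F' := by
    ext g; simp only [Pi.add_apply, ← Finset.sum_add_distrib]
    exact Finset.sum_congr rfl fun q _ => by abel
  map_smul' c F := by
    ext g; simp only [Pi.smul_apply, Finset.smul_sum, RingHom.id_apply, smul_sub]

/-- Prism operator `C³(H) → C²(H)`. -/
def hC₃ : (H × H × H → A.V) →ₗ[k] (H × H → A.V) where
  toFun F g := ∑ q, (F (σ.rep q, (σ.t q g.1 : H), (σ.t (g.1⁻¹ • q) g.2 : H))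
    - F (g.1, σ.rep (g.1⁻¹ • q), (σ.t (g.1⁻¹ • q) g.2 : H))
    + F (g.1, g.2, σ.rep (g.2⁻¹ • g.1⁻¹ • q)))
  map_add' F F' := by
    ext g; simp only [Pi.add_apply, ← Finset.sum_add_distrib]
    exact Finset.sum_congr rfl fun q _ => by abel
  map_smul' c F := by
    ext g; simp only [Pi.smul_apply, Finset.smul_sum, RingHom.id_apply, smul_sub, smul_add]

/-- Prism operator `C⁴(H) → C³(H)`. -/
def hC₄ : (H × H × H × H → A.V) →ₗ[k] (H × H × H → A.V) where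
  toFun F g := ∑ q,
    (F (σ.rep q, (σ.t q g.1 : H), (σ.t (g.1⁻¹ • q) g.2.1 : H),
        (σ.t (g.2.1⁻¹ • g.1⁻¹ • q) g.2.2 : H))
    - F (g.1, σ.rep (g.1⁻¹ • q), (σ.t (g.1⁻¹ • q) g.2.1 : H),
        (σ.t (g.2.1⁻¹ • g.1⁻¹ • q) g.2.2 : H))
    + F (g.1, g.2.1, σ.rep (g.2.1⁻¹ • g.1⁻¹ • q), (σ.t (g.2.1⁻¹ • g.1⁻¹ • q) g.2.2 : H))
    - F (g.1, g.2.1, g.2.2, σ.rep (g.2.2⁻¹ • g.2.1⁻¹ • g.1⁻¹ • q)))
  map_add' F F' := by
    ext g; simp only [Pi.add_apply, ← Finset.sum_add_distrib]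
    exact Finset.sum_congr rfl fun q _ => by abel
  map_smul' c F := by
    ext g; simp only [Pi.smul_apply, Finset.smul_sum, RingHom.id_apply, smul_sub, smul_add]

lemma hC₁_apply (F : H → A.V) : hC₁ σ A F = ∑ q, F (σ.rep q) := rfl

lemma hC₂_apply (F : H × H → A.V) (g : H) :
    hC₂ σ A F g = ∑ q, (F (σ.rep q, (σ.t q g : H)) - F (g, σ.rep (g⁻¹ • q))) := rfl

lemma hC₃_apply (F : H × H × H → A.V) (g : H × H) :
    hC₃ σ A F g = ∑ q, (F (σ.rep q, (σ.t q g.1 : H), (σ.t (g.1⁻¹ • q) g.2 : H))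
      - F (g.1, σ.rep (g.1⁻¹ • q), (σ.t (g.1⁻¹ • q) g.2 : H))
      + F (g.1, g.2, σ.rep (g.2⁻¹ • g.1⁻¹ • q))) := rfl

lemma hC₄_apply (F : H × H × H × H → A.V) (g : H × H × H) :
    hC₄ σ A F g = ∑ q,
      (F (σ.rep q, (σ.t q g.1 : H), (σ.t (g.1⁻¹ • q) g.2.1 : H),
          (σ.t (g.2.1⁻¹ • g.1⁻¹ • q) g.2.2 : H))
      - F (g.1, σ.rep (g.1⁻¹ • q), (σ.t (g.1⁻¹ • q) g.2.1 : H),
          (σ.t (g.2.1⁻¹ • g.1⁻¹ • q) g.2.2 : H))
      + F (g.1, g.2.1, σ.rep (g.2.1⁻¹ • g.1⁻¹ • q), (σ.t (g.2.1⁻¹ • g.1⁻¹ • q) g.2.2 : H))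
      - F (g.1, g.2.1, g.2.2, σ.rep (g.2.2⁻¹ • g.2.1⁻¹ • g.1⁻¹ • q))) := rfl

lemma card_smul_eq_sum (x : A.V) : Fintype.card (H ⧸ U) • x = ∑ _q : H ⧸ U, x := by
  rw [Finset.sum_const, Finset.card_univ]

/-- Homotopy identity in degree `0`: `cor (res x) - [H:U] x = h₁ (d x)`. -/
theorem corC₀_res (x : A.V) :
    corC₀ σ A x - Fintype.card (H ⧸ U) • x = hC₁ σ A ((d₀₁ A).hom x) := by
  simp only [corC₀_apply, hC₁_apply, d₀₁_hom_apply, card_smul_eq_sum, Finset.sum_sub_distrib]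

/-- Homotopy identity in degree `1`. -/
theorem corC₁_res (F : H → A.V) :
    corC₁ σ A (pull₁ U.subtype (LinearMap.id : A.V →ₗ[k] A.V) F) - Fintype.card (H ⧸ U) • F
      = (d₀₁ A).hom (hC₁ σ A F) + hC₂ σ A ((d₁₂ A).hom F) := by
  ext g
  simp only [Pi.sub_apply, Pi.add_apply, Pi.smul_apply, corC₁_apply, pull₁_apply,
    LinearMap.id_apply, Subgroup.subtype_apply, d₀₁_hom_apply, hC₂_apply, d₁₂_hom_apply]
  simp only [hC₁_apply, card_smul_eq_sum, map_sum]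
  rw [← sum_inv_smul g (fun q => A.ρ g (F (σ.rep q)))]
  simp only [← Finset.sum_sub_distrib, ← Finset.sum_add_distrib]
  refine Finset.sum_congr rfl fun q _ => ?_
  simp only [σ.rep_mul_t]
  abel

/-- Homotopy identity in degree `2`. -/
theorem corC₂_res (F : H × H → A.V) :
    corC₂ σ A (pull₂ U.subtype (LinearMap.id : A.V →ₗ[k] A.V) F) - Fintype.card (H ⧸ U) • F
      = (d₁₂ A).hom (hC₂ σ A F) + hC₃ σ A ((d₂₃ A).hom F) := by
  ext ⟨g₁, g₂⟩
  simp only [Pi.sub_apply, Pi.add_apply, Pi.smul_apply, corC₂_apply, pull₂_apply,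
    LinearMap.id_apply, Subgroup.subtype_apply, d₁₂_hom_apply, hC₃_apply, d₂₃_hom_apply]
  simp only [hC₂_apply, card_smul_eq_sum, map_sum, map_sub]
  rw [← sum_inv_smul g₁ (fun q => (A.ρ g₁ (F (σ.rep q, ↑(σ.t q g₂)))
    - A.ρ g₁ (F (g₂, σ.rep (g₂⁻¹ • q)))))]
  simp only [← Finset.sum_sub_distrib, ← Finset.sum_add_distrib]
  refine Finset.sum_congr rfl fun q _ => ?_
  simp only [σ.rep_mul_t, σ.t_mul, Subgroup.coe_mul, mul_inv_rev, mul_smul]
  abel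

/-- Homotopy identity in degree `3`. -/
theorem corC₃_res (F : H × H × H → A.V) :
    corC₃ σ A (pull₃ U.subtype (LinearMap.id : A.V →ₗ[k] A.V) F) - Fintype.card (H ⧸ U) • F
      = (d₂₃ A).hom (hC₃ σ A F) + hC₄ σ A (LevelStructure.d₃₄ A F) := by
  ext ⟨g₁, g₂, g₃⟩
  simp only [Pi.sub_apply, Pi.add_apply, Pi.smul_apply, corC₃_apply, pull₃_apply,
    LinearMap.id_apply, Subgroup.subtype_apply, d₂₃_hom_apply, hC₄_apply, d₃₄_apply]
  simp only [hC₃_apply, card_smul_eq_sum, map_sum, map_sub, map_add]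
  rw [← sum_inv_smul g₁ (fun q => (A.ρ g₁ (F (σ.rep q, ↑(σ.t q g₂), ↑(σ.t (g₂⁻¹ • q) g₃)))
    - A.ρ g₁ (F (g₂, σ.rep (g₂⁻¹ • q), ↑(σ.t (g₂⁻¹ • q) g₃)))
    + A.ρ g₁ (F (g₂, g₃, σ.rep (g₃⁻¹ • g₂⁻¹ • q)))))]
  simp only [← Finset.sum_sub_distrib, ← Finset.sum_add_distrib]
  refine Finset.sum_congr rfl fun q _ => ?_
  simp only [σ.rep_mul_t, σ.t_mul, Subgroup.coe_mul, mul_inv_rev, mul_smul]
  abel

end Homotopy

/-! ### Naturality and level-constancy of the prism operators -/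

section HomotopyNat

variable {k : Type u} [CommRing k] {U : Subgroup H} [Fintype (H ⧸ U)] (σ : Sec U)
  {A B : Rep.{u} k H} (α : A.V →ₗ[k] B.V)

lemma hC₁_natural (F : H → A.V) :
    α (hC₁ σ A F) = hC₁ σ B (pull₁ (MonoidHom.id H) α F) := by
  simp only [hC₁_apply, map_sum, pull₁_apply, MonoidHom.id_apply]

lemma hC₂_natural (F : H × H → A.V) :
    pull₁ (MonoidHom.id H) α (hC₂ σ A F) = hC₂ σ B (pull₂ (MonoidHom.id H) α F) := by
  ext g
  simp only [hC₂_apply, map_sum, map_sub, pull₁_apply, pull₂_apply, MonoidHom.id_apply]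

lemma hC₃_natural (F : H × H × H → A.V) :
    pull₂ (MonoidHom.id H) α (hC₃ σ A F) = hC₃ σ B (pull₃ (MonoidHom.id H) α F) := by
  ext g
  simp only [hC₃_apply, map_sum, map_sub, map_add, pull₂_apply, pull₃_apply,
    MonoidHom.id_apply]

lemma hC₄_natural (F : H × H × H × H → A.V) :
    pull₃ (MonoidHom.id H) α (hC₄ σ A F) = hC₄ σ B (pull₄ (MonoidHom.id H) α F) := by
  ext g
  simp only [hC₄_apply, map_sum, map_sub, map_add, pull₃_apply, pull₄_apply,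
    MonoidHom.id_apply]

end HomotopyNat

section HomotopyConst

variable {k : Type u} [CommRing k] {U : Subgroup H} [Fintype (H ⧸ U)] (σ : Sec U)
  (A : Rep.{u} k H) (𝓛 : LevelStructure H) (hU : 𝓛.IsOpen U)

include hU

lemma isConst₁_hC₂ {F : H × H → A.V} (hF : 𝓛.IsConst₂ F) : 𝓛.IsConst₁ (hC₂ σ A F) := by
  obtain ⟨N, hN, h⟩ := hF
  obtain ⟨M, hM, hMU, hMN, hMn⟩ :=
    exists_normal_level_le_inf 𝓛 hU (isOpen_of_mem_levels 𝓛 hN)
  refine ⟨M, hM, fun g s hs => ?_⟩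
  simp only [hC₂_apply]
  refine Finset.sum_congr rfl fun q _ => ?_
  obtain ⟨m, hm, e⟩ := σ.t_mul_of_normal hMU q g s hs
  rw [Sec.inv_smul_mul_of_normal hMU q g s hs, e, Subgroup.coe_mul]
  have h1 := h (σ.rep q) (σ.t q g : H) 1 m (one_mem N) (hMN hm)
  have h2 := h g (σ.rep (g⁻¹ • q)) s 1 (hMN hs) (one_mem N)
  rw [mul_one] at h1 h2
  rw [h1, h2]

lemma isConst₂_hC₃ {F : H × H × H → A.V} (hF : 𝓛.IsConst₃ F) : 𝓛.IsConst₂ (hC₃ σ A F) := by
  obtain ⟨N, hN, h⟩ := hF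
  obtain ⟨M, hM, hMU, hMN, hMn⟩ :=
    exists_normal_level_le_inf 𝓛 hU (isOpen_of_mem_levels 𝓛 hN)
  refine ⟨M, hM, fun g g' s s' hs hs' => ?_⟩
  simp only [hC₃_apply]
  refine Finset.sum_congr rfl fun q _ => ?_
  obtain ⟨m, hm, e⟩ := σ.t_mul_of_normal hMU q g s hs
  obtain ⟨m', hm', e'⟩ := σ.t_mul_of_normal hMU (g⁻¹ • q) g' s' hs'
  rw [Sec.inv_smul_mul_of_normal hMU q g s hs,
    Sec.inv_smul_mul_of_normal hMU (g⁻¹ • q) g' s' hs', e, e', Subgroup.coe_mul,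
    Subgroup.coe_mul]
  have h1 := h (σ.rep q) (σ.t q g : H) (σ.t (g⁻¹ • q) g' : H) 1 m m' (one_mem N) (hMN hm)
    (hMN hm')
  have h2 := h g (σ.rep (g⁻¹ • q)) (σ.t (g⁻¹ • q) g' : H) s 1 m' (hMN hs) (one_mem N)
    (hMN hm')
  have h3 := h g g' (σ.rep (g'⁻¹ • g⁻¹ • q)) s s' 1 (hMN hs) (hMN hs') (one_mem N)
  rw [mul_one] at h1 h2 h3
  rw [h1, h2, h3]

end HomotopyConst

/-! ## Corestriction on level cohomology -/

noncomputable section CorMaps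

variable {k : Type u} [CommRing k] (𝓛 : LevelStructure H) (A : Rep.{u} k H) {U : Subgroup H}
  [Fintype (H ⧸ U)] (hU : 𝓛.IsOpen U) (σ : Sec U)

omit [Fintype (H ⧸ U)] in
lemma card_eq_index [Fintype (H ⧸ U)] : Fintype.card (H ⧸ U) = U.index := by
  rw [Subgroup.index_eq_card, Nat.card_eq_fintype_card]

lemma corC₀_mem_invariants {x : A.V} (hx : x ∈ LevelStructure.H0 (Rep.res U.subtype A)) :
    corC₀ σ A x ∈ LevelStructure.H0 A := by
  have h0 : (d₀₁ (Rep.res U.subtype A)).hom x = 0 := by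
    have : x ∈ LinearMap.ker (d₀₁ (Rep.res U.subtype A)).hom := by
      rw [d₀₁_ker_eq_invariants]; exact hx
    exact this
  have h1 : (d₀₁ A).hom (corC₀ σ A x) = 0 := by
    rw [d₀₁_corC₀, h0, map_zero]
  have : corC₀ σ A x ∈ LinearMap.ker (d₀₁ A).hom := h1
  rwa [d₀₁_ker_eq_invariants] at this

/-- Corestriction on `H⁰` (the relative norm). -/
def corH0 : LevelStructure.H0 (Rep.res U.subtype A) →ₗ[k] LevelStructure.H0 A :=
  LinearMap.codRestrict _ (corC₀ σ A ∘ₗ (LevelStructure.H0 (Rep.res U.subtype A)).subtype)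
    (fun x => corC₀_mem_invariants A σ x.2)

include hU

lemma corC₁_mem_cocycles₁ {f : U → A.V}
    (hf : f ∈ (𝓛.restrict U).cocycles₁ (Rep.res U.subtype A)) :
    corC₁ σ A f ∈ 𝓛.cocycles₁ A := by
  refine ⟨?_, isConst₁_corC₁ σ A 𝓛 hU hf.2⟩
  have h1 : (d₁₂ (Rep.res U.subtype A)).hom f = 0 := hf.1
  show (d₁₂ A).hom (corC₁ σ A f) = 0
  rw [d₁₂_corC₁, h1, map_zero]

lemma corC₂_mem_cocycles₂ {f : U × U → A.V}
    (hf : f ∈ (𝓛.restrict U).cocycles₂ (Rep.res U.subtype A)) :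
    corC₂ σ A f ∈ 𝓛.cocycles₂ A := by
  refine ⟨?_, isConst₂_corC₂ σ A 𝓛 hU hf.2⟩
  have h1 : (d₂₃ (Rep.res U.subtype A)).hom f = 0 := hf.1
  show (d₂₃ A).hom (corC₂ σ A f) = 0
  rw [d₂₃_corC₂, h1, map_zero]

lemma corC₃_mem_cocycles₃ {f : U × U × U → A.V}
    (hf : f ∈ (𝓛.restrict U).cocycles₃ (Rep.res U.subtype A)) :
    corC₃ σ A f ∈ 𝓛.cocycles₃ A := by
  refine ⟨?_, isConst₃_corC₃ σ A 𝓛 hU hf.2⟩
  have h1 : LevelStructure.d₃₄ (Rep.res U.subtype A) f = 0 := hf.1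
  show LevelStructure.d₃₄ A (corC₃ σ A f) = 0
  rw [d₃₄_corC₃, h1, map_zero]

omit hU in
lemma corC₁_mem_coboundaries₁ {f : U → A.V}
    (hf : f ∈ (𝓛.restrict U).coboundaries₁ (Rep.res U.subtype A)) :
    corC₁ σ A f ∈ 𝓛.coboundaries₁ A := by
  obtain ⟨x, rfl⟩ := hf
  exact ⟨corC₀ σ A x, d₀₁_corC₀ σ A x⟩

lemma corC₂_mem_coboundaries₂ {f : U × U → A.V}
    (hf : f ∈ (𝓛.restrict U).coboundaries₂ (Rep.res U.subtype A)) :
    corC₂ σ A f ∈ 𝓛.coboundaries₂ A := by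
  obtain ⟨x, hx, rfl⟩ := hf
  exact ⟨corC₁ σ A x, isConst₁_corC₁ σ A 𝓛 hU hx, d₁₂_corC₁ σ A x⟩

lemma corC₃_mem_coboundaries₃ {f : U × U × U → A.V}
    (hf : f ∈ (𝓛.restrict U).coboundaries₃ (Rep.res U.subtype A)) :
    corC₃ σ A f ∈ 𝓛.coboundaries₃ A := by
  obtain ⟨x, hx, rfl⟩ := hf
  exact ⟨corC₂ σ A x, isConst₂_corC₂ σ A 𝓛 hU hx, d₂₃_corC₂ σ A x⟩

/-- Corestriction on level `1`-cocycles. -/
def corZ1 : ↥((𝓛.restrict U).cocycles₁ (Rep.res U.subtype A)) →ₗ[k] ↥(𝓛.cocycles₁ A) :=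
  LinearMap.codRestrict _ (corC₁ σ A ∘ₗ ((𝓛.restrict U).cocycles₁ (Rep.res U.subtype A)).subtype)
    (fun f => corC₁_mem_cocycles₁ 𝓛 A hU σ f.2)

/-- Corestriction on level `2`-cocycles. -/
def corZ2 : ↥((𝓛.restrict U).cocycles₂ (Rep.res U.subtype A)) →ₗ[k] ↥(𝓛.cocycles₂ A) :=
  LinearMap.codRestrict _ (corC₂ σ A ∘ₗ ((𝓛.restrict U).cocycles₂ (Rep.res U.subtype A)).subtype)
    (fun f => corC₂_mem_cocycles₂ 𝓛 A hU σ f.2)

/-- Corestriction on level `3`-cocycles. -/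
def corZ3 : ↥((𝓛.restrict U).cocycles₃ (Rep.res U.subtype A)) →ₗ[k] ↥(𝓛.cocycles₃ A) :=
  LinearMap.codRestrict _ (corC₃ σ A ∘ₗ ((𝓛.restrict U).cocycles₃ (Rep.res U.subtype A)).subtype)
    (fun f => corC₃_mem_cocycles₃ 𝓛 A hU σ f.2)

/-- Corestriction on level `H¹`. -/
def corH1 : (𝓛.restrict U).H1 (Rep.res U.subtype A) →ₗ[k] 𝓛.H1 A :=
  Submodule.mapQ _ _ (corZ1 𝓛 A hU σ) (fun f hf => by
    simp only [Submodule.mem_comap, Submodule.subtype_apply] at hf ⊢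
    exact corC₁_mem_coboundaries₁ 𝓛 A σ hf)

/-- Corestriction on level `H²`. -/
def corH2 : (𝓛.restrict U).H2 (Rep.res U.subtype A) →ₗ[k] 𝓛.H2 A :=
  Submodule.mapQ _ _ (corZ2 𝓛 A hU σ) (fun f hf => by
    simp only [Submodule.mem_comap, Submodule.subtype_apply] at hf ⊢
    exact corC₂_mem_coboundaries₂ 𝓛 A hU σ hf)

/-- Corestriction on level `H³`. -/
def corH3 : (𝓛.restrict U).H3 (Rep.res U.subtype A) →ₗ[k] 𝓛.H3 A :=
  Submodule.mapQ _ _ (corZ3 𝓛 A hU σ) (fun f hf => by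
    simp only [Submodule.mem_comap, Submodule.subtype_apply] at hf ⊢
    exact corC₃_mem_coboundaries₃ 𝓛 A hU σ hf)

omit hU in
@[simp] lemma corH0_coe (x : LevelStructure.H0 (Rep.res U.subtype A)) :
    ((corH0 A σ x : LevelStructure.H0 A) : A.V) = corC₀ σ A x.1 := rfl

@[simp] lemma corZ1_coe (f : (𝓛.restrict U).cocycles₁ (Rep.res U.subtype A)) :
    ((corZ1 𝓛 A hU σ f : 𝓛.cocycles₁ A) : H → A.V) = corC₁ σ A f.1 := rfl

@[simp] lemma corZ2_coe (f : (𝓛.restrict U).cocycles₂ (Rep.res U.subtype A)) :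
    ((corZ2 𝓛 A hU σ f : 𝓛.cocycles₂ A) : H × H → A.V) = corC₂ σ A f.1 := rfl

@[simp] lemma corZ3_coe (f : (𝓛.restrict U).cocycles₃ (Rep.res U.subtype A)) :
    ((corZ3 𝓛 A hU σ f : 𝓛.cocycles₃ A) : H × H × H → A.V) = corC₃ σ A f.1 := rfl

@[simp] lemma corH1_mk (f : (𝓛.restrict U).cocycles₁ (Rep.res U.subtype A)) :
    corH1 𝓛 A hU σ ((𝓛.restrict U).H1π _ f) = 𝓛.H1π A (corZ1 𝓛 A hU σ f) := rfl

@[simp] lemma corH2_mk (f : (𝓛.restrict U).cocycles₂ (Rep.res U.subtype A)) :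
    corH2 𝓛 A hU σ ((𝓛.restrict U).H2π _ f) = 𝓛.H2π A (corZ2 𝓛 A hU σ f) := rfl

@[simp] lemma corH3_mk (f : (𝓛.restrict U).cocycles₃ (Rep.res U.subtype A)) :
    corH3 𝓛 A hU σ ((𝓛.restrict U).H3π _ f) = 𝓛.H3π A (corZ3 𝓛 A hU σ f) := rfl

end CorMaps

/-! ## `cor ∘ res = [H : U]` -/

section CorRes

variable {k : Type u} [CommRing k] (𝓛 : LevelStructure H) (A : Rep.{u} k H) {U : Subgroup H}
  [Fintype (H ⧸ U)] (hU : 𝓛.IsOpen U) (σ : Sec U)

theorem corH0_resSubH0 (x : LevelStructure.H0 A) :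
    corH0 A σ (resSubH0 A U x) = Fintype.card (H ⧸ U) • x := by
  apply Subtype.ext
  have h := corC₀_res σ A x.1
  have hx : (d₀₁ A).hom x.1 = 0 := by
    have : x.1 ∈ LinearMap.ker (d₀₁ A).hom := by
      rw [d₀₁_ker_eq_invariants]; exact x.2
    exact this
  rw [hx, map_zero, sub_eq_zero] at h
  show corC₀ σ A x.1 = ((Fintype.card (H ⧸ U) • x : LevelStructure.H0 A) : A.V)
  rw [h]
  simp

theorem corH1_resSubH1 (x : 𝓛.H1 A) :
    corH1 𝓛 A hU σ (resSubH1 𝓛 A U x) = Fintype.card (H ⧸ U) • x := by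
  induction x using Submodule.Quotient.induction_on with
  | H F =>
    rw [← Submodule.Quotient.mk_smul]
    refine (Submodule.Quotient.eq _).mpr ?_
    simp only [Submodule.mem_comap, Submodule.subtype_apply]
    have hF : (d₁₂ A).hom F.1 = 0 := F.2.1
    have h := corC₁_res σ A F.1
    rw [hF, map_zero, add_zero] at h
    exact ⟨hC₁ σ A F.1, h.symm⟩

theorem corH2_resSubH2 (x : 𝓛.H2 A) :
    corH2 𝓛 A hU σ (resSubH2 𝓛 A U x) = Fintype.card (H ⧸ U) • x := by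
  induction x using Submodule.Quotient.induction_on with
  | H F =>
    rw [← Submodule.Quotient.mk_smul]
    refine (Submodule.Quotient.eq _).mpr ?_
    simp only [Submodule.mem_comap, Submodule.subtype_apply]
    have hF : (d₂₃ A).hom F.1 = 0 := F.2.1
    have h := corC₂_res σ A F.1
    rw [hF, map_zero, add_zero] at h
    exact ⟨hC₂ σ A F.1, isConst₁_hC₂ σ A 𝓛 hU F.2.2, h.symm⟩

theorem corH3_resSubH3 (x : 𝓛.H3 A) :
    corH3 𝓛 A hU σ (resSubH3 𝓛 A U x) = Fintype.card (H ⧸ U) • x := by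
  induction x using Submodule.Quotient.induction_on with
  | H F =>
    rw [← Submodule.Quotient.mk_smul]
    refine (Submodule.Quotient.eq _).mpr ?_
    simp only [Submodule.mem_comap, Submodule.subtype_apply]
    have hF : LevelStructure.d₃₄ A F.1 = 0 := F.2.1
    have h := corC₃_res σ A F.1
    rw [hF, map_zero, add_zero] at h
    exact ⟨hC₃ σ A F.1, isConst₂_hC₃ σ A 𝓛 hU F.2.2, h.symm⟩

/-- Bezout: an element killed by two coprime integers vanishes. -/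
lemma eq_zero_of_coprime_nsmul {M : Type*} [AddCommGroup M] {p n : ℕ} (h : Nat.Coprime p n)
    (x : M) (hp : p • x = 0) (hn : n • x = 0) : x = 0 := by
  have h1 : ((p : ℤ) * Nat.gcdA p n + (n : ℤ) * Nat.gcdB p n) • x = x := by
    rw [← Nat.gcd_eq_gcd_ab, h.gcd_eq_one]; simp
  rw [← h1, add_smul, mul_comm (p : ℤ), mul_comm (n : ℤ), mul_smul, mul_smul, natCast_zsmul,
    natCast_zsmul, hp, hn, smul_zero, smul_zero, add_zero]

include hU in
/-- Sylow-type corollary on `H¹`: a class killed by `p` whose restriction to an open subgroup of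
index prime to `p` vanishes is zero. -/
theorem eq_zero_of_resSubH1_eq_zero {p : ℕ} (hp : Nat.Coprime p (Fintype.card (H ⧸ U)))
    (x : 𝓛.H1 A) (hpx : p • x = 0) (hres : resSubH1 𝓛 A U x = 0) : x = 0 := by
  refine eq_zero_of_coprime_nsmul hp x hpx ?_
  rw [← corH1_resSubH1 𝓛 A hU (Sec.out U), hres, map_zero]

include hU in
theorem eq_zero_of_resSubH2_eq_zero {p : ℕ} (hp : Nat.Coprime p (Fintype.card (H ⧸ U)))
    (x : 𝓛.H2 A) (hpx : p • x = 0) (hres : resSubH2 𝓛 A U x = 0) : x = 0 := by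
  refine eq_zero_of_coprime_nsmul hp x hpx ?_
  rw [← corH2_resSubH2 𝓛 A hU (Sec.out U), hres, map_zero]

include hU in
theorem eq_zero_of_resSubH3_eq_zero {p : ℕ} (hp : Nat.Coprime p (Fintype.card (H ⧸ U)))
    (x : 𝓛.H3 A) (hpx : p • x = 0) (hres : resSubH3 𝓛 A U x = 0) : x = 0 := by
  refine eq_zero_of_coprime_nsmul hp x hpx ?_
  rw [← corH3_resSubH3 𝓛 A hU (Sec.out U), hres, map_zero]

end CorRes

/-! ## Naturality of the corestriction in the coefficients -/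

section CorNat

variable {k : Type u} [CommRing k] (𝓛 : LevelStructure H) {A B : Rep.{u} k H} {U : Subgroup H}
  [Fintype (H ⧸ U)] (hU : 𝓛.IsOpen U) (σ : Sec U) {α : A.V →ₗ[k] B.V}
  (hα : IsEquivariant (MonoidHom.id H) A B α)

omit [Fintype (H ⧸ U)] in
/-- An `H`-equivariant linear map is `U`-equivariant. -/
lemma IsEquivariant.resSub (hα : IsEquivariant (MonoidHom.id H) A B α) (U : Subgroup H) :
    IsEquivariant (MonoidHom.id U) (Rep.res U.subtype A) (Rep.res U.subtype B) α :=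
  fun u a => hα (u : H) a

theorem corH0_natural (x : LevelStructure.H0 (Rep.res U.subtype A)) :
    mapH0 hα (corH0 A σ x) = corH0 B σ (mapH0 (hα.resSub U) x) := by
  apply Subtype.ext
  exact corC₀_natural σ hα x.1

theorem corH1_natural (x : (𝓛.restrict U).H1 (Rep.res U.subtype A)) :
    mapH1 𝓛 𝓛 (isCont_id 𝓛) hα (corH1 𝓛 A hU σ x)
      = corH1 𝓛 B hU σ (mapH1 _ _ (isCont_id (𝓛.restrict U)) (hα.resSub U) x) := by
  induction x using Submodule.Quotient.induction_on with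
  | H f =>
    refine congrArg (𝓛.H1π B) (Subtype.ext ?_)
    exact corC₁_natural σ hα f.1

theorem corH2_natural (x : (𝓛.restrict U).H2 (Rep.res U.subtype A)) :
    mapH2 𝓛 𝓛 (isCont_id 𝓛) hα (corH2 𝓛 A hU σ x)
      = corH2 𝓛 B hU σ (mapH2 _ _ (isCont_id (𝓛.restrict U)) (hα.resSub U) x) := by
  induction x using Submodule.Quotient.induction_on with
  | H f =>
    refine congrArg (𝓛.H2π B) (Subtype.ext ?_)
    exact corC₂_natural σ hα f.1

theorem corH3_natural (x : (𝓛.restrict U).H3 (Rep.res U.subtype A)) :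
    mapH3 𝓛 𝓛 (isCont_id 𝓛) hα (corH3 𝓛 A hU σ x)
      = corH3 𝓛 B hU σ (mapH3 _ _ (isCont_id (𝓛.restrict U)) (hα.resSub U) x) := by
  induction x using Submodule.Quotient.induction_on with
  | H f =>
    refine congrArg (𝓛.H3π B) (Subtype.ext ?_)
    exact corC₃_natural σ hα f.1

end CorNat

end Fermat.Agent.CFT.H50
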