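import Mathlib
import Fermat.Agent.CFT.H1_LevelLESRes
import Fermat.Agent.CFT.H50_LevelCor

/-!
# Corestriction commutes with the connecting maps  (CFT / D0-COR, part 2)

For a short exact sequence `0 → A → B → C → 0` of discrete `H`-modules (`H1.IsSES`) and an open
subgroup `U`, the corestriction maps of `H50_LevelCor` commute with the connecting maps
`δ₀ δ₁ δ₂` of `H1_LevelLES` (for `U` one uses the restricted sequence `h.res U.subtype`).
-/

set_option autoImplicit false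

universe u

open CategoryTheory groupCohomology

namespace Fermat.Agent.CFT.H50

open Fermat.Agent.CFT LevelStructure H1

variable {H : Type u} [Group H] {k : Type u} [CommRing k] (𝓛 : LevelStructure H)
  {U : Subgroup H} [Fintype (H ⧸ U)] (hU : 𝓛.IsOpen U) (σ : Sec U)
  {A B C : Rep.{u} k H} {i : A ⟶ B} {p : B ⟶ C} (h : H1.IsSES i p) (hB : 𝓛.IsDiscrete B)

omit [Fintype (H ⧸ U)] in
lemma compL_eq_pull₁ {X Y : Rep.{u} k H} (φ : X ⟶ Y) (f : H → X.V) :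
    compL φ H f = pull₁ (MonoidHom.id H) φ.hom.toLinearMap f := rfl

omit [Fintype (H ⧸ U)] in
lemma compL_eq_pull₂ {X Y : Rep.{u} k H} (φ : X ⟶ Y) (f : H × H → X.V) :
    compL φ (H × H) f = pull₂ (MonoidHom.id H) φ.hom.toLinearMap f := rfl

omit [Fintype (H ⧸ U)] in
lemma compL_eq_pull₃ {X Y : Rep.{u} k H} (φ : X ⟶ Y) (f : H × H × H → X.V) :
    compL φ (H × H × H) f = pull₃ (MonoidHom.id H) φ.hom.toLinearMap f := rfl

omit [Fintype (H ⧸ U)] in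
lemma compL_res_eq_pull₁ {X Y : Rep.{u} k H} (φ : X ⟶ Y) (f : U → X.V) :
    compL (Rep.resMap U.subtype φ) U f = pull₁ (MonoidHom.id U) φ.hom.toLinearMap f := rfl

omit [Fintype (H ⧸ U)] in
lemma compL_res_eq_pull₂ {X Y : Rep.{u} k H} (φ : X ⟶ Y) (f : U × U → X.V) :
    compL (Rep.resMap U.subtype φ) (U × U) f
      = pull₂ (MonoidHom.id U) φ.hom.toLinearMap f := rfl

omit [Fintype (H ⧸ U)] in
lemma compL_res_eq_pull₃ {X Y : Rep.{u} k H} (φ : X ⟶ Y) (f : U × U × U → X.V) :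
    compL (Rep.resMap U.subtype φ) (U × U × U) f
      = pull₃ (MonoidHom.id U) φ.hom.toLinearMap f := rfl

theorem corH1_δ₀ (c : LevelStructure.H0 (Rep.res U.subtype C)) :
    corH1 𝓛 A hU σ (H1.δ₀ (𝓛.restrict U) (h.res U.subtype)
        (isDiscrete_res (𝓛.restrict U) 𝓛 (isCont_subtype 𝓛 U) hB) c)
      = H1.δ₀ 𝓛 h hB (corH0 C σ c) := by
  have hB' := isDiscrete_res (𝓛.restrict U) 𝓛 (isCont_subtype 𝓛 U) hB
  obtain ⟨a, ha, hR⟩ := ((h.res U.subtype).snakeHyp₀ hB').tot c.1 c.2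
  obtain ⟨b, -, hpb, hia⟩ := mem_snakeRel.1 hR
  rw [δ₀_apply (𝓛.restrict U) (h.res U.subtype) hB' c b hpb a ha hia]
  refine (δ₀_apply 𝓛 h hB (corH0 C σ c) (corC₀ σ B b) ?_ (corC₁ σ A a)
    (corC₁_mem_cocycles₁ 𝓛 A hU σ ha) ?_).symm
  · have hpb' : p.hom b = c.1 := hpb
    have := corC₀_natural σ (isEquivariant_hom p) b
    rw [corH0_coe, ← hpb']
    exact this
  · rw [d₀₁_corC₀, ← hia, compL_eq_pull₁, compL_res_eq_pull₁]
    exact corC₁_natural σ (isEquivariant_hom i) a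

theorem corH2_δ₁ (x : (𝓛.restrict U).H1 (Rep.res U.subtype C)) :
    corH2 𝓛 A hU σ (H1.δ₁ (𝓛.restrict U) (h.res U.subtype)
        (isDiscrete_res (𝓛.restrict U) 𝓛 (isCont_subtype 𝓛 U) hB) x)
      = H1.δ₁ 𝓛 h hB (corH1 𝓛 C hU σ x) := by
  have hB' := isDiscrete_res (𝓛.restrict U) 𝓛 (isCont_subtype 𝓛 U) hB
  induction x using sq_induction with
  | h c hc =>
    obtain ⟨a, ha, hR⟩ := ((h.res U.subtype).snakeHyp₁ hB').tot c hc
    obtain ⟨b, hb, hpb, hia⟩ := mem_snakeRel.1 hR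
    rw [δ₁_mk (𝓛.restrict U) (h.res U.subtype) hB' c hc b hb hpb a ha hia]
    refine (δ₁_mk 𝓛 h hB (corC₁ σ C c) (corC₁_mem_cocycles₁ 𝓛 C hU σ hc)
      (corC₁ σ B b) (isConst₁_corC₁ σ B 𝓛 hU hb) ?_ (corC₂ σ A a)
      (corC₂_mem_cocycles₂ 𝓛 A hU σ ha) ?_).symm
    · rw [← hpb, compL_eq_pull₁, compL_res_eq_pull₁]
      exact corC₁_natural σ (isEquivariant_hom p) b
    · rw [d₁₂_corC₁, ← hia, compL_eq_pull₂, compL_res_eq_pull₂]
      exact corC₂_natural σ (isEquivariant_hom i) a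

theorem corH3_δ₂ (x : (𝓛.restrict U).H2 (Rep.res U.subtype C)) :
    corH3 𝓛 A hU σ (H1.δ₂ (𝓛.restrict U) (h.res U.subtype)
        (isDiscrete_res (𝓛.restrict U) 𝓛 (isCont_subtype 𝓛 U) hB) x)
      = H1.δ₂ 𝓛 h hB (corH2 𝓛 C hU σ x) := by
  have hB' := isDiscrete_res (𝓛.restrict U) 𝓛 (isCont_subtype 𝓛 U) hB
  induction x using sq_induction with
  | h c hc =>
    obtain ⟨a, ha, hR⟩ := ((h.res U.subtype).snakeHyp₂ hB').tot c hc
    obtain ⟨b, hb, hpb, hia⟩ := mem_snakeRel.1 hR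
    rw [δ₂_mk (𝓛.restrict U) (h.res U.subtype) hB' c hc b hb hpb a ha hia]
    refine (δ₂_mk 𝓛 h hB (corC₂ σ C c) (corC₂_mem_cocycles₂ 𝓛 C hU σ hc)
      (corC₂ σ B b) (isConst₂_corC₂ σ B 𝓛 hU hb) ?_ (corC₃ σ A a)
      (corC₃_mem_cocycles₃ 𝓛 A hU σ ha) ?_).symm
    · rw [← hpb, compL_eq_pull₂, compL_res_eq_pull₂]
      exact corC₂_natural σ (isEquivariant_hom p) b
    · rw [d₂₃_corC₂, ← hia, compL_eq_pull₃, compL_res_eq_pull₃]
      exact corC₃_natural σ (isEquivariant_hom i) a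

end Fermat.Agent.CFT.H50
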