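import Mathlib
import Fermat.Agent.CFT.H50_LevelCorDelta

/-!
# The standard corestriction of an open subgroup  (CFT / D0-COR, part 3)

Convenience wrappers around `H50_LevelCor`: for an open subgroup `U` of `(H, 𝓛)` the
corestriction is taken with respect to the canonical section `Sec.out U` and the `Fintype`
structure on `H ⧸ U` coming from finiteness of the index.  Signatures follow the placeholder of
the layer-D skeleton: `cor1 𝓛 U hU A : (𝓛.restrict U).H1 (Rep.res U.subtype A) →ₗ[k] 𝓛.H1 A`.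
-/

set_option autoImplicit false

universe u

open CategoryTheory groupCohomology

namespace Fermat.Agent.CFT.H50

open Fermat.Agent.CFT LevelStructure

noncomputable section

variable {H : Type u} [Group H] {k : Type u} [CommRing k] (𝓛 : LevelStructure H)

/-- The `Fintype` structure on the cosets of an open subgroup. -/
@[reducible] def fintypeOfIsOpen {U : Subgroup H} (hU : 𝓛.IsOpen U) : Fintype (H ⧸ U) :=
  haveI := finiteIndex_of_isOpen 𝓛 hU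
  Subgroup.fintypeQuotientOfFiniteIndex

lemma card_fintypeOfIsOpen {U : Subgroup H} (hU : 𝓛.IsOpen U) :
    @Fintype.card (H ⧸ U) (fintypeOfIsOpen 𝓛 hU) = U.index := by
  letI := fintypeOfIsOpen 𝓛 hU
  exact card_eq_index

/-- Standard corestriction on `H⁰`. -/
def cor0 (U : Subgroup H) (hU : 𝓛.IsOpen U) (A : Rep.{u} k H) :
    LevelStructure.H0 (Rep.res U.subtype A) →ₗ[k] LevelStructure.H0 A :=
  letI := fintypeOfIsOpen 𝓛 hU
  corH0 A (Sec.out U)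

/-- Standard corestriction on level `H¹`. -/
def cor1 (U : Subgroup H) (hU : 𝓛.IsOpen U) (A : Rep.{u} k H) :
    (𝓛.restrict U).H1 (Rep.res U.subtype A) →ₗ[k] 𝓛.H1 A :=
  letI := fintypeOfIsOpen 𝓛 hU
  corH1 𝓛 A hU (Sec.out U)

/-- Standard corestriction on level `H²`. -/
def cor2 (U : Subgroup H) (hU : 𝓛.IsOpen U) (A : Rep.{u} k H) :
    (𝓛.restrict U).H2 (Rep.res U.subtype A) →ₗ[k] 𝓛.H2 A :=
  letI := fintypeOfIsOpen 𝓛 hU
  corH2 𝓛 A hU (Sec.out U)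

/-- Standard corestriction on level `H³`. -/
def cor3 (U : Subgroup H) (hU : 𝓛.IsOpen U) (A : Rep.{u} k H) :
    (𝓛.restrict U).H3 (Rep.res U.subtype A) →ₗ[k] 𝓛.H3 A :=
  letI := fintypeOfIsOpen 𝓛 hU
  corH3 𝓛 A hU (Sec.out U)

variable (U : Subgroup H) (hU : 𝓛.IsOpen U) (A : Rep.{u} k H)

/-- `cor0` is the relative norm `x ↦ ∑ q, ρ (q.out) x`. -/
lemma cor0_coe (x : LevelStructure.H0 (Rep.res U.subtype A)) :
    ((cor0 𝓛 U hU A x : LevelStructure.H0 A) : A.V)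
      = ∑ᶠ q : H ⧸ U, A.ρ (Quotient.out q) x.1 := by
  letI := fintypeOfIsOpen 𝓛 hU
  rw [finsum_eq_sum_of_fintype]
  rfl

/-- Value of `cor1` on the class of a cocycle. -/
lemma cor1_mk (f : (𝓛.restrict U).cocycles₁ (Rep.res U.subtype A)) :
    ∃ hf : (fun g : H => ∑ᶠ q : H ⧸ U, A.ρ (Quotient.out q) (f.1 ((Sec.out U).t q g)))
        ∈ 𝓛.cocycles₁ A,
      cor1 𝓛 U hU A ((𝓛.restrict U).H1π _ f) = 𝓛.H1π A ⟨_, hf⟩ := by
  letI := fintypeOfIsOpen 𝓛 hU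
  have e : (fun g : H => ∑ᶠ q : H ⧸ U, A.ρ (Quotient.out q) (f.1 ((Sec.out U).t q g)))
      = corC₁ (Sec.out U) A f.1 := by
    funext g
    rw [finsum_eq_sum_of_fintype]
    rfl
  refine ⟨e ▸ corC₁_mem_cocycles₁ 𝓛 A hU (Sec.out U) f.2, ?_⟩
  show corH1 𝓛 A hU (Sec.out U) ((𝓛.restrict U).H1π _ f) = _
  rw [corH1_mk]
  congr 1
  exact Subtype.ext e.symm

theorem cor0_resSubH0 (x : LevelStructure.H0 A) :
    cor0 𝓛 U hU A (resSubH0 A U x) = U.index • x := by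
  letI := fintypeOfIsOpen 𝓛 hU
  rw [← card_fintypeOfIsOpen 𝓛 hU]
  exact corH0_resSubH0 A (Sec.out U) x

theorem cor1_resSubH1 (x : 𝓛.H1 A) :
    cor1 𝓛 U hU A (resSubH1 𝓛 A U x) = U.index • x := by
  letI := fintypeOfIsOpen 𝓛 hU
  rw [← card_fintypeOfIsOpen 𝓛 hU]
  exact corH1_resSubH1 𝓛 A hU (Sec.out U) x

theorem cor2_resSubH2 (x : 𝓛.H2 A) :
    cor2 𝓛 U hU A (resSubH2 𝓛 A U x) = U.index • x := by
  letI := fintypeOfIsOpen 𝓛 hU
  rw [← card_fintypeOfIsOpen 𝓛 hU]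
  exact corH2_resSubH2 𝓛 A hU (Sec.out U) x

theorem cor3_resSubH3 (x : 𝓛.H3 A) :
    cor3 𝓛 U hU A (resSubH3 𝓛 A U x) = U.index • x := by
  letI := fintypeOfIsOpen 𝓛 hU
  rw [← card_fintypeOfIsOpen 𝓛 hU]
  exact corH3_resSubH3 𝓛 A hU (Sec.out U) x

include hU in
/-- Sylow-type corollary (degree 1), with the index. -/
theorem eq_zero_of_resSubH1_eq_zero' {p : ℕ} (hp : Nat.Coprime p U.index)
    (x : 𝓛.H1 A) (hpx : p • x = 0) (hres : resSubH1 𝓛 A U x = 0) : x = 0 := by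
  refine eq_zero_of_coprime_nsmul hp x hpx ?_
  rw [← cor1_resSubH1 𝓛 U hU A, hres, map_zero]

include hU in
/-- Sylow-type corollary (degree 2), with the index. -/
theorem eq_zero_of_resSubH2_eq_zero' {p : ℕ} (hp : Nat.Coprime p U.index)
    (x : 𝓛.H2 A) (hpx : p • x = 0) (hres : resSubH2 𝓛 A U x = 0) : x = 0 := by
  refine eq_zero_of_coprime_nsmul hp x hpx ?_
  rw [← cor2_resSubH2 𝓛 U hU A, hres, map_zero]

include hU in
/-- Sylow-type corollary (degree 3), with the index. -/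
theorem eq_zero_of_resSubH3_eq_zero' {p : ℕ} (hp : Nat.Coprime p U.index)
    (x : 𝓛.H3 A) (hpx : p • x = 0) (hres : resSubH3 𝓛 A U x = 0) : x = 0 := by
  refine eq_zero_of_coprime_nsmul hp x hpx ?_
  rw [← cor3_resSubH3 𝓛 U hU A, hres, map_zero]

/-! ### Naturality and compatibility with connecting maps -/

section Nat

variable {A} {B : Rep.{u} k H} {α : A.V →ₗ[k] B.V}
  (hα : IsEquivariant (MonoidHom.id H) A B α)

theorem cor0_natural (x : LevelStructure.H0 (Rep.res U.subtype A)) :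
    mapH0 hα (cor0 𝓛 U hU A x) = cor0 𝓛 U hU B (mapH0 (hα.resSub U) x) := by
  letI := fintypeOfIsOpen 𝓛 hU
  exact corH0_natural (Sec.out U) hα x

theorem cor1_natural (x : (𝓛.restrict U).H1 (Rep.res U.subtype A)) :
    mapH1 𝓛 𝓛 (isCont_id 𝓛) hα (cor1 𝓛 U hU A x)
      = cor1 𝓛 U hU B (mapH1 _ _ (isCont_id (𝓛.restrict U)) (hα.resSub U) x) := by
  letI := fintypeOfIsOpen 𝓛 hU
  exact corH1_natural 𝓛 hU (Sec.out U) hα x

theorem cor2_natural (x : (𝓛.restrict U).H2 (Rep.res U.subtype A)) :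
    mapH2 𝓛 𝓛 (isCont_id 𝓛) hα (cor2 𝓛 U hU A x)
      = cor2 𝓛 U hU B (mapH2 _ _ (isCont_id (𝓛.restrict U)) (hα.resSub U) x) := by
  letI := fintypeOfIsOpen 𝓛 hU
  exact corH2_natural 𝓛 hU (Sec.out U) hα x

theorem cor3_natural (x : (𝓛.restrict U).H3 (Rep.res U.subtype A)) :
    mapH3 𝓛 𝓛 (isCont_id 𝓛) hα (cor3 𝓛 U hU A x)
      = cor3 𝓛 U hU B (mapH3 _ _ (isCont_id (𝓛.restrict U)) (hα.resSub U) x) := by
  letI := fintypeOfIsOpen 𝓛 hU
  exact corH3_natural 𝓛 hU (Sec.out U) hα x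

/-- Naturality of `cor1` for a morphism of representations, in `coeffH1` form. -/
theorem cor1_coeffH1 (f : A ⟶ B) (x : (𝓛.restrict U).H1 (Rep.res U.subtype A)) :
    coeffH1 𝓛 f (cor1 𝓛 U hU A x)
      = cor1 𝓛 U hU B (coeffH1 (𝓛.restrict U) (Rep.resMap U.subtype f) x) :=
  cor1_natural 𝓛 U hU (isEquivariant_hom f) x

/-- Naturality of `cor2` for a morphism of representations, in `coeffH2` form. -/
theorem cor2_coeffH2 (f : A ⟶ B) (x : (𝓛.restrict U).H2 (Rep.res U.subtype A)) :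
    coeffH2 𝓛 f (cor2 𝓛 U hU A x)
      = cor2 𝓛 U hU B (coeffH2 (𝓛.restrict U) (Rep.resMap U.subtype f) x) :=
  cor2_natural 𝓛 U hU (isEquivariant_hom f) x

end Nat

section Delta

variable {A} {B C : Rep.{u} k H} {i : A ⟶ B} {p : B ⟶ C} (h : H1.IsSES i p)
  (hB : 𝓛.IsDiscrete B)

theorem cor1_δ₀ (c : LevelStructure.H0 (Rep.res U.subtype C)) :
    cor1 𝓛 U hU A (H1.δ₀ (𝓛.restrict U) (h.res U.subtype)
        (isDiscrete_res (𝓛.restrict U) 𝓛 (isCont_subtype 𝓛 U) hB) c)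
      = H1.δ₀ 𝓛 h hB (cor0 𝓛 U hU C c) := by
  letI := fintypeOfIsOpen 𝓛 hU
  exact corH1_δ₀ 𝓛 hU (Sec.out U) h hB c

theorem cor2_δ₁ (x : (𝓛.restrict U).H1 (Rep.res U.subtype C)) :
    cor2 𝓛 U hU A (H1.δ₁ (𝓛.restrict U) (h.res U.subtype)
        (isDiscrete_res (𝓛.restrict U) 𝓛 (isCont_subtype 𝓛 U) hB) x)
      = H1.δ₁ 𝓛 h hB (cor1 𝓛 U hU C x) := by
  letI := fintypeOfIsOpen 𝓛 hU
  exact corH2_δ₁ 𝓛 hU (Sec.out U) h hB x

theorem cor3_δ₂ (x : (𝓛.restrict U).H2 (Rep.res U.subtype C)) :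
    cor3 𝓛 U hU A (H1.δ₂ (𝓛.restrict U) (h.res U.subtype)
        (isDiscrete_res (𝓛.restrict U) 𝓛 (isCont_subtype 𝓛 U) hB) x)
      = H1.δ₂ 𝓛 h hB (cor2 𝓛 U hU C x) := by
  letI := fintypeOfIsOpen 𝓛 hU
  exact corH3_δ₂ 𝓛 hU (Sec.out U) h hB x

end Delta

end

end Fermat.Agent.CFT.H50
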