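/-
CFT layer D: the axioms (I1'), (I2'), (I3') of the W-model and the inputs (DIV), (FIN), (EXIST)
of D2, as LANDED definitions (they were only available in the unlanded skeleton
`origin/helper91:wip/CFT/D/Skeleton.lean`; bodies are verbatim the skeleton's, with the
placeholder corestriction replaced by helper50's `H50.cor1` and `wDatumOfEnvelope` replaced by
helper36's `H36.DivEnvelope.wDatum`).
Chief architect: helper91.
-/
import Fermat.Agent.CFT.H91_WModel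
import Fermat.Agent.CFT.H50_LevelCorStd
import Fermat.Agent.CFT.H36_Envelope3

set_option autoImplicit false

open CategoryTheory

namespace Fermat.Agent.CFT

variable {p : ℕ} [Fact p.Prime] {H : Type} [Group H] {𝓛 : LevelStructure H}

/-- Scalar multiplication pairing `A × 𝔽_p → A` (restricted to a subgroup `U`). -/
noncomputable def smulPairing (U : Subgroup H) (A : Rep.{0} (ZMod p) H) :
    RepPairing (Rep.res U.subtype A) (Rep.trivial (ZMod p) U (ZMod p)) (Rep.res U.subtype A) where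
  toFun := (LinearMap.lsmul (ZMod p) A.V).flip
  equivariant g a c := by
    simp [Rep.trivial]

section Axioms

variable (𝒟 : WDatum p 𝓛) (tr : 𝓛.H1 𝒟.W →ₗ[ZMod p] ZMod p)

/-- Axiom (I2') at an open subgroup `N₀`: `tr ∘ cor : H¹(N₀; W) → 𝔽_p` is bijective. -/
def AxI2 (N₀ : Subgroup H) (hN : 𝓛.IsOpen N₀) : Prop :=
  Function.Bijective (tr ∘ₗ H50.cor1 𝓛 N₀ hN 𝒟.W)

/-- The pairing of axiom (I1'): `W^{N₀} × H¹(N₀; 𝔽_p) → H¹(N₀; W) → 𝔽_p`,
`(w, χ) ↦ tr (cor [n ↦ χ(n) • w])`. -/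
noncomputable def pairI1 (N₀ : Subgroup H) (hN : 𝓛.IsOpen N₀) :
    ↥(Rep.res N₀.subtype 𝒟.W).ρ.invariants →ₗ[ZMod p]
      Module.Dual (ZMod p) ((𝓛.restrict N₀).H1 (Rep.trivial (ZMod p) N₀ (ZMod p))) :=
  (pair01 (𝓛.restrict N₀) (smulPairing N₀ 𝒟.W)).compr₂ (tr ∘ₗ H50.cor1 𝓛 N₀ hN 𝒟.W)

/-- Axiom (I1') at an open subgroup `N₀`: the pairing `pairI1` induces
`W^{N₀} / d(Vm^{N₀}) ≃ H¹(N₀; 𝔽_p)^∨`. -/
def AxI1 (N₀ : Subgroup H) (hN : 𝓛.IsOpen N₀) : Prop :=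
  Function.Surjective (pairI1 𝒟 tr N₀ hN) ∧
    LinearMap.ker (pairI1 𝒟 tr N₀ hN) =
      LinearMap.range (H50.coeffH0 ((Rep.resFunctor N₀.subtype).map 𝒟.d))

/-- Axiom (I3') at an open subgroup `U`: `H²(U; W) = 0`. -/
def AxI3 (U : Subgroup H) : Prop :=
  Subsingleton ((𝓛.restrict U).H2 (Rep.res U.subtype 𝒟.W))

end Axioms

section Inputs

variable (𝓛) (C : Rep.{0} ℤ H)

/-- (DIV): every open subgroup has open subgroups of index divisible by any power of `p`. -/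
def HasDIV (p : ℕ) : Prop :=
  ∀ U : Subgroup H, 𝓛.IsOpen U → ∀ m : ℕ, ∃ V : Subgroup H, 𝓛.IsOpen V ∧ V ≤ U ∧ p ^ m ∣ V.relIndex U

/-- (FIN): `C^U / p` is finite for every open `U`. -/
def HasFIN (p : ℕ) : Prop :=
  ∀ U : Subgroup H, 𝓛.IsOpen U → ∃ T : Finset C.V,
    ∀ a : C.V, (∀ u ∈ U, C.ρ u a = a) →
      ∃ t ∈ T, ∃ b : C.V, (∀ u ∈ U, C.ρ u b = b) ∧ a = t + p • b

/-- (EXIST) at the open subgroup `N₀`: an element of `C^{N₀}` which is a norm from `C^V` for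
every open `V ≤ N₀`, normal of index `p` in `N₀`, is `p` times an element of `C^{N₀}`. -/
def HasEXIST (p : ℕ) (N₀ : Subgroup H) : Prop :=
  ∀ a : C.V, (∀ n ∈ N₀, C.ρ n a = a) →
    (∀ V : Subgroup H, 𝓛.IsOpen V → V ≤ N₀ → (V.subgroupOf N₀).Normal →
      (V.subgroupOf N₀).index = p →
        ∃ b : C.V, (∀ v ∈ V, C.ρ v b = b) ∧
          (∑ᶠ q : N₀ ⧸ V.subgroupOf N₀, C.ρ (Quotient.out q : N₀).1 b) = a) →
    ∃ b : C.V, (∀ n ∈ N₀, C.ρ n b = b) ∧ p • b = a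

/-- The conclusion of **D2** for an envelope `E` of `C` and a family `good` of levels: a trace
`tr` on `H¹(H; W)` satisfying (I1'), (I2') at the good normal levels and (I3') at all open
subgroups. -/
def D2Conclusion (E : H36.DivEnvelope 𝓛 p C) (good : Subgroup H → Prop) : Prop :=
  ∃ tr : 𝓛.H1 E.wDatum.W →ₗ[ZMod p] ZMod p,
    (∀ (N₀ : Subgroup H) (hN : N₀ ∈ 𝓛.levels), N₀.Normal → good N₀ →
      AxI1 E.wDatum tr N₀ ⟨N₀, hN, le_rfl⟩ ∧ AxI2 E.wDatum tr N₀ ⟨N₀, hN, le_rfl⟩) ∧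
    ∀ U : Subgroup H, 𝓛.IsOpen U → AxI3 E.wDatum U

/-- The conclusion of **D1** for a `W`-datum with trace: duality for all finite discrete `X`. -/
def D1Conclusion (𝒟 : WDatum p 𝓛) (tr : 𝓛.H1 𝒟.W →ₗ[ZMod p] ZMod p) : Prop :=
  ∀ X : Rep.{0} (ZMod p) H, IsFinDiscrete 𝓛 X → 𝒟.IsDual2 tr X ∧ 𝒟.IsDual1 tr X

end Inputs

end Fermat.Agent.CFT
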