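/-
CFT layer D: the theorems D1 and D2 as `Prop`-valued STATEMENTS, and the plumbing theorem
"abstract Tate duality for a `p`-class formation" deduced from them.  Owners of D1/D2 close
`D1Statement p` / `D2Statement p`; consumers (local and global instances, D3-inst) take them as
hypotheses, so that instantiation work does not wait for the proofs.
Chief architect: helper91.
-/
import Fermat.Agent.CFT.H91_D2Defs

set_option autoImplicit false

open CategoryTheory

namespace Fermat.Agent.CFT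

/-- **D1** as a statement: for every `W`-datum with trace, acyclic, satisfying (I1'), (I2') on a
cofinal family `good` of normal levels and (I3') at all open subgroups, duality holds for all
finite discrete `X`. -/
def D1Statement (p : ℕ) [Fact p.Prime] : Prop :=
  ∀ (H : Type) [Group H] (𝓛 : LevelStructure H) (𝒟 : WDatum p 𝓛)
    (tr : 𝓛.H1 𝒟.W →ₗ[ZMod p] ZMod p), 𝒟.IsAcyclic →
    ∀ good : Subgroup H → Prop,
    (∀ N ∈ 𝓛.levels, ∃ N' ∈ 𝓛.levels, N' ≤ N ∧ N'.Normal ∧ good N') →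
    (∀ (N₀ : Subgroup H) (hN : N₀ ∈ 𝓛.levels), N₀.Normal → good N₀ →
      AxI1 𝒟 tr N₀ ⟨N₀, hN, le_rfl⟩ ∧ AxI2 𝒟 tr N₀ ⟨N₀, hN, le_rfl⟩) →
    (∀ U : Subgroup H, 𝓛.IsOpen U → AxI3 𝒟 U) →
    D1Conclusion 𝓛 𝒟 tr

/-- **D2** as a statement: a `p`-class formation with (DIV), (FIN) and (EXIST) at the good normal
levels satisfies (I1'), (I2') at the good normal levels and (I3') at all open subgroups, for the
`W`-datum of any envelope `C ↪ I` with `H¹(U; I) = H²(U; I) = 0` and `H¹(U; I[p]) = 0` for all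
open `U` (the last hypothesis, i.e. `I^U` is `p`-divisible, is NECESSARY: helper62, board #1219;
all three hold when `I` is coinduced, e.g. for the canonical envelope). -/
def D2Statement (p : ℕ) [Fact p.Prime] : Prop :=
  ∀ (H : Type) [Group H] (𝓛 : LevelStructure H) (C : Rep.{0} ℤ H)
    (_ : PClassFormation p 𝓛 C) (E : H36.DivEnvelope 𝓛 p C),
    (∀ U : Subgroup H, 𝓛.IsOpen U →
      Subsingleton ((𝓛.restrict U).H1 (Rep.res U.subtype E.I)) ∧
      Subsingleton ((𝓛.restrict U).H2 (Rep.res U.subtype E.I))) →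
    (∀ U : Subgroup H, 𝓛.IsOpen U →
      Subsingleton ((𝓛.restrict U).H1 (Rep.res U.subtype (H36.torsionRep p E.I)))) →
    HasDIV 𝓛 p → HasFIN 𝓛 C p →
    ∀ good : Subgroup H → Prop,
    (∀ N₀ ∈ 𝓛.levels, N₀.Normal → good N₀ → HasEXIST 𝓛 C p N₀) →
    D2Conclusion 𝓛 C E good

/-- **Abstract Tate duality for a `p`-class formation** (= D1 ∘ D2 for the canonical envelope):
the `W`-datum `[I[p] → (I/C)[p]]` of the canonical envelope of `C` carries a trace for which
`α¹`, `α²` are bijective for all finite discrete `𝔽_p[H]`-modules `X`. -/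
theorem formation_duality {p : ℕ} [Fact p.Prime] (hD1 : D1Statement p) (hD2 : D2Statement p)
    {H : Type} [Group H] (𝓛 : LevelStructure H) (C : Rep.{0} ℤ H) (hC : 𝓛.IsDiscrete C)
    (F : PClassFormation p 𝓛 C) (hDIV : HasDIV 𝓛 p) (hFIN : HasFIN 𝓛 C p)
    (good : Subgroup H → Prop)
    (hgood : ∀ N ∈ 𝓛.levels, ∃ N' ∈ 𝓛.levels, N' ≤ N ∧ N'.Normal ∧ good N')
    (hEX : ∀ N₀ ∈ 𝓛.levels, N₀.Normal → good N₀ → HasEXIST 𝓛 C p N₀) (hp : p ≠ 0) :
    ∃ tr : 𝓛.H1 (H36.canonicalEnvelope 𝓛 p hp C hC).wDatum.W →ₗ[ZMod p] ZMod p,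
      D1Conclusion 𝓛 (H36.canonicalEnvelope 𝓛 p hp C hC).wDatum tr := by
  obtain ⟨tr, h12, h3⟩ := hD2 H 𝓛 C F (H36.canonicalEnvelope 𝓛 p hp C hC)
    (fun U hU => H36.canonicalEnvelope_acyclic 𝓛 p hp C hC U hU)
    (fun U hU => ((H36.isCoinduced_canonicalEnvelope 𝓛 p hp C hC).torsion p).subsingleton_H1_restrict
      U hU) hDIV hFIN good hEX
  exact ⟨tr, hD1 H 𝓛 _ tr (H36.canonicalEnvelope_isAcyclic 𝓛 p hp C hC) good hgood h12 h3⟩

end Fermat.Agent.CFT
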