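/-
CFT layer D, D3-inst-GLOBAL (helper20): the GLOBAL instance of abstract Tate duality
(`formation_duality` = D1 ∘ D2) for `(G_ℚ, globalLevels S, C_S := H77.repCSTop S)`.

Inputs taken as hypotheses, in the landed vocabulary:
* `hD1 : D1Statement p`, `hD2 : D2Statement p` (layer D, helper46 / helper62);
* `hCmain : Nonempty (PClassFormation p (globalLevels S) (H77.repCSTop S))` (layer C main theorem,
  helper24's `H24_CTopAssembly`);
* `hFIN : HasFIN (globalLevels S) (H77.repCSTop S) p` (C-EXIST / C-FIN, global seam (U2));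
* `hEX : ∀ N₀ normal level with `GoodLevel p N₀` (fixed field ⊇ μ_p), HasEXIST .. N₀`.
Discharged here: (DIV) (helper69's `H69.hasDiv_globalLevels`), discreteness of `C_S`
(helper77's `H77.isDiscrete_repCSTop`), cofinality of the good normal levels (adjoin `ζ_p`; needs
`p ∈ S`), acyclicity of the canonical envelope.
-/
import Mathlib
import Fermat.Agent.CFT.H91_DStatements
import Fermat.Agent.CFT.H69_Div
import Fermat.Agent.CFT.H77_TopCS

set_option autoImplicit false

open CategoryTheory IntermediateField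

namespace Fermat.Agent.CFT.H20

open Fermat.Agent.CFT ExtCitation

local notation "GQ" => (AlgebraicClosure ℚ ≃ₐ[ℚ] AlgebraicClosure ℚ)
local notation "Qbar" => AlgebraicClosure ℚ

/-- A subgroup of `G_ℚ` is *good* (for `p`) when its fixed field contains `μ_p`: some primitive
`p`-th root of unity of `ℚbar` is fixed by all its elements. -/
def GoodLevel (p : ℕ) (N : Subgroup GQ) : Prop :=
  ∃ ζ : Qbar, IsPrimitiveRoot ζ p ∧ ∀ σ ∈ N, σ ζ = ζ

theorem GoodLevel.mono {p : ℕ} {N N' : Subgroup GQ} (h : GoodLevel p N) (hle : N' ≤ N) :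
    GoodLevel p N' := by
  obtain ⟨ζ, hζ, hfix⟩ := h
  exact ⟨ζ, hζ, fun σ hσ => hfix σ (hle hσ)⟩

/-- every primitive `p`-th root of unity is fixed by a good subgroup (they are powers of one). -/
theorem GoodLevel.apply_eq {p : ℕ} {N : Subgroup GQ} (h : GoodLevel p N) {ξ : Qbar}
    (hξ : ξ ^ p = 1) (hp : 0 < p) : ∀ σ ∈ N, σ ξ = ξ := by
  obtain ⟨ζ, hζ, hfix⟩ := h
  intro σ hσ
  have : NeZero p := ⟨hp.ne'⟩
  obtain ⟨i, -, rfl⟩ := hζ.eq_pow_of_pow_eq_one hξ
  rw [map_pow, hfix σ hσ]

section Cofinal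

variable {p : ℕ} [Fact p.Prime]

/-- **Cofinality of the good normal levels** of `globalLevels S` when `p ∈ S`: every level contains
a normal level whose fixed field contains `μ_p` (adjoin `ζ_p`, pass to the Galois closure). -/
theorem exists_good_level (S : Finset Nat.Primes) (hpS : pPrime p ∈ S) :
    ∀ N ∈ (globalLevels S).levels, ∃ N' ∈ (globalLevels S).levels,
      N' ≤ N ∧ N'.Normal ∧ GoodLevel p N' := by
  intro N hN
  have hN' : N ∈ (H87.levelsS S).levels := hN
  obtain ⟨F, hF, rfl⟩ := hN'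
  have : NeZero p := ⟨(Fact.out : p.Prime).ne_zero⟩
  obtain ⟨ζ, hζ⟩ := H69.exists_primitiveRoot_Qbar p
  have hζ1 : IsPrimitiveRoot ζ (p ^ 1) := by rwa [pow_one]
  have hF1 : (F ⊔ ℚ⟮ζ⟯).IsUnramifiedOutside S :=
    H69.isUnramifiedOutside_sup_adjoin hpS hF 1 hζ1
  obtain ⟨N₂, hN₂, hle, hnor⟩ :=
    (H87.levelsS S).exists_normal (F ⊔ ℚ⟮ζ⟯).fixingSubgroup ⟨_, hF1, rfl⟩
  refine ⟨N₂, hN₂, hle.trans (IntermediateField.fixingSubgroup_antitone le_sup_left), hnor,
    ζ, hζ, fun σ hσ => ?_⟩
  have h1 : σ ∈ (F ⊔ ℚ⟮ζ⟯).fixingSubgroup := hle hσ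
  have h2 : σ ∈ (ℚ⟮ζ⟯).fixingSubgroup :=
    IntermediateField.fixingSubgroup_antitone (le_sup_right : ℚ⟮ζ⟯ ≤ F ⊔ ℚ⟮ζ⟯) h1
  exact (H69.mem_fixingSubgroup_adjoin_simple_iff ζ σ).mp h2

end Cofinal

section Duality

variable {p : ℕ} [Fact p.Prime]

/-- discreteness of `C_S` for helper55's `globalLevels S` (definitionally helper87's `levelsS S`). -/
theorem isDiscrete_repCSTop (S : Finset Nat.Primes) :
    (globalLevels S).IsDiscrete (H77.repCSTop S) :=
  H77.isDiscrete_repCSTop S

/-- **Global Tate duality, general envelope.**  For ANY `p`-divisible envelope `E` of `C_S` which is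
acyclic on open subgroups and whose `W`-datum is acyclic (e.g. the `EC` of a `PTModules`), the
`W`-datum of `E` carries a trace for which `α¹`, `α²` are bijective on finite discrete modules. -/
theorem global_duality_of_envelope (hp2 : p ≠ 2) (hD1 : D1Statement p) (hD2 : D2Statement p)
    (S : Finset Nat.Primes) (hpS : pPrime p ∈ S)
    (hCmain : Nonempty (PClassFormation p (globalLevels S) (H77.repCSTop S)))
    (hFIN : HasFIN (globalLevels S) (H77.repCSTop S) p)
    (hEX : ∀ N₀ ∈ (globalLevels S).levels, N₀.Normal → GoodLevel p N₀ →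
      HasEXIST (globalLevels S) (H77.repCSTop S) p N₀)
    (E : H36.DivEnvelope (globalLevels S) p (H77.repCSTop S))
    (hEac : ∀ U : Subgroup GQ, (globalLevels S).IsOpen U →
      Subsingleton (((globalLevels S).restrict U).H1 (Rep.res U.subtype E.I)) ∧
      Subsingleton (((globalLevels S).restrict U).H2 (Rep.res U.subtype E.I)))
    (hVm : ∀ U : Subgroup GQ, (globalLevels S).IsOpen U →
      Subsingleton (((globalLevels S).restrict U).H1
        (Rep.res U.subtype (H36.torsionRep p E.I))))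
    (hAC : E.wDatum.IsAcyclic) :
    ∃ tr : (globalLevels S).H1 E.wDatum.W →ₗ[ZMod p] ZMod p,
      D1Conclusion (globalLevels S) E.wDatum tr := by
  obtain ⟨F⟩ := hCmain
  obtain ⟨tr, h12, h3⟩ := hD2 GQ (globalLevels S) (H77.repCSTop S) F E hEac hVm
    (H69.hasDiv_globalLevels hp2 S hpS) hFIN (GoodLevel p) hEX
  exact ⟨tr, hD1 GQ (globalLevels S) _ tr hAC (GoodLevel p) (exists_good_level S hpS) h12 h3⟩

/-- the canonical envelope of `C_S`. -/
noncomputable abbrev globalEnvelope (p : ℕ) [Fact p.Prime] (S : Finset Nat.Primes) :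
    H36.DivEnvelope (globalLevels S) p (H77.repCSTop S) :=
  H36.canonicalEnvelope (globalLevels S) p (Fact.out : p.Prime).ne_zero (H77.repCSTop S)
    (isDiscrete_repCSTop S)

/-- **Global Tate duality (D3-inst-GLOBAL)** for the canonical envelope of `C_S`:
`formation_duality` with (DIV), discreteness and good-cofinality discharged. -/
theorem global_duality (hp2 : p ≠ 2) (hD1 : D1Statement p) (hD2 : D2Statement p)
    (S : Finset Nat.Primes) (hpS : pPrime p ∈ S)
    (hCmain : Nonempty (PClassFormation p (globalLevels S) (H77.repCSTop S)))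
    (hFIN : HasFIN (globalLevels S) (H77.repCSTop S) p)
    (hEX : ∀ N₀ ∈ (globalLevels S).levels, N₀.Normal → GoodLevel p N₀ →
      HasEXIST (globalLevels S) (H77.repCSTop S) p N₀) :
    ∃ tr : (globalLevels S).H1 (globalEnvelope p S).wDatum.W →ₗ[ZMod p] ZMod p,
      D1Conclusion (globalLevels S) (globalEnvelope p S).wDatum tr := by
  obtain ⟨F⟩ := hCmain
  exact formation_duality hD1 hD2 (globalLevels S) (H77.repCSTop S) (isDiscrete_repCSTop S) F
    (H69.hasDiv_globalLevels hp2 S hpS) hFIN (GoodLevel p) (exists_good_level S hpS) hEX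
    (Fact.out : p.Prime).ne_zero

/-- consumer form: the `IsDual1` half at a finite discrete `X` (what helper35's
`H35.exists_pairing_of_segment_data` takes as `hdualC`). -/
theorem global_isDual1_of_envelope (hp2 : p ≠ 2) (hD1 : D1Statement p) (hD2 : D2Statement p)
    (S : Finset Nat.Primes) (hpS : pPrime p ∈ S)
    (hCmain : Nonempty (PClassFormation p (globalLevels S) (H77.repCSTop S)))
    (hFIN : HasFIN (globalLevels S) (H77.repCSTop S) p)
    (hEX : ∀ N₀ ∈ (globalLevels S).levels, N₀.Normal → GoodLevel p N₀ →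
      HasEXIST (globalLevels S) (H77.repCSTop S) p N₀)
    (E : H36.DivEnvelope (globalLevels S) p (H77.repCSTop S))
    (hEac : ∀ U : Subgroup GQ, (globalLevels S).IsOpen U →
      Subsingleton (((globalLevels S).restrict U).H1 (Rep.res U.subtype E.I)) ∧
      Subsingleton (((globalLevels S).restrict U).H2 (Rep.res U.subtype E.I)))
    (hVm : ∀ U : Subgroup GQ, (globalLevels S).IsOpen U →
      Subsingleton (((globalLevels S).restrict U).H1
        (Rep.res U.subtype (H36.torsionRep p E.I))))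
    (hAC : E.wDatum.IsAcyclic) :
    ∃ tr : (globalLevels S).H1 E.wDatum.W →ₗ[ZMod p] ZMod p,
      ∀ X : Rep.{0} (ZMod p) GQ, IsFinDiscrete (globalLevels S) X →
        E.wDatum.IsDual2 tr X ∧ E.wDatum.IsDual1 tr X :=
  global_duality_of_envelope hp2 hD1 hD2 S hpS hCmain hFIN hEX E hEac hVm hAC

end Duality

end Fermat.Agent.CFT.H20
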