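import Mathlib
import Fermat.Prelude.Def_FLTPrelim_Ramification
import Fermat.Prelude.Def_GroupCohomology_ContinuousUnramified
import Fermat.Agent.S14.H37_RamBridge
import Fermat.Agent.S14.H54_Dict

/-!
# CFT / C-DICT (helper37): frozen inertia groups versus ramification indices

For number fields `K ⊆ L` (as types, `[Algebra K L]`), an embedding `ι : L →ₐ[ℚ] Qbar`, and a
valuation subring `A` of `Qbar = AlgebraicClosure ℚ` lying over a rational prime, we relate the
frozen inertia group `A.inertiaSubgroupIn ℚ ≤ G_ℚ` to the ramification index of the prime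
`primeOf ι A` of `𝓞 L` cut out by `A`.
-/

set_option autoImplicit false
set_option linter.style.haveILetI false

noncomputable section

namespace Fermat.Agent.CFT.H37

open NumberField Fermat.Agent.S54 Fermat.Agent.S14.H37 Fermat.Agent.S14.H54
open scoped Pointwise

attribute [local instance] isAlgebraic_Qbar isAlgClosure_Qbar isGalois_Qbar

section PrimeOf

variable {L : Type*} [Field L] [NumberField L] (ι : L →ₐ[ℚ] AlgebraicClosure ℚ)

/-- The prime of `𝓞 L` cut out by the valuation subring `A` of `Qbar` (through `ι`). -/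
def primeOf (A : ValuationSubring (AlgebraicClosure ℚ)) : Ideal (𝓞 L) :=
  (idealOf A).comap (intMap ι)

theorem mem_primeOf {A : ValuationSubring (AlgebraicClosure ℚ)} {x : 𝓞 L} :
    x ∈ primeOf ι A ↔ ι (x : L) ∈ A.nonunits := Iff.rfl

instance primeOf_isPrime (A : ValuationSubring (AlgebraicClosure ℚ)) : (primeOf ι A).IsPrime :=
  Ideal.comap_isPrime _ _

theorem natCast_mem_primeOf_iff {A : ValuationSubring (AlgebraicClosure ℚ)} {ℓ : ℕ} :
    ((ℓ : ℕ) : 𝓞 L) ∈ primeOf ι A ↔ A.LiesOverPrime ℓ := by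
  rw [mem_primeOf]
  have : ι (((ℓ : ℕ) : 𝓞 L) : L) = ((ℓ : ℕ) : AlgebraicClosure ℚ) := by simp
  rw [this]
  rfl

theorem primeOf_ne_bot {A : ValuationSubring (AlgebraicClosure ℚ)} {ℓ : ℕ} (hℓ : ℓ.Prime)
    (hA : A.LiesOverPrime ℓ) : primeOf ι A ≠ ⊥ := by
  intro h
  have h1 : ((ℓ : ℕ) : 𝓞 L) ∈ primeOf ι A := (natCast_mem_primeOf_iff ι).mpr hA
  rw [h, Ideal.mem_bot] at h1
  have h2 : (ℓ : ℕ) = 0 := by exact_mod_cast h1
  exact hℓ.ne_zero h2

/-- Every nonzero prime of `𝓞 L` is cut out by a valuation subring of `Qbar`. -/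
theorem exists_primeOf_eq (P : Ideal (𝓞 L)) [hP : P.IsPrime] (hP0 : P ≠ ⊥) :
    ∃ A : ValuationSubring (AlgebraicClosure ℚ), primeOf ι A = P := by
  classical
  letI := algebraInt ι
  haveI hPmax : P.IsMaximal := hP.isMaximal hP0
  haveI : Algebra.IsIntegral (𝓞 L) Zbar :=
    ⟨fun b => (integralClosure.isIntegral b : IsIntegral ℤ b).tower_top⟩
  haveI : FaithfulSMul (𝓞 L) Zbar := by
    rw [faithfulSMul_iff_algebraMap_injective]
    intro x y hxy
    have h1 : ι (x : L) = ι (y : L) := congrArg Subtype.val hxy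
    exact RingOfIntegers.ext (ι.injective h1)
  obtain ⟨Q, hQmax, hQover⟩ := Ideal.exists_maximal_ideal_liesOver_of_isIntegral (S := Zbar) P
  obtain ⟨A, hA⟩ := exists_valuationSubring_of_isMaximal Q
  refine ⟨A, ?_⟩
  rw [primeOf, hA]
  exact hQover.over.symm

end PrimeOf

section SinglePlace

variable {K L : Type*} [Field K] [NumberField K] [Field L] [NumberField L] [Algebra K L]
  (ι : L →ₐ[ℚ] AlgebraicClosure ℚ)

/-- `σ ∈ G_ℚ` fixes (the image of) `K` pointwise. -/
def FixesBase (σ : GQ) : Prop := ∀ x : K, σ (ι (algebraMap K L x)) = ι (algebraMap K L x)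

omit [NumberField K] in
/-- An element of `G_ℚ` fixing `K` restricts to a `K`-automorphism of the normal extension `L`. -/
theorem exists_restrict [Normal K L] (σ : GQ) (hσ : FixesBase (K := K) ι σ) :
    ∃ g : L ≃ₐ[K] L, ∀ y : L, ι (g y) = σ (ι y) := by
  letI : Algebra L (AlgebraicClosure ℚ) := ι.toRingHom.toAlgebra
  letI : Algebra K (AlgebraicClosure ℚ) := (ι.toRingHom.comp (algebraMap K L)).toAlgebra
  haveI : IsScalarTower K L (AlgebraicClosure ℚ) := IsScalarTower.of_algebraMap_eq (fun x => rfl)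
  let σK : AlgebraicClosure ℚ ≃ₐ[K] AlgebraicClosure ℚ :=
    AlgEquiv.ofRingEquiv (f := σ.toRingEquiv) (fun x => hσ x)
  refine ⟨σK.restrictNormal L, fun y => ?_⟩
  exact σK.restrictNormal_commutes L y

variable {ι}

/-- Every element of the inertia group of `primeOf ι A` in `Gal(L/K)` is the restriction of an
element of the frozen inertia group at `A`. -/
theorem exists_mem_inertiaSubgroupIn_restrict {ℓ : ℕ} (hℓ : ℓ.Prime)
    {A : ValuationSubring (AlgebraicClosure ℚ)} (hA : A.LiesOverPrime ℓ) (g : L ≃ₐ[K] L)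
    (hg : g ∈ (primeOf ι A).inertia Gal(L/K)) :
    ∃ σ ∈ A.inertiaSubgroupIn ℚ, ∀ y : L, σ (ι y) = ι (g y) := by
  haveI := idealOf_isMaximal hℓ hA
  have hg' : ∀ x : 𝓞 L, (g.restrictScalars ℚ) • x - x ∈ primeOf ι A := hg
  obtain ⟨σ, hσL, hσQ, hσtriv⟩ :=
    exists_inertia_lift ι (primeOf ι A) (idealOf A) (fun _ => Iff.rfl) (g.restrictScalars ℚ) hg'
  exact ⟨σ, mem_inertiaSubgroupIn A (idealOf A) hℓ hA (fun _ hq => hq) σ hσQ hσtriv, hσL⟩

omit [NumberField K] in
/-- The restriction to `L` of an element of the frozen inertia group at `A` lies in the inertia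
group of the prime cut out by `A`. -/
theorem mem_inertia_of_mem_inertiaSubgroupIn {A : ValuationSubring (AlgebraicClosure ℚ)}
    {σ : GQ} (hσ : σ ∈ A.inertiaSubgroupIn ℚ) (g : L ≃ₐ[K] L)
    (hg : ∀ y : L, ι (g y) = σ (ι y)) : g ∈ (primeOf ι A).inertia Gal(L/K) := by
  intro x
  show g • x - x ∈ primeOf ι A
  rw [mem_primeOf]
  have h1 : ι (((g • x - x : 𝓞 L)) : L) = σ (ι (x : L)) - ι (x : L) := by
    rw [← hg]
    simp
    rfl
  rw [h1]
  have hxA : ι (x : L) ∈ A :=
    mem_valuationSubring_of_isIntegral A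
      (map_isIntegral_int ι.toRingHom (RingOfIntegers.isIntegral_coe x))
  exact (mem_inertiaSubgroupIn_iff.mp hσ).2 _ hxA

/-- If every element of the frozen inertia group at `A` fixing `K` fixes `L`, the inertia group
of `primeOf ι A` in `Gal(L/K)` is trivial. -/
theorem inertia_primeOf_eq_bot {ℓ : ℕ} (hℓ : ℓ.Prime)
    {A : ValuationSubring (AlgebraicClosure ℚ)} (hA : A.LiesOverPrime ℓ)
    (h : ∀ σ ∈ A.inertiaSubgroupIn ℚ, FixesBase (K := K) ι σ → ∀ y : L, σ (ι y) = ι y) :
    (primeOf ι A).inertia Gal(L/K) = ⊥ := by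
  rw [eq_bot_iff]
  intro g hg
  rw [Subgroup.mem_bot]
  obtain ⟨σ, hσI, hσL⟩ := exists_mem_inertiaSubgroupIn_restrict hℓ hA g hg
  have hfix := h σ hσI (by
    intro x
    rw [hσL]
    congr 1
    exact g.commutes x)
  ext y
  apply ι.injective
  show ι (g y) = ι y
  have h1 : ι (g y) = σ (ι y) := (hσL y).symm
  rw [h1]
  exact hfix y

omit [NumberField K] in
/-- Conversely, if the inertia group of `primeOf ι A` in `Gal(L/K)` is trivial, every element of
the frozen inertia group at `A` fixing `K` fixes `L`. -/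
theorem fixes_of_inertia_primeOf_eq_bot [Normal K L]
    {A : ValuationSubring (AlgebraicClosure ℚ)}
    (hbot : (primeOf ι A).inertia Gal(L/K) = ⊥) :
    ∀ σ ∈ A.inertiaSubgroupIn ℚ, FixesBase (K := K) ι σ → ∀ y : L, σ (ι y) = ι y := by
  intro σ hσ hK y
  obtain ⟨g, hg⟩ := exists_restrict ι σ hK
  have hmem : g ∈ (primeOf ι A).inertia Gal(L/K) := mem_inertia_of_mem_inertiaSubgroupIn hσ g hg
  rw [hbot, Subgroup.mem_bot] at hmem
  rw [← hg, hmem]
  rfl

/-- **Single-place dictionary**: frozen inertia at `A` (cut down to `Gal(Qbar/K)`) acts trivially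
on `L` iff the prime of `𝓞 L` cut out by `A` is unramified over `𝓞 K`. -/
theorem forall_fixes_iff_ramificationIdx_eq_one [IsGalois K L] {ℓ : ℕ} (hℓ : ℓ.Prime)
    {A : ValuationSubring (AlgebraicClosure ℚ)} (hA : A.LiesOverPrime ℓ) :
    (∀ σ ∈ A.inertiaSubgroupIn ℚ, FixesBase (K := K) ι σ → ∀ y : L, σ (ι y) = ι y) ↔
      (primeOf ι A).ramificationIdx (𝓞 K) = 1 := by
  have h1 : Nat.card ((primeOf ι A).inertia Gal(L/K)) =
      ((primeOf ι A).under (𝓞 K)).ramificationIdxIn (𝓞 L) :=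
    Ideal.card_inertia_eq_ramificationIdxIn (G := Gal(L/K)) ((primeOf ι A).under (𝓞 K))
      (primeOf ι A)
  rw [Ideal.ramificationIdxIn_eq_ramificationIdx ((primeOf ι A).under (𝓞 K)) (primeOf ι A)
    Gal(L/K)] at h1
  constructor
  · intro h
    rw [← h1, inertia_primeOf_eq_bot hℓ hA h]
    simp
  · intro h
    rw [h] at h1
    exact fixes_of_inertia_primeOf_eq_bot ((Subgroup.card_eq_one).mp h1)

/-- **Per-prime dictionary**: all frozen inertia groups above `ℓ` (cut down to `Gal(Qbar/K)`) act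
trivially on `L` iff every prime of `𝓞 L` above `ℓ` is unramified over `𝓞 K`. -/
theorem forall_liesOver_fixes_iff [IsGalois K L] {ℓ : ℕ} (hℓ : ℓ.Prime) :
    (∀ A : ValuationSubring (AlgebraicClosure ℚ), A.LiesOverPrime ℓ →
      ∀ σ ∈ A.inertiaSubgroupIn ℚ, FixesBase (K := K) ι σ → ∀ y : L, σ (ι y) = ι y) ↔
      ∀ P : Ideal (𝓞 L), P.IsPrime → ((ℓ : ℕ) : 𝓞 L) ∈ P → P.ramificationIdx (𝓞 K) = 1 := by
  constructor
  · intro h P hP hℓP
    haveI := hP
    have hP0 : P ≠ ⊥ := by
      intro h0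
      rw [h0, Ideal.mem_bot] at hℓP
      have h2 : (ℓ : ℕ) = 0 := by exact_mod_cast hℓP
      exact hℓ.ne_zero h2
    obtain ⟨A, rfl⟩ := exists_primeOf_eq ι P hP0
    have hA : A.LiesOverPrime ℓ := (natCast_mem_primeOf_iff ι).mp hℓP
    exact (forall_fixes_iff_ramificationIdx_eq_one hℓ hA).mp (h A hA)
  · intro h A hA
    exact (forall_fixes_iff_ramificationIdx_eq_one hℓ hA).mpr
      (h _ inferInstance ((natCast_mem_primeOf_iff ι).mpr hA))

end SinglePlace

section IntermediateFieldForm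

variable (F : IntermediateField ℚ (AlgebraicClosure ℚ)) [NumberField ↥F]

theorem fixesBase_rat (σ : GQ) : FixesBase (K := ℚ) (incl F) σ := by
  intro x
  have h1 : incl F (algebraMap ℚ ↥F x) = algebraMap ℚ (AlgebraicClosure ℚ) x :=
    (incl F).commutes x
  rw [h1]
  exact σ.commutes x

/-- Per-prime dictionary for a finite Galois extension `F/ℚ` inside `Qbar`. -/
theorem inertia_le_fixingSubgroup_iff [IsGalois ℚ ↥F] {ℓ : ℕ} (hℓ : ℓ.Prime) :
    (∀ A : ValuationSubring (AlgebraicClosure ℚ), A.LiesOverPrime ℓ →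
      A.inertiaSubgroupIn ℚ ≤ F.fixingSubgroup) ↔
      ∀ P : Ideal (𝓞 ↥F), P.IsPrime → ((ℓ : ℕ) : 𝓞 ↥F) ∈ P → P.ramificationIdx (𝓞 ℚ) = 1 := by
  rw [← forall_liesOver_fixes_iff (K := ℚ) (ι := incl F) hℓ]
  constructor
  · intro h A hA σ hσ _ y
    have := h A hA hσ
    rw [IntermediateField.mem_fixingSubgroup_iff] at this
    exact this y y.2
  · intro h A hA σ hσ
    rw [IntermediateField.mem_fixingSubgroup_iff]
    intro x hx
    exact h A hA σ hσ (fixesBase_rat F σ) ⟨x, hx⟩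

theorem finiteDimensional_of_numberField : FiniteDimensional ℚ ↥F := by
  have h : FiniteDimensional ℚ ↥F := NumberField.to_finiteDimensional
  exact h

/-- **Global dictionary**: the frozen predicate `IsUnramifiedOutside S` for a finite Galois
extension `F/ℚ` inside `Qbar`, in terms of ramification indices. -/
theorem isUnramifiedOutside_iff [IsGalois ℚ ↥F] (S : Finset Nat.Primes) :
    F.IsUnramifiedOutside S ↔ ∀ q : Nat.Primes, q ∉ S → ∀ P : Ideal (𝓞 ↥F), P.IsPrime →
      (((q : ℕ) : ℕ) : 𝓞 ↥F) ∈ P → P.ramificationIdx (𝓞 ℚ) = 1 := by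
  unfold IntermediateField.IsUnramifiedOutside
  constructor
  · rintro ⟨-, h⟩ q hq
    exact (inertia_le_fixingSubgroup_iff F q.2).mp (h q hq)
  · intro h
    refine ⟨finiteDimensional_of_numberField F, fun q hq => ?_⟩
    exact (inertia_le_fixingSubgroup_iff F q.2).mpr (h q hq)

end IntermediateFieldForm

section IntForm

theorem ramificationIdx_eq_of_surjective {R R' S : Type*} [CommRing R] [CommRing R'] [CommRing S]
    [Algebra R R'] [Algebra R' S] [Algebra R S] [IsScalarTower R R' S]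
    (h : Function.Surjective (algebraMap R R')) (q : Ideal S) :
    q.ramificationIdx R = q.ramificationIdx R' := by
  by_cases hq : q.IsPrime
  · rw [Ideal.ramificationIdx_def, Ideal.ramificationIdx_def]
    have h1 : (q.under R).map (algebraMap R (Localization.AtPrime q))
        = (q.under R').map (algebraMap R' (Localization.AtPrime q)) := by
      have h2 : q.under R = (q.under R').comap (algebraMap R R') := by
        rw [Ideal.under_def, Ideal.under_def, Ideal.comap_comap, ← IsScalarTower.algebraMap_eq]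
      rw [h2, IsScalarTower.algebraMap_eq R R' (Localization.AtPrime q), ← Ideal.map_map,
        Ideal.map_comap_of_surjective _ h]
    rw [h1]
  · rw [Ideal.ramificationIdx_of_not_isPrime _ _ hq, Ideal.ramificationIdx_of_not_isPrime _ _ hq]

theorem algebraMap_int_ringOfIntegers_rat_surjective :
    Function.Surjective (algebraMap ℤ (𝓞 ℚ)) := by
  intro x
  refine ⟨Rat.ringOfIntegersEquiv x, ?_⟩
  have h : (algebraMap ℤ (𝓞 ℚ)) = (Rat.ringOfIntegersEquiv.symm : ℤ ≃+* 𝓞 ℚ).toRingHom :=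
    RingHom.ext_int _ _
  rw [h]
  exact Rat.ringOfIntegersEquiv.symm_apply_apply x

/-- ramification over `ℤ` and over `𝓞 ℚ` agree. -/
theorem ramificationIdx_int_eq {F : Type*} [Field F] [NumberField F] (P : Ideal (𝓞 F)) :
    P.ramificationIdx ℤ = P.ramificationIdx (𝓞 ℚ) :=
  ramificationIdx_eq_of_surjective algebraMap_int_ringOfIntegers_rat_surjective P

/-- `isUnramifiedOutside_iff` with ramification indices over `ℤ`. -/
theorem isUnramifiedOutside_iff_int (F : IntermediateField ℚ (AlgebraicClosure ℚ))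
    [NumberField ↥F] [IsGalois ℚ ↥F] (S : Finset Nat.Primes) :
    F.IsUnramifiedOutside S ↔ ∀ q : Nat.Primes, q ∉ S → ∀ P : Ideal (𝓞 ↥F), P.IsPrime →
      (((q : ℕ) : ℕ) : 𝓞 ↥F) ∈ P → P.ramificationIdx ℤ = 1 := by
  rw [isUnramifiedOutside_iff]
  constructor
  · intro h q hq P hP hqP
    rw [ramificationIdx_int_eq]
    exact h q hq P hP hqP
  · intro h q hq P hP hqP
    rw [← ramificationIdx_int_eq]
    exact h q hq P hP hqP

end IntForm

section Decomposition

variable {K L : Type*} [Field K] [NumberField K] [Field L] [NumberField L] [Algebra K L]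
  (ι : L →ₐ[ℚ] AlgebraicClosure ℚ)

/-- **Decomposition lifting**: an automorphism `g` of `L` stabilising `P` extends to an element of
`G_ℚ` stabilising a given prime `Q` of `Zbar` above `P`. -/
theorem exists_stabilizer_lift (P : Ideal (𝓞 L)) [P.IsPrime] (Q : Ideal Zbar) [hQ : Q.IsPrime]
    (hQP : ∀ x : 𝓞 L, intMap ι x ∈ Q ↔ x ∈ P)
    (g : L ≃ₐ[ℚ] L) (hg : ∀ x : 𝓞 L, g • x ∈ P ↔ x ∈ P) :
    ∃ σ : GQ, (∀ y : L, σ (ι y) = ι (g y)) ∧ σ • Q = Q := by
  classical
  letI := algebraInt ι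
  haveI := smulCommClass_fixer ι
  haveI := isInvariant_fixer ι
  letI : TopologicalSpace Zbar := ⊥
  haveI : DiscreteTopology Zbar := ⟨rfl⟩
  haveI := continuousSMul_fixer ι
  have halg : ∀ x : 𝓞 L, algebraMap (𝓞 L) Zbar x = intMap ι x := fun _ => rfl
  obtain ⟨σ₀, hσ₀⟩ := exists_lift ι g
  have hσ₀int : ∀ x : 𝓞 L, σ₀ • intMap ι x = intMap ι (g • x) := by
    intro x
    apply Subtype.ext
    exact hσ₀ x
  have hginv : ∀ x : 𝓞 L, g⁻¹ • x ∈ P ↔ x ∈ P := by
    intro x
    have h1 := hg (g⁻¹ • x)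
    rw [smul_inv_smul] at h1
    exact h1.symm
  have hσ₀inv : ∀ x : 𝓞 L, σ₀⁻¹ • intMap ι x = intMap ι (g⁻¹ • x) := by
    intro x
    rw [inv_smul_eq_iff, hσ₀int, smul_inv_smul]
  have hunder : (σ₀ • Q).under (𝓞 L) = Q.under (𝓞 L) := by
    ext x
    rw [Ideal.under_def, Ideal.under_def, Ideal.mem_comap, Ideal.mem_comap, halg,
      Ideal.mem_pointwise_smul_iff_inv_smul_mem, hσ₀inv, hQP, hQP, hginv]
  obtain ⟨τ, hτ⟩ := Algebra.IsInvariant.exists_smul_of_under_eq_of_profinite
    (A := 𝓞 L) (G := fixer ι) (σ₀ • Q) Q hunder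
  refine ⟨(τ : GQ) * σ₀, ?_, ?_⟩
  · intro y
    rw [AlgEquiv.mul_apply, hσ₀]
    exact (mem_fixer_iff ι τ.1).mp τ.2 (g y)
  · rw [mul_smul]
    exact hτ.symm

variable {ι}

omit [NumberField K] in
/-- The restriction to `L` of an element of the frozen decomposition group at `A` stabilises the
prime cut out by `A`. -/
theorem smul_primeOf_eq_of_mem_decomposition {A : ValuationSubring (AlgebraicClosure ℚ)}
    {σ : GQ} (hσ : σ ∈ A.decompositionSubgroup ℚ) (g : L ≃ₐ[K] L)
    (hg : ∀ y : L, ι (g y) = σ (ι y)) : g • primeOf ι A = primeOf ι A := by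
  have hinv : σ⁻¹ ∈ A.decompositionSubgroup ℚ := inv_mem hσ
  have hginv : ∀ y : L, ι (g⁻¹ y) = σ⁻¹ (ι y) := by
    intro y
    have h1 := hg (g⁻¹ y)
    have h2 : g (g⁻¹ y) = y := by
      change (g * g⁻¹) y = y
      rw [mul_inv_cancel]; rfl
    rw [h2] at h1
    rw [h1]
    change ι (g⁻¹ y) = (σ⁻¹ * σ) (ι (g⁻¹ y))
    rw [inv_mul_cancel]; rfl
  ext x
  rw [Ideal.mem_pointwise_smul_iff_inv_smul_mem, mem_primeOf, mem_primeOf]
  have h1 : ι (((g⁻¹ • x : 𝓞 L)) : L) = σ⁻¹ (ι (x : L)) := hginv (x : L)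
  rw [h1]
  exact apply_mem_nonunits_iff hinv _

/-- Every element of the decomposition group of `primeOf ι A` in `Gal(L/K)` is the restriction of
an element of the frozen decomposition group at `A` (which then fixes `K`). -/
theorem exists_mem_decomposition_restrict {ℓ : ℕ} (hℓ : ℓ.Prime)
    {A : ValuationSubring (AlgebraicClosure ℚ)} (hA : A.LiesOverPrime ℓ) (g : L ≃ₐ[K] L)
    (hg : g • primeOf ι A = primeOf ι A) :
    ∃ σ ∈ A.decompositionSubgroup ℚ, ∀ y : L, σ (ι y) = ι (g y) := by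
  have hg' : ∀ x : 𝓞 L, (g.restrictScalars ℚ) • x ∈ primeOf ι A ↔ x ∈ primeOf ι A := by
    intro x
    have h1 : (g.restrictScalars ℚ) • x = g • x := rfl
    rw [h1]
    constructor
    · intro h
      rw [← hg] at h
      exact (Ideal.smul_mem_pointwise_smul_iff).mp h
    · intro h
      rw [← hg]
      exact (Ideal.smul_mem_pointwise_smul_iff).mpr h
  obtain ⟨σ, hσL, hσQ⟩ :=
    exists_stabilizer_lift ι (primeOf ι A) (idealOf A) (fun _ => Iff.rfl) (g.restrictScalars ℚ) hg'
  refine ⟨σ, ?_, hσL⟩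
  refine mem_decomposition_of_stabilizes hℓ hA σ (fun b => ?_)
  constructor
  · intro h
    rw [← hσQ] at h
    exact (Ideal.smul_mem_pointwise_smul_iff).mp h
  · intro h
    rw [← hσQ]
    exact (Ideal.smul_mem_pointwise_smul_iff).mpr h

end Decomposition

end Fermat.Agent.CFT.H37
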