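/-
CFT project, layer C, package C-ES (helper1), part 3: the cokernel side of (X3).

If the divisor outside `S` of `x ∈ ℚ_S` is divisible by `n` (primes of `n` in `S`), then every
`n`-th root of `x` lies in `ℚ_S`.  Consequently `Div^S / div(ℚ_Sˣ)` has no `n`-torsion
("the `p`-part of `colim Cl_S(F)` dies").  Stated against an abstract order function so that it
plugs into any definition of the top-level divisor module.
-/
import Fermat.Agent.CFT.H1_QS

set_option autoImplicit false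

namespace Fermat.Agent.CFT.H1

open IntermediateField

local notation "Qbar" => AlgebraicClosure ℚ

section QSDiv

variable {S : Finset Nat.Primes}

/-- Roots (of order `n` with primes in `S`) of elements of `ℚ_S` whose valuations outside `S` are
`n`-th powers of powers of the residue characteristic lie in `ℚ_S`. -/
theorem root_mem_QS_of_zpow {n : ℕ} (hnS : ∀ ℓ : Nat.Primes, (ℓ : ℕ) ∣ n → ℓ ∈ S) {x y : Qbar}
    (hx : x ∈ QS S) (hy : y ^ n = x)
    (hdiv : ∀ q : Nat.Primes, q ∉ S → ∀ A : ValuationSubring Qbar, A.LiesOverPrime (q : ℕ) →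
      ∃ m : ℤ, A.valuation x = (A.valuation (((q : ℕ) : ℚ) : Qbar) ^ m) ^ n) :
    y ∈ QS S := by
  obtain ⟨F, hF, hxF⟩ := hx
  refine ⟨F ⊔ ℚ⟮y⟯, isUnramifiedOutside_sup_adjoin_root hnS hF hxF hy ?_, ?_⟩
  · intro q hq A hA
    obtain ⟨m, hm⟩ := hdiv q hq A hA
    refine ⟨(((q : ℕ) : ℚ) : Qbar) ^ m, zpow_mem (F.algebraMap_mem _) m, ?_⟩
    rw [hm, map_zpow₀]
  · exact (le_sup_right : ℚ⟮y⟯ ≤ F ⊔ ℚ⟮y⟯) (IntermediateField.mem_adjoin_simple_self ℚ y)

/-- For `A` over `q` the map `m ↦ v_A(q) ^ m` is injective. -/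
theorem zpow_valuation_prime_injective {A : ValuationSubring Qbar} {q : ℕ} (hq : q.Prime)
    (hA : A.LiesOverPrime q) :
    Function.Injective (fun m : ℤ => A.valuation (((q : ℕ) : ℚ) : Qbar) ^ m) := by
  have hq0 : (((q : ℕ) : ℚ) : Qbar) ≠ 0 := by
    have : ((q : ℕ) : ℚ) ≠ 0 := Nat.cast_ne_zero.mpr hq.ne_zero
    exact_mod_cast this
  have h0 : 0 < A.valuation (((q : ℕ) : ℚ) : Qbar) :=
    lt_of_le_of_ne zero_le (Ne.symm ((map_ne_zero _).mpr hq0))
  have h1 : A.valuation (((q : ℕ) : ℚ) : Qbar) < 1 := by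
    have := A.mem_nonunits_iff.mp hA
    simpa using this
  exact zpow_right_injective₀ h0 h1.ne

/-- **No `n`-torsion in `Div^S / div(ℚ_Sˣ)`**, abstract form: if `ord` computes the valuations
of `x ∈ ℚ_Sˣ` outside `S` as powers of the residue characteristic and all `ord A x` are divisible
by `n` (primes of `n` in `S`), then `x = yⁿ` with `y ∈ ℚ_S` and `v_A(y) = v_A(q) ^ (ord A x / n)`. -/
theorem exists_root_mem_QS_of_dvd {n : ℕ} (hn : n ≠ 0)
    (hnS : ∀ ℓ : Nat.Primes, (ℓ : ℕ) ∣ n → ℓ ∈ S)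
    (ord : ValuationSubring Qbar → ℤ) {x : Qbar} (hx : x ∈ QS S) (hx0 : x ≠ 0)
    (hord : ∀ q : Nat.Primes, q ∉ S → ∀ A : ValuationSubring Qbar, A.LiesOverPrime (q : ℕ) →
      A.valuation x = A.valuation (((q : ℕ) : ℚ) : Qbar) ^ ord A)
    (hdvd : ∀ q : Nat.Primes, q ∉ S → ∀ A : ValuationSubring Qbar, A.LiesOverPrime (q : ℕ) →
      (n : ℤ) ∣ ord A) :
    ∃ y ∈ QS S, y ≠ 0 ∧ y ^ n = x ∧
      ∀ q : Nat.Primes, q ∉ S → ∀ A : ValuationSubring Qbar, A.LiesOverPrime (q : ℕ) →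
        A.valuation y = A.valuation (((q : ℕ) : ℚ) : Qbar) ^ (ord A / n) := by
  obtain ⟨y, hy⟩ := IsAlgClosed.exists_pow_nat_eq x (Nat.pos_of_ne_zero hn)
  have hy0 : y ≠ 0 := by
    rintro rfl
    rw [zero_pow hn] at hy
    exact hx0 hy.symm
  have key : ∀ q : Nat.Primes, q ∉ S → ∀ A : ValuationSubring Qbar, A.LiesOverPrime (q : ℕ) →
      A.valuation x = (A.valuation (((q : ℕ) : ℚ) : Qbar) ^ (ord A / n)) ^ n := by
    intro q hq A hA
    rw [hord q hq A hA, ← zpow_natCast, ← zpow_mul, Int.ediv_mul_cancel (hdvd q hq A hA)]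
  refine ⟨y, root_mem_QS_of_zpow hnS hx hy (fun q hq A hA => ⟨_, key q hq A hA⟩), hy0, hy, ?_⟩
  intro q hq A hA
  have h := key q hq A hA
  rw [← hy, map_pow] at h
  exact (pow_left_inj₀ zero_le zero_le hn).mp h

end QSDiv

end Fermat.Agent.CFT.H1
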