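/-
CFT project, layer C, package C-ES (helper1), part 4: the statement (X3) in the top-level
vocabulary of `H77_TopCS` (helper77).

* `jToCSTop_eq_one_iff`: the kernel of `JTop S → CSTop S` is the image of the `S`-units `E_S`.
* `mem_range_jToCSTop_of_pow`: the cokernel of `JTop S → CSTop S` has no `n`-torsion when all
  primes of `n` lie in `S` (Kummer: roots of elements of `ℚ_S` with `n`-divisible divisor
  outside `S` lie in `ℚ_S`).
* `exists_pow_mul_jToCSTop`: the cokernel is `p`-divisible, GIVEN that every divisor class is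
  torsion (`DivTorsion S`, finiteness of class groups; proved separately from the finite levels).
-/
import Fermat.Agent.CFT.H77_TopCS
import Fermat.Agent.CFT.H1_QSDiv

set_option autoImplicit false

namespace Fermat.Agent.CFT.H1

open IntermediateField Fermat.Agent.CFT Fermat.Agent.CFT.H77

local notation "Qbar" => AlgebraicClosure ℚ
local notation "GQ" => (AlgebraicClosure ℚ ≃ₐ[ℚ] AlgebraicClosure ℚ)

noncomputable section

variable {S : Finset Nat.Primes}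

/-! ### Divisors and valuations -/

theorem natCast_prime_ne_zero (q : Nat.Primes) : ((q : ℕ) : Qbar) ≠ 0 :=
  Nat.cast_ne_zero.mpr q.2.ne_zero

/-- `IsDivOf` in terms of valuations. -/
theorem isDivOf_iff {x : Qbar} {d : PlaceOut S → ℤ} :
    IsDivOf S x d ↔ ∀ P : PlaceOut S, P.A.valuation x = P.A.valuation ((P.q : ℕ) : Qbar) ^ d P := by
  refine forall_congr' fun P => ?_
  have hq0 := natCast_prime_ne_zero P.q
  rw [map_div₀, map_zpow₀,
    div_eq_one_iff_eq (zpow_ne_zero _ ((Valuation.ne_zero_iff _).mpr hq0))]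

/-- A divisor-zero element is a unit outside `S`. -/
theorem isDivOf_zero_iff {x : Qbar} : IsDivOf S x 0 ↔ IsUnitOutside S x := by
  rw [isDivOf_iff]
  constructor
  · intro h q hq A hA
    have := h ⟨q, hq, A, hA⟩
    simpa using this
  · intro h P
    rw [h P.q P.hq P.A P.hA]
    simp

/-- **Kummer step**: if the divisor of `x ∈ ℚ_S` is `n • d` (primes of `n` in `S`) then every
`n`-th root `y` of `x` lies in `ℚ_S` and has divisor `d`. -/
theorem isDivOf_root {n : ℕ} (hn : n ≠ 0) (hnS : ∀ ℓ : Nat.Primes, (ℓ : ℕ) ∣ n → ℓ ∈ S)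
    {x y : Qbar} (hx : x ∈ QS S) (hy : y ^ n = x) {d : PlaceOut S → ℤ}
    (hd : IsDivOf S x (n • d)) : y ∈ QS S ∧ IsDivOf S y d := by
  rw [isDivOf_iff] at hd
  have key : ∀ P : PlaceOut S,
      P.A.valuation x = (P.A.valuation ((P.q : ℕ) : Qbar) ^ d P) ^ n := by
    intro P
    rw [hd P, ← zpow_natCast, ← zpow_mul, Pi.smul_apply, nsmul_eq_mul, mul_comm]
  refine ⟨root_mem_QS_of_zpow hnS hx hy (fun q hq A hA => ⟨d ⟨q, hq, A, hA⟩, ?_⟩), ?_⟩
  · have := key ⟨q, hq, A, hA⟩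
    simpa using this
  · rw [isDivOf_iff]
    intro P
    have h := key P
    rw [← hy, map_pow] at h
    exact (pow_left_inj₀ zero_le zero_le hn).mp h

/-! ### The kernel of `JTop S → CSTop S` -/

/-- The kernel of `JTop S → CSTop S` consists of the diagonal images of the `S`-units of
`ℚ_S`. -/
theorem jToCSTop_eq_one_iff (j : JTop S) :
    jToCSTop S j = 1 ↔
      ∃ u : (OmegaS S)ˣ, IsUnitOutside S (u : OmegaS S).val ∧ j = diagJTop S u := by
  have h1 : jToCSTop S j = 1 ↔ jToIdTop S j ∈ PrincTop S := by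
    show (QuotientGroup.mk' (PrincTop S)) (jToIdTop S j) = 1 ↔ _
    rw [QuotientGroup.mk'_apply, QuotientGroup.eq_one_iff]
  rw [h1]
  constructor
  · rintro ⟨x, hx1, hx2⟩
    refine ⟨x, isDivOf_zero_iff.mp ?_, hx1⟩
    exact hx2
  · rintro ⟨u, hu, rfl⟩
    exact ⟨u, rfl, isDivOf_zero_iff.mpr hu⟩

/-- The unit of `ℚbar` underlying a unit of `ℚ_S`. -/
def omegaUnitsVal (S : Finset Nat.Primes) : (OmegaS S)ˣ →* Qbarˣ :=
  Units.map (OmegaS.valHom S : OmegaS S →* Qbar)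

@[simp] theorem omegaUnitsVal_coe (u : (OmegaS S)ˣ) :
    ((omegaUnitsVal S u : Qbarˣ) : Qbar) = (u : OmegaS S).val := rfl

/-- The kernel of `JTop S → CSTop S` is the image of `E_S = H1.sUnits S`. -/
theorem jToCSTop_eq_one_iff' (j : JTop S) :
    jToCSTop S j = 1 ↔ ∃ u : (OmegaS S)ˣ, omegaUnitsVal S u ∈ sUnits S ∧ j = diagJTop S u := by
  rw [jToCSTop_eq_one_iff]
  refine exists_congr fun u => and_congr_left fun _ => ?_
  rw [mem_sUnits_iff]
  exact ⟨fun h => ⟨(u : OmegaS S).val_mem, h⟩, fun h => h.2⟩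

/-! ### The cokernel of `JTop S → CSTop S` -/

/-- A unit of `ℚ_S` from a nonzero element of `ℚbar` lying in `ℚ_S`. -/
def omegaUnitOf {y : Qbar} (hy : y ∈ QS S) (hy0 : y ≠ 0) : (OmegaS S)ˣ :=
  Units.mk0 (OmegaS.mk y hy) (fun h => hy0 (by
    have := congrArg OmegaS.val h
    simpa using this))

@[simp] theorem omegaUnitOf_val {y : Qbar} (hy : y ∈ QS S) (hy0 : y ≠ 0) :
    ((omegaUnitOf hy hy0 : (OmegaS S)ˣ) : OmegaS S).val = y := rfl

/-- **No `n`-torsion in the cokernel of `JTop S → CSTop S`** (primes of `n` in `S`). -/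
theorem mem_range_jToCSTop_of_pow {n : ℕ} (hn : n ≠ 0)
    (hnS : ∀ ℓ : Nat.Primes, (ℓ : ℕ) ∣ n → ℓ ∈ S) (c : CSTop S)
    (hc : c ^ n ∈ (jToCSTop S).range) : c ∈ (jToCSTop S).range := by
  obtain ⟨z, rfl⟩ := QuotientGroup.mk_surjective c
  obtain ⟨j₁, hj₁⟩ := hc
  -- `z ^ n / (j₁, 1)` is principal
  have hmem : (jToIdTop S j₁)⁻¹ * z ^ n ∈ PrincTop S := by
    have h2 : (QuotientGroup.mk (jToIdTop S j₁) : CSTop S) = QuotientGroup.mk (z ^ n) := hj₁
    exact QuotientGroup.eq.mp h2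
  obtain ⟨x, hx1, hx2⟩ := hmem
  have hx2' : IsDivOf S (x : OmegaS S).val (n • (Multiplicative.toAdd z.2).1) := by
    have e : (Multiplicative.toAdd ((jToIdTop S j₁)⁻¹ * z ^ n).2).1 =
        n • (Multiplicative.toAdd z.2).1 := by
      show (Multiplicative.toAdd ((1 : Multiplicative (DivTop S))⁻¹ * z.2 ^ n)).1 = _
      rw [inv_one, one_mul, toAdd_pow]
      rfl
    rw [← e]
    exact hx2
  obtain ⟨y, hy⟩ := IsAlgClosed.exists_pow_nat_eq (x : OmegaS S).val (Nat.pos_of_ne_zero hn)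
  have hx0 : (x : OmegaS S).val ≠ 0 := by
    intro h
    exact x.ne_zero (OmegaS.ext (by simpa using h))
  have hy0 : y ≠ 0 := by
    rintro rfl
    rw [zero_pow hn] at hy
    exact hx0 hy.symm
  obtain ⟨hyS, hyd⟩ := isDivOf_root hn hnS (x : OmegaS S).val_mem hy hx2'
  -- `(diag y, d)` is principal, so `z ≡ (z.1 / diag y, 1)`
  refine ⟨z.1 * (diagJTop S (omegaUnitOf hyS hy0))⁻¹, ?_⟩
  show (QuotientGroup.mk (jToIdTop S (z.1 * (diagJTop S (omegaUnitOf hyS hy0))⁻¹)) : CSTop S) =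
    QuotientGroup.mk z
  rw [QuotientGroup.eq]
  refine ⟨omegaUnitOf hyS hy0, ?_, ?_⟩
  · show (z.1 * (diagJTop S (omegaUnitOf hyS hy0))⁻¹)⁻¹ * z.1 = _
    rw [mul_inv_rev, inv_inv, mul_assoc, inv_mul_cancel, mul_one]
  · show IsDivOf S y (Multiplicative.toAdd ((1 : Multiplicative (DivTop S))⁻¹ * z.2)).1
    rw [inv_one, one_mul]
    exact hyd

/-- Every divisor class outside `S` is torsion (finiteness of the class groups of the levels). -/
def DivTorsion (S : Finset Nat.Primes) : Prop :=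
  ∀ d : DivTop S, ∃ m : ℕ, m ≠ 0 ∧ ∃ x : (OmegaS S)ˣ, IsDivOf S (x : OmegaS S).val (m • d.1)

/-- Given `DivTorsion S`, some prime-to-`p` multiple of every divisor is principal
(`p` a prime in `S`). -/
theorem exists_coprime_smul_isDivOf (hT : DivTorsion S) {p : ℕ} (hp : p.Prime)
    (hpS : ∀ ℓ : Nat.Primes, (ℓ : ℕ) = p → ℓ ∈ S) (d : DivTop S) :
    ∃ m : ℕ, m.Coprime p ∧ ∃ x : (OmegaS S)ˣ, IsDivOf S (x : OmegaS S).val (m • d.1) := by
  obtain ⟨m, hm, x, hx⟩ := hT d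
  obtain ⟨a, m', hm', rfl⟩ := Nat.exists_eq_pow_mul_and_not_dvd hm p hp.ne_one
  refine ⟨m', ((Nat.Prime.coprime_iff_not_dvd hp).mpr hm').symm, ?_⟩
  have hpa : p ^ a ≠ 0 := pow_ne_zero _ hp.ne_zero
  have hnS : ∀ ℓ : Nat.Primes, (ℓ : ℕ) ∣ p ^ a → ℓ ∈ S := fun ℓ hℓ =>
    hpS ℓ ((Nat.prime_dvd_prime_iff_eq ℓ.2 hp).mp (ℓ.2.dvd_of_dvd_pow hℓ))
  obtain ⟨y, hy⟩ := IsAlgClosed.exists_pow_nat_eq (x : OmegaS S).val (Nat.pos_of_ne_zero hpa)
  have hx0 : (x : OmegaS S).val ≠ 0 := by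
    intro h
    exact x.ne_zero (OmegaS.ext (by simpa using h))
  have hy0 : y ≠ 0 := by
    rintro rfl
    rw [zero_pow hpa] at hy
    exact hx0 hy.symm
  have hx' : IsDivOf S (x : OmegaS S).val ((p ^ a) • (m' • d.1)) := by
    rw [smul_smul]
    exact hx
  obtain ⟨hyS, hyd⟩ := isDivOf_root hpa hnS (x : OmegaS S).val_mem hy hx'
  exact ⟨omegaUnitOf hyS hy0, hyd⟩

/-- **The cokernel of `JTop S → CSTop S` is `p`-divisible**, given `DivTorsion S`. -/
theorem exists_pow_mul_jToCSTop (hT : DivTorsion S) {p : ℕ} (hp : p.Prime)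
    (hpS : ∀ ℓ : Nat.Primes, (ℓ : ℕ) = p → ℓ ∈ S) (c : CSTop S) :
    ∃ (c' : CSTop S) (j : JTop S), c = c' ^ p * jToCSTop S j := by
  obtain ⟨z, rfl⟩ := QuotientGroup.mk_surjective c
  obtain ⟨m, hm, x, hx⟩ := exists_coprime_smul_isDivOf hT hp hpS (Multiplicative.toAdd z.2)
  -- `u * p ≡ 1 mod m`, i.e. `u * p = 1 + k * m` over `ℤ`
  have hgcd : IsCoprime (p : ℤ) (m : ℤ) := Nat.isCoprime_iff_coprime.mpr hm.symm
  obtain ⟨u, k, huk⟩ := hgcd
  -- `z = (z^u)^p * (z^m)^k` and `z^m ≡ (z.1^m / diag x, 1)`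
  have hzm : (QuotientGroup.mk (z ^ m) : CSTop S) =
      jToCSTop S (z.1 ^ m * (diagJTop S x)⁻¹) := by
    show _ = (QuotientGroup.mk (jToIdTop S (z.1 ^ m * (diagJTop S x)⁻¹)) : CSTop S)
    symm
    rw [QuotientGroup.eq]
    refine ⟨x, ?_, ?_⟩
    · show (z.1 ^ m * (diagJTop S x)⁻¹)⁻¹ * z.1 ^ m = _
      rw [mul_inv_rev, inv_inv, mul_assoc, inv_mul_cancel, mul_one]
    · show IsDivOf S (x : OmegaS S).val
        (Multiplicative.toAdd ((1 : Multiplicative (DivTop S))⁻¹ * z.2 ^ m)).1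
      rw [inv_one, one_mul, toAdd_pow]
      exact hx
  refine ⟨(QuotientGroup.mk z : CSTop S) ^ u, (z.1 ^ m * (diagJTop S x)⁻¹) ^ k, ?_⟩
  rw [map_zpow, ← hzm, ← zpow_natCast ((QuotientGroup.mk z : CSTop S) ^ u) p, ← zpow_mul,
    QuotientGroup.mk_pow, ← zpow_natCast (QuotientGroup.mk z : CSTop S) m, ← zpow_mul,
    ← zpow_add, mul_comm (m : ℤ) k, huk, zpow_one]

end

end Fermat.Agent.CFT.H1
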