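import Mathlib
import Fermat.Prelude.Def_FLTPrelim_Ramification
import Fermat.Agent.CFT.H37_UnramDict

/-!
# CFT / C-DICT (helper37): places of `Qbar` above a prime of a number field form one orbit

Valuation subrings `A` of `Qbar = AlgebraicClosure ℚ` lying over a rational prime are determined
by the prime `idealOf A` of `Zbar`; the map `A ↦ primeOf ι A` onto the nonzero primes of `𝓞 L` is
equivariant and its fibres are exactly the orbits of `Gal(Qbar / ι L)`.
-/

set_option autoImplicit false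
set_option linter.style.haveILetI false

noncomputable section

namespace Fermat.Agent.CFT.H37

open NumberField Fermat.Agent.S54 Fermat.Agent.S14.H37 Fermat.Agent.S14.H54
open scoped Pointwise

attribute [local instance] isAlgebraic_Qbar isAlgClosure_Qbar isGalois_Qbar

section Places

theorem mem_nonunits_smul_iff (σ : GQ) (A : ValuationSubring (AlgebraicClosure ℚ))
    (x : AlgebraicClosure ℚ) : x ∈ (σ • A).nonunits ↔ σ⁻¹ x ∈ A.nonunits := by
  rw [ValuationSubring.mem_nonunits_iff_or, ValuationSubring.mem_nonunits_iff_or,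
    ValuationSubring.mem_pointwise_smul_iff_inv_smul_mem]
  have h1 : σ⁻¹ • x⁻¹ = (σ⁻¹ x)⁻¹ := map_inv₀ σ⁻¹ x
  rw [h1]
  have h2 : σ⁻¹ x = 0 ↔ x = 0 := map_eq_zero_iff _ σ⁻¹.injective
  rw [h2]

theorem liesOverPrime_smul (σ : GQ) {A : ValuationSubring (AlgebraicClosure ℚ)} {ℓ : ℕ}
    (hA : A.LiesOverPrime ℓ) : (σ • A).LiesOverPrime ℓ := by
  show ((ℓ : ℕ) : AlgebraicClosure ℚ) ∈ (σ • A).nonunits
  rw [mem_nonunits_smul_iff]
  have : σ⁻¹ ((ℓ : ℕ) : AlgebraicClosure ℚ) = ((ℓ : ℕ) : AlgebraicClosure ℚ) := map_natCast σ⁻¹ ℓ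
  rw [this]
  exact hA

/-- `idealOf` is equivariant. -/
theorem idealOf_smul (σ : GQ) (A : ValuationSubring (AlgebraicClosure ℚ)) :
    idealOf (σ • A) = σ • idealOf A := by
  ext b
  rw [Ideal.mem_pointwise_smul_iff_inv_smul_mem, mem_idealOf, mem_idealOf, mem_nonunits_smul_iff]
  rfl

/-- A valuation subring lying over a rational prime is determined by its prime of `Zbar`. -/
theorem le_of_idealOf_eq {A A' : ValuationSubring (AlgebraicClosure ℚ)} {ℓ : ℕ} (hℓ : ℓ.Prime)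
    (hA : A.LiesOverPrime ℓ) (h : idealOf A = idealOf A') : A ≤ A' := by
  intro x hx
  obtain ⟨s, hs_int, hs_nu, hsx_int⟩ :=
    exists_integral_mul A hℓ hA hx (isAlgebraic_int_Qbar x)
  have hs' : s ∉ A'.nonunits := by
    intro hmem
    apply hs_nu
    have h1 : (⟨s, hs_int⟩ : Zbar) ∈ idealOf A' := hmem
    rw [← h] at h1
    exact h1
  obtain ⟨hne, hinv⟩ := inv_mem_of_not_mem_nonunits A' hs'
  have hsx : s * x ∈ A' := mem_valuationSubring_of_isIntegral A' hsx_int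
  have h3 : x = s⁻¹ * (s * x) := by
    rw [← mul_assoc, inv_mul_cancel₀ hne, one_mul]
  rw [h3]
  exact A'.mul_mem _ _ hinv hsx

theorem eq_of_idealOf_eq {A A' : ValuationSubring (AlgebraicClosure ℚ)} {ℓ : ℕ} (hℓ : ℓ.Prime)
    (hA : A.LiesOverPrime ℓ) (h : idealOf A = idealOf A') : A = A' := by
  have hA' : A'.LiesOverPrime ℓ := by
    have h1 : ((ℓ : ℕ) : Zbar) ∈ idealOf A := natCast_mem_idealOf hA
    rw [h] at h1
    have h2 : (((ℓ : ℕ) : Zbar) : AlgebraicClosure ℚ) ∈ A'.nonunits := h1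
    have h3 : (((ℓ : ℕ) : Zbar) : AlgebraicClosure ℚ) = ((ℓ : ℕ) : AlgebraicClosure ℚ) := by simp
    rw [h3] at h2
    exact h2
  exact le_antisymm (le_of_idealOf_eq hℓ hA h) (le_of_idealOf_eq hℓ hA' h.symm)

/-- `G_ℚ` acts transitively on the valuation subrings of `Qbar` over a given rational prime. -/
theorem exists_smul_eq_of_liesOverPrime {A A' : ValuationSubring (AlgebraicClosure ℚ)} {ℓ : ℕ}
    (hℓ : ℓ.Prime) (hA : A.LiesOverPrime ℓ) (hA' : A'.LiesOverPrime ℓ) :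
    ∃ σ : GQ, σ • A = A' := by
  classical
  letI : TopologicalSpace Zbar := ⊥
  haveI : DiscreteTopology Zbar := ⟨rfl⟩
  haveI := continuousSMul_Zbar
  haveI := isInvariant_Zbar
  have hunder : (idealOf A).under ℤ = (idealOf A').under ℤ := by
    rw [Ideal.under_def, Ideal.under_def, idealOf_liesOver hℓ hA, idealOf_liesOver hℓ hA']
  obtain ⟨σ, hσ⟩ := Algebra.IsInvariant.exists_smul_of_under_eq_of_profinite
    (A := ℤ) (G := GQ) (idealOf A) (idealOf A') hunder
  refine ⟨σ, ?_⟩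
  apply eq_of_idealOf_eq hℓ (liesOverPrime_smul σ hA)
  rw [idealOf_smul]
  exact hσ.symm

theorem mem_smul_iff (σ : GQ) (A : ValuationSubring (AlgebraicClosure ℚ))
    (x : AlgebraicClosure ℚ) : x ∈ σ • A ↔ σ⁻¹ x ∈ A :=
  ValuationSubring.mem_pointwise_smul_iff_inv_smul_mem

/-- Decomposition groups of conjugate places are conjugate. -/
theorem mem_decompositionSubgroup_smul_iff (σ τ : GQ)
    (A : ValuationSubring (AlgebraicClosure ℚ)) :
    τ ∈ (σ • A).decompositionSubgroup ℚ ↔ σ⁻¹ * τ * σ ∈ A.decompositionSubgroup ℚ := by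
  rw [mem_decomposition_iff, mem_decomposition_iff]
  constructor
  · intro h y
    have h1 := h (σ y)
    rw [mem_smul_iff, mem_smul_iff] at h1
    have e1 : σ⁻¹ (σ y) = y := by
      change (σ⁻¹ * σ) y = y
      rw [inv_mul_cancel]; rfl
    rw [e1] at h1
    exact h1
  · intro h x
    rw [mem_smul_iff, mem_smul_iff]
    have h1 := h (σ⁻¹ x)
    have e1 : (σ⁻¹ * τ * σ) (σ⁻¹ x) = σ⁻¹ (τ x) := by
      change σ⁻¹ (τ (σ (σ⁻¹ x))) = σ⁻¹ (τ x)
      have e2 : σ (σ⁻¹ x) = x := by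
        change (σ * σ⁻¹) x = x
        rw [mul_inv_cancel]; rfl
      rw [e2]
    rw [e1] at h1
    exact h1

/-- Inertia groups of conjugate places are conjugate. -/
theorem mem_inertiaSubgroupIn_smul_iff (σ τ : GQ)
    (A : ValuationSubring (AlgebraicClosure ℚ)) :
    τ ∈ (σ • A).inertiaSubgroupIn ℚ ↔ σ⁻¹ * τ * σ ∈ A.inertiaSubgroupIn ℚ := by
  rw [mem_inertiaSubgroupIn_iff, mem_inertiaSubgroupIn_iff, mem_decompositionSubgroup_smul_iff]
  refine and_congr_right (fun _ => ?_)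
  constructor
  · intro h y hy
    have hσy : σ y ∈ σ • A := by
      rw [mem_smul_iff]
      have e1 : σ⁻¹ (σ y) = y := by
        change (σ⁻¹ * σ) y = y
        rw [inv_mul_cancel]; rfl
      rw [e1]; exact hy
    have h1 := h (σ y) hσy
    rw [mem_nonunits_smul_iff] at h1
    have e2 : σ⁻¹ (τ (σ y) - σ y) = (σ⁻¹ * τ * σ) y - y := by
      rw [map_sub]
      have e1 : σ⁻¹ (σ y) = y := by
        change (σ⁻¹ * σ) y = y
        rw [inv_mul_cancel]; rfl
      rw [e1]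
      rfl
    rw [e2] at h1
    exact h1
  · intro h x hx
    rw [mem_smul_iff] at hx
    have h1 := h (σ⁻¹ x) hx
    rw [mem_nonunits_smul_iff]
    have e2 : σ (σ⁻¹ x) = x := by
      change (σ * σ⁻¹) x = x
      rw [mul_inv_cancel]; rfl
    have e3 : (σ⁻¹ * τ * σ) (σ⁻¹ x) - σ⁻¹ x = σ⁻¹ (τ x - x) := by
      rw [map_sub]
      change σ⁻¹ (τ (σ (σ⁻¹ x))) - σ⁻¹ x = _
      rw [e2]
    rw [e3] at h1
    exact h1

/-- Unramifiedness at `ℓ` (w.r.t. a normal subgroup) can be tested at a single place. -/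
theorem forall_inertia_le_iff {N : Subgroup GQ} [N.Normal] {ℓ : ℕ} (hℓ : ℓ.Prime)
    {A₀ : ValuationSubring (AlgebraicClosure ℚ)} (hA₀ : A₀.LiesOverPrime ℓ) :
    (∀ A : ValuationSubring (AlgebraicClosure ℚ), A.LiesOverPrime ℓ →
      A.inertiaSubgroupIn ℚ ≤ N) ↔ A₀.inertiaSubgroupIn ℚ ≤ N := by
  constructor
  · intro h
    exact h A₀ hA₀
  · intro h A hA τ hτ
    obtain ⟨σ, rfl⟩ := exists_smul_eq_of_liesOverPrime hℓ hA₀ hA
    rw [mem_inertiaSubgroupIn_smul_iff] at hτ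
    have h1 := h hτ
    have h2 : σ * (σ⁻¹ * τ * σ) * σ⁻¹ ∈ N := Subgroup.Normal.conj_mem inferInstance _ h1 σ
    have e : σ * (σ⁻¹ * τ * σ) * σ⁻¹ = τ := by group
    rwa [e] at h2

end Places

section Orbits

variable {L : Type*} [Field L] [NumberField L] (ι : L →ₐ[ℚ] AlgebraicClosure ℚ)

/-- Equivariance of `primeOf`: if `σ ∈ G_ℚ` induces `g` on `L`, then
`primeOf ι (σ • A) = g • primeOf ι A`. -/
theorem primeOf_smul (σ : GQ) (g : L ≃ₐ[ℚ] L) (hg : ∀ y : L, σ (ι y) = ι (g y))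
    (A : ValuationSubring (AlgebraicClosure ℚ)) : primeOf ι (σ • A) = g • primeOf ι A := by
  have hginv : ∀ y : L, σ⁻¹ (ι y) = ι (g⁻¹ y) := by
    intro y
    have h1 := hg (g⁻¹ y)
    have h2 : g (g⁻¹ y) = y := by
      change (g * g⁻¹) y = y
      rw [mul_inv_cancel]; rfl
    rw [h2] at h1
    rw [← h1]
    change (σ⁻¹ * σ) (ι (g⁻¹ y)) = ι (g⁻¹ y)
    rw [inv_mul_cancel]; rfl
  ext x
  rw [Ideal.mem_pointwise_smul_iff_inv_smul_mem, mem_primeOf, mem_primeOf, mem_nonunits_smul_iff,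
    hginv]
  rfl

/-- `primeOf ι` is constant on orbits of `Gal(Qbar / ι L)`. -/
theorem primeOf_smul_of_mem_fixer {τ : GQ} (hτ : τ ∈ fixer ι)
    (A : ValuationSubring (AlgebraicClosure ℚ)) : primeOf ι (τ • A) = primeOf ι A := by
  have h := primeOf_smul ι τ 1 (fun y => (mem_fixer_iff ι τ).mp hτ y) A
  rw [h, one_smul]

/-- The fibres of `A ↦ primeOf ι A` are exactly the orbits of `Gal(Qbar / ι L)`. -/
theorem exists_smul_eq_of_primeOf_eq {A A' : ValuationSubring (AlgebraicClosure ℚ)} {ℓ : ℕ}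
    (hℓ : ℓ.Prime) (hA : A.LiesOverPrime ℓ) (h : primeOf ι A = primeOf ι A') :
    ∃ τ ∈ fixer ι, τ • A = A' := by
  classical
  letI := algebraInt ι
  haveI := smulCommClass_fixer ι
  haveI := isInvariant_fixer ι
  letI : TopologicalSpace Zbar := ⊥
  haveI : DiscreteTopology Zbar := ⟨rfl⟩
  haveI := continuousSMul_fixer ι
  have hunder : (idealOf A).under (𝓞 L) = (idealOf A').under (𝓞 L) := h
  obtain ⟨τ, hτ⟩ := Algebra.IsInvariant.exists_smul_of_under_eq_of_profinite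
    (A := 𝓞 L) (G := fixer ι) (idealOf A) (idealOf A') hunder
  refine ⟨τ.1, τ.2, ?_⟩
  apply eq_of_idealOf_eq hℓ (liesOverPrime_smul τ.1 hA)
  rw [idealOf_smul]
  exact hτ.symm

theorem primeOf_eq_iff {A A' : ValuationSubring (AlgebraicClosure ℚ)} {ℓ : ℕ}
    (hℓ : ℓ.Prime) (hA : A.LiesOverPrime ℓ) :
    primeOf ι A = primeOf ι A' ↔ ∃ τ ∈ fixer ι, τ • A = A' := by
  constructor
  · exact exists_smul_eq_of_primeOf_eq ι hℓ hA
  · rintro ⟨τ, hτ, rfl⟩
    exact (primeOf_smul_of_mem_fixer ι hτ A).symm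

end Orbits

section IntermediateFieldForm

variable (F : IntermediateField ℚ (AlgebraicClosure ℚ)) [NumberField ↥F]

theorem fixer_incl : fixer (incl F) = F.fixingSubgroup := by
  ext σ
  rw [mem_fixer_iff, IntermediateField.mem_fixingSubgroup_iff]
  constructor
  · intro h x hx
    exact h ⟨x, hx⟩
  · intro h y
    exact h y y.2

end IntermediateFieldForm

end Fermat.Agent.CFT.H37
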