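/-
CFT layer C, package C-TOP-Div (helper45), slice 1: the top-level divisor module.

`PlacesOutside S` : valuation subrings of `Qbar` over rational primes outside `S`, with `G_ℚ`-action.
`DivTop S`        : level-invariant integer valued functions on `PlacesOutside S` whose support
                    meets only finitely many rational primes (`= colim_F Div^S(F)`), as a
                    `DistribMulAction` / `Rep ℤ G_ℚ`, discrete for `H87.levelsS S`.
-/
import Mathlib
import Fermat.Prelude.Def_FLTPrelim_Ramification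
import Fermat.Prelude.Def_GroupCohomology_ContinuousUnramified
import Fermat.Agent.CFT.H1_QS
import Fermat.Agent.CFT.H87_Levels

set_option autoImplicit false

namespace Fermat.Agent.CFT.H45

open IntermediateField
open scoped Pointwise

local notation "Qbar" => AlgebraicClosure ℚ
local notation "GQ" => (AlgebraicClosure ℚ ≃ₐ[ℚ] AlgebraicClosure ℚ)

noncomputable section

/-! ### Places outside `S` -/

/-- A valuation subring lies over at most one rational prime. -/
theorem liesOverPrime_unique {L : Type*} [Field L] {A : ValuationSubring L} {q q' : ℕ}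
    (hq : q.Prime) (hq' : q'.Prime) (hA : A.LiesOverPrime q) (hA' : A.LiesOverPrime q') :
    q = q' := by
  by_contra hne
  have hcop : Nat.Coprime q q' := (Nat.coprime_primes hq hq').mpr hne
  have h1 : A.valuation ((q : ℕ) : L) < 1 := A.mem_nonunits_iff.mp hA
  have h2 : A.valuation ((q' : ℕ) : L) < 1 := A.mem_nonunits_iff.mp hA'
  have hint : ∀ n : ℤ, A.valuation ((n : ℤ) : L) ≤ 1 := fun n =>
    (A.valuation_le_one_iff _).mpr (intCast_mem A n)
  have hb : (q : ℤ) * Nat.gcdA q q' + (q' : ℤ) * Nat.gcdB q q' = 1 := by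
    have := Nat.gcd_eq_gcd_ab q q'
    rw [hcop.gcd_eq_one] at this
    exact_mod_cast this.symm
  have hb' : ((q : ℕ) : L) * ((Nat.gcdA q q' : ℤ) : L) + ((q' : ℕ) : L) * ((Nat.gcdB q q' : ℤ) : L)
      = 1 := by
    exact_mod_cast congrArg (fun z : ℤ => (z : L)) hb
  have h3 : A.valuation (1 : L) < 1 := by
    rw [← hb']
    refine lt_of_le_of_lt (Valuation.map_add _ _ _) (max_lt ?_ ?_)
    · rw [map_mul]
      exact lt_of_le_of_lt (mul_le_of_le_one_right zero_le (hint _)) h1
    · rw [map_mul]
      exact lt_of_le_of_lt (mul_le_of_le_one_right zero_le (hint _)) h2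
  rw [map_one] at h3
  exact lt_irrefl _ h3

variable (S : Finset Nat.Primes)

/-- The places of `Qbar` (valuation subrings) lying over a rational prime outside `S`. -/
def PlacesOutside : Type :=
  {A : ValuationSubring Qbar // ∃ q : Nat.Primes, q ∉ S ∧ A.LiesOverPrime (q : ℕ)}

variable {S}

namespace PlacesOutside

/-- The underlying valuation subring. -/
abbrev val (A : PlacesOutside S) : ValuationSubring Qbar := Subtype.val A

/-- The rational prime below a place. -/
def prime (A : PlacesOutside S) : Nat.Primes := Classical.choose A.2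

theorem prime_notMem (A : PlacesOutside S) : A.prime ∉ S := (Classical.choose_spec A.2).1

theorem liesOver_prime (A : PlacesOutside S) : A.val.LiesOverPrime (A.prime : ℕ) :=
  (Classical.choose_spec A.2).2

theorem prime_eq_of_liesOver (A : PlacesOutside S) {q : Nat.Primes}
    (h : A.val.LiesOverPrime (q : ℕ)) : A.prime = q :=
  Subtype.ext (liesOverPrime_unique A.prime.2 q.2 A.liesOver_prime h)

theorem liesOver_iff (A : PlacesOutside S) {q : Nat.Primes} :
    A.val.LiesOverPrime (q : ℕ) ↔ A.prime = q :=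
  ⟨A.prime_eq_of_liesOver, fun h => h ▸ A.liesOver_prime⟩

@[ext] theorem ext {A B : PlacesOutside S} (h : A.val = B.val) : A = B := Subtype.ext h

/-- Constructor from a valuation subring over a prime outside `S`. -/
def mk' (A : ValuationSubring Qbar) (q : Nat.Primes) (hq : q ∉ S) (hA : A.LiesOverPrime (q : ℕ)) :
    PlacesOutside S := ⟨A, q, hq, hA⟩

@[simp] theorem val_mk' (A : ValuationSubring Qbar) (q : Nat.Primes) (hq : q ∉ S)
    (hA : A.LiesOverPrime (q : ℕ)) : (mk' A q hq hA).val = A := rfl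

@[simp] theorem prime_mk' (A : ValuationSubring Qbar) (q : Nat.Primes) (hq : q ∉ S)
    (hA : A.LiesOverPrime (q : ℕ)) : (mk' A q hq hA).prime = q :=
  prime_eq_of_liesOver _ hA

instance : MulAction GQ (PlacesOutside S) where
  smul σ A := ⟨σ • A.val, A.prime, A.prime_notMem, H1.liesOverPrime_smul σ A.liesOver_prime⟩
  one_smul A := Subtype.ext (one_smul GQ A.val)
  mul_smul σ τ A := Subtype.ext (mul_smul σ τ A.val)

@[simp] theorem val_smul (σ : GQ) (A : PlacesOutside S) : (σ • A).val = σ • A.val := rfl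

@[simp] theorem prime_smul (σ : GQ) (A : PlacesOutside S) : (σ • A).prime = A.prime :=
  prime_eq_of_liesOver _ (H1.liesOverPrime_smul σ A.liesOver_prime)

end PlacesOutside

/-! ### The divisor module -/

/-- `d` is invariant under the fixing subgroup of some field unramified outside `S`. -/
def IsLevelInvariant (d : PlacesOutside S → ℤ) : Prop :=
  ∃ F : IntermediateField ℚ Qbar, F.IsUnramifiedOutside S ∧
    ∀ σ ∈ F.fixingSubgroup, ∀ A : PlacesOutside S, d (σ • A) = d A

/-- The support of `d` lies over finitely many rational primes. -/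
def HasFinitePrimeSupport (d : PlacesOutside S → ℤ) : Prop :=
  {q : Nat.Primes | ∃ A : PlacesOutside S, A.prime = q ∧ d A ≠ 0}.Finite

theorem IsLevelInvariant.add {d d' : PlacesOutside S → ℤ} (h : IsLevelInvariant d)
    (h' : IsLevelInvariant d') : IsLevelInvariant (d + d') := by
  obtain ⟨F, hF, hd⟩ := h
  obtain ⟨F', hF', hd'⟩ := h'
  refine ⟨F ⊔ F', hF.sup hF', fun σ hσ A => ?_⟩
  rw [IntermediateField.fixingSubgroup_sup] at hσ
  simp only [Pi.add_apply]
  rw [hd σ hσ.1, hd' σ hσ.2]

theorem HasFinitePrimeSupport.add {d d' : PlacesOutside S → ℤ} (h : HasFinitePrimeSupport d)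
    (h' : HasFinitePrimeSupport d') : HasFinitePrimeSupport (d + d') := by
  refine (h.union h').subset ?_
  rintro q ⟨A, hAq, hne⟩
  by_cases h0 : d A = 0
  · right
    refine ⟨A, hAq, fun h0' => hne ?_⟩
    simp [h0, h0']
  · left
    exact ⟨A, hAq, h0⟩

variable (S)

/-- The top-level divisor group outside `S`: level-invariant functions on the places outside `S`
with support over finitely many rational primes. -/
def DivTop : AddSubgroup (PlacesOutside S → ℤ) where
  carrier := {d | IsLevelInvariant d ∧ HasFinitePrimeSupport d}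
  add_mem' := fun h h' => ⟨h.1.add h'.1, h.2.add h'.2⟩
  zero_mem' := by
    refine ⟨⟨⊥, IntermediateField.isUnramifiedOutside_bot S, fun _ _ _ => rfl⟩, ?_⟩
    refine Set.Finite.subset Set.finite_empty ?_
    rintro q ⟨A, -, hne⟩
    exact (hne rfl).elim
  neg_mem' := by
    rintro d ⟨⟨F, hF, hd⟩, hfin⟩
    refine ⟨⟨F, hF, fun σ hσ A => by simp only [Pi.neg_apply, hd σ hσ A]⟩, ?_⟩
    refine hfin.subset ?_
    rintro q ⟨A, hAq, hne⟩
    exact ⟨A, hAq, fun h0 => hne (by simp [h0])⟩

variable {S}

theorem mem_DivTop_iff {d : PlacesOutside S → ℤ} :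
    d ∈ DivTop S ↔ IsLevelInvariant d ∧ HasFinitePrimeSupport d := Iff.rfl

instance : CoeFun (DivTop S) (fun _ => PlacesOutside S → ℤ) := ⟨fun d => d.1⟩

@[ext] theorem DivTop.ext {d d' : DivTop S} (h : ∀ A, d A = d' A) : d = d' :=
  Subtype.ext (funext h)

@[simp] theorem DivTop.add_apply (d d' : DivTop S) (A : PlacesOutside S) :
    (d + d') A = d A + d' A := rfl

@[simp] theorem DivTop.zero_apply (A : PlacesOutside S) : (0 : DivTop S) A = 0 := rfl

@[simp] theorem DivTop.neg_apply (d : DivTop S) (A : PlacesOutside S) : (-d) A = -d A := rfl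

@[simp] theorem DivTop.sub_apply (d d' : DivTop S) (A : PlacesOutside S) :
    (d - d') A = d A - d' A := rfl

theorem conj_mem_fixingSubgroup_map {F : IntermediateField ℚ Qbar} (σ : GQ) {τ : GQ}
    (hτ : τ ∈ (F.map (σ : Qbar →ₐ[ℚ] Qbar)).fixingSubgroup) : σ⁻¹ * τ * σ ∈ F.fixingSubgroup := by
  rw [IntermediateField.mem_fixingSubgroup_iff] at hτ ⊢
  intro x hx
  have h1 := hτ (σ x) ⟨x, hx, rfl⟩
  show σ⁻¹ (τ (σ x)) = x
  rw [h1]
  show (σ⁻¹ * σ) x = x
  rw [inv_mul_cancel]
  rfl

/-- The translate `A ↦ d (σ⁻¹ • A)` of an element of `DivTop S`. -/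
def DivTop.smulAux (σ : GQ) (d : DivTop S) : DivTop S :=
  ⟨fun A => d (σ⁻¹ • A), by
    obtain ⟨⟨F, hF, hd⟩, hfin⟩ := d.2
    refine ⟨⟨F.map (σ : Qbar →ₐ[ℚ] Qbar), H1.isUnramifiedOutside_map hF σ, fun τ hτ A => ?_⟩, ?_⟩
    · have h1 := hd _ (conj_mem_fixingSubgroup_map σ hτ) (σ⁻¹ • A)
      have h2 : (σ⁻¹ * τ * σ) • σ⁻¹ • A = σ⁻¹ • τ • A := by
        rw [mul_smul, mul_smul, smul_inv_smul]
      rw [h2] at h1
      exact h1
    · refine hfin.subset ?_
      rintro q ⟨A, hAq, hne⟩
      exact ⟨σ⁻¹ • A, by rw [PlacesOutside.prime_smul]; exact hAq, hne⟩⟩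

instance : DistribMulAction GQ (DivTop S) where
  smul σ d := DivTop.smulAux σ d
  one_smul d := by
    apply DivTop.ext
    intro A
    show d ((1 : GQ)⁻¹ • A) = d A
    rw [inv_one, one_smul]
  mul_smul σ τ d := by
    apply DivTop.ext
    intro A
    show d ((σ * τ)⁻¹ • A) = d (τ⁻¹ • σ⁻¹ • A)
    rw [mul_inv_rev, mul_smul]
  smul_zero σ := by
    apply DivTop.ext
    intro A
    rfl
  smul_add σ d d' := by
    apply DivTop.ext
    intro A
    rfl

@[simp] theorem DivTop.smul_apply (σ : GQ) (d : DivTop S) (A : PlacesOutside S) :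
    (σ • d) A = d (σ⁻¹ • A) := rfl

variable (S)

/-- The top-level divisor module as a representation of `G_ℚ`. -/
abbrev repDivTop : Rep ℤ GQ := Rep.ofDistribMulAction ℤ GQ (DivTop S)

variable {S}

/-- Every element of `DivTop S` is fixed by some level of `levelsS S`. -/
theorem DivTop.exists_level (d : DivTop S) :
    ∃ N ∈ (H87.levelsS S).levels, ∀ n ∈ N, n • d = d := by
  obtain ⟨⟨F, hF, hd⟩, -⟩ := d.2
  refine ⟨F.fixingSubgroup, ⟨F, hF, rfl⟩, fun n hn => ?_⟩
  apply DivTop.ext
  intro A
  rw [DivTop.smul_apply]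
  exact hd n⁻¹ (inv_mem hn) A

/-- `DivTop S` is a discrete `G_ℚ`-module for the levels unramified outside `S`. -/
theorem repDivTop_isDiscrete : (H87.levelsS S).IsDiscrete (repDivTop S) := by
  intro a
  obtain ⟨N, hN, h⟩ := DivTop.exists_level (S := S) a
  exact ⟨N, hN, fun n hn => h n hn⟩

end

end Fermat.Agent.CFT.H45
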