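/-
CFT layer C, package C-TOP-Div (helper45), slice 2a: the valuation bridge.

For a number field `L`, an embedding `ι : L →ₐ[ℚ] Qbar` and a valuation subring `A` of `Qbar` over the
rational prime `ℓ`, the prime `P = H37.primeOf ι A` of `𝓞 L` satisfies
`v_P(x) ≤ 1 → ι x ∈ A`, and if `e(P | ℓ) = 1` then `x / ℓ ^ ord_P(x)` is a unit of `A`.
-/
import Mathlib
import Fermat.Agent.CFT.H37_PlaceOrbits
import Fermat.Agent.CFT.H23_CDefs
import Fermat.Agent.CFT.H45_TopDivDefs

set_option autoImplicit false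

namespace Fermat.Agent.CFT.H45

open NumberField IsDedekindDomain
open Fermat.Agent.S54 Fermat.Agent.S14.H37 Fermat.Agent.S14.H54 Fermat.Agent.CFT.H37
open scoped Pointwise

noncomputable section

section Bridge

variable {L : Type*} [Field L] [NumberField L] (ι : L →ₐ[ℚ] AlgebraicClosure ℚ)
  {A : ValuationSubring (AlgebraicClosure ℚ)} {ℓ : ℕ} (hℓ : ℓ.Prime) (hA : A.LiesOverPrime ℓ)

/-- The place of `L` cut out by `A` (through `ι`), as a height-one prime of `𝓞 L`. -/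
def placeOf : HeightOneSpectrum (𝓞 L) :=
  ⟨primeOf ι A, inferInstance, primeOf_ne_bot ι hℓ hA⟩

@[simp] theorem placeOf_asIdeal : (placeOf ι hℓ hA).asIdeal = primeOf ι A := rfl

theorem map_integer_mem (n : 𝓞 L) : ι (n : L) ∈ A :=
  mem_valuationSubring_of_isIntegral A
    (map_isIntegral_int ι.toRingHom (RingOfIntegers.isIntegral_coe n))

/-- Elements of `L` integral at `P` land in `A`. -/
theorem map_mem_of_valuation_le_one {x : L} (hx : (placeOf ι hℓ hA).valuation L x ≤ 1) :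
    ι x ∈ A := by
  obtain ⟨n, d, h⟩ := (placeOf ι hℓ hA).exists_primeCompl_mul_eq_of_integer x hx
  have hd : ι ((d : 𝓞 L) : L) ∉ A.nonunits := fun hmem => d.2 ((mem_primeOf ι).mpr hmem)
  obtain ⟨hd0, hdinv⟩ := inv_mem_of_not_mem_nonunits A hd
  have hn : ι ((n : 𝓞 L) : L) ∈ A := map_integer_mem ι n
  have h' : ι x * ι ((d : 𝓞 L) : L) = ι ((n : 𝓞 L) : L) := by
    rw [← map_mul]
    exact congrArg ι h
  have h3 : ι x = ι ((n : 𝓞 L) : L) * (ι ((d : 𝓞 L) : L))⁻¹ := by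
    rw [← h', mul_assoc, mul_inv_cancel₀ hd0, mul_one]
  rw [h3]
  exact A.mul_mem _ _ hn hdinv

/-- Units at `P` are units of `A`. -/
theorem valuation_map_eq_one {x : L} (hx : (placeOf ι hℓ hA).valuation L x = 1) :
    A.valuation (ι x) = 1 := by
  have hx0 : x ≠ 0 := by
    rintro rfl
    rw [map_zero] at hx
    exact zero_ne_one hx
  have h1 : ι x ∈ A := map_mem_of_valuation_le_one ι hℓ hA hx.le
  have h2 : ι x⁻¹ ∈ A := by
    apply map_mem_of_valuation_le_one ι hℓ hA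
    rw [map_inv₀, hx, inv_one]
  have h1' := (A.valuation_le_one_iff _).mpr h1
  have h2' := (A.valuation_le_one_iff _).mpr h2
  rw [map_inv₀, map_inv₀] at h2'
  have hpos : 0 < A.valuation (ι x) :=
    zero_lt_iff.mpr ((Valuation.ne_zero_iff _).mpr ((map_ne_zero ι).mpr hx0))
  rw [inv_le_one₀ hpos] at h2'
  exact le_antisymm h1' h2'

/-- The prime `(ℓ)` of `ℤ`. -/
def intPlace : HeightOneSpectrum ℤ :=
  ⟨Ideal.span {(ℓ : ℤ)}, (Ideal.span_singleton_prime (by exact_mod_cast hℓ.ne_zero)).mpr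
    (Nat.prime_iff_prime_int.mp hℓ), by
      rw [Ne, Ideal.span_singleton_eq_bot]
      exact_mod_cast hℓ.ne_zero⟩

include hℓ hA in
theorem primeOf_liesOver_span : (primeOf ι A).LiesOver (Ideal.span {(ℓ : ℤ)}) := by
  constructor
  have hmax : (Ideal.span {(ℓ : ℤ)}).IsMaximal :=
    ((intPlace hℓ).isPrime.isMaximal (intPlace hℓ).ne_bot)
  refine hmax.eq_of_le ?_ ?_
  · exact (Ideal.IsPrime.under ℤ (primeOf ι A)).ne_top
  · rw [Ideal.span_singleton_le_iff_mem, Ideal.under_def, Ideal.mem_comap]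
    have : algebraMap ℤ (𝓞 L) (ℓ : ℤ) = ((ℓ : ℕ) : 𝓞 L) := by simp
    rw [this]
    exact (natCast_mem_primeOf_iff ι).mpr hA

/-- If `P` is unramified over `ℓ`, then `ℓ` is a uniformizer at `P`. -/
theorem valuation_natCast_eq (he : (primeOf ι A).ramificationIdx ℤ = 1) :
    (placeOf ι hℓ hA).valuation L ((ℓ : ℕ) : L) = WithZero.exp (-1 : ℤ) := by
  have : (placeOf ι hℓ hA).asIdeal.LiesOver (intPlace hℓ).asIdeal := primeOf_liesOver_span ι hℓ hA
  have h1 := HeightOneSpectrum.intValuation_liesOver (intPlace hℓ) (placeOf ι hℓ hA) (ℓ : ℤ)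
  have h2 : (intPlace hℓ).asIdeal.ramificationIdx' (placeOf ι hℓ hA).asIdeal = 1 := by
    rw [Ideal.ramificationIdx'_eq_ramificationIdx (intPlace hℓ).asIdeal (placeOf ι hℓ hA).asIdeal
      (intPlace hℓ).ne_bot]
    exact he
  rw [h2, pow_one] at h1
  have h3 : (intPlace hℓ).intValuation (ℓ : ℤ) = WithZero.exp (-1 : ℤ) :=
    HeightOneSpectrum.intValuation_singleton _ (by exact_mod_cast hℓ.ne_zero) rfl
  rw [h3] at h1
  have h4 : ((ℓ : ℕ) : L) = algebraMap (𝓞 L) L (algebraMap ℤ (𝓞 L) (ℓ : ℤ)) := by simp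
  rw [h4, HeightOneSpectrum.valuation_of_algebraMap, ← h1]

end Bridge

end

end Fermat.Agent.CFT.H45
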