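/-
CFT layer C, package C-TOP-Div (helper45), slice 2b: orders at places of `Qbar` and the divisor map.

`IsOrdAt A q x n` : `x / q ^ n` is a unit of the valuation subring `A` (over `q`).
For `x ∈ (ℚ_S)ˣ` and `A` over `q ∉ S` the order exists and is unique (`ℚ_S/ℚ` is unramified at `q`):
`ordAtTop A : (ℚ_S)ˣ →* Multiplicative ℤ`, `divSTop : (ℚ_S)ˣ →* Multiplicative (DivTop S)`.
-/
import Mathlib
import Fermat.Agent.CFT.H45_TopDivBridge

set_option autoImplicit false

namespace Fermat.Agent.CFT.H45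

open NumberField IsDedekindDomain
open Fermat.Agent.S54 Fermat.Agent.S14.H37 Fermat.Agent.S14.H54 Fermat.Agent.CFT.H37
open scoped Pointwise

noncomputable section

/-! ### `IsOrdAt` -/

section IsOrdAt

variable {A : ValuationSubring (AlgebraicClosure ℚ)} {q : ℕ}

/-- `n` is the order of `x` at `A` relative to `q`: `x / q ^ n` is a unit of `A`. -/
def IsOrdAt (A : ValuationSubring (AlgebraicClosure ℚ)) (q : ℕ) (x : AlgebraicClosure ℚ) (n : ℤ) :
    Prop :=
  A.valuation (x * (((q : ℕ) : AlgebraicClosure ℚ) ^ n)⁻¹) = 1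

theorem IsOrdAt.ne_zero {x : AlgebraicClosure ℚ} {n : ℤ} (h : IsOrdAt A q x n) : x ≠ 0 := by
  rintro rfl
  unfold IsOrdAt at h
  rw [zero_mul, map_zero] at h
  exact zero_ne_one h

theorem isOrdAt_zero_iff {x : AlgebraicClosure ℚ} : IsOrdAt A q x 0 ↔ A.valuation x = 1 := by
  unfold IsOrdAt
  rw [zpow_zero, inv_one, mul_one]

theorem isOrdAt_one : IsOrdAt A q 1 0 := isOrdAt_zero_iff.mpr (map_one _)

theorem IsOrdAt.mul (hq : q ≠ 0) {x y : AlgebraicClosure ℚ} {n m : ℤ} (hx : IsOrdAt A q x n)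
    (hy : IsOrdAt A q y m) : IsOrdAt A q (x * y) (n + m) := by
  unfold IsOrdAt at *
  have hq' : ((q : ℕ) : AlgebraicClosure ℚ) ≠ 0 := by exact_mod_cast hq
  have : x * y * (((q : ℕ) : AlgebraicClosure ℚ) ^ (n + m))⁻¹ =
      (x * (((q : ℕ) : AlgebraicClosure ℚ) ^ n)⁻¹) * (y * (((q : ℕ) : AlgebraicClosure ℚ) ^ m)⁻¹) := by
    rw [zpow_add₀ hq', mul_inv]
    ring
  rw [this, map_mul, hx, hy, one_mul]

theorem IsOrdAt.inv {x : AlgebraicClosure ℚ} {n : ℤ} (hx : IsOrdAt A q x n) :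
    IsOrdAt A q x⁻¹ (-n) := by
  unfold IsOrdAt at *
  have : x⁻¹ * (((q : ℕ) : AlgebraicClosure ℚ) ^ (-n))⁻¹ =
      (x * (((q : ℕ) : AlgebraicClosure ℚ) ^ n)⁻¹)⁻¹ := by
    rw [zpow_neg, mul_inv]
  rw [this, map_inv₀, hx, inv_one]

theorem valuation_natCast_pos (hq : q ≠ 0) : 0 < A.valuation ((q : ℕ) : AlgebraicClosure ℚ) :=
  zero_lt_iff.mpr ((Valuation.ne_zero_iff _).mpr (by exact_mod_cast hq))

theorem IsOrdAt.valuation_eq (hq : q ≠ 0) {x : AlgebraicClosure ℚ} {n : ℤ} (hx : IsOrdAt A q x n) :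
    A.valuation x = A.valuation ((q : ℕ) : AlgebraicClosure ℚ) ^ n := by
  unfold IsOrdAt at hx
  have hpos := valuation_natCast_pos (A := A) hq
  rw [map_mul, map_inv₀, map_zpow₀] at hx
  have hne : A.valuation ((q : ℕ) : AlgebraicClosure ℚ) ^ n ≠ 0 := zpow_ne_zero _ hpos.ne'
  rw [mul_inv_eq_one₀ hne] at hx
  exact hx

theorem isOrdAt_iff_valuation_eq (hq : q ≠ 0) {x : AlgebraicClosure ℚ} {n : ℤ} :
    IsOrdAt A q x n ↔ A.valuation x = A.valuation ((q : ℕ) : AlgebraicClosure ℚ) ^ n := by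
  refine ⟨fun h => h.valuation_eq hq, fun h => ?_⟩
  unfold IsOrdAt
  have hpos := valuation_natCast_pos (A := A) hq
  have hne : A.valuation ((q : ℕ) : AlgebraicClosure ℚ) ^ n ≠ 0 := zpow_ne_zero _ hpos.ne'
  rw [map_mul, map_inv₀, map_zpow₀, mul_inv_eq_one₀ hne]
  exact h

theorem IsOrdAt.unique (hq : q ≠ 0) (hA : A.LiesOverPrime q) {x : AlgebraicClosure ℚ} {n m : ℤ}
    (hn : IsOrdAt A q x n) (hm : IsOrdAt A q x m) : n = m := by
  have h1 := hn.valuation_eq hq
  have h2 := hm.valuation_eq hq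
  rw [h1] at h2
  have hpos := valuation_natCast_pos (A := A) hq
  have hlt : A.valuation ((q : ℕ) : AlgebraicClosure ℚ) < 1 := A.mem_nonunits_iff.mp hA
  exact zpow_right_injective₀ hpos hlt.ne h2

theorem isOrdAt_smul_iff (σ : GQ) {x : AlgebraicClosure ℚ} {n : ℤ} :
    IsOrdAt (σ • A) q (σ x) n ↔ IsOrdAt A q x n := by
  unfold IsOrdAt
  have h1 : σ x * (((q : ℕ) : AlgebraicClosure ℚ) ^ n)⁻¹ =
      σ (x * (((q : ℕ) : AlgebraicClosure ℚ) ^ n)⁻¹) := by
    rw [map_mul, map_inv₀, map_zpow₀, map_natCast]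
  rw [h1]
  exact H1.valuation_smul_eq_one_iff A σ _

theorem isOrdAt_smul_iff' (σ : GQ) {x : AlgebraicClosure ℚ} {n : ℤ} :
    IsOrdAt (σ • A) q x n ↔ IsOrdAt A q (σ⁻¹ x) n := by
  rw [← isOrdAt_smul_iff σ (x := σ⁻¹ x)]
  have : σ (σ⁻¹ x) = x := by
    show (σ * σ⁻¹) x = x
    rw [mul_inv_cancel]; rfl
  rw [this]

end IsOrdAt

/-! ### The bridge to finite level -/

section BridgeOrd

variable {L : Type*} [Field L] [NumberField L] (ι : L →ₐ[ℚ] AlgebraicClosure ℚ)
  {A : ValuationSubring (AlgebraicClosure ℚ)} {ℓ : ℕ} (hℓ : ℓ.Prime) (hA : A.LiesOverPrime ℓ)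

/-- **Bridge**: if `P = primeOf ι A` is unramified over `ℓ`, then the order of `ι x` at `A` is the
`P`-adic order of `x`. -/
theorem isOrdAt_map (he : (primeOf ι A).ramificationIdx ℤ = 1) (x : Lˣ) :
    IsOrdAt A ℓ (ι (x : L)) (Multiplicative.toAdd (H23.ordAt L (placeOf ι hℓ hA) x)) := by
  set k : ℤ := Multiplicative.toAdd (H23.ordAt L (placeOf ι hℓ hA) x) with hk
  unfold IsOrdAt
  have hℓ0 : ((ℓ : ℕ) : L) ≠ 0 := by exact_mod_cast hℓ.ne_zero
  have h1 : ι (x : L) * (((ℓ : ℕ) : AlgebraicClosure ℚ) ^ k)⁻¹ =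
      ι ((x : L) * (((ℓ : ℕ) : L) ^ k)⁻¹) := by
    rw [map_mul, map_inv₀, map_zpow₀, map_natCast]
  rw [h1]
  apply valuation_map_eq_one ι hℓ hA
  rw [map_mul, map_inv₀, map_zpow₀, valuation_natCast_eq ι hℓ hA he]
  have h2 : (placeOf ι hℓ hA).valuation L (x : L) = WithZero.exp (-k) := by
    rw [← H10.coe_ordHom, hk, H23.ordAt_apply, toAdd_inv, neg_neg, WithZero.exp_eq_coe_ofAdd,
      ofAdd_toAdd]
  rw [h2, ← WithZero.exp_zsmul, ← WithZero.exp_neg, ← WithZero.exp_add]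
  simp

end BridgeOrd

/-! ### Orders of elements of `ℚ_S` at the places outside `S` -/

section Top

variable {S : Finset Nat.Primes}

/-- Fields unramified outside `S` are number fields. -/
theorem numberField_of_isUnramifiedOutside {F : IntermediateField ℚ (AlgebraicClosure ℚ)}
    (hF : F.IsUnramifiedOutside S) : NumberField ↥F :=
  { to_charZero := inferInstance, to_finiteDimensional := hF.1 }

theorem ramificationIdx_eq_one_of_isUnramifiedOutside
    (F : IntermediateField ℚ (AlgebraicClosure ℚ)) [NumberField ↥F] [IsGalois ℚ ↥F]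
    (hF : F.IsUnramifiedOutside S) (A : PlacesOutside S) :
    (primeOf (incl F) A.val).ramificationIdx ℤ = 1 :=
  (isUnramifiedOutside_iff_int F S).mp hF A.prime A.prime_notMem _ inferInstance
    ((natCast_mem_primeOf_iff _).mpr A.liesOver_prime)

/-- Every nonzero element of `ℚ_S` has an order at every place outside `S`. -/
theorem exists_isOrdAt (A : PlacesOutside S) {x : AlgebraicClosure ℚ} (hx : x ∈ H1.QS S)
    (hx0 : x ≠ 0) : ∃ n : ℤ, IsOrdAt A.val A.prime x n := by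
  obtain ⟨F, hF, hxF⟩ := hx
  have hF' := H87.isUnramifiedOutside_galClosure hF
  have : NumberField ↥(H87.galClosure F) := numberField_of_isUnramifiedOutside hF'
  have := H87.normal_galClosure F
  have : IsGalois ℚ ↥(H87.galClosure F) := ⟨⟩
  have he := ramificationIdx_eq_one_of_isUnramifiedOutside _ hF' A
  let y : (↥(H87.galClosure F))ˣ := Units.mk0 ⟨x, H87.le_galClosure F hxF⟩ (by
    intro h
    exact hx0 (congrArg Subtype.val h))
  exact ⟨_, isOrdAt_map (incl _) A.prime.2 A.liesOver_prime he y⟩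

theorem coe_units_ne_zero (x : (↥(H1.QS S))ˣ) : ((x : ↥(H1.QS S)) : AlgebraicClosure ℚ) ≠ 0 := by
  intro h
  apply x.ne_zero
  exact Subtype.ext h

/-- The order of `x ∈ (ℚ_S)ˣ` at a place outside `S`. -/
def ordAtTop (A : PlacesOutside S) : (↥(H1.QS S))ˣ →* Multiplicative ℤ where
  toFun x := Multiplicative.ofAdd
    (Classical.choose (exists_isOrdAt A (x : ↥(H1.QS S)).2 (coe_units_ne_zero x)))
  map_one' := by
    have h := Classical.choose_spec
      (exists_isOrdAt A ((1 : (↥(H1.QS S))ˣ) : ↥(H1.QS S)).2 (coe_units_ne_zero 1))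
    have h1 : IsOrdAt A.val A.prime (((1 : (↥(H1.QS S))ˣ) : ↥(H1.QS S)) : AlgebraicClosure ℚ) 0 := by
      have : (((1 : (↥(H1.QS S))ˣ) : ↥(H1.QS S)) : AlgebraicClosure ℚ) = 1 := rfl
      rw [this]
      exact isOrdAt_one
    rw [h.unique A.prime.2.ne_zero A.liesOver_prime h1]
    rfl
  map_mul' x y := by
    have hx := Classical.choose_spec
      (exists_isOrdAt A (x : ↥(H1.QS S)).2 (coe_units_ne_zero x))
    have hy := Classical.choose_spec
      (exists_isOrdAt A (y : ↥(H1.QS S)).2 (coe_units_ne_zero y))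
    have hxy := Classical.choose_spec
      (exists_isOrdAt A ((x * y : (↥(H1.QS S))ˣ) : ↥(H1.QS S)).2 (coe_units_ne_zero (x * y)))
    have h1 := hx.mul A.prime.2.ne_zero hy
    have hxy' : IsOrdAt A.val A.prime
        (((x : ↥(H1.QS S)) : AlgebraicClosure ℚ) * ((y : ↥(H1.QS S)) : AlgebraicClosure ℚ)) _ := hxy
    rw [hxy'.unique A.prime.2.ne_zero A.liesOver_prime h1]
    rfl

theorem isOrdAt_ordAtTop (A : PlacesOutside S) (x : (↥(H1.QS S))ˣ) :
    IsOrdAt A.val A.prime ((x : ↥(H1.QS S)) : AlgebraicClosure ℚ)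
      (Multiplicative.toAdd (ordAtTop A x)) :=
  Classical.choose_spec (exists_isOrdAt A (x : ↥(H1.QS S)).2 (coe_units_ne_zero x))

theorem ordAtTop_eq_iff (A : PlacesOutside S) (x : (↥(H1.QS S))ˣ) (n : ℤ) :
    Multiplicative.toAdd (ordAtTop A x) = n ↔
      IsOrdAt A.val A.prime ((x : ↥(H1.QS S)) : AlgebraicClosure ℚ) n :=
  ⟨fun h => h ▸ isOrdAt_ordAtTop A x,
    fun h => (isOrdAt_ordAtTop A x).unique A.prime.2.ne_zero A.liesOver_prime h⟩

/-- `A.valuation x = A.valuation q ^ ordAt A x`. -/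
theorem valuation_eq_zpow_ordAtTop (A : PlacesOutside S) (x : (↥(H1.QS S))ˣ) :
    A.val.valuation ((x : ↥(H1.QS S)) : AlgebraicClosure ℚ) =
      A.val.valuation (((A.prime : ℕ) : ℕ) : AlgebraicClosure ℚ) ^
        (Multiplicative.toAdd (ordAtTop A x)) :=
  (isOrdAt_ordAtTop A x).valuation_eq A.prime.2.ne_zero

theorem ordAtTop_eq_one_iff (A : PlacesOutside S) (x : (↥(H1.QS S))ˣ) :
    ordAtTop A x = 1 ↔ A.val.valuation ((x : ↥(H1.QS S)) : AlgebraicClosure ℚ) = 1 := by
  rw [← isOrdAt_zero_iff (q := A.prime), ← ordAtTop_eq_iff]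
  rfl

/-- Equivariance of the order: `ord_{σ A}(y) = ord_A(x)` when `y = σ x`. -/
theorem ordAtTop_smul (σ : GQ) (A : PlacesOutside S) {x y : (↥(H1.QS S))ˣ}
    (hxy : ((y : ↥(H1.QS S)) : AlgebraicClosure ℚ) = σ ((x : ↥(H1.QS S)) : AlgebraicClosure ℚ)) :
    ordAtTop (σ • A) y = ordAtTop A x := by
  have h := isOrdAt_ordAtTop A x
  rw [← isOrdAt_smul_iff σ, ← hxy] at h
  have h2 : IsOrdAt (σ • A).val (σ • A).prime ((y : ↥(H1.QS S)) : AlgebraicClosure ℚ)
      (Multiplicative.toAdd (ordAtTop A x)) := by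
    rw [PlacesOutside.prime_smul]
    exact h
  exact (ordAtTop_eq_iff (σ • A) y _).mpr h2

/-! ### Finiteness of the support -/

theorem valuation_intCast_eq_one {A : ValuationSubring (AlgebraicClosure ℚ)} {q : ℕ} (hq : q.Prime)
    (hA : A.LiesOverPrime q) {m : ℤ} (hm : ¬ (q : ℤ) ∣ m) :
    A.valuation ((m : ℤ) : AlgebraicClosure ℚ) = 1 := by
  have hle : ∀ n : ℤ, A.valuation ((n : ℤ) : AlgebraicClosure ℚ) ≤ 1 := fun n =>
    (A.valuation_le_one_iff _).mpr (intCast_mem A n)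
  refine le_antisymm (hle m) (not_lt.mp fun hlt => ?_)
  have hcop : IsCoprime (q : ℤ) m :=
    ((Nat.prime_iff_prime_int.mp hq).irreducible.coprime_iff_not_dvd).mpr hm
  obtain ⟨a, b, hab⟩ := hcop
  have hq1 : A.valuation ((q : ℕ) : AlgebraicClosure ℚ) < 1 := A.mem_nonunits_iff.mp hA
  have hab' : ((a : ℤ) : AlgebraicClosure ℚ) * ((q : ℕ) : AlgebraicClosure ℚ) +
      ((b : ℤ) : AlgebraicClosure ℚ) * ((m : ℤ) : AlgebraicClosure ℚ) = 1 := by
    exact_mod_cast congrArg (fun z : ℤ => (z : AlgebraicClosure ℚ)) hab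
  have h3 : A.valuation (1 : AlgebraicClosure ℚ) < 1 := by
    rw [← hab']
    refine lt_of_le_of_lt (Valuation.map_add _ _ _) (max_lt ?_ ?_)
    · rw [map_mul]
      exact lt_of_le_of_lt (mul_le_of_le_one_left zero_le (hle _)) hq1
    · rw [map_mul]
      exact lt_of_le_of_lt (mul_le_of_le_one_left zero_le (hle _)) hlt
  rw [map_one] at h3
  exact lt_irrefl _ h3

theorem finite_setOf_primes_dvd {m : ℤ} (hm : m ≠ 0) : {q : Nat.Primes | ((q : ℕ) : ℤ) ∣ m}.Finite := by
  have hfin : (↑(m.natAbs.divisors) : Set ℕ).Finite := Finset.finite_toSet _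
  refine (hfin.preimage (f := fun q : Nat.Primes => (q : ℕ))
    (Subtype.val_injective.injOn)).subset ?_
  intro q hq
  simp only [Set.mem_preimage, Finset.mem_coe, Nat.mem_divisors]
  refine ⟨Int.natCast_dvd.mp hq, ?_⟩
  exact Int.natAbs_ne_zero.mpr hm

/-- A nonzero algebraic number is a unit at all places over all but finitely many primes. -/
theorem finite_setOf_valuation_ne_one {x : AlgebraicClosure ℚ} (hx : x ≠ 0) :
    {q : Nat.Primes | ∃ A : ValuationSubring (AlgebraicClosure ℚ),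
      A.LiesOverPrime (q : ℕ) ∧ A.valuation x ≠ 1}.Finite := by
  obtain ⟨m, hm0, hmx⟩ := (isAlgebraic_int_Qbar x).exists_integral_multiple
  obtain ⟨m', hm'0, hmx'⟩ := (isAlgebraic_int_Qbar x⁻¹).exists_integral_multiple
  refine (finite_setOf_primes_dvd (mul_ne_zero hm0 hm'0)).subset ?_
  rintro q ⟨A, hA, hne⟩
  by_contra hq
  apply hne
  have hq1 : ¬ ((q : ℕ) : ℤ) ∣ m := fun h => hq (Dvd.dvd.mul_right h m')
  have hq2 : ¬ ((q : ℕ) : ℤ) ∣ m' := fun h => hq (Dvd.dvd.mul_left h m)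
  have h1 := valuation_intCast_eq_one q.2 hA hq1
  have h2 := valuation_intCast_eq_one q.2 hA hq2
  have h3 : A.valuation (m • x) ≤ 1 :=
    (A.valuation_le_one_iff _).mpr (mem_valuationSubring_of_isIntegral A hmx)
  have h4 : A.valuation (m' • x⁻¹) ≤ 1 :=
    (A.valuation_le_one_iff _).mpr (mem_valuationSubring_of_isIntegral A hmx')
  rw [zsmul_eq_mul, map_mul, h1, one_mul] at h3
  rw [zsmul_eq_mul, map_mul, h2, one_mul, map_inv₀] at h4
  have hpos : 0 < A.valuation x := zero_lt_iff.mpr ((Valuation.ne_zero_iff _).mpr hx)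
  rw [inv_le_one₀ hpos] at h4
  exact le_antisymm h3 h4

/-! ### The divisor map -/

/-- The divisor of `x ∈ (ℚ_S)ˣ` as an element of `DivTop S`. -/
def divTopOf (x : (↥(H1.QS S))ˣ) : DivTop S :=
  ⟨fun A => Multiplicative.toAdd (ordAtTop A x), by
    constructor
    · obtain ⟨F, hF, hxF⟩ := (x : ↥(H1.QS S)).2
      refine ⟨F, hF, fun σ hσ A => ?_⟩
      show Multiplicative.toAdd (ordAtTop (σ • A) x) = Multiplicative.toAdd (ordAtTop A x)
      congr 1
      apply ordAtTop_smul σ A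
      exact ((IntermediateField.mem_fixingSubgroup_iff _ _).mp hσ _ hxF).symm
    · refine (finite_setOf_valuation_ne_one (coe_units_ne_zero x)).subset ?_
      rintro q ⟨A, hAq, hne⟩
      refine ⟨A.val, hAq ▸ A.liesOver_prime, fun h1 => hne ?_⟩
      have := (ordAtTop_eq_one_iff A x).mpr h1
      show Multiplicative.toAdd (ordAtTop A x) = 0
      rw [this]
      rfl⟩

@[simp] theorem divTopOf_apply (x : (↥(H1.QS S))ˣ) (A : PlacesOutside S) :
    divTopOf x A = Multiplicative.toAdd (ordAtTop A x) := rfl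

variable (S)

/-- The divisor map `(ℚ_S)ˣ → DivTop S` (multiplicative notation on the target, as in `H23.divS`). -/
def divSTop : (↥(H1.QS S))ˣ →* Multiplicative (DivTop S) where
  toFun x := Multiplicative.ofAdd (divTopOf x)
  map_one' := by
    apply congrArg Multiplicative.ofAdd
    apply DivTop.ext
    intro A
    simp
  map_mul' x y := by
    rw [← ofAdd_add]
    apply congrArg Multiplicative.ofAdd
    apply DivTop.ext
    intro A
    simp

variable {S}

theorem divSTop_apply (x : (↥(H1.QS S))ˣ) (A : PlacesOutside S) :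
    (Multiplicative.toAdd (divSTop S x)) A = Multiplicative.toAdd (ordAtTop A x) := rfl

/-- Equivariance of the divisor map, stated without choosing a `G_ℚ`-action on `↥(QS S)`:
if `y = σ x` then `div y = σ • div x`. -/
theorem divSTop_smul (σ : GQ) {x y : (↥(H1.QS S))ˣ}
    (hxy : ((y : ↥(H1.QS S)) : AlgebraicClosure ℚ) = σ ((x : ↥(H1.QS S)) : AlgebraicClosure ℚ)) :
    Multiplicative.toAdd (divSTop S y) = σ • Multiplicative.toAdd (divSTop S x) := by
  apply DivTop.ext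
  intro A
  rw [DivTop.smul_apply, divSTop_apply, divSTop_apply]
  congr 1
  have h := ordAtTop_smul σ (σ⁻¹ • A) hxy
  rw [smul_inv_smul] at h
  exact h

/-- The kernel of the divisor map: the elements which are units outside `S`. -/
theorem divSTop_eq_one_iff (x : (↥(H1.QS S))ˣ) :
    divSTop S x = 1 ↔ H1.IsUnitOutside S ((x : ↥(H1.QS S)) : AlgebraicClosure ℚ) := by
  constructor
  · intro h q hq A hA
    have h1 : (Multiplicative.toAdd (divSTop S x)) (PlacesOutside.mk' A q hq hA) = 0 := by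
      rw [h]
      rfl
    rw [divSTop_apply] at h1
    exact (ordAtTop_eq_one_iff (PlacesOutside.mk' A q hq hA) x).mp h1
  · intro h
    apply congrArg Multiplicative.ofAdd
    apply DivTop.ext
    intro A
    show Multiplicative.toAdd (ordAtTop A x) = 0
    have := (ordAtTop_eq_one_iff A x).mpr (h A.prime A.prime_notMem A.val A.liesOver_prime)
    rw [this]
    rfl

end Top

end

end Fermat.Agent.CFT.H45
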