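/-
CFT project, layer C, package C-ES (helper1), part 5: `DivTorsion S`.

Every top-level divisor `d : H77.DivTop S` has a nonzero multiple which is the divisor of a unit
of `ℚ_S`.  Proof: `d` is invariant under the fixing subgroup of a Galois number field `F`
unramified outside `S`; on `F` the divisor descends to a finitely supported function `D` on the
primes of `𝓞 F` (orbits of places, helper37); a power `v ^ h` (`h` the class number) of every
prime is principal (helper10), so `x := ∏ π_v ^ D v` has `ord_v x = h * D v`; finally the order of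
`x` at a place `A` of `ℚbar` above `v` is `ord_v x` because `e(v | q) = 1` (helper45's bridge).

Consequences: the cokernel of `JTop S → CSTop S` is uniquely `p`-divisible for `p ∈ S`.
-/
import Fermat.Agent.CFT.H1_X3
import Fermat.Agent.CFT.H45_TopDivOrd
import Fermat.Agent.CFT.H10_SUnitRank

set_option autoImplicit false

namespace Fermat.Agent.CFT.H1

open IntermediateField NumberField IsDedekindDomain
open Fermat.Agent.CFT Fermat.Agent.CFT.H77

local notation "Qbar" => AlgebraicClosure ℚ
local notation "GQ" => (AlgebraicClosure ℚ ≃ₐ[ℚ] AlgebraicClosure ℚ)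

noncomputable section

/-! ### Number field level: prescribed orders up to the class number -/

section NumberFieldLevel

variable (L : Type*) [Field L] [NumberField L]

open scoped Classical in
/-- The order at `w` of a generator of `v ^ h`. -/
theorem ordAt_of_span_eq_pow {v : HeightOneSpectrum (𝓞 L)} {π : 𝓞 L} {h : ℕ}
    (hπ : Ideal.span {π} = v.asIdeal ^ h) (y : Lˣ) (hy : (y : L) = algebraMap (𝓞 L) L π)
    (w : HeightOneSpectrum (𝓞 L)) :
    Multiplicative.toAdd (H23.ordAt L w y) = if w = v then (h : ℤ) else 0 := by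
  split_ifs with hwv
  · subst hwv
    have h1 : H10.ordHom L w y = Multiplicative.ofAdd (-(h : ℤ)) := by
      apply WithZero.coe_injective
      rw [H10.coe_ordHom, hy, HeightOneSpectrum.valuation_of_algebraMap,
        H10.intValuation_of_span_eq_pow w hπ]
      rfl
    rw [H23.ordAt_apply, h1, toAdd_inv, toAdd_ofAdd, neg_neg]
  · have h1 : H10.ordHom L w y = 1 := by
      rw [H10.ordHom_eq_one_iff, hy, HeightOneSpectrum.valuation_of_algebraMap,
        H10.intValuation_eq_one_of_span_eq_pow hwv hπ]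
    rw [H23.ordAt_apply, h1, inv_one, toAdd_one]

/-- For every finitely supported `D` on the primes of `𝓞 L` there is `x ∈ Lˣ` with
`ord_v x = h_L * D v` for all `v` (finiteness of the class group). -/
theorem exists_units_ordAt_eq (D : HeightOneSpectrum (𝓞 L) → ℤ)
    (hD : (Function.support D).Finite) :
    ∃ x : Lˣ, ∀ v : HeightOneSpectrum (𝓞 L),
      Multiplicative.toAdd (H23.ordAt L v x) = (classNumber L : ℤ) * D v := by
  classical
  choose π hπ using fun v : HeightOneSpectrum (𝓞 L) => H10.exists_span_eq_pow_classNumber L v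
  have hπ0 : ∀ v, algebraMap (𝓞 L) L (π v) ≠ 0 := by
    intro v h0
    have h1 : π v = 0 := by
      apply FaithfulSMul.algebraMap_injective (𝓞 L) L
      rw [h0, map_zero]
    have h2 := hπ v
    rw [h1, Ideal.span_singleton_eq_bot.mpr rfl] at h2
    exact pow_ne_zero _ v.ne_bot h2.symm
  let y : HeightOneSpectrum (𝓞 L) → Lˣ := fun v => Units.mk0 _ (hπ0 v)
  refine ⟨∏ v ∈ hD.toFinset, y v ^ D v, fun w => ?_⟩
  rw [map_prod, toAdd_prod]
  have hterm : ∀ v ∈ hD.toFinset, Multiplicative.toAdd (H23.ordAt L w (y v ^ D v)) =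
      if w = v then (classNumber L : ℤ) * D v else 0 := by
    intro v _
    rw [map_zpow, toAdd_zpow, ordAt_of_span_eq_pow L (hπ v) (y v) rfl w]
    split_ifs <;> simp [mul_comm]
  rw [Finset.sum_congr rfl hterm]
  by_cases hw : w ∈ hD.toFinset
  · rw [Finset.sum_eq_single_of_mem w hw (fun v _ hvw => if_neg (Ne.symm hvw)), if_pos rfl]
  · have hDw : D w = 0 := by
      by_contra h
      exact hw (hD.mem_toFinset.mpr h)
    rw [hDw, mul_zero]
    refine Finset.sum_eq_zero fun v hv => if_neg ?_
    rintro rfl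
    exact hw hv

end NumberFieldLevel

/-! ### The top level -/

variable (S : Finset Nat.Primes)

/-- **Every divisor class outside `S` is torsion.** -/
theorem divTorsion : DivTorsion S := by
  classical
  intro d
  obtain ⟨⟨F₀, hF₀, hinv₀⟩, hfin⟩ := d.2
  have hF : (H87.galClosure F₀).IsUnramifiedOutside S := H87.isUnramifiedOutside_galClosure hF₀
  have : NumberField ↥(H87.galClosure F₀) := H45.numberField_of_isUnramifiedOutside hF
  have := H87.normal_galClosure F₀
  have : IsGalois ℚ ↥(H87.galClosure F₀) := ⟨⟩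
  have hinv : ∀ σ ∈ (H87.galClosure F₀).fixingSubgroup, ∀ P : PlaceOut S, d.1 (σ • P) = d.1 P :=
    fun σ hσ P =>
      hinv₀ σ (IntermediateField.fixingSubgroup_antitone (H87.le_galClosure F₀) hσ) P
  -- the place of `F` below a place of `Qbar`
  let pl : PlaceOut S → HeightOneSpectrum (𝓞 ↥(H87.galClosure F₀)) := fun P =>
    H45.placeOf (Fermat.Agent.S14.H37.incl (H87.galClosure F₀)) P.q.2 P.hA
  have hpl : ∀ P P' : PlaceOut S, pl P = pl P' → d.1 P = d.1 P' := by
    intro P P' h
    have h' : H37.primeOf (Fermat.Agent.S14.H37.incl (H87.galClosure F₀)) P.A =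
        H37.primeOf (Fermat.Agent.S14.H37.incl (H87.galClosure F₀)) P'.A :=
      congrArg HeightOneSpectrum.asIdeal h
    obtain ⟨τ, hτ, hτA⟩ := H37.exists_smul_eq_of_primeOf_eq _ P.q.2 P.hA h'
    rw [H37.fixer_incl] at hτ
    have hP' : τ • P = P' := PlaceOut.ext_A hτA
    rw [← hP', hinv τ hτ]
  let D : HeightOneSpectrum (𝓞 ↥(H87.galClosure F₀)) → ℤ := fun v =>
    if h : ∃ P : PlaceOut S, pl P = v then d.1 h.choose else 0
  have hDpl : ∀ P, D (pl P) = d.1 P := by
    intro P
    have h : ∃ P' : PlaceOut S, pl P' = pl P := ⟨P, rfl⟩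
    show (if h : ∃ P' : PlaceOut S, pl P' = pl P then d.1 h.choose else 0) = d.1 P
    rw [dif_pos h]
    exact hpl _ _ h.choose_spec
  have hDfin : (Function.support D).Finite := by
    have hq0 : ∀ q : Nat.Primes,
        Ideal.span {(((q : ℕ) : ℕ) : 𝓞 ↥(H87.galClosure F₀))} ≠ 0 := by
      intro q h
      rw [Ideal.zero_eq_bot, Ideal.span_singleton_eq_bot] at h
      exact q.2.ne_zero (by exact_mod_cast h)
    refine (hfin.biUnion fun q _ => Ideal.finite_factors (hq0 q)).subset ?_
    intro v hv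
    have hv' : D v ≠ 0 := hv
    by_cases h : ∃ P : PlaceOut S, pl P = v
    · obtain ⟨P, rfl⟩ := h
      rw [hDpl] at hv'
      simp only [Set.mem_iUnion, Set.mem_ofPred_eq]
      refine ⟨P.q, ⟨P, rfl, hv'⟩, ?_⟩
      rw [Ideal.dvd_iff_le, Ideal.span_singleton_le_iff_mem]
      exact (H37.natCast_mem_primeOf_iff _).mpr P.hA
    · exact (hv' (dif_neg h)).elim
  obtain ⟨x, hx⟩ := exists_units_ordAt_eq ↥(H87.galClosure F₀) D hDfin
  have hxS : ((x : ↥(H87.galClosure F₀)) : Qbar) ∈ QS S := le_QS hF (x : ↥(H87.galClosure F₀)).2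
  have hx0 : ((x : ↥(H87.galClosure F₀)) : Qbar) ≠ 0 := by
    intro h
    exact x.ne_zero (Subtype.ext h)
  refine ⟨classNumber ↥(H87.galClosure F₀), classNumber_ne_zero _, omegaUnitOf hxS hx0, ?_⟩
  rw [omegaUnitOf_val]
  intro P
  have he : (H37.primeOf (Fermat.Agent.S14.H37.incl (H87.galClosure F₀)) P.A).ramificationIdx ℤ
      = 1 :=
    (H37.isUnramifiedOutside_iff_int (H87.galClosure F₀) S).mp hF P.q P.hq _ inferInstance
      ((H37.natCast_mem_primeOf_iff _).mpr P.hA)
  have h1 := H45.isOrdAt_map (Fermat.Agent.S14.H37.incl (H87.galClosure F₀)) P.q.2 P.hA he x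
  have h2 : Multiplicative.toAdd (H23.ordAt ↥(H87.galClosure F₀) (pl P) x) =
      (classNumber ↥(H87.galClosure F₀) • d.1) P := by
    rw [hx (pl P), hDpl P, Pi.smul_apply, nsmul_eq_mul]
  change H45.IsOrdAt P.A P.q _ (Multiplicative.toAdd (H23.ordAt ↥(H87.galClosure F₀) (pl P) x))
    at h1
  rw [h2] at h1
  unfold H45.IsOrdAt at h1
  rw [div_eq_mul_inv]
  exact h1

/-- **The cokernel of `JTop S → CSTop S` is `p`-divisible** for a prime `p ∈ S`. -/
theorem exists_pow_mul_jToCSTop' {p : ℕ} (hp : p.Prime)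
    (hpS : ∀ ℓ : Nat.Primes, (ℓ : ℕ) = p → ℓ ∈ S) (c : CSTop S) :
    ∃ (c' : CSTop S) (j : JTop S), c = c' ^ p * jToCSTop S j :=
  exists_pow_mul_jToCSTop (divTorsion S) hp hpS c

end

end Fermat.Agent.CFT.H1
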