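/-
CFT layer C, package C-TOP-Div (helper45), slice 3: invariants of the top-level divisor module.

For `F` unramified outside `S`: `primeOutside F : PlacesOutside S → H23.PrimesOutside S ↥F` is
surjective with fibres the `U_F`-orbits, and
`invariantsEquiv : DivTop.invariants F ≃+ H23.DivS S ↥F`, compatible with the divisor maps and with
`Gal(F/ℚ)`.
-/
import Mathlib
import Fermat.Agent.CFT.H45_TopDivOrd

set_option autoImplicit false

namespace Fermat.Agent.CFT.H45

open NumberField IsDedekindDomain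
open Fermat.Agent.S54 Fermat.Agent.S14.H37 Fermat.Agent.S14.H54 Fermat.Agent.CFT.H37
open scoped Pointwise

noncomputable section

variable {S : Finset Nat.Primes}

section PrimeOutside

variable (F : IntermediateField ℚ (AlgebraicClosure ℚ)) [NumberField ↥F]

/-- The prime of `𝓞 F` (outside `S`) cut out by a place of `Qbar` outside `S`. -/
def primeOutside (A : PlacesOutside S) : H23.PrimesOutside S ↥F :=
  ⟨placeOf (incl F) A.prime.2 A.liesOver_prime, fun q hq hmem => by
    have h1 : A.val.LiesOverPrime (q : ℕ) := (natCast_mem_primeOf_iff (incl F)).mp hmem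
    have h2 := A.prime_eq_of_liesOver h1
    exact A.prime_notMem (h2 ▸ hq)⟩

theorem primeOutside_asIdeal (A : PlacesOutside S) :
    (primeOutside F A).1.asIdeal = primeOf (incl F) A.val := rfl

theorem primeOutside_eq_iff_primeOf {A A' : PlacesOutside S} :
    primeOutside F A = primeOutside F A' ↔ primeOf (incl F) A.val = primeOf (incl F) A'.val := by
  constructor
  · intro h
    have := congrArg (fun P : H23.PrimesOutside S ↥F => P.1.asIdeal) h
    exact this
  · intro h
    apply Subtype.ext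
    apply HeightOneSpectrum.ext
    exact h

/-- The fibres of `primeOutside F` are the orbits of `U_F = F.fixingSubgroup`. -/
theorem primeOutside_eq_iff {A A' : PlacesOutside S} :
    primeOutside F A = primeOutside F A' ↔ ∃ τ ∈ F.fixingSubgroup, τ • A = A' := by
  rw [primeOutside_eq_iff_primeOf, primeOf_eq_iff (incl F) A.prime.2 A.liesOver_prime, fixer_incl]
  constructor
  · rintro ⟨τ, hτ, h⟩
    exact ⟨τ, hτ, PlacesOutside.ext h⟩
  · rintro ⟨τ, hτ, h⟩
    exact ⟨τ, hτ, congrArg PlacesOutside.val h⟩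

theorem primeOutside_smul_of_mem {τ : GQ} (hτ : τ ∈ F.fixingSubgroup) (A : PlacesOutside S) :
    primeOutside F (τ • A) = primeOutside F A :=
  ((primeOutside_eq_iff F).mpr ⟨τ, hτ, rfl⟩).symm

/-- Every prime of `𝓞 F` outside `S` is cut out by a place outside `S`. -/
theorem primeOutside_surjective : Function.Surjective (primeOutside (S := S) F) := by
  intro P
  have := P.1.isPrime
  obtain ⟨A, hA⟩ := exists_primeOf_eq (incl F) P.1.asIdeal P.1.ne_bot
  have hAtop : A ≠ ⊤ := by
    rintro rfl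
    obtain ⟨x, hxP, hx0⟩ := Submodule.exists_mem_ne_zero_of_ne_bot P.1.ne_bot
    rw [← hA, mem_primeOf, ValuationSubring.mem_nonunits_iff_or] at hxP
    rcases hxP with h | h
    · apply hx0
      have h' : (incl F) ((x : 𝓞 ↥F) : ↥F) = 0 := h
      rw [map_eq_zero] at h'
      exact RingOfIntegers.ext h'
    · exact h (ValuationSubring.mem_top _)
  obtain ⟨ℓ, hℓ, hAℓ⟩ := Fermat.Agent.S14.H54.exists_liesOverPrime hAtop
  have hℓP : ((ℓ : ℕ) : 𝓞 ↥F) ∈ P.1.asIdeal := hA ▸ (natCast_mem_primeOf_iff (incl F)).mpr hAℓ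
  have hℓS : (⟨ℓ, hℓ⟩ : Nat.Primes) ∉ S := fun h => P.2 ⟨ℓ, hℓ⟩ h hℓP
  refine ⟨PlacesOutside.mk' A ⟨ℓ, hℓ⟩ hℓS hAℓ, ?_⟩
  apply Subtype.ext
  apply HeightOneSpectrum.ext
  exact hA

end PrimeOutside

/-! ### The uniformizer at an unramified place (no Galois hypothesis) -/

section Uniformizer

variable (F : IntermediateField ℚ (AlgebraicClosure ℚ)) [NumberField ↥F]

/-- If `F` is unramified outside `S`, the rational prime below a place outside `S` is a uniformizer
at the prime of `F` cut out by the place. (No Galois hypothesis on `F`.) -/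
theorem valuation_prime_eq_exp (hF : F.IsUnramifiedOutside S) (A : PlacesOutside S) :
    (placeOf (incl F) A.prime.2 A.liesOver_prime).valuation ↥F (((A.prime : ℕ) : ℕ) : ↥F) =
      WithZero.exp (-1 : ℤ) := by
  set v := placeOf (incl F) A.prime.2 A.liesOver_prime with hv
  obtain ⟨π, hπ⟩ := v.valuation_exists_uniformizer ↥F
  have hπ0 : π ≠ 0 := by
    rintro rfl
    rw [map_zero] at hπ
    exact WithZero.exp_ne_zero hπ.symm
  have hℓ0 : (((A.prime : ℕ) : ℕ) : ↥F) ≠ 0 := by exact_mod_cast A.prime.2.ne_zero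
  have hvℓ0 : v.valuation ↥F (((A.prime : ℕ) : ℕ) : ↥F) ≠ 0 := (Valuation.ne_zero_iff _).mpr hℓ0
  obtain ⟨e, he⟩ : ∃ e : ℤ, v.valuation ↥F (((A.prime : ℕ) : ℕ) : ↥F) = WithZero.exp (-e) :=
    ⟨-WithZero.log (v.valuation ↥F (((A.prime : ℕ) : ℕ) : ↥F)), by
      rw [neg_neg, WithZero.exp_log hvℓ0]⟩
  -- `π ^ e / ℓ` is a unit at `v`
  have hy : v.valuation ↥F (π ^ e * ((((A.prime : ℕ) : ℕ) : ↥F))⁻¹) = 1 := by
    rw [map_mul, map_zpow₀, map_inv₀, hπ, he, ← WithZero.exp_zsmul, ← WithZero.exp_neg,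
      ← WithZero.exp_add]
    simp
  have h1 := valuation_map_eq_one (incl F) A.prime.2 A.liesOver_prime hy
  have hposℓ : 0 < A.val.valuation (((A.prime : ℕ) : ℕ) : AlgebraicClosure ℚ) :=
    valuation_natCast_pos A.prime.2.ne_zero
  have hltℓ : A.val.valuation (((A.prime : ℕ) : ℕ) : AlgebraicClosure ℚ) < 1 :=
    A.val.mem_nonunits_iff.mp A.liesOver_prime
  rw [map_mul, map_zpow₀, map_inv₀, map_natCast, map_mul, map_zpow₀, map_inv₀,
    mul_inv_eq_one₀ hposℓ.ne'] at h1
  -- `π ∈ ℚ_S` has an order at `A`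
  have hπQ : (incl F π) ∈ H1.QS S := H1.le_QS hF π.2
  have hπ0' : (incl F π) ≠ 0 := (map_ne_zero _).mpr hπ0
  obtain ⟨n, hn⟩ := exists_isOrdAt A hπQ hπ0'
  have h2 := hn.valuation_eq A.prime.2.ne_zero
  rw [h2, ← zpow_mul] at h1
  have h3 : n * e = 1 := by
    apply zpow_right_injective₀ hposℓ hltℓ.ne
    show _ ^ (n * e) = _ ^ (1 : ℤ)
    rw [h1, zpow_one]
  have hlt1 : v.valuation ↥F (((A.prime : ℕ) : ℕ) : ↥F) < 1 := by
    have hmem : (((A.prime : ℕ) : ℕ) : 𝓞 ↥F) ∈ v.asIdeal :=
      (natCast_mem_primeOf_iff (incl F)).mpr A.liesOver_prime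
    have := (v.valuation_lt_one_iff_mem (K := ↥F) _).mpr hmem
    simpa using this
  have he1 : 0 < e := by
    rw [he, ← WithZero.exp_zero, WithZero.exp_lt_exp] at hlt1
    omega
  have he' : e = 1 := by
    rcases Int.eq_one_or_neg_one_of_mul_eq_one' h3 with ⟨-, h⟩ | ⟨-, h⟩
    · exact h
    · omega
  rw [he, he']

/-- The bridge for arbitrary (not necessarily Galois) fields unramified outside `S`. -/
theorem isOrdAt_of_isUnramifiedOutside (hF : F.IsUnramifiedOutside S) (A : PlacesOutside S)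
    (x : (↥F)ˣ) :
    IsOrdAt A.val A.prime (((x : ↥F) : AlgebraicClosure ℚ))
      (Multiplicative.toAdd (H23.ordAt ↥F (placeOf (incl F) A.prime.2 A.liesOver_prime) x)) := by
  set k : ℤ := Multiplicative.toAdd
    (H23.ordAt ↥F (placeOf (incl F) A.prime.2 A.liesOver_prime) x) with hk
  unfold IsOrdAt
  have h1 : ((x : ↥F) : AlgebraicClosure ℚ) * ((((A.prime : ℕ) : ℕ) : AlgebraicClosure ℚ) ^ k)⁻¹ =
      incl F ((x : ↥F) * ((((A.prime : ℕ) : ℕ) : ↥F) ^ k)⁻¹) := by
    rw [map_mul, map_inv₀, map_zpow₀, map_natCast]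
    rfl
  rw [h1]
  apply valuation_map_eq_one (incl F) A.prime.2 A.liesOver_prime
  rw [map_mul, map_inv₀, map_zpow₀, valuation_prime_eq_exp F hF A]
  have h2 : (placeOf (incl F) A.prime.2 A.liesOver_prime).valuation ↥F (x : ↥F) =
      WithZero.exp (-k) := by
    rw [← H10.coe_ordHom, hk, H23.ordAt_apply, toAdd_inv, neg_neg, WithZero.exp_eq_coe_ofAdd,
      ofAdd_toAdd]
  rw [h2, ← WithZero.exp_zsmul, ← WithZero.exp_neg, ← WithZero.exp_add]
  simp

end Uniformizer

/-! ### Invariants -/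

section Invariants

variable (F : IntermediateField ℚ (AlgebraicClosure ℚ))

/-- The `U_F`-invariants of `DivTop S`. -/
def DivTop.invariants : AddSubgroup (DivTop S) where
  carrier := {d | ∀ σ ∈ F.fixingSubgroup, σ • d = d}
  add_mem' := by
    intro a b ha hb σ hσ
    rw [smul_add, ha σ hσ, hb σ hσ]
  zero_mem' := fun σ _ => smul_zero σ
  neg_mem' := by
    intro a ha σ hσ
    rw [smul_neg, ha σ hσ]

variable {F}

theorem DivTop.mem_invariants_iff {d : DivTop S} :
    d ∈ DivTop.invariants F ↔ ∀ σ ∈ F.fixingSubgroup, σ • d = d := Iff.rfl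

theorem DivTop.apply_smul_of_mem_invariants {d : DivTop S} (hd : d ∈ DivTop.invariants F) {τ : GQ}
    (hτ : τ ∈ F.fixingSubgroup) (A : PlacesOutside S) : d (τ • A) = d A := by
  have h := congrArg (fun e : DivTop S => e (τ • A)) (hd τ hτ)
  simp only [DivTop.smul_apply, inv_smul_smul] at h
  exact h.symm

variable (F) [NumberField ↥F]

theorem DivTop.apply_eq_of_primeOutside_eq {d : DivTop S} (hd : d ∈ DivTop.invariants F)
    {A A' : PlacesOutside S} (h : primeOutside F A = primeOutside F A') : d A = d A' := by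
  obtain ⟨τ, hτ, rfl⟩ := (primeOutside_eq_iff F).mp h
  exact (DivTop.apply_smul_of_mem_invariants hd hτ A).symm

/-- A chosen place of `Qbar` above a prime of `F` outside `S`. -/
def placeAbove (P : H23.PrimesOutside S ↥F) : PlacesOutside S :=
  Classical.choose (primeOutside_surjective F P)

@[simp] theorem primeOutside_placeAbove (P : H23.PrimesOutside S ↥F) :
    primeOutside F (placeAbove F P) = P :=
  Classical.choose_spec (primeOutside_surjective F P)

theorem finite_setOf_natCast_mem {q : ℕ} (hq : q ≠ 0) :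
    {P : H23.PrimesOutside S ↥F | ((q : ℕ) : 𝓞 ↥F) ∈ P.1.asIdeal}.Finite := by
  have hI : Ideal.span {((q : ℕ) : 𝓞 ↥F)} ≠ 0 := by
    rw [Ne, Ideal.zero_eq_bot, Ideal.span_singleton_eq_bot]
    exact_mod_cast hq
  have h := Ideal.finite_factors hI
  refine (h.preimage (f := fun P : H23.PrimesOutside S ↥F => P.1)
    (Subtype.val_injective.injOn)).subset ?_
  intro P hP
  simp only [Set.mem_preimage, Set.mem_ofPred_eq]
  rw [Ideal.dvd_span_singleton]
  exact hP

/-- The divisor of `F` attached to a top-level divisor (meaningful on `U_F`-invariants). -/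
def toDivS (d : DivTop S) : H23.DivS S ↥F :=
  Finsupp.ofSupportFinite (fun P => d (placeAbove F P)) (by
    have hT := d.2.2
    refine (hT.biUnion (t := fun q : Nat.Primes =>
      {P : H23.PrimesOutside S ↥F | (((q : ℕ) : ℕ) : 𝓞 ↥F) ∈ P.1.asIdeal})
      (fun q _ => finite_setOf_natCast_mem F q.2.ne_zero)).subset ?_
    intro P hP
    have hP' : d (placeAbove F P) ≠ 0 := hP
    simp only [Set.mem_iUnion, Set.mem_ofPred_eq, exists_prop]
    refine ⟨(placeAbove F P).prime, ⟨placeAbove F P, rfl, hP'⟩, ?_⟩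
    have h1 : (((placeAbove F P).prime : ℕ) : 𝓞 ↥F) ∈ (primeOutside F (placeAbove F P)).1.asIdeal :=
      (natCast_mem_primeOf_iff (incl F)).mpr (placeAbove F P).liesOver_prime
    rw [primeOutside_placeAbove] at h1
    exact h1)

theorem toDivS_apply (d : DivTop S) (P : H23.PrimesOutside S ↥F) :
    toDivS F d P = d (placeAbove F P) := rfl

/-- The characterising property of `toDivS` on invariants. -/
theorem toDivS_primeOutside {d : DivTop S} (hd : d ∈ DivTop.invariants F) (A : PlacesOutside S) :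
    toDivS F d (primeOutside F A) = d A := by
  rw [toDivS_apply]
  exact DivTop.apply_eq_of_primeOutside_eq F hd (primeOutside_placeAbove F _)

/-- The top-level divisor attached to a divisor of `F`. -/
def ofDivS (hF : F.IsUnramifiedOutside S) (D : H23.DivS S ↥F) : DivTop S :=
  ⟨fun A => D (primeOutside F A), by
    constructor
    · refine ⟨F, hF, fun σ hσ A => ?_⟩
      show D (primeOutside F (σ • A)) = D (primeOutside F A)
      rw [primeOutside_smul_of_mem F hσ]
    · refine ((D.support.finite_toSet).image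
        (fun P : H23.PrimesOutside S ↥F => (placeAbove F P).prime)).subset ?_
      rintro q ⟨A, hAq, hne⟩
      refine ⟨primeOutside F A, Finsupp.mem_support_iff.mpr hne, ?_⟩
      obtain ⟨τ, -, hτ⟩ := (primeOutside_eq_iff F).mp (primeOutside_placeAbove F (primeOutside F A))
      show (placeAbove F (primeOutside F A)).prime = q
      have h3 := PlacesOutside.prime_smul τ (placeAbove F (primeOutside F A))
      rw [hτ] at h3
      rw [← hAq, h3]⟩

theorem ofDivS_apply (hF : F.IsUnramifiedOutside S) (D : H23.DivS S ↥F) (A : PlacesOutside S) :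
    ofDivS F hF D A = D (primeOutside F A) := rfl

theorem ofDivS_mem_invariants (hF : F.IsUnramifiedOutside S) (D : H23.DivS S ↥F) :
    ofDivS F hF D ∈ DivTop.invariants F := by
  intro σ hσ
  apply DivTop.ext
  intro A
  rw [DivTop.smul_apply, ofDivS_apply, ofDivS_apply, primeOutside_smul_of_mem F (inv_mem hσ)]

/-- **`DivTop S ^ U_F ≃ Div^S(F)`**. -/
def invariantsEquiv (hF : F.IsUnramifiedOutside S) :
    DivTop.invariants (S := S) F ≃+ H23.DivS S ↥F where
  toFun d := toDivS F d.1
  invFun D := ⟨ofDivS F hF D, ofDivS_mem_invariants F hF D⟩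
  left_inv d := by
    apply Subtype.ext
    apply DivTop.ext
    intro A
    show toDivS F d.1 (primeOutside F A) = d.1 A
    exact toDivS_primeOutside F d.2 A
  right_inv D := by
    ext P
    show D (primeOutside F (placeAbove F P)) = D P
    rw [primeOutside_placeAbove]
  map_add' d d' := by
    ext P
    rfl

theorem invariantsEquiv_apply (hF : F.IsUnramifiedOutside S) (d : DivTop.invariants (S := S) F) :
    invariantsEquiv F hF d = toDivS F d.1 := rfl

theorem invariantsEquiv_symm_apply (hF : F.IsUnramifiedOutside S) (D : H23.DivS S ↥F)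
    (A : PlacesOutside S) : ((invariantsEquiv F hF).symm D).1 A = D (primeOutside F A) := rfl

/-! ### Compatibility with the divisor maps -/

/-- `Fˣ → (ℚ_S)ˣ` for `F` unramified outside `S`. -/
def unitsIncl (hF : F.IsUnramifiedOutside S) : (↥F)ˣ →* (↥(H1.QS S))ˣ :=
  Units.map ((IntermediateField.inclusion (H1.le_QS hF)) : ↥F →* ↥(H1.QS S))

omit [NumberField ↥F] in
theorem coe_unitsIncl (hF : F.IsUnramifiedOutside S) (x : (↥F)ˣ) :
    (((unitsIncl F hF x : (↥(H1.QS S))ˣ) : ↥(H1.QS S)) : AlgebraicClosure ℚ) =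
      ((x : ↥F) : AlgebraicClosure ℚ) := rfl

/-- The order at a place outside `S` of an element of `F` is its order at the prime of `F` cut out
by the place. -/
theorem ordAtTop_unitsIncl (hF : F.IsUnramifiedOutside S) (x : (↥F)ˣ) (A : PlacesOutside S) :
    ordAtTop A (unitsIncl F hF x) = H23.ordAt ↥F (primeOutside F A).1 x := by
  have h := isOrdAt_of_isUnramifiedOutside F hF A x
  exact (ordAtTop_eq_iff A (unitsIncl F hF x) _).mpr h

omit [NumberField ↥F] in
/-- The divisor of an element of `Fˣ` is `U_F`-invariant. -/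
theorem divSTop_unitsIncl_mem (hF : F.IsUnramifiedOutside S) (x : (↥F)ˣ) :
    Multiplicative.toAdd (divSTop S (unitsIncl F hF x)) ∈ DivTop.invariants F := by
  intro σ hσ
  have hxy : (((unitsIncl F hF x : (↥(H1.QS S))ˣ) : ↥(H1.QS S)) : AlgebraicClosure ℚ) =
      σ (((unitsIncl F hF x : (↥(H1.QS S))ˣ) : ↥(H1.QS S)) : AlgebraicClosure ℚ) := by
    rw [coe_unitsIncl]
    exact ((IntermediateField.mem_fixingSubgroup_iff _ _).mp hσ _ x.1.2).symm
  exact (divSTop_smul σ hxy).symm

/-- `divSTop` restricted to `Fˣ` is the finite-level divisor map `H23.divS`. -/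
theorem toDivS_divSTop (hF : F.IsUnramifiedOutside S) (x : (↥F)ˣ) :
    toDivS F (Multiplicative.toAdd (divSTop S (unitsIncl F hF x))) =
      Multiplicative.toAdd (H23.divS S ↥F x) := by
  ext P
  rw [toDivS_apply, divSTop_apply, ordAtTop_unitsIncl, primeOutside_placeAbove, H23.divS_apply]

theorem ofDivS_divS (hF : F.IsUnramifiedOutside S) (x : (↥F)ˣ) :
    ofDivS F hF (Multiplicative.toAdd (H23.divS S ↥F x)) =
      Multiplicative.toAdd (divSTop S (unitsIncl F hF x)) := by
  apply DivTop.ext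
  intro A
  rw [ofDivS_apply, divSTop_apply, ordAtTop_unitsIncl, H23.divS_apply]

/-! ### Compatibility with `Gal(F/ℚ)` -/

theorem primeOutside_smul (σ : GQ) (g : ↥F ≃ₐ[ℚ] ↥F)
    (hg : ∀ y : ↥F, σ (incl F y) = incl F (g y)) (A : PlacesOutside S) :
    primeOutside F (σ • A) = g • primeOutside F A := by
  apply Subtype.ext
  apply HeightOneSpectrum.ext
  show primeOf (incl F) (σ • A.val) = (g • (primeOutside F A).1).asIdeal
  rw [primeOf_smul (incl F) σ g hg]
  ext x
  rw [Ideal.mem_pointwise_smul_iff_inv_smul_mem, H23.mem_smul_prime_iff]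
  rfl

omit [NumberField ↥F] in
theorem restrict_inv {σ : GQ} {g : ↥F ≃ₐ[ℚ] ↥F}
    (hg : ∀ y : ↥F, σ (incl F y) = incl F (g y)) (y : ↥F) :
    σ⁻¹ (incl F y) = incl F (g⁻¹ y) := by
  have h1 := hg (g⁻¹ y)
  have h2 : g (g⁻¹ y) = y := by
    change (g * g⁻¹) y = y
    rw [mul_inv_cancel]; rfl
  rw [h2] at h1
  rw [← h1]
  change (σ⁻¹ * σ) (incl F (g⁻¹ y)) = incl F (g⁻¹ y)
  rw [inv_mul_cancel]; rfl

/-- `toDivS` intertwines the action of `σ ∈ G_ℚ` with that of its restriction `g ∈ Gal(F/ℚ)`. -/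
theorem toDivS_smul (σ : GQ) (g : ↥F ≃ₐ[ℚ] ↥F)
    (hg : ∀ y : ↥F, σ (incl F y) = incl F (g y)) {d : DivTop S}
    (hd : d ∈ DivTop.invariants F) : toDivS F (σ • d) = g • toDivS F d := by
  ext P
  rw [toDivS_apply, DivTop.smul_apply, H23.smul_divS_apply]
  have h1 : g⁻¹ • P = primeOutside F (σ⁻¹ • placeAbove F P) := by
    rw [primeOutside_smul F σ⁻¹ g⁻¹ (restrict_inv F hg), primeOutside_placeAbove]
  rw [h1, toDivS_primeOutside F hd]

theorem ofDivS_smul (hF : F.IsUnramifiedOutside S) (σ : GQ) (g : ↥F ≃ₐ[ℚ] ↥F)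
    (hg : ∀ y : ↥F, σ (incl F y) = incl F (g y)) (D : H23.DivS S ↥F) :
    ofDivS F hF (g • D) = σ • ofDivS F hF D := by
  apply DivTop.ext
  intro A
  rw [DivTop.smul_apply, ofDivS_apply, ofDivS_apply, H23.smul_divS_apply,
    primeOutside_smul F σ⁻¹ g⁻¹ (restrict_inv F hg)]

end Invariants

end

end Fermat.Agent.CFT.H45
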