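import Mathlib
import Fermat.Agent.CFT.H77_TopCS

/-!
# CFT, layer C, package C-TOP (part 3): descent from the top level to a finite level

For an abstract number field `F` with an embedding `ι : F →ₐ[ℚ] ℚbar` whose image is unramified
outside `S` (`hF : ι.fieldRange.IsUnramifiedOutside S`), `U := ι.fieldRange.fixingSubgroup`:
* `inclF hF : F →ₐ[ℚ] OmegaS S`, `jIncl hF : H23.JS S F →* JTop S` (injective, equivariant,
  image = the `U`-invariants of `JTop S`).
(Abstract `F` + embedding avoids the instance-search explosion on `F`, and is the vocabulary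
of `H37_UnramDict`.)
-/

set_option autoImplicit false

open scoped TensorProduct

namespace Fermat.Agent.CFT.H77

open IntermediateField Pointwise Fermat.Agent.CFT

local notation "Qbar" => AlgebraicClosure ℚ
local notation "GQ" => (AlgebraicClosure ℚ ≃ₐ[ℚ] AlgebraicClosure ℚ)

local instance isAlgebraicQbar_h77b : Algebra.IsAlgebraic ℚ (AlgebraicClosure ℚ) :=
  AlgebraicClosure.isAlgebraic ℚ
local instance isAlgClosureQbar_h77b : IsAlgClosure ℚ (AlgebraicClosure ℚ) :=
  ⟨inferInstance, inferInstance⟩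
local instance normalQbar_h77b : Normal ℚ (AlgebraicClosure ℚ) :=
  IsAlgClosure.normal ℚ (AlgebraicClosure ℚ)
local instance isGaloisQbar_h77b : IsGalois ℚ (AlgebraicClosure ℚ) := ⟨⟩

noncomputable section

variable {S : Finset Nat.Primes} {F : Type} [Field F] [NumberField F] {ι : F →ₐ[ℚ] Qbar}
  (hF : ι.fieldRange.IsUnramifiedOutside S)

/-- The inclusion of a level into `ℚ_S`, as a ring homomorphism. -/
def inclFHom : F →+* OmegaS S where
  toFun x := OmegaS.mk (ι x) (H1.le_QS hF ⟨x, rfl⟩)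
  map_one' := OmegaS.ext (map_one ι)
  map_mul' _ _ := OmegaS.ext (map_mul ι _ _)
  map_zero' := OmegaS.ext (map_zero ι)
  map_add' _ _ := OmegaS.ext (map_add ι _ _)

/-- The inclusion of a level into `ℚ_S`. -/
def inclF : F →ₐ[ℚ] OmegaS S := (inclFHom hF).toRatAlgHom

@[simp] theorem inclF_val (x : F) : (inclF hF x).val = ι x := rfl

theorem inclF_injective : Function.Injective (inclF hF) := (inclF hF).injective

/-- the elements of `ℚ_S` fixed by `U_F` are exactly the image of `F` -/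
theorem mem_range_inclF_of_fixed (x : OmegaS S)
    (hx : ∀ σ ∈ ι.fieldRange.fixingSubgroup, σ • x = x) : x ∈ (inclF hF).range := by
  obtain ⟨y, hy⟩ := mem_of_fixed S ι.fieldRange x hx
  exact ⟨y, OmegaS.ext hy⟩

theorem smul_inclF (σ : GQ) (hσ : σ ∈ ι.fieldRange.fixingSubgroup) (x : F) :
    σ • inclF hF x = inclF hF x :=
  OmegaS.ext ((IntermediateField.mem_fixingSubgroup_iff ι.fieldRange σ).mp hσ (ι x) ⟨x, rfl⟩)

/-- The map `F ⊗ ℚ_q → ℚ_S ⊗ ℚ_q`. -/
def locIncl (q : Nat.Primes) : H23.Loc F q →ₐ[ℚ] LocTop S q := inclTensor (inclF hF)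

theorem locIncl_injective (q : Nat.Primes) : Function.Injective (locIncl hF q) :=
  inclTensor_injective _

/-- **Infinite Galois descent**: the `U_F`-invariants of `ℚ_S ⊗ ℚ_q` are `F ⊗ ℚ_q`. -/
theorem mem_range_locIncl_iff (q : Nat.Primes) (x : LocTop S q) :
    x ∈ (locIncl hF q).range ↔ ∀ σ ∈ ι.fieldRange.fixingSubgroup, σ • x = x := by
  constructor
  · rintro ⟨y, rfl⟩ σ hσ
    exact smul_inclTensor_of_fixed (G := GQ) ι.fieldRange.fixingSubgroup (inclF hF)
      (fun x σ hσ => smul_inclF hF σ hσ x) y σ hσ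
  · intro hx
    exact tensor_fixed_mem_range (G := GQ) ι.fieldRange.fixingSubgroup (inclF hF)
      (fun x hx => mem_range_inclF_of_fixed hF x hx) x hx

/-- The map on units `(F ⊗ ℚ_q)ˣ → (ℚ_S ⊗ ℚ_q)ˣ`. -/
def locUnitsIncl (q : Nat.Primes) : (H23.Loc F q)ˣ →* (LocTop S q)ˣ :=
  Units.map (locIncl hF q : H23.Loc F q →* LocTop S q)

theorem locUnitsIncl_injective (q : Nat.Primes) : Function.Injective (locUnitsIncl hF q) :=
  Units.map_injective (locIncl_injective hF q)

theorem mem_range_locUnitsIncl_iff (q : Nat.Primes) (u : (LocTop S q)ˣ) :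
    u ∈ (locUnitsIncl hF q).range ↔ ∀ σ ∈ ι.fieldRange.fixingSubgroup, σ • u = u := by
  constructor
  · rintro ⟨y, rfl⟩ σ hσ
    apply Units.ext
    exact (mem_range_locIncl_iff hF q _).mp ⟨(y : H23.Loc F q), rfl⟩ σ hσ
  · intro hu
    have h1 : ∀ σ ∈ ι.fieldRange.fixingSubgroup, σ • (u : LocTop S q) = u :=
      fun σ hσ => congrArg Units.val (hu σ hσ)
    have h2 : ∀ σ ∈ ι.fieldRange.fixingSubgroup, σ • ((u⁻¹ : (LocTop S q)ˣ) : LocTop S q) = (u⁻¹ : (LocTop S q)ˣ) :=
      fun σ hσ => by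
        have := congrArg Units.val (congrArg (fun w => w⁻¹) (hu σ hσ))
        simpa using this
    obtain ⟨a, ha⟩ := (mem_range_locIncl_iff hF q _).mpr h1
    obtain ⟨b, hb⟩ := (mem_range_locIncl_iff hF q _).mpr h2
    have ha' : locIncl hF q a = (u : LocTop S q) := ha
    have hb' : locIncl hF q b = ((u⁻¹ : (LocTop S q)ˣ) : LocTop S q) := hb
    have hab : a * b = 1 := by
      apply locIncl_injective hF q
      rw [map_mul, map_one, ha', hb', Units.mul_inv]
    have hba : b * a = 1 := by rw [mul_comm, hab]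
    exact ⟨⟨a, b, hab, hba⟩, Units.ext ha'⟩

/-- The comparison map on `S`-ideles. -/
def jIncl : H23.JS S F →* JTop S :=
  MonoidHom.pi fun q => (locUnitsIncl hF q.1).comp (Pi.evalMonoidHom _ q)

@[simp] theorem jIncl_apply (j : H23.JS S F) (q : S) : jIncl hF j q = locUnitsIncl hF q.1 (j q) := rfl

theorem jIncl_injective : Function.Injective (jIncl hF) := by
  intro j j' h
  funext q
  exact locUnitsIncl_injective hF q.1 (congrFun h q)

theorem mem_range_jIncl_iff (j : JTop S) :
    j ∈ (jIncl hF).range ↔ ∀ σ ∈ ι.fieldRange.fixingSubgroup, σ • j = j := by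
  constructor
  · rintro ⟨y, rfl⟩ σ hσ
    funext q
    exact (mem_range_locUnitsIncl_iff hF q.1 _).mp ⟨y q, rfl⟩ σ hσ
  · intro hj
    have h : ∀ q : S, ∃ y : (H23.Loc F q.1)ˣ, locUnitsIncl hF q.1 y = j q := fun q =>
      (mem_range_locUnitsIncl_iff hF q.1 (j q)).mpr fun σ hσ => congrFun (hj σ hσ) q
    choose y hy using h
    exact ⟨y, funext hy⟩

/-- `σ ∈ G_ℚ` restricts to `g ∈ Gal(F/ℚ)`. -/
def RestrictsTo (ι : F →ₐ[ℚ] Qbar) (σ : GQ) (g : F ≃ₐ[ℚ] F) : Prop := ∀ y : F, σ (ι y) = ι (g y)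

theorem RestrictsTo.inclF {σ : GQ} {g : F ≃ₐ[ℚ] F} (h : RestrictsTo ι σ g) (y : F) :
    inclF hF (g • y) = σ • inclF hF y :=
  OmegaS.ext (h y).symm

theorem locIncl_smul (q : Nat.Primes) {σ : GQ} {g : F ≃ₐ[ℚ] F} (h : RestrictsTo ι σ g)
    (y : H23.Loc F q) : locIncl hF q (g • y) = σ • locIncl hF q y :=
  inclTensor_smul (G := GQ) (G' := (F ≃ₐ[ℚ] F)) (inclF hF) σ g (fun x => h.inclF hF x) y

theorem jIncl_smul {σ : GQ} {g : F ≃ₐ[ℚ] F} (h : RestrictsTo ι σ g) (j : H23.JS S F) :
    jIncl hF (g • j) = σ • jIncl hF j := by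
  funext q
  apply Units.ext
  exact locIncl_smul hF q.1 h (j q : H23.Loc F q.1)

/-- units of `F` to units of `ℚ_S` -/
def unitsInclF : Fˣ →* (OmegaS S)ˣ := Units.map (inclF hF : F →* OmegaS S)

@[simp] theorem unitsInclF_val (x : Fˣ) :
    ((unitsInclF hF x : (OmegaS S)ˣ) : OmegaS S).val = ι (x : F) := rfl

theorem unitsInclF_injective : Function.Injective (unitsInclF hF) :=
  Units.map_injective (inclF_injective hF)

theorem jIncl_diagJ (x : Fˣ) : jIncl hF (H23.diagJ S F x) = diagJTop S (unitsInclF hF x) := by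
  funext q
  apply Units.ext
  show locIncl hF q.1 (algebraMap F (H23.Loc F q.1) (x : F)) =
    algebraMap (OmegaS S) (LocTop S q.1) (inclF hF (x : F))
  rw [Algebra.TensorProduct.algebraMap_apply, Algebra.TensorProduct.algebraMap_apply]
  rfl

/-- a unit of `ℚ_S` fixed by `U_F` comes from `F` -/
theorem mem_range_unitsInclF_of_fixed (y : (OmegaS S)ˣ)
    (hy : ∀ σ ∈ ι.fieldRange.fixingSubgroup, σ • y = y) : y ∈ (unitsInclF hF).range := by
  obtain ⟨a, ha⟩ := mem_range_inclF_of_fixed hF (y : OmegaS S)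
    (fun σ hσ => congrArg Units.val (hy σ hσ))
  have ha' : inclF hF a = (y : OmegaS S) := ha
  have ha0 : a ≠ 0 := by
    rintro rfl
    rw [map_zero] at ha'
    exact y.ne_zero ha'.symm
  exact ⟨Units.mk0 a ha0, Units.ext ha'⟩

/-! ### The divisor side (input from package C-TOP-Div) and the assembly -/

variable (S) (ι) in
/-- The divisor-side descent data for the level `(F, ι)`: the comparison map
`DivS S F → DivTop S` (pull back along `A ↦ primeOf ι A`), with image the `U_F`-invariants,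
equivariant, and sending the divisor of `x ∈ Fˣ` to the divisor of `ι x` at the top. -/
structure DivDescent where
  toTop : H23.DivS S F →+ DivTop S
  injective : Function.Injective toTop
  mem_range_iff : ∀ d : DivTop S,
    d ∈ toTop.range ↔ ∀ σ ∈ ι.fieldRange.fixingSubgroup, σ • d = d
  map_smul : ∀ (σ : GQ) (g : F ≃ₐ[ℚ] F), RestrictsTo ι σ g →
    ∀ D : H23.DivS S F, toTop (g • D) = σ • toTop D
  isDivOf : ∀ x : Fˣ,
    IsDivOf S (ι (x : F)) (toTop (Multiplicative.toAdd (H23.divS S F x))).1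

variable (S) in
/-- Every element of `ℚ_Sˣ` has a divisor at the top level. -/
def HasDivisors : Prop := ∀ y : (OmegaS S)ˣ, ∃ d : DivTop S, IsDivOf S (y : OmegaS S).val d.1

theorem diagJTop_injective (hS : S.Nonempty) : Function.Injective (diagJTop S) := by
  obtain ⟨q, hq⟩ := hS
  intro x y hxy
  exact toLocUnitsTop_injective S q (congrFun hxy ⟨q, hq⟩)

variable (D : DivDescent S ι)

/-- The comparison map on hybrid ideles. -/
def idIncl : H23.IdS S F →* IdTop S :=
  (jIncl hF).prodMap (AddMonoidHom.toMultiplicative D.toTop)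

@[simp] theorem idIncl_fst (z : H23.IdS S F) : (idIncl hF D z).1 = jIncl hF z.1 := rfl

@[simp] theorem idIncl_snd (z : H23.IdS S F) :
    Multiplicative.toAdd (idIncl hF D z).2 = D.toTop (Multiplicative.toAdd z.2) := rfl

theorem idIncl_injective : Function.Injective (idIncl hF D) := by
  intro z z' h
  refine Prod.ext (jIncl_injective hF (congrArg Prod.fst h)) ?_
  have h2 : D.toTop (Multiplicative.toAdd z.2) = D.toTop (Multiplicative.toAdd z'.2) :=
    congrArg (fun w : IdTop S => Multiplicative.toAdd w.2) h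
  exact D.injective h2

theorem mem_range_idIncl_iff (z : IdTop S) :
    z ∈ (idIncl hF D).range ↔ ∀ σ ∈ ι.fieldRange.fixingSubgroup, σ • z = z := by
  constructor
  · rintro ⟨y, rfl⟩ σ hσ
    refine Prod.ext ((mem_range_jIncl_iff hF _).mp ⟨y.1, rfl⟩ σ hσ) ?_
    have := (D.mem_range_iff _).mp ⟨Multiplicative.toAdd y.2, rfl⟩ σ hσ
    exact congrArg Multiplicative.ofAdd this
  · intro hz
    obtain ⟨j, hj⟩ := (mem_range_jIncl_iff hF z.1).mpr
      fun σ hσ => congrArg Prod.fst (hz σ hσ)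
    obtain ⟨d, hd⟩ := (D.mem_range_iff (Multiplicative.toAdd z.2)).mpr
      fun σ hσ => congrArg (fun w : IdTop S => Multiplicative.toAdd w.2) (hz σ hσ)
    exact ⟨(j, Multiplicative.ofAdd d), Prod.ext hj (congrArg Multiplicative.ofAdd hd)⟩

theorem idIncl_smul {σ : GQ} {g : F ≃ₐ[ℚ] F} (h : RestrictsTo ι σ g) (z : H23.IdS S F) :
    idIncl hF D (g • z) = σ • idIncl hF D z := by
  refine Prod.ext (jIncl_smul hF h z.1) ?_
  exact congrArg Multiplicative.ofAdd (D.map_smul σ g h (Multiplicative.toAdd z.2))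

theorem idIncl_diag_mem (x : Fˣ) : idIncl hF D (H23.diag S F x) ∈ PrincTop S :=
  ⟨unitsInclF hF x, jIncl_diagJ hF x, D.isDivOf x⟩

theorem mem_range_diag_of_idIncl_mem (hS : S.Nonempty) (z : H23.IdS S F)
    (hz : idIncl hF D z ∈ PrincTop S) : z ∈ (H23.diag S F).range := by
  obtain ⟨y, hy1, hy2⟩ := hz
  -- `y` is fixed by `U_F`
  have hyfix : ∀ σ ∈ ι.fieldRange.fixingSubgroup, σ • y = y := by
    intro σ hσ
    apply diagJTop_injective hS
    rw [diagJTop_smul, ← hy1]
    exact (mem_range_jIncl_iff hF _).mp ⟨z.1, rfl⟩ σ hσ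
  obtain ⟨x, rfl⟩ := mem_range_unitsInclF_of_fixed hF y hyfix
  refine ⟨x, ?_⟩
  apply idIncl_injective hF D
  refine Prod.ext ?_ ?_
  · show jIncl hF (H23.diagJ S F x) = (idIncl hF D z).1
    rw [jIncl_diagJ, hy1]
  · have h1 := D.isDivOf x
    have h2 : IsDivOf S (ι (x : F)) (Multiplicative.toAdd (idIncl hF D z).2).1 := hy2
    have h3 := Subtype.ext (h1.unique h2)
    exact congrArg Multiplicative.ofAdd h3

/-- The comparison map on the formation modules. -/
def csIncl : H23.CS S F →* CSTop S :=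
  QuotientGroup.map _ _ (idIncl hF D) (by
    rintro _ ⟨x, rfl⟩
    exact idIncl_diag_mem hF D x)

@[simp] theorem csIncl_mk (z : H23.IdS S F) :
    csIncl hF D (H23.toCS S F z) = toCSTop S (idIncl hF D z) := rfl

theorem csIncl_injective (hS : S.Nonempty) : Function.Injective (csIncl hF D) := by
  rw [injective_iff_map_eq_one]
  intro c hc
  obtain ⟨z, rfl⟩ := QuotientGroup.mk_surjective c
  have h1 : idIncl hF D z ∈ PrincTop S := (QuotientGroup.eq_one_iff _).mp hc
  exact (QuotientGroup.eq_one_iff _).mpr (mem_range_diag_of_idIncl_mem hF D hS z h1)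

theorem csIncl_smul {σ : GQ} {g : F ≃ₐ[ℚ] F} (h : RestrictsTo ι σ g) (c : H23.CS S F) :
    csIncl hF D (g • c) = σ • csIncl hF D c := by
  obtain ⟨z, rfl⟩ := QuotientGroup.mk_surjective c
  show toCSTop S (idIncl hF D (g • z)) = σ • toCSTop S (idIncl hF D z)
  rw [idIncl_smul hF D h, smul_toCSTop]

theorem smul_csIncl_of_mem_fixer (σ : GQ) (hσ : σ ∈ ι.fieldRange.fixingSubgroup)
    (c : H23.CS S F) : σ • csIncl hF D c = csIncl hF D c := by
  obtain ⟨z, rfl⟩ := QuotientGroup.mk_surjective c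
  show σ • toCSTop S (idIncl hF D z) = toCSTop S (idIncl hF D z)
  rw [smul_toCSTop, (mem_range_idIncl_iff hF D _).mp ⟨z, rfl⟩ σ hσ]

/-- **Hilbert 90 at the top**: a hybrid idele whose class is fixed by `U` (a subgroup containing
... any subgroup `U`) can be modified by a principal idele to become `U`-fixed. -/
theorem exists_mul_princ_fixed (hS : S.Nonempty) (hE : HasDivisors S) (U : Subgroup GQ)
    (m : IdTop S) (hm : ∀ σ ∈ U, (σ • m) * m⁻¹ ∈ PrincTop S) :
    ∃ w ∈ PrincTop S, ∀ σ ∈ U, σ • (m * w) = m * w := by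
  classical
  -- the cocycle
  have hex : ∀ σ : U, ∃ x : (OmegaS S)ˣ, ((σ.1 • m) * m⁻¹).1 = diagJTop S x ∧
      IsDivOf S (x : OmegaS S).val (Multiplicative.toAdd ((σ.1 • m) * m⁻¹).2).1 :=
    fun σ => hm σ.1 σ.2
  choose c hc1 hc2 using hex
  have hinj := diagJTop_injective (S := S) hS
  have hcoc : ∀ σ τ : U, c (σ * τ) = c σ * σ.1 • c τ := by
    intro σ τ
    apply hinj
    rw [map_mul, diagJTop_smul, ← hc1, ← hc1, ← hc1]
    show (((σ * τ : U) : GQ) • m * m⁻¹).1 = (σ.1 • m * m⁻¹).1 * σ.1 • (τ.1 • m * m⁻¹).1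
    rw [← idTop_smul_fst, ← Prod.fst_mul]
    congr 1
    rw [Subgroup.coe_mul, mul_smul, smul_mul', smul_inv', mul_comm (σ.1 • m * m⁻¹), mul_assoc,
      inv_mul_cancel_left]
  -- a level fixing `m`
  obtain ⟨F', hF', hfix⟩ := idTop_fixed_by_level S m
  have := hF'.1
  have : (F'.fixingSubgroup).FiniteIndex := H87.finiteIndex_fixingSubgroup F'
  let N : Subgroup U := (F'.fixingSubgroup).subgroupOf U
  have hcN : ∀ n ∈ N, c n = 1 := by
    intro n hn
    apply hinj
    rw [← hc1, map_one]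
    have : n.1 • m = m := hfix n.1 hn
    rw [this, mul_inv_cancel]
    rfl
  have hfaith : ∀ g : U, (∀ x : OmegaS S, (∀ n ∈ N, n • x = x) → g • x = x) → g ∈ N := by
    intro g hg
    show g.1 ∈ F'.fixingSubgroup
    rw [IntermediateField.mem_fixingSubgroup_iff]
    intro y hy
    have h1 := hg (OmegaS.mk y (H1.le_QS hF' hy)) (fun n hn => OmegaS.ext
      ((IntermediateField.mem_fixingSubgroup_iff F' n.1).mp hn y hy))
    exact congrArg OmegaS.val h1
  obtain ⟨b, hb0, hb⟩ := hilbert90_top (Ω := OmegaS S) (G := U) N hfaith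
    (fun g => ((c g : (OmegaS S)ˣ) : OmegaS S)) (fun g => (c g).ne_zero)
    (fun g h => by
      show ((c (g * h) : (OmegaS S)ˣ) : OmegaS S) = (c g : OmegaS S) * g.1 • (c h : OmegaS S)
      rw [hcoc]
      rfl)
    (fun n hn => by
      show ((c n : (OmegaS S)ˣ) : OmegaS S) = 1
      rw [hcN n hn]
      rfl)
  let bu : (OmegaS S)ˣ := Units.mk0 b hb0
  have hbu : ∀ σ : U, c σ * σ.1 • bu = bu := fun σ => Units.ext (hb σ)
  obtain ⟨db, hdb⟩ := hE bu
  let w : IdTop S := (diagJTop S bu, Multiplicative.ofAdd db)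
  have hw : w ∈ PrincTop S := ⟨bu, rfl, hdb⟩
  refine ⟨w, hw, fun σ hσ => ?_⟩
  have h1 := hc1 ⟨σ, hσ⟩
  have h2 := hc2 ⟨σ, hσ⟩
  simp only at h1 h2
  have hbσ := hbu ⟨σ, hσ⟩
  simp only at hbσ
  rw [smul_mul']
  refine Prod.ext ?_ ?_
  · show (σ • m).1 * σ • diagJTop S bu = m.1 * diagJTop S bu
    have e1 : (σ • m).1 = diagJTop S (c ⟨σ, hσ⟩) * m.1 := by
      rw [← h1, Prod.fst_mul, Prod.fst_inv, inv_mul_cancel_right]
    rw [e1, ← diagJTop_smul, mul_assoc, mul_comm m.1, ← mul_assoc, ← map_mul, hbσ, mul_comm]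
  · -- divisors
    have h3 : IsDivOf S (bu : OmegaS S).val
        ((Multiplicative.toAdd ((σ • m) * m⁻¹).2).1 + (σ • db).1) := by
      have h4 := h2.mul (hdb.smul σ)
      have h5 : ((c ⟨σ, hσ⟩ : (OmegaS S)ˣ) : OmegaS S).val * σ ((bu : OmegaS S).val) =
          (bu : OmegaS S).val := by
        have := congrArg (fun u : (OmegaS S)ˣ => ((u : OmegaS S)).val) hbσ
        simpa using this
      rw [h5] at h4
      exact h4
    have h6 := h3.unique hdb
    have h7 : Multiplicative.toAdd ((σ • m) * m⁻¹).2 + σ • db = db := Subtype.ext h6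
    show (σ • m).2 * σ • (Multiplicative.ofAdd db) = m.2 * Multiplicative.ofAdd db
    have h8 : Multiplicative.toAdd (σ • m).2 - Multiplicative.toAdd m.2 + σ • db = db := h7
    have h9 : Multiplicative.toAdd (σ • m).2 + σ • db = Multiplicative.toAdd m.2 + db := by
      calc Multiplicative.toAdd (σ • m).2 + σ • db
          = (Multiplicative.toAdd (σ • m).2 - Multiplicative.toAdd m.2 + σ • db)
            + Multiplicative.toAdd m.2 := by abel
        _ = db + Multiplicative.toAdd m.2 := by rw [h8]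
        _ = Multiplicative.toAdd m.2 + db := add_comm _ _
    exact congrArg Multiplicative.ofAdd h9

/-- **Descent of the formation module**: the image of `CS S F` in `CSTop S` is exactly the
subgroup of `U_F`-invariants. -/
theorem mem_range_csIncl_iff (hS : S.Nonempty) (hE : HasDivisors S) (c : CSTop S) :
    c ∈ (csIncl hF D).range ↔ ∀ σ ∈ ι.fieldRange.fixingSubgroup, σ • c = c := by
  constructor
  · rintro ⟨y, rfl⟩ σ hσ
    exact smul_csIncl_of_mem_fixer hF D σ hσ y
  · intro hc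
    obtain ⟨m, rfl⟩ := QuotientGroup.mk_surjective c
    have hm : ∀ σ ∈ ι.fieldRange.fixingSubgroup, (σ • m) * m⁻¹ ∈ PrincTop S := by
      intro σ hσ
      have h1 : ((σ • m : IdTop S) : CSTop S) = (m : CSTop S) := hc σ hσ
      rw [QuotientGroup.eq_iff_div_mem, div_eq_mul_inv] at h1
      exact h1
    obtain ⟨w, hw, hfix⟩ := exists_mul_princ_fixed hS hE _ m hm
    obtain ⟨z, hz⟩ := (mem_range_idIncl_iff hF D (m * w)).mpr hfix
    refine ⟨H23.toCS S F z, ?_⟩
    rw [csIncl_mk, hz]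
    show ((m * w : IdTop S) : CSTop S) = (m : CSTop S)
    rw [QuotientGroup.eq_iff_div_mem, mul_div_cancel_left]
    exact hw

variable (S) in
/-- The subgroup of `U`-invariants of the top-level formation module. -/
def csTopFixed (U : Subgroup GQ) : Subgroup (CSTop S) where
  carrier := {c | ∀ σ ∈ U, σ • c = c}
  mul_mem' := fun {a b} ha hb σ hσ => by rw [smul_mul', ha σ hσ, hb σ hσ]
  one_mem' := fun σ _ => smul_one σ
  inv_mem' := fun {a} ha σ hσ => by rw [smul_inv', ha σ hσ]

theorem mem_csTopFixed {U : Subgroup GQ} {c : CSTop S} :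
    c ∈ csTopFixed S U ↔ ∀ σ ∈ U, σ • c = c := Iff.rfl

/-- The formation module of the level `F` is the group of `U_F`-invariants of the top-level
formation module. -/
def csInvEquiv (hS : S.Nonempty) (hE : HasDivisors S) :
    H23.CS S F ≃* csTopFixed S ι.fieldRange.fixingSubgroup :=
  MulEquiv.ofBijective
    ((csIncl hF D).codRestrict (csTopFixed S ι.fieldRange.fixingSubgroup)
      (fun c σ hσ => smul_csIncl_of_mem_fixer hF D σ hσ c))
    ⟨fun a b h => csIncl_injective hF D hS (congrArg Subtype.val h),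
      fun c => by
        obtain ⟨y, hy⟩ := (mem_range_csIncl_iff hF D hS hE c.1).mpr c.2
        exact ⟨y, Subtype.ext hy⟩⟩

@[simp] theorem csInvEquiv_apply_coe (hS : S.Nonempty) (hE : HasDivisors S) (c : H23.CS S F) :
    ((csInvEquiv hF D hS hE c : csTopFixed S ι.fieldRange.fixingSubgroup) : CSTop S) =
      csIncl hF D c := rfl

end

end Fermat.Agent.CFT.H77
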