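/-
CFT layer C, package C-TOP-Div (helper45), slice 4: the divisor-side inputs of helper77's descent
(`H77_TopDescent`), for an arbitrary number field `F` with an embedding `ι : F →ₐ[ℚ] Qbar` whose
image is unramified outside `S`:

* `divDescent hF : H77.DivDescent S ι`,
* `hasDivisors : H77.HasDivisors S`.
-/
import Mathlib
import Fermat.Agent.CFT.H77_TopDescent
import Fermat.Agent.CFT.H45_TopDivInv

set_option autoImplicit false

namespace Fermat.Agent.CFT.H45

open NumberField IsDedekindDomain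
open Fermat.Agent.S54 Fermat.Agent.S14.H37 Fermat.Agent.S14.H54 Fermat.Agent.CFT.H37
open scoped Pointwise

noncomputable section

variable {S : Finset Nat.Primes}

/-! ### `H77.PlaceOut S` versus `H45.PlacesOutside S` -/

/-- helper77's places as places in the sense of `H45_TopDivDefs`. -/
def ofPlaceOut (P : H77.PlaceOut S) : PlacesOutside S := PlacesOutside.mk' P.A P.q P.hq P.hA

@[simp] theorem ofPlaceOut_val (P : H77.PlaceOut S) : (ofPlaceOut P).val = P.A := rfl

@[simp] theorem ofPlaceOut_prime (P : H77.PlaceOut S) : (ofPlaceOut P).prime = P.q :=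
  PlacesOutside.prime_mk' _ _ _ _

theorem ofPlaceOut_smul (σ : GQ) (P : H77.PlaceOut S) : ofPlaceOut (σ • P) = σ • ofPlaceOut P :=
  PlacesOutside.ext rfl

/-- Places in the sense of `H45_TopDivDefs` as helper77's places. -/
def toPlaceOut (A : PlacesOutside S) : H77.PlaceOut S := ⟨A.prime, A.prime_notMem, A.val, A.liesOver_prime⟩

@[simp] theorem toPlaceOut_A (A : PlacesOutside S) : (toPlaceOut A).A = A.val := rfl

@[simp] theorem toPlaceOut_q (A : PlacesOutside S) : (toPlaceOut A).q = A.prime := rfl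

@[simp] theorem ofPlaceOut_toPlaceOut (A : PlacesOutside S) : ofPlaceOut (toPlaceOut A) = A :=
  PlacesOutside.ext rfl

@[simp] theorem toPlaceOut_ofPlaceOut (P : H77.PlaceOut S) : toPlaceOut (ofPlaceOut P) = P :=
  H77.PlaceOut.ext_A rfl

theorem toPlaceOut_smul (σ : GQ) (A : PlacesOutside S) : toPlaceOut (σ • A) = σ • toPlaceOut A :=
  H77.PlaceOut.ext_A rfl

/-- Transport of divisors: `H45.DivTop S → H77.DivTop S`. -/
def divTopTo77 : DivTop S →+ H77.DivTop S where
  toFun d := ⟨fun P => d (ofPlaceOut P), by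
    obtain ⟨⟨F, hF, hd⟩, hfin⟩ := d.2
    refine ⟨⟨F, hF, fun σ hσ P => ?_⟩, hfin.subset ?_⟩
    · show d (ofPlaceOut (σ • P)) = d (ofPlaceOut P)
      rw [ofPlaceOut_smul]
      exact hd σ hσ _
    · rintro q ⟨P, hPq, hne⟩
      exact ⟨ofPlaceOut P, by rw [ofPlaceOut_prime]; exact hPq, hne⟩⟩
  map_zero' := rfl
  map_add' _ _ := rfl

@[simp] theorem divTopTo77_apply (d : DivTop S) (P : H77.PlaceOut S) :
    (divTopTo77 d).1 P = d (ofPlaceOut P) := rfl

theorem divTopTo77_smul (σ : GQ) (d : DivTop S) : divTopTo77 (σ • d) = σ • divTopTo77 d := by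
  apply Subtype.ext
  funext P
  show d (σ⁻¹ • ofPlaceOut P) = d (ofPlaceOut (σ⁻¹ • P))
  rw [ofPlaceOut_smul]

/-- Transport of divisors: `H77.DivTop S → H45.DivTop S`. -/
def divTopOf77 : H77.DivTop S →+ DivTop S where
  toFun d := ⟨fun A => d.1 (toPlaceOut A), by
    obtain ⟨⟨F, hF, hd⟩, hfin⟩ := d.2
    refine ⟨⟨F, hF, fun σ hσ A => ?_⟩, hfin.subset ?_⟩
    · show d.1 (toPlaceOut (σ • A)) = d.1 (toPlaceOut A)
      rw [toPlaceOut_smul]
      exact hd σ hσ _
    · rintro q ⟨A, hAq, hne⟩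
      exact ⟨toPlaceOut A, hAq, hne⟩⟩
  map_zero' := rfl
  map_add' _ _ := rfl

@[simp] theorem divTopOf77_apply (d : H77.DivTop S) (A : PlacesOutside S) :
    divTopOf77 d A = d.1 (toPlaceOut A) := rfl

/-- The two top-level divisor groups are the same. -/
def divTopEquiv77 : DivTop S ≃+ H77.DivTop S where
  toFun := divTopTo77
  invFun := divTopOf77
  left_inv d := by
    apply DivTop.ext
    intro A
    show d (ofPlaceOut (toPlaceOut A)) = d A
    rw [ofPlaceOut_toPlaceOut]
  right_inv d := by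
    apply Subtype.ext
    funext P
    show d.1 (toPlaceOut (ofPlaceOut P)) = d.1 P
    rw [toPlaceOut_ofPlaceOut]
  map_add' := divTopTo77.map_add

/-- `H77.IsDivOf` in terms of `IsOrdAt`. -/
theorem isDivOf_iff {x : AlgebraicClosure ℚ} {d : H77.PlaceOut S → ℤ} :
    H77.IsDivOf S x d ↔ ∀ P : H77.PlaceOut S, IsOrdAt P.A P.q x (d P) := by
  unfold H77.IsDivOf IsOrdAt
  simp only [div_eq_mul_inv]

/-- **`HasDivisors`**: every element of `(ℚ_S)ˣ` has a divisor at the top level. -/
theorem hasDivisors : H77.HasDivisors S := by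
  intro y
  have hy0 : (y : H77.OmegaS S).val ≠ 0 := by
    intro h
    apply y.ne_zero
    exact H77.OmegaS.ext h
  let x : (↥(H1.QS S))ˣ := Units.mk0 ⟨(y : H77.OmegaS S).val, (y : H77.OmegaS S).val_mem⟩ (by
    intro h
    exact hy0 (congrArg Subtype.val h))
  refine ⟨divTopTo77 (divTopOf x), ?_⟩
  rw [isDivOf_iff]
  intro P
  have h := isOrdAt_ordAtTop (ofPlaceOut P) x
  rw [ofPlaceOut_prime] at h
  exact h

/-! ### The prime cut out by a place, for an arbitrary embedding -/

section PrimeOut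

variable {F : Type} [Field F] [NumberField F] (ι : F →ₐ[ℚ] AlgebraicClosure ℚ)

/-- The prime of `𝓞 F` (outside `S`) cut out through `ι` by a place of `Qbar` outside `S`. -/
def primeOut (A : PlacesOutside S) : H23.PrimesOutside S F :=
  ⟨placeOf ι A.prime.2 A.liesOver_prime, fun q hq hmem => by
    have h1 : A.val.LiesOverPrime (q : ℕ) := (natCast_mem_primeOf_iff ι).mp hmem
    have h2 := A.prime_eq_of_liesOver h1
    exact A.prime_notMem (h2 ▸ hq)⟩

theorem primeOut_asIdeal (A : PlacesOutside S) :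
    (primeOut ι A).1.asIdeal = primeOf ι A.val := rfl

theorem primeOut_eq_iff_primeOf {A A' : PlacesOutside S} :
    primeOut ι A = primeOut ι A' ↔ primeOf ι A.val = primeOf ι A'.val := by
  constructor
  · intro h
    have := congrArg (fun P : H23.PrimesOutside S F => P.1.asIdeal) h
    exact this
  · intro h
    apply Subtype.ext
    apply HeightOneSpectrum.ext
    exact h

/-- The fibres of `primeOut ι` are the orbits of `U_F = ι.fieldRange.fixingSubgroup`. -/
theorem primeOut_eq_iff {A A' : PlacesOutside S} :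
    primeOut ι A = primeOut ι A' ↔ ∃ τ ∈ ι.fieldRange.fixingSubgroup, τ • A = A' := by
  rw [primeOut_eq_iff_primeOf, primeOf_eq_iff ι A.prime.2 A.liesOver_prime]
  constructor
  · rintro ⟨τ, hτ, h⟩
    exact ⟨τ, hτ, PlacesOutside.ext h⟩
  · rintro ⟨τ, hτ, h⟩
    exact ⟨τ, hτ, congrArg PlacesOutside.val h⟩

theorem primeOut_smul_of_mem {τ : GQ} (hτ : τ ∈ ι.fieldRange.fixingSubgroup)
    (A : PlacesOutside S) : primeOut ι (τ • A) = primeOut ι A :=
  ((primeOut_eq_iff ι).mpr ⟨τ, hτ, rfl⟩).symm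

/-- Every prime of `𝓞 F` outside `S` is cut out by a place outside `S`. -/
theorem primeOut_surjective : Function.Surjective (primeOut (S := S) ι) := by
  intro P
  have := P.1.isPrime
  obtain ⟨A, hA⟩ := exists_primeOf_eq ι P.1.asIdeal P.1.ne_bot
  have hAtop : A ≠ ⊤ := by
    rintro rfl
    obtain ⟨x, hxP, hx0⟩ := Submodule.exists_mem_ne_zero_of_ne_bot P.1.ne_bot
    rw [← hA, mem_primeOf, ValuationSubring.mem_nonunits_iff_or] at hxP
    rcases hxP with h | h
    · apply hx0
      have h' : ι ((x : 𝓞 F) : F) = 0 := h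
      rw [map_eq_zero] at h'
      exact RingOfIntegers.ext h'
    · exact h (ValuationSubring.mem_top _)
  obtain ⟨ℓ, hℓ, hAℓ⟩ := Fermat.Agent.S14.H54.exists_liesOverPrime hAtop
  have hℓP : ((ℓ : ℕ) : 𝓞 F) ∈ P.1.asIdeal := hA ▸ (natCast_mem_primeOf_iff ι).mpr hAℓ
  have hℓS : (⟨ℓ, hℓ⟩ : Nat.Primes) ∉ S := fun h => P.2 ⟨ℓ, hℓ⟩ h hℓP
  refine ⟨PlacesOutside.mk' A ⟨ℓ, hℓ⟩ hℓS hAℓ, ?_⟩
  apply Subtype.ext
  apply HeightOneSpectrum.ext
  exact hA

/-- A chosen place of `Qbar` above a prime of `F` outside `S`. -/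
def placeOver (P : H23.PrimesOutside S F) : PlacesOutside S :=
  Classical.choose (primeOut_surjective ι P)

@[simp] theorem primeOut_placeOver (P : H23.PrimesOutside S F) :
    primeOut ι (placeOver ι P) = P :=
  Classical.choose_spec (primeOut_surjective ι P)

theorem primeOut_smul (σ : GQ) (g : F ≃ₐ[ℚ] F) (hg : H77.RestrictsTo ι σ g)
    (A : PlacesOutside S) : primeOut ι (σ • A) = g • primeOut ι A := by
  apply Subtype.ext
  apply HeightOneSpectrum.ext
  show primeOf ι (σ • A.val) = (g • (primeOut ι A).1).asIdeal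
  rw [primeOf_smul ι σ g hg]
  ext x
  rw [Ideal.mem_pointwise_smul_iff_inv_smul_mem, H23.mem_smul_prime_iff]
  rfl

theorem restrictsTo_inv {σ : GQ} {g : F ≃ₐ[ℚ] F} (hg : H77.RestrictsTo ι σ g) :
    H77.RestrictsTo ι σ⁻¹ g⁻¹ := by
  intro y
  have h1 := hg (g⁻¹ y)
  have h2 : g (g⁻¹ y) = y := by
    change (g * g⁻¹) y = y
    rw [mul_inv_cancel]; rfl
  rw [h2] at h1
  rw [← h1]
  change (σ⁻¹ * σ) (ι (g⁻¹ y)) = ι (g⁻¹ y)
  rw [inv_mul_cancel]; rfl

/-- If `ι F` is unramified outside `S`, the rational prime below a place outside `S` is a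
uniformizer at the prime of `F` cut out by the place. -/
theorem valuation_prime_eq_exp' (hF : ι.fieldRange.IsUnramifiedOutside S) (A : PlacesOutside S) :
    (placeOf ι A.prime.2 A.liesOver_prime).valuation F (((A.prime : ℕ) : ℕ) : F) =
      WithZero.exp (-1 : ℤ) := by
  set v := placeOf ι A.prime.2 A.liesOver_prime with hv
  obtain ⟨π, hπ⟩ := v.valuation_exists_uniformizer F
  have hπ0 : π ≠ 0 := by
    rintro rfl
    rw [map_zero] at hπ
    exact WithZero.exp_ne_zero hπ.symm
  have hℓ0 : (((A.prime : ℕ) : ℕ) : F) ≠ 0 := by exact_mod_cast A.prime.2.ne_zero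
  have hvℓ0 : v.valuation F (((A.prime : ℕ) : ℕ) : F) ≠ 0 := (Valuation.ne_zero_iff _).mpr hℓ0
  obtain ⟨e, he⟩ : ∃ e : ℤ, v.valuation F (((A.prime : ℕ) : ℕ) : F) = WithZero.exp (-e) :=
    ⟨-WithZero.log (v.valuation F (((A.prime : ℕ) : ℕ) : F)), by
      rw [neg_neg, WithZero.exp_log hvℓ0]⟩
  have hy : v.valuation F (π ^ e * ((((A.prime : ℕ) : ℕ) : F))⁻¹) = 1 := by
    rw [map_mul, map_zpow₀, map_inv₀, hπ, he, ← WithZero.exp_zsmul, ← WithZero.exp_neg,
      ← WithZero.exp_add]
    simp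
  have h1 := valuation_map_eq_one ι A.prime.2 A.liesOver_prime hy
  have hposℓ : 0 < A.val.valuation (((A.prime : ℕ) : ℕ) : AlgebraicClosure ℚ) :=
    valuation_natCast_pos A.prime.2.ne_zero
  have hltℓ : A.val.valuation (((A.prime : ℕ) : ℕ) : AlgebraicClosure ℚ) < 1 :=
    A.val.mem_nonunits_iff.mp A.liesOver_prime
  rw [map_mul, map_zpow₀, map_inv₀, map_natCast, map_mul, map_zpow₀, map_inv₀,
    mul_inv_eq_one₀ hposℓ.ne'] at h1
  have hπQ : ι π ∈ H1.QS S := H1.le_QS hF ⟨π, rfl⟩
  have hπ0' : ι π ≠ 0 := (map_ne_zero _).mpr hπ0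
  obtain ⟨n, hn⟩ := exists_isOrdAt A hπQ hπ0'
  have h2 := hn.valuation_eq A.prime.2.ne_zero
  rw [h2, ← zpow_mul] at h1
  have h3 : n * e = 1 := by
    apply zpow_right_injective₀ hposℓ hltℓ.ne
    show _ ^ (n * e) = _ ^ (1 : ℤ)
    rw [h1, zpow_one]
  have hlt1 : v.valuation F (((A.prime : ℕ) : ℕ) : F) < 1 := by
    have hmem : (((A.prime : ℕ) : ℕ) : 𝓞 F) ∈ v.asIdeal :=
      (natCast_mem_primeOf_iff ι).mpr A.liesOver_prime
    have := (v.valuation_lt_one_iff_mem (K := F) _).mpr hmem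
    simpa using this
  have he1 : 0 < e := by
    rw [he, ← WithZero.exp_zero, WithZero.exp_lt_exp] at hlt1
    omega
  have he' : e = 1 := by
    rcases Int.eq_one_or_neg_one_of_mul_eq_one' h3 with ⟨-, h⟩ | ⟨-, h⟩
    · exact h
    · omega
  rw [he, he']

/-- The bridge for an arbitrary embedded number field unramified outside `S`. -/
theorem isOrdAt_of_isUnramifiedOutside' (hF : ι.fieldRange.IsUnramifiedOutside S)
    (A : PlacesOutside S) (x : Fˣ) :
    IsOrdAt A.val A.prime (ι (x : F))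
      (Multiplicative.toAdd (H23.ordAt F (primeOut ι A).1 x)) := by
  set k : ℤ := Multiplicative.toAdd (H23.ordAt F (primeOut ι A).1 x) with hk
  unfold IsOrdAt
  have h1 : ι (x : F) * ((((A.prime : ℕ) : ℕ) : AlgebraicClosure ℚ) ^ k)⁻¹ =
      ι ((x : F) * ((((A.prime : ℕ) : ℕ) : F) ^ k)⁻¹) := by
    rw [map_mul, map_inv₀, map_zpow₀, map_natCast]
  rw [h1]
  apply valuation_map_eq_one ι A.prime.2 A.liesOver_prime
  rw [map_mul, map_inv₀, map_zpow₀, valuation_prime_eq_exp' ι hF A]
  have h2 : (placeOf ι A.prime.2 A.liesOver_prime).valuation F (x : F) = WithZero.exp (-k) := by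
    rw [← H10.coe_ordHom, hk, H23.ordAt_apply, toAdd_inv, neg_neg, WithZero.exp_eq_coe_ofAdd,
      ofAdd_toAdd]
    rfl
  rw [h2, ← WithZero.exp_zsmul, ← WithZero.exp_neg, ← WithZero.exp_add]
  simp

theorem finite_setOf_natCast_mem' {q : ℕ} (hq : q ≠ 0) :
    {P : H23.PrimesOutside S F | ((q : ℕ) : 𝓞 F) ∈ P.1.asIdeal}.Finite := by
  have hI : Ideal.span {((q : ℕ) : 𝓞 F)} ≠ 0 := by
    rw [Ne, Ideal.zero_eq_bot, Ideal.span_singleton_eq_bot]
    exact_mod_cast hq
  have h := Ideal.finite_factors hI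
  refine (h.preimage (f := fun P : H23.PrimesOutside S F => P.1)
    (Subtype.val_injective.injOn)).subset ?_
  intro P hP
  simp only [Set.mem_preimage, Set.mem_ofPred_eq]
  rw [Ideal.dvd_span_singleton]
  exact hP

end PrimeOut

/-! ### The `DivDescent` structure -/

section Descent

variable {F : Type} [Field F] [NumberField F] {ι : F →ₐ[ℚ] AlgebraicClosure ℚ}
  (hF : ι.fieldRange.IsUnramifiedOutside S)

/-- The top-level divisor (in helper77's `DivTop`) attached to a divisor of `F`. -/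
def toTopFun (D : H23.DivS S F) : H77.DivTop S :=
  ⟨fun P => D (primeOut ι (ofPlaceOut P)), by
    constructor
    · refine ⟨ι.fieldRange, hF, fun σ hσ P => ?_⟩
      show D (primeOut ι (ofPlaceOut (σ • P))) = D (primeOut ι (ofPlaceOut P))
      rw [ofPlaceOut_smul, primeOut_smul_of_mem ι hσ]
    · refine ((D.support.finite_toSet).image
        (fun P : H23.PrimesOutside S F => (placeOver ι P).prime)).subset ?_
      rintro q ⟨P, hPq, hne⟩
      refine ⟨primeOut ι (ofPlaceOut P), Finsupp.mem_support_iff.mpr hne, ?_⟩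
      obtain ⟨τ, -, hτ⟩ :=
        (primeOut_eq_iff ι).mp (primeOut_placeOver ι (primeOut ι (ofPlaceOut P)))
      show (placeOver ι (primeOut ι (ofPlaceOut P))).prime = q
      have h3 := PlacesOutside.prime_smul τ (placeOver ι (primeOut ι (ofPlaceOut P)))
      rw [hτ, ofPlaceOut_prime] at h3
      rw [← hPq, h3]⟩

theorem toTopFun_apply (D : H23.DivS S F) (P : H77.PlaceOut S) :
    (toTopFun hF D).1 P = D (primeOut ι (ofPlaceOut P)) := rfl

/-- The comparison map `Div^S(F) → DivTop S`. -/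
def toTopHom : H23.DivS S F →+ H77.DivTop S where
  toFun := toTopFun hF
  map_zero' := by
    apply Subtype.ext
    funext P
    rfl
  map_add' D D' := by
    apply Subtype.ext
    funext P
    rfl

theorem toTopHom_apply (D : H23.DivS S F) (P : H77.PlaceOut S) :
    (toTopHom hF D).1 P = D (primeOut ι (ofPlaceOut P)) := rfl

theorem toTopHom_injective : Function.Injective (toTopHom hF) := by
  intro D D' h
  ext v
  obtain ⟨A, rfl⟩ := primeOut_surjective ι v
  have h1 := congrArg (fun d : H77.DivTop S => d.1 (toPlaceOut A)) h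
  simp only [toTopHom_apply, ofPlaceOut_toPlaceOut] at h1
  exact h1

theorem smul_toTopHom_of_mem (D : H23.DivS S F) {σ : GQ}
    (hσ : σ ∈ ι.fieldRange.fixingSubgroup) : σ • toTopHom hF D = toTopHom hF D := by
  apply Subtype.ext
  funext P
  rw [H77.DivTop.smul_apply, toTopHom_apply, toTopHom_apply, ofPlaceOut_smul,
    primeOut_smul_of_mem ι (inv_mem hσ)]

theorem mem_range_toTopHom_iff (d : H77.DivTop S) :
    d ∈ (toTopHom hF).range ↔ ∀ σ ∈ ι.fieldRange.fixingSubgroup, σ • d = d := by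
  constructor
  · rintro ⟨D, rfl⟩ σ hσ
    exact smul_toTopHom_of_mem hF D hσ
  · intro hd
    -- invariance in pointwise form
    have hinv : ∀ τ ∈ ι.fieldRange.fixingSubgroup, ∀ P : H77.PlaceOut S, d.1 (τ • P) = d.1 P := by
      intro τ hτ P
      have h := congrArg (fun e : H77.DivTop S => e.1 (τ • P)) (hd τ hτ)
      simp only [H77.DivTop.smul_apply, inv_smul_smul] at h
      exact h.symm
    have hconst : ∀ A A' : PlacesOutside S, primeOut ι A = primeOut ι A' →
        d.1 (toPlaceOut A) = d.1 (toPlaceOut A') := by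
      intro A A' h
      obtain ⟨τ, hτ, rfl⟩ := (primeOut_eq_iff ι).mp h
      rw [toPlaceOut_smul, hinv τ hτ]
    have hfin : (Function.support fun v : H23.PrimesOutside S F =>
        d.1 (toPlaceOut (placeOver ι v))).Finite := by
      have hT := d.2.2
      refine (hT.biUnion (t := fun q : Nat.Primes =>
        {P : H23.PrimesOutside S F | (((q : ℕ) : ℕ) : 𝓞 F) ∈ P.1.asIdeal})
        (fun q _ => finite_setOf_natCast_mem' q.2.ne_zero)).subset ?_
      intro v hv
      have hv' : d.1 (toPlaceOut (placeOver ι v)) ≠ 0 := hv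
      simp only [Set.mem_iUnion, Set.mem_ofPred_eq, exists_prop]
      refine ⟨(placeOver ι v).prime, ⟨toPlaceOut (placeOver ι v), rfl, hv'⟩, ?_⟩
      have h1 : (((placeOver ι v).prime : ℕ) : 𝓞 F) ∈ (primeOut ι (placeOver ι v)).1.asIdeal :=
        (natCast_mem_primeOf_iff ι).mpr (placeOver ι v).liesOver_prime
      rw [primeOut_placeOver] at h1
      exact h1
    refine ⟨Finsupp.ofSupportFinite _ hfin, ?_⟩
    apply Subtype.ext
    funext P
    rw [toTopHom_apply]
    show d.1 (toPlaceOut (placeOver ι (primeOut ι (ofPlaceOut P)))) = d.1 P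
    rw [hconst _ (ofPlaceOut P) (primeOut_placeOver ι _), toPlaceOut_ofPlaceOut]

theorem toTopHom_smul (σ : GQ) (g : F ≃ₐ[ℚ] F) (hg : H77.RestrictsTo ι σ g)
    (D : H23.DivS S F) : toTopHom hF (g • D) = σ • toTopHom hF D := by
  apply Subtype.ext
  funext P
  rw [H77.DivTop.smul_apply, toTopHom_apply, toTopHom_apply, H23.smul_divS_apply, ofPlaceOut_smul,
    primeOut_smul ι σ⁻¹ g⁻¹ (restrictsTo_inv ι hg)]

theorem isDivOf_toTopHom (x : Fˣ) :
    H77.IsDivOf S (ι (x : F)) (toTopHom hF (Multiplicative.toAdd (H23.divS S F x))).1 := by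
  rw [isDivOf_iff]
  intro P
  rw [toTopHom_apply, H23.divS_apply]
  have h := isOrdAt_of_isUnramifiedOutside' ι hF (ofPlaceOut P) x
  rw [ofPlaceOut_prime] at h
  exact h

/-- **The divisor-side descent datum** consumed by `H77.csInvEquiv`. -/
def divDescent : H77.DivDescent S ι where
  toTop := toTopHom hF
  injective := toTopHom_injective hF
  mem_range_iff := mem_range_toTopHom_iff hF
  map_smul := toTopHom_smul hF
  isDivOf := isDivOf_toTopHom hF

@[simp] theorem divDescent_toTop : (divDescent hF).toTop = toTopHom hF := rfl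

/-- **Unconditional descent** (helper77's `csInvEquiv` with both divisor-side inputs discharged):
the finite-level hybrid class group is the group of `U_F`-invariants of the top-level one. -/
def csInvEquivFull (hS : S.Nonempty) :
    H23.CS S F ≃* ↥(H77.csTopFixed S ι.fieldRange.fixingSubgroup) :=
  H77.csInvEquiv hF (divDescent hF) hS hasDivisors

theorem csInvEquivFull_apply_coe (hS : S.Nonempty) (c : H23.CS S F) :
    ((csInvEquivFull hF hS c : ↥(H77.csTopFixed S ι.fieldRange.fixingSubgroup)) : H77.CSTop S) =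
      H77.csIncl hF (divDescent hF) c :=
  H77.csInvEquiv_apply_coe hF (divDescent hF) hS hasDivisors c

end Descent

end

end Fermat.Agent.CFT.H45
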