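/-
CFT project, layer B, package B-MAPS (helper43): transport of group cohomology and of
class-module structures along isomorphisms of (group, representation) pairs.
-/
import Mathlib
import Fermat.Agent.CFT.H91_Formation

set_option autoImplicit false

open CategoryTheory groupCohomology

namespace Fermat.Agent.CFT.H43

/-! ## (M) equivalences of (group, representation) pairs -/

section General

variable {k : Type} [CommRing k] {G G' : Type} [Group G] [Group G']

/-- An isomorphism of pairs `(G, A) ≃ (G', A')`: a group isomorphism together with a compatible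
linear equivalence of the underlying modules. -/
structure PairEquiv (A : Rep.{0} k G) (A' : Rep.{0} k G') where
  e : G ≃* G'
  φ : A.V ≃ₗ[k] A'.V
  comm : ∀ (g : G) (a : A.V), φ (A.ρ g a) = A'.ρ (e g) (φ a)

namespace PairEquiv

variable {A : Rep.{0} k G} {A' : Rep.{0} k G'} (E : PairEquiv A A')

lemma comm' (g : G) : E.φ.toLinearMap ∘ₗ A.ρ g = A'.ρ (E.e g) ∘ₗ E.φ.toLinearMap :=
  LinearMap.ext fun a => E.comm g a

/-- The induced isomorphism on cohomology. -/
noncomputable def cohIso (n : ℕ) : groupCohomology A n ≅ groupCohomology A' n :=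
  groupCohomology.mapIso E.e E.φ E.comm' n

/-- The identity pair equivalence. -/
def refl (A : Rep.{0} k G) : PairEquiv A A where
  e := MulEquiv.refl G
  φ := LinearEquiv.refl k _
  comm _ _ := rfl

/-- The inverse pair equivalence. -/
def symm : PairEquiv A' A where
  e := E.e.symm
  φ := E.φ.symm
  comm g a := by
    apply E.φ.injective
    rw [E.comm, LinearEquiv.apply_symm_apply, MulEquiv.apply_symm_apply,
      LinearEquiv.apply_symm_apply]

/-- Composition of pair equivalences. -/
def trans {G'' : Type} [Group G''] {A'' : Rep.{0} k G''} (E' : PairEquiv A' A'') :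
    PairEquiv A A'' where
  e := E.e.trans E'.e
  φ := E.φ.trans E'.φ
  comm g a := by
    change E'.φ (E.φ (A.ρ g a)) = A''.ρ (E'.e (E.e g)) (E'.φ (E.φ a))
    rw [E.comm, E'.comm]

/-- A pair equivalence over a fixed group from an isomorphism of representations. -/
def ofIso {B : Rep.{0} k G} (i : A ≅ B) : PairEquiv A B where
  e := MulEquiv.refl G
  φ := { toFun := i.hom.hom
         invFun := i.inv.hom
         map_add' := map_add _
         map_smul' := map_smul _
         left_inv := fun x => by simp
         right_inv := fun x => by simp }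
  comm g a := Rep.hom_comm_apply i.hom g a

/-- The morphism `res e.symm A ⟶ A'` underlying `cohIso`. -/
noncomputable def homRep : Rep.res (E.e.symm : G' →* G) A ⟶ A' :=
  Rep.ofHom ⟨E.φ, fun h => by simp [E.comm']⟩

lemma cohIso_hom (n : ℕ) :
    (E.cohIso n).hom = groupCohomology.map (E.e.symm : G' →* G) E.homRep n := rfl

/-- Restriction of a pair equivalence to corresponding subgroups. -/
def restrict (H : Subgroup G) (H' : Subgroup G') (eH : H ≃* H')
    (heH : ∀ h : H, ((eH h : H') : G') = E.e h) :
    PairEquiv (Rep.res H.subtype A) (Rep.res H'.subtype A') where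
  e := eH
  φ := E.φ
  comm h a := by
    change E.φ (A.ρ (h : G) a) = A'.ρ ((eH h : H') : G') (E.φ a)
    rw [heH, E.comm]

/-- Naturality of restriction to subgroups with respect to `cohIso`. -/
lemma cohIso_resSub (H : Subgroup G) (H' : Subgroup G') (eH : H ≃* H')
    (heH : ∀ h : H, ((eH h : H') : G') = E.e h) (n : ℕ) :
    (E.cohIso n).hom ≫ resSub A' H' n =
      resSub A H n ≫ ((E.restrict H H' eH heH).cohIso n).hom := by
  rw [cohIso_hom, cohIso_hom]
  unfold resSub
  rw [← groupCohomology.map_comp, ← groupCohomology.map_comp]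
  refine groupCohomology.map_congr ?_ ?_ n
  · ext h'
    obtain ⟨h, rfl⟩ := eH.surjective h'
    have h1 : (E.restrict H H' eH heH).e.symm (eH h) = h := eH.symm_apply_apply h
    simp [heH, h1]
  · rfl

/-- The subgroup of `G` corresponding to `H' ≤ G'`. -/
def pullSub (H' : Subgroup G') : Subgroup G := H'.comap (E.e : G →* G')

/-- `pullSub H' ≃* H'`. -/
def pullSubEquiv (H' : Subgroup G') : E.pullSub H' ≃* H' where
  toFun h := ⟨E.e h, h.2⟩
  invFun h' := ⟨E.e.symm h', by
    change E.e (E.e.symm h') ∈ H'
    rw [MulEquiv.apply_symm_apply]; exact h'.2⟩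
  left_inv h := by ext; simp
  right_inv h' := by ext; simp
  map_mul' a b := by ext; simp

lemma pullSubEquiv_coe (H' : Subgroup G') (h : E.pullSub H') :
    ((E.pullSubEquiv H' h : H') : G') = E.e h := rfl

/-- The restricted pair equivalence `(pullSub H', A) ≃ (H', A')`. -/
def restrictPull (H' : Subgroup G') :
    PairEquiv (Rep.res (E.pullSub H').subtype A) (Rep.res H'.subtype A') :=
  E.restrict (E.pullSub H') H' (E.pullSubEquiv H') (E.pullSubEquiv_coe H')

lemma cohIso_resSub_apply (H' : Subgroup G') (n : ℕ) (x : groupCohomology A n) :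
    (resSub A' H' n).hom ((E.cohIso n).hom.hom x) =
      ((E.restrictPull H').cohIso n).hom.hom ((resSub A (E.pullSub H') n).hom x) := by
  have := E.cohIso_resSub (E.pullSub H') H' (E.pullSubEquiv H') (E.pullSubEquiv_coe H') n
  exact congrArg (fun f => f.hom x) this

lemma natCard_pullSub (H' : Subgroup G') : Nat.card (E.pullSub H') = Nat.card H' :=
  Nat.card_congr (E.pullSubEquiv H').toEquiv

lemma isPGroup_pullSub {p : ℕ} (H' : Subgroup G') (h : IsPGroup p H') :
    IsPGroup p (E.pullSub H') :=
  h.of_equiv (E.pullSubEquiv H').symm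

/-- Transport of a class module structure along a pair equivalence. -/
theorem isClassModule {γ : groupCohomology A 2} (h : IsClassModule A γ) :
    IsClassModule A' ((E.cohIso 2).hom.hom γ) where
  h1 H' := by
    have := h.h1 (E.pullSub H')
    exact (((E.restrictPull H').cohIso 1).symm.toLinearEquiv.toEquiv).subsingleton
  h2_gen H' x := by
    obtain ⟨n, hn⟩ := h.h2_gen (E.pullSub H') (((E.restrictPull H').cohIso 2).inv.hom x)
    refine ⟨n, ?_⟩
    rw [E.cohIso_resSub_apply, ← map_zsmul, ← hn]
    exact (congrArg (fun f => f.hom x) ((E.restrictPull H').cohIso 2).inv_hom_id).symm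
  h2_order H' := by
    rw [E.cohIso_resSub_apply, ← E.natCard_pullSub, ← h.h2_order (E.pullSub H')]
    exact addOrderOf_injective
      (((E.restrictPull H').cohIso 2).toLinearEquiv.toLinearMap.toAddMonoidHom)
      ((E.restrictPull H').cohIso 2).toLinearEquiv.injective _

/-- Transport of a `p`-class module structure along a pair equivalence. -/
theorem isPClassModule {p : ℕ} {γ : groupCohomology A 2} (h : IsPClassModule p A γ) :
    IsPClassModule p A' ((E.cohIso 2).hom.hom γ) where
  h1 H' hH' := by
    have := h.h1 (E.pullSub H') (E.isPGroup_pullSub H' hH')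
    exact (((E.restrictPull H').cohIso 1).symm.toLinearEquiv.toEquiv).subsingleton
  h2_gen H' hH' x := by
    obtain ⟨n, hn⟩ := h.h2_gen (E.pullSub H') (E.isPGroup_pullSub H' hH')
      (((E.restrictPull H').cohIso 2).inv.hom x)
    refine ⟨n, ?_⟩
    rw [E.cohIso_resSub_apply, ← map_zsmul, ← hn]
    exact (congrArg (fun f => f.hom x) ((E.restrictPull H').cohIso 2).inv_hom_id).symm
  h2_order H' hH' := by
    rw [E.cohIso_resSub_apply, ← E.natCard_pullSub,
      ← h.h2_order (E.pullSub H') (E.isPGroup_pullSub H' hH')]
    exact addOrderOf_injective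
      (((E.restrictPull H').cohIso 2).toLinearEquiv.toLinearMap.toAddMonoidHom)
      ((E.restrictPull H').cohIso 2).toLinearEquiv.injective _

end PairEquiv

end General

end Fermat.Agent.CFT.H43
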