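/-
CFT project, layer B, package B-MAPS (helper43), Galois part: the pair equivalences
(T1)/(T2) `(Gal(E/K), Eˣ) ≃ (Gal(Ω/K) ⧸ Gal(Ω/E), (Ωˣ)^{Gal(Ω/E)})` for `Ω/K` Galois (finite or
infinite) and `E/K` normal, and (T3) `(H, Ωˣ) ≃ (Gal(Ω/Ω^H), Ωˣ)`.
-/
import Mathlib
import Fermat.Agent.CFT.H43_Maps

set_option autoImplicit false
open CategoryTheory groupCohomology

namespace Fermat.Agent.CFT.H43

section Fields

variable {K Ω : Type} [Field K] [Field Ω] [Algebra K Ω]

theorem fixingSubgroup_normal (E : IntermediateField K Ω) [Normal K E] :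
    E.fixingSubgroup.Normal := by
  rw [← E.restrictNormalHom_ker]; exact MonoidHom.normal_ker _

variable (E : IntermediateField K Ω)

/-- the units of `E` as units of `Ω` -/
noncomputable def unitsIncl : Eˣ →* Ωˣ := Units.map (algebraMap E Ω).toMonoidHom

lemma unitsIncl_coe (u : Eˣ) : ((unitsIncl E u : Ωˣ) : Ω) = ((u : E) : Ω) := rfl

lemma unitsIncl_injective : Function.Injective (unitsIncl E) := by
  intro a b h
  ext
  exact congrArg (fun x : Ωˣ => (x : Ω)) h

lemma smul_unitsIncl (σ : Ω ≃ₐ[K] Ω) (hσ : σ ∈ E.fixingSubgroup) (u : Eˣ) :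
    σ • unitsIncl E u = unitsIncl E u := by
  ext
  change σ ((u : E) : Ω) = ((u : E) : Ω)
  exact (IntermediateField.mem_fixingSubgroup_iff _ _).1 hσ _ (u : E).2

/-- A unit of `Ω` fixed by `Gal(Ω/E)` comes from a unit of `E`. -/
lemma exists_unitsIncl_eq [IsGalois K Ω] (x : Ωˣ)
    (hx : ∀ σ : Ω ≃ₐ[K] Ω, σ ∈ E.fixingSubgroup → σ • x = x) : ∃ u : Eˣ, unitsIncl E u = x := by
  have hmem : (x : Ω) ∈ E := by
    rw [← InfiniteGalois.fixedField_fixingSubgroup E, IntermediateField.mem_fixedField_iff]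
    intro σ hσ
    exact congrArg (fun y : Ωˣ => (y : Ω)) (hx σ hσ)
  refine ⟨Units.mk0 ⟨(x : Ω), hmem⟩ ?_, ?_⟩
  · intro h
    exact x.ne_zero (congrArg (fun y : E => (y : Ω)) h)
  · ext; rfl

variable [E.fixingSubgroup.Normal]

/-- the units of `E` inside the invariants -/
noncomputable def unitsToInv :
    Additive Eˣ →+ ((Rep.ofAlgebraAutOnUnits K Ω).quotientToInvariants E.fixingSubgroup).V where
  toFun u := ⟨Additive.ofMul (unitsIncl E u.toMul), fun σ => by
    exact congrArg Additive.ofMul (smul_unitsIncl E σ.1 σ.2 u.toMul)⟩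
  map_zero' := by
    apply Subtype.ext
    change Additive.ofMul (unitsIncl E 1) = 0
    rw [map_one]; rfl
  map_add' a b := by
    apply Subtype.ext
    change Additive.ofMul (unitsIncl E (a.toMul * b.toMul)) = _
    rw [map_mul]; rfl

lemma unitsToInv_bijective [IsGalois K Ω] : Function.Bijective (unitsToInv (Ω := Ω) E) := by
  constructor
  · intro a b h
    have h1 : Additive.ofMul (unitsIncl E a.toMul) = Additive.ofMul (unitsIncl E b.toMul) :=
      congrArg Subtype.val h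
    exact Additive.toMul.injective (unitsIncl_injective E (Additive.ofMul.injective h1))
  · rintro ⟨x, hx⟩
    obtain ⟨u, hu⟩ := exists_unitsIncl_eq E (Additive.toMul x) (fun σ hσ => by
      have := hx ⟨σ, hσ⟩
      exact congrArg Additive.toMul this)
    refine ⟨Additive.ofMul u, Subtype.ext ?_⟩
    change Additive.ofMul (unitsIncl E u) = x
    rw [hu]; rfl

variable [Normal K E]

/-- `Gal(Ω/K) ⧸ Gal(Ω/E) ≃* Gal(E/K)`. -/
noncomputable def quotEquiv [Normal K Ω] : (Ω ≃ₐ[K] Ω) ⧸ E.fixingSubgroup ≃* (E ≃ₐ[K] E) :=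
  QuotientGroup.liftEquiv _ (AlgEquiv.restrictNormalHom_surjective Ω) E.restrictNormalHom_ker.symm

lemma quotEquiv_mk [Normal K Ω] (σ : Ω ≃ₐ[K] Ω) :
    quotEquiv E (QuotientGroup.mk σ) = AlgEquiv.restrictNormalHom E σ := rfl

/-- `Additive Eˣ ≃ₗ[ℤ] (Ωˣ)^{Gal(Ω/E)}` -/
noncomputable def unitsInvEquiv [IsGalois K Ω] :
    (Rep.ofAlgebraAutOnUnits K E).V ≃ₗ[ℤ]
      ((Rep.ofAlgebraAutOnUnits K Ω).quotientToInvariants E.fixingSubgroup).V :=
  LinearEquiv.ofBijective
    { toFun := unitsToInv E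
      map_add' := (unitsToInv E).map_add
      map_smul' := fun n x => by
        simp only [eq_intCast, Int.cast_id]
        exact map_zsmul (unitsToInv E) n x }
    (unitsToInv_bijective E)

lemma unitsInvEquiv_apply [IsGalois K Ω] (u : Additive Eˣ) :
    ((unitsInvEquiv (Ω := Ω) E u).1 : Additive Ωˣ) = Additive.ofMul (unitsIncl E u.toMul) := rfl

/-- The pair equivalence `(Gal(E/K), Eˣ) ≃ (Gal(Ω/K) ⧸ Gal(Ω/E), (Ωˣ)^{Gal(Ω/E)})`. -/
noncomputable def unitsPairEquiv [IsGalois K Ω] :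
    PairEquiv (Rep.ofAlgebraAutOnUnits K E)
      ((Rep.ofAlgebraAutOnUnits K Ω).quotientToInvariants E.fixingSubgroup) where
  e := (quotEquiv E).symm
  φ := unitsInvEquiv E
  comm g a := by
    obtain ⟨σ, rfl⟩ := AlgEquiv.restrictNormalHom_surjective Ω g
    have h1 : (quotEquiv (Ω := Ω) E).symm (AlgEquiv.restrictNormalHom E σ) = QuotientGroup.mk σ := by
      rw [MulEquiv.symm_apply_eq]; rfl
    rw [h1]
    apply Subtype.ext
    apply Additive.toMul.injective
    apply Units.ext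
    change (((AlgEquiv.restrictNormalHom E σ) ((Additive.toMul (a : Additive Eˣ) : Eˣ) : E) : E) : Ω)
      = σ (((Additive.toMul (a : Additive Eˣ) : Eˣ) : E) : Ω)
    exact AlgEquiv.restrictNormal_commutes σ E _

end Fields

section Subgroups

variable {K Ω : Type} [Field K] [Field Ω] [Algebra K Ω]

/-- (T3), intermediate-field form: the restriction of `Ωˣ` to `Gal(Ω/E) ≤ Gal(Ω/K)` is the
`Gal(Ω/E)`-module `Ωˣ`. -/
noncomputable def fixingPairEquiv (E : IntermediateField K Ω) :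
    PairEquiv (Rep.res E.fixingSubgroup.subtype (Rep.ofAlgebraAutOnUnits K Ω))
      (Rep.ofAlgebraAutOnUnits E Ω) where
  e := IntermediateField.fixingSubgroupEquiv E
  φ := LinearEquiv.refl ℤ _
  comm _ _ := rfl

/-- (T3), subgroup form (finite Galois case): the restriction of `Ωˣ` to `H ≤ Gal(Ω/K)` is the
`Gal(Ω/Ω^H)`-module `Ωˣ`. -/
noncomputable def subgroupPairEquiv [FiniteDimensional K Ω] (H : Subgroup (Ω ≃ₐ[K] Ω)) :
    PairEquiv (Rep.res H.subtype (Rep.ofAlgebraAutOnUnits K Ω))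
      (Rep.ofAlgebraAutOnUnits (IntermediateField.fixedField H) Ω) where
  e := IntermediateField.subgroupEquivAlgEquiv H
  φ := LinearEquiv.refl ℤ _
  comm _ _ := rfl

end Subgroups
end Fermat.Agent.CFT.H43
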