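import Mathlib
import Fermat.Agent.CFT.H77_TopDescent
import Fermat.Agent.CFT.H45_TopDivOrd

/-!
# CFT, layer C, package C-TOP: adapter between the `H77` and the `H45` top-level divisor vocabularies

helper45 (C-TOP-Div) works with `H45.PlacesOutside S` (a subtype of `ValuationSubring Qbar`) and
`H45.DivTop S`; the formation module `H77.CSTop S` uses `H77.PlaceOut S` (a structure carrying the
rational prime) and `H77.DivTop S`.  They are canonically the same:

* `placeEquiv : PlaceOut S ≃ H45.PlacesOutside S`, equivariant;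
* `divTopEquiv : DivTop S ≃+ H45.DivTop S`, equivariant;
* `isDivOf_iff_isOrdAt`;
* `hasDivisors : HasDivisors S` (every element of `ℚ_Sˣ` has a divisor at the top), from
  helper45's `divTopOf`.
-/

set_option autoImplicit false

open scoped TensorProduct

namespace Fermat.Agent.CFT.H77

open IntermediateField Pointwise Fermat.Agent.CFT

local notation "Qbar" => AlgebraicClosure ℚ
local notation "GQ" => (AlgebraicClosure ℚ ≃ₐ[ℚ] AlgebraicClosure ℚ)

noncomputable section

variable {S : Finset Nat.Primes}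

/-- The two models of the places outside `S`. -/
def placeEquiv : PlaceOut S ≃ H45.PlacesOutside S where
  toFun P := H45.PlacesOutside.mk' P.A P.q P.hq P.hA
  invFun A := ⟨A.prime, A.prime_notMem, A.val, A.liesOver_prime⟩
  left_inv _ := PlaceOut.ext_A rfl
  right_inv _ := H45.PlacesOutside.ext rfl

@[simp] theorem placeEquiv_val (P : PlaceOut S) : (placeEquiv P).val = P.A := rfl

@[simp] theorem placeEquiv_prime (P : PlaceOut S) : (placeEquiv P).prime = P.q :=
  H45.PlacesOutside.prime_mk' P.A P.q P.hq P.hA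

@[simp] theorem placeEquiv_symm_A (A : H45.PlacesOutside S) : (placeEquiv.symm A).A = A.val := rfl

@[simp] theorem placeEquiv_symm_q (A : H45.PlacesOutside S) : (placeEquiv.symm A).q = A.prime := rfl

theorem placeEquiv_smul (σ : GQ) (P : PlaceOut S) :
    placeEquiv (σ • P) = σ • placeEquiv P := H45.PlacesOutside.ext rfl

theorem placeEquiv_symm_smul (σ : GQ) (A : H45.PlacesOutside S) :
    placeEquiv.symm (σ • A) = σ • placeEquiv.symm A := PlaceOut.ext_A rfl

/-- The two models of the top-level divisor group. -/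
def divTopEquiv : DivTop S ≃+ H45.DivTop S where
  toFun d := ⟨fun A => d.1 (placeEquiv.symm A), by
    obtain ⟨⟨F, hF, h⟩, hfin⟩ := d.2
    refine ⟨⟨F, hF, fun σ hσ A => ?_⟩, hfin.subset ?_⟩
    · show d.1 (placeEquiv.symm (σ • A)) = d.1 (placeEquiv.symm A)
      rw [placeEquiv_symm_smul]
      exact h σ hσ _
    · rintro q ⟨A, hAq, hne⟩
      exact ⟨placeEquiv.symm A, hAq, hne⟩⟩
  invFun d := ⟨fun P => d.1 (placeEquiv P), by
    obtain ⟨⟨F, hF, h⟩, hfin⟩ := d.2
    refine ⟨⟨F, hF, fun σ hσ P => ?_⟩, hfin.subset ?_⟩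
    · show d.1 (placeEquiv (σ • P)) = d.1 (placeEquiv P)
      rw [placeEquiv_smul]
      exact h σ hσ _
    · rintro q ⟨P, hPq, hne⟩
      exact ⟨placeEquiv P, by rw [placeEquiv_prime]; exact hPq, hne⟩⟩
  left_inv d := Subtype.ext (funext fun P => by
    show d.1 (placeEquiv.symm (placeEquiv P)) = d.1 P
    rw [Equiv.symm_apply_apply])
  right_inv d := Subtype.ext (funext fun A => by
    show d.1 (placeEquiv (placeEquiv.symm A)) = d.1 A
    rw [Equiv.apply_symm_apply])
  map_add' d d' := Subtype.ext (funext fun A => rfl)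

@[simp] theorem divTopEquiv_apply (d : DivTop S) (A : H45.PlacesOutside S) :
    (divTopEquiv d) A = d.1 (placeEquiv.symm A) := rfl

@[simp] theorem divTopEquiv_symm_apply (d : H45.DivTop S) (P : PlaceOut S) :
    (divTopEquiv.symm d).1 P = d (placeEquiv P) := rfl

theorem divTopEquiv_smul (σ : GQ) (d : DivTop S) :
    divTopEquiv (σ • d) = σ • divTopEquiv d := by
  apply H45.DivTop.ext
  intro A
  rw [H45.DivTop.smul_apply, divTopEquiv_apply, divTopEquiv_apply, DivTop.smul_apply,
    placeEquiv_symm_smul]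

theorem divTopEquiv_symm_smul (σ : GQ) (d : H45.DivTop S) :
    divTopEquiv.symm (σ • d) = σ • divTopEquiv.symm d := by
  apply divTopEquiv.injective
  rw [divTopEquiv_smul, AddEquiv.apply_symm_apply, AddEquiv.apply_symm_apply]

/-- `IsDivOf` in terms of helper45's `IsOrdAt`. -/
theorem isDivOf_iff_isOrdAt (x : Qbar) (d : PlaceOut S → ℤ) :
    IsDivOf S x d ↔ ∀ P : PlaceOut S, H45.IsOrdAt P.A (P.q : ℕ) x (d P) := by
  unfold IsDivOf H45.IsOrdAt
  refine forall_congr' fun P => ?_
  rw [div_eq_mul_inv]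

/-- `IsDivOf` in terms of helper45's `IsOrdAt`, over helper45's places. -/
theorem isDivOf_iff_isOrdAt' (x : Qbar) (d : PlaceOut S → ℤ) :
    IsDivOf S x d ↔ ∀ A : H45.PlacesOutside S,
      H45.IsOrdAt A.val (A.prime : ℕ) x (d (placeEquiv.symm A)) := by
  rw [isDivOf_iff_isOrdAt]
  constructor
  · intro h A
    exact h (placeEquiv.symm A)
  · intro h P
    have := h (placeEquiv P)
    rw [Equiv.symm_apply_apply, placeEquiv_prime] at this
    exact this

/-- A unit of `OmegaS S` as a unit of `↥(H1.QS S)`. -/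
def omegaUnitsToQS : (OmegaS S)ˣ →* (↥(H1.QS S))ˣ where
  toFun y := ⟨⟨(y : OmegaS S).val, (y : OmegaS S).val_mem⟩,
    ⟨((y⁻¹ : (OmegaS S)ˣ) : OmegaS S).val, ((y⁻¹ : (OmegaS S)ˣ) : OmegaS S).val_mem⟩,
    Subtype.ext (by
      show (y : OmegaS S).val * ((y⁻¹ : (OmegaS S)ˣ) : OmegaS S).val = 1
      rw [← OmegaS.val_mul, Units.mul_inv, OmegaS.val_one]),
    Subtype.ext (by
      show ((y⁻¹ : (OmegaS S)ˣ) : OmegaS S).val * (y : OmegaS S).val = 1
      rw [← OmegaS.val_mul, Units.inv_mul, OmegaS.val_one])⟩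
  map_one' := Units.ext (Subtype.ext rfl)
  map_mul' y y' := Units.ext (Subtype.ext rfl)

@[simp] theorem coe_omegaUnitsToQS (y : (OmegaS S)ˣ) :
    (((omegaUnitsToQS y : (↥(H1.QS S))ˣ) : ↥(H1.QS S)) : Qbar) = (y : OmegaS S).val := rfl

/-- The divisor of `y ∈ ℚ_Sˣ` at the top level. -/
def divTopOfUnit (y : (OmegaS S)ˣ) : DivTop S :=
  divTopEquiv.symm (H45.divTopOf (omegaUnitsToQS y))

theorem isDivOf_divTopOfUnit (y : (OmegaS S)ˣ) :
    IsDivOf S (y : OmegaS S).val (divTopOfUnit y).1 := by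
  rw [isDivOf_iff_isOrdAt]
  intro P
  have h := H45.isOrdAt_ordAtTop (placeEquiv P) (omegaUnitsToQS y)
  rw [placeEquiv_prime] at h
  exact h

variable (S) in
/-- Every element of `ℚ_Sˣ` has a divisor at the top level. -/
theorem hasDivisors : HasDivisors S := fun y => ⟨divTopOfUnit y, isDivOf_divTopOfUnit y⟩

theorem divTopOfUnit_eq_iff (y : (OmegaS S)ˣ) (d : DivTop S) :
    divTopOfUnit y = d ↔ IsDivOf S (y : OmegaS S).val d.1 :=
  ⟨fun h => h ▸ isDivOf_divTopOfUnit y,
    fun h => Subtype.ext ((isDivOf_divTopOfUnit y).unique h)⟩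

end

end Fermat.Agent.CFT.H77
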