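import Mathlib
import Fermat.Agent.CFT.H77_TopDivAdapter
import Fermat.Agent.CFT.H43_MapsGalois

/-!
# CFT, layer C, package C-TOP: the pair equivalence at a Galois level (`h-desc`)

For `E : IntermediateField ℚ Qbar` finite Galois over `ℚ` and unramified outside `S`, with
`U_E = E.fixingSubgroup`:

`csPairEquiv : H43.PairEquiv (H23.repCS S ↥E ℚ) ((repCSTop S).quotientToInvariants U_E)`,

i.e. `(Gal(E/ℚ), CS S E) ≃ (G_ℚ ⧸ U_E, (CSTop S)^{U_E})`, from the descent isomorphism
`csInvEquiv` of `H77_TopDescent`, its equivariance `csIncl_smul`, and `H43.quotEquiv`.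
The divisor-side input `D : DivDescent S E.val` is an explicit argument.
-/

set_option autoImplicit false

open scoped TensorProduct

namespace Fermat.Agent.CFT.H77

open IntermediateField Pointwise Fermat.Agent.CFT

local notation "Qbar" => AlgebraicClosure ℚ
local notation "GQ" => (AlgebraicClosure ℚ ≃ₐ[ℚ] AlgebraicClosure ℚ)

local instance isAlgebraicQbar_h77p : Algebra.IsAlgebraic ℚ (AlgebraicClosure ℚ) :=
  AlgebraicClosure.isAlgebraic ℚ
local instance isAlgClosureQbar_h77p : IsAlgClosure ℚ (AlgebraicClosure ℚ) :=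
  ⟨inferInstance, inferInstance⟩
local instance normalQbar_h77p : Normal ℚ (AlgebraicClosure ℚ) :=
  IsAlgClosure.normal ℚ (AlgebraicClosure ℚ)
local instance isGaloisQbar_h77p : IsGalois ℚ (AlgebraicClosure ℚ) := ⟨⟩

noncomputable section

variable {S : Finset Nat.Primes} (E : IntermediateField ℚ Qbar)

theorem isUnramifiedOutside_fieldRange_val (hE : E.IsUnramifiedOutside S) :
    E.val.fieldRange.IsUnramifiedOutside S := by
  rw [IntermediateField.fieldRange_val]
  exact hE

theorem mem_fixingSubgroup_fieldRange_val_iff (σ : GQ) :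
    σ ∈ E.val.fieldRange.fixingSubgroup ↔ σ ∈ E.fixingSubgroup := by
  rw [IntermediateField.fieldRange_val]

variable [NumberField ↥E]

/-- Shortcut instance: the generic search for `HSMul Gal(E/ℚ) (CS S E) ?_` is very slow when the
field is the coercion of an intermediate field. -/
local instance csSMulE_h77 : SMul (↥E ≃ₐ[ℚ] ↥E) (H23.CS S ↥E) := (H23.csAction S ↥E ℚ).toSMul

variable (hE : E.IsUnramifiedOutside S) (D : DivDescent S E.val) (hS : S.Nonempty)

/-- The comparison map `CS S E → CSTop S` for a level given as an intermediate field. -/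
def csInclE : H23.CS S ↥E →* CSTop S := csIncl (isUnramifiedOutside_fieldRange_val E hE) D

include hS in
theorem csInclE_injective : Function.Injective (csInclE E hE D) :=
  csIncl_injective _ D hS

include hS in
theorem mem_range_csInclE_iff (c : CSTop S) :
    c ∈ (csInclE E hE D).range ↔ ∀ σ ∈ E.fixingSubgroup, σ • c = c := by
  refine (mem_range_csIncl_iff (isUnramifiedOutside_fieldRange_val E hE) D hS
    (hasDivisors S) c).trans ?_
  constructor
  · intro h σ hσ
    exact h σ ((mem_fixingSubgroup_fieldRange_val_iff E σ).mpr hσ)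
  · intro h σ hσ
    exact h σ ((mem_fixingSubgroup_fieldRange_val_iff E σ).mp hσ)

theorem smul_csInclE_of_mem (σ : GQ) (hσ : σ ∈ E.fixingSubgroup) (c : H23.CS S ↥E) :
    σ • csInclE E hE D c = csInclE E hE D c :=
  smul_csIncl_of_mem_fixer _ D σ ((mem_fixingSubgroup_fieldRange_val_iff E σ).mpr hσ) c

/-- The descent isomorphism `CS S E ≃* (CSTop S)^{U_E}` for a level given as an intermediate
field (no Galois hypothesis). -/
def csInvEquivE : H23.CS S ↥E ≃* csTopFixed S E.fixingSubgroup :=
  MulEquiv.ofBijective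
    ((csInclE E hE D).codRestrict (csTopFixed S E.fixingSubgroup)
      (fun c σ hσ => smul_csInclE_of_mem E hE D σ hσ c))
    ⟨fun _ _ h => csInclE_injective E hE D hS (congrArg Subtype.val h),
      fun c => by
        obtain ⟨y, hy⟩ := (mem_range_csInclE_iff E hE D hS c.1).mpr c.2
        exact ⟨y, Subtype.ext hy⟩⟩

@[simp] theorem csInvEquivE_apply_coe (c : H23.CS S ↥E) :
    ((csInvEquivE E hE D hS c : csTopFixed S E.fixingSubgroup) : CSTop S) = csInclE E hE D c := rfl

theorem restrictsTo_restrictNormalHom [Normal ℚ ↥E] (σ : GQ) :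
    RestrictsTo E.val σ (AlgEquiv.restrictNormalHom ↥E σ) := fun y =>
  (AlgEquiv.restrictNormal_commutes σ ↥E y).symm

theorem csInclE_smul [Normal ℚ ↥E] (σ : GQ) (c : H23.CS S ↥E) :
    csInclE E hE D (AlgEquiv.restrictNormalHom ↥E σ • c) = σ • csInclE E hE D c :=
  csIncl_smul _ D (restrictsTo_restrictNormalHom E σ) c

variable [E.fixingSubgroup.Normal]

/-- `CS S E` inside the `U_E`-invariants of `CSTop S`. -/
def csToInv :
    Additive (H23.CS S ↥E) →+ ((repCSTop S).quotientToInvariants E.fixingSubgroup).V where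
  toFun c := ⟨Additive.ofMul (csInclE E hE D c.toMul), fun σ => by
    exact congrArg Additive.ofMul (smul_csInclE_of_mem E hE D σ.1 σ.2 c.toMul)⟩
  map_zero' := by
    apply Subtype.ext
    change Additive.ofMul (csInclE E hE D 1) = 0
    rw [map_one]; rfl
  map_add' a b := by
    apply Subtype.ext
    change Additive.ofMul (csInclE E hE D (a.toMul * b.toMul)) = _
    rw [map_mul]; rfl

include hS in
theorem csToInv_bijective : Function.Bijective (csToInv E hE D) := by
  constructor
  · intro a b h
    have h1 : Additive.ofMul (csInclE E hE D a.toMul) = Additive.ofMul (csInclE E hE D b.toMul) :=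
      congrArg Subtype.val h
    exact Additive.toMul.injective (csInclE_injective E hE D hS (Additive.ofMul.injective h1))
  · rintro ⟨x, hx⟩
    obtain ⟨u, hu⟩ := (mem_range_csInclE_iff E hE D hS (Additive.toMul x)).mpr (fun σ hσ => by
      have := hx ⟨σ, hσ⟩
      exact congrArg Additive.toMul this)
    refine ⟨Additive.ofMul u, Subtype.ext ?_⟩
    change Additive.ofMul (csInclE E hE D u) = x
    rw [hu]; rfl

/-- `csToInv` as a `ℤ`-linear map. -/
def csToInvLin :
    (H23.repCS S ↥E ℚ).V →ₗ[ℤ] ((repCSTop S).quotientToInvariants E.fixingSubgroup).V :=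
  { toFun := csToInv E hE D
    map_add' := (csToInv E hE D).map_add
    map_smul' := fun n x => by
      simp only [eq_intCast, Int.cast_id]
      exact map_zsmul (csToInv E hE D) n x }

/-- `Additive (CS S E) ≃ₗ[ℤ] (CSTop S)^{U_E}`. -/
def csInvLinearEquiv :
    (H23.repCS S ↥E ℚ).V ≃ₗ[ℤ] ((repCSTop S).quotientToInvariants E.fixingSubgroup).V :=
  LinearEquiv.ofBijective (csToInvLin E hE D) (csToInv_bijective E hE D hS)

theorem csInvLinearEquiv_apply (c : Additive (H23.CS S ↥E)) :
    ((csInvLinearEquiv E hE D hS c).1 : Additive (CSTop S)) =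
      Additive.ofMul (csInclE E hE D c.toMul) := rfl

variable [hN : Normal ℚ ↥E]

/-- `G_ℚ ⧸ U_E ≃* Gal(E/ℚ)` (helper43's `quotEquiv`, with the `ℚ`-algebra structure on `↥E` that
instance search finds, `DivisionRing.toRatAlgebra`). -/
def quotEquivE : GQ ⧸ E.fixingSubgroup ≃* (↥E ≃ₐ[ℚ] ↥E) :=
  haveI : @Normal ℚ ↥E _ _ (IntermediateField.algebra' E) := hN
  H43.quotEquiv E

omit [NumberField ↥E] in
theorem quotEquivE_mk (σ : GQ) :
    quotEquivE E (QuotientGroup.mk σ) = AlgEquiv.restrictNormalHom ↥E σ := rfl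

omit [NumberField ↥E] in
theorem quotEquivE_symm_restrictNormalHom (σ : GQ) :
    (quotEquivE E).symm (AlgEquiv.restrictNormalHom ↥E σ) = QuotientGroup.mk σ := by
  rw [MulEquiv.symm_apply_eq]; rfl

/-- **(h-desc)** The pair equivalence `(Gal(E/ℚ), CS S E) ≃ (G_ℚ ⧸ U_E, (CSTop S)^{U_E})` at a
Galois level `E` unramified outside `S`. -/
def csPairEquiv :
    H43.PairEquiv (H23.repCS S ↥E ℚ) ((repCSTop S).quotientToInvariants E.fixingSubgroup) where
  e := (quotEquivE E).symm
  φ := csInvLinearEquiv E hE D hS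
  comm g a := by
    obtain ⟨σ, rfl⟩ := AlgEquiv.restrictNormalHom_surjective Qbar g
    rw [quotEquivE_symm_restrictNormalHom]
    apply Subtype.ext
    change Additive.ofMul (csInclE E hE D (AlgEquiv.restrictNormalHom ↥E σ •
        (Additive.toMul (a : Additive (H23.CS S ↥E)) : H23.CS S ↥E))) =
      Additive.ofMul (σ • csInclE E hE D (Additive.toMul (a : Additive (H23.CS S ↥E))))
    exact congrArg Additive.ofMul (csInclE_smul E hE D σ _)

/-- **(h-desc)**, in the direction requested by the integrator: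
`((CSTop S)^{U_E} as a G_ℚ ⧸ U_E-module) ≃ (CS S E as a Gal(E/ℚ)-module)`. -/
def csPairEquiv' :
    H43.PairEquiv ((repCSTop S).quotientToInvariants E.fixingSubgroup) (H23.repCS S ↥E ℚ) :=
  (csPairEquiv E hE D hS).symm

end

end Fermat.Agent.CFT.H77
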