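import Mathlib
import Fermat.Agent.CFT.H77_TopPair
import Fermat.Agent.CFT.H45_TopDivDescent

/-!
# CFT, layer C, package C-TOP: the descent statements with all divisor-side inputs discharged

`E : IntermediateField ℚ Qbar` with `hE : E.IsUnramifiedOutside S` (a *level* of `levelsS S`),
`hS : S.Nonempty`.  With helper45's `H45.divDescent` plugged into `H77_TopPair`:

* `levelIncl E hE : H23.CS S ↥E →* CSTop S`, injective, image `= (CSTop S)^{U_E}`, equivariant;
* `levelEquiv E hE hS : H23.CS S ↥E ≃* (CSTop S)^{U_E}` (arbitrary level);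
* `levelPairEquiv E hE hS : H43.PairEquiv ((repCSTop S).quotientToInvariants U_E) (H23.repCS S ↥E ℚ)`
  for `E/ℚ` normal (**(h-desc)**).
-/

set_option autoImplicit false

open scoped TensorProduct

namespace Fermat.Agent.CFT.H77

open IntermediateField Pointwise Fermat.Agent.CFT

local notation "Qbar" => AlgebraicClosure ℚ
local notation "GQ" => (AlgebraicClosure ℚ ≃ₐ[ℚ] AlgebraicClosure ℚ)

noncomputable section

variable {S : Finset Nat.Primes} (E : IntermediateField ℚ Qbar)

/-- A level is a number field. -/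
theorem numberField_of_level (hE : E.IsUnramifiedOutside S) : NumberField ↥E :=
  H45.numberField_of_isUnramifiedOutside hE

variable [NumberField ↥E]

/-- Shortcut instance (see `H77_TopPair`). -/
local instance csSMulE_h77f : SMul (↥E ≃ₐ[ℚ] ↥E) (H23.CS S ↥E) := (H23.csAction S ↥E ℚ).toSMul

variable (hE : E.IsUnramifiedOutside S)

/-- The divisor-side descent datum of the level `E` (helper45). -/
def levelDivDescent : DivDescent S E.val :=
  H45.divDescent (isUnramifiedOutside_fieldRange_val E hE)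

/-- The comparison map `CS S E → CSTop S` of the level `E`. -/
def levelIncl : H23.CS S ↥E →* CSTop S := csInclE E hE (levelDivDescent E hE)

theorem levelIncl_injective (hS : S.Nonempty) : Function.Injective (levelIncl E hE) :=
  csInclE_injective E hE _ hS

theorem mem_range_levelIncl_iff (hS : S.Nonempty) (c : CSTop S) :
    c ∈ (levelIncl E hE).range ↔ ∀ σ ∈ E.fixingSubgroup, σ • c = c :=
  mem_range_csInclE_iff E hE _ hS c

theorem smul_levelIncl_of_mem (σ : GQ) (hσ : σ ∈ E.fixingSubgroup) (c : H23.CS S ↥E) :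
    σ • levelIncl E hE c = levelIncl E hE c :=
  smul_csInclE_of_mem E hE _ σ hσ c

theorem levelIncl_smul [Normal ℚ ↥E] (σ : GQ) (c : H23.CS S ↥E) :
    levelIncl E hE (AlgEquiv.restrictNormalHom ↥E σ • c) = σ • levelIncl E hE c :=
  csInclE_smul E hE _ σ c

/-- **Descent at an arbitrary level**: `CS S E ≃* (CSTop S)^{U_E}`. -/
def levelEquiv (hS : S.Nonempty) : H23.CS S ↥E ≃* csTopFixed S E.fixingSubgroup :=
  csInvEquivE E hE (levelDivDescent E hE) hS

@[simp] theorem levelEquiv_apply_coe (hS : S.Nonempty) (c : H23.CS S ↥E) :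
    ((levelEquiv E hE hS c : csTopFixed S E.fixingSubgroup) : CSTop S) = levelIncl E hE c := rfl

variable [E.fixingSubgroup.Normal]

/-- `Additive (CS S E) ≃ₗ[ℤ] (CSTop S)^{U_E}`. -/
def levelLinearEquiv (hS : S.Nonempty) :
    (H23.repCS S ↥E ℚ).V ≃ₗ[ℤ] ((repCSTop S).quotientToInvariants E.fixingSubgroup).V :=
  csInvLinearEquiv E hE (levelDivDescent E hE) hS

theorem levelLinearEquiv_apply (hS : S.Nonempty) (c : (H23.repCS S ↥E ℚ).V) :
    ((levelLinearEquiv E hE hS c).1 : Additive (CSTop S)) =
      Additive.ofMul (levelIncl E hE (Additive.toMul (c : Additive (H23.CS S ↥E)))) := rfl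

variable [Normal ℚ ↥E]

/-- **(h-desc)**: `((CSTop S)^{U_E}, G_ℚ ⧸ U_E) ≃ (CS S E, Gal(E/ℚ))` at a Galois level. -/
def levelPairEquiv (hS : S.Nonempty) :
    H43.PairEquiv ((repCSTop S).quotientToInvariants E.fixingSubgroup) (H23.repCS S ↥E ℚ) :=
  csPairEquiv' E hE (levelDivDescent E hE) hS

theorem levelPairEquiv_e (hS : S.Nonempty) : (levelPairEquiv E hE hS).e = quotEquivE E := rfl

theorem levelPairEquiv_e_mk (hS : S.Nonempty) (σ : GQ) :
    (levelPairEquiv E hE hS).e (QuotientGroup.mk σ) = AlgEquiv.restrictNormalHom ↥E σ := rfl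

theorem levelPairEquiv_symm_φ (hS : S.Nonempty) :
    (levelPairEquiv E hE hS).symm.φ = levelLinearEquiv E hE hS := rfl

end

end Fermat.Agent.CFT.H77
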