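import Mathlib
import Fermat.Agent.CFT.H77_TopFinal
import Fermat.Agent.CFT.H1_DivTorsion
import Fermat.Agent.CFT.H23_CMaps

/-!
# CFT, layer C, package C-TOP: compatibility of the level maps in towers

* `DivDescent.toTop_unique` : the comparison map `DivS S F → DivTop S` of a `DivDescent` is
  uniquely determined by its values on principal divisors (`isDivOf`), because the class group is
  finite and `DivTop S` is torsion free.
* `csIncl_baseChange` : for `F → F'` compatible with the embeddings into `ℚbar`,
  `csIncl' (CS.baseChange c) = csIncl c`.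
* `levelIncl_baseChange` : the same for levels `E ≤ E'` given as intermediate fields.
-/

set_option autoImplicit false

open scoped TensorProduct

namespace Fermat.Agent.CFT.H77

open IntermediateField Pointwise Fermat.Agent.CFT NumberField IsDedekindDomain

local notation "Qbar" => AlgebraicClosure ℚ
local notation "GQ" => (AlgebraicClosure ℚ ≃ₐ[ℚ] AlgebraicClosure ℚ)

noncomputable section

variable {S : Finset Nat.Primes}

/-! ### Uniqueness of the divisor comparison map -/

section Unique

variable {F : Type} [Field F] [NumberField F] {ι : F →ₐ[ℚ] Qbar}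

/-- Every divisor outside `S` has a multiple (by the class number) which is the divisor of an
element of `Fˣ`. -/
theorem exists_divS_eq_classNumber_smul (D₀ : H23.DivS S F) :
    ∃ x : Fˣ, Multiplicative.toAdd (H23.divS S F x) = (classNumber F : ℤ) • D₀ := by
  classical
  let D₁ : HeightOneSpectrum (𝓞 F) → ℤ := fun v =>
    if hv : ∀ q ∈ S, ((q : ℕ) : 𝓞 F) ∉ v.asIdeal then D₀ ⟨v, hv⟩ else 0
  have hD₁ : (Function.support D₁).Finite := by
    refine (D₀.support.finite_toSet.image Subtype.val).subset ?_
    intro v hv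
    have hv' : D₁ v ≠ 0 := hv
    by_cases h : ∀ q ∈ S, ((q : ℕ) : 𝓞 F) ∉ v.asIdeal
    · refine ⟨⟨v, h⟩, ?_, rfl⟩
      simp only [D₁, dif_pos h] at hv'
      exact Finsupp.mem_support_iff.mpr hv'
    · simp only [D₁, dif_neg h] at hv'
      exact (hv' rfl).elim
  obtain ⟨x, hx⟩ := H1.exists_units_ordAt_eq F D₁ hD₁
  refine ⟨x, ?_⟩
  ext v
  rw [H23.divS_apply, hx v.1, Finsupp.smul_apply, smul_eq_mul]
  simp only [D₁, dif_pos v.2]
  rfl

theorem classNumber_ne_zero' : (classNumber F : ℤ) ≠ 0 := by
  have : 0 < classNumber F := Fintype.card_pos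
  exact_mod_cast this.ne'

/-- **Uniqueness**: an additive map `DivS S F → DivTop S` sending the divisor of every `x ∈ Fˣ` to
the divisor of `ι x` is the comparison map of any `DivDescent`. -/
theorem DivDescent.toTop_unique (D : DivDescent S ι) (t : H23.DivS S F →+ DivTop S)
    (ht : ∀ x : Fˣ, IsDivOf S (ι (x : F)) (t (Multiplicative.toAdd (H23.divS S F x))).1) :
    t = D.toTop := by
  refine AddMonoidHom.ext fun D₀ => ?_
  obtain ⟨x, hx⟩ := exists_divS_eq_classNumber_smul (S := S) D₀
  have h1 := ht x
  have h2 := D.isDivOf x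
  rw [hx] at h1 h2
  have h3 : (t ((classNumber F : ℤ) • D₀)).1 = (D.toTop ((classNumber F : ℤ) • D₀)).1 :=
    h1.unique h2
  rw [map_zsmul, map_zsmul] at h3
  apply Subtype.ext
  funext P
  have h4 := congrFun h3 P
  have h5 : (classNumber F : ℤ) * (t D₀).1 P = (classNumber F : ℤ) * (D.toTop D₀).1 P := h4
  exact mul_left_cancel₀ classNumber_ne_zero' h5

theorem DivDescent.toTop_eq (D D' : DivDescent S ι) : D.toTop = D'.toTop :=
  D'.toTop_unique D.toTop D.isDivOf

end Unique

/-! ### Base change, abstract levels -/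

section Tower

variable {F F' : Type} [Field F] [NumberField F] [Field F'] [NumberField F'] [Algebra F F']
  {ι : F →ₐ[ℚ] Qbar} {ι' : F' →ₐ[ℚ] Qbar}
  (hF : ι.fieldRange.IsUnramifiedOutside S) (hF' : ι'.fieldRange.IsUnramifiedOutside S)
  (hι : ∀ x : F, ι' (algebraMap F F' x) = ι x)

include hι in
theorem inclF_algebraMap (x : F) : inclF hF' (algebraMap F F' x) = inclF hF x :=
  OmegaS.ext (hι x)

include hι in
theorem locIncl_locMap (q : Nat.Primes) (y : H23.Loc F q) :
    locIncl hF' q (H23.locMap F F' q y) = locIncl hF q y := by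
  induction y using TensorProduct.induction_on with
  | zero => simp
  | tmul x a =>
    show inclF hF' (algebraMap F F' x) ⊗ₜ[ℚ] a = inclF hF x ⊗ₜ[ℚ] a
    rw [inclF_algebraMap hF hF' hι]
  | add y y' hy hy' => rw [map_add, map_add, map_add, hy, hy']

include hι in
theorem jIncl_baseChange (j : H23.JS S F) :
    jIncl hF' (H23.JS.baseChange S F F' j) = jIncl hF j := by
  funext q
  apply Units.ext
  exact locIncl_locMap hF hF' hι q.1 (j q : H23.Loc F q.1)

variable (D : DivDescent S ι) (D' : DivDescent S ι')

include hι in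
theorem toTop_baseChange (D₀ : H23.DivS S F) :
    D'.toTop (H23.DivS.baseChange S F F' D₀) = D.toTop D₀ := by
  have h : D'.toTop.comp (H23.DivS.baseChange S F F') = D.toTop := by
    apply D.toTop_unique
    intro x
    have h1 := D'.isDivOf (Units.map (algebraMap F F' : F →* F') x)
    rw [← H23.DivS.baseChange_divS] at h1
    have h2 : ι' ((Units.map (algebraMap F F' : F →* F') x : F'ˣ) : F') = ι (x : F) := hι _
    rw [h2] at h1
    exact h1
  exact DFunLike.congr_fun h D₀

include hι in
theorem idIncl_baseChange (z : H23.IdS S F) :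
    idIncl hF' D' (H23.IdS.baseChange S F F' z) = idIncl hF D z := by
  refine Prod.ext (jIncl_baseChange hF hF' hι z.1) ?_
  show Multiplicative.ofAdd (D'.toTop (H23.DivS.baseChange S F F' (Multiplicative.toAdd z.2))) =
    Multiplicative.ofAdd (D.toTop (Multiplicative.toAdd z.2))
  rw [toTop_baseChange hι D D']

include hι in
/-- **Tower compatibility**: the level maps commute with base change. -/
theorem csIncl_baseChange (c : H23.CS S F) :
    csIncl hF' D' (H23.CS.baseChange S F F' c) = csIncl hF D c := by
  obtain ⟨z, rfl⟩ := QuotientGroup.mk_surjective c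
  show toCSTop S (idIncl hF' D' (H23.IdS.baseChange S F F' z)) = toCSTop S (idIncl hF D z)
  rw [idIncl_baseChange hF hF' hι D D']

end Tower

/-! ### Base change, levels given as intermediate fields -/

section Levels

variable (E E' : IntermediateField ℚ Qbar) [NumberField ↥E] [NumberField ↥E']
  [Algebra ↥E ↥E'] [IsScalarTower ↥E ↥E' Qbar]
  (hE : E.IsUnramifiedOutside S) (hE' : E'.IsUnramifiedOutside S)

omit [NumberField ↥E] [NumberField ↥E'] in
theorem val_algebraMap_level (x : ↥E) : E'.val (algebraMap ↥E ↥E' x) = E.val x :=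
  (IsScalarTower.algebraMap_apply ↥E ↥E' Qbar x).symm

/-- **Tower compatibility** for levels `E ≤ E'`:
`levelIncl E' (CS.baseChange c) = levelIncl E c`. -/
theorem levelIncl_baseChange (c : H23.CS S ↥E) :
    levelIncl E' hE' (H23.CS.baseChange S ↥E ↥E' c) = levelIncl E hE c :=
  csIncl_baseChange _ _ (val_algebraMap_level E E') _ _ c

/-- The inclusion `(CSTop S)^{U_E} ≤ (CSTop S)^{U_E'}` corresponds to base change. -/
theorem levelEquiv_baseChange (hS : S.Nonempty) (c : H23.CS S ↥E) :
    ((levelEquiv E' hE' hS (H23.CS.baseChange S ↥E ↥E' c) : csTopFixed S E'.fixingSubgroup) :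
      CSTop S) = (levelEquiv E hE hS c : csTopFixed S E.fixingSubgroup) :=
  levelIncl_baseChange E E' hE hE' c

end Levels

end

end Fermat.Agent.CFT.H77
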