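/-
CFT project, seam U2 (helper20): the relative restriction map and the norm dictionary.

For number-field types `K ⊆ M` (`[Algebra K M]`, `M/K` Galois) with compatible embeddings
`ιK : K →ₐ[ℚ] Qbar`, `ιM : M →ₐ[ℚ] Qbar`, put `N₀ := ιK.fieldRange.fixingSubgroup` and
`V := ιM.fieldRange.fixingSubgroup ≤ N₀`.

* `relRestrictHom hι : N₀ →* (M ≃ₐ[K] M)`, surjective with kernel `V.subgroupOf N₀`;
* `V.subgroupOf N₀` is normal of index `[M : K]`;
* the top-level norm `∑ᶠ q : N₀ ⧸ V.subgroupOf N₀, ρ(q.out)` on `csIncl_M y` is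
  `csIncl_M (∏ τ : Gal(M/K), τ • y)`.
-/
import Mathlib
import Fermat.Agent.CFT.H77_TopTower
import Fermat.Agent.CFT.H37_UnramDict

set_option autoImplicit false

open scoped TensorProduct

namespace Fermat.Agent.CFT.H20

open NumberField IsDedekindDomain Fermat.Agent.CFT

local notation "Qbar" => AlgebraicClosure ℚ
local notation "GQ" => (AlgebraicClosure ℚ ≃ₐ[ℚ] AlgebraicClosure ℚ)

noncomputable section

section Restrict

variable {K M : Type} [Field K] [NumberField K] [Field M] [NumberField M] [Algebra K M]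
  {ιK : K →ₐ[ℚ] Qbar} {ιM : M →ₐ[ℚ] Qbar} (hι : ∀ x : K, ιM (algebraMap K M x) = ιK x)

include hι in
theorem fixesBase_of_mem {σ : GQ} (hσ : σ ∈ ιK.fieldRange.fixingSubgroup) :
    H37.FixesBase (K := K) ιM σ := by
  intro x
  rw [hι]
  exact (IntermediateField.mem_fixingSubgroup_iff _ σ).mp hσ (ιK x) ⟨x, rfl⟩

include hι in
theorem fixingSubgroup_fieldRange_le :
    ιM.fieldRange.fixingSubgroup ≤ ιK.fieldRange.fixingSubgroup := by
  intro σ hσ
  rw [IntermediateField.mem_fixingSubgroup_iff] at hσ ⊢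
  rintro _ ⟨x, rfl⟩
  have := hσ (ιM (algebraMap K M x)) ⟨_, rfl⟩
  rwa [hι] at this

variable [Normal K M]

/-- The restriction to `M` of an element of `Gal(Qbar/ιK K)`. -/
def relRestrict (σ : ιK.fieldRange.fixingSubgroup) : M ≃ₐ[K] M :=
  Classical.choose (H37.exists_restrict ιM σ.1 (fixesBase_of_mem hι σ.2))

theorem relRestrict_spec (σ : ιK.fieldRange.fixingSubgroup) (y : M) :
    ιM (relRestrict hι σ y) = σ.1 (ιM y) :=
  Classical.choose_spec (H37.exists_restrict ιM σ.1 (fixesBase_of_mem hι σ.2)) y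

/-- The relative restriction homomorphism `Gal(Qbar/K) → Gal(M/K)`. -/
def relRestrictHom : ιK.fieldRange.fixingSubgroup →* (M ≃ₐ[K] M) where
  toFun := relRestrict hι
  map_one' := by
    ext y
    refine ιM.injective ?_
    show ιM (relRestrict hι 1 y) = ιM y
    rw [relRestrict_spec]
    rfl
  map_mul' σ τ := by
    ext y
    refine ιM.injective ?_
    show ιM (relRestrict hι (σ * τ) y) = ιM (relRestrict hι σ (relRestrict hι τ y))
    rw [relRestrict_spec, relRestrict_spec, relRestrict_spec]
    rfl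

theorem relRestrictHom_spec (σ : ιK.fieldRange.fixingSubgroup) (y : M) :
    ιM (relRestrictHom hι σ y) = σ.1 (ιM y) := relRestrict_spec hι σ y

theorem relRestrictHom_surjective : Function.Surjective (relRestrictHom hι) := by
  intro g
  obtain ⟨σ, hσ⟩ := Fermat.Agent.S14.H37.exists_lift ιM (g.restrictScalars ℚ)
  have hσK : σ ∈ ιK.fieldRange.fixingSubgroup := by
    rw [IntermediateField.mem_fixingSubgroup_iff]
    rintro _ ⟨x, rfl⟩
    show σ (ιK x) = ιK x
    rw [← hι, hσ]
    show ιM (g (algebraMap K M x)) = _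
    rw [g.commutes]
  refine ⟨⟨σ, hσK⟩, ?_⟩
  ext y
  refine ιM.injective ?_
  show ιM (relRestrictHom hι ⟨σ, hσK⟩ y) = ιM (g y)
  rw [relRestrictHom_spec]
  exact (hσ y)

theorem relRestrictHom_ker :
    (relRestrictHom hι).ker =
      ιM.fieldRange.fixingSubgroup.subgroupOf ιK.fieldRange.fixingSubgroup := by
  ext σ
  rw [MonoidHom.mem_ker, Subgroup.mem_subgroupOf, IntermediateField.mem_fixingSubgroup_iff]
  constructor
  · intro h
    rintro _ ⟨y, rfl⟩
    show σ.1 (ιM y) = ιM y
    rw [← relRestrictHom_spec hι σ y, h]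
    rfl
  · intro h
    ext y
    refine ιM.injective ?_
    show ιM (relRestrictHom hι σ y) = ιM y
    rw [relRestrictHom_spec]
    exact h (ιM y) ⟨y, rfl⟩

include hι in
theorem normal_subgroupOf_fixingSubgroup :
    (ιM.fieldRange.fixingSubgroup.subgroupOf ιK.fieldRange.fixingSubgroup).Normal := by
  rw [← relRestrictHom_ker hι]
  exact MonoidHom.normal_ker _

include hι in
theorem index_subgroupOf_fixingSubgroup [IsGalois K M] :
    (ιM.fieldRange.fixingSubgroup.subgroupOf ιK.fieldRange.fixingSubgroup).index =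
      Module.finrank K M := by
  rw [← relRestrictHom_ker hι, Subgroup.index_ker,
    MonoidHom.range_eq_top.mpr (relRestrictHom_surjective hι), ← IsGalois.card_aut_eq_finrank]
  exact Nat.card_congr (Subgroup.topEquiv (G := (M ≃ₐ[K] M))).toEquiv

/-- Sums over `N₀ ⧸ V` of functions of the restriction of a representative are sums over
`Gal(M/K)`. -/
theorem finsum_quotient_eq_sum {A : Type*} [AddCommMonoid A] (f : (M ≃ₐ[K] M) → A)
    (W : Subgroup ιK.fieldRange.fixingSubgroup) (hW : W = (relRestrictHom hι).ker) :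
    ∑ᶠ q : ιK.fieldRange.fixingSubgroup ⧸ W, f (relRestrictHom hι (Quotient.out q)) =
      ∑ᶠ τ : M ≃ₐ[K] M, f τ := by
  subst hW
  let e : ιK.fieldRange.fixingSubgroup ⧸ (relRestrictHom hι).ker ≃ (M ≃ₐ[K] M) :=
    (QuotientGroup.quotientKerEquivOfSurjective (relRestrictHom hι)
      (relRestrictHom_surjective hι)).toEquiv
  have he : ∀ q, relRestrictHom hι (Quotient.out q) = e q := by
    intro q
    have h1 : e (QuotientGroup.mk (Quotient.out q)) = relRestrictHom hι (Quotient.out q) := rfl
    rw [← h1]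
    congr 1
    exact Quotient.out_eq q
  simp_rw [he]
  exact finsum_comp_equiv e (f := f)

end Restrict

/-! ### The action of `Gal(M/K)` on `CS S M` is the restriction of the action of `Gal(M/ℚ)` -/

section Action

variable (S : Finset Nat.Primes) {K M : Type} [Field K] [NumberField K] [Field M] [NumberField M]
  [Algebra K M]

theorem restrictScalars_smul_loc (q : Nat.Primes) (τ : M ≃ₐ[K] M) (x : H23.Loc M q) :
    (τ.restrictScalars ℚ) • x = τ • x := by
  induction x using TensorProduct.induction_on with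
  | zero => simp
  | tmul l a => rfl
  | add x y hx hy => rw [smul_add, smul_add, hx, hy]

theorem restrictScalars_smul_prime (τ : M ≃ₐ[K] M) (v : HeightOneSpectrum (𝓞 M)) :
    (τ.restrictScalars ℚ) • v = τ • v := by
  apply HeightOneSpectrum.ext
  ext x
  rw [H23.mem_smul_prime_iff, H23.mem_smul_prime_iff]
  rfl

theorem restrictScalars_smul_IdS (τ : M ≃ₐ[K] M) (z : H23.IdS S M) :
    (τ.restrictScalars ℚ) • z = τ • z := by
  refine Prod.ext ?_ ?_
  · funext q
    apply Units.ext
    exact restrictScalars_smul_loc q.1 τ ((z.1 q : (H23.Loc M q.1)ˣ) : H23.Loc M q.1)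
  · apply congrArg Multiplicative.ofAdd
    ext v
    show ((τ.restrictScalars ℚ) • Multiplicative.toAdd z.2) v = (τ • Multiplicative.toAdd z.2) v
    rw [H23.smul_divS_apply, H23.smul_divS_apply]
    congr 1

theorem restrictScalars_smul_CS (τ : M ≃ₐ[K] M) (c : H23.CS S M) :
    (τ.restrictScalars ℚ) • c = τ • c := by
  obtain ⟨z, rfl⟩ := QuotientGroup.mk_surjective c
  show H23.toCS S M ((τ.restrictScalars ℚ) • z) = H23.toCS S M (τ • z)
  rw [restrictScalars_smul_IdS]

end Action

/-! ### The norm dictionary -/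

section Dict

variable {S : Finset Nat.Primes} {K M : Type} [Field K] [NumberField K] [Field M] [NumberField M]
  [Algebra K M] [IsGalois K M]
  {ιK : K →ₐ[ℚ] Qbar} {ιM : M →ₐ[ℚ] Qbar} (hι : ∀ x : K, ιM (algebraMap K M x) = ιK x)
  (hM : ιM.fieldRange.IsUnramifiedOutside S) (D : H77.DivDescent S ιM)

theorem restrictsTo_relRestrictHom (σ : ιK.fieldRange.fixingSubgroup) :
    H77.RestrictsTo ιM σ.1 ((relRestrictHom hι σ).restrictScalars ℚ) :=
  fun y => (relRestrictHom_spec hι σ y).symm

/-- Equivariance of `csIncl_M` for the relative Galois group. -/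
theorem smul_csIncl_rel (σ : ιK.fieldRange.fixingSubgroup) (y : H23.CS S M) :
    σ.1 • H77.csIncl hM D y = H77.csIncl hM D (relRestrictHom hι σ • y) := by
  rw [← restrictScalars_smul_CS, H77.csIncl_smul hM D (restrictsTo_relRestrictHom hι σ)]

include hι in
/-- **Norm dictionary**: the top-level norm from `V = U_M` to `N₀ = U_K` of `csIncl_M y` is
`csIncl_M` of the Galois norm `∏ τ, τ • y`. -/
theorem finsum_rho_csIncl (y : H23.CS S M) :
    ∑ᶠ q : ιK.fieldRange.fixingSubgroup ⧸
        ιM.fieldRange.fixingSubgroup.subgroupOf ιK.fieldRange.fixingSubgroup,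
      (H77.repCSTop S).ρ (Quotient.out q : ιK.fieldRange.fixingSubgroup).1
        (Additive.ofMul (H77.csIncl hM D y)) =
      Additive.ofMul (H77.csIncl hM D (∏ τ : M ≃ₐ[K] M, τ • y)) := by
  have h1 : ∀ q : ιK.fieldRange.fixingSubgroup ⧸
        ιM.fieldRange.fixingSubgroup.subgroupOf ιK.fieldRange.fixingSubgroup,
      (H77.repCSTop S).ρ (Quotient.out q : ιK.fieldRange.fixingSubgroup).1
        (Additive.ofMul (H77.csIncl hM D y)) =
      (fun τ : M ≃ₐ[K] M => Additive.ofMul (H77.csIncl hM D (τ • y)))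
        (relRestrictHom hι (Quotient.out q)) := by
    intro q
    exact congrArg Additive.ofMul (smul_csIncl_rel hι hM D (Quotient.out q) y)
  refine (finsum_congr h1).trans ((finsum_quotient_eq_sum hι
    (fun τ : M ≃ₐ[K] M => Additive.ofMul (H77.csIncl hM D (τ • y))) _
      (relRestrictHom_ker hι).symm).trans ?_)
  rw [finsum_eq_sum_of_fintype, map_prod, ofMul_prod]

end Dict

end

end Fermat.Agent.CFT.H20
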