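import Mathlib
import Fermat.Agent.CFT.H37_UnramDict
import Fermat.Agent.CFT.H23_CDescent

/-!
# CFT, seam (L-unr) (helper54, for helper20's `H20_GlobalFinExist`)

If `K ⊆ M` are number fields (as types) embedded compatibly in `Qbar`, the image of `K` is
unramified outside `S` in the frozen inertia vocabulary, and `M/K` is Galois and unramified
outside `S` in helper23's hybrid vocabulary (`H23.UnramOutside S K M`), then the image of `M` is
unramified outside `S` in the frozen vocabulary.
-/

set_option autoImplicit false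
set_option linter.unusedSectionVars false
set_option linter.style.haveILetI false

namespace Fermat.Agent.CFT.H54

open NumberField IsDedekindDomain
open Fermat.Agent.CFT

/-- (L-unr) -/
theorem isUnramifiedOutside_fieldRange_of_unramOutside (S : Finset Nat.Primes)
    {K M : Type} [Field K] [NumberField K] [Field M] [NumberField M] [Algebra K M] [IsGalois K M]
    {ιK : K →ₐ[ℚ] AlgebraicClosure ℚ} {ιM : M →ₐ[ℚ] AlgebraicClosure ℚ}
    (hι : ∀ x : K, ιM (algebraMap K M x) = ιK x)
    (hK : ιK.fieldRange.IsUnramifiedOutside S) (hur : H23.UnramOutside S K M) :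
    ιM.fieldRange.IsUnramifiedOutside S := by
  refine ⟨?_, fun q hq A hA σ hσ => ?_⟩
  · -- finite-dimensionality: `ιM.fieldRange ≃ M`
    exact LinearEquiv.finiteDimensional (AlgEquiv.ofInjectiveField ιM).toLinearEquiv
  · -- `σ` fixes the image of `K`
    have hσK : σ ∈ ιK.fieldRange.fixingSubgroup := hK.2 q hq A hA hσ
    have hfix : H37.FixesBase (K := K) ιM σ := by
      intro x
      rw [hι x]
      exact (IntermediateField.mem_fixingSubgroup_iff _ σ).mp hσK (ιK x) ⟨x, rfl⟩
    -- the prime of `𝓞 M` cut out by `A`, a prime outside `S`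
    have hne : H37.primeOf ιM A ≠ ⊥ := H37.primeOf_ne_bot ιM q.2 hA
    let w : HeightOneSpectrum (𝓞 M) := ⟨H37.primeOf ιM A, inferInstance, hne⟩
    have hwS : ∀ q' ∈ S, ((q' : ℕ) : 𝓞 M) ∉ w.asIdeal := by
      intro q' hq' hmem
      have hqmem : ((q : ℕ) : 𝓞 M) ∈ w.asIdeal := (H37.natCast_mem_primeOf_iff ιM).mpr hA
      -- `w` contains both `q` and `q'`, so `q = q'`
      have hqq' : (q : ℕ) = (q' : ℕ) := by
        by_contra hne'
        have hcop : Nat.Coprime (q : ℕ) (q' : ℕ) := (Nat.coprime_primes q.2 q'.2).mpr hne'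
        obtain ⟨a, b, hab⟩ := Nat.isCoprime_iff_coprime.mpr hcop
        have h1 : ((a * ((q : ℕ) : ℤ) + b * ((q' : ℕ) : ℤ) : ℤ) : 𝓞 M) = 1 := by
          rw [hab, Int.cast_one]
        apply w.isPrime.ne_top
        rw [Ideal.eq_top_iff_one, ← h1]
        push_cast
        exact w.asIdeal.add_mem (w.asIdeal.mul_mem_left _ hqmem) (w.asIdeal.mul_mem_left _ hmem)
      exact hq (by
        have : q = q' := Subtype.ext hqq'
        rw [this]; exact hq')
    have hram : (H37.primeOf ιM A).ramificationIdx (𝓞 K) = 1 := by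
      have h1 := hur ⟨w, hwS⟩
      have : w.asIdeal.LiesOver (w.under (𝓞 K)).asIdeal := by
        rw [HeightOneSpectrum.under_asIdeal]
        infer_instance
      have h2 : H23.ramIdx K M w = w.asIdeal.ramificationIdx (𝓞 K) :=
        Ideal.ramificationIdx'_eq_ramificationIdx (w.under (𝓞 K)).asIdeal w.asIdeal
          (w.under (𝓞 K)).ne_bot
      rw [h2] at h1
      exact h1
    have hall := (H37.forall_fixes_iff_ramificationIdx_eq_one (K := K) (ι := ιM) q.2 hA).mpr hram
      σ hσ hfix
    rw [IntermediateField.mem_fixingSubgroup_iff]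
    rintro y ⟨m, rfl⟩
    exact hall m

/-- (L-unr), converse: if the image of `M` in `Qbar` is unramified outside `S` in the frozen
vocabulary then `M/K` is unramified outside `S` in the hybrid vocabulary, for any subfield `K`. -/
theorem unramOutside_of_isUnramifiedOutside_fieldRange (S : Finset Nat.Primes)
    {K M : Type} [Field K] [NumberField K] [Field M] [NumberField M] [Algebra K M] [IsGalois K M]
    {ιM : M →ₐ[ℚ] AlgebraicClosure ℚ} (hM : ιM.fieldRange.IsUnramifiedOutside S) :
    H23.UnramOutside S K M := by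
  intro w
  -- the rational prime below `w`
  haveI : NeZero w.1.asIdeal := ⟨w.1.ne_bot⟩
  have hqprime : (Ideal.absNorm (Ideal.under ℤ w.1.asIdeal)).Prime :=
    Nat.absNorm_under_prime w.1.asIdeal
  set q : Nat.Primes := ⟨Ideal.absNorm (Ideal.under ℤ w.1.asIdeal), hqprime⟩ with hq
  have hqmem : ((q : ℕ) : 𝓞 M) ∈ w.1.asIdeal := Int.absNorm_under_mem w.1.asIdeal
  have hqS : q ∉ S := fun h => w.2 q h hqmem
  -- a place of `Qbar` cutting out `w`
  obtain ⟨A, hA⟩ := H37.exists_primeOf_eq ιM w.1.asIdeal w.1.ne_bot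
  have hAq : A.LiesOverPrime (q : ℕ) := by
    rw [← H37.natCast_mem_primeOf_iff ιM, hA]
    exact hqmem
  have hram : (H37.primeOf ιM A).ramificationIdx (𝓞 K) = 1 := by
    rw [← H37.forall_fixes_iff_ramificationIdx_eq_one (K := K) (ι := ιM) q.2 hAq]
    intro σ hσ _ y
    have hσM : σ ∈ ιM.fieldRange.fixingSubgroup := hM.2 q hqS A hAq hσ
    exact (IntermediateField.mem_fixingSubgroup_iff _ σ).mp hσM (ιM y) ⟨y, rfl⟩
  rw [hA] at hram
  have : w.1.asIdeal.LiesOver (w.1.under (𝓞 K)).asIdeal := by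
    rw [HeightOneSpectrum.under_asIdeal]
    infer_instance
  have h2 : H23.ramIdx K M w.1 = w.1.asIdeal.ramificationIdx (𝓞 K) :=
    Ideal.ramificationIdx'_eq_ramificationIdx (w.1.under (𝓞 K)).asIdeal w.1.asIdeal
      (w.1.under (𝓞 K)).ne_bot
  rw [h2]
  exact hram

/-- (L-unr) as an equivalence, given that the base `K` is unramified outside `S`. -/
theorem isUnramifiedOutside_fieldRange_iff_unramOutside (S : Finset Nat.Primes)
    {K M : Type} [Field K] [NumberField K] [Field M] [NumberField M] [Algebra K M] [IsGalois K M]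
    {ιK : K →ₐ[ℚ] AlgebraicClosure ℚ} {ιM : M →ₐ[ℚ] AlgebraicClosure ℚ}
    (hι : ∀ x : K, ιM (algebraMap K M x) = ιK x)
    (hK : ιK.fieldRange.IsUnramifiedOutside S) :
    ιM.fieldRange.IsUnramifiedOutside S ↔ H23.UnramOutside S K M :=
  ⟨unramOutside_of_isUnramifiedOutside_fieldRange S,
    isUnramifiedOutside_fieldRange_of_unramOutside S hι hK⟩

/-- The image of the inclusion of an intermediate field (for whatever `Algebra ℚ ↥E` instance
type class search finds). -/
theorem fieldRange_incl (E : IntermediateField ℚ (AlgebraicClosure ℚ))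
    (ι : ↥E →ₐ[ℚ] AlgebraicClosure ℚ) (hι : ∀ y : ↥E, ι y = (y : AlgebraicClosure ℚ)) :
    ι.fieldRange = E := by
  ext x
  rw [AlgHom.mem_fieldRange]
  constructor
  · rintro ⟨y, rfl⟩
    rw [hι]
    exact y.2
  · intro hx
    exact ⟨⟨x, hx⟩, hι _⟩

/-- Levels inside `Qbar`: if `E'` is unramified outside `S` (frozen vocabulary) and
`↥E → ↥E'` is any algebra structure making `E'/E` Galois, then `E'/E` is unramified outside
`S` in the hybrid vocabulary. (`ι'` is the inclusion `↥E' → Qbar` as a `ℚ`-algebra map for the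
ambient `Algebra ℚ ↥E'` instance, e.g. `S14.H37.incl E'`.) -/
theorem unramOutside_of_level (S : Finset Nat.Primes)
    (E E' : IntermediateField ℚ (AlgebraicClosure ℚ)) [NumberField ↥E] [NumberField ↥E']
    [Algebra ↥E ↥E'] [IsGalois ↥E ↥E'] (ι' : ↥E' →ₐ[ℚ] AlgebraicClosure ℚ)
    (hι' : ∀ y : ↥E', ι' y = (y : AlgebraicClosure ℚ)) (hE' : E'.IsUnramifiedOutside S) :
    H23.UnramOutside S ↥E ↥E' := by
  apply unramOutside_of_isUnramifiedOutside_fieldRange S (ιM := ι')
  rw [fieldRange_incl E' ι' hι']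
  exact hE'

/-- Levels inside `Qbar`, the other direction: `E` unramified outside `S` and `E'/E`
Galois and unramified outside `S` in the hybrid vocabulary ⇒ `E'` is unramified outside `S`. -/
theorem isUnramifiedOutside_of_level (S : Finset Nat.Primes)
    (E E' : IntermediateField ℚ (AlgebraicClosure ℚ)) [NumberField ↥E] [NumberField ↥E']
    [Algebra ↥E ↥E'] [IsGalois ↥E ↥E']
    (ι : ↥E →ₐ[ℚ] AlgebraicClosure ℚ) (hι : ∀ y : ↥E, ι y = (y : AlgebraicClosure ℚ))
    (ι' : ↥E' →ₐ[ℚ] AlgebraicClosure ℚ) (hι' : ∀ y : ↥E', ι' y = (y : AlgebraicClosure ℚ))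
    (hcomp : ∀ x : ↥E, ((algebraMap ↥E ↥E' x : ↥E') : AlgebraicClosure ℚ) = (x : AlgebraicClosure ℚ))
    (hE : E.IsUnramifiedOutside S) (hur : H23.UnramOutside S ↥E ↥E') :
    E'.IsUnramifiedOutside S := by
  have h := isUnramifiedOutside_fieldRange_of_unramOutside S (ιK := ι) (ιM := ι')
    (fun x => by rw [hι', hι, hcomp]) (by rw [fieldRange_incl E ι hι]; exact hE) hur
  rwa [fieldRange_incl E' ι' hι'] at h

end Fermat.Agent.CFT.H54
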