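import Mathlib
import Fermat.Agent.CFT.H55_GalLevels

/-!
# CFT: open subgroups of `(globalLevels S)` are the fixing subgroups of the levels

* `exists_level_eq_of_isOpen` : an open subgroup `U` (one containing a level) is
  `E.fixingSubgroup` for `E = fixedField U`, a field unramified outside `S`.
* the relative dictionary for `V ≤ W` open: `fixedField W ≤ fixedField V`, index = relative degree,
  normality = the relative extension is Galois.
-/

set_option autoImplicit false

namespace Fermat.Agent.CFT.H77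

open IntermediateField Fermat.Agent.CFT

local notation "Qbar" => AlgebraicClosure ℚ
local notation "GQ" => (AlgebraicClosure ℚ ≃ₐ[ℚ] AlgebraicClosure ℚ)

local instance isAlgebraicQbar_h77o : Algebra.IsAlgebraic ℚ (AlgebraicClosure ℚ) :=
  AlgebraicClosure.isAlgebraic ℚ
local instance isAlgClosureQbar_h77o : IsAlgClosure ℚ (AlgebraicClosure ℚ) :=
  ⟨inferInstance, inferInstance⟩
local instance normalQbar_h77o : Normal ℚ (AlgebraicClosure ℚ) :=
  IsAlgClosure.normal ℚ (AlgebraicClosure ℚ)
local instance isGaloisQbar_h77o : IsGalois ℚ (AlgebraicClosure ℚ) := ⟨⟩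

noncomputable section

/-- A subgroup of `G_ℚ` containing the fixing subgroup of a finite extension is closed, hence is
the fixing subgroup of its fixed field. -/
theorem fixingSubgroup_fixedField_of_le {F : IntermediateField ℚ Qbar} [FiniteDimensional ℚ ↥F]
    {U : Subgroup GQ} (h : F.fixingSubgroup ≤ U) :
    (IntermediateField.fixedField U).fixingSubgroup = U := by
  have hopen : IsOpen (U : Set GQ) :=
    Subgroup.isOpen_mono h (IntermediateField.fixingSubgroup_isOpen F)
  have hclosed : IsClosed (U : Set GQ) := (⟨U, hopen⟩ : OpenSubgroup GQ).isClosed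
  exact InfiniteGalois.fixingSubgroup_fixedField (⟨U, hclosed⟩ : ClosedSubgroup GQ)

theorem fixedField_le_of_le {F : IntermediateField ℚ Qbar} {U : Subgroup GQ}
    (h : F.fixingSubgroup ≤ U) : IntermediateField.fixedField U ≤ F := by
  have h1 := IntermediateField.fixedField_antitone h
  rwa [InfiniteGalois.fixedField_fixingSubgroup] at h1

variable (S : Finset Nat.Primes)

/-- **(L-open)** Every open subgroup of `(globalLevels S)` is the fixing subgroup of a field
unramified outside `S`, namely of its fixed field. -/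
theorem isOpen_fixedField {U : Subgroup GQ} (hU : (globalLevels S).IsOpen U) :
    (IntermediateField.fixedField U).IsUnramifiedOutside S ∧
      (IntermediateField.fixedField U).fixingSubgroup = U := by
  obtain ⟨N, ⟨F, hF, rfl⟩, hle⟩ := hU
  have : FiniteDimensional ℚ ↥F := hF.1
  exact ⟨IntermediateField.IsUnramifiedOutside.of_le (fixedField_le_of_le hle) hF,
    fixingSubgroup_fixedField_of_le hle⟩

/-- **(L-open)**, existential form. -/
theorem exists_level_eq_of_isOpen (U : Subgroup GQ) (hU : (globalLevels S).IsOpen U) :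
    ∃ E : IntermediateField ℚ Qbar, E.IsUnramifiedOutside S ∧ E.fixingSubgroup = U :=
  ⟨_, isOpen_fixedField S hU⟩

/-- Open subgroups are exactly the fixing subgroups of the fields unramified outside `S`. -/
theorem isOpen_iff_exists_level (U : Subgroup GQ) :
    (globalLevels S).IsOpen U ↔
      ∃ E : IntermediateField ℚ Qbar, E.IsUnramifiedOutside S ∧ E.fixingSubgroup = U := by
  constructor
  · exact exists_level_eq_of_isOpen S U
  · rintro ⟨E, hE, rfl⟩
    exact ⟨_, ⟨E, hE, rfl⟩, le_rfl⟩

/-- An open subgroup is itself a level. -/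
theorem mem_levels_of_isOpen {U : Subgroup GQ} (hU : (globalLevels S).IsOpen U) :
    U ∈ (globalLevels S).levels := by
  obtain ⟨E, hE, rfl⟩ := exists_level_eq_of_isOpen S U hU
  exact ⟨E, hE, rfl⟩

/-! ### The relative dictionary -/

section Relative

variable {K M : Type} [Field K] [Field M] [CharZero K] [CharZero M] [Algebra K M]
  {ιK : K →ₐ[ℚ] Qbar} {ιM : M →ₐ[ℚ] Qbar}

/-- `Qbar` as a `K`-algebra through the embedding `ιK`. -/
abbrev algOfEmb (ιK : K →ₐ[ℚ] Qbar) : Algebra K Qbar := ιK.toRingHom.toAlgebra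

theorem isScalarTower_of_emb (hι : ∀ x : K, ιM (algebraMap K M x) = ιK x) :
    @IsScalarTower K M Qbar _ (algOfEmb ιM).toSMul (algOfEmb ιK).toSMul := by
  let _ := algOfEmb ιK
  let _ := algOfEmb ιM
  exact IsScalarTower.of_algebraMap_eq (fun x => (hι x).symm)

theorem isAlgebraic_of_emb (ιK : K →ₐ[ℚ] Qbar) :
    @Algebra.IsAlgebraic K Qbar _ _ (algOfEmb ιK) := by
  let _ := algOfEmb ιK
  have : IsScalarTower ℚ K Qbar := IsScalarTower.of_algebraMap_eq (fun x => (ιK.commutes x).symm)
  exact Algebra.IsAlgebraic.tower_top (K := ℚ) K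

theorem normal_of_emb (ιK : K →ₐ[ℚ] Qbar) : @Normal K Qbar _ _ (algOfEmb ιK) := by
  let _ := algOfEmb ιK
  have := isAlgebraic_of_emb ιK
  have : IsAlgClosure K Qbar := ⟨inferInstance, inferInstance⟩
  exact IsAlgClosure.normal K Qbar

/-- An element of the fixing subgroup of `ιK K`, as a `K`-algebra automorphism of `Qbar`. -/
def toAlgEquivOfEmb (ιK : K →ₐ[ℚ] Qbar) :
    ιK.fieldRange.fixingSubgroup →* @AlgEquiv K Qbar Qbar _ _ _ (algOfEmb ιK) (algOfEmb ιK) :=
  letI := algOfEmb ιK
  { toFun := fun σ => AlgEquiv.ofRingEquiv (f := ((σ : GQ) : Qbar ≃+* Qbar)) (fun x =>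
      (IntermediateField.mem_fixingSubgroup_iff _ _).1 σ.2 (ιK x) ⟨x, rfl⟩)
    map_one' := by ext x; rfl
    map_mul' := fun σ τ => by ext x; rfl }

theorem toAlgEquivOfEmb_apply (σ : ιK.fieldRange.fixingSubgroup) (x : Qbar) :
    toAlgEquivOfEmb ιK σ x = (σ : GQ) x := rfl

variable [Normal K M]

/-- **Relative restriction** `Gal(Qbar/ιK K) → Gal(M/K)` for a normal extension `M/K` of fields
embedded compatibly in `Qbar`. -/
def relRestrict (hι : ∀ x : K, ιM (algebraMap K M x) = ιK x) :
    ιK.fieldRange.fixingSubgroup →* (M ≃ₐ[K] M) :=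
  letI := algOfEmb ιK
  letI := algOfEmb ιM
  haveI := isScalarTower_of_emb hι
  (AlgEquiv.restrictNormalHom M).comp (toAlgEquivOfEmb ιK)

/-- The defining property of `relRestrict`. -/
theorem relRestrict_spec (hι : ∀ x : K, ιM (algebraMap K M x) = ιK x)
    (σ : ιK.fieldRange.fixingSubgroup) (x : M) :
    ιM (relRestrict hι σ x) = (σ : GQ) (ιM x) := by
  let _ := algOfEmb ιK
  let _ := algOfEmb ιM
  have := isScalarTower_of_emb hι
  exact AlgEquiv.restrictNormal_commutes (toAlgEquivOfEmb ιK σ) M x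

theorem relRestrict_surjective (hι : ∀ x : K, ιM (algebraMap K M x) = ιK x) :
    Function.Surjective (relRestrict hι) := by
  let _ := algOfEmb ιK
  let _ := algOfEmb ιM
  have := isScalarTower_of_emb hι
  have := normal_of_emb ιK
  intro g
  obtain ⟨τ, hτ⟩ := AlgEquiv.restrictNormalHom_surjective Qbar g
  have hmem : (τ.restrictScalars ℚ : GQ) ∈ ιK.fieldRange.fixingSubgroup := by
    rw [IntermediateField.mem_fixingSubgroup_iff]
    rintro _ ⟨x, rfl⟩
    exact τ.commutes x
  refine ⟨⟨τ.restrictScalars ℚ, hmem⟩, ?_⟩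
  rw [← hτ]
  apply AlgEquiv.ext
  intro x
  apply ιM.injective
  have h1 := relRestrict_spec hι ⟨τ.restrictScalars ℚ, hmem⟩ x
  have h2 := AlgEquiv.restrictNormal_commutes τ M x
  exact h1.trans h2.symm

theorem mem_ker_relRestrict_iff (hι : ∀ x : K, ιM (algebraMap K M x) = ιK x)
    (σ : ιK.fieldRange.fixingSubgroup) :
    σ ∈ (relRestrict hι).ker ↔ (σ : GQ) ∈ ιM.fieldRange.fixingSubgroup := by
  rw [MonoidHom.mem_ker, IntermediateField.mem_fixingSubgroup_iff]
  constructor
  · rintro h _ ⟨x, rfl⟩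
    have h1 := relRestrict_spec hι σ x
    rw [h] at h1
    exact h1.symm
  · intro h
    apply AlgEquiv.ext
    intro x
    apply ιM.injective
    exact (relRestrict_spec hι σ x).trans (h _ ⟨x, rfl⟩)


omit [Normal K M] in
theorem fixingSubgroup_le_of_emb (hι : ∀ x : K, ιM (algebraMap K M x) = ιK x) :
    ιM.fieldRange.fixingSubgroup ≤ ιK.fieldRange.fixingSubgroup := by
  intro σ hσ
  rw [IntermediateField.mem_fixingSubgroup_iff] at hσ ⊢
  rintro _ ⟨x, rfl⟩
  have h := hσ (ιM (algebraMap K M x)) ⟨_, rfl⟩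
  rw [hι x] at h
  exact h

theorem relRestrict_ker (hι : ∀ x : K, ιM (algebraMap K M x) = ιK x) :
    (relRestrict hι).ker =
      ιM.fieldRange.fixingSubgroup.subgroupOf ιK.fieldRange.fixingSubgroup := by
  ext σ
  rw [mem_ker_relRestrict_iff, Subgroup.mem_subgroupOf]

/-- For `M/K` normal, `Gal(Qbar/ιM M)` is normal in `Gal(Qbar/ιK K)`. -/
theorem normal_subgroupOf_of_emb (hι : ∀ x : K, ιM (algebraMap K M x) = ιK x) :
    (ιM.fieldRange.fixingSubgroup.subgroupOf ιK.fieldRange.fixingSubgroup).Normal := by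
  rw [← relRestrict_ker hι]
  exact MonoidHom.normal_ker _

/-- `Gal(Qbar/ιK K) ⧸ Gal(Qbar/ιM M) ≃* Gal(M/K)`. -/
def relQuotEquiv (hι : ∀ x : K, ιM (algebraMap K M x) = ιK x)
    [(ιM.fieldRange.fixingSubgroup.subgroupOf ιK.fieldRange.fixingSubgroup).Normal] :
    ιK.fieldRange.fixingSubgroup ⧸
      ιM.fieldRange.fixingSubgroup.subgroupOf ιK.fieldRange.fixingSubgroup ≃* (M ≃ₐ[K] M) :=
  QuotientGroup.liftEquiv _ (relRestrict_surjective hι) (relRestrict_ker hι).symm

@[simp] theorem relQuotEquiv_mk (hι : ∀ x : K, ιM (algebraMap K M x) = ιK x)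
    [(ιM.fieldRange.fixingSubgroup.subgroupOf ιK.fieldRange.fixingSubgroup).Normal]
    (σ : ιK.fieldRange.fixingSubgroup) :
    relQuotEquiv hι (QuotientGroup.mk σ) = relRestrict hι σ := rfl

theorem relQuotEquiv_symm_relRestrict (hι : ∀ x : K, ιM (algebraMap K M x) = ιK x)
    [(ιM.fieldRange.fixingSubgroup.subgroupOf ιK.fieldRange.fixingSubgroup).Normal]
    (σ : ιK.fieldRange.fixingSubgroup) :
    (relQuotEquiv hι).symm (relRestrict hι σ) = QuotientGroup.mk σ := by
  rw [MulEquiv.symm_apply_eq]; rfl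

/-- `[Gal(Qbar/ιK K) : Gal(Qbar/ιM M)] = [M : K]` for `M/K` finite Galois. -/
theorem index_subgroupOf_of_emb [FiniteDimensional K M] [IsGalois K M]
    (hι : ∀ x : K, ιM (algebraMap K M x) = ιK x) :
    (ιM.fieldRange.fixingSubgroup.subgroupOf ιK.fieldRange.fixingSubgroup).index =
      Module.finrank K M := by
  have := normal_subgroupOf_of_emb hι
  rw [Subgroup.index_eq_card, Nat.card_congr (relQuotEquiv hι).toEquiv,
    IsGalois.card_aut_eq_finrank]

end Relative

/-! ### The relative dictionary for levels given as intermediate fields -/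

section LevelsRel

variable (E E' : IntermediateField ℚ Qbar) [Algebra ↥E ↥E'] [IsScalarTower ↥E ↥E' Qbar]

theorem algebraMap_val_eq (x : ↥E) : E'.val (algebraMap ↥E ↥E' x) = E.val x :=
  (IsScalarTower.algebraMap_apply ↥E ↥E' Qbar x).symm

theorem fixingSubgroup_eq_fieldRange_val (E : IntermediateField ℚ Qbar) :
    E.fixingSubgroup = E.val.fieldRange.fixingSubgroup := by
  rw [IntermediateField.fieldRange_val]

theorem fixingSubgroup_le_of_tower : E'.fixingSubgroup ≤ E.fixingSubgroup := by
  rw [fixingSubgroup_eq_fieldRange_val E, fixingSubgroup_eq_fieldRange_val E']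
  exact fixingSubgroup_le_of_emb (algebraMap_val_eq E E')

variable [Normal ↥E ↥E']

/-- Relative restriction `U_E → Gal(E'/E)` for levels `E ≤ E'` with `E'/E` normal. -/
def relRestrictE : E.fixingSubgroup →* (↥E' ≃ₐ[↥E] ↥E') :=
  (relRestrict (algebraMap_val_eq E E')).comp
    (MulEquiv.subgroupCongr (fixingSubgroup_eq_fieldRange_val E)).toMonoidHom

theorem relRestrictE_spec (σ : E.fixingSubgroup) (x : ↥E') :
    ((relRestrictE E E' σ x : ↥E') : Qbar) = (σ : GQ) (x : Qbar) :=
  relRestrict_spec (algebraMap_val_eq E E') _ x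

theorem relRestrictE_surjective : Function.Surjective (relRestrictE E E') :=
  (relRestrict_surjective (algebraMap_val_eq E E')).comp
    (MulEquiv.subgroupCongr (fixingSubgroup_eq_fieldRange_val E)).surjective

theorem relRestrictE_ker :
    (relRestrictE E E').ker = E'.fixingSubgroup.subgroupOf E.fixingSubgroup := by
  ext σ
  rw [Subgroup.mem_subgroupOf, MonoidHom.mem_ker]
  have h := mem_ker_relRestrict_iff (algebraMap_val_eq E E')
    (MulEquiv.subgroupCongr (fixingSubgroup_eq_fieldRange_val E) σ)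
  have h2 : (σ : GQ) ∈ E'.val.fieldRange.fixingSubgroup ↔ (σ : GQ) ∈ E'.fixingSubgroup := by
    rw [IntermediateField.fieldRange_val]
  exact (MonoidHom.mem_ker.symm.trans h).trans h2

/-- For `E'/E` normal, `U_{E'}` is normal in `U_E`. -/
theorem normal_subgroupOf_of_tower :
    (E'.fixingSubgroup.subgroupOf E.fixingSubgroup).Normal := by
  rw [← relRestrictE_ker E E']
  exact MonoidHom.normal_ker _

/-- `U_E ⧸ U_{E'} ≃* Gal(E'/E)`. -/
def relQuotEquivE [(E'.fixingSubgroup.subgroupOf E.fixingSubgroup).Normal] :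
    E.fixingSubgroup ⧸ E'.fixingSubgroup.subgroupOf E.fixingSubgroup ≃* (↥E' ≃ₐ[↥E] ↥E') :=
  QuotientGroup.liftEquiv _ (relRestrictE_surjective E E') (relRestrictE_ker E E').symm

@[simp] theorem relQuotEquivE_mk [(E'.fixingSubgroup.subgroupOf E.fixingSubgroup).Normal]
    (σ : E.fixingSubgroup) :
    relQuotEquivE E E' (QuotientGroup.mk σ) = relRestrictE E E' σ := rfl

theorem relQuotEquivE_symm_relRestrictE [(E'.fixingSubgroup.subgroupOf E.fixingSubgroup).Normal]
    (σ : E.fixingSubgroup) :
    (relQuotEquivE E E').symm (relRestrictE E E' σ) = QuotientGroup.mk σ := by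
  rw [MulEquiv.symm_apply_eq]; rfl

/-- `[U_E : U_{E'}] = [E' : E]` for `E'/E` finite Galois. -/
theorem index_subgroupOf_of_tower [FiniteDimensional ↥E ↥E'] [IsGalois ↥E ↥E'] :
    (E'.fixingSubgroup.subgroupOf E.fixingSubgroup).index = Module.finrank ↥E ↥E' := by
  have := normal_subgroupOf_of_tower E E'
  rw [Subgroup.index_eq_card, Nat.card_congr (relQuotEquivE E E').toEquiv,
    IsGalois.card_aut_eq_finrank]

end LevelsRel

end

end Fermat.Agent.CFT.H77
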