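/-
CFT project, seam U2 (helper20): the inputs (FIN) and (EXIST) of D2 for the GLOBAL formation
`(G_ℚ, globalLevels S, C_S := H77.repCSTop S)`, in the verbatim bodies `HasFIN` / `HasEXIST` of
`H91_D2Defs`, from FINITE-LEVEL statements about the hybrid idele class groups `H23.CS S K`:

* `FinFin p S`   : `CS S K / p` is finite for every level `K`;
* `ExistFin p S` : for a level `K ⊇ μ_p`, an element of `CS S K` which is a Galois norm from every
  cyclic extension `M/K` of degree `p` unramified outside `S` is a `p`-th power.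

Transport: helper77's descent `csIncl` (`CS S K ≃ (CSTop S)^{U_K}`), its tower compatibility
(`H77.csIncl_baseChange`), the open-subgroup/level dictionary (`H77_OpenLevel`), helper54's
unramified dictionary (`H54_LUnr`) and the norm dictionary `H20_NormDict`.
-/
import Mathlib
import Fermat.Agent.CFT.H20_NormDict
import Fermat.Agent.CFT.H20_GlobalDuality
import Fermat.Agent.CFT.H77_OpenLevel
import Fermat.Agent.CFT.H54_LUnr

set_option autoImplicit false

open scoped TensorProduct

namespace Fermat.Agent.CFT.H20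

open NumberField IsDedekindDomain Fermat.Agent.CFT ExtCitation

local notation "Qbar" => AlgebraicClosure ℚ
local notation "GQ" => (AlgebraicClosure ℚ ≃ₐ[ℚ] AlgebraicClosure ℚ)

noncomputable section

/-- **Finite-level (FIN)**: `CS S K / p` is finite, for every number field `K` embedded in `ℚbar`
with image unramified outside `S`. -/
def FinFin (p : ℕ) (S : Finset Nat.Primes) : Prop :=
  ∀ (K : Type) [Field K] [NumberField K] (ιK : K →ₐ[ℚ] Qbar),
    ιK.fieldRange.IsUnramifiedOutside S →
    Finite (H23.CS S K ⧸ (powMonoidHom (α := H23.CS S K) p).range)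

/-- **Finite-level (EXIST)**: for a number field `K ⊇ μ_p` embedded in `ℚbar` with image
unramified outside `S`, an element of `CS S K` which is a Galois norm from every Galois extension
`M/K` of degree `p` unramified outside `S` is a `p`-th power. -/
def ExistFin (p : ℕ) (S : Finset Nat.Primes) : Prop :=
  ∀ (K : Type) [Field K] [NumberField K] (ιK : K →ₐ[ℚ] Qbar),
    ιK.fieldRange.IsUnramifiedOutside S → (∃ ζ : K, IsPrimitiveRoot ζ p) →
    ∀ a : H23.CS S K,
      (∀ (M : Type) [Field M] [NumberField M] [Algebra K M] [IsGalois K M],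
        Module.finrank K M = p → H23.UnramOutside S K M →
        ∃ y : H23.CS S M, H23.CS.baseChange S K M a = ∏ τ : M ≃ₐ[K] M, τ • y) →
      ∃ b : H23.CS S K, b ^ p = a

variable {p : ℕ} {S : Finset Nat.Primes}

/-! ### Abstract-level forms -/

section Abstract

variable {K : Type} [Field K] [NumberField K] {ιK : K →ₐ[ℚ] Qbar}
  (hK : ιK.fieldRange.IsUnramifiedOutside S)

include hK in
/-- (FIN) at the open subgroup `U_K`. -/
theorem hasFIN_at (hS : S.Nonempty)
    (hfin : Finite (H23.CS S K ⧸ (powMonoidHom (α := H23.CS S K) p).range))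
    (U : Subgroup GQ) (hU : ιK.fieldRange.fixingSubgroup = U) :
    ∃ T : Finset (H77.repCSTop S).V,
      ∀ a : (H77.repCSTop S).V, (∀ u ∈ U, (H77.repCSTop S).ρ u a = a) →
        ∃ t ∈ T, ∃ b : (H77.repCSTop S).V,
          (∀ u ∈ U, (H77.repCSTop S).ρ u b = b) ∧ a = t + p • b := by
  classical
  subst hU
  set P : Subgroup (H23.CS S K) := (powMonoidHom (α := H23.CS S K) p).range with hP
  haveI : Fintype (H23.CS S K ⧸ P) := Fintype.ofFinite _
  let D := H45.divDescent hK
  let f : H23.CS S K ⧸ P → (H77.repCSTop S).V := fun q =>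
    Additive.ofMul (H77.csIncl hK D (Quotient.out q))
  refine ⟨Finset.univ.image f, fun a ha => ?_⟩
  let a' : H77.CSTop S := Additive.toMul (show Additive (H77.CSTop S) from a)
  have ha' : ∀ σ ∈ ιK.fieldRange.fixingSubgroup, σ • a' = a' :=
    fun σ hσ => congrArg Additive.toMul (ha σ hσ)
  obtain ⟨a₀, ha₀⟩ := (H77.mem_range_csIncl_iff hK D hS H45.hasDivisors a').mpr ha'
  have hq : (QuotientGroup.mk (Quotient.out (QuotientGroup.mk a₀ : H23.CS S K ⧸ P)) :
      H23.CS S K ⧸ P) = QuotientGroup.mk a₀ := Quotient.out_eq _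
  obtain ⟨b₀, hb₀⟩ : ∃ b₀ : H23.CS S K,
      b₀ ^ p = (Quotient.out (QuotientGroup.mk a₀ : H23.CS S K ⧸ P))⁻¹ * a₀ :=
    (QuotientGroup.eq (s := P)).mp hq
  refine ⟨f (QuotientGroup.mk a₀), Finset.mem_image_of_mem f (Finset.mem_univ _),
    Additive.ofMul (H77.csIncl hK D b₀), fun u hu => ?_, ?_⟩
  · exact congrArg Additive.ofMul (H77.smul_csIncl_of_mem_fixer hK D u hu b₀)
  · have h1 : a₀ = Quotient.out (QuotientGroup.mk a₀ : H23.CS S K ⧸ P) * b₀ ^ p := by
      rw [hb₀, mul_inv_cancel_left]
    have h2 : a' = H77.csIncl hK D (Quotient.out (QuotientGroup.mk a₀ :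
        H23.CS S K ⧸ P)) * (H77.csIncl hK D b₀) ^ p := by
      have h3 : H77.csIncl hK D a₀ = a' := ha₀
      rw [← h3, ← map_pow, ← map_mul, ← h1]
    exact congrArg Additive.ofMul h2

include hK in
/-- (EXIST) at the open subgroup `U_K`, for `K ⊇ μ_p`. -/
theorem hasEXIST_at (hS : S.Nonempty) (hζ : ∃ ζ : K, IsPrimitiveRoot ζ p)
    (hex : ExistFin p S) (N₀ : Subgroup GQ) (hN₀ : ιK.fieldRange.fixingSubgroup = N₀) :
    HasEXIST (globalLevels S) (H77.repCSTop S) p N₀ := by
  classical
  subst hN₀
  intro a ha hnorm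
  let DK := H45.divDescent hK
  let a' : H77.CSTop S := Additive.toMul (show Additive (H77.CSTop S) from a)
  have ha' : ∀ σ ∈ ιK.fieldRange.fixingSubgroup, σ • a' = a' :=
    fun σ hσ => congrArg Additive.toMul (ha σ hσ)
  obtain ⟨a₀, ha₀⟩ := (H77.mem_range_csIncl_iff hK DK hS H45.hasDivisors a').mpr ha'
  have ha₀' : H77.csIncl hK DK a₀ = a' := ha₀
  have key : ∀ (M : Type) [Field M] [NumberField M] [Algebra K M] [IsGalois K M],
      Module.finrank K M = p → H23.UnramOutside S K M →
      ∃ y : H23.CS S M, H23.CS.baseChange S K M a₀ = ∏ τ : M ≃ₐ[K] M, τ • y := by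
    intro M _ _ _ _ hdeg hur
    -- embed the abstract `M` into `Qbar` over `K`
    letI : Algebra K Qbar := ιK.toRingHom.toAlgebra
    haveI : Algebra.IsAlgebraic K M := Algebra.IsAlgebraic.tower_top (K := ℚ) K
    let j : M →ₐ[K] Qbar := IsAlgClosed.lift
    let ιM : M →ₐ[ℚ] Qbar := RingHom.toRatAlgHom (j : M →+* Qbar)
    have hι : ∀ x : K, ιM (algebraMap K M x) = ιK x := fun x => j.commutes x
    have hM : ιM.fieldRange.IsUnramifiedOutside S :=
      H54.isUnramifiedOutside_fieldRange_of_unramOutside S hι hK hur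
    let DM := H45.divDescent hM
    have hVopen : (globalLevels S).IsOpen ιM.fieldRange.fixingSubgroup :=
      ⟨_, ⟨ιM.fieldRange, hM, rfl⟩, le_rfl⟩
    obtain ⟨b, hbV, hsum⟩ := hnorm ιM.fieldRange.fixingSubgroup hVopen
      (fixingSubgroup_fieldRange_le hι) (normal_subgroupOf_fixingSubgroup hι)
      ((index_subgroupOf_fixingSubgroup hι).trans hdeg)
    let b' : H77.CSTop S := Additive.toMul (show Additive (H77.CSTop S) from b)
    have hb' : ∀ σ ∈ ιM.fieldRange.fixingSubgroup, σ • b' = b' :=
      fun σ hσ => congrArg Additive.toMul (hbV σ hσ)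
    obtain ⟨y, hy⟩ := (H77.mem_range_csIncl_iff hM DM hS H45.hasDivisors b').mpr hb'
    have hy' : b = Additive.ofMul (H77.csIncl hM DM y) := congrArg Additive.ofMul hy.symm
    refine ⟨y, ?_⟩
    apply H77.csIncl_injective hM DM hS
    rw [H77.csIncl_baseChange hK hM hι DK DM, ha₀']
    subst hy'
    have h3 := (finsum_rho_csIncl hι hM DM y).symm.trans hsum
    exact (congrArg Additive.toMul h3).symm
  obtain ⟨b₀, hb₀⟩ := hex K ιK hK hζ a₀ key
  refine ⟨Additive.ofMul (H77.csIncl hK DK b₀), fun u hu => ?_, ?_⟩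
  · exact congrArg Additive.ofMul (H77.smul_csIncl_of_mem_fixer hK DK u hu b₀)
  · have h2 : (H77.csIncl hK DK b₀) ^ p = a' := by
      rw [← map_pow, hb₀, ha₀']
    exact congrArg Additive.ofMul h2

end Abstract

/-! ### The global statements, in the verbatim bodies of `H91_D2Defs` -/

section Global

local instance isAlgebraicQbar_h20g : Algebra.IsAlgebraic ℚ (AlgebraicClosure ℚ) :=
  AlgebraicClosure.isAlgebraic ℚ
local instance isAlgClosureQbar_h20g : IsAlgClosure ℚ (AlgebraicClosure ℚ) :=
  ⟨inferInstance, inferInstance⟩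
local instance normalQbar_h20g : Normal ℚ (AlgebraicClosure ℚ) :=
  IsAlgClosure.normal ℚ (AlgebraicClosure ℚ)
local instance isGaloisQbar_h20g : IsGalois ℚ (AlgebraicClosure ℚ) := ⟨⟩

/-- **(FIN) for the global formation** `(G_ℚ, globalLevels S, C_S)`. -/
theorem hasFIN_global (hS : S.Nonempty) (h : FinFin p S) :
    HasFIN (globalLevels S) (H77.repCSTop S) p := by
  intro U hU
  obtain ⟨hE, hEU⟩ := H77.isOpen_fixedField S hU
  haveI : NumberField ↥(IntermediateField.fixedField U) := H77.numberField_of_level _ hE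
  have hK := H77.isUnramifiedOutside_fieldRange_val (IntermediateField.fixedField U) hE
  have hfix : (IntermediateField.fixedField U).val.fieldRange.fixingSubgroup = U := by
    rw [IntermediateField.fieldRange_val]; exact hEU
  exact hasFIN_at (p := p) hK hS (h _ _ hK) U hfix

/-- **(EXIST) for the global formation** at the good levels (fixed field `⊇ μ_p`). -/
theorem hasEXIST_global (hS : S.Nonempty) (h : ExistFin p S) :
    ∀ N₀ ∈ (globalLevels S).levels, N₀.Normal → GoodLevel p N₀ →
      HasEXIST (globalLevels S) (H77.repCSTop S) p N₀ := by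
  rintro N₀ ⟨E, hE, rfl⟩ - ⟨ζ, hζ, hfixζ⟩
  haveI : NumberField ↥E := H77.numberField_of_level E hE
  have hK := H77.isUnramifiedOutside_fieldRange_val E hE
  have hfix : E.val.fieldRange.fixingSubgroup = E.fixingSubgroup := by
    rw [IntermediateField.fieldRange_val]
  have hζE : ζ ∈ E := by
    have h1 : ζ ∈ IntermediateField.fixedField E.fixingSubgroup := by
      rw [IntermediateField.mem_fixedField_iff]
      exact fun σ hσ => hfixζ σ hσ
    rwa [InfiniteGalois.fixedField_fixingSubgroup] at h1
  have hζ' : ∃ ζ' : ↥E, IsPrimitiveRoot ζ' p :=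
    ⟨⟨ζ, hζE⟩, IsPrimitiveRoot.of_map_of_injective (f := E.val) (by exact hζ) E.val.injective⟩
  exact hasEXIST_at (p := p) hK hS hζ' h _ hfix

/-- **Global Tate duality from finite-level inputs**: `H20.global_duality` with (FIN), (EXIST)
discharged from `FinFin` / `ExistFin`. -/
theorem global_duality_of_finite [Fact p.Prime] (hp2 : p ≠ 2) (hD1 : D1Statement p)
    (hD2 : D2Statement p) (hpS : pPrime p ∈ S)
    (hCmain : Nonempty (PClassFormation p (globalLevels S) (H77.repCSTop S)))
    (hfin : FinFin p S) (hex : ExistFin p S) :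
    ∃ tr : (globalLevels S).H1 (globalEnvelope p S).wDatum.W →ₗ[ZMod p] ZMod p,
      D1Conclusion (globalLevels S) (globalEnvelope p S).wDatum tr :=
  global_duality hp2 hD1 hD2 S hpS hCmain (hasFIN_global ⟨_, hpS⟩ hfin)
    (hasEXIST_global ⟨_, hpS⟩ hex)

end Global

end

end Fermat.Agent.CFT.H20
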