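import Mathlib
import Fermat.Agent.CFT.H10_ExistClS
import Fermat.Agent.CFT.H20_GlobalFinExist

set_option autoImplicit false

/-!
# CFT / C-EXIST (helper10): `H20.FinFin p S` (finiteness of `C_S(K) / p` at every finite level)
-/

namespace Fermat.Agent.CFT.H10

open Fermat.Agent.CFT.H23 Fermat.Agent.CFT.H51

/-- **FIN at finite level**, in helper20's consumer shape: `C_S(K) / p` is finite for every number
field `K` (no hypothesis on `S`, no root of unity). -/
theorem finFin (S : Finset Nat.Primes) {p : ℕ} (hp : p.Prime) : H20.FinFin p S := by
  intro K _ _ _ _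
  exact finite_CS_quot_pow S K hp

end Fermat.Agent.CFT.H10
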