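import Fermat.Agent.CFT.H55_LevelDefs

/-!
# The carry cocycle `(u, v) ↦ ε_χ(u, v) • a` on level cohomology  (CFT layer D, package D2c)

For an additive character `χ : H → ZMod n` and an invariant `a ∈ C^H`, the `2`-cochain
`(u, v) ↦ ε(u, v) • a`, `ε(u, v) = (χ~ u + χ~ v - χ~ (u v)) / n ∈ {0, 1}`, is a `2`-cocycle.
It is the image of `a` under the connecting maps attached to `χ` ("`a ∪ δχ`"), and for
`χ σ = 1` it is a level coboundary iff `a` is a norm from `C^(ker χ)` (given `H¹(ker χ; C) = 0`).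
-/

set_option autoImplicit false
set_option linter.unusedSectionVars false
set_option linter.style.haveILetI false
set_option linter.unusedSimpArgs false

universe u

open CategoryTheory groupCohomology

namespace Fermat.Agent.CFT.H74

open Fermat.Agent.CFT LevelStructure

/-! ### Arithmetic of carries in `ZMod n` -/

section Arith

variable {n : ℕ} [NeZero n]

/-- the carry of the addition of canonical lifts: `(x~ + y~ - (x + y)~) / n ∈ {0, 1}` -/
def zcarry (x y : ZMod n) : ℤ := ((x.val + y.val) / n : ℕ)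

lemma mul_zcarry (x y : ZMod n) :
    (n : ℤ) * zcarry x y = (x.val : ℤ) + y.val - ((x + y).val : ℤ) := by
  unfold zcarry
  have h := Nat.div_add_mod (x.val + y.val) n
  rw [← ZMod.val_add] at h
  have h' := congrArg (Nat.cast : ℕ → ℤ) h
  push_cast at h' ⊢
  linarith

lemma zcarry_nonneg (x y : ZMod n) : 0 ≤ zcarry x y := by
  unfold zcarry; positivity

lemma zcarry_zero_right (x : ZMod n) : zcarry x 0 = 0 := by
  unfold zcarry
  rw [ZMod.val_zero, add_zero, Nat.div_eq_of_lt (ZMod.val_lt x)]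
  rfl

lemma zcarry_zero_left (y : ZMod n) : zcarry 0 y = 0 := by
  unfold zcarry
  rw [ZMod.val_zero, zero_add, Nat.div_eq_of_lt (ZMod.val_lt y)]
  rfl

lemma natCast_ne_zero_int : (n : ℤ) ≠ 0 := by
  exact_mod_cast NeZero.ne n

lemma zcarry_assoc (x y z : ZMod n) :
    zcarry y z + zcarry x (y + z) = zcarry (x + y) z + zcarry x y := by
  apply mul_left_cancel₀ (natCast_ne_zero_int (n := n))
  rw [mul_add, mul_add, mul_zcarry, mul_zcarry, mul_zcarry, mul_zcarry, add_assoc]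
  ring

lemma zcarry_add_add (x y x' y' : ZMod n) :
    zcarry (x + x') (y + y') =
      zcarry x y + zcarry x' y' - (zcarry y y' - zcarry (x + y) (x' + y') + zcarry x x') := by
  apply mul_left_cancel₀ (natCast_ne_zero_int (n := n))
  have e : x + x' + (y + y') = x + y + (x' + y') := by ring
  rw [mul_sub, mul_add, mul_add, mul_sub, mul_zcarry, mul_zcarry, mul_zcarry, mul_zcarry,
    mul_zcarry, mul_zcarry, e]
  ring

lemma zcarry_natCast_one_of_lt {j : ℕ} (hj : j + 1 < n) : zcarry ((j : ℕ) : ZMod n) 1 = 0 := by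
  unfold zcarry
  have h1 : 1 < n := by omega
  haveI : Fact (1 < n) := ⟨h1⟩
  rw [ZMod.val_natCast_of_lt (by omega), ZMod.val_one, Nat.div_eq_of_lt hj]
  rfl

lemma zcarry_natCast_pred_one (h1 : 1 < n) : zcarry (((n - 1 : ℕ) : ℕ) : ZMod n) 1 = 1 := by
  unfold zcarry
  haveI : Fact (1 < n) := ⟨h1⟩
  rw [ZMod.val_natCast_of_lt (by omega), ZMod.val_one, Nat.sub_add_cancel (by omega),
    Nat.div_self (by omega)]
  rfl

end Arith


/-! ### The carry cochain -/

section Carry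

variable {k : Type u} [CommRing k] {H : Type u} [Group H] {𝓛 : LevelStructure H} (C : Rep k H)
variable {n : ℕ} [NeZero n]

/-- additive characters `H → ZMod n` -/
def IsAddChar (χ : H → ZMod n) : Prop := ∀ u v, χ (u * v) = χ u + χ v

lemma IsAddChar.map_one {χ : H → ZMod n} (hχ : IsAddChar χ) : χ 1 = 0 := by
  have := hχ 1 1
  rw [mul_one] at this
  exact left_eq_add.mp this

lemma IsAddChar.map_inv {χ : H → ZMod n} (hχ : IsAddChar χ) (u : H) : χ u⁻¹ = -χ u := by
  have := hχ u u⁻¹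
  rw [mul_inv_cancel, hχ.map_one] at this
  exact eq_neg_of_add_eq_zero_right this.symm

lemma IsAddChar.map_pow {χ : H → ZMod n} (hχ : IsAddChar χ) (u : H) (m : ℕ) :
    χ (u ^ m) = m • χ u := by
  induction m with
  | zero => simp [hχ.map_one]
  | succ m ih => rw [pow_succ, hχ, ih, succ_nsmul]

lemma IsAddChar.add {χ χ' : H → ZMod n} (hχ : IsAddChar χ) (hχ' : IsAddChar χ') :
    IsAddChar (χ + χ') := fun u v => by
  simp only [Pi.add_apply, hχ u v, hχ' u v]; ring

/-- the carry `2`-cochain `(u, v) ↦ ε_χ(u, v) • a` -/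
def carryCochain (χ : H → ZMod n) (a : C) : H × H → C := fun x => zcarry (χ x.1) (χ x.2) • a

/-- the `1`-cochain `u ↦ χ~(u) • i` -/
def valCochain (χ : H → ZMod n) (i : C) : H → C := fun u => ((χ u).val : ℤ) • i

@[simp] lemma carryCochain_apply (χ : H → ZMod n) (a : C) (u v : H) :
    carryCochain C χ a (u, v) = zcarry (χ u) (χ v) • a := rfl

@[simp] lemma valCochain_apply (χ : H → ZMod n) (i : C) (u : H) :
    valCochain C χ i u = ((χ u).val : ℤ) • i := rfl

lemma carryCochain_add (χ : H → ZMod n) (a a' : C) :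
    carryCochain C χ (a + a') = carryCochain C χ a + carryCochain C χ a' := by
  ext x; simp [carryCochain, smul_add]

lemma carryCochain_smul (χ : H → ZMod n) (c : k) (a : C) :
    carryCochain C χ (c • a) = c • carryCochain C χ a := by
  ext x; exact smul_comm _ _ _

lemma carryCochain_zsmul (χ : H → ZMod n) (c : ℤ) (a : C) :
    carryCochain C χ (c • a) = c • carryCochain C χ a := by
  ext x; exact smul_comm _ _ _

variable {C}

/-- **Key identity**: `d (u ↦ χ~(u) • i) = (u, v) ↦ ε(u, v) • (n • i)` for invariant `i`. -/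
theorem d₁₂_valCochain {χ : H → ZMod n} (hχ : IsAddChar χ) {i : C}
    (hi : i ∈ LevelStructure.H0 C) :
    (d₁₂ C).hom (valCochain C χ i) = carryCochain C χ ((n : ℤ) • i) := by
  ext ⟨u, v⟩
  simp only [d₁₂_hom_apply, valCochain_apply, carryCochain_apply, map_zsmul, hi u, hχ u v]
  rw [smul_smul, mul_comm, mul_zcarry]
  module

theorem carryCochain_mem_cocycles₂ {χ : H → ZMod n} (hχ : IsAddChar χ) {a : C}
    (ha : a ∈ LevelStructure.H0 C) : carryCochain C χ a ∈ groupCohomology.cocycles₂ C := by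
  refine LinearMap.mem_ker.mpr ?_
  ext ⟨u, v, w⟩
  simp only [d₂₃_hom_apply, carryCochain_apply, map_zsmul, ha u, hχ u v, hχ v w, Pi.zero_apply]
  have h := zcarry_assoc (χ u) (χ v) (χ w)
  have : zcarry (χ v) (χ w) = zcarry (χ u + χ v) (χ w) + zcarry (χ u) (χ v)
      - zcarry (χ u) (χ v + χ w) := by linarith
  rw [this]
  change _ = (0 : C)
  module

lemma isConst₂_carryCochain {χ : H → ZMod n} (hc : 𝓛.IsConst₁ χ) (a : C) :
    𝓛.IsConst₂ (carryCochain C χ a) := by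
  obtain ⟨N, hN, h⟩ := hc
  exact ⟨N, hN, fun g g' s s' hs hs' => by
    simp only [carryCochain_apply, h g s hs, h g' s' hs']⟩

lemma isConst₁_valCochain {χ : H → ZMod n} (hc : 𝓛.IsConst₁ χ) (i : C) :
    𝓛.IsConst₁ (valCochain C χ i) := hc.comp (fun x : ZMod n => ((x.val : ℤ) • i))

theorem carryCochain_mem_level_cocycles₂ {χ : H → ZMod n} (hχ : IsAddChar χ)
    (hc : 𝓛.IsConst₁ χ) {a : C} (ha : a ∈ LevelStructure.H0 C) :
    carryCochain C χ a ∈ 𝓛.cocycles₂ C :=
  ⟨carryCochain_mem_cocycles₂ hχ ha, isConst₂_carryCochain hc a⟩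

/-- `ε_χ • (n • a)` is a level coboundary. -/
theorem carryCochain_nsmul_mem_coboundaries₂ {χ : H → ZMod n} (hχ : IsAddChar χ)
    (hc : 𝓛.IsConst₁ χ) {a : C} (ha : a ∈ LevelStructure.H0 C) :
    carryCochain C χ ((n : ℤ) • a) ∈ 𝓛.coboundaries₂ C :=
  ⟨valCochain C χ a, isConst₁_valCochain hc a, d₁₂_valCochain hχ ha⟩

/-- additivity in the character, up to an explicit coboundary -/
theorem carryCochain_add_char {χ χ' : H → ZMod n} (hχ : IsAddChar χ) (hχ' : IsAddChar χ') {a : C}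
    (ha : a ∈ LevelStructure.H0 C) :
    carryCochain C (χ + χ') a = carryCochain C χ a + carryCochain C χ' a -
      (d₁₂ C).hom (fun u => zcarry (χ u) (χ' u) • a) := by
  ext ⟨u, v⟩
  simp only [d₁₂_hom_apply, carryCochain_apply, map_zsmul, ha u, hχ u v, hχ' u v, Pi.add_apply,
    Pi.sub_apply]
  rw [zcarry_add_add]
  module

lemma isConst₁_zcarry_smul {χ χ' : H → ZMod n} (hc : 𝓛.IsConst₁ χ) (hc' : 𝓛.IsConst₁ χ') (a : C) :
    𝓛.IsConst₁ (fun u => zcarry (χ u) (χ' u) • a) := by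
  obtain ⟨N, hN, h⟩ := hc
  obtain ⟨N', hN', h'⟩ := hc'
  obtain ⟨N'', hN'', hle⟩ := 𝓛.directed N hN N' hN'
  exact ⟨N'', hN'', fun g s hs => by
    simp only [h g s (hle hs).1, h' g s (hle hs).2]⟩

end Carry


/-! ### The norm criterion -/

section Norm

variable {k : Type u} [CommRing k] {H : Type u} [Group H] {𝓛 : LevelStructure H} {C : Rep k H}
variable {n : ℕ} [NeZero n]

/-- partial norms `∑_{j<m} σ^j b` -/
def pnormσ (σ : H) (b : C) (m : ℕ) : C := ∑ j ∈ Finset.range m, C.ρ (σ ^ j) b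

lemma pnormσ_zero (σ : H) (b : C) : pnormσ σ b 0 = 0 := by simp [pnormσ]

lemma pnormσ_succ (σ : H) (b : C) (m : ℕ) :
    pnormσ σ b (m + 1) = pnormσ σ b m + C.ρ (σ ^ m) b := by
  simp [pnormσ, Finset.sum_range_succ]

lemma pnormσ_add (σ : H) (b : C) (m m' : ℕ) :
    pnormσ σ b (m + m') = pnormσ σ b m + ∑ j ∈ Finset.range m', C.ρ (σ ^ (m + j)) b := by
  simp [pnormσ, Finset.sum_range_add]

/-- `b` is fixed by `ker χ` -/
def IsKerFixed (χ : H → ZMod n) (b : C) : Prop := ∀ κ, χ κ = 0 → C.ρ κ b = b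

lemma IsKerFixed.ρ_eq {χ : H → ZMod n} (hχ : IsAddChar χ) {b : C} (hb : IsKerFixed χ b)
    {g g' : H} (h : χ g = χ g') : C.ρ g b = C.ρ g' b := by
  have h0 : χ (g⁻¹ * g') = 0 := by rw [hχ, hχ.map_inv, h]; ring
  have : g' = g * (g⁻¹ * g') := by group
  rw [this, map_mul, Module.End.mul_apply, hb _ h0]

lemma IsKerFixed.ρ {χ : H → ZMod n} (hχ : IsAddChar χ) {b : C} (hb : IsKerFixed χ b) (g : H) :
    IsKerFixed χ (C.ρ g b) := fun κ hκ => by
  rw [← Module.End.mul_apply, ← map_mul]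
  refine hb.ρ_eq hχ ?_
  rw [hχ, hκ, zero_add]

lemma IsKerFixed.of_invariant (χ : H → ZMod n) {a : C} (ha : a ∈ LevelStructure.H0 C) :
    IsKerFixed χ a := fun κ _ => ha κ

lemma char_pow_of_eq_one {χ : H → ZMod n} (hχ : IsAddChar χ) {σ : H} (hσ : χ σ = 1) (m : ℕ) :
    χ (σ ^ m) = (m : ZMod n) := by
  rw [hχ.map_pow, hσ, nsmul_eq_mul, mul_one]

lemma ρ_pow_add_period {χ : H → ZMod n} (hχ : IsAddChar χ) {σ : H} (hσ : χ σ = 1) {b : C}
    (hb : IsKerFixed χ b) (j : ℕ) : C.ρ (σ ^ (n + j)) b = C.ρ (σ ^ j) b := by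
  refine hb.ρ_eq hχ ?_
  rw [char_pow_of_eq_one hχ hσ, char_pow_of_eq_one hχ hσ]
  push_cast
  rw [ZMod.natCast_self, zero_add]

lemma pnormσ_period_add {χ : H → ZMod n} (hχ : IsAddChar χ) {σ : H} (hσ : χ σ = 1) {b : C}
    (hb : IsKerFixed χ b) (m : ℕ) : pnormσ σ b (n + m) = pnormσ σ b n + pnormσ σ b m := by
  rw [pnormσ_add]
  congr 1
  exact Finset.sum_congr rfl fun j _ => ρ_pow_add_period hχ hσ hb j

lemma pnormσ_add_mul_period {χ : H → ZMod n} (hχ : IsAddChar χ) {σ : H} (hσ : χ σ = 1) {b : C}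
    (hb : IsKerFixed χ b) (m c : ℕ) :
    pnormσ σ b (m + n * c) = pnormσ σ b m + c • pnormσ σ b n := by
  induction c with
  | zero => simp
  | succ c ih =>
    have : m + n * (c + 1) = n + (m + n * c) := by ring
    rw [this, pnormσ_period_add hχ hσ hb, ih, succ_nsmul]
    abel

lemma ρ_pnormσ {χ : H → ZMod n} (hχ : IsAddChar χ) {σ : H} (hσ : χ σ = 1) {b : C}
    (hb : IsKerFixed χ b) (u : H) (m : ℕ) :
    C.ρ u (pnormσ σ b m) = ∑ j ∈ Finset.range m, C.ρ (σ ^ ((χ u).val + j)) b := by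
  unfold pnormσ
  rw [map_sum]
  refine Finset.sum_congr rfl fun j _ => ?_
  rw [← Module.End.mul_apply, ← map_mul]
  refine hb.ρ_eq hχ ?_
  rw [hχ, char_pow_of_eq_one hχ hσ, char_pow_of_eq_one hχ hσ]
  push_cast
  rw [ZMod.natCast_zmod_val]

/-- the norm `∑_{j<n} σ^j b` is invariant -/
lemma pnormσ_period_mem_H0 {χ : H → ZMod n} (hχ : IsAddChar χ) {σ : H} (hσ : χ σ = 1) {b : C}
    (hb : IsKerFixed χ b) : pnormσ σ b n ∈ LevelStructure.H0 C := by
  intro u
  have h1 : C.ρ u (pnormσ σ b n) + pnormσ σ b (χ u).val = pnormσ σ b ((χ u).val + n) := by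
    rw [ρ_pnormσ hχ hσ hb, pnormσ_add, add_comm]
  have h2 : pnormσ σ b ((χ u).val + n) = pnormσ σ b (χ u).val + pnormσ σ b n := by
    rw [add_comm, pnormσ_period_add hχ hσ hb, add_comm]
  rw [h2, add_comm] at h1
  exact add_left_cancel h1

/-- the `1`-cochain `u ↦ ∑_{j<χ~(u)} σ^j b` -/
def normCochain (χ : H → ZMod n) (σ : H) (b : C) : H → C := fun u => pnormσ σ b (χ u).val

lemma isConst₁_normCochain {χ : H → ZMod n} (hc : 𝓛.IsConst₁ χ) (σ : H) (b : C) :
    𝓛.IsConst₁ (normCochain χ σ b) := hc.comp (fun x : ZMod n => pnormσ σ b x.val)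

/-- **(b1)** `ε_χ • N b = d (u ↦ ∑_{j<χ~(u)} σ^j b)`. -/
theorem d₁₂_normCochain {χ : H → ZMod n} (hχ : IsAddChar χ) {σ : H} (hσ : χ σ = 1) {b : C}
    (hb : IsKerFixed χ b) :
    (d₁₂ C).hom (normCochain χ σ b) = carryCochain C χ (pnormσ σ b n) := by
  ext ⟨u, v⟩
  simp only [d₁₂_hom_apply, normCochain, carryCochain_apply]
  have h1 : C.ρ u (pnormσ σ b (χ v).val) + pnormσ σ b (χ u).val =
      pnormσ σ b ((χ u).val + (χ v).val) := by
    rw [ρ_pnormσ hχ hσ hb, pnormσ_add, add_comm]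
  have h2 : (χ u).val + (χ v).val = (χ (u * v)).val + n * (((χ u).val + (χ v).val) / n) := by
    rw [hχ u v, ZMod.val_add]
    exact (Nat.mod_add_div _ _).symm
  rw [h2, pnormσ_add_mul_period hχ hσ hb] at h1
  have h3 : zcarry (χ u) (χ v) • pnormσ σ b n =
      (((χ u).val + (χ v).val) / n) • pnormσ σ b n := by
    unfold zcarry
    rw [natCast_zsmul]
  rw [h3]
  have h4 : C.ρ u (pnormσ σ b (χ v).val) =
      pnormσ σ b (χ (u * v)).val + (((χ u).val + (χ v).val) / n) • pnormσ σ b n -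
        pnormσ σ b (χ u).val := eq_sub_of_add_eq h1
  rw [h4]
  abel

theorem carryCochain_norm_mem_coboundaries₂ {χ : H → ZMod n} (hχ : IsAddChar χ)
    (hc : 𝓛.IsConst₁ χ) {σ : H} (hσ : χ σ = 1) {b : C} (hb : IsKerFixed χ b) :
    carryCochain C χ (pnormσ σ b n) ∈ 𝓛.coboundaries₂ C :=
  ⟨normCochain χ σ b, isConst₁_normCochain hc σ b, d₁₂_normCochain hχ hσ hb⟩


/-- `H¹(ker χ; C) = 0` in primitive form: every level-constant function `H → C` which is a
`1`-cocycle on `ker χ` is a coboundary on `ker χ`. -/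
def KerH1Vanishes (𝓛 : LevelStructure H) (C : Rep k H) (χ : H → ZMod n) : Prop :=
  ∀ f : H → C, 𝓛.IsConst₁ f →
    (∀ κ κ', χ κ = 0 → χ κ' = 0 → f (κ * κ') = C.ρ κ (f κ') + f κ) →
    ∃ c : C, ∀ κ, χ κ = 0 → f κ = C.ρ κ c - c

/-- **(b2)** if `ε_χ • a` is a level coboundary and `H¹(ker χ; C) = 0`, then `a` is a norm from
`C^(ker χ)`. -/
theorem exists_norm_of_carryCochain_mem_coboundaries₂ {χ : H → ZMod n} (hχ : IsAddChar χ)
    (h1 : 1 < n) {σ : H} (hσ : χ σ = 1) {a : C} (hH1 : KerH1Vanishes 𝓛 C χ)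
    (h : carryCochain C χ a ∈ 𝓛.coboundaries₂ C) :
    ∃ b : C, IsKerFixed χ b ∧ a = pnormσ σ b n := by
  obtain ⟨β, hβc, hβ⟩ := h
  have hβ' : ∀ u v, C.ρ u (β v) - β (u * v) + β u = zcarry (χ u) (χ v) • a := fun u v => by
    have := congrFun hβ (u, v)
    simpa only [d₁₂_hom_apply, carryCochain_apply] using this
  -- kill `β` on the kernel
  obtain ⟨c, hc⟩ := hH1 β hβc (fun κ κ' hκ hκ' => by
    have := hβ' κ κ'
    rw [hκ, hκ', zcarry_zero_left, zero_smul] at this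
    have h' : C.ρ κ (β κ') + β κ - β (κ * κ') = 0 := by rw [← this]; abel
    exact (sub_eq_zero.mp h').symm)
  set β' : H → C := fun u => β u - (C.ρ u c - c) with hβ'def
  have hβ'' : ∀ u v, C.ρ u (β' v) - β' (u * v) + β' u = zcarry (χ u) (χ v) • a := fun u v => by
    rw [← hβ' u v]
    simp only [hβ'def, map_sub, map_mul, Module.End.mul_apply]
    abel
  have hβ'ker : ∀ κ, χ κ = 0 → β' κ = 0 := fun κ hκ => by
    simp only [hβ'def, hc κ hκ, sub_self]
  -- right invariance under the kernel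
  have hright : ∀ u κ, χ κ = 0 → β' (u * κ) = β' u := fun u κ hκ => by
    have := hβ'' u κ
    rw [hκ, zcarry_zero_right, zero_smul, hβ'ker κ hκ, map_zero, zero_sub] at this
    exact (neg_add_eq_zero.mp this)
  -- values are fixed by the kernel
  have hfix : ∀ u, IsKerFixed χ (β' u) := fun u κ hκ => by
    have := hβ'' κ u
    rw [hκ, zcarry_zero_left, zero_smul, hβ'ker κ hκ, add_zero] at this
    rw [sub_eq_zero.mp this]
    have h0 : χ (u⁻¹ * κ * u) = 0 := by rw [hχ, hχ, hχ.map_inv, hκ]; ring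
    have : κ * u = u * (u⁻¹ * κ * u) := by group
    rw [this, hright u _ h0]
  refine ⟨β' σ, hfix σ, ?_⟩
  have hind : ∀ m : ℕ, m < n → β' (σ ^ m) = pnormσ σ (β' σ) m := by
    intro m
    induction m with
    | zero =>
      intro _
      rw [pow_zero, pnormσ_zero, hβ'ker 1 hχ.map_one]
    | succ m ih =>
      intro hm
      have := hβ'' (σ ^ m) σ
      rw [char_pow_of_eq_one hχ hσ, hσ, zcarry_natCast_one_of_lt hm, zero_smul,
        ← pow_succ, ih (by omega)] at this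
      rw [pnormσ_succ]
      have h' : pnormσ σ (β' σ) m + C.ρ (σ ^ m) (β' σ) - β' (σ ^ (m + 1)) = 0 := by
        rw [← this]; abel
      exact (sub_eq_zero.mp h').symm
  have hlast := hβ'' (σ ^ (n - 1)) σ
  have hn0 : χ (σ ^ n) = 0 := by rw [char_pow_of_eq_one hχ hσ, ZMod.natCast_self]
  rw [char_pow_of_eq_one hχ hσ, hσ, zcarry_natCast_pred_one h1, one_smul, ← pow_succ,
    Nat.sub_add_cancel (by omega), hβ'ker _ hn0, sub_zero, hind (n - 1) (by omega)] at hlast
  have : n = (n - 1) + 1 := by omega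
  rw [← hlast]
  conv_rhs => rw [this, pnormσ_succ]
  abel

/-- **Norm criterion.** -/
theorem carryCochain_mem_coboundaries₂_iff {χ : H → ZMod n} (hχ : IsAddChar χ)
    (hc : 𝓛.IsConst₁ χ) (h1 : 1 < n) {σ : H} (hσ : χ σ = 1) {a : C}
    (hH1 : KerH1Vanishes 𝓛 C χ) :
    carryCochain C χ a ∈ 𝓛.coboundaries₂ C ↔ ∃ b : C, IsKerFixed χ b ∧ a = pnormσ σ b n := by
  constructor
  · exact exists_norm_of_carryCochain_mem_coboundaries₂ hχ h1 hσ hH1
  · rintro ⟨b, hb, rfl⟩
    exact carryCochain_norm_mem_coboundaries₂ hχ hc hσ hb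

end Norm


/-! ### `H¹(ker χ; C) = 0` in the vocabulary of `H55_LevelDefs` -/

section Adapter

variable {k : Type u} [CommRing k] {H : Type u} [Group H] {𝓛 : LevelStructure H} {C : Rep k H}
variable {n : ℕ} [NeZero n]

theorem kerH1Vanishes_of_forall {χ : H → ZMod n} (K : Subgroup H) (hK : ∀ u, u ∈ K ↔ χ u = 0)
    (h : ∀ f ∈ (𝓛.restrict K).cocycles₁ (Rep.res K.subtype C),
      f ∈ (𝓛.restrict K).coboundaries₁ (Rep.res K.subtype C)) : KerH1Vanishes 𝓛 C χ := by
  intro f hf hcoc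
  have hmem : (fun κ : K => f κ.1) ∈ (𝓛.restrict K).cocycles₁ (Rep.res K.subtype C) := by
    refine ⟨(mem_cocycles₁_iff (A := Rep.res K.subtype C) _).mpr fun g g' => ?_, ?_⟩
    · exact hcoc g.1 g'.1 ((hK _).mp g.2) ((hK _).mp g'.2)
    · obtain ⟨N, hN, hc⟩ := hf
      refine ⟨N.comap K.subtype, ⟨N, hN, rfl⟩, fun g s hs => ?_⟩
      exact hc g.1 s.1 hs
  obtain ⟨c, hc⟩ := h _ hmem
  refine ⟨c, fun κ hκ => ?_⟩
  have := congrFun hc ⟨κ, (hK κ).mpr hκ⟩
  rw [d₀₁_hom_apply] at this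
  exact this.symm

theorem kerH1Vanishes_of_subsingleton {χ : H → ZMod n} (K : Subgroup H)
    (hK : ∀ u, u ∈ K ↔ χ u = 0)
    [h : Subsingleton ((𝓛.restrict K).H1 (Rep.res K.subtype C))] : KerH1Vanishes 𝓛 C χ := by
  refine kerH1Vanishes_of_forall K hK fun f hf => ?_
  have : (𝓛.restrict K).H1π (Rep.res K.subtype C) ⟨f, hf⟩ = 0 := Subsingleton.elim _ _
  have h' := (Submodule.Quotient.mk_eq_zero _).mp this
  exact h'

end Adapter

/-! ### The pairing on cohomology classes -/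

section Classes

variable {k : Type u} [CommRing k] {H : Type u} [Group H] (𝓛 : LevelStructure H) (C : Rep k H)
variable (n : ℕ) [NeZero n]

/-- level-constant additive characters `H → ZMod n` -/
def levelChars : AddSubgroup (H → ZMod n) where
  carrier := {χ | IsAddChar χ ∧ 𝓛.IsConst₁ χ}
  zero_mem' := ⟨fun _ _ => by simp, 𝓛.isConst₁_const (0 : ZMod n)⟩
  add_mem' := fun h h' => ⟨h.1.add h'.1, h.2.add h'.2⟩
  neg_mem' := fun {χ} h => ⟨fun u v => by simp only [Pi.neg_apply, h.1 u v]; ring,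
    h.2.comp (fun x : ZMod n => -x)⟩

variable {𝓛 n} in
lemma mem_levelChars_iff {χ : H → ZMod n} :
    χ ∈ levelChars 𝓛 n ↔ IsAddChar χ ∧ 𝓛.IsConst₁ χ := Iff.rfl

/-- the carry cocycle, as a linear map from the invariants to the level `2`-cocycles -/
noncomputable def carryZ (χ : levelChars 𝓛 n) : ↥(LevelStructure.H0 C) →ₗ[k] ↥(𝓛.cocycles₂ C) where
  toFun a := ⟨carryCochain C χ.1 a.1, carryCochain_mem_level_cocycles₂ χ.2.1 χ.2.2 a.2⟩
  map_add' a a' := Subtype.ext (carryCochain_add C χ.1 a.1 a'.1)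
  map_smul' c a := Subtype.ext (carryCochain_smul C χ.1 c a.1)

/-- **the carry class** `a ↦ [ε_χ • a] ∈ H²(H; C)` (`= a ∪ δχ`) -/
noncomputable def carryH2 (χ : levelChars 𝓛 n) : ↥(LevelStructure.H0 C) →ₗ[k] 𝓛.H2 C :=
  (𝓛.H2π C).comp (carryZ 𝓛 C n χ)

variable {𝓛 C n}

lemma carryH2_apply (χ : levelChars 𝓛 n) (a : ↥(LevelStructure.H0 C)) :
    carryH2 𝓛 C n χ a = 𝓛.H2π C ⟨carryCochain C χ.1 a.1,
      carryCochain_mem_level_cocycles₂ χ.2.1 χ.2.2 a.2⟩ := rfl

lemma carryH2_eq_zero_iff_mem (χ : levelChars 𝓛 n) (a : ↥(LevelStructure.H0 C)) :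
    carryH2 𝓛 C n χ a = 0 ↔ carryCochain C χ.1 a.1 ∈ 𝓛.coboundaries₂ C := by
  rw [carryH2_apply]
  exact Submodule.Quotient.mk_eq_zero _

/-- additivity in the character -/
theorem carryH2_add_char (χ χ' : levelChars 𝓛 n) :
    carryH2 𝓛 C n (χ + χ') = carryH2 𝓛 C n χ + carryH2 𝓛 C n χ' := by
  ext a
  rw [LinearMap.add_apply, ← sub_eq_zero, carryH2_apply, carryH2_apply, carryH2_apply,
    ← map_add, ← map_sub]
  refine (Submodule.Quotient.mk_eq_zero _).mpr ?_
  refine ⟨-(fun u => zcarry (χ.1 u) (χ'.1 u) • a.1),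
    (𝓛.cochains₁ C).neg_mem (isConst₁_zcarry_smul χ.2.2 χ'.2.2 a.1), ?_⟩
  rw [map_neg]
  have := carryCochain_add_char χ.2.1 χ'.2.1 a.2
  simp only [Submodule.subtype_apply, AddSubgroupClass.coe_sub,
    Submodule.coe_add, AddSubgroup.coe_add]
  rw [this]
  abel

/-- the carry pairing, additive in the character -/
noncomputable def carryPairing : levelChars 𝓛 n →+ (↥(LevelStructure.H0 C) →ₗ[k] 𝓛.H2 C) :=
  AddMonoidHom.mk' (carryH2 𝓛 C n) carryH2_add_char

@[simp] lemma carryPairing_apply (χ : levelChars 𝓛 n) :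
    carryPairing (C := C) χ = carryH2 𝓛 C n χ := rfl

/-- the carry class of `n • a` vanishes -/
theorem carryH2_nsmul (χ : levelChars 𝓛 n) (a : ↥(LevelStructure.H0 C)) :
    carryH2 𝓛 C n χ ((n : ℤ) • a) = 0 := by
  rw [carryH2_eq_zero_iff_mem]
  exact carryCochain_nsmul_mem_coboundaries₂ χ.2.1 χ.2.2 a.2

/-- the carry class is killed by `n` -/
theorem nsmul_carryH2 (χ : levelChars 𝓛 n) (a : ↥(LevelStructure.H0 C)) :
    (n : ℤ) • carryH2 𝓛 C n χ a = 0 := by
  rw [← map_zsmul, carryH2_nsmul]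

/-- **Norm criterion on classes**: for `χ σ = 1` and `H¹(ker χ; C) = 0`, the carry class of `a`
vanishes iff `a` is a norm from `C^(ker χ)`. -/
theorem carryH2_eq_zero_iff (χ : levelChars 𝓛 n) (h1 : 1 < n) {σ : H} (hσ : χ.1 σ = 1)
    (hH1 : KerH1Vanishes 𝓛 C χ.1) (a : ↥(LevelStructure.H0 C)) :
    carryH2 𝓛 C n χ a = 0 ↔ ∃ b : C, IsKerFixed χ.1 b ∧ a.1 = pnormσ σ b n := by
  rw [carryH2_eq_zero_iff_mem]
  exact carryCochain_mem_coboundaries₂_iff χ.2.1 χ.2.2 h1 hσ hH1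

end Classes

/-! ### Compatibility with connecting maps: the identity (Y3) -/

section Connecting

variable {k : Type u} [CommRing k] {H : Type u} [Group H] {C I : Rep k H}
variable {n : ℕ} [NeZero n]

/-- **(Y3)**: if `i ∈ I^H` is an `n`-th root of `α a` (`α : C → I` additive), then the `1`-cochain
`u ↦ χ~(u) • i` of `I` has differential `α ∘ (ε_χ • a)`.  Hence for `0 → C → I → I/C → 0` the
connecting map sends the class of `u ↦ χ(u) • (i mod C)` to the carry class of `a`. -/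
theorem d₁₂_valCochain_eq_comp (α : C →+ I) {χ : H → ZMod n} (hχ : IsAddChar χ) {i : I}
    (hi : i ∈ LevelStructure.H0 I) {a : C} (h : (n : ℤ) • i = α a) :
    (d₁₂ I).hom (valCochain I χ i) = fun x => α (carryCochain C χ a x) := by
  rw [d₁₂_valCochain hχ hi, h]
  ext x
  simp only [carryCochain, map_zsmul]

end Connecting

end Fermat.Agent.CFT.H74
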