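import Mathlib
import Fermat.Agent.CFT.H55_GalLevels
import Fermat.Agent.CFT.H74_Carry
import Fermat.Agent.CFT.H10_SplitNormAbs

set_option autoImplicit false

/-!
# CFT / C-EXIST (e) (helper10): Kummer characters as level characters of `G_F ≤ G_ℚ`

Part 1 (generic): for a field `Ω` with a primitive `p`-th root of unity `ζ` and `β ∈ Ωˣ`,
`kummerChi p ζ β σ : ZMod p` is the exponent with `σ β = ζ ^ χ(σ) β` (for `σ` fixing `β ^ p`).
Additive in `σ` (when `σ ζ = ζ`) and in `β`, insensitive to factors fixed by `σ`.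

Part 2: `F : IntermediateField ℚ Qbar` containing `ζ`, `β ^ p ∈ F`: the restriction of
`kummerChi p ζ β` to `F.fixingSubgroup` is an additive character with kernel
`(F ⊔ ℚ⟮β⟯).fixingSubgroup`; it vanishes iff `β ∈ F`; it is a level character for
`(globalLevels S).restrict F.fixingSubgroup` as soon as `F ⊔ ℚ⟮β⟯` is unramified outside `S`.
-/

namespace Fermat.Agent.CFT.H10

section Generic

variable {k Ω : Type*} [Field k] [Field Ω] [Algebra k Ω] {p : ℕ} [NeZero p] {ζ : Ω}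

open Classical in
/-- The Kummer exponent: `σ β = ζ ^ (kummerChi p ζ β σ) β` (junk value `0` if no exponent fits). -/
noncomputable def kummerChi (p : ℕ) [NeZero p] (ζ β : Ω) (σ : Ω ≃ₐ[k] Ω) : ZMod p :=
  if h : ∃ j : ZMod p, σ β = kNode ζ j * β then h.choose else 0

theorem kummerChi_spec' {β : Ω} {σ : Ω ≃ₐ[k] Ω} (h : ∃ j : ZMod p, σ β = kNode ζ j * β) :
    σ β = kNode ζ (kummerChi p ζ β σ) * β := by
  unfold kummerChi
  rw [dif_pos h]
  exact h.choose_spec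

theorem exists_kNode_mul_eq (hζ : IsPrimitiveRoot ζ p) {β : Ω} (hβ0 : β ≠ 0) {σ : Ω ≃ₐ[k] Ω}
    (h : σ β ^ p = β ^ p) : ∃ j : ZMod p, σ β = kNode ζ j * β := by
  have h1 : (σ β / β) ^ p = 1 := by
    rw [div_pow, h, div_self (pow_ne_zero _ hβ0)]
  obtain ⟨i, hi, hiβ⟩ := hζ.eq_pow_of_pow_eq_one h1
  refine ⟨(i : ZMod p), ?_⟩
  unfold kNode
  rw [ZMod.val_natCast_of_lt hi, hiβ, div_mul_cancel₀ _ hβ0]

/-- the defining property of the Kummer exponent. -/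
theorem kummerChi_spec (hζ : IsPrimitiveRoot ζ p) {β : Ω} (hβ0 : β ≠ 0) {σ : Ω ≃ₐ[k] Ω}
    (h : σ β ^ p = β ^ p) : σ β = kNode ζ (kummerChi p ζ β σ) * β :=
  kummerChi_spec' (exists_kNode_mul_eq hζ hβ0 h)

/-- uniqueness of the Kummer exponent. -/
theorem kummerChi_eq_of (hζ : IsPrimitiveRoot ζ p) {β : Ω} (hβ0 : β ≠ 0) {σ : Ω ≃ₐ[k] Ω}
    {j : ZMod p} (h : σ β = kNode ζ j * β) : kummerChi p ζ β σ = j := by
  have h1 := kummerChi_spec' (ζ := ζ) ⟨j, h⟩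
  rw [h] at h1
  exact (kNode_injective hζ (mul_right_cancel₀ hβ0 h1)).symm

theorem kNode_pow_eq_one (hζ : IsPrimitiveRoot ζ p) (j : ZMod p) : kNode ζ j ^ p = 1 := by
  unfold kNode
  rw [← pow_mul, mul_comm, pow_mul, hζ.pow_eq_one, one_pow]

theorem kNode_zero : kNode (p := p) ζ 0 = 1 := by
  unfold kNode
  rw [ZMod.val_zero, pow_zero]

theorem map_kNode {σ : Ω ≃ₐ[k] Ω} (hσζ : σ ζ = ζ) (j : ZMod p) : σ (kNode ζ j) = kNode ζ j := by
  unfold kNode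
  rw [map_pow, hσζ]

/-- additivity in `σ`. -/
theorem kummerChi_mul (hζ : IsPrimitiveRoot ζ p) {β : Ω} (hβ0 : β ≠ 0) {σ τ : Ω ≃ₐ[k] Ω}
    (hσζ : σ ζ = ζ) (hσ : σ β ^ p = β ^ p) (hτ : τ β ^ p = β ^ p) :
    kummerChi p ζ β (σ * τ) = kummerChi p ζ β σ + kummerChi p ζ β τ := by
  apply kummerChi_eq_of hζ hβ0
  rw [AlgEquiv.mul_apply, kummerChi_spec hζ hβ0 hτ, map_mul, map_kNode hσζ,
    kummerChi_spec hζ hβ0 hσ, ← mul_assoc, mul_comm (kNode ζ (kummerChi p ζ β τ)), kNode_mul hζ]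

theorem kummerChi_eq_zero_iff (hζ : IsPrimitiveRoot ζ p) {β : Ω} (hβ0 : β ≠ 0)
    {σ : Ω ≃ₐ[k] Ω} (hσ : σ β ^ p = β ^ p) : kummerChi p ζ β σ = 0 ↔ σ β = β := by
  constructor
  · intro h
    have := kummerChi_spec hζ hβ0 hσ
    rwa [h, kNode_zero, one_mul] at this
  · intro h
    apply kummerChi_eq_of hζ hβ0
    rw [kNode_zero, one_mul, h]

/-- additivity in the radical. -/
theorem kummerChi_mul_radical (hζ : IsPrimitiveRoot ζ p) {β β' : Ω} (hβ0 : β ≠ 0)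
    (hβ'0 : β' ≠ 0) {σ : Ω ≃ₐ[k] Ω} (hσ : σ β ^ p = β ^ p) (hσ' : σ β' ^ p = β' ^ p) :
    kummerChi p ζ (β * β') σ = kummerChi p ζ β σ + kummerChi p ζ β' σ := by
  apply kummerChi_eq_of hζ (mul_ne_zero hβ0 hβ'0)
  rw [map_mul, kummerChi_spec hζ hβ0 hσ, kummerChi_spec hζ hβ'0 hσ', ← kNode_mul hζ]
  ring

/-- factors fixed by `σ` do not change the exponent. -/
theorem kummerChi_mul_fixed (hζ : IsPrimitiveRoot ζ p) {β c : Ω} (hβ0 : β ≠ 0) (hc0 : c ≠ 0)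
    {σ : Ω ≃ₐ[k] Ω} (hσ : σ β ^ p = β ^ p) (hc : σ c = c) :
    kummerChi p ζ (c * β) σ = kummerChi p ζ β σ := by
  apply kummerChi_eq_of hζ (mul_ne_zero hc0 hβ0)
  rw [map_mul, hc, kummerChi_spec hζ hβ0 hσ]
  ring

/-- the exponent only depends on `β ^ p` (for `σ` fixing `ζ`). -/
theorem kummerChi_eq_of_pow_eq (hζ : IsPrimitiveRoot ζ p) {β β' : Ω} (hβ0 : β ≠ 0)
    (hββ' : β' ^ p = β ^ p) {σ : Ω ≃ₐ[k] Ω} (hσζ : σ ζ = ζ) (hσ : σ β ^ p = β ^ p) :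
    kummerChi p ζ β' σ = kummerChi p ζ β σ := by
  have h1 : (β' / β) ^ p = 1 := by rw [div_pow, hββ', div_self (pow_ne_zero _ hβ0)]
  obtain ⟨i, -, hi⟩ := hζ.eq_pow_of_pow_eq_one h1
  have h2 : β' = ζ ^ i * β := by rw [hi, div_mul_cancel₀ _ hβ0]
  rw [h2]
  exact kummerChi_mul_fixed hζ hβ0 (pow_ne_zero _ (hζ.ne_zero (NeZero.ne p))) hσ
    (by rw [map_pow, hσζ])

end Generic

section Global

open IntermediateField Fermat.Agent.CFT.H74

local notation "GQ" => (AlgebraicClosure ℚ ≃ₐ[ℚ] AlgebraicClosure ℚ)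
local notation "Qbar" => AlgebraicClosure ℚ

local instance isAlgebraicQb10 : Algebra.IsAlgebraic ℚ (AlgebraicClosure ℚ) :=
  AlgebraicClosure.isAlgebraic ℚ
local instance isAlgClosureQb10 : IsAlgClosure ℚ (AlgebraicClosure ℚ) :=
  ⟨inferInstance, inferInstance⟩
local instance isGaloisQb10 : IsGalois ℚ (AlgebraicClosure ℚ) := IsSepClosure.isGalois

variable (F : IntermediateField ℚ Qbar) {p : ℕ} [NeZero p] {ζ : Qbar}

/-- The Kummer character of the radical `β` on `G_F = F.fixingSubgroup`. -/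
noncomputable def kummerLevelChi (p : ℕ) [NeZero p] (ζ β : Qbar) : ↥F.fixingSubgroup → ZMod p :=
  fun σ => kummerChi p ζ β (σ : GQ)

variable {F}

theorem map_pow_eq_of_mem {β : Qbar} (hβF : β ^ p ∈ F) (σ : ↥F.fixingSubgroup) :
    (σ : GQ) β ^ p = β ^ p := by
  rw [← map_pow]
  exact (IntermediateField.mem_fixingSubgroup_iff F (σ : GQ)).1 σ.2 _ hβF

theorem map_eq_of_mem {c : Qbar} (hcF : c ∈ F) (σ : ↥F.fixingSubgroup) : (σ : GQ) c = c :=
  (IntermediateField.mem_fixingSubgroup_iff F (σ : GQ)).1 σ.2 _ hcF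

/-- `σ β = ζ ^ χ(σ) β`. -/
theorem kummerLevelChi_spec (hζ : IsPrimitiveRoot ζ p) {β : Qbar} (hβ0 : β ≠ 0)
    (hβF : β ^ p ∈ F) (σ : ↥F.fixingSubgroup) :
    (σ : GQ) β = ζ ^ (kummerLevelChi F p ζ β σ).val * β :=
  kummerChi_spec hζ hβ0 (map_pow_eq_of_mem hβF σ)

/-- `χ_β` is an additive character of `G_F`. -/
theorem isAddChar_kummerLevelChi (hζ : IsPrimitiveRoot ζ p) (hζF : ζ ∈ F) {β : Qbar}
    (hβ0 : β ≠ 0) (hβF : β ^ p ∈ F) : IsAddChar (kummerLevelChi F p ζ β) := fun σ τ =>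
  kummerChi_mul hζ hβ0 (map_eq_of_mem hζF σ) (map_pow_eq_of_mem hβF σ) (map_pow_eq_of_mem hβF τ)

/-- The kernel of `χ_β` is `Gal(Qbar / F(β))`. -/
theorem kummerLevelChi_eq_zero_iff (hζ : IsPrimitiveRoot ζ p) {β : Qbar} (hβ0 : β ≠ 0)
    (hβF : β ^ p ∈ F) (σ : ↥F.fixingSubgroup) :
    kummerLevelChi F p ζ β σ = 0 ↔ (σ : GQ) ∈ (F ⊔ ℚ⟮β⟯).fixingSubgroup := by
  unfold kummerLevelChi
  rw [kummerChi_eq_zero_iff hζ hβ0 (map_pow_eq_of_mem hβF σ),
    IntermediateField.fixingSubgroup_sup, Subgroup.mem_inf]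
  constructor
  · intro h
    refine ⟨σ.2, ?_⟩
    rw [IntermediateField.mem_fixingSubgroup_iff]
    intro x hx
    have hle : ℚ⟮β⟯ ≤ IntermediateField.fixedField (Subgroup.zpowers (σ : GQ)) := by
      rw [IntermediateField.adjoin_simple_le_iff, IntermediateField.mem_fixedField_iff]
      intro τ hτ
      obtain ⟨n, rfl⟩ := Subgroup.mem_zpowers_iff.1 hτ
      have hfix : ∀ m : ℕ, ((σ : GQ) ^ m) β = β := by
        intro m
        induction m with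
        | zero => simp
        | succ m ih => rw [pow_succ, AlgEquiv.mul_apply, h, ih]
      rcases Int.eq_nat_or_neg n with ⟨m, rfl | rfl⟩
      · rw [zpow_natCast]; exact hfix m
      · rw [zpow_neg, zpow_natCast]
        have := hfix m
        calc (((σ : GQ) ^ m)⁻¹) β = (((σ : GQ) ^ m)⁻¹) (((σ : GQ) ^ m) β) := by rw [this]
          _ = β := by
            rw [← AlgEquiv.mul_apply, inv_mul_cancel]
            rfl
    exact (IntermediateField.mem_fixedField_iff _ x).1 (hle hx) (σ : GQ)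
      (Subgroup.mem_zpowers _)
  · rintro ⟨-, h⟩
    exact (IntermediateField.mem_fixingSubgroup_iff _ (σ : GQ)).1 h β
      (IntermediateField.mem_adjoin_simple_self ℚ β)

/-- `χ_β = 0` iff `β ∈ F` (Galois correspondence for `Qbar / F`). -/
theorem kummerLevelChi_eq_zero_iff_mem (hζ : IsPrimitiveRoot ζ p) {β : Qbar} (hβ0 : β ≠ 0)
    (hβF : β ^ p ∈ F) : kummerLevelChi F p ζ β = 0 ↔ β ∈ F := by
  constructor
  · intro h
    rw [← InfiniteGalois.fixedField_fixingSubgroup F, IntermediateField.mem_fixedField_iff]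
    intro σ hσ
    have h1 : kummerLevelChi F p ζ β ⟨σ, hσ⟩ = 0 := by rw [h]; rfl
    unfold kummerLevelChi at h1
    exact (kummerChi_eq_zero_iff hζ hβ0 (map_pow_eq_of_mem hβF ⟨σ, hσ⟩)).1 h1
  · intro h
    funext σ
    unfold kummerLevelChi
    exact (kummerChi_eq_zero_iff hζ hβ0 (map_pow_eq_of_mem hβF σ)).2 (map_eq_of_mem h σ)

/-- additivity in the radical. -/
theorem kummerLevelChi_mul (hζ : IsPrimitiveRoot ζ p) {β β' : Qbar} (hβ0 : β ≠ 0)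
    (hβ'0 : β' ≠ 0) (hβF : β ^ p ∈ F) (hβ'F : β' ^ p ∈ F) :
    kummerLevelChi F p ζ (β * β') = kummerLevelChi F p ζ β + kummerLevelChi F p ζ β' :=
  funext fun σ => kummerChi_mul_radical hζ hβ0 hβ'0 (map_pow_eq_of_mem hβF σ)
    (map_pow_eq_of_mem hβ'F σ)

/-- factors in `F` do not change the character. -/
theorem kummerLevelChi_mul_of_mem (hζ : IsPrimitiveRoot ζ p) {β c : Qbar} (hβ0 : β ≠ 0)
    (hc0 : c ≠ 0) (hβF : β ^ p ∈ F) (hcF : c ∈ F) :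
    kummerLevelChi F p ζ (c * β) = kummerLevelChi F p ζ β :=
  funext fun σ => kummerChi_mul_fixed hζ hβ0 hc0 (map_pow_eq_of_mem hβF σ) (map_eq_of_mem hcF σ)

/-- the character only depends on `x = β ^ p`. -/
theorem kummerLevelChi_eq_of_pow_eq (hζ : IsPrimitiveRoot ζ p) (hζF : ζ ∈ F) {β β' : Qbar}
    (hβ0 : β ≠ 0) (hβF : β ^ p ∈ F) (hββ' : β' ^ p = β ^ p) :
    kummerLevelChi F p ζ β' = kummerLevelChi F p ζ β :=
  funext fun σ => kummerChi_eq_of_pow_eq hζ hβ0 hββ' (map_eq_of_mem hζF σ)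
    (map_pow_eq_of_mem hβF σ)

/-- `χ_β` is level-constant as soon as `F(β)` is unramified outside `S`. -/
theorem isConst₁_kummerLevelChi (S : Finset Nat.Primes) (hζ : IsPrimitiveRoot ζ p) (hζF : ζ ∈ F)
    {β : Qbar} (hβ0 : β ≠ 0) (hβF : β ^ p ∈ F) (hM : (F ⊔ ℚ⟮β⟯).IsUnramifiedOutside S) :
    ((globalLevels S).restrict F.fixingSubgroup).IsConst₁ (kummerLevelChi F p ζ β) := by
  refine ⟨(F ⊔ ℚ⟮β⟯).fixingSubgroup.comap F.fixingSubgroup.subtype,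
    ⟨(F ⊔ ℚ⟮β⟯).fixingSubgroup, ⟨F ⊔ ℚ⟮β⟯, hM, rfl⟩, rfl⟩, fun g s hs => ?_⟩
  rw [isAddChar_kummerLevelChi hζ hζF hβ0 hβF g s,
    (kummerLevelChi_eq_zero_iff hζ hβ0 hβF s).2 hs, add_zero]

/-- `χ_β` as an element of helper74's `levelChars`. -/
theorem kummerLevelChi_mem_levelChars (S : Finset Nat.Primes) (hζ : IsPrimitiveRoot ζ p)
    (hζF : ζ ∈ F) {β : Qbar} (hβ0 : β ≠ 0) (hβF : β ^ p ∈ F)
    (hM : (F ⊔ ℚ⟮β⟯).IsUnramifiedOutside S) :
    kummerLevelChi F p ζ β ∈ levelChars ((globalLevels S).restrict F.fixingSubgroup) p :=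
  ⟨isAddChar_kummerLevelChi hζ hζF hβ0 hβF, isConst₁_kummerLevelChi S hζ hζF hβ0 hβF hM⟩

end Global

end Fermat.Agent.CFT.H10
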