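import Mathlib
import Fermat.Agent.CFT.H10_KummerEquiv

set_option autoImplicit false

/-!
# CFT / C-Kummer-theory (helper10), part 6: Kummer characters of the big Galois group

`Ω / K` a normal extension containing the roots `β i`.  The Kummer homomorphism
`kummerHomTop : Gal(Ω/K) →* Multiplicative (s → ZMod p)` (through restriction to the Kummer
field) has kernel the fixing subgroup of the Kummer field and is surjective for `p`-independent
`b`; the characters `kummerChar e σ = ∑ i, e i * κ_i(σ)`, `e : s → ZMod p`, are additive,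
constant on cosets of that fixing subgroup, and pairwise distinct.
-/

namespace Fermat.Agent.CFT.H10

open Polynomial IntermediateField

variable {K Ω : Type*} [Field K] [Field Ω] [Algebra K Ω] {p : ℕ} {ι : Type*} [DecidableEq ι]

variable (hp : p.Prime) {ζ : K} (hζ : IsPrimitiveRoot ζ p) (b : ι → K) (β : ι → Ω)
  (hβ : ∀ i, β i ^ p = algebraMap K Ω (b i)) (hb0 : ∀ i, b i ≠ 0)

/-- the Kummer homomorphism on the big Galois group `Gal(Ω/K)`. -/
noncomputable def kummerHomTop (s : Finset ι) :
    (Ω ≃ₐ[K] Ω) →* Multiplicative (s → ZMod p) :=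
  haveI := normal_kummerField hp hζ b β hβ hb0 s
  (kummerHom hp hζ b β hβ hb0 s).comp (AlgEquiv.restrictNormalHom (kummerField K β s))

omit [DecidableEq ι] in
theorem kummerHomTop_spec (s : Finset ι) (σ : Ω ≃ₐ[K] Ω) (i : s) :
    σ (β i) = algebraMap K Ω ζ
      ^ (Multiplicative.toAdd (kummerHomTop hp hζ b β hβ hb0 s σ) i).val * β i := by
  have := normal_kummerField hp hζ b β hβ hb0 s
  have h1 := kummerExp_spec hp hζ b β hβ hb0 s
    (AlgEquiv.restrictNormalHom (kummerField K β s) σ) i
  have h2 := congrArg (Subtype.val) h1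
  rw [AlgEquiv.restrictNormalHom_apply] at h2
  have h3 : Multiplicative.toAdd (kummerHomTop hp hζ b β hβ hb0 s σ) i
      = kummerExp hp hζ b β hβ hb0 s (AlgEquiv.restrictNormalHom (kummerField K β s) σ) i := rfl
  rw [h3]
  simpa using h2

omit [DecidableEq ι] in
/-- uniqueness of the exponent. -/
theorem kummerHomTop_eq_of (s : Finset ι) (σ : Ω ≃ₐ[K] Ω) (i : s) {k : ZMod p}
    (h : σ (β i) = algebraMap K Ω ζ ^ k.val * β i) :
    Multiplicative.toAdd (kummerHomTop hp hζ b β hβ hb0 s σ) i = k := by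
  have h1 := kummerHomTop_spec hp hζ b β hβ hb0 s σ i
  rw [h] at h1
  have hβ0 : β i ≠ 0 := by
    have := kummerGen_ne_zero hp b β hβ hb0 s i
    intro h0
    exact this (Subtype.ext h0)
  have h2 := mul_right_cancel₀ hβ0 h1
  have hζΩ : IsPrimitiveRoot (algebraMap K Ω ζ) p :=
    hζ.map_of_injective (algebraMap K Ω).injective
  exact (zeta_pow_val_injective hp hζΩ h2).symm

omit [DecidableEq ι] in
theorem kummerHomTop_ker (s : Finset ι) :
    (kummerHomTop hp hζ b β hβ hb0 s).ker = (kummerField K β s).fixingSubgroup := by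
  have := normal_kummerField hp hζ b β hβ hb0 s
  unfold kummerHomTop
  rw [← MonoidHom.comap_ker, (MonoidHom.ker_eq_bot_iff _).mpr
    (kummerHom_injective hp hζ b β hβ hb0 s), MonoidHom.comap_bot,
    IntermediateField.restrictNormalHom_ker]

include hp hζ hβ hb0 in
theorem kummerHomTop_surjective [Normal K Ω] (s : Finset ι) (hind : PIndepOn p b s) :
    Function.Surjective (kummerHomTop hp hζ b β hβ hb0 s) := by
  have := normal_kummerField hp hζ b β hβ hb0 s
  unfold kummerHomTop
  exact (kummerHom_bijective hp hζ b β hβ hb0 s hind).2.comp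
    (AlgEquiv.restrictNormalHom_surjective (F := K) (K₁ := kummerField K β s) Ω)

/-- the Kummer character attached to `e : s → ZMod p`: `σ ↦ ∑ i, e i * κ_i(σ)`. -/
noncomputable def kummerChar (s : Finset ι) (e : s → ZMod p) (σ : Ω ≃ₐ[K] Ω) : ZMod p :=
  ∑ i, e i * Multiplicative.toAdd (kummerHomTop hp hζ b β hβ hb0 s σ) i

omit [DecidableEq ι] in
theorem kummerChar_mul (s : Finset ι) (e : s → ZMod p) (σ τ : Ω ≃ₐ[K] Ω) :
    kummerChar hp hζ b β hβ hb0 s e (σ * τ)
      = kummerChar hp hζ b β hβ hb0 s e σ + kummerChar hp hζ b β hβ hb0 s e τ := by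
  unfold kummerChar
  rw [map_mul, toAdd_mul, ← Finset.sum_add_distrib]
  refine Finset.sum_congr rfl fun i _ => ?_
  rw [Pi.add_apply, mul_add]

omit [DecidableEq ι] in
theorem kummerChar_one (s : Finset ι) (e : s → ZMod p) :
    kummerChar hp hζ b β hβ hb0 s e 1 = 0 := by
  unfold kummerChar
  rw [map_one]
  simp

omit [DecidableEq ι] in
theorem kummerChar_add (s : Finset ι) (e e' : s → ZMod p) (σ : Ω ≃ₐ[K] Ω) :
    kummerChar hp hζ b β hβ hb0 s (e + e') σ
      = kummerChar hp hζ b β hβ hb0 s e σ + kummerChar hp hζ b β hβ hb0 s e' σ := by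
  unfold kummerChar
  rw [← Finset.sum_add_distrib]
  refine Finset.sum_congr rfl fun i _ => ?_
  rw [Pi.add_apply, add_mul]

omit [DecidableEq ι] in
theorem kummerChar_smul (s : Finset ι) (c : ZMod p) (e : s → ZMod p) (σ : Ω ≃ₐ[K] Ω) :
    kummerChar hp hζ b β hβ hb0 s (c • e) σ = c * kummerChar hp hζ b β hβ hb0 s e σ := by
  unfold kummerChar
  rw [Finset.mul_sum]
  refine Finset.sum_congr rfl fun i _ => ?_
  rw [Pi.smul_apply, smul_eq_mul, mul_assoc]

omit [DecidableEq ι] in
/-- Kummer characters are constant on cosets of the fixing subgroup of the Kummer field. -/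
theorem kummerChar_mul_of_mem (s : Finset ι) (e : s → ZMod p) (σ τ : Ω ≃ₐ[K] Ω)
    (hτ : τ ∈ (kummerField K β s).fixingSubgroup) :
    kummerChar hp hζ b β hβ hb0 s e (σ * τ) = kummerChar hp hζ b β hβ hb0 s e σ := by
  rw [kummerChar_mul]
  rw [← kummerHomTop_ker hp hζ b β hβ hb0 s, MonoidHom.mem_ker] at hτ
  have : kummerChar hp hζ b β hβ hb0 s e τ = 0 := by
    unfold kummerChar
    rw [hτ]
    simp
  rw [this, add_zero]

include hp hζ hβ hb0 in
/-- distinct exponent vectors give distinct Kummer characters (for `p`-independent `b`). -/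
theorem kummerChar_injective [Normal K Ω] (s : Finset ι) (hind : PIndepOn p b s)
    {e : s → ZMod p} (h : ∀ σ : Ω ≃ₐ[K] Ω, kummerChar hp hζ b β hβ hb0 s e σ = 0) : e = 0 := by
  classical
  funext j
  obtain ⟨σ, hσ⟩ := kummerHomTop_surjective hp hζ b β hβ hb0 s hind
    (Multiplicative.ofAdd (Pi.single j (1 : ZMod p)))
  have h1 := h σ
  unfold kummerChar at h1
  rw [hσ, toAdd_ofAdd] at h1
  simpa [Pi.single_apply] using h1

end Fermat.Agent.CFT.H10
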