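import Mathlib

/-!
# CFT / C-AUX : auxiliary cyclic cyclotomic characters (helper12)

Elementary number theory, Mathlib only.  Main result `exists_aux_character`:
for an odd prime `p`, a finite set `T` of integers `≥ 2`, a finite set `E` of forbidden primes and
`k : ℕ` there are a squarefree `m`, prime to `p`, to `E` and to every `q ∈ T`, and a character
`χ : (ZMod m)ˣ →* Multiplicative (ZMod (p ^ N))` such that `p ^ k ∣ orderOf (χ q)` for all `q ∈ T`.
-/

set_option autoImplicit false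

namespace Fermat.Agent.CFT.H12

open Finset

/-- Zsigmondy-type existence: for `q ≥ 2`, `p` an odd prime and `M`, there is a prime `ℓ ≠ p`
such that `q` has multiplicative order exactly `p ^ (M + 1)` modulo `ℓ`. -/
theorem exists_prime_orderOf_eq {p : ℕ} (hp : p.Prime) (hp2 : p ≠ 2) {q : ℕ} (hq : 2 ≤ q)
    (M : ℕ) : ∃ ℓ : ℕ, ℓ.Prime ∧ ℓ ≠ p ∧ orderOf (q : ZMod ℓ) = p ^ (M + 1) := by
  have := Fact.mk hp
  set x : ℕ := q ^ p ^ M with hx
  have hx2 : 2 ≤ x := le_trans hq (Nat.le_self_pow (pow_ne_zero _ hp.ne_zero) q)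
  set Φ : ℕ := ∑ i ∈ range p, x ^ i with hΦ
  -- the geometric sum identity
  have hgeom : Φ * (x - 1) = x ^ p - 1 := by
    have h1 : (1 : ℕ) ≤ x := by omega
    have h2 : (1 : ℕ) ≤ x ^ p := Nat.one_le_pow _ _ (by omega)
    zify [h1, h2]
    rw [hΦ]
    push_cast
    exact geom_sum_mul (x : ℤ) p
  -- Φ > p
  have hΦp : p < Φ := by
    have h1 : ∑ i ∈ range p, 1 < ∑ i ∈ range p, x ^ i := by
      apply Finset.sum_lt_sum
      · intro i _
        exact Nat.one_le_pow _ _ (by omega)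
      · refine ⟨1, Finset.mem_range.mpr hp.one_lt, ?_⟩
        simp only [pow_one]; omega
    simpa using h1
  -- key: a prime divisor of Φ different from p
  have key : ∃ ℓ : ℕ, ℓ.Prime ∧ ℓ ≠ p ∧ ℓ ∣ Φ := by
    by_contra hcon
    push Not at hcon
    have hall : ∀ {d : ℕ}, d.Prime → d ∣ Φ → d = p := by
      intro d hd hdΦ
      by_contra hne
      exact hcon d hd hne hdΦ
    have hΦ0 : Φ ≠ 0 := by omega
    have hpow := Nat.eq_prime_pow_of_unique_prime_dvd hΦ0 hall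
    set e := Φ.primeFactorsList.length with he
    -- p ∣ Φ since Φ > 1
    have he0 : e ≠ 0 := by
      intro h0
      rw [h0, pow_zero] at hpow
      have := hp.one_lt
      omega
    have hpΦ : p ∣ Φ := by
      rw [hpow]; exact dvd_pow_self p he0
    -- x ≡ 1 mod p
    have hxp : (x : ZMod p) = 1 := by
      have h0 : ((Φ : ℕ) : ZMod p) = 0 := (ZMod.natCast_eq_zero_iff _ _).mpr hpΦ
      have h1 : ((x : ZMod p)) ^ p = 1 := by
        have := geom_sum_mul (x : ZMod p) p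
        have hΦc : ((Φ : ℕ) : ZMod p) = ∑ i ∈ range p, (x : ZMod p) ^ i := by
          rw [hΦ]; push_cast; rfl
        rw [← hΦc, h0, zero_mul] at this
        exact (sub_eq_zero.mp this.symm)
      rwa [ZMod.pow_card] at h1
    have hpx1 : p ∣ x - 1 := by
      have h1 : (1 : ℕ) ≤ x := by omega
      rw [← ZMod.natCast_eq_zero_iff, Nat.cast_sub h1, hxp]; simp
    have hpx : ¬ p ∣ x := by
      intro h
      have : (x : ZMod p) = 0 := (ZMod.natCast_eq_zero_iff _ _).mpr h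
      rw [hxp] at this
      exact one_ne_zero this
    have hodd : Odd p := hp.odd_of_ne_two hp2
    have hlte := padicValNat.pow_sub_pow (p := p) hodd (x := x) (y := 1) (by omega)
      (by simpa using hpx1) hpx (n := p) hp.ne_zero
    rw [one_pow, padicValNat_self] at hlte
    have hx10 : x - 1 ≠ 0 := by omega
    have hmul : padicValNat p (Φ * (x - 1)) = padicValNat p Φ + padicValNat p (x - 1) :=
      padicValNat.mul hΦ0 hx10
    rw [hgeom, hlte] at hmul
    have hvΦ : padicValNat p Φ = 1 := by omega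
    have : padicValNat p Φ = e := by
      conv_lhs => rw [hpow]
      exact padicValNat.prime_pow e
    rw [this] at hvΦ
    rw [hvΦ, pow_one] at hpow
    omega
  obtain ⟨ℓ, hℓ, hℓp, hℓΦ⟩ := key
  refine ⟨ℓ, hℓ, hℓp, ?_⟩
  have := Fact.mk hℓ
  have h0 : ((Φ : ℕ) : ZMod ℓ) = 0 := (ZMod.natCast_eq_zero_iff _ _).mpr hℓΦ
  have hΦc : ((Φ : ℕ) : ZMod ℓ) = ∑ i ∈ range p, (x : ZMod ℓ) ^ i := by
    rw [hΦ]; push_cast; rfl
  have hxc : (x : ZMod ℓ) = (q : ZMod ℓ) ^ p ^ M := by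
    rw [hx]; push_cast; rfl
  apply orderOf_eq_prime_pow
  · -- q ^ p ^ M ≠ 1
    intro h1
    rw [← hxc] at h1
    rw [h1] at hΦc
    simp only [one_pow, sum_const, card_range, nsmul_eq_mul, mul_one] at hΦc
    rw [h0] at hΦc
    have : ℓ ∣ p := (ZMod.natCast_eq_zero_iff _ _).mp hΦc.symm
    exact hℓp ((Nat.prime_dvd_prime_iff_eq hℓ hp).mp this)
  · -- q ^ p ^ (M+1) = 1
    have := geom_sum_mul (x : ZMod ℓ) p
    rw [← hΦc, h0, zero_mul] at this
    have h1 : (x : ZMod ℓ) ^ p = 1 := sub_eq_zero.mp this.symm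
    rw [hxc, ← pow_mul, ← pow_succ] at h1
    exact h1

/-- Same as `exists_prime_orderOf_eq`, avoiding a finite set of primes and with order at least
`p ^ (M + 1)`. -/
theorem exists_prime_notMem_orderOf {p : ℕ} (hp : p.Prime) (hp2 : p ≠ 2) {q : ℕ} (hq : 2 ≤ q)
    (M : ℕ) (F : Finset ℕ) :
    ∃ ℓ : ℕ, ℓ.Prime ∧ ℓ ≠ p ∧ ℓ ∉ F ∧ ∃ M' : ℕ, M ≤ M' ∧ orderOf (q : ZMod ℓ) = p ^ (M' + 1) := by
  choose f hf using fun j : ℕ => exists_prime_orderOf_eq hp hp2 hq (M + j)
  have hinj : Function.Injective f := by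
    intro i j hij
    have hi := (hf i).2.2
    have hj := (hf j).2.2
    rw [hij] at hi
    rw [hi] at hj
    have := Nat.pow_right_injective hp.two_le hj
    omega
  obtain ⟨ℓ, ⟨j, rfl⟩, hnot⟩ := (Set.infinite_range_of_injective hinj).exists_notMem_finset F
  exact ⟨f j, (hf j).1, (hf j).2.1, hnot, M + j, Nat.le_add_right _ _, (hf j).2.2⟩

/-- A character of `(ZMod ℓ)ˣ` with values in a cyclic `p`-group which does not lose `p`-parts of
orders. -/
theorem exists_char_prime {ℓ p : ℕ} (hℓ : ℓ.Prime) (hp : p.Prime) (N : ℕ)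
    (hN : padicValNat p (ℓ - 1) ≤ N) :
    ∃ χ : (ZMod ℓ)ˣ →* Multiplicative (ZMod (p ^ N)),
      ∀ (x : (ZMod ℓ)ˣ) (M : ℕ), p ^ M ∣ orderOf x → p ^ M ∣ orderOf (χ x) := by
  have := Fact.mk hℓ
  have := Fact.mk hp
  obtain ⟨g, hg⟩ := IsCyclic.exists_generator (α := (ZMod ℓ)ˣ)
  have hordg : orderOf g = ℓ - 1 := by
    rw [orderOf_eq_card_of_forall_mem_zpowers hg, Nat.card_eq_fintype_card,
      ZMod.card_units_eq_totient, Nat.totient_prime hℓ]
  have hℓ1 : ℓ - 1 ≠ 0 := by have := hℓ.two_le; omega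
  set a := padicValNat p (ℓ - 1) with ha
  obtain ⟨u, hu⟩ : p ^ a ∣ ℓ - 1 := pow_padicValNat_dvd
  have hpu : Nat.Coprime p u := by
    rw [Nat.Prime.coprime_iff_not_dvd hp]
    intro hdvd
    apply pow_succ_padicValNat_not_dvd (p := p) hℓ1
    rw [← ha, hu, pow_succ]
    exact Nat.mul_dvd_mul_left _ hdvd
  have hpN : p ^ N ≠ 0 := pow_ne_zero _ hp.ne_zero
  let g' : Multiplicative (ZMod (p ^ N)) :=
    Multiplicative.ofAdd (((p ^ (N - a) : ℕ)) : ZMod (p ^ N))
  have hg' : orderOf g' = p ^ a := by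
    rw [orderOf_ofAdd_eq_addOrderOf, ZMod.addOrderOf_coe _ hpN,
      Nat.gcd_eq_right (pow_dvd_pow p (Nat.sub_le N a)), Nat.pow_div (Nat.sub_le N a) hp.pos]
    congr 1
    omega
  have hdvd : orderOf g' ∣ orderOf g := by
    rw [hg', hordg]; exact ⟨u, hu⟩
  refine ⟨monoidHomOfForallMemZpowers hg hdvd, ?_⟩
  intro x M hM
  set χ := monoidHomOfForallMemZpowers hg hdvd with hχ
  have hχg : χ g = g' := monoidHomOfForallMemZpowers_apply_gen hg hdvd
  -- elements of the kernel are killed by `u`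
  have hker : ∀ y : (ZMod ℓ)ˣ, χ y = 1 → y ^ u = 1 := by
    intro y hy
    obtain ⟨i, rfl⟩ := Subgroup.mem_zpowers_iff.mp (hg y)
    rw [map_zpow, hχg] at hy
    have hi : ((p ^ a : ℕ) : ℤ) ∣ i := by
      rw [← hg']; exact orderOf_dvd_iff_zpow_eq_one.mpr hy
    obtain ⟨j, rfl⟩ := hi
    rw [← zpow_natCast, ← zpow_mul]
    have : ((p ^ a : ℕ) : ℤ) * j * (u : ℤ) = ((ℓ - 1 : ℕ) : ℤ) * j := by
      rw [hu]; push_cast; ring
    rw [this, zpow_mul, zpow_natCast, ← hordg, pow_orderOf_eq_one, one_zpow]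
  have h1 : orderOf x ∣ orderOf (χ x) * u := by
    apply orderOf_dvd_of_pow_eq_one
    rw [pow_mul]
    apply hker
    rw [map_pow, pow_orderOf_eq_one]
  exact (Nat.Coprime.pow_left M hpu).dvd_of_dvd_mul_right (hM.trans h1)

/-- Counting lemma: a union of `t` subgroups of index `> t` is proper. -/
theorem exists_coeffs {ι : Type*} [Fintype ι] [DecidableEq ι] {p : ℕ} (hp : p.Prime)
    (N k s : ℕ) (hcard : Fintype.card ι < p ^ (s + 1)) (a : ι → ι → ZMod (p ^ N))
    (ha : ∀ j, p ^ (k + s + 1) ∣ addOrderOf (a j j)) :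
    ∃ c : ι → ZMod (p ^ N), ∀ j, p ^ (k + 1) ∣ addOrderOf (∑ i, c i * a i j) := by
  have hpN : NeZero (p ^ N) := ⟨pow_ne_zero _ hp.ne_zero⟩
  let φ : ι → ((ι → ZMod (p ^ N)) →+ ZMod (p ^ N)) := fun j =>
    { toFun := fun c => (p ^ k : ℕ) • ∑ i, c i * a i j
      map_zero' := by simp
      map_add' := by
        intro c d
        simp only [Pi.add_apply, add_mul, Finset.sum_add_distrib, smul_add] }
  -- it suffices to find `c` outside all kernels
  suffices h : ∃ c : ι → ZMod (p ^ N), ∀ j, φ j c ≠ 0 by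
    obtain ⟨c, hc⟩ := h
    refine ⟨c, fun j => ?_⟩
    have h1 : addOrderOf (∑ i, c i * a i j) ∣ p ^ N := by
      have := addOrderOf_dvd_natCard (∑ i, c i * a i j)
      rwa [Nat.card_eq_fintype_card, ZMod.card] at this
    obtain ⟨e, -, he⟩ := (Nat.dvd_prime_pow hp).mp h1
    rw [he]
    apply pow_dvd_pow
    by_contra hlt
    push Not at hlt
    apply hc j
    change (p ^ k : ℕ) • ∑ i, c i * a i j = 0
    apply addOrderOf_dvd_iff_nsmul_eq_zero.mp
    rw [he]
    exact pow_dvd_pow p (by omega)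
  -- cardinality estimate for each kernel
  have hker : ∀ j, Fintype.card ι * Nat.card (φ j).ker < Nat.card (ι → ZMod (p ^ N)) := by
    intro j
    have hmul := AddSubgroup.card_mul_index (φ j).ker
    rw [AddSubgroup.index_ker] at hmul
    have hy : φ j (Pi.single j 1) = (p ^ k : ℕ) • a j j := by
      change (p ^ k : ℕ) • ∑ i, (Pi.single j (1 : ZMod (p ^ N)) : ι → ZMod (p ^ N)) i * a i j = _
      rw [Finset.sum_eq_single j]
      · simp
      · intro i _ hij
        simp [Pi.single_eq_of_ne hij]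
      · intro h; exact absurd (Finset.mem_univ j) h
    have hord : p ^ (s + 1) ∣ addOrderOf ((p ^ k : ℕ) • a j j) := by
      have h1 : addOrderOf (a j j) ∣ addOrderOf ((p ^ k : ℕ) • a j j) * p ^ k := by
        apply addOrderOf_dvd_of_nsmul_eq_zero
        rw [mul_nsmul']
        exact addOrderOf_nsmul_eq_zero ((p ^ k : ℕ) • a j j)
      have h2 := (ha j).trans h1
      have h3 : p ^ (k + s + 1) = p ^ (s + 1) * p ^ k := by
        rw [← pow_add]; congr 1; omega
      rw [h3] at h2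
      exact Nat.dvd_of_mul_dvd_mul_right (pow_pos hp.pos k) h2
    have hrange : p ^ (s + 1) ≤ Nat.card (φ j).range := by
      have hmem : (p ^ k : ℕ) • a j j ∈ (φ j).range := ⟨_, hy⟩
      have h1 : addOrderOf (⟨_, hmem⟩ : (φ j).range) ∣ Nat.card (φ j).range :=
        addOrderOf_dvd_natCard _
      rw [AddSubgroup.addOrderOf_mk] at h1
      exact Nat.le_of_dvd Nat.card_pos (hord.trans h1)
    have hkpos : 0 < Nat.card (φ j).ker := Nat.card_pos
    calc Fintype.card ι * Nat.card (φ j).ker < p ^ (s + 1) * Nat.card (φ j).ker :=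
          Nat.mul_lt_mul_of_pos_right hcard hkpos
      _ ≤ Nat.card (φ j).range * Nat.card (φ j).ker := Nat.mul_le_mul_right _ hrange
      _ = Nat.card (ι → ZMod (p ^ N)) := by rw [mul_comm, hmul]
  rcases isEmpty_or_nonempty ι with hι | hι
  · exact ⟨0, fun j => (IsEmpty.false j).elim⟩
  by_contra hcon
  push Not at hcon
  -- every `c` lies in some kernel
  have hcover : (Finset.univ : Finset (ι → ZMod (p ^ N))) ⊆
      Finset.univ.biUnion (fun j => Finset.univ.filter (fun c => φ j c = 0)) := by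
    intro c _
    obtain ⟨j, hj⟩ := hcon c
    exact Finset.mem_biUnion.mpr ⟨j, Finset.mem_univ _, by simp [hj]⟩
  have h1 := (Finset.card_le_card hcover).trans Finset.card_biUnion_le
  have h2 : ∀ j, (Finset.univ.filter (fun c => φ j c = 0)).card = Nat.card (φ j).ker := by
    intro j
    rw [Nat.card_eq_fintype_card, Fintype.card_subtype]
    congr 1
    ext c
    simp [AddMonoidHom.mem_ker]
  simp_rw [h2] at h1
  rw [Finset.card_univ, ← Nat.card_eq_fintype_card] at h1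
  have hpos : 0 < Fintype.card ι := Fintype.card_pos
  have h3 : Fintype.card ι * ∑ j, Nat.card (φ j).ker <
      Fintype.card ι * Nat.card (ι → ZMod (p ^ N)) := by
    rw [Finset.mul_sum]
    calc ∑ j, Fintype.card ι * Nat.card (φ j).ker < ∑ _j : ι, Nat.card (ι → ZMod (p ^ N)) :=
          Finset.sum_lt_sum_of_nonempty Finset.univ_nonempty (fun j _ => hker j)
      _ = Fintype.card ι * Nat.card (ι → ZMod (p ^ N)) := by
          rw [Finset.sum_const, Finset.card_univ, smul_eq_mul]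
  have h4 := Nat.lt_of_mul_lt_mul_left h3
  omega

/-- **C-AUX.**  For an odd prime `p`, a finite set `T` of integers `≥ 2`, a finite set `E` of
forbidden primes and `k`, there are a squarefree `m` all of whose prime factors avoid `p`, `E` and
the divisors of the `q ∈ T`, and a character `χ` of `(ZMod m)ˣ` with values in a cyclic `p`-group
such that `p ^ k` divides the order of `χ q` for every `q ∈ T`. -/
theorem exists_aux_character {p : ℕ} (hp : p.Prime) (hp2 : p ≠ 2) (T : Finset ℕ)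
    (hT : ∀ q ∈ T, 2 ≤ q) (E : Finset ℕ) (k : ℕ) :
    ∃ (m N : ℕ) (χ : (ZMod m)ˣ →* Multiplicative (ZMod (p ^ N))),
      Squarefree m ∧
      (∀ ℓ : ℕ, ℓ.Prime → ℓ ∣ m → ℓ ≠ p ∧ ℓ ∉ E ∧ ∀ q ∈ T, ¬ ℓ ∣ q) ∧
      ∀ q ∈ T, ∀ hq : Nat.Coprime q m, p ^ k ∣ orderOf (χ (ZMod.unitOfCoprime q hq)) := by
  classical
  have hpNe : ∀ n : ℕ, NeZero (p ^ n) := fun n => ⟨pow_ne_zero _ hp.ne_zero⟩
  set t := T.card with ht
  have hts : t < p ^ (t + 1) :=
    (Nat.lt_pow_self hp.one_lt).trans (Nat.pow_lt_pow_right hp.one_lt (Nat.lt_succ_self t))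
  set E' : Finset ℕ := E ∪ {p} ∪ T.biUnion Nat.primeFactors with hE'
  have hex : ∀ q ∈ T, ∃ ℓ : ℕ, ℓ.Prime ∧ ℓ ≠ p ∧ ℓ ∉ E' ∧
      ∃ M' : ℕ, k + t ≤ M' ∧ orderOf (q : ZMod ℓ) = p ^ (M' + 1) :=
    fun q hq => exists_prime_notMem_orderOf hp hp2 (hT q hq) (k + t) E'
  choose! ℓ hℓ using hex
  -- basic facts on the chosen primes
  have hℓE : ∀ q ∈ T, ℓ q ∉ E ∧ ∀ q' ∈ T, ¬ ℓ q ∣ q' := by
    intro q hq
    have hn := (hℓ q hq).2.2.1
    rw [hE', Finset.mem_union, Finset.mem_union] at hn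
    push Not at hn
    refine ⟨hn.1.1, fun q' hq' hdvd => hn.2 ?_⟩
    rw [Finset.mem_biUnion]
    refine ⟨q', hq', Nat.mem_primeFactors.mpr ⟨(hℓ q hq).1, hdvd, ?_⟩⟩
    have := hT q' hq'
    omega
  set m : ℕ := ∏ r ∈ T.image ℓ, r with hm
  set N : ℕ := ∑ q ∈ T, padicValNat p (ℓ q - 1) with hN
  have hdvd : ∀ q ∈ T, ℓ q ∣ m := fun q hq =>
    Finset.dvd_prod_of_mem _ (Finset.mem_image_of_mem ℓ hq)
  have hprime_dvd : ∀ r : ℕ, r.Prime → r ∣ m → ∃ q ∈ T, r = ℓ q := by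
    intro r hr hrm
    rw [hm, Prime.dvd_finsetProd_iff hr.prime] at hrm
    obtain ⟨r', hr', hrr'⟩ := hrm
    obtain ⟨q, hq, rfl⟩ := Finset.mem_image.mp hr'
    exact ⟨q, hq, (Nat.prime_dvd_prime_iff_eq hr (hℓ q hq).1).mp hrr'⟩
  have hcop : ∀ q ∈ T, Nat.Coprime q m := by
    intro q hq
    rw [hm]
    apply Nat.Coprime.prod_right
    intro r hr
    obtain ⟨q', hq', rfl⟩ := Finset.mem_image.mp hr
    exact (((hℓ q' hq').1.coprime_iff_not_dvd).mpr ((hℓE q' hq').2 q hq)).symm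
  -- the characters at the chosen primes
  have hχex : ∀ i : T, ∃ χ : (ZMod (ℓ i))ˣ →* Multiplicative (ZMod (p ^ N)),
      ∀ (x : (ZMod (ℓ i))ˣ) (M : ℕ), p ^ M ∣ orderOf x → p ^ M ∣ orderOf (χ x) := fun i =>
    exists_char_prime (hℓ i i.2).1 hp N
      (Finset.single_le_sum (f := fun q => padicValNat p (ℓ q - 1)) (fun _ _ => Nat.zero_le _) i.2)
  choose χ hχ using hχex
  let ψ : T → ((ZMod m)ˣ →* Multiplicative (ZMod (p ^ N))) := fun i =>
    (χ i).comp (ZMod.unitsMap (hdvd i i.2))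
  let u : T → (ZMod m)ˣ := fun j => ZMod.unitOfCoprime j (hcop j j.2)
  let a : T → T → ZMod (p ^ N) := fun i j => Multiplicative.toAdd (ψ i (u j))
  have ha : ∀ j : T, p ^ (k + t + 1) ∣ addOrderOf (a j j) := by
    intro j
    change p ^ (k + t + 1) ∣ orderOf (ψ j (u j))
    change p ^ (k + t + 1) ∣ orderOf (χ j (ZMod.unitsMap (hdvd j j.2) (u j)))
    apply hχ
    obtain ⟨M', hM', hord⟩ := (hℓ j j.2).2.2.2
    have hval : ((ZMod.unitsMap (hdvd j j.2) (u j) : (ZMod (ℓ j))ˣ) : ZMod (ℓ j)) =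
        ((j : ℕ) : ZMod (ℓ j)) := by
      simp only [u, ZMod.unitsMap_def, Units.coe_map, ZMod.coe_unitOfCoprime, MonoidHom.coe_coe,
        ZMod.castHom_apply]
      exact ZMod.cast_natCast (hdvd j j.2) _
    rw [← orderOf_units, hval, hord]
    exact pow_dvd_pow p (by omega)
  have hcard : Fintype.card T < p ^ (t + 1) := by
    rw [Fintype.card_coe]; exact hts
  obtain ⟨c, hc⟩ := exists_coeffs hp N k t hcard a ha
  refine ⟨m, N, ∏ i : T, (ψ i) ^ (c i).val, ?_, ?_, ?_⟩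
  · -- squarefree
    rw [hm]
    apply Finset.squarefree_prod_of_pairwise_isCoprime
    · intro r hr r' hr' hne
      obtain ⟨q, hq, rfl⟩ := Finset.mem_image.mp hr
      obtain ⟨q', hq', rfl⟩ := Finset.mem_image.mp hr'
      exact Nat.coprime_iff_isRelPrime.mp
        ((Nat.coprime_primes (hℓ q hq).1 (hℓ q' hq').1).mpr hne)
    · intro r hr
      obtain ⟨q, hq, rfl⟩ := Finset.mem_image.mp hr
      exact (hℓ q hq).1.prime.squarefree
  · intro r hr hrm
    obtain ⟨q, hq, rfl⟩ := hprime_dvd r hr hrm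
    exact ⟨(hℓ q hq).2.1, (hℓE q hq).1, (hℓE q hq).2⟩
  · intro q hq hqm
    have hj := hc ⟨q, hq⟩
    have heq : Multiplicative.toAdd ((∏ i : T, (ψ i) ^ (c i).val)
        (ZMod.unitOfCoprime q hqm)) = ∑ i : T, c i * a i ⟨q, hq⟩ := by
      rw [MonoidHom.finsetProd_apply, toAdd_prod]
      apply Finset.sum_congr rfl
      intro i _
      rw [MonoidHom.pow_apply, toAdd_pow, nsmul_eq_mul, ZMod.natCast_zmod_val]
    rw [← heq] at hj
    exact (pow_dvd_pow p (Nat.le_succ k)).trans hj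

/-- Subgroup form of `exists_aux_character`: a subgroup `H` of `(ZMod m)ˣ` with cyclic quotient of
`p`-power order in which every `q ∈ T` has order divisible by `p ^ k`. -/
theorem exists_aux_subgroup {p : ℕ} (hp : p.Prime) (hp2 : p ≠ 2) (T : Finset ℕ)
    (hT : ∀ q ∈ T, 2 ≤ q) (E : Finset ℕ) (k : ℕ) :
    ∃ (m : ℕ) (H : Subgroup (ZMod m)ˣ),
      Squarefree m ∧
      (∀ ℓ : ℕ, ℓ.Prime → ℓ ∣ m → ℓ ≠ p ∧ ℓ ∉ E ∧ ∀ q ∈ T, ¬ ℓ ∣ q) ∧
      IsCyclic ((ZMod m)ˣ ⧸ H) ∧ (∃ e : ℕ, Nat.card ((ZMod m)ˣ ⧸ H) = p ^ e) ∧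
      ∀ q ∈ T, ∀ hq : Nat.Coprime q m,
        p ^ k ∣ orderOf (QuotientGroup.mk (ZMod.unitOfCoprime q hq) : (ZMod m)ˣ ⧸ H) := by
  obtain ⟨m, N, χ, hsq, hpr, hord⟩ := exists_aux_character hp hp2 T hT E k
  have hpNe : NeZero (p ^ N) := ⟨pow_ne_zero _ hp.ne_zero⟩
  refine ⟨m, χ.ker, hsq, hpr, ?_, ?_, ?_⟩
  · have : IsCyclic χ.range := Subgroup.isCyclic _
    exact isCyclic_of_surjective (QuotientGroup.quotientKerEquivRange χ).symm
      (QuotientGroup.quotientKerEquivRange χ).symm.surjective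
  · rw [Nat.card_congr (QuotientGroup.quotientKerEquivRange χ).toEquiv]
    have h1 : Nat.card χ.range ∣ Nat.card (Multiplicative (ZMod (p ^ N))) :=
      Subgroup.card_subgroup_dvd_card _
    have h2 : Nat.card (Multiplicative (ZMod (p ^ N))) = p ^ N := by
      rw [Nat.card_congr Multiplicative.toAdd, Nat.card_eq_fintype_card]
      exact ZMod.card (p ^ N)
    rw [h2] at h1
    obtain ⟨e, -, he⟩ := (Nat.dvd_prime_pow hp).mp h1
    exact ⟨e, he⟩
  · intro q hq hqm
    have h := hord q hq hqm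
    rw [← QuotientGroup.kerLift_mk χ, orderOf_injective _ (QuotientGroup.kerLift_injective χ)] at h
    exact h

end Fermat.Agent.CFT.H12
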