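import Mathlib
import Fermat.Agent.CFT.H23_CDescent
import Fermat.Agent.CFT.H43_Maps

set_option autoImplicit false
set_option linter.unusedSectionVars false

/-!
# CFT / C-LAYER-GLUE, part A (helper12): tower equivariance and descent dictionary

* `smul_CS_baseChange_tower` : for `K ⊆ M ⊆ F`, `σ ∈ Gal(F/K)` restricting to `τ ∈ Gal(M/K)`:
  `σ • baseChange c = baseChange (τ • c)` on the hybrid idele class groups.
* `smul_CS_congr` : the action on `CS S F` only depends on the underlying field automorphism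
  (not on the base field over which it is linear).
* `pairEquivQuotientToInvariants` : invariants of a normal subgroup along a `H43.PairEquiv`.
* `resPairEquiv` : `Rep.res f (repCS S F K) ≃ repCS S F K₀`, `K₀` the fixed field of `f.range`.
* `smul_baseChange_of_mem`, `exists_baseChange_eq_of_fixed` : `(CS S F)^N = CS S F^N`.
-/

namespace Fermat.Agent.CFT.H12

open scoped TensorProduct NumberField
open IsDedekindDomain Fermat.Agent.CFT.H42 Fermat.Agent.CFT.H10 Fermat.Agent.CFT.H23

noncomputable section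

section Tower

variable (S : Finset Nat.Primes) (K M F : Type*) [Field K] [NumberField K] [Field M] [NumberField M]
  [Field F] [NumberField F] [Algebra K M] [Algebra M F] [Algebra K F] [IsScalarTower K M F]

variable {K M F}

/-- `σ : F ≃ₐ[K] F` restricts to `τ : M ≃ₐ[K] M`. -/
def RestrictsTo (σ : F ≃ₐ[K] F) (τ : M ≃ₐ[K] M) : Prop :=
  ∀ x : M, σ (algebraMap M F x) = algebraMap M F (τ x)

theorem RestrictsTo.inv {σ : F ≃ₐ[K] F} {τ : M ≃ₐ[K] M} (h : RestrictsTo σ τ) :
    RestrictsTo σ⁻¹ τ⁻¹ := by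
  intro x
  have := h (τ⁻¹ x)
  rw [show τ (τ⁻¹ x) = x from τ.apply_symm_apply x] at this
  rw [← this]
  exact σ.symm_apply_apply _

theorem RestrictsTo.smul_algebraMap_int {σ : F ≃ₐ[K] F} {τ : M ≃ₐ[K] M} (h : RestrictsTo σ τ)
    (x : 𝓞 M) : σ • algebraMap (𝓞 M) (𝓞 F) x = algebraMap (𝓞 M) (𝓞 F) (τ • x) := by
  apply Subtype.ext
  exact h (x : M)

/-- The prime below `σ • w` is `τ •` the prime below `w`. -/
theorem under_smul_tower {σ : F ≃ₐ[K] F} {τ : M ≃ₐ[K] M} (h : RestrictsTo σ τ)
    (w : HeightOneSpectrum (𝓞 F)) : (σ • w).under (𝓞 M) = τ • w.under (𝓞 M) := by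
  apply HeightOneSpectrum.ext
  ext x
  rw [HeightOneSpectrum.under_asIdeal, Ideal.under_def, Ideal.mem_comap, mem_smul_prime_iff,
    mem_smul_prime_iff, HeightOneSpectrum.under_asIdeal, Ideal.under_def, Ideal.mem_comap,
    h.inv.smul_algebraMap_int]

/-- The ramification index over `M` is invariant under automorphisms of `F` stabilising `M`. -/
theorem ramIdx_smul_tower {σ : F ≃ₐ[K] F} {τ : M ≃ₐ[K] M} (h : RestrictsTo σ τ)
    (w : HeightOneSpectrum (𝓞 F)) : ramIdx M F (σ • w) = ramIdx M F w := by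
  obtain ⟨π, hπ⟩ := (w.under (𝓞 M)).valuation_exists_uniformizer M
  have h1 : (σ • w).valuation F (algebraMap M F (τ π)) =
      ((σ • w).under (𝓞 M)).valuation M (τ π) ^ ramIdx M F (σ • w) :=
    H63.valuation_algebraMap_eq (σ • w) (τ π)
  have h2 : w.valuation F (algebraMap M F π) =
      (w.under (𝓞 M)).valuation M π ^ ramIdx M F w := H63.valuation_algebraMap_eq w π
  have h3 : (σ • w).valuation F (algebraMap M F (τ π)) = w.valuation F (algebraMap M F π) := by
    have := valuation_smul_smul F K σ w (algebraMap M F π)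
    rwa [h π] at this
  have h4 : ((σ • w).under (𝓞 M)).valuation M (τ π) = (w.under (𝓞 M)).valuation M π := by
    rw [under_smul_tower h]
    exact valuation_smul_smul M K τ (w.under (𝓞 M)) π
  rw [h4, hπ] at h1
  rw [hπ] at h2
  rw [h1, h2] at h3
  have hlt : (WithZero.exp (-1 : ℤ) : WithZero (Multiplicative ℤ)) < 1 := by
    rw [← WithZero.exp_zero, WithZero.exp_lt_exp]; norm_num
  exact (pow_right_injective₀ (WithZero.exp_pos) hlt.ne) h3

theorem PrimesOutside.under_smul_tower {σ : F ≃ₐ[K] F} {τ : M ≃ₐ[K] M} (h : RestrictsTo σ τ)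
    (w : PrimesOutside S F) :
    PrimesOutside.under S M F (σ • w) = τ • PrimesOutside.under S M F w :=
  Subtype.ext (H12.under_smul_tower h w.1)

theorem smul_locMap_tower (q : Nat.Primes) {σ : F ≃ₐ[K] F} {τ : M ≃ₐ[K] M}
    (h : RestrictsTo σ τ) (y : Loc M q) : σ • locMap M F q y = locMap M F q (τ • y) := by
  induction y using TensorProduct.induction_on with
  | zero => simp
  | tmul x a =>
    rw [locMap_tmul, smul_tmul_left, smul_tmul_left, locMap_tmul, h x]
  | add x y hx hy => simp only [smul_add, map_add, hx, hy]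

theorem smul_JS_baseChange_tower {σ : F ≃ₐ[K] F} {τ : M ≃ₐ[K] M} (h : RestrictsTo σ τ)
    (x : JS S M) : σ • JS.baseChange S M F x = JS.baseChange S M F (τ • x) := by
  funext q
  apply Units.ext
  exact smul_locMap_tower q.1 h (x q : Loc M q.1)

theorem smul_DivS_baseChange_tower {σ : F ≃ₐ[K] F} {τ : M ≃ₐ[K] M} (h : RestrictsTo σ τ)
    (D : DivS S M) : σ • DivS.baseChange S M F D = DivS.baseChange S M F (τ • D) := by
  ext w
  rw [smul_divS_apply, DivS.baseChange_apply, DivS.baseChange_apply, smul_divS_apply,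
    PrimesOutside.under_smul_tower S h.inv, coe_smul_primesOutside, ramIdx_smul_tower h.inv]

theorem smul_IdS_baseChange_tower {σ : F ≃ₐ[K] F} {τ : M ≃ₐ[K] M} (h : RestrictsTo σ τ)
    (x : IdS S M) : σ • IdS.baseChange S M F x = IdS.baseChange S M F (τ • x) := by
  refine Prod.ext (smul_JS_baseChange_tower S h x.1) ?_
  show Multiplicative.ofAdd (σ • DivS.baseChange S M F (Multiplicative.toAdd x.2)) = _
  rw [smul_DivS_baseChange_tower S h]
  rfl

/-- **Tower equivariance** of base change on the hybrid idele class groups. -/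
theorem smul_CS_baseChange_tower {σ : F ≃ₐ[K] F} {τ : M ≃ₐ[K] M} (h : RestrictsTo σ τ)
    (c : CS S M) : σ • CS.baseChange S M F c = CS.baseChange S M F (τ • c) := by
  induction c using QuotientGroup.induction_on with
  | H x => exact congrArg (toCS S F) (smul_IdS_baseChange_tower S h x)

end Tower

section Congr

variable (S : Finset Nat.Primes) {F : Type*} [Field F] [NumberField F]
  {K₁ K₂ : Type*} [Field K₁] [CharZero K₁] [Algebra K₁ F] [Field K₂] [CharZero K₂] [Algebra K₂ F]

theorem inv_apply_congr {σ₁ : F ≃ₐ[K₁] F} {σ₂ : F ≃ₐ[K₂] F} (h : ∀ x, σ₁ x = σ₂ x) (x : F) :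
    σ₁⁻¹ x = σ₂⁻¹ x := by
  apply σ₂.injective
  rw [← h, show σ₁ (σ₁⁻¹ x) = x from σ₁.apply_symm_apply x,
    show σ₂ (σ₂⁻¹ x) = x from σ₂.apply_symm_apply x]

theorem smul_prime_congr {σ₁ : F ≃ₐ[K₁] F} {σ₂ : F ≃ₐ[K₂] F} (h : ∀ x, σ₁ x = σ₂ x)
    (v : HeightOneSpectrum (𝓞 F)) : σ₁ • v = σ₂ • v := by
  apply HeightOneSpectrum.ext
  ext x
  rw [mem_smul_prime_iff, mem_smul_prime_iff]
  have : σ₁⁻¹ • x = σ₂⁻¹ • x := Subtype.ext (inv_apply_congr h (x : F))
  rw [this]

theorem smul_primesOutside_congr {σ₁ : F ≃ₐ[K₁] F} {σ₂ : F ≃ₐ[K₂] F} (h : ∀ x, σ₁ x = σ₂ x)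
    (v : PrimesOutside S F) : σ₁ • v = σ₂ • v :=
  Subtype.ext (smul_prime_congr h v.1)

theorem smul_DivS_congr {σ₁ : F ≃ₐ[K₁] F} {σ₂ : F ≃ₐ[K₂] F} (h : ∀ x, σ₁ x = σ₂ x)
    (D : DivS S F) : σ₁ • D = σ₂ • D := by
  ext w
  rw [smul_divS_apply, smul_divS_apply, smul_primesOutside_congr S (inv_apply_congr h)]

theorem smul_Loc_congr (q : Nat.Primes) {σ₁ : F ≃ₐ[K₁] F} {σ₂ : F ≃ₐ[K₂] F}
    (h : ∀ x, σ₁ x = σ₂ x) (y : Loc F q) : σ₁ • y = σ₂ • y := by
  induction y using TensorProduct.induction_on with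
  | zero => simp
  | tmul x a => rw [smul_tmul_left, smul_tmul_left, h x]
  | add x y hx hy => simp only [smul_add, hx, hy]

theorem smul_JS_congr {σ₁ : F ≃ₐ[K₁] F} {σ₂ : F ≃ₐ[K₂] F} (h : ∀ x, σ₁ x = σ₂ x)
    (x : JS S F) : σ₁ • x = σ₂ • x := by
  funext q
  apply Units.ext
  exact smul_Loc_congr q.1 h (x q : Loc F q.1)

theorem smul_IdS_congr {σ₁ : F ≃ₐ[K₁] F} {σ₂ : F ≃ₐ[K₂] F} (h : ∀ x, σ₁ x = σ₂ x)
    (x : IdS S F) : σ₁ • x = σ₂ • x := by
  refine Prod.ext (smul_JS_congr S h x.1) ?_
  show Multiplicative.ofAdd (σ₁ • Multiplicative.toAdd x.2) =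
    Multiplicative.ofAdd (σ₂ • Multiplicative.toAdd x.2)
  rw [smul_DivS_congr S h]

/-- The action on `CS S F` only depends on the underlying field automorphism. -/
theorem smul_CS_congr {σ₁ : F ≃ₐ[K₁] F} {σ₂ : F ≃ₐ[K₂] F} (h : ∀ x, σ₁ x = σ₂ x)
    (c : CS S F) : σ₁ • c = σ₂ • c := by
  induction c using QuotientGroup.induction_on with
  | H x => exact congrArg (toCS S F) (smul_IdS_congr S h x)

end Congr

section PairQuot

open CategoryTheory

variable {k : Type} [CommRing k] {G G' : Type} [Group G] [Group G']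
  {A : Rep.{0} k G} {A' : Rep.{0} k G'}

/-- Transport of the invariants of a normal subgroup along a pair equivalence. -/
def pairEquivQuotientToInvariants (E : H43.PairEquiv A A') (N : Subgroup G) [N.Normal]
    (N' : Subgroup G') [N'.Normal] (hN : N.map (E.e : G →* G') = N') :
    H43.PairEquiv (A.quotientToInvariants N) (A'.quotientToInvariants N') where
  e := QuotientGroup.congr N N' E.e hN
  φ :=
    { toFun := fun x => ⟨E.φ x.1, fun n' => by
        obtain ⟨n', hn'⟩ := n'
        rw [← hN] at hn'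
        obtain ⟨n, hn, rfl⟩ := hn'
        have h1 := x.2 ⟨n, hn⟩
        change A'.ρ (E.e n) (E.φ x.1) = E.φ x.1
        rw [← E.comm]
        exact congrArg E.φ h1⟩
      map_add' := fun x y => Subtype.ext (map_add E.φ x.1 y.1)
      map_smul' := fun c x => Subtype.ext (map_smul E.φ c x.1)
      invFun := fun y => ⟨E.φ.symm y.1, fun n => by
        obtain ⟨n, hn⟩ := n
        have hn' : E.e n ∈ N' := by rw [← hN]; exact ⟨n, hn, rfl⟩
        have h1 := y.2 ⟨E.e n, hn'⟩
        change A.ρ n (E.φ.symm y.1) = E.φ.symm y.1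
        apply E.φ.injective
        rw [E.comm, LinearEquiv.apply_symm_apply]
        exact h1⟩
      left_inv := fun x => Subtype.ext (E.φ.symm_apply_apply x.1)
      right_inv := fun y => Subtype.ext (E.φ.apply_symm_apply y.1) }
  comm g x := by
    induction g using QuotientGroup.induction_on with
    | H g =>
      apply Subtype.ext
      exact E.comm g x.1

end PairQuot

section Layer

open CategoryTheory IntermediateField

variable (S : Finset Nat.Primes) {K F : Type} [Field K] [NumberField K] [Field F] [NumberField F]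
  [Algebra K F] [IsGalois K F]

/-- Restriction of `repCS S F K` along an injective `f : H' →* Gal(F/K)` is `repCS S F K₀`,
`K₀` the fixed field of the image. -/
def resPairEquiv {H' : Type} [Group H'] (f : H' →* (F ≃ₐ[K] F)) (hf : Function.Injective f) :
    H43.PairEquiv (Rep.res f (repCS S F K)) (repCS S F ↥(fixedField f.range)) :=
  have := H23.finiteDimensional_of_numberField K F
  { e := (MonoidHom.ofInjective hf).trans (subgroupEquivAlgEquiv f.range)
    φ := LinearEquiv.refl ℤ _
    comm := fun h c =>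
      congrArg Additive.ofMul
        (smul_CS_congr S (σ₁ := f h)
          (σ₂ := (MonoidHom.ofInjective hf).trans (subgroupEquivAlgEquiv f.range) h)
          (fun _ => rfl) (Additive.toMul (show Additive (CS S F) from c))) }

variable (N : Subgroup (F ≃ₐ[K] F)) [N.Normal]

theorem restrictsTo_restrictNormalHom (σ : F ≃ₐ[K] F) :
    RestrictsTo (M := ↥(fixedField N)) σ (AlgEquiv.restrictNormalHom ↥(fixedField N) σ) :=
  fun x => (AlgEquiv.restrictNormal_commutes σ ↥(fixedField N) x).symm

/-- elements of `N` act trivially on the image of base change from the fixed field -/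
theorem smul_baseChange_of_mem {n : F ≃ₐ[K] F} (hn : n ∈ N) (c : CS S ↥(fixedField N)) :
    n • CS.baseChange S ↥(fixedField N) F c = CS.baseChange S ↥(fixedField N) F c := by
  have := H23.finiteDimensional_of_numberField K F
  have hn' : n ∈ (fixedField N).fixingSubgroup := by
    rw [fixingSubgroup_fixedField]; exact hn
  rw [smul_CS_congr S (σ₁ := n) (σ₂ := fixingSubgroupEquiv (fixedField N) ⟨n, hn'⟩)
    (fun _ => rfl)]
  exact H23.smul_CS_baseChange S ↥(fixedField N) F _ c

/-- the `N`-invariants of `CS S F` are the image of base change from the fixed field -/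
theorem exists_baseChange_eq_of_fixed (hS : S.Nonempty) (hur : UnramOutside S ↥(fixedField N) F)
    (c : CS S F) (hc : ∀ n ∈ N, n • c = c) :
    ∃ c₀ : CS S ↥(fixedField N), CS.baseChange S ↥(fixedField N) F c₀ = c := by
  have := H23.finiteDimensional_of_numberField K F
  have h := (H23.mem_range_CS_baseChange_iff S ↥(fixedField N) F hS hur c).2 (fun σ => by
    have hσ : σ.restrictScalars K ∈ N := by
      have h1 : σ.restrictScalars K ∈ (fixedField N).fixingSubgroup :=
        ((fixingSubgroupEquiv (fixedField N)).symm σ).2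
      rwa [fixingSubgroup_fixedField N] at h1
    rw [← smul_CS_congr S (σ₁ := σ.restrictScalars K) (σ₂ := σ) (fun _ => rfl)]
    exact hc _ hσ)
  exact h

end Layer

end

end Fermat.Agent.CFT.H12
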