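import Mathlib
import Fermat.Agent.CFT.H91_Formation

set_option autoImplicit false

/-!
# Functoriality of `infLevel` / `infTop`, and the double-quotient transport
-/

open CategoryTheory groupCohomology

noncomputable section

namespace Fermat.Agent.CFT.H15

variable {k : Type} [CommRing k] {Γ : Type} [Group Γ]

theorem infLevel_comp (C : Rep.{0} k Γ) (U V W : Subgroup Γ) [U.Normal] [V.Normal] [W.Normal]
    (h : V ≤ U) (h' : W ≤ V) (n : ℕ) :
    infLevel C U V h n ≫ infLevel C V W h' n = infLevel C U W (h'.trans h) n := by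
  unfold infLevel
  rw [← groupCohomology.map_comp]
  refine groupCohomology.map_congr ?_ ?_ n
  · ext x
    rfl
  · rfl

theorem infLevel_comp_infTop (C : Rep.{0} k Γ) (U V : Subgroup Γ) [U.Normal] [V.Normal]
    (h : V ≤ U) (n : ℕ) :
    infLevel C U V h n ≫ infTop C V n = infTop C U n := by
  unfold infLevel infTop
  rw [← groupCohomology.map_comp]
  refine groupCohomology.map_congr ?_ ?_ n
  · ext x
    rfl
  · rfl

/-! ### The double quotient -/

section DoubleQuotient

variable (C : Rep.{0} k Γ) (U W : Subgroup Γ) [U.Normal] [W.Normal] (h : W ≤ U)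

/-- `U/W` as a (normal) subgroup of `Γ/W`. -/
abbrev quotSub : Subgroup (Γ ⧸ W) := U.map (QuotientGroup.mk' W)

/-- `(C^W)^(U/W) ≃ C^U`. -/
def dqLinearEquiv :
    ((C.quotientToInvariants W).quotientToInvariants (quotSub U W)).V ≃ₗ[k]
      (C.quotientToInvariants U).V where
  toFun x := ⟨x.1.1, fun g => by
    have h1 := x.2 ⟨QuotientGroup.mk' W g.1, ⟨g.1, g.2, rfl⟩⟩
    exact congrArg Subtype.val h1⟩
  map_add' _ _ := rfl
  map_smul' _ _ := rfl
  invFun y := ⟨⟨y.1, fun g => y.2 ⟨g.1, h g.2⟩⟩, fun s => by
    obtain ⟨s, g, hg, rfl⟩ := s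
    apply Subtype.ext
    exact y.2 ⟨g, hg⟩⟩
  left_inv _ := rfl
  right_inv _ := rfl

theorem dqLinearEquiv_comm
    (g : (Γ ⧸ W) ⧸ quotSub U W) :
    (dqLinearEquiv C U W h).toLinearMap ∘ₗ
        ((C.quotientToInvariants W).quotientToInvariants (quotSub U W)).ρ g =
      (C.quotientToInvariants U).ρ (QuotientGroup.quotientQuotientEquivQuotient W U h g) ∘ₗ
        (dqLinearEquiv C U W h).toLinearMap := by
  induction g using QuotientGroup.induction_on with
  | H g =>
    induction g using QuotientGroup.induction_on with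
    | H g =>
      ext x
      rfl

/-- `Hⁿ((Γ/W)/(U/W), (C^W)^(U/W)) ≅ Hⁿ(Γ/U, C^U)`. -/
def dqIso (n : ℕ) :
    groupCohomology ((C.quotientToInvariants W).quotientToInvariants (quotSub U W)) n ≅
      groupCohomology (C.quotientToInvariants U) n :=
  groupCohomology.mapIso (QuotientGroup.quotientQuotientEquivQuotient W U h)
    (dqLinearEquiv C U W h) (dqLinearEquiv_comm C U W h) n

/-- Compatibility of the double-quotient isomorphism with inflation. -/
theorem dqIso_hom_comp_infLevel (n : ℕ) :
    (dqIso C U W h n).hom ≫ infLevel C U W h n =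
      infTop (C.quotientToInvariants W) (quotSub U W) n := by
  unfold dqIso infLevel infTop
  simp only [groupCohomology.mapIso_hom]
  rw [← groupCohomology.map_comp]
  refine groupCohomology.map_congr ?_ ?_ n
  · ext x
    rfl
  · rfl

end DoubleQuotient

end Fermat.Agent.CFT.H15
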