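import Mathlib
import Fermat.Agent.CFT.H91_Formation

set_option autoImplicit false

/-!
# The abstract "ugly lemma"

Pure group cohomology: if `NF, NE` are normal subgroups of `G`, `u ∈ H²(G/NE, A^NE)` has order `n`,
the inflation of `u` to `G` restricts to zero on `NF`, inflation–restriction is exact for `NF`,
and `H²(G/NF, A^NF)` has at most `n` elements, then `H²(G/NF, A^NF)` is cyclic of order `n`,
generated by the unique class `γ` whose inflation to `G` equals that of `u`.
-/

open CategoryTheory

noncomputable section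

namespace Fermat.Agent.CFT.H15

variable {k : Type} [CommRing k] {G : Type} [Group G]

/-- Inflation–restriction exactness in degree `2` for the pair `(A, S)`, as a predicate. -/
def InfRes2 (A : Rep.{0} k G) (S : Subgroup G) [S.Normal] : Prop :=
  Function.Injective (infTop A S 2).hom ∧
    ∀ x : groupCohomology A 2, (resSub A S 2).hom x = 0 → ∃ y, (infTop A S 2).hom y = x

theorem addOrderOf_map_of_injective {M N : Type*} [AddCommGroup M] [AddCommGroup N] [Module k M]
    [Module k N] (f : M →ₗ[k] N) (hf : Function.Injective f) (x : M) :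
    addOrderOf (f x) = addOrderOf x :=
  addOrderOf_injective f.toAddMonoidHom hf x

/-- A finite additive group with at most `n` elements containing an element of order `n` is
generated by it. -/
theorem exists_zsmul_of_addOrderOf_eq {M : Type*} [AddCommGroup M] [Finite M] {n : ℕ}
    (γ : M) (hγ : addOrderOf γ = n) (hcard : Nat.card M ≤ n) :
    (∀ x : M, ∃ m : ℤ, x = m • γ) ∧ Nat.card M = n := by
  have h1 : Nat.card (AddSubgroup.zmultiples γ) = n := by
    rw [Nat.card_zmultiples, hγ]
  have h2 : Nat.card (AddSubgroup.zmultiples γ) ≤ Nat.card M :=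
    Nat.card_le_card_of_injective _ (AddSubgroup.zmultiples γ).subtype_injective
  have h3 : Nat.card M = n := le_antisymm hcard (h1 ▸ h2)
  have htop : AddSubgroup.zmultiples γ = ⊤ :=
    AddSubgroup.eq_top_of_card_eq _ (by rw [h1, h3])
  refine ⟨fun x => ?_, h3⟩
  have hx : x ∈ AddSubgroup.zmultiples γ := by rw [htop]; trivial
  obtain ⟨m, hm⟩ := AddSubgroup.mem_zmultiples_iff.1 hx
  exact ⟨m, hm.symm⟩

/-- **Abstract ugly lemma.** -/
theorem ugly (A : Rep.{0} k G) (NF NE : Subgroup G) [NF.Normal] [NE.Normal]
    (hF : InfRes2 A NF) (hE : Function.Injective (infTop A NE 2).hom)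
    (u : groupCohomology (A.quotientToInvariants NE) 2) {n : ℕ} (hu : addOrderOf u = n)
    (hres : (resSub A NF 2).hom ((infTop A NE 2).hom u) = 0)
    [Finite (groupCohomology (A.quotientToInvariants NF) 2)]
    (hcard : Nat.card (groupCohomology (A.quotientToInvariants NF) 2) ≤ n) :
    ∃ γ : groupCohomology (A.quotientToInvariants NF) 2,
      (infTop A NF 2).hom γ = (infTop A NE 2).hom u ∧ addOrderOf γ = n ∧
      (∀ x : groupCohomology (A.quotientToInvariants NF) 2, ∃ m : ℤ, x = m • γ) ∧
      Nat.card (groupCohomology (A.quotientToInvariants NF) 2) = n ∧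
      ∀ γ' : groupCohomology (A.quotientToInvariants NF) 2,
        (infTop A NF 2).hom γ' = (infTop A NE 2).hom u → γ' = γ := by
  obtain ⟨γ, hγ⟩ := hF.2 _ hres
  have hord : addOrderOf γ = n := by
    have h1 : addOrderOf ((infTop A NF 2).hom γ) = addOrderOf γ :=
      addOrderOf_injective ((infTop A NF 2).hom : _ →ₗ[k] _).toAddMonoidHom hF.1 γ
    have h2 : addOrderOf ((infTop A NE 2).hom u) = addOrderOf u :=
      addOrderOf_injective ((infTop A NE 2).hom : _ →ₗ[k] _).toAddMonoidHom hE u
    rw [← h1, hγ, h2, hu]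
  obtain ⟨hgen, hc⟩ := exists_zsmul_of_addOrderOf_eq γ hord hcard
  exact ⟨γ, hγ, hord, hgen, hc, fun γ' hγ' => hF.1 (hγ'.trans hγ.symm)⟩

end Fermat.Agent.CFT.H15
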