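import Mathlib
import Fermat.Agent.CFT.H15_Ugly
import Fermat.Agent.CFT.H15_InfLevel

set_option autoImplicit false

/-!
# The ugly lemma in the level vocabulary (`infLevel`)
-/

open CategoryTheory groupCohomology

noncomputable section

namespace Fermat.Agent.CFT.H15

variable {k : Type} [CommRing k] {Γ : Type} [Group Γ]

section

variable (C : Rep.{0} k Γ) (U W : Subgroup Γ) [U.Normal] [W.Normal] (h : W ≤ U)

theorem infTop_quot_apply (n : ℕ)
    (x : groupCohomology ((C.quotientToInvariants W).quotientToInvariants (quotSub U W)) n) :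
    (infTop (C.quotientToInvariants W) (quotSub U W) n).hom x =
      (infLevel C U W h n).hom ((dqIso C U W h n).hom.hom x) := by
  rw [← dqIso_hom_comp_infLevel C U W h n]
  rfl

theorem infLevel_apply_eq (n : ℕ) (y : groupCohomology (C.quotientToInvariants U) n) :
    (infLevel C U W h n).hom y =
      (infTop (C.quotientToInvariants W) (quotSub U W) n).hom ((dqIso C U W h n).inv.hom y) := by
  rw [infTop_quot_apply C U W h n]
  congr 1
  exact (congrArg (fun f => f.hom y) (dqIso C U W h n).inv_hom_id).symm

/-- Injectivity of `infLevel` from inflation–restriction for `(C^W, U/W)`. -/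
theorem infLevel_injective_of_infRes2 (hIR : InfRes2 (C.quotientToInvariants W) (quotSub U W)) :
    Function.Injective (infLevel C U W h 2).hom := by
  intro y y' hyy'
  rw [infLevel_apply_eq, infLevel_apply_eq] at hyy'
  have h1 := hIR.1 hyy'
  have h2 := congrArg (fun z => (dqIso C U W h 2).hom.hom z) h1
  have e1 : (dqIso C U W h 2).hom.hom ((dqIso C U W h 2).inv.hom y) = y :=
    congrArg (fun f => f.hom y) (dqIso C U W h 2).inv_hom_id
  have e2 : (dqIso C U W h 2).hom.hom ((dqIso C U W h 2).inv.hom y') = y' :=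
    congrArg (fun f => f.hom y') (dqIso C U W h 2).inv_hom_id
  rw [e1, e2] at h2
  exact h2

end

/-- **Ugly lemma, level form.** `U, E, W` normal subgroups of `Γ` with `W ≤ U ⊓ E`. -/
theorem ugly_level (C : Rep.{0} k Γ) (U E W : Subgroup Γ) [U.Normal] [E.Normal] [W.Normal]
    (hWU : W ≤ U) (hWE : W ≤ E)
    (hU : InfRes2 (C.quotientToInvariants W) (quotSub U W))
    (hE : Function.Injective (infLevel C E W hWE 2).hom)
    (u : groupCohomology (C.quotientToInvariants E) 2) {n : ℕ} (hu : addOrderOf u = n)
    (hres : (resSub (C.quotientToInvariants W) (quotSub U W) 2).hom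
      ((infLevel C E W hWE 2).hom u) = 0)
    [Finite (groupCohomology (C.quotientToInvariants U) 2)]
    (hcard : Nat.card (groupCohomology (C.quotientToInvariants U) 2) ≤ n) :
    ∃ γ : groupCohomology (C.quotientToInvariants U) 2,
      (infLevel C U W hWU 2).hom γ = (infLevel C E W hWE 2).hom u ∧ addOrderOf γ = n ∧
      (∀ x : groupCohomology (C.quotientToInvariants U) 2, ∃ m : ℤ, x = m • γ) ∧
      Nat.card (groupCohomology (C.quotientToInvariants U) 2) = n := by
  -- exactness: the class `infLevel u` restricts to zero on `U/W`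
  obtain ⟨γ', hγ'⟩ := hU.2 _ hres
  set γ := (dqIso C U W hWU 2).hom.hom γ' with hγdef
  have hγ : (infLevel C U W hWU 2).hom γ = (infLevel C E W hWE 2).hom u := by
    rw [hγdef, ← infTop_quot_apply C U W hWU 2 γ', hγ']
  have hinjU := infLevel_injective_of_infRes2 C U W hWU hU
  have hord : addOrderOf γ = n := by
    have h1 : addOrderOf ((infLevel C U W hWU 2).hom γ) = addOrderOf γ :=
      addOrderOf_injective ((infLevel C U W hWU 2).hom : _ →ₗ[k] _).toAddMonoidHom hinjU γ
    have h2 : addOrderOf ((infLevel C E W hWE 2).hom u) = addOrderOf u :=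
      addOrderOf_injective ((infLevel C E W hWE 2).hom : _ →ₗ[k] _).toAddMonoidHom hE u
    rw [← h1, hγ, h2, hu]
  obtain ⟨hgen, hc⟩ := exists_zsmul_of_addOrderOf_eq γ hord hcard
  exact ⟨γ, hγ, hord, hgen, hc⟩

end Fermat.Agent.CFT.H15
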