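import Mathlib
import Fermat.Agent.CFT.H15_UglyLevel

set_option autoImplicit false

/-!
# CFT / C-FORM : a `p`-class formation from a cyclic `p`-tower (helper12)

Pure group cohomology; `p`-primary analogue of `H15.UnrSystem.classFormation`.

`PTowerSystem p 𝓛 C` packages: a tower of normal levels `E k` of index `p ^ k` with classes `u k`
compatible under inflation, inflation–restriction for normal levels `W ≤ U` with `U/W` a
`p`-group, the fact that inflation does not lower the order of the `u k`, and the key vanishing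
`res_{U/(U ⊓ E a)} (inf (u a)) = 0`, `p ^ a` the exact power of `p` dividing `[Γ : U]`.

Output: `PTowerSystem.pClassFormation : PClassFormation p 𝓛 C`, whose fundamental class at a normal
level `U` has order `p ^ a` and is normalised so that `inf (fund U) = [U : V] • fund V`.
-/

open CategoryTheory groupCohomology

noncomputable section

namespace Fermat.Agent.CFT.H12

open Fermat.Agent.CFT.H15

variable {k : Type} [CommRing k] {Γ : Type} [Group Γ]

/-- `U/(U ⊓ E)` is a `p`-group when `Γ/E` has `p`-power order. -/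
theorem isPGroup_quotSub_inf {p : ℕ} (U E : Subgroup Γ) [U.Normal] [E.Normal] {n : ℕ}
    (hE : E.index = p ^ n) : IsPGroup p (quotSub U (U ⊓ E)) := by
  rintro ⟨x, g, hg, rfl⟩
  refine ⟨n, ?_⟩
  apply Subtype.ext
  change (QuotientGroup.mk' (U ⊓ E) g) ^ p ^ n = 1
  rw [← map_pow, QuotientGroup.mk'_apply, QuotientGroup.eq_one_iff]
  refine ⟨U.pow_mem hg _, ?_⟩
  change g ^ p ^ n ∈ E
  rw [← QuotientGroup.eq_one_iff, QuotientGroup.mk_pow, ← hE, Subgroup.index_eq_card]
  exact pow_card_eq_one'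

/-- Existence part of the ugly lemma (no finiteness needed). -/
theorem exists_infLevel_eq (C : Rep.{0} k Γ) (U W : Subgroup Γ) [U.Normal] [W.Normal]
    (hWU : W ≤ U) (hU : InfRes2 (C.quotientToInvariants W) (quotSub U W))
    (x : groupCohomology (C.quotientToInvariants W) 2)
    (hres : (resSub (C.quotientToInvariants W) (quotSub U W) 2).hom x = 0) :
    ∃ γ : groupCohomology (C.quotientToInvariants U) 2, (infLevel C U W hWU 2).hom γ = x := by
  obtain ⟨γ', hγ'⟩ := hU.2 _ hres
  refine ⟨(dqIso C U W hWU 2).hom.hom γ', ?_⟩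
  rw [← infTop_quot_apply C U W hWU 2 γ', hγ']

/-- **Criterion.**  A class whose order is the full power of `p` dividing `|G|` makes `A` a
`p`-class module, given `H¹ = 0` and `|H²| ∣ |H|` on `p`-subgroups and the weak transfer property
`res_H x = 0 → [G : H] • x = 0` for Mathlib's restriction. -/
theorem isPClassModule_of_addOrderOf {G : Type} [Group G] [Finite G] {p : ℕ} (hp : p.Prime)
    (A : Rep.{0} k G) (γ : groupCohomology A 2)
    (hγ : addOrderOf γ = p ^ ((Nat.card G).factorization p))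
    (h1 : ∀ H : Subgroup G, IsPGroup p H →
      Subsingleton (groupCohomology (Rep.res H.subtype A) 1))
    (h2 : ∀ H : Subgroup G, IsPGroup p H →
      Finite (groupCohomology (Rep.res H.subtype A) 2) ∧
        Nat.card (groupCohomology (Rep.res H.subtype A) 2) ∣ Nat.card H)
    (htr : ∀ (H : Subgroup G) (x : groupCohomology A 2),
      (resSub A H 2).hom x = 0 → H.index • x = 0) :
    IsPClassModule p A γ := by
  have := Fact.mk hp
  have hord : ∀ H : Subgroup G, IsPGroup p H →
      addOrderOf ((resSub A H 2).hom γ) = Nat.card H := by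
    intro H hH
    obtain ⟨hfin, hcard⟩ := h2 H hH
    obtain ⟨b, hb⟩ := IsPGroup.iff_card.mp hH
    set y := (resSub A H 2).hom γ with hy
    have hyd : addOrderOf y ∣ p ^ b := by
      rw [← hb]; exact (addOrderOf_dvd_natCard y).trans hcard
    obtain ⟨c, hcb, hc⟩ := (Nat.dvd_prime_pow hp).mp hyd
    have h0 : (p ^ c) • y = 0 := by rw [← hc]; exact addOrderOf_nsmul_eq_zero y
    have h3 : (resSub A H 2).hom ((p ^ c) • γ) = 0 := by rw [map_nsmul]; exact h0
    have h4 := htr H _ h3
    rw [smul_smul] at h4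
    have h5 : p ^ ((Nat.card G).factorization p) ∣ H.index * p ^ c := by
      rw [← hγ]; exact addOrderOf_dvd_of_nsmul_eq_zero h4
    have hidx : H.index ≠ 0 := Subgroup.index_ne_zero_of_finite
    have hmul : Nat.card H * H.index = Nat.card G := Subgroup.card_mul_index H
    have hfac : (Nat.card G).factorization p = b + H.index.factorization p := by
      rw [← hmul, Nat.factorization_mul Nat.card_pos.ne' hidx, hb]
      simp [hp.factorization_pow]
    have h6 : (Nat.card G).factorization p ≤ (H.index * p ^ c).factorization p :=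
      (hp.pow_dvd_iff_le_factorization (mul_ne_zero hidx (pow_ne_zero _ hp.ne_zero))).mp h5
    rw [Nat.factorization_mul hidx (pow_ne_zero _ hp.ne_zero)] at h6
    have h7 : (p ^ c).factorization p = c := by simp [hp.factorization_pow]
    simp only [Finsupp.coe_add, Pi.add_apply] at h6
    rw [h7, hfac] at h6
    have : c = b := by omega
    rw [hc, this, hb]
  refine ⟨h1, fun H hH x => ?_, hord⟩
  obtain ⟨hfin, hcard⟩ := h2 H hH
  exact (exists_zsmul_of_addOrderOf_eq _ (hord H hH)
    (Nat.le_of_dvd Nat.card_pos hcard)).1 x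

/-- The hypotheses: a cyclic `p`-tower system for `(𝓛, C)`. -/
structure PTowerSystem (p : ℕ) (𝓛 : LevelStructure Γ) (C : Rep.{0} k Γ) where
  prime : p.Prime
  /-- the tower levels -/
  E : ℕ → Subgroup Γ
  [normal : ∀ n, (E n).Normal]
  mem : ∀ n, E n ∈ 𝓛.levels
  index : ∀ n, (E n).index = p ^ n
  anti : ∀ {n m : ℕ}, n ≤ m → E m ≤ E n
  inter_mem : ∀ (U : Subgroup Γ) [U.Normal], U ∈ 𝓛.levels → ∀ n, U ⊓ E n ∈ 𝓛.levels
  /-- inflation–restriction between normal levels with `p`-group quotient -/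
  infRes : ∀ (U W : Subgroup Γ) [U.Normal] [W.Normal], U ∈ 𝓛.levels → W ∈ 𝓛.levels → W ≤ U →
    IsPGroup p (quotSub U W) → InfRes2 (C.quotientToInvariants W) (quotSub U W)
  /-- the tower classes -/
  u : ∀ n, groupCohomology (C.quotientToInvariants (E n)) 2
  inf_u : ∀ (n m : ℕ) (h : n ≤ m),
    (infLevel C (E n) (E m) (anti h) 2).hom (u n) = (p ^ (m - n)) • u m
  /-- inflation does not lower the order of the tower classes -/
  order_inf : ∀ (n : ℕ) (W : Subgroup Γ) [W.Normal], W ∈ 𝓛.levels → ∀ h : W ≤ E n,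
    addOrderOf ((infLevel C (E n) W h 2).hom (u n)) = p ^ n
  /-- the key vanishing -/
  key : ∀ (U : Subgroup Γ) [U.Normal], U ∈ 𝓛.levels →
    (resSub (C.quotientToInvariants (U ⊓ E (U.index.factorization p)))
      (quotSub U (U ⊓ E (U.index.factorization p))) 2).hom
      ((infLevel C (E (U.index.factorization p)) (U ⊓ E (U.index.factorization p))
        inf_le_right 2).hom (u (U.index.factorization p))) = 0

attribute [instance] PTowerSystem.normal

namespace PTowerSystem

variable {p : ℕ} {𝓛 : LevelStructure Γ} {C : Rep.{0} k Γ} (S : PTowerSystem p 𝓛 C)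

/-- The exponent of `p` in the index of `U`. -/
abbrev ex (_S : PTowerSystem p 𝓛 C) (U : Subgroup Γ) : ℕ := U.index.factorization p

/-- The auxiliary level `U ⊓ E a`. -/
abbrev W (U : Subgroup Γ) : Subgroup Γ := U ⊓ S.E (S.ex U)

theorem W_mem (U : Subgroup Γ) [U.Normal] (hU : U ∈ 𝓛.levels) : S.W U ∈ 𝓛.levels :=
  S.inter_mem U hU _

theorem isPGroup_quot (U : Subgroup Γ) [U.Normal] : IsPGroup p (quotSub U (S.W U)) :=
  isPGroup_quotSub_inf U (S.E (S.ex U)) (S.index _)

theorem infRes_W (U : Subgroup Γ) [U.Normal] (hU : U ∈ 𝓛.levels) :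
    InfRes2 (C.quotientToInvariants (S.W U)) (quotSub U (S.W U)) :=
  S.infRes U (S.W U) hU (S.W_mem U hU) inf_le_left (S.isPGroup_quot U)

theorem exists_gamma (U : Subgroup Γ) [U.Normal] (hU : U ∈ 𝓛.levels) :
    ∃ γ : groupCohomology (C.quotientToInvariants U) 2,
      (infLevel C U (S.W U) inf_le_left 2).hom γ =
        (infLevel C (S.E (S.ex U)) (S.W U) inf_le_right 2).hom (S.u (S.ex U)) ∧
      addOrderOf γ = p ^ S.ex U := by
  obtain ⟨γ, hγ⟩ := exists_infLevel_eq C U (S.W U) inf_le_left (S.infRes_W U hU) _ (S.key U hU)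
  refine ⟨γ, hγ, ?_⟩
  have hinj := infLevel_injective_of_infRes2 C U (S.W U) inf_le_left (S.infRes_W U hU)
  have h1 : addOrderOf ((infLevel C U (S.W U) inf_le_left 2).hom γ) = addOrderOf γ :=
    addOrderOf_injective ((infLevel C U (S.W U) inf_le_left 2).hom : _ →ₗ[k] _).toAddMonoidHom
      hinj γ
  rw [← h1, hγ]
  exact S.order_inf _ (S.W U) (S.W_mem U hU) inf_le_right

/-- The unnormalised fundamental class at a normal level. -/
def gamma (U : Subgroup Γ) (hU : U ∈ 𝓛.levels) [U.Normal] :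
    groupCohomology (C.quotientToInvariants U) 2 :=
  (S.exists_gamma U hU).choose

theorem infLevel_gamma (U : Subgroup Γ) (hU : U ∈ 𝓛.levels) [U.Normal] :
    (infLevel C U (S.W U) inf_le_left 2).hom (S.gamma U hU) =
      (infLevel C (S.E (S.ex U)) (S.W U) inf_le_right 2).hom (S.u (S.ex U)) :=
  (S.exists_gamma U hU).choose_spec.1

theorem addOrderOf_gamma (U : Subgroup Γ) (hU : U ∈ 𝓛.levels) [U.Normal] :
    addOrderOf (S.gamma U hU) = p ^ S.ex U :=
  (S.exists_gamma U hU).choose_spec.2

theorem index_ne_zero {U : Subgroup Γ} (hU : U ∈ 𝓛.levels) : U.index ≠ 0 :=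
  (𝓛.finiteIndex U hU).index_ne_zero

/-- Compatibility of the unnormalised classes with inflation. -/
theorem infLevel_gamma_eq (U V : Subgroup Γ) (hU : U ∈ 𝓛.levels) (hV : V ∈ 𝓛.levels) [U.Normal]
    [V.Normal] (h : V ≤ U) (hab : S.ex U ≤ S.ex V) :
    (infLevel C U V h 2).hom (S.gamma U hU) = (p ^ (S.ex V - S.ex U)) • S.gamma V hV := by
  have hWVU : S.W V ≤ S.W U := inf_le_inf h (S.anti hab)
  have hWV : S.W V ∈ 𝓛.levels := S.W_mem V hV
  have hinj := infLevel_injective_of_infRes2 C V (S.W V) inf_le_left (S.infRes_W V hV)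
  apply hinj
  -- left-hand side
  have e1 : (infLevel C V (S.W V) inf_le_left 2).hom ((infLevel C U V h 2).hom (S.gamma U hU)) =
      (infLevel C U (S.W V) (hWVU.trans inf_le_left) 2).hom (S.gamma U hU) := by
    rw [← infLevel_comp C U V (S.W V) h inf_le_left 2]; rfl
  have e2 : (infLevel C U (S.W V) (hWVU.trans inf_le_left) 2).hom (S.gamma U hU) =
      (infLevel C (S.W U) (S.W V) hWVU 2).hom
        ((infLevel C U (S.W U) inf_le_left 2).hom (S.gamma U hU)) := by
    rw [← infLevel_comp C U (S.W U) (S.W V) inf_le_left hWVU 2]; rfl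
  have e3 : (infLevel C (S.W U) (S.W V) hWVU 2).hom
      ((infLevel C (S.E (S.ex U)) (S.W U) inf_le_right 2).hom (S.u (S.ex U))) =
      (infLevel C (S.E (S.ex U)) (S.W V) (hWVU.trans inf_le_right) 2).hom (S.u (S.ex U)) := by
    rw [← infLevel_comp C (S.E (S.ex U)) (S.W U) (S.W V) inf_le_right hWVU 2]; rfl
  have e4 : (infLevel C (S.E (S.ex U)) (S.W V) (hWVU.trans inf_le_right) 2).hom (S.u (S.ex U)) =
      (infLevel C (S.E (S.ex V)) (S.W V) inf_le_right 2).hom
        ((infLevel C (S.E (S.ex U)) (S.E (S.ex V)) (S.anti hab) 2).hom (S.u (S.ex U))) := by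
    rw [← infLevel_comp C (S.E (S.ex U)) (S.E (S.ex V)) (S.W V) (S.anti hab) inf_le_right 2]; rfl
  rw [e1, e2, S.infLevel_gamma U hU, e3, e4, S.inf_u _ _ hab, map_nsmul, map_nsmul,
    S.infLevel_gamma V hV]

/-! ### Normalisation by the prime-to-`p` part of the index -/

theorem exists_coeff (U : Subgroup Γ) (hU : U ∈ 𝓛.levels) :
    ∃ c t : ℤ, c * (ordCompl[p] U.index : ℕ) + t * ((p ^ S.ex U : ℕ) : ℤ) = 1 := by
  have hcop : Nat.Coprime (ordCompl[p] U.index) (p ^ S.ex U) :=
    (Nat.Coprime.pow_left _ (Nat.coprime_ordCompl S.prime (index_ne_zero hU))).symm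
  exact Nat.isCoprime_iff_coprime.mpr hcop

/-- The normalising coefficient: an inverse of the prime-to-`p` part of `[Γ : U]` modulo
`p ^ a`. -/
def coeff (U : Subgroup Γ) (hU : U ∈ 𝓛.levels) : ℤ := (S.exists_coeff U hU).choose

theorem coeff_spec (U : Subgroup Γ) (hU : U ∈ 𝓛.levels) :
    ∃ t : ℤ, S.coeff U hU * (ordCompl[p] U.index : ℕ) + t * ((p ^ S.ex U : ℕ) : ℤ) = 1 :=
  (S.exists_coeff U hU).choose_spec

/-- The fundamental class at a normal level `U`. -/
def fund (U : Subgroup Γ) (hU : U ∈ 𝓛.levels) [U.Normal] :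
    groupCohomology (C.quotientToInvariants U) 2 :=
  S.coeff U hU • S.gamma U hU

theorem pow_smul_gamma (U : Subgroup Γ) (hU : U ∈ 𝓛.levels) [U.Normal] :
    ((p ^ S.ex U : ℕ) : ℤ) • S.gamma U hU = 0 := by
  rw [natCast_zsmul, ← S.addOrderOf_gamma U hU]
  exact addOrderOf_nsmul_eq_zero _

theorem ordCompl_smul_fund (U : Subgroup Γ) (hU : U ∈ 𝓛.levels) [U.Normal] :
    ((ordCompl[p] U.index : ℕ) : ℤ) • S.fund U hU = S.gamma U hU := by
  obtain ⟨t, ht⟩ := S.coeff_spec U hU
  unfold fund
  rw [smul_smul]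
  have h1 : ((ordCompl[p] U.index : ℕ) : ℤ) * S.coeff U hU = 1 - t * ((p ^ S.ex U : ℕ) : ℤ) := by
    linear_combination ht
  rw [h1, sub_smul, one_smul, mul_smul, S.pow_smul_gamma U hU, smul_zero, sub_zero]

theorem addOrderOf_fund (U : Subgroup Γ) (hU : U ∈ 𝓛.levels) [U.Normal] :
    addOrderOf (S.fund U hU) = p ^ S.ex U := by
  apply Nat.dvd_antisymm
  · apply addOrderOf_dvd_of_nsmul_eq_zero
    unfold fund
    rw [← natCast_zsmul, smul_comm, S.pow_smul_gamma U hU, smul_zero]
  · rw [← S.addOrderOf_gamma U hU]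
    apply addOrderOf_dvd_of_nsmul_eq_zero
    rw [← S.ordCompl_smul_fund U hU, smul_comm, natCast_zsmul, addOrderOf_nsmul_eq_zero,
      smul_zero]

theorem ex_le_ex {U V : Subgroup Γ} (hV : V ∈ 𝓛.levels) (h : V ≤ U) : S.ex U ≤ S.ex V := by
  have hdvd : U.index ∣ V.index := Subgroup.index_dvd_of_le h
  exact (Nat.factorization_le_iff_dvd (fun h0 => index_ne_zero hV (by
    rw [h0] at hdvd; exact Nat.eq_zero_of_zero_dvd hdvd)) (index_ne_zero hV)).mpr hdvd p

/-- Compatibility of the fundamental classes with inflation. -/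
theorem infLevel_fund_eq (U V : Subgroup Γ) (hU : U ∈ 𝓛.levels) (hV : V ∈ 𝓛.levels) [U.Normal]
    [V.Normal] (h : V ≤ U) :
    (infLevel C U V h 2).hom (S.fund U hU) = (V.relIndex U) • S.fund V hV := by
  have hab : S.ex U ≤ S.ex V := S.ex_le_ex hV h
  have hrel : V.relIndex U * U.index = V.index := Subgroup.relIndex_mul_index h
  have hU0 := index_ne_zero hU
  have hV0 := index_ne_zero hV
  have hr0 : V.relIndex U ≠ 0 := by
    intro h0; rw [h0, zero_mul] at hrel; exact hV0 hrel.symm
  -- factorisations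
  have hfac : S.ex V = (V.relIndex U).factorization p + S.ex U := by
    change V.index.factorization p = _
    rw [← hrel, Nat.factorization_mul hr0 hU0]; rfl
  have hcompl : ordCompl[p] V.index = ordCompl[p] (V.relIndex U) * ordCompl[p] U.index := by
    rw [← hrel, Nat.ordCompl_mul]
  have hproj : ordProj[p] (V.relIndex U) * ordCompl[p] (V.relIndex U) = V.relIndex U :=
    Nat.ordProj_mul_ordCompl_eq_self _ _
  have hD : p ^ (S.ex V - S.ex U) = ordProj[p] (V.relIndex U) := by
    rw [hfac, Nat.add_sub_cancel]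
  obtain ⟨tU, htU⟩ := S.coeff_spec U hU
  obtain ⟨tV, htV⟩ := S.coeff_spec V hV
  -- abbreviations
  set D : ℕ := ordProj[p] (V.relIndex U) with hDdef
  set s : ℕ := ordCompl[p] (V.relIndex U) with hsdef
  set mU : ℕ := ordCompl[p] U.index with hmU
  set mV : ℕ := ordCompl[p] V.index with hmV
  set A : ℕ := p ^ S.ex U with hA
  set B : ℕ := p ^ S.ex V with hB
  set cU := S.coeff U hU with hcU
  set cV := S.coeff V hV with hcV
  have hBA : B = D * A := by
    rw [hB, hA, hDdef, hfac, pow_add]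
  -- `A ∣ cU - s * cV`
  have hdiv : (A : ℤ) ∣ cU - (s : ℤ) * cV := by
    have hcop : IsCoprime (A : ℤ) (mU : ℤ) := ⟨tU, cU, by linear_combination htU⟩
    apply hcop.dvd_of_dvd_mul_left
    refine ⟨-tU + tV * (D : ℤ), ?_⟩
    have hmVc : (mV : ℤ) = (s : ℤ) * (mU : ℤ) := by exact_mod_cast hcompl
    have hBAc : (B : ℤ) = (D : ℤ) * (A : ℤ) := by exact_mod_cast hBA
    rw [hmVc] at htV
    rw [hBAc] at htV
    linear_combination htU - htV
  obtain ⟨w, hw⟩ := hdiv
  -- the computation
  unfold fund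
  rw [map_zsmul, S.infLevel_gamma_eq U V hU hV h hab, hD]
  have hBg : (B : ℤ) • S.gamma V hV = 0 := S.pow_smul_gamma V hV
  have key : cU * (D : ℤ) - ((V.relIndex U : ℕ) : ℤ) * cV = w * (B : ℤ) := by
    have hrc : ((V.relIndex U : ℕ) : ℤ) = (D : ℤ) * (s : ℤ) := by exact_mod_cast hproj.symm
    have hBAc : (B : ℤ) = (D : ℤ) * (A : ℤ) := by exact_mod_cast hBA
    rw [hrc, hBAc]
    linear_combination (D : ℤ) * hw
  rw [← natCast_zsmul (S.gamma V hV) D, smul_smul, ← natCast_zsmul (cV • S.gamma V hV), smul_smul,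
    ← sub_eq_zero, ← sub_smul, key, mul_smul, hBg, smul_zero]

/-- **The `p`-class formation attached to a cyclic `p`-tower system.** -/
def pClassFormation (hdisc : 𝓛.IsDiscrete C)
    (hcrit : ∀ (U : Subgroup Γ) [U.Normal], U ∈ 𝓛.levels →
      ∀ γ : groupCohomology (C.quotientToInvariants U) 2,
        addOrderOf γ = p ^ (U.index.factorization p) →
        IsPClassModule p (C.quotientToInvariants U) γ) :
    PClassFormation p 𝓛 C where
  discrete := hdisc
  fund U hU _ := S.fund U hU
  isClass U hU _ := hcrit U hU _ (S.addOrderOf_fund U hU)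
  inf_fund U V hU hV _ _ h H _ := by
    rw [S.infLevel_fund_eq U V hU hV h, map_nsmul]

/-- Variant of `pClassFormation` with the criterion unfolded into its primitive inputs:
`H¹ = 0` and `|H²| ∣ |H|` on `p`-subgroups of `Γ/U`, and the weak transfer property for Mathlib's
restriction. -/
def pClassFormation' (hdisc : 𝓛.IsDiscrete C)
    (h1 : ∀ (U : Subgroup Γ) [U.Normal], U ∈ 𝓛.levels → ∀ H : Subgroup (Γ ⧸ U), IsPGroup p H →
      Subsingleton (groupCohomology (Rep.res H.subtype (C.quotientToInvariants U)) 1))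
    (h2 : ∀ (U : Subgroup Γ) [U.Normal], U ∈ 𝓛.levels → ∀ H : Subgroup (Γ ⧸ U), IsPGroup p H →
      Finite (groupCohomology (Rep.res H.subtype (C.quotientToInvariants U)) 2) ∧
        Nat.card (groupCohomology (Rep.res H.subtype (C.quotientToInvariants U)) 2) ∣ Nat.card H)
    (htr : ∀ (U : Subgroup Γ) [U.Normal], U ∈ 𝓛.levels → ∀ (H : Subgroup (Γ ⧸ U))
      (x : groupCohomology (C.quotientToInvariants U) 2),
      (resSub (C.quotientToInvariants U) H 2).hom x = 0 → H.index • x = 0) :
    PClassFormation p 𝓛 C :=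
  S.pClassFormation hdisc (fun U _ hU γ hγ => by
    have := 𝓛.finiteIndex U hU
    have hcard : Nat.card (Γ ⧸ U) = U.index := (Subgroup.index_eq_card U).symm
    exact isPClassModule_of_addOrderOf S.prime _ γ (by rw [hcard]; exact hγ)
      (h1 U hU) (h2 U hU) (htr U hU))

end PTowerSystem

end Fermat.Agent.CFT.H12
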