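/-
CFT project, layer C, INTEGRATION (helper24): the top of the layer-C chain.

From
* a cyclic `p`-tower system `T : H12.PTowerSystem p 𝓛 C` (helper12, C-FORM),
* for every normal level `U` the dévissage hypothesis `H40.PPrimeLayers p (C^U)` (helper40),
  possibly after transport along a pair equivalence `(Γ/U, C^U) ≃ (G, B)` (helper43),
we get `PClassFormation p 𝓛 C`.

Pure group cohomology; nothing arithmetic in this file.
-/
import Mathlib
import Fermat.Agent.CFT.H12_PTower
import Fermat.Agent.CFT.H40_DevissageLevel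
import Fermat.Agent.CFT.H43_Maps

set_option autoImplicit false

open CategoryTheory groupCohomology

noncomputable section

namespace Fermat.Agent.CFT.H24

open Fermat.Agent.CFT

variable {k : Type} [CommRing k]

/-! ### `H¹ = 0`, `|H²| ∣ |H|` on `p`-subgroups from the layers, and transport -/

/-- The conclusions of the `p`-dévissage, for all `p`-subgroups. -/
def PSubgroupBounds (p : ℕ) {G : Type} [Group G] (A : Rep.{0} k G) : Prop :=
  ∀ H : Subgroup G, IsPGroup p H →
    Subsingleton (groupCohomology (Rep.res H.subtype A) 1) ∧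
      (Finite (groupCohomology (Rep.res H.subtype A) 2) ∧
        Nat.card (groupCohomology (Rep.res H.subtype A) 2) ∣ Nat.card H)

/-- Dévissage: layers of degree `p` give the bounds on all `p`-subgroups. -/
theorem pSubgroupBounds_of_pPrimeLayers (p : ℕ) [Fact p.Prime] {G : Type} [Group G] [Finite G]
    (A : Rep.{0} k G) (hA : H40.PPrimeLayers p A) : PSubgroupBounds p A := by
  intro H hH
  obtain ⟨h1, h2⟩ := H40.devissage_pgroup p hH _ (hA.res H.subtype H.subtype_injective)
  refine ⟨h1, ?_, h2⟩
  refine Nat.finite_of_card_ne_zero (fun h0 => ?_)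
  rw [h0, zero_dvd_iff] at h2
  exact Nat.card_pos.ne' h2

/-- Transport of the bounds along a pair equivalence. -/
theorem PSubgroupBounds.of_pairEquiv {p : ℕ} {G G' : Type} [Group G] [Group G']
    {A : Rep.{0} k G} {A' : Rep.{0} k G'} (E : H43.PairEquiv A A')
    (h : PSubgroupBounds p A') : PSubgroupBounds p A := by
  intro H hH
  -- the subgroup of `G'` corresponding to `H`
  have hpull : E.symm.pullSub H = H.map (E.e : G →* G') := by
    ext x
    simp only [H43.PairEquiv.pullSub, Subgroup.mem_comap, Subgroup.mem_map]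
    constructor
    · intro hx
      exact ⟨E.e.symm x, hx, E.e.apply_symm_apply x⟩
    · rintro ⟨y, hy, rfl⟩
      change E.e.symm (E.e y) ∈ H
      rw [MulEquiv.symm_apply_apply]
      exact hy
  set H' : Subgroup G' := E.symm.pullSub H with hH'
  have hH'p : IsPGroup p H' := E.symm.isPGroup_pullSub H hH
  obtain ⟨h1, h2f, h2⟩ := h H' hH'p
  have P := E.symm.restrictPull H
  -- `P : PairEquiv (res H' A') (res H A)`
  have e1 := (P.cohIso 1).toLinearEquiv.toEquiv
  have e2 := (P.cohIso 2).toLinearEquiv.toEquiv
  refine ⟨e1.symm.subsingleton, ?_, ?_⟩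
  · exact Finite.of_equiv _ e2
  · rw [← Nat.card_congr e2, ← E.symm.natCard_pullSub H]
    exact h2

/-! ### The assembly -/

section Assembly

variable {Γ : Type} [Group Γ] {p : ℕ} {𝓛 : LevelStructure Γ} {C : Rep.{0} k Γ}

/-- **Top of the layer-C chain, bounds form.**  A cyclic `p`-tower system together with the
bounds `H¹ = 0`, `|H²| ∣ |H|` on the `p`-subgroups of every `Γ/U` (`U` a normal level) gives a
`p`-class formation.  The weak transfer property is `H40.index_nsmul_eq_zero_of_res_eq_zero`. -/
def pClassFormationOfBounds (T : H12.PTowerSystem p 𝓛 C) (hdisc : 𝓛.IsDiscrete C)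
    (hb : ∀ (U : Subgroup Γ) [U.Normal], U ∈ 𝓛.levels →
      PSubgroupBounds p (C.quotientToInvariants U)) :
    PClassFormation p 𝓛 C :=
  T.pClassFormation' hdisc
    (fun U _ hU H hH => (hb U hU H hH).1)
    (fun U _ hU H hH => (hb U hU H hH).2)
    (fun U _ hU H x hx => by
      have := 𝓛.finiteIndex U hU
      have : Finite (Γ ⧸ U) := Subgroup.finite_quotient_of_finiteIndex
      exact H40.index_nsmul_eq_zero_of_res_eq_zero 1 (C.quotientToInvariants U) H x hx)

/-- **Top of the layer-C chain, layer form.**  As `pClassFormationOfBounds`, with the bounds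
obtained by dévissage from the layers of degree `p`. -/
def pClassFormationOfLayers [Fact p.Prime] (T : H12.PTowerSystem p 𝓛 C) (hdisc : 𝓛.IsDiscrete C)
    (hlay : ∀ (U : Subgroup Γ) [U.Normal], U ∈ 𝓛.levels →
      H40.PPrimeLayers p (C.quotientToInvariants U)) :
    PClassFormation p 𝓛 C :=
  pClassFormationOfBounds T hdisc (fun U _ hU => by
    have := 𝓛.finiteIndex U hU
    have : Finite (Γ ⧸ U) := Subgroup.finite_quotient_of_finiteIndex
    exact pSubgroupBounds_of_pPrimeLayers p _ (hlay U hU))

/-- **Top of the layer-C chain, transported form.**  For every normal level `U` one is given a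
finite group `G U`, a `G U`-module `B U` with the layers of degree `p`, and a pair equivalence
`(Γ/U, C^U) ≃ (G U, B U)`.  In layer C: `G U = Gal(F/ℚ)`, `B U = H23.repCS S F ℚ` for the fixed
field `F` of `U`, the equivalence is the descent `(CS S)^U ≅ CS S F` of C-TOP. -/
def pClassFormationOfTransport [Fact p.Prime] (T : H12.PTowerSystem p 𝓛 C)
    (hdisc : 𝓛.IsDiscrete C)
    (hlev : ∀ (U : Subgroup Γ) [U.Normal], U ∈ 𝓛.levels →
      ∃ (G : Type) (_ : Group G) (_ : Finite G) (B : Rep.{0} k G),
        Nonempty (H43.PairEquiv (C.quotientToInvariants U) B) ∧ H40.PPrimeLayers p B) :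
    PClassFormation p 𝓛 C :=
  pClassFormationOfBounds T hdisc (fun U _ hU => by
    obtain ⟨G, _, _, B, ⟨E⟩, hB⟩ := hlev U hU
    exact (pSubgroupBounds_of_pPrimeLayers p B hB).of_pairEquiv E)

end Assembly

end Fermat.Agent.CFT.H24
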