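/-
CFT project, layer C, INTEGRATION (helper24): abstract descent data.

A *descent datum* for `C : Rep k Γ`, a normal subgroup `U`, and `B : Rep k G` is a group
isomorphism `Γ ⧸ U ≃* G` together with an injective linear map `ι : B → C` whose image is `C^U`
and which is equivariant.  It gives a pair equivalence `(Γ ⧸ U, C^U) ≃ (G, B)` (helper43's
`PairEquiv`), and a dictionary between norms (sums over cosets) on both sides.

In layer C: `Γ = G_ℚ`, `C = H77.repCSTop S`, `U = F.fixingSubgroup`, `G = Gal(F/ℚ)`,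
`B = H23.repCS S F ℚ`, `ι = csIncl F` (C-TOP).
-/
import Mathlib
import Fermat.Agent.CFT.H43_Maps

set_option autoImplicit false

open CategoryTheory

noncomputable section

namespace Fermat.Agent.CFT.H24

open Fermat.Agent.CFT

variable {k : Type} [CommRing k] {Γ G : Type} [Group Γ] [Group G]

/-- Descent datum: `(Γ ⧸ U, C^U)` is modelled by `(G, B)` through `ι : B → C`. -/
structure DescentDatum (C : Rep.{0} k Γ) (U : Subgroup Γ) [U.Normal] (B : Rep.{0} k G) where
  /-- the group isomorphism -/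
  e : Γ ⧸ U ≃* G
  /-- the inclusion of the finite-level module -/
  ι : B.V →ₗ[k] C.V
  inj : Function.Injective ι
  surj : ∀ c : C.V, (∀ u ∈ U, C.ρ u c = c) → ∃ b : B.V, ι b = c
  equiv : ∀ (γ : Γ) (b : B.V), C.ρ γ (ι b) = ι (B.ρ (e (QuotientGroup.mk γ)) b)

namespace DescentDatum

variable {C : Rep.{0} k Γ} {U : Subgroup Γ} [U.Normal] {B : Rep.{0} k G}
  (D : DescentDatum C U B)

/-- The image of `ι` consists of `U`-invariants. -/
theorem fixed (u : Γ) (hu : u ∈ U) (b : B.V) : C.ρ u (D.ι b) = D.ι b := by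
  rw [D.equiv, (QuotientGroup.eq_one_iff u).2 hu, map_one, map_one]
  rfl

/-- `ι` as a map into the invariants. -/
def toInv : B.V →ₗ[k] (C.quotientToInvariants U).V where
  toFun b := ⟨D.ι b, fun u => D.fixed u.1 u.2 b⟩
  map_add' a b := Subtype.ext (map_add D.ι a b)
  map_smul' c b := Subtype.ext (map_smul D.ι c b)

theorem toInv_coe (b : B.V) : ((D.toInv b : (C.quotientToInvariants U).V) : C.V) = D.ι b := rfl

theorem toInv_bijective : Function.Bijective D.toInv := by
  constructor
  · intro a b h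
    exact D.inj (congrArg Subtype.val h)
  · rintro ⟨c, hc⟩
    obtain ⟨b, hb⟩ := D.surj c (fun u hu => hc ⟨u, hu⟩)
    exact ⟨b, Subtype.ext hb⟩

/-- `B ≃ C^U`. -/
def invEquiv : B.V ≃ₗ[k] (C.quotientToInvariants U).V :=
  LinearEquiv.ofBijective D.toInv D.toInv_bijective

theorem invEquiv_coe (b : B.V) :
    ((D.invEquiv b : (C.quotientToInvariants U).V) : C.V) = D.ι b := rfl

/-- **The pair equivalence `(Γ ⧸ U, C^U) ≃ (G, B)` of a descent datum.** -/
def pairEquiv : H43.PairEquiv (C.quotientToInvariants U) B where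
  e := D.e
  φ := D.invEquiv.symm
  comm g a := by
    obtain ⟨b, rfl⟩ := D.invEquiv.surjective a
    rw [LinearEquiv.symm_apply_apply]
    apply D.invEquiv.injective
    rw [LinearEquiv.apply_symm_apply]
    induction g using QuotientGroup.induction_on with
    | H γ =>
      apply Subtype.ext
      change C.ρ γ (D.ι b) = D.ι (B.ρ (D.e (QuotientGroup.mk γ)) b)
      exact D.equiv γ b

theorem pairEquiv_symm_φ_coe (b : B.V) :
    ((D.pairEquiv.φ.symm b : (C.quotientToInvariants U).V) : C.V) = D.ι b := rfl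

theorem ι_pairEquiv_φ (a : (C.quotientToInvariants U).V) :
    D.ι (D.pairEquiv.φ a) = (a : C.V) := by
  obtain ⟨b, rfl⟩ := D.invEquiv.surjective a
  change D.ι (D.invEquiv.symm (D.invEquiv b)) = _
  rw [LinearEquiv.symm_apply_apply]
  rfl

/-! ### The norm dictionary -/

/-- Equivariance of the pair equivalence, elementwise. -/
theorem pairEquiv_φ_ρ (g : Γ ⧸ U) (a : (C.quotientToInvariants U).V) :
    D.pairEquiv.φ ((C.quotientToInvariants U).ρ g a) = B.ρ (D.e g) (D.pairEquiv.φ a) :=
  D.pairEquiv.comm g a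

/-- **Norm dictionary**: the sum over a subgroup `Q ≤ Γ ⧸ U` of the translates of `y ∈ C^U`
corresponds to the sum over the image of `Q` in `G` of the translates of the image of `y`. -/
theorem pairEquiv_φ_finsum [Finite (Γ ⧸ U)] (Q : Subgroup (Γ ⧸ U))
    (y : (C.quotientToInvariants U).V) :
    D.pairEquiv.φ (∑ᶠ x : Q, (C.quotientToInvariants U).ρ x.1 y) =
      ∑ᶠ h : Q.map (D.e : Γ ⧸ U →* G), B.ρ h.1 (D.pairEquiv.φ y) := by
  have hfin : (Function.support fun x : Q => (C.quotientToInvariants U).ρ x.1 y).Finite :=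
    Set.toFinite _
  rw [← LinearEquiv.coe_toLinearMap, ← LinearMap.toAddMonoidHom_coe,
    AddMonoidHom.map_finsum _ hfin]
  -- reindex along `Q ≃ Q.map e`
  let eQ : Q ≃ Q.map (D.e : Γ ⧸ U →* G) :=
    (D.e.subgroupMap Q).toEquiv
  refine finsum_eq_of_bijective eQ eQ.bijective (fun x => ?_)
  exact D.pairEquiv_φ_ρ x.1 y

/-- The full norm over `Γ ⧸ U` corresponds to the full norm over `G`. -/
theorem pairEquiv_φ_finsum_top [Finite (Γ ⧸ U)] (y : (C.quotientToInvariants U).V) :
    D.pairEquiv.φ (∑ᶠ x : Γ ⧸ U, (C.quotientToInvariants U).ρ x y) =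
      ∑ᶠ h : G, B.ρ h (D.pairEquiv.φ y) := by
  have hfin : (Function.support fun x : Γ ⧸ U => (C.quotientToInvariants U).ρ x y).Finite :=
    Set.toFinite _
  rw [← LinearEquiv.coe_toLinearMap, ← LinearMap.toAddMonoidHom_coe,
    AddMonoidHom.map_finsum _ hfin]
  refine finsum_eq_of_bijective D.e D.e.bijective (fun x => ?_)
  exact D.pairEquiv_φ_ρ x y

end DescentDatum

end Fermat.Agent.CFT.H24
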