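/-
CFT project, layer C, INTEGRATION (helper24): the descent datum of a Galois level.

For an abstract number field `F`, Galois over `ℚ`, with an embedding `ι : F →ₐ[ℚ] ℚbar` whose
image is unramified outside `S`, helper77's `csIncl` (C-TOP) is a descent datum
`(G_ℚ ⧸ U_F, (CSTop S)^{U_F}) ≃ (Gal(F/ℚ), CS S F)` in the sense of `H24.DescentDatum`.
-/
import Mathlib
import Fermat.Agent.CFT.H24_DescentPair
import Fermat.Agent.CFT.H77_TopDescent

set_option autoImplicit false

open CategoryTheory

noncomputable section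

namespace Fermat.Agent.CFT.H24

open Fermat.Agent.CFT IntermediateField

local notation "Qbar" => AlgebraicClosure ℚ
local notation "GQ" => (AlgebraicClosure ℚ ≃ₐ[ℚ] AlgebraicClosure ℚ)

local instance isAlgebraicQbar_h24 : Algebra.IsAlgebraic ℚ (AlgebraicClosure ℚ) :=
  AlgebraicClosure.isAlgebraic ℚ
local instance isAlgClosureQbar_h24 : IsAlgClosure ℚ (AlgebraicClosure ℚ) :=
  ⟨inferInstance, inferInstance⟩
local instance normalQbar_h24 : Normal ℚ (AlgebraicClosure ℚ) :=
  IsAlgClosure.normal ℚ (AlgebraicClosure ℚ)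
local instance isGaloisQbar_h24 : IsGalois ℚ (AlgebraicClosure ℚ) := ⟨⟩

section Restrict

variable {F : Type} [Field F] [NumberField F] [IsGalois ℚ F] (ι : F →ₐ[ℚ] Qbar)

/-- Restriction `G_ℚ → Gal(F/ℚ)` along the embedding `ι`. -/
def restrictAlong : GQ →* (F ≃ₐ[ℚ] F) :=
  letI : Algebra F Qbar := ι.toRingHom.toAlgebra
  haveI : IsScalarTower ℚ F Qbar := IsScalarTower.of_algebraMap_eq fun q => (ι.commutes q).symm
  AlgEquiv.restrictNormalHom F

theorem restrictAlong_spec (σ : GQ) (y : F) : σ (ι y) = ι (restrictAlong ι σ y) := by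
  let _ : Algebra F Qbar := ι.toRingHom.toAlgebra
  have : IsScalarTower ℚ F Qbar := IsScalarTower.of_algebraMap_eq fun q => (ι.commutes q).symm
  exact (AlgEquiv.restrictNormal_commutes σ F y).symm

theorem restrictsTo_restrictAlong (σ : GQ) : H77.RestrictsTo ι σ (restrictAlong ι σ) :=
  fun y => restrictAlong_spec ι σ y

theorem restrictAlong_surjective : Function.Surjective (restrictAlong ι) := by
  let _ : Algebra F Qbar := ι.toRingHom.toAlgebra
  have : IsScalarTower ℚ F Qbar := IsScalarTower.of_algebraMap_eq fun q => (ι.commutes q).symm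
  exact AlgEquiv.restrictNormalHom_surjective Qbar

theorem restrictAlong_ker : ι.fieldRange.fixingSubgroup = (restrictAlong ι).ker := by
  ext σ
  rw [MonoidHom.mem_ker, IntermediateField.mem_fixingSubgroup_iff]
  constructor
  · intro h
    apply AlgEquiv.ext
    intro y
    apply ι.injective
    have h1 : σ (ι y) = ι y := h (ι y) ⟨y, rfl⟩
    have h2 := restrictAlong_spec ι σ y
    show ι (restrictAlong ι σ y) = ι y
    rw [← h2, h1]
  · intro h x hx
    obtain ⟨y, rfl⟩ := hx
    have h2 := restrictAlong_spec ι σ y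
    show σ (ι y) = ι y
    rw [h2, h]
    rfl

instance fixingSubgroup_fieldRange_normal : ι.fieldRange.fixingSubgroup.Normal := by
  rw [restrictAlong_ker]
  exact MonoidHom.normal_ker _

/-- `G_ℚ ⧸ U_F ≃* Gal(F/ℚ)`. -/
def galQuotEquiv : GQ ⧸ ι.fieldRange.fixingSubgroup ≃* (F ≃ₐ[ℚ] F) :=
  QuotientGroup.liftEquiv _ (restrictAlong_surjective ι) (restrictAlong_ker ι)

theorem galQuotEquiv_mk (σ : GQ) :
    galQuotEquiv ι (QuotientGroup.mk σ) = restrictAlong ι σ := rfl

end Restrict

section Datum

variable {S : Finset Nat.Primes} {F : Type} [Field F] [NumberField F] [IsGalois ℚ F]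
  {ι : F →ₐ[ℚ] Qbar} (hF : ι.fieldRange.IsUnramifiedOutside S) (D : H77.DivDescent S ι)

/-- **The descent datum of a Galois level** (from helper77's `csIncl`). -/
def galoisDescentDatum (hS : S.Nonempty) (hE : H77.HasDivisors S) :
    DescentDatum (H77.repCSTop S) ι.fieldRange.fixingSubgroup (H23.repCS S F ℚ) where
  e := galQuotEquiv ι
  ι := (H77.csIncl hF D).toAdditive.toIntLinearMap
  inj := fun a b h => by
    have h' : H77.csIncl hF D (Additive.toMul a) = H77.csIncl hF D (Additive.toMul b) :=
      congrArg Additive.toMul h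
    exact congrArg Additive.ofMul (H77.csIncl_injective hF D hS h')
  surj := fun c hc => by
    obtain ⟨y, hy⟩ := (H77.mem_range_csIncl_iff hF D hS hE (Additive.toMul c)).mpr
      (fun σ hσ => congrArg Additive.toMul (hc σ hσ))
    exact ⟨Additive.ofMul y, congrArg Additive.ofMul hy⟩
  equiv := fun γ b => by
    have h := H77.csIncl_smul hF D (restrictsTo_restrictAlong ι γ) (Additive.toMul b)
    exact congrArg Additive.ofMul h.symm

/-- The pair equivalence `(G_ℚ ⧸ U_F, (CSTop S)^{U_F}) ≃ (Gal(F/ℚ), CS S F)`. -/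
def galoisPairEquiv (hS : S.Nonempty) (hE : H77.HasDivisors S) :
    H43.PairEquiv ((H77.repCSTop S).quotientToInvariants ι.fieldRange.fixingSubgroup)
      (H23.repCS S F ℚ) :=
  (galoisDescentDatum hF D hS hE).pairEquiv

end Datum

end Fermat.Agent.CFT.H24
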