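/-
CFT project, layer C, INTEGRATION (helper24): export (X1) of layer C,
`PClassFormation p (globalLevels S) (H77.repCSTop S)`, from its four inputs:

* `T`     : the cyclic `p`-tower system (helper12 C-FORM + helper81/helper93 field side),
* `hE`    : every element of `ℚ_Sˣ` has a divisor at the top (helper45 C-TOP-Div),
* `hD`    : the divisor-side descent data at every level (helper45 C-TOP-Div),
* `hlay`  : the layers of degree `p` of the FINITE-LEVEL modules `H23.repCS S F ℚ`
            (helper23's chain FIRST + SECOND ⇒ `PPrimeLayers`).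
-/
import Mathlib
import Fermat.Agent.CFT.H24_CTopAssembly
import Fermat.Agent.CFT.H24_GlobalDescent
import Fermat.Agent.CFT.H55_GalLevels

set_option autoImplicit false

open CategoryTheory

noncomputable section

namespace Fermat.Agent.CFT.H24

open Fermat.Agent.CFT IntermediateField

local notation "Qbar" => AlgebraicClosure ℚ
local notation "GQ" => (AlgebraicClosure ℚ ≃ₐ[ℚ] AlgebraicClosure ℚ)

local instance isAlgebraicQbar_h24b : Algebra.IsAlgebraic ℚ (AlgebraicClosure ℚ) :=
  AlgebraicClosure.isAlgebraic ℚ
local instance isAlgClosureQbar_h24b : IsAlgClosure ℚ (AlgebraicClosure ℚ) :=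
  ⟨inferInstance, inferInstance⟩
local instance normalQbar_h24b : Normal ℚ (AlgebraicClosure ℚ) :=
  IsAlgClosure.normal ℚ (AlgebraicClosure ℚ)
local instance isGaloisQbar_h24b : IsGalois ℚ (AlgebraicClosure ℚ) := ⟨⟩

/-- The inclusion of an intermediate field, as an algebra homomorphism for the CANONICAL
`ℚ`-algebra structure `DivisionRing.toRatAlgebra` on `↥F` (the one used for abstract fields). -/
def valRat (F : IntermediateField ℚ Qbar) :
    @AlgHom ℚ ↥F Qbar _ _ _ DivisionRing.toRatAlgebra DivisionRing.toRatAlgebra :=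
  @RingHom.toRatAlgHom ↥F Qbar _ _ DivisionRing.toRatAlgebra DivisionRing.toRatAlgebra
    F.val.toRingHom

theorem valRat_apply (F : IntermediateField ℚ Qbar) (y : F) : valRat F y = (y : Qbar) := rfl

theorem fieldRange_valRat (F : IntermediateField ℚ Qbar) : (valRat F).fieldRange = F := by
  ext x
  constructor
  · rintro ⟨y, rfl⟩
    exact y.2
  · intro hx
    exact ⟨⟨x, hx⟩, rfl⟩

variable (p : ℕ) [Fact p.Prime] (S : Finset Nat.Primes)

/-- The finite-level input of (X1): the layers of degree `p` for every Galois level. -/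
def FiniteLevelLayers : Prop :=
  ∀ (F : Type) [Field F] [NumberField F] [IsGalois ℚ F] (ι : F →ₐ[ℚ] Qbar),
    ι.fieldRange.IsUnramifiedOutside S → H40.PPrimeLayers p (H23.repCS S F ℚ)

/-- The divisor-side input of the descent (C-TOP-Div). -/
def HasDivDescent : Prop :=
  ∀ (F : Type) [Field F] [NumberField F] (ι : F →ₐ[ℚ] Qbar),
    ι.fieldRange.IsUnramifiedOutside S → Nonempty (H77.DivDescent S ι)

/-- **Export (X1) of layer C.** -/
theorem nonempty_pClassFormation_global (hS : S.Nonempty)
    (T : H12.PTowerSystem p (globalLevels S) (H77.repCSTop S))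
    (hE : H77.HasDivisors S) (hD : HasDivDescent S) (hlay : FiniteLevelLayers p S) :
    Nonempty (PClassFormation p (globalLevels S) (H77.repCSTop S)) := by
  refine ⟨pClassFormationOfTransport T (H77.isDiscrete_repCSTop S) ?_⟩
  intro U hUn hU
  obtain ⟨F, hF, rfl⟩ := hU
  -- `F` is a number field, Galois over `ℚ`
  haveI : FiniteDimensional ℚ F := hF.1
  haveI : NumberField F := ⟨⟩
  have hG0 : IsGalois ℚ F := (InfiniteGalois.normal_iff_isGalois F).mp hUn
  haveI hG : @IsGalois ℚ _ ↥F _ DivisionRing.toRatAlgebra := by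
    convert hG0
  have hFι : (valRat F).fieldRange.IsUnramifiedOutside S := by
    rw [fieldRange_valRat]; exact hF
  obtain ⟨D⟩ := hD F (valRat F) hFι
  have E := galoisPairEquiv hFι D hS hE
  have hlayF := hlay F (valRat F) hFι
  refine ⟨_, _, ?_, _, ?_, hlayF⟩
  · infer_instance
  · have key : ∀ (V : Subgroup GQ) (_ : V = F.fixingSubgroup) [V.Normal],
        H43.PairEquiv ((H77.repCSTop S).quotientToInvariants V) (H23.repCS S F ℚ) →
        Nonempty (H43.PairEquiv ((H77.repCSTop S).quotientToInvariants F.fixingSubgroup)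
          (H23.repCS S F ℚ)) := by
      intro V hV _ EV
      subst hV
      exact ⟨EV⟩
    exact key _ (by rw [fieldRange_valRat]) E

end Fermat.Agent.CFT.H24
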