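import Mathlib
import Fermat.Agent.CFT.H85_InfRes
import Fermat.Agent.CFT.H33_CorRes

/-!
# CFT / layer A (helper40): weak transfer for the Mathlib restriction map

For a finite-index subgroup `S ≤ G`, `A : Rep k G` and a class `x : Hⁿ⁺¹(G, A)` whose
restriction `groupCohomology.map S.subtype (𝟙 _) (n+1) x` vanishes, `[G:S] • x = 0`.

No identification of Shapiro's isomorphism is needed: degree one is done on explicit cocycles and
the higher degrees follow by dimension shifting (helper85's `upSC`).

Corollaries: restriction to a Sylow `p`-subgroup is injective on `p`-power torsion; if `γ` has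
order `|G|` then its restriction to `H` has order `|H|`.
-/

set_option autoImplicit false

noncomputable section

open CategoryTheory groupCohomology Rep

namespace Fermat.Agent.CFT.H40

universe u

variable {k : Type u} [CommRing k] {G : Type u} [Group G]

/-- Cochain-level core of the degree-one transfer argument: a cocycle vanishing on `S` has
`[G:S] • c` a coboundary. -/
theorem index_nsmul_cocycle_of_vanish (A : Rep k G) (S : Subgroup G) [S.FiniteIndex]
    (c : G → A) (hc : ∀ g h, c (g * h) = A.ρ g (c h) + c g) (hS : ∀ s ∈ S, c s = 0) :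
    ∃ b : A, ∀ g, S.index • c g = A.ρ g b - b := by
  classical
  have : Fintype (G ⧸ S) := Subgroup.fintypeQuotientOfFiniteIndex
  -- right `S`-invariance
  have hinv : ∀ g, ∀ s ∈ S, c (g * s) = c g := by
    intro g s hs
    rw [hc, hS s hs, map_zero, zero_add]
  have hout : ∀ (g : G) (q : G ⧸ S), c (g * q.out) = c ((g • q).out) := by
    intro g q
    have h1 : ((g * q.out : G) : G ⧸ S) = g • q := by
      conv_rhs => rw [← QuotientGroup.out_eq' q]
      rfl
    have h2 : (((g • q).out : G) : G ⧸ S) = ((g * q.out : G) : G ⧸ S) := by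
      rw [h1]; exact QuotientGroup.out_eq' _
    have h3 : ((g • q).out)⁻¹ * (g * q.out) ∈ S := QuotientGroup.eq.1 h2
    have := hinv ((g • q).out) _ h3
    rw [← this]
    congr 1
    group
  refine ⟨- ∑ q : G ⧸ S, c q.out, fun g => ?_⟩
  have hsum : ∑ q : G ⧸ S, c (g * q.out) = ∑ q : G ⧸ S, c q.out := by
    simp_rw [hout]
    exact Fintype.sum_equiv (MulAction.toPerm g) _ _ (fun q => rfl)
  have hsum2 : ∑ q : G ⧸ S, c (g * q.out) =
      A.ρ g (∑ q : G ⧸ S, c q.out) + S.index • c g := by
    simp_rw [hc]
    rw [Finset.sum_add_distrib, map_sum, Finset.sum_const, Finset.card_univ,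
      Subgroup.index_eq_card, Nat.card_eq_fintype_card]
  rw [hsum] at hsum2
  rw [map_neg]
  have : S.index • c g = (∑ q : G ⧸ S, c q.out) - A.ρ g (∑ q : G ⧸ S, c q.out) := by
    rw [eq_sub_iff_add_eq, add_comm]
    exact hsum2.symm
  rw [this]
  abel

/-- Degree one: a class whose restriction to `S` vanishes is killed by `[G:S]`. -/
theorem index_nsmul_eq_zero_of_res_eq_zero_one (A : Rep k G) (S : Subgroup G) [S.FiniteIndex]
    (x : groupCohomology A 1)
    (hx : (groupCohomology.map S.subtype (𝟙 (Rep.res S.subtype A)) 1).hom x = 0) :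
    S.index • x = 0 := by
  induction x using H1_induction_on with | h c =>
  rw [H1π_comp_map_apply, H1π_eq_zero_iff] at hx
  obtain ⟨a, ha⟩ := hx
  -- `c s = ρ s a - a` on `S`
  have hcS : ∀ s : S, c (s : G) = A.ρ (s : G) a - a := by
    intro s
    have := congrFun ha s
    rw [d₀₁_hom_apply] at this
    exact this.symm
  have hc := (mem_cocycles₁_iff (A := A) (c : G → A)).1 c.2
  let c' : G → A := fun g => c g - (A.ρ g a - a)
  obtain ⟨b, hb⟩ := index_nsmul_cocycle_of_vanish A S c' (by
    intro g h
    simp only [c']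
    rw [hc g h, map_mul, map_sub, map_sub]
    simp only [Module.End.mul_apply]
    abel) (by
    intro s hs
    simp only [c']
    rw [hcS ⟨s, hs⟩, sub_self])
  rw [← map_nsmul, H1π_eq_zero_iff]
  refine ⟨b + S.index • a, ?_⟩
  funext g
  rw [d₀₁_hom_apply]
  have := hb g
  simp only [c', smul_sub] at this
  simp only [map_add, map_nsmul]
  show _ = S.index • c g
  rw [sub_eq_iff_eq_add] at this
  rw [this]
  abel

/-- **Weak transfer for the Mathlib restriction**: a class of positive degree whose restriction
to a finite-index subgroup `S` vanishes is killed by `[G:S]`. -/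
theorem index_nsmul_eq_zero_of_res_eq_zero (n : ℕ) : ∀ (A : Rep k G) (S : Subgroup G)
    [S.FiniteIndex] (x : groupCohomology A (n + 1)),
    (groupCohomology.map S.subtype (𝟙 (Rep.res S.subtype A)) (n + 1)).hom x = 0 →
      S.index • x = 0 := by
  induction n with
  | zero => exact fun A S _ x hx => index_nsmul_eq_zero_of_res_eq_zero_one A S x hx
  | succ n ih =>
    intro A S _ x hx
    have hX := H85.upSC_shortExact A
    have hXS : ((H85.upSC A).map (resFunctor S.subtype)).ShortExact :=
      (shortExact_res S.subtype).2 hX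
    have c2 := H85.δ_naturality_map S.subtype hX hXS (𝟙 _) (n + 1) (n + 2) rfl
    have i2 : IsIso (δ hX (n + 1) (n + 2) rfl) :=
      isIso_δ_of_isZero hX (n + 1) (H85.isZero_groupCohomology_funRep k G A.V n)
        (H85.isZero_groupCohomology_funRep k G A.V (n + 1))
    have i3 : Mono (δ hXS (n + 1) (n + 2) rfl) :=
      mono_δ_of_isZero hXS (n + 1) (H85.isZero_groupCohomology_res_funRep k A.V S n)
    -- lift `x` along `δ`
    have hsurj : Function.Surjective (δ hX (n + 1) (n + 2) rfl).hom :=
      (ModuleCat.epi_iff_surjective _).1 inferInstance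
    obtain ⟨y, hyx⟩ := hsurj x
    have hinj : Function.Injective (δ hXS (n + 1) (n + 2) rfl).hom :=
      (ModuleCat.mono_iff_injective _).1 i3
    have h1 := congrArg (fun φ => φ.hom y) c2
    simp only [ModuleCat.hom_comp, LinearMap.comp_apply] at h1
    have hy : (groupCohomology.map S.subtype (𝟙 (Rep.res S.subtype (H85.upSC A).X₃))
        (n + 1)).hom y = 0 := by
      apply hinj
      have e1 : (δ hXS (n + 1) (n + 2) rfl).hom
          ((groupCohomology.map S.subtype (𝟙 (Rep.res S.subtype (H85.upSC A).X₃))
            (n + 1)).hom y) =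
          (groupCohomology.map S.subtype (𝟙 (Rep.res S.subtype A)) (n + 2)).hom
            ((δ hX (n + 1) (n + 2) rfl).hom y) := h1.symm
      have e2 : (groupCohomology.map S.subtype (𝟙 (Rep.res S.subtype A)) (n + 2)).hom
            ((δ hX (n + 1) (n + 2) rfl).hom y) =
          (groupCohomology.map S.subtype (𝟙 (Rep.res S.subtype A)) (n + 2)).hom x :=
        congrArg _ hyx
      exact e1.trans (e2.trans (hx.trans (map_zero _).symm))
    have h3 : S.index • (δ hX (n + 1) (n + 2) rfl).hom y = 0 := by
      rw [← map_nsmul, ih _ S y hy, map_zero]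
    exact (congrArg (S.index • ·) hyx.symm).trans h3

/-- Restriction (Mathlib's `map S.subtype 𝟙`) to a Sylow `p`-subgroup is injective on `p`-power
torsion, in every positive degree. -/
theorem eq_zero_of_pow_nsmul_of_res_sylow [Finite G] (A : Rep k G) (n : ℕ) {p : ℕ}
    [Fact p.Prime] (P : Sylow p G) (x : groupCohomology A (n + 1)) (m : ℕ)
    (hx : p ^ m • x = 0)
    (hres : (groupCohomology.map (P : Subgroup G).subtype
      (𝟙 (Rep.res (P : Subgroup G).subtype A)) (n + 1)).hom x = 0) : x = 0 := by
  have h1 : addOrderOf x ∣ p ^ m := addOrderOf_dvd_of_nsmul_eq_zero hx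
  have h2 : addOrderOf x ∣ (P : Subgroup G).index :=
    addOrderOf_dvd_of_nsmul_eq_zero
      (index_nsmul_eq_zero_of_res_eq_zero n A (P : Subgroup G) x hres)
  have hcop : Nat.Coprime (p ^ m) (P : Subgroup G).index :=
    Nat.Coprime.pow_left m ((Nat.Prime.coprime_iff_not_dvd Fact.out).2 P.not_dvd_index)
  exact AddMonoid.addOrderOf_eq_one_iff.1 (Nat.eq_one_of_dvd_coprimes hcop h1 h2)

/-- The order of a class divides the index times the order of its restriction. -/
theorem addOrderOf_dvd_index_mul_addOrderOf_res (A : Rep k G) (S : Subgroup G) [S.FiniteIndex]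
    (n : ℕ) (γ : groupCohomology A (n + 1)) :
    addOrderOf γ ∣ S.index * addOrderOf
      ((groupCohomology.map S.subtype (𝟙 (Rep.res S.subtype A)) (n + 1)).hom γ) := by
  apply addOrderOf_dvd_of_nsmul_eq_zero
  rw [mul_comm, mul_nsmul]
  apply index_nsmul_eq_zero_of_res_eq_zero n A S
  rw [map_nsmul]
  exact addOrderOf_nsmul_eq_zero _

/-- If `γ ∈ Hⁿ⁺¹(G, A)` has order `|G|`, then its restriction to any subgroup `H` has order
`|H|`. -/
theorem addOrderOf_res_eq_card [Finite G] (A : Rep k G) (H : Subgroup G) (n : ℕ)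
    (γ : groupCohomology A (n + 1)) (hγ : addOrderOf γ = Nat.card G) :
    addOrderOf ((groupCohomology.map H.subtype (𝟙 (Rep.res H.subtype A)) (n + 1)).hom γ) =
      Nat.card H := by
  set o := addOrderOf ((groupCohomology.map H.subtype (𝟙 (Rep.res H.subtype A)) (n + 1)).hom γ)
    with ho
  have h1 : o ∣ Nat.card H :=
    addOrderOf_dvd_of_nsmul_eq_zero (H33.card_nsmul_eq_zero (Rep.res H.subtype A) n _)
  have h2 : Nat.card G ∣ H.index * o := by
    rw [← hγ]
    exact addOrderOf_dvd_index_mul_addOrderOf_res A H n γ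
  rw [← H.index_mul_card] at h2
  have h3 : Nat.card H ∣ o :=
    Nat.dvd_of_mul_dvd_mul_left (Nat.pos_of_ne_zero H.index_ne_zero_of_finite) h2
  exact Nat.dvd_antisymm h1 h3

end Fermat.Agent.CFT.H40
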