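import Mathlib
import Fermat.Agent.CFT.H40_DevissageFinal
import Fermat.Agent.CFT.H40_ResIndex
import Fermat.Agent.CFT.H91_Formation

/-!
# CFT / C-H1H2 (helper40): the dévissage at a level, class-module criteria

* `primeLayers_quotientToInvariants` : for `C : Rep k Γ` and `U ⊴ Γ`, the prime-layer hypothesis
  of the dévissage for the `Γ ⧸ U`-module `C^U` follows from the layers `V ⊴ W` (prime index)
  between subgroups `U ≤ V ≤ W ≤ Γ`, each presented as
  `(Rep.res W.subtype C).quotientToInvariants (V.subgroupOf W)`.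
* `devissage_pgroup` : the dévissage for `p`-groups needs only layers of degree `p`.
* `isClassModule_of_primeLayers`, `isClassModule_level` : class-module criterion
  (helper91's `IsClassModule`) from prime layers and ONE class of full order.
* `isPClassModule_of_pPrimeLayers`, `isPClassModule_level` : the `p`-primary versions.
-/

set_option autoImplicit false

noncomputable section

open CategoryTheory

namespace Fermat.Agent.CFT.H40

variable {k : Type} [CommRing k] {Γ : Type} [Group Γ]

section Layer

variable (U : Subgroup Γ) [U.Normal] {H' : Type} [Group H'] (f : H' →* Γ ⧸ U)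
  (N : Subgroup H')

/-- The preimage in `Γ` of the image of `f`. -/
def layerTop : Subgroup Γ := f.range.comap (QuotientGroup.mk' U)

/-- The preimage in `Γ` of the image of `N` under `f`. -/
def layerBot : Subgroup Γ := (N.map f).comap (QuotientGroup.mk' U)

lemma le_layerBot : U ≤ layerBot U f N := by
  intro u hu
  show QuotientGroup.mk' U u ∈ N.map f
  have : QuotientGroup.mk' U u = 1 := (QuotientGroup.eq_one_iff u).2 hu
  rw [this]
  exact one_mem _

lemma layerBot_le_layerTop : layerBot U f N ≤ layerTop U f := by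
  intro v hv
  obtain ⟨n, -, hn⟩ := hv
  exact ⟨n, hn⟩

variable {f} (hf : Function.Injective f)

/-- `W → H'`, the inverse of `f` on the preimage of its range. -/
def layerHom : layerTop U f →* H' :=
  (MonoidHom.ofInjective hf).symm.toMonoidHom.comp
    ((QuotientGroup.mk' U).subgroupComap f.range)

lemma f_layerHom (w : layerTop U f) : f (layerHom U hf w) = QuotientGroup.mk' U (w : Γ) := by
  have := (MonoidHom.ofInjective hf).apply_symm_apply
    ((QuotientGroup.mk' U).subgroupComap f.range w)
  exact congrArg Subtype.val this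

lemma layerHom_surjective : Function.Surjective (layerHom U hf) := by
  intro h
  obtain ⟨γ, hγ⟩ := QuotientGroup.mk'_surjective U (f h)
  refine ⟨⟨γ, ⟨h, hγ.symm⟩⟩, hf ?_⟩
  rw [f_layerHom]
  exact hγ

lemma layerHom_mem_iff (w : layerTop U f) :
    layerHom U hf w ∈ N ↔ (w : Γ) ∈ layerBot U f N := by
  constructor
  · intro h
    exact ⟨_, h, f_layerHom U hf w⟩
  · rintro ⟨n, hn, hnw⟩
    have : layerHom U hf w = n := hf (by rw [f_layerHom]; exact hnw.symm)
    rw [this]; exact hn

omit hf in
instance layerBot_normal [N.Normal] : ((layerBot U f N).subgroupOf (layerTop U f)).Normal := by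
  refine ⟨fun v hv w => ?_⟩
  obtain ⟨n, hn, hnv⟩ := hv
  obtain ⟨h, hw⟩ := w.2
  refine ⟨h * n * h⁻¹, Subgroup.Normal.conj_mem ‹_› n hn h, ?_⟩
  rw [map_mul, map_mul, map_inv, hw, hnv]
  simp

lemma subgroupOf_eq_comap :
    (layerBot U f N).subgroupOf (layerTop U f) = N.comap (layerHom U hf) := by
  ext w
  rw [Subgroup.mem_subgroupOf, Subgroup.mem_comap, layerHom_mem_iff]

lemma ker_layerQuot [N.Normal] :
    ((QuotientGroup.mk' N).comp (layerHom U hf)).ker =
      (layerBot U f N).subgroupOf (layerTop U f) := by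
  ext w
  rw [MonoidHom.mem_ker, MonoidHom.comp_apply, QuotientGroup.mk'_apply,
    QuotientGroup.eq_one_iff, Subgroup.mem_subgroupOf, layerHom_mem_iff]

/-- `W ⧸ V ≃* H' ⧸ N`. -/
def layerEquiv [N.Normal] :
    layerTop U f ⧸ (layerBot U f N).subgroupOf (layerTop U f) ≃* H' ⧸ N :=
  (QuotientGroup.quotientMulEquivOfEq (ker_layerQuot U N hf).symm).trans
    (QuotientGroup.quotientKerEquivOfSurjective ((QuotientGroup.mk' N).comp (layerHom U hf))
      ((QuotientGroup.mk'_surjective N).comp (layerHom_surjective U hf)))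

lemma layerEquiv_mk [N.Normal] (w : layerTop U f) :
    layerEquiv U N hf (w : layerTop U f ⧸ (layerBot U f N).subgroupOf (layerTop U f)) =
      ((layerHom U hf w : H') : H' ⧸ N) := rfl

end Layer

section Module

variable (C : Rep.{0} k Γ) (U : Subgroup Γ) [U.Normal] {H' : Type} [Group H'] {f : H' →* Γ ⧸ U}
  (N : Subgroup H') [N.Normal] (hf : Function.Injective f)

lemma quotientToInvariants_ρ_mk_coe (γ : Γ) (x : C.quotientToInvariants U) :
    (((C.quotientToInvariants U).ρ (QuotientGroup.mk' U γ) x :
      C.quotientToInvariants U) : C.V) = C.ρ γ x.1 := rfl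

/-- The layer module over `W ⧸ V`. -/
abbrev layerRepΓ : Rep.{0} k (layerTop U f ⧸ (layerBot U f N).subgroupOf (layerTop U f)) :=
  (Rep.res (layerTop U f).subtype C).quotientToInvariants
    ((layerBot U f N).subgroupOf (layerTop U f))

/-- The layer module over `H' ⧸ N`. -/
abbrev layerRepH : Rep.{0} k (H' ⧸ N) :=
  (Rep.res f (C.quotientToInvariants U)).quotientToInvariants N

/-- The two layer modules have the same underlying module `C^V`. -/
def layerLinearEquiv : (layerRepΓ C U (f := f) N).V ≃ₗ[k] (layerRepH C U (f := f) N).V where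
  toFun c := ⟨⟨c.1, fun u => c.2 ⟨⟨u.1, layerBot_le_layerTop U f N (le_layerBot U f N u.2)⟩,
      le_layerBot U f N u.2⟩⟩, fun n => by
    obtain ⟨γ, hγ⟩ := QuotientGroup.mk'_surjective U (f n)
    have hγV : γ ∈ layerBot U f N := ⟨n, n.2, hγ.symm⟩
    apply Subtype.ext
    show (((C.quotientToInvariants U).ρ (f n) _ : C.quotientToInvariants U) : C.V) = c.1
    rw [← hγ]
    exact c.2 ⟨⟨γ, layerBot_le_layerTop U f N hγV⟩, hγV⟩⟩
  map_add' _ _ := rfl
  map_smul' _ _ := rfl
  invFun x := ⟨x.1.1, fun v => by
    obtain ⟨n, hn, hnv⟩ := v.2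
    have h1 := congrArg Subtype.val (x.2 ⟨n, hn⟩)
    have hnv' : f n = QuotientGroup.mk' U ((v : layerTop U f) : Γ) := hnv
    show C.ρ ((v : layerTop U f) : Γ) x.1.1 = x.1.1
    rw [← quotientToInvariants_ρ_mk_coe C U ((v : layerTop U f) : Γ) x.1, ← hnv']
    exact h1⟩
  left_inv _ := rfl
  right_inv _ := rfl

lemma layerLinearEquiv_comm
    (g : layerTop U f ⧸ (layerBot U f N).subgroupOf (layerTop U f)) :
    (layerLinearEquiv C U (f := f) N).toLinearMap ∘ₗ (layerRepΓ C U (f := f) N).ρ g =
      (layerRepH C U (f := f) N).ρ (layerEquiv U N hf g) ∘ₗ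
        (layerLinearEquiv C U (f := f) N).toLinearMap := by
  induction g using QuotientGroup.induction_on with
  | H w =>
    ext c
    show C.ρ (w : Γ) c.1 =
      (((C.quotientToInvariants U).ρ (f (layerHom U hf w)) _ : C.quotientToInvariants U) : C.V)
    rw [f_layerHom]
    rfl

/-- The cohomology of the two presentations of a layer agree. -/
def layerIso (n : ℕ) :
    groupCohomology (layerRepΓ C U (f := f) N) n ≅ groupCohomology (layerRepH C U (f := f) N) n :=
  groupCohomology.mapIso (layerEquiv U N hf) (layerLinearEquiv C U (f := f) N)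
    (layerLinearEquiv_comm C U N hf) n

end Module

section PDev

/-- The hypothesis on cyclic layers of degree `p` inside `p`-groups. -/
def PPrimeLayers (p : ℕ) {H : Type} [Group H] (B : Rep.{0} k H) : Prop :=
  ∀ (H' : Type) [Group H'] [Finite H'] (f : H' →* H), Function.Injective f → IsPGroup p H' →
    ∀ (N : Subgroup H') [N.Normal], N.index = p →
      Subsingleton (groupCohomology ((Rep.res f B).quotientToInvariants N) 1) ∧
      Nat.card (groupCohomology ((Rep.res f B).quotientToInvariants N) 2) ∣ p

theorem PPrimeLayers.res {p : ℕ} {H : Type} [Group H] {B : Rep.{0} k H} (hB : PPrimeLayers p B)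
    {H'' : Type} [Group H''] (g : H'' →* H) (hg : Function.Injective g) :
    PPrimeLayers p (Rep.res g B) := by
  intro H' _ _ f hf hH' N _ hN
  exact hB H' (g.comp f) (hg.comp hf) hH' N hN

theorem PrimeLayers.pPrimeLayers {p : ℕ} (hp : p.Prime) {H : Type} [Group H] {B : Rep.{0} k H}
    (hB : PrimeLayers B) : PPrimeLayers p B := by
  intro H' _ _ f hf _ N _ hN
  exact hB H' f hf N p hp hN

theorem devissage_pgroup_aux (p : ℕ) [hp : Fact p.Prime] :
    ∀ (m : ℕ) (H : Type) [Group H] [Finite H] (B : Rep.{0} k H), Nat.card H = p ^ m →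
      PPrimeLayers p B →
      Subsingleton (groupCohomology B 1) ∧ Nat.card (groupCohomology B 2) ∣ Nat.card H := by
  intro m
  induction m with
  | zero =>
    intro H _ _ B hcard _
    have : Subsingleton H := (Nat.card_eq_one_iff_unique.mp (by simpa using hcard)).1
    have := subsingleton_groupCohomology_succ B 1
    exact ⟨subsingleton_groupCohomology_succ B 0, by simp [Nat.card_unique]⟩
  | succ m ih =>
    intro H _ _ B hcard hB
    have hpp : p.Prime := hp.out
    obtain ⟨K, hK⟩ := Sylow.exists_subgroup_card_pow_prime p (n := m)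
      (G := H) (by rw [hcard]; exact pow_dvd_pow p (Nat.le_succ m))
    have hidx : K.index = p := by
      have := Subgroup.card_mul_index K
      rw [hK, hcard, pow_succ] at this
      exact Nat.eq_of_mul_eq_mul_left (pow_pos hpp.pos _) this
    have hmin : (Nat.card H).minFac = p := by
      rw [hcard]
      exact Nat.Prime.pow_minFac hpp (Nat.succ_ne_zero m)
    have : K.Normal := Subgroup.normal_of_index_eq_minFac_card (by rw [hidx, hmin])
    obtain ⟨hK1, hK2⟩ := ih K (Rep.res K.subtype B) hK (hB.res K.subtype K.subtype_injective)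
    have hHp : IsPGroup p H := IsPGroup.of_card hcard
    obtain ⟨hq1, hq2⟩ := hB H (MonoidHom.id H) Function.injective_id hHp K hidx
    have := step_normal (infResInput k) B K p hq1 hq2 hK1 hK2
    refine ⟨this.1, ?_⟩
    have h2 := this.2
    rwa [← hidx, mul_comm, Subgroup.card_mul_index] at h2

/-- **Dévissage for `p`-groups**: only layers of degree `p` are needed. -/
theorem devissage_pgroup (p : ℕ) [Fact p.Prime] {H : Type} [Group H] [Finite H]
    (hH : IsPGroup p H) (B : Rep.{0} k H) (hB : PPrimeLayers p B) :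
    Subsingleton (groupCohomology B 1) ∧ Nat.card (groupCohomology B 2) ∣ Nat.card H := by
  obtain ⟨m, hm⟩ := IsPGroup.iff_card.mp hH
  exact devissage_pgroup_aux p m H B hm hB

end PDev

section Main

variable (C : Rep.{0} k Γ) (U : Subgroup Γ) [U.Normal]

/-- The hypothesis on cyclic layers of prime degree between subgroups of `Γ` containing `U`. -/
def LevelPrimeLayers : Prop :=
  ∀ (W V : Subgroup Γ), U ≤ V → V ≤ W → ∀ [(V.subgroupOf W).Normal] (p : ℕ), p.Prime →
    (V.subgroupOf W).index = p →
    Subsingleton (groupCohomology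
      ((Rep.res W.subtype C).quotientToInvariants (V.subgroupOf W)) 1) ∧
    Nat.card (groupCohomology
      ((Rep.res W.subtype C).quotientToInvariants (V.subgroupOf W)) 2) ∣ p

/-- **Level adapter**: the prime-layer hypothesis of the dévissage for `C^U` as a `Γ ⧸ U`-module
follows from the prime layers `V ⊴ W` between subgroups of `Γ` containing `U`. -/
theorem primeLayers_quotientToInvariants (h : LevelPrimeLayers C U) :
    PrimeLayers (C.quotientToInvariants U) := by
  intro H' _ _ f hf N _ p hp hN
  have hidx : ((layerBot U f N).subgroupOf (layerTop U f)).index = p := by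
    rw [← hN, Subgroup.index_eq_card, Subgroup.index_eq_card]
    exact Nat.card_congr (layerEquiv U N hf).toEquiv
  obtain ⟨h1, h2⟩ := h (layerTop U f) (layerBot U f N) (le_layerBot U f N)
    (layerBot_le_layerTop U f N) p hp hidx
  constructor
  · exact (layerIso C U N hf 1).toLinearEquiv.toEquiv.symm.subsingleton
  · rw [← Nat.card_congr (layerIso C U N hf 2).toLinearEquiv.toEquiv]
    exact h2

/-- Consequence: `H¹ = 0` and `#H² ∣ #H` for every subgroup `H` of `Γ ⧸ U`. -/
theorem level_devissage [U.FiniteIndex] (h : LevelPrimeLayers C U) (H : Subgroup (Γ ⧸ U)) :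
    Subsingleton (groupCohomology (Rep.res H.subtype (C.quotientToInvariants U)) 1) ∧
      Nat.card (groupCohomology (Rep.res H.subtype (C.quotientToInvariants U)) 2) ∣ Nat.card H := by
  have : Finite (Γ ⧸ U) := Subgroup.finite_quotient_of_finiteIndex
  exact devissage_subgroup'' _ (primeLayers_quotientToInvariants C U h) H

end Main

section PLevel

variable {Γ : Type} [Group Γ] (C : Rep.{0} k Γ) (U : Subgroup Γ) [U.Normal]

/-- The hypothesis on layers of degree `p` between subgroups `U ≤ V ≤ W` of `Γ` with `W / U` a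
`p`-group. -/
def LevelPPrimeLayers (p : ℕ) : Prop :=
  ∀ (W V : Subgroup Γ), U ≤ V → V ≤ W → (∀ w ∈ W, ∃ j : ℕ, w ^ p ^ j ∈ U) →
    ∀ [(V.subgroupOf W).Normal], (V.subgroupOf W).index = p →
    Subsingleton (groupCohomology
      ((Rep.res W.subtype C).quotientToInvariants (V.subgroupOf W)) 1) ∧
    Nat.card (groupCohomology
      ((Rep.res W.subtype C).quotientToInvariants (V.subgroupOf W)) 2) ∣ p

omit [U.Normal] in
theorem LevelPrimeLayers.levelPPrimeLayers {p : ℕ} (hp : p.Prime) (h : LevelPrimeLayers C U) :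
    LevelPPrimeLayers C U p :=
  fun W V hUV hVW _ _ hidx => h W V hUV hVW p hp hidx

/-- **Level adapter, `p`-version.** -/
theorem pPrimeLayers_quotientToInvariants (p : ℕ) (h : LevelPPrimeLayers C U p) :
    PPrimeLayers p (C.quotientToInvariants U) := by
  intro H' _ _ f hf hH' N _ hN
  have hidx : ((layerBot U f N).subgroupOf (layerTop U f)).index = p := by
    rw [← hN, Subgroup.index_eq_card, Subgroup.index_eq_card]
    exact Nat.card_congr (layerEquiv U N hf).toEquiv
  have hW : ∀ w ∈ layerTop U f, ∃ j : ℕ, w ^ p ^ j ∈ U := by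
    intro w hw
    obtain ⟨h, hh⟩ := hw
    obtain ⟨j, hj⟩ := hH' h
    refine ⟨j, (QuotientGroup.eq_one_iff _).1 ?_⟩
    have : QuotientGroup.mk' U (w ^ p ^ j) = f (h ^ p ^ j) := by
      rw [map_pow, map_pow, hh]
    rw [← QuotientGroup.mk'_apply, this, hj, map_one]
  obtain ⟨h1, h2⟩ := h (layerTop U f) (layerBot U f N) (le_layerBot U f N)
    (layerBot_le_layerTop U f N) hW hidx
  constructor
  · exact (layerIso C U N hf 1).toLinearEquiv.toEquiv.symm.subsingleton
  · rw [← Nat.card_congr (layerIso C U N hf 2).toLinearEquiv.toEquiv]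
    exact h2

/-- Consequence: `H¹ = 0` and `#H² ∣ #H` for every `p`-subgroup `H` of `Γ ⧸ U`. -/
theorem level_devissage_pgroup (p : ℕ) [Fact p.Prime] [U.FiniteIndex]
    (h : LevelPPrimeLayers C U p) (H : Subgroup (Γ ⧸ U)) (hH : IsPGroup p H) :
    Subsingleton (groupCohomology (Rep.res H.subtype (C.quotientToInvariants U)) 1) ∧
      Nat.card (groupCohomology (Rep.res H.subtype (C.quotientToInvariants U)) 2) ∣ Nat.card H := by
  have : Finite (Γ ⧸ U) := Subgroup.finite_quotient_of_finiteIndex
  exact devissage_pgroup p hH _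
    ((pPrimeLayers_quotientToInvariants C U p h).res H.subtype H.subtype_injective)

end PLevel

section Criterion

/-- A group whose order divides `n ≠ 0` and which contains an element of order `n` is generated by
that element. -/
theorem exists_zsmul_eq_of_card_dvd {M : Type*} [AddCommGroup M] (g : M) (n : ℕ) (hn : n ≠ 0)
    (hcard : Nat.card M ∣ n) (hg : addOrderOf g = n) (x : M) : ∃ m : ℤ, x = m • g := by
  have hfin : Finite M :=
    Nat.finite_of_card_ne_zero (fun h0 => hn (by simpa [h0] using hcard))
  have h1 : Nat.card (AddSubgroup.zmultiples g) = n := by rw [Nat.card_zmultiples, hg]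
  have h2 : Nat.card (AddSubgroup.zmultiples g) ∣ Nat.card M :=
    AddSubgroup.card_addSubgroup_dvd_card _
  have h3 : Nat.card (AddSubgroup.zmultiples g) = Nat.card M :=
    Nat.dvd_antisymm h2 (h1 ▸ hcard)
  have h4 : AddSubgroup.zmultiples g = ⊤ := AddSubgroup.eq_top_of_card_eq _ h3
  have hx : x ∈ AddSubgroup.zmultiples g := h4 ▸ AddSubgroup.mem_top x
  obtain ⟨m, hm⟩ := AddSubgroup.mem_zmultiples_iff.1 hx
  exact ⟨m, hm.symm⟩

/-- **Class-module criterion**: prime layers + one class of full order. -/
theorem isClassModule_of_primeLayers {G : Type} [Group G] [Finite G] (C : Rep.{0} k G)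
    (hC : PrimeLayers C) (γ : groupCohomology C 2) (hγ : addOrderOf γ = Nat.card G) :
    IsClassModule C γ where
  h1 H := (devissage_subgroup'' C hC H).1
  h2_gen H x :=
    exists_zsmul_eq_of_card_dvd _ (Nat.card H) Nat.card_pos.ne'
      (devissage_subgroup'' C hC H).2 (addOrderOf_res_eq_card C H 1 γ hγ) x
  h2_order H := addOrderOf_res_eq_card C H 1 γ hγ

/-- The criterion at a level: `C^U` is a class module for `Γ ⧸ U` as soon as the prime layers
above `U` satisfy the two inequalities and `γ` has order `[Γ : U]`. -/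
theorem isClassModule_level {Γ : Type} [Group Γ] (C : Rep.{0} k Γ) (U : Subgroup Γ) [U.Normal]
    [U.FiniteIndex] (h : LevelPrimeLayers C U) (γ : groupCohomology (C.quotientToInvariants U) 2)
    (hγ : addOrderOf γ = U.index) : IsClassModule (C.quotientToInvariants U) γ := by
  have : Finite (Γ ⧸ U) := Subgroup.finite_quotient_of_finiteIndex
  exact isClassModule_of_primeLayers _ (primeLayers_quotientToInvariants C U h) γ
    (by rw [hγ, Subgroup.index_eq_card])

/-- arithmetic core: `|H| = p^a`, `o ∣ |H|`, `ordProj_p |G| ∣ [G:H] * o` ⟹ `o = |H|`. -/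
theorem eq_card_of_ordProj_dvd {p : ℕ} (hp : p.Prime) {cG cH idx o : ℕ} (hG : idx * cH = cG)
    (hG0 : cG ≠ 0) {a : ℕ} (hH : cH = p ^ a) (ho : o ∣ cH) (h : ordProj[p] cG ∣ idx * o) :
    o = cH := by
  have hidx0 : idx ≠ 0 := by rintro rfl; simp at hG; exact hG0 hG.symm
  have hcH0 : cH ≠ 0 := by rintro rfl; simp at hG; exact hG0 hG.symm
  have ho0 : o ≠ 0 := fun h0 => hcH0 (by simpa [h0] using ho)
  -- p-adic valuations
  have h1 : cG.factorization p = idx.factorization p + a := by
    rw [← hG, Nat.factorization_mul hidx0 hcH0, hH, Nat.Prime.factorization_pow hp]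
    simp
  have h2 : cG.factorization p ≤ (idx * o).factorization p :=
    (Nat.Prime.pow_dvd_iff_le_factorization hp (Nat.mul_ne_zero hidx0 ho0)).1 h
  rw [Nat.factorization_mul hidx0 ho0, Finsupp.add_apply, h1] at h2
  have h3 : a ≤ o.factorization p := by omega
  have h4 : p ^ a ∣ o := (Nat.Prime.pow_dvd_iff_le_factorization hp ho0).2 h3
  exact Nat.dvd_antisymm ho (hH ▸ h4)

/-- order of the restriction of `γ` to a `p`-subgroup, when the `p`-part of the order of `γ` is
the full `p`-part of `|G|`. -/
theorem addOrderOf_res_eq_card_of_pgroup (p : ℕ) [hp : Fact p.Prime] {G : Type} [Group G]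
    [Finite G] (C : Rep.{0} k G) (n : ℕ) (γ : groupCohomology C (n + 1))
    (hγ : ordProj[p] (Nat.card G) ∣ addOrderOf γ) (H : Subgroup G) (hH : IsPGroup p H) :
    addOrderOf ((groupCohomology.map H.subtype (𝟙 (Rep.res H.subtype C)) (n + 1)).hom γ) =
      Nat.card H := by
  obtain ⟨a, ha⟩ := IsPGroup.iff_card.mp hH
  refine eq_card_of_ordProj_dvd hp.out (cG := Nat.card G) (idx := H.index) H.index_mul_card
    Nat.card_pos.ne' ha ?_ ?_
  · exact addOrderOf_dvd_of_nsmul_eq_zero (H33.card_nsmul_eq_zero (Rep.res H.subtype C) n _)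
  · exact hγ.trans (addOrderOf_dvd_index_mul_addOrderOf_res C H n γ)

/-- **`p`-class-module criterion**: layers of degree `p` + a class whose order has full
`p`-part. -/
theorem isPClassModule_of_pPrimeLayers (p : ℕ) [Fact p.Prime] {G : Type} [Group G] [Finite G]
    (C : Rep.{0} k G) (hC : PPrimeLayers p C) (γ : groupCohomology C 2)
    (hγ : ordProj[p] (Nat.card G) ∣ addOrderOf γ) : IsPClassModule p C γ where
  h1 H hH := (devissage_pgroup p hH _ (hC.res H.subtype H.subtype_injective)).1
  h2_gen H hH x :=
    exists_zsmul_eq_of_card_dvd _ (Nat.card H) Nat.card_pos.ne'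
      (devissage_pgroup p hH _ (hC.res H.subtype H.subtype_injective)).2
      (addOrderOf_res_eq_card_of_pgroup p C 1 γ hγ H hH) x
  h2_order H hH := addOrderOf_res_eq_card_of_pgroup p C 1 γ hγ H hH

/-- The `p`-criterion at a level. -/
theorem isPClassModule_level (p : ℕ) [Fact p.Prime] {Γ : Type} [Group Γ] (C : Rep.{0} k Γ)
    (U : Subgroup Γ) [U.Normal] [U.FiniteIndex] (h : LevelPPrimeLayers C U p)
    (γ : groupCohomology (C.quotientToInvariants U) 2)
    (hγ : ordProj[p] U.index ∣ addOrderOf γ) : IsPClassModule p (C.quotientToInvariants U) γ := by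
  have : Finite (Γ ⧸ U) := Subgroup.finite_quotient_of_finiteIndex
  exact isPClassModule_of_pPrimeLayers p _ (pPrimeLayers_quotientToInvariants C U p h) γ
    (by rw [← Subgroup.index_eq_card]; exact hγ)

end Criterion

end Fermat.Agent.CFT.H40
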