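import Mathlib
import Fermat.Agent.CFT.H27_ArtinDiv
import Fermat.Agent.S14.H72_SplitCorollaries

set_option autoImplicit false

/-!
# Surjectivity of the Artin map on divisors prime to `S`

(CFT / layer C / package `C-RECIP-tower`, helper81.)

For an abelian extension `L/K` of number fields unramified outside `S`, the Artin map
`H27.artinDiv S L : Multiplicative (DivS S K) →* Gal(L/K)` is surjective.  The proof uses only the
(landed, analytic) fact that in a Galois extension of degree `≥ 2` some prime outside any given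
finite set does not split completely (`S14.H72.exists_degOne_not_mem_splitSet`).
-/

namespace Fermat.Agent.CFT.H81

open NumberField IsDedekindDomain
open Fermat.Agent.CFT.H23 Fermat.Agent.CFT.H27
open scoped IsMulCommutative

noncomputable section

variable (S : Finset Nat.Primes) {K : Type*} [Field K] [NumberField K]

/-- The primes of `K` above `S` are finitely many. -/
theorem finite_primesAbove :
    {v : HeightOneSpectrum (𝓞 K) | ∃ q ∈ S, ((q : ℕ) : 𝓞 K) ∈ v.asIdeal}.Finite := by
  have : {v : HeightOneSpectrum (𝓞 K) | ∃ q ∈ S, ((q : ℕ) : 𝓞 K) ∈ v.asIdeal} =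
      ⋃ q ∈ S, {v : HeightOneSpectrum (𝓞 K) | ((q : ℕ) : 𝓞 K) ∈ v.asIdeal} := by
    ext v; simp
  rw [this]
  refine Set.Finite.biUnion S.finite_toSet fun q _ => ?_
  have hq0 : ((q : ℕ) : 𝓞 K) ≠ 0 := by
    exact_mod_cast q.2.ne_zero
  have hI : Ideal.span {((q : ℕ) : 𝓞 K)} ≠ 0 := by
    rw [Ne, Ideal.zero_eq_bot, Ideal.span_singleton_eq_bot]
    exact hq0
  refine (Ideal.finite_factors hI).subset ?_
  intro v hv
  simp only [Set.mem_ofPred_eq] at hv ⊢
  rw [Ideal.dvd_span_singleton]
  exact hv

variable {S}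
variable (L : Type*) [Field L] [NumberField L] [Algebra K L]

/-- "Unramified outside `S`" passes to intermediate fields. -/
theorem isUnramOutside_intermediateField (hL : IsUnramOutside S K L) (M : IntermediateField K L) :
    IsUnramOutside S K M := by
  intro 𝔓 _ h𝔓 hS
  obtain ⟨⟨𝔔, h𝔔prime, h𝔔over⟩⟩ := 𝔓.nonempty_primesOver (S := 𝓞 L)
  have h𝔔 : 𝔔 ≠ ⊥ := Ideal.ne_bot_of_liesOver_of_ne_bot h𝔓 𝔔
  have hS' : ∀ q ∈ S, ((q : ℕ) : 𝓞 L) ∉ 𝔔 := by
    intro q hq hmem
    apply hS q hq
    rw [Ideal.over_def 𝔔 𝔓, Ideal.under_def, Ideal.mem_comap, map_natCast]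
    exact hmem
  have h1 : 𝔔.ramificationIdx (𝓞 K) = 1 := Ideal.ramificationIdx_eq_one_iff.2 (hL 𝔔 h𝔔 hS')
  have h2 : 𝔓.ramificationIdx (𝓞 K) ∣ 𝔔.ramificationIdx (𝓞 K) :=
    Ideal.ramificationIdx_below_dvd (R := 𝓞 K) (q := 𝔓) (r := 𝔔)
  rw [h1, Nat.dvd_one] at h2
  exact Ideal.ramificationIdx_eq_one_iff.1 h2

variable [IsGalois K L] [IsMulCommutative Gal(L/K)]

omit [NumberField K] [NumberField L] in
/-- The Galois group of a Galois intermediate field of an abelian extension is commutative. -/
theorem isMulCommutative_gal_intermediateField (M : IntermediateField K L) [IsGalois K M] :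
    IsMulCommutative Gal(M/K) := by
  refine ⟨⟨fun a b => ?_⟩⟩
  obtain ⟨a', rfl⟩ := AlgEquiv.restrictNormalHom_surjective L (F := K) (K₁ := M) a
  obtain ⟨b', rfl⟩ := AlgEquiv.restrictNormalHom_surjective L (F := K) (K₁ := M) b
  rw [← map_mul, ← map_mul, mul_comm]

/-- **Surjectivity of the Artin map** on the divisors prime to `S`, for an abelian extension
unramified outside `S`. -/
theorem artinDiv_surjective (hL : IsUnramOutside S K L) :
    Function.Surjective (artinDiv S (K := K) L) := by
  rw [← MonoidHom.range_eq_top]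
  by_contra hne
  set I : Subgroup Gal(L/K) := (artinDiv S (K := K) L).range with hI
  have : I.Normal := ⟨fun n hn g => by rwa [mul_comm g n, mul_inv_cancel_right]⟩
  set M : IntermediateField K L := IntermediateField.fixedField I with hM
  have : IsGalois K M := IsGalois.of_fixedField_normal_subgroup I
  have : IsMulCommutative Gal(M/K) := isMulCommutative_gal_intermediateField L M
  have hfix : M.fixingSubgroup = I := IntermediateField.fixingSubgroup_fixedField I
  have hfin : Module.finrank K M = I.index := by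
    rw [IntermediateField.finrank_eq_fixingSubgroup_index, hfix]
  have h2 : 2 ≤ Module.finrank K M := by
    rw [hfin]
    have h0 : I.index ≠ 0 := Subgroup.index_ne_zero_of_finite
    have h1 : I.index ≠ 1 := fun h => hne (Subgroup.index_eq_one.1 h)
    omega
  obtain ⟨Q, hQsplit, -, hQT⟩ := S14.H72.exists_degOne_not_mem_splitSet K M h2
    (finite_primesAbove S (K := K)).toFinset
  have hQS : ∀ q ∈ S, ((q : ℕ) : 𝓞 K) ∉ Q.asIdeal := by
    intro q hq hmem
    apply hQT
    rw [Set.Finite.mem_toFinset]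
    exact ⟨q, hq, hmem⟩
  let v : PrimesOutside S K := ⟨Q, hQS⟩
  simp only [S14.H72.splitSet, Set.mem_ofPred_eq, not_forall] at hQsplit
  obtain ⟨P, hPprime, hPbot, hPunder, hPef⟩ := hQsplit
  have := hPprime
  have : P.LiesOver Q.asIdeal := ⟨hPunder.symm⟩
  have hMun := isUnramOutside_intermediateField L hL M
  have hPur : Algebra.IsUnramifiedAt (𝓞 K) P := hMun.isUnramifiedAt v P hPbot hPunder
  have he : P.ramificationIdx (𝓞 K) = 1 := Ideal.ramificationIdx_eq_one_iff.2 hPur
  have hf : P.inertiaDeg (𝓞 K) ≠ 1 := fun h => hPef ⟨he, h⟩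
  have hne1 : S14.H27.frobP M Q.asIdeal ≠ 1 :=
    S14.H27.frobP_ne_one_of_inertiaDeg_ne_one Q.asIdeal Q.ne_bot P hPur hf
  have hres : AlgEquiv.restrictNormalHom M (S14.H27.frobP L Q.asIdeal) =
      S14.H27.frobP M Q.asIdeal :=
    S14.H27.restrictNormalHom_frobP Q.asIdeal
      (fun 𝔓 _ h𝔓 hu => hMun.isUnramifiedAt v 𝔓 h𝔓 hu)
  have hmem : S14.H27.frobP L Q.asIdeal ∈ I :=
    ⟨Multiplicative.ofAdd (Finsupp.single v 1), by rw [artinDiv_single, zpow_one]; rfl⟩
  have hker : AlgEquiv.restrictNormalHom M (S14.H27.frobP L Q.asIdeal) = 1 := by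
    rw [← MonoidHom.mem_ker, IntermediateField.restrictNormalHom_ker, hfix]
    exact hmem
  exact hne1 (hres ▸ hker)

/-- Every element of `Gal(L/K)` is an Artin symbol of a divisor prime to `S`. -/
theorem exists_artinDiv_eq (hL : IsUnramOutside S K L) (σ : Gal(L/K)) :
    ∃ D : Multiplicative (DivS S K), artinDiv S L D = σ :=
  artinDiv_surjective L hL σ

end

/-- **Reciprocity isomorphism from surjectivity + second inequality** (pure group theory).
If `Θ : C →* G` is onto the finite group `G`, kills the subgroup `N`, and `[C : N] ≤ |G|`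
(second inequality), then `ker Θ = N`. -/
theorem ker_eq_of_surjective_of_index_le {C G : Type*} [Group C] [Group G] [Finite G]
    (Θ : C →* G) (hΘ : Function.Surjective Θ) (N : Subgroup C) (hN : N ≤ Θ.ker)
    (hidx : N.index ≠ 0) (hle : N.index ≤ Nat.card G) : Θ.ker = N := by
  have h1 : Θ.ker.index = Nat.card G := by
    rw [Subgroup.index_ker, MonoidHom.range_eq_top.2 hΘ, Nat.card_congr Subgroup.topEquiv.toEquiv]
  have h2 : N.relIndex Θ.ker * Θ.ker.index = N.index := Subgroup.relIndex_mul_index hN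
  have h3 : N.relIndex Θ.ker = 1 := by
    have hpos : 0 < Nat.card G := Nat.card_pos
    rw [h1] at h2
    have h4 : N.relIndex Θ.ker ≠ 0 := fun h => hidx (by rw [← h2, h, zero_mul])
    have h5 : N.relIndex Θ.ker * Nat.card G ≤ 1 * Nat.card G := by rw [h2, one_mul]; exact hle
    have h6 := Nat.le_of_mul_le_mul_right h5 hpos
    omega
  exact le_antisymm (Subgroup.relIndex_eq_one.1 h3) hN

/-- Same conclusion in the form `Θ x = 1 → x ∈ N`. -/
theorem mem_of_map_eq_one_of_index_le {C G : Type*} [Group C] [Group G] [Finite G]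
    (Θ : C →* G) (hΘ : Function.Surjective Θ) (N : Subgroup C) (hN : N ≤ Θ.ker)
    (hidx : N.index ≠ 0) (hle : N.index ≤ Nat.card G) {x : C} (hx : Θ x = 1) : x ∈ N := by
  rw [← ker_eq_of_surjective_of_index_le Θ hΘ N hN hidx hle]
  exact hx

end Fermat.Agent.CFT.H81
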