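import Mathlib
import Fermat.Agent.CFT.H12_LayerTower
import Fermat.Agent.CFT.H40_DevissageLevel
import Fermat.Agent.CFT.H27_ArtinDivMaps
import Fermat.Agent.CFT.H81_ArtinSurj
import Fermat.Agent.CFT.H45_TopDivDescent
import Fermat.Agent.CFT.H24_CGlobalAssembly

set_option autoImplicit false
set_option linter.unusedSectionVars false

/-!
# CFT / C-LAYER-GLUE, part B (helper12): from ONE cyclic layer of degree `p` to `PPrimeLayers`

* `layerPairEquiv` : for `F/K` Galois, `N ◁ Gal(F/K)`, `M = F^N` (unramified outside `S` over
  `M`): `H43.PairEquiv (repCS S M K) ((repCS S F K).quotientToInvariants N)`.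
* `CyclicLayerStatement S p` : `H¹ = 0` and `#H² ∣ p` for `repCS S M K`, `M/K` Galois of degree
  `p` unramified outside `S` (= FIRST + SECOND + `H40.cyclic_layer`).
* `pPrimeLayers_repCS` : `CyclicLayerStatement S p → H40.PPrimeLayers p (repCS S F ℚ)` for `F/ℚ`
  Galois unramified outside `S`.
* `unramOutside_of_isUnramifiedOutside` : the frozen predicate gives `H23.UnramOutside S ℚ F`.
* `finiteLevelLayers` : `CyclicLayerStatement S p → H24.FiniteLevelLayers p S`, the `hlay` input of
  `H24.nonempty_pClassFormation_global`.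
-/

namespace Fermat.Agent.CFT.H12

open scoped TensorProduct NumberField
open IsDedekindDomain Fermat.Agent.CFT.H42 Fermat.Agent.CFT.H10 Fermat.Agent.CFT.H23
open CategoryTheory IntermediateField

noncomputable section

section Layer2

variable (S : Finset Nat.Primes) {K F : Type} [Field K] [NumberField K] [Field F] [NumberField F]
  [Algebra K F] [IsGalois K F] (N : Subgroup (F ≃ₐ[K] F)) [N.Normal]

/-- base change from the fixed field of `N` into the `N`-invariants, as a linear map -/
def toInvLin :
    (repCS S ↥(fixedField N) K).V →ₗ[ℤ] ((repCS S F K).quotientToInvariants N).V where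
  toFun c := ⟨Additive.ofMul (CS.baseChange S ↥(fixedField N) F
      (Additive.toMul (show Additive (CS S ↥(fixedField N)) from c))), fun n =>
    congrArg Additive.ofMul (smul_baseChange_of_mem S N n.2 _)⟩
  map_add' x y := Subtype.ext (congrArg Additive.ofMul (map_mul (CS.baseChange S _ F) _ _))
  map_smul' m x := Subtype.ext (by
    change Additive.ofMul (CS.baseChange S _ F (Additive.toMul (m • (show Additive (CS S _) from x))))
      = m • Additive.ofMul (CS.baseChange S _ F (Additive.toMul (show Additive (CS S _) from x)))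
    rw [toMul_zsmul, map_zpow]
    rfl)

theorem toInvLin_coe (c : (repCS S ↥(fixedField N) K).V) :
    ((toInvLin S N c : ((repCS S F K).quotientToInvariants N).V) : (repCS S F K).V) =
      Additive.ofMul (CS.baseChange S ↥(fixedField N) F
        (Additive.toMul (show Additive (CS S ↥(fixedField N)) from c))) := rfl

theorem toInvLin_bijective (hS : S.Nonempty) (hur : UnramOutside S ↥(fixedField N) F) :
    Function.Bijective (toInvLin S N) := by
  have := H23.finiteDimensional_of_numberField K F
  constructor
  · intro x y hxy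
    have h1 := congrArg Subtype.val hxy
    rw [toInvLin_coe, toInvLin_coe] at h1
    have h2 := H23.CS.baseChange_injective S ↥(fixedField N) F hS (Additive.ofMul.injective h1)
    exact Additive.toMul.injective h2
  · intro y
    obtain ⟨c₀, hc₀⟩ := exists_baseChange_eq_of_fixed S N hS hur
      (Additive.toMul (show Additive (CS S F) from y.1)) (fun n hn => by
        have := y.2 ⟨n, hn⟩
        exact congrArg Additive.toMul this)
    refine ⟨(Additive.ofMul c₀ : Additive (CS S ↥(fixedField N))), Subtype.ext ?_⟩
    exact congrArg Additive.ofMul hc₀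

/-- instance shortcut (the generic search is very slow) -/
local instance smulFixedCS :
    SMul (↥(fixedField N) ≃ₐ[K] ↥(fixedField N)) (CS S ↥(fixedField N)) :=
  (H23.csAction S ↥(fixedField N) K).toMulAction.toSMul

/-- **The layer pair equivalence**: `(CS S F)^N` as a `Gal(F/K)/N`-module is `CS S F^N` as a
`Gal(F^N/K)`-module. -/
def layerPairEquiv (hS : S.Nonempty) (hur : UnramOutside S ↥(fixedField N) F) :
    H43.PairEquiv (repCS S ↥(fixedField N) K) ((repCS S F K).quotientToInvariants N) :=
  have := H23.finiteDimensional_of_numberField K F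
  { e := (IsGalois.normalAutEquivQuotient N).symm
    φ := LinearEquiv.ofBijective (toInvLin S N) (toInvLin_bijective S N hS hur)
    comm := fun g c => by
      obtain ⟨σ, rfl⟩ := AlgEquiv.restrictNormalHom_surjective F (F := K)
        (K₁ := ↥(fixedField N)) g
      have he : (IsGalois.normalAutEquivQuotient N).symm
          (AlgEquiv.restrictNormalHom ↥(fixedField N) σ) = QuotientGroup.mk σ := by
        rw [MulEquiv.symm_apply_eq]
        rfl
      rw [he]
      apply Subtype.ext
      change Additive.ofMul (CS.baseChange S ↥(fixedField N) F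
          (AlgEquiv.restrictNormalHom ↥(fixedField N) σ •
            Additive.toMul (show Additive (CS S ↥(fixedField N)) from c))) =
        Additive.ofMul (σ • CS.baseChange S ↥(fixedField N) F
          (Additive.toMul (show Additive (CS S ↥(fixedField N)) from c)))
      rw [smul_CS_baseChange_tower S (restrictsTo_restrictNormalHom N σ)] }

end Layer2

section Unram

open Fermat.Agent.CFT.H27

variable {S : Finset Nat.Primes} {K M F : Type*} [Field K] [NumberField K] [Field M] [NumberField M]
  [Field F] [NumberField F] [Algebra K M] [Algebra M F] [Algebra K F] [IsScalarTower K M F]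

/-- "Unramified outside `S`" passes to the upper layer of a tower. -/
theorem isUnramOutside_top (hF : IsUnramOutside S K F) : IsUnramOutside S M F := by
  rw [isUnramOutside_iff_ramificationIdx] at hF ⊢
  intro 𝔔 _ h𝔔 hS
  have h1 : 𝔔.ramificationIdx (𝓞 K) = 1 := hF 𝔔 h𝔔 hS
  have : 𝔔.LiesOver (𝔔.under (𝓞 M)) := ⟨rfl⟩
  have h2 : 𝔔.ramificationIdx (𝓞 M) ∣ 𝔔.ramificationIdx (𝓞 K) :=
    Ideal.ramificationIdx_above_dvd (R := 𝓞 K) (q := 𝔔.under (𝓞 M)) (r := 𝔔)
  rw [h1, Nat.dvd_one] at h2
  exact h2

end Unram

section Main

open Fermat.Agent.CFT.H27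

variable (S : Finset Nat.Primes)

/-- The hypothesis: one cyclic layer of degree `p` (FIRST + SECOND + cyclic bookkeeping). -/
def CyclicLayerStatement (p : ℕ) : Prop :=
  ∀ (K M : Type) [Field K] [NumberField K] [Field M] [NumberField M] [Algebra K M]
    [IsGalois K M], Nat.card (M ≃ₐ[K] M) = p → H23.UnramOutside S K M →
    Subsingleton (groupCohomology (H23.repCS S M K) 1) ∧
      Nat.card (groupCohomology (H23.repCS S M K) 2) ∣ p

/-- **Finite-level layer glue**: the layers of degree `p` of `repCS S F ℚ` for `F/ℚ` Galois,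
unramified outside `S`, from the statement for ONE cyclic layer of degree `p`. -/
theorem pPrimeLayers_repCS (p : ℕ) (hS : S.Nonempty) (hcyc : CyclicLayerStatement S p)
    (F : Type) [Field F] [NumberField F] [IsGalois ℚ F] (hur : H23.UnramOutside S ℚ F) :
    H40.PPrimeLayers p (H23.repCS S F ℚ) := by
  intro H' _ _ f hf _ N _ hN
  have hfd := H23.finiteDimensional_of_numberField ℚ F
  -- step 1: restriction to the image of `f`
  let E1 := resPairEquiv S f hf
  -- the image of `N`
  let N' : Subgroup (F ≃ₐ[↥(fixedField f.range)] F) := N.map (E1.e : H' →* _)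
  have hN'n : N'.Normal := Subgroup.Normal.map inferInstance _ E1.e.surjective
  have hN'idx : N'.index = p := by rw [← hN]; exact Subgroup.index_map_equiv N E1.e
  let E2 := pairEquivQuotientToInvariants E1 N N' rfl
  -- unramifiedness
  have hF : IsUnramOutside S ℚ F := (isUnramOutside_iff_ramIdx S ℚ F).2 hur
  have hF0 : IsUnramOutside S ↥(fixedField f.range) F := isUnramOutside_top hF
  have hFM : IsUnramOutside S ↥(fixedField N') F := isUnramOutside_top hF0
  have hM0 : IsUnramOutside S ↥(fixedField f.range) ↥(fixedField N') :=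
    H81.isUnramOutside_intermediateField F hF0 (fixedField N')
  -- step 2: the layer
  let E3 := layerPairEquiv S N' hS ((isUnramOutside_iff_ramIdx S _ F).1 hFM)
  let E := E2.trans E3.symm
  have hfd0 : FiniteDimensional ↥(fixedField f.range) F :=
    H23.finiteDimensional_of_numberField _ F
  have hcard : Nat.card (↥(fixedField N') ≃ₐ[↥(fixedField f.range)] ↥(fixedField N')) = p := by
    rw [← Nat.card_congr (IsGalois.normalAutEquivQuotient N').toEquiv, ← Subgroup.index_eq_card,
      hN'idx]
  obtain ⟨h1, h2⟩ := hcyc ↥(fixedField f.range) ↥(fixedField N') hcard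
    ((isUnramOutside_iff_ramIdx S _ _).1 hM0)
  constructor
  · exact (E.cohIso 1).toLinearEquiv.toEquiv.subsingleton
  · rw [Nat.card_congr (E.cohIso 2).toLinearEquiv.toEquiv]
    exact h2

end Main

section Dict

variable {S : Finset Nat.Primes} {F : Type} [Field F] [NumberField F]
  (ι : F →ₐ[ℚ] AlgebraicClosure ℚ)

/-- The frozen predicate "unramified outside `S`" for the image of `ι` gives `e = 1` at every
prime of `F` outside `S`. -/
theorem unramOutside_of_isUnramifiedOutside (hF : ι.fieldRange.IsUnramifiedOutside S) :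
    H23.UnramOutside S ℚ F := by
  intro w
  obtain ⟨A, rfl⟩ := H45.primeOut_surjective ι w
  have h1 : (H45.primeOut ι A).1.valuation F (((A.prime : ℕ) : ℕ) : F) = WithZero.exp (-1 : ℤ) :=
    H45.valuation_prime_eq_exp' ι hF A
  have h2 := H63.valuation_algebraMap_eq (K := ℚ) (H45.primeOut ι A).1 (((A.prime : ℕ) : ℕ) : ℚ)
  rw [map_natCast, h1] at h2
  set u := ((H45.primeOut ι A).1.under (𝓞 ℚ)).valuation ℚ (((A.prime : ℕ) : ℕ) : ℚ) with hu
  have hu0 : u ≠ 0 := by
    rw [hu, Valuation.ne_zero_iff]
    exact_mod_cast A.prime.2.ne_zero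
  have hue : u = WithZero.exp (WithZero.log u) := (WithZero.exp_log hu0).symm
  change WithZero.exp (-1 : ℤ) = u ^ ramIdx ℚ F (H45.primeOut ι A).1 at h2
  rw [hue, ← WithZero.exp_nsmul, WithZero.exp_inj] at h2
  have h3 : ((ramIdx ℚ F (H45.primeOut ι A).1 : ℕ) : ℤ) ∣ 1 :=
    ⟨-WithZero.log u, by rw [nsmul_eq_mul] at h2; linarith⟩
  have h4 : ramIdx ℚ F (H45.primeOut ι A).1 ∣ 1 := by exact_mod_cast h3
  exact Nat.dvd_one.mp h4

/-- **The `hlay` input of `H24.nonempty_pClassFormation_global`** from one cyclic layer. -/
theorem finiteLevelLayers (p : ℕ) [Fact p.Prime] (S : Finset Nat.Primes) (hS : S.Nonempty)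
    (hcyc : CyclicLayerStatement S p) : H24.FiniteLevelLayers p S := by
  intro F _ _ _ ι hF
  exact pPrimeLayers_repCS S p hS hcyc F (unramOutside_of_isUnramifiedOutside ι hF)

end Dict

end

end Fermat.Agent.CFT.H12
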