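import Mathlib

/-!
# CFT / layer C : the bridge of the second inequality, abstract group theory

`index_dvd_index_of_weakApprox` : let `D = J × I` (an "`S`-idele part" `J` and an "ideal part" `I`),
`diag : Kx →* J × I`, `C = (J × I) ⧸ diag.range` and `Nm ≤ C` (the norm subgroup).  If `W ≤ J`
satisfies weak approximation `J = j(Kx) · W` and the classes of `W × 1` are norms, then
`I → C ⧸ Nm` is onto; hence for every subgroup `R ≤ I` whose classes `1 × R` are norms,
`Nm.index ∣ R.index`.
-/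

set_option autoImplicit false

namespace Fermat.Agent.CFT.H79

section Bridge

variable {Kx J I : Type*} [CommGroup Kx] [CommGroup J] [CommGroup I]
  (j : Kx →* J) (i : Kx →* I)

/-- the diagonal map `Kx → J × I` -/
def diagHom : Kx →* J × I := j.prod i

/-- the class of an ideal in `(J × I) ⧸ diag` modulo a subgroup `Nm` -/
def idealToQuot (Nm : Subgroup ((J × I) ⧸ (diagHom j i).range)) :
    I →* ((J × I) ⧸ (diagHom j i).range) ⧸ Nm :=
  (QuotientGroup.mk' Nm).comp ((QuotientGroup.mk' (diagHom j i).range).comp (MonoidHom.inr J I))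

variable {j i}

theorem idealToQuot_surjective (Nm : Subgroup ((J × I) ⧸ (diagHom j i).range)) (W : Subgroup J)
    (hWA : ∀ x : J, ∃ a : Kx, ∃ w ∈ W, x = j a * w)
    (hW : ∀ w ∈ W, (QuotientGroup.mk' (diagHom j i).range (w, 1)) ∈ Nm) :
    Function.Surjective (idealToQuot j i Nm) := by
  intro c
  obtain ⟨c', rfl⟩ := QuotientGroup.mk'_surjective Nm c
  obtain ⟨⟨x, b⟩, rfl⟩ := QuotientGroup.mk'_surjective (diagHom j i).range c'
  obtain ⟨a, w, hw, rfl⟩ := hWA x
  refine ⟨b * (i a)⁻¹, ?_⟩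
  -- `(j a * w, b) = diag a * (w, 1) * (1, b * (i a)⁻¹)`
  have hdecomp : ((j a * w, b) : J × I) = diagHom j i a * ((w, 1) * (1, b * (i a)⁻¹)) := by
    ext
    · simp [diagHom]
    · simp [diagHom, mul_comm]
  have h1 : QuotientGroup.mk' (diagHom j i).range (diagHom j i a) = 1 := by
    rw [QuotientGroup.mk'_apply, QuotientGroup.eq_one_iff]
    exact ⟨a, rfl⟩
  show (QuotientGroup.mk' Nm) ((QuotientGroup.mk' (diagHom j i).range) (1, b * (i a)⁻¹)) =
    (QuotientGroup.mk' Nm) ((QuotientGroup.mk' (diagHom j i).range) (j a * w, b))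
  have h3 : (QuotientGroup.mk' (diagHom j i).range) (j a * w, b) =
      (QuotientGroup.mk' (diagHom j i).range) (1, b * (i a)⁻¹) *
        (QuotientGroup.mk' (diagHom j i).range) (w, 1) := by
    rw [hdecomp, map_mul, h1, one_mul, map_mul, mul_comm]
  rw [h3]
  exact (QuotientGroup.mk'_eq_mk' Nm).mpr ⟨_, hW w hw, rfl⟩

/-- **Abstract bridge.** -/
theorem index_dvd_index_of_weakApprox (Nm : Subgroup ((J × I) ⧸ (diagHom j i).range))
    (W : Subgroup J)
    (hWA : ∀ x : J, ∃ a : Kx, ∃ w ∈ W, x = j a * w)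
    (hW : ∀ w ∈ W, (QuotientGroup.mk' (diagHom j i).range (w, 1)) ∈ Nm)
    (R : Subgroup I)
    (hR : ∀ r ∈ R, (QuotientGroup.mk' (diagHom j i).range ((1 : J), r)) ∈ Nm) :
    Nm.index ∣ R.index := by
  have hsurj := idealToQuot_surjective Nm W hWA hW
  have hker : R ≤ (idealToQuot j i Nm).ker := by
    intro r hr
    rw [MonoidHom.mem_ker]
    show (QuotientGroup.mk' Nm) ((QuotientGroup.mk' (diagHom j i).range) (1, r)) = 1
    rw [QuotientGroup.mk'_apply, QuotientGroup.eq_one_iff]
    exact hR r hr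
  have h1 : (idealToQuot j i Nm).ker.index = Nm.index := by
    rw [Subgroup.index_ker, MonoidHom.range_eq_top.mpr hsurj, Subgroup.card_top,
      Subgroup.index_eq_card]
  rw [← h1]
  exact Subgroup.index_dvd_of_le hker

/-- the principal part is automatically in the kernel: if `j a ∈ W` then `1 × i a` is a norm
class -/
theorem principal_mem_of_mem (Nm : Subgroup ((J × I) ⧸ (diagHom j i).range)) (W : Subgroup J)
    (hW : ∀ w ∈ W, (QuotientGroup.mk' (diagHom j i).range (w, 1)) ∈ Nm)
    (a : Kx) (ha : j a ∈ W) :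
    (QuotientGroup.mk' (diagHom j i).range ((1 : J), i a)) ∈ Nm := by
  have hdecomp : (((1 : J), i a) : J × I) = diagHom j i a * ((j a)⁻¹, 1) := by
    ext
    · simp [diagHom]
    · simp [diagHom]
  have h1 : QuotientGroup.mk' (diagHom j i).range (diagHom j i a) = 1 := by
    rw [QuotientGroup.mk'_apply, QuotientGroup.eq_one_iff]
    exact ⟨a, rfl⟩
  rw [hdecomp, map_mul, h1, one_mul]
  exact hW _ (W.inv_mem ha)

/-- **Abstract bridge, final form**: the subgroup `R` generated by a set `R₀` of norm classes and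
by the principal ideals `i a` with `j a ∈ W`. -/
theorem index_dvd_index_closure (Nm : Subgroup ((J × I) ⧸ (diagHom j i).range))
    (W : Subgroup J)
    (hWA : ∀ x : J, ∃ a : Kx, ∃ w ∈ W, x = j a * w)
    (hW : ∀ w ∈ W, (QuotientGroup.mk' (diagHom j i).range (w, 1)) ∈ Nm)
    (R₀ : Set I)
    (hR₀ : ∀ r ∈ R₀, (QuotientGroup.mk' (diagHom j i).range ((1 : J), r)) ∈ Nm) :
    Nm.index ∣ (Subgroup.closure (R₀ ∪ {r | ∃ a : Kx, j a ∈ W ∧ i a = r})).index := by
  refine index_dvd_index_of_weakApprox Nm W hWA hW _ ?_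
  intro r hr
  have hmem : r ∈ (Nm.comap ((QuotientGroup.mk' (diagHom j i).range).comp
      (MonoidHom.inr J I))) := by
    refine (Subgroup.closure_le _).mpr ?_ hr
    rintro x (hx | ⟨a, ha, rfl⟩)
    · exact hR₀ x hx
    · exact principal_mem_of_mem Nm W hW a ha
  exact hmem

end Bridge

end Fermat.Agent.CFT.H79
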