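import Mathlib
import Fermat.Agent.CFT.H42_AdeleDefs

/-!
# CFT / layer C : the bridge of the second inequality, weak approximation (algebraic form)

For a number field `K` and a rational prime `q`, `intLoc K q` (`Λ_q`) is the image of
`𝓞 K ⊗ ℤ_[q]` in `K ⊗[ℚ] ℚ_[q]` (helper42's `locAlg K q`), and `congrSubgroup Λ N` is the group of
units `w` with `w ≡ 1` and `w⁻¹ ≡ 1` modulo `N Λ`.

* `weakApprox_abstract` : abstract weak approximation (`B = Λ[1/n]`, `Λ = ι K ∩ Λ + n^N Λ`,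
  `1 + n Λ ⊆ Λˣ`).
* `exists_pow_mul_mem_intLoc`, `exists_integer_add_mul_eq`, `exists_mul_eq_one_of_dvd` : the three
  hypotheses for `Λ_q` (`q ∣ n`).
* `weakApprox_pi` : simultaneous weak approximation at finitely many primes.
* `mem_congrSubgroup_of_ratio` : the dictionary with congruences in `𝓞 K`.
-/

set_option autoImplicit false

open scoped TensorProduct NumberField
open Fermat.Agent.CFT.H42

namespace Fermat.Agent.CFT.H79

section Abstract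

variable {B : Type*} [CommRing B]

/-- units `w` of `B` with `w ≡ 1` and `w⁻¹ ≡ 1` modulo `N Λ` -/
def congrSubgroup (Λ : Subring B) (N : ℕ) : Subgroup Bˣ where
  carrier := {w | (∃ z ∈ Λ, (w : B) = 1 + (N : B) * z) ∧
    ∃ z' ∈ Λ, ((w⁻¹ : Bˣ) : B) = 1 + (N : B) * z'}
  mul_mem' := by
    rintro u v ⟨⟨z, hz, hu⟩, ⟨z', hz', hu'⟩⟩ ⟨⟨y, hy, hv⟩, ⟨y', hy', hv'⟩⟩
    have hN : (N : B) ∈ Λ := natCast_mem Λ N
    refine ⟨⟨z + y + N * z * y, ?_, ?_⟩, ⟨z' + y' + N * z' * y', ?_, ?_⟩⟩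
    · exact Λ.add_mem (Λ.add_mem hz hy) (Λ.mul_mem (Λ.mul_mem hN hz) hy)
    · rw [Units.val_mul, hu, hv]; ring
    · exact Λ.add_mem (Λ.add_mem hz' hy') (Λ.mul_mem (Λ.mul_mem hN hz') hy')
    · rw [mul_inv, Units.val_mul, hu', hv']; ring
  one_mem' := ⟨⟨0, Λ.zero_mem, by simp⟩, ⟨0, Λ.zero_mem, by simp⟩⟩
  inv_mem' := by
    rintro u ⟨h1, h2⟩
    exact ⟨h2, by simpa using h1⟩

theorem mem_congrSubgroup_iff {Λ : Subring B} {N : ℕ} {w : Bˣ} :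
    w ∈ congrSubgroup Λ N ↔ (∃ z ∈ Λ, (w : B) = 1 + (N : B) * z) ∧
      ∃ z' ∈ Λ, ((w⁻¹ : Bˣ) : B) = 1 + (N : B) * z' := Iff.rfl

/-- if `1 + N Λ ⊆ Λˣ`, the condition on the inverse is automatic -/
theorem mem_congrSubgroup_of {Λ : Subring B} {N : ℕ}
    (H3 : ∀ z ∈ Λ, ∃ w ∈ Λ, (1 + (N : B) * z) * w = 1) {w : Bˣ} {z : B} (hz : z ∈ Λ)
    (hw : (w : B) = 1 + (N : B) * z) : w ∈ congrSubgroup Λ N := by
  refine ⟨⟨z, hz, hw⟩, ?_⟩
  obtain ⟨w', hw', h⟩ := H3 z hz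
  have h1 : ((w⁻¹ : Bˣ) : B) = w' := by
    rw [← hw] at h
    calc ((w⁻¹ : Bˣ) : B) = ((w⁻¹ : Bˣ) : B) * ((w : B) * w') := by rw [h, mul_one]
      _ = w' := by rw [← mul_assoc, Units.inv_mul, one_mul]
  refine ⟨-(z * w'), Λ.neg_mem (Λ.mul_mem hz hw'), ?_⟩
  rw [h1]
  linear_combination h

theorem congrSubgroup_antitone {Λ : Subring B} {N M : ℕ} (h : N ∣ M) :
    congrSubgroup Λ M ≤ congrSubgroup Λ N := by
  obtain ⟨d, rfl⟩ := h
  rintro w ⟨⟨z, hz, hw⟩, ⟨z', hz', hw'⟩⟩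
  refine ⟨⟨d * z, Λ.mul_mem (natCast_mem Λ d) hz, ?_⟩, ⟨d * z', Λ.mul_mem (natCast_mem Λ d) hz', ?_⟩⟩
  · rw [hw]; push_cast; ring
  · rw [hw']; push_cast; ring

/-- **Abstract weak approximation.**  `B = Λ[1/n]`, `Λ = ι(K) ∩ Λ + n^N Λ` for all `N`,
`1 + n Λ ⊆ Λˣ`: every unit of `B` is `ι a * w` with `w ≡ 1 mod n^m Λ`. -/
theorem weakApprox_abstract {K : Type*} [Field K] [Nontrivial B] (ι : K →+* B) (Λ : Subring B)
    (n : ℕ) (hn : (n : K) ≠ 0)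
    (H1 : ∀ x : B, ∃ k : ℕ, (n : B) ^ k * x ∈ Λ)
    (H2 : ∀ y ∈ Λ, ∀ N : ℕ, ∃ b : K, ∃ z ∈ Λ, y = ι b + (n : B) ^ N * z)
    (H3 : ∀ z ∈ Λ, ∃ w ∈ Λ, (1 + (n : B) * z) * w = 1)
    (x : Bˣ) (m : ℕ) (hm : 1 ≤ m) :
    ∃ a : Kˣ, ∃ w ∈ congrSubgroup Λ (n ^ m), x = Units.map (ι : K →* B) a * w := by
  obtain ⟨k, hk⟩ := H1 (x : B)
  obtain ⟨k', hk'⟩ := H1 ((x⁻¹ : Bˣ) : B)
  set y : B := (n : B) ^ k * x with hy
  set y' : B := (n : B) ^ k' * ((x⁻¹ : Bˣ) : B) with hy'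
  have hyy' : y * y' = (n : B) ^ (k + k') := by
    rw [hy, hy', pow_add]
    have : (x : B) * ((x⁻¹ : Bˣ) : B) = 1 := Units.mul_inv x
    calc (n : B) ^ k * x * ((n : B) ^ k' * ((x⁻¹ : Bˣ) : B))
        = (n : B) ^ k * (n : B) ^ k' * ((x : B) * ((x⁻¹ : Bˣ) : B)) := by ring
      _ = _ := by rw [this, mul_one]
  obtain ⟨b, z, hz, hb⟩ := H2 y hk (k + k' + m)
  -- `n` is a unit of `B`
  have hnB : IsUnit (n : B) := by
    have : (n : B) = ι (n : K) := by simp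
    rw [this]
    exact (IsUnit.mk0 _ hn).map ι
  -- `ι b * y' = n^(k+k') * (1 - n^m z y')`
  have h1 : ι b * y' = (n : B) ^ (k + k') * (1 + (n : B) ^ m * (-(z * y'))) := by
    linear_combination hyy' - y' * hb
  -- the unit `w'`
  have hzy' : -(z * y') ∈ Λ := Λ.neg_mem (Λ.mul_mem hz hk')
  have H3m : ∀ z ∈ Λ, ∃ w ∈ Λ, (1 + ((n ^ m : ℕ) : B) * z) * w = 1 := by
    intro z hz
    obtain ⟨m', rfl⟩ : ∃ m', m = m' + 1 := ⟨m - 1, by omega⟩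
    obtain ⟨w, hw, h⟩ := H3 ((n : B) ^ m' * z) (Λ.mul_mem (Λ.pow_mem (natCast_mem Λ n) m') hz)
    refine ⟨w, hw, ?_⟩
    push_cast
    linear_combination h
  obtain ⟨w'', hw'', hw''1⟩ := H3m _ hzy'
  have hw'unit : IsUnit (1 + ((n ^ m : ℕ) : B) * (-(z * y'))) :=
    IsUnit.of_mul_eq_one _ hw''1
  obtain ⟨w', hw'⟩ := hw'unit
  have hw'mem : w' ∈ congrSubgroup Λ (n ^ m) := mem_congrSubgroup_of H3m hzy' hw'
  -- `ι b = n^k * x * w'`
  have h2 : ι b = (n : B) ^ k * x * w' := by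
    have h3 : ι b * ((n : B) ^ k' * ((x⁻¹ : Bˣ) : B)) = (n : B) ^ (k + k') * w' := by
      rw [hw', ← hy', h1]; push_cast; ring
    have h4 : ι b * (n : B) ^ k' = (n : B) ^ (k + k') * w' * x := by
      calc ι b * (n : B) ^ k' = ι b * ((n : B) ^ k' * ((x⁻¹ : Bˣ) : B)) * x := by
            rw [mul_assoc, mul_assoc, Units.inv_mul, mul_one]
        _ = _ := by rw [h3]
    have h5 : IsUnit ((n : B) ^ k') := hnB.pow k'
    apply h5.mul_right_cancel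
    rw [h4, pow_add]; ring
  have hb0 : b ≠ 0 := by
    rintro rfl
    rw [map_zero] at h2
    have : IsUnit ((n : B) ^ k * x * w') := ((hnB.pow k).mul x.isUnit).mul w'.isUnit
    rw [← h2] at this
    exact not_isUnit_zero this
  refine ⟨Units.mk0 b hb0 / Units.mk0 (n : K) hn ^ k, w'⁻¹, (congrSubgroup Λ (n ^ m)).inv_mem hw'mem, ?_⟩
  apply Units.ext
  have h6 : ((Units.map (ι : K →* B) (Units.mk0 b hb0 / Units.mk0 (n : K) hn ^ k) : Bˣ) : B) *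
      (n : B) ^ k = ι b := by
    rw [Units.coe_map]
    have : (n : B) ^ k = ι ((n : K) ^ k) := by simp
    rw [this]
    show ι _ * ι _ = ι b
    rw [← map_mul]
    congr 1
    rw [Units.val_div_eq_div_val, Units.val_pow_eq_pow_val]
    simp only [Units.val_mk0]
    field_simp
  rw [Units.val_mul]
  apply (hnB.pow k).mul_right_cancel
  calc (x : B) * (n : B) ^ k = (n : B) ^ k * x * w' * ((w'⁻¹ : Bˣ) : B) := by
        rw [mul_assoc _ (w' : B), Units.mul_inv, mul_one, mul_comm]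
    _ = ι b * ((w'⁻¹ : Bˣ) : B) := by rw [h2]
    _ = _ := by rw [← h6]; ring

end Abstract

noncomputable section Concrete

variable (K : Type*) [Field K] [NumberField K] (q : Nat.Primes)

/-- pure tensors `b ⊗ c` with `b ∈ 𝓞 K`, `c ∈ ℤ_[q]` -/
def pureHom : (𝓞 K) × ℤ_[q] →* locAlg K q where
  toFun bc := ((bc.1 : 𝓞 K) : K) ⊗ₜ[ℚ] ((bc.2 : ℤ_[q]) : ℚ_[q])
  map_one' := by
    simp [Algebra.TensorProduct.one_def]
  map_mul' x y := by
    simp [Algebra.TensorProduct.tmul_mul_tmul]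

@[simp] theorem pureHom_apply (b : 𝓞 K) (c : ℤ_[q]) :
    pureHom K q (b, c) = (b : K) ⊗ₜ[ℚ] (c : ℚ_[q]) := rfl

/-- the image `Λ_q` of `𝓞 K ⊗ ℤ_[q]` in `K ⊗[ℚ] ℚ_[q]` -/
def intLoc : Subring (locAlg K q) := Subring.closure (Set.range (pureHom K q))

theorem tmul_mem_intLoc (b : 𝓞 K) (c : ℤ_[q]) : (b : K) ⊗ₜ[ℚ] (c : ℚ_[q]) ∈ intLoc K q :=
  Subring.subset_closure ⟨(b, c), rfl⟩

theorem intLoc_induction {P : locAlg K q → Prop} (h0 : P 0)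
    (hgen : ∀ (b : 𝓞 K) (c : ℤ_[q]), P ((b : K) ⊗ₜ[ℚ] (c : ℚ_[q])))
    (hadd : ∀ x y, P x → P y → P (x + y)) (hneg : ∀ x, P x → P (-x))
    (x : locAlg K q) (hx : x ∈ intLoc K q) : P x := by
  have h1 : x ∈ AddSubgroup.closure ((Submonoid.closure (Set.range (pureHom K q)) :
      Submonoid (locAlg K q)) : Set (locAlg K q)) := Subring.mem_closure_iff.mp hx
  have h2 : Submonoid.closure (Set.range (pureHom K q)) = MonoidHom.mrange (pureHom K q) := by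
    rw [← MonoidHom.coe_mrange, Submonoid.closure_eq]
  rw [h2] at h1
  clear hx h2
  induction h1 using AddSubgroup.closure_induction with
  | mem y hy =>
    obtain ⟨⟨b, c⟩, rfl⟩ := hy
    exact hgen b c
  | zero => exact h0
  | add y z _ _ hy hz => exact hadd y z hy hz
  | neg y _ hy => exact hneg y hy

theorem rat_smul_tmul' (r : ℚ) (a : K) (c : ℚ_[q]) :
    r • (a ⊗ₜ[ℚ] c : locAlg K q) = a ⊗ₜ[ℚ] ((r : ℚ_[q]) * c) := by
  have h2 : (r : ℚ_[q]) * c = r • c := by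
    rw [Algebra.smul_def, eq_ratCast]
  rw [h2, TensorProduct.tmul_smul]

theorem natCast_mul_tmul (n : ℕ) (a : K) (c : ℚ_[q]) :
    (n : locAlg K q) * (a ⊗ₜ[ℚ] c) = a ⊗ₜ[ℚ] ((n : ℚ_[q]) * c) := by
  have := rat_smul_tmul' K q (n : ℚ) a c
  rw [Nat.cast_smul_eq_nsmul, nsmul_eq_mul] at this
  simpa using this

theorem natCast_pow_mul_tmul (n k : ℕ) (a : K) (c : ℚ_[q]) :
    (n : locAlg K q) ^ k * (a ⊗ₜ[ℚ] c) = a ⊗ₜ[ℚ] ((n : ℚ_[q]) ^ k * c) := by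
  have := natCast_mul_tmul K q (n ^ k) a c
  simpa using this

theorem ratCast_mul_tmul (r : ℚ) (a : K) (c : ℚ_[q]) :
    ((r : K) * a) ⊗ₜ[ℚ] c = (a ⊗ₜ[ℚ] ((r : ℚ_[q]) * c) : locAlg K q) := by
  have h1 : (r : K) * a = r • a := by
    rw [Algebra.smul_def, eq_ratCast]
  have h2 : (r : ℚ_[q]) * c = r • c := by
    rw [Algebra.smul_def, eq_ratCast]
  rw [h1, h2, TensorProduct.smul_tmul]

/-- every element of `K` is `s / m` with `s` integral and `m` a nonzero natural number -/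
theorem exists_nat_mul_eq_integer (a : K) :
    ∃ (m : ℕ) (s : 𝓞 K), m ≠ 0 ∧ (m : K) * a = (s : K) := by
  have hx : IsAlgebraic ℤ a := IsFractionRing.isAlgebraic_iff ℤ ℚ K |>.mpr (.of_finite ℚ a)
  obtain ⟨m, s, hm, h⟩ := hx.exists_nsmul_eq (𝓞 K)
  exact ⟨m, s, hm, by rw [← nsmul_eq_mul, h]⟩

/-- `L1`: `K ⊗ ℚ_q = Λ_q[1/n]` when `q ∣ n` -/
theorem exists_pow_mul_mem_intLoc (n : ℕ) (hqn : (q : ℕ) ∣ n) (x : locAlg K q) :
    ∃ k : ℕ, (n : locAlg K q) ^ k * x ∈ intLoc K q := by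
  induction x using TensorProduct.induction_on with
  | zero => exact ⟨0, by simp⟩
  | tmul a c =>
    obtain ⟨m, s, hm, hms⟩ := exists_nat_mul_eq_integer K a
    have hn1 : ‖(n : ℚ_[q])‖ < 1 := Padic.norm_natCast_lt_one_iff.mpr hqn
    have hmq : (m : ℚ_[q]) ≠ 0 := by exact_mod_cast hm
    obtain ⟨k, hk⟩ : ∃ k : ℕ, ‖(n : ℚ_[q])‖ ^ k * ‖c / (m : ℚ_[q])‖ ≤ 1 := by
      have hpos : (0 : ℝ) < 1 / (‖c / (m : ℚ_[q])‖ + 1) := by positivity
      obtain ⟨k, hk⟩ := exists_pow_lt_of_lt_one hpos hn1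
      refine ⟨k, ?_⟩
      have h1 : ‖(n : ℚ_[q])‖ ^ k * ‖c / (m : ℚ_[q])‖ ≤
          1 / (‖c / (m : ℚ_[q])‖ + 1) * ‖c / (m : ℚ_[q])‖ :=
        mul_le_mul_of_nonneg_right hk.le (norm_nonneg _)
      refine h1.trans ?_
      rw [div_mul_eq_mul_div, one_mul, div_le_one (by positivity)]
      linarith
    refine ⟨k, ?_⟩
    have hmem : ‖(n : ℚ_[q]) ^ k * (c / (m : ℚ_[q]))‖ ≤ 1 := by
      rw [norm_mul, norm_pow]; exact hk
    have ha : a = ((m : ℚ)⁻¹ : ℚ) • (s : K) := by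
      rw [← hms, Algebra.smul_def, eq_ratCast]
      have hmK : (m : K) ≠ 0 := by exact_mod_cast hm
      push_cast
      field_simp
    rw [natCast_pow_mul_tmul, ha, TensorProduct.smul_tmul]
    have h3 : ((m : ℚ)⁻¹ : ℚ) • ((n : ℚ_[q]) ^ k * c) =
        ((⟨(n : ℚ_[q]) ^ k * (c / (m : ℚ_[q])), hmem⟩ : ℤ_[q]) : ℚ_[q]) := by
      rw [Algebra.smul_def, eq_ratCast]
      push_cast
      field_simp
    rw [h3]
    exact tmul_mem_intLoc K q s _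
  | add x y hx hy =>
    obtain ⟨k, hk⟩ := hx
    obtain ⟨l, hl⟩ := hy
    refine ⟨k + l, ?_⟩
    have hnΛ : (n : locAlg K q) ∈ intLoc K q := natCast_mem _ n
    have h1 : (n : locAlg K q) ^ (k + l) * (x + y) =
        (n : locAlg K q) ^ l * ((n : locAlg K q) ^ k * x) +
          (n : locAlg K q) ^ k * ((n : locAlg K q) ^ l * y) := by ring
    rw [h1]
    exact (intLoc K q).add_mem ((intLoc K q).mul_mem ((intLoc K q).pow_mem hnΛ l) hk)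
      ((intLoc K q).mul_mem ((intLoc K q).pow_mem hnΛ k) hl)

/-- `ℤ` is dense in `ℤ_q` modulo any nonzero natural number -/
theorem exists_int_add_mul_eq (M : ℕ) (hM : M ≠ 0) (c : ℤ_[q]) :
    ∃ (z₀ : ℕ) (c' : ℤ_[q]), c = (z₀ : ℤ_[q]) + (M : ℤ_[q]) * c' := by
  have hM' : (M : ℤ_[q]) ≠ 0 := by exact_mod_cast hM
  have hspec := PadicInt.unitCoeff_spec hM'
  set u := PadicInt.unitCoeff hM' with hu
  set v := (M : ℤ_[q]).valuation with hv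
  have happr := PadicInt.appr_spec v c
  obtain ⟨t, ht⟩ := Ideal.mem_span_singleton'.mp happr
  refine ⟨PadicInt.appr c v, ((u⁻¹ : ℤ_[q]ˣ) : ℤ_[q]) * t, ?_⟩
  have h1 : (M : ℤ_[q]) * (((u⁻¹ : ℤ_[q]ˣ) : ℤ_[q]) * t) = t * (q : ℤ_[q]) ^ v := by
    rw [hspec]
    calc (u : ℤ_[q]) * (q : ℤ_[q]) ^ v * (((u⁻¹ : ℤ_[q]ˣ) : ℤ_[q]) * t)
        = ((u : ℤ_[q]) * ((u⁻¹ : ℤ_[q]ˣ) : ℤ_[q])) * (t * (q : ℤ_[q]) ^ v) := by ring
      _ = _ := by rw [Units.mul_inv, one_mul]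
  rw [h1, ht]; ring

/-- `L2`: `Λ_q = 𝓞 K + M Λ_q` for every nonzero natural number `M` -/
theorem exists_integer_add_mul_eq (M : ℕ) (hM : M ≠ 0) (y : locAlg K q) (hy : y ∈ intLoc K q) :
    ∃ (b : 𝓞 K), ∃ z ∈ intLoc K q, y = (b : K) ⊗ₜ[ℚ] (1 : ℚ_[q]) + (M : locAlg K q) * z := by
  refine intLoc_induction K q (P := fun y => ∃ (b : 𝓞 K), ∃ z ∈ intLoc K q,
    y = (b : K) ⊗ₜ[ℚ] (1 : ℚ_[q]) + (M : locAlg K q) * z) ?_ ?_ ?_ ?_ y hy
  · exact ⟨0, 0, (intLoc K q).zero_mem, by simp⟩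
  · intro b c
    obtain ⟨z₀, c', hc⟩ := exists_int_add_mul_eq q M hM c
    refine ⟨(z₀ : 𝓞 K) * b, (b : K) ⊗ₜ[ℚ] (c' : ℚ_[q]), tmul_mem_intLoc K q b c', ?_⟩
    rw [natCast_mul_tmul, hc]
    have h1 : (((z₀ : 𝓞 K) * b : 𝓞 K) : K) ⊗ₜ[ℚ] (1 : ℚ_[q]) =
        ((b : K) ⊗ₜ[ℚ] ((z₀ : ℚ_[q])) : locAlg K q) := by
      have := ratCast_mul_tmul K q (z₀ : ℚ) (b : K) 1
      simpa using this
    rw [h1, ← TensorProduct.tmul_add]
    push_cast
    rfl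
  · rintro x y ⟨b, z, hz, rfl⟩ ⟨b', z', hz', rfl⟩
    refine ⟨b + b', z + z', (intLoc K q).add_mem hz hz', ?_⟩
    have h1 : ((b + b' : 𝓞 K) : K) = (b : K) + (b' : K) := map_add (algebraMap (𝓞 K) K) b b'
    rw [h1, TensorProduct.add_tmul]; ring
  · rintro x ⟨b, z, hz, rfl⟩
    refine ⟨-b, -z, (intLoc K q).neg_mem hz, ?_⟩
    have h1 : ((-b : 𝓞 K) : K) = -(b : K) := map_neg (algebraMap (𝓞 K) K) b
    rw [h1, TensorProduct.neg_tmul]; ring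

/-- the ring hom `ℤ_q → Λ_q` -/
def padicIntToIntLoc : ℤ_[q] →+* intLoc K q :=
  RingHom.codRestrict
    ((Algebra.TensorProduct.includeRight (R := ℚ) (A := K) (B := ℚ_[q])).toRingHom.comp
      (PadicInt.Coe.ringHom (p := q))) (intLoc K q) (fun c => by
        have := tmul_mem_intLoc K q 1 c
        have h1 : ((1 : 𝓞 K) : K) = 1 := map_one (algebraMap (𝓞 K) K)
        rw [h1] at this
        exact this)

@[simp] theorem coe_padicIntToIntLoc (c : ℤ_[q]) :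
    ((padicIntToIntLoc K q c : intLoc K q) : locAlg K q) = (1 : K) ⊗ₜ[ℚ] (c : ℚ_[q]) := rfl

/-- the ring hom `𝓞 K → Λ_q` -/
def integerToIntLoc : 𝓞 K →+* intLoc K q :=
  RingHom.codRestrict
    ((Algebra.TensorProduct.includeLeftRingHom (R := ℚ) (A := K) (B := ℚ_[q])).comp
      (algebraMap (𝓞 K) K)) (intLoc K q) (fun b => by
        have := tmul_mem_intLoc K q b 1
        simpa using this)

@[simp] theorem coe_integerToIntLoc (b : 𝓞 K) :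
    ((integerToIntLoc K q b : intLoc K q) : locAlg K q) = (b : K) ⊗ₜ[ℚ] (1 : ℚ_[q]) := rfl

/-- `Λ_q` is integral over `ℤ_q` -/
theorem padicIntToIntLoc_isIntegral : (padicIntToIntLoc K q).IsIntegral := by
  rintro ⟨x, hx⟩
  have key : ∃ hx : x ∈ intLoc K q, (padicIntToIntLoc K q).IsIntegralElem ⟨x, hx⟩ := by
    refine intLoc_induction K q (P := fun x => ∃ hx : x ∈ intLoc K q,
      (padicIntToIntLoc K q).IsIntegralElem ⟨x, hx⟩) ?_ ?_ ?_ ?_ x hx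
    · refine ⟨(intLoc K q).zero_mem, ?_⟩
      have : (⟨0, (intLoc K q).zero_mem⟩ : intLoc K q) = padicIntToIntLoc K q 0 := by
        ext; simp
      rw [this]; exact RingHom.isIntegralElem_map _
    · intro b c
      refine ⟨tmul_mem_intLoc K q b c, ?_⟩
      have h1 : (⟨(b : K) ⊗ₜ[ℚ] (c : ℚ_[q]), tmul_mem_intLoc K q b c⟩ : intLoc K q) =
          integerToIntLoc K q b * padicIntToIntLoc K q c := by
        ext
        simp [Algebra.TensorProduct.tmul_mul_tmul]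
      rw [h1]
      refine RingHom.IsIntegralElem.mul _ ?_ (RingHom.isIntegralElem_map _)
      have hb : IsIntegral ℤ b := NumberField.RingOfIntegers.isIntegral b
      have h2 : ((integerToIntLoc K q).comp (algebraMap ℤ (𝓞 K))).IsIntegralElem
          (integerToIntLoc K q b) := RingHom.IsIntegralElem.map hb _
      have h3 : (integerToIntLoc K q).comp (algebraMap ℤ (𝓞 K)) =
          (padicIntToIntLoc K q).comp (algebraMap ℤ ℤ_[q]) := RingHom.ext_int _ _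
      rw [h3] at h2
      exact RingHom.IsIntegralElem.of_comp h2
    · rintro x y ⟨hx, ix⟩ ⟨hy, iy⟩
      exact ⟨(intLoc K q).add_mem hx hy, RingHom.IsIntegralElem.add _ ix iy⟩
    · rintro x ⟨hx, ix⟩
      exact ⟨(intLoc K q).neg_mem hx, RingHom.IsIntegralElem.neg _ ix⟩
  obtain ⟨_, h⟩ := key
  exact h

/-- `n ∈ Jac(Λ_q)` when `q ∣ n` -/
theorem natCast_mem_jacobson (n : ℕ) (hqn : (q : ℕ) ∣ n) :
    (n : intLoc K q) ∈ Ideal.jacobson (⊥ : Ideal (intLoc K q)) := by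
  rw [Ideal.jacobson, Ideal.mem_sInf]
  rintro M ⟨-, hM⟩
  have hmax : (M.comap (padicIntToIntLoc K q)).IsMaximal :=
    Ideal.isMaximal_comap_of_isIntegral_of_isMaximal' _ (padicIntToIntLoc_isIntegral K q) M
  have hloc : M.comap (padicIntToIntLoc K q) = IsLocalRing.maximalIdeal ℤ_[q] :=
    IsLocalRing.eq_maximalIdeal hmax
  have hn : (n : ℤ_[q]) ∈ IsLocalRing.maximalIdeal ℤ_[q] := by
    rw [IsLocalRing.mem_maximalIdeal, mem_nonunits_iff, PadicInt.isUnit_iff]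
    have h1 : ‖(n : ℚ_[q])‖ < 1 := Padic.norm_natCast_lt_one_iff.mpr hqn
    have h2 : ‖(n : ℤ_[q])‖ = ‖(n : ℚ_[q])‖ := by
      rw [PadicInt.norm_def]; push_cast; rfl
    rw [h2]
    exact h1.ne
  rw [← hloc, Ideal.mem_comap, map_natCast] at hn
  exact hn

/-- `L3`: `1 + n Λ_q ⊆ Λ_qˣ` when `q ∣ n` -/
theorem exists_mul_eq_one_of_dvd (n : ℕ) (hqn : (q : ℕ) ∣ n) (z : locAlg K q)
    (hz : z ∈ intLoc K q) :
    ∃ w ∈ intLoc K q, (1 + (n : locAlg K q) * z) * w = 1 := by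
  have h := natCast_mem_jacobson K q n hqn
  rw [Ideal.mem_jacobson_iff] at h
  obtain ⟨w, hw⟩ := h ⟨z, hz⟩
  rw [Ideal.mem_bot] at hw
  refine ⟨(w : locAlg K q), w.2, ?_⟩
  have h1 : ((w * ⟨z, hz⟩ * (n : intLoc K q) + w - 1 : intLoc K q) : locAlg K q) = 0 := by
    rw [hw]; rfl
  push_cast at h1
  linear_combination h1

instance nontrivial_locAlg : Nontrivial (locAlg K q) :=
  (Algebra.TensorProduct.includeLeft_injective (R := ℚ) (S := K) (A := K) (B := ℚ_[q])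
    (algebraMap ℚ ℚ_[q]).injective).nontrivial

/-- the ideal of `𝓞 K` of elements divisible by `M` in `Λ_q` -/
def congrIdeal (M : ℕ) : Ideal (𝓞 K) :=
  Ideal.comap (integerToIntLoc K q) (Ideal.span {(M : intLoc K q)})

theorem mem_congrIdeal_iff {M : ℕ} {b : 𝓞 K} :
    b ∈ congrIdeal K q M ↔ ∃ z ∈ intLoc K q, (b : K) ⊗ₜ[ℚ] (1 : ℚ_[q]) = (M : locAlg K q) * z := by
  rw [congrIdeal, Ideal.mem_comap, Ideal.mem_span_singleton']
  constructor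
  · rintro ⟨a, ha⟩
    refine ⟨a, a.2, ?_⟩
    have := congrArg (fun t : intLoc K q => (t : locAlg K q)) ha
    simp only [Subring.coe_mul, Subring.coe_natCast, coe_integerToIntLoc] at this
    rw [← this, mul_comm]
  · rintro ⟨z, hz, h⟩
    refine ⟨⟨z, hz⟩, ?_⟩
    ext
    simp only [Subring.coe_mul, Subring.coe_natCast, coe_integerToIntLoc]
    rw [h, mul_comm]

theorem exists_pow_mem_congrIdeal (M : ℕ) (hM : M ≠ 0) :
    ∃ v : ℕ, (((q : ℕ) ^ v : ℕ) : 𝓞 K) ∈ congrIdeal K q M := by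
  have hM' : (M : ℤ_[q]) ≠ 0 := by exact_mod_cast hM
  have hspec := PadicInt.unitCoeff_spec hM'
  set u := PadicInt.unitCoeff hM' with hu
  set v := (M : ℤ_[q]).valuation with hv
  refine ⟨v, ?_⟩
  rw [congrIdeal, Ideal.mem_comap, Ideal.mem_span_singleton']
  refine ⟨padicIntToIntLoc K q ((u⁻¹ : ℤ_[q]ˣ) : ℤ_[q]), ?_⟩
  have h1 : (M : intLoc K q) = padicIntToIntLoc K q (M : ℤ_[q]) := by rw [map_natCast]
  rw [h1, ← map_mul, hspec, ← mul_assoc, Units.inv_mul, one_mul]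
  simp

end Concrete

noncomputable section Product

/-- product of subrings -/
def piSubring {ι : Type*} {R : ι → Type*} [∀ i, Ring (R i)] (Λ : ∀ i, Subring (R i)) :
    Subring (∀ i, R i) where
  carrier := {x | ∀ i, x i ∈ Λ i}
  mul_mem' := fun hx hy i => (Λ i).mul_mem (hx i) (hy i)
  one_mem' := fun i => (Λ i).one_mem
  add_mem' := fun hx hy i => (Λ i).add_mem (hx i) (hy i)
  zero_mem' := fun i => (Λ i).zero_mem
  neg_mem' := fun hx i => (Λ i).neg_mem (hx i)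

theorem mem_piSubring {ι : Type*} {R : ι → Type*} [∀ i, Ring (R i)] {Λ : ∀ i, Subring (R i)}
    {x : ∀ i, R i} : x ∈ piSubring Λ ↔ ∀ i, x i ∈ Λ i := Iff.rfl

variable (K : Type*) [Field K] [NumberField K]

theorem isCoprime_congrIdeal {q q' : Nat.Primes} (hne : q ≠ q') (M : ℕ) (hM : M ≠ 0) :
    IsCoprime (congrIdeal K q M) (congrIdeal K q' M) := by
  obtain ⟨v, hv⟩ := exists_pow_mem_congrIdeal K q M hM
  obtain ⟨v', hv'⟩ := exists_pow_mem_congrIdeal K q' M hM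
  have hcop : Nat.Coprime ((q : ℕ) ^ v) ((q' : ℕ) ^ v') := by
    apply Nat.Coprime.pow
    rw [Nat.coprime_primes q.2 q'.2]
    exact fun h => hne (Subtype.ext h)
  have h2 : IsCoprime (((q : ℕ) ^ v : ℕ) : ℤ) (((q' : ℕ) ^ v' : ℕ) : ℤ) :=
    Nat.isCoprime_iff_coprime.mpr hcop
  obtain ⟨α, β, hαβ⟩ := h2
  rw [Ideal.isCoprime_iff_exists]
  refine ⟨(α : 𝓞 K) * (((q : ℕ) ^ v : ℕ) : 𝓞 K), Ideal.mul_mem_left _ _ hv,
    (β : 𝓞 K) * (((q' : ℕ) ^ v' : ℕ) : 𝓞 K), Ideal.mul_mem_left _ _ hv', ?_⟩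
  have := congrArg (fun t : ℤ => (t : 𝓞 K)) hαβ
  simpa using this

variable {ι : Type*} (qs : ι → Nat.Primes)

/-- the diagonal ring hom `K → Π i, K ⊗ ℚ_{q_i}` -/
def diagRingHom : K →+* (∀ i, locAlg K (qs i)) :=
  RingHom.pi (fun i => (Algebra.TensorProduct.includeLeftRingHom (R := ℚ) (A := K) (B := ℚ_[qs i])))

@[simp] theorem diagRingHom_apply (a : K) (i : ι) :
    diagRingHom K qs a i = a ⊗ₜ[ℚ] (1 : ℚ_[qs i]) := rfl

theorem pi_H1 [Finite ι] (n : ℕ) (hqn : ∀ i, (qs i : ℕ) ∣ n) (x : ∀ i, locAlg K (qs i)) :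
    ∃ k : ℕ, ((n : ∀ i, locAlg K (qs i)) ^ k * x) ∈
      piSubring (fun i => intLoc K (qs i)) := by
  classical
  have := Fintype.ofFinite ι
  choose k hk using fun i => exists_pow_mul_mem_intLoc K (qs i) n (hqn i) (x i)
  refine ⟨Finset.univ.sup k, fun i => ?_⟩
  have hle : k i ≤ Finset.univ.sup k := Finset.le_sup (Finset.mem_univ i)
  obtain ⟨d, hd⟩ := Nat.exists_eq_add_of_le hle
  have h1 : ((n : ∀ i, locAlg K (qs i)) ^ (Finset.univ.sup k) * x) i =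
      (n : locAlg K (qs i)) ^ d * ((n : locAlg K (qs i)) ^ (k i) * x i) := by
    rw [hd, Pi.mul_apply, Pi.pow_apply, Pi.natCast_apply, pow_add]; ring
  rw [h1]
  exact (intLoc K (qs i)).mul_mem ((intLoc K (qs i)).pow_mem (natCast_mem _ n) d) (hk i)

theorem pi_H2 [Finite ι] (hinj : Function.Injective qs) (n : ℕ) (hn : n ≠ 0)
    (y : ∀ i, locAlg K (qs i)) (hy : y ∈ piSubring (fun i => intLoc K (qs i))) (N : ℕ) :
    ∃ b : K, ∃ z ∈ piSubring (fun i => intLoc K (qs i)),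
      y = diagRingHom K qs b + (n : ∀ i, locAlg K (qs i)) ^ N * z := by
  classical
  have hM : n ^ N ≠ 0 := pow_ne_zero N hn
  choose b z hz hyz using fun i => exists_integer_add_mul_eq K (qs i) (n ^ N) hM (y i) (hy i)
  have hcop : Pairwise (Function.onFun IsCoprime (fun i => congrIdeal K (qs i) (n ^ N))) := by
    intro i j hij
    exact isCoprime_congrIdeal K (fun h => hij (hinj h)) (n ^ N) hM
  obtain ⟨b₀, hb₀⟩ := Ideal.exists_forall_sub_mem_ideal hcop b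
  choose z' hz' hbz' using fun i => (mem_congrIdeal_iff K (qs i)).mp (hb₀ i)
  refine ⟨(b₀ : K), fun i => z i - z' i, fun i => (intLoc K (qs i)).sub_mem (hz i) (hz' i), ?_⟩
  funext i
  rw [Pi.add_apply, Pi.mul_apply, Pi.pow_apply, Pi.natCast_apply, diagRingHom_apply, hyz i]
  have h1 : ((b₀ - b i : 𝓞 K) : K) = (b₀ : K) - (b i : K) := map_sub (algebraMap (𝓞 K) K) _ _
  have h2 := hbz' i
  rw [h1, TensorProduct.sub_tmul] at h2
  push_cast at h2 ⊢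
  linear_combination -h2

theorem pi_H3 (n : ℕ) (hqn : ∀ i, (qs i : ℕ) ∣ n)
    (z : ∀ i, locAlg K (qs i)) (hz : z ∈ piSubring (fun i => intLoc K (qs i))) :
    ∃ w ∈ piSubring (fun i => intLoc K (qs i)),
      (1 + (n : ∀ i, locAlg K (qs i)) * z) * w = 1 := by
  choose w hw hzw using fun i => exists_mul_eq_one_of_dvd K (qs i) n (hqn i) (z i) (hz i)
  refine ⟨w, hw, ?_⟩
  funext i
  simpa using hzw i

/-- **Simultaneous weak approximation** at finitely many rational primes `q_i ∣ n`: every family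
of units `x_i ∈ (K ⊗ ℚ_{q_i})ˣ` is `(a ⊗ 1) * w_i` with `a ∈ Kˣ` and `w_i ≡ 1 mod n^m Λ_{q_i}`. -/
theorem weakApprox_pi [Finite ι] (hinj : Function.Injective qs) (n : ℕ) (hn : n ≠ 0)
    (hqn : ∀ i, (qs i : ℕ) ∣ n) (m : ℕ) (hm : 1 ≤ m) (x : ∀ i, (locAlg K (qs i))ˣ) :
    ∃ a : Kˣ, ∀ i, ∃ w ∈ congrSubgroup (intLoc K (qs i)) (n ^ m),
      ((x i : (locAlg K (qs i))ˣ) : locAlg K (qs i)) =
        ((a : K) ⊗ₜ[ℚ] (1 : ℚ_[qs i])) * (w : locAlg K (qs i)) := by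
  rcases isEmpty_or_nonempty ι with hι | hι
  · exact ⟨1, fun i => isEmptyElim i⟩
  obtain ⟨i₀⟩ := hι
  have : Inhabited ι := ⟨i₀⟩
  have hnK : (n : K) ≠ 0 := by exact_mod_cast hn
  obtain ⟨a, w, hw, hxw⟩ := weakApprox_abstract (diagRingHom K qs)
    (piSubring (fun i => intLoc K (qs i))) n hnK (pi_H1 K qs n hqn)
    (fun y hy N => pi_H2 K qs hinj n hn y hy N) (pi_H3 K qs n hqn)
    (MulEquiv.piUnits.symm x) m hm
  refine ⟨a, fun i => ⟨MulEquiv.piUnits w i, ?_, ?_⟩⟩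
  · obtain ⟨⟨z, hz, h1⟩, ⟨z', hz', h2⟩⟩ := hw
    refine ⟨⟨z i, hz i, ?_⟩, ⟨z' i, hz' i, ?_⟩⟩
    · have := congrFun h1 i
      simpa using this
    · have := congrFun h2 i
      simpa using this
  · have h1 := congrArg (fun u : (∀ i, locAlg K (qs i))ˣ => (u : ∀ i, locAlg K (qs i)) i) hxw
    simpa using h1

end Product

noncomputable section Dict

variable (K : Type*) [Field K] [NumberField K] (q : Nat.Primes)

/-- `b ⊗ 1` is a unit of `Λ_q` when `b` is prime to `N` and `q ∣ N` -/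
theorem exists_tmul_one_mul_eq_one (N : ℕ) (hqN : (q : ℕ) ∣ N) (b x y : 𝓞 K)
    (hb : b * x + (N : 𝓞 K) * y = 1) :
    ∃ β ∈ intLoc K q, ((b : K) ⊗ₜ[ℚ] (1 : ℚ_[q]) : locAlg K q) * β = 1 := by
  obtain ⟨w, hw, h⟩ := exists_mul_eq_one_of_dvd K q N hqN (-((y : K) ⊗ₜ[ℚ] (1 : ℚ_[q])))
    ((intLoc K q).neg_mem (by simpa using tmul_mem_intLoc K q y 1))
  refine ⟨((x : K) ⊗ₜ[ℚ] (1 : ℚ_[q])) * w,
    (intLoc K q).mul_mem (by simpa using tmul_mem_intLoc K q x 1) hw, ?_⟩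
  have h1 : ((b : K) ⊗ₜ[ℚ] (1 : ℚ_[q]) : locAlg K q) * ((x : K) ⊗ₜ[ℚ] (1 : ℚ_[q])) =
      1 + (N : locAlg K q) * (-((y : K) ⊗ₜ[ℚ] (1 : ℚ_[q]))) := by
    have h2 : (((b * x + (N : 𝓞 K) * y : 𝓞 K) : K) ⊗ₜ[ℚ] (1 : ℚ_[q]) : locAlg K q) =
        ((1 : 𝓞 K) : K) ⊗ₜ[ℚ] (1 : ℚ_[q]) := by rw [hb]
    have e1 : ((b * x + (N : 𝓞 K) * y : 𝓞 K) : K) = (b : K) * (x : K) + (N : K) * (y : K) := by
      push_cast; ring
    have e2 : ((1 : 𝓞 K) : K) = 1 := map_one (algebraMap (𝓞 K) K)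
    rw [e1, e2, TensorProduct.add_tmul, ← Algebra.TensorProduct.one_def] at h2
    have e3 : ((N : K) * (y : K)) ⊗ₜ[ℚ] (1 : ℚ_[q]) =
        (N : locAlg K q) * ((y : K) ⊗ₜ[ℚ] (1 : ℚ_[q])) := by
      rw [natCast_mul_tmul]
      have := ratCast_mul_tmul K q (N : ℚ) (y : K) 1
      simpa using this
    rw [e3] at h2
    rw [Algebra.TensorProduct.tmul_mul_tmul, mul_one]
    linear_combination h2
  rw [← mul_assoc, h1]
  exact h

/-- **Dictionary** (the direction needed for the bridge): if `a, b ∈ 𝓞 K`, `a` prime to `N`,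
`b ≡ a mod N`, `c = b / a` and `q ∣ N`, then `c ⊗ 1 ∈ 1 + N Λ_q` is in the congruence subgroup. -/
theorem mem_congrSubgroup_of_ratio (N : ℕ) (hqN : (q : ℕ) ∣ N) (a b x y t : 𝓞 K)
    (ha : a * x + (N : 𝓞 K) * y = 1) (hab : b = a + (N : 𝓞 K) * t) (c : K)
    (hc : c * (a : K) = (b : K)) (u : (locAlg K q)ˣ)
    (hu : (u : locAlg K q) = c ⊗ₜ[ℚ] (1 : ℚ_[q])) :
    u ∈ congrSubgroup (intLoc K q) N := by
  obtain ⟨β, hβ, haβ⟩ := exists_tmul_one_mul_eq_one K q N hqN a x y ha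
  refine mem_congrSubgroup_of (exists_mul_eq_one_of_dvd K q N hqN)
    (z := ((t : K) ⊗ₜ[ℚ] (1 : ℚ_[q])) * β)
    ((intLoc K q).mul_mem (by simpa using tmul_mem_intLoc K q t 1) hβ) ?_
  rw [hu]
  have h1 : (c ⊗ₜ[ℚ] (1 : ℚ_[q]) : locAlg K q) * ((a : K) ⊗ₜ[ℚ] (1 : ℚ_[q])) =
      (b : K) ⊗ₜ[ℚ] (1 : ℚ_[q]) := by
    rw [Algebra.TensorProduct.tmul_mul_tmul, mul_one, hc]
  have h2 : ((b : K) ⊗ₜ[ℚ] (1 : ℚ_[q]) : locAlg K q) =
      (a : K) ⊗ₜ[ℚ] (1 : ℚ_[q]) + (N : locAlg K q) * ((t : K) ⊗ₜ[ℚ] (1 : ℚ_[q])) := by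
    have e1 : (b : K) = (a : K) + (N : K) * (t : K) := by
      rw [hab]; push_cast; ring
    have e3 : ((N : K) * (t : K)) ⊗ₜ[ℚ] (1 : ℚ_[q]) =
        (N : locAlg K q) * ((t : K) ⊗ₜ[ℚ] (1 : ℚ_[q])) := by
      rw [natCast_mul_tmul]
      have := ratCast_mul_tmul K q (N : ℚ) (t : K) 1
      simpa using this
    rw [e1, TensorProduct.add_tmul, e3]
  calc (c ⊗ₜ[ℚ] (1 : ℚ_[q]) : locAlg K q)
      = (c ⊗ₜ[ℚ] (1 : ℚ_[q])) * (((a : K) ⊗ₜ[ℚ] (1 : ℚ_[q])) * β) := by rw [haβ, mul_one]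
    _ = ((b : K) ⊗ₜ[ℚ] (1 : ℚ_[q])) * β := by rw [← mul_assoc, h1]
    _ = ((a : K) ⊗ₜ[ℚ] (1 : ℚ_[q])) * β +
          (N : locAlg K q) * (((t : K) ⊗ₜ[ℚ] (1 : ℚ_[q])) * β) := by rw [h2]; ring
    _ = _ := by rw [haβ]

end Dict

end Fermat.Agent.CFT.H79
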