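import Mathlib
import Fermat.Agent.CFT.H23_CDefs
import Fermat.Agent.CFT.H79_SecondBridgeAbstract
import Fermat.Agent.CFT.H79_SecondBridgeWA
import Fermat.Agent.S14.H79_SecondInequalityFinal

/-!
# CFT / layer C : the bridge of the second inequality, assembly on `CS S K`

`index_le_of_bridge` : let `Nm ≤ CS S K` (helper23's hybrid idele class group) be a subgroup such
that
* (`hloc`) the classes of `W × 1` lie in `Nm`, where `W = congrJS K S (n ^ m)` is the group of
  `S`-ideles `w` with `w_q ≡ 1 mod n^m Λ_q` (`n` with prime support `S`, `m ≥ 1`),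
* (`hsplit`) the classes of `1 × v` lie in `Nm` for every prime `v` of `K` outside `S` having a
  degree one prime of `F` above it,
then `Nm.index ≤ [F : K]` — GIVEN the ray class statement `RayDivStatement` (the analytic second
inequality for the ray class group modulo `n^m`, transported to divisors: helper34's
`index_divS_le`).
-/

set_option autoImplicit false

open scoped TensorProduct NumberField
open IsDedekindDomain
open Fermat.Agent.CFT.H42 Fermat.Agent.CFT.H23

namespace Fermat.Agent.CFT.H79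

noncomputable section Main

variable (S : Finset Nat.Primes) (K : Type*) [Field K] [NumberField K]

/-- the congruence subgroup `W_N = ∏_{q ∈ S} (1 + N Λ_q)ˣ` of the `S`-ideles -/
def congrJS (N : ℕ) : Subgroup (JS S K) :=
  Subgroup.pi Set.univ (fun q : S => congrSubgroup (intLoc K q.1) N)

theorem mem_congrJS_iff {N : ℕ} {w : JS S K} :
    w ∈ congrJS S K N ↔ ∀ q : S, w q ∈ congrSubgroup (intLoc K q.1) N := by
  rw [congrJS, Subgroup.mem_pi]
  exact ⟨fun h q => h q (Set.mem_univ q), fun h q _ => h q⟩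

theorem congrJS_antitone {N M : ℕ} (h : N ∣ M) : congrJS S K M ≤ congrJS S K N := by
  intro w hw
  rw [mem_congrJS_iff] at hw ⊢
  exact fun q => congrSubgroup_antitone h (hw q)

/-- **Weak approximation for the `S`-ideles**: `JS S K = Kˣ · W_{n^m}`. -/
theorem weakApprox_JS (n : ℕ) (hn : n ≠ 0) (hqn : ∀ q ∈ S, ((q : Nat.Primes) : ℕ) ∣ n) (m : ℕ)
    (hm : 1 ≤ m) (x : JS S K) :
    ∃ a : Kˣ, ∃ w ∈ congrJS S K (n ^ m), x = diagJ S K a * w := by
  obtain ⟨a, ha⟩ := weakApprox_pi K (fun q : S => (q : Nat.Primes)) Subtype.val_injective n hn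
    (fun q => hqn q.1 q.2) m hm x
  choose w hw hxw using ha
  refine ⟨a, w, (mem_congrJS_iff S K).mpr hw, ?_⟩
  funext q
  apply Units.ext
  rw [Pi.mul_apply, Units.val_mul, hxw q]
  rfl

variable (F : Type*) [Field F] [NumberField F] [Algebra K F]

/-- **The ray class input (BR3)**: every subgroup `R` of the divisors prime to `S` which contains
the primes having a degree one prime of `F` above them and the principal divisors `div (b / a)`,
`a, b ∈ 𝓞 K` prime to `N`, `a ≡ b mod N`, has index `≤ [F : K]`.  (Analytic second inequality for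
the ray class group modulo `N`, transported to divisors.) -/
def RayDivStatement (N : ℕ) : Prop :=
  ∀ R : Subgroup (Multiplicative (DivS S K)),
    (∀ v : PrimesOutside S K, v.1 ∈ Fermat.Agent.S14.H79.splitPrimes K F →
      Multiplicative.ofAdd (Finsupp.single v (1 : ℤ)) ∈ R) →
    (∀ (c : Kˣ) (a b : 𝓞 K), a ≠ 0 → b ≠ 0 →
      (∃ x y : 𝓞 K, a * x + (N : 𝓞 K) * y = 1) → (∃ t : 𝓞 K, b = a + (N : 𝓞 K) * t) →
      (c : K) * (a : K) = (b : K) → divS S K c ∈ R) →
    R.index ≠ 0 ∧ R.index ≤ Module.finrank K F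

/-- **The bridge of the second inequality.** -/
theorem index_le_of_bridge (n m : ℕ) (hm : 1 ≤ m)
    (hn : n ≠ 0) (hqn : ∀ q ∈ S, ((q : Nat.Primes) : ℕ) ∣ n)
    (hray : RayDivStatement S K F (n ^ m))
    (Nm : Subgroup (CS S K))
    (hloc : ∀ w ∈ congrJS S K (n ^ m), toCS S K (w, 1) ∈ Nm)
    (hsplit : ∀ v : PrimesOutside S K, v.1 ∈ Fermat.Agent.S14.H79.splitPrimes K F →
      toCS S K (1, Multiplicative.ofAdd (Finsupp.single v (1 : ℤ))) ∈ Nm) :
    Nm.index ≠ 0 ∧ Nm.index ≤ Module.finrank K F := by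
  set R₀ : Set (Multiplicative (DivS S K)) :=
    {r | ∃ v : PrimesOutside S K, v.1 ∈ Fermat.Agent.S14.H79.splitPrimes K F ∧
      r = Multiplicative.ofAdd (Finsupp.single v (1 : ℤ))} with hR₀
  have hdvd := index_dvd_index_closure (j := diagJ S K) (i := divS S K) Nm (congrJS S K (n ^ m))
    (fun x => weakApprox_JS S K n hn hqn m hm x) hloc R₀ (by
      rintro r ⟨v, hv, rfl⟩
      exact hsplit v hv)
  set R := Subgroup.closure (R₀ ∪ {r | ∃ a : Kˣ, diagJ S K a ∈ congrJS S K (n ^ m) ∧
    divS S K a = r}) with hR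
  obtain ⟨hR0, hRle⟩ := hray R
    (fun v hv => Subgroup.subset_closure (Or.inl ⟨v, hv, rfl⟩))
    (fun c a b _ _ ⟨x, y, hxy⟩ ⟨t, ht⟩ hc => Subgroup.subset_closure (Or.inr ⟨c, by
      rw [mem_congrJS_iff]
      intro q
      have hqN : ((q : Nat.Primes) : ℕ) ∣ n ^ m :=
        dvd_trans (hqn q.1 q.2) (dvd_pow_self n (by omega))
      exact mem_congrSubgroup_of_ratio K q.1 (n ^ m) hqN a b x y t hxy ht (c : K) hc
        (diagJ S K c q) rfl, rfl⟩))
  have hdvd' : Nm.index ∣ R.index := hdvd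
  refine ⟨fun h0 => hR0 ?_, (Nat.le_of_dvd (Nat.pos_of_ne_zero hR0) hdvd').trans hRle⟩
  rw [h0] at hdvd'
  exact Nat.eq_zero_of_zero_dvd hdvd'

end Main


end Fermat.Agent.CFT.H79
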