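import Mathlib
import Fermat.Agent.CFT.H79_SecondBridgeMain
import Fermat.Agent.CFT.H34_RayBridge

/-!
# CFT / layer C : the bridge of the second inequality, final form

`rayDivStatement` discharges the hypothesis `RayDivStatement` of `index_le_of_bridge` from
helper34's `H34.index_divS_le` (analytic second inequality for ray class groups, on divisors).

`index_le_of_local_of_split` : for number fields `K ⊆ F`, a finite set `S` of rational primes,
`n = ` a natural number with prime support `S`, `m ≥ 1`: every subgroup `Nm ≤ CS S K` containing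
the classes of `W_{n^m} × 1` and of `1 × v` (`v` outside `S` with a degree one prime of `F` above)
has index `≤ [F : K]`.
-/

set_option autoImplicit false

open scoped TensorProduct NumberField
open IsDedekindDomain
open Fermat.Agent.CFT.H42 Fermat.Agent.CFT.H23

namespace Fermat.Agent.CFT.H79

noncomputable section Final

variable (S : Finset Nat.Primes) (K : Type*) [Field K] [NumberField K]
  (F : Type*) [Field F] [NumberField F] [Algebra K F]

/-- **BR3** (helper34's `index_divS_le`) in the shape consumed by `index_le_of_bridge`. -/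
theorem rayDivStatement (N : ℕ) (hN0 : N ≠ 0) (hN : ∀ q : Nat.Primes, (q : ℕ) ∣ N ↔ q ∈ S) :
    RayDivStatement S K F N := by
  intro R hsplit hprin
  refine Fermat.Agent.CFT.H34.index_divS_le S N hN0 hN R hsplit ?_
  intro c a b ha hb hab hc
  have hx : ∃ x y : 𝓞 K, a * x + (N : 𝓞 K) * y = 1 := by
    have h1 : IsCoprime a (N : 𝓞 K) := (Ideal.isCoprime_span_singleton_iff a _).mp ha.2
    obtain ⟨u, v, huv⟩ := h1
    exact ⟨u, v, by rw [← huv]; ring⟩
  have ht : ∃ t : 𝓞 K, b = a + (N : 𝓞 K) * t := by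
    obtain ⟨t, ht⟩ := Ideal.mem_span_singleton'.mp hab
    exact ⟨-t, by linear_combination ht⟩
  exact hprin c a b ha.1 hb.1 hx ht hc

/-- **The bridge of the second inequality, final form.** -/
theorem index_le_of_local_of_split (n m : ℕ) (hm : 1 ≤ m)
    (hn : n ≠ 0) (hqn : ∀ q : Nat.Primes, (q : ℕ) ∣ n ↔ q ∈ S)
    (Nm : Subgroup (CS S K))
    (hloc : ∀ w ∈ congrJS S K (n ^ m), toCS S K (w, 1) ∈ Nm)
    (hsplit : ∀ v : PrimesOutside S K, v.1 ∈ Fermat.Agent.S14.H79.splitPrimes K F →
      toCS S K (1, Multiplicative.ofAdd (Finsupp.single v (1 : ℤ))) ∈ Nm) :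
    Nm.index ≠ 0 ∧ Nm.index ≤ Module.finrank K F := by
  refine index_le_of_bridge S K F n m hm hn (fun q hq => (hqn q).mpr hq) ?_ Nm hloc hsplit
  refine rayDivStatement S K F (n ^ m) (pow_ne_zero m hn) ?_
  intro q
  rw [← hqn q]
  constructor
  · exact fun h => q.2.dvd_of_dvd_pow h
  · exact fun h => dvd_trans h (dvd_pow_self n (by omega))

/-- the canonical modulus: the product of the primes in `S` -/
theorem prod_primes_dvd_iff (q : Nat.Primes) : (q : ℕ) ∣ (∏ r ∈ S, (r : ℕ)) ↔ q ∈ S := by
  constructor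
  · intro h
    obtain ⟨r, hr, hqr⟩ := (Prime.dvd_finsetProd_iff (Nat.Prime.prime q.2) _).mp h
    have : (q : ℕ) = r := (Nat.prime_dvd_prime_iff_eq q.2 r.2).mp hqr
    rwa [Subtype.ext this]
  · intro h
    exact Finset.dvd_prod_of_mem _ h

theorem prod_primes_ne_zero : (∏ r ∈ S, (r : ℕ)) ≠ 0 :=
  Finset.prod_ne_zero_iff.mpr (fun r _ => r.2.ne_zero)

/-- **The bridge with the canonical modulus** `(∏_{q ∈ S} q)^m`. -/
theorem index_le_of_local_of_split' (m : ℕ) (hm : 1 ≤ m)
    (Nm : Subgroup (CS S K))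
    (hloc : ∀ w ∈ congrJS S K ((∏ r ∈ S, (r : ℕ)) ^ m), toCS S K (w, 1) ∈ Nm)
    (hsplit : ∀ v : PrimesOutside S K, v.1 ∈ Fermat.Agent.S14.H79.splitPrimes K F →
      toCS S K (1, Multiplicative.ofAdd (Finsupp.single v (1 : ℤ))) ∈ Nm) :
    Nm.index ≠ 0 ∧ Nm.index ≤ Module.finrank K F :=
  index_le_of_local_of_split S K F _ m hm (prod_primes_ne_zero S) (prod_primes_dvd_iff S) Nm hloc
    hsplit

end Final

end Fermat.Agent.CFT.H79
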