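import Mathlib
import Fermat.Agent.CFT.H79_SecondBridgeFinal
import Fermat.Agent.CFT.H39_UnitsPow

/-!
# CFT / layer C : the bridge of the second inequality for extensions of prime degree `p`

* `coordLoc`, `sumLoc`, `mem_intLoc_iff_coord` : coordinates on `K ⊗ ℚ_q` with respect to the
  integral basis; `Λ_q = intLoc K q` is the set of elements with coordinates in `ℤ_q`.
* `isAdicComplete_intLoc` : `Λ_q` is `q`-adically complete.
* `exists_pow_eq_of_mem_congrSubgroup` : `1 + n³ Λ_q` consists of `p`-th powers (`p ∣ n`, `q ∣ n`)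
  (helper39's Hensel lemma `exists_one_add_mul_pow_eq`).
* `index_le_of_pow_mem` : **second inequality, prime degree form**: a subgroup `Nm ≤ CS S K`
  containing all `p`-th powers (`p ∈ S`) and the classes of the primes outside `S` which have a
  degree one prime of `F` above has index `≤ [F : K]`.  For `F / K` Galois of degree `p` and
  `Nm` the norm subgroup the first hypothesis is automatic (`N(c) = c ^ p` for `c ∈ C_K`).
-/

set_option autoImplicit false

open scoped TensorProduct NumberField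
open IsDedekindDomain
open Fermat.Agent.CFT.H42 Fermat.Agent.CFT.H23 Module

namespace Fermat.Agent.CFT.H79

noncomputable section Coord

variable (K : Type*) [Field K] [NumberField K] (q : Nat.Primes)

/-- the index type of the integral basis -/
abbrev IB : Type _ := Free.ChooseBasisIndex ℤ (𝓞 K)

/-- the `i`-th coordinate `K ⊗ ℚ_q → ℚ_q` with respect to the integral basis -/
def coordLoc (i : IB K) : locAlg K q →ₗ[ℚ] ℚ_[q] :=
  (TensorProduct.lid ℚ ℚ_[q]).toLinearMap ∘ₗ
    LinearMap.rTensor ℚ_[q] ((NumberField.integralBasis K).coord i)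

theorem coordLoc_tmul (i : IB K) (a : K) (c : ℚ_[q]) :
    coordLoc K q i (a ⊗ₜ[ℚ] c) = ((NumberField.integralBasis K).repr a i : ℚ_[q]) * c := by
  simp only [coordLoc, LinearMap.coe_comp, LinearEquiv.coe_coe, Function.comp_apply,
    LinearMap.rTensor_tmul, TensorProduct.lid_tmul, Basis.coord_apply]
  rw [Algebra.smul_def, eq_ratCast]

/-- the element with given coordinates -/
def sumLoc (c : IB K → ℚ_[q]) : locAlg K q :=
  ∑ i, (NumberField.integralBasis K i) ⊗ₜ[ℚ] c i

theorem sumLoc_coordLoc (x : locAlg K q) : sumLoc K q (fun i => coordLoc K q i x) = x := by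
  induction x using TensorProduct.induction_on with
  | zero => simp [sumLoc]
  | tmul a c =>
    simp only [sumLoc, coordLoc_tmul]
    have h1 : ∀ i : IB K, (NumberField.integralBasis K i) ⊗ₜ[ℚ]
        (((NumberField.integralBasis K).repr a i : ℚ_[q]) * c) =
        (((NumberField.integralBasis K).repr a i) • NumberField.integralBasis K i) ⊗ₜ[ℚ] c := by
      intro i
      rw [TensorProduct.smul_tmul]
      congr 1
    simp_rw [h1]
    rw [← TensorProduct.sum_tmul, (NumberField.integralBasis K).sum_repr a]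
  | add x y hx hy =>
    have : (fun i => coordLoc K q i (x + y)) =
        (fun i => coordLoc K q i x) + (fun i => coordLoc K q i y) := by
      funext i; simp
    rw [this]
    conv_rhs => rw [← hx, ← hy]
    simp only [sumLoc, Pi.add_apply, TensorProduct.tmul_add, Finset.sum_add_distrib]

theorem coordLoc_sumLoc (c : IB K → ℚ_[q]) (i : IB K) : coordLoc K q i (sumLoc K q c) = c i := by
  classical
  simp only [sumLoc, map_sum, coordLoc_tmul, Basis.repr_self]
  rw [Finset.sum_eq_single i]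
  · simp
  · intro j _ hji
    simp [hji]
  · intro h; exact absurd (Finset.mem_univ i) h

theorem coordLoc_natCast_mul (i : IB K) (N : ℕ) (x : locAlg K q) :
    coordLoc K q i ((N : locAlg K q) * x) = (N : ℚ_[q]) * coordLoc K q i x := by
  rw [← nsmul_eq_mul, map_nsmul, nsmul_eq_mul]

theorem natCast_mul_sumLoc (N : ℕ) (c : IB K → ℚ_[q]) :
    (N : locAlg K q) * sumLoc K q c = sumLoc K q (fun i => (N : ℚ_[q]) * c i) := by
  simp only [sumLoc, Finset.mul_sum, natCast_mul_tmul]

/-- `Λ_q` is the set of elements with coordinates in `ℤ_q` -/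
theorem mem_intLoc_iff_coord (x : locAlg K q) :
    x ∈ intLoc K q ↔ ∀ i, ‖coordLoc K q i x‖ ≤ 1 := by
  constructor
  · intro hx
    refine intLoc_induction K q (P := fun x => ∀ i, ‖coordLoc K q i x‖ ≤ 1) ?_ ?_ ?_ ?_ x hx
    · intro i; simp
    · intro b c i
      rw [coordLoc_tmul]
      have h1 : (NumberField.integralBasis K).repr (b : K) i =
          (algebraMap ℤ ℚ) ((NumberField.RingOfIntegers.basis K).repr b i) :=
        NumberField.integralBasis_repr_apply K b i
      rw [h1, norm_mul]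
      have h2 : ‖(((algebraMap ℤ ℚ) ((NumberField.RingOfIntegers.basis K).repr b i) : ℚ) : ℚ_[q])‖
          ≤ 1 := by
        have : (((algebraMap ℤ ℚ) ((NumberField.RingOfIntegers.basis K).repr b i) : ℚ) : ℚ_[q]) =
            (((NumberField.RingOfIntegers.basis K).repr b i : ℤ) : ℚ_[q]) := by
          simp
        rw [this]
        exact Padic.norm_int_le_one _
      exact mul_le_one₀ h2 (norm_nonneg _) c.2
    · intro x y hx hy i
      rw [map_add]
      exact (Padic.nonarchimedean _ _).trans (max_le (hx i) (hy i))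
    · intro x hx i
      rw [map_neg, norm_neg]; exact hx i
  · intro h
    rw [← sumLoc_coordLoc K q x]
    refine (intLoc K q).sum_mem (fun i _ => ?_)
    have := tmul_mem_intLoc K q (NumberField.RingOfIntegers.basis K i) ⟨coordLoc K q i x, h i⟩
    rwa [NumberField.integralBasis_apply]


/-- the ideal `(q)` of `Λ_q` -/
abbrev qIdeal : Ideal (intLoc K q) := Ideal.span {((q : ℕ) : intLoc K q)}

theorem mem_qIdeal_pow_iff (k : ℕ) (x : intLoc K q) :
    x ∈ (qIdeal K q) ^ k ↔ ∀ i, ‖coordLoc K q i (x : locAlg K q)‖ ≤ ((q : ℕ) : ℝ) ^ (-(k : ℤ)) := by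
  have hq0 : ((q : ℕ) : ℚ_[q]) ≠ 0 := by exact_mod_cast q.2.ne_zero
  have hnorm : ‖(((q : ℕ) ^ k : ℕ) : ℚ_[q])‖ = ((q : ℕ) : ℝ) ^ (-(k : ℤ)) := by
    push_cast
    rw [norm_pow, Padic.norm_p, zpow_neg, zpow_natCast, inv_pow]
  rw [qIdeal, Ideal.span_singleton_pow, Ideal.mem_span_singleton']
  constructor
  · rintro ⟨z, rfl⟩ i
    have h1 : ((z * ((q : ℕ) : intLoc K q) ^ k : intLoc K q) : locAlg K q) =
        (((q : ℕ) ^ k : ℕ) : locAlg K q) * (z : locAlg K q) := by
      push_cast; ring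
    rw [h1, coordLoc_natCast_mul, norm_mul, hnorm]
    have h2 := (mem_intLoc_iff_coord K q (z : locAlg K q)).mp z.2 i
    calc ((q : ℕ) : ℝ) ^ (-(k : ℤ)) * ‖coordLoc K q i (z : locAlg K q)‖
        ≤ ((q : ℕ) : ℝ) ^ (-(k : ℤ)) * 1 :=
          mul_le_mul_of_nonneg_left h2 (zpow_nonneg (Nat.cast_nonneg _) _)
      _ = _ := mul_one _
  · intro h
    have hz : sumLoc K q (fun i => coordLoc K q i (x : locAlg K q) / (((q : ℕ) ^ k : ℕ) : ℚ_[q]))
        ∈ intLoc K q := by
      rw [mem_intLoc_iff_coord]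
      intro i
      rw [coordLoc_sumLoc, norm_div, hnorm]
      have hqpos : (0 : ℝ) < ((q : ℕ) : ℝ) := by exact_mod_cast q.2.pos
      rw [div_le_one (zpow_pos hqpos _)]
      exact h i
    refine ⟨⟨_, hz⟩, ?_⟩
    apply Subtype.ext
    have h1 : (((⟨_, hz⟩ : intLoc K q) * ((q : ℕ) : intLoc K q) ^ k : intLoc K q) : locAlg K q) =
        (((q : ℕ) ^ k : ℕ) : locAlg K q) *
          sumLoc K q (fun i => coordLoc K q i (x : locAlg K q) / (((q : ℕ) ^ k : ℕ) : ℚ_[q])) := by
      push_cast; ring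
    rw [h1, natCast_mul_sumLoc]
    have hqk : (((q : ℕ) ^ k : ℕ) : ℚ_[q]) ≠ 0 := by
      push_cast; exact pow_ne_zero k hq0
    have h2 : (fun i => (((q : ℕ) ^ k : ℕ) : ℚ_[q]) *
        (coordLoc K q i (x : locAlg K q) / (((q : ℕ) ^ k : ℕ) : ℚ_[q]))) =
        fun i => coordLoc K q i (x : locAlg K q) := by
      funext i; field_simp
    rw [h2, sumLoc_coordLoc]


theorem mem_qIdeal_pow_smul_top_iff (k : ℕ) (x : intLoc K q) :
    x ∈ ((qIdeal K q) ^ k • ⊤ : Submodule (intLoc K q) (intLoc K q)) ↔ x ∈ (qIdeal K q) ^ k := by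
  rw [smul_eq_mul, Ideal.mul_top]

instance isHausdorff_intLoc : IsHausdorff (qIdeal K q) (intLoc K q) where
  haus' x hx := by
    have hqpos : (0 : ℝ) < ((q : ℕ) : ℝ) := by exact_mod_cast q.2.pos
    have hq1 : (1 : ℝ) < ((q : ℕ) : ℝ) := by exact_mod_cast q.2.one_lt
    have hc : ∀ i, coordLoc K q i (x : locAlg K q) = 0 := by
      intro i
      by_contra hne
      have hpos : 0 < ‖coordLoc K q i (x : locAlg K q)‖ := norm_pos_iff.mpr hne
      obtain ⟨n, hn⟩ := exists_pow_lt_of_lt_one hpos (inv_lt_one_of_one_lt₀ hq1)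
      have h1 := hx n
      rw [SModEq.zero, mem_qIdeal_pow_smul_top_iff, mem_qIdeal_pow_iff] at h1
      have h2 := h1 i
      rw [zpow_neg, zpow_natCast, ← inv_pow] at h2
      exact absurd h2 (not_le.mpr hn)
    apply Subtype.ext
    rw [← sumLoc_coordLoc K q (x : locAlg K q)]
    simp [sumLoc, hc]

instance isPrecomplete_intLoc : IsPrecomplete (qIdeal K q) (intLoc K q) where
  prec' f hf := by
    have hmax : IsLocalRing.maximalIdeal ℤ_[q] = Ideal.span {((q : ℕ) : ℤ_[q])} :=
      PadicInt.maximalIdeal_eq_span_p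
    -- the coordinate sequences in `ℤ_q`
    let g : IB K → ℕ → ℤ_[q] := fun i n =>
      ⟨coordLoc K q i (f n : locAlg K q), (mem_intLoc_iff_coord K q _).mp (f n).2 i⟩
    have hg : ∀ i, ∀ {m n : ℕ}, m ≤ n → g i m ≡ g i n
        [SMOD ((IsLocalRing.maximalIdeal ℤ_[q]) ^ m • ⊤ : Submodule ℤ_[q] ℤ_[q])] := by
      intro i m n hmn
      have h1 := hf hmn
      rw [SModEq.sub_mem, mem_qIdeal_pow_smul_top_iff, mem_qIdeal_pow_iff] at h1
      rw [SModEq.sub_mem, smul_eq_mul, Ideal.mul_top, hmax, Ideal.span_singleton_pow,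
        ← PadicInt.norm_le_pow_iff_mem_span_pow]
      have h2 := h1 i
      have h3 : ‖g i m - g i n‖ = ‖coordLoc K q i ((f m - f n : intLoc K q) : locAlg K q)‖ := by
        rw [PadicInt.norm_def]
        push_cast
        rw [map_sub]
      rw [h3]
      exact h2
    have hlim : ∀ i, ∃ L : ℤ_[q], ∀ n, g i n ≡ L
        [SMOD ((IsLocalRing.maximalIdeal ℤ_[q]) ^ n • ⊤ : Submodule ℤ_[q] ℤ_[q])] :=
      fun i => IsPrecomplete.prec inferInstance (hg i)
    choose L hL using hlim
    have hLmem : sumLoc K q (fun i => ((L i : ℤ_[q]) : ℚ_[q])) ∈ intLoc K q := by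
      rw [mem_intLoc_iff_coord]
      intro i
      rw [coordLoc_sumLoc]
      exact (L i).2
    refine ⟨⟨_, hLmem⟩, fun n => ?_⟩
    rw [SModEq.sub_mem, mem_qIdeal_pow_smul_top_iff, mem_qIdeal_pow_iff]
    intro i
    have h1 := hL i n
    rw [SModEq.sub_mem, smul_eq_mul, Ideal.mul_top, hmax, Ideal.span_singleton_pow,
      ← PadicInt.norm_le_pow_iff_mem_span_pow] at h1
    have h3 : ‖g i n - L i‖ =
        ‖coordLoc K q i ((f n - ⟨_, hLmem⟩ : intLoc K q) : locAlg K q)‖ := by
      rw [PadicInt.norm_def]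
      push_cast
      rw [map_sub, coordLoc_sumLoc]
    rw [← h3]
    exact h1

instance isAdicComplete_intLoc : IsAdicComplete (qIdeal K q) (intLoc K q) where


/-- **Units close to `1` are `p`-th powers** (`p ∣ n`, `q ∣ n`): `1 + n³ Λ_q ⊆ ((1 + n Λ_q)ˣ)^p`. -/
theorem exists_pow_eq_of_mem_congrSubgroup (p n : ℕ) (hp : p ≠ 0) (hqn : (q : ℕ) ∣ n)
    (hpn : p ∣ n) (w : (locAlg K q)ˣ) (hw : w ∈ congrSubgroup (intLoc K q) (n ^ 3)) :
    ∃ y ∈ congrSubgroup (intLoc K q) n, y ^ p = w := by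
  obtain ⟨⟨z, hz, hwz⟩, -⟩ := hw
  obtain ⟨n'', rfl⟩ := hpn
  have hx : (((p * n'' : ℕ)) : intLoc K q) ∈ qIdeal K q := by
    obtain ⟨d, hd⟩ := hqn
    rw [hd, Nat.cast_mul]
    exact Ideal.mul_mem_right _ _ (Ideal.subset_span rfl)
  obtain ⟨s, hs⟩ := Fermat.Agent.CFT.H39.exists_one_add_mul_pow_eq (qIdeal K q) p hx
    (((n'' : ℕ) : intLoc K q) ^ 2 * ⟨z, hz⟩)
  -- the `p`-th root in `B`
  set y₀ : locAlg K q := 1 + (p : locAlg K q) * ((p * n'' : ℕ) : locAlg K q) * (s : locAlg K q)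
    with hy₀
  have hpow : y₀ ^ p = (w : locAlg K q) := by
    have h1 := congrArg (fun t : intLoc K q => (t : locAlg K q)) hs
    simp only [Subring.coe_pow, Subring.coe_add, Subring.coe_one, Subring.coe_mul,
      Subring.coe_natCast] at h1
    rw [hy₀, h1, hwz]
    push_cast
    ring
  have hunit : IsUnit y₀ := by
    rw [← isUnit_pow_iff hp, hpow]
    exact w.isUnit
  refine ⟨hunit.unit, ?_, ?_⟩
  · refine mem_congrSubgroup_of (exists_mul_eq_one_of_dvd K q (p * n'') hqn)
      (z := (p : locAlg K q) * (s : locAlg K q))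
      ((intLoc K q).mul_mem (natCast_mem _ p) s.2) ?_
    rw [IsUnit.unit_spec, hy₀]
    ring
  · apply Units.ext
    rw [Units.val_pow_eq_pow_val, IsUnit.unit_spec, hpow]

end Coord

noncomputable section PrimeDegree

variable (S : Finset Nat.Primes) (K : Type*) [Field K] [NumberField K]
  (F : Type*) [Field F] [NumberField F] [Algebra K F]

/-- the `S`-ideles close to `1` are `p`-th powers -/
theorem exists_pow_eq_of_mem_congrJS (p n : ℕ) (hp : p ≠ 0)
    (hqn : ∀ q ∈ S, ((q : Nat.Primes) : ℕ) ∣ n) (hpn : p ∣ n) (w : JS S K)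
    (hw : w ∈ congrJS S K (n ^ 3)) : ∃ y : JS S K, y ^ p = w := by
  rw [mem_congrJS_iff] at hw
  choose y _ hy using fun q : S =>
    exists_pow_eq_of_mem_congrSubgroup K q.1 p n hp (hqn q.1 q.2) hpn (w q) (hw q)
  exact ⟨y, funext fun q => by rw [Pi.pow_apply, hy q]⟩

/-- **Second inequality, prime degree form.** -/
theorem index_le_of_pow_mem (p n : ℕ) (hp : p ≠ 0) (hn : n ≠ 0)
    (hqn : ∀ q : Nat.Primes, (q : ℕ) ∣ n ↔ q ∈ S) (hpn : p ∣ n)
    (Nm : Subgroup (CS S K)) (hpow : ∀ c : CS S K, c ^ p ∈ Nm)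
    (hsplit : ∀ v : PrimesOutside S K, v.1 ∈ Fermat.Agent.S14.H79.splitPrimes K F →
      toCS S K (1, Multiplicative.ofAdd (Finsupp.single v (1 : ℤ))) ∈ Nm) :
    Nm.index ≠ 0 ∧ Nm.index ≤ Module.finrank K F := by
  refine index_le_of_local_of_split S K F n 3 (by norm_num) hn hqn Nm ?_ hsplit
  intro w hw
  obtain ⟨y, rfl⟩ := exists_pow_eq_of_mem_congrJS S K p n hp (fun q hq => (hqn q).mpr hq) hpn w hw
  have h1 : ((y ^ p, 1) : IdS S K) = ((y, 1) : IdS S K) ^ p := by
    ext <;> simp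
  rw [h1, map_pow]
  exact hpow _

/-- the same with the canonical modulus `∏_{q ∈ S} q`, `p ∈ S` -/
theorem index_le_of_pow_mem' (p : Nat.Primes) (hpS : p ∈ S)
    (Nm : Subgroup (CS S K)) (hpow : ∀ c : CS S K, c ^ (p : ℕ) ∈ Nm)
    (hsplit : ∀ v : PrimesOutside S K, v.1 ∈ Fermat.Agent.S14.H79.splitPrimes K F →
      toCS S K (1, Multiplicative.ofAdd (Finsupp.single v (1 : ℤ))) ∈ Nm) :
    Nm.index ≠ 0 ∧ Nm.index ≤ Module.finrank K F :=
  index_le_of_pow_mem S K F p (∏ r ∈ S, (r : ℕ)) p.2.ne_zero (prod_primes_ne_zero S)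
    (prod_primes_dvd_iff S) ((prod_primes_dvd_iff S p).mpr hpS) Nm hpow hsplit

end PrimeDegree

end Fermat.Agent.CFT.H79
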