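/-
CFT layer C, package C-RECIP-tower-norm-reduction (helper90), part 2:
the divisor of a norm.  For number fields `K ⊆ F`, `x ∈ Fˣ` and a prime `v` of `K`:
`ord_v (N_{F/K} x) = ∑_{w ∣ v} f(w|v) · ord_w x`, hence
`H27.normDiv S K (divS S F x) = divS S K (N_{F/K} x)`.
-/
import Mathlib
import Fermat.Agent.CFT.H23_CMaps
import Fermat.Agent.CFT.H27_ArtinDiv

set_option autoImplicit false

namespace Fermat.Agent.CFT.H90

open scoped NumberField
open IsDedekindDomain Fermat.Agent.CFT.H23 Fermat.Agent.CFT.H10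

noncomputable section

/-! ### Multiplicities of primes -/

section Mult

variable {R : Type*} [CommRing R] [IsDedekindDomain R]

theorem finiteMultiplicity_asIdeal (v : HeightOneSpectrum R) {I : Ideal R} (hI : I ≠ ⊥) :
    FiniteMultiplicity v.asIdeal I :=
  FiniteMultiplicity.of_prime_left v.prime hI

open scoped Classical in
theorem multiplicity_asIdeal_asIdeal (v u : HeightOneSpectrum R) :
    multiplicity v.asIdeal u.asIdeal = if u = v then 1 else 0 := by
  split_ifs with h
  · rw [h, multiplicity_self]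
  · rw [multiplicity_eq_zero, Ideal.dvd_iff_le]
    intro hle
    apply h
    apply HeightOneSpectrum.ext
    exact (u.isMaximal.eq_of_le v.isPrime.ne_top hle)

end Mult

/-! ### The multiplicity of a prime in a relative norm -/

section RelNorm

variable (K F : Type*) [Field K] [NumberField K] [Field F] [NumberField F] [Algebra K F]

/-- The (finite) set of primes of `F` above a prime of `K`. -/
def primesAbove (v : HeightOneSpectrum (𝓞 K)) : Finset (HeightOneSpectrum (𝓞 F)) :=
  (finite_setOf_under_eq K F v).toFinset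

theorem mem_primesAbove {v : HeightOneSpectrum (𝓞 K)} {w : HeightOneSpectrum (𝓞 F)} :
    w ∈ primesAbove K F v ↔ w.under (𝓞 K) = v := by
  simp [primesAbove]

theorem multiplicity_relNorm (v : HeightOneSpectrum (𝓞 K)) (I : Ideal (𝓞 F)) (hI : I ≠ ⊥) :
    multiplicity v.asIdeal (Ideal.relNorm (𝓞 K) I) =
      ∑ w ∈ primesAbove K F v, w.asIdeal.inertiaDeg (𝓞 K) * multiplicity w.asIdeal I := by
  classical
  revert hI
  induction I using UniqueFactorizationMonoid.induction_on_prime with
  | h₁ => intro h; exact absurd rfl h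
  | h₂ I hI =>
    intro _
    have hI' : I = ⊤ := Ideal.isUnit_iff.1 hI
    subst hI'
    rw [Ideal.relNorm_top, ← Ideal.one_eq_top,
      multiplicity_of_one_right v.prime.not_isUnit]
    symm
    apply Finset.sum_eq_zero
    intro w _
    rw [← Ideal.one_eq_top, multiplicity_of_one_right w.prime.not_isUnit, mul_zero]
  | h₃ I P hI hP ih =>
    intro _
    have hP0 : P ≠ ⊥ := hP.ne_zero
    have hPprime : P.IsPrime := Ideal.isPrime_of_prime hP
    let w₀ : HeightOneSpectrum (𝓞 F) := ⟨P, hPprime, hP0⟩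
    have hPI : P * I ≠ ⊥ := mul_ne_zero hP0 hI
    have hrel : Ideal.relNorm (𝓞 K) (P * I) ≠ ⊥ := by
      rwa [Ne, Ideal.relNorm_eq_bot_iff]
    rw [map_mul] at hrel ⊢
    rw [multiplicity_mul v.prime (finiteMultiplicity_asIdeal v hrel), ih hI]
    have hsum : ∑ w ∈ primesAbove K F v,
        w.asIdeal.inertiaDeg (𝓞 K) * multiplicity w.asIdeal (P * I) =
        ∑ w ∈ primesAbove K F v, w.asIdeal.inertiaDeg (𝓞 K) * multiplicity w.asIdeal P +
        ∑ w ∈ primesAbove K F v, w.asIdeal.inertiaDeg (𝓞 K) * multiplicity w.asIdeal I := by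
      rw [← Finset.sum_add_distrib]
      apply Finset.sum_congr rfl
      intro w _
      rw [multiplicity_mul w.prime (finiteMultiplicity_asIdeal w hPI), mul_add]
    rw [hsum]
    congr 1
    -- the prime `P`
    have hrelP : Ideal.relNorm (𝓞 K) P = (w₀.under (𝓞 K)).asIdeal ^ P.inertiaDeg (𝓞 K) :=
      S14.H27.relNorm_prime P hP0
    rw [hrelP, (finiteMultiplicity_asIdeal v (w₀.under (𝓞 K)).ne_bot).multiplicity_pow v.prime,
      multiplicity_asIdeal_asIdeal]
    have hterm : ∀ w ∈ primesAbove K F v,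
        w.asIdeal.inertiaDeg (𝓞 K) * multiplicity w.asIdeal P =
          if w = w₀ then P.inertiaDeg (𝓞 K) else 0 := by
      intro w _
      have := multiplicity_asIdeal_asIdeal w w₀
      rw [show w₀.asIdeal = P from rfl] at this
      rw [this]
      by_cases hw : w₀ = w
      · rw [if_pos hw, if_pos hw.symm, mul_one, ← hw]
      · rw [if_neg hw, if_neg (Ne.symm hw), mul_zero]
    rw [Finset.sum_congr rfl hterm, Finset.sum_ite_eq']
    by_cases hv : w₀.under (𝓞 K) = v
    · rw [if_pos hv, if_pos ((mem_primesAbove K F).2 hv), mul_one]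
    · rw [if_neg hv, if_neg (fun h => hv ((mem_primesAbove K F).1 h)), mul_zero]

end RelNorm

/-! ### The order of a norm -/

section Ord

variable (K F : Type*) [Field K] [NumberField K] [Field F] [NumberField F] [Algebra K F]

theorem toAdd_ordAt_of_eq (w : HeightOneSpectrum (𝓞 F)) (x : Fˣ) (r : 𝓞 F)
    (hr : (x : F) = algebraMap (𝓞 F) F r) :
    Multiplicative.toAdd (ordAt F w x) = (multiplicity w.asIdeal (Ideal.span {r}) : ℤ) := by
  have hr0 : r ≠ 0 := by
    rintro rfl
    rw [map_zero] at hr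
    exact x.ne_zero hr
  have h1 : ((ordHom F w x : Multiplicative ℤ) : WithZero (Multiplicative ℤ)) =
      WithZero.exp (-(multiplicity w.asIdeal (Ideal.span {r}) : ℤ)) := by
    rw [coe_ordHom, hr, HeightOneSpectrum.valuation_of_algebraMap,
      HeightOneSpectrum.intValuation_eq_exp_neg_multiplicity w hr0]
  have h2 : ordHom F w x = Multiplicative.ofAdd (-(multiplicity w.asIdeal (Ideal.span {r}) : ℤ)) :=
    WithZero.coe_injective h1
  rw [ordAt_apply, h2, ← ofAdd_neg, neg_neg, toAdd_ofAdd]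

/-- The homomorphism `x ↦ ord_v (N x)`. -/
def ordNormHom (v : HeightOneSpectrum (𝓞 K)) : Fˣ →* Multiplicative ℤ :=
  (ordAt K v).comp (Units.map (Algebra.norm K : F →* K))

/-- The homomorphism `x ↦ ∑_{w ∣ v} f(w|v) ord_w x`. -/
def sumOrdHom (v : HeightOneSpectrum (𝓞 K)) : Fˣ →* Multiplicative ℤ :=
  ∏ w ∈ primesAbove K F v, (ordAt F w) ^ (w.asIdeal.inertiaDeg (𝓞 K))

theorem toAdd_sumOrdHom (v : HeightOneSpectrum (𝓞 K)) (x : Fˣ) :
    Multiplicative.toAdd (sumOrdHom K F v x) =
      ∑ w ∈ primesAbove K F v,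
        (w.asIdeal.inertiaDeg (𝓞 K) : ℤ) * Multiplicative.toAdd (ordAt F w x) := by
  unfold sumOrdHom
  rw [MonoidHom.finsetProd_apply, toAdd_prod]
  apply Finset.sum_congr rfl
  intro w _
  rw [MonoidHom.pow_apply, toAdd_pow, nsmul_eq_mul]

theorem ordNormHom_eq_sumOrdHom_of_integral (v : HeightOneSpectrum (𝓞 K)) (x : Fˣ) (r : 𝓞 F)
    (hr : (x : F) = algebraMap (𝓞 F) F r) : ordNormHom K F v x = sumOrdHom K F v x := by
  apply Multiplicative.toAdd.injective
  have hr0 : r ≠ 0 := by
    rintro rfl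
    rw [map_zero] at hr
    exact x.ne_zero hr
  have hN : ((Units.map (Algebra.norm K : F →* K) x : Kˣ) : K) =
      algebraMap (𝓞 K) K (Algebra.intNorm (𝓞 K) (𝓞 F) r) := by
    rw [Units.coe_map, hr]
    exact (Algebra.algebraMap_intNorm (A := 𝓞 K) (K := K) (L := F) (B := 𝓞 F) r).symm
  have h1 : Multiplicative.toAdd (ordNormHom K F v x) =
      (multiplicity v.asIdeal (Ideal.span {Algebra.intNorm (𝓞 K) (𝓞 F) r}) : ℤ) :=
    toAdd_ordAt_of_eq K v _ _ hN
  rw [h1, toAdd_sumOrdHom, ← Ideal.relNorm_singleton, multiplicity_relNorm K F v _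
    (by rwa [Ne, Ideal.span_singleton_eq_bot]), Nat.cast_sum]
  apply Finset.sum_congr rfl
  intro w _
  rw [Nat.cast_mul, toAdd_ordAt_of_eq F w x r hr]

/-- **The order of a norm**: `ord_v (N_{F/K} x) = ∑_{w ∣ v} f(w|v) · ord_w x`. -/
theorem ordNormHom_eq_sumOrdHom (v : HeightOneSpectrum (𝓞 K)) :
    ordNormHom K F v = sumOrdHom K F v := by
  refine MonoidHom.ext fun x => ?_
  obtain ⟨a, b, hb, hab⟩ := IsFractionRing.div_surjective (A := 𝓞 F) (x : F)
  have hb0 : algebraMap (𝓞 F) F b ≠ 0 := by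
    simpa using nonZeroDivisors.ne_zero hb
  have ha0 : algebraMap (𝓞 F) F a ≠ 0 := by
    intro h
    rw [h, zero_div] at hab
    exact x.ne_zero hab.symm
  let xa : Fˣ := Units.mk0 _ ha0
  let xb : Fˣ := Units.mk0 _ hb0
  have hx : x = xa / xb := by
    apply Units.ext
    rw [Units.val_div_eq_div_val]
    exact hab.symm
  rw [hx, map_div, map_div, ordNormHom_eq_sumOrdHom_of_integral K F v xa a rfl,
    ordNormHom_eq_sumOrdHom_of_integral K F v xb b rfl]

theorem toAdd_ordAt_norm (v : HeightOneSpectrum (𝓞 K)) (x : Fˣ) :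
    Multiplicative.toAdd (ordAt K v (Units.map (Algebra.norm K : F →* K) x)) =
      ∑ w ∈ primesAbove K F v,
        (w.asIdeal.inertiaDeg (𝓞 K) : ℤ) * Multiplicative.toAdd (ordAt F w x) := by
  rw [← toAdd_sumOrdHom, ← ordNormHom_eq_sumOrdHom]
  rfl

end Ord

/-! ### The norm of a principal divisor -/

section NormDiv

variable (S : Finset Nat.Primes) (K F : Type*) [Field K] [NumberField K] [Field F] [NumberField F]
  [Algebra K F]

open scoped Classical in
/-- Extension by zero of a divisor prime to `S` to all primes. -/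
def extZ (D : DivS S F) (w : HeightOneSpectrum (𝓞 F)) : ℤ :=
  if h : ∀ q ∈ S, ((q : ℕ) : 𝓞 F) ∉ w.asIdeal then D ⟨w, h⟩ else 0

theorem extZ_of_outside (D : DivS S F) (w : PrimesOutside S F) : extZ S F D w.1 = D w :=
  dif_pos w.2

theorem extZ_mk (D : DivS S F) (w : HeightOneSpectrum (𝓞 F))
    (h : ∀ q ∈ S, ((q : ℕ) : 𝓞 F) ∉ w.asIdeal) : extZ S F D w = D ⟨w, h⟩ :=
  dif_pos h

theorem extZ_of_not (D : DivS S F) (w : HeightOneSpectrum (𝓞 F))
    (h : ¬ ∀ q ∈ S, ((q : ℕ) : 𝓞 F) ∉ w.asIdeal) : extZ S F D w = 0 :=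
  dif_neg h

theorem extZ_zero (w : HeightOneSpectrum (𝓞 F)) : extZ S F 0 w = 0 := by
  by_cases h : ∀ q ∈ S, ((q : ℕ) : 𝓞 F) ∉ w.asIdeal
  · exact (extZ_mk S F _ w h).trans rfl
  · exact extZ_of_not S F _ w h

theorem extZ_add (D D' : DivS S F) (w : HeightOneSpectrum (𝓞 F)) :
    extZ S F (D + D') w = extZ S F D w + extZ S F D' w := by
  by_cases h : ∀ q ∈ S, ((q : ℕ) : 𝓞 F) ∉ w.asIdeal
  · rw [extZ_mk S F _ w h, extZ_mk S F _ w h, extZ_mk S F _ w h]
    rfl
  · rw [extZ_of_not S F _ w h, extZ_of_not S F _ w h, extZ_of_not S F _ w h, add_zero]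

theorem outside_of_mem_primesAbove (v : PrimesOutside S K) {w : HeightOneSpectrum (𝓞 F)}
    (hw : w ∈ primesAbove K F v.1) : ∀ q ∈ S, ((q : ℕ) : 𝓞 F) ∉ w.asIdeal := by
  intro q hq h
  apply v.2 q hq
  rw [← (mem_primesAbove K F).1 hw]
  exact (natCast_mem_under_iff K F w _).2 h

/-- The value of the norm of a divisor at a prime of `K`. -/
theorem normDiv_apply (D : DivS S F) (v : PrimesOutside S K) :
    H27.normDiv S K D v =
      ∑ w ∈ primesAbove K F v.1, (w.asIdeal.inertiaDeg (𝓞 K) : ℤ) * extZ S F D w := by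
  classical
  induction D using Finsupp.induction_linear with
  | zero =>
    rw [map_zero, Finsupp.coe_zero, Pi.zero_apply]
    symm
    apply Finset.sum_eq_zero
    intro w _
    rw [extZ_zero, mul_zero]
  | add D D' hD hD' =>
    rw [map_add, Finsupp.coe_add, Pi.add_apply, hD, hD', ← Finset.sum_add_distrib]
    apply Finset.sum_congr rfl
    intro w _
    rw [extZ_add, mul_add]
  | single w n =>
    rw [H27.normDiv_single, Finsupp.single_apply]
    have hterm : ∀ w' ∈ primesAbove K F v.1,
        (w'.asIdeal.inertiaDeg (𝓞 K) : ℤ) * extZ S F (Finsupp.single w n) w' =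
          if w' = w.1 then (w.1.asIdeal.inertiaDeg (𝓞 K) : ℤ) * n else 0 := by
      intro w' hw'
      have hout := outside_of_mem_primesAbove S K F v hw'
      rw [extZ_mk S F _ w' hout]
      by_cases h : w' = w.1
      · have h' : w = ⟨w', hout⟩ := Subtype.ext h.symm
        have e : (Finsupp.single w n : DivS S F) ⟨w', hout⟩ = n :=
          (congrArg (fun z => (Finsupp.single w n : DivS S F) z) h'.symm).trans
            Finsupp.single_eq_same
        rw [e, if_pos h, h]
      · have h' : (⟨w', hout⟩ : PrimesOutside S F) ≠ w :=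
          fun h'' => h (congrArg Subtype.val h'')
        have e : (Finsupp.single w n : DivS S F) ⟨w', hout⟩ = 0 := Finsupp.single_eq_of_ne h'
        rw [e, if_neg h, mul_zero]
    rw [Finset.sum_congr rfl hterm, Finset.sum_ite_eq']
    by_cases h : H27.underOutside S K w = v
    · have h' : w.1 ∈ primesAbove K F v.1 := by
        rw [mem_primesAbove, ← h]
        rfl
      rw [if_pos h, if_pos h']
    · have h' : w.1 ∉ primesAbove K F v.1 := by
        rw [mem_primesAbove]
        intro h''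
        exact h (Subtype.ext h'')
      rw [if_neg h, if_neg h']

/-- **The norm of a principal divisor is the principal divisor of the norm.** -/
theorem normDiv_divS (x : Fˣ) :
    H27.normDiv S K (Multiplicative.toAdd (divS S F x)) =
      Multiplicative.toAdd (divS S K (Units.map (Algebra.norm K : F →* K) x)) := by
  ext v
  rw [normDiv_apply, divS_apply, toAdd_ordAt_norm]
  apply Finset.sum_congr rfl
  intro w hw
  have hout := outside_of_mem_primesAbove S K F v hw
  rw [extZ_mk S F _ w hout]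
  rfl

end NormDiv

end

end Fermat.Agent.CFT.H90
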