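/-
CFT layer C, package C-RECIP-tower-norm-reduction (helper90), part 3:
the NORM on the hybrid formation module, for an ARBITRARY finite extension `K ⊆ F` of number
fields (no Galois hypothesis):
* `locNorm K F q : (Loc F q)ˣ →* (Loc K q)ˣ`  (= `Algebra.norm (Loc K q)`),
* `JS.norm`, `IdS.norm S K F : IdS S F →* IdS S K` (divisor part = helper27's `H27.normDiv`),
* `IdS.norm_diag` : the norm of a principal idele is the principal idele of the norm,
* `CS.norm S K F : CS S F →* CS S K`.
-/
import Mathlib
import Fermat.Agent.CFT.H90_TensorNorm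
import Fermat.Agent.CFT.H90_NormDiv

set_option autoImplicit false

namespace Fermat.Agent.CFT.H90

open scoped TensorProduct NumberField
open IsDedekindDomain Fermat.Agent.CFT.H23 Fermat.Agent.CFT.H10

noncomputable section

variable (S : Finset Nat.Primes) (K F : Type*) [Field K] [NumberField K] [Field F] [NumberField F]
  [Algebra K F]

/-! ### The local norm -/

/-- The norm `F ⊗ ℚ_q → K ⊗ ℚ_q` (`Algebra.norm` for the algebra structure `H23.locMap`). -/
def locNormHom (q : Nat.Primes) : Loc F q →* Loc K q := tNormHom ℚ ℚ_[q] K F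

/-- The norm `(F ⊗ ℚ_q)ˣ → (K ⊗ ℚ_q)ˣ`. -/
def locNorm (q : Nat.Primes) : (Loc F q)ˣ →* (Loc K q)ˣ := Units.map (locNormHom K F q)

@[simp] theorem coe_locNorm (q : Nat.Primes) (x : (Loc F q)ˣ) :
    ((locNorm K F q x : (Loc K q)ˣ) : Loc K q) = locNormHom K F q (x : Loc F q) := rfl

theorem locMap_eq_tMapAlg (q : Nat.Primes) : locMap K F q = tMapAlg ℚ ℚ_[q] K F := rfl

/-- `locNormHom` is `Algebra.norm` for the algebra structure given by `H23.locMap`. -/
theorem locNormHom_eq_norm (q : Nat.Primes) :
    locNormHom K F q =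
      (letI : Algebra (Loc K q) (Loc F q) := (locMap K F q).toRingHom.toAlgebra
       Algebra.norm (Loc K q)) := rfl

theorem locNormHom_algebraMap (q : Nat.Primes) (x : F) :
    locNormHom K F q (algebraMap F (Loc F q) x) = algebraMap K (Loc K q) (Algebra.norm K x) := by
  rw [Algebra.TensorProduct.algebraMap_apply, Algebra.TensorProduct.algebraMap_apply]
  exact tNormHom_tmul_one ℚ ℚ_[q] K F x

theorem locNormHom_locMap (q : Nat.Primes) (y : Loc K q) :
    locNormHom K F q (locMap K F q y) = y ^ Module.finrank K F :=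
  tNormHom_tMapAlg ℚ ℚ_[q] K F y

/-- The norm of a principal element. -/
theorem locNorm_toLocUnits (q : Nat.Primes) (x : Fˣ) :
    locNorm K F q (toLocUnits F q x) =
      toLocUnits K q (Units.map (Algebra.norm K : F →* K) x) := by
  apply Units.ext
  exact locNormHom_algebraMap K F q (x : F)

theorem locNorm_baseChange (q : Nat.Primes) (y : (Loc K q)ˣ) :
    locNorm K F q (Units.map (locMap K F q : Loc K q →* Loc F q) y) = y ^ Module.finrank K F := by
  apply Units.ext
  rw [Units.val_pow_eq_pow_val]
  exact locNormHom_locMap K F q (y : Loc K q)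

/-! ### The norm on `S`-ideles, hybrid ideles and classes -/

/-- The norm on `S`-ideles. -/
def JS.norm : JS S F →* JS S K :=
  MonoidHom.pi fun q => (locNorm K F q.1).comp (Pi.evalMonoidHom _ q)

theorem JS.norm_apply (x : JS S F) (q : S) : JS.norm S K F x q = locNorm K F q.1 (x q) := rfl

theorem JS.norm_diagJ (x : Fˣ) :
    JS.norm S K F (diagJ S F x) = diagJ S K (Units.map (Algebra.norm K : F →* K) x) := by
  funext q
  exact locNorm_toLocUnits K F q.1 x

theorem JS.norm_baseChange (y : JS S K) :
    JS.norm S K F (JS.baseChange S K F y) = y ^ Module.finrank K F := by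
  funext q
  exact locNorm_baseChange K F q.1 (y q)

/-- The norm on hybrid ideles: `Algebra.norm` above `S`, `w ↦ f(w|v) · v` outside `S`. -/
def IdS.norm : IdS S F →* IdS S K :=
  MonoidHom.prodMap (JS.norm S K F) (AddMonoidHom.toMultiplicative (H27.normDiv S K (E := F)))

theorem IdS.norm_fst (x : IdS S F) : (IdS.norm S K F x).1 = JS.norm S K F x.1 := rfl

theorem IdS.norm_snd (x : IdS S F) :
    Multiplicative.toAdd (IdS.norm S K F x).2 = H27.normDiv S K (Multiplicative.toAdd x.2) := rfl

/-- **The norm of a principal idele is the principal idele of the norm.** -/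
theorem IdS.norm_diag (x : Fˣ) :
    IdS.norm S K F (diag S F x) = diag S K (Units.map (Algebra.norm K : F →* K) x) := by
  refine Prod.ext (JS.norm_diagJ S K F x) ?_
  show Multiplicative.ofAdd (H27.normDiv S K (Multiplicative.toAdd (divS S F x))) = _
  rw [normDiv_divS]
  rfl

/-- The norm on hybrid idele classes. -/
def CS.norm : CS S F →* CS S K :=
  QuotientGroup.map _ _ (IdS.norm S K F) <| by
    rintro _ ⟨x, rfl⟩
    exact ⟨Units.map (Algebra.norm K : F →* K) x, (IdS.norm_diag S K F x).symm⟩

theorem CS.norm_toCS (x : IdS S F) :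
    CS.norm S K F (toCS S F x) = toCS S K (IdS.norm S K F x) := rfl

end

end Fermat.Agent.CFT.H90
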