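/-
CFT layer C, package C-NORM-functoriality (helper90), part 1:
`N ∘ baseChange = [F : K]` and TRANSITIVITY of the norm on the hybrid formation module.
-/
import Mathlib
import Fermat.Agent.CFT.H90_IdSNorm
import Fermat.Agent.CFT.H27_ArtinDivMaps

set_option autoImplicit false

namespace Fermat.Agent.CFT.H90

open scoped TensorProduct NumberField
open IsDedekindDomain Fermat.Agent.CFT.H23 Fermat.Agent.CFT.H10

noncomputable section

/-! ### `N ∘ baseChange = [F : K]` -/

section BaseChange

variable (S : Finset Nat.Primes) (K F : Type*) [Field K] [NumberField K] [Field F] [NumberField F]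
  [Algebra K F]

theorem IdS.norm_baseChange (y : IdS S K) :
    IdS.norm S K F (IdS.baseChange S K F y) = y ^ Module.finrank K F := by
  refine Prod.ext (JS.norm_baseChange S K F y.1) ?_
  show Multiplicative.ofAdd (H27.normDiv S K (DivS.baseChange S K F (Multiplicative.toAdd y.2))) = _
  rw [H27.normDiv_baseChange]
  rfl

theorem CS.norm_baseChange (c : CS S K) :
    CS.norm S K F (CS.baseChange S K F c) = c ^ Module.finrank K F := by
  induction c using QuotientGroup.induction_on with
  | H y =>
    show CS.norm S K F (CS.baseChange S K F (toCS S K y)) = (toCS S K y) ^ Module.finrank K F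
    rw [CS.baseChange_toCS, CS.norm_toCS, IdS.norm_baseChange, map_pow]

end BaseChange

/-! ### Transitivity of the tensor norm -/

section TensorTower

variable (k A K E L : Type*) [CommRing k] [CommRing A] [Algebra k A] [CommRing K] [Algebra k K]
  [CommRing E] [Algebra k E] [CommRing L] [Algebra k L] [Algebra K E] [Algebra E L] [Algebra K L]
  [IsScalarTower k K E] [IsScalarTower k E L] [IsScalarTower k K L] [IsScalarTower K E L]

theorem tMapAlg_tMapAlg (x : K ⊗[k] A) :
    tMapAlg k A E L (tMapAlg k A K E x) = tMapAlg k A K L x := by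
  induction x using TensorProduct.induction_on with
  | zero => simp
  | tmul s a =>
    rw [tMapAlg_tmul, tMapAlg_tmul, tMapAlg_tmul, ← IsScalarTower.algebraMap_apply]
  | add x y hx hy => rw [map_add, map_add, map_add, hx, hy]

/-- The comparison isomorphism as a linear equivalence over `K ⊗[k] A`. -/
def tEquivₗ :
    letI := tAlgebra k A K E
    (K ⊗[k] A) ⊗[K] E ≃ₗ[K ⊗[k] A] E ⊗[k] A :=
  letI := tAlgebra k A K E
  { (tEquiv k A K E).toAddEquiv with
    map_smul' := fun c y => by
      show tEquiv k A K E (c • y) = tMapAlg k A K E c * tEquiv k A K E y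
      have h1 : c • y = algebraMap (K ⊗[k] A) ((K ⊗[k] A) ⊗[K] E) c * y := Algebra.smul_def c y
      rw [h1, map_mul]
      congr 1
      exact congrArg (fun f : K ⊗[k] A →+* E ⊗[k] A => f c) (tEquiv_comp_algebraMap k A K E) }

theorem free_tAlgebra [Module.Free K E] :
    letI := tAlgebra k A K E
    Module.Free (K ⊗[k] A) (E ⊗[k] A) := by
  letI := tAlgebra k A K E
  exact Module.Free.of_equiv (tEquivₗ k A K E)

theorem finite_tAlgebra [Module.Finite K E] :
    letI := tAlgebra k A K E
    Module.Finite (K ⊗[k] A) (E ⊗[k] A) := by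
  letI := tAlgebra k A K E
  exact Module.Finite.equiv (tEquivₗ k A K E)

/-- **Transitivity of the norm.** -/
theorem tNormHom_tNormHom [Module.Free K E] [Module.Free E L] (z : L ⊗[k] A) :
    tNormHom k A K E (tNormHom k A E L z) = tNormHom k A K L z := by
  letI a1 := tAlgebra k A K E
  letI a2 := tAlgebra k A E L
  letI a3 := tAlgebra k A K L
  haveI : IsScalarTower (K ⊗[k] A) (E ⊗[k] A) (L ⊗[k] A) :=
    IsScalarTower.of_algebraMap_eq fun x => (tMapAlg_tMapAlg k A K E L x).symm
  haveI := free_tAlgebra k A K E
  haveI := free_tAlgebra k A E L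
  exact Algebra.norm_norm (R := K ⊗[k] A) (S := E ⊗[k] A) (A := L ⊗[k] A)

end TensorTower

/-! ### Transitivity on the formation module -/

section Tower

variable (S : Finset Nat.Primes) (K E F : Type*) [Field K] [NumberField K] [Field E] [NumberField E]
  [Field F] [NumberField F] [Algebra K E] [Algebra E F] [Algebra K F] [IsScalarTower K E F]

theorem locNormHom_locNormHom (q : Nat.Primes) (z : Loc F q) :
    locNormHom K E q (locNormHom E F q z) = locNormHom K F q z :=
  tNormHom_tNormHom ℚ ℚ_[q] K E F z

theorem locNorm_locNorm (q : Nat.Primes) (z : (Loc F q)ˣ) :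
    locNorm K E q (locNorm E F q z) = locNorm K F q z :=
  Units.ext (locNormHom_locNormHom K E F q z)

theorem JS.norm_norm (x : JS S F) : JS.norm S K E (JS.norm S E F x) = JS.norm S K F x := by
  funext q
  exact locNorm_locNorm K E F q.1 (x q)

theorem underOutside_underOutside (w : PrimesOutside S F) :
    H27.underOutside S K (H27.underOutside S E w) = H27.underOutside S K w := by
  apply Subtype.ext
  apply HeightOneSpectrum.ext
  show ((w.1.asIdeal.under (𝓞 E)).under (𝓞 K)) = w.1.asIdeal.under (𝓞 K)
  exact Ideal.under_under _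

theorem normDiv_normDiv (D : DivS S F) :
    H27.normDiv S K (H27.normDiv S E D) = H27.normDiv S K D := by
  have key : (H27.normDiv S K (E := E)).comp (H27.normDiv S E (E := F)) =
      H27.normDiv S K (E := F) := by
    apply Finsupp.addHom_ext
    intro w n
    rw [AddMonoidHom.comp_apply, H27.normDiv_single, H27.normDiv_single, H27.normDiv_single,
      underOutside_underOutside]
    congr 1
    have : w.1.asIdeal.LiesOver (H27.underOutside S E w).1.asIdeal := ⟨rfl⟩
    have h := Ideal.inertiaDeg_tower (R := 𝓞 K) (H27.underOutside S E w).1.asIdeal w.1.asIdeal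
    rw [h]
    push_cast
    ring
  exact DFunLike.congr_fun key D

/-- **Transitivity of the norm on hybrid ideles.** -/
theorem IdS.norm_norm (x : IdS S F) :
    IdS.norm S K E (IdS.norm S E F x) = IdS.norm S K F x := by
  refine Prod.ext (JS.norm_norm S K E F x.1) ?_
  show Multiplicative.ofAdd (H27.normDiv S K (H27.normDiv S E (Multiplicative.toAdd x.2))) = _
  rw [normDiv_normDiv]
  rfl

theorem CS.norm_norm (c : CS S F) : CS.norm S K E (CS.norm S E F c) = CS.norm S K F c := by
  induction c using QuotientGroup.induction_on with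
  | H y =>
    show CS.norm S K E (CS.norm S E F (toCS S F y)) = CS.norm S K F (toCS S F y)
    rw [CS.norm_toCS, CS.norm_toCS, CS.norm_toCS, IdS.norm_norm]

end Tower

end

end Fermat.Agent.CFT.H90
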