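/-
CFT layer C, package C-NORM-functoriality (helper90), part 2:
for a finite Galois extension of fields `L/K` (over a base ring `k`) and ANY commutative
`k`-algebra `A`, the norm `L ⊗[k] A → K ⊗[k] A` is the product of the conjugates:
`tMapAlg (tNormHom z) = ∏ σ : Gal(L/K), σ • z`.
(Dedekind independence: the matrix `(σ b_j)` is invertible and diagonalises the regular
representation.)
-/
import Mathlib
import Fermat.Agent.CFT.H42_TensorAction
import Fermat.Agent.CFT.H90_IdSNormMore

set_option autoImplicit false

namespace Fermat.Agent.CFT.H90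

open scoped TensorProduct
open Fermat.Agent.CFT.H42

noncomputable section

/-! ### Dedekind's determinant -/

/-- For a basis `b` of `L/K` and an enumeration `e` of `Gal(L/K)` by the index set of `b`, the
matrix `(σ_s (b_j))` is nonsingular. -/
theorem det_algEquiv_basis_ne_zero {K L ι : Type*} [Field K] [Field L] [Algebra K L] [Fintype ι]
    [DecidableEq ι] (b : Module.Basis ι K L) (e : ι ≃ (L ≃ₐ[K] L)) :
    (Matrix.of fun s j => (e s) (b j)).det ≠ 0 := by
  intro h
  obtain ⟨v, hv, hv0⟩ := Matrix.exists_vecMul_eq_zero_iff.2 h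
  have hli : LinearIndependent L (fun s : ι => ((e s : L ≃ₐ[K] L) : L →ₐ[K] L).toLinearMap) :=
    (linearIndependent_toLinearMap K L L).comp (fun s : ι => ((e s : L ≃ₐ[K] L) : L →ₐ[K] L))
      (fun s t hst => e.injective (AlgEquiv.coe_algHom_injective hst))
  have hf : ∑ s, v s • ((e s : L ≃ₐ[K] L) : L →ₐ[K] L).toLinearMap = 0 := by
    apply b.ext
    intro j
    have := congrFun hv0 j
    simp only [Matrix.vecMul, dotProduct, Matrix.of_apply, Pi.zero_apply] at this
    simpa [LinearMap.sum_apply] using this
  exact hv (funext (Fintype.linearIndependent_iff.1 hli v hf))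

/-! ### Abstract form: a basis diagonalised by a family of ring endomorphisms -/

/-- If `B` is a finite `R`-basis of the commutative `R`-algebra `T`, and `σ s` (`s` in the index
set of `B`) are ring endomorphisms of `T` fixing `R` such that the matrix `(σ_s (B_j))` is
invertible, then the norm is the product of the `σ s`. -/
theorem algebraMap_norm_eq_prod_of_isUnit_det {R T ι : Type*} [CommRing R] [CommRing T]
    [Algebra R T] [Fintype ι] [DecidableEq ι] (B : Module.Basis ι R T) (σ : ι → (T →+* T))
    (hσ : ∀ s r, σ s (algebraMap R T r) = algebraMap R T r)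
    (hdet : IsUnit (Matrix.of fun s j => σ s (B j)).det) (z : T) :
    algebraMap R T (Algebra.norm R z) = ∏ s, σ s z := by
  set P : Matrix ι ι T := Matrix.of fun s j => σ s (B j) with hPdef
  set Tz : Matrix ι ι R := Algebra.leftMulMatrix B z with hTz
  set TzT : Matrix ι ι T := Tz.map (algebraMap R T) with hTzT
  set Dg : Matrix ι ι T := Matrix.diagonal fun s => σ s z with hDg
  -- the regular representation
  have hreg : ∀ j, z * B j = ∑ i, algebraMap R T (Tz i j) * B i := by
    intro j
    have h1 := B.sum_repr (z * B j)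
    conv_lhs => rw [← h1]
    apply Finset.sum_congr rfl
    intro i _
    rw [Algebra.smul_def, hTz, Algebra.leftMulMatrix_eq_repr_mul]
  -- conjugating the regular representation
  have hkey : Dg * P = P * TzT := by
    ext s j
    rw [Matrix.diagonal_mul, Matrix.mul_apply]
    show σ s z * σ s (B j) = ∑ i, σ s (B i) * algebraMap R T (Tz i j)
    rw [← map_mul, hreg j, map_sum]
    apply Finset.sum_congr rfl
    intro i _
    rw [map_mul, hσ, mul_comm]
  -- determinants
  have hdet' := congrArg Matrix.det hkey
  rw [Matrix.det_mul, Matrix.det_mul, Matrix.det_diagonal] at hdet'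
  have hT : TzT.det = algebraMap R T Tz.det := (RingHom.map_det (algebraMap R T) Tz).symm
  rw [Algebra.norm_eq_matrix_det B z, ← hT]
  have h3 : (∏ s, σ s z) * P.det = TzT.det * P.det := by rw [hdet', mul_comm]
  exact (hdet.mul_right_cancel h3).symm

/-! ### The norm as a product of conjugates -/

section Galois

variable (k A K L : Type*) [CommRing k] [CommRing A] [Algebra k A] [Field K] [Algebra k K]
  [Field L] [Algebra k L] [Algebra K L] [IsScalarTower k K L]

theorem smul_tMapAlg (σ : L ≃ₐ[K] L) (r : K ⊗[k] A) :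
    σ • tMapAlg k A K L r = tMapAlg k A K L r := by
  induction r using TensorProduct.induction_on with
  | zero => simp
  | tmul x a => rw [tMapAlg_tmul, smul_tmul_left, AlgEquiv.commutes]
  | add x y hx hy => rw [map_add, smul_add, hx, hy]

/-- The ring endomorphism `z ↦ σ • z` of `L ⊗[k] A`. -/
def tSmulHom (σ : L ≃ₐ[K] L) : L ⊗[k] A →+* L ⊗[k] A :=
  (tensorAut (k := k) (A := A) σ : L ⊗[k] A →ₐ[k] L ⊗[k] A).toRingHom

theorem tSmulHom_apply (σ : L ≃ₐ[K] L) (z : L ⊗[k] A) : tSmulHom k A K L σ z = σ • z :=
  (smul_eq_tensorAut σ z).symm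

/-- **The norm is the product of the conjugates** (finite Galois `L/K`, any coefficients `A`). -/
theorem tMapAlg_tNormHom_eq_prod [FiniteDimensional K L] [IsGalois K L] (z : L ⊗[k] A) :
    tMapAlg k A K L (tNormHom k A K L z) = ∏ σ : L ≃ₐ[K] L, σ • z := by
  classical
  letI alg := tAlgebra k A K L
  -- bases
  let b : Module.Basis (Fin (Module.finrank K L)) K L := Module.finBasis K L
  let B : Module.Basis (Fin (Module.finrank K L)) (K ⊗[k] A) (L ⊗[k] A) :=
    (b.baseChange (K ⊗[k] A)).map (tEquivₗ k A K L)
  have hB : ∀ i, B i = b i ⊗ₜ[k] (1 : A) := by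
    intro i
    show tEquiv k A K L ((b.baseChange (K ⊗[k] A)) i) = _
    rw [Module.Basis.baseChange_apply, tEquiv_tmul, map_one, one_mul]
  -- an enumeration of the Galois group
  have hcard : Fintype.card (L ≃ₐ[K] L) = Fintype.card (Fin (Module.finrank K L)) := by
    rw [Fintype.card_fin, ← Nat.card_eq_fintype_card, IsGalois.card_aut_eq_finrank]
  let e : Fin (Module.finrank K L) ≃ (L ≃ₐ[K] L) := (Fintype.equivOfCardEq hcard).symm
  let ιL : L →+* L ⊗[k] A := (Algebra.TensorProduct.includeLeft : L →ₐ[k] L ⊗[k] A).toRingHom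
  have hιL : ∀ x : L, ιL x = x ⊗ₜ[k] (1 : A) := fun x => rfl
  have hmat : (Matrix.of fun s j => tSmulHom k A K L (e s) (B j)) =
      (Matrix.of fun s j => (e s) (b j)).map ιL := by
    ext s j
    rw [Matrix.of_apply, Matrix.map_apply, Matrix.of_apply, tSmulHom_apply, hB, smul_tmul_left, hιL]
  have hunit : IsUnit (Matrix.of fun s j => tSmulHom k A K L (e s) (B j)).det := by
    have hd : ((Matrix.of fun s j => (e s) (b j)).map ιL).det =
        ιL (Matrix.of fun s j => (e s) (b j)).det := (RingHom.map_det ιL _).symm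
    rw [hmat, hd]
    exact (IsUnit.mk0 _ (det_algEquiv_basis_ne_zero b e)).map ιL
  have h := algebraMap_norm_eq_prod_of_isUnit_det B (fun s => tSmulHom k A K L (e s))
    (fun s r => by
      rw [tSmulHom_apply]
      exact smul_tMapAlg k A K L (e s) r) hunit z
  have h' : tMapAlg k A K L (tNormHom k A K L z) = ∏ s, tSmulHom k A K L (e s) z := h
  rw [h']
  simp only [tSmulHom_apply]
  exact Equiv.prod_comp e fun σ => σ • z

end Galois

end

end Fermat.Agent.CFT.H90
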