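/-
CFT layer C, package C-NORM-functoriality (helper90), part 3:
for a finite GALOIS extension `F/K` of number fields the norm on the hybrid formation module is
the product of the conjugates:
`IdS.baseChange S K F (IdS.norm S K F x) = ∏ σ : Gal(F/K), σ • x`  (and on `CS`).
No ramification hypothesis is needed.
-/
import Mathlib
import Fermat.Agent.CFT.H90_GaloisNorm

set_option autoImplicit false

namespace Fermat.Agent.CFT.H90

open scoped TensorProduct NumberField Pointwise
open IsDedekindDomain Fermat.Agent.CFT.H23 Fermat.Agent.CFT.H10 Fermat.Agent.CFT.H42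

noncomputable section

variable (S : Finset Nat.Primes) (K F : Type*) [Field K] [NumberField K] [Field F] [NumberField F]
  [Algebra K F]

/-! ### The Galois action on primes: transitivity and stabilisers -/

theorem smul_prime_asIdeal' (σ : F ≃ₐ[K] F) (v : HeightOneSpectrum (𝓞 F)) :
    (σ • v).asIdeal = σ • v.asIdeal := by
  ext x
  rw [H23.mem_smul_prime_iff, Ideal.mem_pointwise_smul_iff_inv_smul_mem]

theorem under_smul_prime (σ : F ≃ₐ[K] F) (w : HeightOneSpectrum (𝓞 F)) :
    (σ • w).under (𝓞 K) = w.under (𝓞 K) := by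
  apply HeightOneSpectrum.ext
  ext x
  rw [HeightOneSpectrum.under_asIdeal, HeightOneSpectrum.under_asIdeal, Ideal.under_def,
    Ideal.under_def, Ideal.mem_comap, Ideal.mem_comap, H23.mem_smul_prime_iff]
  have : σ⁻¹ • (algebraMap (𝓞 K) (𝓞 F) x) = algebraMap (𝓞 K) (𝓞 F) x := by
    apply Subtype.ext
    show σ⁻¹ (algebraMap K F (x : K)) = algebraMap K F (x : K)
    exact AlgEquiv.commutes _ _
  rw [this]

variable [IsGalois K F]

theorem exists_smul_prime_eq (w w' : HeightOneSpectrum (𝓞 F))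
    (h : w.under (𝓞 K) = w'.under (𝓞 K)) : ∃ σ : F ≃ₐ[K] F, σ • w = w' := by
  have h1 : w.asIdeal.LiesOver (w.under (𝓞 K)).asIdeal := ⟨rfl⟩
  have h2 : w'.asIdeal.LiesOver (w.under (𝓞 K)).asIdeal := ⟨by rw [h]; rfl⟩
  obtain ⟨σ, hσ⟩ := Ideal.exists_smul_eq_of_isGaloisGroup (w.under (𝓞 K)).asIdeal
    w.asIdeal w'.asIdeal (F ≃ₐ[K] F)
  exact ⟨σ, HeightOneSpectrum.ext (by rw [smul_prime_asIdeal', hσ])⟩

theorem card_stabilizer_prime (w : HeightOneSpectrum (𝓞 F)) :
    Nat.card (MulAction.stabilizer (F ≃ₐ[K] F) w) =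
      ramIdx K F w * w.asIdeal.inertiaDeg (𝓞 K) := by
  have h1 : w.asIdeal.LiesOver (w.under (𝓞 K)).asIdeal := ⟨rfl⟩
  have h2 : MulAction.stabilizer (F ≃ₐ[K] F) w =
      MulAction.stabilizer (F ≃ₐ[K] F) w.asIdeal := by
    ext σ
    rw [MulAction.mem_stabilizer_iff, MulAction.mem_stabilizer_iff, ← smul_prime_asIdeal']
    exact ⟨fun h => by rw [h], fun h => HeightOneSpectrum.ext h⟩
  rw [h2, Ideal.card_stabilizer_eq (G := F ≃ₐ[K] F) (w.under (𝓞 K)).asIdeal w.asIdeal,
    Ideal.ramificationIdxIn_eq_ramificationIdx (w.under (𝓞 K)).asIdeal w.asIdeal (F ≃ₐ[K] F),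
    Ideal.inertiaDegIn_eq_inertiaDeg (w.under (𝓞 K)).asIdeal w.asIdeal (F ≃ₐ[K] F),
    H27.ramIdx_eq_ramificationIdx]

theorem ramIdx_smul_prime (σ : F ≃ₐ[K] F) (w : HeightOneSpectrum (𝓞 F)) :
    ramIdx K F (σ • w) = ramIdx K F w := by
  rw [H27.ramIdx_eq_ramificationIdx, H27.ramIdx_eq_ramificationIdx, smul_prime_asIdeal',
    Ideal.ramificationIdx_smul]

open scoped Classical in
/-- The number of `σ` with `σ • w = w'`. -/
theorem card_filter_smul_prime_eq (w w' : HeightOneSpectrum (𝓞 F)) :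
    (Finset.univ.filter fun σ : F ≃ₐ[K] F => σ • w = w').card =
      if w.under (𝓞 K) = w'.under (𝓞 K) then ramIdx K F w' * w.asIdeal.inertiaDeg (𝓞 K)
      else 0 := by
  classical
  split_ifs with h
  · obtain ⟨σ₀, rfl⟩ := exists_smul_prime_eq K F w w' h
    rw [ramIdx_smul_prime, ← card_stabilizer_prime K F w, Nat.card_eq_fintype_card,
      ← Finset.card_univ (α := MulAction.stabilizer (F ≃ₐ[K] F) w)]
    symm
    refine Finset.card_bij (fun τ _ => σ₀ * (τ : F ≃ₐ[K] F)) ?_ ?_ ?_
    · intro τ _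
      rw [Finset.mem_filter]
      refine ⟨Finset.mem_univ _, ?_⟩
      rw [mul_smul, MulAction.mem_stabilizer_iff.1 τ.2]
    · intro τ _ τ' _ hττ'
      exact Subtype.ext (mul_left_cancel hττ')
    · intro σ hσ
      rw [Finset.mem_filter] at hσ
      refine ⟨⟨σ₀⁻¹ * σ, ?_⟩, Finset.mem_univ _, ?_⟩
      · rw [MulAction.mem_stabilizer_iff, mul_smul, hσ.2, inv_smul_smul]
      · simp
  · rw [Finset.card_eq_zero, Finset.filter_eq_empty_iff]
    intro σ _ hσ
    apply h
    rw [← hσ, under_smul_prime]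

/-! ### The divisor part -/

/-- `baseChange ∘ N = ∑ σ` on divisors. -/
theorem baseChange_normDiv (D : DivS S F) :
    DivS.baseChange S K F (H27.normDiv S K D) = ∑ σ : F ≃ₐ[K] F, σ • D := by
  classical
  have key : (DivS.baseChange S K F).comp (H27.normDiv S K (E := F)) =
      ∑ σ : F ≃ₐ[K] F, DistribSMul.toAddMonoidHom (DivS S F) σ := by
    apply Finsupp.addHom_ext
    intro w₀ n
    rw [AddMonoidHom.comp_apply, H27.normDiv_single, AddMonoidHom.finsetSum_apply]
    ext w'
    rw [DivS.baseChange_apply, Finsupp.finsetSum_apply]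
    have hterm : ∀ σ : F ≃ₐ[K] F,
        (DistribSMul.toAddMonoidHom (DivS S F) σ (Finsupp.single w₀ n)) w' =
          if σ • w₀.1 = w'.1 then n else 0 := by
      intro σ
      show (σ • (Finsupp.single w₀ n : DivS S F)) w' = _
      rw [Finsupp.comapSMul_single]
      by_cases h : σ • w₀.1 = w'.1
      · have h' : σ • w₀ = w' := Subtype.ext h
        exact (by rw [← h']; exact Finsupp.single_eq_same :
          (Finsupp.single (σ • w₀) n : DivS S F) w' = n).trans (if_pos h).symm
      · have h' : w' ≠ σ • w₀ := fun h'' => h (congrArg Subtype.val h'').symm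
        exact (Finsupp.single_eq_of_ne h').trans (if_neg h).symm
    rw [Finset.sum_congr rfl fun σ _ => hterm σ, Finset.sum_ite, Finset.sum_const_zero, add_zero,
      Finset.sum_const, card_filter_smul_prime_eq K F w₀.1 w'.1, Finsupp.single_apply]
    by_cases h : H27.underOutside S K w₀ = PrimesOutside.under S K F w'
    · have h' : w₀.1.under (𝓞 K) = w'.1.under (𝓞 K) := congrArg Subtype.val h
      rw [if_pos h, if_pos h']
      simp only [nsmul_eq_mul]
      push_cast
      ring
    · have h' : ¬ w₀.1.under (𝓞 K) = w'.1.under (𝓞 K) := fun h'' => h (Subtype.ext h'')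
      rw [if_neg h, if_neg h', mul_zero, zero_nsmul]
  have := DFunLike.congr_fun key D
  rw [AddMonoidHom.comp_apply, AddMonoidHom.finsetSum_apply] at this
  exact this

/-! ### The idele part and the assembly -/

theorem locMap_locNormHom_eq_prod (q : Nat.Primes) (z : Loc F q) :
    locMap K F q (locNormHom K F q z) = ∏ σ : F ≃ₐ[K] F, σ • z :=
  tMapAlg_tNormHom_eq_prod ℚ ℚ_[q] K F z

theorem baseChange_JS_norm (x : JS S F) :
    JS.baseChange S K F (JS.norm S K F x) = ∏ σ : F ≃ₐ[K] F, σ • x := by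
  funext q
  apply Units.ext
  rw [JS.baseChange_apply, JS.norm_apply, coe_locNorm, locMap_locNormHom_eq_prod,
    Finset.prod_apply, Units.coe_prod]
  rfl

/-- **Galois case**: the norm followed by base change is the product of the conjugates. -/
theorem IdS.baseChange_norm (x : IdS S F) :
    IdS.baseChange S K F (IdS.norm S K F x) = ∏ σ : F ≃ₐ[K] F, σ • x := by
  refine Prod.ext ?_ ?_
  · rw [IdS.baseChange_fst, IdS.norm_fst, baseChange_JS_norm, Prod.fst_prod]
    rfl
  · apply Multiplicative.toAdd.injective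
    rw [IdS.baseChange_snd, IdS.norm_snd, baseChange_normDiv, Prod.snd_prod, toAdd_prod]
    rfl

theorem CS.baseChange_norm (c : CS S F) :
    CS.baseChange S K F (CS.norm S K F c) = ∏ σ : F ≃ₐ[K] F, σ • c := by
  induction c using QuotientGroup.induction_on with
  | H x =>
    show CS.baseChange S K F (CS.norm S K F (toCS S F x)) = ∏ σ : F ≃ₐ[K] F, σ • toCS S F x
    rw [CS.norm_toCS, CS.baseChange_toCS, IdS.baseChange_norm, map_prod]
    rfl

end

end Fermat.Agent.CFT.H90
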