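/-
CFT layer C, C-SECOND seam (helper34): the `hsplit` input of helper79's
`H79.index_le_of_pow_mem'` for helper23's norm subgroup `H23.normSubgroup S K F`, and the resulting
**second inequality** `(normSubgroup S K F).index ≤ [F : K]` for a Galois extension `F / K` of
number fields of prime degree `p ∈ S`.

The computation `baseChange (v) = ∏ σ • (w)` for a prime `w ∣ v` of residue degree one is an
immediate consequence of helper90's norm functoriality `H90.IdS.baseChange_norm`
(`baseChange ∘ N = ∏ σ`), since `N (w) = f(w|v) • (v) = (v)`.  No ramification hypothesis is needed.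
-/
import Mathlib
import Fermat.Agent.CFT.H23_CNorm
import Fermat.Agent.CFT.H90_GaloisNormIdS
import Fermat.Agent.CFT.H79_SecondBridgePow

set_option autoImplicit false

namespace Fermat.Agent.CFT.H34

open scoped NumberField
open IsDedekindDomain Fermat.Agent.CFT.H23 Fermat.Agent.CFT.H10

noncomputable section

variable (S : Finset Nat.Primes) (K F : Type*) [Field K] [NumberField K] [Field F] [NumberField F]
  [Algebra K F]

/-- The hybrid idele with trivial `S`-part and divisor part the prime `v`. -/
def primeIdS (v : PrimesOutside S K) : IdS S K :=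
  (1, Multiplicative.ofAdd (Finsupp.single v (1 : ℤ)))

theorem primeIdS_def (v : PrimesOutside S K) :
    primeIdS S K v = (1, Multiplicative.ofAdd (Finsupp.single v (1 : ℤ))) := rfl

/-- The norm of a prime `w` of residue degree one over `K` is the prime below. -/
theorem norm_primeIdS_of_inertiaDeg_eq_one (v : PrimesOutside S K) (w : PrimesOutside S F)
    (hwv : PrimesOutside.under S K F w = v) (hf : w.1.asIdeal.inertiaDeg (𝓞 K) = 1) :
    H90.IdS.norm S K F (primeIdS S F w) = primeIdS S K v := by
  refine Prod.ext ?_ ?_
  · rw [H90.IdS.norm_fst]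
    exact map_one _
  · apply Multiplicative.toAdd.injective
    rw [H90.IdS.norm_snd]
    show H27.normDiv S K (Finsupp.single w (1 : ℤ)) = Finsupp.single v (1 : ℤ)
    rw [H27.normDiv_single, hf, H27.underOutside_eq_under, hwv, Nat.cast_one, mul_one]

/-- **hsplit, idele form**: for a prime `w` of `F` of residue degree one over the prime `v` of
`K` (both outside `S`), the base change of `v` is the product of the conjugates of `w`. -/
theorem baseChange_primeIdS_eq_prod_smul [IsGalois K F] (v : PrimesOutside S K)
    (w : PrimesOutside S F) (hwv : PrimesOutside.under S K F w = v)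
    (hf : w.1.asIdeal.inertiaDeg (𝓞 K) = 1) :
    IdS.baseChange S K F ((1, Multiplicative.ofAdd (Finsupp.single v (1 : ℤ))) : IdS S K) =
      ∏ σ : F ≃ₐ[K] F, σ • ((1, Multiplicative.ofAdd (Finsupp.single w (1 : ℤ))) : IdS S F) := by
  rw [← H90.IdS.baseChange_norm]
  exact congrArg _ (norm_primeIdS_of_inertiaDeg_eq_one S K F v w hwv hf).symm

/-- **hsplit, class form**: the class of a prime `v` of `K` outside `S` with a prime of residue
degree one above it is a norm. -/
theorem toCS_primeIdS_mem_normSubgroup [IsGalois K F] (v : PrimesOutside S K)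
    (hv : v.1 ∈ Fermat.Agent.S14.H79.splitPrimes K F) :
    toCS S K (1, Multiplicative.ofAdd (Finsupp.single v (1 : ℤ))) ∈ normSubgroup S K F := by
  obtain ⟨𝔓, h𝔓v, hf⟩ := hv
  have hout : ∀ q ∈ S, ((q : ℕ) : 𝓞 F) ∉ 𝔓.asIdeal := fun q hq h =>
    v.2 q hq (by rw [← h𝔓v]; exact (natCast_mem_under_iff K F 𝔓 _).2 h)
  let w : PrimesOutside S F := ⟨𝔓, hout⟩
  have hwv : PrimesOutside.under S K F w = v := Subtype.ext h𝔓v
  rw [mem_normSubgroup_iff]
  refine ⟨toCS S F (primeIdS S F w), ?_⟩
  rw [galNorm_apply, ← H90.CS.baseChange_norm, H90.CS.norm_toCS,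
    norm_primeIdS_of_inertiaDeg_eq_one S K F v w hwv hf]
  rfl

/-- **Second inequality for the hybrid idele class group** (prime degree `p ∈ S`, Galois):
`[C_S(K) : N C_S(F)] ≤ [F : K]` and the index is finite. -/
theorem index_normSubgroup_le [IsGalois K F] (p : Nat.Primes) (hpS : p ∈ S)
    (hdeg : Module.finrank K F = (p : ℕ)) :
    (normSubgroup S K F).index ≠ 0 ∧ (normSubgroup S K F).index ≤ Module.finrank K F := by
  refine Fermat.Agent.CFT.H79.index_le_of_pow_mem' S K F p hpS (normSubgroup S K F) ?_ ?_
  · intro c
    rw [← hdeg]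
    exact pow_finrank_mem_normSubgroup S K F c
  · intro v hv
    exact toCS_primeIdS_mem_normSubgroup S K F v hv

/-- The same, with the degree substituted. -/
theorem index_normSubgroup_le_prime [IsGalois K F] (p : Nat.Primes) (hpS : p ∈ S)
    (hdeg : Module.finrank K F = (p : ℕ)) :
    (normSubgroup S K F).index ≠ 0 ∧ (normSubgroup S K F).index ≤ (p : ℕ) := by
  have h := index_normSubgroup_le S K F p hpS hdeg
  rwa [hdeg] at h

end

end Fermat.Agent.CFT.H34
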