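/-
CFT layer C (helper23): the CYCLIC LAYER THEOREM for the hybrid formation module, unconditional.
For `M/K` Galois of odd prime degree `p ∈ S`, unramified outside `S`:
`H¹(Gal(M/K), CS S M) = 0` and `|H²(Gal(M/K), CS S M)| = p`,
from the first inequality (helper63/helper48: `H63.first_inequality_repCS`), the second inequality
(helper79/helper34: `H34.index_normSubgroup_le_prime`), the identification `CS S K ⧸ N ≃ Ĥ⁰`
(`H23.card_H0hat_repCS`) and helper9's `H9.prime_layer_of_inequalities`.
-/
import Mathlib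
import Fermat.Agent.CFT.H23_CNorm
import Fermat.Agent.CFT.H63_FirstIneqUncond
import Fermat.Agent.CFT.H34_SplitNorm
import Fermat.Agent.CFT.H9_CyclicCards

set_option autoImplicit false

namespace Fermat.Agent.CFT.H23

open scoped NumberField
open IsDedekindDomain

noncomputable section

variable (S : Finset Nat.Primes) (K M : Type) [Field K] [NumberField K] [Field M] [NumberField M]
  [Algebra K M] [IsGalois K M]

/-- **Cyclic layer theorem**: `H¹ = 0` and `|H²| = p` for `repCS S M K`, `M/K` Galois of odd prime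
degree `p ∈ S`, unramified outside `S`. -/
theorem cyclic_layer_repCS (p : Nat.Primes) (hp2 : (p : ℕ) ≠ 2) (hpS : p ∈ S)
    (hKM : Module.finrank K M = (p : ℕ)) (hur : UnramOutside S K M) :
    Subsingleton (groupCohomology (repCS S M K) 1) ∧
      Nat.card (groupCohomology (repCS S M K) 2) = (p : ℕ) := by
  have : Fact (p : ℕ).Prime := ⟨p.2⟩
  have hS : S.Nonempty := ⟨p, hpS⟩
  obtain ⟨h0, -, hfirst⟩ := Fermat.Agent.CFT.H63.first_inequality_repCS S (K := K) (F := M)
    hp2 hKM hS
  have hsecond : Nat.card (Fermat.Agent.CFT.A.H0hat (repCS S M K)) ≤ (p : ℕ) := by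
    rw [card_H0hat_repCS S K M hS hur]
    exact (Fermat.Agent.CFT.H34.index_normSubgroup_le_prime S K M p hpS hKM).2
  have hG : Nat.card (M ≃ₐ[K] M) = (p : ℕ) := by
    rw [IsGalois.card_aut_eq_finrank, hKM]
  exact Fermat.Agent.CFT.H9.prime_layer_of_inequalities (repCS S M K) p.2 hG h0 hfirst hsecond

/-- The divisibility form consumed by `H40.PPrimeLayers` / `hcyc` of the layer glue. -/
theorem cyclic_layer_repCS_dvd (p : Nat.Primes) (hp2 : (p : ℕ) ≠ 2) (hpS : p ∈ S)
    (hcard : Nat.card (M ≃ₐ[K] M) = (p : ℕ)) (hur : UnramOutside S K M) :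
    Subsingleton (groupCohomology (repCS S M K) 1) ∧
      Nat.card (groupCohomology (repCS S M K) 2) ∣ (p : ℕ) := by
  have hKM : Module.finrank K M = (p : ℕ) := by
    rw [← IsGalois.card_aut_eq_finrank, hcard]
  obtain ⟨h1, h2⟩ := cyclic_layer_repCS S K M p hp2 hpS hKM hur
  exact ⟨h1, h2 ▸ dvd_rfl⟩

/-- `hcyc` in the exact shape of helper12's `finiteLevelLayers` hypothesis (#1371), for a fixed odd
prime `p ∈ S`. -/
theorem hcyc_repCS (p : ℕ) [hp : Fact p.Prime] (hp2 : p ≠ 2) (hpS : (⟨p, hp.out⟩ : Nat.Primes) ∈ S) :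
    ∀ (K M : Type) [Field K] [NumberField K] [Field M] [NumberField M] [Algebra K M]
      [IsGalois K M], Nat.card (M ≃ₐ[K] M) = p → UnramOutside S K M →
      Subsingleton (groupCohomology (repCS S M K) 1) ∧
        Nat.card (groupCohomology (repCS S M K) 2) ∣ p := by
  intro K M _ _ _ _ _ _ hcard hur
  exact cyclic_layer_repCS_dvd S K M ⟨p, hp.out⟩ hp2 hpS hcard hur

end

end Fermat.Agent.CFT.H23
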