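import Mathlib
import Fermat.Agent.CFT.H12_LayerGlue
import Fermat.Agent.CFT.H23_CCyclicLayer

set_option autoImplicit false

/-!
# CFT / C-LAYER-GLUE, final (helper12): `H24.FiniteLevelLayers p S`, UNCONDITIONAL

helper23's unconditional cyclic layer theorem (`H23.hcyc_repCS`: FIRST + SECOND for one Galois
layer of odd prime degree `p ∈ S`) plugged into the layer glue `H12.finiteLevelLayers`.
This is the `hlay` input of `H24.nonempty_pClassFormation_global`.
-/

namespace Fermat.Agent.CFT.H12

/-- The one-layer statement, unconditionally, for an odd prime `p ∈ S`. -/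
theorem cyclicLayerStatement (p : ℕ) [hp : Fact p.Prime] (hp2 : p ≠ 2) (S : Finset Nat.Primes)
    (hpS : (⟨p, hp.out⟩ : Nat.Primes) ∈ S) : CyclicLayerStatement S p :=
  H23.hcyc_repCS S p hp2 hpS

/-- **The layers of degree `p` at every finite Galois level, unconditionally.** -/
theorem finiteLevelLayers_uncond (p : ℕ) [hp : Fact p.Prime] (hp2 : p ≠ 2)
    (S : Finset Nat.Primes) (hpS : (⟨p, hp.out⟩ : Nat.Primes) ∈ S) :
    H24.FiniteLevelLayers p S :=
  finiteLevelLayers p S ⟨_, hpS⟩ (cyclicLayerStatement p hp2 S hpS)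

/-- The same for one Galois number field `F/ℚ` unramified outside `S`. -/
theorem pPrimeLayers_repCS_uncond (p : ℕ) [hp : Fact p.Prime] (hp2 : p ≠ 2)
    (S : Finset Nat.Primes) (hpS : (⟨p, hp.out⟩ : Nat.Primes) ∈ S)
    (F : Type) [Field F] [NumberField F] [IsGalois ℚ F] (hur : H23.UnramOutside S ℚ F) :
    H40.PPrimeLayers p (H23.repCS S F ℚ) :=
  pPrimeLayers_repCS S p ⟨_, hpS⟩ (cyclicLayerStatement p hp2 S hpS) F hur

end Fermat.Agent.CFT.H12
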