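import Mathlib
import Fermat.Agent.CFT.H15_UglyLevel
import Fermat.Agent.CFT.H85_InfRes
import Fermat.Agent.CFT.H33_CorRes

set_option autoImplicit false
set_option linter.unusedSectionVars false

/-!
# CFT / C-FORM : inflation does not lower `p`-power orders (helper12)

`G` finite, `N ◁ G` with `G ⧸ N` a `p`-group, `A : Rep k G` with `H¹(S, A) = 0` for all
`p`-subgroups `S`.  Then a class `x ∈ H²(G ⧸ N, A^N)` of `p`-power order with `inf x = 0` vanishes.

Proof: restrict to a Sylow `p`-subgroup `P` of `G`; then `P → G ⧸ N` is onto, `P ⊓ N` is a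
`p`-group, inflation from `P ⧸ (P ⊓ N)` to `P` is injective, and the trace
`A^(P ⊓ N) → A^N` over `N ⧸ (P ⊓ N)` is `P`-equivariant with `trace ∘ incl = [N : P ⊓ N]`,
which is prime to `p`.
-/

open CategoryTheory groupCohomology

noncomputable section

namespace Fermat.Agent.CFT.H12

variable {k : Type} [CommRing k] {G : Type} [Group G]

/-! ### The trace `A^(P ⊓ N) → A^N` -/

section Trace

variable (A : Rep.{0} k G) (N P : Subgroup G)

/-- one term of the trace: `ν • v`, which only depends on the coset of `ν` modulo `P ⊓ N` -/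
def trTerm (v : A.V) (hv : ∀ s ∈ P ⊓ N, A.ρ s v = v) (q : ↥N ⧸ (P.subgroupOf N)) : A.V :=
  Quotient.liftOn' q (fun ν => A.ρ (ν : G) v) (by
    intro ν ν' h
    have hs : ν⁻¹ * ν' ∈ P.subgroupOf N := QuotientGroup.leftRel_apply.1 h
    have h1 : A.ρ (ν' : G) v = A.ρ (ν : G) (A.ρ ((ν⁻¹ * ν' : ↥N) : G) v) := by
      rw [← Module.End.mul_apply, ← map_mul]
      congr 2
      simp
    rw [h1, hv _ ⟨Subgroup.mem_subgroupOf.1 hs, (ν⁻¹ * ν').2⟩])

theorem trTerm_mk (v : A.V) (hv : ∀ s ∈ P ⊓ N, A.ρ s v = v) (ν : ↥N) :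
    trTerm A N P v hv (QuotientGroup.mk ν) = A.ρ (ν : G) v := rfl

variable [Finite G]

attribute [local instance] Fintype.ofFinite

/-- the trace of a `P ⊓ N`-invariant vector -/
def trace (v : A.V) (hv : ∀ s ∈ P ⊓ N, A.ρ s v = v) : A.V :=
  ∑ q : ↥N ⧸ (P.subgroupOf N), trTerm A N P v hv q

theorem trace_add (v w : A.V) (hv : ∀ s ∈ P ⊓ N, A.ρ s v = v) (hw : ∀ s ∈ P ⊓ N, A.ρ s w = w)
    (hvw : ∀ s ∈ P ⊓ N, A.ρ s (v + w) = v + w) :
    trace A N P (v + w) hvw = trace A N P v hv + trace A N P w hw := by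
  unfold trace
  rw [← Finset.sum_add_distrib]
  apply Finset.sum_congr rfl
  intro q _
  induction q using Quotient.inductionOn' with
  | h ν =>
    change A.ρ (ν : G) (v + w) = A.ρ (ν : G) v + A.ρ (ν : G) w
    rw [map_add]

theorem trace_smul (c : k) (v : A.V) (hv : ∀ s ∈ P ⊓ N, A.ρ s v = v)
    (hcv : ∀ s ∈ P ⊓ N, A.ρ s (c • v) = c • v) :
    trace A N P (c • v) hcv = c • trace A N P v hv := by
  unfold trace
  rw [Finset.smul_sum]
  apply Finset.sum_congr rfl
  intro q _
  induction q using Quotient.inductionOn' with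
  | h ν =>
    change A.ρ (ν : G) (c • v) = c • A.ρ (ν : G) v
    rw [map_smul]

/-- the trace is `N`-invariant -/
theorem trace_invariant (v : A.V) (hv : ∀ s ∈ P ⊓ N, A.ρ s v = v) (ν₀ : G) (hν₀ : ν₀ ∈ N) :
    A.ρ ν₀ (trace A N P v hv) = trace A N P v hv := by
  unfold trace
  rw [map_sum]
  have hbij : Function.Bijective
      (fun q : ↥N ⧸ (P.subgroupOf N) => (⟨ν₀, hν₀⟩ : ↥N) • q) :=
    MulAction.bijective (⟨ν₀, hν₀⟩ : ↥N)
  rw [← hbij.sum_comp (fun q => trTerm A N P v hv q)]
  apply Finset.sum_congr rfl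
  intro q _
  induction q using Quotient.inductionOn' with
  | h ν =>
    change A.ρ ν₀ (A.ρ (ν : G) v) = A.ρ (((⟨ν₀, hν₀⟩ : ↥N) * ν : ↥N) : G) v
    rw [← Module.End.mul_apply, ← map_mul]
    rfl

/-- on `N`-invariant vectors the trace is multiplication by the index -/
theorem trace_of_invariant (v : A.V) (hv : ∀ s ∈ N, A.ρ s v = v) :
    trace A N P v (fun s hs => hv s hs.2) = (P.subgroupOf N).index • v := by
  unfold trace
  have : ∀ q : ↥N ⧸ (P.subgroupOf N), trTerm A N P v (fun s hs => hv s hs.2) q = v := by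
    intro q
    induction q using Quotient.inductionOn' with
    | h ν => exact hv _ ν.2
  rw [Finset.sum_congr rfl (fun q _ => this q), Finset.sum_const, Finset.card_univ,
    Subgroup.index_eq_card, Nat.card_eq_fintype_card]

variable [N.Normal]

/-- conjugation by `π ∈ P` on `N ⧸ (P ⊓ N)` -/
def conjQuot (π : G) (hπ : π ∈ P) : ↥N ⧸ (P.subgroupOf N) → ↥N ⧸ (P.subgroupOf N) :=
  Quotient.map' (fun ν : ↥N => (⟨π * ν * π⁻¹, ‹N.Normal›.conj_mem ν ν.2 π⟩ : ↥N)) (by
    intro ν ν' h
    have hs : ν⁻¹ * ν' ∈ P.subgroupOf N := QuotientGroup.leftRel_apply.1 h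
    apply QuotientGroup.leftRel_apply.2
    rw [Subgroup.mem_subgroupOf] at hs ⊢
    have : (((⟨π * ν * π⁻¹, ‹N.Normal›.conj_mem ν ν.2 π⟩ : ↥N)⁻¹ *
        (⟨π * ν' * π⁻¹, ‹N.Normal›.conj_mem ν' ν'.2 π⟩ : ↥N) : ↥N) : G) =
        π * ((ν⁻¹ * ν' : ↥N) : G) * π⁻¹ := by
      simp only [Subgroup.coe_mul, Subgroup.coe_inv]
      group
    rw [this]
    exact P.mul_mem (P.mul_mem hπ hs) (P.inv_mem hπ))

theorem conjQuot_mk (π : G) (hπ : π ∈ P) (ν : ↥N) :
    conjQuot N P π hπ (QuotientGroup.mk ν) =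
      QuotientGroup.mk (⟨π * ν * π⁻¹, ‹N.Normal›.conj_mem ν ν.2 π⟩ : ↥N) := rfl

theorem conjQuot_bijective (π : G) (hπ : π ∈ P) : Function.Bijective (conjQuot N P π hπ) := by
  refine Function.bijective_iff_has_inverse.2 ⟨conjQuot N P π⁻¹ (P.inv_mem hπ), ?_, ?_⟩
  · intro q
    induction q using Quotient.inductionOn' with
    | h ν =>
      change conjQuot N P π⁻¹ _ (conjQuot N P π hπ (QuotientGroup.mk ν)) = QuotientGroup.mk ν
      rw [conjQuot_mk, conjQuot_mk]
      congr 1
      apply Subtype.ext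
      simp only
      group
  · intro q
    induction q using Quotient.inductionOn' with
    | h ν =>
      change conjQuot N P π hπ (conjQuot N P π⁻¹ _ (QuotientGroup.mk ν)) = QuotientGroup.mk ν
      rw [conjQuot_mk, conjQuot_mk]
      congr 1
      apply Subtype.ext
      simp only
      group

/-- `P`-conjugates of `P ⊓ N`-invariant vectors are `P ⊓ N`-invariant -/
theorem invariant_conj (v : A.V) (hv : ∀ s ∈ P ⊓ N, A.ρ s v = v) (π : G) (hπ : π ∈ P) :
    ∀ s ∈ P ⊓ N, A.ρ s (A.ρ π v) = A.ρ π v := by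
  intro s hs
  have h1 : π⁻¹ * s * π ∈ P ⊓ N :=
    ⟨P.mul_mem (P.mul_mem (P.inv_mem hπ) hs.1) hπ, ‹N.Normal›.conj_mem' s hs.2 π⟩
  have h2 := hv _ h1
  calc A.ρ s (A.ρ π v) = A.ρ π (A.ρ (π⁻¹ * s * π) v) := by
        rw [← Module.End.mul_apply, ← map_mul, ← Module.End.mul_apply, ← map_mul]
        congr 2
        group
    _ = A.ρ π v := by rw [h2]

/-- the trace is `P`-equivariant -/
theorem trace_conj (v : A.V) (hv : ∀ s ∈ P ⊓ N, A.ρ s v = v) (π : G) (hπ : π ∈ P) :
    A.ρ π (trace A N P v hv) = trace A N P (A.ρ π v) (invariant_conj A N P v hv π hπ) := by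
  unfold trace
  rw [map_sum, ← (conjQuot_bijective N P π hπ).sum_comp
    (fun q => trTerm A N P (A.ρ π v) (invariant_conj A N P v hv π hπ) q)]
  apply Finset.sum_congr rfl
  intro q _
  induction q using Quotient.inductionOn' with
  | h ν =>
    change A.ρ π (A.ρ (ν : G) v) = A.ρ (π * (ν : G) * π⁻¹) (A.ρ π v)
    rw [← Module.End.mul_apply, ← map_mul, ← Module.End.mul_apply, ← map_mul]
    congr 2
    group

end Trace

/-! ### Group theory: a Sylow subgroup against a normal subgroup of `p`-power index -/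

section GroupTheory

variable (N P : Subgroup G) [N.Normal]

/-- the natural map `P ⧸ (P ⊓ N) → G ⧸ N` -/
def quotMap : ↥P ⧸ N.subgroupOf P →* G ⧸ N :=
  QuotientGroup.map (N.subgroupOf P) N P.subtype (fun _ h => h)

theorem quotMap_mk (π : ↥P) :
    quotMap N P (QuotientGroup.mk π) = QuotientGroup.mk (π : G) := rfl

theorem quotMap_injective : Function.Injective (quotMap N P) := by
  rw [injective_iff_map_eq_one]
  intro q hq
  induction q using QuotientGroup.induction_on with
  | H π =>
    rw [quotMap_mk, QuotientGroup.eq_one_iff] at hq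
    exact (QuotientGroup.eq_one_iff π).2 (Subgroup.mem_subgroupOf.2 hq)

theorem quotMap_surjective (h : P ⊔ N = ⊤) : Function.Surjective (quotMap N P) := by
  intro q
  induction q using QuotientGroup.induction_on with
  | H g =>
    have hg : g ∈ ((P ⊔ N : Subgroup G) : Set G) := by rw [h]; trivial
    rw [Subgroup.mul_normal] at hg
    obtain ⟨π, hπ, ν, hν, rfl⟩ := hg
    refine ⟨QuotientGroup.mk ⟨π, hπ⟩, ?_⟩
    rw [quotMap_mk]
    apply QuotientGroup.eq.2
    rw [inv_mul_cancel_left]
    exact hν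

variable [Finite G] {p : ℕ} [Fact p.Prime]

theorem sylow_sup_eq_top (Q : Sylow p G) {n : ℕ} (hN : N.index = p ^ n) :
    (Q : Subgroup G) ⊔ N = ⊤ := by
  rw [← Subgroup.index_eq_one]
  have h1 : ((Q : Subgroup G) ⊔ N).index ∣ (Q : Subgroup G).index :=
    Subgroup.index_dvd_of_le le_sup_left
  have h2 : ((Q : Subgroup G) ⊔ N).index ∣ p ^ n := hN ▸ Subgroup.index_dvd_of_le le_sup_right
  obtain ⟨e, -, he⟩ := (Nat.dvd_prime_pow (Fact.out : p.Prime)).mp h2
  rcases Nat.eq_zero_or_pos e with h0 | hpos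
  · rw [he, h0, pow_zero]
  · exfalso
    apply Q.not_dvd_index
    exact (dvd_pow_self p hpos.ne').trans (he ▸ h1)

theorem sylow_coprime_index (Q : Sylow p G) {n : ℕ} (hN : N.index = p ^ n) :
    Nat.Coprime p ((Q : Subgroup G).subgroupOf N).index := by
  have hp : p.Prime := Fact.out
  rw [Nat.Prime.coprime_iff_not_dvd hp]
  intro hdvd
  set P : Subgroup G := (Q : Subgroup G) with hP
  -- cardinalities
  have hbij : Function.Bijective (quotMap N P) :=
    ⟨quotMap_injective N P, quotMap_surjective N P (sylow_sup_eq_top N Q hN)⟩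
  have hq : Nat.card (↥P ⧸ N.subgroupOf P) = p ^ n := by
    rw [Nat.card_congr (Equiv.ofBijective _ hbij), ← Subgroup.index_eq_card, hN]
  have h1 : Nat.card ↥P = Nat.card (↥P ⧸ N.subgroupOf P) * Nat.card (N.subgroupOf P) :=
    Subgroup.card_eq_card_quotient_mul_card_subgroup _
  have h2 : Nat.card (N.subgroupOf P) = Nat.card (P.subgroupOf N) := by
    rw [← Subgroup.inf_subgroupOf_left, ← Subgroup.inf_subgroupOf_right P N,
      Nat.card_congr (Subgroup.subgroupOfEquivOfLe (inf_le_left : P ⊓ N ≤ P)).toEquiv,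
      Nat.card_congr (Subgroup.subgroupOfEquivOfLe (inf_le_right : P ⊓ N ≤ N)).toEquiv]
  have h3 : Nat.card (P.subgroupOf N) * (P.subgroupOf N).index = Nat.card ↥N :=
    Subgroup.card_mul_index _
  have h4 : Nat.card ↥N * N.index = Nat.card G := Subgroup.card_mul_index N
  have h5 : Nat.card ↥P = p ^ (Nat.card G).factorization p := Q.card_eq_multiplicity
  obtain ⟨a, ha⟩ : ∃ a, a = (Nat.card G).factorization p := ⟨_, rfl⟩
  rw [← ha] at h5
  obtain ⟨c, hc⟩ := hdvd
  have hG : Nat.card G = p ^ a * (p * c) := by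
    calc Nat.card G = Nat.card ↥N * N.index := h4.symm
      _ = (Nat.card (P.subgroupOf N) * (p * c)) * p ^ n := by rw [← h3, hc, hN]
      _ = (p ^ n * Nat.card (N.subgroupOf P)) * (p * c) := by rw [h2]; ring
      _ = Nat.card ↥P * (p * c) := by rw [← hq, ← h1]
      _ = p ^ a * (p * c) := by rw [h5]
  have h6 : p ^ (a + 1) ∣ Nat.card G := ⟨c, by rw [hG, pow_succ, mul_assoc]⟩
  rw [ha] at h6
  exact Nat.pow_succ_factorization_not_dvd Nat.card_pos.ne' hp h6

end GroupTheory

/-! ### The cohomological maps -/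

section Coh

variable (A : Rep.{0} k G) (N P : Subgroup G) [N.Normal]

/-- base change of the invariants: `A^N → (res_P A)^(P ⊓ N)` over `P ⧸ (P ⊓ N) → G ⧸ N`. -/
def baseIncl : Rep.res (quotMap N P) (A.quotientToInvariants N) ⟶
    (Rep.res P.subtype A).quotientToInvariants (N.subgroupOf P) :=
  Rep.ofHom ⟨LinearMap.codRestrict _ (Submodule.subtype _) (fun x s => by
      have := x.2 ⟨(s.1 : G), Subgroup.mem_subgroupOf.1 s.2⟩
      simpa using this), fun q => by
    induction q using QuotientGroup.induction_on with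
    | H π => ext x; rfl⟩

/-- the restriction–inflation square -/
theorem infTop_comp_resSub :
    infTop A N 2 ≫ resSub A P 2 =
      groupCohomology.map (quotMap N P) (baseIncl A N P) 2 ≫
        infTop (Rep.res P.subtype A) (N.subgroupOf P) 2 := by
  unfold infTop resSub
  rw [← groupCohomology.map_comp, ← groupCohomology.map_comp]
  refine groupCohomology.map_congr ?_ ?_ 2
  · ext π
    rfl
  · rfl

variable [Finite G]

/-- the inverse of `quotMap` as a homomorphism -/
def quotMapInv (hφ : Function.Bijective (quotMap N P)) : G ⧸ N →* ↥P ⧸ N.subgroupOf P :=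
  (MulEquiv.ofBijective (quotMap N P) hφ).symm.toMonoidHom

theorem quotMapInv_quotMap (hφ : Function.Bijective (quotMap N P)) (q : ↥P ⧸ N.subgroupOf P) :
    quotMapInv N P hφ (quotMap N P q) = q :=
  (MulEquiv.ofBijective (quotMap N P) hφ).symm_apply_apply q

theorem quotMap_quotMapInv (hφ : Function.Bijective (quotMap N P)) (g : G ⧸ N) :
    quotMap N P (quotMapInv N P hφ g) = g :=
  (MulEquiv.ofBijective (quotMap N P) hφ).apply_symm_apply g

/-- the trace as a linear map on invariants -/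
def traceLin : ((Rep.res P.subtype A).quotientToInvariants (N.subgroupOf P)).V →ₗ[k]
    (A.quotientToInvariants N).V where
  toFun w := ⟨trace A N P w.1 (fun s hs => by
      have := w.2 ⟨⟨s, hs.1⟩, Subgroup.mem_subgroupOf.2 hs.2⟩
      simpa using this), fun ν => by
    exact trace_invariant A N P w.1 _ ν.1 ν.2⟩
  map_add' w w' := by
    apply Subtype.ext
    exact trace_add A N P w.1 w'.1 _ _ _
  map_smul' c w := by
    apply Subtype.ext
    exact trace_smul A N P c w.1 _ _

theorem traceLin_coe (w : ((Rep.res P.subtype A).quotientToInvariants (N.subgroupOf P)).V) :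
    ((traceLin A N P w : (A.quotientToInvariants N).V) : A.V) = trace A N P w.1 (fun s hs => by
      have := w.2 ⟨⟨s, hs.1⟩, Subgroup.mem_subgroupOf.2 hs.2⟩
      simpa using this) := rfl

/-- the trace as a morphism of `G ⧸ N`-representations -/
def traceHom (hφ : Function.Bijective (quotMap N P)) :
    Rep.res (quotMapInv N P hφ) ((Rep.res P.subtype A).quotientToInvariants (N.subgroupOf P)) ⟶
      A.quotientToInvariants N :=
  Rep.ofHom ⟨traceLin A N P, fun g => by
    obtain ⟨q, rfl⟩ := hφ.2 g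
    induction q using QuotientGroup.induction_on with
    | H π =>
      ext w
      change ((traceLin A N P (((Rep.res P.subtype A).quotientToInvariants (N.subgroupOf P)).ρ
        (quotMapInv N P hφ (quotMap N P (QuotientGroup.mk π))) w) :
          (A.quotientToInvariants N).V) : A.V) =
        A.ρ (π : G) ((traceLin A N P w : (A.quotientToInvariants N).V) : A.V)
      rw [quotMapInv_quotMap, traceLin_coe, traceLin_coe, trace_conj A N P _ _ (π : G) π.2]
      rfl⟩

theorem map_nsmul_id (X : Rep.{0} k (G ⧸ N)) (m : ℕ) :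
    groupCohomology.map (MonoidHom.id (G ⧸ N)) (m • 𝟙 X) 2 = m • 𝟙 (groupCohomology X 2) := by
  have := H33.functor_additive (k := k) (G := G ⧸ N) 2
  have h : (groupCohomology.functor k (G ⧸ N) 2).map (m • 𝟙 X) =
      m • (groupCohomology.functor k (G ⧸ N) 2).map (𝟙 X) :=
    (groupCohomology.functor k (G ⧸ N) 2).map_nsmul
  rw [CategoryTheory.Functor.map_id] at h
  exact h

/-- base change followed by the trace is multiplication by `[N : P ⊓ N]` -/
theorem map_baseIncl_comp_map_trace (hφ : Function.Bijective (quotMap N P)) :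
    groupCohomology.map (quotMap N P) (baseIncl A N P) 2 ≫
      groupCohomology.map (quotMapInv N P hφ) (traceHom A N P hφ) 2 =
        (P.subgroupOf N).index • 𝟙 (groupCohomology (A.quotientToInvariants N) 2) := by
  rw [← groupCohomology.map_comp, ← map_nsmul_id]
  refine groupCohomology.map_congr ?_ ?_ 2
  · ext g
    exact quotMap_quotMapInv N P hφ g
  · ext v
    change ((traceLin A N P ((baseIncl A N P).hom v) : (A.quotientToInvariants N).V) : A.V) =
      (((P.subgroupOf N).index • v : (A.quotientToInvariants N).V) : A.V)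
    rw [traceLin_coe]
    exact trace_of_invariant A N P v.1 (fun s hs => by
      have := v.2 ⟨s, hs⟩
      simpa using this)

end Coh

/-! ### Main results -/

section Main

variable [Finite G] {p : ℕ} [Fact p.Prime]

/-- **Inflation is injective on `p`-primary classes** when `G ⧸ N` is a `p`-group and inflation is
injective for the `p`-subgroups of `G`. -/
theorem eq_zero_of_infTop_eq_zero (A : Rep.{0} k G) (N : Subgroup G) [N.Normal] {n : ℕ}
    (hN : N.index = p ^ n)
    (hinj : ∀ P : Subgroup G, IsPGroup p P →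
      Function.Injective (infTop (Rep.res P.subtype A) (N.subgroupOf P) 2).hom)
    (x : groupCohomology (A.quotientToInvariants N) 2) (c : ℕ) (hx : p ^ c • x = 0)
    (hinf : (infTop A N 2).hom x = 0) : x = 0 := by
  obtain ⟨Q⟩ := (inferInstance : Nonempty (Sylow p G))
  have hφ : Function.Bijective (quotMap N (Q : Subgroup G)) :=
    ⟨quotMap_injective N _, quotMap_surjective N _ (sylow_sup_eq_top N Q hN)⟩
  have hm : Nat.Coprime p ((Q : Subgroup G).subgroupOf N).index := sylow_coprime_index N Q hN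
  have hsq := congrArg (fun f => f.hom x) (infTop_comp_resSub A N (Q : Subgroup G))
  simp only [ModuleCat.hom_comp, LinearMap.comp_apply] at hsq
  rw [hinf, map_zero] at hsq
  have h2 : (groupCohomology.map (quotMap N (Q : Subgroup G)) (baseIncl A N _) 2).hom x = 0 :=
    hinj _ Q.isPGroup' (hsq.symm.trans (map_zero _).symm)
  have h3 := congrArg (fun f => f.hom x) (map_baseIncl_comp_map_trace A N (Q : Subgroup G) hφ)
  simp only [ModuleCat.hom_comp, LinearMap.comp_apply] at h3
  rw [h2, map_zero] at h3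
  have h4 : ((Q : Subgroup G).subgroupOf N).index • x = 0 := by
    rw [h3]
    rfl
  have h5 : addOrderOf x ∣ ((Q : Subgroup G).subgroupOf N).index :=
    addOrderOf_dvd_of_nsmul_eq_zero h4
  have h6 : addOrderOf x ∣ p ^ c := addOrderOf_dvd_of_nsmul_eq_zero hx
  have h7 : addOrderOf x = 1 :=
    Nat.eq_one_of_dvd_coprimes (Nat.Coprime.pow_left c hm) h6 h5
  exact AddMonoid.addOrderOf_eq_one_iff.1 h7

/-- Inflation preserves `p`-power orders. -/
theorem addOrderOf_infTop (A : Rep.{0} k G) (N : Subgroup G) [N.Normal] {n : ℕ}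
    (hN : N.index = p ^ n)
    (hinj : ∀ P : Subgroup G, IsPGroup p P →
      Function.Injective (infTop (Rep.res P.subtype A) (N.subgroupOf P) 2).hom)
    (x : groupCohomology (A.quotientToInvariants N) 2) (c : ℕ) (hx : addOrderOf x = p ^ c) :
    addOrderOf ((infTop A N 2).hom x) = p ^ c := by
  have hp : p.Prime := Fact.out
  have h0 : p ^ c • (infTop A N 2).hom x = 0 := by
    rw [← map_nsmul, ← hx, addOrderOf_nsmul_eq_zero, map_zero]
  obtain ⟨d, hdc, hd⟩ := (Nat.dvd_prime_pow hp).mp (addOrderOf_dvd_of_nsmul_eq_zero h0)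
  have h1 : (infTop A N 2).hom (p ^ d • x) = 0 := by
    rw [map_nsmul, ← hd, addOrderOf_nsmul_eq_zero]
  have h2 : p ^ c • (p ^ d • x) = 0 := by
    rw [smul_comm, ← hx, addOrderOf_nsmul_eq_zero, smul_zero]
  have h3 := eq_zero_of_infTop_eq_zero A N hN hinj (p ^ d • x) c h2 h1
  have h4 : p ^ c ∣ p ^ d := hx ▸ addOrderOf_dvd_of_nsmul_eq_zero h3
  have h5 : c ≤ d := (Nat.pow_dvd_pow_iff_le_right hp.one_lt).1 h4
  rw [hd, le_antisymm hdc h5]

end Main

end Fermat.Agent.CFT.H12
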