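import Mathlib
import Fermat.Agent.CFT.H12_PTower
import Fermat.Agent.CFT.H12_InfOrder

set_option autoImplicit false
set_option linter.unusedSectionVars false

/-!
# CFT / C-FORM : the `p`-tower system from `H¹`-vanishing on `p`-groups (helper12)

`PTowerSystem.ofH1` builds a `PTowerSystem` (hence a `PClassFormation`, see `H12_PTower`) from
the tower `E n`, classes `u n` of exact order `p ^ n`, their inflation compatibility, the key
vanishing, and the vanishing of `H¹(H, C^W)` for all finite `p`-groups `H` mapping injectively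
into `Γ ⧸ W` (`W` a normal level).  Inflation–restriction (`H85_InfRes`) and the preservation of
`p`-power orders under inflation (`H12_InfOrder`) are discharged here.
-/

open CategoryTheory groupCohomology

noncomputable section

namespace Fermat.Agent.CFT.H12

open Fermat.Agent.CFT.H15

variable {k : Type} [CommRing k]

/-- `H¹`-vanishing on `p`-groups, "subgroups as injective homomorphisms" form. -/
def H1VanishP (p : ℕ) {G : Type} [Group G] (A : Rep.{0} k G) : Prop :=
  ∀ (H : Type) [Group H] [Finite H] (f : H →* G), Function.Injective f → IsPGroup p H →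
    Subsingleton (groupCohomology (Rep.res f A) 1)

section Finite

variable {G : Type} [Group G]

/-- degree-2 inflation–restriction for a normal `p`-subgroup -/
theorem infRes2_of_H1VanishP {p : ℕ} (A : Rep.{0} k G) (h1 : H1VanishP p A) (S : Subgroup G)
    [S.Normal] [Finite S] (hS : IsPGroup p S) : InfRes2 A S := by
  have hA : ∀ i, 1 ≤ i → i < 2 → Limits.IsZero (groupCohomology (Rep.res S.subtype A) i) := by
    intro i hi1 hi2
    obtain rfl : i = 1 := by omega
    have := h1 ↥S S.subtype S.subtype_injective hS
    exact ModuleCat.isZero_of_subsingleton _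
  exact ⟨H85.inflation_injective (n := 2) (by norm_num) hA, fun x hx =>
    H85.exists_inflation_eq_of_restriction_eq_zero (n := 2) (by norm_num) hA x hx⟩

/-- injectivity of inflation on the `p`-subgroups -/
theorem infTop_injective_of_H1VanishP {p : ℕ} [Finite G] (A : Rep.{0} k G) (h1 : H1VanishP p A)
    (N : Subgroup G) [N.Normal] (P : Subgroup G) (hP : IsPGroup p P) :
    Function.Injective (infTop (Rep.res P.subtype A) (N.subgroupOf P) 2).hom := by
  have h1' : H1VanishP p (Rep.res P.subtype A) := by
    intro H _ _ f hf hH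
    exact h1 H (P.subtype.comp f) (P.subtype_injective.comp hf) hH
  exact (infRes2_of_H1VanishP (Rep.res P.subtype A) h1' (N.subgroupOf P)
    (hP.to_subgroup _)).1

end Finite

section Level

variable {Γ : Type} [Group Γ]

/-- Inflation between levels preserves `p`-power orders, when `Γ ⧸ E` is a `p`-group and
`H¹` vanishes on the `p`-groups inside `Γ ⧸ W`. -/
theorem addOrderOf_infLevel {p : ℕ} [Fact p.Prime] (C : Rep.{0} k Γ) (E W : Subgroup Γ)
    [E.Normal] [W.Normal] [W.FiniteIndex] (hWE : W ≤ E) {n : ℕ} (hE : E.index = p ^ n)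
    (h1 : H1VanishP p (C.quotientToInvariants W))
    (y : groupCohomology (C.quotientToInvariants E) 2) (c : ℕ) (hy : addOrderOf y = p ^ c) :
    addOrderOf ((infLevel C E W hWE 2).hom y) = p ^ c := by
  rw [infLevel_apply_eq C E W hWE 2 y]
  have hidx : (quotSub E W).index = p ^ n := by
    rw [← hE]
    exact Subgroup.index_map_eq E (QuotientGroup.mk'_surjective W)
      (by rw [QuotientGroup.ker_mk']; exact hWE)
  apply addOrderOf_infTop (C.quotientToInvariants W) (quotSub E W) hidx
    (fun P hP => infTop_injective_of_H1VanishP _ h1 _ P hP)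
  rw [← hy]
  have hinj : Function.Injective (dqIso C E W hWE 2).inv.hom := by
    intro a b hab
    have := congrArg (fun z => (dqIso C E W hWE 2).hom.hom z) hab
    have ea : (dqIso C E W hWE 2).hom.hom ((dqIso C E W hWE 2).inv.hom a) = a :=
      congrArg (fun f => f.hom a) (dqIso C E W hWE 2).inv_hom_id
    have eb : (dqIso C E W hWE 2).hom.hom ((dqIso C E W hWE 2).inv.hom b) = b :=
      congrArg (fun f => f.hom b) (dqIso C E W hWE 2).inv_hom_id
    simp only [ea, eb] at this
    exact this
  exact addOrderOf_injective ((dqIso C E W hWE 2).inv.hom : _ →ₗ[k] _).toAddMonoidHom hinj y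

/-- **Constructor**: a `p`-tower system from `H¹`-vanishing on `p`-groups. -/
def PTowerSystem.ofH1 {p : ℕ} (hp : p.Prime) (𝓛 : LevelStructure Γ) (C : Rep.{0} k Γ)
    (E : ℕ → Subgroup Γ) [hn : ∀ n, (E n).Normal] (mem : ∀ n, E n ∈ 𝓛.levels)
    (index : ∀ n, (E n).index = p ^ n) (anti : ∀ {n m : ℕ}, n ≤ m → E m ≤ E n)
    (inter_mem : ∀ (U : Subgroup Γ) [U.Normal], U ∈ 𝓛.levels → ∀ n, U ⊓ E n ∈ 𝓛.levels)
    (u : ∀ n, groupCohomology (C.quotientToInvariants (E n)) 2)
    (inf_u : ∀ (n m : ℕ) (h : n ≤ m),
      (infLevel C (E n) (E m) (anti h) 2).hom (u n) = (p ^ (m - n)) • u m)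
    (order : ∀ n, addOrderOf (u n) = p ^ n)
    (key : ∀ (U : Subgroup Γ) [U.Normal], U ∈ 𝓛.levels →
      (resSub (C.quotientToInvariants (U ⊓ E (U.index.factorization p)))
        (quotSub U (U ⊓ E (U.index.factorization p))) 2).hom
        ((infLevel C (E (U.index.factorization p)) (U ⊓ E (U.index.factorization p))
          inf_le_right 2).hom (u (U.index.factorization p))) = 0)
    (h1 : ∀ (W : Subgroup Γ) [W.Normal], W ∈ 𝓛.levels →
      H1VanishP p (C.quotientToInvariants W)) :
    PTowerSystem p 𝓛 C where
  prime := hp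
  E := E
  normal := hn
  mem := mem
  index := index
  anti := anti
  inter_mem := inter_mem
  infRes U W _ _ _ hW _ hPG := by
    have := 𝓛.finiteIndex W hW
    exact infRes2_of_H1VanishP (C.quotientToInvariants W) (h1 W hW) (quotSub U W) hPG
  u := u
  inf_u := inf_u
  order_inf n W _ hW h := by
    have := 𝓛.finiteIndex W hW
    have := Fact.mk hp
    exact addOrderOf_infLevel C (E n) W h (index n) (h1 W hW) (u n) n (order n)
  key := key

end Level

end Fermat.Agent.CFT.H12
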