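import Mathlib
import Fermat.Agent.CFT.H12_PTowerFinal
import Fermat.Agent.CFT.H19_StdCocycle
import Fermat.Agent.CFT.H40_DevissageLevel

set_option autoImplicit false
set_option linter.unusedSectionVars false

/-!
# CFT / C-FORM : the abstract bridge "standard-cocycle tower ⟹ `PTowerSystem`" (helper12)

Input: a tower `E n` of normal levels with `Γ ⧸ E n` cyclic of order `p ^ n`, compatible
generators `g n`, ONE `Γ`-invariant element `a : C`, and

* (Ord) if `m • a` is a norm from `C^(E n)` (for `Γ ⧸ E n`) then `p ^ n ∣ m`;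
* (Key) for every normal level `U`, with `e := v_p [Γ : U]` and `W := U ⊓ E e`, the element `a`
  is a norm from `C^W` for the (cyclic) group `U / W`.

Output: the tower classes `u n := [std (g n) a]` (helper19's standard cocycle) satisfy `inf_u`,
`order` and `key` of `PTowerSystem.ofH1`; hence (`PTowerSystem.ofStd`) a `PTowerSystem`, and with
helper40's degree-`p` layers (`H40.LevelPPrimeLayers`) a `PClassFormation p 𝓛 C`
(`pClassFormationOfStd`).  Norms are written as `finsum`s, so no `Fintype` instances appear in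
the hypotheses.
-/

open CategoryTheory groupCohomology

noncomputable section

namespace Fermat.Agent.CFT.H12

open Fermat.Agent.CFT.H15 Fermat.Agent.CFT.H19

variable {k : Type} [CommRing k]

section Fin

variable {G : Type} [Group G] [Finite G] (A : Rep.{0} k G)

/-- The full norm (as a `finsum`, no `Fintype` instance needed) is the partial norm of length
`orderOf g` for a generator `g`. -/
theorem pnorm_orderOf_eq_finsum {g : G} (hg : ∀ x : G, x ∈ Subgroup.zpowers g) (y : A) :
    pnorm A g y (orderOf g) = ∑ᶠ x : G, A.ρ x y := by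
  let _ := Fintype.ofFinite G
  rw [pnorm_orderOf_eq_norm hg, finsum_eq_sum_of_fintype, Representation.norm,
    LinearMap.sum_apply]

end Fin

section Elt

variable {Γ : Type} [Group Γ] (C : Rep.{0} k Γ)

/-- A `Γ`-invariant element of `C`, viewed in `C^U`. -/
def invElt (U : Subgroup Γ) [U.Normal] {a : C} (ha : ∀ γ : Γ, C.ρ γ a = a) :
    C.quotientToInvariants U :=
  ⟨a, fun s => ha s⟩

theorem invElt_invariant (U : Subgroup Γ) [U.Normal] {a : C} (ha : ∀ γ : Γ, C.ρ γ a = a)
    (x : Γ ⧸ U) : (C.quotientToInvariants U).ρ x (invElt C U ha) = invElt C U ha := by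
  induction x using QuotientGroup.induction_on with
  | H γ => exact Subtype.ext (ha γ)

/-- The standard class of `(g, a)` at a level `U` with cyclic quotient `Γ ⧸ U = ⟨g⟩`. -/
def stdLevelClass (U : Subgroup Γ) [U.Normal] [Finite (Γ ⧸ U)] {g : Γ ⧸ U}
    (hg : ∀ x : Γ ⧸ U, x ∈ Subgroup.zpowers g) {a : C} (ha : ∀ γ : Γ, C.ρ γ a = a) :
    groupCohomology (C.quotientToInvariants U) 2 :=
  H2π _ (stdCocycle hg (invElt_invariant C U ha))

/-- Inflation of standard level classes. -/
theorem infLevel_stdLevelClass (U V : Subgroup Γ) [U.Normal] [V.Normal] [Finite (Γ ⧸ U)]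
    [Finite (Γ ⧸ V)] (h : V ≤ U) {g : Γ ⧸ U} (hg : ∀ x : Γ ⧸ U, x ∈ Subgroup.zpowers g)
    {g' : Γ ⧸ V} (hg' : ∀ x : Γ ⧸ V, x ∈ Subgroup.zpowers g')
    (hgg' : QuotientGroup.map V U (MonoidHom.id Γ) h g' = g)
    {a : C} (ha : ∀ γ : Γ, C.ρ γ a = a) :
    (infLevel C U V h 2).hom (stdLevelClass C U hg ha) =
      (orderOf g' / orderOf g) • stdLevelClass C V hg' ha :=
  map_H2π_stdCocycle_of_map_eq (QuotientGroup.map V U (MonoidHom.id Γ) h)
    (invIncl C U V h) hg hg' (invElt_invariant C U ha) hgg'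

/-- The order of the standard level class. -/
theorem addOrderOf_stdLevelClass (U : Subgroup Γ) [U.Normal] [Finite (Γ ⧸ U)] {g : Γ ⧸ U}
    (hg : ∀ x : Γ ⧸ U, x ∈ Subgroup.zpowers g) {a : C} (ha : ∀ γ : Γ, C.ρ γ a = a)
    (hord : ∀ m : ℕ, (∃ y : C.quotientToInvariants U,
      m • invElt C U ha = ∑ᶠ x : Γ ⧸ U, (C.quotientToInvariants U).ρ x y) → U.index ∣ m) :
    addOrderOf (stdLevelClass C U hg ha) = U.index := by
  have hog : orderOf g = U.index := by
    rw [Subgroup.index_eq_card]
    exact orderOf_eq_card_of_forall_mem_zpowers hg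
  rw [← hog]
  refine addOrderOf_H2π_stdCocycle_eq hg (invElt_invariant C U ha) (fun m ⟨y, hy⟩ => ?_)
  rw [hog]
  exact hord m ⟨y, by rw [hy, pnorm_orderOf_eq_finsum _ hg]⟩

/-- The key vanishing: the standard class of `(g, a)` at `E`, inflated to `W` and restricted to
a cyclic subgroup `H ≤ Γ ⧸ W`, vanishes as soon as `a` is a norm from `C^W` for `H`. -/
theorem resSub_infLevel_stdLevelClass_eq_zero (E W : Subgroup Γ) [E.Normal] [W.Normal]
    [Finite (Γ ⧸ E)] [Finite (Γ ⧸ W)] (hWE : W ≤ E) {g : Γ ⧸ E}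
    (hg : ∀ x : Γ ⧸ E, x ∈ Subgroup.zpowers g) (H : Subgroup (Γ ⧸ W)) {h : H}
    (hh : ∀ x : H, x ∈ Subgroup.zpowers h) {a : C} (ha : ∀ γ : Γ, C.ρ γ a = a)
    (hkey : ∃ y : C.quotientToInvariants W,
      invElt C W ha = ∑ᶠ x : H, (C.quotientToInvariants W).ρ x.1 y) :
    (resSub (C.quotientToInvariants W) H 2).hom
      ((infLevel C E W hWE 2).hom (stdLevelClass C E hg ha)) = 0 := by
  obtain ⟨y, hy⟩ := hkey
  have hcomp : infLevel C E W hWE 2 ≫ resSub (C.quotientToInvariants W) H 2 =
      groupCohomology.map ((QuotientGroup.map W E (MonoidHom.id Γ) hWE).comp H.subtype)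
        ((Rep.resFunctor H.subtype).map (invIncl C E W hWE) ≫
          𝟙 (Rep.res H.subtype (C.quotientToInvariants W))) 2 := by
    unfold infLevel resSub
    rw [← groupCohomology.map_comp]
  have happ : (resSub (C.quotientToInvariants W) H 2).hom
      ((infLevel C E W hWE 2).hom (stdLevelClass C E hg ha)) =
      (groupCohomology.map ((QuotientGroup.map W E (MonoidHom.id Γ) hWE).comp H.subtype)
        ((Rep.resFunctor H.subtype).map (invIncl C E W hWE) ≫
          𝟙 (Rep.res H.subtype (C.quotientToInvariants W))) 2).hom (stdLevelClass C E hg ha) := by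
    rw [← hcomp]
    rfl
  rw [happ]
  obtain ⟨f, hf⟩ := exists_pow_eq hg
    (((QuotientGroup.map W E (MonoidHom.id Γ) hWE).comp H.subtype) h)
  have hmap := map_H2π_stdCocycle
    ((QuotientGroup.map W E (MonoidHom.id Γ) hWE).comp H.subtype)
    ((Rep.resFunctor H.subtype).map (invIncl C E W hWE) ≫
      𝟙 (Rep.res H.subtype (C.quotientToInvariants W))) hg hh (invElt_invariant C E ha)
    (f := f) hf.symm
  unfold stdLevelClass
  refine hmap.trans ?_
  have hinv := hom_invariant
    ((QuotientGroup.map W E (MonoidHom.id Γ) hWE).comp H.subtype)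
    ((Rep.resFunctor H.subtype).map (invIncl C E W hWE) ≫
      𝟙 (Rep.res H.subtype (C.quotientToInvariants W))) (invElt_invariant C E ha)
  have hz : H2π (Rep.res H.subtype (C.quotientToInvariants W)) (stdCocycle hh hinv) = 0 := by
    rw [H2π_stdCocycle_eq_zero_iff]
    refine ⟨y, ?_⟩
    rw [pnorm_orderOf_eq_finsum _ hh]
    exact hy
  rw [← nsmul_stdCocycle hh hinv, map_nsmul, hz, smul_zero]

/-- `U / (U ⊓ E)` embeds into `Γ ⧸ E`. -/
theorem quotSub_inf_map_injective (U E : Subgroup Γ) [U.Normal] [E.Normal] :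
    Function.Injective ((QuotientGroup.map (U ⊓ E) E (MonoidHom.id Γ) inf_le_right).comp
      (quotSub U (U ⊓ E)).subtype) := by
  rw [injective_iff_map_eq_one]
  rintro ⟨x, u, hu, rfl⟩ hx
  apply Subtype.ext
  change QuotientGroup.mk' (U ⊓ E) u = 1
  have h1 : (QuotientGroup.mk u : Γ ⧸ E) = 1 := hx
  rw [QuotientGroup.eq_one_iff] at h1
  rw [QuotientGroup.mk'_apply, QuotientGroup.eq_one_iff]
  exact ⟨hu, h1⟩

/-- `U / (U ⊓ E)` is cyclic when `Γ ⧸ E` is. -/
theorem exists_generator_quotSub_inf (U E : Subgroup Γ) [U.Normal] [E.Normal] {g : Γ ⧸ E}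
    (hg : ∀ x : Γ ⧸ E, x ∈ Subgroup.zpowers g) :
    ∃ h : quotSub U (U ⊓ E), ∀ x : quotSub U (U ⊓ E), x ∈ Subgroup.zpowers h := by
  have : IsCyclic (Γ ⧸ E) := ⟨g, hg⟩
  have := isCyclic_of_injective _ (quotSub_inf_map_injective U E)
  exact IsCyclic.exists_generator

end Elt

section Tower

variable {Γ : Type} [Group Γ]

/-- Compatibility of the generators for all pairs from the consecutive ones. -/
theorem compat_of_succ (E : ℕ → Subgroup Γ) [∀ n, (E n).Normal]
    (anti : ∀ {n m : ℕ}, n ≤ m → E m ≤ E n) (g : ∀ n, Γ ⧸ E n)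
    (hsucc : ∀ n, QuotientGroup.map (E (n + 1)) (E n) (MonoidHom.id Γ) (anti (Nat.le_succ n))
      (g (n + 1)) = g n) (n m : ℕ) (h : n ≤ m) :
    QuotientGroup.map (E m) (E n) (MonoidHom.id Γ) (anti h) (g m) = g n := by
  induction m, h using Nat.le_induction with
  | base =>
    generalize g n = x
    induction x using QuotientGroup.induction_on with
    | H γ => rfl
  | succ m hnm ih =>
    rw [← ih, ← hsucc m]
    generalize g (m + 1) = x
    induction x using QuotientGroup.induction_on with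
    | H γ => rfl

/-- **Constructor**: a `p`-tower system from a tower of cyclic levels with compatible generators
`g n`, ONE `Γ`-invariant element `a : C`, the order condition (Ord) and the norm condition (Key),
plus `H¹`-vanishing on `p`-groups. The tower classes are the standard classes of `(g n, a)`. -/
def PTowerSystem.ofStd {p : ℕ} (hp : p.Prime) (𝓛 : LevelStructure Γ) (C : Rep.{0} k Γ)
    (E : ℕ → Subgroup Γ) [hn : ∀ n, (E n).Normal] (mem : ∀ n, E n ∈ 𝓛.levels)
    (index : ∀ n, (E n).index = p ^ n) (anti : ∀ {n m : ℕ}, n ≤ m → E m ≤ E n)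
    (inter_mem : ∀ (U : Subgroup Γ) [U.Normal], U ∈ 𝓛.levels → ∀ n, U ⊓ E n ∈ 𝓛.levels)
    (g : ∀ n, Γ ⧸ E n) (hg : ∀ (n : ℕ) (x : Γ ⧸ E n), x ∈ Subgroup.zpowers (g n))
    (compat : ∀ (n m : ℕ) (h : n ≤ m),
      QuotientGroup.map (E m) (E n) (MonoidHom.id Γ) (anti h) (g m) = g n)
    {a : C} (ha : ∀ γ : Γ, C.ρ γ a = a)
    (hord : ∀ (n m : ℕ), (∃ y : C.quotientToInvariants (E n),
      m • invElt C (E n) ha = ∑ᶠ x : Γ ⧸ E n, (C.quotientToInvariants (E n)).ρ x y) → p ^ n ∣ m)
    (hkey : ∀ (U : Subgroup Γ) [U.Normal], U ∈ 𝓛.levels →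
      ∃ y : C.quotientToInvariants (U ⊓ E (U.index.factorization p)),
        invElt C (U ⊓ E (U.index.factorization p)) ha =
          ∑ᶠ x : quotSub U (U ⊓ E (U.index.factorization p)),
            (C.quotientToInvariants (U ⊓ E (U.index.factorization p))).ρ x.1 y)
    (h1 : ∀ (W : Subgroup Γ) [W.Normal], W ∈ 𝓛.levels →
      H1VanishP p (C.quotientToInvariants W)) :
    PTowerSystem p 𝓛 C :=
  have hfin : ∀ n, Finite (Γ ⧸ E n) := fun n =>
    have := 𝓛.finiteIndex (E n) (mem n)
    Subgroup.finite_quotient_of_finiteIndex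
  have hog : ∀ n, orderOf (g n) = p ^ n := fun n => by
    rw [← index n, Subgroup.index_eq_card]
    exact orderOf_eq_card_of_forall_mem_zpowers (hg n)
  PTowerSystem.ofH1 hp 𝓛 C E mem index anti inter_mem
    (fun n => stdLevelClass C (E n) (hg n) ha)
    (fun n m h => by
      rw [infLevel_stdLevelClass C (E n) (E m) (anti h) (hg n) (hg m) (compat n m h) ha,
        hog n, hog m, Nat.pow_div h hp.pos])
    (fun n => by
      rw [addOrderOf_stdLevelClass C (E n) (hg n) ha (fun m hm => by
        rw [index n]; exact hord n m hm), index n])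
    (fun U _ hU => by
      have hW := inter_mem U hU (U.index.factorization p)
      have := 𝓛.finiteIndex _ hW
      have : Finite (Γ ⧸ U ⊓ E (U.index.factorization p)) :=
        Subgroup.finite_quotient_of_finiteIndex
      obtain ⟨h, hh⟩ := exists_generator_quotSub_inf U (E (U.index.factorization p))
        (hg (U.index.factorization p))
      exact resSub_infLevel_stdLevelClass_eq_zero C (E (U.index.factorization p))
        (U ⊓ E (U.index.factorization p)) inf_le_right (hg _) _ hh ha (hkey U hU))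
    h1

/-- `H¹`-vanishing on `p`-groups from the degree-`p` layers (helper40's dévissage). -/
theorem h1VanishP_of_levelPPrimeLayers {p : ℕ} [Fact p.Prime] (C : Rep.{0} k Γ)
    (W : Subgroup Γ) [W.Normal] (h : H40.LevelPPrimeLayers C W p) :
    H1VanishP p (C.quotientToInvariants W) := by
  intro H _ _ f hf hH
  exact (H40.devissage_pgroup p hH _
    ((H40.pPrimeLayers_quotientToInvariants C W p h).res f hf)).1

/-- The `p`-class formation of a `p`-tower system, with the class-module criterion discharged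
by the degree-`p` layers (helper40's `isPClassModule_level`). -/
def PTowerSystem.pClassFormationOfLayers {p : ℕ} {𝓛 : LevelStructure Γ} {C : Rep.{0} k Γ}
    (S : PTowerSystem p 𝓛 C) (hdisc : 𝓛.IsDiscrete C)
    (hlay : ∀ (U : Subgroup Γ) [U.Normal], U ∈ 𝓛.levels → H40.LevelPPrimeLayers C U p) :
    PClassFormation p 𝓛 C :=
  S.pClassFormation hdisc (fun U _ hU γ hγ => by
    have := 𝓛.finiteIndex U hU
    have := Fact.mk S.prime
    exact H40.isPClassModule_level p C U (hlay U hU) γ (by rw [hγ]))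

/-- **All-in-one**: the `p`-class formation from the standard tower data and the degree-`p`
layers. -/
def pClassFormationOfStd {p : ℕ} (hp : p.Prime) (𝓛 : LevelStructure Γ) (C : Rep.{0} k Γ)
    (hdisc : 𝓛.IsDiscrete C)
    (E : ℕ → Subgroup Γ) [hn : ∀ n, (E n).Normal] (mem : ∀ n, E n ∈ 𝓛.levels)
    (index : ∀ n, (E n).index = p ^ n) (anti : ∀ {n m : ℕ}, n ≤ m → E m ≤ E n)
    (inter_mem : ∀ (U : Subgroup Γ) [U.Normal], U ∈ 𝓛.levels → ∀ n, U ⊓ E n ∈ 𝓛.levels)
    (g : ∀ n, Γ ⧸ E n) (hg : ∀ (n : ℕ) (x : Γ ⧸ E n), x ∈ Subgroup.zpowers (g n))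
    (compat : ∀ (n m : ℕ) (h : n ≤ m),
      QuotientGroup.map (E m) (E n) (MonoidHom.id Γ) (anti h) (g m) = g n)
    {a : C} (ha : ∀ γ : Γ, C.ρ γ a = a)
    (hord : ∀ (n m : ℕ), (∃ y : C.quotientToInvariants (E n),
      m • invElt C (E n) ha = ∑ᶠ x : Γ ⧸ E n, (C.quotientToInvariants (E n)).ρ x y) → p ^ n ∣ m)
    (hkey : ∀ (U : Subgroup Γ) [U.Normal], U ∈ 𝓛.levels →
      ∃ y : C.quotientToInvariants (U ⊓ E (U.index.factorization p)),
        invElt C (U ⊓ E (U.index.factorization p)) ha =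
          ∑ᶠ x : quotSub U (U ⊓ E (U.index.factorization p)),
            (C.quotientToInvariants (U ⊓ E (U.index.factorization p))).ρ x.1 y)
    (hlay : ∀ (U : Subgroup Γ) [U.Normal], U ∈ 𝓛.levels → H40.LevelPPrimeLayers C U p) :
    PClassFormation p 𝓛 C :=
  have := Fact.mk hp
  (PTowerSystem.ofStd hp 𝓛 C E mem index anti inter_mem g hg compat ha hord hkey
    (fun W _ hW => h1VanishP_of_levelPPrimeLayers C W (hlay W hW))).pClassFormationOfLayers
    hdisc hlay

end Tower

end Fermat.Agent.CFT.H12
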