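/-
CFT project, layer C, INTEGRATION (helper24): transport of the hypotheses (Ord) and (Key) of
helper12's `PTowerSystem.ofStd` / helper93's `pClassFormationOfZpTower` from a finite-level
module `B` to the level `C^U`, along a descent datum `D : DescentDatum C U B`.

`b : B` is "the finite-level avatar of `a`" when `D.ι b = a`.
-/
import Mathlib
import Fermat.Agent.CFT.H24_DescentPair
import Fermat.Agent.CFT.H12_StdTower

set_option autoImplicit false

open CategoryTheory

noncomputable section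

namespace Fermat.Agent.CFT.H24

open Fermat.Agent.CFT Fermat.Agent.CFT.H15

variable {k : Type} [CommRing k] {Γ G : Type} [Group Γ] [Group G]
  {C : Rep.{0} k Γ} {U : Subgroup Γ} [U.Normal] {B : Rep.{0} k G}

namespace DescentDatum

variable (D : DescentDatum C U B)

/-- The finite-level avatar of a `Γ`-invariant element. -/
theorem pairEquiv_φ_invElt {a : C} (ha : ∀ γ : Γ, C.ρ γ a = a) {b : B.V} (hb : D.ι b = a) :
    D.pairEquiv.φ (H12.invElt C U ha) = b := by
  apply D.inj
  rw [D.ι_pairEquiv_φ, hb]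
  rfl

/-- **(Ord) from its finite-level form.** -/
theorem ord_of_finite [Finite (Γ ⧸ U)] {a : C} (ha : ∀ γ : Γ, C.ρ γ a = a) {b : B.V}
    (hb : D.ι b = a) {q m : ℕ}
    (hfin : (∃ y' : B.V, m • b = ∑ᶠ h : G, B.ρ h y') → q ∣ m) :
    (∃ y : C.quotientToInvariants U,
      m • H12.invElt C U ha = ∑ᶠ x : Γ ⧸ U, (C.quotientToInvariants U).ρ x y) → q ∣ m := by
  rintro ⟨y, hy⟩
  refine hfin ⟨D.pairEquiv.φ y, ?_⟩
  rw [← D.pairEquiv_φ_finsum_top, ← D.pairEquiv_φ_invElt ha hb, ← map_nsmul, hy]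

/-- **(Key) from its finite-level form**: `a` is a norm from `C^U` to `C^{U'}` (`Q = U'/U`) as
soon as its avatar `b` is a norm over the image of `Q` in `G`. -/
theorem key_of_finite [Finite (Γ ⧸ U)] (Q : Subgroup (Γ ⧸ U)) {a : C}
    (ha : ∀ γ : Γ, C.ρ γ a = a) {b : B.V} (hb : D.ι b = a)
    (hfin : ∃ y' : B.V, b = ∑ᶠ h : Q.map (D.e : Γ ⧸ U →* G), B.ρ h.1 y') :
    ∃ y : C.quotientToInvariants U,
      H12.invElt C U ha = ∑ᶠ x : Q, (C.quotientToInvariants U).ρ x.1 y := by
  obtain ⟨y', hy'⟩ := hfin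
  refine ⟨D.pairEquiv.φ.symm y', ?_⟩
  apply D.pairEquiv.φ.injective
  rw [D.pairEquiv_φ_finsum, LinearEquiv.apply_symm_apply, D.pairEquiv_φ_invElt ha hb]
  exact hy'

end DescentDatum

end Fermat.Agent.CFT.H24
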