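import Fermat.Agent.CFT.H93_ZpGen
import Fermat.Agent.CFT.H12_StdTower

/-!
# The cyclotomic `ℤ_p`-tower as the tower of helper12's `pClassFormationOfStd`

Author: helper93 (project CFT, packages C-CYCLO-Zp-tower / C-TOWER-Qbar, item (Z11)).

All group-side inputs (`E`, `mem`, `index`, `anti`, `inter_mem`, `g`, `hg`, `compat`) of
`H12.pClassFormationOfStd` for `Γ = G_ℚ`, `𝓛 = globalLevels S` (`p ∈ S`, `p` odd) are discharged
here with `E n = zpSubgroup p n = Gal(ℚ̄/ℚ_n)` and `g n = zpGen p n` (the class of `1 + p`).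
What remains are the arithmetic inputs: discreteness, ONE invariant element `a`, (Ord), (Key) and
the degree-`p` layers.
-/

set_option autoImplicit false

open CategoryTheory groupCohomology

noncomputable section

namespace Fermat.Agent.CFT.H93

open ExtCitation Fermat.Agent.CFT.H12 Fermat.Agent.CFT.H15

local notation "GQ" => (AlgebraicClosure ℚ ≃ₐ[ℚ] AlgebraicClosure ℚ)

variable {k : Type} [CommRing k]

/-- **(Z11)** The `p`-class formation on `(G_ℚ, globalLevels S)` from the cyclotomic `ℤ_p`-tower:
all tower bookkeeping is discharged, only the arithmetic hypotheses remain. -/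
def pClassFormationOfZpTower (p : ℕ) [hp : Fact p.Prime] (hp2 : p ≠ 2) (S : Finset Nat.Primes)
    (hpS : pPrime p ∈ S) (C : Rep.{0} k GQ) (hdisc : (globalLevels S).IsDiscrete C)
    {a : C} (ha : ∀ γ : GQ, C.ρ γ a = a)
    (hord : ∀ (n m : ℕ), (∃ y : C.quotientToInvariants (zpSubgroup p n),
      m • invElt C (zpSubgroup p n) ha =
        ∑ᶠ x : GQ ⧸ zpSubgroup p n, (C.quotientToInvariants (zpSubgroup p n)).ρ x y) → p ^ n ∣ m)
    (hkey : ∀ (U : Subgroup GQ) [U.Normal], U ∈ (globalLevels S).levels →
      ∃ y : C.quotientToInvariants (U ⊓ zpSubgroup p (U.index.factorization p)),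
        invElt C (U ⊓ zpSubgroup p (U.index.factorization p)) ha =
          ∑ᶠ x : quotSub U (U ⊓ zpSubgroup p (U.index.factorization p)),
            (C.quotientToInvariants (U ⊓ zpSubgroup p (U.index.factorization p))).ρ x.1 y)
    (hlay : ∀ (U : Subgroup GQ) [U.Normal], U ∈ (globalLevels S).levels →
      H40.LevelPPrimeLayers C U p) :
    PClassFormation p (globalLevels S) C :=
  pClassFormationOfStd hp.out (globalLevels S) C hdisc (fun n => zpSubgroup p n)
    (fun n => zpSubgroup_mem_globalLevels p n hpS)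
    (fun n => zpSubgroup_index p n hp2)
    (fun h => zpSubgroup_anti p h)
    (fun U _ hU n => inf_zpSubgroup_mem_globalLevels p n hpS hU)
    (fun n => zpGen p n)
    (fun n x => mem_zpowers_zpGen p n hp2 x)
    (fun _ _ h => map_zpGen p h)
    ha hord hkey hlay

end Fermat.Agent.CFT.H93
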