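/-
CFT project, layer C, INTEGRATION (helper24): export (X1) of layer C from FINITE-LEVEL inputs.

`PClassFormation p (globalLevels S) (H77.repCSTop S)` from
* `hlay`  : the degree-`p` layers of the finite-level modules `H23.repCS S F ℚ` (C-FIRST/SECOND),
* `hord`  : (Ord) at the layers `ℚ_n` of the cyclotomic `ℤ_p`-tower, finite-level form,
* `hkey`  : (Key) at the levels `F·ℚ_e`, finite-level form (C-ARTIN / C-RECIP-tower),
* `hE`, `hD` : the divisor side of the descent (C-TOP-Div).
The tower bookkeeping is helper93's (`H93_ZpGen`), the abstract formation helper12's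
(`PTowerSystem.ofStd`), the descent helper77's (`csIncl`).
-/
import Mathlib
import Fermat.Agent.CFT.H24_CGlobalAssembly
import Fermat.Agent.CFT.H24_OrdKey
import Fermat.Agent.CFT.H93_ZpFormation

set_option autoImplicit false

open CategoryTheory

noncomputable section

namespace Fermat.Agent.CFT.H24

open Fermat.Agent.CFT IntermediateField ExtCitation Fermat.Agent.CFT.H15

local notation "Qbar" => AlgebraicClosure ℚ
local notation "GQ" => (AlgebraicClosure ℚ ≃ₐ[ℚ] AlgebraicClosure ℚ)

local instance isAlgebraicQbar_h24c : Algebra.IsAlgebraic ℚ (AlgebraicClosure ℚ) :=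
  AlgebraicClosure.isAlgebraic ℚ
local instance isAlgClosureQbar_h24c : IsAlgClosure ℚ (AlgebraicClosure ℚ) :=
  ⟨inferInstance, inferInstance⟩
local instance normalQbar_h24c : Normal ℚ (AlgebraicClosure ℚ) :=
  IsAlgClosure.normal ℚ (AlgebraicClosure ℚ)
local instance isGaloisQbar_h24c : IsGalois ℚ (AlgebraicClosure ℚ) := ⟨⟩

/-! ### Additive / multiplicative bookkeeping -/

/-- A finite sum in `Additive M` is `ofMul` of the finite product. -/
theorem finsum_ofMul {M ι : Type*} [CommMonoid M] [Finite ι] (f : ι → M) :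
    ∑ᶠ i, Additive.ofMul (f i) = Additive.ofMul (∏ᶠ i, f i) := by
  let _ := Fintype.ofFinite ι
  rw [finsum_eq_sum_of_fintype, finprod_eq_prod_of_fintype, ofMul_prod]

/-! ### Galois levels -/

/-- A Galois level of `G_S`, presented as an abstract number field with an embedding, together
with the divisor side of its descent datum. -/
structure GaloisLevel (S : Finset Nat.Primes) where
  /-- the field -/
  F : Type
  [field : Field F]
  [numberField : NumberField F]
  [isGalois : IsGalois ℚ F]
  /-- the embedding -/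
  ι : F →ₐ[ℚ] Qbar
  unram : ι.fieldRange.IsUnramifiedOutside S
  /-- the divisor side of the descent -/
  D : H77.DivDescent S ι

attribute [instance] GaloisLevel.field GaloisLevel.numberField GaloisLevel.isGalois

namespace GaloisLevel

variable {S : Finset Nat.Primes} (L : GaloisLevel S)

/-- The open normal subgroup of the level. -/
abbrev subgroup : Subgroup GQ := L.ι.fieldRange.fixingSubgroup

/-- The comparison map `CS S F → CSTop S` of the level. -/
abbrev incl : H23.CS S L.F →* H77.CSTop S := H77.csIncl L.unram L.D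

/-- The descent datum of the level. -/
abbrev datum (hS : S.Nonempty) (hE : H77.HasDivisors S) :
    DescentDatum (H77.repCSTop S) L.subgroup (H23.repCS S L.F ℚ) :=
  galoisDescentDatum L.unram L.D hS hE

end GaloisLevel

variable (p : ℕ) [Fact p.Prime] (S : Finset Nat.Primes)

/-- **(Ord), finite-level form**: for every `n` there is a model `L` of the `n`-th layer of the
cyclotomic `ℤ_p`-tower and an avatar `b ∈ CS S L.F` of `a` such that `b ^ m` is a norm from
`CS S L.F` only if `p ^ n ∣ m`. -/
def FiniteOrd (a : H77.CSTop S) : Prop :=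
  ∀ n : ℕ, ∃ L : GaloisLevel S, L.subgroup = H93.zpSubgroup p n ∧
    ∃ b : H23.CS S L.F, L.incl b = a ∧
      ∀ (m : ℕ) (y : H23.CS S L.F), b ^ m = ∏ᶠ σ : L.F ≃ₐ[ℚ] L.F, σ • y → p ^ n ∣ m

/-- **(Key), finite-level form**: for every normal level `U` (fixed field `F_U`), with
`p ^ e ∥ [G_ℚ : U]`, there is a model `L` of `F_U · ℚ_e` and an avatar `b ∈ CS S L.F` of `a`
which is a norm from `CS S L.F` for the subgroup `Gal(L.F / F_U)` (the image of `U`). -/
def FiniteKey (a : H77.CSTop S) : Prop :=
  ∀ (U : Subgroup GQ) [U.Normal], U ∈ (globalLevels S).levels →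
    ∃ L : GaloisLevel S, L.subgroup = U ⊓ H93.zpSubgroup p (U.index.factorization p) ∧
      ∃ b : H23.CS S L.F, L.incl b = a ∧
        ∃ y : H23.CS S L.F, b = ∏ᶠ g : U.map (restrictAlong L.ι), g.1 • y

/-! ### `H¹`-vanishing on `p`-groups along a pair equivalence -/

/-- `H1VanishP` from the degree-`p` layers. -/
theorem h1VanishP_of_pPrimeLayers {k : Type} [CommRing k] {G : Type} [Group G]
    (B : Rep.{0} k G) (hB : H40.PPrimeLayers p B) : H12.H1VanishP p B := by
  intro H _ _ f hf hH
  exact (H40.devissage_pgroup p hH _ (hB.res f hf)).1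

omit [Fact p.Prime] in
/-- Transport of `H1VanishP` along a pair equivalence. -/
theorem h1VanishP_of_pairEquiv {k : Type} [CommRing k] {G G' : Type} [Group G] [Group G']
    {A : Rep.{0} k G} {A' : Rep.{0} k G'} (E : H43.PairEquiv A A')
    (h : H12.H1VanishP p A') : H12.H1VanishP p A := by
  intro H _ _ f hf hH
  have := h H ((E.e : G →* G').comp f) (E.e.injective.comp hf) hH
  let P : H43.PairEquiv (Rep.res f A) (Rep.res ((E.e : G →* G').comp f) A') :=
    { e := MulEquiv.refl H
      φ := E.φ
      comm := fun g a => E.comm (f g) a }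
  exact (P.cohIso 1).toLinearEquiv.toEquiv.subsingleton

/-! ### The main theorem -/

section Main

variable {p S}

/-- sums over equal subgroups -/
theorem finsum_subgroup_congr {G M : Type*} [Group G] [AddCommMonoid M] {H₁ H₂ : Subgroup G}
    (h : H₁ = H₂) (f : G → M) : ∑ᶠ x : H₁, f x.1 = ∑ᶠ x : H₂, f x.1 := by
  subst h; rfl

theorem ord_transport (hS : S.Nonempty) (hE : H77.HasDivisors S) (L : GaloisLevel S)
    (U : Subgroup GQ) [U.Normal] [U.FiniteIndex] (hU : L.subgroup = U) {a : H77.CSTop S}
    (ha : ∀ γ : GQ, (H77.repCSTop S).ρ γ (Additive.ofMul a) = Additive.ofMul a)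
    {b : H23.CS S L.F} (hb : L.incl b = a) {q m : ℕ}
    (hfin : ∀ y : H23.CS S L.F, b ^ m = ∏ᶠ σ : L.F ≃ₐ[ℚ] L.F, σ • y → q ∣ m) :
    (∃ y : (H77.repCSTop S).quotientToInvariants U,
      m • H12.invElt (H77.repCSTop S) U ha =
        ∑ᶠ x : GQ ⧸ U, ((H77.repCSTop S).quotientToInvariants U).ρ x y) → q ∣ m := by
  subst hU
  have : Finite (GQ ⧸ L.subgroup) := Subgroup.finite_quotient_of_finiteIndex
  refine (L.datum hS hE).ord_of_finite ha (b := Additive.ofMul b)
    (congrArg Additive.ofMul hb) ?_
  rintro ⟨y', hy'⟩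
  set y : H23.CS S L.F := Additive.toMul (y' : Additive (H23.CS S L.F)) with hydef
  refine hfin y ?_
  have h1 : ∑ᶠ h : L.F ≃ₐ[ℚ] L.F, (H23.repCS S L.F ℚ).ρ h y' =
      Additive.ofMul (∏ᶠ σ : L.F ≃ₐ[ℚ] L.F, σ • y) :=
    finsum_ofMul fun σ : L.F ≃ₐ[ℚ] L.F => σ • y
  rw [h1] at hy'
  exact congrArg Additive.toMul hy'

theorem key_transport (hS : S.Nonempty) (hE : H77.HasDivisors S) (L : GaloisLevel S)
    (U W : Subgroup GQ) [U.Normal] [W.Normal] [W.FiniteIndex] (hW : L.subgroup = W)
    {a : H77.CSTop S}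
    (ha : ∀ γ : GQ, (H77.repCSTop S).ρ γ (Additive.ofMul a) = Additive.ofMul a)
    {b : H23.CS S L.F} (hb : L.incl b = a)
    (hfin : ∃ y : H23.CS S L.F, b = ∏ᶠ g : U.map (restrictAlong L.ι), g.1 • y) :
    ∃ y : (H77.repCSTop S).quotientToInvariants W,
      H12.invElt (H77.repCSTop S) W ha =
        ∑ᶠ x : quotSub U W, ((H77.repCSTop S).quotientToInvariants W).ρ x.1 y := by
  subst hW
  have : Finite (GQ ⧸ L.subgroup) := Subgroup.finite_quotient_of_finiteIndex
  obtain ⟨y, hy⟩ := hfin
  refine (L.datum hS hE).key_of_finite (quotSub U L.subgroup) ha (b := Additive.ofMul b)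
    (congrArg Additive.ofMul hb) ⟨Additive.ofMul y, ?_⟩
  have hmap : (quotSub U L.subgroup).map ((L.datum hS hE).e : GQ ⧸ L.subgroup →* _) =
      U.map (restrictAlong L.ι) := by
    show (U.map (QuotientGroup.mk' L.subgroup)).map _ = _
    rw [Subgroup.map_map]
    rfl
  have : Finite (U.map (restrictAlong L.ι)) := inferInstance
  rw [finsum_subgroup_congr hmap (fun h => (H23.repCS S L.F ℚ).ρ h (Additive.ofMul y))]
  have h1 : ∑ᶠ h : U.map (restrictAlong L.ι), (H23.repCS S L.F ℚ).ρ h.1 (Additive.ofMul y) =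
      Additive.ofMul (∏ᶠ g : U.map (restrictAlong L.ι), g.1 • y) :=
    finsum_ofMul fun g : U.map (restrictAlong L.ι) => g.1 • y
  rw [h1, ← hy]
  rfl

/-- **Export (X1) of layer C from finite-level inputs.** -/
theorem nonempty_pClassFormation_of_finite (hp2 : p ≠ 2) (hpS : pPrime p ∈ S)
    (hE : H77.HasDivisors S) (hD : HasDivDescent S) (hlay : FiniteLevelLayers p S)
    {a : H77.CSTop S} (ha : ∀ γ : GQ, γ • a = a)
    (hord : FiniteOrd p S a) (hkey : FiniteKey p S a) :
    Nonempty (PClassFormation p (globalLevels S) (H77.repCSTop S)) := by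
  have hS : S.Nonempty := ⟨_, hpS⟩
  have hp : p.Prime := Fact.out
  have ha' : ∀ γ : GQ, (H77.repCSTop S).ρ γ (Additive.ofMul a) = Additive.ofMul a :=
    fun γ => congrArg Additive.ofMul (ha γ)
  -- the pair equivalences and layers at the Galois levels
  have hlev : ∀ (U : Subgroup GQ) [U.Normal], U ∈ (globalLevels S).levels →
      ∃ (G : Type) (_ : Group G) (_ : Finite G) (B : Rep.{0} ℤ G),
        Nonempty (H43.PairEquiv ((H77.repCSTop S).quotientToInvariants U) B) ∧
          H40.PPrimeLayers p B := by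
    intro U hUn hU
    obtain ⟨F, hF, rfl⟩ := hU
    haveI : FiniteDimensional ℚ F := hF.1
    haveI : NumberField F := ⟨⟩
    have hG0 : IsGalois ℚ F := (InfiniteGalois.normal_iff_isGalois F).mp hUn
    haveI hG : @IsGalois ℚ _ ↥F _ DivisionRing.toRatAlgebra := by
      convert hG0
    have hFι : (valRat F).fieldRange.IsUnramifiedOutside S := by
      rw [fieldRange_valRat]; exact hF
    obtain ⟨D⟩ := hD F (valRat F) hFι
    have E := galoisPairEquiv hFι D hS hE
    have hlayF := hlay F (valRat F) hFι
    refine ⟨_, _, ?_, _, ?_, hlayF⟩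
    · infer_instance
    · have key : ∀ (V : Subgroup GQ) (_ : V = F.fixingSubgroup) [V.Normal],
          H43.PairEquiv ((H77.repCSTop S).quotientToInvariants V) (H23.repCS S F ℚ) →
          Nonempty (H43.PairEquiv ((H77.repCSTop S).quotientToInvariants F.fixingSubgroup)
            (H23.repCS S F ℚ)) := by
        intro V hV _ EV
        subst hV
        exact ⟨EV⟩
      exact key _ (by rw [fieldRange_valRat]) E
  -- the tower system
  let T : H12.PTowerSystem p (globalLevels S) (H77.repCSTop S) :=
    H12.PTowerSystem.ofStd hp (globalLevels S) (H77.repCSTop S) (fun n => H93.zpSubgroup p n)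
      (fun n => H93.zpSubgroup_mem_globalLevels p n hpS)
      (fun n => H93.zpSubgroup_index p n hp2)
      (fun h => H93.zpSubgroup_anti p h)
      (fun U _ hU n => H93.inf_zpSubgroup_mem_globalLevels p n hpS hU)
      (fun n => H93.zpGen p n)
      (fun n x => H93.mem_zpowers_zpGen p n hp2 x)
      (fun _ _ h => H93.map_zpGen p h)
      ha'
      (fun n m => by
        obtain ⟨L, hL, b, hb, hfin⟩ := hord n
        haveI := (globalLevels S).finiteIndex _ (H93.zpSubgroup_mem_globalLevels p n hpS)
        exact ord_transport hS hE L (H93.zpSubgroup p n) hL ha' hb (hfin m))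
      (fun U _ hU => by
        obtain ⟨L, hL, b, hb, hfin⟩ := hkey U hU
        haveI := (globalLevels S).finiteIndex _
          (H93.inf_zpSubgroup_mem_globalLevels p (U.index.factorization p) hpS hU)
        exact key_transport hS hE L U _ hL ha' hb hfin)
      (fun W _ hW => by
        obtain ⟨G, _, _, B, ⟨E⟩, hB⟩ := hlev W hW
        exact h1VanishP_of_pairEquiv p E (h1VanishP_of_pPrimeLayers p B hB))
  exact ⟨pClassFormationOfTransport T (H77.isDiscrete_repCSTop S) hlev⟩

end Main

end Fermat.Agent.CFT.H24
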