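import Mathlib
import Fermat.Agent.CFT.H79_SecondBridgeWA

/-!
# CFT / layer C : `Λ_q = intLoc K q` is integral over `ℤ_q` (consumer form)

For every ring hom `φ` out of `K ⊗[ℚ] ℚ_[q]`, the image of `z ∈ intLoc K q` is integral over
`ℤ_[q]` (through `ℤ_[q] → ℚ_[q] → K ⊗ ℚ_[q] → L`).  This is what is needed to see that the
congruence subgroup `1 + N Λ_q` lands in the principal units `1 + N 𝓞_u` of every factor `K_u` of
`K ⊗ ℚ_q`.
-/

set_option autoImplicit false

open scoped TensorProduct NumberField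
open Fermat.Agent.CFT.H42

namespace Fermat.Agent.CFT.H79

noncomputable section

variable (K : Type*) [Field K] [NumberField K] (q : Nat.Primes)

/-- the structure map `ℤ_q → K ⊗ ℚ_q` -/
def padicIntToLoc : ℤ_[q] →+* locAlg K q :=
  (Algebra.TensorProduct.includeRight (R := ℚ) (A := K) (B := ℚ_[q])).toRingHom.comp
    (PadicInt.Coe.ringHom (p := q))

@[simp] theorem padicIntToLoc_apply (c : ℤ_[q]) :
    padicIntToLoc K q c = (1 : K) ⊗ₜ[ℚ] (c : ℚ_[q]) := rfl

theorem isIntegralElem_map_of_mem_intLoc {L : Type*} [CommRing L] (φ : locAlg K q →+* L)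
    (z : locAlg K q) (hz : z ∈ intLoc K q) :
    (φ.comp (padicIntToLoc K q)).IsIntegralElem (φ z) := by
  have h1 : (padicIntToIntLoc K q).IsIntegralElem ⟨z, hz⟩ := padicIntToIntLoc_isIntegral K q ⟨z, hz⟩
  have h2 := RingHom.IsIntegralElem.map h1 (φ.comp (intLoc K q).subtype)
  exact h2

/-- in particular the elements of `Λ_q` are integral over `ℤ_q` inside `K ⊗ ℚ_q` -/
theorem isIntegralElem_of_mem_intLoc (z : locAlg K q) (hz : z ∈ intLoc K q) :
    (padicIntToLoc K q).IsIntegralElem z := by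
  have := isIntegralElem_map_of_mem_intLoc K q (RingHom.id _) z hz
  simpa using this

/-- the components of an element of the congruence subgroup: `φ w = 1 + N * (integral element)` -/
theorem exists_integral_of_mem_congrSubgroup {L : Type*} [CommRing L] (φ : locAlg K q →+* L)
    (N : ℕ) (w : (locAlg K q)ˣ) (hw : w ∈ congrSubgroup (intLoc K q) N) :
    ∃ t : L, (φ.comp (padicIntToLoc K q)).IsIntegralElem t ∧ φ (w : locAlg K q) = 1 + (N : L) * t := by
  obtain ⟨⟨z, hz, hwz⟩, -⟩ := hw
  exact ⟨φ z, isIntegralElem_map_of_mem_intLoc K q φ z hz, by rw [hwz]; simp⟩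

end

end Fermat.Agent.CFT.H79
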