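/-
CFT layer C, package C-ARTIN (ideal side), helper27.

Principal divisors of natural numbers / units / quotients of integers in the hybrid vocabulary,
and the values of `artinDiv S L ∘ divS S K` on them (input of the reciprocity law on the
cyclotomic `ℤ_p`-tower).
-/
import Mathlib
import Fermat.Agent.CFT.H27_ArtinDiv

set_option autoImplicit false

namespace Fermat.Agent.CFT.H27

open NumberField IsDedekindDomain UniqueFactorizationMonoid
open Fermat.Agent.CFT.H23 Fermat.Agent.CFT.H10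
open scoped IsMulCommutative

noncomputable section

section General

variable (S : Finset Nat.Primes) (K : Type*) [Field K] [NumberField K]

/-- `divS` of a unit of `K` whose value is a nonzero integer of `K`. -/
theorem divS_of_coe_eq (x : 𝓞 K) (hx : x ≠ 0) (u : Kˣ) (hu : (u : K) = (x : K)) :
    divS S K u = Multiplicative.ofAdd (idealDiv S K (Ideal.span {x})) := by
  rw [← divS_mk0 S K x hx]
  congr 1
  exact Units.ext hu

/-- `divS` of a quotient of two nonzero integers. -/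
theorem divS_of_mul_eq (x y : 𝓞 K) (hx : x ≠ 0) (hy : y ≠ 0) (u : Kˣ)
    (hu : (u : K) * (y : K) = (x : K)) :
    divS S K u = Multiplicative.ofAdd
      (idealDiv S K (Ideal.span {x}) - idealDiv S K (Ideal.span {y})) := by
  have hy' : ((y : 𝓞 K) : K) ≠ 0 := by simpa using hy
  have h1 : u * Units.mk0 (y : K) hy' = Units.mk0 (x : K) (by simpa using hx) := by
    apply Units.ext
    simpa using hu
  have h2 := congrArg (divS S K) h1
  rw [map_mul, divS_mk0 S K y hy, divS_mk0 S K x hx] at h2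
  rw [ofAdd_sub, ← h2, mul_div_cancel_right]

theorem idealDiv_eq_zero_of_forall {𝔞 : Ideal (𝓞 K)}
    (h : ∀ 𝔭 ∈ normalizedFactors 𝔞, ∃ q ∈ S, ((q : ℕ) : 𝓞 K) ∈ 𝔭) : idealDiv S K 𝔞 = 0 := by
  rw [idealDiv]
  apply Multiset.sum_eq_zero
  intro D hD
  obtain ⟨𝔭, h𝔭, rfl⟩ := Multiset.mem_map.1 hD
  apply primeDiv_of_not
  rintro ⟨-, hS⟩
  obtain ⟨q, hq, hmem⟩ := h 𝔭 h𝔭
  exact hS q hq hmem

theorem idealDiv_top : idealDiv S K ⊤ = 0 := by
  rw [← Ideal.one_eq_top]; exact idealDiv_one S K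

/-- A unit of `𝓞 K` has trivial divisor. -/
theorem divS_of_isUnit (x : 𝓞 K) (hx : IsUnit x) (u : Kˣ) (hu : (u : K) = (x : K)) :
    divS S K u = 1 := by
  rw [divS_of_coe_eq S K x hx.ne_zero u hu, Ideal.span_singleton_eq_top.2 hx, idealDiv_top]
  rfl

theorem divS_neg_one : divS S K (-1) = 1 :=
  divS_of_isUnit S K (-1) isUnit_one.neg (-1) (by simp)

variable {K}

/-- A prime ideal containing a nonzero natural number contains one of its prime factors. -/
theorem exists_prime_dvd_natCast_mem (𝔭 : Ideal (𝓞 K)) [𝔭.IsPrime] (n : ℕ)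
    (hn : (n : 𝓞 K) ∈ 𝔭) (hn0 : n ≠ 0) : ∃ t : ℕ, t.Prime ∧ t ∣ n ∧ (t : 𝓞 K) ∈ 𝔭 := by
  induction n using Nat.strong_induction_on with
  | _ n ih =>
    by_cases h1 : n = 1
    · exfalso
      rw [h1, Nat.cast_one] at hn
      exact (Ideal.IsPrime.ne_top inferInstance) ((Ideal.eq_top_iff_one 𝔭).2 hn)
    · have ht : (n.minFac).Prime := Nat.minFac_prime h1
      have hdvd : n.minFac ∣ n := Nat.minFac_dvd n
      obtain ⟨m, hm⟩ := hdvd
      have hm0 : m ≠ 0 := by
        rintro rfl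
        exact hn0 (by rw [hm, mul_zero])
      have hcast : (n : 𝓞 K) = (n.minFac : 𝓞 K) * (m : 𝓞 K) := by
        conv_lhs => rw [hm]
        push_cast
        rfl
      rw [hcast] at hn
      rcases Ideal.IsPrime.mem_or_mem inferInstance hn with h | h
      · exact ⟨n.minFac, ht, Nat.minFac_dvd n, h⟩
      · have hlt : m < n := by
          have h2 : 2 ≤ n.minFac := ht.two_le
          calc m = 1 * m := (one_mul m).symm
            _ < n.minFac * m := Nat.mul_lt_mul_of_pos_right (by omega) (Nat.pos_of_ne_zero hm0)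
            _ = n := hm.symm
        obtain ⟨t, htp, htm, hmem⟩ := ih m hlt h hm0
        exact ⟨t, htp, hm ▸ Dvd.dvd.mul_left htm _, hmem⟩

variable (K)

/-- A natural number supported on `S` has trivial divisor outside `S`. -/
theorem idealDiv_span_natCast_of_support (n : ℕ) (hn0 : n ≠ 0)
    (h : ∀ t : ℕ, t.Prime → t ∣ n → ∃ q ∈ S, (q : ℕ) = t) :
    idealDiv S K (Ideal.span {(n : 𝓞 K)}) = 0 := by
  apply idealDiv_eq_zero_of_forall
  intro 𝔭 h𝔭
  have hprime := prime_of_normalized_factor 𝔭 h𝔭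
  haveI := Ideal.isPrime_of_prime hprime
  have hmem : (n : 𝓞 K) ∈ 𝔭 :=
    Ideal.le_of_dvd (dvd_of_mem_normalizedFactors h𝔭) (Ideal.mem_span_singleton_self _)
  obtain ⟨t, htp, htn, htmem⟩ := exists_prime_dvd_natCast_mem 𝔭 n hmem hn0
  obtain ⟨q, hq, rfl⟩ := h t htp htn
  exact ⟨q, hq, htmem⟩

theorem divS_natCast_of_support (n : ℕ) (hn0 : n ≠ 0)
    (h : ∀ t : ℕ, t.Prime → t ∣ n → ∃ q ∈ S, (q : ℕ) = t) (u : Kˣ) (hu : (u : K) = n) :
    divS S K u = 1 := by
  have hn0' : (n : 𝓞 K) ≠ 0 := Nat.cast_ne_zero.2 hn0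
  rw [divS_of_coe_eq S K (n : 𝓞 K) hn0' u (by rw [hu]; simp),
    idealDiv_span_natCast_of_support S K n hn0 h]
  rfl

/-- A prime of `S` has trivial divisor outside `S`. -/
theorem divS_prime_of_mem (q : Nat.Primes) (hq : q ∈ S) (u : Kˣ) (hu : (u : K) = (q : ℕ)) :
    divS S K u = 1 := by
  apply divS_natCast_of_support S K q q.2.ne_zero _ u hu
  intro t ht htq
  exact ⟨q, hq, ((Nat.prime_dvd_prime_iff_eq ht q.2).1 htq).symm⟩

variable {K}

/-- A prime ideal containing a natural number prime to `S` is outside `S`. -/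
theorem natCast_notMem_of_coprime (𝔭 : Ideal (𝓞 K)) [𝔭.IsPrime] (n : ℕ)
    (hn : (n : 𝓞 K) ∈ 𝔭) (q : ℕ) (hnq : n.Coprime q) : (q : 𝓞 K) ∉ 𝔭 := by
  intro hq
  have h1 : ((n : ℤ).gcdA q * n + (n : ℤ).gcdB q * q : ℤ) = 1 := by
    have := Int.gcd_eq_gcd_ab (n : ℤ) (q : ℤ)
    rw [Int.gcd_natCast_natCast, hnq] at this
    rw [mul_comm _ (n : ℤ), mul_comm _ (q : ℤ)]
    exact_mod_cast this.symm
  have h2 : (((n : ℤ).gcdA q : ℤ) : 𝓞 K) * (n : 𝓞 K) + (((n : ℤ).gcdB q : ℤ) : 𝓞 K) * (q : 𝓞 K)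
      = 1 := by
    exact_mod_cast congrArg (Int.cast : ℤ → 𝓞 K) h1
  have h3 : (1 : 𝓞 K) ∈ 𝔭 := by
    rw [← h2]
    exact 𝔭.add_mem (𝔭.mul_mem_left _ hn) (𝔭.mul_mem_left _ hq)
  exact (Ideal.IsPrime.ne_top inferInstance) ((Ideal.eq_top_iff_one 𝔭).2 h3)

variable (L : Type*) [Field L] [NumberField L] [Algebra K L] [IsGalois K L]
  [IsMulCommutative Gal(L/K)]

/-- **Artin symbol of a natural number prime to `S`**: the principal divisor of `n` goes to the
S14 Artin symbol of the ideal `(n)`. -/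
theorem artinDiv_divS_natCast (n : ℕ) (hn0 : n ≠ 0) (hn : ∀ q ∈ S, n.Coprime (q : ℕ))
    (u : Kˣ) (hu : (u : K) = n) :
    artinDiv S L (divS S K u) = S14.H27.artin L (Ideal.span {(n : 𝓞 K)}) := by
  have hn0' : (n : 𝓞 K) ≠ 0 := Nat.cast_ne_zero.2 hn0
  rw [divS_of_coe_eq S K (n : 𝓞 K) hn0' u (by rw [hu]; simp)]
  apply artinDiv_idealDiv_of_coprime
  intro 𝔭 h𝔭 q hq
  have hprime := prime_of_normalized_factor 𝔭 h𝔭
  haveI := Ideal.isPrime_of_prime hprime
  have hmem : (n : 𝓞 K) ∈ 𝔭 :=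
    Ideal.le_of_dvd (dvd_of_mem_normalizedFactors h𝔭) (Ideal.mem_span_singleton_self _)
  exact natCast_notMem_of_coprime 𝔭 n hmem q (hn q hq)

/-- The composite `Kˣ → DivS → Gal(L/K)`: the ideal part of the global symbol on principal
ideles. -/
def artinPrincipal : Kˣ →* Gal(L/K) := (artinDiv S L).comp (divS S K)

theorem artinPrincipal_apply (u : Kˣ) : artinPrincipal S L u = artinDiv S L (divS S K u) := rfl

theorem artinPrincipal_neg_one : artinPrincipal S L (-1 : Kˣ) = 1 := by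
  rw [artinPrincipal_apply, divS_neg_one, map_one]

theorem artinPrincipal_prime_of_mem (q : Nat.Primes) (hq : q ∈ S) (u : Kˣ)
    (hu : (u : K) = (q : ℕ)) : artinPrincipal S L u = 1 := by
  rw [artinPrincipal_apply, divS_prime_of_mem S K q hq u hu, map_one]

theorem artinPrincipal_natCast (n : ℕ) (hn0 : n ≠ 0) (hn : ∀ q ∈ S, n.Coprime (q : ℕ))
    (u : Kˣ) (hu : (u : K) = n) :
    artinPrincipal S L u = S14.H27.artin L (Ideal.span {(n : 𝓞 K)}) :=
  artinDiv_divS_natCast S L n hn0 hn u hu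

end General

end

end Fermat.Agent.CFT.H27
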