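import Mathlib

set_option autoImplicit false

/-!
# The `ℤ_p`-twist algebra for the reciprocity law on the cyclotomic `ℤ_p`-tower

(CFT / layer C / package `C-RECIP-tower`, helper81.)  Mathlib only.

* `exists_pow_eq_of_sub_one_mem` : Hensel: a `p`-adic integer `≡ 1 mod p^(2k+1)` is a `p^k`-th power.
* `map_eq_one_of_sub_one_mem` : an (abstract!) homomorphism from `ℤ_[p]ˣ` to a group of exponent
  `p^k` kills `1 + p^(2k+1) ℤ_p`.
* `exists_twist` : `p` odd.  Two surjective homomorphisms `f g : ℤ_[p]ˣ →* G`, `G` commutative of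
  exponent `p^k`, differ by an exponent prime to `p` : `f = g ^ s`.
* `monoidHom_eq_one_of_primes` : a homomorphism on `ℚˣ` which kills `-1` and all primes is trivial.
* `reciprocity_of_twist` : the product formula on `ℚˣ` for the twisted symbol.
* `exists_padic_twist` : a compatible family of twists is given by one `c : ℤ_[p]ˣ`.
-/

noncomputable section

namespace Fermat.Agent.CFT.H81

open PadicInt Polynomial

variable {p : ℕ} [hp : Fact p.Prime]

/-- **Hensel.** If `u ≡ 1 mod p^(2k+1)` then `u` is a `p^k`-th power in `ℤ_p`. -/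
theorem exists_pow_eq_of_sub_one_mem (k : ℕ) (u : ℤ_[p])
    (hu : u - 1 ∈ Ideal.span {(p : ℤ_[p]) ^ (2 * k + 1)}) :
    ∃ w : ℤ_[p], w ^ (p ^ k) = u := by
  have hp1 : (1 : ℝ) < p := by exact_mod_cast hp.out.one_lt
  have hp0 : (0 : ℝ) < p := by linarith
  set F : Polynomial ℤ_[p] := X ^ (p ^ k) - C u with hF
  have hev : F.aeval (1 : ℤ_[p]) = 1 - u := by simp [hF]
  have hder : F.derivative.aeval (1 : ℤ_[p]) = (p : ℤ_[p]) ^ k := by
    simp [hF, derivative_X_pow]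
  have hnorm : ‖F.aeval (1 : ℤ_[p])‖ < ‖F.derivative.aeval (1 : ℤ_[p])‖ ^ 2 := by
    rw [hev, hder, norm_sub_rev, PadicInt.norm_p_pow]
    have h1 : ‖u - 1‖ ≤ (p : ℝ) ^ (-((2 * k + 1 : ℕ) : ℤ)) :=
      (PadicInt.norm_le_pow_iff_mem_span_pow _ _).2 hu
    refine lt_of_le_of_lt h1 ?_
    rw [← zpow_natCast ((p : ℝ) ^ (-(k : ℤ))) 2, ← zpow_mul]
    apply zpow_lt_zpow_right₀ hp1
    push_cast
    omega
  obtain ⟨z, hz, -⟩ := hensels_lemma hnorm
  refine ⟨z, ?_⟩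
  have : z ^ (p ^ k) - u = 0 := by simpa [hF] using hz
  exact sub_eq_zero.1 this

/-- Units version of `exists_pow_eq_of_sub_one_mem`. -/
theorem exists_units_pow_eq_of_sub_one_mem (k : ℕ) (u : ℤ_[p]ˣ)
    (hu : (u : ℤ_[p]) - 1 ∈ Ideal.span {(p : ℤ_[p]) ^ (2 * k + 1)}) :
    ∃ w : ℤ_[p]ˣ, w ^ (p ^ k) = u := by
  obtain ⟨w, hw⟩ := exists_pow_eq_of_sub_one_mem k (u : ℤ_[p]) hu
  have hwu : IsUnit w := by
    have h1 : IsUnit (w ^ (p ^ k)) := hw ▸ u.isUnit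
    exact (isUnit_pow_iff (pow_ne_zero k hp.out.ne_zero)).1 h1
  refine ⟨hwu.unit, ?_⟩
  apply Units.ext
  simpa using hw

/-- A homomorphism from `ℤ_[p]ˣ` to a group of exponent `p^k` kills `1 + p^(2k+1) ℤ_p`. -/
theorem map_eq_one_of_sub_one_mem {G : Type*} [Group G] (k : ℕ) (hG : ∀ g : G, g ^ p ^ k = 1)
    (θ : ℤ_[p]ˣ →* G) (u : ℤ_[p]ˣ)
    (hu : (u : ℤ_[p]) - 1 ∈ Ideal.span {(p : ℤ_[p]) ^ (2 * k + 1)}) : θ u = 1 := by
  obtain ⟨w, rfl⟩ := exists_units_pow_eq_of_sub_one_mem k u hu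
  rw [map_pow, hG]

/-- Reduction `ℤ_[p]ˣ →* (ZMod (p^N))ˣ`. -/
def redUnits (p : ℕ) [Fact p.Prime] (N : ℕ) : ℤ_[p]ˣ →* (ZMod (p ^ N))ˣ :=
  Units.map (toZModPow N).toMonoidHom

@[simp] theorem coe_redUnits (N : ℕ) (u : ℤ_[p]ˣ) :
    ((redUnits p N u : (ZMod (p ^ N))ˣ) : ZMod (p ^ N)) = toZModPow N (u : ℤ_[p]) := rfl

theorem redUnits_eq_one_iff (N : ℕ) (u : ℤ_[p]ˣ) :
    redUnits p N u = 1 ↔ (u : ℤ_[p]) - 1 ∈ Ideal.span {(p : ℤ_[p]) ^ N} := by
  rw [← ker_toZModPow, RingHom.mem_ker, map_sub, map_one, sub_eq_zero, Units.ext_iff]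
  rfl

theorem isUnit_natCast_of_coprime {n : ℕ} (hn : n.Coprime p) : IsUnit (n : ℤ_[p]) := by
  rw [PadicInt.isUnit_iff]
  by_contra h
  have h1 : ‖(n : ℤ_[p])‖ < 1 := lt_of_le_of_ne (PadicInt.norm_le_one _) h
  rw [PadicInt.norm_natCast_lt_one_iff] at h1
  exact hp.out.one_lt.ne' (Nat.eq_one_of_dvd_coprimes hn.symm (dvd_refl p) h1)

/-- A natural number prime to `p` as a unit of `ℤ_p`. -/
def natUnit {n : ℕ} (hn : n.Coprime p) : ℤ_[p]ˣ := (isUnit_natCast_of_coprime hn).unit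

@[simp] theorem coe_natUnit {n : ℕ} (hn : n.Coprime p) : ((natUnit hn : ℤ_[p]ˣ) : ℤ_[p]) = n :=
  rfl

theorem redUnits_surjective (N : ℕ) : Function.Surjective (redUnits p N) := by
  intro x
  rcases Nat.eq_zero_or_pos N with rfl | hN
  · have : Subsingleton (ZMod (p ^ 0)) := by
      rw [pow_zero]; infer_instance
    exact ⟨1, Subsingleton.elim _ _⟩
  · have : NeZero (p ^ N) := ⟨pow_ne_zero _ hp.out.ne_zero⟩
    have hcop : ((x : ZMod (p ^ N)).val).Coprime p := by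
      have h1 := ZMod.val_coe_unit_coprime x
      exact Nat.Coprime.coprime_dvd_right (dvd_pow_self p hN.ne') h1
    refine ⟨natUnit hcop, ?_⟩
    apply Units.ext
    rw [coe_redUnits, coe_natUnit, map_natCast, ZMod.natCast_zmod_val]

/-- Modulo the kernel of reduction mod `p^(2k+1)`, `ℤ_[p]ˣ` is cyclic (`p` odd): there is `γ`
such that every homomorphism to a group of exponent `p^k` sends `u` to a power of its value at
`γ`, with an exponent depending only on `u`. -/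
theorem exists_generator_mod (hp2 : p ≠ 2) (k : ℕ) :
    ∃ γ : ℤ_[p]ˣ, ∀ u : ℤ_[p]ˣ, ∃ m : ℤ, ∀ {G : Type*} [Group G] (_ : ∀ g : G, g ^ p ^ k = 1)
      (θ : ℤ_[p]ˣ →* G), θ u = θ γ ^ m := by
  have : IsCyclic (ZMod (p ^ (2 * k + 1)))ˣ :=
    ZMod.isCyclic_units_of_prime_pow p hp.out hp2 (2 * k + 1)
  obtain ⟨γ₀, hγ₀⟩ := IsCyclic.exists_generator (α := (ZMod (p ^ (2 * k + 1)))ˣ)
  obtain ⟨γ, rfl⟩ := redUnits_surjective (2 * k + 1) γ₀
  refine ⟨γ, fun u => ?_⟩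
  obtain ⟨m, hm⟩ := Subgroup.mem_zpowers_iff.1 (hγ₀ (redUnits p (2 * k + 1) u))
  refine ⟨m, fun {G} _ hG θ => ?_⟩
  have h1 : redUnits p (2 * k + 1) (u * γ ^ (-m)) = 1 := by
    rw [map_mul, map_zpow, ← hm, ← zpow_add, add_neg_cancel, zpow_zero]
  have h2 := map_eq_one_of_sub_one_mem k hG θ _ ((redUnits_eq_one_iff _ _).1 h1)
  rw [map_mul, map_zpow, zpow_neg, mul_inv_eq_one] at h2
  exact h2

/-- **The twist exponent.** `p` odd, `G` commutative of exponent `p^k`.  Two surjective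
homomorphisms `f g : ℤ_[p]ˣ →* G` satisfy `f = g ^ s` for some `s` prime to `p`. -/
theorem exists_twist (hp2 : p ≠ 2) (k : ℕ) {G : Type*} [CommGroup G]
    (hG : ∀ g : G, g ^ p ^ k = 1) (f g : ℤ_[p]ˣ →* G) (hf : Function.Surjective f)
    (hg : Function.Surjective g) : ∃ s : ℕ, s.Coprime p ∧ ∀ u, f u = g u ^ s := by
  obtain ⟨γ, hγ⟩ := exists_generator_mod (p := p) hp2 k
  set a := g γ with ha
  set b := f γ with hb
  have hgen : ∀ (θ : ℤ_[p]ˣ →* G), Function.Surjective θ → ∀ x : G, ∃ m : ℤ, x = θ γ ^ m := by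
    intro θ hθ x
    obtain ⟨u, rfl⟩ := hθ x
    obtain ⟨m, hm⟩ := hγ u
    exact ⟨m, hm hG θ⟩
  have hpk : (0 : ℤ) < (p : ℤ) ^ k := by
    have := hp.out.pos
    positivity
  by_cases ha1 : a = 1
  · refine ⟨1, Nat.coprime_one_left p, fun u => ?_⟩
    obtain ⟨m, hm⟩ := hγ u
    obtain ⟨s₀, hs₀⟩ := hgen g hg b
    rw [hm hG f, hm hG g, ← hb, ← ha, hs₀, ← ha, ha1]
    simp
  · obtain ⟨s₀, hs₀⟩ := hgen g hg b
    obtain ⟨t, ht⟩ := hgen f hf a
    rw [← ha] at hs₀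
    rw [← hb] at ht
    -- replace `s₀` by a natural number
    have hapk : a ^ ((p : ℤ) ^ k) = 1 := by
      have := hG a
      rw [← zpow_natCast] at this
      simpa using this
    set s : ℕ := (s₀ % (p : ℤ) ^ k).toNat with hs
    have hs' : (s : ℤ) = s₀ % (p : ℤ) ^ k := by
      rw [hs, Int.toNat_of_nonneg (Int.emod_nonneg _ hpk.ne')]
    have hbs : b = a ^ s := by
      rw [hs₀, zpow_eq_zpow_emod s₀ hapk, ← hs', zpow_natCast]
    refine ⟨s, ?_, fun u => ?_⟩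
    · -- coprimality
      have h1 : a ^ ((s : ℤ) * t - 1) = 1 := by
        rw [zpow_sub, zpow_one, zpow_mul, zpow_natCast, ← hbs, ← ht, mul_inv_cancel]
      have h2 : (orderOf a : ℤ) ∣ (s : ℤ) * t - 1 := orderOf_dvd_iff_zpow_eq_one.2 h1
      have h3 : orderOf a ∣ p ^ k := orderOf_dvd_of_pow_eq_one (hG a)
      have h4 : orderOf a ≠ 1 := fun h => ha1 (orderOf_eq_one_iff.1 h)
      have h5 : p ∣ orderOf a := by
        obtain ⟨j, -, hj⟩ := (Nat.dvd_prime_pow hp.out).1 h3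
        rw [hj]
        rcases Nat.eq_zero_or_pos j with rfl | hj0
        · exact absurd (by simpa using hj) h4
        · exact dvd_pow_self p hj0.ne'
      have h6 : (p : ℤ) ∣ (s : ℤ) * t - 1 := (Int.natCast_dvd_natCast.2 h5).trans h2
      rw [Nat.coprime_comm, Nat.Prime.coprime_iff_not_dvd hp.out]
      intro hps
      have h7 : (p : ℤ) ∣ (s : ℤ) * t := (Int.natCast_dvd_natCast.2 hps).mul_right t
      have h8 : (p : ℤ) ∣ 1 := by
        have := dvd_sub h7 h6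
        simpa using this
      exact hp.out.one_lt.ne' (by exact_mod_cast Int.eq_one_of_dvd_one (by positivity) h8)
    · obtain ⟨m, hm⟩ := hγ u
      rw [hm hG f, hm hG g, ← hb, ← ha, hbs, ← zpow_natCast, ← zpow_mul, ← zpow_natCast (a ^ m),
        ← zpow_mul, mul_comm]

/-! ### Homomorphisms on `ℚˣ` -/

/-- A homomorphism on `ℚˣ` which kills every prime number kills every positive integer. -/
theorem monoidHom_natCast_eq_one {G : Type*} [CommGroup G] (Φ : ℚˣ →* G)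
    (hprime : ∀ t : ℕ, t.Prime → ∀ x : ℚˣ, (x : ℚ) = t → Φ x = 1) :
    ∀ n : ℕ, n ≠ 0 → ∀ x : ℚˣ, (x : ℚ) = n → Φ x = 1 := by
  intro n
  induction n using induction_on_primes with
  | zero => intro h; exact absurd rfl h
  | one =>
    intro _ x hx
    have : x = 1 := Units.ext (by simpa using hx)
    rw [this, map_one]
  | prime_mul t m ht ih =>
    intro hn x hx
    have hm : m ≠ 0 := fun h => hn (by rw [h, mul_zero])
    have ht0 : (t : ℚ) ≠ 0 := by exact_mod_cast ht.ne_zero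
    have hm0 : (m : ℚ) ≠ 0 := by exact_mod_cast hm
    have hx' : x = Units.mk0 (t : ℚ) ht0 * Units.mk0 (m : ℚ) hm0 := by
      apply Units.ext
      rw [hx]
      push_cast
      rfl
    rw [hx', map_mul, hprime t ht _ rfl, ih hm _ rfl, mul_one]

/-- A homomorphism on `ℚˣ` which kills `-1` and every prime number is trivial. -/
theorem monoidHom_eq_one_of_primes {G : Type*} [CommGroup G] (Φ : ℚˣ →* G)
    (hneg : Φ (-1) = 1) (hprime : ∀ t : ℕ, t.Prime → ∀ x : ℚˣ, (x : ℚ) = t → Φ x = 1)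
    (a : ℚˣ) : Φ a = 1 := by
  have hnat := monoidHom_natCast_eq_one Φ hprime
  have hd0 : ((a : ℚ).den : ℚ) ≠ 0 := by exact_mod_cast (a : ℚ).den_ne_zero
  have hnum0 : (a : ℚ).num ≠ 0 := Rat.num_ne_zero.2 a.ne_zero
  have hmul : (a : ℚ) * (a : ℚ).den = (a : ℚ).num := Rat.mul_den_eq_num _
  have h1 : Φ (Units.mk0 _ hd0) = 1 := hnat _ (a : ℚ).den_ne_zero _ rfl
  obtain ⟨n, hn⟩ := Int.eq_nat_or_neg (a : ℚ).num
  have hn0 : n ≠ 0 := by
    rintro rfl
    rcases hn with h | h <;> exact hnum0 (by simp at h)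
  have hn0' : (n : ℚ) ≠ 0 := by exact_mod_cast hn0
  have h2 : Φ (Units.mk0 _ hn0') = 1 := hnat _ hn0 _ rfl
  rcases hn with h | h
  · have : a * Units.mk0 _ hd0 = Units.mk0 _ hn0' := by
      apply Units.ext
      show (a : ℚ) * (a : ℚ).den = (n : ℚ)
      rw [hmul, h]
      push_cast
      rfl
    have h3 := congrArg Φ this
    rw [map_mul, h1, h2, mul_one] at h3
    exact h3
  · have : a * Units.mk0 _ hd0 = -1 * Units.mk0 _ hn0' := by
      apply Units.ext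
      show (a : ℚ) * (a : ℚ).den = -1 * (n : ℚ)
      rw [hmul, h]
      push_cast
      ring
    have h3 := congrArg Φ this
    rw [map_mul, map_mul, h1, h2, hneg, mul_one, mul_one] at h3
    exact h3

/-! ### The product formula for the twisted symbol -/

/-- The canonical map `ℚˣ →* ℚ_[p]ˣ`. -/
def ratToPadicUnits (p : ℕ) [Fact p.Prime] : ℚˣ →* ℚ_[p]ˣ :=
  Units.map (algebraMap ℚ ℚ_[p]).toMonoidHom

@[simp] theorem coe_ratToPadicUnits (a : ℚˣ) :
    ((ratToPadicUnits p a : ℚ_[p]ˣ) : ℚ_[p]) = ((a : ℚ) : ℚ_[p]) := by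
  simp [ratToPadicUnits]

/-- The canonical map `ℤ_[p]ˣ →* ℚ_[p]ˣ`. -/
def intToPadicUnits (p : ℕ) [Fact p.Prime] : ℤ_[p]ˣ →* ℚ_[p]ˣ :=
  Units.map (PadicInt.Coe.ringHom (p := p)).toMonoidHom

@[simp] theorem coe_intToPadicUnits (u : ℤ_[p]ˣ) :
    ((intToPadicUnits p u : ℚ_[p]ˣ) : ℚ_[p]) = ((u : ℤ_[p]) : ℚ_[p]) := rfl

/-- In a group of odd exponent an element of order dividing `2` is trivial. -/
theorem eq_one_of_sq_eq_one_of_pow {G : Type*} [Group G] (hp2 : p ≠ 2) (k : ℕ) {x : G}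
    (h2 : x ^ 2 = 1) (hk : x ^ p ^ k = 1) : x = 1 := by
  have hodd : Odd (p ^ k) := (hp.out.odd_of_ne_two hp2).pow
  obtain ⟨j, hj⟩ := hodd
  have : x ^ (p ^ k) = x := by
    rw [hj, pow_succ, pow_mul, h2, one_pow, one_mul]
  rw [← this, hk]

/-- **The product formula on `ℚˣ` for the twisted symbol** (abstract form).

`G` is commutative of exponent `p^k`, `p` odd (think of `G = Gal(ℚ_k/ℚ)`, the `k`-th layer of the
cyclotomic `ℤ_p`-extension).  `θ : ℚ_[p]ˣ →* G` is the local symbol at `p`, `art : ℤ_[p]ˣ →* G`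
is the cyclotomic character (so `art t = Frob_t` for primes `t ≠ p`), and `A : ℚˣ →* G` is the
part of the global symbol away from `p`, `A a = ∏_{t ≠ p} Frob_t ^ ord_t a`.  If `θ p = 1`
(`p` is a norm) and `θ u = art u ^ s` on `ℤ_pˣ`, then for `c` with `s c ≡ -1 mod p^k`
the twisted global symbol `θ ^ c * A` is trivial on `ℚˣ`. -/
theorem reciprocity_of_twist (hp2 : p ≠ 2) (k : ℕ) {G : Type*} [CommGroup G]
    (hG : ∀ g : G, g ^ p ^ k = 1) (θ : ℚ_[p]ˣ →* G) (art : ℤ_[p]ˣ →* G) (A : ℚˣ →* G)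
    (hθp : ∀ x : ℚ_[p]ˣ, (x : ℚ_[p]) = p → θ x = 1)
    (hAneg : A (-1) = 1) (hAp : ∀ x : ℚˣ, (x : ℚ) = p → A x = 1)
    (hA : ∀ t : ℕ, t.Prime → t ≠ p → ∀ (x : ℚˣ) (u : ℤ_[p]ˣ), (x : ℚ) = t → (u : ℤ_[p]) = t →
      A x = art u)
    (s c : ℕ) (hs : ∀ u : ℤ_[p]ˣ, θ (intToPadicUnits p u) = art u ^ s)
    (hc : p ^ k ∣ s * c + 1) (a : ℚˣ) :
    θ (ratToPadicUnits p a) ^ c * A a = 1 := by
  set Φ : ℚˣ →* G := (θ.comp (ratToPadicUnits p)) ^ c * A with hΦ
  have hΦa : ∀ a, Φ a = θ (ratToPadicUnits p a) ^ c * A a := fun a => rfl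
  rw [← hΦa]
  apply monoidHom_eq_one_of_primes Φ
  · -- `-1`
    rw [hΦa, hAneg, mul_one]
    have h1 : ratToPadicUnits p (-1) = intToPadicUnits p (-1) := by
      apply Units.ext
      simp
    have h2 : art (-1) = 1 := by
      apply eq_one_of_sq_eq_one_of_pow hp2 k _ (hG _)
      rw [← map_pow]
      simp
    rw [h1, hs, h2, one_pow, one_pow]
  · intro t ht x hx
    rw [hΦa]
    by_cases htp : t = p
    · subst htp
      rw [hAp x hx, mul_one, hθp _ (by simp [hx]), one_pow]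
    · have hcop : t.Coprime p := (Nat.coprime_primes ht hp.out).2 htp
      have h1 : ratToPadicUnits p x = intToPadicUnits p (natUnit hcop) := by
        apply Units.ext
        simp [hx]
      rw [h1, hs, hA t ht htp x (natUnit hcop) hx rfl, ← pow_mul, ← pow_succ]
      obtain ⟨e, he⟩ := hc
      rw [he, pow_mul, hG, one_pow]

/-! ### The `p`-adic twist constant -/

theorem toZModPow_eq_appr (n : ℕ) (x : ℤ_[p]) :
    toZModPow n x = ((x.appr n : ℕ) : ZMod (p ^ n)) := rfl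

/-- A compatible family of exponents prime to `p` is the family of reductions of a `p`-adic unit
`σ`; with `c := -σ⁻¹` we get `s k * c ≡ -1 mod p^k` for all `k`. -/
theorem exists_padic_unit_of_compat (s : ℕ → ℕ) (hs : (s 1).Coprime p)
    (hcompat : ∀ k, (p : ℤ) ^ k ∣ (s (k + 1) : ℤ) - s k) :
    ∃ c : ℤ_[p]ˣ, ∀ k, p ^ k ∣ s k * (c : ℤ_[p]).appr k + 1 := by
  set σ : ℤ_[p] := PadicInt.ofIntSeq _
    (isCauSeq_padicNorm_of_pow_dvd_sub (fun k => (s k : ℤ)) p hcompat) with hσ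
  have hσk : ∀ n, toZModPow n σ = (s n : ZMod (p ^ n)) := by
    intro n
    have := toZModPow_ofIntSeq_of_pow_dvd_sub (fun k => (s k : ℤ)) p hcompat n
    simpa using this
  have hunit : IsUnit σ := by
    by_contra h
    have h1 : σ ∈ IsLocalRing.maximalIdeal ℤ_[p] := (IsLocalRing.mem_maximalIdeal σ).2 h
    rw [maximalIdeal_eq_span_p, ← pow_one (p : ℤ_[p]), ← ker_toZModPow, RingHom.mem_ker,
      hσk 1, ZMod.natCast_eq_zero_iff, pow_one] at h1
    exact hp.out.one_lt.ne' (Nat.eq_one_of_dvd_coprimes hs.symm (dvd_refl p) h1)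
  refine ⟨-hunit.unit⁻¹, fun k => ?_⟩
  have h0 : σ * ((-hunit.unit⁻¹ : ℤ_[p]ˣ) : ℤ_[p]) + 1 = 0 := by
    rw [Units.val_neg, mul_neg, IsUnit.mul_val_inv, neg_add_cancel]
  have h1 := congrArg (toZModPow k) h0
  rw [map_add, map_mul, map_one, map_zero, hσk, toZModPow_eq_appr] at h1
  rw [← ZMod.natCast_eq_zero_iff]
  push_cast
  exact h1

/-- **The twist constant of a tower.**  `p` odd; `G k` commutative of exponent `p^k` containing an
element of order `p^k`; `f k`, `g k : ℤ_[p]ˣ →* G k` surjective and compatible with transition maps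
`π k : G (k+1) →* G k`.  Then there is one `c : ℤ_[p]ˣ` with `f k u ^ c * g k u = 1` for all `k`, `u`
(the exponent `c` being read modulo `p^k` through `PadicInt.appr`). -/
theorem exists_padic_twist_of_tower (hp2 : p ≠ 2) {G : ℕ → Type*} [∀ k, CommGroup (G k)]
    (hexp : ∀ k (x : G k), x ^ p ^ k = 1) (hord : ∀ k, ∃ x : G k, orderOf x = p ^ k)
    (f g : ∀ k, ℤ_[p]ˣ →* G k) (hf : ∀ k, Function.Surjective (f k))
    (hg : ∀ k, Function.Surjective (g k)) (π : ∀ k, G (k + 1) →* G k)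
    (hfπ : ∀ k u, π k (f (k + 1) u) = f k u) (hgπ : ∀ k u, π k (g (k + 1) u) = g k u) :
    ∃ c : ℤ_[p]ˣ, ∀ k u, f k u ^ (c : ℤ_[p]).appr k * g k u = 1 := by
  choose s hsp hs using fun k => exists_twist hp2 k (hexp k) (f k) (g k) (hf k) (hg k)
  have hcompat : ∀ k, (p : ℤ) ^ k ∣ (s (k + 1) : ℤ) - s k := by
    intro k
    obtain ⟨x, hx⟩ := hord k
    obtain ⟨u, rfl⟩ := hg k x
    have h1 : g k u ^ s (k + 1) = g k u ^ s k := by
      rw [← hs k u, ← hgπ k u, ← map_pow, ← hs (k + 1) u, hfπ]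
    have h2 := pow_eq_pow_iff_modEq.1 h1
    rw [hx] at h2
    have h3 := (Nat.modEq_iff_dvd.1 h2.symm)
    simpa using h3
  obtain ⟨c, hc⟩ := exists_padic_unit_of_compat s (hsp 1) hcompat
  refine ⟨c, fun k u => ?_⟩
  rw [hs k u, ← pow_mul, ← pow_succ]
  obtain ⟨e, he⟩ := hc k
  rw [he, pow_mul, hexp, one_pow]

/-! ### Final forms -/

/-- Every `x : ℚ_[p]ˣ` is `p ^ n * u` with `u : ℤ_[p]ˣ`. -/
theorem exists_zpow_mul_unit (x : ℚ_[p]ˣ) :
    ∃ (n : ℤ) (u : ℤ_[p]ˣ), (x : ℚ_[p]) = (p : ℚ_[p]) ^ n * ((u : ℤ_[p]) : ℚ_[p]) := by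
  have hp0 : (p : ℚ_[p]) ≠ 0 := by exact_mod_cast hp.out.ne_zero
  have hpr : (p : ℝ) ≠ 0 := by exact_mod_cast hp.out.ne_zero
  have hu : ‖(x : ℚ_[p]) * (p : ℚ_[p]) ^ (-(x : ℚ_[p]).valuation)‖ = 1 := by
    rw [norm_mul, Padic.norm_eq_zpow_neg_valuation x.ne_zero, Padic.norm_p_zpow, neg_neg,
      ← zpow_add₀ hpr, neg_add_cancel, zpow_zero]
  refine ⟨(x : ℚ_[p]).valuation, PadicInt.mkUnits hu, ?_⟩
  rw [PadicInt.mkUnits_eq, mul_comm, mul_assoc, ← zpow_add₀ hp0, neg_add_cancel, zpow_zero,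
    mul_one]

/-- A surjective `θ : ℚ_[p]ˣ →* G` which kills `p` is surjective on `ℤ_[p]ˣ`. -/
theorem surjective_comp_intToPadicUnits {G : Type*} [Group G] (θ : ℚ_[p]ˣ →* G)
    (hθ : Function.Surjective θ) (hθp : ∀ x : ℚ_[p]ˣ, (x : ℚ_[p]) = p → θ x = 1) :
    Function.Surjective (θ.comp (intToPadicUnits p)) := by
  intro g
  obtain ⟨x, rfl⟩ := hθ g
  obtain ⟨n, u, hx⟩ := exists_zpow_mul_unit x
  have hp0 : (p : ℚ_[p]) ≠ 0 := by exact_mod_cast hp.out.ne_zero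
  refine ⟨u, ?_⟩
  have h1 : x = (Units.mk0 (p : ℚ_[p]) hp0) ^ n * intToPadicUnits p u := by
    apply Units.ext
    rw [hx]
    simp
  rw [h1, map_mul, map_zpow, hθp _ rfl, one_zpow, one_mul]
  rfl

/-- The product formula on `ℚˣ`, in the form: `θ ^ c * art = 1` on `ℤ_pˣ` implies
`θ ^ c * A = 1` on `ℚˣ`. -/
theorem reciprocity_of_twist' (hp2 : p ≠ 2) (k : ℕ) {G : Type*} [CommGroup G]
    (hG : ∀ g : G, g ^ p ^ k = 1) (θ : ℚ_[p]ˣ →* G) (art : ℤ_[p]ˣ →* G) (A : ℚˣ →* G)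
    (hθp : ∀ x : ℚ_[p]ˣ, (x : ℚ_[p]) = p → θ x = 1)
    (hAneg : A (-1) = 1) (hAp : ∀ x : ℚˣ, (x : ℚ) = p → A x = 1)
    (hA : ∀ t : ℕ, t.Prime → t ≠ p → ∀ (x : ℚˣ) (u : ℤ_[p]ˣ), (x : ℚ) = t → (u : ℤ_[p]) = t →
      A x = art u)
    (c : ℕ) (hc : ∀ u : ℤ_[p]ˣ, θ (intToPadicUnits p u) ^ c * art u = 1) (a : ℚˣ) :
    θ (ratToPadicUnits p a) ^ c * A a = 1 := by
  set Φ : ℚˣ →* G := (θ.comp (ratToPadicUnits p)) ^ c * A with hΦ
  have hΦa : ∀ a, Φ a = θ (ratToPadicUnits p a) ^ c * A a := fun a => rfl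
  rw [← hΦa]
  apply monoidHom_eq_one_of_primes Φ
  · rw [hΦa, hAneg, mul_one]
    have h1 : ratToPadicUnits p (-1) = intToPadicUnits p (-1) := by
      apply Units.ext
      simp
    have h2 : θ (intToPadicUnits p (-1)) = 1 := by
      apply eq_one_of_sq_eq_one_of_pow hp2 k _ (hG _)
      rw [← map_pow, ← map_pow]
      simp
    rw [h1, h2, one_pow]
  · intro t ht x hx
    rw [hΦa]
    by_cases htp : t = p
    · subst htp
      rw [hAp x hx, mul_one, hθp _ (by simp [hx]), one_pow]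
    · have hcop : t.Coprime p := (Nat.coprime_primes ht hp.out).2 htp
      have h1 : ratToPadicUnits p x = intToPadicUnits p (natUnit hcop) := by
        apply Units.ext
        simp [hx]
      rw [h1, hA t ht htp x (natUnit hcop) hx rfl]
      exact hc _

/-- **Reciprocity on the cyclotomic `ℤ_p`-tower over `ℚ`, abstract form.**

For every `k` let `G k` be commutative of exponent `p^k` with an element of order `p^k`
(`G k = Gal(ℚ_k/ℚ)`), with transition maps `π k`.  Let `θ k : ℚ_[p]ˣ →* G k` be surjective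
homomorphisms killing `p` (the local symbols at `p`: norm index theorem + `p` is a norm), let
`art k : ℤ_[p]ˣ →* G k` be surjective (cyclotomic character) and `A k : ℚˣ →* G k` the global symbol
away from `p` (`A k t = art k t` for primes `t ≠ p`, `A k p = 1`, `A k (-1) = 1`), all compatible
with `π`.  Then there is ONE twist `c : ℤ_[p]ˣ` such that for all `k` and all `a : ℚˣ`
`θ k a ^ c * A k a = 1`. -/
theorem exists_padic_twist_reciprocity (hp2 : p ≠ 2) {G : ℕ → Type*} [∀ k, CommGroup (G k)]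
    (hexp : ∀ k (x : G k), x ^ p ^ k = 1) (hord : ∀ k, ∃ x : G k, orderOf x = p ^ k)
    (θ : ∀ k, ℚ_[p]ˣ →* G k) (art : ∀ k, ℤ_[p]ˣ →* G k) (A : ∀ k, ℚˣ →* G k)
    (hθ : ∀ k, Function.Surjective (θ k)) (hart : ∀ k, Function.Surjective (art k))
    (π : ∀ k, G (k + 1) →* G k) (hθπ : ∀ k x, π k (θ (k + 1) x) = θ k x)
    (hartπ : ∀ k u, π k (art (k + 1) u) = art k u)
    (hθp : ∀ k (x : ℚ_[p]ˣ), (x : ℚ_[p]) = p → θ k x = 1)
    (hAneg : ∀ k, A k (-1) = 1) (hAp : ∀ k (x : ℚˣ), (x : ℚ) = p → A k x = 1)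
    (hA : ∀ k (t : ℕ), t.Prime → t ≠ p → ∀ (x : ℚˣ) (u : ℤ_[p]ˣ), (x : ℚ) = t →
      (u : ℤ_[p]) = t → A k x = art k u) :
    ∃ c : ℤ_[p]ˣ, (∀ k (u : ℤ_[p]ˣ),
        θ k (intToPadicUnits p u) ^ (c : ℤ_[p]).appr k * art k u = 1) ∧
      ∀ k (a : ℚˣ), θ k (ratToPadicUnits p a) ^ (c : ℤ_[p]).appr k * A k a = 1 := by
  obtain ⟨c, hc⟩ := exists_padic_twist_of_tower hp2 hexp hord
    (fun k => (θ k).comp (intToPadicUnits p)) art
    (fun k => surjective_comp_intToPadicUnits (θ k) (hθ k) (hθp k)) hart π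
    (fun k u => hθπ k _) hartπ
  exact ⟨c, hc, fun k a => reciprocity_of_twist' hp2 k (hexp k) (θ k) (art k) (A k) (hθp k)
    (hAneg k) (hAp k) (hA k) _ (hc k) a⟩

end Fermat.Agent.CFT.H81
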