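import Fermat.Agent.CFT.H93_ZpTower
import Fermat.Agent.S14.H27_BaseChange
import Fermat.Agent.S14.H32_FrobExtra

/-!
# The Artin symbol on the layers of the cyclotomic `ℤ_p`-extension of `ℚ`

Author: helper93 (project CFT, package C-CYCLO-Zp-tower, item (Z4)).
-/

namespace Fermat.Agent.CFT.H93

open NumberField IsCyclotomicExtension IntermediateField Ideal Fermat.Agent.S14

section Artin

variable (p : ℕ) [hp : Fact p.Prime] (k : ℕ) (F : Type*) [Field F] [NumberField F]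
  [hF : IsCyclotomicExtension {p ^ (k + 1)} ℚ F]

set_option maxHeartbeats 400000

omit hp in
include hF in
lemma isMulCommutative_gal_top : IsMulCommutative Gal(F/ℚ) := by
  have := IsCyclotomicExtension.isAbelianGalois {p ^ (k + 1)} ℚ F
  infer_instance

instance isMulCommutative_gal_zpLayer : IsMulCommutative Gal(zpLayer p k F/ℚ) := by
  have := isGalois_top p k F
  have hc := isMulCommutative_gal_top p k F
  refine ⟨⟨fun a b => ?_⟩⟩
  obtain ⟨a', rfl⟩ := AlgEquiv.restrictNormalHom_surjective F a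
  obtain ⟨b', rfl⟩ := AlgEquiv.restrictNormalHom_surjective F b
  rw [← map_mul, ← map_mul, mul_comm' a' b']

variable [IsGalois ℚ F] [IsMulCommutative Gal(F/ℚ)]

/-- The ideal-theoretic Artin symbol of `(n)`, `n` prime to `p`, on `ℚ(ζ_{p^(k+1)})` is
`ζ ↦ ζ ^ n`. -/
theorem artin_top_apply_zeta (n : ℕ) (hn : Nat.Coprime n p) {ξ : F} (hξ : ξ ^ p ^ (k + 1) = 1) :
    H27.artin F (Ideal.span {(n : 𝓞 ℚ)}) ξ = ξ ^ n := by
  have hn0 : n ≠ 0 := by
    rintro rfl
    rw [Nat.coprime_zero_left] at hn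
    exact hp.out.one_lt.ne' hn
  have hne : Ideal.span {(n : 𝓞 ℚ)} ≠ ⊥ := by
    rw [Ne, Ideal.span_singleton_eq_bot]
    exact_mod_cast hn0
  have hnorm : Ideal.absNorm (Ideal.span {(n : 𝓞 ℚ)}) = n := by
    rw [Ideal.absNorm_span_singleton]
    have : (n : 𝓞 ℚ) = algebraMap ℤ (𝓞 ℚ) (n : ℤ) := by simp
    rw [this, Algebra.norm_algebraMap, RingOfIntegers.rank, Module.finrank_self, pow_one]
    simp
  have h := H32.artin_apply_of_pow_eq_one (K := ℚ) (L := F) hne hξ ?_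
  · rw [h, hnorm]
  · intro 𝔭 h𝔭 hle hmem
    have hnmem : (n : 𝓞 ℚ) ∈ 𝔭 := hle (Ideal.subset_span rfl)
    have hpmem : (p : 𝓞 ℚ) ∈ 𝔭 := by
      rw [Nat.cast_pow] at hmem
      exact h𝔭.mem_of_pow_mem _ hmem
    apply h𝔭.ne_top
    rw [Ideal.eq_top_iff_one]
    have hco : IsCoprime (n : ℤ) (p : ℤ) := Nat.isCoprime_iff_coprime.mpr hn
    obtain ⟨a, b, hab⟩ := hco
    have h1 : (a : 𝓞 ℚ) * (n : 𝓞 ℚ) + (b : 𝓞 ℚ) * (p : 𝓞 ℚ) = 1 := by
      have := congrArg (Int.cast : ℤ → 𝓞 ℚ) hab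
      push_cast at this
      exact this
    rw [← h1]
    exact 𝔭.add_mem (𝔭.mul_mem_left _ hnmem) (𝔭.mul_mem_left _ hpmem)

end Artin

section Artin2

variable (p : ℕ) [hp : Fact p.Prime] (k : ℕ) (F : Type*) [Field F] [NumberField F]
  [hF : IsCyclotomicExtension {p ^ (k + 1)} ℚ F]

set_option maxHeartbeats 400000

/-- Away from `p` the layers are unramified (in the `Algebra.IsUnramifiedAt` form over `𝓞 ℚ`
used by the Frobenius API). -/
theorem isUnramifiedAt_zpLayer (hp2 : p ≠ 2) (𝔓 : Ideal (𝓞 (zpLayer p k F))) [h𝔓p : 𝔓.IsPrime]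
    (h𝔓 : 𝔓 ≠ ⊥) (hp𝔓 : (p : 𝓞 (zpLayer p k F)) ∉ 𝔓) :
    Algebra.IsUnramifiedAt (𝓞 ℚ) 𝔓 := by
  -- the rational prime below
  have hq : (𝔓.under ℤ).IsPrime := inferInstance
  have hq0 : 𝔓.under ℤ ≠ ⊥ := Ideal.under_ne_bot ℤ h𝔓
  obtain ⟨g, hg⟩ := (inferInstance : (𝔓.under ℤ).IsPrincipal)
  have hgspan : 𝔓.under ℤ = Ideal.span {g} := hg
  have hg0 : g ≠ 0 := by
    rintro rfl
    apply hq0
    rw [hgspan]
    simp
  have hgp : Prime g := by
    rw [← Ideal.span_singleton_prime hg0, ← hgspan]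
    exact hq
  have htp : (g.natAbs).Prime := Int.prime_iff_natAbs_prime.mp hgp
  have : Fact (g.natAbs).Prime := ⟨htp⟩
  have hspan : 𝔓.under ℤ = Ideal.span {((g.natAbs : ℕ) : ℤ)} := by
    rw [hgspan, Int.span_natAbs]
  have : 𝔓.LiesOver (Ideal.span {((g.natAbs : ℕ) : ℤ)}) := ⟨hspan.symm⟩
  have hne : g.natAbs ≠ p := by
    intro h
    apply hp𝔓
    have : ((g.natAbs : ℕ) : ℤ) ∈ 𝔓.under ℤ := by
      rw [hspan]; exact Ideal.subset_span rfl
    rw [Ideal.under_def, Ideal.mem_comap, h] at this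
    simpa using this
  have he := (ram_inertia_zpLayer_of_ne p k F g.natAbs hp2 hne 𝔓).1
  have hZ : Algebra.IsUnramifiedAt ℤ 𝔓 := Ideal.ramificationIdx_eq_one_iff.mp he
  exact Algebra.FormallyUnramified.of_restrictScalars (R := ℤ) (A := 𝓞 ℚ) (B := Localization.AtPrime 𝔓)

end Artin2

section Artin3

variable (p : ℕ) [hp : Fact p.Prime] (k : ℕ) (F : Type*) [Field F] [NumberField F]
  [hF : IsCyclotomicExtension {p ^ (k + 1)} ℚ F]

set_option maxHeartbeats 400000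

/-- The surjection `(ℤ/p^(k+1))ˣ → Gal(ℚ_k/ℚ)`: `a ↦ (ζ ↦ ζ^a)|_{ℚ_k}`. -/
noncomputable def zpArtinHom : (ZMod (p ^ (k + 1)))ˣ →* Gal(zpLayer p k F/ℚ) :=
  haveI := isGalois_top p k F
  (AlgEquiv.restrictNormalHom (zpLayer p k F)).comp (galZ p k F).symm.toMonoidHom

lemma zpArtinHom_apply (a : (ZMod (p ^ (k + 1)))ˣ) :
    haveI := isGalois_top p k F
    zpArtinHom p k F a = AlgEquiv.restrictNormalHom (zpLayer p k F) ((galZ p k F).symm a) := rfl

lemma zpArtinHom_surjective : Function.Surjective (zpArtinHom p k F) := by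
  have := isGalois_top p k F
  unfold zpArtinHom
  exact (AlgEquiv.restrictNormalHom_surjective F).comp (galZ p k F).symm.surjective

lemma restrictNormalHom_zpLayer_eq_one_iff [IsGalois ℚ F] (σ : Gal(F/ℚ)) :
    AlgEquiv.restrictNormalHom (zpLayer p k F) σ = 1 ↔ σ ^ (p - 1) = 1 := by
  rw [← mem_torsionAut p k F]
  have h1 : AlgEquiv.restrictNormalHom (zpLayer p k F) σ = 1 ↔
      ∀ x : zpLayer p k F, σ (x : F) = x := by
    constructor
    · intro h x
      have := AlgEquiv.restrictNormal_commutes σ (zpLayer p k F) x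
      have e : σ.restrictNormal (zpLayer p k F) = 1 := h
      rw [e] at this
      exact this.symm
    · intro h
      ext x
      have := AlgEquiv.restrictNormal_commutes σ (zpLayer p k F) x
      exact this.trans (h x)
  rw [h1]
  have h2 : (zpLayer p k F).fixingSubgroup = torsionAut p k F := by
    unfold zpLayer
    exact IntermediateField.fixingSubgroup_fixedField _
  rw [← h2, IntermediateField.mem_fixingSubgroup_iff]
  constructor
  · intro h x hx
    exact h ⟨x, hx⟩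
  · intro h x
    exact h x x.2

lemma zpArtinHom_eq_one_iff (a : (ZMod (p ^ (k + 1)))ˣ) :
    zpArtinHom p k F a = 1 ↔ a ^ (p - 1) = 1 := by
  have := isGalois_top p k F
  rw [zpArtinHom_apply, restrictNormalHom_zpLayer_eq_one_iff, ← map_pow,
    MulEquiv.map_eq_one_iff]

lemma zpArtinHom_neg_one (hp2 : p ≠ 2) : zpArtinHom p k F (-1) = 1 := by
  rw [zpArtinHom_eq_one_iff]
  have hodd : Odd p := hp.out.odd_of_ne_two hp2
  have heven : Even (p - 1) := by
    obtain ⟨m, hm⟩ := hodd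
    exact ⟨m, by omega⟩
  exact heven.neg_one_pow

lemma zpArtinHom_ker :
    (zpArtinHom p k F).ker = (powMonoidHom (p - 1) : (ZMod (p ^ (k + 1)))ˣ →* _).ker := by
  ext a
  rw [MonoidHom.mem_ker, MonoidHom.mem_ker, zpArtinHom_eq_one_iff, powMonoidHom_apply]

variable [IsGalois ℚ F] [IsMulCommutative Gal(F/ℚ)]

/-- The Artin symbol of `(n)`, `n` prime to `p`, on `ℚ(ζ_{p^(k+1)})` corresponds to
`n mod p^(k+1)` under `galZ`. -/
theorem artin_top_eq (n : ℕ) (hn : Nat.Coprime n p) :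
    H27.artin F (Ideal.span {(n : 𝓞 ℚ)}) =
      (galZ p k F).symm (ZMod.unitOfCoprime n (hn.pow_right (k + 1))) := by
  rw [MulEquiv.eq_symm_apply]
  have hpos : NeZero (p ^ (k + 1)) := ⟨(pow_pos hp.out.pos _).ne'⟩
  have hζ := IsCyclotomicExtension.zeta_spec (p ^ (k + 1)) ℚ F
  set ζ := IsCyclotomicExtension.zeta (p ^ (k + 1)) ℚ F
  have h1 := artin_top_apply_zeta p k F n hn hζ.pow_eq_one
  have h2 := galZ_spec p k F (H27.artin F (Ideal.span {(n : 𝓞 ℚ)})) hζ.pow_eq_one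
  rw [h1] at h2
  have hζ0 : ζ ≠ 0 := hζ.ne_zero (NeZero.ne _)
  have h2' : (Units.mk0 ζ hζ0) ^ n =
      (Units.mk0 ζ hζ0) ^ (galZ p k F (H27.artin F (Ideal.span {(n : 𝓞 ℚ)}))).val.val :=
    Units.ext (by simpa using h2)
  have h3 := pow_eq_pow_iff_modEq.mp h2'
  rw [← orderOf_units, Units.val_mk0, ← hζ.eq_orderOf] at h3
  apply Units.ext
  rw [ZMod.coe_unitOfCoprime]
  have h4 := (ZMod.natCast_eq_natCast_iff _ _ _).mpr h3
  rw [ZMod.natCast_zmod_val] at h4
  exact h4.symm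

end Artin3

section Artin4

variable (p : ℕ) [hp : Fact p.Prime] (k : ℕ) (F : Type*) [Field F] [NumberField F]
  [hF : IsCyclotomicExtension {p ^ (k + 1)} ℚ F]

set_option maxHeartbeats 400000

/-- **(Z4)** The Artin symbol of `(n)`, `n` prime to `p`, on the `k`-th layer of the cyclotomic
`ℤ_p`-extension is the image of `n mod p^(k+1)`. -/
theorem artin_zpLayer_eq (hp2 : p ≠ 2) (n : ℕ) (hn : Nat.Coprime n p) :
    H27.artin (zpLayer p k F) (Ideal.span {(n : 𝓞 ℚ)}) =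
      zpArtinHom p k F (ZMod.unitOfCoprime n (hn.pow_right (k + 1))) := by
  have := isGalois_top p k F
  have := isMulCommutative_gal_top p k F
  rw [zpArtinHom_apply, ← artin_top_eq p k F n hn]
  symm
  apply H27.restrictNormalHom_artin
  intro 𝔓 _ h𝔓 hle
  apply isUnramifiedAt_zpLayer p k F hp2 𝔓 h𝔓
  intro hpmem
  have hnmem : (n : 𝓞 (zpLayer p k F)) ∈ 𝔓 := by
    have h1 : (n : 𝓞 ℚ) ∈ 𝔓.under (𝓞 ℚ) := hle (Ideal.subset_span rfl)
    rw [Ideal.under_def, Ideal.mem_comap, map_natCast] at h1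
    exact h1
  apply (inferInstance : 𝔓.IsPrime).ne_top
  rw [Ideal.eq_top_iff_one]
  have hco : IsCoprime (n : ℤ) (p : ℤ) := Nat.isCoprime_iff_coprime.mpr hn
  obtain ⟨a, b, hab⟩ := hco
  have h1 : (a : 𝓞 (zpLayer p k F)) * (n : 𝓞 (zpLayer p k F)) +
      (b : 𝓞 (zpLayer p k F)) * (p : 𝓞 (zpLayer p k F)) = 1 := by
    have := congrArg (Int.cast : ℤ → 𝓞 (zpLayer p k F)) hab
    push_cast at this
    exact this
  rw [← h1]
  exact 𝔓.add_mem (𝔓.mul_mem_left _ hnmem) (𝔓.mul_mem_left _ hpmem)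

/-- **(Z4), triviality criterion.** -/
theorem artin_zpLayer_eq_one_iff (hp2 : p ≠ 2) (n : ℕ) (hn : Nat.Coprime n p) :
    H27.artin (zpLayer p k F) (Ideal.span {(n : 𝓞 ℚ)}) = 1 ↔
      (n : ZMod (p ^ (k + 1))) ^ (p - 1) = 1 := by
  rw [artin_zpLayer_eq p k F hp2 n hn, zpArtinHom_eq_one_iff, ← Units.val_inj, Units.val_pow_eq_pow_val,
    ZMod.coe_unitOfCoprime, Units.val_one]

/-- **(Z4), Frobenius form**: for a prime `t ≠ p`, the Frobenius of `t` on the layer. -/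
theorem frobP_zpLayer_eq (hp2 : p ≠ 2) (t : ℕ) (ht : t.Prime) (htp : t ≠ p) :
    H27.frobP (zpLayer p k F) (Ideal.span {(t : 𝓞 ℚ)}) =
      zpArtinHom p k F (ZMod.unitOfCoprime t
        (((Nat.coprime_primes ht hp.out).mpr htp).pow_right (k + 1))) := by
  rw [← artin_zpLayer_eq p k F hp2 t ((Nat.coprime_primes ht hp.out).mpr htp)]
  have hprime : (Ideal.span {(t : 𝓞 ℚ)}).IsPrime := by
    have h1 : Prime ((t : ℤ)) := Nat.prime_iff_prime_int.mp ht
    have h2 : Prime ((t : 𝓞 ℚ)) := by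
      have := (MulEquiv.prime_iff (Rat.ringOfIntegersEquiv.symm.toMulEquiv) (p := (t : ℤ))).mpr h1
      rwa [RingEquiv.toMulEquiv_eq_coe, RingEquiv.coe_toMulEquiv, map_natCast] at this
    exact (Ideal.span_singleton_prime h2.ne_zero).mpr h2
  have hne : Ideal.span {(t : 𝓞 ℚ)} ≠ ⊥ := by
    rw [Ne, Ideal.span_singleton_eq_bot]
    exact_mod_cast ht.ne_zero
  rw [H27.artin_prime _ hne]

end Artin4

end Fermat.Agent.CFT.H93
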