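import Mathlib
import Fermat.Agent.CFT.H81_ZpTwist
import Fermat.Agent.CFT.H93_ZpArtin
import Fermat.Agent.CFT.H27_ArtinDivNat

set_option autoImplicit false

/-!
# Reciprocity over `ℚ` on the layers of the cyclotomic `ℤ_p`-extension

(CFT / layer C / package `C-RECIP-tower`, helper81.)

Instantiation of the abstract `ℤ_p`-twist algebra (`H81_ZpTwist`) with helper93's layers
`zpLayer p k F` (`H93_ZpTower`, `H93_ZpArtin`) and helper27's Artin map on principal divisors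
(`H27_ArtinDivNat`).  The only remaining inputs are the local symbols `θ k : ℚ_[p]ˣ →* Gal(ℚ_k/ℚ)`
at `p` (surjective, killing `p`, compatible in `k`) and the transition maps of the tower.
-/

namespace Fermat.Agent.CFT.H81

open NumberField Fermat.Agent.CFT.H93 Fermat.Agent.CFT.H27 Fermat.Agent.CFT.H23
open scoped IsMulCommutative

noncomputable section

variable (p : ℕ) [hp : Fact p.Prime] (k : ℕ) (F : Type*) [Field F] [NumberField F]
  [hF : IsCyclotomicExtension {p ^ (k + 1)} ℚ F]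

/-- The cyclotomic character `ℤ_pˣ → (ℤ/p^(k+1))ˣ → Gal(ℚ_k/ℚ)`. -/
def zpArt : ℤ_[p]ˣ →* Gal(zpLayer p k F/ℚ) :=
  (zpArtinHom p k F).comp (redUnits p (k + 1))

theorem zpArt_apply (u : ℤ_[p]ˣ) : zpArt p k F u = zpArtinHom p k F (redUnits p (k + 1) u) := rfl

theorem zpArt_surjective : Function.Surjective (zpArt p k F) :=
  (zpArtinHom_surjective p k F).comp (redUnits_surjective (k + 1))

theorem card_gal_zpLayer (hp2 : p ≠ 2) : Nat.card Gal(zpLayer p k F/ℚ) = p ^ k := by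
  rw [IsGalois.card_aut_eq_finrank, finrank_zpLayer p k F hp2]

theorem pow_card_gal_zpLayer (hp2 : p ≠ 2) (σ : Gal(zpLayer p k F/ℚ)) : σ ^ p ^ k = 1 := by
  rw [← card_gal_zpLayer p k F hp2]
  exact pow_card_eq_one'

theorem exists_orderOf_gal_zpLayer (hp2 : p ≠ 2) :
    ∃ σ : Gal(zpLayer p k F/ℚ), orderOf σ = p ^ k := by
  have := isCyclic_gal_zpLayer p k F hp2
  obtain ⟨g, hg⟩ := IsCyclic.exists_generator (α := Gal(zpLayer p k F/ℚ))
  exact ⟨g, by rw [orderOf_eq_card_of_forall_mem_zpowers hg, card_gal_zpLayer p k F hp2]⟩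

/-- `zpArt` of a natural number prime to `p`. -/
theorem zpArt_natUnit {n : ℕ} (hn : n.Coprime p) :
    zpArt p k F (natUnit hn) = zpArtinHom p k F (ZMod.unitOfCoprime n (hn.pow_right (k + 1))) := by
  rw [zpArt_apply]
  congr 1
  apply Units.ext
  rw [coe_redUnits, coe_natUnit, map_natCast, ZMod.coe_unitOfCoprime]

variable (S : Finset Nat.Primes)

/-- The Artin symbol of the principal divisor of a prime `t ∉ S` on the `k`-th layer is the
cyclotomic character of `t`. -/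
theorem artinPrincipal_zpLayer_prime (hp2 : p ≠ 2) (hpS : (⟨p, hp.out⟩ : Nat.Primes) ∈ S)
    (t : ℕ) (ht : t.Prime) (htS : ∀ q ∈ S, (q : ℕ) ≠ t) (x : ℚˣ) (hx : (x : ℚ) = t)
    (u : ℤ_[p]ˣ) (hu : (u : ℤ_[p]) = t) :
    artinPrincipal S (zpLayer p k F) x = zpArt p k F u := by
  have htp : t ≠ p := fun h => htS _ hpS h.symm
  have hcop : t.Coprime p := (Nat.coprime_primes ht hp.out).2 htp
  have hn : ∀ q ∈ S, t.Coprime (q : ℕ) := fun q hq =>
    (Nat.coprime_primes ht q.2).2 (fun h => htS q hq h.symm)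
  rw [artinPrincipal_natCast S (zpLayer p k F) t ht.ne_zero hn x hx,
    artin_zpLayer_eq p k F hp2 t hcop, ← zpArt_natUnit p k F hcop]
  congr 1
  apply Units.ext
  rw [coe_natUnit, hu]

/-- **Reciprocity over `ℚ` on the `k`-th layer `ℚ_k`, given the twist.**

`θ : ℚ_[p]ˣ →* Gal(ℚ_k/ℚ)` is the local symbol at `p`, `ψ : ℚˣ →* Gal(ℚ_k/ℚ)` the product of the
(unramified) local symbols at the places `q ∈ S`, `q ≠ p`, evaluated on principal ideles
(`ψ t = Frob_t` for `t ∈ S \ {p}`, `ψ t = 1` for all other primes, `ψ (-1) = 1`), and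
`H27.artinPrincipal S ℚ_k` the Artin symbol of the principal divisor outside `S`.  If
`θ u ^ c * art u = 1` on `ℤ_pˣ` then the twisted global symbol kills `ℚˣ`. -/
theorem recip_rat_level (hp2 : p ≠ 2) (hpS : (⟨p, hp.out⟩ : Nat.Primes) ∈ S)
    (θ : ℚ_[p]ˣ →* Gal(zpLayer p k F/ℚ)) (ψ : ℚˣ →* Gal(zpLayer p k F/ℚ))
    (hθp : ∀ x : ℚ_[p]ˣ, (x : ℚ_[p]) = p → θ x = 1) (hψneg : ψ (-1) = 1)
    (hψS : ∀ t : ℕ, t.Prime → (∃ q ∈ S, (q : ℕ) = t) → t ≠ p → ∀ (x : ℚˣ) (u : ℤ_[p]ˣ),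
      (x : ℚ) = t → (u : ℤ_[p]) = t → ψ x = zpArt p k F u)
    (hψout : ∀ t : ℕ, t.Prime → (t = p ∨ ∀ q ∈ S, (q : ℕ) ≠ t) → ∀ x : ℚˣ, (x : ℚ) = t → ψ x = 1)
    (c : ℕ) (hc : ∀ u : ℤ_[p]ˣ, θ (intToPadicUnits p u) ^ c * zpArt p k F u = 1) (a : ℚˣ) :
    θ (ratToPadicUnits p a) ^ c * (ψ a * artinPrincipal S (zpLayer p k F) a) = 1 := by
  have hG : ∀ g : Gal(zpLayer p k F/ℚ), g ^ p ^ k = 1 := pow_card_gal_zpLayer p k F hp2
  have hcomm : ∀ x y : Gal(zpLayer p k F/ℚ), x * y = y * x := fun x y => mul_comm x y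
  let _ : CommGroup Gal(zpLayer p k F/ℚ) := { (inferInstance : Group Gal(zpLayer p k F/ℚ)) with
    mul_comm := hcomm }
  have key := reciprocity_of_twist' (p := p) hp2 k hG θ (zpArt p k F)
    (ψ * artinPrincipal S (zpLayer p k F)) hθp
    (by rw [MonoidHom.mul_apply, hψneg, artinPrincipal_neg_one, one_mul])
    (fun x hx => by
      rw [MonoidHom.mul_apply, hψout p hp.out (Or.inl rfl) x hx,
        artinPrincipal_prime_of_mem S (zpLayer p k F) ⟨p, hp.out⟩ hpS x hx, one_mul])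
    (fun t ht htp x u hx hu => by
      rw [MonoidHom.mul_apply]
      by_cases htS : ∃ q ∈ S, (q : ℕ) = t
      · obtain ⟨q, hq, hqt⟩ := htS
        rw [hψS t ht ⟨q, hq, hqt⟩ htp x u hx hu,
          artinPrincipal_prime_of_mem S (zpLayer p k F) q hq x (by rw [hx, hqt]), mul_one]
      · have htS' : ∀ q ∈ S, (q : ℕ) ≠ t := fun q hq h => htS ⟨q, hq, h⟩
        rw [hψout t ht (Or.inr htS') x hx, one_mul,
          artinPrincipal_zpLayer_prime p k F S hp2 hpS t ht htS' x hx u hu])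
    c hc a
  exact key

end

noncomputable section Tower

variable (p : ℕ) [hp : Fact p.Prime] (F : ℕ → Type*) [∀ k, Field (F k)] [∀ k, NumberField (F k)]
  [∀ k, IsCyclotomicExtension {p ^ (k + 1)} ℚ (F k)]

/-- **The twist constant of the cyclotomic `ℤ_p`-tower of `ℚ`.**

`π k : Gal(ℚ_{k+1}/ℚ) →* Gal(ℚ_k/ℚ)` are the transition maps (compatible with the cyclotomic
characters `zpArt`), `θ k : ℚ_[p]ˣ →* Gal(ℚ_k/ℚ)` the local symbols at `p`: surjective (local norm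
index theorem, `p` totally ramified), killing `p` (`p` is a norm from `ℚ_k`), compatible in `k`.
Then there is ONE `c : ℤ_[p]ˣ` with `θ k u ^ c * art_k u = 1` for all `k` and all `u : ℤ_[p]ˣ`. -/
theorem exists_twist_zpTower (hp2 : p ≠ 2)
    (π : ∀ k, Gal(zpLayer p (k + 1) (F (k + 1))/ℚ) →* Gal(zpLayer p k (F k)/ℚ))
    (hπ : ∀ k u, π k (zpArt p (k + 1) (F (k + 1)) u) = zpArt p k (F k) u)
    (θ : ∀ k, ℚ_[p]ˣ →* Gal(zpLayer p k (F k)/ℚ)) (hθ : ∀ k, Function.Surjective (θ k))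
    (hθp : ∀ k (x : ℚ_[p]ˣ), (x : ℚ_[p]) = p → θ k x = 1)
    (hθπ : ∀ k x, π k (θ (k + 1) x) = θ k x) :
    ∃ c : ℤ_[p]ˣ, ∀ k (u : ℤ_[p]ˣ),
      θ k (intToPadicUnits p u) ^ (c : ℤ_[p]).appr k * zpArt p k (F k) u = 1 := by
  let _ : ∀ k, CommGroup Gal(zpLayer p k (F k)/ℚ) := fun k =>
    { (inferInstance : Group Gal(zpLayer p k (F k)/ℚ)) with
      mul_comm := fun x y => mul_comm x y }
  exact exists_padic_twist_of_tower (p := p) hp2
    (G := fun k => Gal(zpLayer p k (F k)/ℚ))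
    (fun k => pow_card_gal_zpLayer p k (F k) hp2)
    (fun k => exists_orderOf_gal_zpLayer p k (F k) hp2)
    (fun k => (θ k).comp (intToPadicUnits p)) (fun k => zpArt p k (F k))
    (fun k => surjective_comp_intToPadicUnits (θ k) (hθ k) (hθp k))
    (fun k => zpArt_surjective p k (F k)) π (fun k u => hθπ k _) hπ

/-- **Reciprocity over `ℚ` on the whole cyclotomic `ℤ_p`-tower** (for the twist `c` of
`exists_twist_zpTower`): with `ψ k` the product of the unramified local symbols at `S \ {p}` on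
principal ideles, the twisted global symbol `θ k ^ c * ψ k * artinPrincipal S ℚ_k` kills `ℚˣ`. -/
theorem recip_rat_zpTower (hp2 : p ≠ 2) (S : Finset Nat.Primes)
    (hpS : (⟨p, hp.out⟩ : Nat.Primes) ∈ S)
    (θ : ∀ k, ℚ_[p]ˣ →* Gal(zpLayer p k (F k)/ℚ))
    (hθp : ∀ k (x : ℚ_[p]ˣ), (x : ℚ_[p]) = p → θ k x = 1)
    (ψ : ∀ k, ℚˣ →* Gal(zpLayer p k (F k)/ℚ)) (hψneg : ∀ k, ψ k (-1) = 1)
    (hψS : ∀ k (t : ℕ), t.Prime → (∃ q ∈ S, (q : ℕ) = t) → t ≠ p → ∀ (x : ℚˣ) (u : ℤ_[p]ˣ),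
      (x : ℚ) = t → (u : ℤ_[p]) = t → ψ k x = zpArt p k (F k) u)
    (hψout : ∀ k (t : ℕ), t.Prime → (t = p ∨ ∀ q ∈ S, (q : ℕ) ≠ t) → ∀ x : ℚˣ, (x : ℚ) = t →
      ψ k x = 1)
    (c : ℤ_[p]ˣ) (hc : ∀ k (u : ℤ_[p]ˣ),
      θ k (intToPadicUnits p u) ^ (c : ℤ_[p]).appr k * zpArt p k (F k) u = 1)
    (k : ℕ) (a : ℚˣ) :
    θ k (ratToPadicUnits p a) ^ (c : ℤ_[p]).appr k *
      (ψ k a * artinPrincipal S (zpLayer p k (F k)) a) = 1 :=
  recip_rat_level p k (F k) S hp2 hpS (θ k) (ψ k) (hθp k) (hψneg k) (hψS k) (hψout k) _ (hc k) a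

end Tower

end Fermat.Agent.CFT.H81
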