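import Fermat.Agent.CFT.H93_ZpQbar

/-!
# Generators of the layers of the cyclotomic `ℤ_p`-tower: the class of `1 + p`

Author: helper93 (project CFT, package C-CYCLO-Zp-tower, item (Z9)).
-/

set_option autoImplicit false

namespace Fermat.Agent.CFT.H93

open NumberField IsCyclotomicExtension IntermediateField Ideal Fermat.Agent.S14 ExtCitation

local notation "GQ" => (AlgebraicClosure ℚ ≃ₐ[ℚ] AlgebraicClosure ℚ)
local notation "Qbar" => AlgebraicClosure ℚ

local instance isAlgebraicQg : Algebra.IsAlgebraic ℚ (AlgebraicClosure ℚ) :=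
  AlgebraicClosure.isAlgebraic ℚ
local instance isAlgClosureQg : IsAlgClosure ℚ (AlgebraicClosure ℚ) :=
  ⟨inferInstance, inferInstance⟩
local instance isGaloisQg : IsGalois ℚ (AlgebraicClosure ℚ) := IsSepClosure.isGalois

section Abstract

variable (p : ℕ) [hp : Fact p.Prime] (k : ℕ)

/-- The unit `1 + p` of `ℤ/p^(k+1)`. -/
def onePlusP : (ZMod (p ^ (k + 1)))ˣ :=
  ZMod.unitOfCoprime (1 + p) (Nat.Coprime.pow_right _ (by simp))

lemma coe_onePlusP : ((onePlusP p k : (ZMod (p ^ (k + 1)))ˣ) : ZMod (p ^ (k + 1))) = 1 + p := by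
  unfold onePlusP
  rw [ZMod.coe_unitOfCoprime]
  push_cast
  rfl

lemma orderOf_onePlusP (hp2 : p ≠ 2) : orderOf (onePlusP p k) = p ^ k := by
  rw [← orderOf_injective (Units.coeHom (ZMod (p ^ (k + 1)))) Units.coeHom_injective,
    Units.coeHom_apply, coe_onePlusP]
  exact ZMod.orderOf_one_add_prime hp.out hp2 k

lemma unitsMap_onePlusP {k m : ℕ} (hkm : k ≤ m) :
    ZMod.unitsMap (pow_dvd_pow p (Nat.succ_le_succ hkm)) (onePlusP p m) = onePlusP p k := by
  apply Units.ext
  rw [ZMod.unitsMap_def, Units.coe_map, MonoidHom.coe_coe, coe_onePlusP, coe_onePlusP,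
    map_add, map_one, map_natCast]

variable (F : Type*) [Field F] [NumberField F] [hF : IsCyclotomicExtension {p ^ (k + 1)} ℚ F]

/-- The image of `1 + p` has exact order `p ^ k` in `Gal(ℚ_k/ℚ)`. -/
theorem orderOf_zpArtinHom_onePlusP (hp2 : p ≠ 2) :
    orderOf (zpArtinHom p k F (onePlusP p k)) = p ^ k := by
  have hdvd : orderOf (zpArtinHom p k F (onePlusP p k)) ∣ p ^ k := by
    rw [← orderOf_onePlusP p k hp2]
    exact orderOf_map_dvd _ _
  refine Nat.dvd_antisymm hdvd ?_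
  set o := orderOf (zpArtinHom p k F (onePlusP p k)) with ho
  have h1 : zpArtinHom p k F (onePlusP p k ^ o) = 1 := by
    rw [map_pow, ho, pow_orderOf_eq_one]
  rw [zpArtinHom_eq_one_iff, ← pow_mul] at h1
  have h2 : p ^ k ∣ o * (p - 1) := by
    rw [← orderOf_onePlusP p k hp2]
    exact orderOf_dvd_of_pow_eq_one h1
  have hp1 : 0 < p - 1 := Nat.sub_pos_of_lt hp.out.one_lt
  have hcop : Nat.Coprime (p ^ k) (p - 1) := by
    apply Nat.Coprime.pow_left
    refine (Nat.Prime.coprime_iff_not_dvd hp.out).mpr (fun h => ?_)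
    have := Nat.le_of_dvd hp1 h
    omega
  exact hcop.dvd_of_dvd_mul_right h2

/-- The image of `1 + p` generates `Gal(ℚ_k/ℚ)`. -/
theorem zpowers_zpArtinHom_onePlusP (hp2 : p ≠ 2) :
    Subgroup.zpowers (zpArtinHom p k F (onePlusP p k)) = ⊤ := by
  have : Finite Gal(zpLayer p k F/ℚ) := inferInstance
  apply Subgroup.eq_top_of_card_eq
  rw [Nat.card_zpowers, orderOf_zpArtinHom_onePlusP p k F hp2, IsGalois.card_aut_eq_finrank,
    finrank_zpLayer p k F hp2]

end Abstract

section Res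

variable (p : ℕ) [hp : Fact p.Prime] (k m : ℕ) (F F' : Type*) [Field F] [NumberField F]
  [Field F'] [NumberField F']
  [hF : IsCyclotomicExtension {p ^ (k + 1)} ℚ F] [hF' : IsCyclotomicExtension {p ^ (m + 1)} ℚ F']
  [Algebra F F']

/-- The restriction `Gal(ℚ_m/ℚ) → Gal(ℚ_k/ℚ)` between abstract layers (`F ⊆ F'`). -/
noncomputable def zpLayerRes [IsGalois ℚ F] :
    Gal(zpLayer p m F'/ℚ) →* Gal(zpLayer p k F/ℚ) :=
  letI : Algebra (zpLayer p k F) (zpLayer p m F') := (zpLayerMap p k m F F').toRingHom.toAlgebra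
  AlgEquiv.restrictNormalHom (zpLayer p k F)

/-- **(Z5)** in terms of `zpLayerRes`. -/
theorem zpLayerRes_zpArtinHom (hkm : k ≤ m) [IsGalois ℚ F] (a : (ZMod (p ^ (m + 1)))ˣ) :
    zpLayerRes p k m F F' (zpArtinHom p m F' a) =
      zpArtinHom p k F (ZMod.unitsMap (pow_dvd_pow p (Nat.succ_le_succ hkm)) a) := by
  letI : Algebra (zpLayer p k F) (zpLayer p m F') := (zpLayerMap p k m F F').toRingHom.toAlgebra
  exact restrictNormalHom_zpArtinHom p k m F F' hkm (fun x => rfl) a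

/-- `zpLayerRes` is characterised by compatibility with `zpLayerMap`. -/
theorem zpLayerMap_zpLayerRes [IsGalois ℚ F] (σ : Gal(zpLayer p m F'/ℚ)) (x : zpLayer p k F) :
    zpLayerMap p k m F F' (zpLayerRes p k m F F' σ x) = σ (zpLayerMap p k m F F' x) := by
  letI : Algebra (zpLayer p k F) (zpLayer p m F') := (zpLayerMap p k m F F').toRingHom.toAlgebra
  exact AlgEquiv.restrictNormal_commutes σ (zpLayer p k F) x

end Res

section QbarGen

variable (p : ℕ) [hp : Fact p.Prime] (k : ℕ)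

set_option maxHeartbeats 400000

/-- The cyclotomic character modulo `p^(k+1)` is surjective. -/
theorem chiM_surjective : Function.Surjective (H69.chiM (p ^ (k + 1))) := by
  intro a
  obtain ⟨σ, hσ⟩ := AlgEquiv.restrictNormalHom_surjective Qbar
    ((galZ p k (cycloQbar p k)).symm a)
  refine ⟨σ, ?_⟩
  rw [← galZ_restrictNormalHom_cycloQbar, hσ, MulEquiv.apply_symm_apply]

/-- The cyclotomic characters are compatible with reduction. -/
theorem unitsMap_chiM {k m : ℕ} (hkm : k ≤ m) (σ : GQ) :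
    ZMod.unitsMap (pow_dvd_pow p (Nat.succ_le_succ hkm)) (H69.chiM (p ^ (m + 1)) σ) =
      H69.chiM (p ^ (k + 1)) σ := by
  have hζ := zetaQbar_spec p k
  have hpow : (zetaQbar p k) ^ p ^ (m + 1) = 1 := by
    obtain ⟨c, hc⟩ := pow_dvd_pow p (Nat.succ_le_succ hkm)
    rw [Nat.succ_eq_add_one, Nat.succ_eq_add_one] at hc
    rw [hc, pow_mul, hζ.pow_eq_one, one_pow]
  have h1 := H69.chiM_spec (m := p ^ (m + 1)) σ hpow
  have h2 := H69.chiM_eq_of_apply hζ h1
  apply Units.ext
  rw [h2, ZMod.unitsMap_def, Units.coe_map, MonoidHom.coe_coe, ZMod.castHom_apply,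
    ZMod.natCast_val]

lemma ker_restrictNormalHom_zpQbar :
    (AlgEquiv.restrictNormalHom (zpQbar p k)).ker = zpSubgroup p k := by
  ext σ
  unfold zpSubgroup
  rw [MonoidHom.mem_ker, IntermediateField.mem_fixingSubgroup_iff]
  constructor
  · intro h x hx
    have h1 : (((AlgEquiv.restrictNormalHom (zpQbar p k) σ) ⟨x, hx⟩ : zpQbar p k) : Qbar) =
        σ x := AlgEquiv.restrictNormal_commutes σ (zpQbar p k) ⟨x, hx⟩
    rw [h] at h1
    exact h1.symm
  · intro h
    apply AlgEquiv.ext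
    intro x
    apply Subtype.ext
    have h1 : (((AlgEquiv.restrictNormalHom (zpQbar p k) σ) x : zpQbar p k) : Qbar) =
        σ (x : Qbar) := AlgEquiv.restrictNormal_commutes σ (zpQbar p k) x
    rw [h1, h _ x.2]
    rfl

/-- `G_ℚ / Gal(ℚ̄/ℚ_k) ≃ Gal(ℚ_k/ℚ)`. -/
noncomputable def zpQuotEquiv : GQ ⧸ zpSubgroup p k ≃* Gal(zpQbar p k/ℚ) :=
  (QuotientGroup.quotientMulEquivOfEq (ker_restrictNormalHom_zpQbar p k).symm).trans
  (QuotientGroup.quotientKerEquivOfSurjective (AlgEquiv.restrictNormalHom (zpQbar p k))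
    (AlgEquiv.restrictNormalHom_surjective Qbar))

lemma zpQuotEquiv_mk (σ : GQ) :
    zpQuotEquiv p k (QuotientGroup.mk σ) = AlgEquiv.restrictNormalHom (zpQbar p k) σ := rfl

/-- An element of `G_ℚ` with cyclotomic character `1 + p` modulo `p^(k+1)`. -/
noncomputable def zpSigma : GQ := (chiM_surjective p k (onePlusP p k)).choose

lemma chiM_zpSigma : H69.chiM (p ^ (k + 1)) (zpSigma p k) = onePlusP p k :=
  (chiM_surjective p k (onePlusP p k)).choose_spec

/-- The generator of `G_ℚ / Gal(ℚ̄/ℚ_k)` given by the class of `1 + p`. -/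
noncomputable def zpGen : GQ ⧸ zpSubgroup p k := QuotientGroup.mk (zpSigma p k)

/-- Any `σ` with cyclotomic character `1 + p` modulo `p^(k+1)` represents `zpGen`. -/
theorem zpGen_eq_mk (σ : GQ) (hσ : H69.chiM (p ^ (k + 1)) σ = onePlusP p k) :
    zpGen p k = QuotientGroup.mk σ := by
  unfold zpGen
  rw [QuotientGroup.eq, mem_zpSubgroup_iff, map_mul, map_inv, chiM_zpSigma, hσ, inv_mul_cancel,
    one_pow]

theorem map_zpGen {k m : ℕ} (hkm : k ≤ m) :
    QuotientGroup.map (zpSubgroup p m) (zpSubgroup p k) (MonoidHom.id GQ)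
      (zpSubgroup_anti p hkm) (zpGen p m) = zpGen p k := by
  rw [zpGen_eq_mk p k (zpSigma p m)
    (by rw [← unitsMap_chiM p hkm, chiM_zpSigma, unitsMap_onePlusP p hkm])]
  rfl

/-- `zpGen` corresponds to the Artin symbol-side generator `zpArtinHom (1 + p)`. -/
theorem zpQuotEquiv_zpGen :
    zpQuotEquiv p k (zpGen p k) =
      AlgEquiv.autCongr (zpQbarEquiv p k) (zpArtinHom p k (cycloQbar p k) (onePlusP p k)) := by
  unfold zpGen
  rw [zpQuotEquiv_mk]
  apply AlgEquiv.ext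
  intro x
  apply Subtype.ext
  have h1 : (((AlgEquiv.restrictNormalHom (zpQbar p k) (zpSigma p k)) x : zpQbar p k) : Qbar) =
      (zpSigma p k) (x : Qbar) := AlgEquiv.restrictNormal_commutes _ (zpQbar p k) x
  rw [h1]
  -- the right-hand side
  set y := (zpQbarEquiv p k).symm x with hy
  have hxy : x = zpQbarEquiv p k y := by rw [hy, AlgEquiv.apply_symm_apply]
  have h2 : (AlgEquiv.autCongr (zpQbarEquiv p k)
      (zpArtinHom p k (cycloQbar p k) (onePlusP p k))) x =
      zpQbarEquiv p k ((zpArtinHom p k (cycloQbar p k) (onePlusP p k)) y) := by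
    rw [AlgEquiv.autCongr_apply, AlgEquiv.trans_apply, AlgEquiv.trans_apply]
  rw [h2, coe_zpQbarEquiv, zpArtinHom_apply]
  have h3 : (((AlgEquiv.restrictNormalHom (zpLayer p k (cycloQbar p k))
      ((galZ p k (cycloQbar p k)).symm (onePlusP p k))) y : zpLayer p k (cycloQbar p k)) :
      cycloQbar p k) = ((galZ p k (cycloQbar p k)).symm (onePlusP p k)) (y : cycloQbar p k) :=
    AlgEquiv.restrictNormal_commutes _ (zpLayer p k (cycloQbar p k)) y
  rw [h3]
  have h4 : (galZ p k (cycloQbar p k)).symm (onePlusP p k) =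
      AlgEquiv.restrictNormalHom (cycloQbar p k) (zpSigma p k) := by
    rw [MulEquiv.symm_apply_eq, galZ_restrictNormalHom_cycloQbar, chiM_zpSigma]
  rw [h4]
  have h5 : (((AlgEquiv.restrictNormalHom (cycloQbar p k) (zpSigma p k)) (y : cycloQbar p k) :
      cycloQbar p k) : Qbar) = (zpSigma p k) ((y : cycloQbar p k) : Qbar) :=
    AlgEquiv.restrictNormal_commutes _ (cycloQbar p k) _
  rw [h5, hxy, coe_zpQbarEquiv]

theorem orderOf_zpGen (hp2 : p ≠ 2) : orderOf (zpGen p k) = p ^ k := by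
  rw [← orderOf_injective (zpQuotEquiv p k).toMonoidHom (zpQuotEquiv p k).injective]
  change orderOf (zpQuotEquiv p k (zpGen p k)) = _
  rw [zpQuotEquiv_zpGen,
    ← orderOf_zpArtinHom_onePlusP p k (cycloQbar p k) hp2]
  exact orderOf_injective (AlgEquiv.autCongr (zpQbarEquiv p k)).toMonoidHom
    (AlgEquiv.autCongr (zpQbarEquiv p k)).injective _

theorem zpowers_zpGen (hp2 : p ≠ 2) : Subgroup.zpowers (zpGen p k) = ⊤ := by
  have hfi : (zpSubgroup p k).FiniteIndex := by
    rw [Subgroup.finiteIndex_iff, zpSubgroup_index p k hp2]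
    exact (pow_pos hp.out.pos k).ne'
  have hfin : Finite (GQ ⧸ zpSubgroup p k) := inferInstance
  apply Subgroup.eq_top_of_card_eq
  rw [Nat.card_zpowers, orderOf_zpGen p k hp2, ← Subgroup.index_eq_card, zpSubgroup_index p k hp2]

theorem mem_zpowers_zpGen (hp2 : p ≠ 2) (x : GQ ⧸ zpSubgroup p k) :
    x ∈ Subgroup.zpowers (zpGen p k) := by
  rw [zpowers_zpGen p k hp2]
  trivial

/-- The Artin symbol on `ℚ_k ⊆ ℚ̄` read in `G_ℚ / Gal(ℚ̄/ℚ_k)`. -/
theorem zpQuotEquiv_symm_artin (n : ℕ) (hn : Nat.Coprime n p) (σ : GQ)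
    (hσ : ((H69.chiM (p ^ (k + 1)) σ : (ZMod (p ^ (k + 1)))ˣ) : ZMod (p ^ (k + 1))) = n) :
    (zpQuotEquiv p k).symm (H27.artin (zpQbar p k) (Ideal.span {(n : 𝓞 ℚ)})) =
      QuotientGroup.mk σ := by
  rw [MulEquiv.symm_apply_eq, zpQuotEquiv_mk, artin_zpQbar_eq p k n hn σ hσ]

end QbarGen

end Fermat.Agent.CFT.H93
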