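import Mathlib
import Fermat.Agent.CFT.H81_RecipRat
import Fermat.Agent.CFT.H81_ArtinSurj
import Fermat.Agent.CFT.H93_ZpGen
import Fermat.Agent.CFT.H23_CDescent
import Fermat.Agent.CFT.H27_ArtinDivMaps
import Fermat.Agent.CFT.H79_SecondBridgeMain
import Fermat.Agent.CFT.H79_SecondBridgeInt

set_option autoImplicit false
set_option linter.unusedSectionVars false

/-!
# The explicit global symbol of an abelian `p`-cyclotomic extension of `ℚ`

(CFT / layer C / package `C-RECIP-tower`, helper81.)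

`L/ℚ` an abelian extension (a number field type), unramified outside `S ∋ p`, together with a
"cyclotomic character" `art : ℤ_pˣ →* Gal(L/ℚ)` such that `Frob_t = art t` for the primes
`t ∉ S`, `art (-1) = 1` and `art` is trivial on `1 + p^m ℤ_p`
(for `L = ℚ_k`, the `k`-th layer of the cyclotomic `ℤ_p`-extension: `art = zpArt p k F`,
`m = k + 1`).  On helper23's hybrid idele group `IdS S ℚ = ∏_{q ∈ S} (ℚ ⊗ ℚ_q)ˣ × Div_S` we write
down the global norm residue symbol EXPLICITLY: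

`thetaRat (j, D) = art (unit part of j_p)⁻¹ * ∏_{q ∈ S, q ≠ p} art(q) ^ v_q(j_q) * artinDiv S L D`

and prove, WITHOUT any local class field theory:

* `thetaRat_diag` (R1): reciprocity, `Θ (diag a) = 1` for `a : ℚˣ`;
* `thetaRat_div` (R3): `Θ (1, D) = artinDiv S L D`; `thetaRat_surjective`;
* `thetaRat_eq_one_of_baseChange_eq` (R2): `Θ` kills the Galois norms from `IdS S L`
  (weak approximation + (R1) + continuity of the explicit local symbols);
* `thetaCS`, `thetaCS_eq_one_of_baseChange_eq`: the same on `CS S ℚ`;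
* `thetaRat_ideleAtP`, `dvd_of_baseChange_pow_eq_norm`: the (Ord) input of the `ℤ_p`-tower;
* the instance `L = zpLayer p k F`: `isUnramOutside_zpLayer`, `zpArt_neg_one`,
  `zpArt_eq_one_of_sub_one_mem`, `thetaRat_zpArt_diag`, `orderOf_zpArt_onePlusPUnit`.
-/

namespace Fermat.Agent.CFT.H81

open NumberField Fermat.Agent.CFT.H93 Fermat.Agent.CFT.H27 Fermat.Agent.CFT.H23
open scoped IsMulCommutative TensorProduct

noncomputable section

section PadicParts

variable (q : ℕ) [hq : Fact q.Prime]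

/-- The valuation `ℚ_qˣ → ℤ` as a monoid hom. -/
def padicVal : ℚ_[q]ˣ →* Multiplicative ℤ where
  toFun x := Multiplicative.ofAdd (x : ℚ_[q]).valuation
  map_one' := by simp
  map_mul' x y := by
    rw [Units.val_mul, Padic.valuation_mul x.ne_zero y.ne_zero]
    rfl

theorem padicVal_apply (x : ℚ_[q]ˣ) :
    padicVal q x = Multiplicative.ofAdd (x : ℚ_[q]).valuation := rfl

theorem norm_mul_zpow_neg_valuation (x : ℚ_[q]ˣ) :
    ‖(x : ℚ_[q]) * (q : ℚ_[q]) ^ (-(x : ℚ_[q]).valuation)‖ = 1 := by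
  have hpr : (q : ℝ) ≠ 0 := by exact_mod_cast hq.out.ne_zero
  rw [norm_mul, Padic.norm_eq_zpow_neg_valuation x.ne_zero, Padic.norm_p_zpow, neg_neg,
    ← zpow_add₀ hpr, neg_add_cancel, zpow_zero]

/-- The unit part `x ↦ x / q ^ v(x)` as a function. -/
def padicUnitPartFun (x : ℚ_[q]ˣ) : ℤ_[q]ˣ := PadicInt.mkUnits (norm_mul_zpow_neg_valuation q x)

theorem coe_padicUnitPartFun (x : ℚ_[q]ˣ) :
    (((padicUnitPartFun q x : ℤ_[q]ˣ) : ℤ_[q]) : ℚ_[q]) =
      (x : ℚ_[q]) * (q : ℚ_[q]) ^ (-(x : ℚ_[q]).valuation) :=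
  PadicInt.mkUnits_eq _

/-- The unit part `x ↦ x / q ^ v(x)`, `ℚ_qˣ → ℤ_qˣ`, as a monoid hom. -/
def padicUnitPart : ℚ_[q]ˣ →* ℤ_[q]ˣ where
  toFun x := padicUnitPartFun q x
  map_one' := by
    apply Units.ext
    apply Subtype.ext
    rw [coe_padicUnitPartFun]
    simp
  map_mul' x y := by
    have hp0 : (q : ℚ_[q]) ≠ 0 := by exact_mod_cast hq.out.ne_zero
    apply Units.ext
    apply Subtype.ext
    rw [Units.val_mul, PadicInt.coe_mul, coe_padicUnitPartFun, coe_padicUnitPartFun,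
      coe_padicUnitPartFun, Units.val_mul, Padic.valuation_mul x.ne_zero y.ne_zero, neg_add,
      zpow_add₀ hp0]
    ring

theorem coe_padicUnitPart (x : ℚ_[q]ˣ) :
    (((padicUnitPart q x : ℤ_[q]ˣ) : ℤ_[q]) : ℚ_[q]) =
      (x : ℚ_[q]) * (q : ℚ_[q]) ^ (-(x : ℚ_[q]).valuation) :=
  coe_padicUnitPartFun q x

theorem valuation_eq_zero_of_norm_eq_one {x : ℚ_[q]} (h1 : ‖x‖ = 1) : x.valuation = 0 := by
  have h2 := Padic.norm_eq_zpow_neg_valuation (x := x)
    (by rw [← norm_ne_zero_iff, h1]; exact one_ne_zero)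
  rw [h1] at h2
  have hq1 : (1 : ℝ) < q := by exact_mod_cast hq.out.one_lt
  have := zpow_right_injective₀ (a := (q : ℝ)) (by positivity) hq1.ne'
    (h2.symm.trans (zpow_zero _).symm)
  simpa using this

theorem valuation_natCast_prime_of_ne {t : ℕ} (ht : t.Prime) (hne : q ≠ t) :
    ((t : ℕ) : ℚ_[q]).valuation = 0 := by
  rw [Padic.valuation_natCast]
  have : padicValNat q t = 0 := by
    rw [padicValNat.eq_zero_iff]
    right; right
    intro h
    exact hne ((Nat.prime_dvd_prime_iff_eq hq.out ht).1 h)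
  rw [this]
  rfl

theorem padicUnitPart_intToPadicUnits (u : ℤ_[q]ˣ) :
    padicUnitPart q (intToPadicUnits q u) = u := by
  apply Units.ext
  apply Subtype.ext
  rw [coe_padicUnitPart, coe_intToPadicUnits]
  have : ((u : ℤ_[q]) : ℚ_[q]).valuation = 0 := by
    have h1 : ‖((u : ℤ_[q]) : ℚ_[q])‖ = 1 := PadicInt.isUnit_iff.1 u.isUnit
    have h2 := Padic.norm_eq_zpow_neg_valuation (x := ((u : ℤ_[q]) : ℚ_[q]))
      (by rw [← norm_ne_zero_iff, h1]; exact one_ne_zero)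
    rw [h1] at h2
    have hq1 : (1 : ℝ) < q := by exact_mod_cast hq.out.one_lt
    have := zpow_right_injective₀ (a := (q : ℝ)) (by positivity) hq1.ne' (h2.symm.trans (zpow_zero _).symm)
    simpa using this
  rw [this, neg_zero, zpow_zero, mul_one]

theorem padicVal_intToPadicUnits (u : ℤ_[q]ˣ) : padicVal q (intToPadicUnits q u) = 1 := by
  rw [padicVal_apply, coe_intToPadicUnits]
  have h1 : ‖((u : ℤ_[q]) : ℚ_[q])‖ = 1 := PadicInt.isUnit_iff.1 u.isUnit
  have h2 := Padic.norm_eq_zpow_neg_valuation (x := ((u : ℤ_[q]) : ℚ_[q]))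
    (by rw [← norm_ne_zero_iff, h1]; exact one_ne_zero)
  rw [h1] at h2
  have hq1 : (1 : ℝ) < q := by exact_mod_cast hq.out.one_lt
  have := zpow_right_injective₀ (a := (q : ℝ)) (by positivity) hq1.ne' (h2.symm.trans (zpow_zero _).symm)
  have h3 : ((u : ℤ_[q]) : ℚ_[q]).valuation = 0 := by simpa using this
  rw [h3]
  rfl

end PadicParts

section Symbol

variable (p : ℕ) [hp : Fact p.Prime] {S : Finset Nat.Primes}
  {L : Type*} [Field L] [NumberField L] [IsGalois ℚ L] [IsMulCommutative Gal(L/ℚ)]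
  (art : ℤ_[p]ˣ →* Gal(L/ℚ))

/-- `(ℚ ⊗ ℚ_q)ˣ ≃ ℚ_qˣ`. -/
def locRatUnits (q : Nat.Primes) : (Loc ℚ q)ˣ ≃* ℚ_[q]ˣ :=
  Units.mapEquiv (Algebra.TensorProduct.lid ℚ ℚ_[q]).toMulEquiv

theorem coe_locRatUnits (q : Nat.Primes) (x : (Loc ℚ q)ˣ) :
    ((locRatUnits q x : ℚ_[q]ˣ) : ℚ_[q]) = Algebra.TensorProduct.lid ℚ ℚ_[q] (x : Loc ℚ q) := rfl

theorem locRatUnits_toLocUnits (q : Nat.Primes) (a : ℚˣ) :
    locRatUnits q (toLocUnits ℚ q a) = ratToPadicUnits q a := by
  apply Units.ext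
  rw [coe_locRatUnits, coe_ratToPadicUnits]
  show Algebra.TensorProduct.lid ℚ ℚ_[q] (algebraMap ℚ (Loc ℚ q) (a : ℚ)) = _
  rw [Algebra.TensorProduct.algebraMap_apply, Algebra.TensorProduct.lid_tmul]
  simp

/-- The explicit local symbol at `p` attached to a "cyclotomic character"
`art : ℤ_pˣ →* Gal(L/ℚ)`: `x ↦ art (unit part of x)⁻¹`. -/
def thetaP : ℚ_[p]ˣ →* Gal(L/ℚ) :=
  art.comp ((padicUnitPart p).comp invMonoidHom)

theorem thetaP_apply (x : ℚ_[p]ˣ) : thetaP p art x = art (padicUnitPart p x⁻¹) := rfl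

theorem thetaP_intToPadicUnits (u : ℤ_[p]ˣ) :
    thetaP p art (intToPadicUnits p u) * art u = 1 := by
  rw [thetaP_apply, ← map_inv, padicUnitPart_intToPadicUnits, ← map_mul, inv_mul_cancel, map_one]

theorem thetaP_intToPadicUnits' (u : ℤ_[p]ˣ) :
    thetaP p art (intToPadicUnits p u) = (art u)⁻¹ :=
  eq_inv_of_mul_eq_one_left (thetaP_intToPadicUnits p art u)

theorem thetaP_prime (x : ℚ_[p]ˣ) (hx : (x : ℚ_[p]) = p) : thetaP p art x = 1 := by
  have hp0 : (p : ℚ_[p]) ≠ 0 := by exact_mod_cast hp.out.ne_zero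
  have h1 : padicUnitPart p x = 1 := by
    apply Units.ext
    apply Subtype.ext
    rw [coe_padicUnitPart, hx, Padic.valuation_p, zpow_neg, zpow_one, mul_inv_cancel₀ hp0]
    rfl
  rw [thetaP_apply, map_inv, h1, inv_one, map_one]

/-- The explicit (unramified) local symbol at `q ≠ p`: `x ↦ art(q) ^ v_q(x)` (`= Frob_q ^ v_q(x)`);
trivial by convention for `q = p`. -/
def thetaAway (q : Nat.Primes) : ℚ_[q]ˣ →* Gal(L/ℚ) :=
  if h : (q : ℕ).Coprime p then
    (zpowersHom Gal(L/ℚ) (art (natUnit h))).comp (padicVal q)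
  else 1

theorem thetaAway_of_coprime (q : Nat.Primes) (h : (q : ℕ).Coprime p) (x : ℚ_[q]ˣ) :
    thetaAway p art q x = art (natUnit h) ^ (x : ℚ_[q]).valuation := by
  rw [thetaAway, dif_pos h]
  rfl

theorem thetaAway_of_not_coprime (q : Nat.Primes) (h : ¬ (q : ℕ).Coprime p) (x : ℚ_[q]ˣ) :
    thetaAway p art q x = 1 := by
  rw [thetaAway, dif_neg h]
  rfl

theorem thetaAway_of_valuation_eq_zero (q : Nat.Primes) (x : ℚ_[q]ˣ)
    (hx : (x : ℚ_[q]).valuation = 0) : thetaAway p art q x = 1 := by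
  by_cases h : (q : ℕ).Coprime p
  · rw [thetaAway_of_coprime p art q h, hx, zpow_zero]
  · exact thetaAway_of_not_coprime p art q h x

/-- `p` as an element of `Nat.Primes`. -/
abbrev pPrime : Nat.Primes := ⟨p, hp.out⟩

/-- The `p`-component of an `S`-idele of `ℚ`, as an element of `ℚ_pˣ`. -/
def compP (hpS : pPrime p ∈ S) : JS S ℚ →* ℚ_[p]ˣ where
  toFun j := locRatUnits (pPrime p) (j ⟨pPrime p, hpS⟩)
  map_one' := by simp
  map_mul' x y := by simp

/-- The product of the unramified symbols at the `q ∈ S`, `q ≠ p`. -/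
def thetaAwayProd : JS S ℚ →* Gal(L/ℚ) where
  toFun j := ∏ q : S, thetaAway p art q.1 (locRatUnits q.1 (j q))
  map_one' := by simp
  map_mul' x y := by
    simp only [Pi.mul_apply, map_mul, Finset.prod_mul_distrib]

theorem thetaAwayProd_apply (j : JS S ℚ) :
    thetaAwayProd p art j = ∏ q : S, thetaAway p art q.1 (locRatUnits q.1 (j q)) := rfl

/-- The `S`-part of the explicit global symbol. -/
def thetaJ (hpS : pPrime p ∈ S) : JS S ℚ →* Gal(L/ℚ) :=
  ((thetaP p art).comp (compP p hpS)) * thetaAwayProd p art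

theorem thetaJ_apply (hpS : pPrime p ∈ S) (j : JS S ℚ) :
    thetaJ p art hpS j = thetaP p art (compP p hpS j) * thetaAwayProd p art j := rfl

/-- **The explicit global symbol** of an abelian extension `L/ℚ` with a cyclotomic character
`art : ℤ_pˣ →* Gal(L/ℚ)`, on the hybrid idele group `IdS S ℚ`. -/
def thetaRat (hpS : pPrime p ∈ S) : IdS S ℚ →* Gal(L/ℚ) :=
  (thetaJ p art hpS).coprod (artinDiv S L)

theorem thetaRat_apply (hpS : pPrime p ∈ S) (x : IdS S ℚ) :
    thetaRat p art hpS x = thetaP p art (compP p hpS x.1) * thetaAwayProd p art x.1 *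
        artinDiv S L x.2 := rfl

/-- (R3) On divisors the symbol is the Artin map. -/
theorem thetaRat_div (hpS : pPrime p ∈ S) (D : Multiplicative (DivS S ℚ)) :
    thetaRat p art hpS (1, D) = artinDiv S L D := by
  rw [thetaRat_apply]
  simp

/-- On `S`-ideles the symbol is `thetaJ`. -/
theorem thetaRat_JS (hpS : pPrime p ∈ S) (j : JS S ℚ) :
    thetaRat p art hpS (j, 1) = thetaJ p art hpS j := by
  rw [thetaRat_apply, thetaJ_apply]
  simp

theorem compP_diagJ (hpS : pPrime p ∈ S) (a : ℚˣ) :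
    compP p hpS (diagJ S ℚ a) = ratToPadicUnits p a :=
  locRatUnits_toLocUnits (pPrime p) a

theorem thetaAwayProd_diagJ (a : ℚˣ) :
    thetaAwayProd p art (diagJ S ℚ a) =
      ∏ q : S, thetaAway p art q.1 (ratToPadicUnits q.1 a) := by
  show ∏ q : S, thetaAway p art q.1 (locRatUnits q.1 (toLocUnits ℚ q.1 a)) = _
  exact Finset.prod_congr rfl fun q _ => by rw [locRatUnits_toLocUnits]

theorem thetaRat_diag_apply (hpS : pPrime p ∈ S) (a : ℚˣ) :
    thetaRat p art hpS (diag S ℚ a) = thetaP p art (ratToPadicUnits p a) *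
      (∏ q : S, thetaAway p art q.1 (ratToPadicUnits q.1 a)) * artinPrincipal S L a := by
  rw [thetaRat_apply]
  show thetaP p art (compP p hpS (diagJ S ℚ a)) * thetaAwayProd p art (diagJ S ℚ a) *
    artinDiv S L (divS S ℚ a) = _
  rw [compP_diagJ, thetaAwayProd_diagJ]
  rfl

theorem natCast_ratCast_padic (q : ℕ) [Fact q.Prime] (t : ℕ) :
    (((t : ℕ) : ℚ) : ℚ_[q]) = ((t : ℕ) : ℚ_[q]) := by
  push_cast; rfl

/-- The product of the unramified symbols on a prime number `t`. -/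
theorem prod_thetaAway_prime (t : ℕ) (ht : t.Prime) (x : ℚˣ) (hx : (x : ℚ) = t) :
    (∏ q : S, thetaAway p art q.1 (ratToPadicUnits q.1 x)) =
      if h : t.Coprime p ∧ ∃ q ∈ S, (q : ℕ) = t then art (natUnit h.1) else 1 := by
  have hval : ∀ q : S, (q.1 : ℕ) ≠ t → thetaAway p art q.1 (ratToPadicUnits q.1 x) = 1 := by
    intro q hqt
    apply thetaAway_of_valuation_eq_zero
    rw [coe_ratToPadicUnits, hx, natCast_ratCast_padic]
    exact valuation_natCast_prime_of_ne _ ht hqt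
  split_ifs with h
  · obtain ⟨hcop, q, hq, rfl⟩ := h
    rw [Finset.prod_eq_single (⟨q, hq⟩ : S)]
    · rw [thetaAway_of_coprime p art q hcop, coe_ratToPadicUnits, hx,
        natCast_ratCast_padic, Padic.valuation_p, zpow_one]
    · intro r _ hr
      apply hval
      intro h
      apply hr
      apply Subtype.ext
      apply Subtype.ext
      exact h
    · intro h
      exact absurd (Finset.mem_univ _) h
  · refine Finset.prod_eq_one fun q _ => ?_
    by_cases hqt : (q.1 : ℕ) = t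
    · apply thetaAway_of_not_coprime
      intro hc
      exact h ⟨by rwa [hqt] at hc, q.1, q.2, hqt⟩
    · exact hval q hqt

/-- **(R1) Reciprocity over `ℚ` for the explicit symbol**: if `art (-1) = 1` and the Artin symbol
of every prime `t ∉ S` is `art t`, then `Θ` kills the principal ideles. -/
theorem thetaRat_diag (hpS : pPrime p ∈ S) (hneg : art (-1) = 1)
    (hart : ∀ t : ℕ, t.Prime → (∀ q ∈ S, (q : ℕ) ≠ t) → ∀ (x : ℚˣ) (u : ℤ_[p]ˣ),
      (x : ℚ) = t → (u : ℤ_[p]) = t → artinPrincipal S L x = art u) (a : ℚˣ) :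
    thetaRat p art hpS (diag S ℚ a) = 1 := by
  classical
  have key := monoidHom_eq_one_of_primes ((thetaRat p art hpS).comp (diag S ℚ)) ?_ ?_ a
  · exact key
  · -- `-1`
    rw [MonoidHom.comp_apply, thetaRat_diag_apply, artinPrincipal_neg_one, mul_one]
    have h1 : ratToPadicUnits p (-1) = intToPadicUnits p (-1) := by
      apply Units.ext
      simp
    rw [h1, thetaP_intToPadicUnits', hneg, inv_one, one_mul]
    refine Finset.prod_eq_one fun q _ => ?_
    apply thetaAway_of_valuation_eq_zero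
    apply valuation_eq_zero_of_norm_eq_one
    rw [coe_ratToPadicUnits]
    simp
  · -- primes
    intro t ht x hx
    rw [MonoidHom.comp_apply, thetaRat_diag_apply, prod_thetaAway_prime p art t ht x hx]
    by_cases htp : t = p
    · subst htp
      rw [thetaP_prime t art _ (by simp [hx]),
        artinPrincipal_prime_of_mem S L (pPrime t) hpS x hx, dif_neg, one_mul, one_mul]
      rintro ⟨hc, -⟩
      exact hp.out.ne_one ((Nat.coprime_self t).1 hc)
    · have hcop : t.Coprime p := (Nat.coprime_primes ht hp.out).2 htp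
      have h1 : ratToPadicUnits p x = intToPadicUnits p (natUnit hcop) := by
        apply Units.ext
        simp [hx]
      rw [h1, thetaP_intToPadicUnits']
      by_cases htS : ∃ q ∈ S, (q : ℕ) = t
      · rw [dif_pos ⟨hcop, htS⟩]
        obtain ⟨q, hq, hqt⟩ := htS
        rw [artinPrincipal_prime_of_mem S L q hq x (by rw [hx, hqt]), mul_one, inv_mul_cancel]
      · rw [dif_neg (fun h => htS h.2), mul_one]
        have htS' : ∀ q ∈ S, (q : ℕ) ≠ t := fun q hq h => htS ⟨q, hq, h⟩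
        rw [hart t ht htS' x (natUnit hcop) hx rfl, inv_mul_cancel]

end Symbol

section GaloisGeneral

open Fermat.Agent.CFT.H79 Fermat.Agent.CFT.H42 IsDedekindDomain

variable (S : Finset Nat.Primes) (K F : Type*) [Field K] [NumberField K] [Field F] [NumberField F]
  [Algebra K F]

/-- `Λ_q = 𝓞 F ⊗ ℤ_q` is stable under `Gal(F/K)`. -/
theorem smul_mem_intLoc (q : Nat.Primes) (σ : F ≃ₐ[K] F) {z : Loc F q} (hz : z ∈ intLoc F q) :
    σ • z ∈ intLoc F q := by
  refine intLoc_induction F q (P := fun z => σ • z ∈ intLoc F q) ?_ ?_ ?_ ?_ z hz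
  · rw [smul_zero]; exact (intLoc F q).zero_mem
  · intro b c
    have : σ • (((b : 𝓞 F) : F) ⊗ₜ[ℚ] ((c : ℤ_[q]) : ℚ_[q]) : Loc F q) =
        (((σ • b : 𝓞 F) : 𝓞 F) : F) ⊗ₜ[ℚ] ((c : ℤ_[q]) : ℚ_[q]) := rfl
    rw [this]
    exact tmul_mem_intLoc F q _ c
  · intro x y hx hy
    rw [smul_add]
    exact (intLoc F q).add_mem hx hy
  · intro x hx
    rw [smul_neg]
    exact (intLoc F q).neg_mem hx

theorem smul_mem_congrSubgroup (q : Nat.Primes) (N : ℕ) (σ : F ≃ₐ[K] F) {w : (Loc F q)ˣ}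
    (hw : w ∈ congrSubgroup (intLoc F q) N) : σ • w ∈ congrSubgroup (intLoc F q) N := by
  obtain ⟨⟨z, hz, hwz⟩, ⟨z', hz', hwz'⟩⟩ := hw
  refine ⟨⟨σ • z, smul_mem_intLoc K F q σ hz, ?_⟩, ⟨σ • z', smul_mem_intLoc K F q σ hz', ?_⟩⟩
  · rw [H42.coe_smul_units, hwz, H42.smul_eq_tensorAut, H42.smul_eq_tensorAut, map_add, map_one,
      map_mul, map_natCast]
  · rw [← smul_inv', H42.coe_smul_units, hwz', H42.smul_eq_tensorAut, H42.smul_eq_tensorAut,
      map_add, map_one, map_mul, map_natCast]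

theorem smul_mem_congrJS (N : ℕ) (σ : F ≃ₐ[K] F) {w : JS S F} (hw : w ∈ congrJS S F N) :
    σ • w ∈ congrJS S F N := by
  rw [mem_congrJS_iff] at hw ⊢
  exact fun q => smul_mem_congrSubgroup K F q.1 N σ (hw q)

theorem prod_smul_mem_congrJS [Fintype (F ≃ₐ[K] F)] (N : ℕ) {w : JS S F}
    (hw : w ∈ congrJS S F N) : ∏ σ : F ≃ₐ[K] F, σ • w ∈ congrJS S F N :=
  Subgroup.prod_mem _ fun σ _ => smul_mem_congrJS S K F N σ hw

/-- The norm on divisors is invariant under `Gal(F/K)`. -/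
theorem normDiv_smul (σ : F ≃ₐ[K] F) (d : DivS S F) :
    normDiv S K (σ • d) = normDiv S K d := by
  have key : (normDiv S K (E := F)).comp (DistribSMul.toAddMonoidHom (DivS S F) σ) =
      normDiv S K (E := F) := by
    apply Finsupp.addHom_ext
    intro w n
    rw [AddMonoidHom.comp_apply]
    show normDiv S K (σ • Finsupp.single w n) = _
    rw [Finsupp.comapSMul_single, normDiv_single, normDiv_single]
    have h1 : underOutside S K (σ • w) = underOutside S K w :=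
      PrimesOutside.under_smul S K F σ w
    have h2 : (σ • w).1.asIdeal.inertiaDeg (𝓞 K) = w.1.asIdeal.inertiaDeg (𝓞 K) := by
      rw [coe_smul_primesOutside, asIdeal_smul]
      have : SMulCommClass (F ≃ₐ[K] F) (𝓞 K) (𝓞 F) := ⟨fun τ r x => by
        apply Subtype.ext
        show τ ((r • x : 𝓞 F) : F) = ((r • (τ • x) : 𝓞 F) : F)
        rw [Algebra.smul_def, Algebra.smul_def]
        show τ ((algebraMap K F (r : K)) * (x : F)) = (algebraMap K F (r : K)) * τ (x : F)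
        rw [map_mul, τ.commutes]⟩
      exact Ideal.inertiaDeg_smul (𝓞 K) (q := w.1.asIdeal) σ
    rw [h1, h2]
  exact DFunLike.congr_fun key d

/-- A divisor of `K` whose base change is a Galois norm is a norm. -/
theorem eq_normDiv_of_baseChange_eq_sum [IsGalois K F] [Fintype (F ≃ₐ[K] F)] (D : DivS S K)
    (d : DivS S F) (h : DivS.baseChange S K F D = ∑ σ : F ≃ₐ[K] F, σ • d) :
    D = normDiv S K d := by
  have := finiteDimensional_of_numberField K F
  have h1 := congrArg (normDiv S K) h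
  rw [normDiv_baseChange, map_sum, Finset.sum_congr rfl fun σ _ => normDiv_smul S K F σ d,
    Finset.sum_const, Finset.card_univ, ← Nat.card_eq_fintype_card,
    IsGalois.card_aut_eq_finrank] at h1
  have hn : Module.finrank K F ≠ 0 := Module.finrank_pos.ne'
  exact smul_right_injective (DivS S K) hn h1

/-- The norm of a unit. -/
def normUnits : Fˣ →* Kˣ := Units.map (Algebra.norm K : F →* K)

theorem prod_smul_diag [IsGalois K F] [Fintype (F ≃ₐ[K] F)] (z : Fˣ) :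
    ∏ σ : F ≃ₐ[K] F, σ • diag S F z = IdS.baseChange S K F (diag S K (normUnits K F z)) := by
  have := finiteDimensional_of_numberField K F
  rw [IdS.baseChange_diag, Finset.prod_congr rfl fun σ _ => (diag_smul S F K σ z).symm,
    ← map_prod]
  congr 1
  apply Units.ext
  rw [Units.coe_map, MonoidHom.coe_coe]
  show _ = algebraMap K F (Algebra.norm K (z : F))
  rw [Algebra.norm_eq_prod_automorphisms, Units.coe_prod]
  exact Finset.prod_congr (Finset.ext fun _ => by simp) fun σ _ => rfl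

end GaloisGeneral

section Congruence

open Fermat.Agent.CFT.H79 Fermat.Agent.CFT.H42

/-- A `q`-adic number `≡ 1 mod M ℤ_q` with `q ∣ M` is a unit of `ℤ_q`. -/
theorem exists_unit_of_congr (q : ℕ) [hq : Fact q.Prime] (t : ℚ_[q]ˣ) (M : ℕ) (hqM : q ∣ M)
    (c : ℤ_[q]) (ht : (t : ℚ_[q]) = 1 + (M : ℚ_[q]) * (c : ℚ_[q])) :
    ∃ u : ℤ_[q]ˣ, (u : ℤ_[q]) = 1 + (M : ℤ_[q]) * c ∧ t = intToPadicUnits q u := by
  have hnon : -((M : ℤ_[q]) * c) ∈ nonunits ℤ_[q] := by
    rw [PadicInt.mem_nonunits, norm_neg, norm_mul]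
    have h1 : ‖(M : ℤ_[q])‖ < 1 := (PadicInt.norm_natCast_lt_one_iff).2 hqM
    calc ‖(M : ℤ_[q])‖ * ‖c‖ ≤ ‖(M : ℤ_[q])‖ * 1 :=
          mul_le_mul_of_nonneg_left (PadicInt.norm_le_one c) (norm_nonneg _)
      _ < 1 := by rwa [mul_one]
  have hu : IsUnit (1 + (M : ℤ_[q]) * c) := by
    have := IsLocalRing.isUnit_one_sub_self_of_mem_nonunits _ hnon
    rwa [sub_neg_eq_add] at this
  refine ⟨hu.unit, rfl, ?_⟩
  apply Units.ext
  rw [coe_intToPadicUnits, ht]
  show _ = ((1 + (M : ℤ_[q]) * c : ℤ_[q]) : ℚ_[q])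
  push_cast
  rfl

/-- Descent of a congruence from `L ⊗ ℚ_q` to `ℚ_q`: if the image of `j ∈ (ℚ ⊗ ℚ_q)ˣ` in
`(L ⊗ ℚ_q)ˣ` is `≡ 1 mod M Λ_q`, then `j ≡ 1 mod M ℤ_q`. -/
theorem exists_padicInt_of_locMap_mem_congrSubgroup (L : Type*) [Field L] [NumberField L]
    (q : Nat.Primes) (M : ℕ) (hM : M ≠ 0) (j : (Loc ℚ q)ˣ)
    (hj : Units.map (locMap ℚ L q : Loc ℚ q →* Loc L q) j ∈ congrSubgroup (intLoc L q) M) :
    ∃ c : ℤ_[q], ((locRatUnits q j : ℚ_[q]ˣ) : ℚ_[q]) = 1 + (M : ℚ_[q]) * (c : ℚ_[q]) := by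
  obtain ⟨⟨z, hz, hwz⟩, -⟩ := hj
  set t : ℚ_[q] := Algebra.TensorProduct.lid ℚ ℚ_[q] (j : Loc ℚ q) with ht
  have hj1 : (j : Loc ℚ q) = (1 : ℚ) ⊗ₜ[ℚ] t := by
    rw [← Algebra.TensorProduct.lid_symm_apply, ht, AlgEquiv.symm_apply_apply]
  rw [Units.coe_map, MonoidHom.coe_coe, hj1, locMap_tmul, map_one] at hwz
  have hMq : (M : ℚ_[q]) ≠ 0 := by exact_mod_cast hM
  set c₀ : ℚ_[q] := (t - 1) / M with hc₀
  have hMc : (M : ℚ_[q]) * c₀ = t - 1 := by rw [hc₀]; field_simp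
  -- `z = 1 ⊗ c₀`
  have hMunit : IsUnit ((M : ℕ) : Loc L q) := by
    have : ((M : ℕ) : Loc L q) = algebraMap ℚ (Loc L q) (M : ℚ) := by simp
    rw [this]
    exact (IsUnit.mk0 (M : ℚ) (by exact_mod_cast hM)).map _
  have hz1 : z = (1 : L) ⊗ₜ[ℚ] c₀ := by
    apply hMunit.mul_left_cancel
    rw [natCast_mul_tmul, hMc, TensorProduct.tmul_sub, ← Algebra.TensorProduct.one_def, hwz]
    ring
  -- integrality
  obtain ⟨P, hPm, hP⟩ := isIntegralElem_of_mem_intLoc L q z hz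
  have hinj : Function.Injective
      (Algebra.TensorProduct.includeRight : ℚ_[q] →ₐ[ℚ] L ⊗[ℚ] ℚ_[q]) :=
    Algebra.TensorProduct.includeRight_injective (algebraMap ℚ L).injective
  have hP2 : Polynomial.eval₂ (PadicInt.Coe.ringHom (p := q)) c₀ P = 0 := by
    apply hinj
    rw [map_zero, ← hP, hz1]
    have := Polynomial.hom_eval₂ P (PadicInt.Coe.ringHom (p := q))
      ((Algebra.TensorProduct.includeRight : ℚ_[q] →ₐ[ℚ] L ⊗[ℚ] ℚ_[q]) : ℚ_[q] →+* L ⊗[ℚ] ℚ_[q]) c₀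
    exact this
  have hint : IsIntegral ℤ_[q] c₀ := ⟨P, hPm, hP2⟩
  obtain ⟨c, hc⟩ := IsIntegrallyClosed.isIntegral_iff.1 hint
  refine ⟨c, ?_⟩
  rw [coe_locRatUnits, ← ht]
  have : ((c : ℤ_[q]) : ℚ_[q]) = c₀ := hc
  rw [this, hMc]
  ring

end Congruence

section NormsDie

open Fermat.Agent.CFT.H79 Fermat.Agent.CFT.H42

variable (p : ℕ) [hp : Fact p.Prime] {S : Finset Nat.Primes}
  {L : Type*} [Field L] [NumberField L] [IsGalois ℚ L] [IsMulCommutative Gal(L/ℚ)]
  (art : ℤ_[p]ˣ →* Gal(L/ℚ))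

theorem thetaAway_eq_one_of_congr (q : Nat.Primes) (t : ℚ_[q]ˣ) (M : ℕ) (hqM : (q : ℕ) ∣ M)
    (c : ℤ_[q]) (ht : (t : ℚ_[q]) = 1 + (M : ℚ_[q]) * (c : ℚ_[q])) :
    thetaAway p art q t = 1 := by
  obtain ⟨u, -, rfl⟩ := exists_unit_of_congr q t M hqM c ht
  apply thetaAway_of_valuation_eq_zero
  apply valuation_eq_zero_of_norm_eq_one
  rw [coe_intToPadicUnits]
  exact PadicInt.isUnit_iff.1 u.isUnit

theorem thetaP_eq_one_of_congr (m : ℕ) (hm : m ≠ 0)
    (hcont : ∀ u : ℤ_[p]ˣ, (u : ℤ_[p]) - 1 ∈ Ideal.span {(p : ℤ_[p]) ^ m} → art u = 1)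
    (t : ℚ_[p]ˣ) (M : ℕ) (hM : p ^ m ∣ M)
    (c : ℤ_[p]) (ht : (t : ℚ_[p]) = 1 + (M : ℚ_[p]) * (c : ℚ_[p])) :
    thetaP p art t = 1 := by
  obtain ⟨u, hu, rfl⟩ := exists_unit_of_congr p t M
    (dvd_trans (dvd_pow_self p hm) hM) c ht
  have h1 : art u = 1 := by
    apply hcont
    rw [hu, add_sub_cancel_left]
    obtain ⟨d, rfl⟩ := hM
    rw [Ideal.mem_span_singleton]
    exact ⟨(d : ℤ_[p]) * c, by push_cast; ring⟩
  rw [thetaP_intToPadicUnits', h1, inv_one]

/-- **(R2) The explicit symbol kills the Galois norms from `L`.**  If `art` is continuous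
(trivial on `1 + p^m ℤ_p`), reciprocity holds (`hrec`, see `thetaRat_diag`) and `L/ℚ` is unramified
outside `S`, then: whenever the base change of `x : IdS S ℚ` to `L` is the Galois norm
`∏ σ, σ • y` of some `y : IdS S L`, `Θ x = 1`.  (Weak approximation + reciprocity + continuity
of the explicit local symbols; no local class field theory.) -/
theorem thetaRat_eq_one_of_baseChange_eq (hpS : pPrime p ∈ S) (hL : IsUnramOutside S ℚ L)
    (m : ℕ) (hm : m ≠ 0)
    (hcont : ∀ u : ℤ_[p]ˣ, (u : ℤ_[p]) - 1 ∈ Ideal.span {(p : ℤ_[p]) ^ m} → art u = 1)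
    (hrec : ∀ a : ℚˣ, thetaRat p art hpS (diag S ℚ a) = 1)
    (x : IdS S ℚ) (y : IdS S L)
    (h : IdS.baseChange S ℚ L x = ∏ σ : Gal(L/ℚ), σ • y) :
    thetaRat p art hpS x = 1 := by
  classical
  set N : ℕ := ∏ r ∈ S, (r : ℕ) with hN
  have hN0 : N ≠ 0 := Finset.prod_ne_zero_iff.2 fun r _ => r.2.ne_zero
  have hqN : ∀ q ∈ S, ((q : Nat.Primes) : ℕ) ∣ N := fun q hq =>
    Finset.dvd_prod_of_mem (fun r : Nat.Primes => (r : ℕ)) hq
  obtain ⟨z, w, hw, hyw⟩ := weakApprox_JS S L N hN0 hqN m (Nat.one_le_iff_ne_zero.2 hm) y.1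
  -- divide out the principal part
  set y' : IdS S L := y / diag S L z with hy'
  set x' : IdS S ℚ := x / diag S ℚ (normUnits ℚ L z) with hx'
  have hy'1 : y'.1 = w := by
    rw [hy', Prod.fst_div, hyw]
    show diagJ S L z * w / diagJ S L z = w
    rw [mul_div_cancel_left]
  have hbc : IdS.baseChange S ℚ L x' = ∏ σ : Gal(L/ℚ), σ • y' := by
    rw [hx', map_div, h, ← prod_smul_diag, ← Finset.prod_div_distrib]
    exact Finset.prod_congr rfl fun σ _ => (smul_div' σ y (diag S L z)).symm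
  have hθ : thetaRat p art hpS x = thetaRat p art hpS x' := by
    rw [hx', map_div, hrec, div_one]
  rw [hθ, thetaRat_apply]
  -- the divisor part
  have hD : artinDiv S L x'.2 = 1 := by
    have h2 : DivS.baseChange S ℚ L (Multiplicative.toAdd x'.2) =
        ∑ σ : Gal(L/ℚ), σ • Multiplicative.toAdd y'.2 := by
      have := congrArg (fun t : IdS S L => Multiplicative.toAdd t.2) hbc
      simp only [IdS.baseChange_snd] at this
      rw [this, Prod.snd_prod, toAdd_prod]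
      rfl
    have h3 := eq_normDiv_of_baseChange_eq_sum S ℚ L _ _ h2
    have h4 : x'.2 = Multiplicative.ofAdd (normDiv S ℚ (Multiplicative.toAdd y'.2)) := by
      rw [← h3]; rfl
    rw [h4]
    exact artinDiv_normDiv hL _
  -- the `S`-part
  have hJ : ∀ q : S, ∃ c : ℤ_[q.1], ((locRatUnits q.1 (x'.1 q) : ℚ_[q.1]ˣ) : ℚ_[q.1]) =
      1 + ((N ^ m : ℕ) : ℚ_[q.1]) * (c : ℚ_[q.1]) := by
    intro q
    apply exists_padicInt_of_locMap_mem_congrSubgroup L q.1 (N ^ m) (pow_ne_zero _ hN0)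
    have h2 : JS.baseChange S ℚ L x'.1 = ∏ σ : Gal(L/ℚ), σ • w := by
      have := congrArg Prod.fst hbc
      rw [IdS.baseChange_fst, Prod.fst_prod] at this
      rw [this, ← hy'1]
      rfl
    have h3 := prod_smul_mem_congrJS S ℚ L (N ^ m) hw
    rw [← h2, mem_congrJS_iff] at h3
    exact h3 q
  have hA : thetaAwayProd p art x'.1 = 1 := by
    rw [thetaAwayProd_apply]
    refine Finset.prod_eq_one fun q _ => ?_
    obtain ⟨c, hc⟩ := hJ q
    exact thetaAway_eq_one_of_congr p art q.1 _ (N ^ m)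
      (dvd_trans (hqN q.1 q.2) (dvd_pow_self N hm)) c hc
  have hP : thetaP p art (compP p hpS x'.1) = 1 := by
    obtain ⟨c, hc⟩ := hJ ⟨pPrime p, hpS⟩
    exact thetaP_eq_one_of_congr p art m hm hcont _ (N ^ m)
      (pow_dvd_pow_of_dvd (hqN (pPrime p) hpS) m) c hc
  rw [hP, hA, hD, one_mul, one_mul]

end NormsDie

section ClassGroup

variable (p : ℕ) [hp : Fact p.Prime] {S : Finset Nat.Primes}
  {L : Type*} [Field L] [NumberField L] [IsGalois ℚ L] [IsMulCommutative Gal(L/ℚ)]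
  (art : ℤ_[p]ˣ →* Gal(L/ℚ))

/-- The explicit symbol is onto (already on divisors). -/
theorem thetaRat_surjective (hpS : pPrime p ∈ S) (hL : IsUnramOutside S ℚ L) :
    Function.Surjective (thetaRat p art hpS) := by
  intro σ
  obtain ⟨D, hD⟩ := artinDiv_surjective (S := S) (K := ℚ) L hL σ
  exact ⟨(1, D), by rw [thetaRat_div, hD]⟩

/-- The explicit symbol on the hybrid idele class group `CS S ℚ`, given reciprocity. -/
def thetaCS (hpS : pPrime p ∈ S) (hrec : ∀ a : ℚˣ, thetaRat p art hpS (diag S ℚ a) = 1) :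
    CS S ℚ →* Gal(L/ℚ) :=
  QuotientGroup.lift _ (thetaRat p art hpS) (by
    rintro _ ⟨a, rfl⟩
    exact hrec a)

theorem thetaCS_toCS (hpS : pPrime p ∈ S) (hrec : ∀ a : ℚˣ, thetaRat p art hpS (diag S ℚ a) = 1)
    (x : IdS S ℚ) : thetaCS p art hpS hrec (toCS S ℚ x) = thetaRat p art hpS x := rfl

theorem thetaCS_surjective (hpS : pPrime p ∈ S) (hL : IsUnramOutside S ℚ L)
    (hrec : ∀ a : ℚˣ, thetaRat p art hpS (diag S ℚ a) = 1) :
    Function.Surjective (thetaCS p art hpS hrec) := by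
  intro σ
  obtain ⟨x, hx⟩ := thetaRat_surjective p art hpS hL σ
  exact ⟨toCS S ℚ x, hx⟩

/-- **(R2) on classes**: a class of `CS S ℚ` whose base change to `L` is a Galois norm
`∏ σ, σ • c'` is killed by the symbol. -/
theorem thetaCS_eq_one_of_baseChange_eq (hpS : pPrime p ∈ S) (hL : IsUnramOutside S ℚ L)
    (m : ℕ) (hm : m ≠ 0)
    (hcont : ∀ u : ℤ_[p]ˣ, (u : ℤ_[p]) - 1 ∈ Ideal.span {(p : ℤ_[p]) ^ m} → art u = 1)
    (hrec : ∀ a : ℚˣ, thetaRat p art hpS (diag S ℚ a) = 1)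
    (c : CS S ℚ) (c' : CS S L)
    (h : CS.baseChange S ℚ L c = ∏ σ : Gal(L/ℚ), σ • c') :
    thetaCS p art hpS hrec c = 1 := by
  classical
  have hS : S.Nonempty := ⟨_, hpS⟩
  induction c using QuotientGroup.induction_on with
  | H x =>
  induction c' using QuotientGroup.induction_on with
  | H y =>
  show thetaRat p art hpS x = 1
  -- `baseChange x = (∏ σ • y) * diag b`
  have h1 : toCS S L (IdS.baseChange S ℚ L x) = toCS S L (∏ σ : Gal(L/ℚ), σ • y) := by
    rw [map_prod]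
    exact h
  have h2 : (∏ σ : Gal(L/ℚ), σ • y)⁻¹ * IdS.baseChange S ℚ L x ∈ (diag S L).range :=
    QuotientGroup.eq.1 h1.symm
  obtain ⟨b, hb⟩ := h2
  -- `b` is Galois invariant, hence rational
  have hbfix : ∀ τ : Gal(L/ℚ), τ • b = b := by
    intro τ
    apply diag_injective S L hS
    rw [diag_smul, hb]
    have key : τ • ((∏ σ : Gal(L/ℚ), σ • y)⁻¹ * IdS.baseChange S ℚ L x) =
        (τ • ∏ σ : Gal(L/ℚ), σ • y)⁻¹ * τ • IdS.baseChange S ℚ L x :=
      (smul_mul' τ _ _).trans (congrArg (· * τ • IdS.baseChange S ℚ L x) (smul_inv' τ _))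
    have key2 : τ • (∏ σ : Gal(L/ℚ), σ • y) = ∏ σ : Gal(L/ℚ), σ • y := by
      have h1 : τ • (∏ σ : Gal(L/ℚ), σ • y) = ∏ σ : Gal(L/ℚ), τ • σ • y :=
        map_prod (MulDistribMulAction.toMonoidHom (IdS S L) τ) (fun σ => σ • y) Finset.univ
      rw [h1]
      exact Fintype.prod_equiv (Equiv.mulLeft τ) _ _ fun σ => (mul_smul τ σ y).symm
    rw [key2, smul_IdS_baseChange] at key
    exact key
  obtain ⟨a, ha⟩ := mem_range_algebraMap_units_of_fixed ℚ L b hbfix
  have h3 : IdS.baseChange S ℚ L (x / diag S ℚ a) = ∏ σ : Gal(L/ℚ), σ • y := by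
    rw [map_div, IdS.baseChange_diag, ha, hb, div_eq_iff_eq_mul, mul_inv_cancel_left]
  have h4 := thetaRat_eq_one_of_baseChange_eq p art hpS hL m hm hcont hrec _ y h3
  rwa [map_div, hrec, div_one] at h4

end ClassGroup

section SpecialIdele

variable (p : ℕ) [hp : Fact p.Prime] {S : Finset Nat.Primes}
  {L : Type*} [Field L] [NumberField L] [IsGalois ℚ L] [IsMulCommutative Gal(L/ℚ)]
  (art : ℤ_[p]ˣ →* Gal(L/ℚ))

/-- The `S`-idele of `ℚ` with component `x : ℚ_pˣ` at `p` and `1` elsewhere. -/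
def ideleAtP (hpS : pPrime p ∈ S) : ℚ_[p]ˣ →* IdS S ℚ :=
  (MonoidHom.inl (JS S ℚ) (Multiplicative (DivS S ℚ))).comp
    ((MonoidHom.mulSingle (fun q : S => (Loc ℚ q.1)ˣ) ⟨pPrime p, hpS⟩).comp
      (locRatUnits (pPrime p)).symm.toMonoidHom)

theorem ideleAtP_fst_self (hpS : pPrime p ∈ S) (x : ℚ_[p]ˣ) :
    (ideleAtP p hpS x).1 ⟨pPrime p, hpS⟩ = (locRatUnits (pPrime p)).symm x := by
  show Pi.mulSingle (M := fun q : S => (Loc ℚ q.1)ˣ) (⟨pPrime p, hpS⟩ : S)
    ((locRatUnits (pPrime p)).symm x) ⟨pPrime p, hpS⟩ = _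
  rw [Pi.mulSingle_eq_same]

theorem ideleAtP_fst_of_ne (hpS : pPrime p ∈ S) (x : ℚ_[p]ˣ) (q : S)
    (hq : q ≠ ⟨pPrime p, hpS⟩) : (ideleAtP p hpS x).1 q = 1 := by
  show Pi.mulSingle (M := fun q : S => (Loc ℚ q.1)ˣ) (⟨pPrime p, hpS⟩ : S)
    ((locRatUnits (pPrime p)).symm x) q = _
  rw [Pi.mulSingle_eq_of_ne hq]

theorem ideleAtP_snd (hpS : pPrime p ∈ S) (x : ℚ_[p]ˣ) : (ideleAtP p hpS x).2 = 1 := rfl

/-- The symbol of an idele concentrated at `p` is the local symbol at `p`. -/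
theorem thetaRat_ideleAtP (hpS : pPrime p ∈ S) (x : ℚ_[p]ˣ) :
    thetaRat p art hpS (ideleAtP p hpS x) = thetaP p art x := by
  rw [thetaRat_apply, ideleAtP_snd, map_one, mul_one]
  have h1 : compP p hpS (ideleAtP p hpS x).1 = x := by
    show locRatUnits (pPrime p) ((ideleAtP p hpS x).1 ⟨pPrime p, hpS⟩) = x
    rw [ideleAtP_fst_self, MulEquiv.apply_symm_apply]
  have h2 : thetaAwayProd p art (ideleAtP p hpS x).1 = 1 := by
    rw [thetaAwayProd_apply]
    refine Finset.prod_eq_one fun q _ => ?_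
    by_cases hq : q = ⟨pPrime p, hpS⟩
    · apply thetaAway_of_not_coprime
      rw [hq]
      intro hc
      exact hp.out.ne_one ((Nat.coprime_self p).1 hc)
    · rw [ideleAtP_fst_of_ne p hpS x q hq, map_one, map_one]
  rw [h1, h2, mul_one]

/-- **(Ord), finite level, abstract form.**  If `art u₀` has order `n₀` and the `n`-th power of the
class of the idele `(u₀ at p, 1 elsewhere)` becomes a Galois norm in `CS S L`, then `n₀ ∣ n`. -/
theorem dvd_of_baseChange_pow_eq_norm (hpS : pPrime p ∈ S) (hL : IsUnramOutside S ℚ L)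
    (m : ℕ) (hm : m ≠ 0)
    (hcont : ∀ u : ℤ_[p]ˣ, (u : ℤ_[p]) - 1 ∈ Ideal.span {(p : ℤ_[p]) ^ m} → art u = 1)
    (hrec : ∀ a : ℚˣ, thetaRat p art hpS (diag S ℚ a) = 1)
    (u₀ : ℤ_[p]ˣ) (n : ℕ) (c' : CS S L)
    (h : CS.baseChange S ℚ L (toCS S ℚ (ideleAtP p hpS (intToPadicUnits p u₀)) ^ n) =
      ∏ σ : Gal(L/ℚ), σ • c') :
    orderOf (art u₀) ∣ n := by
  have h1 := thetaCS_eq_one_of_baseChange_eq p art hpS hL m hm hcont hrec _ c' h
  rw [map_pow, thetaCS_toCS, thetaRat_ideleAtP, thetaP_intToPadicUnits', inv_pow,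
    inv_eq_one] at h1
  exact orderOf_dvd_of_pow_eq_one h1

end SpecialIdele

section ZpLayer

variable (p : ℕ) [hp : Fact p.Prime] (k : ℕ) (F : Type*) [Field F] [NumberField F]
  [hF : IsCyclotomicExtension {p ^ (k + 1)} ℚ F] {S : Finset Nat.Primes}

/-- The layers are unramified outside `S ∋ p`, in the vocabulary of `H27_ArtinDiv`. -/
theorem isUnramOutside_zpLayer (hp2 : p ≠ 2) (hpS : pPrime p ∈ S) :
    IsUnramOutside S ℚ (zpLayer p k F) := by
  intro 𝔓 _ h𝔓 hS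
  exact isUnramifiedAt_zpLayer p k F hp2 𝔓 h𝔓 (hS (pPrime p) hpS)

theorem zpArt_neg_one (hp2 : p ≠ 2) : zpArt p k F (-1) = 1 := by
  rw [zpArt_apply]
  have : redUnits p (k + 1) (-1) = -1 := by
    apply Units.ext
    rw [coe_redUnits]
    simp
  rw [this, zpArtinHom_neg_one p k F hp2]

theorem zpArt_eq_one_of_sub_one_mem (u : ℤ_[p]ˣ)
    (hu : (u : ℤ_[p]) - 1 ∈ Ideal.span {(p : ℤ_[p]) ^ (k + 1)}) : zpArt p k F u = 1 := by
  rw [zpArt_apply, (redUnits_eq_one_iff (k + 1) u).2 hu, map_one]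

/-- Reciprocity over `ℚ` for the explicit symbol of the `k`-th layer of the cyclotomic
`ℤ_p`-extension. -/
theorem thetaRat_zpArt_diag (hp2 : p ≠ 2) (hpS : pPrime p ∈ S) (a : ℚˣ) :
    thetaRat p (zpArt p k F) hpS (diag S ℚ a) = 1 :=
  thetaRat_diag p (zpArt p k F) hpS (zpArt_neg_one p k F hp2)
    (fun t ht htS x u hx hu => artinPrincipal_zpLayer_prime p k F S hp2 hpS t ht htS x hx u hu) a

/-- `1 + p` as a unit of `ℤ_p`. -/
def onePlusPUnit : ℤ_[p]ˣ := natUnit (n := 1 + p) (by simp)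

theorem orderOf_zpArt_onePlusPUnit (hp2 : p ≠ 2) :
    orderOf (zpArt p k F (onePlusPUnit p)) = p ^ k := by
  rw [onePlusPUnit, zpArt_natUnit]
  exact orderOf_zpArtinHom_onePlusP p k F hp2

end ZpLayer

end

end Fermat.Agent.CFT.H81
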