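import Mathlib
import Fermat.Agent.CFT.H81_ThetaRat
import Fermat.Agent.CFT.H93_ZpGen

set_option autoImplicit false
set_option linter.unusedSectionVars false

/-!
# The explicit global symbol of the layers `ℚ_k ⊆ ℚ̄` of the cyclotomic `ℤ_p`-extension

(CFT / layer C / package `C-RECIP-tower`, helper81.)

Instance of `H81_ThetaRat` for helper93's `zpQbar p k : IntermediateField ℚ ℚ̄`
(`H93_ZpQbar`, `H93_ZpGen`): the cyclotomic character
`artQbar p k : ℤ_pˣ →* Gal(zpQbar p k/ℚ)`, `u ↦ σ|_{ℚ_k}` for any `σ ∈ G_ℚ` with cyclotomic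
character `u mod p^(k+1)`; its properties (`artQbar_neg_one`, `artQbar_eq_one_of_sub_one_mem`,
`artinPrincipal_zpQbar_prime`, `isUnramOutside_zpQbar`, `orderOf_artQbar_onePlusPUnit`), hence

* `thetaRat_artQbar_diag` : reciprocity over `ℚ` for the explicit symbol of `ℚ_k/ℚ`;
* `thetaQbar p k hp2 hpS : CS S ℚ →* Gal(zpQbar p k/ℚ)`, onto, killing the Galois norms from
  `CS S ℚ_k` (`thetaQbar_eq_one_of_baseChange_eq`);
* `pow_dvd_of_baseChange_pow_eq_norm` : **(Ord)** at finite level: if the `m`-th power of the class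
  of the idele `(1 + p at p, 1 elsewhere)` is a norm from `CS S ℚ_k`, then `p ^ k ∣ m`.
-/

namespace Fermat.Agent.CFT.H81

open NumberField Fermat.Agent.CFT.H93 Fermat.Agent.CFT.H27 Fermat.Agent.CFT.H23
open scoped IsMulCommutative

local notation "GQ" => (AlgebraicClosure ℚ ≃ₐ[ℚ] AlgebraicClosure ℚ)
local notation "Qbar" => AlgebraicClosure ℚ

noncomputable section

variable (p : ℕ) [hp : Fact p.Prime] (k : ℕ)

theorem restrictNormalHom_zpQbar_eq_one_of_chiM (σ : GQ)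
    (h : (H69.chiM (p ^ (k + 1)) σ) ^ (p - 1) = 1) :
    AlgEquiv.restrictNormalHom (zpQbar p k) σ = 1 := by
  have h1 : σ ∈ zpSubgroup p k := (mem_zpSubgroup_iff p k σ).2 h
  rwa [← ker_restrictNormalHom_zpQbar, MonoidHom.mem_ker] at h1

/-- `(ℤ/p^(k+1))ˣ →* Gal(ℚ_k/ℚ)`, `chiM σ ↦ σ|_{ℚ_k}`. -/
def artModQbar : (ZMod (p ^ (k + 1)))ˣ →* Gal(zpQbar p k/ℚ) :=
  (H69.chiM (p ^ (k + 1))).liftOfRightInverse (Function.surjInv (chiM_surjective p k))
    (Function.rightInverse_surjInv (chiM_surjective p k))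
    ⟨AlgEquiv.restrictNormalHom (zpQbar p k), fun σ hσ => by
      rw [MonoidHom.mem_ker] at hσ ⊢
      exact restrictNormalHom_zpQbar_eq_one_of_chiM p k σ (by rw [hσ, one_pow])⟩

theorem artModQbar_chiM (σ : GQ) :
    artModQbar p k (H69.chiM (p ^ (k + 1)) σ) = AlgEquiv.restrictNormalHom (zpQbar p k) σ :=
  MonoidHom.liftOfRightInverse_comp_apply _ _ _ _ σ

/-- The cyclotomic character `ℤ_pˣ →* Gal(ℚ_k/ℚ)` for `ℚ_k ⊆ ℚ̄`. -/
def artQbar : ℤ_[p]ˣ →* Gal(zpQbar p k/ℚ) :=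
  (artModQbar p k).comp (redUnits p (k + 1))

theorem artQbar_apply (u : ℤ_[p]ˣ) : artQbar p k u = artModQbar p k (redUnits p (k + 1) u) := rfl

theorem artQbar_eq_restrict (u : ℤ_[p]ˣ) (σ : GQ)
    (hσ : H69.chiM (p ^ (k + 1)) σ = redUnits p (k + 1) u) :
    artQbar p k u = AlgEquiv.restrictNormalHom (zpQbar p k) σ := by
  rw [artQbar_apply, ← hσ, artModQbar_chiM]

theorem artQbar_eq_one_of_sub_one_mem (u : ℤ_[p]ˣ)
    (hu : (u : ℤ_[p]) - 1 ∈ Ideal.span {(p : ℤ_[p]) ^ (k + 1)}) : artQbar p k u = 1 := by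
  rw [artQbar_apply, (redUnits_eq_one_iff (k + 1) u).2 hu, map_one]

theorem artQbar_neg_one (hp2 : p ≠ 2) : artQbar p k (-1) = 1 := by
  obtain ⟨σ, hσ⟩ := chiM_surjective p k (redUnits p (k + 1) (-1))
  rw [artQbar_eq_restrict p k (-1) σ hσ]
  apply restrictNormalHom_zpQbar_eq_one_of_chiM
  rw [hσ, ← map_pow]
  have : ((-1 : ℤ_[p]ˣ)) ^ (p - 1) = 1 := by
    have hodd : Odd p := hp.out.odd_of_ne_two hp2
    have heven : Even (p - 1) := Nat.Odd.sub_odd hodd odd_one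
    exact heven.neg_one_pow
  rw [this, map_one]

variable {S : Finset Nat.Primes}

theorem isUnramOutside_zpQbar (hpS : pPrime p ∈ S) : IsUnramOutside S ℚ (zpQbar p k) := by
  intro 𝔓 _ h𝔓 hS
  exact isUnramifiedAt_zpQbar p k 𝔓 h𝔓 (hS (pPrime p) hpS)

/-- The Artin symbol of the principal divisor of a prime `t ∉ S` on `ℚ_k ⊆ ℚ̄`. -/
theorem artinPrincipal_zpQbar_prime (hpS : pPrime p ∈ S)
    (t : ℕ) (ht : t.Prime) (htS : ∀ q ∈ S, (q : ℕ) ≠ t) (x : ℚˣ) (hx : (x : ℚ) = t)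
    (u : ℤ_[p]ˣ) (hu : (u : ℤ_[p]) = t) :
    artinPrincipal S (zpQbar p k) x = artQbar p k u := by
  have htp : t ≠ p := fun h => htS _ hpS h.symm
  have hcop : t.Coprime p := (Nat.coprime_primes ht hp.out).2 htp
  have hn : ∀ q ∈ S, t.Coprime (q : ℕ) := fun q hq =>
    (Nat.coprime_primes ht q.2).2 (fun h => htS q hq h.symm)
  obtain ⟨σ, hσ⟩ := chiM_surjective p k (redUnits p (k + 1) u)
  rw [artinPrincipal_natCast S (zpQbar p k) t ht.ne_zero hn x hx,
    artQbar_eq_restrict p k u σ hσ]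
  apply artin_zpQbar_eq p k t hcop σ
  rw [hσ, coe_redUnits, hu, map_natCast]

/-- **Reciprocity over `ℚ`** for the explicit symbol of `ℚ_k ⊆ ℚ̄`. -/
theorem thetaRat_artQbar_diag (hp2 : p ≠ 2) (hpS : pPrime p ∈ S) (a : ℚˣ) :
    thetaRat p (artQbar p k) hpS (diag S ℚ a) = 1 :=
  thetaRat_diag p (artQbar p k) hpS (artQbar_neg_one p k hp2)
    (fun t ht htS x u hx hu => artinPrincipal_zpQbar_prime p k hpS t ht htS x hx u hu) a

theorem orderOf_artQbar_onePlusPUnit (hp2 : p ≠ 2) :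
    orderOf (artQbar p k (onePlusPUnit p)) = p ^ k := by
  have h1 : redUnits p (k + 1) (onePlusPUnit p) = onePlusP p k := by
    apply Units.ext
    rw [coe_redUnits, onePlusPUnit, coe_natUnit, map_natCast, coe_onePlusP]
    push_cast
    rfl
  rw [artQbar_eq_restrict p k (onePlusPUnit p) (zpSigma p k) (by rw [chiM_zpSigma, h1]),
    ← zpQuotEquiv_mk, ← orderOf_zpGen p k hp2]
  exact orderOf_injective (zpQuotEquiv p k).toMonoidHom (zpQuotEquiv p k).injective _

/-- The explicit symbol of `ℚ_k/ℚ` on the hybrid idele class group of `ℚ`. -/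
def thetaQbar (hp2 : p ≠ 2) (hpS : pPrime p ∈ S) : CS S ℚ →* Gal(zpQbar p k/ℚ) :=
  thetaCS p (artQbar p k) hpS (thetaRat_artQbar_diag p k hp2 hpS)

theorem thetaQbar_toCS (hp2 : p ≠ 2) (hpS : pPrime p ∈ S) (x : IdS S ℚ) :
    thetaQbar p k hp2 hpS (toCS S ℚ x) = thetaRat p (artQbar p k) hpS x := rfl

theorem thetaQbar_surjective (hp2 : p ≠ 2) (hpS : pPrime p ∈ S) :
    Function.Surjective (thetaQbar p k hp2 hpS (S := S)) :=
  thetaCS_surjective p (artQbar p k) hpS (isUnramOutside_zpQbar p k hpS) _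

/-- The Galois norm `∏ σ, σ • c'` on `CS S ℚ_k`, written with the explicit action map
`H23.smulCS` (definitionally `σ • c'`; stated this way because instance search for `•` on the
concrete field `↥(zpQbar p k)` is slow). -/
def galNormQbar (c' : CS S (zpQbar p k)) : CS S (zpQbar p k) :=
  ∏ σ : Gal(zpQbar p k/ℚ), smulCS S (zpQbar p k) ℚ σ c'

set_option synthInstance.maxHeartbeats 400000 in
set_option maxHeartbeats 1000000 in
theorem galNormQbar_eq (c' : CS S (zpQbar p k)) :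
    galNormQbar p k c' = ∏ σ : Gal(zpQbar p k/ℚ), (σ • c' : CS S (zpQbar p k)) := rfl

/-- **The symbol of `ℚ_k/ℚ` kills the norms from `CS S ℚ_k`.** -/
theorem thetaQbar_eq_one_of_baseChange_eq (hp2 : p ≠ 2) (hpS : pPrime p ∈ S)
    (c : CS S ℚ) (c' : CS S (zpQbar p k))
    (h : CS.baseChange S ℚ (zpQbar p k) c = galNormQbar p k c') :
    thetaQbar p k hp2 hpS c = 1 :=
  thetaCS_eq_one_of_baseChange_eq p (artQbar p k) hpS (isUnramOutside_zpQbar p k hpS) (k + 1)
    (Nat.succ_ne_zero k) (artQbar_eq_one_of_sub_one_mem p k) _ c c' h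

/-- The idele class of `ℚ` with component `1 + p` at `p` and `1` elsewhere: the invariant
element `a` of the `ℤ_p`-tower system. -/
def towerElt (hpS : pPrime p ∈ S) : CS S ℚ :=
  toCS S ℚ (ideleAtP p hpS (intToPadicUnits p (onePlusPUnit p)))

theorem thetaQbar_towerElt (hp2 : p ≠ 2) (hpS : pPrime p ∈ S) :
    thetaQbar p k hp2 hpS (towerElt p hpS) = (artQbar p k (onePlusPUnit p))⁻¹ := by
  rw [towerElt, thetaQbar_toCS, thetaRat_ideleAtP, thetaP_intToPadicUnits']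

theorem orderOf_thetaQbar_towerElt (hp2 : p ≠ 2) (hpS : pPrime p ∈ S) :
    orderOf (thetaQbar p k hp2 hpS (towerElt p hpS)) = p ^ k := by
  rw [thetaQbar_towerElt, orderOf_inv, orderOf_artQbar_onePlusPUnit p k hp2]

/-- **(Ord) at finite level.**  If the `m`-th power of the tower element becomes a Galois norm in
`CS S ℚ_k`, then `p ^ k ∣ m`. -/
theorem pow_dvd_of_baseChange_pow_eq_norm (hp2 : p ≠ 2) (hpS : pPrime p ∈ S) (m : ℕ)
    (c' : CS S (zpQbar p k))
    (h : CS.baseChange S ℚ (zpQbar p k) (towerElt p hpS ^ m) = galNormQbar p k c') :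
    p ^ k ∣ m := by
  have h1 := thetaQbar_eq_one_of_baseChange_eq p k hp2 hpS _ c' h
  rw [map_pow] at h1
  rw [← orderOf_thetaQbar_towerElt p k hp2 hpS]
  exact orderOf_dvd_of_pow_eq_one h1

end

end Fermat.Agent.CFT.H81
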