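import Mathlib
import Fermat.Agent.CFT.H81_ThetaQbar
import Fermat.Agent.CFT.H24_CGlobalX1
import Fermat.Agent.CFT.H45_TopDivDescent
import Fermat.Agent.CFT.H77_TopTower

set_option autoImplicit false
set_option linter.unusedSectionVars false

/-!
# (O4): the hypothesis (Ord) of the `ℤ_p`-tower system, in helper24's finite-level shape

(CFT / layer C / package `C-RECIP-tower`, helper81.)

* `ratIncl`, `csInclRat S : CS S ℚ →* CSTop S` (`smul_csInclRat`: Galois invariant),
  `csIncl_baseChange_rat`, `incl_baseChange_rat L c : L.incl (CS.baseChange S ℚ L.F c) = csInclRat S c`;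
* `towerTop p hpS : CSTop S` := image of `towerElt p hpS` (`smul_towerTop`);
* `zpGaloisLevel p n hpS : H24.GaloisLevel S` (`zpGaloisLevel_subgroup`);
* `finiteOrd_towerTop p hp2 hpS : H24.FiniteOrd p S (towerTop p hpS)`  **(O4)**;
* `nonempty_pClassFormation_of_key` : (X1) from the degree-`p` layers and (Key) for `towerTop`.
-/

namespace Fermat.Agent.CFT.H81

open NumberField Fermat.Agent.CFT.H93 Fermat.Agent.CFT.H27 Fermat.Agent.CFT.H23

local notation "GQ" => (AlgebraicClosure ℚ ≃ₐ[ℚ] AlgebraicClosure ℚ)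
local notation "Qbar" => AlgebraicClosure ℚ

noncomputable section

variable (S : Finset Nat.Primes)

/-- `ℚ → ℚ̄`, as a `ℚ`-algebra homomorphism for the CANONICAL `ℚ`-algebra structure
`DivisionRing.toRatAlgebra` on `ℚ` (the one used for abstract number fields). -/
def ratIncl : @AlgHom ℚ ℚ Qbar _ _ _ DivisionRing.toRatAlgebra DivisionRing.toRatAlgebra :=
  @RingHom.toRatAlgHom ℚ Qbar _ _ DivisionRing.toRatAlgebra DivisionRing.toRatAlgebra
    (algebraMap ℚ Qbar)

theorem ratIncl_apply (x : ℚ) : ratIncl x = algebraMap ℚ Qbar x := rfl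

theorem fieldRange_ratIncl : ratIncl.fieldRange = ⊥ := by
  ext x
  constructor
  · rintro ⟨y, rfl⟩
    exact IntermediateField.algebraMap_mem _ y
  · intro hx
    obtain ⟨y, rfl⟩ := IntermediateField.mem_bot.1 hx
    exact ⟨y, rfl⟩

theorem isUnramifiedOutside_ratIncl : ratIncl.fieldRange.IsUnramifiedOutside S := by
  rw [fieldRange_ratIncl]
  exact IntermediateField.isUnramifiedOutside_bot S

/-- The comparison map `CS S ℚ → CSTop S`. -/
def csInclRat : CS S ℚ →* H77.CSTop S :=
  H77.csIncl (isUnramifiedOutside_ratIncl S) (H45.divDescent (isUnramifiedOutside_ratIncl S))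

theorem smul_csInclRat (γ : GQ) (c : CS S ℚ) : γ • csInclRat S c = csInclRat S c := by
  apply H77.smul_csIncl_of_mem_fixer
  rw [fieldRange_ratIncl, IntermediateField.fixingSubgroup_bot]
  trivial

/-- **Tower compatibility** with the base `ℚ`. -/
theorem csIncl_baseChange_rat {F : Type} [Field F] [NumberField F] {ι : F →ₐ[ℚ] Qbar}
    (hF : ι.fieldRange.IsUnramifiedOutside S) (D : H77.DivDescent S ι) (c : CS S ℚ) :
    H77.csIncl hF D (CS.baseChange S ℚ F c) = csInclRat S c := by
  apply H77.csIncl_baseChange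
  intro x
  rw [ratIncl_apply]
  exact ι.commutes x

theorem incl_baseChange_rat (L : H24.GaloisLevel S) (c : CS S ℚ) :
    L.incl (CS.baseChange S ℚ L.F c) = csInclRat S c :=
  csIncl_baseChange_rat S L.unram L.D c

variable {S} (p : ℕ) [hp : Fact p.Prime]

/-- The invariant element `a` of the `ℤ_p`-tower system at the top: the image of the idele class
`(1 + p at p, 1 elsewhere)` of `ℚ`. -/
def towerTop (hpS : pPrime p ∈ S) : H77.CSTop S := csInclRat S (towerElt p hpS)

theorem smul_towerTop (hpS : pPrime p ∈ S) (γ : GQ) : γ • towerTop p hpS = towerTop p hpS :=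
  smul_csInclRat S γ _

theorem isUnramifiedOutside_valRat_zpQbar (n : ℕ) (hpS : pPrime p ∈ S) :
    (H24.valRat (zpQbar p n)).fieldRange.IsUnramifiedOutside S := by
  rw [H24.fieldRange_valRat]
  exact isUnramifiedOutside_zpQbar p n hpS

/-- The `n`-th layer of the cyclotomic `ℤ_p`-tower as a Galois level. -/
def zpGaloisLevel (n : ℕ) (hpS : pPrime p ∈ S) : H24.GaloisLevel S where
  F := ↥(zpQbar p n)
  ι := H24.valRat (zpQbar p n)
  unram := isUnramifiedOutside_valRat_zpQbar p n hpS
  D := H45.divDescent (isUnramifiedOutside_valRat_zpQbar p n hpS)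

theorem zpGaloisLevel_subgroup (n : ℕ) (hpS : pPrime p ∈ S) :
    (zpGaloisLevel p n hpS).subgroup = zpSubgroup p n := by
  show (H24.valRat (zpQbar p n)).fieldRange.fixingSubgroup = _
  rw [H24.fieldRange_valRat]
  rfl

/-- **(O4)**: (Ord), finite-level form, for the tower element. -/
theorem finiteOrd_towerTop (hp2 : p ≠ 2) (hpS : pPrime p ∈ S) :
    H24.FiniteOrd p S (towerTop p hpS) := by
  intro n
  refine ⟨zpGaloisLevel p n hpS, zpGaloisLevel_subgroup p n hpS,
    CS.baseChange S ℚ ↥(zpQbar p n) (towerElt p hpS),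
    incl_baseChange_rat S (zpGaloisLevel p n hpS) _, ?_⟩
  intro m y h
  apply pow_dvd_of_baseChange_pow_eq_norm p n hp2 hpS m y
  rw [map_pow]
  refine h.trans ?_
  rw [finprod_eq_prod_of_fintype]
  rfl

end

end Fermat.Agent.CFT.H81

namespace Fermat.Agent.CFT.H81

open NumberField Fermat.Agent.CFT.H93 Fermat.Agent.CFT.H27 Fermat.Agent.CFT.H23

theorem hasDivDescent_all (S : Finset Nat.Primes) : H24.HasDivDescent S :=
  fun _ _ _ _ hF => ⟨H45.divDescent hF⟩

/-- Export (X1) of layer C from the degree-`p` layers and (Key) only. -/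
theorem nonempty_pClassFormation_of_key {S : Finset Nat.Primes} (p : ℕ) [hp : Fact p.Prime]
    (hp2 : p ≠ 2) (hpS : pPrime p ∈ S)
    (hlay : H24.FiniteLevelLayers p S) (hkey : H24.FiniteKey p S (towerTop p hpS)) :
    Nonempty (PClassFormation p (globalLevels S) (H77.repCSTop S)) :=
  H24.nonempty_pClassFormation_of_finite hp2 hpS H45.hasDivisors (hasDivDescent_all S) hlay
    (smul_towerTop p hpS) (finiteOrd_towerTop p hp2 hpS) hkey

end Fermat.Agent.CFT.H81
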