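import Fermat.Agent.CFT.H93_ZpGeneric
import Fermat.Agent.CFT.H69_Deg
import Fermat.Agent.CFT.H55_GalLevels

/-!
# The cyclotomic `ℤ_p`-tower inside `ℚ̄`

Author: helper93 (project CFT, package C-CYCLO-Zp-tower, item (Z8)).

`cycloQbar p k = ℚ(ζ_{p^(k+1)}) ⊆ ℚ̄` and `zpQbar p k ⊆ ℚ̄` the `k`-th layer of the cyclotomic
`ℤ_p`-extension, as intermediate fields of `AlgebraicClosure ℚ`, with their fixing subgroups in
`G_ℚ` as levels of `globalLevels S` (`p ∈ S`).
-/

set_option autoImplicit false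

namespace Fermat.Agent.CFT.H93

open NumberField IsCyclotomicExtension IntermediateField Ideal Fermat.Agent.S14 ExtCitation

local notation "GQ" => (AlgebraicClosure ℚ ≃ₐ[ℚ] AlgebraicClosure ℚ)
local notation "Qbar" => AlgebraicClosure ℚ

local instance isAlgebraicQz : Algebra.IsAlgebraic ℚ (AlgebraicClosure ℚ) :=
  AlgebraicClosure.isAlgebraic ℚ
local instance isAlgClosureQz : IsAlgClosure ℚ (AlgebraicClosure ℚ) :=
  ⟨inferInstance, inferInstance⟩
local instance isGaloisQz : IsGalois ℚ (AlgebraicClosure ℚ) := IsSepClosure.isGalois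

section Defs

variable (p : ℕ) [hp : Fact p.Prime] (k : ℕ)

instance neZero_pow_succ : NeZero (p ^ (k + 1)) := ⟨(pow_pos hp.out.pos _).ne'⟩

/-- A primitive `p^(k+1)`-th root of unity in `ℚ̄`. -/
noncomputable def zetaQbar : Qbar := (H69.exists_primitiveRoot_Qbar (p ^ (k + 1))).choose

lemma zetaQbar_spec : IsPrimitiveRoot (zetaQbar p k) (p ^ (k + 1)) :=
  (H69.exists_primitiveRoot_Qbar (p ^ (k + 1))).choose_spec

/-- `ℚ(ζ_{p^(k+1)})` inside `ℚ̄`. -/
noncomputable def cycloQbar : IntermediateField ℚ Qbar := ℚ⟮zetaQbar p k⟯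

instance isCyclotomicExtension_cycloQbar :
    IsCyclotomicExtension {p ^ (k + 1)} ℚ (cycloQbar p k) :=
  (zetaQbar_spec p k).intermediateField_adjoin_isCyclotomicExtension ℚ

instance finiteDimensional_cycloQbar : FiniteDimensional ℚ (cycloQbar p k) :=
  IntermediateField.adjoin.finiteDimensional (Algebra.IsIntegral.isIntegral _)

instance numberField_cycloQbar : NumberField (cycloQbar p k) where
  to_charZero := inferInstance
  to_finiteDimensional := inferInstance

/-- Any primitive root generates the same field. -/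
lemma cycloQbar_eq_adjoin {ζ : Qbar} (hζ : IsPrimitiveRoot ζ (p ^ (k + 1))) :
    cycloQbar p k = ℚ⟮ζ⟯ := by
  unfold cycloQbar
  apply le_antisymm
  · rw [IntermediateField.adjoin_simple_le_iff]
    obtain ⟨i, -, hi⟩ := hζ.eq_pow_of_pow_eq_one (zetaQbar_spec p k).pow_eq_one
    rw [← hi]
    exact pow_mem (IntermediateField.mem_adjoin_simple_self ℚ ζ) i
  · rw [IntermediateField.adjoin_simple_le_iff]
    obtain ⟨i, -, hi⟩ := (zetaQbar_spec p k).eq_pow_of_pow_eq_one hζ.pow_eq_one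
    rw [← hi]
    exact pow_mem (IntermediateField.mem_adjoin_simple_self ℚ _) i

/-- The `k`-th layer of the cyclotomic `ℤ_p`-extension of `ℚ` inside `ℚ̄`. -/
noncomputable def zpQbar : IntermediateField ℚ Qbar :=
  IntermediateField.lift (zpLayer p k (cycloQbar p k))

lemma zpQbar_le_cycloQbar : zpQbar p k ≤ cycloQbar p k := IntermediateField.lift_le _

/-- The canonical isomorphism with the abstract layer. -/
noncomputable def zpQbarEquiv : zpLayer p k (cycloQbar p k) ≃ₐ[ℚ] zpQbar p k :=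
  IntermediateField.liftAlgEquiv _

lemma coe_zpQbarEquiv (x : zpLayer p k (cycloQbar p k)) :
    ((zpQbarEquiv p k x : zpQbar p k) : Qbar) = ((x : cycloQbar p k) : Qbar) := rfl

instance finiteDimensional_zpQbar : FiniteDimensional ℚ (zpQbar p k) :=
  (zpQbarEquiv p k).toLinearEquiv.finiteDimensional

instance numberField_zpQbar : NumberField (zpQbar p k) where
  to_charZero := inferInstance
  to_finiteDimensional := inferInstance

instance isGalois_zpQbar : IsGalois ℚ (zpQbar p k) :=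
  IsGalois.of_algEquiv (zpQbarEquiv p k)

instance isGalois_cycloQbar : IsGalois ℚ (cycloQbar p k) := isGalois_top p k _

lemma finrank_zpQbar (hp2 : p ≠ 2) : Module.finrank ℚ (zpQbar p k) = p ^ k := by
  rw [← (zpQbarEquiv p k).toLinearEquiv.finrank_eq, finrank_zpLayer p k _ hp2]

lemma mem_zpQbar_iff (x : cycloQbar p k) :
    (x : Qbar) ∈ zpQbar p k ↔ x ∈ zpLayer p k (cycloQbar p k) :=
  IntermediateField.mem_lift x

end Defs

section Tower

variable (p : ℕ) [hp : Fact p.Prime] (k : ℕ)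

/-- The inclusion `ℚ_k ⊆ ℚ(ζ_{p^(k+1)})` as an algebra structure (a `def`, not an instance). -/
@[instance_reducible]
noncomputable def zpQbarAlgebra : Algebra (zpQbar p k) (cycloQbar p k) :=
  (IntermediateField.inclusion (zpQbar_le_cycloQbar p k)).toAlgebra

lemma cycloQbar_mono {k m : ℕ} (hkm : k ≤ m) : cycloQbar p k ≤ cycloQbar p m := by
  unfold cycloQbar
  rw [IntermediateField.adjoin_simple_le_iff]
  have h1 : (zetaQbar p k) ^ p ^ (m + 1) = 1 := by
    obtain ⟨c, hc⟩ := pow_dvd_pow p (Nat.succ_le_succ hkm)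
    rw [Nat.succ_eq_add_one, Nat.succ_eq_add_one] at hc
    rw [hc, pow_mul, (zetaQbar_spec p k).pow_eq_one, one_pow]
  obtain ⟨i, -, hi⟩ := (zetaQbar_spec p m).eq_pow_of_pow_eq_one h1
  rw [← hi]
  exact pow_mem (IntermediateField.mem_adjoin_simple_self ℚ _) i

lemma zpQbar_mono {k m : ℕ} (hkm : k ≤ m) : zpQbar p k ≤ zpQbar p m := by
  intro x hx
  have hxc : x ∈ cycloQbar p k := zpQbar_le_cycloQbar p k hx
  have hx' : (⟨x, hxc⟩ : cycloQbar p k) ∈ zpLayer p k (cycloQbar p k) :=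
    (mem_zpQbar_iff p k ⟨x, hxc⟩).mp hx
  letI : Algebra (cycloQbar p k) (cycloQbar p m) :=
    (IntermediateField.inclusion (cycloQbar_mono p hkm)).toAlgebra
  have h2 := algebraMap_mem_zpLayer p k m (cycloQbar p k) (cycloQbar p m) hx'
  exact (mem_zpQbar_iff p m _).mpr h2

/-- `ℚ(ζ_{p^(k+1)})` is unramified outside `S ∋ p` (frozen predicate). -/
lemma isUnramifiedOutside_cycloQbar {S : Finset Nat.Primes} (hpS : pPrime p ∈ S) :
    (cycloQbar p k).IsUnramifiedOutside S := by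
  have h := H69.isUnramifiedOutside_sup_adjoin hpS
    (IntermediateField.isUnramifiedOutside_bot S) (k + 1) (zetaQbar_spec p k)
  rwa [bot_sup_eq] at h

/-- `ℚ_k` is unramified outside `S ∋ p` (frozen predicate). -/
lemma isUnramifiedOutside_zpQbar {S : Finset Nat.Primes} (hpS : pPrime p ∈ S) :
    (zpQbar p k).IsUnramifiedOutside S :=
  (isUnramifiedOutside_cycloQbar p k hpS).of_le (zpQbar_le_cycloQbar p k)

/-- The open normal subgroup `Gal(ℚ̄/ℚ_k)` of `G_ℚ`. -/
noncomputable def zpSubgroup : Subgroup GQ := (zpQbar p k).fixingSubgroup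

instance zpSubgroup_normal : (zpSubgroup p k).Normal :=
  (InfiniteGalois.normal_iff_isGalois (zpQbar p k)).mpr (isGalois_zpQbar p k)

lemma zpSubgroup_index (hp2 : p ≠ 2) : (zpSubgroup p k).index = p ^ k := by
  unfold zpSubgroup
  rw [← IntermediateField.finrank_eq_fixingSubgroup_index, finrank_zpQbar p k hp2]

lemma zpSubgroup_anti {k m : ℕ} (hkm : k ≤ m) : zpSubgroup p m ≤ zpSubgroup p k :=
  IntermediateField.fixingSubgroup_antitone (zpQbar_mono p hkm)

lemma zpSubgroup_mem_globalLevels {S : Finset Nat.Primes} (hpS : pPrime p ∈ S) :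
    zpSubgroup p k ∈ (globalLevels S).levels :=
  ⟨zpQbar p k, isUnramifiedOutside_zpQbar p k hpS, rfl⟩

lemma inf_zpSubgroup_mem_globalLevels {S : Finset Nat.Primes} (hpS : pPrime p ∈ S)
    {U : Subgroup GQ} (hU : U ∈ (globalLevels S).levels) :
    U ⊓ zpSubgroup p k ∈ (globalLevels S).levels := by
  obtain ⟨F, hF, rfl⟩ := hU
  refine ⟨F ⊔ zpQbar p k, hF.sup (isUnramifiedOutside_zpQbar p k hpS), ?_⟩
  rw [IntermediateField.fixingSubgroup_sup]
  rfl

end Tower

section Char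

variable (p : ℕ) [hp : Fact p.Prime] (k : ℕ)

set_option maxHeartbeats 400000

/-- `ζ_{p^(k+1)}` as an element of `cycloQbar p k`. -/
noncomputable def zetaCyclo : cycloQbar p k :=
  ⟨zetaQbar p k, IntermediateField.mem_adjoin_simple_self ℚ _⟩

lemma zetaCyclo_spec : IsPrimitiveRoot (zetaCyclo p k) (p ^ (k + 1)) :=
  IsPrimitiveRoot.coe_submonoidClass_iff.mp (zetaQbar_spec p k)

/-- On `ℚ(ζ_{p^(k+1)}) ⊆ ℚ̄`, `galZ` of the restriction is the cyclotomic character. -/
theorem galZ_restrictNormalHom_cycloQbar (σ : GQ) :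
    galZ p k (cycloQbar p k) (AlgEquiv.restrictNormalHom (cycloQbar p k) σ) =
      H69.chiM (p ^ (k + 1)) σ := by
  have hζ := zetaCyclo_spec p k
  have h1 := galZ_spec p k (cycloQbar p k) (AlgEquiv.restrictNormalHom (cycloQbar p k) σ)
    hζ.pow_eq_one
  have h2 : (((AlgEquiv.restrictNormalHom (cycloQbar p k) σ) (zetaCyclo p k) : cycloQbar p k) :
      Qbar) = σ (zetaQbar p k) :=
    AlgEquiv.restrictNormal_commutes σ (cycloQbar p k) (zetaCyclo p k)
  rw [h1] at h2
  have h3 : σ (zetaQbar p k) = (zetaQbar p k) ^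
      (galZ p k (cycloQbar p k) (AlgEquiv.restrictNormalHom (cycloQbar p k) σ)).val.val := by
    rw [← h2]
    rfl
  have h4 := H69.chiM_eq_of_apply (zetaQbar_spec p k) h3
  apply Units.ext
  rw [h4, ZMod.natCast_zmod_val]

/-- `Gal(ℚ̄/ℚ_k)` is the set of `σ` whose cyclotomic character mod `p^(k+1)` is
`(p-1)`-torsion. -/
theorem mem_zpSubgroup_iff (σ : GQ) :
    σ ∈ zpSubgroup p k ↔ (H69.chiM (p ^ (k + 1)) σ) ^ (p - 1) = 1 := by
  rw [← galZ_restrictNormalHom_cycloQbar, ← map_pow, MulEquiv.map_eq_one_iff,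
    ← mem_torsionAut p k (cycloQbar p k)]
  have h2 : (zpLayer p k (cycloQbar p k)).fixingSubgroup = torsionAut p k (cycloQbar p k) := by
    unfold zpLayer
    exact IntermediateField.fixingSubgroup_fixedField _
  rw [← h2, IntermediateField.mem_fixingSubgroup_iff]
  unfold zpSubgroup
  rw [IntermediateField.mem_fixingSubgroup_iff]
  constructor
  · intro h y hy
    have h1 : (((AlgEquiv.restrictNormalHom (cycloQbar p k) σ) y : cycloQbar p k) : Qbar) =
        σ (y : Qbar) := AlgEquiv.restrictNormal_commutes σ (cycloQbar p k) y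
    apply Subtype.ext
    rw [h1]
    exact h _ ((mem_zpQbar_iff p k y).mpr hy)
  · intro h x hx
    have hxc : x ∈ cycloQbar p k := zpQbar_le_cycloQbar p k hx
    have hy : (⟨x, hxc⟩ : cycloQbar p k) ∈ zpLayer p k (cycloQbar p k) :=
      (mem_zpQbar_iff p k ⟨x, hxc⟩).mp hx
    have h1 : (((AlgEquiv.restrictNormalHom (cycloQbar p k) σ) ⟨x, hxc⟩ : cycloQbar p k) :
        Qbar) = σ x := AlgEquiv.restrictNormal_commutes σ (cycloQbar p k) ⟨x, hxc⟩
    rw [← h1, h _ hy]

instance isMulCommutative_gal_zpQbar : IsMulCommutative Gal(zpQbar p k/ℚ) :=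
  letI := zpQbarAlgebra p k
  isMulCommutative_gal_of_cyclo p k (cycloQbar p k) (zpQbar p k)

/-- **(Z8)** The Artin symbol of `(n)`, `n` prime to `p`, on `ℚ_k ⊆ ℚ̄` is the restriction of any
`σ ∈ G_ℚ` whose cyclotomic character mod `p^(k+1)` is `n`. -/
theorem artin_zpQbar_eq (n : ℕ) (hn : Nat.Coprime n p) (σ : GQ)
    (hσ : ((H69.chiM (p ^ (k + 1)) σ : (ZMod (p ^ (k + 1)))ˣ) : ZMod (p ^ (k + 1))) = n) :
    H27.artin (zpQbar p k) (Ideal.span {(n : 𝓞 ℚ)}) =
      AlgEquiv.restrictNormalHom (zpQbar p k) σ := by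
  letI := zpQbarAlgebra p k
  rw [artin_eq_restrict_of_cyclo p k (cycloQbar p k) (zpQbar p k) n hn]
  have h1 : (galZ p k (cycloQbar p k)).symm (ZMod.unitOfCoprime n (hn.pow_right (k + 1))) =
      AlgEquiv.restrictNormalHom (cycloQbar p k) σ := by
    rw [MulEquiv.symm_apply_eq, galZ_restrictNormalHom_cycloQbar]
    apply Units.ext
    rw [hσ, ZMod.coe_unitOfCoprime]
  rw [h1]
  apply AlgEquiv.ext
  intro x
  apply Subtype.ext
  have h2 : algebraMap (zpQbar p k) (cycloQbar p k)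
      ((AlgEquiv.restrictNormalHom (zpQbar p k)
        (AlgEquiv.restrictNormalHom (cycloQbar p k) σ)) x) =
      (AlgEquiv.restrictNormalHom (cycloQbar p k) σ) (algebraMap (zpQbar p k) (cycloQbar p k) x) :=
    AlgEquiv.restrictNormal_commutes _ (zpQbar p k) x
  have h3 : (((AlgEquiv.restrictNormalHom (cycloQbar p k) σ)
      (algebraMap (zpQbar p k) (cycloQbar p k) x) : cycloQbar p k) : Qbar) =
      σ ((algebraMap (zpQbar p k) (cycloQbar p k) x : cycloQbar p k) : Qbar) :=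
    AlgEquiv.restrictNormal_commutes σ (cycloQbar p k) _
  have h4 : (((AlgEquiv.restrictNormalHom (zpQbar p k) σ) x : zpQbar p k) : Qbar) =
      σ (x : Qbar) := AlgEquiv.restrictNormal_commutes σ (zpQbar p k) x
  rw [h4]
  have h5 := congrArg Subtype.val h2
  rw [h3] at h5
  exact h5

/-- **(Z8)**, Frobenius form. -/
theorem frobP_zpQbar_eq (t : ℕ) (ht : t.Prime) (htp : t ≠ p) (σ : GQ)
    (hσ : ((H69.chiM (p ^ (k + 1)) σ : (ZMod (p ^ (k + 1)))ˣ) : ZMod (p ^ (k + 1))) = t) :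
    H27.frobP (zpQbar p k) (Ideal.span {(t : 𝓞 ℚ)}) =
      AlgEquiv.restrictNormalHom (zpQbar p k) σ := by
  rw [← artin_zpQbar_eq p k t ((Nat.coprime_primes ht hp.out).mpr htp) σ hσ]
  have hprime : (Ideal.span {(t : 𝓞 ℚ)}).IsPrime := by
    have h1 : Prime ((t : ℤ)) := Nat.prime_iff_prime_int.mp ht
    have h2 : Prime ((t : 𝓞 ℚ)) := by
      have := (MulEquiv.prime_iff (Rat.ringOfIntegersEquiv.symm.toMulEquiv) (p := (t : ℤ))).mpr h1
      rwa [RingEquiv.toMulEquiv_eq_coe, RingEquiv.coe_toMulEquiv, map_natCast] at this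
    exact (Ideal.span_singleton_prime h2.ne_zero).mpr h2
  have hne : Ideal.span {(t : 𝓞 ℚ)} ≠ ⊥ := by
    rw [Ne, Ideal.span_singleton_eq_bot]
    exact_mod_cast ht.ne_zero
  rw [H27.artin_prime _ hne]

/-- Primes of `ℚ_k ⊆ ℚ̄` not above `p` are unramified. -/
theorem isUnramifiedAt_zpQbar (𝔓 : Ideal (𝓞 (zpQbar p k))) [𝔓.IsPrime] (h𝔓 : 𝔓 ≠ ⊥)
    (hp𝔓 : (p : 𝓞 (zpQbar p k)) ∉ 𝔓) : Algebra.IsUnramifiedAt (𝓞 ℚ) 𝔓 :=
  letI := zpQbarAlgebra p k
  isUnramifiedAt_of_cyclo p k (cycloQbar p k) (zpQbar p k) 𝔓 h𝔓 hp𝔓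

lemma card_gal_zpQbar (hp2 : p ≠ 2) : Nat.card Gal(zpQbar p k/ℚ) = p ^ k := by
  rw [IsGalois.card_aut_eq_finrank, finrank_zpQbar p k hp2]

lemma isCyclic_gal_zpQbar (hp2 : p ≠ 2) : IsCyclic Gal(zpQbar p k/ℚ) := by
  have := isCyclic_gal_zpLayer p k (cycloQbar p k) hp2
  exact isCyclic_of_surjective (AlgEquiv.autCongr (zpQbarEquiv p k))
    (AlgEquiv.autCongr (zpQbarEquiv p k)).surjective

/-- **(Z6)** for `ℚ_k ⊆ ℚ̄`: `p` is a norm. -/
theorem exists_norm_zpQbar_eq_prime (hp2 : p ≠ 2) :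
    ∃ x : zpQbar p k, IsIntegral ℤ x ∧ Algebra.norm ℚ x = (p : ℚ) := by
  obtain ⟨x, hx, hn⟩ := exists_norm_zpLayer_eq_prime p k (cycloQbar p k) hp2
  refine ⟨zpQbarEquiv p k x, hx.map (zpQbarEquiv p k).toAlgHom.toRingHom.toIntAlgHom, ?_⟩
  rw [Algebra.norm_eq_of_algEquiv, hn]

end Char

end Fermat.Agent.CFT.H93
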