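import Fermat.Agent.CFT.H93_Compositum
import Fermat.Agent.CFT.H93_ZpQbar
import Fermat.Agent.CFT.H27_ArtinDiv

/-!
# The layers `F·ℚ_e / F` of the cyclotomic `ℤ_p`-tower over a level `F ⊆ ℚ̄`

Author: helper93 (project CFT, package C-TOWER-compositum).

For a finite `F : IntermediateField ℚ ℚ̄` and `e : ℕ`, `zpComp p e F = F ⊔ zpQbar p e`.  With the
inclusion algebra structures (`compLeftAlgebra`, `compRightAlgebra`: `def`s, use `letI`),
`F·ℚ_e/F` is Galois, cyclic, of degree dividing `p^e`, restriction to `Gal(ℚ_e/ℚ)` is injective,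
and it is unramified outside `S ∋ p` in helper27's `IsUnramOutside` form.
-/

set_option autoImplicit false

namespace Fermat.Agent.CFT.H93

open NumberField IntermediateField Fermat.Agent.S14 ExtCitation

local notation "GQ" => (AlgebraicClosure ℚ ≃ₐ[ℚ] AlgebraicClosure ℚ)
local notation "Qbar" => AlgebraicClosure ℚ

local instance isAlgebraicQc : Algebra.IsAlgebraic ℚ (AlgebraicClosure ℚ) :=
  AlgebraicClosure.isAlgebraic ℚ
local instance isAlgClosureQc : IsAlgClosure ℚ (AlgebraicClosure ℚ) :=
  ⟨inferInstance, inferInstance⟩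
local instance isGaloisQc : IsGalois ℚ (AlgebraicClosure ℚ) := IsSepClosure.isGalois

section ZpComp

variable (p : ℕ) [hp : Fact p.Prime] (e : ℕ) (F : IntermediateField ℚ Qbar)

/-- The compositum `F·ℚ_e` inside `ℚ̄`. -/
noncomputable abbrev zpComp : IntermediateField ℚ Qbar := F ⊔ zpQbar p e

lemma le_zpComp : F ≤ zpComp p e F := le_sup_left

lemma zpQbar_le_zpComp : zpQbar p e ≤ zpComp p e F := le_sup_right

lemma fixingSubgroup_zpComp :
    (zpComp p e F).fixingSubgroup = F.fixingSubgroup ⊓ zpSubgroup p e := by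
  unfold zpSubgroup
  rw [IntermediateField.fixingSubgroup_sup]

lemma isUnramifiedOutside_zpComp {S : Finset Nat.Primes} (hpS : pPrime p ∈ S)
    (hF : F.IsUnramifiedOutside S) : (zpComp p e F).IsUnramifiedOutside S :=
  hF.sup (isUnramifiedOutside_zpQbar p e hpS)

/-- `F → F·ℚ_e`. -/
@[instance_reducible]
noncomputable def zpCompLeftAlgebra : Algebra F (zpComp p e F) := compLeftAlgebra F (zpQbar p e)

/-- `ℚ_e → F·ℚ_e`. -/
@[instance_reducible]
noncomputable def zpCompRightAlgebra : Algebra (zpQbar p e) (zpComp p e F) :=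
  compRightAlgebra F (zpQbar p e)

theorem isGalois_zpComp :
    letI := zpCompLeftAlgebra p e F
    IsGalois F (zpComp p e F) :=
  isGalois_compositum F (zpQbar p e) (hQg := isGalois_zpQbar p e)
    (hQf := finiteDimensional_zpQbar p e)

theorem isMulCommutative_gal_zpComp :
    letI := zpCompLeftAlgebra p e F
    IsMulCommutative Gal(zpComp p e F/F) :=
  isMulCommutative_gal_compositum F (zpQbar p e) (hQg := isGalois_zpQbar p e)
    (hc := isMulCommutative_gal_zpQbar p e)

theorem isCyclic_gal_zpComp (hp2 : p ≠ 2) :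
    letI := zpCompLeftAlgebra p e F
    IsCyclic Gal(zpComp p e F/F) :=
  isCyclic_gal_compositum F (zpQbar p e) (hQg := isGalois_zpQbar p e)
    (hc := isCyclic_gal_zpQbar p e hp2)

theorem card_gal_zpComp_dvd (hp2 : p ≠ 2) :
    letI := zpCompLeftAlgebra p e F
    Nat.card Gal(zpComp p e F/F) ∣ p ^ e := by
  have h := card_gal_compositum_dvd F (zpQbar p e) (hQg := isGalois_zpQbar p e)
    (hQf := finiteDimensional_zpQbar p e)
  have h2 : Nat.card Gal(zpQbar p e/ℚ) = p ^ e := card_gal_zpQbar p e hp2
  rw [← h2]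
  exact h

/-- Restriction `Gal(F·ℚ_e/F) → Gal(ℚ_e/ℚ)` is injective. -/
theorem resHom_zpComp_injective :
    letI := zpCompLeftAlgebra p e F
    letI := zpCompRightAlgebra p e F
    haveI := isScalarTower_compLeft F (zpQbar p e)
    haveI := isScalarTower_compRight F (zpQbar p e)
    Function.Injective
      (H27.resHom ℚ (zpQbar p e) : Gal(zpComp p e F/F) →* Gal(zpQbar p e/ℚ)) :=
  resHom_compositum_injective F (zpQbar p e) (hQg := isGalois_zpQbar p e)

/-- `ℚ_e/ℚ` is unramified outside `S ∋ p` (helper27's `IsUnramOutside`). -/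
theorem isUnramOutside_zpQbar {S : Finset Nat.Primes} (hpS : pPrime p ∈ S) :
    Fermat.Agent.CFT.H27.IsUnramOutside S ℚ (zpQbar p e) := by
  intro 𝔓 _ h𝔓 hS
  exact isUnramifiedAt_zpQbar p e 𝔓 h𝔓 (hS (pPrime p) hpS)

variable [FiniteDimensional ℚ F]

instance finiteDimensional_zpComp : FiniteDimensional ℚ (zpComp p e F) :=
  IntermediateField.finiteDimensional_sup F (zpQbar p e)

instance numberField_zpComp : NumberField (zpComp p e F) where
  to_charZero := inferInstance
  to_finiteDimensional := inferInstance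

instance numberField_level : NumberField F where
  to_charZero := inferInstance
  to_finiteDimensional := inferInstance

set_option maxHeartbeats 400000

/-- `F·ℚ_e/F` is unramified outside `S ∋ p` (helper27's `IsUnramOutside`). -/
theorem isUnramOutside_zpComp {S : Finset Nat.Primes} (hpS : pPrime p ∈ S) :
    letI := zpCompLeftAlgebra p e F
    Fermat.Agent.CFT.H27.IsUnramOutside S F (zpComp p e F) := by
  letI := zpCompLeftAlgebra p e F
  letI := zpCompRightAlgebra p e F
  intro 𝔓 _ h𝔓 hS
  apply isUnramifiedAt_compositum F (zpQbar p e) (hQg := isGalois_zpQbar p e)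
    (hQf := finiteDimensional_zpQbar p e) 𝔓 h𝔓
  have hPL : 𝔓.under (𝓞 (zpQbar p e)) ≠ ⊥ := mt Ideal.eq_bot_of_comap_eq_bot h𝔓
  apply isUnramifiedAt_zpQbar p e _ hPL
  intro hmem
  apply hS (pPrime p) hpS
  rw [Ideal.under_def, Ideal.mem_comap, map_natCast] at hmem
  exact hmem

/-- **Base change for the tower**: the Artin symbol of `F·ℚ_e/F`, restricted to `ℚ_e`, is the
Artin symbol of `ℚ_e/ℚ` of the norm divisor. -/
theorem resHom_artinDiv_zpComp {S : Finset Nat.Primes} (hpS : pPrime p ∈ S)
    (D : Multiplicative (Fermat.Agent.CFT.H23.DivS S F)) :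
    letI := zpCompLeftAlgebra p e F
    letI := zpCompRightAlgebra p e F
    haveI := isScalarTower_compLeft F (zpQbar p e)
    haveI := isScalarTower_compRight F (zpQbar p e)
    haveI := isGalois_zpComp p e F
    haveI := isMulCommutative_gal_zpComp p e F
    H27.resHom ℚ (zpQbar p e) (Fermat.Agent.CFT.H27.artinDiv S (zpComp p e F) D) =
      Fermat.Agent.CFT.H27.artinDiv S (zpQbar p e)
        (Multiplicative.ofAdd (Fermat.Agent.CFT.H27.normDiv S ℚ (Multiplicative.toAdd D))) := by
  letI := zpCompLeftAlgebra p e F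
  letI := zpCompRightAlgebra p e F
  haveI := isScalarTower_compLeft F (zpQbar p e)
  haveI := isScalarTower_compRight F (zpQbar p e)
  haveI := isGalois_zpComp p e F
  haveI := isMulCommutative_gal_zpComp p e F
  exact Fermat.Agent.CFT.H27.resHom_artinDiv (isUnramOutside_zpQbar p e hpS) D

end ZpComp

end Fermat.Agent.CFT.H93
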