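import Mathlib
import Fermat.Agent.CFT.H81_FiniteOrd
import Fermat.Agent.CFT.H20_NormDict
import Fermat.Agent.CFT.H93_ZpCompositum
import Fermat.Agent.CFT.H23_CNorm

set_option autoImplicit false
set_option linter.unusedSectionVars false

/-!
# (O5): the hypothesis (Key) of the `ℤ_p`-tower system, in helper24's finite-level shape

(CFT / layer C / package `C-RECIP-tower`, helper81.)

* `finprod_map_restrictAlong_smul` : **norm dictionary at a Galois level** for abstract
  `K ⊆ M` with compatible embeddings into `ℚ̄`: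
  `∏ᶠ g : U_K.map (restrictAlong ιM), g.1 • y = ∏ τ : Gal(M/K), τ • y`;
* `KeyZp p hpS` : (Key) at finite level = helper90's (Z3);
* `finiteKey_towerTop p hpS : KeyZp p hpS → H24.FiniteKey p S (towerTop p hpS)`  **(O5)**;
* `nonempty_pClassFormation_of_keyZp` : (X1) from the degree-`p` layers and (Z3).
-/

namespace Fermat.Agent.CFT.H81

open NumberField Fermat.Agent.CFT.H93 Fermat.Agent.CFT.H27 Fermat.Agent.CFT.H23

local notation "GQ" => (AlgebraicClosure ℚ ≃ₐ[ℚ] AlgebraicClosure ℚ)
local notation "Qbar" => AlgebraicClosure ℚ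

noncomputable section

section Dict

variable {S : Finset Nat.Primes} {K M : Type} [Field K] [NumberField K] [Field M] [NumberField M]
  [Algebra K M] [IsGalois K M] [IsGalois ℚ M]
  {ιK : K →ₐ[ℚ] Qbar} {ιM : M →ₐ[ℚ] Qbar} (hι : ∀ x : K, ιM (algebraMap K M x) = ιK x)

include hι in
theorem restrictAlong_eq_restrictScalars (σ : ιK.fieldRange.fixingSubgroup) :
    H24.restrictAlong ιM σ.1 = (H20.relRestrictHom hι σ).restrictScalars ℚ := by
  apply AlgEquiv.ext
  intro y
  apply ιM.injective
  show ιM (H24.restrictAlong ιM σ.1 y) = ιM (H20.relRestrictHom hι σ y)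
  rw [← H24.restrictAlong_spec ιM σ.1 y]
  exact (H20.relRestrictHom_spec hι σ y).symm

include hι in
theorem restrictScalars_mem_map (τ : M ≃ₐ[K] M) :
    τ.restrictScalars ℚ ∈ ιK.fieldRange.fixingSubgroup.map (H24.restrictAlong ιM) := by
  obtain ⟨σ, rfl⟩ := H20.relRestrictHom_surjective hι τ
  exact ⟨σ.1, σ.2, restrictAlong_eq_restrictScalars hι σ⟩

include hι in
/-- **Norm dictionary at a Galois level** (helper24's shape of (Key)): the product over the image
of `U_K` in `Gal(M/ℚ)` is the Galois norm of `M/K`. -/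
theorem finprod_map_restrictAlong_smul (y : CS S M) :
    ∏ᶠ g : ιK.fieldRange.fixingSubgroup.map (H24.restrictAlong ιM), g.1 • y =
      ∏ τ : M ≃ₐ[K] M, τ • y := by
  let r : (M ≃ₐ[K] M) → ιK.fieldRange.fixingSubgroup.map (H24.restrictAlong ιM) :=
    fun τ => ⟨τ.restrictScalars ℚ, restrictScalars_mem_map hι τ⟩
  have hr : Function.Bijective r := by
    constructor
    · intro τ τ' h
      have h1 : τ.restrictScalars ℚ = τ'.restrictScalars ℚ := congrArg Subtype.val h
      exact AlgEquiv.restrictScalars_injective ℚ h1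
    · rintro ⟨g, σ, hσ, rfl⟩
      refine ⟨H20.relRestrictHom hι ⟨σ, hσ⟩, Subtype.ext ?_⟩
      exact (restrictAlong_eq_restrictScalars hι ⟨σ, hσ⟩).symm
  rw [← finprod_eq_prod_of_fintype]
  symm
  refine finprod_eq_of_bijective r hr ?_
  intro τ
  exact (H20.restrictScalars_smul_CS S τ y).symm

end Dict

section Key

variable {S : Finset Nat.Primes} (p : ℕ) [hp : Fact p.Prime]

local instance isAlgebraicQbar_h81k : Algebra.IsAlgebraic ℚ (AlgebraicClosure ℚ) :=
  AlgebraicClosure.isAlgebraic ℚ
local instance isAlgClosureQbar_h81k : IsAlgClosure ℚ (AlgebraicClosure ℚ) :=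
  ⟨inferInstance, inferInstance⟩
local instance normalQbar_h81k : Normal ℚ (AlgebraicClosure ℚ) :=
  IsAlgClosure.normal ℚ (AlgebraicClosure ℚ)
local instance isGaloisQbar_h81k : IsGalois ℚ (AlgebraicClosure ℚ) := ⟨⟩

/-- **(Key) at finite level** (helper90's (Z3)): the tower element becomes a norm from
`F·ℚ_e` in `CS S F` as soon as `p ^ e ∣ [F : ℚ]`. -/
def KeyZp (hpS : pPrime p ∈ S) : Prop :=
  ∀ (F : IntermediateField ℚ Qbar) [FiniteDimensional ℚ F] (e : ℕ),
    p ^ e ∣ Module.finrank ℚ F →
    letI := zpCompLeftAlgebra p e F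
    CS.baseChange S ℚ F (towerElt p hpS) ∈ normSubgroup S F (zpComp p e F)

set_option maxHeartbeats 1000000 in
set_option synthInstance.maxHeartbeats 200000 in
/-- **(O5)**: (Key), finite-level form, for the tower element, from (Z3). -/
theorem finiteKey_towerTop (hpS : pPrime p ∈ S) (hkey : KeyZp p hpS) :
    H24.FiniteKey p S (towerTop p hpS) := by
  intro U hUn hU
  obtain ⟨F, hF, rfl⟩ := hU
  have : FiniteDimensional ℚ F := hF.1
  set e : ℕ := F.fixingSubgroup.index.factorization p with he
  have hdvd : p ^ e ∣ Module.finrank ℚ F := by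
    rw [IntermediateField.finrank_eq_fixingSubgroup_index, he]
    exact Nat.ordProj_dvd _ _
  -- the level `F·ℚ_e`
  let _ : Algebra ↥F ↥(zpComp p e F) := zpCompLeftAlgebra p e F
  have : IsGalois ↥F ↥(zpComp p e F) := isGalois_zpComp p e F
  have hnor : (zpComp p e F).fixingSubgroup.Normal := by
    rw [fixingSubgroup_zpComp]
    infer_instance
  have hG0 : IsGalois ℚ ↥(zpComp p e F) :=
    (InfiniteGalois.normal_iff_isGalois (zpComp p e F)).mp hnor
  have hG : @IsGalois ℚ _ ↥(zpComp p e F) _ DivisionRing.toRatAlgebra := by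
    convert hG0
  have hM : (H24.valRat (zpComp p e F)).fieldRange.IsUnramifiedOutside S := by
    rw [H24.fieldRange_valRat]
    exact isUnramifiedOutside_zpComp p e F hpS hF
  have hK : (H24.valRat F).fieldRange.IsUnramifiedOutside S := by
    rw [H24.fieldRange_valRat]
    exact hF
  let L : H24.GaloisLevel S :=
    { F := ↥(zpComp p e F)
      ι := H24.valRat (zpComp p e F)
      unram := hM
      D := H45.divDescent hM }
  have hι : ∀ x : ↥F, H24.valRat (zpComp p e F) (algebraMap ↥F ↥(zpComp p e F) x) =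
      H24.valRat F x := fun x => rfl
  obtain ⟨y, hy⟩ := (mem_normSubgroup_iff S ↥F ↥(zpComp p e F) _).1 (hkey F e hdvd)
  refine ⟨L, ?_, CS.baseChange S ↥F ↥(zpComp p e F) (CS.baseChange S ℚ ↥F (towerElt p hpS)),
    ?_, y, ?_⟩
  · show (H24.valRat (zpComp p e F)).fieldRange.fixingSubgroup = _
    rw [H24.fieldRange_valRat, fixingSubgroup_zpComp]
  · show H77.csIncl hM (H45.divDescent hM) _ = _
    rw [H77.csIncl_baseChange hK hM hι (H45.divDescent hK) (H45.divDescent hM)]
    exact csIncl_baseChange_rat S hK _ _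
  · rw [← hy, galNorm_apply]
    have h1 := finprod_map_restrictAlong_smul (S := S) hι y
    rw [H24.fieldRange_valRat] at h1
    exact h1.symm

/-- Export (X1) of layer C from the degree-`p` layers and (Z3). -/
theorem nonempty_pClassFormation_of_keyZp (hp2 : p ≠ 2) (hpS : pPrime p ∈ S)
    (hlay : H24.FiniteLevelLayers p S) (hkey : KeyZp p hpS) :
    Nonempty (PClassFormation p (globalLevels S) (H77.repCSTop S)) :=
  nonempty_pClassFormation_of_key p hp2 hpS hlay (finiteKey_towerTop p hpS hkey)

end Key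

end

end Fermat.Agent.CFT.H81
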