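/-
CFT layer C (helper34): the **second inequality for the hybrid idele class group in arbitrary
degree**: for a Galois extension `F / K` of number fields all of whose degree's prime factors lie
in `S` (NO ramification hypothesis, NO cyclicity, NO prime-degree hypothesis),
`[C_S(K) : N C_S(F)] ≤ [F : K]` and the index is finite.

This is the hypothesis `h2` of helper90's `H90.mem_normSubgroup_of_theta` / `H90.key_of_theta`
(`E ⊆ L'` cyclic of `p`-power degree), obtained from helper79's bridge `H79.index_le_of_pow_mem`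
with `p := [F : K]`, `n := [F : K] * ∏_{r ∈ S} r`, `hpow := H23.pow_finrank_mem_normSubgroup` and
`hsplit := H34.toCS_primeIdS_mem_normSubgroup`.
-/
import Mathlib
import Fermat.Agent.CFT.H34_SplitNorm

set_option autoImplicit false

namespace Fermat.Agent.CFT.H34

open scoped NumberField
open IsDedekindDomain Fermat.Agent.CFT.H23 Fermat.Agent.CFT.H10

noncomputable section

variable (S : Finset Nat.Primes) (K F : Type*) [Field K] [NumberField K] [Field F] [NumberField F]
  [Algebra K F]

/-- **Second inequality, general degree**: `F / K` Galois, every prime factor of `[F : K]` in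
`S`. -/
theorem index_normSubgroup_le_finrank [IsGalois K F]
    (hd : ∀ q : Nat.Primes, (q : ℕ) ∣ Module.finrank K F → q ∈ S) :
    (normSubgroup S K F).index ≠ 0 ∧ (normSubgroup S K F).index ≤ Module.finrank K F := by
  have hd0 : Module.finrank K F ≠ 0 := Module.finrank_pos.ne'
  have hP0 : (∏ r ∈ S, (r : ℕ)) ≠ 0 := Fermat.Agent.CFT.H79.prod_primes_ne_zero S
  refine Fermat.Agent.CFT.H79.index_le_of_pow_mem S K F (Module.finrank K F)
    (Module.finrank K F * ∏ r ∈ S, (r : ℕ)) hd0 (Nat.mul_ne_zero hd0 hP0) ?_
    (dvd_mul_right _ _) (normSubgroup S K F) ?_ ?_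
  · intro q
    constructor
    · intro h
      rcases (Nat.Prime.dvd_mul q.2).1 h with h | h
      · exact hd q h
      · exact (Fermat.Agent.CFT.H79.prod_primes_dvd_iff S q).1 h
    · intro h
      exact Dvd.dvd.mul_left ((Fermat.Agent.CFT.H79.prod_primes_dvd_iff S q).2 h) _
  · intro c
    exact pow_finrank_mem_normSubgroup S K F c
  · intro v hv
    exact toCS_primeIdS_mem_normSubgroup S K F v hv

/-- The same for a `p`-power degree, `p ∈ S`. -/
theorem index_normSubgroup_le_of_prime_pow [IsGalois K F] (p : Nat.Primes) (hpS : p ∈ S) (k : ℕ)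
    (hdeg : Module.finrank K F = (p : ℕ) ^ k) :
    (normSubgroup S K F).index ≠ 0 ∧ (normSubgroup S K F).index ≤ Module.finrank K F := by
  refine index_normSubgroup_le_finrank S K F ?_
  intro q hq
  rw [hdeg] at hq
  have h1 : (q : ℕ) ∣ (p : ℕ) := q.2.dvd_of_dvd_pow hq
  have h2 : (q : ℕ) = (p : ℕ) := (Nat.prime_dvd_prime_iff_eq q.2 p.2).1 h1
  have h3 : q = p := Subtype.ext h2
  rw [h3]
  exact hpS

/-- The same when the degree divides a power of `p ∈ S` (e.g. a sub-layer of a `ℤ_p`-tower step). -/
theorem index_normSubgroup_le_of_dvd_prime_pow [IsGalois K F] (p : Nat.Primes) (hpS : p ∈ S)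
    (k : ℕ) (hdeg : Module.finrank K F ∣ (p : ℕ) ^ k) :
    (normSubgroup S K F).index ≠ 0 ∧ (normSubgroup S K F).index ≤ Module.finrank K F := by
  obtain ⟨j, _, hj⟩ := (Nat.dvd_prime_pow p.2).1 hdeg
  exact index_normSubgroup_le_of_prime_pow S K F p hpS j hj

end

end Fermat.Agent.CFT.H34
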