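/-
CFT layer C, package C-KEY-abstract (helper90): the abstract finite-level KEY theorem.

Square of number fields `K ⊆ E ⊆ L'`, `K ⊆ L ⊆ L'` (think `K = ℚ`, `L = ℚ_e`, `E = F_U`,
`L' = F_U·ℚ_e`), `L/K` and `L'/E` abelian, and a symbol `Θ : CS S K →* Gal(L/K)` which
* is the Artin map on divisors (`hΘdiv`),
* kills the norms from `L` (`hΘnorm`).
Given the second inequality for `L'/E`, the kernel of `Θ ∘ N_{E/K}` is the norm subgroup
`H23.normSubgroup S E L'`; in particular `baseChange a₀` is a norm from `L'` as soon as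
`Θ a₀ ^ [E : K] = 1`.
-/
import Mathlib
import Fermat.Agent.CFT.H90_GaloisNormIdS
import Fermat.Agent.CFT.H23_CNorm
import Fermat.Agent.CFT.H81_ArtinSurj

set_option autoImplicit false

namespace Fermat.Agent.CFT.H90

open scoped NumberField IsMulCommutative
open IsDedekindDomain Fermat.Agent.CFT.H23 Fermat.Agent.CFT.H10

noncomputable section

section Norms

variable (S : Finset Nat.Primes) (K F : Type*) [Field K] [NumberField K] [Field F] [NumberField F]
  [Algebra K F] [IsGalois K F]

/-- Norms (in the sense of `CS.norm`) lie in helper23's norm subgroup. -/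
theorem norm_mem_normSubgroup (m : CS S F) : CS.norm S K F m ∈ normSubgroup S K F := by
  rw [mem_normSubgroup_iff]
  exact ⟨m, by rw [galNorm_apply, CS.baseChange_norm]⟩

/-- helper23's norm subgroup is the range of `CS.norm`. -/
theorem normSubgroup_eq_range_norm (hS : S.Nonempty) :
    normSubgroup S K F = (CS.norm S K F).range := by
  ext c
  constructor
  · intro hc
    obtain ⟨m, hm⟩ := (mem_normSubgroup_iff S K F c).1 hc
    refine ⟨m, ?_⟩
    apply CS.baseChange_injective S K F hS
    rw [CS.baseChange_norm, ← galNorm_apply, hm]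
  · rintro ⟨m, rfl⟩
    exact norm_mem_normSubgroup S K F m

end Norms

section Key

variable (S : Finset Nat.Primes) {K E L L' : Type*} [Field K] [Field E] [Field L] [Field L']
  [NumberField K] [NumberField E] [NumberField L] [NumberField L']
  [Algebra K E] [Algebra K L] [Algebra E L'] [Algebra L L'] [Algebra K L']
  [IsScalarTower K E L'] [IsScalarTower K L L'] [IsGalois K L] [IsGalois E L']
  [IsMulCommutative Gal(L/K)] [IsMulCommutative Gal(L'/E)]

/-- `Θ ∘ N_{E/K}` kills the norm subgroup of `L'/E`. -/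
theorem theta_norm_eq_one_of_mem_normSubgroup (hS : S.Nonempty) (Θ : CS S K →* Gal(L/K))
    (hΘnorm : ∀ y : CS S L, Θ (CS.norm S K L y) = 1) {c : CS S E}
    (hc : c ∈ normSubgroup S E L') : Θ (CS.norm S K E c) = 1 := by
  rw [normSubgroup_eq_range_norm S E L' hS] at hc
  obtain ⟨m, rfl⟩ := hc
  rw [CS.norm_norm S K E L', ← CS.norm_norm S K L L']
  exact hΘnorm _

/-- The restriction of every element of `Gal(L'/E)` is a value of `Θ ∘ N_{E/K}`. -/
theorem resHom_mem_range (Θ : CS S K →* Gal(L/K))
    (hΘdiv : ∀ D : DivS S K,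
      Θ (toCS S K ((1 : JS S K), Multiplicative.ofAdd D)) = H27.artinDiv S L (Multiplicative.ofAdd D))
    (hL : H27.IsUnramOutside S K L) (hL' : H27.IsUnramOutside S E L') (σ : Gal(L'/E)) :
    S14.H27.resHom K L σ ∈ (Θ.comp (CS.norm S K E)).range := by
  obtain ⟨D, rfl⟩ := H81.artinDiv_surjective L' hL' σ
  refine ⟨toCS S E ((1 : JS S E), D), ?_⟩
  rw [MonoidHom.comp_apply, CS.norm_toCS, H27.resHom_artinDiv hL]
  have h1 : IdS.norm S K E ((1 : JS S E), D) =
      ((1 : JS S K), Multiplicative.ofAdd (H27.normDiv S K (Multiplicative.toAdd D))) := by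
    refine Prod.ext ?_ rfl
    show JS.norm S K E 1 = 1
    exact map_one _
  rw [h1, hΘdiv]

/-- **The abstract KEY theorem**: the kernel of `Θ ∘ N_{E/K}` is the norm subgroup of `L'/E`. -/
theorem mem_normSubgroup_of_theta (hS : S.Nonempty) (Θ : CS S K →* Gal(L/K))
    (hΘdiv : ∀ D : DivS S K,
      Θ (toCS S K ((1 : JS S K), Multiplicative.ofAdd D)) = H27.artinDiv S L (Multiplicative.ofAdd D))
    (hΘnorm : ∀ y : CS S L, Θ (CS.norm S K L y) = 1)
    (hL : H27.IsUnramOutside S K L) (hL' : H27.IsUnramOutside S E L')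
    (hres : Function.Injective (S14.H27.resHom K L : Gal(L'/E) →* Gal(L/K)))
    (h2 : (normSubgroup S E L').index ≠ 0 ∧ (normSubgroup S E L').index ≤ Module.finrank E L')
    (c : CS S E) (hc : Θ (CS.norm S K E c) = 1) : c ∈ normSubgroup S E L' := by
  set Θ' : CS S E →* Gal(L/K) := Θ.comp (CS.norm S K E) with hΘ'
  have hker : normSubgroup S E L' ≤ Θ'.rangeRestrict.ker := by
    intro x hx
    rw [MonoidHom.mem_ker]
    apply Subtype.ext
    exact theta_norm_eq_one_of_mem_normSubgroup S hS Θ hΘnorm hx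
  -- the range is at least as big as `Gal(L'/E)`
  have hcard : Module.finrank E L' ≤ Nat.card Θ'.range := by
    rw [← IsGalois.card_aut_eq_finrank E L']
    let f : Gal(L'/E) → Θ'.range :=
      fun σ => ⟨S14.H27.resHom K L σ, resHom_mem_range S Θ hΘdiv hL hL' σ⟩
    have hf : Function.Injective f := by
      intro σ τ h
      exact hres (congrArg Subtype.val h)
    exact Nat.card_le_card_of_injective f hf
  have hx : Θ'.rangeRestrict c = 1 := Subtype.ext hc
  exact H81.mem_of_map_eq_one_of_index_le Θ'.rangeRestrict Θ'.rangeRestrict_surjective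
    (normSubgroup S E L') hker h2.1 (h2.2.trans hcard) hx

/-- **KEY**: an element of `CS S K` whose symbol is killed by `[E : K]` becomes a norm from `L'`
after base change to `E`. -/
theorem key_of_theta (hS : S.Nonempty) (Θ : CS S K →* Gal(L/K))
    (hΘdiv : ∀ D : DivS S K,
      Θ (toCS S K ((1 : JS S K), Multiplicative.ofAdd D)) = H27.artinDiv S L (Multiplicative.ofAdd D))
    (hΘnorm : ∀ y : CS S L, Θ (CS.norm S K L y) = 1)
    (hL : H27.IsUnramOutside S K L) (hL' : H27.IsUnramOutside S E L')
    (hres : Function.Injective (S14.H27.resHom K L : Gal(L'/E) →* Gal(L/K)))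
    (h2 : (normSubgroup S E L').index ≠ 0 ∧ (normSubgroup S E L').index ≤ Module.finrank E L')
    (a₀ : CS S K) (ha : Θ a₀ ^ Module.finrank K E = 1) :
    CS.baseChange S K E a₀ ∈ normSubgroup S E L' := by
  apply mem_normSubgroup_of_theta S hS Θ hΘdiv hΘnorm hL hL' hres h2
  rw [CS.norm_baseChange, map_pow, ha]

end Key

end

end Fermat.Agent.CFT.H90
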