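/-
CFT layer C, package C-KEY-zp-instantiation (helper90).

Instantiation of helper81's explicit symbol `H81.thetaCS` at the layers `zpQbar p k ⊆ ℚ̄` of the
cyclotomic `ℤ_p`-extension (helper93), and of the abstract KEY theorem `H90.key_of_theta` at the
square `ℚ ⊆ F ⊆ F·ℚ_e`, `ℚ ⊆ ℚ_e ⊆ F·ℚ_e` inside `ℚ̄` (helper93's `zpComp`):

* `artQbar p k : ℤ_pˣ →* Gal(ℚ_k/ℚ)`, the cyclotomic character of `ℚ_k ⊆ ℚ̄`;
* `thetaZp p k hp2 hpS : CS S ℚ →* Gal(ℚ_k/ℚ)`, the global symbol;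
* `(Ord)`: `orderOf_artQbar_dvd_of_baseChange_pow_eq_norm`, `pow_dvd_of_baseChange_pow_eq_norm`;
* `(Key)`: `baseChange_mem_normSubgroup_zpComp`.
-/
import Mathlib
import Fermat.Agent.CFT.H81_ThetaRat
import Fermat.Agent.CFT.H93_ZpCompositum
import Fermat.Agent.CFT.H90_KeyAbstract
import Fermat.Agent.CFT.H34_SecondIneqGeneral

set_option autoImplicit false

namespace Fermat.Agent.CFT.H90

open NumberField IntermediateField Fermat.Agent.CFT.H93 Fermat.Agent.CFT.H81
  Fermat.Agent.CFT.H23 Fermat.Agent.CFT.H27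
open scoped IsMulCommutative

local notation "Qbar" => AlgebraicClosure ℚ

noncomputable section

section Art

variable (p : ℕ) [hp : Fact p.Prime] (k : ℕ)

/-- The cyclotomic character `ℤ_pˣ → Gal(ℚ_k/ℚ)` of the `k`-th layer `ℚ_k ⊆ ℚ̄`. -/
def artQbar : ℤ_[p]ˣ →* Gal(zpQbar p k/ℚ) :=
  (AlgEquiv.autCongr (zpQbarEquiv p k)).toMonoidHom.comp (zpArt p k (cycloQbar p k))

theorem artQbar_apply (u : ℤ_[p]ˣ) :
    artQbar p k u = AlgEquiv.autCongr (zpQbarEquiv p k) (zpArt p k (cycloQbar p k) u) := rfl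

theorem artQbar_surjective : Function.Surjective (artQbar p k) :=
  (AlgEquiv.autCongr (zpQbarEquiv p k)).surjective.comp (zpArt_surjective p k (cycloQbar p k))

theorem artQbar_neg_one (hp2 : p ≠ 2) : artQbar p k (-1) = 1 := by
  rw [artQbar_apply, zpArt_neg_one p k (cycloQbar p k) hp2, map_one]

theorem artQbar_eq_one_of_sub_one_mem (u : ℤ_[p]ˣ)
    (hu : (u : ℤ_[p]) - 1 ∈ Ideal.span {(p : ℤ_[p]) ^ (k + 1)}) : artQbar p k u = 1 := by
  rw [artQbar_apply, zpArt_eq_one_of_sub_one_mem p k (cycloQbar p k) u hu, map_one]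

theorem orderOf_artQbar (u : ℤ_[p]ˣ) :
    orderOf (artQbar p k u) = orderOf (zpArt p k (cycloQbar p k) u) := by
  rw [artQbar_apply]
  exact MulEquiv.orderOf_eq _ _

theorem orderOf_artQbar_onePlusPUnit (hp2 : p ≠ 2) :
    orderOf (artQbar p k (onePlusPUnit p)) = p ^ k := by
  rw [orderOf_artQbar, orderOf_zpArt_onePlusPUnit p k (cycloQbar p k) hp2]

/-- Transport along `zpQbarEquiv` of the restriction to the abstract layer is the restriction to
`ℚ_k ⊆ ℚ̄`. -/
theorem autCongr_restrictNormalHom (τ : Gal(cycloQbar p k/ℚ)) :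
    letI := zpQbarAlgebra p k
    AlgEquiv.autCongr (zpQbarEquiv p k)
        (AlgEquiv.restrictNormalHom (zpLayer p k (cycloQbar p k)) τ) =
      AlgEquiv.restrictNormalHom (zpQbar p k) τ := by
  let _ := zpQbarAlgebra p k
  apply AlgEquiv.ext
  intro x
  apply Subtype.ext
  -- the element of the abstract layer corresponding to `x`
  set y : zpLayer p k (cycloQbar p k) := (zpQbarEquiv p k).symm x with hy
  have hxy : zpQbarEquiv p k y = x := (zpQbarEquiv p k).apply_symm_apply x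
  have hyx : ((y : cycloQbar p k) : Qbar) = (x : Qbar) := by
    rw [← coe_zpQbarEquiv, hxy]
  have hL : (((AlgEquiv.autCongr (zpQbarEquiv p k)
      (AlgEquiv.restrictNormalHom (zpLayer p k (cycloQbar p k)) τ)) x : zpQbar p k) : Qbar) =
      ((τ (y : cycloQbar p k) : cycloQbar p k) : Qbar) := by
    have h1 : (AlgEquiv.autCongr (zpQbarEquiv p k)
        (AlgEquiv.restrictNormalHom (zpLayer p k (cycloQbar p k)) τ)) x =
        zpQbarEquiv p k ((AlgEquiv.restrictNormalHom (zpLayer p k (cycloQbar p k)) τ) y) := rfl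
    rw [h1, coe_zpQbarEquiv]
    exact congrArg Subtype.val (AlgEquiv.restrictNormal_commutes τ (zpLayer p k (cycloQbar p k)) y)
  have hR : (((AlgEquiv.restrictNormalHom (zpQbar p k) τ) x : zpQbar p k) : Qbar) =
      ((τ (algebraMap (zpQbar p k) (cycloQbar p k) x) : cycloQbar p k) : Qbar) := by
    have h2 := AlgEquiv.restrictNormal_commutes τ (zpQbar p k) x
    exact congrArg Subtype.val h2
  have hyx' : (y : cycloQbar p k) = algebraMap (zpQbar p k) (cycloQbar p k) x :=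
    Subtype.ext hyx
  rw [hL, hR, hyx']

/-- `artQbar` of a natural number prime to `p` is the Artin symbol of `(n)`. -/
theorem artQbar_natUnit {n : ℕ} (hn : n.Coprime p) :
    artQbar p k (natUnit hn) = S14.H27.artin (zpQbar p k) (Ideal.span {(n : 𝓞 ℚ)}) := by
  let _ := zpQbarAlgebra p k
  rw [artin_eq_restrict_of_cyclo p k (cycloQbar p k) (zpQbar p k) n hn, artQbar_apply,
    zpArt_natUnit, zpArtinHom_apply]
  exact autCongr_restrictNormalHom p k _

variable (S : Finset Nat.Primes)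

/-- The Artin symbol of the principal divisor of a prime `t ∉ S` on `ℚ_k ⊆ ℚ̄` is the cyclotomic
character of `t`. -/
theorem artinPrincipal_zpQbar_prime (hpS : (⟨p, hp.out⟩ : Nat.Primes) ∈ S)
    (t : ℕ) (ht : t.Prime) (htS : ∀ q ∈ S, (q : ℕ) ≠ t) (x : ℚˣ) (hx : (x : ℚ) = t)
    (u : ℤ_[p]ˣ) (hu : (u : ℤ_[p]) = t) :
    artinPrincipal S (zpQbar p k) x = artQbar p k u := by
  have htp : t ≠ p := fun h => htS _ hpS h.symm
  have hcop : t.Coprime p := (Nat.coprime_primes ht hp.out).2 htp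
  have hn : ∀ q ∈ S, t.Coprime (q : ℕ) := fun q hq =>
    (Nat.coprime_primes ht q.2).2 (fun h => htS q hq h.symm)
  rw [artinPrincipal_natCast S (zpQbar p k) t ht.ne_zero hn x hx, ← artQbar_natUnit p k hcop]
  congr 1
  apply Units.ext
  rw [coe_natUnit, hu]

/-- Reciprocity over `ℚ` for the explicit symbol of `ℚ_k ⊆ ℚ̄`. -/
theorem thetaRat_artQbar_diag (hp2 : p ≠ 2) (hpS : H81.pPrime p ∈ S) (a : ℚˣ) :
    thetaRat p (artQbar p k) hpS (diag S ℚ a) = 1 :=
  thetaRat_diag p (artQbar p k) hpS (artQbar_neg_one p k hp2)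
    (fun t ht htS x u hx hu => artinPrincipal_zpQbar_prime p k S hpS t ht htS x hx u hu) a

/-- **The global symbol of `ℚ_k/ℚ`** on the hybrid idele class group `CS S ℚ`. -/
def thetaZp (hp2 : p ≠ 2) (hpS : H81.pPrime p ∈ S) : CS S ℚ →* Gal(zpQbar p k/ℚ) :=
  thetaCS p (artQbar p k) hpS (thetaRat_artQbar_diag p k S hp2 hpS)

end Art

section Ord

variable (p : ℕ) [hp : Fact p.Prime] (k : ℕ) (S : Finset Nat.Primes)

theorem thetaZp_toCS (hp2 : p ≠ 2) (hpS : H81.pPrime p ∈ S) (x : IdS S ℚ) :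
    thetaZp p k S hp2 hpS (toCS S ℚ x) = thetaRat p (artQbar p k) hpS x := rfl

/-- (R3) On divisors the symbol is the Artin map. -/
theorem thetaZp_div (hp2 : p ≠ 2) (hpS : H81.pPrime p ∈ S) (D : Multiplicative (DivS S ℚ)) :
    thetaZp p k S hp2 hpS (toCS S ℚ ((1 : JS S ℚ), D)) = artinDiv S (zpQbar p k) D := by
  rw [thetaZp_toCS, thetaRat_div]

theorem thetaZp_surjective (hp2 : p ≠ 2) (hpS : H81.pPrime p ∈ S) :
    Function.Surjective (thetaZp p k S hp2 hpS) :=
  thetaCS_surjective p (artQbar p k) hpS (isUnramOutside_zpQbar p k hpS) _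

/-- (R2) The symbol kills the classes whose base change to `ℚ_k` is a Galois norm. -/
theorem thetaZp_eq_one_of_baseChange_eq (hp2 : p ≠ 2) (hpS : H81.pPrime p ∈ S)
    (c : CS S ℚ) (c' : CS S (zpQbar p k))
    (h : CS.baseChange S ℚ (zpQbar p k) c = galNorm S ℚ (zpQbar p k) c') :
    thetaZp p k S hp2 hpS c = 1 :=
  thetaCS_eq_one_of_baseChange_eq p (artQbar p k) hpS (isUnramOutside_zpQbar p k hpS) (k + 1)
    (Nat.succ_ne_zero k) (artQbar_eq_one_of_sub_one_mem p k) _ c c' h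

/-- (R2) The symbol kills helper23's norm subgroup of `ℚ_k/ℚ`. -/
theorem thetaZp_eq_one_of_mem_normSubgroup (hp2 : p ≠ 2) (hpS : H81.pPrime p ∈ S)
    {c : CS S ℚ} (hc : c ∈ normSubgroup S ℚ (zpQbar p k)) : thetaZp p k S hp2 hpS c = 1 := by
  obtain ⟨c', hc'⟩ := (mem_normSubgroup_iff S ℚ (zpQbar p k) c).1 hc
  exact thetaZp_eq_one_of_baseChange_eq p k S hp2 hpS c c' hc'.symm

/-- (R2) The symbol kills the norms from `ℚ_k`. -/
theorem thetaZp_norm (hp2 : p ≠ 2) (hpS : H81.pPrime p ∈ S) (y : CS S (zpQbar p k)) :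
    thetaZp p k S hp2 hpS (CS.norm S ℚ (zpQbar p k) y) = 1 :=
  thetaZp_eq_one_of_baseChange_eq p k S hp2 hpS _ y (CS.baseChange_norm S ℚ (zpQbar p k) y)

/-- Every value of the symbol of `ℚ_k/ℚ` is killed by `p ^ k`. -/
theorem thetaZp_pow_eq_one (hp2 : p ≠ 2) (hpS : H81.pPrime p ∈ S) (c : CS S ℚ) {n : ℕ}
    (hn : p ^ k ∣ n) : thetaZp p k S hp2 hpS c ^ n = 1 := by
  obtain ⟨d, rfl⟩ := hn
  rw [pow_mul, ← card_gal_zpQbar p k hp2, pow_card_eq_one', one_pow]

/-- The class of the idele `(u at p, 1 elsewhere)` in `CS S ℚ`. -/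
def classAtP (hpS : H81.pPrime p ∈ S) (u : ℤ_[p]ˣ) : CS S ℚ :=
  toCS S ℚ (ideleAtP p hpS (intToPadicUnits p u))

theorem thetaZp_classAtP (hp2 : p ≠ 2) (hpS : H81.pPrime p ∈ S) (u : ℤ_[p]ˣ) :
    thetaZp p k S hp2 hpS (classAtP p S hpS u) = (artQbar p k u)⁻¹ := by
  rw [classAtP, thetaZp_toCS, thetaRat_ideleAtP, thetaP_intToPadicUnits']

/-- **(Ord), finite level, general unit.**  If the `m`-th power of the class of the idele
`(u at p, 1 elsewhere)` is a norm from `CS S ℚ_k` (i.e. its base change is a Galois norm), then the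
order of `artQbar p k u` divides `m`. -/
theorem orderOf_artQbar_dvd_of_mem_normSubgroup (hp2 : p ≠ 2) (hpS : H81.pPrime p ∈ S)
    (u : ℤ_[p]ˣ) (m : ℕ) (h : classAtP p S hpS u ^ m ∈ normSubgroup S ℚ (zpQbar p k)) :
    orderOf (artQbar p k u) ∣ m := by
  have h1 := thetaZp_eq_one_of_mem_normSubgroup p k S hp2 hpS h
  rw [map_pow, thetaZp_classAtP, inv_pow, inv_eq_one] at h1
  exact orderOf_dvd_of_pow_eq_one h1

/-- **(Ord), finite level**, for the idele `(1 + p at p, 1 elsewhere)`. -/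
theorem pow_dvd_of_mem_normSubgroup (hp2 : p ≠ 2) (hpS : H81.pPrime p ∈ S) (m : ℕ)
    (h : classAtP p S hpS (onePlusPUnit p) ^ m ∈ normSubgroup S ℚ (zpQbar p k)) :
    p ^ k ∣ m := by
  rw [← orderOf_artQbar_onePlusPUnit p k hp2]
  exact orderOf_artQbar_dvd_of_mem_normSubgroup p k S hp2 hpS _ m h

/-- **(Ord), finite level**, for the idele `((1 + p)⁻¹ at p, 1 elsewhere)`. -/
theorem pow_dvd_of_mem_normSubgroup' (hp2 : p ≠ 2) (hpS : H81.pPrime p ∈ S) (m : ℕ)
    (h : classAtP p S hpS (onePlusPUnit p)⁻¹ ^ m ∈ normSubgroup S ℚ (zpQbar p k)) :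
    p ^ k ∣ m := by
  rw [← orderOf_artQbar_onePlusPUnit p k hp2, ← orderOf_inv, ← map_inv]
  exact orderOf_artQbar_dvd_of_mem_normSubgroup p k S hp2 hpS _ m h

/-- **(Ord), finite level**, `galNorm` form: if `bc (a₀ ^ m) = ∏ σ, σ • y` in `CS S ℚ_k` for
`a₀` the class of `((1 + p)^{±1} at p, 1 elsewhere)`, then `p ^ k ∣ m`. -/
theorem pow_dvd_of_baseChange_pow_eq_galNorm (hp2 : p ≠ 2) (hpS : H81.pPrime p ∈ S) (m : ℕ)
    (y : CS S (zpQbar p k))
    (h : CS.baseChange S ℚ (zpQbar p k) (classAtP p S hpS (onePlusPUnit p)) ^ m =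
      galNorm S ℚ (zpQbar p k) y) : p ^ k ∣ m := by
  apply pow_dvd_of_mem_normSubgroup p k S hp2 hpS m
  rw [mem_normSubgroup_iff]
  exact ⟨y, by rw [← h, map_pow]⟩

theorem pow_dvd_of_baseChange_pow_eq_galNorm' (hp2 : p ≠ 2) (hpS : H81.pPrime p ∈ S) (m : ℕ)
    (y : CS S (zpQbar p k))
    (h : CS.baseChange S ℚ (zpQbar p k) (classAtP p S hpS (onePlusPUnit p)⁻¹) ^ m =
      galNorm S ℚ (zpQbar p k) y) : p ^ k ∣ m := by
  apply pow_dvd_of_mem_normSubgroup' p k S hp2 hpS m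
  rw [mem_normSubgroup_iff]
  exact ⟨y, by rw [← h, map_pow]⟩

end Ord

section Key

variable (p : ℕ) [hp : Fact p.Prime] (e : ℕ) (S : Finset Nat.Primes)
  (F : IntermediateField ℚ Qbar) [FiniteDimensional ℚ F]

/-- **(Key), finite level.**  If `p ^ e ∣ [F : ℚ]`, the base change to `F` of EVERY class of
`CS S ℚ` is a norm from `F·ℚ_e`. -/
theorem baseChange_mem_normSubgroup_zpComp (hp2 : p ≠ 2) (hpS : H81.pPrime p ∈ S)
    (he : p ^ e ∣ Module.finrank ℚ F) (a₀ : CS S ℚ) :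
    letI := zpCompLeftAlgebra p e F
    haveI := isGalois_zpComp p e F
    CS.baseChange S ℚ F a₀ ∈ normSubgroup S F (zpComp p e F) := by
  let _ := zpCompLeftAlgebra p e F
  let _ := zpCompRightAlgebra p e F
  have := isScalarTower_compLeft F (zpQbar p e)
  have := isScalarTower_compRight F (zpQbar p e)
  have := isGalois_zpComp p e F
  have := isMulCommutative_gal_zpComp p e F
  have hS : S.Nonempty := ⟨_, hpS⟩
  refine key_of_theta S hS (thetaZp p e S hp2 hpS) ?_ (thetaZp_norm p e S hp2 hpS)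
    (isUnramOutside_zpQbar p e hpS) (isUnramOutside_zpComp p e F hpS)
    (resHom_zpComp_injective p e F) ?_ a₀ (thetaZp_pow_eq_one p e S hp2 hpS a₀ he)
  · intro D
    exact thetaZp_div p e S hp2 hpS _
  · refine H34.index_normSubgroup_le_of_dvd_prime_pow S F (zpComp p e F) (H81.pPrime p) hpS e ?_
    rw [← IsGalois.card_aut_eq_finrank]
    exact card_gal_zpComp_dvd p e F hp2

end Key

end

end Fermat.Agent.CFT.H90
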