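import Mathlib
import Fermat.Agent.CFT.H81_FiniteKey
import Fermat.Agent.CFT.H90_KeyZp

set_option autoImplicit false
set_option linter.unusedSectionVars false

/-!
# (O4) + (O5) closed: the `p`-class formation of `G_S` from the degree-`p` layers alone

(CFT / layer C / package `C-RECIP-tower`, helper81.)

* `keyZp p hp2 hpS : KeyZp p hpS` (helper90's `H90.baseChange_mem_normSubgroup_zpComp`);
* `finiteKey_towerTop' p hp2 hpS : H24.FiniteKey p S (towerTop p hpS)`  **(O5)**, unconditional;
* `nonempty_pClassFormation_of_layers p hp2 hpS hlay :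
    Nonempty (PClassFormation p (globalLevels S) (H77.repCSTop S))`: export (X1) of layer C from
  `hlay : H24.FiniteLevelLayers p S` ((O3)) ONLY.
-/

namespace Fermat.Agent.CFT.H81

open Fermat.Agent.CFT.H93 Fermat.Agent.CFT.H23

noncomputable section

variable {S : Finset Nat.Primes} (p : ℕ) [hp : Fact p.Prime]

/-- **(Key) at finite level** (helper90's (Z3)). -/
theorem keyZp (hp2 : p ≠ 2) (hpS : pPrime p ∈ S) : KeyZp p hpS :=
  fun F _ e he => H90.baseChange_mem_normSubgroup_zpComp p e S F hp2 hpS he (towerElt p hpS)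

/-- **(O5)**: (Key), finite-level form, for the tower element; unconditional. -/
theorem finiteKey_towerTop' (hp2 : p ≠ 2) (hpS : pPrime p ∈ S) :
    H24.FiniteKey p S (towerTop p hpS) :=
  finiteKey_towerTop p hpS (keyZp p hp2 hpS)

/-- **Export (X1) of layer C** from the degree-`p` layers ((O3)) only. -/
theorem nonempty_pClassFormation_of_layers (hp2 : p ≠ 2) (hpS : pPrime p ∈ S)
    (hlay : H24.FiniteLevelLayers p S) :
    Nonempty (PClassFormation p (globalLevels S) (H77.repCSTop S)) :=
  nonempty_pClassFormation_of_keyZp p hp2 hpS hlay (keyZp p hp2 hpS)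

end

end Fermat.Agent.CFT.H81
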