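import Mathlib
import Fermat.Agent.CFT.H81_TowerFinal
import Fermat.Agent.CFT.H12_LayersFinal

set_option autoImplicit false

/-!
# Layer C, export (X1), unconditionally

(CFT / layer C, helper12.)  The one-line plug of (O3) (`H12.finiteLevelLayers_uncond`, the
degree-`p` layers at every finite Galois level) into helper81's `H81.nonempty_pClassFormation_of_layers`
((O4)+(O5)): the `p`-class formation of `G_S`, with no hypothesis left except `p` odd and `p ∈ S`.
This is the term `hCmain` of `H55.poitouTateStatement_of_C`.
-/

namespace Fermat.Agent.CFT.H12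

open Fermat.Agent.CFT.H93 Fermat.Agent.CFT.H23 Fermat.Agent.CFT.H81

/-- **(X1) of layer C, unconditional**: the `p`-class formation of `G_S` (`p` odd, `p ∈ S`). -/
theorem nonempty_pClassFormation_uncond {S : Finset Nat.Primes} (p : ℕ) [hp : Fact p.Prime]
    (hp2 : p ≠ 2) (hpS : pPrime p ∈ S) :
    Nonempty (PClassFormation p (globalLevels S) (H77.repCSTop S)) :=
  H81.nonempty_pClassFormation_of_layers p hp2 hpS (finiteLevelLayers_uncond p hp2 S hpS)

end Fermat.Agent.CFT.H12
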