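import Mathlib
import Fermat.Agent.CFT.H15_UglyLevel

set_option autoImplicit false

/-!
# A class formation from an "unramified system" of levels

Pure group cohomology.  Given a discrete module `C` for a level structure `𝓛` on `Γ` such that
* inflation–restriction (degree 2) holds between normal levels,
* `H²(Γ/U, C^U)` is finite with at most `[Γ:U]` elements,
* there is a system of normal levels `E n` of index `n` with classes `u n` of exact order `n`,
  compatible under inflation (`inf (u n) = (m/n) • u m`),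
* for every normal level `U` of index `n` the inflation of `u n` to some common lower level
  restricts to zero on `U`,
* a class of order `[Γ:U]` makes `C^U` a class module,

we construct a `ClassFormation 𝓛 C`.
-/

open CategoryTheory groupCohomology

noncomputable section

namespace Fermat.Agent.CFT.H15

variable {k : Type} [CommRing k] {Γ : Type} [Group Γ]

/-- The hypotheses: an unramified system for `(𝓛, C)`. -/
structure UnrSystem (𝓛 : LevelStructure Γ) (C : Rep.{0} k Γ) where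
  /-- inflation–restriction between normal levels -/
  infRes : ∀ (U W : Subgroup Γ) [U.Normal] [W.Normal], U ∈ 𝓛.levels → W ∈ 𝓛.levels → W ≤ U →
    InfRes2 (C.quotientToInvariants W) (quotSub U W)
  /-- second inequality -/
  finite : ∀ (U : Subgroup Γ) [U.Normal], U ∈ 𝓛.levels →
    Finite (groupCohomology (C.quotientToInvariants U) 2)
  card_le : ∀ (U : Subgroup Γ) [U.Normal], U ∈ 𝓛.levels →
    Nat.card (groupCohomology (C.quotientToInvariants U) 2) ≤ U.index
  /-- the unramified levels -/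
  E : ℕ+ → Subgroup Γ
  [normal : ∀ n, (E n).Normal]
  mem : ∀ n, E n ∈ 𝓛.levels
  index : ∀ n, (E n).index = n
  le : ∀ n m : ℕ+, n ∣ m → E m ≤ E n
  /-- the unramified classes -/
  u : ∀ n, groupCohomology (C.quotientToInvariants (E n)) 2
  order : ∀ n, addOrderOf (u n) = n
  inf_u : ∀ (n m : ℕ+) (h : n ∣ m),
    (infLevel C (E n) (E m) (le n m h) 2).hom (u n) = ((m : ℕ) / (n : ℕ)) • u m
  /-- the key vanishing -/
  key : ∀ (U : Subgroup Γ) [U.Normal], U ∈ 𝓛.levels → ∀ n : ℕ+, U.index = n →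
    ∃ (W : Subgroup Γ) (_ : W.Normal) (_ : W ∈ 𝓛.levels) (_ : W ≤ U) (hWE : W ≤ E n),
      (resSub (C.quotientToInvariants W) (quotSub U W) 2).hom
        ((infLevel C (E n) W hWE 2).hom (u n)) = 0

attribute [instance] UnrSystem.normal

namespace UnrSystem

variable {𝓛 : LevelStructure Γ} {C : Rep.{0} k Γ} (S : UnrSystem 𝓛 C)

/-- The index of a level as a positive natural number. -/
def idx (U : Subgroup Γ) (hU : U ∈ 𝓛.levels) : ℕ+ :=
  ⟨U.index, Nat.pos_of_ne_zero (𝓛.finiteIndex U hU).index_ne_zero⟩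

@[simp] theorem idx_coe (U : Subgroup Γ) (hU : U ∈ 𝓛.levels) : ((idx U hU : ℕ+) : ℕ) = U.index := rfl

include S in
theorem infLevel_injective (U W : Subgroup Γ) [U.Normal] [W.Normal] (hU : U ∈ 𝓛.levels)
    (hW : W ∈ 𝓛.levels) (h : W ≤ U) : Function.Injective (infLevel C U W h 2).hom :=
  infLevel_injective_of_infRes2 C U W h (S.infRes U W hU hW h)

/-- The defining property of the fundamental class at level `U`. -/
def IsFund (U : Subgroup Γ) [U.Normal] (hU : U ∈ 𝓛.levels)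
    (γ : groupCohomology (C.quotientToInvariants U) 2) : Prop :=
  ∃ (W : Subgroup Γ) (_ : W.Normal) (_ : W ∈ 𝓛.levels) (hWU : W ≤ U) (hWE : W ≤ S.E (idx U hU)),
    (infLevel C U W hWU 2).hom γ = (infLevel C (S.E (idx U hU)) W hWE 2).hom (S.u (idx U hU))

theorem exists_isFund (U : Subgroup Γ) [U.Normal] (hU : U ∈ 𝓛.levels) :
    ∃ γ : groupCohomology (C.quotientToInvariants U) 2, S.IsFund U hU γ ∧
      addOrderOf γ = U.index := by
  obtain ⟨W, hWn, hW, hWU, hWE, hres⟩ := S.key U hU (idx U hU) rfl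
  have := hWn
  have := S.finite U hU
  obtain ⟨γ, hγ, hord, -, -⟩ := ugly_level C U (S.E (idx U hU)) W hWU hWE
    (S.infRes U W hU hW hWU) (S.infLevel_injective _ W (S.mem _) hW hWE) (S.u (idx U hU))
    (S.order (idx U hU)) hres (by simpa using S.card_le U hU)
  exact ⟨γ, ⟨W, hWn, hW, hWU, hWE, hγ⟩, by simpa using hord⟩

/-- The fundamental class at a normal level. -/
def fund (U : Subgroup Γ) (hU : U ∈ 𝓛.levels) [U.Normal] :
    groupCohomology (C.quotientToInvariants U) 2 :=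
  (S.exists_isFund U hU).choose

theorem fund_isFund (U : Subgroup Γ) (hU : U ∈ 𝓛.levels) [U.Normal] :
    S.IsFund U hU (S.fund U hU) :=
  (S.exists_isFund U hU).choose_spec.1

theorem addOrderOf_fund (U : Subgroup Γ) (hU : U ∈ 𝓛.levels) [U.Normal] :
    addOrderOf (S.fund U hU) = U.index :=
  (S.exists_isFund U hU).choose_spec.2

/-- Inflating the fundamental class to any sufficiently small normal level gives the inflation
of the unramified class. -/
theorem infLevel_fund (U : Subgroup Γ) (hU : U ∈ 𝓛.levels) [U.Normal] :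
    ∃ (W : Subgroup Γ) (_ : W ∈ 𝓛.levels), ∀ (W' : Subgroup Γ) [W'.Normal] (_ : W' ∈ 𝓛.levels)
      (_ : W' ≤ W) (hWU : W' ≤ U) (hWE : W' ≤ S.E (idx U hU)),
      (infLevel C U W' hWU 2).hom (S.fund U hU) =
        (infLevel C (S.E (idx U hU)) W' hWE 2).hom (S.u (idx U hU)) := by
  obtain ⟨W, hWn, hW, hWU, hWE, hγ⟩ := S.fund_isFund U hU
  have := hWn
  refine ⟨W, hW, fun W' _ hW' hle hWU' hWE' => ?_⟩
  have h1 := infLevel_comp C U W W' hWU hle 2
  have h2 := infLevel_comp C (S.E (idx U hU)) W W' hWE hle 2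
  have e1 : (infLevel C U W' hWU' 2).hom (S.fund U hU) =
      (infLevel C W W' hle 2).hom ((infLevel C U W hWU 2).hom (S.fund U hU)) := by
    rw [← h1]; rfl
  have e2 : (infLevel C (S.E (idx U hU)) W' hWE' 2).hom (S.u (idx U hU)) =
      (infLevel C W W' hle 2).hom
        ((infLevel C (S.E (idx U hU)) W hWE 2).hom (S.u (idx U hU))) := by
    rw [← h2]; rfl
  rw [e1, e2, hγ]

theorem exists_normal_le₂ (𝓛 : LevelStructure Γ) {N₁ N₂ : Subgroup Γ} (h₁ : N₁ ∈ 𝓛.levels)
    (h₂ : N₂ ∈ 𝓛.levels) : ∃ N ∈ 𝓛.levels, N.Normal ∧ N ≤ N₁ ∧ N ≤ N₂ := by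
  obtain ⟨N₃, h₃, hle⟩ := 𝓛.directed N₁ h₁ N₂ h₂
  obtain ⟨N, hN, hle', hnor⟩ := 𝓛.exists_normal N₃ h₃
  exact ⟨N, hN, hnor, hle'.trans (hle.trans inf_le_left), hle'.trans (hle.trans inf_le_right)⟩

theorem exists_normal_le₄ (𝓛 : LevelStructure Γ) {N₁ N₂ N₃ N₄ : Subgroup Γ} (h₁ : N₁ ∈ 𝓛.levels)
    (h₂ : N₂ ∈ 𝓛.levels) (h₃ : N₃ ∈ 𝓛.levels) (h₄ : N₄ ∈ 𝓛.levels) :
    ∃ N ∈ 𝓛.levels, N.Normal ∧ N ≤ N₁ ∧ N ≤ N₂ ∧ N ≤ N₃ ∧ N ≤ N₄ := by
  obtain ⟨A, hA, -, hA1, hA2⟩ := exists_normal_le₂ 𝓛 h₁ h₂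
  obtain ⟨B, hB, -, hB1, hB2⟩ := exists_normal_le₂ 𝓛 h₃ h₄
  obtain ⟨N, hN, hnor, hNA, hNB⟩ := exists_normal_le₂ 𝓛 hA hB
  exact ⟨N, hN, hnor, hNA.trans hA1, hNA.trans hA2, hNB.trans hB1, hNB.trans hB2⟩

theorem idx_dvd {U V : Subgroup Γ} (hU : U ∈ 𝓛.levels) (hV : V ∈ 𝓛.levels) (h : V ≤ U) :
    idx U hU ∣ idx V hV := by
  rw [PNat.dvd_iff]
  exact Subgroup.index_dvd_of_le h

/-- Compatibility of the fundamental classes with inflation. -/
theorem infLevel_fund_eq (U V : Subgroup Γ) (hU : U ∈ 𝓛.levels) (hV : V ∈ 𝓛.levels) [U.Normal]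
    [V.Normal] (h : V ≤ U) :
    (infLevel C U V h 2).hom (S.fund U hU) = (V.relIndex U) • S.fund V hV := by
  set n := idx U hU with hn
  set m := idx V hV with hm
  have hnm : n ∣ m := idx_dvd hU hV h
  obtain ⟨WU, hWU, HU⟩ := S.infLevel_fund U hU
  obtain ⟨WV, hWV, HV⟩ := S.infLevel_fund V hV
  obtain ⟨W', hW', hW'n, hle1, hle2, hle3, hle4⟩ :=
    exists_normal_le₄ 𝓛 hWU hWV (S.mem m) hV
  have := hW'n
  have hW'U : W' ≤ U := hle4.trans h
  have hW'En : W' ≤ S.E n := hle3.trans (S.le n m hnm)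
  -- compute both sides after inflation to `W'`
  have e1 : (infLevel C V W' hle4 2).hom ((infLevel C U V h 2).hom (S.fund U hU)) =
      (infLevel C U W' hW'U 2).hom (S.fund U hU) := by
    rw [← infLevel_comp C U V W' h hle4 2]; rfl
  have e2 := HU W' hW' hle1 hW'U hW'En
  have e3 : (infLevel C (S.E n) W' hW'En 2).hom (S.u n) =
      (infLevel C (S.E m) W' hle3 2).hom ((infLevel C (S.E n) (S.E m) (S.le n m hnm) 2).hom
        (S.u n)) := by
    rw [← infLevel_comp C (S.E n) (S.E m) W' (S.le n m hnm) hle3 2]; rfl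
  have e4 := HV W' hW' hle2 hle4 hle3
  have hrel : V.relIndex U = (m : ℕ) / (n : ℕ) := by
    have h1 := Subgroup.relIndex_mul_index h
    have hnpos : 0 < (n : ℕ) := n.pos
    symm
    apply Nat.div_eq_of_eq_mul_left hnpos
    simpa [hn, hm] using h1.symm
  apply S.infLevel_injective V W' hV hW' hle4
  rw [e1, e2, e3, S.inf_u n m hnm, map_nsmul, hrel, map_nsmul, e4]

/-- **The class formation attached to an unramified system.** -/
def classFormation (hdisc : 𝓛.IsDiscrete C)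
    (hcrit : ∀ (U : Subgroup Γ) [U.Normal], U ∈ 𝓛.levels →
      ∀ γ : groupCohomology (C.quotientToInvariants U) 2, addOrderOf γ = U.index →
        IsClassModule (C.quotientToInvariants U) γ) :
    ClassFormation 𝓛 C where
  discrete := hdisc
  fund U hU _ := S.fund U hU
  isClass U hU _ := hcrit U hU _ (S.addOrderOf_fund U hU)
  inf_fund U V hU hV _ _ h := S.infLevel_fund_eq U V hU hV h

end UnrSystem

end Fermat.Agent.CFT.H15
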