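import Mathlib
import Fermat.Agent.CFT.H43_MapsGalois
import Fermat.Agent.CFT.LocMaps
import Fermat.Agent.CFT.H15_InfLevel

set_option autoImplicit false
set_option linter.unusedSectionVars false

/-!
# (Ω3) transport: finite-level cohomology of `Gal(Ω/K)` acting on `Ωˣ` versus Galois cohomology
of the finite layers

`Ω/K` Galois (possibly infinite), `Γ = Gal(Ω/K)`, `C = Ωˣ`.  For a finite Galois intermediate
field `F` with `U_F = F.fixingSubgroup`, helper43's `H43.unitsPairEquiv F` gives
`Hⁿ(Gal(F/K), Fˣ) ≅ Hⁿ(Γ/U_F, C^{U_F})`.  Here: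

* `infl_comp_cohIso` : this isomorphism intertwines `Loc.infl K F M` and `infLevel C U_F U_M`;
* `galQuotSubEquiv`, `restPairEquiv`, `cohIso_comp_resSub` : it intertwines `Loc.rest K F M` and
  `resSub (C^{U_M}) (U_F/U_M)`;
* `index_fixingSubgroup` : `[Γ : U_F] = [F : K]`.
-/

open CategoryTheory groupCohomology

noncomputable section

namespace Fermat.Agent.CFT.H15

variable {K Ω : Type} [Field K] [Field Ω] [Algebra K Ω]

section Tower

variable (F M : IntermediateField K Ω) [Algebra F M] [IsScalarTower F M Ω]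

theorem coe_algebraMap_tower (x : F) : ((algebraMap F M x : M) : Ω) = (x : Ω) :=
  (IsScalarTower.algebraMap_apply F M Ω x).symm

theorem le_of_isScalarTower : F ≤ M := fun x hx => by
  have h := coe_algebraMap_tower F M ⟨x, hx⟩
  simp only at h
  rw [← h]
  exact (algebraMap F M ⟨x, hx⟩).2

theorem fixingSubgroup_le_of_isScalarTower : M.fixingSubgroup ≤ F.fixingSubgroup :=
  IntermediateField.fixingSubgroup_antitone (le_of_isScalarTower F M)

end Tower

section Infl

variable [IsGalois K Ω]
variable (F M : IntermediateField K Ω) [Algebra F M] [IsScalarTower K F M] [IsScalarTower F M Ω]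
  [IsGalois K F] [IsGalois K M]

omit [IsGalois K Ω] in
theorem restrictNormalHom_restrictNormalHom (σ : Ω ≃ₐ[K] Ω) :
    AlgEquiv.restrictNormalHom F (AlgEquiv.restrictNormalHom M σ) =
      AlgEquiv.restrictNormalHom F σ := by
  apply AlgEquiv.ext
  intro x
  apply (algebraMap F Ω).injective
  rw [IsScalarTower.algebraMap_apply F M Ω]
  erw [AlgEquiv.restrictNormal_commutes, AlgEquiv.restrictNormal_commutes,
    AlgEquiv.restrictNormal_commutes]
  rw [← IsScalarTower.algebraMap_apply F M Ω]

/-- **(Ω3)(b)**: the transport isomorphisms intertwine Galois inflation and level inflation. -/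
theorem infl_comp_cohIso (n : ℕ) :
    Loc.infl K F M n ≫ ((H43.unitsPairEquiv M).cohIso n).hom =
      ((H43.unitsPairEquiv F).cohIso n).hom ≫
        infLevel (Rep.ofAlgebraAutOnUnits K Ω) F.fixingSubgroup M.fixingSubgroup
          (fixingSubgroup_le_of_isScalarTower F M) n := by
  rw [H43.PairEquiv.cohIso_hom, H43.PairEquiv.cohIso_hom]
  unfold Loc.infl infLevel
  rw [← groupCohomology.map_comp, ← groupCohomology.map_comp]
  refine groupCohomology.map_congr ?_ ?_ n
  · refine QuotientGroup.monoidHom_ext _ (MonoidHom.ext fun σ => ?_)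
    exact restrictNormalHom_restrictNormalHom F M σ
  · ext x
    apply Additive.toMul.injective
    apply Units.ext
    exact (IsScalarTower.algebraMap_apply F M Ω _).symm

end Infl

section Rest

variable [IsGalois K Ω]
variable (F M : IntermediateField K Ω) [Algebra F M] [IsScalarTower K F M] [IsScalarTower F M Ω]
  [IsGalois K M]

/-- `Gal(M/F) → Γ/U_M`. -/
def galToQuot : (M ≃ₐ[F] M) →* (Ω ≃ₐ[K] Ω) ⧸ M.fixingSubgroup :=
  ((H43.quotEquiv M).symm : (M ≃ₐ[K] M) →* (Ω ≃ₐ[K] Ω) ⧸ M.fixingSubgroup).comp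
    (AlgEquiv.restrictScalarsHom K)

theorem quotEquiv_galToQuot (τ : M ≃ₐ[F] M) :
    H43.quotEquiv M (galToQuot F M τ) = AlgEquiv.restrictScalarsHom K τ :=
  (H43.quotEquiv M).apply_symm_apply _

theorem galToQuot_injective : Function.Injective (galToQuot F M) := by
  intro a b h
  have h1 := congrArg (H43.quotEquiv M) h
  rw [quotEquiv_galToQuot, quotEquiv_galToQuot] at h1
  exact AlgEquiv.restrictScalarsHom_injective K h1

theorem galToQuot_eq_mk (τ : M ≃ₐ[F] M) (σ : Ω ≃ₐ[K] Ω)
    (h : AlgEquiv.restrictNormalHom M σ = AlgEquiv.restrictScalarsHom K τ) :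
    galToQuot F M τ = QuotientGroup.mk σ := by
  apply (H43.quotEquiv M).injective
  rw [quotEquiv_galToQuot, H43.quotEquiv_mk, h]

theorem range_galToQuot :
    (galToQuot F M).range = quotSub F.fixingSubgroup M.fixingSubgroup := by
  ext y
  constructor
  · rintro ⟨τ, rfl⟩
    obtain ⟨σ, hσ⟩ := AlgEquiv.restrictNormalHom_surjective Ω (AlgEquiv.restrictScalarsHom K τ)
    rw [galToQuot_eq_mk F M τ σ hσ]
    refine ⟨σ, ?_, rfl⟩
    rw [SetLike.mem_coe, IntermediateField.mem_fixingSubgroup_iff]
    intro x hx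
    have h1 : x = ((algebraMap F M ⟨x, hx⟩ : M) : Ω) := (coe_algebraMap_tower F M ⟨x, hx⟩).symm
    rw [h1]
    have h2 := AlgEquiv.restrictNormal_commutes σ M (algebraMap F M ⟨x, hx⟩)
    have h3 : σ.restrictNormal M (algebraMap F M ⟨x, hx⟩) = algebraMap F M ⟨x, hx⟩ := by
      have := congrArg (fun ρ : M ≃ₐ[K] M => ρ (algebraMap F M ⟨x, hx⟩)) hσ
      exact this.trans (τ.commutes _)
    rw [h3] at h2
    exact h2.symm
  · rintro ⟨σ, hσ, rfl⟩
    have hfix : ∀ x : F, (AlgEquiv.restrictNormalHom M σ) (algebraMap F M x) = algebraMap F M x := by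
      intro x
      apply (algebraMap M Ω).injective
      erw [AlgEquiv.restrictNormal_commutes]
      rw [← IsScalarTower.algebraMap_apply F M Ω]
      exact (IntermediateField.mem_fixingSubgroup_iff _ _).1 hσ _ x.2
    refine ⟨AlgEquiv.ofRingEquiv (f := (AlgEquiv.restrictNormalHom M σ).toRingEquiv) hfix, ?_⟩
    apply galToQuot_eq_mk
    apply AlgEquiv.ext
    intro x
    rfl

/-- **(Ω3)(c)**, group part: `Gal(M/F) ≃* U_F/U_M ≤ Γ/U_M`. -/
def galQuotSubEquiv : (M ≃ₐ[F] M) ≃* quotSub F.fixingSubgroup M.fixingSubgroup :=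
  (MonoidHom.ofInjective (galToQuot_injective F M)).trans
    (MulEquiv.subgroupCongr (range_galToQuot F M))

theorem coe_galQuotSubEquiv (τ : M ≃ₐ[F] M) :
    ((galQuotSubEquiv F M τ : quotSub F.fixingSubgroup M.fixingSubgroup) :
      (Ω ≃ₐ[K] Ω) ⧸ M.fixingSubgroup) = galToQuot F M τ := rfl

/-- **(Ω3)(c)**, pair equivalence `(Gal(M/F), Mˣ) ≃ (U_F/U_M, (Ωˣ)^{U_M})`. -/
def restPairEquiv :
    H43.PairEquiv (Rep.ofAlgebraAutOnUnits F M)
      (Rep.res (quotSub F.fixingSubgroup M.fixingSubgroup).subtype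
        ((Rep.ofAlgebraAutOnUnits K Ω).quotientToInvariants M.fixingSubgroup)) where
  e := galQuotSubEquiv F M
  φ := H43.unitsInvEquiv M
  comm τ a := by
    obtain ⟨σ, hσ⟩ := AlgEquiv.restrictNormalHom_surjective Ω (AlgEquiv.restrictScalarsHom K τ)
    have h1 : ((galQuotSubEquiv F M τ : quotSub F.fixingSubgroup M.fixingSubgroup) :
        (Ω ≃ₐ[K] Ω) ⧸ M.fixingSubgroup) = QuotientGroup.mk σ := galToQuot_eq_mk F M τ σ hσ
    change H43.unitsInvEquiv M _ =
      ((Rep.ofAlgebraAutOnUnits K Ω).quotientToInvariants M.fixingSubgroup).ρ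
        ((galQuotSubEquiv F M τ : quotSub F.fixingSubgroup M.fixingSubgroup) :
          (Ω ≃ₐ[K] Ω) ⧸ M.fixingSubgroup) (H43.unitsInvEquiv M a)
    rw [h1]
    apply Subtype.ext
    apply Additive.toMul.injective
    apply Units.ext
    change ((τ ((Additive.toMul (a : Additive Mˣ) : Mˣ) : M) : M) : Ω)
      = σ (((Additive.toMul (a : Additive Mˣ) : Mˣ) : M) : Ω)
    have h2 := AlgEquiv.restrictNormal_commutes σ M ((Additive.toMul (a : Additive Mˣ) : Mˣ) : M)
    have := congrArg (fun ρ : M ≃ₐ[K] M => ρ ((Additive.toMul (a : Additive Mˣ) : Mˣ) : M)) hσ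
    exact (congrArg (algebraMap M Ω) this.symm).trans h2

/-- **(Ω3)(c)**: the transport isomorphisms intertwine Galois restriction `Loc.rest K F M` and
restriction to the subgroup `U_F/U_M` of `Γ/U_M`. -/
theorem cohIso_comp_resSub (n : ℕ) :
    ((H43.unitsPairEquiv M).cohIso n).hom ≫
        resSub ((Rep.ofAlgebraAutOnUnits K Ω).quotientToInvariants M.fixingSubgroup)
          (quotSub F.fixingSubgroup M.fixingSubgroup) n =
      Loc.rest K F M n ≫ ((restPairEquiv F M).cohIso n).hom := by
  rw [H43.PairEquiv.cohIso_hom, H43.PairEquiv.cohIso_hom]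
  unfold Loc.rest resSub
  rw [← groupCohomology.map_comp, ← groupCohomology.map_comp]
  refine groupCohomology.map_congr ?_ ?_ n
  · refine MonoidHom.ext fun y => ?_
    obtain ⟨τ, rfl⟩ := (galQuotSubEquiv F M).surjective y
    have h1 : (restPairEquiv F M).e.symm (galQuotSubEquiv F M τ) = τ :=
      (galQuotSubEquiv F M).symm_apply_apply τ
    change H43.quotEquiv M ((galQuotSubEquiv F M τ : quotSub F.fixingSubgroup M.fixingSubgroup) :
          (Ω ≃ₐ[K] Ω) ⧸ M.fixingSubgroup) =
      AlgEquiv.restrictScalarsHom K ((restPairEquiv F M).e.symm (galQuotSubEquiv F M τ))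
    rw [h1, coe_galQuotSubEquiv, quotEquiv_galToQuot]
  · rfl

theorem resSub_cohIso_eq_zero_iff (n : ℕ)
    (x : groupCohomology (Rep.ofAlgebraAutOnUnits K M) n) :
    (resSub ((Rep.ofAlgebraAutOnUnits K Ω).quotientToInvariants M.fixingSubgroup)
        (quotSub F.fixingSubgroup M.fixingSubgroup) n).hom
      (((H43.unitsPairEquiv M).cohIso n).hom.hom x) = 0 ↔ (Loc.rest K F M n).hom x = 0 := by
  have h := congrArg (fun f => f.hom x) (cohIso_comp_resSub F M n)
  simp only [ModuleCat.hom_comp, LinearMap.comp_apply] at h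
  rw [h]
  constructor
  · intro h0
    have hinj : Function.Injective ((restPairEquiv F M).cohIso n).hom.hom :=
      ((restPairEquiv F M).cohIso n).toLinearEquiv.injective
    exact hinj (h0.trans (map_zero _).symm)
  · intro h0
    rw [h0, map_zero]

end Rest

section Incl

variable {F M : IntermediateField K Ω}

/-- The inclusion algebra `F → M` for intermediate fields `F ≤ M` of `Ω/K`. -/
@[reducible] def inclAlgebra (h : F ≤ M) : Algebra F M :=
  (IntermediateField.inclusion h).toRingHom.toAlgebra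

theorem inclAlgebra_tower_bot (h : F ≤ M) :
    letI := inclAlgebra h
    IsScalarTower K F M := by
  letI := inclAlgebra h
  exact IsScalarTower.of_algebraMap_eq (fun x => rfl)

theorem inclAlgebra_tower_top (h : F ≤ M) :
    letI := inclAlgebra h
    IsScalarTower F M Ω := by
  letI := inclAlgebra h
  exact IsScalarTower.of_algebraMap_eq (fun x => rfl)

end Incl

section Index

variable [IsGalois K Ω] (F M : IntermediateField K Ω)

/-- **(Ω3)(d)**: `[Γ : U_F] = [F : K]` for `F/K` finite Galois. -/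
theorem index_fixingSubgroup [FiniteDimensional K F] [IsGalois K F] :
    F.fixingSubgroup.index = Module.finrank K F := by
  rw [← IsGalois.card_aut_eq_finrank K F, Subgroup.index_eq_card]
  exact Nat.card_congr (H43.quotEquiv F).toEquiv

theorem le_of_fixingSubgroup_le (h : M.fixingSubgroup ≤ F.fixingSubgroup) : F ≤ M := by
  rw [← InfiniteGalois.fixedField_fixingSubgroup F, ← InfiniteGalois.fixedField_fixingSubgroup M]
  exact IntermediateField.fixedField_antitone h

theorem isGalois_of_normal_fixingSubgroup (h : F.fixingSubgroup.Normal) : IsGalois K F := by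
  have h1 : IsGalois K (IntermediateField.fixedField F.fixingSubgroup) := inferInstance
  rwa [InfiniteGalois.fixedField_fixingSubgroup F] at h1

theorem fixingSubgroup_injective {F M : IntermediateField K Ω}
    (h : F.fixingSubgroup = M.fixingSubgroup) : F = M :=
  le_antisymm (le_of_fixingSubgroup_le F M h.ge) (le_of_fixingSubgroup_le M F h.le)

end Index

end Fermat.Agent.CFT.H15
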