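import Mathlib
import Fermat.Agent.CFT.H15_Omega3
import Fermat.Agent.CFT.H15_FormationOfUnr

set_option autoImplicit false
set_option linter.unusedSectionVars false
set_option linter.style.haveILetI false

/-!
# A class formation on `Gal(Ω/K)` acting on `Ωˣ` from field-level data

`Ω/K` Galois.  `FieldUnrData K Ω` collects the statements that the field-level packages prove
about the finite Galois layers `F ⊆ M ⊆ Ω` in the `Loc.infl / Loc.rest` vocabulary:
inflation–restriction in degree `2`, the second inequality, and an "unramified" tower `E n`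
(degree `n`) with classes `c n` of exact order `n`, compatible with inflation, which die after
restriction to any `F` of degree `n`.

From this and a level structure `𝓛` whose normal levels are the fixing subgroups of the finite
Galois subextensions we build `UnrSystem 𝓛 Ωˣ` and hence a `ClassFormation`.
-/

open CategoryTheory groupCohomology

noncomputable section

namespace Fermat.Agent.CFT.H15

variable (K Ω : Type) [Field K] [Field Ω] [Algebra K Ω]

/-- Field-level inputs. -/
structure FieldUnrData where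
  infl_injective : ∀ (F M : IntermediateField K Ω) [Algebra F M] [IsScalarTower K F M]
    [IsScalarTower F M Ω] [FiniteDimensional K F] [FiniteDimensional K M] [IsGalois K F]
    [IsGalois K M], Function.Injective (Loc.infl K F M 2).hom
  exists_infl_eq : ∀ (F M : IntermediateField K Ω) [Algebra F M] [IsScalarTower K F M]
    [IsScalarTower F M Ω] [FiniteDimensional K F] [FiniteDimensional K M] [IsGalois K F]
    [IsGalois K M] (x : groupCohomology (Rep.ofAlgebraAutOnUnits K M) 2),
    (Loc.rest K F M 2).hom x = 0 → ∃ y, (Loc.infl K F M 2).hom y = x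
  finite_H2 : ∀ (F : IntermediateField K Ω) [FiniteDimensional K F] [IsGalois K F],
    Finite (groupCohomology (Rep.ofAlgebraAutOnUnits K F) 2)
  card_H2_le : ∀ (F : IntermediateField K Ω) [FiniteDimensional K F] [IsGalois K F],
    Nat.card (groupCohomology (Rep.ofAlgebraAutOnUnits K F) 2) ≤ Module.finrank K F
  /-- the unramified tower -/
  E : ℕ+ → IntermediateField K Ω
  [finE : ∀ n, FiniteDimensional K (E n)]
  [galE : ∀ n, IsGalois K (E n)]
  finrank_E : ∀ n, Module.finrank K (E n) = n
  E_le : ∀ n m : ℕ+, n ∣ m → E n ≤ E m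
  /-- the unramified classes -/
  c : ∀ n, groupCohomology (Rep.ofAlgebraAutOnUnits K (E n)) 2
  order_c : ∀ n, addOrderOf (c n) = n
  infl_c : ∀ (n m : ℕ+) (_ : n ∣ m) [Algebra (E n) (E m)] [IsScalarTower K (E n) (E m)]
    [IsScalarTower (E n) (E m) Ω],
    (Loc.infl K (E n) (E m) 2).hom (c n) = ((m : ℕ) / (n : ℕ)) • c m
  key : ∀ (F M : IntermediateField K Ω) [FiniteDimensional K F] [FiniteDimensional K M]
    [IsGalois K F] [IsGalois K M] (n : ℕ+) (_ : Module.finrank K F = n)
    [Algebra F M] [IsScalarTower K F M] [IsScalarTower F M Ω]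
    [Algebra (E n) M] [IsScalarTower K (E n) M] [IsScalarTower (E n) M Ω],
    (Loc.rest K F M 2).hom ((Loc.infl K (E n) M 2).hom (c n)) = 0

attribute [instance] FieldUnrData.finE FieldUnrData.galE

variable {K Ω}

section Transport

variable [IsGalois K Ω]

/-- shorthand: the transport isomorphism `Hⁿ(Gal(F/K), Fˣ) ≅ Hⁿ(Γ/U_F, (Ωˣ)^{U_F})` -/
abbrev tr (F : IntermediateField K Ω) [IsGalois K F] (n : ℕ) :
    groupCohomology (Rep.ofAlgebraAutOnUnits K F) n ≅
      groupCohomology ((Rep.ofAlgebraAutOnUnits K Ω).quotientToInvariants F.fixingSubgroup) n :=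
  (H43.unitsPairEquiv F).cohIso n

theorem tr_injective (F : IntermediateField K Ω) [IsGalois K F] (n : ℕ) :
    Function.Injective (tr F n).hom.hom := (tr F n).toLinearEquiv.injective

theorem tr_surjective (F : IntermediateField K Ω) [IsGalois K F] (n : ℕ) :
    Function.Surjective (tr F n).hom.hom := (tr F n).toLinearEquiv.surjective

variable (F M : IntermediateField K Ω) [Algebra F M] [IsScalarTower K F M] [IsScalarTower F M Ω]
  [IsGalois K F] [IsGalois K M]

theorem infLevel_tr (n : ℕ) (y : groupCohomology (Rep.ofAlgebraAutOnUnits K F) n) :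
    (infLevel (Rep.ofAlgebraAutOnUnits K Ω) F.fixingSubgroup M.fixingSubgroup
        (fixingSubgroup_le_of_isScalarTower F M) n).hom ((tr F n).hom.hom y) =
      (tr M n).hom.hom ((Loc.infl K F M n).hom y) := by
  have h := congrArg (fun f => f.hom y) (infl_comp_cohIso F M n)
  simp only [ModuleCat.hom_comp, LinearMap.comp_apply] at h
  exact h.symm

theorem infRes2_of_field (hinj : Function.Injective (Loc.infl K F M 2).hom)
    (hex : ∀ x : groupCohomology (Rep.ofAlgebraAutOnUnits K M) 2,
      (Loc.rest K F M 2).hom x = 0 → ∃ y, (Loc.infl K F M 2).hom y = x) :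
    InfRes2 ((Rep.ofAlgebraAutOnUnits K Ω).quotientToInvariants M.fixingSubgroup)
      (quotSub F.fixingSubgroup M.fixingSubgroup) := by
  have hle := fixingSubgroup_le_of_isScalarTower F M
  have hdq := dqIso_hom_comp_infLevel (Rep.ofAlgebraAutOnUnits K Ω) F.fixingSubgroup
    M.fixingSubgroup hle 2
  have hdq' : ∀ z, (infTop ((Rep.ofAlgebraAutOnUnits K Ω).quotientToInvariants M.fixingSubgroup)
      (quotSub F.fixingSubgroup M.fixingSubgroup) 2).hom z =
      (infLevel (Rep.ofAlgebraAutOnUnits K Ω) F.fixingSubgroup M.fixingSubgroup hle 2).hom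
        ((dqIso (Rep.ofAlgebraAutOnUnits K Ω) F.fixingSubgroup M.fixingSubgroup hle 2).hom.hom z) := by
    intro z
    have := congrArg (fun f => f.hom z) hdq
    simp only [ModuleCat.hom_comp, LinearMap.comp_apply] at this
    exact this.symm
  have hinfL : Function.Injective
      (infLevel (Rep.ofAlgebraAutOnUnits K Ω) F.fixingSubgroup M.fixingSubgroup hle 2).hom := by
    intro a b hab
    obtain ⟨a', rfl⟩ := tr_surjective F 2 a
    obtain ⟨b', rfl⟩ := tr_surjective F 2 b
    rw [infLevel_tr, infLevel_tr] at hab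
    rw [hinj (tr_injective M 2 hab)]
  refine ⟨?_, ?_⟩
  · intro a b hab
    rw [hdq', hdq'] at hab
    exact (dqIso (Rep.ofAlgebraAutOnUnits K Ω) F.fixingSubgroup M.fixingSubgroup hle
      2).toLinearEquiv.injective (hinfL hab)
  · intro x hx
    obtain ⟨x', rfl⟩ := tr_surjective M 2 x
    rw [resSub_cohIso_eq_zero_iff] at hx
    obtain ⟨y', hy'⟩ := hex x' hx
    refine ⟨(dqIso (Rep.ofAlgebraAutOnUnits K Ω) F.fixingSubgroup M.fixingSubgroup hle
      2).inv.hom ((tr F 2).hom.hom y'), ?_⟩
    rw [hdq']
    have h1 : (dqIso (Rep.ofAlgebraAutOnUnits K Ω) F.fixingSubgroup M.fixingSubgroup hle 2).hom.hom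
        ((dqIso (Rep.ofAlgebraAutOnUnits K Ω) F.fixingSubgroup M.fixingSubgroup hle 2).inv.hom
          ((tr F 2).hom.hom y')) = (tr F 2).hom.hom y' :=
      congrArg (fun f => f.hom ((tr F 2).hom.hom y'))
        (dqIso (Rep.ofAlgebraAutOnUnits K Ω) F.fixingSubgroup M.fixingSubgroup hle 2).inv_hom_id
    rw [h1, infLevel_tr, hy']

end Transport

section Assembly

variable [IsGalois K Ω] (𝓛 : LevelStructure (Ω ≃ₐ[K] Ω))

/-- The normal levels of `𝓛` are fixing subgroups of finite subextensions, and the fixing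
subgroup of every finite Galois subextension is a level. -/
structure IsGaloisLevels : Prop where
  exists_field : ∀ U ∈ 𝓛.levels, U.Normal →
    ∃ F : IntermediateField K Ω, FiniteDimensional K F ∧ U = F.fixingSubgroup
  mem : ∀ (F : IntermediateField K Ω) [FiniteDimensional K F] [IsGalois K F],
    F.fixingSubgroup ∈ 𝓛.levels

variable {𝓛}

theorem IsGaloisLevels.exists_galois (h𝓛 : IsGaloisLevels 𝓛) (U : Subgroup (Ω ≃ₐ[K] Ω))
    (hU : U ∈ 𝓛.levels) (hn : U.Normal) :
    ∃ (F : IntermediateField K Ω) (_ : FiniteDimensional K F) (_ : IsGalois K F),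
      U = F.fixingSubgroup := by
  obtain ⟨F, hF, rfl⟩ := h𝓛.exists_field U hU hn
  exact ⟨F, hF, isGalois_of_normal_fixingSubgroup F hn, rfl⟩

instance isGalois_sup_of_isGalois (F M : IntermediateField K Ω) [IsGalois K F] [IsGalois K M] :
    IsGalois K (F ⊔ M : IntermediateField K Ω) where
  to_isSeparable := Algebra.isSeparable_tower_bot_of_isSeparable K _ Ω
  to_normal := inferInstance

/-- **The unramified system attached to field-level data.** -/
def FieldUnrData.unrSystem (D : FieldUnrData K Ω) (h𝓛 : IsGaloisLevels 𝓛) :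
    UnrSystem 𝓛 (Rep.ofAlgebraAutOnUnits K Ω) where
  infRes U W hUn hWn hU hW hWU := by
    obtain ⟨F, hFfin, hFgal, rfl⟩ := h𝓛.exists_galois U hU hUn
    obtain ⟨M, hMfin, hMgal, rfl⟩ := h𝓛.exists_galois W hW hWn
    have hle : F ≤ M := le_of_fixingSubgroup_le F M hWU
    letI := inclAlgebra hle
    haveI := inclAlgebra_tower_bot hle
    haveI := inclAlgebra_tower_top hle
    exact infRes2_of_field F M (D.infl_injective F M) (D.exists_infl_eq F M)
  finite U hUn hU := by
    obtain ⟨F, hFfin, hFgal, rfl⟩ := h𝓛.exists_galois U hU hUn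
    have := D.finite_H2 F
    exact Finite.of_equiv _ (tr F 2).toLinearEquiv.toEquiv
  card_le U hUn hU := by
    obtain ⟨F, hFfin, hFgal, rfl⟩ := h𝓛.exists_galois U hU hUn
    rw [index_fixingSubgroup F, ← Nat.card_congr (tr F 2).toLinearEquiv.toEquiv]
    exact D.card_H2_le F
  E n := (D.E n).fixingSubgroup
  normal n := inferInstance
  mem n := h𝓛.mem (D.E n)
  index n := by rw [index_fixingSubgroup, D.finrank_E]
  le n m h := IntermediateField.fixingSubgroup_antitone (D.E_le n m h)
  u n := (tr (D.E n) 2).hom.hom (D.c n)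
  order n := by
    rw [addOrderOf_map_of_injective _ (tr_injective (D.E n) 2), D.order_c]
  inf_u n m h := by
    letI := inclAlgebra (D.E_le n m h)
    haveI := inclAlgebra_tower_bot (D.E_le n m h)
    haveI := inclAlgebra_tower_top (D.E_le n m h)
    have h1 := infLevel_tr (D.E n) (D.E m) 2 (D.c n)
    rw [D.infl_c n m h, map_nsmul] at h1
    exact h1
  key U hUn hU n hidx := by
    obtain ⟨F, hFfin, hFgal, rfl⟩ := h𝓛.exists_galois U hU hUn
    have hfin : Module.finrank K F = n := by rw [← index_fixingSubgroup F]; exact hidx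
    have hle1 : F ≤ F ⊔ D.E n := le_sup_left
    have hle2 : D.E n ≤ F ⊔ D.E n := le_sup_right
    refine ⟨(F ⊔ D.E n).fixingSubgroup, inferInstance, h𝓛.mem _,
      IntermediateField.fixingSubgroup_antitone hle1,
      IntermediateField.fixingSubgroup_antitone hle2, ?_⟩
    letI a1 := inclAlgebra hle1
    haveI := inclAlgebra_tower_bot hle1
    haveI := inclAlgebra_tower_top hle1
    letI a2 := inclAlgebra hle2
    haveI := inclAlgebra_tower_bot hle2
    haveI := inclAlgebra_tower_top hle2
    have h1 := infLevel_tr (D.E n) (F ⊔ D.E n) 2 (D.c n)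
    have h2 := (resSub_cohIso_eq_zero_iff F (F ⊔ D.E n) 2
      ((Loc.infl K (D.E n) (F ⊔ D.E n : IntermediateField K Ω) 2).hom (D.c n))).2
      (D.key F (F ⊔ D.E n) n hfin)
    rw [← h1] at h2
    exact h2

/-- **Class formation from field-level data**: `hcrit` is the field-level criterion
"a class of order `[F:K]` makes `Fˣ` a class module". -/
def FieldUnrData.classFormation (D : FieldUnrData K Ω) (h𝓛 : IsGaloisLevels 𝓛)
    (hdisc : 𝓛.IsDiscrete (Rep.ofAlgebraAutOnUnits K Ω))
    (hcrit : ∀ (F : IntermediateField K Ω) [FiniteDimensional K F] [IsGalois K F]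
      (γ : groupCohomology (Rep.ofAlgebraAutOnUnits K F) 2),
      addOrderOf γ = Module.finrank K F → IsClassModule (Rep.ofAlgebraAutOnUnits K F) γ) :
    ClassFormation 𝓛 (Rep.ofAlgebraAutOnUnits K Ω) :=
  (D.unrSystem h𝓛).classFormation hdisc (fun U hUn hU γ hγ => by
    obtain ⟨F, hFfin, hFgal, rfl⟩ := h𝓛.exists_galois U hU hUn
    obtain ⟨γ', rfl⟩ := tr_surjective F 2 γ
    rw [addOrderOf_map_of_injective _ (tr_injective F 2), index_fixingSubgroup F] at hγ
    exact (H43.unitsPairEquiv F).isClassModule (hcrit F γ' hγ))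

end Assembly

end Fermat.Agent.CFT.H15
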