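/-
CFT project, layer B/C tool: the GALOIS BRIDGE for `Rep.ofAlgebraAutOnUnits`.
Author: helper33.  Mathlib only.
-/
import Mathlib

set_option autoImplicit false

namespace Fermat.Agent.CFT.H33

open CategoryTheory

universe u

/-! ## 1. Abstract transport of `quotientToInvariants` along an isomorphism -/

section Transport

variable {k G G' : Type u} [CommRing k] [Group G] [Group G']

/-- Transport of the invariants of a normal subgroup along an isomorphism of groups and a
compatible linear equivalence of the representation spaces. -/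
noncomputable def invariantsEquivOfEquiv (e : G ≃* G') {A : Rep.{u} k G} {A' : Rep.{u} k G'}
    (φ : A.V ≃ₗ[k] A'.V) (hφ : ∀ g, φ.toLinearMap ∘ₗ A.ρ g = A'.ρ (e g) ∘ₗ φ.toLinearMap)
    (N : Subgroup G) (N' : Subgroup G') (hN : N.map e.toMonoidHom = N') :
    Representation.invariants (A.ρ.comp N.subtype) ≃ₗ[k]
      Representation.invariants (A'.ρ.comp N'.subtype) where
  toFun x := ⟨φ x.1, fun n' => by
    obtain ⟨n, hn, hn'⟩ : (n' : G') ∈ N.map e.toMonoidHom := hN ▸ n'.2
    replace hn' : e n = (n' : G') := hn'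
    have h1 := x.2 ⟨n, hn⟩
    have h2 := LinearMap.congr_fun (hφ n) x.1
    simp only [MonoidHom.coe_comp, Function.comp_apply, Subgroup.coe_subtype,
      LinearMap.coe_comp, LinearEquiv.coe_coe] at h1 h2 ⊢
    rw [← hn', ← h2, h1]⟩
  map_add' x y := by ext; simp
  map_smul' c x := by ext; simp
  invFun y := ⟨φ.symm y.1, fun n => by
    have hn' : e (n : G) ∈ N' := by
      rw [← hN]; exact ⟨n, n.2, rfl⟩
    have h1 := y.2 ⟨e n, hn'⟩
    have h2 := LinearMap.congr_fun (hφ n) (φ.symm y.1)
    simp only [MonoidHom.coe_comp, Function.comp_apply, Subgroup.coe_subtype,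
      LinearMap.coe_comp, LinearEquiv.coe_coe, LinearEquiv.apply_symm_apply] at h1 h2 ⊢
    apply φ.injective
    rw [h2, h1, LinearEquiv.apply_symm_apply]⟩
  left_inv x := by ext; simp
  right_inv y := by ext; simp

@[simp] lemma invariantsEquivOfEquiv_apply_coe (e : G ≃* G') {A : Rep.{u} k G} {A' : Rep.{u} k G'}
    (φ : A.V ≃ₗ[k] A'.V) (hφ : ∀ g, φ.toLinearMap ∘ₗ A.ρ g = A'.ρ (e g) ∘ₗ φ.toLinearMap)
    (N : Subgroup G) (N' : Subgroup G') (hN : N.map e.toMonoidHom = N')
    (x : Representation.invariants (A.ρ.comp N.subtype)) :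
    ((invariantsEquivOfEquiv e φ hφ N N' hN x : Representation.invariants (A'.ρ.comp N'.subtype)) :
      A'.V) = φ x.1 := rfl

/-- Transport of `Hⁿ(G ⧸ N, A^N)` along an isomorphism of groups and a compatible linear
equivalence of the representation spaces. -/
noncomputable def quotientToInvariantsIso (e : G ≃* G') {A : Rep.{u} k G} {A' : Rep.{u} k G'}
    (φ : A.V ≃ₗ[k] A'.V) (hφ : ∀ g, φ.toLinearMap ∘ₗ A.ρ g = A'.ρ (e g) ∘ₗ φ.toLinearMap)
    (N : Subgroup G) [N.Normal] (N' : Subgroup G') [N'.Normal]
    (hN : N.map e.toMonoidHom = N') (n : ℕ) :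
    groupCohomology (A.quotientToInvariants N) n ≅
      groupCohomology (A'.quotientToInvariants N') n :=
  groupCohomology.mapIso (QuotientGroup.congr N N' e hN)
    (invariantsEquivOfEquiv e φ hφ N N' hN) (fun g => by
      induction g using QuotientGroup.induction_on with
      | H g =>
        ext x
        have h2 := LinearMap.congr_fun (hφ g) x.1
        have h3 : (QuotientGroup.congr N N' e hN) (g : G ⧸ N) = ((e g : G') : G' ⧸ N') :=
          QuotientGroup.congr_mk N N' e hN g
        simp only [LinearMap.coe_comp, LinearEquiv.coe_coe, Function.comp_apply] at h2 ⊢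
        rw [h3]
        exact h2) n

end Transport

/-! ## 2. Restriction to a subgroup = Galois group over the fixed field -/

section Galois

variable {K L : Type} [Field K] [Field L] [Algebra K L] [FiniteDimensional K L]

open IntermediateField

/-- compatibility of `subgroupEquivAlgEquiv` with the action on `L` -/
lemma subgroupEquivAlgEquiv_apply_apply (H : Subgroup (L ≃ₐ[K] L)) (h : H) (x : L) :
    (subgroupEquivAlgEquiv H h) x = (h : L ≃ₐ[K] L) x := rfl

/-- the compatibility hypothesis of the transport lemmas, for restriction to a subgroup -/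
lemma res_compat (H : Subgroup (L ≃ₐ[K] L)) (h : H) :
    (LinearEquiv.refl ℤ (Additive Lˣ)).toLinearMap ∘ₗ
        (Rep.res H.subtype (Rep.ofAlgebraAutOnUnits K L)).ρ h =
      (Rep.ofAlgebraAutOnUnits (fixedField H) L).ρ (subgroupEquivAlgEquiv H h) ∘ₗ
        (LinearEquiv.refl ℤ (Additive Lˣ)).toLinearMap := by
  ext u
  rfl

/-- **(G1)** `Hⁿ(H, Lˣ) ≅ Hⁿ(Gal(L/L^H), Lˣ)`. -/
noncomputable def resIso (H : Subgroup (L ≃ₐ[K] L)) (n : ℕ) :
    groupCohomology (Rep.res H.subtype (Rep.ofAlgebraAutOnUnits K L)) n ≅
      groupCohomology (Rep.ofAlgebraAutOnUnits (fixedField H) L) n :=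
  groupCohomology.mapIso (subgroupEquivAlgEquiv H) (LinearEquiv.refl ℤ (Additive Lˣ))
    (res_compat H) n

/-! ## 3. Invariants of a normal subgroup = units of the fixed field -/

omit [FiniteDimensional K L] in
/-- membership in the invariants of `Lˣ` under a subgroup -/
lemma mem_invariants_units_iff (N : Subgroup (L ≃ₐ[K] L)) (u : Additive Lˣ) :
    u ∈ Representation.invariants ((Rep.ofAlgebraAutOnUnits K L).ρ.comp N.subtype) ↔
      ∀ σ ∈ N, σ ((u.toMul : Lˣ) : L) = ((u.toMul : Lˣ) : L) := by
  constructor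
  · intro h σ hσ
    have := h ⟨σ, hσ⟩
    exact congrArg (fun v : Additive Lˣ => ((v.toMul : Lˣ) : L)) this
  · intro h σ
    have := h σ.1 σ.2
    apply Additive.toMul.injective
    apply Units.ext
    exact this

/-- a unit of `L` fixed by `N`, as a unit of the fixed field -/
noncomputable def unitOfFixed (N : Subgroup (L ≃ₐ[K] L)) (u : Lˣ)
    (hu : ∀ σ ∈ N, σ (u : L) = (u : L)) : (fixedField N)ˣ where
  val := ⟨(u : L), (mem_fixedField_iff N _).2 hu⟩
  inv := ⟨((u⁻¹ : Lˣ) : L), (mem_fixedField_iff N _).2 fun σ hσ => by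
    have h1 := hu σ hσ
    have h2 : σ (u : L) * σ ((u⁻¹ : Lˣ) : L) = 1 := by rw [← map_mul]; simp
    rw [h1] at h2
    exact (Units.inv_eq_of_mul_eq_one_right h2).symm⟩
  val_inv := by ext; simp
  inv_val := by ext; simp

omit [FiniteDimensional K L] in
@[simp] lemma coe_unitOfFixed (N : Subgroup (L ≃ₐ[K] L)) (u : Lˣ)
    (hu : ∀ σ ∈ N, σ (u : L) = (u : L)) : (((unitOfFixed N u hu : (fixedField N)ˣ) :
      fixedField N) : L) = (u : L) := rfl

/-- **invariants of `Lˣ` under `N`** are the units of the fixed field. -/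
noncomputable def invariantsUnitsEquiv (N : Subgroup (L ≃ₐ[K] L)) :
    Representation.invariants ((Rep.ofAlgebraAutOnUnits K L).ρ.comp N.subtype) ≃ₗ[ℤ]
      Additive (fixedField N)ˣ :=
  AddEquiv.toIntLinearEquiv
    { toFun := fun x => Additive.ofMul
        (unitOfFixed N (x.1.toMul) ((mem_invariants_units_iff N x.1).1 x.2))
      invFun := fun v => ⟨Additive.ofMul (Units.map (fixedField N).val.toMonoidHom v.toMul),
        (mem_invariants_units_iff N _).2 fun σ hσ => by
          exact (mem_fixedField_iff N _).1 ((v.toMul : (fixedField N)ˣ) : fixedField N).2 σ hσ⟩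
      left_inv := fun x => by
        apply Subtype.ext
        apply Additive.toMul.injective
        apply Units.ext
        rfl
      right_inv := fun v => by
        apply Additive.toMul.injective
        apply Units.ext
        apply Subtype.ext
        rfl
      map_add' := fun x y => by
        apply Additive.toMul.injective
        apply Units.ext
        apply Subtype.ext
        rfl }

omit [FiniteDimensional K L] in
lemma coe_invariantsUnitsEquiv (N : Subgroup (L ≃ₐ[K] L))
    (x : Representation.invariants ((Rep.ofAlgebraAutOnUnits K L).ρ.comp N.subtype)) :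
    ((((invariantsUnitsEquiv N x).toMul : (fixedField N)ˣ) : fixedField N) : L) =
      ((Additive.toMul (x.1 : Additive Lˣ) : Lˣ) : L) := rfl

/-- **(G2)** `Hⁿ(G ⧸ N, (Lˣ)^N) ≅ Hⁿ(Gal(L^N/K), (L^N)ˣ)` for a normal subgroup `N`. -/
noncomputable def invIso [IsGalois K L] (N : Subgroup (L ≃ₐ[K] L)) [N.Normal] (n : ℕ) :
    groupCohomology ((Rep.ofAlgebraAutOnUnits K L).quotientToInvariants N) n ≅
      groupCohomology (Rep.ofAlgebraAutOnUnits K (fixedField N)) n :=
  groupCohomology.mapIso (IsGalois.normalAutEquivQuotient N) (invariantsUnitsEquiv N)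
    (fun g => by
      induction g using QuotientGroup.induction_on with
      | H σ =>
        ext x
        apply Additive.toMul.injective
        apply Units.ext
        apply Subtype.ext
        exact (AlgEquiv.restrictNormal_commutes σ (fixedField N)
          (((invariantsUnitsEquiv N x).toMul : (fixedField N)ˣ) : fixedField N)).symm) n

/-! ## 4. The layer `H ⧸ N` of a subquotient: the devissage shape -/

/-- the image of `N ≤ H` in `Gal(L/L^H)` -/
noncomputable def imageSubgroup (H : Subgroup (L ≃ₐ[K] L)) (N : Subgroup H) :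
    Subgroup (L ≃ₐ[fixedField H] L) :=
  N.map (subgroupEquivAlgEquiv H).toMonoidHom

instance imageSubgroup_normal (H : Subgroup (L ≃ₐ[K] L)) (N : Subgroup H) [hN : N.Normal] :
    (imageSubgroup H N).Normal :=
  Subgroup.Normal.map hN _ (subgroupEquivAlgEquiv H).surjective

/-- the field `L^N` as an extension of `L^H` -/
noncomputable def layerField (H : Subgroup (L ≃ₐ[K] L)) (N : Subgroup H) :
    IntermediateField (fixedField H) L :=
  fixedField (imageSubgroup H N)

lemma mem_layerField_iff (H : Subgroup (L ≃ₐ[K] L)) (N : Subgroup H) (x : L) :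
    x ∈ layerField H N ↔ ∀ σ : H, σ ∈ N → (σ : L ≃ₐ[K] L) x = x := by
  unfold layerField
  rw [mem_fixedField_iff]
  constructor
  · intro h σ hσ
    exact h (subgroupEquivAlgEquiv H σ) ⟨σ, hσ, rfl⟩
  · rintro h _ ⟨σ, hσ, rfl⟩
    exact h σ hσ

/-- **(G3)** the devissage shape: `Hⁿ(H ⧸ N, (Lˣ)^N) ≅ Hⁿ(Gal(L^N/L^H), (L^N)ˣ)` for
`N ◁ H ≤ Gal(L/K)`. -/
noncomputable def layerIso [IsGalois K L] (H : Subgroup (L ≃ₐ[K] L)) (N : Subgroup H)
    [N.Normal] (n : ℕ) :
    groupCohomology ((Rep.res H.subtype (Rep.ofAlgebraAutOnUnits K L)).quotientToInvariants N) n ≅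
      groupCohomology (Rep.ofAlgebraAutOnUnits (fixedField H) (layerField H N)) n :=
  quotientToInvariantsIso (subgroupEquivAlgEquiv H) (LinearEquiv.refl ℤ (Additive Lˣ))
      (res_compat H) N (imageSubgroup H N) rfl n ≪≫
    invIso (K := fixedField H) (imageSubgroup H N) n

/-- the Galois group of the layer -/
noncomputable def layerGalEquiv [IsGalois K L] (H : Subgroup (L ≃ₐ[K] L)) (N : Subgroup H)
    [N.Normal] : H ⧸ N ≃* (layerField H N ≃ₐ[fixedField H] layerField H N) :=
  (QuotientGroup.congr N (imageSubgroup H N) (subgroupEquivAlgEquiv H) rfl).trans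
    (IsGalois.normalAutEquivQuotient (imageSubgroup H N))

instance layerField_isGalois [IsGalois K L] (H : Subgroup (L ≃ₐ[K] L)) (N : Subgroup H)
    [N.Normal] : IsGalois (fixedField H) (layerField H N) :=
  IsGalois.of_fixedField_normal_subgroup (imageSubgroup H N)

lemma finrank_layerField [IsGalois K L] (H : Subgroup (L ≃ₐ[K] L)) (N : Subgroup H)
    [N.Normal] : Module.finrank (fixedField H) (layerField H N) = N.index := by
  rw [← IsGalois.card_aut_eq_finrank, ← Nat.card_congr (layerGalEquiv H N).toEquiv]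
  rfl

/-! ## 5. The same for subgroups given by an injective homomorphism -/

/-- the subgroup of `f.range` corresponding to `N ≤ H'` -/
noncomputable def rangeSubgroup {H' : Type} [Group H'] (f : H' →* (L ≃ₐ[K] L))
    (hf : Function.Injective f) (N : Subgroup H') : Subgroup f.range :=
  N.map (MonoidHom.ofInjective hf).toMonoidHom

instance rangeSubgroup_normal {H' : Type} [Group H'] (f : H' →* (L ≃ₐ[K] L))
    (hf : Function.Injective f) (N : Subgroup H') [hN : N.Normal] :
    (rangeSubgroup f hf N).Normal :=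
  Subgroup.Normal.map hN _ (MonoidHom.ofInjective hf).surjective

omit [FiniteDimensional K L] in
lemma index_rangeSubgroup {H' : Type} [Group H'] (f : H' →* (L ≃ₐ[K] L))
    (hf : Function.Injective f) (N : Subgroup H') :
    (rangeSubgroup f hf N).index = N.index :=
  Subgroup.index_map_equiv N (MonoidHom.ofInjective hf)

/-- **(G3')** the devissage shape for an injective `f : H' →* Gal(L/K)`. -/
noncomputable def layerIsoOfInjective [IsGalois K L] {H' : Type} [Group H']
    (f : H' →* (L ≃ₐ[K] L)) (hf : Function.Injective f) (N : Subgroup H') [N.Normal] (n : ℕ) :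
    groupCohomology ((Rep.res f (Rep.ofAlgebraAutOnUnits K L)).quotientToInvariants N) n ≅
      groupCohomology (Rep.ofAlgebraAutOnUnits (fixedField f.range)
        (layerField f.range (rangeSubgroup f hf N))) n :=
  quotientToInvariantsIso (MonoidHom.ofInjective hf) (LinearEquiv.refl ℤ (Additive Lˣ))
      (fun _ => rfl) N (rangeSubgroup f hf N) rfl n ≪≫
    layerIso f.range (rangeSubgroup f hf N) n

end Galois

end Fermat.Agent.CFT.H33
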