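/-
CFT project, layer B, package B-SECOND (helper33):
`|H²(Gal(L/K), Lˣ)|` divides `[L:K]` for every finite Galois extension, from the cyclic layers of
prime degree (Galois bridge `H33_GalBridge` + devissage `H40_Devissage`).
-/
import Fermat.Agent.CFT.H33_GalBridge
import Fermat.Agent.CFT.H40_Devissage

set_option autoImplicit false

namespace Fermat.Agent.CFT.H33

open CategoryTheory IntermediateField

variable {K L : Type} [Field K] [Field L] [Algebra K L] [FiniteDimensional K L] [IsGalois K L]

/-- The hypothesis on cyclic layers of prime degree, in FIELD form: for all intermediate fields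
`E ≤ F` of `L/K` with `F/E` Galois of prime degree `p`, `|H²(Gal(F/E), Fˣ)|` divides `p`. -/
def UnitsPrimeLayers (K L : Type) [Field K] [Field L] [Algebra K L] : Prop :=
  ∀ (E : IntermediateField K L) (F : IntermediateField E L) [IsGalois E F] (p : ℕ),
    p.Prime → Module.finrank E F = p →
      Nat.card (groupCohomology (Rep.ofAlgebraAutOnUnits E F) 2) ∣ p

/-- cardinalities of isomorphic `ℤ`-modules -/
lemma natCard_eq_of_iso {X Y : ModuleCat ℤ} (i : X ≅ Y) : Nat.card X = Nat.card Y :=
  Nat.card_congr i.toLinearEquiv.toEquiv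

lemma subsingleton_of_iso {X Y : ModuleCat ℤ} (i : X ≅ Y) [Subsingleton Y] : Subsingleton X :=
  i.toLinearEquiv.toEquiv.subsingleton

/-- **Galois bridge, packaged**: the field-form hypothesis gives helper40's `PrimeLayers` for
the `Gal(L/K)`-module `Lˣ`. -/
theorem primeLayers_units (h : UnitsPrimeLayers K L) :
    H40.PrimeLayers (Rep.ofAlgebraAutOnUnits K L) := by
  intro H' _ _ f hf N _ p hp hN
  have i1 := layerIsoOfInjective f hf N 1
  have i2 := layerIsoOfInjective f hf N 2
  refine ⟨?_, ?_⟩
  · have : Subsingleton (groupCohomology (Rep.ofAlgebraAutOnUnits (fixedField f.range)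
        (layerField f.range (rangeSubgroup f hf N))) 1) :=
      (inferInstance : Subsingleton (groupCohomology.H1 (Rep.ofAlgebraAutOnUnits
        (fixedField f.range) (layerField f.range (rangeSubgroup f hf N)))))
    exact subsingleton_of_iso i1
  · rw [natCard_eq_of_iso i2]
    refine h (fixedField f.range) (layerField f.range (rangeSubgroup f hf N)) p hp ?_
    rw [finrank_layerField, index_rangeSubgroup, hN]

/-- **B-SECOND (general fields)**: if every cyclic layer of prime degree `p` of `L/K` has
`|H²|` dividing `p`, then `|H²(Gal(L/K), Lˣ)|` divides `[L:K]` (in particular it is finite). -/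
theorem card_H2_units_dvd_finrank (hT : H40.TransferInput ℤ) (hI : H40.InfResInput ℤ)
    (h : UnitsPrimeLayers K L) :
    Nat.card (groupCohomology (Rep.ofAlgebraAutOnUnits K L) 2) ∣ Module.finrank K L := by
  have := (H40.devissage hT hI (Rep.ofAlgebraAutOnUnits K L) (primeLayers_units h)).2
  rwa [IsGalois.card_aut_eq_finrank] at this

/-- the same for every subgroup -/
theorem card_H2_units_res_dvd_card (hT : H40.TransferInput ℤ) (hI : H40.InfResInput ℤ)
    (h : UnitsPrimeLayers K L) (S : Subgroup (L ≃ₐ[K] L)) :
    Subsingleton (groupCohomology (Rep.res S.subtype (Rep.ofAlgebraAutOnUnits K L)) 1) ∧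
    Nat.card (groupCohomology (Rep.res S.subtype (Rep.ofAlgebraAutOnUnits K L)) 2) ∣ Nat.card S :=
  H40.devissage_subgroup hT hI (Rep.ofAlgebraAutOnUnits K L) (primeLayers_units h) S

omit [FiniteDimensional K L] [IsGalois K L] in
/-- a Galois extension of prime degree is cyclic -/
lemma isCyclic_of_finrank_prime (E : IntermediateField K L) (F : IntermediateField E L)
    [FiniteDimensional E F] [IsGalois E F] (p : ℕ) (hp : p.Prime)
    (h : Module.finrank E F = p) : IsCyclic (F ≃ₐ[E] F) := by
  have : Fact p.Prime := ⟨hp⟩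
  exact isCyclic_of_prime_card (p := p) (by rw [IsGalois.card_aut_eq_finrank, h])

/-! ### Local fields: helper3's Skeleton2 statement `card_H2_dvd_finrank` -/

section Local

/-- Output shape of B-HERBRAND (`card_H2_of_isCyclic` of Skeleton2), as a hypothesis. -/
def CyclicH2Card (q : ℕ) [Fact q.Prime] : Prop :=
  ∀ (K L : Type) [Field K] [Algebra ℚ_[q] K] [FiniteDimensional ℚ_[q] K]
    [Field L] [Algebra ℚ_[q] L] [FiniteDimensional ℚ_[q] L]
    [Algebra K L] [IsScalarTower ℚ_[q] K L] [IsGalois K L] [IsCyclic (L ≃ₐ[K] L)],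
    Nat.card (groupCohomology (Rep.ofAlgebraAutOnUnits K L) 2) = Module.finrank K L

variable (q : ℕ) [Fact q.Prime]
  (K L : Type) [Field K] [Algebra ℚ_[q] K] [FiniteDimensional ℚ_[q] K]
  [Field L] [Algebra ℚ_[q] L] [FiniteDimensional ℚ_[q] L]
  [Algebra K L] [IsScalarTower ℚ_[q] K L]

theorem unitsPrimeLayers_of_cyclic (hc : CyclicH2Card q) : UnitsPrimeLayers K L := by
  intro E F _ p hp hEF
  have : FiniteDimensional K L := FiniteDimensional.right ℚ_[q] K L
  have : FiniteDimensional ℚ_[q] E := FiniteDimensional.trans ℚ_[q] K E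
  have : IsScalarTower ℚ_[q] E L := IsScalarTower.of_algebraMap_eq (fun x => rfl)
  have : FiniteDimensional ℚ_[q] F := FiniteDimensional.trans ℚ_[q] E F
  have := isCyclic_of_finrank_prime E F p hp hEF
  rw [hc E F, hEF]

/-- **B-SECOND** (Skeleton2 `card_H2_dvd_finrank`), from the cyclic case and the two layer-A
inputs. -/
theorem local_card_H2_dvd_finrank (hT : H40.TransferInput ℤ) (hI : H40.InfResInput ℤ)
    (hc : CyclicH2Card q) [IsGalois K L] :
    Nat.card (groupCohomology.H2 (Rep.ofAlgebraAutOnUnits K L)) ∣ Module.finrank K L := by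
  have : FiniteDimensional K L := FiniteDimensional.right ℚ_[q] K L
  exact card_H2_units_dvd_finrank hT hI (unitsPrimeLayers_of_cyclic q K L hc)

end Local

end Fermat.Agent.CFT.H33
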