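/-
CFT project, layer B, package B-SECOND (helper33), FINAL form:
Skeleton3 statements `finite_H2`, `card_H2_le_finrank` (+ divisibility and subgroup forms),
with the single remaining input B-HERBRAND `card_H2_of_prime_degree` as a named hypothesis.
-/
import Fermat.Agent.CFT.H33_LocalSecond
import Fermat.Agent.CFT.H40_DevissageFinal

set_option autoImplicit false

namespace Fermat.Agent.CFT.H33

open CategoryTheory IntermediateField

/-! ### General fields -/

section General

variable {K L : Type} [Field K] [Field L] [Algebra K L] [FiniteDimensional K L] [IsGalois K L]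

/-- hypothesis-free (layer A inputs discharged) form of `card_H2_units_dvd_finrank` -/
theorem card_H2_units_dvd_finrank' (h : UnitsPrimeLayers K L) :
    Nat.card (groupCohomology (Rep.ofAlgebraAutOnUnits K L) 2) ∣ Module.finrank K L :=
  card_H2_units_dvd_finrank (H40.transferInput ℤ) (H40.infResInput ℤ) h

/-- for every subgroup `S` of `Gal(L/K)`: `H¹(S, Lˣ) = 0`, `H²(S, Lˣ)` is finite of order
dividing `|S|`. -/
theorem units_res_facts (h : UnitsPrimeLayers K L) (S : Subgroup (L ≃ₐ[K] L)) :
    Subsingleton (groupCohomology (Rep.res S.subtype (Rep.ofAlgebraAutOnUnits K L)) 1) ∧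
    Finite (groupCohomology (Rep.res S.subtype (Rep.ofAlgebraAutOnUnits K L)) 2) ∧
    Nat.card (groupCohomology (Rep.res S.subtype (Rep.ofAlgebraAutOnUnits K L)) 2) ∣ Nat.card S ∧
    Nat.card (groupCohomology (Rep.res S.subtype (Rep.ofAlgebraAutOnUnits K L)) 2) ≤ Nat.card S := by
  obtain ⟨h1, h2⟩ := card_H2_units_res_dvd_card (H40.transferInput ℤ) (H40.infResInput ℤ) h S
  have hS : Nat.card S ≠ 0 := Nat.card_pos.ne'
  have h0 : Nat.card (groupCohomology (Rep.res S.subtype (Rep.ofAlgebraAutOnUnits K L)) 2) ≠ 0 :=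
    fun h0 => hS (Nat.eq_zero_of_zero_dvd (h0 ▸ h2))
  exact ⟨h1, (Nat.card_ne_zero.1 h0).2, h2, Nat.le_of_dvd (Nat.pos_of_ne_zero hS) h2⟩

theorem finite_H2_units (h : UnitsPrimeLayers K L) :
    Finite (groupCohomology (Rep.ofAlgebraAutOnUnits K L) 2) := by
  have h2 := card_H2_units_dvd_finrank' h
  have hpos : Module.finrank K L ≠ 0 := Module.finrank_pos.ne'
  have h0 : Nat.card (groupCohomology (Rep.ofAlgebraAutOnUnits K L) 2) ≠ 0 :=
    fun h0 => hpos (Nat.eq_zero_of_zero_dvd (h0 ▸ h2))
  exact (Nat.card_ne_zero.1 h0).2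

end General

/-! ### Local fields: Skeleton3 package B-SECOND -/

section Local

/-- Output shape of B-HERBRAND (Skeleton3 `card_H2_of_prime_degree`), as a hypothesis. -/
def PrimeDegreeH2Card (q : ℕ) [Fact q.Prime] : Prop :=
  ∀ (K L : Type) [Field K] [Algebra ℚ_[q] K] [FiniteDimensional ℚ_[q] K]
    [Field L] [Algebra ℚ_[q] L] [FiniteDimensional ℚ_[q] L]
    [Algebra K L] [IsScalarTower ℚ_[q] K L] [IsGalois K L] (p : ℕ), p.Prime →
    Module.finrank K L = p →
    Nat.card (groupCohomology.H2 (Rep.ofAlgebraAutOnUnits K L)) = p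

variable (q : ℕ) [Fact q.Prime]
  (K L : Type) [Field K] [Algebra ℚ_[q] K] [FiniteDimensional ℚ_[q] K]
  [Field L] [Algebra ℚ_[q] L] [FiniteDimensional ℚ_[q] L]
  [Algebra K L] [IsScalarTower ℚ_[q] K L]

theorem unitsPrimeLayers_of_primeDegree (hc : PrimeDegreeH2Card q) : UnitsPrimeLayers K L := by
  intro E F _ p hp hEF
  have : FiniteDimensional K L := FiniteDimensional.right ℚ_[q] K L
  have : FiniteDimensional ℚ_[q] E := FiniteDimensional.trans ℚ_[q] K E
  have : IsScalarTower ℚ_[q] E L := IsScalarTower.of_algebraMap_eq (fun x => rfl)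
  have : FiniteDimensional ℚ_[q] F := FiniteDimensional.trans ℚ_[q] E F
  have := hc E F p hp hEF
  exact this ▸ dvd_rfl

/-- Skeleton3 `finite_H2`. -/
theorem finite_H2 (hc : PrimeDegreeH2Card q) [IsGalois K L] :
    Finite (groupCohomology.H2 (Rep.ofAlgebraAutOnUnits K L)) := by
  have : FiniteDimensional K L := FiniteDimensional.right ℚ_[q] K L
  exact finite_H2_units (unitsPrimeLayers_of_primeDegree q K L hc)

/-- Skeleton2 `card_H2_dvd_finrank`. -/
theorem card_H2_dvd_finrank (hc : PrimeDegreeH2Card q) [IsGalois K L] :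
    Nat.card (groupCohomology.H2 (Rep.ofAlgebraAutOnUnits K L)) ∣ Module.finrank K L := by
  have : FiniteDimensional K L := FiniteDimensional.right ℚ_[q] K L
  exact card_H2_units_dvd_finrank' (unitsPrimeLayers_of_primeDegree q K L hc)

/-- Skeleton3 `card_H2_le_finrank`. -/
theorem card_H2_le_finrank (hc : PrimeDegreeH2Card q) [IsGalois K L] :
    Nat.card (groupCohomology.H2 (Rep.ofAlgebraAutOnUnits K L)) ≤ Module.finrank K L := by
  have : FiniteDimensional K L := FiniteDimensional.right ℚ_[q] K L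
  exact Nat.le_of_dvd Module.finrank_pos (card_H2_dvd_finrank q K L hc)

/-- the hypotheses `h1`, `hfin`, `hcard` of Skeleton3 `isClassModule_of_addOrderOf`, for
`C = Lˣ`. -/
theorem local_units_res_facts (hc : PrimeDegreeH2Card q) [IsGalois K L]
    (S : Subgroup (L ≃ₐ[K] L)) :
    Subsingleton (groupCohomology (Rep.res S.subtype (Rep.ofAlgebraAutOnUnits K L)) 1) ∧
    Finite (groupCohomology (Rep.res S.subtype (Rep.ofAlgebraAutOnUnits K L)) 2) ∧
    Nat.card (groupCohomology (Rep.res S.subtype (Rep.ofAlgebraAutOnUnits K L)) 2) ∣ Nat.card S ∧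
    Nat.card (groupCohomology (Rep.res S.subtype (Rep.ofAlgebraAutOnUnits K L)) 2) ≤ Nat.card S := by
  have : FiniteDimensional K L := FiniteDimensional.right ℚ_[q] K L
  exact units_res_facts (unitsPrimeLayers_of_primeDegree q K L hc) S

end Local

end Fermat.Agent.CFT.H33
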