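import Mathlib
import Fermat.Agent.CFT.H91_Formation
import Fermat.Agent.CFT.H66_ShapiroExplicit
import Fermat.Agent.CFT.H40_DevissageFinal

/-!
# CFT / layer A (helper66): the class-module criterion

Pure finite-group cohomology, in the vocabulary of `H91_Formation` (`resSub`, `IsClassModule`,
`IsPClassModule`).

* `index_nsmul_eq_zero_of_resSub_eq_zero` : `res_H x = 0 → [G:H] • x = 0` for Mathlib's restriction
  (from `corS_map_apply` of `H66_ShapiroExplicit`).
* `isClassModule_of_addOrderOf` : a class `γ ∈ H²(G,C)` of order `#G`, `H¹(H,C) = 0` and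
  `#H²(H,C) ≤ #H` for all subgroups `H` ⇒ `IsClassModule C γ`   (Skeleton3 shape; no `hcor`).
* `isPClassModule_of_dvd_addOrderOf` : the `p`-primary version.
* `isClassModule_of_primeLayers`, `isPClassModule_of_pLayers` : the same with the first/second
  inequality only for the cyclic layers of prime degree (through helper40's dévissage).
-/

set_option autoImplicit false

noncomputable section

open CategoryTheory

namespace Fermat.Agent.CFT.H66

/-! ### Elementary group theory -/

section Algebra

/-- A finite additive group with at most `n` elements, containing an element `x` all of whose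
annihilating multiples are multiples of `n`, is cyclic of order `n` generated by `x`. -/
theorem addOrderOf_eq_and_generated {M : Type*} [AddCommGroup M] [Finite M] (x : M) (n : ℕ)
    (hcard : Nat.card M ≤ n) (hx : ∀ m : ℕ, m • x = 0 → n ∣ m) :
    addOrderOf x = n ∧ Nat.card M = n ∧ ∀ y : M, ∃ m : ℤ, y = m • x := by
  have hpos : 0 < addOrderOf x := addOrderOf_pos x
  have h1 : n ∣ addOrderOf x := hx _ (addOrderOf_nsmul_eq_zero x)
  have h2 : addOrderOf x ∣ Nat.card M := addOrderOf_dvd_natCard x
  have hMpos : 0 < Nat.card M := Nat.card_pos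
  have h3 : addOrderOf x ≤ Nat.card M := Nat.le_of_dvd hMpos h2
  have h4 : n ≤ addOrderOf x := Nat.le_of_dvd hpos h1
  have ho : addOrderOf x = n := le_antisymm (h3.trans hcard) h4
  have hc : Nat.card M = n := le_antisymm hcard (ho ▸ h3)
  refine ⟨ho, hc, ?_⟩
  have htop : AddSubgroup.zmultiples x = ⊤ := by
    apply AddSubgroup.eq_top_of_card_eq
    rw [Nat.card_zmultiples, ho, hc]
  intro y
  have hy : y ∈ AddSubgroup.zmultiples x := htop ▸ AddSubgroup.mem_top y
  obtain ⟨m, hm⟩ := AddSubgroup.mem_zmultiples_iff.mp hy
  exact ⟨m, hm.symm⟩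

end Algebra

/-! ### `res x = 0 ⇒ index • x = 0` for Mathlib's restriction -/

section ResIndex

variable {k : Type} [CommRing k] {G : Type} [Group G]

/-- `hcor` of Skeleton3: a class killed by (Mathlib's) restriction to `H` is killed by `[G:H]`. -/
theorem index_nsmul_eq_zero_of_resSub_eq_zero (C : Rep.{0} k G) (H : Subgroup G) [H.FiniteIndex]
    (n : ℕ) (x : groupCohomology C n) (hx : (resSub C H n).hom x = 0) : H.index • x = 0 := by
  have h := corS_map_apply H C n x
  have hx' : (groupCohomology.map H.subtype (𝟙 (Rep.res H.subtype C)) n).hom x = 0 := hx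
  rw [hx', map_zero] at h
  exact h.symm

/-- `m • res_H x = 0 ⇒ ([G:H] * m) • x = 0`. -/
theorem index_mul_nsmul_eq_zero_of_nsmul_resSub_eq_zero (C : Rep.{0} k G) (H : Subgroup G)
    [H.FiniteIndex] (n : ℕ) (x : groupCohomology C n) (m : ℕ)
    (hx : m • (resSub C H n).hom x = 0) : (H.index * m) • x = 0 := by
  rw [mul_smul]
  apply index_nsmul_eq_zero_of_resSub_eq_zero C H n
  rw [map_nsmul]
  exact hx

end ResIndex

/-! ### The criterion -/

section Criterion

variable {k : Type} [CommRing k] {G : Type} [Group G] [Finite G]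

/-- **Criterion, with `hcor` as a hypothesis** (Skeleton3 `isClassModule_of_addOrderOf`, for a
general coefficient ring `k`). -/
theorem isClassModule_of_addOrderOf_of_hcor (C : Rep.{0} k G) (γ : groupCohomology C 2)
    (h1 : ∀ H : Subgroup G, Subsingleton (groupCohomology (Rep.res H.subtype C) 1))
    (hfin : ∀ H : Subgroup G, Finite (groupCohomology (Rep.res H.subtype C) 2))
    (hcard : ∀ H : Subgroup G, Nat.card (groupCohomology (Rep.res H.subtype C) 2) ≤ Nat.card H)
    (hcor : ∀ (H : Subgroup G) (x : groupCohomology C 2),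
      (resSub C H 2).hom x = 0 → H.index • x = 0)
    (hγ : addOrderOf γ = Nat.card G) : IsClassModule C γ := by
  have key : ∀ H : Subgroup G, ∀ m : ℕ, m • (resSub C H 2).hom γ = 0 → Nat.card H ∣ m := by
    intro H m hm
    have h0 : H.index • (m • γ) = 0 := by
      apply hcor H
      rw [map_nsmul]
      exact hm
    rw [← mul_smul] at h0
    have hd : Nat.card G ∣ H.index * m := hγ ▸ addOrderOf_dvd_of_nsmul_eq_zero h0
    rw [← H.card_mul_index, mul_comm] at hd
    have hipos : 0 < H.index := Nat.pos_of_ne_zero H.index_ne_zero_of_finite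
    exact Nat.dvd_of_mul_dvd_mul_left hipos hd
  refine ⟨h1, fun H x => ?_, fun H => ?_⟩
  · have := hfin H
    exact (addOrderOf_eq_and_generated _ _ (hcard H) (key H)).2.2 x
  · have := hfin H
    exact (addOrderOf_eq_and_generated _ _ (hcard H) (key H)).1

/-- **Criterion** (no `hcor`): a class `γ ∈ H²(G,C)` of order `#G`, with `H¹(H,C) = 0` and
`#H²(H,C) ≤ #H` for every subgroup `H`, makes `C` a class module. -/
theorem isClassModule_of_addOrderOf' (C : Rep.{0} k G) (γ : groupCohomology C 2)
    (h1 : ∀ H : Subgroup G, Subsingleton (groupCohomology (Rep.res H.subtype C) 1))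
    (hfin : ∀ H : Subgroup G, Finite (groupCohomology (Rep.res H.subtype C) 2))
    (hcard : ∀ H : Subgroup G, Nat.card (groupCohomology (Rep.res H.subtype C) 2) ≤ Nat.card H)
    (hγ : addOrderOf γ = Nat.card G) : IsClassModule C γ :=
  isClassModule_of_addOrderOf_of_hcor C γ h1 hfin hcard
    (fun H x hx => index_nsmul_eq_zero_of_resSub_eq_zero C H 2 x hx) hγ

/-- Skeleton3 `isClassModule_of_addOrderOf` VERBATIM (`k = ℤ`, with the now redundant `hcor`). -/
theorem isClassModule_of_addOrderOf {G : Type} [Group G] [Finite G] (C : Rep.{0} ℤ G)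
    (γ : groupCohomology C 2)
    (h1 : ∀ H : Subgroup G, Subsingleton (groupCohomology (Rep.res H.subtype C) 1))
    (hfin : ∀ H : Subgroup G, Finite (groupCohomology (Rep.res H.subtype C) 2))
    (hcard : ∀ H : Subgroup G, Nat.card (groupCohomology (Rep.res H.subtype C) 2) ≤ Nat.card H)
    (_hcor : ∀ (H : Subgroup G) (x : groupCohomology C 2),
      (resSub C H 2).hom x = 0 → H.index • x = 0)
    (hγ : addOrderOf γ = Nat.card G) : IsClassModule C γ :=
  isClassModule_of_addOrderOf' C γ h1 hfin hcard hγ

omit [Finite G] in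
/-- the cardinality statement that comes with the criterion: `#H²(H,C) = #H`. -/
theorem card_H2_eq_of_isClassModule (C : Rep.{0} k G) (γ : groupCohomology C 2)
    (h : IsClassModule C γ) (H : Subgroup G) :
    Nat.card (groupCohomology (Rep.res H.subtype C) 2) = Nat.card H := by
  have hgen : AddSubgroup.zmultiples ((resSub C H 2).hom γ) = ⊤ := by
    rw [eq_top_iff]
    intro x _
    obtain ⟨n, hn⟩ := h.h2_gen H x
    exact AddSubgroup.mem_zmultiples_iff.mpr ⟨n, hn.symm⟩
  have h2 := Nat.card_zmultiples ((resSub C H 2).hom γ)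
  rw [hgen, h.h2_order H] at h2
  rw [← h2]
  exact (Nat.card_congr (AddSubgroup.topEquiv (G := groupCohomology (Rep.res H.subtype C) 2)).toEquiv).symm

/-- **`p`-primary criterion.**  If `#G_p` (the `p`-part of `#G`) divides the order of
`γ ∈ H²(G,C)`, and every `p`-subgroup `H` has `H¹(H,C) = 0` and `#H²(H,C) ≤ #H`, then
`IsPClassModule p C γ`. -/
theorem isPClassModule_of_dvd_addOrderOf (p : ℕ) [Fact p.Prime] (C : Rep.{0} k G)
    (γ : groupCohomology C 2)
    (h1 : ∀ H : Subgroup G, IsPGroup p H →
      Subsingleton (groupCohomology (Rep.res H.subtype C) 1))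
    (hfin : ∀ H : Subgroup G, IsPGroup p H → Finite (groupCohomology (Rep.res H.subtype C) 2))
    (hcard : ∀ H : Subgroup G, IsPGroup p H →
      Nat.card (groupCohomology (Rep.res H.subtype C) 2) ≤ Nat.card H)
    (hγ : p ^ (Nat.card G).factorization p ∣ addOrderOf γ) : IsPClassModule p C γ := by
  have hp : p.Prime := Fact.out
  have key : ∀ H : Subgroup G, IsPGroup p H →
      ∀ m : ℕ, m • (resSub C H 2).hom γ = 0 → Nat.card H ∣ m := by
    intro H hH m hm
    have h0 := index_mul_nsmul_eq_zero_of_nsmul_resSub_eq_zero C H 2 γ m hm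
    have hd : p ^ (Nat.card G).factorization p ∣ H.index * m :=
      hγ.trans (addOrderOf_dvd_of_nsmul_eq_zero h0)
    obtain ⟨a, ha⟩ := hH.exists_card_eq
    have hGpos : Nat.card G ≠ 0 := Nat.card_pos.ne'
    have hipos : H.index ≠ 0 := H.index_ne_zero_of_finite
    have hfac : (Nat.card G).factorization p = a + H.index.factorization p := by
      rw [← H.card_mul_index, Nat.factorization_mul (by rw [ha]; exact pow_ne_zero _ hp.ne_zero)
        hipos, ha]
      simp [Nat.Prime.factorization_pow hp]
    -- write index = p^b * r with r coprime to p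
    obtain ⟨r, hrdef⟩ : ∃ r, r = H.index / p ^ H.index.factorization p := ⟨_, rfl⟩
    have hr : H.index = p ^ H.index.factorization p * r := by
      rw [hrdef]
      exact (Nat.ordProj_mul_ordCompl_eq_self H.index p).symm
    have hrcop : Nat.Coprime p r := by
      rw [hrdef]
      exact Nat.coprime_ordCompl hp hipos
    rw [hfac, pow_add] at hd
    have hd' : p ^ a * p ^ H.index.factorization p ∣ p ^ H.index.factorization p * (r * m) := by
      have : H.index * m = p ^ H.index.factorization p * (r * m) := by
        conv_lhs => rw [hr]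
        ring
      rw [← this]
      exact hd
    rw [mul_comm (p ^ a)] at hd'
    have hd'' : p ^ a ∣ r * m := Nat.dvd_of_mul_dvd_mul_left (pow_pos hp.pos _) hd'
    rw [ha]
    exact (Nat.Coprime.pow_left a hrcop).dvd_of_dvd_mul_left hd''
  refine ⟨h1, fun H hH x => ?_, fun H hH => ?_⟩
  · have := hfin H hH
    exact (addOrderOf_eq_and_generated _ _ (hcard H hH) (key H hH)).2.2 x
  · have := hfin H hH
    exact (addOrderOf_eq_and_generated _ _ (hcard H hH) (key H hH)).1

end Criterion

/-! ### The criterion from the cyclic layers of prime degree (through the dévissage) -/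

section Layers

variable {k : Type} [CommRing k] {G : Type} [Group G] [Finite G]

/-- helper40's dévissage in the three-facts form used by the criterion. -/
theorem facts_of_primeLayers (C : Rep.{0} k G) (hC : H40.PrimeLayers C) (H : Subgroup G) :
    Subsingleton (groupCohomology (Rep.res H.subtype C) 1) ∧
      Finite (groupCohomology (Rep.res H.subtype C) 2) ∧
      Nat.card (groupCohomology (Rep.res H.subtype C) 2) ≤ Nat.card H := by
  obtain ⟨hs, hd⟩ := H40.devissage_subgroup'' C hC H
  have hpos : 0 < Nat.card H := Nat.card_pos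
  have hne : Nat.card (groupCohomology (Rep.res H.subtype C) 2) ≠ 0 := by
    intro h0
    rw [h0, zero_dvd_iff] at hd
    exact hpos.ne' hd
  exact ⟨hs, Nat.finite_of_card_ne_zero hne, Nat.le_of_dvd hpos hd⟩

/-- **Criterion from prime layers**: first and second inequality for all cyclic layers of prime
degree (`H40.PrimeLayers`) and a class of order `#G` ⇒ class module. -/
theorem isClassModule_of_primeLayers (C : Rep.{0} k G) (hC : H40.PrimeLayers C)
    (γ : groupCohomology C 2) (hγ : addOrderOf γ = Nat.card G) : IsClassModule C γ :=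
  isClassModule_of_addOrderOf' C γ (fun H => (facts_of_primeLayers C hC H).1)
    (fun H => (facts_of_primeLayers C hC H).2.1) (fun H => (facts_of_primeLayers C hC H).2.2) hγ

/-- The hypothesis on cyclic layers of degree `p` inside `p`-subgroups only (the `p`-primary
analogue of `H40.PrimeLayers`): for every `p`-group `H'` with an injective map to `H` and every
normal subgroup `N` of `H'` of index `p`, the layer `H'/N` acting on `B^N` has `H¹ = 0` and
`#H² ∣ p`. -/
def PLayers (p : ℕ) {H : Type} [Group H] (B : Rep.{0} k H) : Prop :=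
  ∀ (H' : Type) [Group H'] [Finite H'] (f : H' →* H), Function.Injective f → IsPGroup p H' →
    ∀ (N : Subgroup H') [N.Normal], N.index = p →
      Subsingleton (groupCohomology ((Rep.res f B).quotientToInvariants N) 1) ∧
      Nat.card (groupCohomology ((Rep.res f B).quotientToInvariants N) 2) ∣ p

omit [Finite G] in
theorem PLayers.of_primeLayers (p : ℕ) [Fact p.Prime] (C : Rep.{0} k G) (hC : H40.PrimeLayers C) :
    PLayers p C := fun H' _ _ f hf _ N _ hN => hC H' f hf N p Fact.out hN

omit [Finite G] in
/-- restricted to a `p`-subgroup, the `p`-layers are all the prime layers. -/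
theorem PLayers.primeLayers_res (p : ℕ) [Fact p.Prime] (C : Rep.{0} k G) (hC : PLayers p C)
    (P : Subgroup G) (hP : IsPGroup p P) : H40.PrimeLayers (Rep.res P.subtype C) := by
  intro H' _ _ f hf N _ l hl hN
  have hH' : IsPGroup p H' := hP.of_injective f hf
  obtain ⟨a, ha⟩ := hH'.exists_card_eq
  have hdvd : l ∣ p ^ a := by
    rw [← ha, ← hN]
    exact N.index_dvd_card
  have hlp : l = p := (Nat.prime_dvd_prime_iff_eq hl Fact.out).mp (hl.dvd_of_dvd_pow hdvd)
  subst hlp
  exact hC H' (P.subtype.comp f) (P.subtype_injective.comp hf) hH' N hN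

/-- the three facts for `p`-subgroups from the `p`-layers. -/
theorem facts_of_pLayers (p : ℕ) [Fact p.Prime] (C : Rep.{0} k G) (hC : PLayers p C)
    (P : Subgroup G) (hP : IsPGroup p P) :
    Subsingleton (groupCohomology (Rep.res P.subtype C) 1) ∧
      Finite (groupCohomology (Rep.res P.subtype C) 2) ∧
      Nat.card (groupCohomology (Rep.res P.subtype C) 2) ≤ Nat.card P := by
  obtain ⟨hs, hd⟩ := H40.devissage'' (Rep.res P.subtype C) (hC.primeLayers_res p C P hP)
  have hpos : 0 < Nat.card P := Nat.card_pos
  have hne : Nat.card (groupCohomology (Rep.res P.subtype C) 2) ≠ 0 := by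
    intro h0
    rw [h0, zero_dvd_iff] at hd
    exact hpos.ne' hd
  exact ⟨hs, Nat.finite_of_card_ne_zero hne, Nat.le_of_dvd hpos hd⟩

/-- **`p`-primary criterion from the `p`-layers**: first and second inequality for the cyclic
layers of degree `p` in `p`-subgroups, and a class whose order is divisible by the `p`-part of
`#G` ⇒ `IsPClassModule p C γ`. -/
theorem isPClassModule_of_pLayers (p : ℕ) [Fact p.Prime] (C : Rep.{0} k G) (hC : PLayers p C)
    (γ : groupCohomology C 2) (hγ : p ^ (Nat.card G).factorization p ∣ addOrderOf γ) :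
    IsPClassModule p C γ :=
  isPClassModule_of_dvd_addOrderOf p C γ (fun P hP => (facts_of_pLayers p C hC P hP).1)
    (fun P hP => (facts_of_pLayers p C hC P hP).2.1)
    (fun P hP => (facts_of_pLayers p C hC P hP).2.2) hγ

end Layers

end Fermat.Agent.CFT.H66
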