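/-
helper85 — CFT: inflation–restriction along a short exact sequence of groups
`1 → T → G → Q → 1` with change of coefficients (Mathlib + `H85_InfRes` only).

* `isIso_map_of_bijective` : `groupCohomology.map f φ n` is an isomorphism when `f` and `φ` are
  bijective.
* `infRes_gen` : for `g : T →* G` injective, `f : G →* Q` surjective with `range g = ker f`,
  `φ : res f B ⟶ A` injective with image the `T`-invariants of `A`, `ψ : res g A ⟶ C` bijective
  and `Hⁱ(T, C) = 0` for `1 ≤ i < n`:
  `map f φ n` is injective, `ker (map g ψ n) ⊆ range (map f φ n)` and `map g ψ n ∘ map f φ n = 0`.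
-/
import Fermat.Agent.CFT.H85_InfRes

namespace Fermat.Agent.CFT.H85

open CategoryTheory Limits groupCohomology Rep

universe u

variable {k : Type u} [CommRing k]

section IsoMap

variable {G H : Type u} [Group G] [Group H]

/-- The map on cohomology induced by a bijective group homomorphism and a bijective
morphism of coefficients is an isomorphism. -/
theorem isIso_map_of_bijective (f : G →* H) (hf : Function.Bijective f) {A : Rep k H}
    {B : Rep k G} (φ : res f A ⟶ B) (hφ : Function.Bijective φ.hom) (n : ℕ) :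
    IsIso (map f φ n) := by
  let e : G ≃* H := MulEquiv.ofBijective f hf
  let e' : B.V ≃ₗ[k] A.V := (LinearEquiv.ofBijective φ.hom.toLinearMap hφ).symm
  have he : ∀ g, e'.toLinearMap ∘ₗ B.ρ g = A.ρ (e g) ∘ₗ e'.toLinearMap := by
    intro g
    ext b
    obtain ⟨a, rfl⟩ := hφ.2 b
    have h1 : e' (φ.hom a) = a := (LinearEquiv.ofBijective φ.hom.toLinearMap hφ).symm_apply_apply a
    have h2 : B.ρ g (φ.hom a) = φ.hom (A.ρ (f g) a) := (hom_comm_apply φ g a).symm
    have h3 : e' (φ.hom (A.ρ (f g) a)) = A.ρ (f g) a :=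
      (LinearEquiv.ofBijective φ.hom.toLinearMap hφ).symm_apply_apply _
    simp only [LinearMap.comp_apply, LinearEquiv.coe_coe]
    rw [h2, h3, h1]
    rfl
  have key : (mapIso e e' he n).inv = map f φ n := by
    rw [mapIso_inv]
    exact map_congr (by ext; rfl) (by ext b; rfl) n
  rw [← key]
  infer_instance

end IsoMap

section Gen

variable {T G Q : Type u} [Group T] [Group G] [Group Q]
  (g : T →* G) (f : G →* Q) {A : Rep k G} {B : Rep k Q} {C : Rep k T}

/-- The homomorphism `T →* ker f` induced by `g` when `range g = ker f`. -/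
def toKer (hgf : g.range = f.ker) : T →* f.ker :=
  g.codRestrict f.ker fun t => by
    rw [← hgf]
    exact ⟨t, rfl⟩

lemma toKer_bijective (hg : Function.Injective g) (hgf : g.range = f.ker) :
    Function.Bijective (toKer g f hgf) := by
  refine ⟨fun a b hab => hg (congrArg Subtype.val hab), fun s => ?_⟩
  have hs : (s : G) ∈ g.range := by
    rw [hgf]
    exact s.2
  obtain ⟨t, ht⟩ := hs
  exact ⟨t, Subtype.ext ht⟩

/-- `ψ : res g A ⟶ C` seen as a morphism out of the double restriction. -/
def kerCoeff (hgf : g.range = f.ker) (ψ : res g A ⟶ C) :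
    res (toKer g f hgf) (res f.ker.subtype A) ⟶ C :=
  ofHom ⟨ψ.hom.toLinearMap, fun t => ψ.hom.2 t⟩

lemma map_eq_restriction_comp (hgf : g.range = f.ker) (ψ : res g A ⟶ C) (n : ℕ) :
    map g ψ n = restriction A f.ker n ≫ map (toKer g f hgf) (kerCoeff g f hgf ψ) n := by
  rw [restriction, ← map_comp]
  exact map_congr (by ext; rfl) (by ext; rfl) n

/-- `φ : res f B ⟶ A` corestricted to the invariants of `ker f`. -/
noncomputable def invCoeff (φ : res f B ⟶ A) :
    res (QuotientGroup.kerLift f) B ⟶ A.quotientToInvariants f.ker :=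
  ofHom ⟨LinearMap.codRestrict _ φ.hom.toLinearMap (fun b s => by
      have h : φ.hom (B.ρ (f (s : G)) b) = A.ρ (s : G) (φ.hom b) := hom_comm_apply φ (s : G) b
      have h1 : f (s : G) = 1 := s.2
      rw [h1, map_one] at h
      exact h.symm), fun x => by
    induction x using QuotientGroup.induction_on with | H x =>
    ext b
    exact hom_comm_apply φ x b⟩

lemma invCoeff_apply (φ : res f B ⟶ A) (b : B) : ((invCoeff f φ).hom b).1 = φ.hom b := rfl

lemma map_eq_comp_inflation (φ : res f B ⟶ A) (n : ℕ) :
    map f φ n = map (QuotientGroup.kerLift f) (invCoeff f φ) n ≫ inflation A f.ker n := by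
  rw [inflation, ← map_comp]
  exact map_congr (by ext; rfl) (by ext; rfl) n

lemma invCoeff_bijective (φ : res f B ⟶ A) (hφ : Function.Injective φ.hom)
    (hφr : ∀ a : A, (∀ s : f.ker, A.ρ (s : G) a = a) → ∃ b, φ.hom b = a) :
    Function.Bijective (invCoeff f φ).hom := by
  refine ⟨fun a b hab => hφ (congrArg Subtype.val hab), fun a => ?_⟩
  obtain ⟨b, hb⟩ := hφr a.1 a.2
  exact ⟨b, Subtype.ext hb⟩

lemma kerLift_bijective (hf : Function.Surjective f) :
    Function.Bijective (QuotientGroup.kerLift f) := by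
  refine ⟨QuotientGroup.kerLift_injective f, fun q => ?_⟩
  obtain ⟨x, rfl⟩ := hf q
  exact ⟨(x : G ⧸ f.ker), rfl⟩

/-- **Inflation–restriction along a short exact sequence of groups** `1 → T → G → Q → 1`,
with coefficients `B` (for `Q`), `A` (for `G`), `C` (for `T`) related by `φ : B → A` identifying
`B` with the `T`-invariants of `A`, and a bijection `ψ : A → C`. -/
theorem infRes_gen (hg : Function.Injective g) (hf : Function.Surjective f)
    (hgf : g.range = f.ker) (φ : res f B ⟶ A) (hφ : Function.Injective φ.hom)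
    (hφr : ∀ a : A, (∀ t : T, A.ρ (g t) a = a) → ∃ b, φ.hom b = a)
    (ψ : res g A ⟶ C) (hψ : Function.Bijective ψ.hom) {n : ℕ} (hn : 1 ≤ n)
    (hC : ∀ i, 1 ≤ i → i < n → IsZero (groupCohomology C i)) :
    Function.Injective (map f φ n) ∧
    (∀ x, map g ψ n x = 0 → ∃ y, map f φ n y = x) ∧
    (∀ y, map g ψ n (map f φ n y) = 0) := by
  have hψ' : Function.Bijective (kerCoeff g f hgf ψ).hom := hψ
  have iso2 : ∀ i, IsIso (map (toKer g f hgf) (kerCoeff g f hgf ψ) i) := fun i =>
    isIso_map_of_bijective _ (toKer_bijective g f hg hgf) _ hψ' i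
  have hS : ∀ i, 1 ≤ i → i < n → IsZero (groupCohomology (res f.ker.subtype A) i) :=
    fun i h1 h2 => (hC i h1 h2).of_iso
      (@asIso _ _ _ _ (map (toKer g f hgf) (kerCoeff g f hgf ψ) i) (iso2 i))
  have hφr' : ∀ a : A, (∀ s : f.ker, A.ρ (s : G) a = a) → ∃ b, φ.hom b = a := by
    intro a ha
    refine hφr a fun t => ?_
    have : g t ∈ f.ker := by
      rw [← hgf]
      exact ⟨t, rfl⟩
    exact ha ⟨g t, this⟩
  have iso1 : IsIso (map (QuotientGroup.kerLift f) (invCoeff f φ) n) :=
    isIso_map_of_bijective _ (kerLift_bijective f hf) _ (invCoeff_bijective f φ hφ hφr') n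
  have inj1 : Function.Injective (map (QuotientGroup.kerLift f) (invCoeff f φ) n) :=
    (ModuleCat.mono_iff_injective _).1 inferInstance
  have surj1 : Function.Surjective (map (QuotientGroup.kerLift f) (invCoeff f φ) n) :=
    (ModuleCat.epi_iff_surjective _).1 inferInstance
  have inj2 : Function.Injective (map (toKer g f hgf) (kerCoeff g f hgf ψ) n) :=
    haveI := iso2 n
    (ModuleCat.mono_iff_injective _).1 inferInstance
  have e1 : ∀ y, map f φ n y =
      inflation A f.ker n (map (QuotientGroup.kerLift f) (invCoeff f φ) n y) := by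
    intro y
    rw [map_eq_comp_inflation]
    rfl
  have e2 : ∀ x, map g ψ n x =
      map (toKer g f hgf) (kerCoeff g f hgf ψ) n (restriction A f.ker n x) := by
    intro x
    rw [map_eq_restriction_comp g f hgf]
    rfl
  refine ⟨?_, ?_, ?_⟩
  · intro y y' hyy'
    rw [e1, e1] at hyy'
    exact inj1 (inflation_injective hn hS hyy')
  · intro x hx
    rw [e2] at hx
    have hx' : restriction A f.ker n x = 0 := inj2 (by rw [hx, map_zero])
    obtain ⟨y', hy'⟩ := exists_inflation_eq_of_restriction_eq_zero hn hS x hx'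
    obtain ⟨y, rfl⟩ := surj1 y'
    exact ⟨y, by rw [e1, hy']⟩
  · intro y
    rw [e2, e1, restriction_inflation hn, map_zero]

end Gen

end Fermat.Agent.CFT.H85
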