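/-
helper85 — CFT layer B, package `B-INFRES-GAL`: inflation–restriction for the Galois cohomology
of `Lˣ` (Skeleton3, section `InfRes`, verbatim statements), from the abstract inflation–restriction
`H85.infRes_gen` and Hilbert 90.
-/
import Fermat.Agent.CFT.H85_InfResGen
import Fermat.Agent.CFT.LocMaps

set_option autoImplicit false
set_option linter.unusedSectionVars false

open IsLocalRing groupCohomology CategoryTheory

namespace Fermat.Agent.CFT.H85

open Fermat.Agent.CFT.Loc

section InfRes

variable (K F M : Type) [Field K] [Field F] [Field M] [Algebra K F] [Algebra K M] [Algebra F M]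
  [IsScalarTower K F M]

/-- `range (restrictScalarsHom K) = ker (restrictNormalHom F)` for a tower `K ⊆ F ⊆ M` with
`F/K` normal. -/
theorem range_restrictScalarsHom_eq_ker [Normal K F] :
    (AlgEquiv.restrictScalarsHom K : (M ≃ₐ[F] M) →* (M ≃ₐ[K] M)).range =
      (AlgEquiv.restrictNormalHom F : (M ≃ₐ[K] M) →* (F ≃ₐ[K] F)).ker := by
  ext σ
  constructor
  · rintro ⟨τ, rfl⟩
    rw [MonoidHom.mem_ker]
    ext x
    apply (algebraMap F M).injective
    have h := AlgEquiv.restrictNormal_commutes (AlgEquiv.restrictScalarsHom K τ) F x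
    refine Eq.trans h ?_
    exact τ.commutes x
  · intro hσ
    rw [MonoidHom.mem_ker] at hσ
    refine ⟨{ σ with commutes' := fun x => ?_ }, AlgEquiv.ext fun _ => rfl⟩
    exact Eq.trans (σ.restrictNormal_commutes F x).symm (congr_arg _ (AlgEquiv.ext_iff.mp hσ x))

theorem unitsInflHom_injective [Normal K F] : Function.Injective (unitsInflHom K F M).hom := by
  intro a b hab
  have h : Units.map (algebraMap F M : F →* M) (Additive.toMul a) =
      Units.map (algebraMap F M : F →* M) (Additive.toMul b) := hab
  have h2 := Units.map_injective (f := (algebraMap F M : F →* M)) (algebraMap F M).injective h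
  exact h2

/-- Hilbert 90 in the form `H¹(Gal(M/F), Mˣ) = 0`. -/
theorem isZero_H1_units (F M : Type) [Field F] [Field M] [Algebra F M] [FiniteDimensional F M] :
    Limits.IsZero (groupCohomology (Rep.ofAlgebraAutOnUnits F M) 1) := by
  have : Subsingleton (H1 (Rep.ofAlgebraAutOnUnits F M)) :=
    (groupCohomology.H1ofAutOnUnitsUnique F M).instSubsingleton
  exact ModuleCat.isZero_of_subsingleton _

variable [FiniteDimensional K M] [IsGalois K F] [IsGalois K M]

theorem exists_unitsInflHom_eq (a : Rep.ofAlgebraAutOnUnits K M)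
    (ha : ∀ t : M ≃ₐ[F] M,
      (Rep.ofAlgebraAutOnUnits K M).ρ (AlgEquiv.restrictScalarsHom K t) a = a) :
    ∃ b, (unitsInflHom K F M).hom b = a := by
  have : IsGalois F M := IsGalois.tower_top_of_isGalois K F M
  have : FiniteDimensional F M := FiniteDimensional.right K F M
  have hfix : ∀ t : M ≃ₐ[F] M, t ((Additive.toMul a : Mˣ) : M) = ((Additive.toMul a : Mˣ) : M) := by
    intro t
    have h := congrArg (fun u : Additive Mˣ => ((Additive.toMul u : Mˣ) : M)) (ha t)
    exact h
  obtain ⟨b, hb⟩ := (IsGalois.mem_range_algebraMap_iff_fixed (F := F) (E := M) _).2 hfix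
  have hb0 : b ≠ 0 := by
    rintro rfl
    rw [map_zero] at hb
    exact (Additive.toMul a : Mˣ).ne_zero hb.symm
  refine ⟨Additive.ofMul (Units.mk0 b hb0), ?_⟩
  have : Units.map (algebraMap F M : F →* M) (Units.mk0 b hb0) = Additive.toMul a :=
    Units.ext hb
  exact congrArg Additive.ofMul this

/-- Inflation–restriction for `Mˣ` in degree `n ≥ 1`, assuming `Hⁱ(Gal(M/F), Mˣ) = 0` for
`1 ≤ i < n`. -/
theorem infRes_gal_of_isZero {n : ℕ} (hn : 1 ≤ n)
    (hC : ∀ i, 1 ≤ i → i < n →
      Limits.IsZero (groupCohomology (Rep.ofAlgebraAutOnUnits F M) i)) :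
    Function.Injective (infl K F M n).hom ∧
    (∀ x, (rest K F M n).hom x = 0 → ∃ y, (infl K F M n).hom y = x) ∧
    (∀ y, (rest K F M n).hom ((infl K F M n).hom y) = 0) := by
  have h := infRes_gen (k := ℤ)
    (AlgEquiv.restrictScalarsHom K : (M ≃ₐ[F] M) →* (M ≃ₐ[K] M))
    (AlgEquiv.restrictNormalHom F : (M ≃ₐ[K] M) →* (F ≃ₐ[K] F))
    (AlgEquiv.restrictScalarsHom_injective K)
    (AlgEquiv.restrictNormalHom_surjective M)
    (range_restrictScalarsHom_eq_ker K F M)
    (unitsInflHom K F M) (unitsInflHom_injective K F M) (exists_unitsInflHom_eq K F M)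
    (unitsRestHom K F M) (Function.bijective_id) (n := n) hn hC
  exact h

/-- Inflation–restriction for `Mˣ` in degree `2` (Hilbert 90 kills `H¹`). -/
theorem infRes_gal :
    Function.Injective (infl K F M 2).hom ∧
    (∀ x, (rest K F M 2).hom x = 0 → ∃ y, (infl K F M 2).hom y = x) ∧
    (∀ y, (rest K F M 2).hom ((infl K F M 2).hom y) = 0) :=
  infRes_gal_of_isZero K F M (by norm_num) fun i h1 h2 => by
    obtain rfl : i = 1 := by omega
    have : FiniteDimensional F M := FiniteDimensional.right K F M
    exact isZero_H1_units F M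

/-- Inflation `H¹(Gal(F/K), Fˣ) → H¹(Gal(M/K), Mˣ)`-type statements in degree `1` hold without
any hypothesis; we record injectivity. -/
theorem infl_one_injective : Function.Injective (infl K F M 1).hom :=
  (infRes_gal_of_isZero K F M (le_refl 1) fun i h1 h2 => by omega).1

/-- Skeleton3 `infl_injective` (verbatim). -/
theorem infl_injective : Function.Injective (infl K F M 2).hom := (infRes_gal K F M).1

/-- Skeleton3 `exists_infl_eq_of_rest_eq_zero` (verbatim). -/
theorem exists_infl_eq_of_rest_eq_zero (x : groupCohomology (Rep.ofAlgebraAutOnUnits K M) 2)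
    (hx : (rest K F M 2).hom x = 0) :
    ∃ y : groupCohomology (Rep.ofAlgebraAutOnUnits K F) 2, (infl K F M 2).hom y = x :=
  (infRes_gal K F M).2.1 x hx

/-- Skeleton3 `rest_infl_eq_zero` (verbatim). -/
theorem rest_infl_eq_zero (y : groupCohomology (Rep.ofAlgebraAutOnUnits K F) 2) :
    (rest K F M 2).hom ((infl K F M 2).hom y) = 0 :=
  (infRes_gal K F M).2.2 y

/-- Skeleton3 `infl_comp` (verbatim): functoriality of inflation. -/
theorem infl_comp (M' : Type) [Field M'] [Algebra K M'] [Algebra F M'] [Algebra M M']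
    [IsScalarTower K F M'] [IsScalarTower K M M'] [IsScalarTower F M M'] (n : ℕ)
    (y : groupCohomology (Rep.ofAlgebraAutOnUnits K F) n) :
    (infl K M M' n).hom ((infl K F M n).hom y) = (infl K F M' n).hom y := by
  have h : infl K F M n ≫ infl K M M' n = infl K F M' n := by
    unfold infl
    rw [← map_comp]
    refine map_congr (IsScalarTower.AlgEquiv.restrictNormalHom_comp K F M M').symm ?_ n
    ext x
    have hx : Units.map (algebraMap M M' : M →* M')
        (Units.map (algebraMap F M : F →* M) (Additive.toMul x)) =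
        Units.map (algebraMap F M' : F →* M') (Additive.toMul x) :=
      Units.ext (IsScalarTower.algebraMap_apply F M M' _).symm
    exact congrArg Additive.ofMul hx
  rw [← h]
  rfl

end InfRes

end Fermat.Agent.CFT.H85
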