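import Fermat.Agent.CFT.H26_Fund
import Fermat.Agent.CFT.H33_LocalSecondFinal
import Fermat.Agent.CFT.H66_ClassModuleCriterion
import Fermat.Agent.CFT.H85_InfResGal

/-!
# CFT layer B, package B-FUND (field part): plug-in forms

* `isClassModule_local_of_addOrderOf` (requested by helper3): for `F/K` finite Galois, both finite
  over `ℚ_q`, a class `γ ∈ H²(Gal(F/K), Fˣ)` of order `[F:K]` makes `Fˣ` a class module, given
  only the B-HERBRAND input `H33.PrimeDegreeH2Card q`.
* `existsUnique_fund'`, `isClassModule_of_infl_eq'`: the Skeleton3 `Fund` statements with the landed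
  packages plugged in (B-INFRES-GAL `H85`, B-SECOND `H33`, criterion `H66`); remaining explicit
  hypotheses: B-HERBRAND (`hc`), B-UGLY (`hugly`), B-UNRCLASS (`hord`).
-/

set_option autoImplicit false
set_option linter.unusedSectionVars false

open groupCohomology CategoryTheory IntermediateField

namespace Fermat.Agent.CFT.H26

open Fermat.Agent.CFT Fermat.Agent.CFT.Loc

variable (q : ℕ) [Fact q.Prime]

/-- **Local class-module criterion**: for `F/K` Galois (both finite over `ℚ_q`), a class of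
order `[F:K]` in `H²(Gal(F/K), Fˣ)` is a fundamental class. -/
theorem isClassModule_local_of_addOrderOf
    (K : Type) [Field K] [Algebra ℚ_[q] K] [FiniteDimensional ℚ_[q] K]
    (F : Type) [Field F] [Algebra ℚ_[q] F] [FiniteDimensional ℚ_[q] F]
    [Algebra K F] [IsScalarTower ℚ_[q] K F] [IsGalois K F]
    (hc : H33.PrimeDegreeH2Card q)
    (γ : groupCohomology (Rep.ofAlgebraAutOnUnits K F) 2)
    (hγ : addOrderOf γ = Module.finrank K F) :
    IsClassModule (Rep.ofAlgebraAutOnUnits K F) γ := by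
  have : FiniteDimensional K F := FiniteDimensional.right ℚ_[q] K F
  have hfacts := fun S => H33.local_units_res_facts q K F hc S
  refine H66.isClassModule_of_addOrderOf' _ γ (fun S => (hfacts S).1) (fun S => (hfacts S).2.1)
    (fun S => (hfacts S).2.2.2) ?_
  rw [hγ, IsGalois.card_aut_eq_finrank]

section Fund

variable (E F M : Type) [Field E] [Field F] [Field M]
  [Algebra ℚ_[q] E] [Algebra ℚ_[q] F] [Algebra ℚ_[q] M]
  [FiniteDimensional ℚ_[q] E] [FiniteDimensional ℚ_[q] F] [FiniteDimensional ℚ_[q] M]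
  [Algebra E M] [Algebra F M] [IsScalarTower ℚ_[q] E M] [IsScalarTower ℚ_[q] F M]

/-- Skeleton3 `existsUnique_fund`, with the B-UGLY statement as explicit hypothesis. -/
theorem existsUnique_fund' [IsGalois ℚ_[q] E] [IsGalois ℚ_[q] F] [IsGalois ℚ_[q] M]
    (hugly : (rest ℚ_[q] F M 2).hom ((infl ℚ_[q] E M 2).hom (unrClass q E)) = 0) :
    ∃! γ : groupCohomology (Rep.ofAlgebraAutOnUnits ℚ_[q] F) 2,
      (infl ℚ_[q] F M 2).hom γ = (infl ℚ_[q] E M 2).hom (unrClass q E) :=
  existsUnique_fund_of q E F M (H85.infl_injective ℚ_[q] F M)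
    (H85.exists_infl_eq_of_rest_eq_zero ℚ_[q] F M) hugly

/-- Skeleton3 `isClassModule_of_infl_eq`, with B-HERBRAND (`hc`) and B-UNRCLASS (`hord`) as
explicit hypotheses. -/
theorem isClassModule_of_infl_eq' [IsGalois ℚ_[q] E] [IsGalois ℚ_[q] F] [IsGalois ℚ_[q] M]
    (hc : H33.PrimeDegreeH2Card q)
    (hord : addOrderOf (unrClass q E) = Module.finrank ℚ_[q] E)
    (hdeg : Module.finrank ℚ_[q] E = Module.finrank ℚ_[q] F)
    (γ : groupCohomology (Rep.ofAlgebraAutOnUnits ℚ_[q] F) 2)
    (hγ : (infl ℚ_[q] F M 2).hom γ = (infl ℚ_[q] E M 2).hom (unrClass q E)) :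
    IsClassModule (Rep.ofAlgebraAutOnUnits ℚ_[q] F) γ := by
  apply isClassModule_local_of_addOrderOf q ℚ_[q] F hc γ
  rw [addOrderOf_fund_of q E F M (H85.infl_injective ℚ_[q] F M) (H85.infl_injective ℚ_[q] E M)
    hord hdeg γ hγ, IsGalois.card_aut_eq_finrank]

end Fund

end Fermat.Agent.CFT.H26
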