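import Fermat.Agent.CFT.H25_LocBridge

/-!
# Unramified extensions of finite extensions of `ℚ_[q]` (package B-UNR-F, first half)

VERBATIM field-level statements of layer B, Skeleton2 §B-UNR-F, in the vocabulary of
`Fermat.Agent.CFT.LocDefs`: `isGalois_of_isUnramified`, `frob_spec`, `frob_generates`,
`orderOf_frob`, `exists_isUnramified`, `nonempty_algEquiv_of_isUnramified`; plus
`frob_unique`, `isCyclic_of_isUnramified`, `finiteDimensional_tower`.
-/

set_option autoImplicit false
set_option linter.unusedSectionVars false
set_option linter.style.haveILetI false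

noncomputable section

namespace Fermat.Agent.CFT.H25

open Fermat.Agent.CFT Fermat.Agent.CFT.Loc IsLocalRing

variable (q : ℕ) [Fact q.Prime]
variable (K : Type) [Field K] [Algebra ℚ_[q] K] [FiniteDimensional ℚ_[q] K]
variable (L : Type) [Field L] [Algebra ℚ_[q] L] [FiniteDimensional ℚ_[q] L]
variable [Algebra K L] [IsScalarTower ℚ_[q] K L]

omit [FiniteDimensional ℚ_[q] K] in
include q in
theorem finiteDimensional_tower : FiniteDimensional K L := FiniteDimensional.right ℚ_[q] K L

/-- existence of a Frobenius for an unramified extension -/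
theorem exists_frob (h : IsUnramified q K L) :
    ∃ φ : L ≃ₐ[K] L, ∀ x : L, nrm q L x ≤ 1 → nrm q L (φ x - x ^ Loc.resCard q K) < 1 := by
  letI := nnf q K
  letI := nnf q L
  haveI := ultra q K
  haveI := ultra q L
  haveI := complete q K
  letI := nalgTower q K L
  haveI := finite_resField_loc q K
  haveI := finiteDimensional_tower q K L
  have hdisc := isDiscrete_loc q K
  refine ⟨frobUnr K L hdisc h, fun x hx => ?_⟩
  rw [resCard_eq q K]
  exact norm_frobUnr_sub_pow_lt hdisc h x hx

theorem frob_spec (h : IsUnramified q K L) (x : L) (hx : nrm q L x ≤ 1) :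
    nrm q L (frob q K L x - x ^ Loc.resCard q K) < 1 := by
  have hex := exists_frob q K L h
  have : frob q K L = hex.choose := by
    unfold frob
    rw [dif_pos hex]
  rw [this]
  exact hex.choose_spec x hx

theorem isGalois_of_isUnramified (h : IsUnramified q K L) : IsGalois K L := by
  letI := nnf q K
  letI := nnf q L
  haveI := ultra q K
  haveI := ultra q L
  haveI := complete q K
  letI := nalgTower q K L
  haveI := finite_resField_loc q K
  haveI := finiteDimensional_tower q K L
  exact isGalois_of_unramified K L (isDiscrete_loc q K) h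

/-- Uniqueness of the Frobenius. -/
theorem frob_unique (h : IsUnramified q K L) (φ : L ≃ₐ[K] L)
    (hφ : ∀ x : L, nrm q L x ≤ 1 → nrm q L (φ x - x ^ Loc.resCard q K) < 1) :
    φ = frob q K L := by
  letI := nnf q K
  letI := nnf q L
  haveI := ultra q K
  haveI := ultra q L
  haveI := complete q K
  letI := nalgTower q K L
  haveI := finite_resField_loc q K
  haveI := finiteDimensional_tower q K L
  have hdisc := isDiscrete_loc q K
  have h1 : φ = frobUnr K L hdisc h := by
    apply eq_frobUnr_of_norm_sub_pow_lt hdisc h φ
    intro x hx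
    rw [← resCard_eq q K]
    exact hφ x hx
  have h2 : frob q K L = frobUnr K L hdisc h := by
    apply eq_frobUnr_of_norm_sub_pow_lt hdisc h
    intro x hx
    rw [← resCard_eq q K]
    exact frob_spec q K L h x hx
  rw [h1, h2]

theorem frob_generates (h : IsUnramified q K L) (σ : L ≃ₐ[K] L) :
    σ ∈ Subgroup.zpowers (frob q K L) := by
  letI := nnf q K
  letI := nnf q L
  haveI := ultra q K
  haveI := ultra q L
  haveI := complete q K
  letI := nalgTower q K L
  haveI := finite_resField_loc q K
  haveI := finiteDimensional_tower q K L
  have hdisc := isDiscrete_loc q K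
  apply mem_zpowers_of_norm_sub_pow_lt hdisc h
  intro x hx
  rw [← resCard_eq q K]
  exact frob_spec q K L h x hx

theorem orderOf_frob (h : IsUnramified q K L) :
    orderOf (frob q K L) = Module.finrank K L := by
  letI := nnf q K
  letI := nnf q L
  haveI := ultra q K
  haveI := ultra q L
  haveI := complete q K
  letI := nalgTower q K L
  haveI := finite_resField_loc q K
  haveI := finiteDimensional_tower q K L
  have hdisc := isDiscrete_loc q K
  apply orderOf_of_norm_sub_pow_lt hdisc h
  intro x hx
  rw [← resCard_eq q K]
  exact frob_spec q K L h x hx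

theorem isCyclic_of_isUnramified (h : IsUnramified q K L) : IsCyclic (L ≃ₐ[K] L) :=
  ⟨⟨frob q K L, fun σ => frob_generates q K L h σ⟩⟩

/-- An unramified extension of degree `n` is generated by the `(Q^n - 1)`-th roots of unity. -/
theorem isCyclotomicExtension_of_isUnramified (h : IsUnramified q K L) :
    IsCyclotomicExtension {Loc.resCard q K ^ Module.finrank K L - 1} K L := by
  letI := nnf q K
  letI := nnf q L
  haveI := ultra q K
  haveI := ultra q L
  haveI := complete q K
  letI := nalgTower q K L
  haveI := finite_resField_loc q K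
  haveI := finiteDimensional_tower q K L
  rw [resCard_eq q K]
  exact isCyclotomicExtension_of_unramified K L (isDiscrete_loc q K) h

/-- Conversely, a cyclotomic extension for `Q ^ n - 1` is unramified of degree `n`. -/
theorem isUnramified_of_isCyclotomicExtension (n : ℕ) (hn : 0 < n)
    [hcyc : IsCyclotomicExtension {Loc.resCard q K ^ n - 1} K L] :
    Module.finrank K L = n ∧ IsUnramified q K L := by
  letI := nnf q K
  letI := nnf q L
  haveI := ultra q K
  haveI := ultra q L
  haveI := complete q K
  letI := nalgTower q K L
  haveI := finite_resField_loc q K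
  haveI := finiteDimensional_tower q K L
  rw [resCard_eq q K] at hcyc
  exact ⟨finrank_cyc K L hn.ne', sameValueGroup_cyc K L hn.ne'⟩

theorem two_le_resCard_loc : 2 ≤ Loc.resCard q K := by
  letI := nnf q K
  haveI := ultra q K
  haveI := complete q K
  haveI := finite_resField_loc q K
  rw [resCard_eq q K]
  exact two_le_resCard (K := K)

theorem resCard_pow_sub_one_ne_zero {n : ℕ} (hn : n ≠ 0) : Loc.resCard q K ^ n - 1 ≠ 0 := by
  letI := nnf q K
  haveI := ultra q K
  haveI := complete q K
  haveI := finite_resField_loc q K
  rw [resCard_eq q K]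
  exact m_ne_zero (K := K) hn

/-- existence of the unramified extension of degree `n` -/
theorem exists_isUnramified (n : ℕ) (hn : 0 < n) :
    ∃ (L : Type) (_ : Field L) (_ : Algebra ℚ_[q] L) (_ : FiniteDimensional ℚ_[q] L)
      (_ : Algebra K L) (_ : IsScalarTower ℚ_[q] K L),
      Module.finrank K L = n ∧ IsUnramified q K L := by
  haveI : CharZero K := charZero_of_injective_algebraMap (algebraMap ℚ_[q] K).injective
  haveI : FiniteDimensional K (CyclotomicField (Loc.resCard q K ^ n - 1) K) :=
    IsCyclotomicExtension.finiteDimensional {Loc.resCard q K ^ n - 1} K _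
  haveI : FiniteDimensional ℚ_[q] (CyclotomicField (Loc.resCard q K ^ n - 1) K) :=
    FiniteDimensional.trans ℚ_[q] K _
  exact ⟨CyclotomicField (Loc.resCard q K ^ n - 1) K, inferInstance, inferInstance,
    inferInstance, inferInstance, inferInstance,
    isUnramified_of_isCyclotomicExtension q K _ n hn⟩

/-- uniqueness of the unramified extension of degree `n` -/
theorem nonempty_algEquiv_of_isUnramified
    (L' : Type) [Field L'] [Algebra ℚ_[q] L'] [FiniteDimensional ℚ_[q] L'] [Algebra K L']
    [IsScalarTower ℚ_[q] K L'] (h : IsUnramified q K L) (h' : IsUnramified q K L')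
    (hdeg : Module.finrank K L = Module.finrank K L') : Nonempty (L ≃ₐ[K] L') := by
  haveI := finiteDimensional_tower q K L
  haveI h1 := isCyclotomicExtension_of_isUnramified q K L h
  haveI h2 := isCyclotomicExtension_of_isUnramified q K L' h'
  rw [← hdeg] at h2
  haveI : NeZero (Loc.resCard q K ^ Module.finrank K L - 1) :=
    ⟨resCard_pow_sub_one_ne_zero q K Module.finrank_pos.ne'⟩
  exact ⟨IsCyclotomicExtension.algEquiv {Loc.resCard q K ^ Module.finrank K L - 1} K L L'⟩

end Fermat.Agent.CFT.H25
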