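import Mathlib
import Fermat.Agent.CFT.H78_Levels
import Fermat.Agent.CFT.H25_LocUnr

/-!
# CFT / layer B (Ω4): the unramified subfields of `PadicAlgCl q` (helper78)

`unrField q n := ℚ_q(μ_{q^n - 1}) ⊆ PadicAlgCl q`.  For `n ≠ 0` it is finite Galois of degree `n`
over `ℚ_[q]`, unramified in the sense of `Loc.IsUnramified`, monotone for divisibility, and its
fixing subgroup `unrLevel q n` is a level of `localLevels q` of index `n`.
-/

set_option autoImplicit false
set_option linter.style.haveILetI false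

open IntermediateField

noncomputable section

namespace Fermat.Agent.CFT.H78

open Fermat.Agent.CFT

variable (q : ℕ) [Fact q.Prime]

/-! ### The residue cardinality of `ℚ_[q]` -/

theorem O_padic_eq_intRing : Loc.O q ℚ_[q] = H25.intRing ℚ_[q] := by
  ext x
  rw [Loc.mem_O_iff, H25.mem_intRing]
  have h := Loc.nrm_algebraMap q ℚ_[q] x
  rw [Algebra.algebraMap_self, RingHom.id_apply] at h
  rw [h]

theorem resCard_padic : Loc.resCard q ℚ_[q] = q := by
  rw [Loc.resCard, H25.card_residueField_congr (O_padic_eq_intRing q)]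
  exact H25.card_resField_padic q

/-! ### The unramified field of degree `n` -/

/-- `ℚ_q(μ_{q^n-1})` inside `PadicAlgCl q`. -/
def unrField (n : ℕ) : IntermediateField ℚ_[q] (PadicAlgCl q) :=
  IntermediateField.adjoin ℚ_[q] {ζ : PadicAlgCl q | ζ ^ (q ^ n - 1) = 1}

theorem pow_sub_one_ne_zero {n : ℕ} (hn : n ≠ 0) : q ^ n - 1 ≠ 0 := by
  have h2 : 2 ≤ q := (Fact.out : q.Prime).two_le
  have h3 : 2 ^ n ≤ q ^ n := Nat.pow_le_pow_left h2 n
  have h4 : 2 ≤ 2 ^ n := by
    calc 2 = 2 ^ 1 := (pow_one 2).symm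
      _ ≤ 2 ^ n := Nat.pow_le_pow_right (by norm_num) (Nat.one_le_iff_ne_zero.mpr hn)
  omega

theorem unrField_eq_adjoin_cyclotomic {n : ℕ} (hn : n ≠ 0) :
    unrField q n = IntermediateField.adjoin ℚ_[q]
      {b : PadicAlgCl q | ∃ m ∈ ({q ^ n - 1} : Set ℕ), m ≠ 0 ∧ b ^ m = 1} := by
  unfold unrField
  congr 1
  ext b
  simp only [Set.mem_ofPred_eq, Set.mem_singleton_iff, exists_eq_left]
  exact ⟨fun h => ⟨pow_sub_one_ne_zero q hn, h⟩, fun h => h.2⟩

theorem exists_primitiveRoot_padicAlgCl {m : ℕ} (hm : m ≠ 0) :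
    ∃ ζ : PadicAlgCl q, IsPrimitiveRoot ζ m := by
  haveI : NeZero (m : PadicAlgCl q) := ⟨Nat.cast_ne_zero.mpr hm⟩
  exact HasEnoughRootsOfUnity.exists_primitiveRoot (PadicAlgCl q) m

/-- `unrField q n` is a cyclotomic extension of `ℚ_[q]` for `q ^ n - 1`. -/
theorem isCyclotomicExtension_unrField {n : ℕ} (hn : n ≠ 0) :
    IsCyclotomicExtension {q ^ n - 1} ℚ_[q] ↥(unrField q n) := by
  rw [unrField_eq_adjoin_cyclotomic q hn]
  apply IntermediateField.isCyclotomicExtension_adjoin_of_exists_isPrimitiveRoot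
  intro m hm hm0
  rw [Set.mem_singleton_iff] at hm
  subst hm
  exact exists_primitiveRoot_padicAlgCl q hm0

theorem isCyclotomicExtension_unrField' {n : ℕ} (hn : n ≠ 0) :
    IsCyclotomicExtension {Loc.resCard q ℚ_[q] ^ n - 1} ℚ_[q] ↥(unrField q n) := by
  rw [resCard_padic]
  exact isCyclotomicExtension_unrField q hn

theorem finiteDimensional_unrField {n : ℕ} (hn : n ≠ 0) :
    FiniteDimensional ℚ_[q] ↥(unrField q n) := by
  haveI := isCyclotomicExtension_unrField q hn
  exact IsCyclotomicExtension.finiteDimensional {q ^ n - 1} ℚ_[q] ↥(unrField q n)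

theorem isGalois_unrField {n : ℕ} (hn : n ≠ 0) : IsGalois ℚ_[q] ↥(unrField q n) := by
  haveI := isCyclotomicExtension_unrField q hn
  exact IsCyclotomicExtension.isGalois {q ^ n - 1} ℚ_[q] ↥(unrField q n)

/-- `[unrField q n : ℚ_q] = n`. -/
theorem finrank_unrField {n : ℕ} (hn : n ≠ 0) :
    Module.finrank ℚ_[q] ↥(unrField q n) = n := by
  haveI := finiteDimensional_unrField q hn
  haveI := isCyclotomicExtension_unrField' q hn
  exact (H25.isUnramified_of_isCyclotomicExtension q ℚ_[q] ↥(unrField q n) n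
    (Nat.pos_of_ne_zero hn)).1

/-- `unrField q n / ℚ_q` is unramified (same value group). -/
theorem isUnramified_unrField {n : ℕ} (hn : n ≠ 0) :
    haveI := finiteDimensional_unrField q hn
    Loc.IsUnramified q ℚ_[q] ↥(unrField q n) := by
  haveI := finiteDimensional_unrField q hn
  haveI := isCyclotomicExtension_unrField' q hn
  exact (H25.isUnramified_of_isCyclotomicExtension q ℚ_[q] ↥(unrField q n) n
    (Nat.pos_of_ne_zero hn)).2

theorem unrField_le_of_dvd {n m : ℕ} (h : n ∣ m) :
    unrField q n ≤ unrField q m := by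
  apply IntermediateField.adjoin.mono
  intro ζ hζ
  simp only [Set.mem_ofPred_eq] at hζ ⊢
  have hdvd : q ^ n - 1 ∣ q ^ m - 1 := Nat.pow_sub_one_dvd_pow_sub_one q h
  obtain ⟨c, hc⟩ := hdvd
  rw [hc, pow_mul, hζ, one_pow]

/-! ### The unramified levels -/

/-- the level of `localLevels q` attached to the unramified extension of degree `n`. -/
def unrLevel (n : ℕ+) : Subgroup (LocalGal q) := (unrField q n).fixingSubgroup

instance normal_unrLevel (n : ℕ+) : (unrLevel q n).Normal := by
  haveI := isGalois_unrField q n.ne_zero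
  unfold unrLevel
  rw [← (unrField q n).restrictNormalHom_ker]
  exact MonoidHom.normal_ker _

theorem unrLevel_mem (n : ℕ+) : unrLevel q n ∈ (localLevels q).levels :=
  ⟨unrField q n, finiteDimensional_unrField q n.ne_zero, isGalois_unrField q n.ne_zero, rfl⟩

theorem index_unrLevel (n : ℕ+) : (unrLevel q n).index = n := by
  haveI := finiteDimensional_unrField q n.ne_zero
  haveI := isGalois_unrField q n.ne_zero
  unfold unrLevel
  rw [index_fixingSubgroup_of_isGalois, finrank_unrField q n.ne_zero]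

theorem unrLevel_le (n m : ℕ+) (h : n ∣ m) : unrLevel q m ≤ unrLevel q n :=
  IntermediateField.fixingSubgroup_antitone
    (unrField_le_of_dvd q (PNat.dvd_iff.mp h))

end Fermat.Agent.CFT.H78
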