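import Mathlib
import Fermat.Agent.CFT.LocDefs
import Fermat.Agent.CFT.H96_BridgeIntegral

/-!
# CFT layer B, package B-BRIDGE (first half): norm lemmas for abstract local fields

`K`, `L` abstract finite extensions of `ℚ_[q]`, `L/K` a tower.  Statements are those of
helper3's `Skeleton2` (§B-BRIDGE), verbatim: `nrm_algEquiv`, `nrm_algebraMap_tower`,
`nrm_pow_finrank_eq`, `exists_uniformizer`, `isUnramified_iff`.
-/

set_option autoImplicit false
set_option linter.unusedSectionVars false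
set_option maxHeartbeats 400000

open IsLocalRing Polynomial

namespace Fermat.Agent.CFT.H97

open Fermat.Agent.CFT.Loc

variable (q : ℕ) [Fact q.Prime]
variable (K : Type) [Field K] [Algebra ℚ_[q] K] [FiniteDimensional ℚ_[q] K]
variable (L : Type) [Field L] [Algebra ℚ_[q] L] [FiniteDimensional ℚ_[q] L]
variable [Algebra K L] [IsScalarTower ℚ_[q] K L]

/-- the absolute value is invariant under `ℚ_q`-automorphisms -/
theorem nrm_algEquiv_base (σ : K ≃ₐ[ℚ_[q]] K) (x : K) : nrm q K (σ x) = nrm q K x :=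
  (spectralNorm_eq_of_equiv σ x).symm

/-- the absolute value is Galois invariant -/
theorem nrm_algEquiv (σ : L ≃ₐ[K] L) (x : L) : nrm q L (σ x) = nrm q L x :=
  nrm_algEquiv_base q L (σ.restrictScalars ℚ_[q]) x

/-- the absolute value of `L` restricts to that of `K` -/
theorem nrm_algebraMap_tower (x : K) : nrm q L (algebraMap K L x) = nrm q K x :=
  (spectralNorm.eq_of_tower (K := ℚ_[q]) (L := L) (E := K) x).symm

/-- `‖x‖ ^ deg = ‖a₀‖`, `a₀` the constant coefficient of the minimal polynomial over `ℚ_q`. -/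
theorem nrm_pow_natDegree (x : K) :
    nrm q K x ^ (minpoly ℚ_[q] x).natDegree = ‖(minpoly ℚ_[q] x).coeff 0‖ := by
  have h := spectralNorm.spectralNorm_eq_norm_coeff_zero_rpow ℚ_[q] K x
  have hd : 0 < (minpoly ℚ_[q] x).natDegree :=
    minpoly.natDegree_pos (Algebra.IsIntegral.isIntegral x)
  rw [nrm_def, h, ← Real.rpow_natCast, ← Real.rpow_mul (norm_nonneg _)]
  have : (1 / ((minpoly ℚ_[q] x).natDegree : ℝ)) * ((minpoly ℚ_[q] x).natDegree : ℝ) = 1 := by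
    field_simp
  rw [this, Real.rpow_one]

/-- `‖x‖ ^ [K:ℚ_q] = ‖N_{K/ℚ_q} x‖` -/
theorem nrm_pow_finrank_base (x : K) :
    nrm q K x ^ Module.finrank ℚ_[q] K = ‖Algebra.norm ℚ_[q] x‖ := by
  have hx : IsIntegral ℚ_[q] x := Algebra.IsIntegral.isIntegral x
  have h1 := Algebra.norm_eq_norm_adjoin ℚ_[q] x
  have h2 := Algebra.PowerBasis.norm_gen_eq_coeff_zero_minpoly
    (IntermediateField.adjoin.powerBasis hx)
  rw [IntermediateField.adjoin.powerBasis_gen, IntermediateField.minpoly_gen] at h2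
  rw [h1, h2, norm_pow, norm_mul, norm_pow, norm_neg, norm_one, one_pow, one_mul,
    ← nrm_pow_natDegree, ← pow_mul]
  congr 1
  rw [← IntermediateField.adjoin.finrank hx, Module.finrank_mul_finrank]

/-- `‖y‖_L ^ [L:K] = ‖N_{L/K} y‖_K` -/
theorem nrm_pow_finrank_eq (y : L) :
    nrm q L y ^ Module.finrank K L = nrm q K (Algebra.norm K y) := by
  have : FiniteDimensional K L := FiniteDimensional.right ℚ_[q] K L
  have h1 : (nrm q L y ^ Module.finrank K L) ^ Module.finrank ℚ_[q] K =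
      nrm q K (Algebra.norm K y) ^ Module.finrank ℚ_[q] K := by
    rw [nrm_pow_finrank_base, Algebra.norm_norm, ← nrm_pow_finrank_base, ← pow_mul,
      mul_comm, Module.finrank_mul_finrank]
  exact (pow_left_inj₀ (pow_nonneg (nrm_nonneg q _) _) (nrm_nonneg q _)
    (Module.finrank_pos.ne')).mp h1

/-! ### Uniformizers -/

/-- `ϖ` is a uniformizer of `K`: an element of maximal absolute value `< 1`. -/
def IsUniformizer (ϖ : K) : Prop :=
  nrm q K ϖ < 1 ∧ ∀ x : K, nrm q K x < 1 → nrm q K x ≤ nrm q K ϖ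

/-- auxiliary form of the existence of a uniformizer: every nonzero element has the absolute
value of an integral power of `ϖ`. -/
theorem exists_uniformizer_aux : ∃ ϖ : K, ϖ ≠ 0 ∧ nrm q K ϖ < 1 ∧
    ∀ x : K, x ≠ 0 → ∃ k : ℤ, nrm q K (x / ϖ ^ k) = 1 := by
  obtain ⟨ϖ, hϖ⟩ := IsDiscreteValuationRing.exists_irreducible (O q K)
  have hϖ1 : nrm q K (ϖ : K) < 1 := by
    rw [← H96.mem_maximalIdeal_iff]
    exact hϖ.not_isUnit
  have hϖ0 : (ϖ : K) ≠ 0 := by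
    intro h
    exact hϖ.ne_zero (Subtype.ext h)
  have key : ∀ x : K, x ≠ 0 → nrm q K x ≤ 1 → ∃ n : ℕ, nrm q K (x / (ϖ : K) ^ n) = 1 := by
    intro x hx0 hx1
    have hx0' : (⟨x, hx1⟩ : O q K) ≠ 0 := by
      intro h
      exact hx0 (congrArg Subtype.val h)
    obtain ⟨n, u, hu⟩ := IsDiscreteValuationRing.eq_unit_mul_pow_irreducible hx0' hϖ
    refine ⟨n, ?_⟩
    have hxe : x = ((u : O q K) : K) * (ϖ : K) ^ n := by
      have := congrArg Subtype.val hu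
      simpa using this
    rw [hxe, mul_div_assoc, div_self (pow_ne_zero _ hϖ0), mul_one]
    exact H96.nrm_eq_one_of_isUnit q K u.isUnit
  refine ⟨ϖ, hϖ0, hϖ1, fun x hx => ?_⟩
  rcases le_total (nrm q K x) 1 with h | h
  · obtain ⟨n, hn⟩ := key x hx h
    exact ⟨n, by simpa using hn⟩
  · have h' : nrm q K x⁻¹ ≤ 1 := by
      rw [nrm_inv]
      exact inv_le_one_of_one_le₀ h
    obtain ⟨n, hn⟩ := key x⁻¹ (inv_ne_zero hx) h'
    refine ⟨-n, ?_⟩
    have he : x / (ϖ : K) ^ (-(n : ℤ)) = (x⁻¹ / (ϖ : K) ^ n)⁻¹ := by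
      rw [zpow_neg, zpow_natCast, inv_div, div_inv_eq_mul, div_eq_mul_inv, inv_inv, mul_comm]
    rw [he, nrm_inv, hn, inv_one]

variable {K} in
lemma nrm_zpow (x : K) (k : ℤ) : nrm q K (x ^ k) = nrm q K x ^ k := by
  cases k with
  | ofNat n =>
    simp only [Int.ofNat_eq_natCast, zpow_natCast]
    induction n with
    | zero => simp [nrm_one]
    | succ n ih => rw [pow_succ, nrm_mul, ih, pow_succ]
  | negSucc n =>
    simp only [zpow_negSucc]
    rw [nrm_inv]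
    congr 1
    induction (n + 1) with
    | zero => simp [nrm_one]
    | succ n ih => rw [pow_succ, nrm_mul, ih, pow_succ]

variable {K} in
lemma nrm_pow (x : K) (k : ℕ) : nrm q K (x ^ k) = nrm q K x ^ k := by
  have := nrm_zpow q x (k : ℤ)
  simpa using this

variable {K} in
lemma nrm_div (x y : K) : nrm q K (x / y) = nrm q K x / nrm q K y := by
  rw [div_eq_mul_inv, nrm_mul, nrm_inv, div_eq_mul_inv]

/-- the value group is discrete: there is a uniformizer -/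
theorem exists_uniformizer : ∃ ϖ : K, nrm q K ϖ < 1 ∧ ∀ x : K, x ≠ 0 →
    ∃ (k : ℤ) (u : Kˣ), u ∈ unitGroup q K ∧ x = ϖ ^ k * u := by
  obtain ⟨ϖ, hϖ0, hϖ1, h⟩ := exists_uniformizer_aux q K
  refine ⟨ϖ, hϖ1, fun x hx => ?_⟩
  obtain ⟨k, hk⟩ := h x hx
  have hne : x / ϖ ^ k ≠ 0 := div_ne_zero hx (zpow_ne_zero _ hϖ0)
  refine ⟨k, Units.mk0 _ hne, hk, ?_⟩
  rw [Units.val_mk0, mul_div_cancel₀ _ (zpow_ne_zero _ hϖ0)]

/-- reformulation: every nonzero element has the absolute value of a power of `ϖ` -/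
theorem exists_uniformizer_nrm : ∃ ϖ : K, ϖ ≠ 0 ∧ nrm q K ϖ < 1 ∧
    ∀ x : K, x ≠ 0 → ∃ k : ℤ, nrm q K x = nrm q K ϖ ^ k := by
  obtain ⟨ϖ, hϖ0, hϖ1, h⟩ := exists_uniformizer_aux q K
  refine ⟨ϖ, hϖ0, hϖ1, fun x hx => ?_⟩
  obtain ⟨k, hk⟩ := h x hx
  refine ⟨k, ?_⟩
  rw [nrm_div, nrm_zpow] at hk
  have hpos : 0 < nrm q K ϖ ^ k := zpow_pos (nrm_pos q hϖ0) k
  rw [div_eq_one_iff_eq hpos.ne'] at hk
  exact hk

theorem exists_isUniformizer : ∃ ϖ : K, IsUniformizer q K ϖ := by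
  obtain ⟨ϖ, hϖ0, hϖ1, h⟩ := exists_uniformizer_nrm q K
  refine ⟨ϖ, hϖ1, fun x hx => ?_⟩
  by_cases hx0 : x = 0
  · rw [hx0, nrm_zero]
    exact nrm_nonneg q ϖ
  obtain ⟨k, hk⟩ := h x hx0
  rw [hk] at hx ⊢
  have hk0 : 0 < k := (zpow_lt_one_iff_right_of_lt_one₀ (nrm_pos q hϖ0) hϖ1).1 hx
  have : nrm q K ϖ ^ k ≤ nrm q K ϖ ^ (1 : ℤ) :=
    (zpow_le_zpow_iff_right_of_lt_one₀ (nrm_pos q hϖ0) hϖ1).2 hk0
  simpa using this

variable {q K}

theorem IsUniformizer.nrm_lt_one {ϖ : K} (h : IsUniformizer q K ϖ) : nrm q K ϖ < 1 := h.1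

theorem IsUniformizer.nrm_le {ϖ : K} (h : IsUniformizer q K ϖ) {x : K} (hx : nrm q K x < 1) :
    nrm q K x ≤ nrm q K ϖ := h.2 x hx

theorem IsUniformizer.ne_zero {ϖ : K} (h : IsUniformizer q K ϖ) : ϖ ≠ 0 := by
  rintro rfl
  have h1 := h.2 _ (H96.nrm_natCast_q_lt_one q K)
  rw [nrm_zero] at h1
  exact H96.natCast_q_ne_zero q K ((nrm_eq_zero_iff q).1 (le_antisymm h1 (nrm_nonneg q _)))

theorem IsUniformizer.nrm_pos {ϖ : K} (h : IsUniformizer q K ϖ) : 0 < nrm q K ϖ :=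
  Loc.nrm_pos q h.ne_zero

/-- any two uniformizers have the same absolute value -/
theorem IsUniformizer.nrm_eq {ϖ ϖ' : K} (h : IsUniformizer q K ϖ) (h' : IsUniformizer q K ϖ') :
    nrm q K ϖ = nrm q K ϖ' :=
  le_antisymm (h'.2 _ h.1) (h.2 _ h'.1)

/-- every nonzero element has the absolute value of a power of a uniformizer -/
theorem IsUniformizer.exists_zpow {ϖ : K} (h : IsUniformizer q K ϖ) {x : K} (hx : x ≠ 0) :
    ∃ k : ℤ, nrm q K x = nrm q K ϖ ^ k := by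
  obtain ⟨ϖ₀, hϖ0, hϖ1, h0⟩ := exists_uniformizer_nrm q K
  have hle : nrm q K ϖ₀ ≤ nrm q K ϖ := h.2 _ hϖ1
  obtain ⟨m, hm⟩ := h0 ϖ h.ne_zero
  have hm0 : 0 < m := by
    have := h.1
    rw [hm] at this
    exact (zpow_lt_one_iff_right_of_lt_one₀ (Loc.nrm_pos q hϖ0) hϖ1).1 this
  have hge : nrm q K ϖ ≤ nrm q K ϖ₀ := by
    rw [hm]
    have : nrm q K ϖ₀ ^ m ≤ nrm q K ϖ₀ ^ (1 : ℤ) :=
      (zpow_le_zpow_iff_right_of_lt_one₀ (Loc.nrm_pos q hϖ0) hϖ1).2 hm0
    simpa using this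
  obtain ⟨k, hk⟩ := h0 x hx
  exact ⟨k, by rw [hk, le_antisymm hle hge]⟩

/-- every nonzero element is a power of a uniformizer times a unit -/
theorem IsUniformizer.exists_zpow_mul_unit {ϖ : K} (h : IsUniformizer q K ϖ) {x : K}
    (hx : x ≠ 0) : ∃ (k : ℤ) (u : Kˣ), u ∈ unitGroup q K ∧ x = ϖ ^ k * u := by
  obtain ⟨k, hk⟩ := h.exists_zpow hx
  have hne : x / ϖ ^ k ≠ 0 := div_ne_zero hx (zpow_ne_zero _ h.ne_zero)
  refine ⟨k, Units.mk0 _ hne, ?_, ?_⟩
  · rw [mem_unitGroup_iff, Units.val_mk0, nrm_div, nrm_zpow, hk]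
    exact div_self (zpow_pos h.nrm_pos k).ne'
  · rw [Units.val_mk0, mul_div_cancel₀ _ (zpow_ne_zero _ h.ne_zero)]

/-- the exponent `k` with `‖x‖ = ‖ϖ‖ ^ k` is unique -/
theorem IsUniformizer.zpow_inj {ϖ : K} (h : IsUniformizer q K ϖ) {k l : ℤ}
    (hkl : nrm q K ϖ ^ k = nrm q K ϖ ^ l) : k = l := by
  rcases lt_trichotomy k l with hlt | heq | hgt
  · exact absurd hkl (zpow_lt_zpow_right_of_lt_one₀ h.nrm_pos h.1 hlt).ne'
  · exact heq
  · exact absurd hkl (zpow_lt_zpow_right_of_lt_one₀ h.nrm_pos h.1 hgt).ne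

variable (q K)

variable {L} in
/-- characterisation of uniformizers through powers -/
theorem isUniformizer_of_forall_zpow {ϖL : L} (h1 : nrm q L ϖL < 1)
    (h : ∀ y : L, y ≠ 0 → ∃ k : ℤ, nrm q L y = nrm q L ϖL ^ k) : IsUniformizer q L ϖL := by
  obtain ⟨ϖ, hϖ⟩ := exists_isUniformizer q L
  obtain ⟨m, hm⟩ := h ϖ hϖ.ne_zero
  have hϖL0 : ϖL ≠ 0 := by
    rintro rfl
    rw [nrm_zero] at hm
    rcases eq_or_ne m 0 with rfl | hm0
    · rw [zpow_zero] at hm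
      exact absurd hϖ.1 (by rw [hm]; exact lt_irrefl _)
    · rw [zero_zpow _ hm0] at hm
      exact hϖ.nrm_pos.ne' hm
  have hm0 : 0 < m := by
    have := hϖ.1
    rw [hm] at this
    exact (zpow_lt_one_iff_right_of_lt_one₀ (nrm_pos q hϖL0) h1).1 this
  have hge : nrm q L ϖ ≤ nrm q L ϖL := by
    rw [hm]
    have : nrm q L ϖL ^ m ≤ nrm q L ϖL ^ (1 : ℤ) :=
      (zpow_le_zpow_iff_right_of_lt_one₀ (nrm_pos q hϖL0) h1).2 hm0
    simpa using this
  refine ⟨h1, fun x hx => (hϖ.2 x hx).trans hge⟩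

/-- field-level unramifiedness: a uniformizer of `K` stays a uniformizer in `L`. -/
theorem isUnramified_iff : IsUnramified q K L ↔
    ∀ ϖ : K, (nrm q K ϖ < 1 ∧ ∀ x : K, nrm q K x < 1 → nrm q K x ≤ nrm q K ϖ) →
      ∀ y : L, nrm q L y < 1 → nrm q L y ≤ nrm q K ϖ := by
  constructor
  · intro h ϖ hϖ y hy
    obtain ⟨x, hx⟩ := h y
    rw [hx] at hy ⊢
    exact hϖ.2 x hy
  · intro h y
    obtain ⟨ϖ, hϖ⟩ := exists_isUniformizer q K
    have hL : IsUniformizer q L (algebraMap K L ϖ) := by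
      refine ⟨by rw [nrm_algebraMap_tower]; exact hϖ.1, fun y hy => ?_⟩
      rw [nrm_algebraMap_tower]
      exact h ϖ hϖ y hy
    by_cases hy : y = 0
    · exact ⟨0, by rw [hy, nrm_zero, nrm_zero]⟩
    obtain ⟨k, hk⟩ := hL.exists_zpow hy
    refine ⟨ϖ ^ k, ?_⟩
    rw [hk, nrm_algebraMap_tower, nrm_zpow]

/-- `L/K` is unramified iff some (equivalently every) uniformizer of `K` is a uniformizer
of `L`. -/
theorem isUnramified_iff_isUniformizer {ϖ : K} (hϖ : IsUniformizer q K ϖ) :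
    IsUnramified q K L ↔ IsUniformizer q L (algebraMap K L ϖ) := by
  constructor
  · intro h
    refine ⟨by rw [nrm_algebraMap_tower]; exact hϖ.1, fun y hy => ?_⟩
    rw [nrm_algebraMap_tower]
    exact (isUnramified_iff q K L).1 h ϖ hϖ y hy
  · intro hL y
    by_cases hy : y = 0
    · exact ⟨0, by rw [hy, nrm_zero, nrm_zero]⟩
    obtain ⟨k, hk⟩ := hL.exists_zpow hy
    refine ⟨ϖ ^ k, ?_⟩
    rw [hk, nrm_algebraMap_tower, nrm_zpow]

end Fermat.Agent.CFT.H97
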