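/-
CFT layer B, package B-UNRCLASS (helper99), part 1 (pure algebra).
Inflation of the standard 2-cocycle of a finite cyclic group along a surjection of cyclic
groups, in the additive `Rep` language of `H19_StdCocycle`.
-/
import Fermat.Agent.CFT.H19_StdCocycle

set_option autoImplicit false
set_option linter.unusedSectionVars false

open groupCohomology CategoryTheory

namespace Fermat.Agent.CFT.H99

universe u

/-! ## Arithmetic of carries -/

section Arith

open H19

lemma carry_infl_identity {n d i j : ℕ} (hn : 0 < n) (hi : i < d * n) (hj : j < d * n) :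
    ((carry n (i % n) (j % n) : ℕ) : ℤ) - (d : ℤ) * (carry (d * n) i j : ℕ) =
      -((j / n : ℕ) : ℤ) + ((((i + j) % (d * n)) / n : ℕ) : ℤ) - ((i / n : ℕ) : ℤ) := by
  have h1 : (i + j) / n = i / n + j / n + carry n (i % n) (j % n) := by
    rw [Nat.add_div hn]
    rfl
  have h2 : ((i + j) % (d * n)) / n + d * carry (d * n) i j = (i + j) / n := by
    unfold carry
    split_ifs with h
    · rw [Nat.mod_eq_sub_mod h, Nat.mod_eq_of_lt (by omega), mul_one]
      have h3 : (i + j - d * n) / n = (i + j) / n - d := by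
        rw [mul_comm d n]
        exact Nat.sub_mul_div _ _ _
      rw [h3]
      have h4 : d ≤ (i + j) / n := by
        rw [Nat.le_div_iff_mul_le hn]
        exact h
      omega
    · rw [Nat.mod_eq_of_lt (by omega)]
      omega
  have h1' : (((i + j) / n : ℕ) : ℤ) = (i / n : ℕ) + (j / n : ℕ) + (carry n (i % n) (j % n) : ℕ) := by
    exact_mod_cast h1
  have h2' : ((((i + j) % (d * n)) / n : ℕ) : ℤ) + (d : ℤ) * (carry (d * n) i j : ℕ) =
      (((i + j) / n : ℕ) : ℤ) := by
    exact_mod_cast h2
  linarith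

end Arith

/-! ## Inflation of the standard cochain -/

section Infl

open H19

variable {k G G' : Type u} [CommRing k] [Group G] [Group G'] [Finite G']
  {A : Rep k G} {A' : Rep k G'}

/-- If `π g' = g` then the index of `π σ` w.r.t. `g` is the index of `σ` w.r.t. `g'` modulo the
order of `g`. -/
lemma idx_map_eq (π : G' →* G) {g : G} {g' : G'} (hg' : ∀ x : G', x ∈ Subgroup.zpowers g')
    (hπ : π g' = g) (σ : G') : idx g (π σ) = idx g' σ % orderOf g := by
  have hfin : IsOfFinOrder g := by
    rw [← hπ]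
    exact π.isOfFinOrder (isOfFinOrder_of_finite g')
  conv_lhs => rw [← pow_idx' hg' σ, map_pow, hπ]
  exact idx_pow hfin _

lemma orderOf_dvd_of_map_eq (π : G' →* G) {g : G} {g' : G'} (hπ : π g' = g) :
    orderOf g ∣ orderOf g' := by
  rw [← hπ]
  exact orderOf_map_dvd π g'

/-- INFLATION of the standard cochain along `π : G' → G`, `π g' = g`, `G' = ⟨g'⟩`:
the pulled back standard cochain of `a` differs from `(n'/n) • ` the standard cochain of `φ a`
by the explicit coboundary of `σ ↦ -(idx σ / n) • φ a`. -/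
theorem cochainsMap₂_stdFun_sub_eq_d₁₂ (π : G' →* G) (φ : Rep.res π A ⟶ A') {g : G} {g' : G'}
    (hg' : ∀ x : G', x ∈ Subgroup.zpowers g') (hπ : π g' = g) {a : A}
    (ha : ∀ x : G, A.ρ x a = a) :
    (fun p : G' × G' => φ.hom (stdFun A g a (π p.1, π p.2))) -
        (orderOf g' / orderOf g) • stdFun A' g' (φ.hom a) =
      d₁₂ A' (fun σ => -((idx g' σ / orderOf g : ℕ) : ℤ) • φ.hom a) := by
  have hfin : IsOfFinOrder g := by
    rw [← hπ]
    exact π.isOfFinOrder (isOfFinOrder_of_finite g')
  have hn : 0 < orderOf g := hfin.orderOf_pos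
  obtain ⟨d, hd⟩ := orderOf_dvd_of_map_eq π hπ
  have hd' : orderOf g' = d * orderOf g := by rw [hd, mul_comm]
  have hdiv : orderOf g' / orderOf g = d := by
    rw [hd']
    exact Nat.mul_div_cancel _ hn
  have ha' : ∀ x : G', A'.ρ x (φ.hom a) = φ.hom a := by
    intro x
    have := Rep.hom_comm_apply φ x a
    rw [← this]
    show φ.hom (A.ρ (π x) a) = φ.hom a
    rw [ha]
  funext ⟨σ, τ⟩
  rw [d₁₂_hom_apply]
  simp only [Pi.sub_apply, Pi.smul_apply, stdFun_eq_carry_smul, map_nsmul, map_zsmul, ha',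
    idx_mul hg', idx_map_eq π hg' hπ, hdiv]
  have key := carry_infl_identity (n := orderOf g) (d := d) (i := idx g' σ) (j := idx g' τ) hn
    (by rw [← hd']; exact idx_lt σ) (by rw [← hd']; exact idx_lt τ)
  rw [hd']
  set α := φ.hom a with hα
  set i := idx g' σ with hi
  set j := idx g' τ with hj
  set n := orderOf g with hnn
  have e1 : (carry n (i % n) (j % n)) • α = ((carry n (i % n) (j % n) : ℕ) : ℤ) • α :=
    (natCast_zsmul _ _).symm
  have e2 : d • carry (d * n) i j • α = ((d : ℤ) * (carry (d * n) i j : ℕ)) • α := by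
    rw [mul_smul, natCast_zsmul, natCast_zsmul]
  rw [e1, e2, ← sub_smul, ← sub_smul, ← add_smul]
  congr 1
  linarith

theorem cochainsMap₂_stdFun_sub_mem_coboundaries₂ (π : G' →* G) (φ : Rep.res π A ⟶ A') {g : G}
    {g' : G'} (hg' : ∀ x : G', x ∈ Subgroup.zpowers g') (hπ : π g' = g) {a : A}
    (ha : ∀ x : G, A.ρ x a = a) :
    (fun p : G' × G' => φ.hom (stdFun A g a (π p.1, π p.2))) -
        (orderOf g' / orderOf g) • stdFun A' g' (φ.hom a) ∈ coboundaries₂ A' := by
  rw [cochainsMap₂_stdFun_sub_eq_d₁₂ π φ hg' hπ ha]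
  exact ⟨_, rfl⟩

end Infl

end Fermat.Agent.CFT.H99
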