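/-
CFT layer B, package B-UNRCLASS (helper99).
The unramified fundamental class `u_E ∈ H²(Gal(E/ℚ_q), Eˣ)`: it is the class of a cocycle,
has order exactly `[E:ℚ_q]`, and is compatible with inflation.
-/
import Fermat.Agent.CFT.LocMaps
import Fermat.Agent.CFT.H99_StdInfl
import Fermat.Agent.CFT.H25_LocUnr
import Fermat.Agent.CFT.H97_Bridge

set_option autoImplicit false
set_option linter.unusedSectionVars false

open groupCohomology CategoryTheory

namespace Fermat.Agent.CFT.H99

/-! ## Bridge between `Loc.cexp`, `Loc.stdCocycle` and `H19.idx`, `H19.stdFun` -/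

section Bridge

variable {G : Type} [Group G] {A : Type} [CommGroup A]

lemma cexp_eq_idx (g x : G) : Loc.cexp g x = H19.idx g x := by
  classical
  unfold Loc.cexp H19.idx
  congr

variable [MulDistribMulAction G A]

lemma ofMul_stdCocycle (g : G) (a : A) (p : G × G) :
    (Additive.ofMul (Loc.stdCocycle g a p) : Additive A) =
      H19.stdFun (Rep.ofMulDistribMulAction G A) g (Additive.ofMul a) p := by
  classical
  unfold Loc.stdCocycle H19.stdFun
  simp only [cexp_eq_idx]
  split_ifs <;> rfl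

lemma ofMul_comp_stdCocycle (g : G) (a : A) :
    (Additive.ofMul ∘ Loc.stdCocycle g a : G × G → Additive A) =
      H19.stdFun (Rep.ofMulDistribMulAction G A) g (Additive.ofMul a) :=
  funext (ofMul_stdCocycle g a)

variable [Finite G]

lemma smul_eq_of_generator {g : G} (hg : ∀ x, x ∈ Subgroup.zpowers g) {a : A} (ha : g • a = a)
    (x : G) : x • a = a := by
  obtain ⟨i, rfl⟩ := H19.exists_pow_eq hg x
  induction i with
  | zero => simp
  | succ i ih => rw [pow_succ, mul_smul, ha, ih]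

lemma rho_ofMul_eq {g : G} (hg : ∀ x, x ∈ Subgroup.zpowers g) {a : A} (ha : g • a = a)
    (x : G) : (Rep.ofMulDistribMulAction G A).ρ x (Additive.ofMul a) = Additive.ofMul a := by
  show Additive.ofMul (x • a) = Additive.ofMul a
  rw [smul_eq_of_generator hg ha]

/-- the standard cocycle is a 2-cocycle -/
theorem isMulCocycle₂_stdCocycle (g : G) (hg : ∀ x, x ∈ Subgroup.zpowers g) (a : A)
    (ha : g • a = a) : IsMulCocycle₂ (Loc.stdCocycle g a) := by
  have h := H19.stdFun_mem_cocycles₂ (A := Rep.ofMulDistribMulAction G A) hg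
    (a := Additive.ofMul a) (rho_ofMul_eq hg ha)
  rw [← ofMul_comp_stdCocycle] at h
  exact isMulCocycle₂_of_mem_cocycles₂ _ h

/-- partial norms in multiplicative notation -/
lemma pnorm_ofMul (g : G) (y : A) (n : ℕ) :
    H19.pnorm (Rep.ofMulDistribMulAction G A) g (Additive.ofMul y) n =
      Additive.ofMul (∏ i ∈ Finset.range n, g ^ i • y) := by
  unfold H19.pnorm
  rw [ofMul_prod]
  rfl

/-- `m • [std g a] = 0` iff `a ^ m` is a norm. -/
theorem nsmul_stdClass_eq_zero_iff (g : G) (hg : ∀ x, x ∈ Subgroup.zpowers g) (a : A)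
    (h : IsMulCocycle₂ (Loc.stdCocycle g a)) (m : ℕ) :
    m • (H2π (Rep.ofMulDistribMulAction G A)).hom (cocyclesOfIsMulCocycle₂ h) = 0 ↔
      ∃ y : A, a ^ m = ∏ i ∈ Finset.range (orderOf g), g ^ i • y := by
  rw [← map_nsmul, H2π_eq_zero_iff]
  have e : (⇑(m • cocyclesOfIsMulCocycle₂ h) : G × G → Additive A) =
      m • H19.stdFun (Rep.ofMulDistribMulAction G A) g (Additive.ofMul a) := by
    rw [← ofMul_comp_stdCocycle]
    rfl
  rw [e, H19.nsmul_stdFun_mem_coboundaries₂_iff hg m]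
  constructor
  · rintro ⟨(y : Additive A), hy⟩
    refine ⟨Additive.toMul y, ?_⟩
    have this : H19.pnorm (Rep.ofMulDistribMulAction G A) g y (orderOf g) =
        Additive.ofMul (∏ i ∈ Finset.range (orderOf g), g ^ i • Additive.toMul y) :=
      pnorm_ofMul g (Additive.toMul y) (orderOf g)
    rw [this] at hy
    exact Additive.ofMul.injective hy
  · rintro ⟨y, hy⟩
    refine ⟨Additive.ofMul y, ?_⟩
    rw [pnorm_ofMul, ← hy]
    rfl

/-- INFLATION of the standard class along a surjection of cyclic groups. -/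
theorem map_stdClass {G' : Type} [Group G'] [Finite G'] {A' : Type} [CommGroup A']
    [MulDistribMulAction G' A'] (π : G' →* G)
    (φ : Rep.res π (Rep.ofMulDistribMulAction G A) ⟶ Rep.ofMulDistribMulAction G' A')
    (g : G) (g' : G') (hg : ∀ x, x ∈ Subgroup.zpowers g) (hg' : ∀ x, x ∈ Subgroup.zpowers g')
    (hπ : π g' = g) (a : A) (ha : g • a = a) (a' : A')
    (hφ : φ.hom (Additive.ofMul a : Additive A) = (Additive.ofMul a' : Additive A'))
    (hc : IsMulCocycle₂ (Loc.stdCocycle g a)) (hc' : IsMulCocycle₂ (Loc.stdCocycle g' a')) :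
    (groupCohomology.map π φ 2).hom
        ((H2π (Rep.ofMulDistribMulAction G A)).hom (cocyclesOfIsMulCocycle₂ hc)) =
      (orderOf g' / orderOf g) •
        (H2π (Rep.ofMulDistribMulAction G' A')).hom (cocyclesOfIsMulCocycle₂ hc') := by
  rw [← map_nsmul]
  erw [H2π_comp_map_apply]
  rw [H2π_eq_iff]
  have key := cochainsMap₂_stdFun_sub_mem_coboundaries₂ π φ hg' hπ
    (a := (Additive.ofMul a : Additive A)) (rho_ofMul_eq hg ha)
  refine (congrArg (fun f => f ∈ coboundaries₂ (Rep.ofMulDistribMulAction G' A')) ?_).mp key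
  funext p
  have e1 : (⇑((ConcreteCategory.hom (mapCocycles₂ π φ)) (cocyclesOfIsMulCocycle₂ hc))) p =
      φ.hom (H19.stdFun (Rep.ofMulDistribMulAction G A) g (Additive.ofMul a) (π p.1, π p.2)) := by
    rw [← ofMul_stdCocycle]
    rfl
  have e2 : (⇑((orderOf g' / orderOf g) • cocyclesOfIsMulCocycle₂ hc')) p =
      (orderOf g' / orderOf g) • H19.stdFun (Rep.ofMulDistribMulAction G' A') g'
        (φ.hom (Additive.ofMul a : Additive A)) p := by
    rw [hφ]
    exact congrArg (fun x => (orderOf g' / orderOf g) • x) (ofMul_stdCocycle g' a' p)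
  rw [Pi.sub_apply, Pi.sub_apply, e1, e2]
  rfl

end Bridge

/-! ## The unramified fundamental class -/

section Unr

open Loc

variable (q : ℕ) [Fact q.Prime]
variable (E : Type) [Field E] [Algebra ℚ_[q] E] [FiniteDimensional ℚ_[q] E]

/-- `q` is fixed by the Galois group. -/
lemma smul_qUnit (σ : E ≃ₐ[ℚ_[q]] E) : σ • qUnit q E = qUnit q E := by
  ext
  show σ (algebraMap ℚ_[q] E (q : ℚ_[q])) = algebraMap ℚ_[q] E (q : ℚ_[q])
  exact σ.commutes _

lemma nrm_qUnit : nrm q E ((qUnit q E : Eˣ) : E) = (q : ℝ)⁻¹ := by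
  show nrm q E (algebraMap ℚ_[q] E (q : ℚ_[q])) = (q : ℝ)⁻¹
  rw [nrm_algebraMap, Padic.norm_p]

lemma nrm_base (x : ℚ_[q]) : nrm q ℚ_[q] x = ‖x‖ := nrm_algebraMap q ℚ_[q] x

theorem isMulCocycle₂_unrCocycle (h : IsUnramified q ℚ_[q] E) :
    IsMulCocycle₂ (unrCocycle q E) :=
  isMulCocycle₂_stdCocycle _ (H25.frob_generates q ℚ_[q] E h) _ (smul_qUnit q E _)

/-- the absolute value of a nonzero element of an unramified extension of `ℚ_q` is an integral
power of `q`. -/
lemma exists_nrm_eq_zpow (h : IsUnramified q ℚ_[q] E) (y : E) (hy : y ≠ 0) :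
    ∃ v : ℤ, nrm q E y = (q : ℝ) ^ v := by
  obtain ⟨x, hx⟩ := h y
  have hx0 : x ≠ 0 := by
    rintro rfl
    rw [nrm_zero] at hx
    exact hy ((nrm_eq_zero_iff q).1 hx)
  refine ⟨-x.valuation, ?_⟩
  rw [hx, nrm_base, Padic.norm_eq_zpow_neg_valuation hx0]

/-- if `q ^ m` is a norm from the unramified extension `E` then `[E:ℚ_q] ∣ m`. -/
lemma orderOf_dvd_of_pow_eq_norm (h : IsUnramified q ℚ_[q] E) (g : E ≃ₐ[ℚ_[q]] E) (m : ℕ)
    (y : Eˣ) (hy : qUnit q E ^ m = ∏ i ∈ Finset.range (orderOf g), g ^ i • y) :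
    orderOf g ∣ m := by
  have hq1 : (1 : ℝ) < q := by exact_mod_cast (Fact.out : q.Prime).one_lt
  have hq0 : (0 : ℝ) < q := by linarith
  have hy' : ((qUnit q E : Eˣ) : E) ^ m = ∏ i ∈ Finset.range (orderOf g), (g ^ i) (y : E) := by
    have := congrArg (fun u : Eˣ => (u : E)) hy
    simp only [Units.val_pow_eq_pow_val, Units.coe_prod] at this
    rw [this]
    rfl
  have h2 : nrm q E (∏ i ∈ Finset.range (orderOf g), (g ^ i) (y : E)) =
      nrm q E (y : E) ^ orderOf g := by
    have : ∀ s : Finset ℕ, nrm q E (∏ i ∈ s, (g ^ i) (y : E)) = nrm q E (y : E) ^ s.card := by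
      intro s
      induction s using Finset.induction_on with
      | empty => simp [nrm_one]
      | insert a s ha ih =>
        rw [Finset.prod_insert ha, nrm_mul, ih, Finset.card_insert_of_notMem ha, pow_succ,
          H97.nrm_algEquiv q ℚ_[q] E, mul_comm]
    rw [this, Finset.card_range]
  obtain ⟨v, hv⟩ := exists_nrm_eq_zpow q E h (y : E) y.ne_zero
  have h3 := congrArg (nrm q E) hy'
  rw [h2, H97.nrm_pow, nrm_qUnit, hv, ← zpow_natCast, ← zpow_natCast, ← zpow_neg_one,
    ← zpow_mul, ← zpow_mul] at h3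
  have h4 := zpow_right_injective₀ hq0 hq1.ne' h3
  have h5 : (orderOf g : ℤ) ∣ (m : ℤ) := ⟨-v, by linarith⟩
  exact Int.natCast_dvd_natCast.1 h5

/-- the unramified class has order exactly `[E:ℚ_q]` -/
theorem addOrderOf_unrClass (h : IsUnramified q ℚ_[q] E) :
    addOrderOf (unrClass q E) = Module.finrank ℚ_[q] E := by
  have hc := isMulCocycle₂_unrCocycle q E h
  have hg := H25.frob_generates q ℚ_[q] E h
  have key := nsmul_stdClass_eq_zero_iff (Loc.frob q ℚ_[q] E) hg (qUnit q E) hc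
  rw [unrClass_eq q E hc, ← H25.orderOf_frob q ℚ_[q] E h]
  apply Nat.dvd_antisymm
  · rw [addOrderOf_dvd_iff_nsmul_eq_zero]
    refine (key _).2 ⟨qUnit q E, ?_⟩
    simp only [smul_qUnit, Finset.prod_const, Finset.card_range]
  · obtain ⟨y, hy⟩ := (key _).1 (addOrderOf_nsmul_eq_zero _)
    exact orderOf_dvd_of_pow_eq_norm q E h _ _ y hy

/-! ## Inflation -/

section Infl

variable (E' : Type) [Field E'] [Algebra ℚ_[q] E'] [FiniteDimensional ℚ_[q] E']
  [Algebra E E'] [IsScalarTower ℚ_[q] E E'] [Normal ℚ_[q] E]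

/-- the Frobenius of `E'` restricts to the Frobenius of `E`. -/
theorem restrictNormalHom_frob (h : IsUnramified q ℚ_[q] E) (h' : IsUnramified q ℚ_[q] E') :
    AlgEquiv.restrictNormalHom E (Loc.frob q ℚ_[q] E') = Loc.frob q ℚ_[q] E := by
  apply H25.frob_unique q ℚ_[q] E h
  intro x hx
  have h1 : algebraMap E E' ((AlgEquiv.restrictNormalHom E (Loc.frob q ℚ_[q] E')) x) =
      Loc.frob q ℚ_[q] E' (algebraMap E E' x) := AlgEquiv.restrictNormal_commutes _ E x
  rw [← H97.nrm_algebraMap_tower q E E', map_sub, map_pow, h1]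
  apply H25.frob_spec q ℚ_[q] E' h'
  rw [H97.nrm_algebraMap_tower]
  exact hx

lemma unitsMap_qUnit : Units.map (algebraMap E E' : E →* E') (qUnit q E) = qUnit q E' := by
  ext
  show algebraMap E E' (algebraMap ℚ_[q] E (q : ℚ_[q])) = algebraMap ℚ_[q] E' (q : ℚ_[q])
  rw [← IsScalarTower.algebraMap_apply]

/-- inflation compatibility of the unramified classes -/
theorem infl_unrClass (h : IsUnramified q ℚ_[q] E) (h' : IsUnramified q ℚ_[q] E') :
    (infl ℚ_[q] E E' 2).hom (unrClass q E) = Module.finrank E E' • unrClass q E' := by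
  have hc := isMulCocycle₂_unrCocycle q E h
  have hc' := isMulCocycle₂_unrCocycle q E' h'
  have hg := H25.frob_generates q ℚ_[q] E h
  have hg' := H25.frob_generates q ℚ_[q] E' h'
  have hπ := restrictNormalHom_frob q E E' h h'
  have hd : Module.finrank E E' =
      orderOf (Loc.frob q ℚ_[q] E') / orderOf (Loc.frob q ℚ_[q] E) := by
    rw [H25.orderOf_frob q ℚ_[q] E h, H25.orderOf_frob q ℚ_[q] E' h',
      ← Module.finrank_mul_finrank ℚ_[q] E E']
    exact (Nat.mul_div_cancel_left _ Module.finrank_pos).symm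
  rw [unrClass_eq q E hc, unrClass_eq q E' hc', hd]
  exact map_stdClass (AlgEquiv.restrictNormalHom E) (unitsInflHom ℚ_[q] E E') _ _ hg hg' hπ
    (qUnit q E) (smul_qUnit q E _) (qUnit q E')
    (congrArg Additive.ofMul (unitsMap_qUnit q E E')) hc hc'

end Infl

end Unr

end Fermat.Agent.CFT.H99
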