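import Mathlib
import Fermat.Agent.CFT.H15_GaloisFormation
import Fermat.Agent.CFT.H78_UnrField
import Fermat.Agent.CFT.H85_InfResGal
import Fermat.Agent.CFT.H33_LocalSecondFinal
import Fermat.Agent.CFT.H99_UnrClass
import Fermat.Agent.CFT.H26_FundLocal
import Fermat.Agent.CFT.H87_Levels

set_option autoImplicit false
set_option linter.unusedSectionVars false
set_option linter.style.haveILetI false

/-!
# B-MAIN: the local class formation `(Gal(ℚbar_q/ℚ_q), ℚbar_qˣ)`

Assembly of the layer-B packages through `H15.FieldUnrData.classFormation`.  The only inputs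
that are not yet discharged are taken as explicit hypotheses in their Skeleton3 shape:

* `H33.PrimeDegreeH2Card q` (B-HERBRAND: `#H²(Gal(L/K), Lˣ) = p` in prime degree `p`);
* `UglyStatement q` (B-UGLY: the unramified class of degree `[F:ℚ_q]` dies in `H²(M/F)`).
-/

open CategoryTheory groupCohomology

noncomputable section

namespace Fermat.Agent.CFT.H15

variable (q : ℕ) [Fact q.Prime]

/-- Skeleton3 `rest_infl_unrClass_eq_zero` (B-UGLY), as a hypothesis. -/
def UglyStatement : Prop :=
  ∀ (E F M : Type) [Field E] [Field F] [Field M]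
    [Algebra ℚ_[q] E] [Algebra ℚ_[q] F] [Algebra ℚ_[q] M]
    [FiniteDimensional ℚ_[q] E] [FiniteDimensional ℚ_[q] F] [FiniteDimensional ℚ_[q] M]
    [Algebra E M] [Algebra F M] [IsScalarTower ℚ_[q] E M] [IsScalarTower ℚ_[q] F M]
    [IsGalois ℚ_[q] E] [IsGalois ℚ_[q] M],
    Loc.IsUnramified q ℚ_[q] E → Module.finrank ℚ_[q] E = Module.finrank ℚ_[q] F →
    (Loc.rest ℚ_[q] F M 2).hom ((Loc.infl ℚ_[q] E M 2).hom (Loc.unrClass q E)) = 0

/-- the unramified class of `unrField q n` -/
def unrClassAt (n : ℕ+) :
    groupCohomology (Rep.ofAlgebraAutOnUnits ℚ_[q] ↥(H78.unrField q n)) 2 :=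
  haveI := H78.finiteDimensional_unrField q n.ne_zero
  Loc.unrClass q ↥(H78.unrField q n)

theorem finrank_unrField_tower (n m : ℕ+)
    [Algebra ↥(H78.unrField q n) ↥(H78.unrField q m)]
    [IsScalarTower ℚ_[q] ↥(H78.unrField q n) ↥(H78.unrField q m)] :
    Module.finrank ↥(H78.unrField q n) ↥(H78.unrField q m) = (m : ℕ) / (n : ℕ) := by
  haveI := H78.finiteDimensional_unrField q n.ne_zero
  haveI := H78.finiteDimensional_unrField q m.ne_zero
  have h1 := Module.finrank_mul_finrank ℚ_[q] ↥(H78.unrField q n) ↥(H78.unrField q m)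
  rw [H78.finrank_unrField q n.ne_zero, H78.finrank_unrField q m.ne_zero] at h1
  exact (Nat.div_eq_of_eq_mul_right n.pos h1.symm).symm

/-- **The field-level data of `ℚbar_q/ℚ_q`.** -/
def localFieldUnrData (hc : H33.PrimeDegreeH2Card q) (hu : UglyStatement q) :
    FieldUnrData ℚ_[q] (PadicAlgCl q) where
  infl_injective F M _ _ _ _ _ _ _ := H85.infl_injective ℚ_[q] F M
  exists_infl_eq F M _ _ _ _ _ _ _ := H85.exists_infl_eq_of_rest_eq_zero ℚ_[q] F M
  finite_H2 F _ _ := H33.finite_H2 q ℚ_[q] F hc
  card_H2_le F _ _ := H33.card_H2_le_finrank q ℚ_[q] F hc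
  E n := H78.unrField q n
  finE n := H78.finiteDimensional_unrField q n.ne_zero
  galE n := H78.isGalois_unrField q n.ne_zero
  finrank_E n := H78.finrank_unrField q n.ne_zero
  E_le n m h := H78.unrField_le_of_dvd q (PNat.dvd_iff.mp h)
  c n := unrClassAt q n
  order_c n := by
    haveI := H78.finiteDimensional_unrField q n.ne_zero
    have h := H99.addOrderOf_unrClass q ↥(H78.unrField q n) (H78.isUnramified_unrField q n.ne_zero)
    rw [H78.finrank_unrField q n.ne_zero] at h
    exact h
  infl_c n m h _ _ _ := by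
    haveI := H78.finiteDimensional_unrField q n.ne_zero
    haveI := H78.finiteDimensional_unrField q m.ne_zero
    haveI := H78.isGalois_unrField q n.ne_zero
    have h1 := H99.infl_unrClass q ↥(H78.unrField q n) ↥(H78.unrField q m)
      (H78.isUnramified_unrField q n.ne_zero) (H78.isUnramified_unrField q m.ne_zero)
    rw [finrank_unrField_tower q n m] at h1
    exact h1
  key F M _ _ _ _ n hn _ _ _ _ _ _ := by
    haveI := H78.finiteDimensional_unrField q n.ne_zero
    haveI := H78.isGalois_unrField q n.ne_zero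
    exact hu ↥(H78.unrField q n) F M (H78.isUnramified_unrField q n.ne_zero)
      ((H78.finrank_unrField q n.ne_zero).trans hn.symm)

theorem isGaloisLevels_localLevels : IsGaloisLevels (H78.localLevels q) where
  exists_field U hU _ := by
    obtain ⟨F, hF, -, rfl⟩ := hU
    exact ⟨F, hF, rfl⟩
  mem F _ _ := H78.fixingSubgroup_mem_galoisLevels F

theorem isGaloisLevels_levelsLocal : IsGaloisLevels (H87.levelsLocal q) where
  exists_field _ hU _ := hU
  mem F hF _ := ⟨F, hF, rfl⟩

/-- **B-MAIN** (modulo B-HERBRAND `hc` and B-UGLY `hu`): the local class formation, on helper78's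
level structure `localLevels q` (fixing subgroups of finite Galois subextensions). -/
def localClassFormation (hc : H33.PrimeDegreeH2Card q) (hu : UglyStatement q) :
    ClassFormation (H78.localLevels q) (H78.localUnits q) :=
  (localFieldUnrData q hc hu).classFormation (isGaloisLevels_localLevels q)
    (H78.isDiscrete_localUnits q)
    (fun F _ _ γ hγ => H26.isClassModule_local_of_addOrderOf q ℚ_[q] F hc γ hγ)

theorem isDiscrete_levelsLocal : (H87.levelsLocal q).IsDiscrete (H78.localUnits q) := by
  intro a
  obtain ⟨N, ⟨F, hF, -, rfl⟩, h⟩ := H78.isDiscrete_localUnits q a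
  exact ⟨_, ⟨F, hF, rfl⟩, h⟩

/-- **B-MAIN** on helper87's level structure `levelsLocal q` (fixing subgroups of all finite
subextensions; same normal levels). -/
def localClassFormation' (hc : H33.PrimeDegreeH2Card q) (hu : UglyStatement q) :
    ClassFormation (H87.levelsLocal q) (H78.localUnits q) :=
  (localFieldUnrData q hc hu).classFormation (isGaloisLevels_levelsLocal q)
    (isDiscrete_levelsLocal q)
    (fun F _ _ γ hγ => H26.isClassModule_local_of_addOrderOf q ℚ_[q] F hc γ hγ)

theorem B_main_of (hc : H33.PrimeDegreeH2Card q) (hu : UglyStatement q) :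
    Nonempty (ClassFormation (H78.localLevels q) (H78.localUnits q)) :=
  ⟨localClassFormation q hc hu⟩

end Fermat.Agent.CFT.H15
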