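import Fermat.Agent.CFT.H39_UnitsPow

/-!
# CFT project, layer B: units in an unramified extension (abstract Frobenius-lift core)

Ring-level, vocabulary-neutral core of the package B-UNR-F (second half).

`B` is a local domain, complete for its maximal ideal `𝔪 = (π)`, with finite residue field, and
`φ : B ≃+* B` is a ring automorphism with `φ π = π`, `φ ^ n = 1`, `φ b ≡ b ^ Q mod 𝔪` and
`#(B/𝔪) = Q ^ n` (`IsFrobLift φ π n Q`).  Think of `B = O_L`, `L/K` unramified of degree `n`,
`φ` the Frobenius, `Q = #k_K`.  Then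

* `IsFrobLift.exists_normMap_eq` : every `φ`-fixed unit is a norm `∏_{i<n} φ^i w` of a unit
  (`N U_L = U_K`);
* `IsFrobLift.exists_div_eq_of_normMap_eq_one` : every unit of norm one is `φ w / w` for a unit
  `w` (`H¹(G, U_L) = 0`, elementary form).

Ingredients: counting in the finite residue field (norm and trace onto the fixed points of
`x ↦ x ^ Q`, both Hilbert 90's), and a general successive approximation lemma
`exists_map_eq_of_approx` along the principal unit filtration.
-/

set_option autoImplicit false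

open Polynomial Finset IsLocalRing

namespace Fermat.Agent.CFT.H39

section Cyclic

/-- In a finite cyclic group of order `a * b`, the elements killed by `a` are the `b`-th
powers. -/
lemma exists_pow_eq_of_pow_eq_one_of_card {G : Type*} [Group G] [Finite G] [IsCyclic G]
    {a b : ℕ} (hcard : Nat.card G = a * b) (y : G) (hy : y ^ a = 1) : ∃ x : G, x ^ b = y := by
  obtain ⟨g, hg⟩ := IsCyclic.exists_generator (α := G)
  have hord : orderOf g = a * b := by
    rw [← hcard]
    exact orderOf_eq_card_of_forall_mem_zpowers hg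
  have hpos : 0 < a * b := by
    rw [← hcard]; exact Nat.card_pos
  have ha : 0 < a := Nat.pos_of_mul_pos_right hpos
  obtain ⟨k, hk⟩ : ∃ k : ℕ, g ^ k = y := by
    have := hg y
    rw [Subgroup.mem_zpowers_iff] at this
    obtain ⟨z, hz⟩ := this
    refine ⟨(z % (orderOf g : ℤ)).toNat, ?_⟩
    rw [← zpow_natCast, Int.toNat_of_nonneg (Int.emod_nonneg _ (by
      rw [hord]; exact_mod_cast hpos.ne')), zpow_mod_orderOf, hz]
  have h1 : g ^ (k * a) = 1 := by rw [pow_mul, hk, hy]
  have h2 : a * b ∣ k * a := by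
    rw [← hord]; exact orderOf_dvd_of_pow_eq_one h1
  have h3 : b ∣ k := by
    rw [mul_comm k a] at h2
    exact (Nat.mul_dvd_mul_iff_left ha).1 h2
  obtain ⟨t, ht⟩ := h3
  refine ⟨g ^ t, ?_⟩
  rw [← pow_mul, mul_comm t b, ← ht, hk]

end Cyclic

section FiniteField

variable {ℓ : Type*} [Field ℓ] [Finite ℓ] {Q n : ℕ}

lemma geomSum_mul_pred (Q n : ℕ) (hQ : 1 ≤ Q) :
    (∑ i ∈ range n, Q ^ i) * (Q - 1) = Q ^ n - 1 := by
  have h := geom_sum_mul (Q : ℤ) n
  have h1 : 1 ≤ Q ^ n := Nat.one_le_pow _ _ hQ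
  zify [hQ, h1]
  exact_mod_cast h

lemma two_le_of_card (hn : 0 < n) (hcard : Nat.card ℓ = Q ^ n) : 2 ≤ Q := by
  by_contra h
  push Not at h
  have h1 : Q ^ n ≤ 1 := by
    interval_cases Q
    · simp [hn.ne']
    · simp
  have h2 : 1 < Nat.card ℓ := Finite.one_lt_card
  omega

lemma pow_card_pow_eq (hcard : Nat.card ℓ = Q ^ n) (x : ℓ) : x ^ (Q ^ n) = x := by
  have := Fintype.ofFinite ℓ
  rw [← hcard, Nat.card_eq_fintype_card]
  exact FiniteField.pow_card x

lemma card_units_eq (hn : 0 < n) (hcard : Nat.card ℓ = Q ^ n) :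
    Nat.card ℓˣ = (Q - 1) * ∑ i ∈ range n, Q ^ i := by
  have hQ := two_le_of_card hn hcard
  rw [mul_comm, geomSum_mul_pred Q n (by omega), ← hcard, Nat.card_units]

/-- (F1) the "norm" `x ↦ x ^ (1 + Q + ... + Q^(n-1))` is onto the nonzero fixed points of
`x ↦ x ^ Q`. -/
lemma exists_pow_geomSum_eq (hn : 0 < n) (hcard : Nat.card ℓ = Q ^ n) {y : ℓ} (hy0 : y ≠ 0)
    (hy : y ^ Q = y) : ∃ x : ℓ, x ≠ 0 ∧ x ^ (∑ i ∈ range n, Q ^ i) = y := by
  have hQ := two_le_of_card hn hcard
  have h1 : (Units.mk0 y hy0) ^ (Q - 1) = 1 := by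
    apply Units.ext
    simp only [Units.val_pow_eq_pow_val, Units.val_mk0, Units.val_one]
    have : y ^ (Q - 1) * y = 1 * y := by
      rw [← pow_succ, Nat.sub_add_cancel (by omega), hy, one_mul]
    exact mul_right_cancel₀ hy0 this
  obtain ⟨x, hx⟩ := exists_pow_eq_of_pow_eq_one_of_card (card_units_eq hn hcard) _ h1
  refine ⟨x, x.ne_zero, ?_⟩
  have := congrArg (fun u : ℓˣ => (u : ℓ)) hx
  simpa using this

/-- (F3) multiplicative Hilbert 90: an element of "norm" one is of the form `x ^ Q / x`. -/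
lemma exists_pow_eq_mul_of_pow_geomSum_eq_one (hn : 0 < n) (hcard : Nat.card ℓ = Q ^ n) {y : ℓ}
    (hy : y ^ (∑ i ∈ range n, Q ^ i) = 1) : ∃ x : ℓ, x ≠ 0 ∧ x ^ Q = x * y := by
  have hQ := two_le_of_card hn hcard
  have hy0 : y ≠ 0 := by
    rintro rfl
    have hS : (∑ i ∈ range n, Q ^ i) ≠ 0 := by
      have : 0 < ∑ i ∈ range n, Q ^ i :=
        Finset.sum_pos (fun i _ => pow_pos (by omega) i) ⟨0, Finset.mem_range.2 hn⟩
      exact this.ne'
    rw [zero_pow hS] at hy
    exact zero_ne_one hy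
  have h1 : (Units.mk0 y hy0) ^ (∑ i ∈ range n, Q ^ i) = 1 := by
    apply Units.ext
    simpa using hy
  have hc : Nat.card ℓˣ = (∑ i ∈ range n, Q ^ i) * (Q - 1) := by
    rw [card_units_eq hn hcard, mul_comm]
  obtain ⟨x, hx⟩ := exists_pow_eq_of_pow_eq_one_of_card hc _ h1
  refine ⟨x, x.ne_zero, ?_⟩
  have := congrArg (fun u : ℓˣ => (u : ℓ)) hx
  simp only [Units.val_pow_eq_pow_val, Units.val_mk0] at this
  rw [← this, ← pow_succ', Nat.sub_add_cancel (by omega)]

omit [Finite ℓ] in
/-- root counting for kernels of additive maps given by polynomials -/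
lemma card_ker_le_natDegree (f : ℓ →+ ℓ) (P : ℓ[X]) (hP : P ≠ 0)
    (h : ∀ x, f x = 0 → P.eval x = 0) : Nat.card f.ker ≤ P.natDegree := by
  classical
  have hsub : (f.ker : Set ℓ) ⊆ ↑P.roots.toFinset := by
    intro x hx
    simp only [Finset.mem_coe, Multiset.mem_toFinset, mem_roots hP, IsRoot.def]
    exact h x hx
  calc Nat.card f.ker = Set.ncard (f.ker : Set ℓ) := (Nat.card_coe_set_eq _)
    _ ≤ Set.ncard (↑P.roots.toFinset : Set ℓ) :=
        Set.ncard_le_ncard hsub (Finset.finite_toSet _)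
    _ = P.roots.toFinset.card := Set.ncard_coe_finset _
    _ ≤ Multiset.card P.roots := Multiset.toFinset_card_le _
    _ ≤ P.natDegree := card_roots' P

/-- `Q` is a power of the characteristic. -/
lemma exists_eq_ringChar_pow (hn : 0 < n) (hcard : Nat.card ℓ = Q ^ n) :
    ∃ k : ℕ, (ringChar ℓ).Prime ∧ Q = ringChar ℓ ^ k := by
  have := Fintype.ofFinite ℓ
  obtain ⟨m, hp, hm⟩ := FiniteField.card ℓ (ringChar ℓ)
  rw [← Nat.card_eq_fintype_card, hcard] at hm
  have hdvd : Q ∣ ringChar ℓ ^ (m : ℕ) := by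
    rw [← hm]
    exact dvd_pow_self Q hn.ne'
  obtain ⟨k, -, hk⟩ := (Nat.dvd_prime_pow hp).1 hdvd
  exact ⟨k, hp, hk⟩

variable (ℓ) in
/-- the additive map `x ↦ x ^ (p ^ j)` in characteristic `p` -/
noncomputable def powAdd (hp : (ringChar ℓ).Prime) (j : ℕ) : ℓ →+ ℓ :=
  haveI : ExpChar ℓ (ringChar ℓ) := ExpChar.prime hp
  (iterateFrobenius ℓ (ringChar ℓ) j).toAddMonoidHom

omit [Finite ℓ] in
lemma powAdd_apply (hp : (ringChar ℓ).Prime) {k : ℕ} (hk : Q = ringChar ℓ ^ k) (i : ℕ) (x : ℓ) :
    powAdd ℓ hp (k * i) x = x ^ (Q ^ i) := by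
  have : ExpChar ℓ (ringChar ℓ) := ExpChar.prime hp
  simp only [powAdd, RingHom.toAddMonoidHom_eq_coe, AddMonoidHom.coe_coe, iterateFrobenius_def]
  rw [hk, ← pow_mul]

/-- (F2)+(F4): trace onto Frobenius-fixed points and additive Hilbert 90. -/
lemma exists_sum_pow_eq_and_exists_pow_sub_eq (hn : 0 < n) (hcard : Nat.card ℓ = Q ^ n) :
    (∀ y : ℓ, y ^ Q = y → ∃ x : ℓ, ∑ i ∈ range n, x ^ (Q ^ i) = y) ∧
    (∀ y : ℓ, ∑ i ∈ range n, y ^ (Q ^ i) = 0 → ∃ x : ℓ, x ^ Q - x = y) := by
  classical
  have hQ := two_le_of_card hn hcard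
  obtain ⟨k, hp, hk⟩ := exists_eq_ringChar_pow hn hcard
  -- the two additive maps
  let T : ℓ →+ ℓ := ∑ i ∈ range n, powAdd ℓ hp (k * i)
  let D : ℓ →+ ℓ := powAdd ℓ hp (k * 1) - AddMonoidHom.id ℓ
  have hT : ∀ x, T x = ∑ i ∈ range n, x ^ (Q ^ i) := by
    intro x
    simp only [T, AddMonoidHom.finsetSum_apply, powAdd_apply hp hk]
  have hD : ∀ x, D x = x ^ Q - x := by
    intro x
    simp only [D, AddMonoidHom.sub_apply, powAdd_apply hp hk, pow_one, AddMonoidHom.id_apply]
  -- telescoping
  have htel : ∀ x : ℓ, ∑ i ∈ range n, (x ^ (Q ^ i)) ^ Q = ∑ i ∈ range n, x ^ (Q ^ i) := by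
    intro x
    have h1 : ∀ i, (x ^ (Q ^ i)) ^ Q = x ^ (Q ^ (i + 1)) := by
      intro i; rw [← pow_mul, ← pow_succ]
    simp only [h1]
    have h2 := Finset.sum_range_succ (fun i => x ^ (Q ^ i)) n
    have h3 := Finset.sum_range_succ' (fun i => x ^ (Q ^ i)) n
    simp only [pow_zero, pow_one] at h3
    rw [pow_card_pow_eq hcard] at h2
    have : ∑ i ∈ range n, x ^ Q ^ (i + 1) + x = ∑ i ∈ range n, x ^ Q ^ i + x := by
      rw [← h3, ← h2]
    exact add_right_cancel this
  have hTD : ∀ x, D (T x) = 0 := by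
    intro x
    rw [hD, hT, sub_eq_zero]
    have : (∑ i ∈ range n, x ^ (Q ^ i)) ^ Q = ∑ i ∈ range n, (x ^ (Q ^ i)) ^ Q := by
      have := map_sum (powAdd ℓ hp (k * 1)) (fun i => x ^ (Q ^ i)) (range n)
      simpa only [powAdd_apply hp hk, pow_one] using this
    rw [this, htel]
  have hDT : ∀ x, T (D x) = 0 := by
    intro x
    rw [hD, map_sub, hT, hT, sub_eq_zero]
    have : ∀ i, (x ^ Q) ^ (Q ^ i) = (x ^ (Q ^ i)) ^ Q := by
      intro i; rw [← pow_mul, ← pow_mul, mul_comm]
    simp only [this]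
    exact htel x
  -- polynomials
  let PT : ℓ[X] := ∑ i ∈ range n, X ^ (Q ^ i)
  let PD : ℓ[X] := X ^ Q - X
  have hPTeval : ∀ x, PT.eval x = T x := by
    intro x; rw [hT]; simp [PT, eval_finsetSum]
  have hPDeval : ∀ x, PD.eval x = D x := by
    intro x; rw [hD]; simp [PD]
  have hinj : Function.Injective (fun i : ℕ => Q ^ i) := Nat.pow_right_injective hQ
  have hPT0 : PT ≠ 0 := by
    intro h0
    have hc : PT.coeff (Q ^ (n - 1)) = 1 := by
      simp only [PT, finsetSum_coeff, coeff_X_pow]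
      rw [Finset.sum_eq_single (n - 1)]
      · simp
      · intro i _ hi
        rw [if_neg]
        intro h
        exact hi (hinj h).symm
      · intro h
        exact absurd (Finset.mem_range.2 (by omega)) h
    rw [h0, coeff_zero] at hc
    exact zero_ne_one hc
  have hPTdeg : PT.natDegree ≤ Q ^ (n - 1) := by
    refine natDegree_sum_le_of_forall_le _ _ (fun i hi => ?_)
    rw [natDegree_X_pow]
    exact Nat.pow_le_pow_right (by omega) (by have := Finset.mem_range.1 hi; omega)
  have hPD0 : PD ≠ 0 := by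
    intro h0
    have hc : PD.coeff Q = 1 := by
      simp only [PD, coeff_sub, coeff_X_pow, coeff_X]
      have : (1 : ℕ) ≠ Q := by omega
      simp [this]
    rw [h0, coeff_zero] at hc
    exact zero_ne_one hc
  have hPDdeg : PD.natDegree ≤ Q := by
    refine (natDegree_sub_le _ _).trans ?_
    rw [natDegree_X_pow, natDegree_X]
    exact max_le le_rfl (by omega)
  have hkT : Nat.card T.ker ≤ Q ^ (n - 1) :=
    (card_ker_le_natDegree T PT hPT0 (fun x hx => by rw [hPTeval, hx])).trans hPTdeg
  have hkD : Nat.card D.ker ≤ Q :=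
    (card_ker_le_natDegree D PD hPD0 (fun x hx => by rw [hPDeval, hx])).trans hPDdeg
  -- |ker| * |range| = |ℓ|
  have hcT : Nat.card T.ker * Nat.card T.range = Q ^ n := by
    rw [← hcard, ← AddSubgroup.index_ker, AddSubgroup.card_mul_index]
  have hcD : Nat.card D.ker * Nat.card D.range = Q ^ n := by
    rw [← hcard, ← AddSubgroup.index_ker, AddSubgroup.card_mul_index]
  have hQn : Q ^ n = Q ^ (n - 1) * Q := by
    rw [← pow_succ, Nat.sub_add_cancel hn]
  have hQpos : 0 < Q ^ (n - 1) := pow_pos (by omega) _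
  have hrT : Q ≤ Nat.card T.range := by
    by_contra hlt
    push Not at hlt
    have : Nat.card T.ker * Nat.card T.range < Q ^ (n - 1) * Q := by
      calc Nat.card T.ker * Nat.card T.range ≤ Q ^ (n - 1) * Nat.card T.range :=
            Nat.mul_le_mul_right _ hkT
        _ < Q ^ (n - 1) * Q := Nat.mul_lt_mul_of_pos_left hlt hQpos
    rw [hcT, hQn] at this
    exact lt_irrefl _ this
  have hrD : Q ^ (n - 1) ≤ Nat.card D.range := by
    by_contra hlt
    push Not at hlt
    have : Nat.card D.ker * Nat.card D.range < Q * Q ^ (n - 1) := by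
      calc Nat.card D.ker * Nat.card D.range ≤ Q * Nat.card D.range :=
            Nat.mul_le_mul_right _ hkD
        _ < Q * Q ^ (n - 1) := Nat.mul_lt_mul_of_pos_left hlt (by omega)
    rw [hcD, hQn, mul_comm] at this
    exact lt_irrefl _ this
  have e1 : T.range = D.ker := by
    refine AddSubgroup.eq_of_le_of_card_ge ?_ (hkD.trans hrT)
    rintro _ ⟨x, rfl⟩
    exact hTD x
  have e2 : D.range = T.ker := by
    refine AddSubgroup.eq_of_le_of_card_ge ?_ (hkT.trans hrD)
    rintro _ ⟨x, rfl⟩
    exact hDT x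
  constructor
  · intro y hy
    have : y ∈ T.range := by
      rw [e1, AddMonoidHom.mem_ker, hD, hy, sub_self]
    obtain ⟨x, hx⟩ := this
    exact ⟨x, by rw [← hT, hx]⟩
  · intro y hy
    have : y ∈ D.range := by
      rw [e2, AddMonoidHom.mem_ker, hT, hy]
    obtain ⟨x, hx⟩ := this
    exact ⟨x, by rw [← hD, hx]⟩

end FiniteField

section Approx

variable {B : Type*} [CommRing B] [IsLocalRing B]

lemma principalUnits_one_mem_iff {u : Bˣ} :
    u ∈ principalUnits B 1 ↔ residue B (u : B) = 1 := by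
  rw [mem_principalUnits_iff, pow_one, ← residue_eq_zero_iff, map_sub, map_one, sub_eq_zero]

/-- two units congruent modulo `𝔪 ^ j` differ by a principal unit of level `j` -/
lemma div_mem_principalUnits_of_sub_mem {j : ℕ} {u w : Bˣ}
    (h : (u : B) - (w : B) ∈ maximalIdeal B ^ j) : u / w ∈ principalUnits B j := by
  rw [mem_principalUnits_iff]
  have : ((u / w : Bˣ) : B) - 1 = ((u : B) - (w : B)) * ((w⁻¹ : Bˣ) : B) := by
    rw [div_eq_mul_inv, Units.val_mul, sub_mul, Units.mul_inv]
  rw [this]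
  exact Ideal.mul_mem_right _ _ h

lemma sub_mem_of_div_mem_principalUnits {j : ℕ} {u w : Bˣ}
    (h : u / w ∈ principalUnits B j) : (u : B) - (w : B) ∈ maximalIdeal B ^ j := by
  rw [mem_principalUnits_iff] at h
  have : (u : B) - (w : B) = (((u / w : Bˣ) : B) - 1) * (w : B) := by
    rw [div_eq_mul_inv, Units.val_mul, sub_mul, mul_assoc, Units.inv_mul, mul_one, one_mul]
  rw [this]
  exact Ideal.mul_mem_right _ _ h

/-- The recursive construction of approximate preimages. -/
noncomputable def approxSeq (f : Bˣ →* Bˣ) (V : Subgroup Bˣ) (hV : ∀ w, f w ∈ V)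
    (hstep : ∀ (j : ℕ) (v : Bˣ), v ∈ V → v ∈ principalUnits B j →
      ∃ w ∈ principalUnits B j, v / f w ∈ principalUnits B (j + 1))
    (v : Bˣ) (hv : v ∈ V) : (j : ℕ) → {W : Bˣ // v / f W ∈ principalUnits B j}
  | 0 => ⟨1, by rw [principalUnits_zero]; trivial⟩
  | j + 1 =>
    let W := approxSeq f V hV hstep v hv j
    let h := hstep j (v / f W.1) (V.div_mem hv (hV W.1)) W.2
    ⟨W.1 * h.choose, by
      have := h.choose_spec.2
      rw [map_mul]
      have e : v / (f W.1 * f h.choose) = v / f W.1 / f h.choose := by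
        rw [div_div]
      rw [e]
      exact this⟩

lemma approxSeq_succ_div (f : Bˣ →* Bˣ) (V : Subgroup Bˣ) (hV : ∀ w, f w ∈ V)
    (hstep : ∀ (j : ℕ) (v : Bˣ), v ∈ V → v ∈ principalUnits B j →
      ∃ w ∈ principalUnits B j, v / f w ∈ principalUnits B (j + 1))
    (v : Bˣ) (hv : v ∈ V) (j : ℕ) :
    (approxSeq f V hV hstep v hv (j + 1)).1 / (approxSeq f V hV hstep v hv j).1 ∈
      principalUnits B j := by
  have h := hstep j (v / f (approxSeq f V hV hstep v hv j).1)
    (V.div_mem hv (hV _)) (approxSeq f V hV hstep v hv j).2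
  have : (approxSeq f V hV hstep v hv (j + 1)).1 =
      (approxSeq f V hV hstep v hv j).1 * h.choose := rfl
  rw [this, mul_div_cancel_left]
  exact h.choose_spec.1

variable [IsAdicComplete (maximalIdeal B) B]

/-- Successive approximation: a homomorphism `f : Bˣ → Bˣ` that respects the principal unit
filtration and is "surjective on graded pieces" onto a subgroup `V` is surjective onto `V`. -/
theorem exists_map_eq_of_approx (f : Bˣ →* Bˣ) (V : Subgroup Bˣ)
    (hcont : ∀ (j : ℕ) (w : Bˣ), w ∈ principalUnits B j → f w ∈ principalUnits B j)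
    (hV : ∀ w, f w ∈ V)
    (hstep : ∀ (j : ℕ) (v : Bˣ), v ∈ V → v ∈ principalUnits B j →
      ∃ w ∈ principalUnits B j, v / f w ∈ principalUnits B (j + 1))
    (v : Bˣ) (hv : v ∈ V) : ∃ w, f w = v := by
  set s := approxSeq f V hV hstep v hv with hs
  let c : ℕ → B := fun j => ((s j).1 : B)
  -- Cauchy
  have hsucc : ∀ j, c (j + 1) - c j ∈ maximalIdeal B ^ j := fun j =>
    sub_mem_of_div_mem_principalUnits (approxSeq_succ_div f V hV hstep v hv j)
  have hcauchy : ∀ m n, m ≤ n → c m ≡ c n [SMOD (maximalIdeal B ^ m • ⊤ : Ideal B)] := by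
    intro m n hmn
    rw [← Ideal.one_eq_top, Ideal.smul_eq_mul, mul_one]
    obtain ⟨k, rfl⟩ := Nat.exists_eq_add_of_le hmn
    clear hmn
    induction k with
    | zero => rfl
    | succ k ih =>
      refine ih.trans ?_
      rw [SModEq.sub_mem, ← Ideal.neg_mem_iff, neg_sub, ← add_assoc]
      exact Ideal.pow_le_pow_right (Nat.le_add_right m k) (hsucc (m + k))
  obtain ⟨L, hL⟩ := IsPrecomplete.prec' c (hcauchy _ _)
  have hL' : ∀ j, c j - L ∈ maximalIdeal B ^ j := by
    intro j
    have := hL j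
    rw [← Ideal.one_eq_top, Ideal.smul_eq_mul, mul_one, SModEq.sub_mem] at this
    exact this
  -- L is a unit
  have hLu : IsUnit L := by
    by_contra hnu
    have h1 : L ∈ maximalIdeal B := (mem_maximalIdeal L).2 hnu
    have h2 : c 1 - L ∈ maximalIdeal B := by simpa using hL' 1
    have h3 : c 1 ∈ maximalIdeal B := by
      have := Ideal.add_mem _ h2 h1
      simpa using this
    exact (mem_maximalIdeal _).1 h3 (s 1).1.isUnit
  refine ⟨hLu.unit, ?_⟩
  -- v / f W is in every principal unit group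
  have hall : ∀ j, v / f hLu.unit ∈ principalUnits B j := by
    intro j
    have h1 : (s j).1 / hLu.unit ∈ principalUnits B j :=
      div_mem_principalUnits_of_sub_mem (by simpa using hL' j)
    have h2 : f ((s j).1 / hLu.unit) ∈ principalUnits B j := hcont j _ h1
    have h3 : v / f hLu.unit = (v / f (s j).1) * f ((s j).1 / hLu.unit) := by
      rw [_root_.map_div, div_mul_div_cancel]
    rw [h3]
    exact (principalUnits B j).mul_mem (s j).2 h2
  have hzero : ((v / f hLu.unit : Bˣ) : B) - 1 = 0 := by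
    apply IsHausdorff.haus' (I := maximalIdeal B)
    intro j
    rw [← Ideal.one_eq_top, Ideal.smul_eq_mul, mul_one, SModEq.zero]
    exact mem_principalUnits_iff.1 (hall j)
  have : v / f hLu.unit = 1 := by
    apply Units.ext
    rw [Units.val_one]
    exact sub_eq_zero.1 hzero
  exact (div_eq_one.1 this).symm

end Approx

section FrobLift

variable {B : Type*} [CommRing B]

/-- `b ↦ ∏_{i<n} φ^i b` -/
def normMap (φ : B ≃+* B) (n : ℕ) : B →* B where
  toFun b := ∏ i ∈ range n, (⇑φ)^[i] b
  map_one' := by simp [iterate_map_one]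
  map_mul' x y := by simp [iterate_map_mul, Finset.prod_mul_distrib]

/-- `b ↦ ∑_{i<n} φ^i b` -/
def traceMap (φ : B ≃+* B) (n : ℕ) : B →+ B where
  toFun b := ∑ i ∈ range n, (⇑φ)^[i] b
  map_zero' := by simp [iterate_map_zero]
  map_add' x y := by simp [iterate_map_add, Finset.sum_add_distrib]

lemma normMap_apply (φ : B ≃+* B) (n : ℕ) (b : B) :
    normMap φ n b = ∏ i ∈ range n, (⇑φ)^[i] b := rfl

lemma traceMap_apply (φ : B ≃+* B) (n : ℕ) (b : B) :
    traceMap φ n b = ∑ i ∈ range n, (⇑φ)^[i] b := rfl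

/-- `∏ (1 + x c_i) ≡ 1 + x ∑ c_i mod x²` -/
lemma prod_one_add_mul_sub_mem (x : B) {ι : Type*} (s : Finset ι) (c : ι → B) :
    ∏ i ∈ s, (1 + x * c i) - (1 + x * ∑ i ∈ s, c i) ∈ Ideal.span {x ^ 2} := by
  classical
  induction s using Finset.induction_on with
  | empty => simp
  | insert a s ha ih =>
    rw [Finset.prod_insert ha, Finset.sum_insert ha]
    obtain ⟨r, hr⟩ := Ideal.mem_span_singleton'.1 ih
    rw [Ideal.mem_span_singleton']
    refine ⟨c a * ∑ i ∈ s, c i + r + x * c a * r, ?_⟩
    have : ∏ i ∈ s, (1 + x * c i) = r * x ^ 2 + (1 + x * ∑ i ∈ s, c i) := by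
      rw [hr]; ring
    rw [this]
    ring

variable [IsLocalRing B]

/-- A Frobenius lift of order `n` on a local domain with principal maximal ideal `(π)`. -/
structure IsFrobLift (φ : B ≃+* B) (π : B) (n Q : ℕ) : Prop where
  maximalIdeal_eq : maximalIdeal B = Ideal.span {π}
  ne_zero : π ≠ 0
  map_pi : φ π = π
  iterate_eq : ∀ b, (⇑φ)^[n] b = b
  frob : ∀ b, φ b - b ^ Q ∈ maximalIdeal B
  card : Nat.card (ResidueField B) = Q ^ n
  pos : 0 < n

namespace IsFrobLift

variable {φ : B ≃+* B} {π : B} {n Q : ℕ} (h : IsFrobLift φ π n Q)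
include h

lemma mem_pow_iff (j : ℕ) (x : B) : x ∈ maximalIdeal B ^ j ↔ ∃ b, x = π ^ j * b := by
  rw [h.maximalIdeal_eq, Ideal.span_singleton_pow, Ideal.mem_span_singleton']
  constructor
  · rintro ⟨b, rfl⟩; exact ⟨b, mul_comm _ _⟩
  · rintro ⟨b, rfl⟩; exact ⟨b, mul_comm _ _⟩

lemma pi_mem : π ∈ maximalIdeal B := by
  rw [h.maximalIdeal_eq]; exact Ideal.mem_span_singleton_self π

lemma iterate_pi (i : ℕ) : (⇑φ)^[i] π = π := by
  induction i with
  | zero => rfl
  | succ i ih => rw [Function.iterate_succ_apply', ih, h.map_pi]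

lemma iterate_pi_pow_mul (i j : ℕ) (b : B) : (⇑φ)^[i] (π ^ j * b) = π ^ j * (⇑φ)^[i] b := by
  rw [iterate_map_mul, iterate_map_pow, h.iterate_pi]

lemma map_mem_pow {j : ℕ} {x : B} (hx : x ∈ maximalIdeal B ^ j) : φ x ∈ maximalIdeal B ^ j := by
  obtain ⟨b, rfl⟩ := (h.mem_pow_iff j x).1 hx
  rw [map_mul, map_pow, h.map_pi]
  exact (h.mem_pow_iff j _).2 ⟨_, rfl⟩

lemma iterate_mem_pow {j : ℕ} {x : B} (hx : x ∈ maximalIdeal B ^ j) (i : ℕ) :
    (⇑φ)^[i] x ∈ maximalIdeal B ^ j := by
  induction i with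
  | zero => exact hx
  | succ i ih => rw [Function.iterate_succ_apply']; exact h.map_mem_pow ih

lemma residue_map (b : B) : residue B (φ b) = residue B b ^ Q := by
  rw [← map_pow, ← sub_eq_zero, ← map_sub, residue_eq_zero_iff]
  exact h.frob b

lemma residue_iterate (i : ℕ) (b : B) : residue B ((⇑φ)^[i] b) = residue B b ^ (Q ^ i) := by
  induction i with
  | zero => simp
  | succ i ih => rw [Function.iterate_succ_apply', h.residue_map, ih, ← pow_mul, ← pow_succ]

lemma residue_normMap (b : B) :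
    residue B (normMap φ n b) = residue B b ^ (∑ i ∈ range n, Q ^ i) := by
  rw [normMap_apply, map_prod, ← Finset.prod_pow_eq_pow_sum]
  exact Finset.prod_congr rfl (fun i _ => h.residue_iterate i b)

lemma residue_traceMap (b : B) :
    residue B (traceMap φ n b) = ∑ i ∈ range n, residue B b ^ (Q ^ i) := by
  rw [traceMap_apply, map_sum]
  exact Finset.sum_congr rfl (fun i _ => h.residue_iterate i b)

/-- (K1) `N(1 + π^j b) ≡ 1 + π^j Tr b mod 𝔪^(j+1)` for `j ≥ 1`. -/
lemma normMap_one_add_sub_mem {j : ℕ} (hj : 1 ≤ j) (b : B) :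
    normMap φ n (1 + π ^ j * b) - (1 + π ^ j * traceMap φ n b) ∈ maximalIdeal B ^ (j + 1) := by
  have h1 : normMap φ n (1 + π ^ j * b) = ∏ i ∈ range n, (1 + π ^ j * (⇑φ)^[i] b) := by
    rw [normMap_apply]
    refine Finset.prod_congr rfl (fun i _ => ?_)
    rw [iterate_map_add, iterate_map_one, h.iterate_pi_pow_mul]
  rw [h1, traceMap_apply]
  have h2 := prod_one_add_mul_sub_mem (π ^ j) (range n) (fun i => (⇑φ)^[i] b)
  obtain ⟨r, hr⟩ := Ideal.mem_span_singleton'.1 h2
  rw [← hr, h.mem_pow_iff]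
  refine ⟨r * π ^ (j - 1), ?_⟩
  have : j + 1 + (j - 1) = j * 2 := by omega
  calc r * (π ^ j) ^ 2 = r * π ^ (j * 2) := by rw [pow_mul]
    _ = r * π ^ (j + 1 + (j - 1)) := by rw [this]
    _ = π ^ (j + 1) * (r * π ^ (j - 1)) := by rw [pow_add]; ring

/-- (S1') the norm is invariant under `φ` (units). -/
lemma normMap_map_of_isUnit {b : B} (hb : IsUnit b) : normMap φ n (φ b) = normMap φ n b := by
  have e1 : normMap φ n (φ b) * b = ∏ i ∈ range (n + 1), (⇑φ)^[i] b := by
    rw [Finset.prod_range_succ', normMap_apply]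
    simp only [Function.iterate_zero, id_eq]
    congr 1
  have e2 : normMap φ n b * b = ∏ i ∈ range (n + 1), (⇑φ)^[i] b := by
    rw [Finset.prod_range_succ, normMap_apply, h.iterate_eq]
  exact hb.mul_left_inj.1 (e1.trans e2.symm)

/-- (S2') the norm is fixed by `φ` (units). -/
lemma map_normMap_of_isUnit {b : B} (hb : IsUnit b) : φ (normMap φ n b) = normMap φ n b := by
  have : φ (normMap φ n b) = normMap φ n (φ b) := by
    rw [normMap_apply, normMap_apply, map_prod]
    refine Finset.prod_congr rfl (fun i _ => ?_)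
    exact (Function.iterate_succ_apply' (⇑φ) i b).symm.trans (Function.iterate_succ_apply (⇑φ) i b)
  rw [this, h.normMap_map_of_isUnit hb]

end IsFrobLift

end FrobLift

section Main

variable {B : Type*} [CommRing B] [IsLocalRing B]

/-- The subgroup of `φ`-fixed units. -/
def fixedUnits (φ : B ≃+* B) : Subgroup Bˣ where
  carrier := {u | φ (u : B) = u}
  mul_mem' {a b} ha hb := by
    simp only [Set.mem_ofPred_eq] at *
    rw [Units.val_mul, map_mul, ha, hb]
  one_mem' := by simp
  inv_mem' {a} ha := by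
    simp only [Set.mem_ofPred_eq] at *
    have h1 : φ ((a⁻¹ : Bˣ) : B) * (a : B) = 1 := by
      rw [← ha, ← map_mul, Units.inv_mul, map_one]
    have h2 : ((a⁻¹ : Bˣ) : B) * (a : B) = 1 := Units.inv_mul a
    exact a.isUnit.mul_left_inj.1 (h1.trans h2.symm)

omit [IsLocalRing B] in
lemma mem_fixedUnits {φ : B ≃+* B} {u : Bˣ} : u ∈ fixedUnits φ ↔ φ (u : B) = u := Iff.rfl

namespace IsFrobLift

variable {φ : B ≃+* B} {π : B} {n Q : ℕ} (h : IsFrobLift φ π n Q)
include h

lemma pi_pow_mul_mem {j : ℕ} {x : B} (hx : x ∈ maximalIdeal B) :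
    π ^ j * x ∈ maximalIdeal B ^ (j + 1) := by
  rw [pow_succ]
  exact Ideal.mul_mem_mul ((h.mem_pow_iff j _).2 ⟨1, (mul_one _).symm⟩) hx

lemma isUnit_one_add {j : ℕ} (hj : 1 ≤ j) (b : B) : IsUnit (1 + π ^ j * b) := by
  rw [← residue_ne_zero_iff_isUnit, map_add, map_one]
  have : residue B (π ^ j * b) = 0 := by
    rw [residue_eq_zero_iff]
    exact Ideal.mul_mem_right _ _ (Ideal.pow_mem_of_mem _ h.pi_mem j hj)
  rw [this, add_zero]
  exact one_ne_zero

lemma units_map_mem_principalUnits {j : ℕ} {w : Bˣ} (hw : w ∈ principalUnits B j) :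
    Units.map (φ : B →* B) w ∈ principalUnits B j := by
  rw [mem_principalUnits_iff] at hw ⊢
  have : ((Units.map (φ : B →* B) w : Bˣ) : B) - 1 = φ ((w : B) - 1) := by
    simp
  rw [this]
  exact h.map_mem_pow hw

lemma normMap_mem_principalUnits {j : ℕ} {w : Bˣ} (hw : w ∈ principalUnits B j) :
    Units.map (normMap φ n) w ∈ principalUnits B j := by
  rw [mem_principalUnits_iff] at hw ⊢
  rw [← Ideal.Quotient.eq_zero_iff_mem, map_sub, map_one, sub_eq_zero, Units.coe_map,
    normMap_apply, map_prod]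
  refine Finset.prod_eq_one (fun i _ => ?_)
  rw [← sub_eq_zero, ← map_one (Ideal.Quotient.mk (maximalIdeal B ^ j)), ← map_sub,
    Ideal.Quotient.eq_zero_iff_mem]
  have : (⇑φ)^[i] (w : B) - 1 = (⇑φ)^[i] ((w : B) - 1) := by
    rw [iterate_map_sub, iterate_map_one]
  rw [this]
  exact h.iterate_mem_pow hw i

variable [IsDomain B] [IsAdicComplete (maximalIdeal B) B] [Finite (ResidueField B)]

/-- `N U_L = U_K`: every `φ`-fixed unit is the norm of a unit. -/
theorem exists_normMap_eq (u : Bˣ) (hu : φ (u : B) = u) :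
    ∃ w : Bˣ, normMap φ n (w : B) = u := by
  have key := exists_map_eq_of_approx (Units.map (normMap φ n)) (fixedUnits φ)
    (fun j w hw => h.normMap_mem_principalUnits hw)
    (fun w => by
      rw [mem_fixedUnits, Units.coe_map]
      exact h.map_normMap_of_isUnit w.isUnit)
    (fun j v hvV hvU => ?_) u hu
  · obtain ⟨w, hw⟩ := key
    exact ⟨w, by rw [← hw]; rfl⟩
  · rw [mem_fixedUnits] at hvV
    rcases Nat.eq_zero_or_pos j with rfl | hj
    · -- level 0
      have hy0 : residue B (v : B) ≠ 0 := (residue_ne_zero_iff_isUnit _).2 v.isUnit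
      have hyQ : residue B (v : B) ^ Q = residue B (v : B) := by
        rw [← h.residue_map, hvV]
      obtain ⟨xr, hx0, hx⟩ := exists_pow_geomSum_eq h.pos h.card hy0 hyQ
      obtain ⟨x, rfl⟩ := residue_surjective xr
      have hxu : IsUnit x := (residue_ne_zero_iff_isUnit _).1 hx0
      refine ⟨hxu.unit, by rw [principalUnits_zero]; trivial, ?_⟩
      rw [principalUnits_one_mem_iff, div_eq_mul_inv, Units.val_mul, map_mul]
      have h1 : residue B ((Units.map (normMap φ n) hxu.unit : Bˣ) : B) = residue B (v : B) := by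
        rw [Units.coe_map, IsUnit.unit_spec]
        exact (h.residue_normMap x).trans hx
      have h2 : residue B (((Units.map (normMap φ n) hxu.unit)⁻¹ : Bˣ) : B) *
          residue B ((Units.map (normMap φ n) hxu.unit : Bˣ) : B) = 1 := by
        rw [← map_mul, Units.inv_mul, map_one]
      rw [← h1, mul_comm]
      exact h2
    · -- level j ≥ 1
      obtain ⟨a, ha⟩ := (h.mem_pow_iff j _).1 (mem_principalUnits_iff.1 hvU)
      have hva : (v : B) = 1 + π ^ j * a := by linear_combination ha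
      have hfix : φ a = a := by
        have h1 : φ (v : B) = 1 + π ^ j * φ a := by
          rw [hva, map_add, map_one, map_mul, map_pow, h.map_pi]
        rw [hvV, hva] at h1
        have h2 : π ^ j * a = π ^ j * φ a := add_left_cancel h1
        exact (mul_left_cancel₀ (pow_ne_zero j h.ne_zero) h2).symm
      have haQ : residue B a ^ Q = residue B a := by rw [← h.residue_map, hfix]
      obtain ⟨br, hb⟩ :=
        (exists_sum_pow_eq_and_exists_pow_sub_eq h.pos h.card).1 (residue B a) haQ
      obtain ⟨b, rfl⟩ := residue_surjective br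
      have hwu := h.isUnit_one_add hj b
      refine ⟨hwu.unit, ?_, ?_⟩
      · rw [mem_principalUnits_iff, IsUnit.unit_spec, add_sub_cancel_left]
        exact (h.mem_pow_iff j _).2 ⟨b, rfl⟩
      · apply div_mem_principalUnits_of_sub_mem
        rw [Units.coe_map, IsUnit.unit_spec, hva]
        have h1 := h.normMap_one_add_sub_mem hj b
        have h2 : a - traceMap φ n b ∈ maximalIdeal B := by
          rw [← residue_eq_zero_iff, map_sub, h.residue_traceMap, hb, sub_self]
        have h3 := h.pi_pow_mul_mem (j := j) h2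
        have : 1 + π ^ j * a - normMap φ n (1 + π ^ j * b) =
            π ^ j * (a - traceMap φ n b) -
              (normMap φ n (1 + π ^ j * b) - (1 + π ^ j * traceMap φ n b)) := by ring
        rw [this]
        exact Ideal.sub_mem _ h3 h1

/-- `H¹(G, U_L) = 0` in elementary form: every unit of norm one is `φ w / w`, `w` a unit. -/
theorem exists_div_eq_of_normMap_eq_one (u : Bˣ) (hu : normMap φ n (u : B) = 1) :
    ∃ w : Bˣ, (u : B) * (w : B) = φ (w : B) := by
  have huV : u ∈ (Units.map (normMap φ n)).ker := by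
    rw [MonoidHom.mem_ker]
    apply Units.ext
    rw [Units.coe_map, Units.val_one]
    exact hu
  have key := exists_map_eq_of_approx (Units.map (φ : B →* B) / MonoidHom.id Bˣ)
    (Units.map (normMap φ n)).ker
    (fun j w hw => by
      rw [MonoidHom.div_apply, MonoidHom.id_apply]
      exact (principalUnits B j).div_mem (h.units_map_mem_principalUnits hw) hw)
    (fun w => by
      rw [MonoidHom.mem_ker, MonoidHom.div_apply, MonoidHom.id_apply, _root_.map_div,
        div_eq_one]
      apply Units.ext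
      rw [Units.coe_map, Units.coe_map, Units.coe_map]
      exact h.normMap_map_of_isUnit w.isUnit)
    (fun j v hvV hvU => ?_) u huV
  · obtain ⟨w, hw⟩ := key
    refine ⟨w, ?_⟩
    rw [MonoidHom.div_apply, MonoidHom.id_apply, div_eq_iff_eq_mul] at hw
    have := congrArg (fun z : Bˣ => (z : B)) hw
    simpa using this.symm
  · have hvN : normMap φ n (v : B) = 1 := by
      have := (MonoidHom.mem_ker).1 hvV
      have := congrArg (fun z : Bˣ => (z : B)) this
      simpa using this
    rcases Nat.eq_zero_or_pos j with rfl | hj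
    · -- level 0
      have hyS : residue B (v : B) ^ (∑ i ∈ range n, Q ^ i) = 1 := by
        rw [← h.residue_normMap, hvN, map_one]
      obtain ⟨xr, hx0, hx⟩ := exists_pow_eq_mul_of_pow_geomSum_eq_one h.pos h.card hyS
      obtain ⟨x, rfl⟩ := residue_surjective xr
      have hxu : IsUnit x := (residue_ne_zero_iff_isUnit _).1 hx0
      refine ⟨hxu.unit, by rw [principalUnits_zero]; trivial, ?_⟩
      apply div_mem_principalUnits_of_sub_mem
      rw [pow_one, ← residue_eq_zero_iff, map_sub, sub_eq_zero, MonoidHom.div_apply,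
        MonoidHom.id_apply, div_eq_mul_inv, Units.val_mul, map_mul, Units.coe_map,
        IsUnit.unit_spec]
      have h1 : residue B (((hxu.unit)⁻¹ : Bˣ) : B) * residue B x = 1 := by
        have := congrArg (residue B) (Units.inv_mul hxu.unit)
        rwa [map_mul, map_one, IsUnit.unit_spec] at this
      have h2 : residue B (φ x) = residue B x * residue B (v : B) := by
        rw [h.residue_map]; exact hx
      change residue B (v : B) = residue B (φ x) * residue B (((hxu.unit)⁻¹ : Bˣ) : B)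
      rw [h2, mul_comm (residue B x), mul_assoc, mul_comm (residue B x), h1, mul_one]
    · -- level j ≥ 1
      obtain ⟨a, ha⟩ := (h.mem_pow_iff j _).1 (mem_principalUnits_iff.1 hvU)
      have hva : (v : B) = 1 + π ^ j * a := by linear_combination ha
      have hTa : traceMap φ n a ∈ maximalIdeal B := by
        have h1 := h.normMap_one_add_sub_mem hj a
        rw [← hva, hvN] at h1
        have h2 : π ^ j * traceMap φ n a ∈ maximalIdeal B ^ (j + 1) := by
          have : π ^ j * traceMap φ n a = -(1 - (1 + π ^ j * traceMap φ n a)) := by ring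
          rw [this]
          exact (Ideal.neg_mem_iff _).2 h1
        obtain ⟨c, hc⟩ := (h.mem_pow_iff (j + 1) _).1 h2
        have h3 : traceMap φ n a = π * c := by
          have : π ^ j * traceMap φ n a = π ^ j * (π * c) := by rw [hc]; ring
          exact mul_left_cancel₀ (pow_ne_zero j h.ne_zero) this
        rw [h3]
        exact Ideal.mul_mem_right _ _ h.pi_mem
      have hsum : ∑ i ∈ range n, residue B a ^ (Q ^ i) = 0 := by
        rw [← h.residue_traceMap, residue_eq_zero_iff]
        exact hTa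
      obtain ⟨br, hb⟩ :=
        (exists_sum_pow_eq_and_exists_pow_sub_eq h.pos h.card).2 (residue B a) hsum
      obtain ⟨b, rfl⟩ := residue_surjective br
      have hwu := h.isUnit_one_add hj b
      refine ⟨hwu.unit, ?_, ?_⟩
      · rw [mem_principalUnits_iff, IsUnit.unit_spec, add_sub_cancel_left]
        exact (h.mem_pow_iff j _).2 ⟨b, rfl⟩
      · apply div_mem_principalUnits_of_sub_mem
        rw [MonoidHom.div_apply, MonoidHom.id_apply, div_eq_mul_inv, Units.val_mul,
          Units.coe_map, IsUnit.unit_spec]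
        have h1 : a + b - φ b ∈ maximalIdeal B := by
          rw [← residue_eq_zero_iff, map_sub, map_add, h.residue_map, ← hb]
          ring
        have h2 := h.pi_pow_mul_mem (j := j) h1
        have h3 : π ^ j * π ^ j * (a * b) ∈ maximalIdeal B ^ (j + 1) := by
          have : π ^ j * π ^ j * (a * b) = π ^ (j + 1) * (π ^ (j - 1) * (a * b)) := by
            have e : j + 1 + (j - 1) = j + j := by omega
            rw [← pow_add, ← e, pow_add]; ring
          rw [this]
          exact (h.mem_pow_iff (j + 1) _).2 ⟨_, rfl⟩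
        have h4 : (v : B) * (1 + π ^ j * b) - φ (1 + π ^ j * b) ∈ maximalIdeal B ^ (j + 1) := by
          have : (v : B) * (1 + π ^ j * b) - φ (1 + π ^ j * b) =
              π ^ j * (a + b - φ b) + π ^ j * π ^ j * (a * b) := by
            rw [hva, map_add, map_one, map_mul, map_pow, h.map_pi]; ring
          rw [this]
          exact Ideal.add_mem _ h2 h3
        have h5 : (v : B) - φ (1 + π ^ j * b) * ((hwu.unit⁻¹ : Bˣ) : B) =
            ((v : B) * (1 + π ^ j * b) - φ (1 + π ^ j * b)) * ((hwu.unit⁻¹ : Bˣ) : B) := by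
          have e : (1 + π ^ j * b) * ((hwu.unit⁻¹ : Bˣ) : B) = 1 := by
            have := Units.mul_inv hwu.unit
            rwa [IsUnit.unit_spec] at this
          rw [sub_mul, mul_assoc, e, mul_one]
        change (v : B) - φ (1 + π ^ j * b) * ((hwu.unit⁻¹ : Bˣ) : B) ∈ _
        rw [h5]
        exact Ideal.mul_mem_right _ _ h4

end IsFrobLift

end Main

end Fermat.Agent.CFT.H39
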