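import Fermat.Agent.CFT.H92_Ext

/-!
# CFT layer B, package B-RAMDATA, ring level (helper92)

Same setting as `H92_Ext` (complete DVR `A`, finite residue field, `K = Frac A` of characteristic
zero, `L/K` finite, `B` the integral closure of `A` in `L`, which is a DVR):
* `map_maximalIdeal_eq_pow`: `𝔪_A B = 𝔪_B ^ e`, `e = (maximalIdeal B).ramificationIdx A`;
* `card_residueField_eq_pow`: `#k_B = #k_A ^ f`, `f = (maximalIdeal B).inertiaDeg A`.
-/

set_option autoImplicit false

open IsLocalRing

namespace Fermat.Agent.CFT.H92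

section AKLB

variable {A K : Type} [CommRing A] [IsDomain A]
    [IsDiscreteValuationRing A] [IsAdicComplete (maximalIdeal A) A] [Finite (ResidueField A)]
    [Field K] [CharZero K] [Algebra A K] [IsFractionRing A K]
    {B L : Type} [CommRing B] [IsDomain B] [Field L] [Algebra B L] [IsFractionRing B L]
    [Algebra A B] [Algebra K L] [Algebra A L] [IsScalarTower A B L] [IsScalarTower A K L]
    [FiniteDimensional K L] [IsIntegralClosure B A L] [IsDiscreteValuationRing B]

include K L in
/-- `𝔪_B` lies over `𝔪_A`. -/
theorem liesOver_maximalIdeal : (maximalIdeal B).LiesOver (maximalIdeal A) := by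
  have hint := aux_integral A K L B
  exact ⟨(IsLocalRing.eq_maximalIdeal
    (Ideal.isMaximal_comap_of_isIntegral_of_isMaximal (R := A) (maximalIdeal B))).symm⟩

include K L in
/-- `𝔪_A B = 𝔪_B ^ e`. -/
theorem map_maximalIdeal_eq_pow :
    (maximalIdeal A).map (algebraMap A B) =
      maximalIdeal B ^ (maximalIdeal B).ramificationIdx A := by
  have hd := aux_dedekind A K L B
  have hlies : (maximalIdeal B).LiesOver (maximalIdeal A) := liesOver_maximalIdeal (K := K) (L := L)
  have hne : (maximalIdeal A).map (algebraMap A B) ≠ ⊥ := aux_map_ne_bot A K L (B := B)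
  have htfae : ∀ I : Ideal B, I ≠ ⊥ → ∃ n : ℕ, I = maximalIdeal B ^ n :=
    ((IsDiscreteValuationRing.TFAE B (aux_not_isField A K L (B := B))).out 2 6).mp hd
  obtain ⟨n, hn⟩ := htfae _ hne
  have hmB0 : maximalIdeal B ≠ 0 := by
    rw [Ideal.zero_eq_bot]
    exact IsDiscreteValuationRing.not_a_field B
  have hmBu : ¬ IsUnit (maximalIdeal B) := by
    rw [Ideal.isUnit_iff]
    exact (IsLocalRing.maximalIdeal.isMaximal B).ne_top
  have he : (maximalIdeal B).ramificationIdx A = n := by
    rw [Ideal.IsDedekindDomain.ramificationIdx_eq_multiplicity (maximalIdeal A) (maximalIdeal B) hne, hn]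
    exact multiplicity_pow_self hmB0 hmBu n
  rw [he, hn]

include K L in
/-- `#k_B = #k_A ^ f`. -/
theorem card_residueField_eq_pow :
    Nat.card (ResidueField B) =
      Nat.card (ResidueField A) ^ (maximalIdeal B).inertiaDeg A := by
  have hfin := aux_finite A K L B
  have hlies : (maximalIdeal B).LiesOver (maximalIdeal A) := liesOver_maximalIdeal (K := K) (L := L)
  have := Ideal.cardQuot_pow_inertiaDeg (maximalIdeal A) (maximalIdeal B)
  rw [Submodule.cardQuot_apply, Submodule.cardQuot_apply] at this
  exact this.symm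

end AKLB

end Fermat.Agent.CFT.H92
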