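import Fermat.Agent.CFT.LocDefs
import Fermat.Agent.CFT.LocMaps
import Fermat.Agent.CFT.H96_BridgeIntegral
import Fermat.Agent.CFT.H96_BridgeComplete
import Fermat.Agent.CFT.H92_Ram

/-!
# CFT layer B, package B-RAMDATA (helper92): `e * f = n` in norm language

`K ⊆ K'` finite extensions of `ℚ_[q]` (vocabulary of `LocDefs` / `LocMaps`):
* `exists_isUniformizer` (Skeleton4),
* `exists_ramification_data_rel` (Skeleton4),
* `exists_ramification_data` (Skeleton3).
Also the relative bridge `O q K → O q K'` (`ooHom`, `algOO`, `isIntegralClosure_OO`).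
-/

set_option autoImplicit false
set_option linter.unusedSectionVars false
set_option linter.style.haveILetI false

open IsLocalRing

namespace Fermat.Agent.CFT.H92

open Fermat.Agent.CFT.Loc

variable (q : ℕ) [Fact q.Prime]
variable (K : Type) [Field K] [Algebra ℚ_[q] K] [FiniteDimensional ℚ_[q] K]

/-! ### Small norm lemmas -/

variable {K} in
theorem nrm_pow' (x : K) (n : ℕ) : nrm q K (x ^ n) = nrm q K x ^ n := by
  induction n with
  | zero => simp [nrm_one]
  | succ n ih => rw [pow_succ, nrm_mul, ih, pow_succ]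

/-- the canonical absolute value is compatible with towers -/
theorem nrm_algebraMap_tower' (K' : Type) [Field K'] [Algebra ℚ_[q] K']
    [FiniteDimensional ℚ_[q] K'] [Algebra K K'] [IsScalarTower ℚ_[q] K K'] (x : K) :
    nrm q K' (algebraMap K K' x) = nrm q K x :=
  (spectralNorm.eq_of_tower (K := ℚ_[q]) (L := K') x).symm

/-! ### Uniformizers -/

variable {K} in
/-- an irreducible element of `O q K` is a uniformizer -/
theorem isUniformizer_of_irreducible {ϖ : O q K} (h : Irreducible ϖ) :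
    IsUniformizer q K (ϖ : K) := by
  have hmax : maximalIdeal (O q K) = Ideal.span {ϖ} := h.maximalIdeal_eq
  constructor
  · exact (H96.mem_maximalIdeal_iff q K).mp (hmax ▸ Ideal.mem_span_singleton_self ϖ)
  · intro x hx
    have hxO : x ∈ O q K := le_of_lt hx
    have hxm : (⟨x, hxO⟩ : O q K) ∈ maximalIdeal (O q K) :=
      (H96.mem_maximalIdeal_iff q K).mpr hx
    rw [hmax, Ideal.mem_span_singleton] at hxm
    obtain ⟨y, hy⟩ := hxm
    have hxy : x = (ϖ : K) * (y : K) := congrArg Subtype.val hy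
    rw [hxy, nrm_mul]
    exact mul_le_of_le_one_right (nrm_nonneg q _) y.2

/-- Skeleton4 `exists_isUniformizer`. -/
theorem exists_isUniformizer : ∃ ϖ : Kˣ, IsUniformizer q K (ϖ : K) := by
  obtain ⟨ϖ, h⟩ := IsDiscreteValuationRing.exists_irreducible (O q K)
  have hne : (ϖ : K) ≠ 0 := fun h0 => h.ne_zero (Subtype.ext h0)
  exact ⟨Units.mk0 (ϖ : K) hne, isUniformizer_of_irreducible q h⟩

variable {K} in
/-- a uniformizer is (the image of) an irreducible element of `O q K` -/
theorem exists_irreducible_of_isUniformizer {ϖ : K} (h : IsUniformizer q K ϖ) :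
    ∃ ϖ₀ : O q K, (ϖ₀ : K) = ϖ ∧ Irreducible ϖ₀ := by
  obtain ⟨p, hp⟩ := IsDiscreteValuationRing.exists_irreducible (O q K)
  have hpu := isUniformizer_of_irreducible q hp
  have hmax : maximalIdeal (O q K) = Ideal.span {p} := hp.maximalIdeal_eq
  have heq : nrm q K ϖ = nrm q K (p : K) := le_antisymm (hpu.2 ϖ h.1) (h.2 _ hpu.1)
  have hϖO : ϖ ∈ O q K := le_of_lt h.1
  have hϖm : (⟨ϖ, hϖO⟩ : O q K) ∈ maximalIdeal (O q K) := (H96.mem_maximalIdeal_iff q K).mpr h.1
  rw [hmax, Ideal.mem_span_singleton] at hϖm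
  obtain ⟨y, hy⟩ := hϖm
  have hϖy : ϖ = (p : K) * (y : K) := congrArg Subtype.val hy
  have hp0 : (p : K) ≠ 0 := fun h0 => hp.ne_zero (Subtype.ext h0)
  have hy1 : nrm q K (y : K) = 1 := by
    have h1 : nrm q K (p : K) * nrm q K (y : K) = nrm q K (p : K) := by
      rw [← nrm_mul, ← hϖy, heq]
    have hpos : 0 < nrm q K (p : K) := nrm_pos q hp0
    exact mul_left_cancel₀ hpos.ne' (h1.trans (mul_one _).symm)
  have hyu : IsUnit y := (H96.isUnit_iff_nrm_eq_one q K).mpr hy1
  refine ⟨⟨ϖ, hϖO⟩, rfl, ?_⟩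
  have hassoc : Associated p (⟨ϖ, hϖO⟩ : O q K) := by
    obtain ⟨u, hu⟩ := hyu
    exact ⟨u, by rw [hu, ← hy]⟩
  exact hassoc.irreducible hp

variable {K} in
/-- if `(x) = 𝔪 ^ e` in `O q K`, then `‖x‖ = ‖ϖ‖ ^ e` for every uniformizer `ϖ` -/
theorem nrm_eq_pow_of_span_eq {x : O q K} {e : ℕ}
    (hx : Ideal.span {x} = maximalIdeal (O q K) ^ e) {ϖ : K} (h : IsUniformizer q K ϖ) :
    nrm q K (x : K) = nrm q K ϖ ^ e := by
  obtain ⟨ϖ₀, rfl, hirr⟩ := exists_irreducible_of_isUniformizer q h
  rw [hirr.maximalIdeal_eq, Ideal.span_singleton_pow,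
    Ideal.span_singleton_eq_span_singleton] at hx
  obtain ⟨u, hu⟩ := hx
  have hu1 : nrm q K ((u : O q K) : K) = 1 := H96.nrm_eq_one_of_isUnit q K u.isUnit
  have h1 : (x : K) * ((u : O q K) : K) = (ϖ₀ : K) ^ e := by
    have := congrArg Subtype.val hu
    simpa using this
  rw [← nrm_pow', ← h1, nrm_mul, hu1, mul_one]

/-! ### The relative bridge `O q K → O q K'` -/

section Rel

variable (K' : Type) [Field K'] [Algebra ℚ_[q] K'] [FiniteDimensional ℚ_[q] K']
  [Algebra K K'] [IsScalarTower ℚ_[q] K K']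

/-- the inclusion `O q K → O q K'` -/
noncomputable def ooHom : O q K →+* O q K' where
  toFun x := ⟨algebraMap K K' x, by
    rw [mem_O_iff, nrm_algebraMap_tower']; exact x.2⟩
  map_one' := Subtype.ext (by simp)
  map_mul' x y := Subtype.ext (by simp)
  map_zero' := Subtype.ext (by simp)
  map_add' x y := Subtype.ext (by simp)

theorem coe_ooHom (x : O q K) : ((ooHom q K K' x : O q K') : K') = algebraMap K K' (x : K) := rfl

/-- `O q K'` as an `O q K`-algebra (not a global instance) -/
@[reducible] noncomputable def algOO : Algebra (O q K) (O q K') := (ooHom q K K').toAlgebra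

/-- `K'` as an `O q K`-algebra (not a global instance) -/
@[reducible] noncomputable def algOK' : Algebra (O q K) K' :=
  ((algebraMap K K').comp (algebraMap (O q K) K)).toAlgebra

theorem isScalarTower_OOK' :
    @IsScalarTower (O q K) (O q K') K' (algOO q K K').toSMul _ (algOK' q K K').toSMul :=
  @IsScalarTower.of_algebraMap_eq (O q K) (O q K') K' _ _ _ (algOO q K K') _ (algOK' q K K')
    (fun _ => rfl)

theorem isScalarTower_OKK' :
    @IsScalarTower (O q K) K K' _ _ (algOK' q K K').toSMul :=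
  @IsScalarTower.of_algebraMap_eq (O q K) K K' _ _ _ _ _ (algOK' q K K') (fun _ => rfl)

theorem isScalarTower_ZOK' :
    @IsScalarTower ℤ_[q] (O q K) K' (H96.algIntO q K).toSMul (algOK' q K K').toSMul
      (H96.algInt q K').toSMul := by
  letI := H96.algIntO q K
  letI := algOK' q K K'
  letI := H96.algInt q K'
  refine IsScalarTower.of_algebraMap_eq (fun a => ?_)
  change algebraMap ℚ_[q] K' (a : ℚ_[q]) =
    algebraMap K K' (((algebraMap ℤ_[q] (O q K) a : O q K)) : K)
  rw [H96.algebraMap_algIntO_coe, ← IsScalarTower.algebraMap_apply]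

/-- `O q K'` is the integral closure of `O q K` in `K'`. -/
theorem isIntegralClosure_OO :
    @IsIntegralClosure (O q K') (O q K) K' _ _ _ (algOK' q K K') _ := by
  letI := algOO q K K'
  letI := algOK' q K K'
  haveI := isScalarTower_OOK' q K K'
  refine ⟨Subtype.val_injective, fun {x} => ⟨fun hx => ?_, ?_⟩⟩
  · have hx' : IsIntegral (O q K') x := hx.tower_top
    exact IsIntegrallyClosed.isIntegral_iff.mp hx'
  · rintro ⟨y, rfl⟩
    letI := H96.algIntO q K
    letI := H96.algInt q K'
    haveI := isScalarTower_ZOK' q K K'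
    have hy : IsIntegral ℤ_[q] (y : K') := (H96.mem_O_iff_isIntegral q K' (y : K')).mp y.2
    exact hy.tower_top

/-- Skeleton4 `exists_ramification_data_rel`: relative ramification data, `e * f = [K':K]`. -/
theorem exists_ramification_data_rel :
    ∃ (e f : ℕ), e * f = Module.finrank K K' ∧ resCard q K' = resCard q K ^ f ∧
      ∀ (ϖ : K) (ϖ' : K'), IsUniformizer q K ϖ → IsUniformizer q K' ϖ' →
        nrm q K' (algebraMap K K' ϖ) = nrm q K' ϖ' ^ e := by
  letI := algOO q K K'
  letI := algOK' q K K'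
  haveI := isScalarTower_OOK' q K K'
  haveI := isScalarTower_OKK' q K K'
  haveI := isIntegralClosure_OO q K K'
  haveI : CharZero K := charZero_of_injective_algebraMap (algebraMap ℚ_[q] K).injective
  haveI : FiniteDimensional K K' := FiniteDimensional.right ℚ_[q] K K'
  refine ⟨(maximalIdeal (O q K')).ramificationIdx (O q K),
    (maximalIdeal (O q K')).inertiaDeg (O q K), ?_, ?_, ?_⟩
  · exact ramificationIdx_mul_inertiaDeg (A := O q K) (K := K) (B := O q K') (L := K')
  · exact card_residueField_eq_pow (A := O q K) (K := K) (B := O q K') (L := K')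
  · intro ϖ ϖ' hϖ hϖ'
    obtain ⟨ϖ₀, rfl, hirr⟩ := exists_irreducible_of_isUniformizer q hϖ
    have hmap := map_maximalIdeal_eq_pow (A := O q K) (K := K) (B := O q K') (L := K')
    rw [hirr.maximalIdeal_eq, Ideal.map_span, Set.image_singleton] at hmap
    exact nrm_eq_pow_of_span_eq q hmap hϖ'

end Rel

/-! ### Base `ℚ_[q]` -/

/-- Skeleton3 `exists_ramification_data`. -/
theorem exists_ramification_data (F : Type) [Field F] [Algebra ℚ_[q] F]
    [FiniteDimensional ℚ_[q] F] :
    ∃ (e f : ℕ) (ϖ : F), e * f = Module.finrank ℚ_[q] F ∧ resCard q F = q ^ f ∧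
      nrm q F ϖ < 1 ∧ (∀ x : F, nrm q F x < 1 → nrm q F x ≤ nrm q F ϖ) ∧
      nrm q F (algebraMap ℚ_[q] F q) = nrm q F ϖ ^ e := by
  letI := H96.algIntO q F
  letI := H96.algInt q F
  haveI := H96.isScalarTower_algIntO q F
  haveI := H96.isScalarTower_algInt q F
  haveI := H96.isIntegralClosure_O q F
  haveI := H96.finite_residueField_padicInt q
  obtain ⟨ϖ, hϖ⟩ := exists_isUniformizer q F
  refine ⟨(maximalIdeal (O q F)).ramificationIdx ℤ_[q],
    (maximalIdeal (O q F)).inertiaDeg ℤ_[q], (ϖ : F), ?_, ?_, hϖ.1, hϖ.2, ?_⟩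
  · exact ramificationIdx_mul_inertiaDeg (A := ℤ_[q]) (K := ℚ_[q]) (B := O q F) (L := F)
  · have h := card_residueField_eq_pow (A := ℤ_[q]) (K := ℚ_[q]) (B := O q F) (L := F)
    have h1 : Nat.card (ResidueField ℤ_[q]) = q := by
      rw [Nat.card_congr (PadicInt.residueField (p := q)).toEquiv, Nat.card_zmod]
    rw [h1] at h
    exact h
  · have hmap := map_maximalIdeal_eq_pow (A := ℤ_[q]) (K := ℚ_[q]) (B := O q F) (L := F)
    rw [PadicInt.maximalIdeal_eq_span_p, Ideal.map_span, Set.image_singleton] at hmap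
    have := nrm_eq_pow_of_span_eq q hmap hϖ
    rw [H96.algebraMap_algIntO_coe] at this
    simpa using this

end Fermat.Agent.CFT.H92
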