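import Mathlib
import Fermat.Agent.CFT.LocDefs
import Fermat.Agent.CFT.H96_BridgeIntegral
import Fermat.Agent.CFT.H97_Bridge

/-!
# CFT layer B, package B-BRIDGE: the fundamental identity `e * f = n` in norm language

`F` an abstract finite extension of `ℚ_[q]`.  Main statement: helper3's Skeleton3
`exists_ramification_data`, verbatim.
-/

set_option autoImplicit false
set_option linter.unusedSectionVars false
set_option linter.style.haveILetI false
set_option maxHeartbeats 400000

open IsLocalRing Polynomial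

namespace Fermat.Agent.CFT.H97

open Fermat.Agent.CFT.Loc

variable (q : ℕ) [Fact q.Prime]
variable (K : Type) [Field K] [Algebra ℚ_[q] K] [FiniteDimensional ℚ_[q] K]

/-! ### uniformizers (norm language) versus irreducible elements of `O q K` -/

variable {q K} in
theorem isUniformizer_of_irreducible {ϖ : O q K} (h : Irreducible ϖ) :
    IsUniformizer q K (ϖ : K) := by
  have hmax := (IsDiscreteValuationRing.irreducible_iff_uniformizer ϖ).1 h
  refine ⟨(H96.mem_maximalIdeal_iff q K).1 (by rw [hmax]; exact Ideal.mem_span_singleton_self ϖ),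
    fun x hx => ?_⟩
  have hxO : x ∈ O q K := hx.le
  have hxm : (⟨x, hxO⟩ : O q K) ∈ maximalIdeal (O q K) := (H96.mem_maximalIdeal_iff q K).2 hx
  rw [hmax, Ideal.mem_span_singleton] at hxm
  obtain ⟨y, hy⟩ := hxm
  have hxy : x = (ϖ : K) * (y : K) := by
    have := congrArg Subtype.val hy
    simpa using this
  rw [hxy, nrm_mul]
  calc nrm q K (ϖ : K) * nrm q K (y : K) ≤ nrm q K (ϖ : K) * 1 :=
        mul_le_mul_of_nonneg_left y.2 (nrm_nonneg q _)
    _ = nrm q K (ϖ : K) := mul_one _

variable {q K} in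
theorem IsUniformizer.mem_O {ϖ : K} (h : IsUniformizer q K ϖ) : ϖ ∈ O q K := h.1.le

variable {q K} in
theorem IsUniformizer.irreducible {ϖ : K} (h : IsUniformizer q K ϖ) :
    Irreducible (⟨ϖ, h.mem_O⟩ : O q K) := by
  rw [IsDiscreteValuationRing.irreducible_iff_uniformizer]
  apply le_antisymm
  · intro x hx
    rw [H96.mem_maximalIdeal_iff] at hx
    rw [Ideal.mem_span_singleton]
    have hle := h.2 _ hx
    have hmem : (x : K) / ϖ ∈ O q K := by
      rw [mem_O_iff, nrm_div]
      exact div_le_one_of_le₀ hle (nrm_nonneg q _)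
    refine ⟨⟨_, hmem⟩, ?_⟩
    ext
    simp only [MulMemClass.coe_mul]
    rw [mul_div_cancel₀ _ h.ne_zero]
  · rw [Ideal.span_le, Set.singleton_subset_iff]
    exact (H96.mem_maximalIdeal_iff q K).2 h.1

/-! ### `e * f = n` -/

/-- the cardinality of `O / q O` is `q ^ [K:ℚ_q]` -/
theorem natCard_quotient_map_maximalIdeal :
    Nat.card (O q K ⧸ Ideal.map (@algebraMap ℤ_[q] (O q K) _ _ (H96.algIntO q K))
      (maximalIdeal ℤ_[q])) = q ^ Module.finrank ℚ_[q] K := by
  letI := H96.algInt q K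
  letI := H96.algIntO q K
  haveI := H96.isScalarTower_algInt q K
  haveI := H96.isScalarTower_algIntO q K
  haveI := H96.isIntegralClosure_O q K
  haveI := H96.moduleFinite_O q K
  haveI : Module.IsTorsionFree ℤ_[q] K := by
    have hinj : Function.Injective (algebraMap ℤ_[q] K) :=
      (algebraMap ℚ_[q] K).injective.comp (FaithfulSMul.algebraMap_injective ℤ_[q] ℚ_[q])
    haveI : FaithfulSMul ℤ_[q] K := (faithfulSMul_iff_algebraMap_injective ℤ_[q] K).2 hinj
    infer_instance
  haveI : Module.Free ℤ_[q] (O q K) := IsIntegralClosure.module_free ℤ_[q] ℚ_[q] K (O q K)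
  have hrank : Module.finrank ℤ_[q] (O q K) = Module.finrank ℚ_[q] K :=
    IsIntegralClosure.rank ℤ_[q] ℚ_[q] K (O q K)
  letI : Field (ℤ_[q] ⧸ maximalIdeal ℤ_[q]) := Ideal.Quotient.field _
  have h1 := IsLocalRing.finrank_quotient_map (R := ℤ_[q]) (S := O q K)
  haveI : Module.Finite (ℤ_[q] ⧸ maximalIdeal ℤ_[q])
      (O q K ⧸ Ideal.map (algebraMap ℤ_[q] (O q K)) (maximalIdeal ℤ_[q])) :=
    Module.Finite.of_restrictScalars_finite ℤ_[q] _ _
  rw [Module.natCard_eq_pow_finrank (K := ℤ_[q] ⧸ maximalIdeal ℤ_[q]), h1, hrank]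
  congr 1
  have : Nat.card (ResidueField ℤ_[q]) = q := by
    rw [Nat.card_congr (PadicInt.residueField (p := q)).toEquiv, Nat.card_zmod]
  exact this

/-- `resCard` is the cardinality of `O / 𝔪` -/
theorem resCard_eq_natCard_quotient :
    resCard q K = Nat.card (O q K ⧸ maximalIdeal (O q K)) := rfl

/-- `#(O / 𝔪 ^ e) = resCard ^ e` -/
theorem natCard_quotient_maximalIdeal_pow (e : ℕ) :
    Nat.card (O q K ⧸ maximalIdeal (O q K) ^ e) = resCard q K ^ e := by
  have hP : maximalIdeal (O q K) ≠ ⊥ := by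
    intro h
    exact (H96.not_isField_O q K) ((IsLocalRing.isField_iff_maximalIdeal_eq).2 h)
  have := cardQuot_pow_of_prime (P := maximalIdeal (O q K)) hP (i := e)
  rw [Submodule.cardQuot_apply, Submodule.cardQuot_apply] at this
  rw [this, resCard_eq_natCard_quotient]

/-- for every uniformizer `ϖ` there is `e` with `q = u ϖ ^ e`; then `q O = 𝔪 ^ e` -/
theorem exists_ramification_index {ϖ : K} (hϖ : IsUniformizer q K ϖ) :
    ∃ e : ℕ, nrm q K ((q : ℕ) : K) = nrm q K ϖ ^ e ∧
      Ideal.map (@algebraMap ℤ_[q] (O q K) _ _ (H96.algIntO q K)) (maximalIdeal ℤ_[q]) =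
        maximalIdeal (O q K) ^ e := by
  letI := H96.algIntO q K
  have hirr := hϖ.irreducible
  have hq0 : ((q : ℕ) : O q K) ≠ 0 := by
    intro h
    apply H96.natCast_q_ne_zero q K
    have := congrArg Subtype.val h
    simpa using this
  obtain ⟨e, u, hu⟩ := IsDiscreteValuationRing.eq_unit_mul_pow_irreducible hq0 hirr
  refine ⟨e, ?_, ?_⟩
  · have h1 : ((q : ℕ) : K) = ((u : O q K) : K) * ϖ ^ e := by
      have := congrArg Subtype.val hu
      simpa using this
    rw [h1, nrm_mul, nrm_pow, H96.nrm_eq_one_of_isUnit q K u.isUnit, one_mul]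
  · rw [PadicInt.maximalIdeal_eq_span_p, Ideal.map_span, Set.image_singleton, map_natCast, hu,
      Ideal.span_singleton_mul_left_unit u.isUnit, ← Ideal.span_singleton_pow,
      ← (IsDiscreteValuationRing.irreducible_iff_uniformizer _).1 hirr]

/-- **fundamental identity** `e * f = [K : ℚ_q]`, for a given uniformizer -/
theorem ramification_mul_inertia {ϖ : K} (hϖ : IsUniformizer q K ϖ) {e f : ℕ}
    (he : nrm q K ((q : ℕ) : K) = nrm q K ϖ ^ e) (hf : resCard q K = q ^ f) :
    e * f = Module.finrank ℚ_[q] K := by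
  obtain ⟨e', he', hmap⟩ := exists_ramification_index q K hϖ
  have hee : e = e' := by
    have h := he.symm.trans he'
    have h2 : nrm q K ϖ ^ (e : ℤ) = nrm q K ϖ ^ (e' : ℤ) := by
      simpa using h
    exact_mod_cast hϖ.zpow_inj h2
  subst hee
  have h1 := natCard_quotient_map_maximalIdeal q K
  rw [hmap, natCard_quotient_maximalIdeal_pow, hf, ← pow_mul] at h1
  have hq : 2 ≤ q := (Fact.out : q.Prime).two_le
  have := Nat.pow_right_injective hq h1
  rw [← this, mul_comm]

/-- fundamental identity in norm language (Skeleton3, B-UGLY): if `resCard F = q ^ f` and `ϖ`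
is a uniformizer then `‖q‖ = ‖ϖ‖ ^ e` with `e * f = [F:ℚ_q]` -/
theorem exists_ramification_data :
    ∃ (e f : ℕ) (ϖ : K), e * f = Module.finrank ℚ_[q] K ∧ resCard q K = q ^ f ∧
      nrm q K ϖ < 1 ∧ (∀ x : K, nrm q K x < 1 → nrm q K x ≤ nrm q K ϖ) ∧
      nrm q K (algebraMap ℚ_[q] K q) = nrm q K ϖ ^ e := by
  obtain ⟨ϖ, hϖ⟩ := exists_isUniformizer q K
  obtain ⟨e, he, -⟩ := exists_ramification_index q K hϖ
  obtain ⟨f, -, hf⟩ := H96.resCard_eq_pow q K
  refine ⟨e, f, ϖ, ramification_mul_inertia q K hϖ he hf, hf, hϖ.1, hϖ.2, ?_⟩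
  rw [map_natCast]
  exact he

end Fermat.Agent.CFT.H97
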