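import Fermat.Agent.CFT.LocDefs
import Fermat.Agent.CFT.LocMaps
import Fermat.Agent.CFT.H25_LocUnr
import Fermat.Agent.CFT.H97_Bridge
import Fermat.Agent.CFT.H97_Ramification
import Fermat.Agent.CFT.H96_BridgeComplete
import Fermat.Agent.CFT.H92_RamLoc
import Fermat.Agent.CFT.H39_FrobLift

/-!
# CFT layer B, package B-UNR-F (second half): units in unramified extensions, field level

`K ⊆ L` finite extensions of `ℚ_[q]`, `L/K` unramified (vocabulary of `LocDefs`).  VERBATIM
Skeleton2/Skeleton3 statements: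

* `exists_unit_norm_eq` : the norm is onto on units, `N U_L = U_K`;
* `exists_unit_div_of_norm_eq_one` : `H¹(G, U_L) = 0` in elementary form;
* `mem_normSubgroup_iff_of_isUnramified` : `x ∈ N Lˣ ↔ ‖x‖ ∈ ‖Kˣ‖ ^ [L:K]`.

They are obtained by instantiating the abstract core `H39.IsFrobLift` (file `H39_FrobLift`) at
`B := Loc.O q L`, `φ :=` the Frobenius restricted to `O_L`, `π :=` a uniformizer of `K`.
-/

set_option autoImplicit false
set_option linter.unusedSectionVars false
set_option linter.style.haveILetI false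

open IsLocalRing Finset

namespace Fermat.Agent.CFT.H39

open Fermat.Agent.CFT.Loc

variable (q : ℕ) [Fact q.Prime]
variable (K : Type) [Field K] [Algebra ℚ_[q] K] [FiniteDimensional ℚ_[q] K]
variable (L : Type) [Field L] [Algebra ℚ_[q] L] [FiniteDimensional ℚ_[q] L]
variable [Algebra K L] [IsScalarTower ℚ_[q] K L]

/-- The restriction of a `K`-automorphism of `L` to the ring of integers `O_L`. -/
noncomputable def restrictO (σ : L ≃ₐ[K] L) : O q L ≃+* O q L where
  toFun x := ⟨σ x, by rw [mem_O_iff, H97.nrm_algEquiv]; exact x.2⟩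
  invFun x := ⟨σ.symm x, by rw [mem_O_iff, H97.nrm_algEquiv]; exact x.2⟩
  left_inv x := by apply Subtype.ext; simp
  right_inv x := by apply Subtype.ext; simp
  map_mul' x y := by apply Subtype.ext; simp
  map_add' x y := by apply Subtype.ext; simp

@[simp] lemma restrictO_coe (σ : L ≃ₐ[K] L) (x : O q L) :
    ((restrictO q K L σ x : O q L) : L) = σ (x : L) := rfl

lemma restrictO_iterate_coe (σ : L ≃ₐ[K] L) (i : ℕ) (x : O q L) :
    (((⇑(restrictO q K L σ))^[i] x : O q L) : L) = (σ ^ i) (x : L) := by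
  induction i with
  | zero => simp
  | succ i ih =>
    rw [Function.iterate_succ_apply', restrictO_coe, ih, pow_succ', AlgEquiv.mul_apply]

lemma algebraMap_uniformizer_mem_O {ϖ : K} (hϖ : Loc.IsUniformizer q K ϖ) :
    algebraMap K L ϖ ∈ O q L := by
  rw [mem_O_iff, H97.nrm_algebraMap_tower]
  exact hϖ.1.le

/-- residue cardinality of an unramified extension -/
theorem resCard_eq_pow_of_isUnramified (h : IsUnramified q K L) :
    resCard q L = resCard q K ^ Module.finrank K L := by
  obtain ⟨e, f, hef, hcard, hram⟩ := H92.exists_ramification_data_rel q K L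
  obtain ⟨ϖ, hϖ⟩ := H97.exists_isUniformizer q K
  have hL : H97.IsUniformizer q L (algebraMap K L ϖ) :=
    (H97.isUnramified_iff_isUniformizer q K L hϖ).1 h
  have h1 := hram ϖ (algebraMap K L ϖ) ⟨hϖ.1, hϖ.2⟩ ⟨hL.1, hL.2⟩
  have hpos := hL.nrm_pos
  have hlt := hL.nrm_lt_one
  have he : e = 1 := by
    have h2 : nrm q L (algebraMap K L ϖ) ^ 1 = nrm q L (algebraMap K L ϖ) ^ e := by
      rw [pow_one]; exact h1
    exact (pow_right_injective₀ hpos hlt.ne h2).symm
  rw [he, one_mul] at hef
  rw [hcard, hef]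

theorem isFrobLift_of_isUnramified (h : IsUnramified q K L) {ϖ : K}
    (hϖ : Loc.IsUniformizer q K ϖ) :
    IsFrobLift (restrictO q K L (frob q K L))
      (⟨algebraMap K L ϖ, algebraMap_uniformizer_mem_O q K L hϖ⟩ : O q L)
      (Module.finrank K L) (resCard q K) := by
  have hL : H97.IsUniformizer q L (algebraMap K L ϖ) :=
    (H97.isUnramified_iff_isUniformizer q K L ⟨hϖ.1, hϖ.2⟩).1 h
  haveI : FiniteDimensional K L := H25.finiteDimensional_tower q K L
  refine ⟨?_, ?_, ?_, ?_, ?_, ?_, Module.finrank_pos⟩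
  · exact hL.irreducible.maximalIdeal_eq
  · intro h0
    exact hL.ne_zero (congrArg Subtype.val h0)
  · apply Subtype.ext
    simp
  · intro b
    apply Subtype.ext
    rw [restrictO_iterate_coe, ← H25.orderOf_frob q K L h, pow_orderOf_eq_one]
    rfl
  · intro b
    rw [H96.mem_maximalIdeal_iff]
    exact H25.frob_spec q K L h (b : L) b.2
  · exact resCard_eq_pow_of_isUnramified q K L h

/-- the norm of `L/K` (unramified) as a product over powers of the Frobenius -/
theorem algebraMap_norm_eq_prod_frob_pow (h : IsUnramified q K L) (x : L) :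
    algebraMap K L (Algebra.norm K x) =
      ∏ i ∈ range (Module.finrank K L), (frob q K L ^ i) x := by
  haveI : FiniteDimensional K L := H25.finiteDimensional_tower q K L
  haveI : IsGalois K L := H25.isGalois_of_isUnramified q K L h
  classical
  rw [Algebra.norm_eq_prod_automorphisms, ← H25.orderOf_frob q K L h,
    ← IsCyclic.image_range_orderOf (H25.frob_generates q K L h), Finset.prod_image]
  intro i hi j hj hij
  exact pow_injOn_Iio_orderOf (by simpa using hi) (by simpa using hj) hij

/-- coercion of the abstract norm map -/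
lemma normMap_restrictO_coe (σ : L ≃ₐ[K] L) (n : ℕ) (x : O q L) :
    ((normMap (restrictO q K L σ) n x : O q L) : L) = ∏ i ∈ range n, (σ ^ i) (x : L) := by
  rw [normMap_apply]
  have : (((∏ i ∈ range n, (⇑(restrictO q K L σ))^[i] x : O q L)) : L) =
      ∏ i ∈ range n, (((⇑(restrictO q K L σ))^[i] x : O q L) : L) := by
    exact map_prod (O q L).subtype _ _
  rw [this]
  exact Finset.prod_congr rfl (fun i _ => restrictO_iterate_coe q K L σ i x)

/-- units of `O_L` from elements of norm one -/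
lemma exists_unit_O_of_nrm_eq_one {x : L} (hx : nrm q L x = 1) :
    ∃ u : (O q L)ˣ, ((u : O q L) : L) = x := by
  have hxO : x ∈ O q L := by rw [mem_O_iff, hx]
  have hu : IsUnit (⟨x, hxO⟩ : O q L) := (H96.isUnit_iff_nrm_eq_one q L).2 hx
  exact ⟨hu.unit, rfl⟩

lemma nrm_unit_O (u : (O q L)ˣ) : nrm q L ((u : O q L) : L) = 1 :=
  (H96.isUnit_iff_nrm_eq_one q L).1 u.isUnit

/-- norm is onto on units (unramified case) -/
theorem exists_unit_norm_eq (h : IsUnramified q K L) (u : Kˣ) (hu : u ∈ unitGroup q K) :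
    ∃ w : Lˣ, w ∈ unitGroup q L ∧ Algebra.norm K (w : L) = u := by
  obtain ⟨ϖ, hϖ⟩ := H97.exists_isUniformizer q K
  have hF := isFrobLift_of_isUnramified q K L h (ϖ := ϖ) ⟨hϖ.1, hϖ.2⟩
  have hu1 : nrm q L (algebraMap K L (u : K)) = 1 := by
    rw [H97.nrm_algebraMap_tower]; exact hu
  obtain ⟨uO, huO⟩ := exists_unit_O_of_nrm_eq_one q L hu1
  have hfix : restrictO q K L (frob q K L) (uO : O q L) = uO := by
    apply Subtype.ext
    rw [restrictO_coe, huO, AlgEquiv.commutes]
  obtain ⟨w, hw⟩ := hF.exists_normMap_eq uO hfix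
  have hw1 : nrm q L ((w : O q L) : L) = 1 := nrm_unit_O q L w
  have hw0 : ((w : O q L) : L) ≠ 0 := by
    intro h0; rw [h0, nrm_zero] at hw1; exact zero_ne_one hw1
  refine ⟨Units.mk0 _ hw0, hw1, ?_⟩
  apply (algebraMap K L).injective
  rw [Units.val_mk0, algebraMap_norm_eq_prod_frob_pow q K L h, ← normMap_restrictO_coe, hw, huO]

/-- `H¹(G, U_L) = 0` (unramified case, elementary form) -/
theorem exists_unit_div_of_norm_eq_one (h : IsUnramified q K L) (u : Lˣ)
    (hu : u ∈ unitGroup q L) (hN : Algebra.norm K (u : L) = 1) :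
    ∃ w : Lˣ, w ∈ unitGroup q L ∧ (u : L) = frob q K L w / w := by
  obtain ⟨ϖ, hϖ⟩ := H97.exists_isUniformizer q K
  have hF := isFrobLift_of_isUnramified q K L h (ϖ := ϖ) ⟨hϖ.1, hϖ.2⟩
  obtain ⟨uO, huO⟩ := exists_unit_O_of_nrm_eq_one q L (x := (u : L)) hu
  have hnorm : normMap (restrictO q K L (frob q K L)) (Module.finrank K L) (uO : O q L) = 1 := by
    apply Subtype.ext
    rw [normMap_restrictO_coe, huO, ← algebraMap_norm_eq_prod_frob_pow q K L h, hN, map_one]
    rfl
  obtain ⟨w, hw⟩ := hF.exists_div_eq_of_normMap_eq_one uO hnorm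
  have hw1 : nrm q L ((w : O q L) : L) = 1 := nrm_unit_O q L w
  have hw0 : ((w : O q L) : L) ≠ 0 := by
    intro h0; rw [h0, nrm_zero] at hw1; exact zero_ne_one hw1
  refine ⟨Units.mk0 _ hw0, hw1, ?_⟩
  have := congrArg (fun z : O q L => (z : L)) hw
  simp only [MulMemClass.coe_mul, restrictO_coe, huO] at this
  rw [Units.val_mk0, eq_div_iff hw0]
  exact this

/-- norm index of an unramified extension -/
theorem mem_normSubgroup_iff_of_isUnramified (h : IsUnramified q K L) (x : Kˣ) :
    x ∈ normSubgroup K L ↔ ∃ y : Kˣ, nrm q K x = nrm q K y ^ Module.finrank K L := by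
  haveI : FiniteDimensional K L := H25.finiteDimensional_tower q K L
  rw [mem_normSubgroup_iff]
  constructor
  · rintro ⟨z, hz⟩
    obtain ⟨y, hy⟩ := h (z : L)
    have hy0 : y ≠ 0 := by
      intro h0
      rw [h0, nrm_zero] at hy
      exact z.ne_zero ((nrm_eq_zero_iff q).1 hy)
    refine ⟨Units.mk0 y hy0, ?_⟩
    rw [Units.val_mk0, ← hy, H97.nrm_pow_finrank_eq, hz]
  · rintro ⟨y, hy⟩
    set n := Module.finrank K L with hn
    have hu : x / y ^ n ∈ unitGroup q K := by
      rw [mem_unitGroup_iff, Units.val_div_eq_div_val, H97.nrm_div, Units.val_pow_eq_pow_val,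
        H97.nrm_pow, hy, div_self]
      exact pow_ne_zero _ (nrm_pos q y.ne_zero).ne'
    obtain ⟨w, -, hw⟩ := exists_unit_norm_eq q K L h _ hu
    refine ⟨w * Units.map (algebraMap K L : K →* L) y, ?_⟩
    rw [Units.val_mul, map_mul, hw, Units.coe_map, MonoidHom.coe_coe, Algebra.norm_algebraMap,
      ← hn, ← Units.val_pow_eq_pow_val, ← Units.val_mul, div_mul_cancel]

end Fermat.Agent.CFT.H39
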