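import Fermat.Agent.CFT.H76_Ugly
import Fermat.Agent.CFT.H39_UnrUnits

/-!
# CFT layer B, package B-UGLY: the UGLY lemma, hypothesis-free

`Fermat.Agent.CFT.H76.rest_infl_unrClass_eq_zero` is Skeleton3 `rest_infl_unrClass_eq_zero`
verbatim; `rest_infl_unrClassRel_eq_zero'` is the general-base form with the relative
ramification data as explicit hypotheses.
-/

set_option autoImplicit false

open CategoryTheory groupCohomology

namespace Fermat.Agent.CFT.H76

open Fermat.Agent.CFT.Loc

theorem existsUnitNormEq (q : ℕ) [Fact q.Prime] : ExistsUnitNormEq q :=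
  fun K _ _ _ L _ _ _ _ _ h u hu => H39.exists_unit_norm_eq q K L h u hu

section Rel

variable (q : ℕ) [Fact q.Prime]
variable (K E F M : Type) [Field K] [Field E] [Field F] [Field M]
  [Algebra ℚ_[q] K] [Algebra ℚ_[q] E] [Algebra ℚ_[q] F] [Algebra ℚ_[q] M]
  [FiniteDimensional ℚ_[q] K] [FiniteDimensional ℚ_[q] E] [FiniteDimensional ℚ_[q] F]
  [FiniteDimensional ℚ_[q] M]
  [Algebra K E] [Algebra K F] [Algebra K M] [Algebra E M] [Algebra F M]
  [IsScalarTower ℚ_[q] K E] [IsScalarTower ℚ_[q] K F] [IsScalarTower ℚ_[q] K M]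
  [IsScalarTower ℚ_[q] E M] [IsScalarTower ℚ_[q] F M]
  [IsScalarTower K E M] [IsScalarTower K F M]

/-- **UGLY lemma, general base `K`**: `E/K` unramified, `F/K` finite, `M/K` finite Galois
containing both; if `e * f = [E:K]`, `resCard F = resCard K ^ f` and `‖a‖_F ∈ ‖Fˣ‖ ^ e`, then the
standard class of `a` for `E/K` dies in `H²(Gal(M/F), Mˣ)`. -/
theorem rest_infl_unrClassRel_eq_zero' [IsGalois K E] [IsGalois K M]
    (hE : IsUnramified q K E) (a : Kˣ) (e f : ℕ) (hef : e * f = Module.finrank K E)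
    (hf : resCard q F = resCard q K ^ f)
    (hval : ∃ y : Fˣ, nrm q F (algebraMap K F a) = nrm q F y ^ e) :
    (rest K F M 2).hom ((infl K E M 2).hom (unrClassRel q K E a)) = 0 :=
  rest_infl_unrClassRel_eq_zero_of q K E F M (existsUnitNormEq q) hE a e f hef hf hval

/-- cocycle form: the pulled back standard cocycle is a coboundary. -/
theorem isMulCoboundary₂_pullCocycle_unrCocycleRel' [IsGalois K E] [IsGalois K M]
    (hE : IsUnramified q K E) (a : Kˣ) (e f : ℕ) (hef : e * f = Module.finrank K E)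
    (hf : resCard q F = resCard q K ^ f)
    (hval : ∃ y : Fˣ, nrm q F (algebraMap K F a) = nrm q F y ^ e) :
    IsMulCoboundary₂ (pullCocycle (K := K) (F := F) (M := M) (unrCocycleRel q K E a)) :=
  isMulCoboundary₂_pullCocycle_unrCocycleRel q K E F M (existsUnitNormEq q) hE a e f hef hf hval

end Rel

section Skeleton3

variable (q : ℕ) [Fact q.Prime]
variable (E F M : Type) [Field E] [Field F] [Field M]
  [Algebra ℚ_[q] E] [Algebra ℚ_[q] F] [Algebra ℚ_[q] M]
  [FiniteDimensional ℚ_[q] E] [FiniteDimensional ℚ_[q] F] [FiniteDimensional ℚ_[q] M]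
  [Algebra E M] [Algebra F M] [IsScalarTower ℚ_[q] E M] [IsScalarTower ℚ_[q] F M]

/-- **THE UGLY LEMMA** (Skeleton3 `rest_infl_unrClass_eq_zero`, verbatim). -/
theorem rest_infl_unrClass_eq_zero [IsGalois ℚ_[q] E] [IsGalois ℚ_[q] M]
    (hE : IsUnramified q ℚ_[q] E)
    (hdeg : Module.finrank ℚ_[q] E = Module.finrank ℚ_[q] F) :
    (rest ℚ_[q] F M 2).hom ((infl ℚ_[q] E M 2).hom (unrClass q E)) = 0 :=
  rest_infl_unrClass_eq_zero_of q E F M (existsUnitNormEq q) hE hdeg

end Skeleton3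

end Fermat.Agent.CFT.H76
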