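/-
CFT project, layer B, package B-HERBRAND (helper8): the hypothesis `H33.PrimeDegreeH2Card q`
of helper33's B-SECOND package is discharged, and the hypothesis-free Skeleton statements
`finite_H2`, `card_H2_dvd_finrank`, `card_H2_le_finrank`, `local_units_res_facts` follow.
-/
import Fermat.Agent.CFT.H8_LocalNormIndex
import Fermat.Agent.CFT.H33_LocalSecondFinal

set_option autoImplicit false

namespace Fermat.Agent.CFT.H8

/-- **B-HERBRAND, final shape**: `#H²(Gal(L/K), Lˣ) = p` for `L/K` Galois of prime degree `p`,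
`K`, `L` finite over `ℚ_[q]`. -/
theorem primeDegreeH2Card (q : ℕ) [Fact q.Prime] : H33.PrimeDegreeH2Card q := by
  intro K L _ _ _ _ _ _ _ _ _ p hp hKL
  have : FiniteDimensional K L := FiniteDimensional.right ℚ_[q] K L
  have hcard : Nat.card (L ≃ₐ[K] L) = p := by
    rw [IsGalois.card_aut_eq_finrank, hKL]
  have : Fact p.Prime := ⟨hp⟩
  have : IsCyclic (L ≃ₐ[K] L) := isCyclic_of_prime_card hcard
  rw [card_H2_of_isCyclic q K L, hKL]

variable (q : ℕ) [Fact q.Prime]
  (K L : Type) [Field K] [Algebra ℚ_[q] K] [FiniteDimensional ℚ_[q] K]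
  [Field L] [Algebra ℚ_[q] L] [FiniteDimensional ℚ_[q] L]
  [Algebra K L] [IsScalarTower ℚ_[q] K L]

include q

/-- Skeleton3 `finite_H2`, hypothesis-free. -/
theorem finite_H2 [IsGalois K L] :
    Finite (groupCohomology.H2 (Rep.ofAlgebraAutOnUnits K L)) :=
  H33.finite_H2 q K L (primeDegreeH2Card q)

/-- Skeleton2 `card_H2_dvd_finrank`, hypothesis-free. -/
theorem card_H2_dvd_finrank [IsGalois K L] :
    Nat.card (groupCohomology.H2 (Rep.ofAlgebraAutOnUnits K L)) ∣ Module.finrank K L :=
  H33.card_H2_dvd_finrank q K L (primeDegreeH2Card q)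

/-- Skeleton3 `card_H2_le_finrank`, hypothesis-free. -/
theorem card_H2_le_finrank [IsGalois K L] :
    Nat.card (groupCohomology.H2 (Rep.ofAlgebraAutOnUnits K L)) ≤ Module.finrank K L :=
  H33.card_H2_le_finrank q K L (primeDegreeH2Card q)

/-- `H¹(S, Lˣ) = 0`, `H²(S, Lˣ)` finite of order dividing `|S|`, for every subgroup `S` of the
Galois group, hypothesis-free. -/
theorem local_units_res_facts [IsGalois K L] (S : Subgroup (L ≃ₐ[K] L)) :
    Subsingleton (groupCohomology (Rep.res S.subtype (Rep.ofAlgebraAutOnUnits K L)) 1) ∧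
    Finite (groupCohomology (Rep.res S.subtype (Rep.ofAlgebraAutOnUnits K L)) 2) ∧
    Nat.card (groupCohomology (Rep.res S.subtype (Rep.ofAlgebraAutOnUnits K L)) 2) ∣ Nat.card S ∧
    Nat.card (groupCohomology (Rep.res S.subtype (Rep.ofAlgebraAutOnUnits K L)) 2) ≤ Nat.card S :=
  H33.local_units_res_facts q K L (primeDegreeH2Card q) S

end Fermat.Agent.CFT.H8
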