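import Mathlib
import Fermat.Agent.CFT.H15_LocalFormation
import Fermat.Agent.CFT.H8_PrimeDegreeH2Card
import Fermat.Agent.CFT.H76_UglyFinal

set_option autoImplicit false

/-!
# B-MAIN, hypothesis-free: `(Gal(ℚbar_q/ℚ_q), ℚbar_qˣ)` is a class formation

`H15.B_main q : Nonempty (ClassFormation (H78.localLevels q) (H78.localUnits q))`,
with the explicit formation `H15.localCF q` (and `H15.localCF' q` on helper87's `levelsLocal q`).
Inputs: B-HERBRAND (`H8.primeDegreeH2Card`), B-UGLY (`H76.rest_infl_unrClass_eq_zero`),
B-INFRES-GAL (`H85`), B-SECOND (`H33`), B-UNRCLASS (`H99`), criterion (`H66`/`H26`), levels and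
unramified tower (`H78`), transport (`H43`, `H15_Omega3`), abstract assembly (`H15_*`).
-/

open CategoryTheory groupCohomology

noncomputable section

namespace Fermat.Agent.CFT.H15

variable (q : ℕ) [Fact q.Prime]

theorem uglyStatement : UglyStatement q :=
  fun E F M _ _ _ _ _ _ _ _ _ _ _ _ _ _ _ hE hdeg =>
    H76.rest_infl_unrClass_eq_zero q E F M hE hdeg

/-- The local class formation on `localLevels q` (finite Galois levels). -/
def localCF : ClassFormation (H78.localLevels q) (H78.localUnits q) :=
  localClassFormation q (H8.primeDegreeH2Card q) (uglyStatement q)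

/-- The local class formation on `levelsLocal q` (all finite levels). -/
def localCF' : ClassFormation (H87.levelsLocal q) (H78.localUnits q) :=
  localClassFormation' q (H8.primeDegreeH2Card q) (uglyStatement q)

/-- **B-MAIN**: `(G_{ℚ_q}, ℚbar_qˣ)` is a class formation. -/
theorem B_main : Nonempty (ClassFormation (H78.localLevels q) (H78.localUnits q)) :=
  ⟨localCF q⟩

theorem B_main' : Nonempty (ClassFormation (H87.levelsLocal q) (H78.localUnits q)) :=
  ⟨localCF' q⟩

/-- The unramified system underlying `localCF` (gives access to `fund`, `infLevel_fund`, …). -/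
def localUnrSystem : UnrSystem (H78.localLevels q) (H78.localUnits q) :=
  (localFieldUnrData q (H8.primeDegreeH2Card q) (uglyStatement q)).unrSystem
    (isGaloisLevels_localLevels q)

end Fermat.Agent.CFT.H15
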