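import Fermat.Agent.CFT.LocMaps

set_option autoImplicit false
set_option linter.unusedSectionVars false

/-!
# B-FUNDCLASS: the canonical fundamental class of a finite Galois extension of local fields

Definition only (shared by the packages (F0)–(F5) of helper3's ruling (R3)).
`K ⊆ L` abstract types finite over `ℚ_[q]`, `L/K` Galois.  `γ ∈ H²(Gal(L/K), Lˣ)` is *the
fundamental class* if for EVERY unramified `E/K` with `[E:K] = [L:K]`, every finite Galois `M/K`
containing `E` and `L`, and every uniformizer `ϖ` of `K`, the inflation of `γ` to `M` equals the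
inflation of the unramified class `unrClassRel q K E ϖ`.
-/

open CategoryTheory groupCohomology

namespace Fermat.Agent.CFT.Loc

variable (q : ℕ) [Fact q.Prime]
variable (K L : Type) [Field K] [Field L] [Algebra ℚ_[q] K] [Algebra ℚ_[q] L]
  [FiniteDimensional ℚ_[q] K] [FiniteDimensional ℚ_[q] L] [Algebra K L] [IsScalarTower ℚ_[q] K L]

/-- `γ` is the canonical fundamental class of `L/K`. -/
def IsFundClass [IsGalois K L] (γ : groupCohomology (Rep.ofAlgebraAutOnUnits K L) 2) : Prop :=
  ∀ (E M : Type) [Field E] [Field M] [Algebra ℚ_[q] E] [Algebra ℚ_[q] M]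
    [FiniteDimensional ℚ_[q] E] [FiniteDimensional ℚ_[q] M]
    [Algebra K E] [IsScalarTower ℚ_[q] K E] [Algebra K M] [IsScalarTower ℚ_[q] K M]
    [Algebra E M] [Algebra L M] [IsScalarTower K E M] [IsScalarTower K L M]
    [IsGalois K E] [IsGalois K M],
    IsUnramified q K E → Module.finrank K E = Module.finrank K L →
    ∀ ϖ : Kˣ, IsUniformizer q K (ϖ : K) →
      (infl K L M 2).hom γ = (infl K E M 2).hom (unrClassRel q K E ϖ)

end Fermat.Agent.CFT.Loc
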