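import Fermat.Agent.CFT.H91_Formation
import Fermat.Agent.CFT.H55_GalLevels
import Fermat.Agent.CFT.H78_Levels
import Fermat.Agent.CFT.H87_LevelCompareLocal
import Fermat.Agent.CFT.H15_LocalToGlobal
import Fermat.Prelude.Def_ExtEndgame_ProductionDatum

/-!
# Seam (S-3): formations on the frozen local level structure (helper55, D3-inst)

* `ClassFormation.ofLevelsSubset`, `PClassFormation.ofLevelsSubset`: a (`p`-)class formation on
  `(Γ, 𝓛, C)` restricts to every level structure `𝓛'` whose NORMAL levels are levels of `𝓛`
  (the data of a formation is indexed by the normal levels only).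
* every normal level of `pullLevels (localGaloisToGlobal q)` (the level structure of the frozen
  statement) is the fixing subgroup of a finite Galois extension of `ℚ_q`, i.e. a level of
  helper78's `H78.localLevels q`;  the two structures have the same open subgroups.
* hence layer B's `ClassFormation (H78.localLevels q) (H78.localUnits q)` gives
  `ClassFormation (pullLevels (primeLocalToGlobal q)) (localUnitsPrime q)` directly.
-/

set_option autoImplicit false

open CategoryTheory IntermediateField ExtCitation

namespace Fermat.Agent.CFT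

/-! ### Restricting formations to fewer levels -/

section Restrict

variable {k : Type} [CommRing k] {Γ : Type} [Group Γ]

/-- A class formation restricts to any level structure whose normal levels are among the
levels of the given one. -/
def ClassFormation.ofLevelsSubset {𝓛 𝓛' : LevelStructure Γ} {C : Rep.{0} k Γ}
    (F : ClassFormation 𝓛 C) (hsub : ∀ U ∈ 𝓛'.levels, U.Normal → U ∈ 𝓛.levels)
    (hdisc : 𝓛'.IsDiscrete C) : ClassFormation 𝓛' C where
  discrete := hdisc
  fund U hU _ := F.fund U (hsub U hU inferInstance)
  isClass U hU _ := F.isClass U (hsub U hU inferInstance)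
  inf_fund U V hU hV _ _ h :=
    F.inf_fund U V (hsub U hU inferInstance) (hsub V hV inferInstance) h

/-- A `p`-class formation restricts to any level structure whose normal levels are among the
levels of the given one. -/
def PClassFormation.ofLevelsSubset {p : ℕ} {𝓛 𝓛' : LevelStructure Γ} {C : Rep.{0} k Γ}
    (F : PClassFormation p 𝓛 C) (hsub : ∀ U ∈ 𝓛'.levels, U.Normal → U ∈ 𝓛.levels)
    (hdisc : 𝓛'.IsDiscrete C) : PClassFormation p 𝓛' C where
  discrete := hdisc
  fund U hU _ := F.fund U (hsub U hU inferInstance)
  isClass U hU _ := F.isClass U (hsub U hU inferInstance)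
  inf_fund U V hU hV _ _ h :=
    F.inf_fund U V (hsub U hU inferInstance) (hsub V hV inferInstance) h

/-- Two level structures with the same open subgroups have the same discrete modules. -/
lemma LevelStructure.IsDiscrete.of_isOpen_imp {𝓛 𝓛' : LevelStructure Γ} {C : Rep.{0} k Γ}
    (hC : 𝓛.IsDiscrete C) (h : ∀ N ∈ 𝓛.levels, 𝓛'.IsOpen N) : 𝓛'.IsDiscrete C := by
  intro a
  obtain ⟨N, hN, hfix⟩ := hC a
  obtain ⟨N', hN', hle⟩ := h N hN
  exact ⟨N', hN', fun s hs => hfix s (hle hs)⟩

end Restrict

/-! ### The local Galois group: pulled-back levels versus intrinsic levels -/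

section Local

local notation "GQ" => (AlgebraicClosure ℚ ≃ₐ[ℚ] AlgebraicClosure ℚ)
local notation "Qbar" => AlgebraicClosure ℚ

variable (q : ℕ) [Fact q.Prime]

local instance isGaloisPadicAlgCl55 : IsGalois ℚ_[q] (PadicAlgCl q) :=
  IsAlgClosure.isGalois ℚ_[q] (PadicAlgCl q)

/-- The compositum `ℚ_q · ι(F)` inside `PadicAlgCl q`. -/
noncomputable def localCompositum (F : IntermediateField ℚ Qbar) :
    IntermediateField ℚ_[q] (PadicAlgCl q) :=
  adjoin ℚ_[q] ((padicEmbedding q) '' (F : Set Qbar))

instance finiteDimensional_localCompositum (F : IntermediateField ℚ Qbar)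
    [FiniteDimensional ℚ F] : FiniteDimensional ℚ_[q] (localCompositum q F) := by
  obtain ⟨t, htfin, ht⟩ := H87.exists_finite_adjoin_eq F
  have hle : localCompositum q F = adjoin ℚ_[q] ((padicEmbedding q) '' t) := by
    apply le_antisymm
    · rw [localCompositum, adjoin_le_iff]
      rintro _ ⟨x, hx, rfl⟩
      let T : IntermediateField ℚ Qbar :=
        ((adjoin ℚ_[q] ((padicEmbedding q) '' t)).restrictScalars ℚ).comap (padicEmbedding q)
      have h1 : adjoin ℚ t ≤ T := by
        rw [adjoin_le_iff]
        intro y hy
        show padicEmbedding q y ∈ adjoin ℚ_[q] ((padicEmbedding q) '' t)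
        exact subset_adjoin _ _ ⟨y, hy, rfl⟩
      have hx' : x ∈ adjoin ℚ t := by rw [ht]; exact hx
      exact h1 hx'
    · apply adjoin.mono
      apply Set.image_mono
      intro y hy
      have : y ∈ adjoin ℚ t := subset_adjoin ℚ t hy
      rw [ht] at this
      exact this
  rw [hle]
  have : Finite ↥((padicEmbedding q) '' t) := (htfin.image _).to_subtype
  exact IntermediateField.finiteDimensional_adjoin
    (fun x _ => Algebra.IsIntegral.isIntegral (R := ℚ_[q]) x)

/-- The pull-back of the fixing subgroup of `F ⊆ ℚbar` to the local Galois group is the fixing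
subgroup of the compositum `ℚ_q · ι(F)`. -/
theorem comap_fixingSubgroup_eq (F : IntermediateField ℚ Qbar) :
    F.fixingSubgroup.comap (localGaloisToGlobal q) = (localCompositum q F).fixingSubgroup := by
  ext s
  rw [Subgroup.mem_comap, IntermediateField.mem_fixingSubgroup_iff]
  constructor
  · intro h
    apply H87.mem_fixingSubgroup_adjoin
    rintro _ ⟨x, hx, rfl⟩
    rw [← padicEmbedding_localGaloisToGlobal, h x hx]
  · intro h x hx
    rw [IntermediateField.mem_fixingSubgroup_iff] at h
    have h1 : padicEmbedding q (localGaloisToGlobal q s x) = padicEmbedding q x := by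
      rw [padicEmbedding_localGaloisToGlobal]
      exact h _ (subset_adjoin _ _ ⟨x, hx, rfl⟩)
    exact (padicEmbedding q).injective h1

/-- Every NORMAL level of the pulled-back structure is an intrinsic local level. -/
theorem mem_localLevels_of_mem_pullLevels
    {U : Subgroup (PadicAlgCl q ≃ₐ[ℚ_[q]] PadicAlgCl q)}
    (hU : U ∈ (pullLevels (localGaloisToGlobal q)).levels) (hn : U.Normal) :
    U ∈ (H78.localLevels q).levels := by
  obtain ⟨_, ⟨F, hF, rfl⟩, rfl⟩ := hU
  change (F.fixingSubgroup.comap (localGaloisToGlobal q)).Normal at hn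
  change F.fixingSubgroup.comap (localGaloisToGlobal q) ∈ (H78.localLevels q).levels
  rw [comap_fixingSubgroup_eq] at hn ⊢
  refine ⟨localCompositum q F, inferInstance, ?_, rfl⟩
  exact (InfiniteGalois.normal_iff_isGalois (localCompositum q F)).1 hn

/-- Every level of the pulled-back structure is open for the intrinsic local levels. -/
theorem isOpen_localLevels_of_mem_pullLevels
    {U : Subgroup (PadicAlgCl q ≃ₐ[ℚ_[q]] PadicAlgCl q)}
    (hU : U ∈ (pullLevels (localGaloisToGlobal q)).levels) : (H78.localLevels q).IsOpen U := by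
  obtain ⟨_, ⟨F, hF, rfl⟩, rfl⟩ := hU
  obtain ⟨K, hKfd, hKgal, hle⟩ := H87.exists_local_galois_le_comap q F
  exact ⟨K.fixingSubgroup, ⟨K, hKfd, hKgal, rfl⟩, fun s hs => hle s hs⟩

/-- **Krasner**: every intrinsic local level is open for the pulled-back structure. -/
theorem isOpen_pullLevels_of_mem_localLevels
    {U : Subgroup (PadicAlgCl q ≃ₐ[ℚ_[q]] PadicAlgCl q)}
    (hU : U ∈ (H78.localLevels q).levels) : (pullLevels (localGaloisToGlobal q)).IsOpen U := by
  obtain ⟨K, hKfd, -, rfl⟩ := hU
  obtain ⟨F, hF, hle⟩ :=
    H87.exists_global_comap_le q (H15.adjoin_range_padicEmbedding_eq_top q) K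
  exact ⟨_, ⟨_, ⟨F, hF, rfl⟩, rfl⟩, fun s hs => hle s hs⟩

/-- The two local level structures have the same open subgroups. -/
theorem isOpen_pullLevels_iff (U : Subgroup (PadicAlgCl q ≃ₐ[ℚ_[q]] PadicAlgCl q)) :
    (pullLevels (localGaloisToGlobal q)).IsOpen U ↔ (H78.localLevels q).IsOpen U := by
  constructor
  · rintro ⟨N, hN, hle⟩
    obtain ⟨N', hN', hle'⟩ := isOpen_localLevels_of_mem_pullLevels q hN
    exact ⟨N', hN', hle'.trans hle⟩
  · rintro ⟨N, hN, hle⟩
    obtain ⟨N', hN', hle'⟩ := isOpen_pullLevels_of_mem_localLevels q hN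
    exact ⟨N', hN', hle'.trans hle⟩

/-- A module which is discrete for the intrinsic local levels is discrete for the pulled-back
levels. -/
theorem isDiscrete_pullLevels_of_localLevels {k : Type} [CommRing k]
    {C : Rep.{0} k (PadicAlgCl q ≃ₐ[ℚ_[q]] PadicAlgCl q)}
    (hC : (H78.localLevels q).IsDiscrete C) :
    (pullLevels (localGaloisToGlobal q)).IsDiscrete C :=
  hC.of_isOpen_imp (fun _ hN => isOpen_pullLevels_of_mem_localLevels q hN)

theorem isDiscrete_localLevels_of_pullLevels {k : Type} [CommRing k]
    {C : Rep.{0} k (PadicAlgCl q ≃ₐ[ℚ_[q]] PadicAlgCl q)}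
    (hC : (pullLevels (localGaloisToGlobal q)).IsDiscrete C) :
    (H78.localLevels q).IsDiscrete C :=
  hC.of_isOpen_imp (fun _ hN => isOpen_localLevels_of_mem_pullLevels q hN)

/-- Layer B's local class formation, on the level structure of the frozen statement. -/
noncomputable def classFormationPullLevels {k : Type} [CommRing k]
    {C : Rep.{0} k (PadicAlgCl q ≃ₐ[ℚ_[q]] PadicAlgCl q)}
    (F : ClassFormation (H78.localLevels q) C) :
    ClassFormation (pullLevels (localGaloisToGlobal q)) C :=
  F.ofLevelsSubset (fun _ hU hn => mem_localLevels_of_mem_pullLevels q hU hn)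
    (isDiscrete_pullLevels_of_localLevels q F.discrete)

noncomputable def pClassFormationPullLevels {p : ℕ} {k : Type} [CommRing k]
    {C : Rep.{0} k (PadicAlgCl q ≃ₐ[ℚ_[q]] PadicAlgCl q)}
    (F : PClassFormation p (H78.localLevels q) C) :
    PClassFormation p (pullLevels (localGaloisToGlobal q)) C :=
  F.ofLevelsSubset (fun _ hU hn => mem_localLevels_of_mem_pullLevels q hU hn)
    (isDiscrete_pullLevels_of_localLevels q F.discrete)

end Local

/-! ### `Nat.Primes`-indexed wrappers (the groups of the frozen statement) -/

section Prime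

variable (q : Nat.Primes)

/-- The local formation module `(PadicAlgCl q)ˣ` on the frozen group `primeLocalGaloisGroup q`. -/
noncomputable def localUnitsPrime : Rep.{0} ℤ (primeLocalGaloisGroup q) :=
  letI : Fact (q : ℕ).Prime := ⟨q.2⟩
  H78.localUnits (q : ℕ)

/-- The local class formation of layer B on the level structure of the frozen statement. -/
noncomputable def classFormationPrime
    (F : letI : Fact (q : ℕ).Prime := ⟨q.2⟩
      ClassFormation (H78.localLevels (q : ℕ)) (H78.localUnits (q : ℕ))) :
    ClassFormation (pullLevels (primeLocalToGlobal q)) (localUnitsPrime q) :=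
  letI : Fact (q : ℕ).Prime := ⟨q.2⟩
  classFormationPullLevels (q : ℕ) F

theorem isDiscrete_localUnitsPrime :
    (pullLevels (primeLocalToGlobal q)).IsDiscrete (localUnitsPrime q) :=
  letI : Fact (q : ℕ).Prime := ⟨q.2⟩
  isDiscrete_pullLevels_of_localLevels (q : ℕ) (H78.isDiscrete_localUnits (q : ℕ))

end Prime

end Fermat.Agent.CFT
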