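/-
helper85 — CFT layer B: adapter from the local norm index formula in prime degree to
`H33.PrimeDegreeH2Card` (the single remaining hypothesis of B-SECOND).
-/
import Fermat.Agent.CFT.H85_H2NormIndex
import Fermat.Agent.CFT.H33_LocalSecondFinal

set_option autoImplicit false

namespace Fermat.Agent.CFT.H85

open groupCohomology Fermat.Agent.CFT

/-- The local norm index formula in prime degree, as a hypothesis:
`[Kˣ : N_{L/K} Lˣ] = p` for `L/K` Galois of prime degree `p`, `K`, `L` finite over `ℚ_q`. -/
def PrimeDegreeNormIndex (q : ℕ) [Fact q.Prime] : Prop :=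
  ∀ (K L : Type) [Field K] [Algebra ℚ_[q] K] [FiniteDimensional ℚ_[q] K]
    [Field L] [Algebra ℚ_[q] L] [FiniteDimensional ℚ_[q] L]
    [Algebra K L] [IsScalarTower ℚ_[q] K L] [IsGalois K L] (p : ℕ), p.Prime →
    Module.finrank K L = p → (Loc.normSubgroup K L).index = p

/-- The norm index formula in prime degree gives `#H² = p` in prime degree. -/
theorem primeDegreeH2Card_of_normIndex (q : ℕ) [Fact q.Prime] (h : PrimeDegreeNormIndex q) :
    H33.PrimeDegreeH2Card q := by
  intro K L _ _ _ _ _ _ _ _ _ p hp hdeg
  have : FiniteDimensional K L := FiniteDimensional.right ℚ_[q] K L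
  exact card_H2_of_prime_degree_of_index K L p hp hdeg (h K L p hp hdeg)

end Fermat.Agent.CFT.H85
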