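/-
CFT project, layer B (helper8): helper85's hypothesis `H85.PrimeDegreeNormIndex q`
(the local norm index formula in prime degree) is discharged.
-/
import Fermat.Agent.CFT.H8_NormIndexLoc
import Fermat.Agent.CFT.H85_H2NormIndexAdapters

set_option autoImplicit false

namespace Fermat.Agent.CFT.H8

/-- `[Kˣ : N Lˣ] = p` for `L/K` Galois of prime degree `p`, `K`, `L` finite over `ℚ_[q]`. -/
theorem primeDegreeNormIndex (q : ℕ) [Fact q.Prime] : H85.PrimeDegreeNormIndex q := by
  intro K L _ _ _ _ _ _ _ _ _ p hp hdeg
  exact index_normSubgroup_of_prime_degree q K L p hp hdeg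

end Fermat.Agent.CFT.H8
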