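import Mathlib

/-!
# CFT / layer B : the symmetry lemma for norms from Kummer extensions of prime degree,
and the existence theorem modulo `ℓ` (when `μ_ℓ ⊆ K`)

Let `K` be any field containing a primitive `ℓ`-th root of unity `ζ`, `ℓ` prime, and let
`a b : K` with `X ^ ℓ - a`, `X ^ ℓ - b` irreducible.

* `norm_symm` : `b` is a norm from `K[ℓ√a]` iff `a` is a norm from `K[ℓ√b]`.
  The proof is linear algebra: both are equivalent to the existence of an `ℓ`-dimensional
  `K`-vector space `W` with endomorphisms `X`, `Y` such that `X ^ ℓ = a`, `Y ^ ℓ = b`,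
  `Y X = ζ X Y` (`IsSplitSymbol`).
* `exists_pow_eq_of_forall_norm` : if the norm from `K[ℓ√x]` is never surjective and `a` is a norm
  from every `K[ℓ√b]`, then `a` is an `ℓ`-th power.
-/

set_option autoImplicit false

universe u

open Polynomial AdjoinRoot
open scoped KummerExtension

namespace Fermat.Agent.CFT.H31

noncomputable section

variable {K : Type u} [Field K] {ℓ : ℕ}

/-! ### The generator `σ : root ↦ ζ • root` of `Gal(K[ℓ√a]/K)` -/

/-- the automorphism `root ↦ ζ • root` of `K[ℓ√a]` -/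
def kAut [NeZero ℓ] (a : K) {ζ : K} (hζ : IsPrimitiveRoot ζ ℓ) : K[ℓ√a] ≃ₐ[K] K[ℓ√a] :=
  autAdjoinRootXPowSubC ℓ a hζ.toRootsOfUnity

lemma kAut_root [NeZero ℓ] (a : K) {ζ : K} (hζ : IsPrimitiveRoot ζ ℓ) :
    kAut a hζ (root (X ^ ℓ - C a)) = ζ • root (X ^ ℓ - C a) := by
  unfold kAut
  rw [autAdjoinRootXPowSubC_root, IsPrimitiveRoot.val_toRootsOfUnity_coe]

lemma kAut_pow [NeZero ℓ] (a : K) {ζ : K} (hζ : IsPrimitiveRoot ζ ℓ) :
    kAut a hζ ^ ℓ = 1 := by
  unfold kAut
  rw [← map_pow]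
  have : hζ.toRootsOfUnity ^ ℓ = 1 := by
    apply Subtype.ext
    have h := hζ.toRootsOfUnity.2
    rw [mem_rootsOfUnity] at h
    simpa using h
  rw [this, map_one]

/-- lifting to a possibly non-commutative algebra -/
def liftNC {B : Type*} [Ring B] [Algebra K B] (f : Polynomial K) (x : B) (h : aeval x f = 0) :
    AdjoinRoot f →ₐ[K] B :=
  Ideal.Quotient.liftₐ (Ideal.span {f}) (aeval x) (by
    intro p hp
    rw [Ideal.mem_span_singleton] at hp
    obtain ⟨q, rfl⟩ := hp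
    rw [map_mul, h, zero_mul])

lemma liftNC_mk {B : Type*} [Ring B] [Algebra K B] (f : Polynomial K) (x : B)
    (h : aeval x f = 0) (p : Polynomial K) : liftNC f x h (mk f p) = aeval x p := rfl

section Irreducible

variable [hℓ : Fact ℓ.Prime] {a : K} [hH : Fact (Irreducible (X ^ ℓ - C a))] {ζ : K}
  (hζ : IsPrimitiveRoot ζ ℓ)

omit hℓ hH in
lemma ne_zero_of_irreducible (hℓ' : ℓ.Prime) (H : Irreducible (X ^ ℓ - C a)) : a ≠ 0 := by
  rintro rfl
  rw [C_0, sub_zero] at H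
  have h2 : 2 ≤ ℓ := hℓ'.two_le
  have hX : Irreducible (X : Polynomial K) := irreducible_X
  have h3 := H.isUnit_or_isUnit (show (X : Polynomial K) ^ ℓ = X * X ^ (ℓ - 1) by
    rw [← pow_succ']; congr 1; omega)
  rcases h3 with h1 | h1
  · exact hX.not_isUnit h1
  · rw [isUnit_pow_iff (by omega)] at h1
    exact hX.not_isUnit h1

omit hH in
include hζ in
lemma primitiveRoots_nonempty : (primitiveRoots ℓ K).Nonempty :=
  ⟨ζ, (mem_primitiveRoots hℓ.out.pos).mpr hζ⟩

include hζ in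
lemma isGalois_K : IsGalois K K[ℓ√a] := by
  have := isSplittingField_AdjoinRoot_X_pow_sub_C (primitiveRoots_nonempty hζ) hH.out
  exact isGalois_of_isSplittingField_X_pow_sub_C (primitiveRoots_nonempty hζ) hH.out _

include hζ in
lemma finrank_K : Module.finrank K K[ℓ√a] = ℓ := by
  have := isSplittingField_AdjoinRoot_X_pow_sub_C (primitiveRoots_nonempty hζ) hH.out
  exact finrank_of_isSplittingField_X_pow_sub_C (primitiveRoots_nonempty hζ) hH.out _

omit hℓ in
lemma finiteDimensional_K : FiniteDimensional K K[ℓ√a] :=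
  (AdjoinRoot.powerBasis hH.out.ne_zero).finite

lemma root_ne_zero' : root (X ^ ℓ - C a) ≠ 0 := by
  intro h
  have h1 := root_X_pow_sub_C_pow ℓ a
  rw [h, zero_pow hℓ.out.ne_zero] at h1
  have h2 : (of (X ^ ℓ - C a)) a = 0 := h1.symm
  have h3 : a = 0 := (of (X ^ ℓ - C a)).injective (by rw [h2, map_zero])
  exact ne_zero_of_irreducible hℓ.out hH.out h3

include hζ in
lemma kAut_ne_one : kAut a hζ ≠ 1 := by
  intro h
  have h1 := kAut_root a hζ
  rw [h, AlgEquiv.one_apply] at h1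
  have h2 : ζ = 1 := by
    have h3 : (1 : K) • root (X ^ ℓ - C a) = ζ • root (X ^ ℓ - C a) := by rw [one_smul]; exact h1
    exact (smul_left_injective K (root_ne_zero' (a := a)) h3).symm
  exact hζ.ne_one hℓ.out.one_lt h2

include hζ in
lemma zpowers_kAut (τ : K[ℓ√a] ≃ₐ[K] K[ℓ√a]) : τ ∈ Subgroup.zpowers (kAut a hζ) := by
  have := finiteDimensional_K (ℓ := ℓ) (a := a)
  have := isGalois_K (a := a) hζ
  have hcard : Nat.card (K[ℓ√a] ≃ₐ[K] K[ℓ√a]) = ℓ := by
    rw [IsGalois.card_aut_eq_finrank, finrank_K hζ]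
  rw [zpowers_eq_top_of_prime_card hcard (kAut_ne_one hζ)]
  trivial

include hζ in
lemma orderOf_kAut : orderOf (kAut a hζ) = ℓ :=
  orderOf_eq_prime (kAut_pow a hζ) (kAut_ne_one hζ)

include hζ in
/-- the norm is the product over the powers of `σ` -/
lemma prod_kAut_pow_eq_norm (c : K[ℓ√a]) :
    ∏ i ∈ Finset.range ℓ, (kAut a hζ ^ i) c = algebraMap K K[ℓ√a] (Algebra.norm K c) := by
  classical
  have := finiteDimensional_K (ℓ := ℓ) (a := a)
  have := isGalois_K (a := a) hζ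
  rw [Algebra.norm_eq_prod_automorphisms]
  have h := IsCyclic.image_range_orderOf (zpowers_kAut (a := a) hζ)
  rw [orderOf_kAut hζ] at h
  rw [← h, Finset.prod_image]
  intro i hi j hj hij
  have h2 := pow_injOn_Iio_orderOf (x := kAut a hζ)
  rw [orderOf_kAut hζ] at h2
  exact h2 (by simpa using hi) (by simpa using hj) hij

/-! ### The split symbol condition -/

omit hℓ hH in
/-- `IsSplitSymbol ℓ ζ a b`: there is an `ℓ`-dimensional `K`-vector space with endomorphisms
`X`, `Y` such that `X ^ ℓ = a`, `Y ^ ℓ = b`, `Y X = ζ X Y` ("the symbol algebra `(a, b)_ζ` has a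
module of dimension `ℓ`"). -/
def IsSplitSymbol (ℓ : ℕ) (ζ a b : K) : Prop :=
  ∃ (W : Type u) (_ : AddCommGroup W) (_ : Module K W), Module.finrank K W = ℓ ∧
    ∃ X Y : Module.End K W, X ^ ℓ = a • (1 : Module.End K W) ∧ Y ^ ℓ = b • (1 : Module.End K W) ∧
      Y * X = ζ • (X * Y)

omit hℓ hH in
lemma IsSplitSymbol.symm {ζ a b : K} (hζ0 : ζ ≠ 0) (h : IsSplitSymbol ℓ ζ a b) :
    IsSplitSymbol ℓ ζ⁻¹ b a := by
  obtain ⟨W, i1, i2, hW, X, Y, hX, hY, hYX⟩ := h
  refine ⟨W, i1, i2, hW, Y, X, hY, hX, ?_⟩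
  rw [hYX, smul_smul, inv_mul_cancel₀ hζ0, one_smul]

include hζ in
/-- **norm ⇒ split**. -/
lemma isSplitSymbol_of_norm (c : K[ℓ√a]) : IsSplitSymbol ℓ ζ a (Algebra.norm K c) := by
  set σ := kAut a hζ with hσ
  set α := root (X ^ ℓ - C a) with hα
  let Xop : Module.End K K[ℓ√a] := Algebra.lmul K K[ℓ√a] α
  let Yop : Module.End K K[ℓ√a] := (Algebra.lmul K K[ℓ√a] c) * σ.toLinearMap
  have hYpow : ∀ (n : ℕ) (v : K[ℓ√a]),
      (Yop ^ n) v = (∏ i ∈ Finset.range n, (σ ^ i) c) * (σ ^ n) v := by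
    intro n
    induction n with
    | zero => intro v; simp
    | succ n ih =>
      intro v
      rw [pow_succ', Module.End.mul_apply, ih]
      change c * σ ((∏ i ∈ Finset.range n, (σ ^ i) c) * (σ ^ n) v) = _
      rw [map_mul, map_prod, Finset.prod_range_succ', pow_zero, AlgEquiv.one_apply]
      have h1 : ∀ i, σ ((σ ^ i) c) = (σ ^ (i + 1)) c := fun i => by
        rw [pow_succ', AlgEquiv.mul_apply]
      have h2 : σ ((σ ^ n) v) = (σ ^ (n + 1)) v := by rw [pow_succ', AlgEquiv.mul_apply]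
      simp only [h1, h2]
      ring
  refine ⟨K[ℓ√a], inferInstance, inferInstance, finrank_K hζ, Xop, Yop, ?_, ?_, ?_⟩
  · change (Algebra.lmul K K[ℓ√a] α) ^ ℓ = _
    rw [← map_pow, hα, root_X_pow_sub_C_pow]
    ext v
    simp [Algebra.smul_def]
  · ext v
    rw [hYpow ℓ v, hσ, kAut_pow, AlgEquiv.one_apply, prod_kAut_pow_eq_norm hζ]
    simp [Algebra.smul_def]
  · ext v
    change c * σ (α * v) = ζ • (α * (c * σ v))
    rw [map_mul, hσ, hα, kAut_root, Algebra.smul_def, Algebra.smul_def]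
    ring

include hζ in
/-- **split ⇒ norm**. -/
lemma exists_norm_eq_of_isSplitSymbol {b : K} (h : IsSplitSymbol ℓ ζ a b) :
    ∃ c : K[ℓ√a], Algebra.norm K c = b := by
  obtain ⟨W, i1, i2, hW, Xop, Yop, hX, hY, hYX⟩ := h
  set σ := kAut a hζ with hσ
  set α := root (X ^ ℓ - C a) with hα
  -- `W` is a `K[ℓ√a]`-vector space through `Xop`
  have hXf : aeval Xop (X ^ ℓ - C a : Polynomial K) = 0 := by
    rw [map_sub, map_pow, aeval_X, aeval_C, hX, Algebra.algebraMap_eq_smul_one, sub_self]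
  let φ : K[ℓ√a] →ₐ[K] Module.End K W := liftNC (X ^ ℓ - C a) Xop hXf
  have hφmk : ∀ p : Polynomial K, φ (mk (X ^ ℓ - C a) p) = aeval Xop p :=
    fun p => liftNC_mk _ _ hXf p
  have hφα : φ α = Xop := by
    rw [hα, ← mk_X, hφmk, aeval_X]
  let _ : Module K[ℓ√a] W := Module.compHom W (φ : K[ℓ√a] →+* Module.End K W)
  have hsmul : ∀ (x : K[ℓ√a]) (v : W), x • v = φ x v := fun _ _ => rfl
  have : IsScalarTower K K[ℓ√a] W := ⟨fun k x v => by
    rw [hsmul, hsmul, map_smul]; rfl⟩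
  -- semilinearity of `Yop`
  have hpow : ∀ n : ℕ, Yop * Xop ^ n = (ζ • Xop) ^ n * Yop := by
    intro n
    induction n with
    | zero => simp
    | succ n ih =>
      rw [pow_succ, ← mul_assoc, ih, mul_assoc, hYX, pow_succ, mul_assoc, smul_mul_assoc]
  have hpoly : ∀ p : Polynomial K, Yop * aeval Xop p = aeval (ζ • Xop) p * Yop := by
    intro p
    induction p using Polynomial.induction_on' with
    | add p q hp hq => rw [map_add, map_add, mul_add, add_mul, hp, hq]
    | monomial n k =>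
      rw [aeval_monomial, aeval_monomial, ← mul_assoc, ← Algebra.commutes k Yop, mul_assoc, hpow,
        ← mul_assoc]
  have hsemi : ∀ (x : K[ℓ√a]) (v : W), Yop (x • v) = σ x • Yop v := by
    intro x v
    obtain ⟨p, rfl⟩ := mk_surjective x
    rw [hsmul, hsmul, hφmk]
    have h1 : φ (σ (mk (X ^ ℓ - C a) p)) = aeval (ζ • Xop) p := by
      rw [← AdjoinRoot.aeval_eq, ← aeval_algHom_apply, ← aeval_algHom_apply, ← hα, hσ,
        kAut_root, map_smul, hφα]
    rw [h1, ← Module.End.mul_apply, hpoly, Module.End.mul_apply]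
  -- dimension one
  have hfr : Module.finrank K[ℓ√a] W = 1 := by
    have h1 := Module.finrank_mul_finrank K K[ℓ√a] W
    rw [finrank_K hζ, hW] at h1
    exact Nat.eq_of_mul_eq_mul_left hℓ.out.pos (by rw [h1, mul_one])
  obtain ⟨w, hw0, hw⟩ := finrank_eq_one_iff'.mp hfr
  obtain ⟨c, hc⟩ := hw (Yop w)
  have hYpow : ∀ n : ℕ, (Yop ^ n) w = (∏ i ∈ Finset.range n, (σ ^ i) c) • w := by
    intro n
    induction n with
    | zero => simp
    | succ n ih =>
      rw [pow_succ', Module.End.mul_apply, ih, hsemi, ← hc, smul_smul, map_prod,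
        Finset.prod_range_succ', pow_zero, AlgEquiv.one_apply]
      have h1 : ∀ i, σ ((σ ^ i) c) = (σ ^ (i + 1)) c := fun i => by
        rw [pow_succ', AlgEquiv.mul_apply]
      simp only [h1]
  refine ⟨c, ?_⟩
  have h1 := hYpow ℓ
  rw [hY, hσ, prod_kAut_pow_eq_norm hζ, LinearMap.smul_apply, Module.End.one_apply,
    ← algebraMap_smul K[ℓ√a] b w] at h1
  have h2 : (algebraMap K K[ℓ√a] b - algebraMap K K[ℓ√a] (Algebra.norm K c)) • w = 0 := by
    rw [sub_smul, h1, sub_self]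
  rcases smul_eq_zero.mp h2 with h3 | h3
  · rw [sub_eq_zero] at h3
    exact ((algebraMap K K[ℓ√a]).injective h3).symm
  · exact absurd h3 hw0

end Irreducible

/-! ### The symmetry lemma and the existence theorem modulo `ℓ` -/

/-- **Symmetry lemma** (one direction): if `b` is a norm from `K[ℓ√a]` then `a` is a norm from
`K[ℓ√b]`. -/
theorem norm_symm_imp [Fact ℓ.Prime] {a b : K} [Fact (Irreducible (X ^ ℓ - C a))]
    [Fact (Irreducible (X ^ ℓ - C b))] {ζ : K} (hζ : IsPrimitiveRoot ζ ℓ)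
    (h : ∃ c : K[ℓ√a], Algebra.norm K c = b) : ∃ c : K[ℓ√b], Algebra.norm K c = a := by
  obtain ⟨c, hc⟩ := h
  have h1 := isSplitSymbol_of_norm hζ c
  rw [hc] at h1
  have hℓ0 : ℓ ≠ 0 := (Fact.out : ℓ.Prime).ne_zero
  have h2 := h1.symm (hζ.ne_zero hℓ0)
  exact exists_norm_eq_of_isSplitSymbol hζ.inv h2

/-- **Symmetry lemma**: `b` is a norm from `K[ℓ√a]` iff `a` is a norm from `K[ℓ√b]`
(`ℓ` prime, `K` contains a primitive `ℓ`-th root of unity, `X ^ ℓ - a` and `X ^ ℓ - b`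
irreducible). -/
theorem norm_symm [Fact ℓ.Prime] {a b : K} [Fact (Irreducible (X ^ ℓ - C a))]
    [Fact (Irreducible (X ^ ℓ - C b))] {ζ : K} (hζ : IsPrimitiveRoot ζ ℓ) :
    (∃ c : K[ℓ√a], Algebra.norm K c = b) ↔ (∃ c : K[ℓ√b], Algebra.norm K c = a) :=
  ⟨norm_symm_imp hζ, norm_symm_imp hζ⟩

/-- `ℓ`-th powers are norms from `K[ℓ√x]`. -/
lemma norm_algebraMap_K [Fact ℓ.Prime] {x : K} [Fact (Irreducible (X ^ ℓ - C x))] {ζ : K}
    (hζ : IsPrimitiveRoot ζ ℓ) (z : K) :
    Algebra.norm K (algebraMap K K[ℓ√x] z) = z ^ ℓ := by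
  have := finiteDimensional_K (ℓ := ℓ) (a := x)
  rw [Algebra.norm_algebraMap, finrank_K hζ]

/-- **Existence theorem modulo `ℓ`, abstract form**: let `K` be a field containing a primitive
`ℓ`-th root of unity (`ℓ` prime) such that the norm from `K[ℓ√x]` to `K` is never surjective on
nonzero elements. If `a ≠ 0` is a norm from `K[ℓ√b]` for every `b` with `X ^ ℓ - b` irreducible,
then `a` is an `ℓ`-th power. -/
theorem exists_pow_eq_of_forall_norm (hℓ : ℓ.Prime) {ζ : K} (hζ : IsPrimitiveRoot ζ ℓ)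
    (hns : ∀ x : K, Irreducible (X ^ ℓ - C x) →
      ∃ y : K, y ≠ 0 ∧ ∀ c : K[ℓ√x], Algebra.norm K c ≠ y)
    (a : K)
    (ha : ∀ b : K, Irreducible (X ^ ℓ - C b) → ∃ c : K[ℓ√b], Algebra.norm K c = a) :
    ∃ c : K, c ^ ℓ = a := by
  have : Fact ℓ.Prime := ⟨hℓ⟩
  by_contra hne
  push Not at hne
  have Ha : Irreducible (X ^ ℓ - C a) := X_pow_sub_C_irreducible_of_prime hℓ hne
  have : Fact (Irreducible (X ^ ℓ - C a)) := ⟨Ha⟩
  obtain ⟨y, -, hy⟩ := hns a Ha
  have hyne : ∀ z : K, z ^ ℓ ≠ y := by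
    intro z hz
    exact hy (algebraMap K K[ℓ√a] z) (by rw [norm_algebraMap_K hζ, hz])
  have Hy : Irreducible (X ^ ℓ - C y) := X_pow_sub_C_irreducible_of_prime hℓ hyne
  have : Fact (Irreducible (X ^ ℓ - C y)) := ⟨Hy⟩
  obtain ⟨c, hc⟩ := norm_symm_imp hζ (ha y Hy)
  exact hy c hc

/-- **Existence theorem modulo `ℓ`**, for fields `K` finite over a base field `k` (take `k = K` for
the absolute statement), in terms of norm subgroups of Galois extensions of degree `ℓ`:
if `K ∋ ζ_ℓ`, no Galois extension `L / K` of degree `ℓ` has surjective norm `Lˣ → Kˣ`, and `a : Kˣ`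
is a norm from every such `L`, then `a` is an `ℓ`-th power. -/
theorem exists_units_pow_eq_of_forall_mem_range_norm (k : Type*) [Field k] [Algebra k K]
    [FiniteDimensional k K] (hℓ : ℓ.Prime) {ζ : K} (hζ : IsPrimitiveRoot ζ ℓ)
    (hns : ∀ (L : Type u) [Field L] [Algebra k L] [FiniteDimensional k L] [Algebra K L]
      [IsScalarTower k K L] [IsGalois K L], Module.finrank K L = ℓ →
        (Units.map (Algebra.norm K : L →* K)).range ≠ ⊤)
    (a : Kˣ)
    (h : ∀ (L : Type u) [Field L] [Algebra k L] [FiniteDimensional k L] [Algebra K L]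
      [IsScalarTower k K L] [IsGalois K L], Module.finrank K L = ℓ →
        a ∈ (Units.map (Algebra.norm K : L →* K)).range) :
    ∃ b : Kˣ, b ^ ℓ = a := by
  have : Fact ℓ.Prime := ⟨hℓ⟩
  have key : ∀ x : K, ∀ Hx : Irreducible (X ^ ℓ - C x),
      (∃ y : K, y ≠ 0 ∧ ∀ c : K[ℓ√x], Algebra.norm K c ≠ y) ∧
        ∃ c : K[ℓ√x], Algebra.norm K c = (a : K) := by
    intro x Hx
    have : Fact (Irreducible (X ^ ℓ - C x)) := ⟨Hx⟩
    have : FiniteDimensional K K[ℓ√x] := finiteDimensional_K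
    have : FiniteDimensional k K[ℓ√x] := FiniteDimensional.trans k K K[ℓ√x]
    have : IsGalois K K[ℓ√x] := isGalois_K hζ
    have hfr : Module.finrank K K[ℓ√x] = ℓ := finrank_K hζ
    constructor
    · have h1 := hns K[ℓ√x] hfr
      obtain ⟨y, hy⟩ : ∃ y : Kˣ, y ∉ (Units.map (Algebra.norm K : K[ℓ√x] →* K)).range := by
        by_contra hall
        push Not at hall
        exact h1 (eq_top_iff.mpr fun y _ => hall y)
      refine ⟨(y : K), y.ne_zero, fun c hc => hy ?_⟩
      have hc0 : c ≠ 0 := by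
        rintro rfl
        rw [Algebra.norm_zero] at hc
        exact y.ne_zero hc.symm
      exact ⟨Units.mk0 c hc0, Units.ext (by simpa using hc)⟩
    · obtain ⟨u, hu⟩ := h K[ℓ√x] hfr
      exact ⟨(u : K[ℓ√x]), by simpa using congrArg Units.val hu⟩
  obtain ⟨c, hc⟩ := exists_pow_eq_of_forall_norm hℓ hζ (fun x Hx => (key x Hx).1) (a : K)
    (fun b Hb => (key b Hb).2)
  have hc0 : c ≠ 0 := by
    rintro rfl
    rw [zero_pow hℓ.ne_zero] at hc
    exact a.ne_zero hc.symm
  exact ⟨Units.mk0 c hc0, Units.ext (by simpa using hc)⟩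

end

end Fermat.Agent.CFT.H31
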