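import Fermat.Agent.CFT.LocDefs
import Fermat.Agent.CFT.H39_UnitsPow

/-!
# CFT project, layer B: field-level consequences of `H39_UnitsPow`

`K` is an abstract finite extension of `ℚ_[q]` (vocabulary of `Fermat.Agent.CFT.LocDefs`).
The three B-BRIDGE facts (`Loc.O q K` is a complete discrete valuation ring with finite residue
field) are taken as instance hypotheses; they are discharged by the B-BRIDGE package.

* `loc_finite_units_quot_pow` : `Kˣ / (Kˣ)^m` is finite.
* `exists_pow_eq_of_nrm_sub_one_lt` : units close to `1` are `m`-th powers (of units).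
* `exists_nrm_sub_one_lt_imp_mem_normSubgroup` : every norm subgroup `N_{L/K} Lˣ` contains a ball
  around `1`.
-/

set_option autoImplicit false

open IsLocalRing

namespace Fermat.Agent.CFT.H39

open Fermat.Agent.CFT.Loc

variable (q : ℕ) [Fact q.Prime]
variable (K : Type) [Field K] [Algebra ℚ_[q] K] [FiniteDimensional ℚ_[q] K]

lemma loc_charZero (q' : ℕ) [Fact q'.Prime] (K' : Type) [Field K'] [Algebra ℚ_[q'] K'] :
    CharZero K' :=
  charZero_of_injective_algebraMap (algebraMap ℚ_[q'] K').injective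

/-- Field-level finiteness of `Kˣ/(Kˣ)^m` from the B-BRIDGE instances. -/
theorem loc_finite_units_quot_pow [IsDiscreteValuationRing (O q K)]
    [IsAdicComplete (maximalIdeal (O q K)) (O q K)] [Finite (ResidueField (O q K))]
    (m : ℕ) (hm : m ≠ 0) :
    Finite (Kˣ ⧸ (powMonoidHom m : Kˣ →* Kˣ).range) := by
  have : CharZero K := loc_charZero q K
  exact finite_units_quot_pow (O q K) K m hm

variable {q K}

lemma nrm_coe_lt_one_of_mem_maximalIdeal {x : O q K} (hx : x ∈ maximalIdeal (O q K)) :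
    nrm q K (x : K) < 1 := by
  have h1 : nrm q K (x : K) ≤ 1 := x.2
  rcases h1.lt_or_eq with h | h
  · exact h
  · exfalso
    have hx0 : (x : K) ≠ 0 := by
      intro h0
      rw [h0, nrm_zero] at h
      exact zero_ne_one h
    have hinv : (x : K)⁻¹ ∈ O q K := by
      rw [mem_O_iff, nrm_inv, h, inv_one]
    have hu : IsUnit x := by
      refine isUnit_iff_exists_inv.2 ⟨⟨(x : K)⁻¹, hinv⟩, ?_⟩
      apply Subtype.ext
      simp [hx0]
    exact (mem_maximalIdeal x).1 hx hu

lemma isUnit_of_nrm_eq_one {x : O q K} (hx : nrm q K (x : K) = 1) : IsUnit x := by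
  by_contra h
  have := nrm_coe_lt_one_of_mem_maximalIdeal ((mem_maximalIdeal x).2 h)
  rw [hx] at this
  exact lt_irrefl _ this

lemma nrm_sub_one_lt_one_imp {u : K} (h : nrm q K (u - 1) < 1) : nrm q K u = 1 := by
  have h1 : nrm q K u ≤ 1 := by
    have : u = (u - 1) + 1 := by ring
    rw [this]
    exact (nrm_add_le_max q _ _).trans (max_le h.le (nrm_one q K).le)
  have h2 : 1 ≤ nrm q K u := by
    have : (1 : K) = -(u - 1) + u := by ring
    have h3 := nrm_add_le_max q (-(u - 1)) u
    rw [← this, nrm_one, nrm_neg] at h3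
    rcases le_max_iff.1 h3 with h4 | h4
    · exact absurd h4 (not_le.2 h)
    · exact h4
  exact le_antisymm h1 h2

variable (q) in
lemma nrm_pow (x : K) (n : ℕ) : nrm q K (x ^ n) = nrm q K x ^ n := by
  induction n with
  | zero => simp [nrm_one]
  | succ n ih => rw [pow_succ, nrm_mul, ih, pow_succ]

variable (q K)

/-- Elements of small norm lie in a given power of the maximal ideal. -/
lemma exists_nrm_lt_imp_mem_maximalIdeal_pow [IsDiscreteValuationRing (O q K)] (N : ℕ) :
    ∃ ε : ℝ, 0 < ε ∧ ∀ x : O q K, nrm q K (x : K) < ε → x ∈ maximalIdeal (O q K) ^ N := by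
  obtain ⟨ϖ, hϖ⟩ := IsDiscreteValuationRing.exists_irreducible (O q K)
  have hϖ0 : (ϖ : K) ≠ 0 := by
    intro h
    exact hϖ.ne_zero (Subtype.ext h)
  refine ⟨nrm q K (ϖ : K) ^ N, pow_pos (nrm_pos q hϖ0) N, fun x hx => ?_⟩
  rw [hϖ.maximalIdeal_eq, Ideal.span_singleton_pow, Ideal.mem_span_singleton]
  have hy : (x : K) / (ϖ : K) ^ N ∈ O q K := by
    rw [mem_O_iff, div_eq_mul_inv, nrm_mul, nrm_inv]
    have hpos : 0 < nrm q K ((ϖ : K) ^ N) := nrm_pos q (pow_ne_zero N hϖ0)
    rw [← div_eq_mul_inv, div_le_one hpos]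
    rw [nrm_pow]
    exact hx.le
  refine ⟨⟨_, hy⟩, ?_⟩
  apply Subtype.ext
  simp only [MulMemClass.coe_mul, SubmonoidClass.coe_pow]
  field_simp

/-- Units close to `1` are `m`-th powers of units. -/
theorem exists_pow_eq_of_nrm_sub_one_lt [IsDiscreteValuationRing (O q K)]
    [IsAdicComplete (maximalIdeal (O q K)) (O q K)] (m : ℕ) (hm : m ≠ 0) :
    ∃ ε : ℝ, 0 < ε ∧ ∀ u : Kˣ, nrm q K ((u : K) - 1) < ε →
      ∃ w : Kˣ, w ∈ unitGroup q K ∧ w ^ m = u := by
  have : CharZero K := loc_charZero q K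
  have hmA : (m : O q K) ≠ 0 := by
    intro h
    have := congrArg (fun z : O q K => (z : K)) h
    simp only [ZeroMemClass.coe_zero] at this
    have h2 : ((m : O q K) : K) = (m : K) := by simp
    rw [h2] at this
    exact hm (Nat.cast_injective (R := K) (by simpa using this))
  obtain ⟨N, hN⟩ := exists_principalUnits_le_range_pow (O q K) hmA
  obtain ⟨ε, hε, hεN⟩ := exists_nrm_lt_imp_mem_maximalIdeal_pow q K N
  refine ⟨min ε 1, lt_min hε one_pos, fun u hu => ?_⟩
  have hu1 : nrm q K (u : K) = 1 := nrm_sub_one_lt_one_imp (hu.trans_le (min_le_right _ _))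
  have huO : (u : K) ∈ O q K := by rw [mem_O_iff, hu1]
  have huU : IsUnit (⟨(u : K), huO⟩ : O q K) := isUnit_of_nrm_eq_one hu1
  have hmem : huU.unit ∈ principalUnits (O q K) N := by
    rw [mem_principalUnits_iff]
    apply hεN
    simpa using hu.trans_le (min_le_left _ _)
  obtain ⟨w, hw⟩ := hN hmem
  refine ⟨unitsIncl (O q K) K w, ?_, ?_⟩
  · rw [mem_unitGroup_iff, unitsIncl_coe]
    have h1 : nrm q K (((w : O q K) : K)) ≤ 1 := (w : O q K).2
    have h2 : nrm q K ((((w⁻¹ : (O q K)ˣ) : O q K) : K)) ≤ 1 := ((w⁻¹ : (O q K)ˣ) : O q K).2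
    have h3 : ((w : O q K) : K) * (((w⁻¹ : (O q K)ˣ) : O q K) : K) = 1 := by
      rw [← MulMemClass.coe_mul, Units.mul_inv]
      rfl
    have h4 := nrm_mul q ((w : O q K) : K) (((w⁻¹ : (O q K)ˣ) : O q K) : K)
    rw [h3, nrm_one] at h4
    by_contra hne
    have hlt : nrm q K ((w : O q K) : K) < 1 := lt_of_le_of_ne h1 hne
    have : nrm q K ((w : O q K) : K) * nrm q K ((((w⁻¹ : (O q K)ˣ) : O q K) : K)) < 1 := by
      calc _ ≤ nrm q K ((w : O q K) : K) * 1 :=
            mul_le_mul_of_nonneg_left h2 (nrm_nonneg q _)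
        _ < 1 := by rwa [mul_one]
    rw [← h4] at this
    exact lt_irrefl _ this
  · apply Units.ext
    simp only [powMonoidHom_apply] at hw
    have := congrArg (fun z : (O q K)ˣ => (((z : O q K)) : K)) hw
    simpa using this

variable (L : Type) [Field L] [Algebra K L] [FiniteDimensional K L]

omit [FiniteDimensional K L] in
/-- `[L:K]`-th powers are norms (the norm subgroup `N_{L/K} Lˣ ≤ Kˣ` is written out as
`(Units.map (Algebra.norm K : L →* K)).range`, the definition of the layer-B skeleton). -/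
lemma pow_finrank_mem_normSubgroup (b : Kˣ) :
    b ^ Module.finrank K L ∈ (Units.map (Algebra.norm K : L →* K)).range := by
  refine ⟨Units.map (algebraMap K L : K →* L) b, ?_⟩
  apply Units.ext
  simp [Algebra.norm_algebraMap]

/-- Every norm subgroup contains a ball around `1`. -/
theorem exists_nrm_sub_one_lt_imp_mem_normSubgroup [IsDiscreteValuationRing (O q K)]
    [IsAdicComplete (maximalIdeal (O q K)) (O q K)] :
    ∃ ε : ℝ, 0 < ε ∧ ∀ u : Kˣ, nrm q K ((u : K) - 1) < ε →
      u ∈ (Units.map (Algebra.norm K : L →* K)).range := by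
  have hn : Module.finrank K L ≠ 0 := Module.finrank_pos.ne'
  obtain ⟨ε, hε, h⟩ := exists_pow_eq_of_nrm_sub_one_lt q K (Module.finrank K L) hn
  refine ⟨ε, hε, fun u hu => ?_⟩
  obtain ⟨w, -, hw⟩ := h u hu
  rw [← hw]
  exact pow_finrank_mem_normSubgroup K L w

end Fermat.Agent.CFT.H39
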