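import Mathlib
import Fermat.Agent.CFT.H55_LevelDefs
import Fermat.Agent.CFT.H78_Levels
import Fermat.Agent.CFT.H39_UnitsLoc
import Fermat.Agent.CFT.H96_BridgeComplete

/-!
# CFT seam B → D2 (local instance): `HasFIN`, `HasEXIST`, good levels

Generic part: `Ω/K₀` a (possibly infinite) Galois extension, `C := Rep.ofAlgebraAutOnUnits K₀ Ω`,
levels `H78.galoisLevels K₀ Ω`.
-/

set_option autoImplicit false
set_option linter.unusedSectionVars false
set_option maxHeartbeats 400000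

open IntermediateField

namespace Fermat.Agent.CFT.H97

open Fermat.Agent.CFT

section Generic

variable (K₀ Ω : Type) [Field K₀] [Field Ω] [Algebra K₀ Ω]

/-- the underlying unit of an element of the units representation -/
abbrev unitOf (a : (Rep.ofAlgebraAutOnUnits K₀ Ω).V) : Ωˣ := Additive.toMul a

variable {K₀ Ω}

theorem rho_apply (σ : Ω ≃ₐ[K₀] Ω) (a : (Rep.ofAlgebraAutOnUnits K₀ Ω).V) :
    ((unitOf K₀ Ω ((Rep.ofAlgebraAutOnUnits K₀ Ω).ρ σ a) : Ωˣ) : Ω) =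
      σ ((unitOf K₀ Ω a : Ωˣ) : Ω) := rfl

theorem rho_eq_self_iff (σ : Ω ≃ₐ[K₀] Ω) (a : (Rep.ofAlgebraAutOnUnits K₀ Ω).V) :
    (Rep.ofAlgebraAutOnUnits K₀ Ω).ρ σ a = a ↔
      σ ((unitOf K₀ Ω a : Ωˣ) : Ω) = ((unitOf K₀ Ω a : Ωˣ) : Ω) := by
  constructor
  · intro h
    rw [← rho_apply, h]
  · intro h
    have h2 : unitOf K₀ Ω ((Rep.ofAlgebraAutOnUnits K₀ Ω).ρ σ a) = unitOf K₀ Ω a :=
      Units.ext (by rw [rho_apply, h])
    exact h2

theorem forall_rho_eq_iff (U : Subgroup (Ω ≃ₐ[K₀] Ω)) (a : (Rep.ofAlgebraAutOnUnits K₀ Ω).V) :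
    (∀ u ∈ U, (Rep.ofAlgebraAutOnUnits K₀ Ω).ρ u a = a) ↔
      ((unitOf K₀ Ω a : Ωˣ) : Ω) ∈ fixedField U := by
  rw [mem_fixedField_iff]
  exact forall₂_congr fun u _ => rho_eq_self_iff u a

/-- the element of the units representation attached to a unit of an intermediate field -/
noncomputable def ofUnit (F : IntermediateField K₀ Ω) (u : Fˣ) : (Rep.ofAlgebraAutOnUnits K₀ Ω).V :=
  Additive.ofMul (Units.map (algebraMap F Ω : F →* Ω) u)

theorem unitOf_ofUnit (F : IntermediateField K₀ Ω) (u : Fˣ) :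
    ((unitOf K₀ Ω (ofUnit F u) : Ωˣ) : Ω) = ((u : F) : Ω) := rfl

theorem ofUnit_mul (F : IntermediateField K₀ Ω) (u v : Fˣ) :
    ofUnit F (u * v) = ofUnit F u + ofUnit F v := by
  simp only [ofUnit, map_mul]
  rfl

theorem ofUnit_pow (F : IntermediateField K₀ Ω) (u : Fˣ) (n : ℕ) :
    ofUnit F (u ^ n) = n • ofUnit F u := by
  simp only [ofUnit, map_pow]
  rfl

/-- elements of the units representation with underlying unit in `F` come from `Fˣ` -/
theorem exists_ofUnit_eq (F : IntermediateField K₀ Ω) (a : (Rep.ofAlgebraAutOnUnits K₀ Ω).V)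
    (ha : ((unitOf K₀ Ω a : Ωˣ) : Ω) ∈ F) : ∃ u : Fˣ, ofUnit F u = a := by
  have hinv : (((unitOf K₀ Ω a)⁻¹ : Ωˣ) : Ω) ∈ F := by
    rw [Units.val_inv_eq_inv_val]
    exact F.inv_mem ha
  let u : Fˣ :=
    { val := ⟨((unitOf K₀ Ω a : Ωˣ) : Ω), ha⟩
      inv := ⟨(((unitOf K₀ Ω a)⁻¹ : Ωˣ) : Ω), hinv⟩
      val_inv := by ext; simp
      inv_val := by ext; simp }
  refine ⟨u, ?_⟩
  have : unitOf K₀ Ω (ofUnit F u) = unitOf K₀ Ω a := Units.ext rfl
  exact this

theorem ofUnit_fixed (F : IntermediateField K₀ Ω) (u : Fˣ) (U : Subgroup (Ω ≃ₐ[K₀] Ω))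
    (hU : F ≤ fixedField U) : ∀ σ ∈ U, (Rep.ofAlgebraAutOnUnits K₀ Ω).ρ σ (ofUnit F u) = ofUnit F u := by
  rw [forall_rho_eq_iff]
  exact hU (u : F).2

/-- the fixed field of an open subgroup is finite over the base -/
theorem finiteDimensional_fixedField_of_isOpen [IsGalois K₀ Ω] (U : Subgroup (Ω ≃ₐ[K₀] Ω))
    (hU : (H78.galoisLevels K₀ Ω).IsOpen U) : FiniteDimensional K₀ (fixedField U) := by
  obtain ⟨_, ⟨E, hfd, _, rfl⟩, hle⟩ := hU
  have h1 : fixedField U ≤ E := by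
    have := fixedField_antitone hle
    rwa [InfiniteGalois.fixedField_fixingSubgroup] at this
  exact FiniteDimensional.of_injective (IntermediateField.inclusion h1).toLinearMap
    (IntermediateField.inclusion h1).injective

/-- (FIN) for the units representation of a Galois extension, from finiteness of
`Fˣ/(Fˣ)^p` for the finite subextensions `F`. -/
theorem hasFIN_of_finite [IsGalois K₀ Ω] (p : ℕ)
    (hfin : ∀ F : IntermediateField K₀ Ω, FiniteDimensional K₀ F →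
      Finite (Fˣ ⧸ (powMonoidHom p : Fˣ →* Fˣ).range)) :
    ∀ U : Subgroup (Ω ≃ₐ[K₀] Ω), (H78.galoisLevels K₀ Ω).IsOpen U →
      ∃ T : Finset (Rep.ofAlgebraAutOnUnits K₀ Ω).V,
        ∀ a : (Rep.ofAlgebraAutOnUnits K₀ Ω).V,
          (∀ u ∈ U, (Rep.ofAlgebraAutOnUnits K₀ Ω).ρ u a = a) →
          ∃ t ∈ T, ∃ b : (Rep.ofAlgebraAutOnUnits K₀ Ω).V,
            (∀ u ∈ U, (Rep.ofAlgebraAutOnUnits K₀ Ω).ρ u b = b) ∧ a = t + p • b := by
  classical
  intro U hU
  set F := fixedField U with hF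
  have hfd := finiteDimensional_fixedField_of_isOpen U hU
  haveI := hfin F hfd
  letI := Fintype.ofFinite (Fˣ ⧸ (powMonoidHom p : Fˣ →* Fˣ).range)
  refine ⟨Finset.univ.image fun c : Fˣ ⧸ (powMonoidHom p : Fˣ →* Fˣ).range =>
    ofUnit F (Quotient.out c), fun a ha => ?_⟩
  rw [forall_rho_eq_iff] at ha
  obtain ⟨u, rfl⟩ := exists_ofUnit_eq F a ha
  set c : Fˣ ⧸ (powMonoidHom p : Fˣ →* Fˣ).range := QuotientGroup.mk u with hc
  refine ⟨ofUnit F (Quotient.out c), Finset.mem_image.2 ⟨c, Finset.mem_univ _, rfl⟩, ?_⟩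
  have h1 : (Quotient.out c)⁻¹ * u ∈ (powMonoidHom p : Fˣ →* Fˣ).range := by
    rw [← QuotientGroup.eq]
    exact Quotient.out_eq c
  obtain ⟨w, hw⟩ := h1
  refine ⟨ofUnit F w, ofUnit_fixed F w U le_rfl, ?_⟩
  rw [← ofUnit_pow, ← ofUnit_mul]
  congr 1
  have : w ^ p = (Quotient.out c)⁻¹ * u := hw
  rw [this, mul_inv_cancel_left]

end Generic

section LocalFIN

variable (q : ℕ) [Fact q.Prime]

/-- **(FIN), local instance**: body of `HasFIN (H78.localLevels q) (H78.localUnits q) p` of the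
layer-D skeleton, verbatim. -/
theorem hasFIN_local (p : ℕ) (hp : p ≠ 0) :
    ∀ U : Subgroup (H78.LocalGal q), (H78.localLevels q).IsOpen U →
      ∃ T : Finset (H78.localUnits q).V,
        ∀ a : (H78.localUnits q).V, (∀ u ∈ U, (H78.localUnits q).ρ u a = a) →
          ∃ t ∈ T, ∃ b : (H78.localUnits q).V,
            (∀ u ∈ U, (H78.localUnits q).ρ u b = b) ∧ a = t + p • b :=
  hasFIN_of_finite p fun F _ => H39.loc_finite_units_quot_pow q F p hp

end LocalFIN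

end Fermat.Agent.CFT.H97
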