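import Mathlib
import Fermat.Agent.CFT.H97_LocalD2Inputs
import Fermat.Agent.CFT.H31_KummerSymm
import Fermat.Agent.CFT.H85_H2NormIndexAdapters

/-!
# CFT seam B → D2 (local instance): `HasEXIST` at the good levels

Transport of the abstract existence theorem mod `p` (helper31, for fields containing `μ_p`)
to the invariants / finsum-norm vocabulary of the layer-D skeleton.
-/

set_option autoImplicit false
set_option linter.unusedSectionVars false
set_option maxHeartbeats 400000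

open IntermediateField

namespace Fermat.Agent.CFT.H97

open Fermat.Agent.CFT

section Generic

variable {K₀ Ω : Type} [Field K₀] [Field Ω] [Algebra K₀ Ω] [IsGalois K₀ Ω]
variable (E : IntermediateField K₀ Ω)
variable (L' : IntermediateField E Ω) [FiniteDimensional E L'] [IsGalois E L']

/-- restriction `Gal(Ω/E) = E.fixingSubgroup → Gal(L'/E)` -/
noncomputable def resHom : E.fixingSubgroup →* (L' ≃ₐ[E] L') :=
  (AlgEquiv.restrictNormalHom L').comp (fixingSubgroupEquiv E).toMonoidHom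

theorem resHom_apply (n : E.fixingSubgroup) (x : L') :
    ((resHom E L' n x : L') : Ω) = (n : Ω ≃ₐ[K₀] Ω) (x : Ω) := by
  have := AlgEquiv.restrictNormal_commutes (fixingSubgroupEquiv E n) L' x
  exact this

theorem resHom_surjective : Function.Surjective (resHom E L') := by
  have h1 : Function.Surjective (AlgEquiv.restrictNormalHom (F := E) (K₁ := Ω) L') :=
    AlgEquiv.restrictNormalHom_surjective Ω
  exact h1.comp (fixingSubgroupEquiv E).surjective

theorem mem_ker_resHom_iff (n : E.fixingSubgroup) :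
    n ∈ (resHom E L').ker ↔ (n : Ω ≃ₐ[K₀] Ω) ∈ (L'.restrictScalars K₀).fixingSubgroup := by
  rw [MonoidHom.mem_ker, IntermediateField.mem_fixingSubgroup_iff]
  constructor
  · intro h x hx
    have := resHom_apply E L' n ⟨x, hx⟩
    rw [h] at this
    exact this.symm
  · intro h
    ext x
    rw [resHom_apply]
    exact h x x.2

theorem ker_resHom :
    (resHom E L').ker = (L'.restrictScalars K₀).fixingSubgroup.subgroupOf E.fixingSubgroup := by
  ext n
  rw [mem_ker_resHom_iff, Subgroup.mem_subgroupOf]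

omit [IsGalois K₀ Ω] in
theorem unitOf_add (a b : (Rep.ofAlgebraAutOnUnits K₀ Ω).V) :
    unitOf K₀ Ω (a + b) = unitOf K₀ Ω a * unitOf K₀ Ω b := rfl

omit [IsGalois K₀ Ω] in
theorem unitOf_zero : unitOf K₀ Ω (0 : (Rep.ofAlgebraAutOnUnits K₀ Ω).V) = 1 := rfl

omit [IsGalois K₀ Ω] in
theorem unitOf_sum {ι : Type*} (s : Finset ι) (f : ι → (Rep.ofAlgebraAutOnUnits K₀ Ω).V) :
    unitOf K₀ Ω (∑ i ∈ s, f i) = ∏ i ∈ s, unitOf K₀ Ω (f i) := by
  classical
  induction s using Finset.induction_on with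
  | empty => simp only [Finset.sum_empty, Finset.prod_empty]; rfl
  | insert i s hi ih => rw [Finset.sum_insert hi, Finset.prod_insert hi, unitOf_add, ih]

/-- the finsum-norm of the layer-D skeleton is the field norm: for `W = ker (resHom)` (i.e. the
subgroup `V.subgroupOf N₀`, `V` the fixing subgroup of `L'`), and `b` with underlying unit
`β ∈ L'`. -/
theorem unitOf_finsum_eq_norm (W : Subgroup E.fixingSubgroup) (hW : W = (resHom E L').ker)
    (b : (Rep.ofAlgebraAutOnUnits K₀ Ω).V) (β : L')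
    (hβ : ((unitOf K₀ Ω b : Ωˣ) : Ω) = ((β : L') : Ω)) :
    ((unitOf K₀ Ω (∑ᶠ q : E.fixingSubgroup ⧸ W,
        (Rep.ofAlgebraAutOnUnits K₀ Ω).ρ ((Quotient.out q : E.fixingSubgroup) : Ω ≃ₐ[K₀] Ω) b) :
          Ωˣ) : Ω) =
      ((algebraMap E L' (Algebra.norm E β) : L') : Ω) := by
  classical
  subst hW
  let e : E.fixingSubgroup ⧸ (resHom E L').ker ≃* (L' ≃ₐ[E] L') :=
    QuotientGroup.quotientKerEquivOfSurjective (resHom E L') (resHom_surjective E L')
  haveI : Finite (E.fixingSubgroup ⧸ (resHom E L').ker) := Finite.of_equiv _ e.symm.toEquiv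
  letI := Fintype.ofFinite (E.fixingSubgroup ⧸ (resHom E L').ker)
  rw [finsum_eq_sum_of_fintype, Algebra.norm_eq_prod_automorphisms]
  rw [unitOf_sum, Units.coe_prod]
  have h2 : ∀ q : E.fixingSubgroup ⧸ (resHom E L').ker,
      ((unitOf K₀ Ω ((Rep.ofAlgebraAutOnUnits K₀ Ω).ρ
        ((Quotient.out q : E.fixingSubgroup) : Ω ≃ₐ[K₀] Ω) b) : Ωˣ) : Ω) =
        ((e q β : L') : Ω) := by
    intro q
    have h3 : e q = resHom E L' (Quotient.out q) := by
      conv_lhs => rw [← Quotient.out_eq q]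
      rfl
    rw [h3, resHom_apply, ← hβ, rho_apply]
  simp_rw [h2]
  rw [Fintype.prod_equiv e.toEquiv (fun q => ((e q β : L') : Ω))
    (fun σ : L' ≃ₐ[E] L' => ((σ β : L') : Ω)) (fun q => rfl)]
  have h4 : ((∏ σ : L' ≃ₐ[E] L', σ β : L') : Ω) = ∏ σ : L' ≃ₐ[E] L', ((σ β : L') : Ω) :=
    map_prod (algebraMap L' Ω) _ _
  exact h4.symm

/-- **generic (EXIST)** at the level `N₀ = E.fixingSubgroup`: if every unit of `E` which is a
norm from every abstract Galois extension of degree `p` is a `p`-th power, then the body of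
`HasEXIST (galoisLevels K₀ Ω) (Rep.ofAlgebraAutOnUnits K₀ Ω) p E.fixingSubgroup` holds. -/
theorem hasEXIST_of_exists [IsAlgClosed Ω] [FiniteDimensional K₀ E] (p : ℕ)
    (hex : ∀ αE : (↥E)ˣ,
      (∀ (L : Type) [Field L] [Algebra K₀ L] [FiniteDimensional K₀ L] [Algebra E L]
        [IsScalarTower K₀ E L] [IsGalois E L], Module.finrank E L = p →
          αE ∈ (Units.map (Algebra.norm E : L →* E)).range) →
      ∃ b : (↥E)ˣ, b ^ p = αE) :
    ∀ a : (Rep.ofAlgebraAutOnUnits K₀ Ω).V,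
      (∀ n ∈ E.fixingSubgroup, (Rep.ofAlgebraAutOnUnits K₀ Ω).ρ n a = a) →
      (∀ V : Subgroup (Ω ≃ₐ[K₀] Ω), (H78.galoisLevels K₀ Ω).IsOpen V → V ≤ E.fixingSubgroup →
        (V.subgroupOf E.fixingSubgroup).Normal → (V.subgroupOf E.fixingSubgroup).index = p →
          ∃ b : (Rep.ofAlgebraAutOnUnits K₀ Ω).V,
            (∀ v ∈ V, (Rep.ofAlgebraAutOnUnits K₀ Ω).ρ v b = b) ∧
            (∑ᶠ q : E.fixingSubgroup ⧸ V.subgroupOf E.fixingSubgroup,
              (Rep.ofAlgebraAutOnUnits K₀ Ω).ρ (Quotient.out q : E.fixingSubgroup).1 b) = a) →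
      ∃ b : (Rep.ofAlgebraAutOnUnits K₀ Ω).V,
        (∀ n ∈ E.fixingSubgroup, (Rep.ofAlgebraAutOnUnits K₀ Ω).ρ n b = b) ∧ p • b = a := by
  intro a ha h
  -- `a` comes from a unit of `E`
  have haE : ((unitOf K₀ Ω a : Ωˣ) : Ω) ∈ E := by
    have := (forall_rho_eq_iff E.fixingSubgroup a).1 ha
    rwa [InfiniteGalois.fixedField_fixingSubgroup] at this
  obtain ⟨αE, rfl⟩ := exists_ofUnit_eq E a haE
  have hEfix : E ≤ fixedField E.fixingSubgroup := (le_iff_le _ _).2 le_rfl
  suffices hnorm : ∀ (L : Type) [Field L] [Algebra K₀ L] [FiniteDimensional K₀ L] [Algebra E L]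
      [IsScalarTower K₀ E L] [IsGalois E L], Module.finrank E L = p →
        αE ∈ (Units.map (Algebra.norm E : L →* E)).range by
    obtain ⟨bE, hbE⟩ := hex αE hnorm
    refine ⟨ofUnit E bE, ofUnit_fixed E bE _ hEfix, ?_⟩
    rw [← ofUnit_pow, hbE]
  intro L _ _ _ _ _ _ hdeg
  haveI : FiniteDimensional E L := FiniteDimensional.right K₀ E L
  let ι : L →ₐ[E] Ω := IsAlgClosed.lift
  let L' : IntermediateField E Ω := ι.fieldRange
  let e : L ≃ₐ[E] L' := AlgEquiv.ofInjectiveField ι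
  haveI : FiniteDimensional E L' := e.toLinearEquiv.finiteDimensional
  haveI : IsGalois E L' := IsGalois.of_algEquiv e
  have hVopen : (H78.galoisLevels K₀ Ω).IsOpen (L'.restrictScalars K₀).fixingSubgroup := by
    haveI : FiniteDimensional K₀ ↥(L'.restrictScalars K₀) :=
      (FiniteDimensional.trans K₀ E L' : FiniteDimensional K₀ L')
    exact H78.isOpen_fixingSubgroup (L'.restrictScalars K₀)
  have hVle : (L'.restrictScalars K₀).fixingSubgroup ≤ E.fixingSubgroup := by
    apply fixingSubgroup_le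
    intro x hx
    exact L'.algebraMap_mem ⟨x, hx⟩
  have hW : (L'.restrictScalars K₀).fixingSubgroup.subgroupOf E.fixingSubgroup =
      (resHom E L').ker := (ker_resHom E L').symm
  have hnormal : ((L'.restrictScalars K₀).fixingSubgroup.subgroupOf E.fixingSubgroup).Normal := by
    rw [hW]
    exact MonoidHom.normal_ker _
  have hindex : ((L'.restrictScalars K₀).fixingSubgroup.subgroupOf E.fixingSubgroup).index = p := by
    rw [hW, Subgroup.index_ker, MonoidHom.range_eq_top.2 (resHom_surjective E L'),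
      Subgroup.card_top, IsGalois.card_aut_eq_finrank, ← hdeg]
    exact e.toLinearEquiv.finrank_eq.symm
  obtain ⟨b, hbV, hsum⟩ := h _ hVopen hVle hnormal hindex
  have hβmem : ((unitOf K₀ Ω b : Ωˣ) : Ω) ∈ L'.restrictScalars K₀ := by
    have := (forall_rho_eq_iff _ b).1 hbV
    rwa [InfiniteGalois.fixedField_fixingSubgroup] at this
  let β : L' := ⟨((unitOf K₀ Ω b : Ωˣ) : Ω), hβmem⟩
  have key := unitOf_finsum_eq_norm E L' _ hW b β rfl
  rw [hsum] at key
  -- `key : αE = N_{L'/E} β` inside `Ω`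
  have hαβ : (αE : E) = Algebra.norm E β := by
    apply Subtype.ext
    exact key
  have hnormL : Algebra.norm E (e.symm β) = (αE : E) := by
    rw [hαβ, ← Algebra.norm_eq_of_algEquiv e (e.symm β), AlgEquiv.apply_symm_apply]
  have hy0 : e.symm β ≠ 0 := by
    intro h0
    rw [h0, Algebra.norm_zero] at hnormL
    exact αE.ne_zero hnormL.symm
  refine ⟨Units.mk0 _ hy0, Units.ext ?_⟩
  rw [Units.coe_map, Units.val_mk0]
  exact hnormL

end Generic

section Local

variable (q : ℕ) [Fact q.Prime]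

/-- good levels of the local Galois group: the fixed field contains a primitive `p`-th root of
unity. -/
def good (p : ℕ) (N₀ : Subgroup (H78.LocalGal q)) : Prop :=
  ∃ ζ : PadicAlgCl q, IsPrimitiveRoot ζ p ∧ ∀ σ ∈ N₀, σ ζ = ζ

theorem good_of_le {p : ℕ} {N N' : Subgroup (H78.LocalGal q)} (h : N' ≤ N) (hg : good q p N) :
    good q p N' := by
  obtain ⟨ζ, hζ, hfix⟩ := hg
  exact ⟨ζ, hζ, fun σ hσ => hfix σ (h hσ)⟩

/-- the good levels are cofinal (`hgood` of the D1/D2 skeleton) -/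
theorem exists_good_level (p : ℕ) (hp : p ≠ 0) :
    ∀ N ∈ (H78.localLevels q).levels, ∃ N' ∈ (H78.localLevels q).levels,
      N' ≤ N ∧ N'.Normal ∧ good q p N' := by
  rintro _ ⟨F, hfd, hgal, rfl⟩
  haveI : NeZero (p : PadicAlgCl q) := ⟨Nat.cast_ne_zero.mpr hp⟩
  obtain ⟨ζ, hζ⟩ := HasEnoughRootsOfUnity.exists_primitiveRoot (PadicAlgCl q) p
  have hint : IsIntegral ℚ_[q] ζ := Algebra.IsIntegral.isIntegral ζ
  haveI : FiniteDimensional ℚ_[q] ↥ℚ_[q]⟮ζ⟯ := IntermediateField.adjoin.finiteDimensional hint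
  obtain ⟨N', hN', hle⟩ :=
    H78.isOpen_fixingSubgroup (K := ℚ_[q]) (Ω := PadicAlgCl q) (F ⊔ ℚ_[q]⟮ζ⟯)
  refine ⟨N', hN', hle.trans (fixingSubgroup_le le_sup_left),
    H78.normal_of_mem_galoisLevels hN', ζ, hζ, fun σ hσ => ?_⟩
  have h1 : ζ ∈ F ⊔ ℚ_[q]⟮ζ⟯ :=
    (le_sup_right : ℚ_[q]⟮ζ⟯ ≤ F ⊔ ℚ_[q]⟮ζ⟯) (IntermediateField.mem_adjoin_simple_self ℚ_[q] ζ)
  exact (IntermediateField.mem_fixingSubgroup_iff _ σ).1 (hle hσ) ζ h1

/-- **(EXIST), local instance at the good levels**: body of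
`HasEXIST (H78.localLevels q) (H78.localUnits q) p N₀` of the layer-D skeleton, verbatim.
Input: the local norm index formula in prime degree (B-HERBRAND). -/
theorem hasEXIST_local (p : ℕ) [hp : Fact p.Prime] (hidx : H85.PrimeDegreeNormIndex q)
    (N₀ : Subgroup (H78.LocalGal q)) (hN₀ : N₀ ∈ (H78.localLevels q).levels)
    (hg : good q p N₀) :
    ∀ a : (H78.localUnits q).V, (∀ n ∈ N₀, (H78.localUnits q).ρ n a = a) →
      (∀ V : Subgroup (H78.LocalGal q), (H78.localLevels q).IsOpen V → V ≤ N₀ →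
        (V.subgroupOf N₀).Normal → (V.subgroupOf N₀).index = p →
          ∃ b : (H78.localUnits q).V, (∀ v ∈ V, (H78.localUnits q).ρ v b = b) ∧
            (∑ᶠ q' : N₀ ⧸ V.subgroupOf N₀,
              (H78.localUnits q).ρ (Quotient.out q' : N₀).1 b) = a) →
      ∃ b : (H78.localUnits q).V, (∀ n ∈ N₀, (H78.localUnits q).ρ n b = b) ∧ p • b = a := by
  obtain ⟨E, hfd, hgal, rfl⟩ := hN₀
  obtain ⟨ζ, hζ, hfix⟩ := hg
  have hζE : ζ ∈ E := by
    have : ζ ∈ fixedField E.fixingSubgroup := (mem_fixedField_iff _ ζ).2 hfix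
    rwa [InfiniteGalois.fixedField_fixingSubgroup] at this
  have hζ' : IsPrimitiveRoot (⟨ζ, hζE⟩ : E) p :=
    IsPrimitiveRoot.of_map_of_injective (f := algebraMap E (PadicAlgCl q)) hζ
      (algebraMap E (PadicAlgCl q)).injective
  refine hasEXIST_of_exists E p fun αE hα => ?_
  refine H31.exists_units_pow_eq_of_forall_mem_range_norm ℚ_[q] hp.out hζ' ?_ αE hα
  intro L _ _ _ _ _ _ hdeg htop
  have h1 := hidx E L p hp.out hdeg
  have h2 : (Loc.normSubgroup (↥E) L) = ⊤ := htop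
  rw [h2, Subgroup.index_top] at h1
  exact hp.out.one_lt.ne h1

end Local

end Fermat.Agent.CFT.H97
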