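/-
CFT project, D3-inst-LOCAL (helper15): local Tate duality in the `W`-model.

The local class formation of layer B (`H15.localCF q`, hypothesis-free) is moved to the level
structure of the frozen statement, `pullLevels (localGaloisToGlobal q)` (helper55's
`H55_LocalFormation`), and fed - together with (DIV) (helper69), (FIN), (EXIST) and the cofinal
family of good levels (helper97, helper8) - into the abstract duality theorem
`formation_duality` of `H91_DStatements`.  The proofs of D1 and D2 enter as the hypotheses
`D1Statement p`, `D2Statement p`.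
-/
import Fermat.Agent.CFT.H91_DStatements
import Fermat.Agent.CFT.H15_BMain
import Fermat.Agent.CFT.H55_LocalFormation
import Fermat.Agent.CFT.H69_Div
import Fermat.Agent.CFT.H97_LocalExist
import Fermat.Agent.CFT.H8_PrimeDegreeNormIndex

set_option autoImplicit false

open CategoryTheory IntermediateField ExtCitation

namespace Fermat.Agent.CFT.H15

open Fermat.Agent.CFT

local notation "Qbar" => AlgebraicClosure ℚ

section Local

variable (q : ℕ) [Fact q.Prime] (p : ℕ) [Fact p.Prime]

/-- The frozen-side local level structure (levels pulled back from `G_ℚ`). -/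
noncomputable abbrev pulledLevels : LevelStructure (H78.LocalGal q) :=
  pullLevels (localGaloisToGlobal q)

/-- The local `p`-class formation on the frozen-side level structure. -/
noncomputable def localPCFPull :
    PClassFormation p (pulledLevels q) (H78.localUnits q) :=
  pClassFormationPullLevels q ((localCF q).toPClassFormation p)

/-- The local class formation on the frozen-side level structure. -/
noncomputable def localCFPull : ClassFormation (pulledLevels q) (H78.localUnits q) :=
  classFormationPullLevels q (localCF q)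

theorem isDiscrete_localUnits_pulled : (pulledLevels q).IsDiscrete (H78.localUnits q) :=
  isDiscrete_pullLevels_of_localLevels q (H78.isDiscrete_localUnits q)

/-- (DIV) for the frozen-side local level structure. -/
theorem hasDIV_pulled (hp2 : p ≠ 2) : HasDIV (pulledLevels q) p :=
  H69.hasDiv_pullLevels hp2 ⟨q, Fact.out⟩

/-- (FIN) for the frozen-side local level structure. -/
theorem hasFIN_pulled : HasFIN (pulledLevels q) (H78.localUnits q) p := fun U hU =>
  H97.hasFIN_local q p (Fact.out : p.Prime).ne_zero U ((isOpen_pullLevels_iff q U).1 hU)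

/-- The good levels (those fixing a primitive `p`-th root of unity) are cofinal among the
frozen-side levels. -/
theorem exists_good_pulled :
    ∀ N ∈ (pulledLevels q).levels, ∃ N' ∈ (pulledLevels q).levels,
      N' ≤ N ∧ N'.Normal ∧ H97.good q p N' := by
  rintro _ ⟨_, ⟨F, hF, rfl⟩, rfl⟩
  have hp : p ≠ 0 := (Fact.out : p.Prime).ne_zero
  have : NeZero (p : Qbar) := ⟨Nat.cast_ne_zero.mpr hp⟩
  obtain ⟨ζ, hζ⟩ := HasEnoughRootsOfUnity.exists_primitiveRoot Qbar p
  have hint : IsIntegral ℚ ζ := 
    ((AlgebraicClosure.isAlgebraic ℚ).isAlgebraic ζ).isIntegral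
  have : FiniteDimensional ℚ ↥ℚ⟮ζ⟯ := IntermediateField.adjoin.finiteDimensional hint
  have hmem : (F ⊔ ℚ⟮ζ⟯).fixingSubgroup ∈ allLevels.levels :=
    ⟨F ⊔ ℚ⟮ζ⟯, IntermediateField.finiteDimensional_sup F ℚ⟮ζ⟯, rfl⟩
  obtain ⟨N', hN', hle, hnor⟩ := allLevels.exists_normal _ hmem
  refine ⟨N'.comap (localGaloisToGlobal q), ⟨N', hN', rfl⟩, ?_, hnor.comap _, ?_⟩
  · exact Subgroup.comap_mono (hle.trans (IntermediateField.fixingSubgroup_antitone le_sup_left))
  · refine ⟨padicEmbedding q ζ, ?_, fun σ hσ => ?_⟩
    · exact hζ.map_of_injective (padicEmbedding q).injective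
    · have h1 : localGaloisToGlobal q σ ∈ (F ⊔ ℚ⟮ζ⟯).fixingSubgroup := hle hσ
      have h2 : ζ ∈ F ⊔ ℚ⟮ζ⟯ :=
        (le_sup_right : ℚ⟮ζ⟯ ≤ F ⊔ ℚ⟮ζ⟯) (IntermediateField.mem_adjoin_simple_self ℚ ζ)
      have h3 := (IntermediateField.mem_fixingSubgroup_iff _ _).1 h1 ζ h2
      rw [← padicEmbedding_localGaloisToGlobal, h3]

/-- (EXIST) at the good normal frozen-side levels. -/
theorem hasEXIST_pulled (N₀ : Subgroup (H78.LocalGal q)) (hN₀ : N₀ ∈ (pulledLevels q).levels)
    (hn : N₀.Normal) (hg : H97.good q p N₀) :
    HasEXIST (pulledLevels q) (H78.localUnits q) p N₀ := by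
  intro a ha hnorm
  refine H97.hasEXIST_local q p (H8.primeDegreeNormIndex q) N₀
    (mem_localLevels_of_mem_pullLevels q hN₀ hn) hg a ha fun V hV hle hVn hidx => ?_
  exact hnorm V ((isOpen_pullLevels_iff q V).2 hV) hle hVn hidx

/-- **Local Tate duality in the `W`-model** (D3-inst-LOCAL), on the frozen-side level structure:
the `W`-datum of the canonical envelope of `(PadicAlgCl q)ˣ` carries a trace for which `α¹`, `α²`
are bijective for all finite discrete `𝔽_p`-modules. -/
theorem local_duality_pulled (hD1 : D1Statement p) (hD2 : D2Statement p) (hp2 : p ≠ 2) :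
    ∃ tr : (pulledLevels q).H1 (H36.canonicalEnvelope (pulledLevels q) p
        (Fact.out : p.Prime).ne_zero (H78.localUnits q)
        (isDiscrete_localUnits_pulled q)).wDatum.W →ₗ[ZMod p] ZMod p,
      D1Conclusion (pulledLevels q) (H36.canonicalEnvelope (pulledLevels q) p
        (Fact.out : p.Prime).ne_zero (H78.localUnits q)
        (isDiscrete_localUnits_pulled q)).wDatum tr :=
  formation_duality hD1 hD2 (pulledLevels q) (H78.localUnits q) (isDiscrete_localUnits_pulled q)
    (localPCFPull q p) (hasDIV_pulled q p hp2) (hasFIN_pulled q p) (H97.good q p)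
    (exists_good_pulled q p) (hasEXIST_pulled q p) (Fact.out : p.Prime).ne_zero

/-- `(PadicAlgCl q)ˣ` is divisible (the field is algebraically closed). -/
theorem localUnits_divisible (n : ℕ) (hn : n ≠ 0) (a : (H78.localUnits q).V) :
    ∃ b : (H78.localUnits q).V, n • b = a := by
  obtain ⟨z, hz⟩ := IsAlgClosed.exists_pow_nat_eq
    ((Additive.toMul a : (PadicAlgCl q)ˣ) : PadicAlgCl q) (Nat.pos_of_ne_zero hn)
  have hz0 : z ≠ 0 := by
    rintro rfl
    rw [zero_pow hn] at hz
    exact (Additive.toMul a : (PadicAlgCl q)ˣ).ne_zero hz.symm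
  refine ⟨Additive.ofMul (Units.mk0 z hz0), ?_⟩
  apply Additive.toMul.injective
  apply Units.ext
  show ((Units.mk0 z hz0) ^ n : (PadicAlgCl q)ˣ).1 = _
  rw [Units.val_pow_eq_pow_val, Units.val_mk0, hz]
  rfl

end Local

/-! ### `Nat.Primes`-indexed wrappers (the groups of the frozen statement) -/

section Prime

variable (q : Nat.Primes) (p : ℕ) [Fact p.Prime]

/-- The local `p`-class formation on `(primeLocalGaloisGroup q, pullLevels (primeLocalToGlobal q),
localUnitsPrime q)`. -/
noncomputable def localPCFPrime :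
    PClassFormation p (pullLevels (primeLocalToGlobal q)) (localUnitsPrime q) :=
  letI : Fact (q : ℕ).Prime := ⟨q.2⟩
  localPCFPull (q : ℕ) p

/-- The local class formation on `(primeLocalGaloisGroup q, pullLevels (primeLocalToGlobal q),
localUnitsPrime q)`. -/
noncomputable def localCFPrime :
    ClassFormation (pullLevels (primeLocalToGlobal q)) (localUnitsPrime q) :=
  letI : Fact (q : ℕ).Prime := ⟨q.2⟩
  localCFPull (q : ℕ)

theorem hasDIV_prime (hp2 : p ≠ 2) : HasDIV (pullLevels (primeLocalToGlobal q)) p :=
  H69.hasDiv_pullLevels hp2 q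

theorem hasFIN_prime : HasFIN (pullLevels (primeLocalToGlobal q)) (localUnitsPrime q) p :=
  letI : Fact (q : ℕ).Prime := ⟨q.2⟩
  hasFIN_pulled (q : ℕ) p

/-- `localUnitsPrime q` is divisible. -/
theorem localUnitsPrime_divisible (n : ℕ) (hn : n ≠ 0) (a : (localUnitsPrime q).V) :
    ∃ b : (localUnitsPrime q).V, n • b = a :=
  letI : Fact (q : ℕ).Prime := ⟨q.2⟩
  localUnits_divisible (q : ℕ) n hn a

/-- **Local Tate duality in the `W`-model** on the groups and level structure of the frozen
statement. -/
theorem local_duality (hD1 : D1Statement p) (hD2 : D2Statement p) (hp2 : p ≠ 2) :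
    ∃ tr : (pullLevels (primeLocalToGlobal q)).H1 (H36.canonicalEnvelope
        (pullLevels (primeLocalToGlobal q)) p (Fact.out : p.Prime).ne_zero (localUnitsPrime q)
        (isDiscrete_localUnitsPrime q)).wDatum.W →ₗ[ZMod p] ZMod p,
      D1Conclusion (pullLevels (primeLocalToGlobal q)) (H36.canonicalEnvelope
        (pullLevels (primeLocalToGlobal q)) p (Fact.out : p.Prime).ne_zero (localUnitsPrime q)
        (isDiscrete_localUnitsPrime q)).wDatum tr :=
  letI : Fact (q : ℕ).Prime := ⟨q.2⟩
  local_duality_pulled (q : ℕ) p hD1 hD2 hp2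

end Prime

end Fermat.Agent.CFT.H15
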