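/-
CFT project, layer D plumbing (helper15): the trace of a `W`-datum for which duality holds at the
trivial module `𝔽_p` is BIJECTIVE.

For `X = 𝔽_p` (trivial action) one has `Hom(X, W) ≅ W` (`constHom`, `evalOneHom`), and under this
identification `α²(X) : H¹(H; Hom(X, W)) → (X^H)^∨` is `w ↦ (x ↦ x • tr w)`.  Hence
`IsDual2 tr 𝔽_p` forces `tr : H¹(H; W) → 𝔽_p` to be bijective; in particular this holds for the
trace produced by `formation_duality` (`D1Conclusion`).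
-/
import Fermat.Agent.CFT.H91_D2Defs

set_option autoImplicit false

open CategoryTheory

namespace Fermat.Agent.CFT.H15

open Fermat.Agent.CFT

variable {p : ℕ} [Fact p.Prime] {H : Type} [Group H]

/-- The trivial module `𝔽_p`. -/
noncomputable abbrev trivFp (p : ℕ) [Fact p.Prime] (H : Type) [Group H] : Rep.{0} (ZMod p) H :=
  Rep.trivial (ZMod p) H (ZMod p)

lemma trivFp_ρ_apply (g : H) (x : ZMod p) : (trivFp p H).ρ g x = x := rfl

/-- `𝔽_p` is finite and discrete for every level structure. -/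
theorem isFinDiscrete_trivFp (𝓛 : LevelStructure H) : IsFinDiscrete 𝓛 (trivFp p H) where
  finite := inferInstanceAs (Finite (ZMod p))
  discrete := fun _ => by
    obtain ⟨N, hN⟩ := 𝓛.nonempty
    exact ⟨N, hN, fun _ _ => rfl⟩

/-- Every element of `𝔽_p` is invariant. -/
lemma mem_invariants_trivFp (x : ZMod p) : x ∈ (trivFp p H).ρ.invariants := fun _ => rfl

/-- `c : W ⟶ Hom(𝔽_p, W)`, `w ↦ (x ↦ x • w)`. -/
noncomputable def constHom (W : Rep.{0} (ZMod p) H) : W ⟶ homRep (trivFp p H) W :=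
  Rep.ofHom ⟨(LinearMap.ringLmapEquivSelf (ZMod p) (ZMod p) W.V).symm.toLinearMap, fun g => by
    refine LinearMap.ext fun w => LinearMap.ext fun x => ?_
    show x • W.ρ g w = W.ρ g (x • w)
    rw [map_smul]⟩

/-- `e : Hom(𝔽_p, W) ⟶ W`, `f ↦ f 1`. -/
noncomputable def evalOneHom (W : Rep.{0} (ZMod p) H) : homRep (trivFp p H) W ⟶ W :=
  Rep.ofHom ⟨LinearMap.applyₗ (1 : ZMod p), fun g => by
    refine LinearMap.ext fun f => ?_
    rfl⟩

lemma constHom_apply (W : Rep.{0} (ZMod p) H) (w : W.V) (x : ZMod p) :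
    ((constHom W).hom w : ZMod p →ₗ[ZMod p] W.V) x = x • w := rfl

lemma evalOneHom_apply (W : Rep.{0} (ZMod p) H) (f : ZMod p →ₗ[ZMod p] W.V) :
    (evalOneHom W).hom f = f 1 := rfl

lemma evalOneHom_constHom (W : Rep.{0} (ZMod p) H) (w : W.V) :
    (evalOneHom W).hom ((constHom W).hom w) = w := by
  rw [evalOneHom_apply, constHom_apply, one_smul]

lemma constHom_evalOneHom (W : Rep.{0} (ZMod p) H) (f : ZMod p →ₗ[ZMod p] W.V) :
    (constHom W).hom ((evalOneHom W).hom f) = f := by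
  refine LinearMap.ext fun x => ?_
  rw [constHom_apply, evalOneHom_apply, ← map_smul, smul_eq_mul, mul_one]

variable (𝓛 : LevelStructure H)

theorem coeffH1_evalOneHom_constHom (W : Rep.{0} (ZMod p) H) (w : 𝓛.H1 W) :
    H50.coeffH1 𝓛 (evalOneHom W) (H50.coeffH1 𝓛 (constHom W) w) = w := by
  induction w using Submodule.Quotient.induction_on with
  | H f =>
    show 𝓛.H1π W _ = 𝓛.H1π W f
    congr 1
    apply Subtype.ext
    funext g
    exact evalOneHom_constHom W (f.1 g)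

theorem coeffH1_constHom_evalOneHom (W : Rep.{0} (ZMod p) H)
    (φ : 𝓛.H1 (homRep (trivFp p H) W)) :
    H50.coeffH1 𝓛 (constHom W) (H50.coeffH1 𝓛 (evalOneHom W) φ) = φ := by
  induction φ using Submodule.Quotient.induction_on with
  | H f =>
    show 𝓛.H1π _ _ = 𝓛.H1π _ f
    congr 1
    apply Subtype.ext
    funext g
    exact constHom_evalOneHom W (f.1 g)

/-- `H¹(H; W) ≃ H¹(H; Hom(𝔽_p, W))`. -/
noncomputable def trivHomH1Equiv (W : Rep.{0} (ZMod p) H) :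
    𝓛.H1 W ≃ₗ[ZMod p] 𝓛.H1 (homRep (trivFp p H) W) :=
  LinearEquiv.ofLinearMap (H50.coeffH1 𝓛 (constHom W)) (H50.coeffH1 𝓛 (evalOneHom W))
    (LinearMap.ext fun φ => coeffH1_constHom_evalOneHom 𝓛 W φ)
    (LinearMap.ext fun w => coeffH1_evalOneHom_constHom 𝓛 W w)

variable {𝓛}

/-- `α²(𝔽_p)([φ])(x) = x • tr (e_* [φ])`. -/
theorem alpha2_trivFp (𝒟 : WDatum p 𝓛) (tr : 𝓛.H1 𝒟.W →ₗ[ZMod p] ZMod p)
    (φ : 𝒟.T2 (trivFp p H)) (x : (trivFp p H).ρ.invariants) :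
    𝒟.alpha2 tr (trivFp p H) φ x = (x : ZMod p) • tr (H50.coeffH1 𝓛 (evalOneHom 𝒟.W) φ) := by
  induction φ using Submodule.Quotient.induction_on with
  | H f =>
    show tr (𝓛.H1π 𝒟.W _) = (x : ZMod p) • tr (𝓛.H1π 𝒟.W _)
    rw [← map_smul, ← map_smul]
    congr 2
    apply Subtype.ext
    funext g
    show (f.1 g : ZMod p →ₗ[ZMod p] 𝒟.W.V) x.1 = (x : ZMod p) • (f.1 g : ZMod p →ₗ[ZMod p] 𝒟.W.V) 1
    rw [← map_smul, smul_eq_mul, mul_one]

/-- `α²(𝔽_p)(c_* w)(x) = x • tr w`. -/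
theorem alpha2_constHom (𝒟 : WDatum p 𝓛) (tr : 𝓛.H1 𝒟.W →ₗ[ZMod p] ZMod p)
    (w : 𝓛.H1 𝒟.W) (x : (trivFp p H).ρ.invariants) :
    𝒟.alpha2 tr (trivFp p H) (H50.coeffH1 𝓛 (constHom 𝒟.W) w) x = (x : ZMod p) • tr w := by
  rw [alpha2_trivFp, coeffH1_evalOneHom_constHom]

/-- Duality in degree 2 at the trivial module `𝔽_p` forces the trace to be injective. -/
theorem tr_injective_of_isDual2 (𝒟 : WDatum p 𝓛) (tr : 𝓛.H1 𝒟.W →ₗ[ZMod p] ZMod p)
    (h : 𝒟.IsDual2 tr (trivFp p H)) : Function.Injective tr := by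
  rw [injective_iff_map_eq_zero]
  intro w hw
  have h0 : 𝒟.alpha2 tr (trivFp p H) (H50.coeffH1 𝓛 (constHom 𝒟.W) w) = 0 := by
    refine LinearMap.ext fun x => ?_
    rw [alpha2_constHom, hw, smul_zero]
    rfl
  have h1 : H50.coeffH1 𝓛 (constHom 𝒟.W) w = 0 := h.1 (h0.trans (map_zero _).symm)
  rw [← coeffH1_evalOneHom_constHom 𝓛 𝒟.W w, h1, map_zero]

/-- Duality in degree 2 at the trivial module `𝔽_p` forces the trace to be surjective. -/
theorem tr_surjective_of_isDual2 (𝒟 : WDatum p 𝓛) (tr : 𝓛.H1 𝒟.W →ₗ[ZMod p] ZMod p)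
    (h : 𝒟.IsDual2 tr (trivFp p H)) : Function.Surjective tr := by
  obtain ⟨φ, hφ⟩ := h.2 ((trivFp p H).ρ.invariants.subtype)
  have h1 := LinearMap.congr_fun hφ ⟨(1 : ZMod p), mem_invariants_trivFp 1⟩
  rw [alpha2_trivFp] at h1
  have h2 : tr (H50.coeffH1 𝓛 (evalOneHom 𝒟.W) φ) = 1 := by
    have : ((1 : ZMod p)) • tr (H50.coeffH1 𝓛 (evalOneHom 𝒟.W) φ) = (1 : ZMod p) := h1
    rwa [one_smul] at this
  intro c
  exact ⟨c • H50.coeffH1 𝓛 (evalOneHom 𝒟.W) φ, by rw [map_smul, h2, smul_eq_mul, mul_one]⟩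

theorem tr_bijective_of_isDual2 (𝒟 : WDatum p 𝓛) (tr : 𝓛.H1 𝒟.W →ₗ[ZMod p] ZMod p)
    (h : 𝒟.IsDual2 tr (trivFp p H)) : Function.Bijective tr :=
  ⟨tr_injective_of_isDual2 𝒟 tr h, tr_surjective_of_isDual2 𝒟 tr h⟩

/-- The trace of a `W`-datum satisfying the conclusion of D1 is bijective. -/
theorem tr_bijective_of_d1Conclusion (𝒟 : WDatum p 𝓛) (tr : 𝓛.H1 𝒟.W →ₗ[ZMod p] ZMod p)
    (h : D1Conclusion 𝓛 𝒟 tr) : Function.Bijective tr :=
  tr_bijective_of_isDual2 𝒟 tr (h (trivFp p H) (isFinDiscrete_trivFp 𝓛)).1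

end Fermat.Agent.CFT.H15
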