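import Mathlib
import Fermat.Agent.CFT.H91_Formation
import Fermat.Agent.CFT.H33_CorRes
import Fermat.Agent.CFT.H52_TateFinal

/-!
# CFT / D2a: finite-level consequences of a `p`-class module

`G` a finite group, `C : Rep ℤ G`, `γ ∈ H²(G, C)` with `IsPClassModule p C γ` (class-module
conditions on the `p`-subgroups of `G`).  For an ARBITRARY subgroup `S ≤ G` we prove:

* `H¹(S, C)` and `H³(S, C)` have no `p`-power torsion;
* the `p`-primary part of `H²(S, C)` is cyclic of order `|S|_p`, generated by a multiple of the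
  restriction of `γ`.
-/

set_option autoImplicit false

open CategoryTheory groupCohomology Rep

namespace Fermat.Agent.CFT.H17

noncomputable section

variable {k : Type} [CommRing k] {G : Type} [Group G]

/-! ## Transport along subgroups of subgroups -/

/-- `T ≤ S ≤ G`: the cohomology of `T` (as a subgroup of the group `S`) agrees with the
cohomology of its image in `G`. -/
def subIso (S : Subgroup G) (T : Subgroup S) (A : Rep.{0} k G) (n : ℕ) :
    groupCohomology (Rep.res T.subtype (Rep.res S.subtype A)) n ≅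
      groupCohomology (Rep.res (T.map S.subtype).subtype A) n :=
  groupCohomology.mapIso (T.equivMapOfInjective S.subtype S.subtype_injective)
    (LinearEquiv.refl k A.V) (fun g => by ext x; rfl) n

/-- restricting from `G` to `S` and then to `T ≤ S` is restricting to the image of `T`. -/
theorem res_res_subIso (S : Subgroup G) (T : Subgroup S) (A : Rep.{0} k G) (n : ℕ) :
    resSub A S n ≫ resSub (Rep.res S.subtype A) T n ≫ (subIso S T A n).hom =
      resSub A (T.map S.subtype) n := by
  unfold resSub subIso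
  simp only [groupCohomology.mapIso_hom]
  rw [← groupCohomology.map_comp, ← groupCohomology.map_comp]
  refine groupCohomology.map_congr ?_ ?_ n
  · ext x
    have h := Subgroup.coe_equivMapOfInjective_apply T S.subtype S.subtype_injective
      ((T.equivMapOfInjective S.subtype S.subtype_injective).symm x)
    rw [MulEquiv.apply_symm_apply] at h
    simpa using h.symm
  · rfl

theorem res_res_subIso_apply (S : Subgroup G) (T : Subgroup S) (A : Rep.{0} k G) (n : ℕ)
    (x : groupCohomology A n) :
    (subIso S T A n).hom ((resSub (Rep.res S.subtype A) T n).hom ((resSub A S n).hom x)) =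
      (resSub A (T.map S.subtype) n).hom x := by
  have := congrArg (fun φ => φ.hom x) (res_res_subIso S T A n)
  simpa using this

/-! ## Restriction of a `p`-class module to a subgroup -/

variable {p : ℕ} {C : Rep.{0} k G} {γ : groupCohomology C 2}

theorem subIso_hom_injective (S : Subgroup G) (T : Subgroup S) (A : Rep.{0} k G) (n : ℕ) :
    Function.Injective (subIso S T A n).hom :=
  (subIso S T A n).toLinearEquiv.injective

/-- the restriction of a `p`-class module to a subgroup is a `p`-class module. -/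
theorem isPClassModule_res (hC : IsPClassModule p C γ) (S : Subgroup G) :
    IsPClassModule p (Rep.res S.subtype C) ((resSub C S 2).hom γ) where
  h1 T hT := by
    have := hC.h1 (T.map S.subtype) (hT.map _)
    exact (subIso S T C 1).toLinearEquiv.toEquiv.subsingleton
  h2_gen T hT x := by
    obtain ⟨n, hn⟩ := hC.h2_gen (T.map S.subtype) (hT.map _) ((subIso S T C 2).hom x)
    refine ⟨n, subIso_hom_injective S T C 2 ?_⟩
    rw [map_zsmul, res_res_subIso_apply]
    exact hn
  h2_order T hT := by
    have h := hC.h2_order (T.map S.subtype) (hT.map _)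
    rw [← res_res_subIso_apply] at h
    have hinj := subIso_hom_injective S T C 2
    have e : addOrderOf ((subIso S T C 2).hom
        ((resSub (Rep.res S.subtype C) T 2).hom ((resSub C S 2).hom γ))) =
        addOrderOf ((resSub (Rep.res S.subtype C) T 2).hom ((resSub C S 2).hom γ)) :=
      addOrderOf_injective ((subIso S T C 2).hom.hom.toAddMonoidHom) hinj _
    rw [← e, h]
    exact Nat.card_congr (T.equivMapOfInjective S.subtype S.subtype_injective).symm.toEquiv

/-! ## No `p`-torsion in `H¹` -/

/-- `H¹(G, C)` has no `p`-power torsion. -/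
theorem eq_zero_of_pow_nsmul_H1 [Finite G] [Fact p.Prime] (hC : IsPClassModule p C γ)
    (x : groupCohomology C 1) (m : ℕ) (hx : p ^ m • x = 0) : x = 0 := by
  obtain ⟨P⟩ : Nonempty (Sylow p G) := inferInstance
  exact H33.eq_zero_of_pow_nsmul_of_sylow C 1 P (hC.h1 P P.isPGroup') x m hx

/-- **(F1)** `H¹(S, C)` has no `p`-power torsion, for every subgroup `S`. -/
theorem H1_pTorsionFree [Finite G] [Fact p.Prime] (hC : IsPClassModule p C γ) (S : Subgroup G)
    (x : groupCohomology (Rep.res S.subtype C) 1) (m : ℕ) (hx : p ^ m • x = 0) : x = 0 :=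
  eq_zero_of_pow_nsmul_H1 (isPClassModule_res hC S) x m hx

/-! ## The bridge to Tate's theorem -/

theorem H2π_surjective (A : Rep.{0} k G) : Function.Surjective (H2π A) :=
  (ModuleCat.epi_iff_surjective (H2π A)).1 inferInstance

/-- restriction of classes is restriction of cocycles. -/
theorem resSub_H2π (A : Rep.{0} ℤ G) (c : cocycles₂ A) (S : Subgroup G) :
    (resSub A S 2).hom (H2π A c) = H2π (Rep.res S.subtype A) (H52.resCocycle₂ A c S) := by
  have h := congrArg (fun φ => φ.hom c)
    (groupCohomology.H2π_comp_map (A := A) (B := Rep.res S.subtype A) S.subtype (𝟙 _))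
  simp only [ModuleCat.hom_comp, LinearMap.comp_apply] at h
  refine h.trans ?_
  congr 1

theorem card_eq_of_generated {M : Type*} [AddCommGroup M] (g : M)
    (hgen : ∀ x : M, ∃ n : ℤ, x = n • g) : Nat.card M = addOrderOf g := by
  rw [← Nat.card_zmultiples g]
  have htop : AddSubgroup.zmultiples g = ⊤ := by
    rw [eq_top_iff]
    intro x _
    obtain ⟨n, rfl⟩ := hgen x
    exact AddSubgroup.zsmul_mem_zmultiples g n
  rw [htop]
  exact (Nat.card_congr AddSubgroup.topEquiv.toEquiv).symm

/-- a class module has a fundamental cocycle in the sense of the Tate package. -/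
theorem exists_isFundamental [Finite G] {A : Rep.{0} ℤ G} {γ' : groupCohomology A 2}
    (hA : IsClassModule A γ') : ∃ c : cocycles₂ A, H2π A c = γ' ∧ H52.IsFundamental A c := by
  obtain ⟨c, hc⟩ := H2π_surjective A γ'
  refine ⟨c, hc, ⟨fun S => hA.h1 S, fun S x => ?_, fun S => ?_⟩⟩
  · obtain ⟨n, hn⟩ := hA.h2_gen S x
    rw [← hc, resSub_H2π] at hn
    rw [hn]
    exact AddSubgroup.zsmul_mem_zmultiples _ n
  · rw [card_eq_of_generated _ (hA.h2_gen S), hA.h2_order S]

/-- Tate: `H³` of a class module vanishes. -/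
theorem subsingleton_H3_of_isClassModule [Finite G] {A : Rep.{0} ℤ G}
    {γ' : groupCohomology A 2} (hA : IsClassModule A γ') :
    Subsingleton (groupCohomology A 3) := by
  obtain ⟨c, -, hF⟩ := exists_isFundamental hA
  exact H52.subsingleton_H3_of_isFundamental A c hF

/-- on a `p`-group, a `p`-class module is a class module. -/
theorem isClassModule_of_isPGroup {A : Rep.{0} k G} {γ' : groupCohomology A 2}
    (hA : IsPClassModule p A γ') (hG : IsPGroup p G) : IsClassModule A γ' :=
  ⟨fun H => hA.h1 H (hG.to_subgroup H), fun H => hA.h2_gen H (hG.to_subgroup H),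
    fun H => hA.h2_order H (hG.to_subgroup H)⟩

/-! ## No `p`-torsion in `H³` -/

/-- `H³(G, C)` has no `p`-power torsion. -/
theorem eq_zero_of_pow_nsmul_H3 [Finite G] [Fact p.Prime] {C : Rep.{0} ℤ G}
    {γ : groupCohomology C 2} (hC : IsPClassModule p C γ)
    (x : groupCohomology C 3) (m : ℕ) (hx : p ^ m • x = 0) : x = 0 := by
  obtain ⟨P⟩ : Nonempty (Sylow p G) := inferInstance
  have hP : Subsingleton (groupCohomology (Rep.res (P : Subgroup G).subtype C) 3) :=
    subsingleton_H3_of_isClassModule
      (isClassModule_of_isPGroup (isPClassModule_res hC (P : Subgroup G)) P.isPGroup')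
  exact H33.eq_zero_of_pow_nsmul_of_sylow C 3 P hP x m hx

/-- **(F3)** `H³(S, C)` has no `p`-power torsion, for every subgroup `S`. -/
theorem H3_pTorsionFree [Finite G] [Fact p.Prime] {C : Rep.{0} ℤ G}
    {γ : groupCohomology C 2} (hC : IsPClassModule p C γ) (S : Subgroup G)
    (x : groupCohomology (Rep.res S.subtype C) 3) (m : ℕ) (hx : p ^ m • x = 0) : x = 0 :=
  eq_zero_of_pow_nsmul_H3 (isPClassModule_res hC S) x m hx

/-! ## The `p`-primary part of `H²` -/

section Abstract

/-- the `p`-power torsion subgroup. -/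
def pTorsion (p : ℕ) (M : Type*) [AddCommGroup M] : AddSubgroup M where
  carrier := {x | ∃ j : ℕ, p ^ j • x = 0}
  zero_mem' := ⟨0, by simp⟩
  add_mem' := by
    rintro x y ⟨i, hi⟩ ⟨j, hj⟩
    refine ⟨i + j, ?_⟩
    have h1 : p ^ (i + j) • x = 0 := by rw [pow_add, mul_comm, mul_smul, hi, smul_zero]
    have h2 : p ^ (i + j) • y = 0 := by rw [pow_add, mul_smul, hj, smul_zero]
    rw [smul_add, h1, h2, add_zero]
  neg_mem' := by
    rintro x ⟨i, hi⟩
    exact ⟨i, by rw [smul_neg, hi, neg_zero]⟩

theorem mem_pTorsion {p : ℕ} {M : Type*} [AddCommGroup M] {x : M} :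
    x ∈ pTorsion p M ↔ ∃ j : ℕ, p ^ j • x = 0 := Iff.rfl

/-- if `f : M → N` is injective on `p`-power torsion, `N` is finite of order `q`, and
`g ∈ M` has order exactly `q = p ^ a`, then the `p`-power torsion of `M` is generated by `g`. -/
theorem mem_zmultiples_of_pTorsion {p : ℕ} {M N : Type*} [AddCommGroup M] [AddCommGroup N]
    [Finite N] (f : M →+ N)
    (hf : ∀ (x : M) (j : ℕ), p ^ j • x = 0 → f x = 0 → x = 0)
    (g : M) {a : ℕ} (hg : addOrderOf g = p ^ a) (hN : Nat.card N = p ^ a)
    (x : M) (j : ℕ) (hx : p ^ j • x = 0) : x ∈ AddSubgroup.zmultiples g := by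
  set T := pTorsion p M with hT
  have hinj : Function.Injective (f.comp T.subtype) := by
    rw [injective_iff_map_eq_zero]
    rintro ⟨y, i, hi⟩ hy
    exact Subtype.ext (hf y i hi hy)
  have hfin : Finite T := Finite.of_injective _ hinj
  have hcard : Nat.card T ≤ p ^ a := by
    rw [← hN]
    exact Nat.card_le_card_of_injective _ hinj
  have hle : AddSubgroup.zmultiples g ≤ T := by
    rw [AddSubgroup.zmultiples_le]
    exact ⟨a, by rw [← hg]; exact addOrderOf_nsmul_eq_zero g⟩
  have heq : AddSubgroup.zmultiples g = T := by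
    apply AddSubgroup.eq_of_le_of_card_ge hle
    rw [Nat.card_zmultiples, hg]
    exact hcard
  rw [heq]
  exact ⟨j, hx⟩

end Abstract

section H2

/-- the `p`-part of the order of a finite group. -/
def pPart (p : ℕ) (G : Type) [Group G] : ℕ := p ^ (Nat.card G).factorization p

/-- the prime-to-`p` part of the order of a finite group. -/
def coPart (p : ℕ) (G : Type) [Group G] : ℕ := Nat.card G / pPart p G

theorem pPart_mul_coPart (p : ℕ) (G : Type) [Group G] :
    pPart p G * coPart p G = Nat.card G :=
  Nat.ordProj_mul_ordCompl_eq_self (Nat.card G) p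

theorem not_dvd_coPart (p : ℕ) [Fact p.Prime] (G : Type) [Group G] [Finite G] :
    ¬ p ∣ coPart p G :=
  Nat.not_dvd_ordCompl Fact.out Nat.card_pos.ne'

theorem card_sylow_eq_pPart [Finite G] [Fact p.Prime] (P : Sylow p G) :
    Nat.card P = pPart p G :=
  P.card_eq_multiplicity

variable [Finite G] [Fact p.Prime]

/-- `H²` of a Sylow `p`-subgroup has order `|G|_p`. -/
theorem card_H2_sylow (hC : IsPClassModule p C γ) (P : Sylow p G) :
    Nat.card (groupCohomology (Rep.res (P : Subgroup G).subtype C) 2) = pPart p G := by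
  rw [card_eq_of_generated _ (hC.h2_gen P P.isPGroup'), hC.h2_order P P.isPGroup',
    card_sylow_eq_pPart]

/-- **(F2a)** the canonical generator `(|G| / |G|_p) • γ` of the `p`-primary part of `H²(G, C)` has
order exactly `|G|_p`. -/
theorem addOrderOf_coPart_nsmul (hC : IsPClassModule p C γ) :
    addOrderOf (coPart p G • γ) = pPart p G := by
  obtain ⟨P⟩ : Nonempty (Sylow p G) := inferInstance
  have hp : p.Prime := Fact.out
  set a := (Nat.card G).factorization p with ha
  have hpa : pPart p G = p ^ a := rfl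
  have h1 : pPart p G • (coPart p G • γ) = 0 := by
    rw [← mul_smul, pPart_mul_coPart]
    exact H33.card_nsmul_eq_zero C 1 γ
  have hdvd : addOrderOf (coPart p G • γ) ∣ p ^ a := by
    rw [← hpa]; exact addOrderOf_dvd_of_nsmul_eq_zero h1
  obtain ⟨b, hb, hbo⟩ := (Nat.dvd_prime_pow hp).1 hdvd
  rw [hpa, hbo]
  rcases Nat.lt_or_ge b a with hlt | hge
  · exfalso
    have h2 : p ^ (a - 1) • (coPart p G • γ) = 0 := by
      apply addOrderOf_dvd_iff_nsmul_eq_zero.1
      rw [hbo]
      exact pow_dvd_pow p (by omega)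
    have h3 : (p ^ (a - 1) * coPart p G) • (resSub C (P : Subgroup G) 2).hom γ = 0 := by
      rw [← map_nsmul, mul_smul, h2, map_zero]
    have h4 := addOrderOf_dvd_of_nsmul_eq_zero h3
    rw [hC.h2_order P P.isPGroup', card_sylow_eq_pPart, hpa] at h4
    have h5 : p ^ a = p ^ (a - 1) * p := by
      rw [← pow_succ]; congr 1; omega
    rw [h5] at h4
    have h6 : p ∣ coPart p G :=
      Nat.dvd_of_mul_dvd_mul_left (pow_pos hp.pos _) h4
    exact not_dvd_coPart p G h6
  · congr 1; omega

/-- **(F2b)** every `p`-power torsion class in `H²(G, C)` is a multiple of the canonical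
generator `(|G| / |G|_p) • γ`. -/
theorem mem_zmultiples_of_pow_nsmul_H2 (hC : IsPClassModule p C γ)
    (x : groupCohomology C 2) (j : ℕ) (hx : p ^ j • x = 0) :
    x ∈ AddSubgroup.zmultiples (coPart p G • γ) := by
  obtain ⟨P⟩ : Nonempty (Sylow p G) := inferInstance
  have hcard := card_H2_sylow hC P
  have hfin : Finite (groupCohomology (Rep.res (P : Subgroup G).subtype C) 2) := by
    apply Nat.finite_of_card_ne_zero
    rw [hcard]
    exact pow_ne_zero _ (Fact.out : p.Prime).ne_zero
  exact mem_zmultiples_of_pTorsion ((H33.resS (P : Subgroup G) C 2).hom.toAddMonoidHom)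
    (fun y i hy hres => H33.eq_zero_of_resS_eq_zero C 2 P y i hy hres)
    (coPart p G • γ) (addOrderOf_coPart_nsmul hC) hcard x j hx

/-- every `p`-power torsion class in `H²(G, C)` is an integer multiple of `γ`. -/
theorem exists_zsmul_of_pow_nsmul_H2 (hC : IsPClassModule p C γ)
    (x : groupCohomology C 2) (j : ℕ) (hx : p ^ j • x = 0) : ∃ n : ℤ, x = n • γ := by
  obtain ⟨n, hn⟩ := AddSubgroup.mem_zmultiples_iff.1 (mem_zmultiples_of_pow_nsmul_H2 hC x j hx)
  refine ⟨n * (coPart p G : ℤ), ?_⟩
  rw [← hn, mul_smul, natCast_zsmul]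

end H2

/-! ## The `p`-torsion of `H²` -/

section H2Torsion

variable [Finite G] [Fact p.Prime]

theorem card_div_p_eq (hpG : p ∣ Nat.card G) :
    Nat.card G / p = p ^ ((Nat.card G).factorization p - 1) * coPart p G := by
  have hp : p.Prime := Fact.out
  have ha : 1 ≤ (Nat.card G).factorization p :=
    (hp.dvd_iff_one_le_factorization Nat.card_pos.ne').1 hpG
  have h := pPart_mul_coPart p G
  rw [pPart] at h
  have h5 : p ^ (Nat.card G).factorization p = p * p ^ ((Nat.card G).factorization p - 1) := by
    rw [← pow_succ']; congr 1; omega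
  rw [h5, mul_assoc] at h
  exact Nat.div_eq_of_eq_mul_right hp.pos h.symm

/-- if `p ∤ |G|` then `H²(G, C)` has no `p`-torsion. -/
theorem eq_zero_of_nsmul_H2_of_not_dvd (hC : IsPClassModule p C γ) (hpG : ¬ p ∣ Nat.card G)
    (x : groupCohomology C 2) (j : ℕ) (hx : p ^ j • x = 0) : x = 0 := by
  have hp : p.Prime := Fact.out
  have ha : (Nat.card G).factorization p = 0 := Nat.factorization_eq_zero_of_not_dvd hpG
  have hg := addOrderOf_coPart_nsmul hC
  rw [pPart, ha, pow_zero, AddMonoid.addOrderOf_eq_one_iff] at hg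
  have := mem_zmultiples_of_pow_nsmul_H2 hC x j hx
  rw [hg, AddSubgroup.zmultiples_zero_eq_bot, AddSubgroup.mem_bot] at this
  exact this

/-- **(F5a)** if `p ∣ |G|`, the class `(|G| / p) • γ` has order `p`. -/
theorem addOrderOf_card_div_nsmul (hC : IsPClassModule p C γ) (hpG : p ∣ Nat.card G) :
    addOrderOf ((Nat.card G / p) • γ) = p := by
  have hp : p.Prime := Fact.out
  have ha : 1 ≤ (Nat.card G).factorization p :=
    (hp.dvd_iff_one_le_factorization Nat.card_pos.ne').1 hpG
  apply addOrderOf_eq_prime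
  · rw [← mul_smul, Nat.mul_div_cancel' hpG]
    exact H33.card_nsmul_eq_zero C 1 γ
  · intro h0
    rw [card_div_p_eq hpG, mul_smul] at h0
    have h1 := addOrderOf_dvd_of_nsmul_eq_zero h0
    rw [addOrderOf_coPart_nsmul hC, pPart] at h1
    have h2 := Nat.pow_dvd_pow_iff_le_right hp.one_lt |>.1 h1
    omega

/-- **(F5b)** if `p ∣ |G|`, every class killed by `p` is a multiple of `(|G| / p) • γ`:
`H²(G, C)[p]` is cyclic of order `p`. -/
theorem exists_zsmul_of_nsmul_H2 (hC : IsPClassModule p C γ) (hpG : p ∣ Nat.card G)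
    (x : groupCohomology C 2) (hx : p • x = 0) :
    ∃ n : ℤ, x = n • ((Nat.card G / p) • γ) := by
  have hp : p.Prime := Fact.out
  have ha : 1 ≤ (Nat.card G).factorization p :=
    (hp.dvd_iff_one_le_factorization Nat.card_pos.ne').1 hpG
  obtain ⟨n, hn⟩ := AddSubgroup.mem_zmultiples_iff.1
    (mem_zmultiples_of_pow_nsmul_H2 hC x 1 (by simpa using hx))
  have h1 : ((p : ℤ) * n) • (coPart p G • γ) = 0 := by
    rw [mul_smul, hn, natCast_zsmul]; exact hx
  have h2 := addOrderOf_dvd_iff_zsmul_eq_zero.2 h1
  rw [addOrderOf_coPart_nsmul hC, pPart] at h2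
  have h5 : p ^ (Nat.card G).factorization p = p * p ^ ((Nat.card G).factorization p - 1) := by
    rw [← pow_succ']; congr 1; omega
  rw [h5] at h2
  push_cast at h2
  have hp0 : (p : ℤ) ≠ 0 := by exact_mod_cast hp.ne_zero
  obtain ⟨n', hn'⟩ := (mul_dvd_mul_iff_left hp0).1 h2
  refine ⟨n', ?_⟩
  rw [← hn, hn', card_div_p_eq hpG, mul_smul ((p ^ _ : ℕ)) (coPart p G) γ, mul_comm, mul_smul,
    ← natCast_zsmul (coPart p G • γ) (p ^ ((Nat.card G).factorization p - 1))]
  push_cast
  rfl

end H2Torsion

/-! ## Classes vanishing on the `p`-subgroups -/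

section Detect

variable [Finite G] [Fact p.Prime]

/-- a class in `H²(G, C)` which restricts to `0` on a Sylow `p`-subgroup is killed by the
prime-to-`p` part of `|G|`. -/
theorem coPart_nsmul_eq_zero_of_res_sylow (hC : IsPClassModule p C γ)
    (y : groupCohomology C 2) (P : Sylow p G) (hy : (resSub C (P : Subgroup G) 2).hom y = 0) :
    coPart p G • y = 0 := by
  have hp : p.Prime := Fact.out
  have hz : p ^ (Nat.card G).factorization p • (coPart p G • y) = 0 := by
    have := pPart_mul_coPart p G
    rw [pPart] at this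
    rw [← mul_smul, this]
    exact H33.card_nsmul_eq_zero C 1 y
  obtain ⟨n, hn⟩ := AddSubgroup.mem_zmultiples_iff.1
    (mem_zmultiples_of_pow_nsmul_H2 hC (coPart p G • y) _ hz)
  have h1 : (n * (coPart p G : ℤ)) • (resSub C (P : Subgroup G) 2).hom γ = 0 := by
    rw [mul_smul, natCast_zsmul, ← map_nsmul, ← map_zsmul, hn, map_nsmul, hy, smul_zero]
  have h2 := addOrderOf_dvd_iff_zsmul_eq_zero.2 h1
  rw [hC.h2_order P P.isPGroup', card_sylow_eq_pPart] at h2
  have hcop : IsCoprime ((pPart p G : ℕ) : ℤ) ((coPart p G : ℕ) : ℤ) := by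
    rw [Nat.isCoprime_iff_coprime, pPart]
    exact Nat.Coprime.pow_left _ ((Nat.Prime.coprime_iff_not_dvd hp).2 (not_dvd_coPart p G))
  have h3 : ((pPart p G : ℕ) : ℤ) ∣ n := hcop.dvd_of_dvd_mul_right h2
  rw [← hn]
  apply addOrderOf_dvd_iff_zsmul_eq_zero.1
  rw [addOrderOf_coPart_nsmul hC]
  exact h3

/-- two classes in `H²(G, C)` with the same restriction to a Sylow `p`-subgroup agree after
multiplication by the prime-to-`p` part of `|G|`. -/
theorem coPart_nsmul_eq_of_res_sylow (hC : IsPClassModule p C γ)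
    (y y' : groupCohomology C 2) (P : Sylow p G)
    (hy : (resSub C (P : Subgroup G) 2).hom y = (resSub C (P : Subgroup G) 2).hom y') :
    coPart p G • y = coPart p G • y' := by
  have := coPart_nsmul_eq_zero_of_res_sylow hC (y - y') P (by rw [map_sub, hy, sub_self])
  rwa [smul_sub, sub_eq_zero] at this

end Detect

/-! ## Subgroup forms -/

section Sub

variable [Finite G] [Fact p.Prime]

/-- **(F2), subgroup form**: the canonical generator of the `p`-primary part of `H²(S, C)`. -/
theorem addOrderOf_coPart_nsmul_res (hC : IsPClassModule p C γ) (S : Subgroup G) :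
    addOrderOf (coPart p S • (resSub C S 2).hom γ) = pPart p S :=
  addOrderOf_coPart_nsmul (isPClassModule_res hC S)

theorem exists_zsmul_res_of_pow_nsmul_H2 (hC : IsPClassModule p C γ) (S : Subgroup G)
    (x : groupCohomology (Rep.res S.subtype C) 2) (j : ℕ) (hx : p ^ j • x = 0) :
    ∃ n : ℤ, x = n • (resSub C S 2).hom γ :=
  exists_zsmul_of_pow_nsmul_H2 (isPClassModule_res hC S) x j hx

/-- **(F5), subgroup form.** -/
theorem addOrderOf_card_div_nsmul_res (hC : IsPClassModule p C γ) (S : Subgroup G)
    (hpS : p ∣ Nat.card S) : addOrderOf ((Nat.card S / p) • (resSub C S 2).hom γ) = p :=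
  addOrderOf_card_div_nsmul (isPClassModule_res hC S) hpS

theorem exists_zsmul_res_of_nsmul_H2 (hC : IsPClassModule p C γ) (S : Subgroup G)
    (hpS : p ∣ Nat.card S) (x : groupCohomology (Rep.res S.subtype C) 2) (hx : p • x = 0) :
    ∃ n : ℤ, x = n • ((Nat.card S / p) • (resSub C S 2).hom γ) :=
  exists_zsmul_of_nsmul_H2 (isPClassModule_res hC S) hpS x hx

theorem eq_zero_of_nsmul_H2_res_of_not_dvd (hC : IsPClassModule p C γ) (S : Subgroup G)
    (hpS : ¬ p ∣ Nat.card S) (x : groupCohomology (Rep.res S.subtype C) 2) (j : ℕ)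
    (hx : p ^ j • x = 0) : x = 0 :=
  eq_zero_of_nsmul_H2_of_not_dvd (isPClassModule_res hC S) hpS x j hx

end Sub

/-! ## Compatibility with inflation in a `p`-class formation -/

section Inflation

variable {Γ : Type} [Group Γ] {𝓛 : LevelStructure Γ} {D : Rep.{0} k Γ} [Fact p.Prime]

/-- In a `p`-class formation, for normal levels `V ≤ U` and ANY subgroup `S` of `Γ/V`:
`inf (fund U)` and `[U : V] • fund V` agree on `S` after multiplication by the prime-to-`p`
part of `|S|`. -/
theorem coPart_nsmul_infLevel (F : PClassFormation p 𝓛 D) (U V : Subgroup Γ)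
    (hU : U ∈ 𝓛.levels) (hV : V ∈ 𝓛.levels) [U.Normal] [V.Normal] (h : V ≤ U)
    (S : Subgroup (Γ ⧸ V)) :
    coPart p S • (resSub (D.quotientToInvariants V) S 2).hom
        ((infLevel D U V h 2).hom (F.fund U hU)) =
      coPart p S • (V.relIndex U • (resSub (D.quotientToInvariants V) S 2).hom (F.fund V hV)) := by
  have := 𝓛.finiteIndex V hV
  have : Finite (Γ ⧸ V) := Subgroup.finite_quotient_of_finiteIndex
  obtain ⟨P⟩ : Nonempty (Sylow p S) := inferInstance
  refine coPart_nsmul_eq_of_res_sylow (isPClassModule_res (F.isClass V hV) S) _ _ P ?_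
  apply subIso_hom_injective S (P : Subgroup S) (D.quotientToInvariants V) 2
  rw [map_nsmul, map_nsmul, res_res_subIso_apply, res_res_subIso_apply]
  exact F.inf_fund U V hU hV h _ (P.isPGroup'.map _)

end Inflation

/-! ## Compatibility with corestriction

`H33.corS` is the corestriction built from Shapiro's lemma; `H33.resS` is the corresponding
restriction.  The identification `H33.resS S C n = resSub C S n` (package
A-ShapiroExplicit) is taken as a hypothesis here. -/

section Cores

variable [Finite G]

/-- corestriction maps the canonical `p`-torsion generator of `H²(S, C)` to that of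
`H²(G, C)`: `cor ((|S|/p) • res γ) = (|G|/p) • γ`. -/
theorem corS_card_div_nsmul (S : Subgroup G) (hres : H33.resS S C 2 = resSub C S 2)
    (hpS : p ∣ Nat.card S) :
    (H33.corS S C 2).hom ((Nat.card S / p) • (resSub C S 2).hom γ) = (Nat.card G / p) • γ := by
  rw [map_nsmul, ← hres, H33.corS_resS_apply, ← mul_smul]
  congr 1
  rw [← S.card_mul_index, Nat.mul_comm (Nat.card S), Nat.mul_div_assoc _ hpS, Nat.mul_comm]

/-- `cor (res γ) = [G : S] • γ`. -/
theorem corS_resSub (S : Subgroup G) (hres : H33.resS S C 2 = resSub C S 2) :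
    (H33.corS S C 2).hom ((resSub C S 2).hom γ) = S.index • γ := by
  rw [← hres, H33.corS_resS_apply]

end Cores

end

end Fermat.Agent.CFT.H17

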