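/-
CFT project, layer D, package D2b-I3 (helper52): axiom (I3') of the W-model for the envelope
datum of a `p`-class formation: `H²(U; W) = 0` for every open `U`, `W = (I/C)[p]`.

Part 1 (this section): the `p`-sequence `0 → W → Q -p→ Q → 0` at cochain level (no scalar-ring
issues: `W` may be a `ZMod p`-representation while `Q` is a `ℤ`-representation).
-/
import Fermat.Agent.CFT.H1_LevelLESRes
import Fermat.Agent.CFT.H36_Envelope

set_option autoImplicit false

open CategoryTheory groupCohomology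

namespace Fermat.Agent.CFT.H52

open Fermat.Agent.CFT LevelStructure

section PSequence

variable {H : Type} [Group H] {𝓛 : LevelStructure H} {k k' : Type} [CommRing k] [CommRing k']

/-- **The `p`-sequence.**  Let `Q` be a discrete, `p`-divisible representation such that level
`H¹(Q)` is `p`-divisible and level `H²(Q)` has no `p`-torsion.  If `W` (a representation over any
ring) is identified, equivariantly, with the `p`-torsion of `Q`, then level `H²(W) = 0`. -/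
theorem subsingleton_H2_of_pTorsion (p : ℕ) (Q : Rep.{0} k H) (W : Rep.{0} k' H)
    (hQ : 𝓛.IsDiscrete Q)
    (j : W.V →+ Q.V) (hj : Function.Injective j) (hjρ : ∀ g w, j (W.ρ g w) = Q.ρ g (j w))
    (hjim : ∀ q : Q.V, p • q = 0 ↔ ∃ w, j w = q)
    (hdiv : ∀ q : Q.V, ∃ q' : Q.V, p • q' = q)
    (h1 : ∀ z : 𝓛.H1 Q, ∃ z' : 𝓛.H1 Q, p • z' = z)
    (h2 : ∀ y : 𝓛.H2 Q, p • y = 0 → y = 0) :
    Subsingleton (𝓛.H2 W) := by
  -- `W` is killed by `p`
  have hpW : ∀ w : W.V, p • w = 0 := by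
    intro w
    apply hj
    rw [map_nsmul, map_zero]
    exact (hjim (j w)).2 ⟨w, rfl⟩
  -- it suffices to show that every level cocycle is a level coboundary
  suffices hmain : ∀ f ∈ 𝓛.cocycles₂ W, f ∈ 𝓛.coboundaries₂ W by
    refine ⟨fun a b => ?_⟩
    have h0 : ∀ x : 𝓛.H2 W, x = 0 := by
      intro x
      induction x using H1.sq_induction with
      | h f hf => exact (H1.sq_mk_eq_zero f hf).2 (hmain f hf)
    rw [h0 a, h0 b]
  intro f hf
  rw [H1.mem_cocycles₂_iff'] at hf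
  obtain ⟨hfc, hfd⟩ := hf
  -- the image cocycle in `Q`
  obtain ⟨F, hF⟩ : ∃ F : H × H → Q.V, ∀ x, F x = j (f x) := ⟨fun x => j (f x), fun _ => rfl⟩
  have hFc : F ∈ 𝓛.cochains₂ Q := by
    have : F = j ∘ f := funext hF
    rw [this]
    exact IsConst₂.comp hfc j
  have hFd : (d₂₃ Q).hom F = 0 := by
    funext x
    have := congrFun hfd x
    rw [d₂₃_hom_apply] at this ⊢
    rw [hF, hF, hF, hF, ← hjρ, ← map_sub, ← map_add, ← map_sub, this]
    exact map_zero j
  have hFZ : F ∈ 𝓛.cocycles₂ Q := (H1.mem_cocycles₂_iff' F).2 ⟨hFc, hFd⟩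
  have hpF : p • F = 0 := by
    funext x
    rw [Pi.smul_apply, hF, ← map_nsmul, hpW, map_zero, Pi.zero_apply]
  -- `[F]` is `p`-torsion, hence zero
  have hFB : F ∈ 𝓛.coboundaries₂ Q := by
    have h0 := h2 (Submodule.Quotient.mk ⟨F, hFZ⟩) (by
      rw [← Submodule.Quotient.mk_smul, Submodule.Quotient.mk_eq_zero]
      change p • F ∈ 𝓛.coboundaries₂ Q
      rw [hpF]; exact Submodule.zero_mem _)
    exact (H1.sq_mk_eq_zero F hFZ).1 h0
  obtain ⟨b, hb, hbF⟩ := (H1.mem_coboundaries₂_iff F).1 hFB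
  -- `p • b` is a level cocycle
  have hpbZ : p • b ∈ 𝓛.cocycles₁ Q := by
    rw [H1.mem_cocycles₁_iff']
    refine ⟨(𝓛.cochains₁ Q).smul_of_tower_mem p hb, ?_⟩
    rw [map_nsmul, hbF, hpF]
  -- divide its class by `p`
  obtain ⟨z', hz'⟩ := h1 (Submodule.Quotient.mk ⟨p • b, hpbZ⟩)
  induction z' using H1.sq_induction with
  | h c' hc' =>
  have hz'' : p • c' - p • b ∈ 𝓛.coboundaries₁ Q := by
    rw [← Submodule.Quotient.mk_smul, Submodule.Quotient.eq] at hz'
    exact hz'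
  obtain ⟨q, hq⟩ := (H1.mem_coboundaries₁_iff _).1 hz''
  obtain ⟨q', rfl⟩ := hdiv q
  have hc'Z := (H1.mem_cocycles₁_iff' c').1 hc'
  -- the corrected cochain
  obtain ⟨b'', hb''⟩ : ∃ b'' : H → Q.V, b'' = b - c' + (d₀₁ Q).hom q' := ⟨_, rfl⟩
  have hb''c : b'' ∈ 𝓛.cochains₁ Q := by
    rw [hb'']
    exact (𝓛.cochains₁ Q).add_mem ((𝓛.cochains₁ Q).sub_mem hb hc'Z.1)
      (H1.d₀₁_mem_cochains₁ hQ q')
  have hb''d : (d₁₂ Q).hom b'' = F := by
    rw [hb'', map_add, map_sub, hbF, hc'Z.2, H1.d₁₂_d₀₁, add_zero, sub_zero]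
  have hpb'' : p • b'' = 0 := by
    rw [hb'', smul_add, smul_sub, ← map_nsmul, hq]
    abel
  -- `b''` has values in `Q[p] = j(W)`
  have hval : ∀ g, ∃ w : W.V, j w = b'' g := fun g =>
    (hjim (b'' g)).1 (by rw [← Pi.smul_apply, hpb'']; rfl)
  choose w hw using hval
  have hwc : w ∈ 𝓛.cochains₁ W := by
    obtain ⟨N, hN, hinv⟩ := hb''c
    refine ⟨N, hN, fun g s hs => hj ?_⟩
    rw [hw, hw, hinv g s hs]
  refine (H1.mem_coboundaries₂_iff f).2 ⟨w, hwc, ?_⟩
  funext x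
  apply hj
  rw [d₁₂_hom_apply, map_add, map_sub, hjρ, hw, hw, hw, ← hF, ← hb''d, d₁₂_hom_apply]

end PSequence

/-! ### Part 2: dimension shifting along `0 → C → I → Q → 0` with `I` acyclic -/

section Shift

variable {H : Type} [Group H] (𝓛 : LevelStructure H) {k : Type} [CommRing k]
  {C I Q : Rep.{0} k H} {i : C ⟶ I} {π : I ⟶ Q} (h : H1.IsSES i π) (hI : 𝓛.IsDiscrete I)

include h hI

/-- If `H²(I) = 0` and `H³(C)` has no `p`-torsion then `H²(Q)` has no `p`-torsion. -/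
theorem H2_pTorsionFree_of_shift (p : ℕ) (hI2 : Subsingleton (𝓛.H2 I))
    (h3 : ∀ z : 𝓛.H3 C, p • z = 0 → z = 0) (y : 𝓛.H2 Q) (hy : p • y = 0) : y = 0 := by
  have h0 : H1.δ₂ 𝓛 h hI y = 0 := h3 _ (by rw [← map_nsmul, hy, map_zero])
  obtain ⟨x, rfl⟩ := (H1.exact_H2map_δ₂ 𝓛 h hI y).1 h0
  rw [Subsingleton.elim x 0, map_zero]

/-- If `H¹(I) = H²(I) = 0` and `H²(C)` is `p`-divisible then `H¹(Q)` is `p`-divisible. -/
theorem H1_pDivisible_of_shift (p : ℕ) (hI1 : Subsingleton (𝓛.H1 I))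
    (hI2 : Subsingleton (𝓛.H2 I))
    (h2 : ∀ w : 𝓛.H2 C, ∃ w' : 𝓛.H2 C, p • w' = w) (z : 𝓛.H1 Q) :
    ∃ z' : 𝓛.H1 Q, p • z' = z := by
  obtain ⟨w', hw'⟩ := h2 (H1.δ₁ 𝓛 h hI z)
  obtain ⟨z₁, rfl⟩ := (H1.exact_δ₁_H2map 𝓛 h hI w').1 (Subsingleton.elim _ _)
  have h0 : H1.δ₁ 𝓛 h hI (z - p • z₁) = 0 := by
    rw [map_sub, map_nsmul, hw', sub_self]
  obtain ⟨x, hx⟩ := (H1.exact_H1map_δ₁ 𝓛 h hI (z - p • z₁)).1 h0
  rw [Subsingleton.elim x 0, map_zero] at hx
  exact ⟨z₁, (sub_eq_zero.1 hx.symm).symm⟩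

end Shift

/-! ### Part 3: the envelope datum on an open subgroup -/

section Envelope

variable {H : Type} [Group H] (𝓛 : LevelStructure H) (p : ℕ) {k : Type} [CommRing k]
  {C : Rep.{0} k H} (E : H36.DivEnvelope 𝓛 p C)

/-- The defining sequence of an envelope is short exact in helper1's sense. -/
lemma isSES_envelope : H1.IsSES E.ι E.π where
  inj := E.ι_injective
  surj := E.π_surjective
  exact := fun x => E.exact x

/-- **(I3') from the two finite-level inputs.**  For an envelope `0 → C → I → Q → 0` whose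
middle term is level-acyclic on `U` in degrees `1, 2`: if level `H³(U; C)` has no `p`-torsion
and level `H²(U; C)` is `p`-divisible, then `H²(U; Q[p]) = 0`. -/
theorem axI3_of (U : Subgroup H)
    (hE1 : Subsingleton ((𝓛.restrict U).H1 (Rep.res U.subtype E.I)))
    (hE2 : Subsingleton ((𝓛.restrict U).H2 (Rep.res U.subtype E.I)))
    (h3 : ∀ z : (𝓛.restrict U).H3 (Rep.res U.subtype C), p • z = 0 → z = 0)
    (h2 : ∀ w : (𝓛.restrict U).H2 (Rep.res U.subtype C),
      ∃ w' : (𝓛.restrict U).H2 (Rep.res U.subtype C), p • w' = w) :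
    Subsingleton ((𝓛.restrict U).H2 (Rep.res U.subtype (H36.torsionRep p E.Q))) := by
  have hS := (isSES_envelope 𝓛 p E).res U.subtype
  have hI : (𝓛.restrict U).IsDiscrete (Rep.res U.subtype E.I) :=
    H50.isDiscrete_res (𝓛.restrict U) 𝓛 (H50.isCont_subtype 𝓛 U) E.discrete
  have hQ : (𝓛.restrict U).IsDiscrete (Rep.res U.subtype E.Q) :=
    H50.isDiscrete_res (𝓛.restrict U) 𝓛 (H50.isCont_subtype 𝓛 U) E.Q_discrete
  refine subsingleton_H2_of_pTorsion (𝓛 := 𝓛.restrict U) p (Rep.res U.subtype E.Q)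
    (Rep.res U.subtype (H36.torsionRep p E.Q)) hQ
    (H36.torsionSub p E.Q.V).subtype Subtype.val_injective (fun g w => rfl) ?_ ?_ ?_ ?_
  · intro q
    constructor
    · intro hq
      exact ⟨⟨q, (H36.mem_torsionSub p q).2 hq⟩, rfl⟩
    · rintro ⟨w, rfl⟩
      exact (H36.mem_torsionSub p w.1).1 w.2
  · exact E.Q_divisible
  · exact H1_pDivisible_of_shift (𝓛.restrict U) hS hI p hE1 hE2 h2
  · exact H2_pTorsionFree_of_shift (𝓛.restrict U) hS hI p hE2 h3

end Envelope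

end Fermat.Agent.CFT.H52
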