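/-
CFT project, layer A (helper52): adapter between helper91's class-module vocabulary
(`H91_Formation`: `IsClassModule`, `IsPClassModule`, `resSub`) and the hypotheses of Tate's
theorem in `H52_TateFinal` (`IsFundamental`).

Main exports (namespace `Fermat.Agent.CFT.H52`):
* `resSub_H2π` : restriction of the class of a `2`-cocycle.
* `subSubPair`, `subSubPair_cohIso_resSub` : subgroups of subgroups.
* `isClassModule_res`, `isPClassModule_res` : the structures restrict to subgroups.
* `isClassModule_of_isPClassModule_of_isPGroup`.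
* `isFundamental_of_isClassModule`, `isFundamental_res_of_isPClassModule`.
* `subsingleton_H3_of_isClassModule`, `nonempty_tateIso_of_isClassModule`,
  `subsingleton_H3_of_isPClassModule`.
* `H1_pTorsionFree_of_isPClassModule`, `H3_pTorsionFree_of_isPClassModule` (+ `_res` versions
  for all subgroups).
-/
import Fermat.Agent.CFT.H52_TateFinal
import Fermat.Agent.CFT.H91_Formation
import Fermat.Agent.CFT.H43_Maps
import Fermat.Agent.CFT.H66_ShapiroExplicit

set_option autoImplicit false

open CategoryTheory groupCohomology

namespace Fermat.Agent.CFT.H52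

section ResClass

variable {k : Type} [CommRing k] {G : Type} [Group G]

/-- Restriction of the class of a `2`-cocycle is the class of the restricted cocycle. -/
lemma resSub_H2π (C : Rep.{0} k G) (u : cocycles₂ C) (S : Subgroup G) :
    (resSub C S 2).hom (H2π C u) = H2π (Rep.res S.subtype C) (resCocycle₂ C u S) := by
  have h := H2π_comp_map_apply (A := C) (B := Rep.res S.subtype C) S.subtype (𝟙 _) u
  refine h.trans ?_
  congr 1

/-- The pair equivalence between `(T.map P.subtype, C)` and `(T, Res_P C)` for a subgroup `T`
of a subgroup `P` of `G`. -/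
noncomputable def subSubPair (C : Rep.{0} k G) (P : Subgroup G) (T : Subgroup P) :
    H43.PairEquiv (Rep.res (T.map P.subtype).subtype C)
      (Rep.res T.subtype (Rep.res P.subtype C)) where
  e := (T.equivMapOfInjective P.subtype P.subtype_injective).symm
  φ := LinearEquiv.refl k _
  comm g a := by
    obtain ⟨t, rfl⟩ := (T.equivMapOfInjective P.subtype P.subtype_injective).surjective g
    rw [MulEquiv.symm_apply_apply]
    rfl

/-- Compatibility of `subSubPair` with restrictions: restricting from `G` to the image of `T`
is the same as restricting first to `P` and then to `T`. -/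
lemma subSubPair_cohIso_resSub (C : Rep.{0} k G) (P : Subgroup G) (T : Subgroup P) (n : ℕ)
    (x : groupCohomology C n) :
    ((subSubPair C P T).cohIso n).hom.hom ((resSub C (T.map P.subtype) n).hom x) =
      (resSub (Rep.res P.subtype C) T n).hom ((resSub C P n).hom x) := by
  have h : resSub C (T.map P.subtype) n ≫ ((subSubPair C P T).cohIso n).hom =
      resSub C P n ≫ resSub (Rep.res P.subtype C) T n := by
    rw [H43.PairEquiv.cohIso_hom]
    unfold resSub
    rw [← groupCohomology.map_comp, ← groupCohomology.map_comp]
    refine groupCohomology.map_congr ?_ ?_ n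
    · ext t
      rfl
    · rfl
  exact congrArg (fun f => f.hom x) h

lemma isPGroup_map_subtype {p : ℕ} (P : Subgroup G) (T : Subgroup P)
    (hT : IsPGroup p T) : IsPGroup p (T.map P.subtype) :=
  hT.of_equiv (T.equivMapOfInjective P.subtype P.subtype_injective)

lemma natCard_map_subtype (P : Subgroup G) (T : Subgroup P) :
    Nat.card (T.map P.subtype) = Nat.card T :=
  (Nat.card_congr (T.equivMapOfInjective P.subtype P.subtype_injective).toEquiv).symm

/-- A class module restricts to a class module on every subgroup. -/
theorem isClassModule_res {C : Rep.{0} k G} {γ : groupCohomology C 2}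
    (h : IsClassModule C γ) (P : Subgroup G) :
    IsClassModule (Rep.res P.subtype C) ((resSub C P 2).hom γ) where
  h1 T := by
    have := h.h1 (T.map P.subtype)
    exact (((subSubPair C P T).cohIso 1).symm.toLinearEquiv.toEquiv).subsingleton
  h2_gen T x := by
    obtain ⟨n, hn⟩ := h.h2_gen (T.map P.subtype) (((subSubPair C P T).cohIso 2).inv.hom x)
    refine ⟨n, ?_⟩
    rw [← subSubPair_cohIso_resSub, ← map_zsmul, ← hn]
    exact (congrArg (fun f => f.hom x) ((subSubPair C P T).cohIso 2).inv_hom_id).symm
  h2_order T := by
    rw [← subSubPair_cohIso_resSub, ← natCard_map_subtype P T, ← h.h2_order (T.map P.subtype)]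
    exact addOrderOf_injective
      (((subSubPair C P T).cohIso 2).toLinearEquiv.toLinearMap.toAddMonoidHom)
      ((subSubPair C P T).cohIso 2).toLinearEquiv.injective _

/-- A `p`-class module restricts to a `p`-class module on every subgroup. -/
theorem isPClassModule_res {p : ℕ} {C : Rep.{0} k G} {γ : groupCohomology C 2}
    (h : IsPClassModule p C γ) (P : Subgroup G) :
    IsPClassModule p (Rep.res P.subtype C) ((resSub C P 2).hom γ) where
  h1 T hT := by
    have := h.h1 (T.map P.subtype) (isPGroup_map_subtype P T hT)
    exact (((subSubPair C P T).cohIso 1).symm.toLinearEquiv.toEquiv).subsingleton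
  h2_gen T hT x := by
    obtain ⟨n, hn⟩ := h.h2_gen (T.map P.subtype) (isPGroup_map_subtype P T hT)
      (((subSubPair C P T).cohIso 2).inv.hom x)
    refine ⟨n, ?_⟩
    rw [← subSubPair_cohIso_resSub, ← map_zsmul, ← hn]
    exact (congrArg (fun f => f.hom x) ((subSubPair C P T).cohIso 2).inv_hom_id).symm
  h2_order T hT := by
    rw [← subSubPair_cohIso_resSub, ← natCard_map_subtype P T,
      ← h.h2_order (T.map P.subtype) (isPGroup_map_subtype P T hT)]
    exact addOrderOf_injective
      (((subSubPair C P T).cohIso 2).toLinearEquiv.toLinearMap.toAddMonoidHom)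
      ((subSubPair C P T).cohIso 2).toLinearEquiv.injective _

/-- On a `p`-group a `p`-class module is a class module. -/
theorem isClassModule_of_isPClassModule_of_isPGroup {p : ℕ} {C : Rep.{0} k G}
    {γ : groupCohomology C 2} (h : IsPClassModule p C γ) (hG : IsPGroup p G) :
    IsClassModule C γ where
  h1 H := h.h1 H (hG.to_subgroup H)
  h2_gen H := h.h2_gen H (hG.to_subgroup H)
  h2_order H := h.h2_order H (hG.to_subgroup H)

end ResClass

section Fundamental

variable {G : Type} [Group G]

/-- helper91's class modules satisfy the hypotheses of Tate's theorem (`H52_TateFinal`). -/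
theorem isFundamental_of_isClassModule (C : Rep.{0} ℤ G) (u : cocycles₂ C)
    (h : IsClassModule C (H2π C u)) : IsFundamental C u where
  h1 S := h.h1 S
  gen S x := by
    obtain ⟨n, hn⟩ := h.h2_gen S x
    rw [resSub_H2π] at hn
    rw [AddSubgroup.mem_zmultiples_iff]
    exact ⟨n, hn.symm⟩
  card S := by
    have htop : AddSubgroup.zmultiples ((resSub C S 2).hom (H2π C u)) = ⊤ := by
      rw [eq_top_iff]
      intro x _
      obtain ⟨n, hn⟩ := h.h2_gen S x
      rw [AddSubgroup.mem_zmultiples_iff]
      exact ⟨n, hn.symm⟩
    calc Nat.card (H2 (Rep.res S.subtype C))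
        = Nat.card (⊤ : AddSubgroup (H2 (Rep.res S.subtype C))) :=
          (Nat.card_congr AddSubgroup.topEquiv.toEquiv).symm
      _ = Nat.card (AddSubgroup.zmultiples ((resSub C S 2).hom (H2π C u))) := by rw [htop]
      _ = addOrderOf ((resSub C S 2).hom (H2π C u)) := Nat.card_zmultiples _
      _ = Nat.card S := h.h2_order S

/-- The `p`-version: a `p`-class module is fundamental on every `p`-subgroup. -/
theorem isFundamental_res_of_isPClassModule {p : ℕ} (C : Rep.{0} ℤ G) (u : cocycles₂ C)
    (h : IsPClassModule p C (H2π C u)) (P : Subgroup G) (hP : IsPGroup p P) :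
    IsFundamental (Rep.res P.subtype C) (resCocycle₂ C u P) := by
  apply isFundamental_of_isClassModule
  rw [← resSub_H2π]
  exact isClassModule_of_isPClassModule_of_isPGroup (isPClassModule_res h P) hP

end Fundamental

section Exports

variable {G : Type} [Group G] [Finite G]

omit [Finite G] in
/-- Every class in `H²` is the class of a cocycle. -/
lemma exists_H2π_eq {k : Type} [CommRing k] (C : Rep.{0} k G) (γ : groupCohomology C 2) :
    ∃ u : cocycles₂ C, H2π C u = γ :=
  H2_induction_on (C := fun γ => ∃ u : cocycles₂ C, H2π C u = γ) γ (fun u => ⟨u, rfl⟩)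

/-- For a class module, every subgroup carries a fundamental cocycle in the sense of
`H52_Tate`. -/
theorem exists_isFundamental_res_of_isClassModule (C : Rep.{0} ℤ G) (γ : groupCohomology C 2)
    (h : IsClassModule C γ) (H : Subgroup G) :
    ∃ v : cocycles₂ (Rep.res H.subtype C),
      H2π _ v = (resSub C H 2).hom γ ∧ IsFundamental (Rep.res H.subtype C) v := by
  obtain ⟨u, rfl⟩ := exists_H2π_eq C γ
  refine ⟨resCocycle₂ C u H, (resSub_H2π C u H).symm, ?_⟩
  apply isFundamental_of_isClassModule
  rw [← resSub_H2π]
  exact isClassModule_res h H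

/-- **Tate, `H³ = 0`** in helper91's vocabulary: for a class module `(C, γ)` of a finite group,
`H³(H, C) = 0` for every subgroup `H`. -/
theorem subsingleton_H3_of_isClassModule (C : Rep.{0} ℤ G) (γ : groupCohomology C 2)
    (h : IsClassModule C γ) (H : Subgroup G) :
    Subsingleton (groupCohomology (Rep.res H.subtype C) 3) := by
  obtain ⟨v, -, hv⟩ := exists_isFundamental_res_of_isClassModule C γ h H
  exact subsingleton_H3_of_isFundamental _ v hv

/-- **Tate's isomorphism** in helper91's vocabulary: for a class module `(C, γ)` of a finite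
group and every subgroup `H`, `Hⁿ(H, ℤ) ≅ Hⁿ⁺²(H, C)` for `n ≥ 1` (e.g. `H⁴(H, C) ≅ H²(H, ℤ)`). -/
theorem nonempty_tateIso_of_isClassModule (C : Rep.{0} ℤ G) (γ : groupCohomology C 2)
    (h : IsClassModule C γ) (H : Subgroup G) (n : ℕ) (hn : 1 ≤ n) :
    Nonempty (groupCohomology (Rep.trivial ℤ H ℤ) n ≅
      groupCohomology (Rep.res H.subtype C) (n + 2)) := by
  obtain ⟨v, -, hv⟩ := exists_isFundamental_res_of_isClassModule C γ h H
  exact ⟨tateIsoOfIsFundamental _ v hv n hn⟩

/-- For a `p`-class module `(C, γ)` of a finite group, `H³(P, C) = 0` for every `p`-subgroup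
`P`. -/
theorem subsingleton_H3_of_isPClassModule {p : ℕ} (C : Rep.{0} ℤ G) (γ : groupCohomology C 2)
    (h : IsPClassModule p C γ) (P : Subgroup G) (hP : IsPGroup p P) :
    Subsingleton (groupCohomology (Rep.res P.subtype C) 3) := by
  obtain ⟨u, rfl⟩ := exists_H2π_eq C γ
  exact subsingleton_H3_of_isFundamental _ _ (isFundamental_res_of_isPClassModule C u h P hP)

/-- For a `p`-class module of a finite group, `H³(G, C)` has no `p`-torsion. -/
theorem H3_pTorsionFree_of_isPClassModule {p : ℕ} [Fact p.Prime] (C : Rep.{0} ℤ G)
    (γ : groupCohomology C 2) (h : IsPClassModule p C γ) (x : groupCohomology C 3) (m : ℕ)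
    (hx : p ^ m • x = 0) : x = 0 := by
  obtain ⟨P⟩ : Nonempty (Sylow p G) := inferInstance
  have := subsingleton_H3_of_isPClassModule C γ h (P : Subgroup G) P.isPGroup'
  exact H66.eq_zero_of_map_sylow_eq_zero C 3 P x m hx (Subsingleton.elim _ _)

/-- For a `p`-class module of a finite group, `H¹(G, C)` has no `p`-torsion. -/
theorem H1_pTorsionFree_of_isPClassModule {p : ℕ} [Fact p.Prime] (C : Rep.{0} ℤ G)
    (γ : groupCohomology C 2) (h : IsPClassModule p C γ) (x : groupCohomology C 1) (m : ℕ)
    (hx : p ^ m • x = 0) : x = 0 := by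
  obtain ⟨P⟩ : Nonempty (Sylow p G) := inferInstance
  have := h.h1 (P : Subgroup G) P.isPGroup'
  exact H66.eq_zero_of_map_sylow_eq_zero C 1 P x m hx (Subsingleton.elim _ _)

/-- For a `p`-class module of a finite group, `H³(H, C)` has no `p`-torsion for EVERY subgroup
`H`. -/
theorem H3_pTorsionFree_res_of_isPClassModule {p : ℕ} [Fact p.Prime] (C : Rep.{0} ℤ G)
    (γ : groupCohomology C 2) (h : IsPClassModule p C γ) (H : Subgroup G)
    (x : groupCohomology (Rep.res H.subtype C) 3) (m : ℕ) (hx : p ^ m • x = 0) : x = 0 :=
  H3_pTorsionFree_of_isPClassModule _ _ (isPClassModule_res h H) x m hx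

/-- For a `p`-class module of a finite group, `H¹(H, C)` has no `p`-torsion for EVERY subgroup
`H`. -/
theorem H1_pTorsionFree_res_of_isPClassModule {p : ℕ} [Fact p.Prime] (C : Rep.{0} ℤ G)
    (γ : groupCohomology C 2) (h : IsPClassModule p C γ) (H : Subgroup G)
    (x : groupCohomology (Rep.res H.subtype C) 1) (m : ℕ) (hx : p ^ m • x = 0) : x = 0 :=
  H1_pTorsionFree_of_isPClassModule _ _ (isPClassModule_res h H) x m hx

end Exports

end Fermat.Agent.CFT.H52
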