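import Mathlib
import Fermat.Agent.CFT.H91_Formation

/-!
# CFT / Layer D0 / package D0-FINLEV : level cohomology is the colimit of finite-level cohomology

Setting: `𝓛 : LevelStructure H`, `A : Rep.{0} k H` discrete, `N` a NORMAL level.
Vocabulary: `Fermat/Agent/CFT/H55_LevelDefs.lean` (`𝓛.H1 A`, `𝓛.H2 A`, ...) and
`Fermat/Agent/CFT/H91_Formation.lean` (`invIncl`, `infLevel`).

* `infl₁ infl₂ infl₃` : inflation of cochains `Fun((H/N)^n, A^N) → Fun(H^n, A)` (Mathlib's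
  `cochainsMap_n (QuotientGroup.mk' N) _`), injective, commuting with `d` (`d₁₂_infl₁`, ...),
  with level-constant values (`isConst₁_infl₁`, ...).
* `exists_infl₁ exists_infl₂ exists_infl₃` : every level-constant cochain of a discrete module
  is inflated from a normal level (below any prescribed level).
* `infLev₁ N hN : H¹(H/N, A^N) →ₗ 𝓛.H1 A`, `infLev₂ N hN : H²(H/N, A^N) →ₗ 𝓛.H2 A`
  (`infLev₁_H1π`, `infLev₂_H2π` compute them on cocycles).
* (F2) `infLev₁_infLevel`, `infLev₂_infLevel` : compatibility with `infLevel`.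
* (F3) `exists_infLev₁_eq`, `exists_infLev₂_eq` : jointly surjective.
* (F4) `exists_infLevel_eq_zero₁`, `exists_infLevel_eq_zero₂` : injective in the colimit.
* (F5) `subsingleton_H1_of_finite_levels`, `subsingleton_H2_of_finite_levels`.
-/

set_option autoImplicit false
set_option linter.style.haveILetI false
set_option linter.unusedSectionVars false

noncomputable section

open CategoryTheory groupCohomology

namespace Fermat.Agent.CFT.H95

open Fermat.Agent.CFT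

variable {k : Type} [CommRing k] {H : Type} [Group H] (𝓛 : LevelStructure H)

/-! ### Basic facts on levels -/

section Basic

/-- a normal level below two given levels -/
theorem exists_normal_level_le {N₁ N₂ : Subgroup H} (h₁ : N₁ ∈ 𝓛.levels) (h₂ : N₂ ∈ 𝓛.levels) :
    ∃ N ∈ 𝓛.levels, N.Normal ∧ N ≤ N₁ ∧ N ≤ N₂ := by
  obtain ⟨N₃, h₃, hle⟩ := 𝓛.directed N₁ h₁ N₂ h₂
  obtain ⟨N, hN, hle', hnor⟩ := 𝓛.exists_normal N₃ h₃
  exact ⟨N, hN, hnor, hle'.trans (hle.trans inf_le_left), hle'.trans (hle.trans inf_le_right)⟩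

/-- a function on `H` which is right-invariant under a finite-index subgroup has finite range -/
theorem finite_range_of_invariant {X : Type*} (N : Subgroup H) [N.FiniteIndex] (f : H → X)
    (hf : ∀ g s, s ∈ N → f (g * s) = f g) : (Set.range f).Finite := by
  haveI : Finite (H ⧸ N) := Subgroup.finite_quotient_of_finiteIndex
  refine (Set.finite_range (fun q : H ⧸ N => f q.out)).subset ?_
  rintro _ ⟨g, rfl⟩
  refine ⟨(g : H ⧸ N), ?_⟩
  obtain ⟨s, hs⟩ := QuotientGroup.mk_out_eq_mul N g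
  simp only [hs]
  exact hf g s s.2

variable {𝓛}

theorem finite_range_of_isConst₁ {X : Type*} {f : H → X} (hf : 𝓛.IsConst₁ f) :
    (Set.range f).Finite := by
  obtain ⟨N, hN, h⟩ := hf
  haveI := 𝓛.finiteIndex N hN
  exact finite_range_of_invariant N f h

theorem finite_range_of_isConst₂ {X : Type*} {f : H × H → X} (hf : 𝓛.IsConst₂ f) :
    (Set.range f).Finite := by
  obtain ⟨N, hN, h⟩ := hf
  haveI := 𝓛.finiteIndex N hN
  haveI : Finite (H ⧸ N) := Subgroup.finite_quotient_of_finiteIndex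
  refine (Set.finite_range (fun q : (H ⧸ N) × (H ⧸ N) => f (q.1.out, q.2.out))).subset ?_
  rintro _ ⟨⟨g, g'⟩, rfl⟩
  refine ⟨((g : H ⧸ N), (g' : H ⧸ N)), ?_⟩
  obtain ⟨s, hs⟩ := QuotientGroup.mk_out_eq_mul N g
  obtain ⟨s', hs'⟩ := QuotientGroup.mk_out_eq_mul N g'
  simp only [hs, hs']
  exact h g g' s s' s.2 s'.2

theorem finite_range_of_isConst₃ {X : Type*} {f : H × H × H → X} (hf : 𝓛.IsConst₃ f) :
    (Set.range f).Finite := by
  obtain ⟨N, hN, h⟩ := hf
  haveI := 𝓛.finiteIndex N hN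
  haveI : Finite (H ⧸ N) := Subgroup.finite_quotient_of_finiteIndex
  refine (Set.finite_range
    (fun q : (H ⧸ N) × (H ⧸ N) × (H ⧸ N) => f (q.1.out, q.2.1.out, q.2.2.out))).subset ?_
  rintro _ ⟨⟨g, g', g''⟩, rfl⟩
  refine ⟨((g : H ⧸ N), (g' : H ⧸ N), (g'' : H ⧸ N)), ?_⟩
  obtain ⟨s, hs⟩ := QuotientGroup.mk_out_eq_mul N g
  obtain ⟨s', hs'⟩ := QuotientGroup.mk_out_eq_mul N g'
  obtain ⟨s'', hs''⟩ := QuotientGroup.mk_out_eq_mul N g''
  simp only [hs, hs', hs'']
  exact h g g' g'' s s' s'' s.2 s'.2 s''.2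

/-- In a discrete module, finitely many vectors are fixed by a common level. -/
theorem exists_level_fixing {A : Rep.{0} k H} (hA : 𝓛.IsDiscrete A) {S : Set A.V}
    (hS : S.Finite) : ∃ N ∈ 𝓛.levels, ∀ a ∈ S, ∀ n ∈ N, A.ρ n a = a := by
  induction S, hS using Set.Finite.induction_on with
  | empty =>
    obtain ⟨N, hN⟩ := 𝓛.nonempty
    exact ⟨N, hN, fun a ha => (Set.notMem_empty a ha).elim⟩
  | insert ha hS ih =>
    rename_i a S
    obtain ⟨N₁, hN₁, h₁⟩ := ih
    obtain ⟨N₂, hN₂, h₂⟩ := hA a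
    obtain ⟨N₃, h₃, hle⟩ := 𝓛.directed N₁ hN₁ N₂ hN₂
    refine ⟨N₃, h₃, fun b hb n hn => ?_⟩
    rcases Set.mem_insert_iff.1 hb with rfl | hb
    · exact h₂ n (hle hn).2
    · exact h₁ b hb n (hle hn).1


end Basic

/-! ### descending a linear map along a surjection -/

section Desc

variable {M P Q : Type*} [AddCommGroup M] [AddCommGroup P] [AddCommGroup Q] [Module k M]
  [Module k P] [Module k Q]

/-- descend a linear map along a surjective linear map -/
def descLin (π : M →ₗ[k] P) (hπ : Function.Surjective π) (φ : M →ₗ[k] Q)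
    (h : ∀ m, π m = 0 → φ m = 0) : P →ₗ[k] Q :=
  (LinearMap.ker π).liftQ φ (fun m hm => h m hm) ∘ₗ
    (π.quotKerEquivOfSurjective hπ).symm.toLinearMap

theorem descLin_apply (π : M →ₗ[k] P) (hπ : Function.Surjective π) (φ : M →ₗ[k] Q)
    (h : ∀ m, π m = 0 → φ m = 0) (m : M) : descLin π hπ φ h (π m) = φ m := by
  have : (π.quotKerEquivOfSurjective hπ).symm (π m) = Submodule.Quotient.mk m := by
    rw [LinearEquiv.symm_apply_eq]; rfl
  simp only [descLin, LinearMap.comp_apply, LinearEquiv.coe_coe, this]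
  rfl

end Desc


/-! ### Inflation of cochains from a finite level -/

section Infl

variable (A : Rep.{0} k H) (N : Subgroup H) [N.Normal]

abbrev inclInv : Rep.res (QuotientGroup.mk' N) (A.quotientToInvariants N) ⟶ A :=
  Rep.ofHom <| A.ρ.quotientToInvariants_lift N

abbrev infl₁ : ((H ⧸ N) → A.quotientToInvariants N) →ₗ[k] (H → A) :=
  (cochainsMap₁ (QuotientGroup.mk' N) (inclInv A N)).hom

abbrev infl₂ : ((H ⧸ N) × (H ⧸ N) → A.quotientToInvariants N) →ₗ[k] (H × H → A) :=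
  (cochainsMap₂ (QuotientGroup.mk' N) (inclInv A N)).hom

abbrev infl₃ :
    ((H ⧸ N) × (H ⧸ N) × (H ⧸ N) → A.quotientToInvariants N) →ₗ[k] (H × H × H → A) :=
  (cochainsMap₃ (QuotientGroup.mk' N) (inclInv A N)).hom

theorem infl₁_apply (x : (H ⧸ N) → A.quotientToInvariants N) (g : H) :
    infl₁ A N x g = (x (g : H ⧸ N)).1 := rfl

theorem infl₂_apply (x : (H ⧸ N) × (H ⧸ N) → A.quotientToInvariants N) (g g' : H) :
    infl₂ A N x (g, g') = (x ((g : H ⧸ N), (g' : H ⧸ N))).1 := rfl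

theorem infl₃_apply (x : (H ⧸ N) × (H ⧸ N) × (H ⧸ N) → A.quotientToInvariants N)
    (g g' g'' : H) :
    infl₃ A N x (g, g', g'') = (x ((g : H ⧸ N), (g' : H ⧸ N), (g'' : H ⧸ N))).1 := rfl

theorem infl₁_injective : Function.Injective (infl₁ A N) := by
  intro x y h
  funext q
  induction q using QuotientGroup.induction_on with
  | H g => exact Subtype.ext (congrFun h g)

theorem infl₂_injective : Function.Injective (infl₂ A N) := by
  intro x y h
  funext ⟨q, q'⟩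
  induction q using QuotientGroup.induction_on with
  | H g =>
    induction q' using QuotientGroup.induction_on with
    | H g' => exact Subtype.ext (congrFun h (g, g'))

theorem infl₃_injective : Function.Injective (infl₃ A N) := by
  intro x y h
  funext ⟨q, q', q''⟩
  induction q using QuotientGroup.induction_on with
  | H g =>
    induction q' using QuotientGroup.induction_on with
    | H g' =>
      induction q'' using QuotientGroup.induction_on with
      | H g'' => exact Subtype.ext (congrFun h (g, g', g''))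

theorem d₀₁_inclInv (a : A.quotientToInvariants N) :
    (d₀₁ A).hom a.1 = infl₁ A N ((d₀₁ (A.quotientToInvariants N)).hom a) := rfl

theorem d₁₂_infl₁ (x : (H ⧸ N) → A.quotientToInvariants N) :
    (d₁₂ A).hom (infl₁ A N x) = infl₂ A N ((d₁₂ (A.quotientToInvariants N)).hom x) := rfl

theorem d₂₃_infl₂ (x : (H ⧸ N) × (H ⧸ N) → A.quotientToInvariants N) :
    (d₂₃ A).hom (infl₂ A N x) = infl₃ A N ((d₂₃ (A.quotientToInvariants N)).hom x) := rfl


/-! ### level-constancy of inflated cochains -/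

variable {A N}

theorem mk_mul_of_mem (g : H) {s : H} (hs : s ∈ N) : ((g * s : H) : H ⧸ N) = (g : H ⧸ N) :=
  QuotientGroup.mk_mul_of_mem g hs

theorem isConst₁_infl₁ (hN : N ∈ 𝓛.levels) (x : (H ⧸ N) → A.quotientToInvariants N) :
    𝓛.IsConst₁ (infl₁ A N x) :=
  ⟨N, hN, fun g s hs => by rw [infl₁_apply, infl₁_apply, mk_mul_of_mem g hs]⟩

theorem isConst₂_infl₂ (hN : N ∈ 𝓛.levels)
    (x : (H ⧸ N) × (H ⧸ N) → A.quotientToInvariants N) : 𝓛.IsConst₂ (infl₂ A N x) :=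
  ⟨N, hN, fun g g' s s' hs hs' => by
    rw [infl₂_apply, infl₂_apply, mk_mul_of_mem g hs, mk_mul_of_mem g' hs']⟩

theorem isConst₃_infl₃ (hN : N ∈ 𝓛.levels)
    (x : (H ⧸ N) × (H ⧸ N) × (H ⧸ N) → A.quotientToInvariants N) :
    𝓛.IsConst₃ (infl₃ A N x) :=
  ⟨N, hN, fun g g' g'' s s' s'' hs hs' hs'' => by
    rw [infl₃_apply, infl₃_apply, mk_mul_of_mem g hs, mk_mul_of_mem g' hs',
      mk_mul_of_mem g'' hs'']⟩

/-! ### descent of cochains to a finite level -/

variable (A N)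

/-- a function with values in `A^N`, evaluated on representatives -/
def descend {X : Type} (f : X → A) (hval : ∀ x, ∀ n ∈ N, A.ρ n (f x) = f x) :
    X → A.quotientToInvariants N :=
  fun x => ⟨f x, fun n => hval x n.1 n.2⟩

theorem out_eq_mul (g : H) : ∃ s ∈ N, ((g : H ⧸ N)).out = g * s := by
  obtain ⟨s, hs⟩ := QuotientGroup.mk_out_eq_mul N g
  exact ⟨s.1, s.2, hs⟩

theorem exists_infl₁_eq (f : H → A) (hinv : ∀ g s, s ∈ N → f (g * s) = f g)
    (hval : ∀ g, ∀ n ∈ N, A.ρ n (f g) = f g) :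
    ∃ x : (H ⧸ N) → A.quotientToInvariants N, infl₁ A N x = f := by
  refine ⟨fun q => descend A N f hval q.out, ?_⟩
  funext g
  obtain ⟨s, hs, h⟩ := out_eq_mul N g
  rw [infl₁_apply]
  show f ((g : H ⧸ N)).out = f g
  rw [h, hinv g s hs]

theorem exists_infl₂_eq (f : H × H → A)
    (hinv : ∀ g g' s s', s ∈ N → s' ∈ N → f (g * s, g' * s') = f (g, g'))
    (hval : ∀ g, ∀ n ∈ N, A.ρ n (f g) = f g) :
    ∃ x : (H ⧸ N) × (H ⧸ N) → A.quotientToInvariants N, infl₂ A N x = f := by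
  refine ⟨fun q => descend A N f hval (q.1.out, q.2.out), ?_⟩
  funext ⟨g, g'⟩
  obtain ⟨s, hs, h⟩ := out_eq_mul N g
  obtain ⟨s', hs', h'⟩ := out_eq_mul N g'
  rw [infl₂_apply]
  show f (((g : H ⧸ N)).out, ((g' : H ⧸ N)).out) = f (g, g')
  rw [h, h', hinv g g' s s' hs hs']

theorem exists_infl₃_eq (f : H × H × H → A)
    (hinv : ∀ g g' g'' s s' s'', s ∈ N → s' ∈ N → s'' ∈ N →
      f (g * s, g' * s', g'' * s'') = f (g, g', g''))
    (hval : ∀ g, ∀ n ∈ N, A.ρ n (f g) = f g) :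
    ∃ x : (H ⧸ N) × (H ⧸ N) × (H ⧸ N) → A.quotientToInvariants N, infl₃ A N x = f := by
  refine ⟨fun q => descend A N f hval (q.1.out, q.2.1.out, q.2.2.out), ?_⟩
  funext ⟨g, g', g''⟩
  obtain ⟨s, hs, h⟩ := out_eq_mul N g
  obtain ⟨s', hs', h'⟩ := out_eq_mul N g'
  obtain ⟨s'', hs'', h''⟩ := out_eq_mul N g''
  rw [infl₃_apply]
  show f (((g : H ⧸ N)).out, ((g' : H ⧸ N)).out, ((g'' : H ⧸ N)).out) = f (g, g', g'')
  rw [h, h', h'', hinv g g' g'' s s' s'' hs hs' hs'']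

end Infl

/-! ### every level cochain of a discrete module comes from a finite level -/

section Descent

variable {𝓛} {A : Rep.{0} k H}

/-- a level-constant function with values in a discrete module: a normal level (below any given
level) under which it is invariant and which fixes all its values -/
theorem exists_level_of_finite_range (hA : 𝓛.IsDiscrete A) {X : Type*} (f : X → A)
    (hf : (Set.range f).Finite) {N₀ N₁ : Subgroup H} (h₀ : N₀ ∈ 𝓛.levels) (h₁ : N₁ ∈ 𝓛.levels) :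
    ∃ N ∈ 𝓛.levels, N.Normal ∧ N ≤ N₀ ∧ N ≤ N₁ ∧ ∀ x, ∀ n ∈ N, A.ρ n (f x) = f x := by
  obtain ⟨N₂, h₂, hfix⟩ := exists_level_fixing hA hf
  obtain ⟨N₃, h₃, _, h30, h31⟩ := exists_normal_level_le 𝓛 h₀ h₁
  obtain ⟨N, hN, hnor, hN3, hN2⟩ := exists_normal_level_le 𝓛 h₃ h₂
  exact ⟨N, hN, hnor, hN3.trans h30, hN3.trans h31,
    fun x n hn => hfix _ ⟨x, rfl⟩ n (hN2 hn)⟩

theorem exists_infl₁ (hA : 𝓛.IsDiscrete A) {f : H → A} (hf : 𝓛.IsConst₁ f) {N₀ : Subgroup H}
    (h₀ : N₀ ∈ 𝓛.levels) :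
    ∃ N ∈ 𝓛.levels, ∃ _ : N.Normal, N ≤ N₀ ∧
      ∃ x : (H ⧸ N) → A.quotientToInvariants N, infl₁ A N x = f := by
  obtain ⟨N₁, h₁, hinv⟩ := hf
  obtain ⟨N, hN, hnor, hle0, hle1, hval⟩ :=
    exists_level_of_finite_range hA f (finite_range_of_isConst₁ ⟨N₁, h₁, hinv⟩) h₀ h₁
  exact ⟨N, hN, hnor, hle0, exists_infl₁_eq A N f (fun g s hs => hinv g s (hle1 hs)) hval⟩

theorem exists_infl₂ (hA : 𝓛.IsDiscrete A) {f : H × H → A} (hf : 𝓛.IsConst₂ f)
    {N₀ : Subgroup H} (h₀ : N₀ ∈ 𝓛.levels) :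
    ∃ N ∈ 𝓛.levels, ∃ _ : N.Normal, N ≤ N₀ ∧
      ∃ x : (H ⧸ N) × (H ⧸ N) → A.quotientToInvariants N, infl₂ A N x = f := by
  obtain ⟨N₁, h₁, hinv⟩ := hf
  obtain ⟨N, hN, hnor, hle0, hle1, hval⟩ :=
    exists_level_of_finite_range hA f (finite_range_of_isConst₂ ⟨N₁, h₁, hinv⟩) h₀ h₁
  exact ⟨N, hN, hnor, hle0, exists_infl₂_eq A N f
    (fun g g' s s' hs hs' => hinv g g' s s' (hle1 hs) (hle1 hs')) hval⟩

theorem exists_infl₃ (hA : 𝓛.IsDiscrete A) {f : H × H × H → A} (hf : 𝓛.IsConst₃ f)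
    {N₀ : Subgroup H} (h₀ : N₀ ∈ 𝓛.levels) :
    ∃ N ∈ 𝓛.levels, ∃ _ : N.Normal, N ≤ N₀ ∧
      ∃ x : (H ⧸ N) × (H ⧸ N) × (H ⧸ N) → A.quotientToInvariants N, infl₃ A N x = f := by
  obtain ⟨N₁, h₁, hinv⟩ := hf
  obtain ⟨N, hN, hnor, hle0, hle1, hval⟩ :=
    exists_level_of_finite_range hA f (finite_range_of_isConst₃ ⟨N₁, h₁, hinv⟩) h₀ h₁
  exact ⟨N, hN, hnor, hle0, exists_infl₃_eq A N f
    (fun g g' g'' s s' s'' hs hs' hs'' => hinv g g' g'' s s' s'' (hle1 hs) (hle1 hs') (hle1 hs''))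
    hval⟩

end Descent


/-! ### Inflation from a finite level to level cohomology, degrees 1 and 2 -/

section InfLev

variable (A : Rep.{0} k H) (N : Subgroup H) [N.Normal] (hN : N ∈ 𝓛.levels)

def inflCocycles₁ : cocycles₁ (A.quotientToInvariants N) →ₗ[k] 𝓛.cocycles₁ A :=
  LinearMap.codRestrict (𝓛.cocycles₁ A) (infl₁ A N ∘ₗ (cocycles₁ _).subtype) fun c =>
    ⟨by
      show (d₁₂ A).hom (infl₁ A N c.1) = 0
      rw [d₁₂_infl₁, (LinearMap.mem_ker.1 c.2 : (d₁₂ _).hom c.1 = 0), map_zero],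
    isConst₁_infl₁ 𝓛 hN c.1⟩

def inflCocycles₂ : cocycles₂ (A.quotientToInvariants N) →ₗ[k] 𝓛.cocycles₂ A :=
  LinearMap.codRestrict (𝓛.cocycles₂ A) (infl₂ A N ∘ₗ (cocycles₂ _).subtype) fun c =>
    ⟨by
      show (d₂₃ A).hom (infl₂ A N c.1) = 0
      rw [d₂₃_infl₂, (LinearMap.mem_ker.1 c.2 : (d₂₃ _).hom c.1 = 0), map_zero],
    isConst₂_infl₂ 𝓛 hN c.1⟩

theorem inflCocycles₁_coe (c : cocycles₁ (A.quotientToInvariants N)) :
    (inflCocycles₁ 𝓛 A N hN c : H → A) = infl₁ A N c.1 := rfl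

theorem inflCocycles₂_coe (c : cocycles₂ (A.quotientToInvariants N)) :
    (inflCocycles₂ 𝓛 A N hN c : H × H → A) = infl₂ A N c.1 := rfl

theorem H1π_surjective {G : Type} [Group G] (X : Rep.{0} k G) :
    Function.Surjective (H1π X).hom :=
  (ModuleCat.epi_iff_surjective (H1π X)).1 inferInstance

theorem H2π_surjective {G : Type} [Group G] (X : Rep.{0} k G) :
    Function.Surjective (H2π X).hom :=
  (ModuleCat.epi_iff_surjective (H2π X)).1 inferInstance

def infLev₁ : groupCohomology (A.quotientToInvariants N) 1 →ₗ[k] 𝓛.H1 A :=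
  descLin (H1π (A.quotientToInvariants N)).hom (H1π_surjective _)
    (𝓛.H1π A ∘ₗ inflCocycles₁ 𝓛 A N hN) (fun c hc => by
      rw [H1π_eq_zero_iff] at hc
      obtain ⟨a, ha⟩ := hc
      rw [LinearMap.comp_apply, Submodule.mkQ_apply, Submodule.Quotient.mk_eq_zero,
        Submodule.mem_comap]
      refine ⟨a.1, ?_⟩
      show (d₀₁ A).hom a.1 = infl₁ A N c.1
      rw [d₀₁_inclInv]
      exact congrArg (infl₁ A N) ha)

theorem infLev₁_H1π (c : cocycles₁ (A.quotientToInvariants N)) :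
    infLev₁ 𝓛 A N hN ((H1π _).hom c) = 𝓛.H1π A (inflCocycles₁ 𝓛 A N hN c) :=
  descLin_apply _ _ _ _ c

def infLev₂ : groupCohomology (A.quotientToInvariants N) 2 →ₗ[k] 𝓛.H2 A :=
  descLin (H2π (A.quotientToInvariants N)).hom (H2π_surjective _)
    (𝓛.H2π A ∘ₗ inflCocycles₂ 𝓛 A N hN) (fun c hc => by
      rw [H2π_eq_zero_iff] at hc
      obtain ⟨b, hb⟩ := hc
      rw [LinearMap.comp_apply, Submodule.mkQ_apply, Submodule.Quotient.mk_eq_zero,
        Submodule.mem_comap]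
      refine ⟨infl₁ A N b, isConst₁_infl₁ 𝓛 hN b, ?_⟩
      show (d₁₂ A).hom (infl₁ A N b) = infl₂ A N c.1
      rw [d₁₂_infl₁]
      exact congrArg (infl₂ A N) hb)

theorem infLev₂_H2π (c : cocycles₂ (A.quotientToInvariants N)) :
    infLev₂ 𝓛 A N hN ((H2π _).hom c) = 𝓛.H2π A (inflCocycles₂ 𝓛 A N hN c) :=
  descLin_apply _ _ _ _ c

end InfLev

/-! ### transition maps and compatibility -/

section Trans

variable (A : Rep.{0} k H) (N N' : Subgroup H) [N.Normal] [N'.Normal] (h : N' ≤ N)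

/-- the transition homomorphism `H/N' → H/N` -/
abbrev qmap : H ⧸ N' →* H ⧸ N := QuotientGroup.map N' N (MonoidHom.id H) h

theorem infl₁_trans (x : (H ⧸ N) → A.quotientToInvariants N) :
    infl₁ A N' ((cochainsMap₁ (qmap N N' h) (invIncl A N N' h)).hom x) = infl₁ A N x := rfl

theorem infl₂_trans (x : (H ⧸ N) × (H ⧸ N) → A.quotientToInvariants N) :
    infl₂ A N' ((cochainsMap₂ (qmap N N' h) (invIncl A N N' h)).hom x) = infl₂ A N x := rfl

variable (hN : N ∈ 𝓛.levels) (hN' : N' ∈ 𝓛.levels)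

/-- (F2) compatibility of the inflations with the transition maps, degree 1 -/
theorem infLev₁_infLevel (y : groupCohomology (A.quotientToInvariants N) 1) :
    infLev₁ 𝓛 A N' hN' ((infLevel A N N' h 1).hom y) = infLev₁ 𝓛 A N hN y := by
  induction y using H1_induction_on with
  | h c =>
    have h1 : (infLevel A N N' h 1).hom ((H1π _).hom c) =
        (H1π _).hom ((mapCocycles₁ (qmap N N' h) (invIncl A N N' h)).hom c) :=
      congr($(H1π_comp_map (qmap N N' h) (invIncl A N N' h)) c)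
    change infLev₁ 𝓛 A N' hN' ((infLevel A N N' h 1).hom ((H1π _).hom c)) =
      infLev₁ 𝓛 A N hN ((H1π _).hom c)
    rw [h1, infLev₁_H1π, infLev₁_H1π]
    congr 1

/-- (F2) compatibility of the inflations with the transition maps, degree 2 -/
theorem infLev₂_infLevel (y : groupCohomology (A.quotientToInvariants N) 2) :
    infLev₂ 𝓛 A N' hN' ((infLevel A N N' h 2).hom y) = infLev₂ 𝓛 A N hN y := by
  induction y using H2_induction_on with
  | h c =>
    have h1 : (infLevel A N N' h 2).hom ((H2π _).hom c) =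
        (H2π _).hom ((mapCocycles₂ (qmap N N' h) (invIncl A N N' h)).hom c) :=
      congr($(H2π_comp_map (qmap N N' h) (invIncl A N N' h)) c)
    change infLev₂ 𝓛 A N' hN' ((infLevel A N N' h 2).hom ((H2π _).hom c)) =
      infLev₂ 𝓛 A N hN ((H2π _).hom c)
    rw [h1, infLev₂_H2π, infLev₂_H2π]
    congr 1

end Trans


/-! ### (F3) surjectivity and (F4) injectivity in the colimit, degrees 1 and 2 -/

section Colimit

variable {𝓛} {A : Rep.{0} k H}

/-- (F3), degree 1: every level class comes from a finite level (below any given level). -/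
theorem exists_infLev₁_eq (hA : 𝓛.IsDiscrete A) (x : 𝓛.H1 A) {N₀ : Subgroup H}
    (h₀ : N₀ ∈ 𝓛.levels) :
    ∃ (N : Subgroup H) (hN : N ∈ 𝓛.levels) (_ : N.Normal), N ≤ N₀ ∧
      ∃ y : groupCohomology (A.quotientToInvariants N) 1, infLev₁ 𝓛 A N hN y = x := by
  obtain ⟨c, rfl⟩ := Submodule.mkQ_surjective _ x
  obtain ⟨N, hN, hnor, hle, x', hx'⟩ := exists_infl₁ hA c.2.2 h₀
  have hcoc : x' ∈ cocycles₁ (A.quotientToInvariants N) := by
    apply infl₂_injective A N
    rw [← d₁₂_infl₁, hx', map_zero]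
    exact c.2.1
  refine ⟨N, hN, hnor, hle, (H1π _).hom ⟨x', hcoc⟩, ?_⟩
  rw [infLev₁_H1π]
  congr 1
  exact Subtype.ext hx'

/-- (F3), degree 2. -/
theorem exists_infLev₂_eq (hA : 𝓛.IsDiscrete A) (x : 𝓛.H2 A) {N₀ : Subgroup H}
    (h₀ : N₀ ∈ 𝓛.levels) :
    ∃ (N : Subgroup H) (hN : N ∈ 𝓛.levels) (_ : N.Normal), N ≤ N₀ ∧
      ∃ y : groupCohomology (A.quotientToInvariants N) 2, infLev₂ 𝓛 A N hN y = x := by
  obtain ⟨c, rfl⟩ := Submodule.mkQ_surjective _ x
  obtain ⟨N, hN, hnor, hle, x', hx'⟩ := exists_infl₂ hA c.2.2 h₀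
  have hcoc : x' ∈ cocycles₂ (A.quotientToInvariants N) := by
    apply infl₃_injective A N
    rw [← d₂₃_infl₂, hx', map_zero]
    exact c.2.1
  refine ⟨N, hN, hnor, hle, (H2π _).hom ⟨x', hcoc⟩, ?_⟩
  rw [infLev₂_H2π]
  congr 1
  exact Subtype.ext hx'

/-- (F4), degree 1: a class of finite level dying in level cohomology dies at a finite level. -/
theorem exists_infLevel_eq_zero₁ (hA : 𝓛.IsDiscrete A) {N : Subgroup H} [N.Normal]
    (hN : N ∈ 𝓛.levels) (y : groupCohomology (A.quotientToInvariants N) 1)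
    (hy : infLev₁ 𝓛 A N hN y = 0) :
    ∃ (N' : Subgroup H) (_ : N' ∈ 𝓛.levels) (_ : N'.Normal) (h : N' ≤ N),
      (infLevel A N N' h 1).hom y = 0 := by
  induction y using H1_induction_on with
  | h c =>
    change infLev₁ 𝓛 A N hN ((H1π _).hom c) = 0 at hy
    rw [infLev₁_H1π, Submodule.mkQ_apply, Submodule.Quotient.mk_eq_zero,
      Submodule.mem_comap] at hy
    obtain ⟨a, ha⟩ := hy
    obtain ⟨N₁, h₁, hfix⟩ := hA a
    obtain ⟨N', hN', hnor, hle, hle₁⟩ := exists_normal_level_le 𝓛 hN h₁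
    refine ⟨N', hN', hnor, hle, ?_⟩
    have h1 : (infLevel A N N' hle 1).hom ((H1π _).hom c) =
        (H1π _).hom ((mapCocycles₁ (qmap N N' hle) (invIncl A N N' hle)).hom c) :=
      congr($(H1π_comp_map (qmap N N' hle) (invIncl A N N' hle)) c)
    change (infLevel A N N' hle 1).hom ((H1π _).hom c) = 0
    rw [h1]
    apply (H1π_eq_zero_iff _).2
    refine ⟨⟨a, fun n => hfix n.1 (hle₁ n.2)⟩, ?_⟩
    apply infl₁_injective A N'
    rw [← d₀₁_inclInv]
    exact ha

/-- (F4), degree 2. -/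
theorem exists_infLevel_eq_zero₂ (hA : 𝓛.IsDiscrete A) {N : Subgroup H} [N.Normal]
    (hN : N ∈ 𝓛.levels) (y : groupCohomology (A.quotientToInvariants N) 2)
    (hy : infLev₂ 𝓛 A N hN y = 0) :
    ∃ (N' : Subgroup H) (_ : N' ∈ 𝓛.levels) (_ : N'.Normal) (h : N' ≤ N),
      (infLevel A N N' h 2).hom y = 0 := by
  induction y using H2_induction_on with
  | h c =>
    change infLev₂ 𝓛 A N hN ((H2π _).hom c) = 0 at hy
    rw [infLev₂_H2π, Submodule.mkQ_apply, Submodule.Quotient.mk_eq_zero,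
      Submodule.mem_comap] at hy
    obtain ⟨b, hb, hbc⟩ := hy
    obtain ⟨N', hN', hnor, hle, b', hb'⟩ := exists_infl₁ hA hb hN
    refine ⟨N', hN', hnor, hle, ?_⟩
    have h1 : (infLevel A N N' hle 2).hom ((H2π _).hom c) =
        (H2π _).hom ((mapCocycles₂ (qmap N N' hle) (invIncl A N N' hle)).hom c) :=
      congr($(H2π_comp_map (qmap N N' hle) (invIncl A N N' hle)) c)
    change (infLevel A N N' hle 2).hom ((H2π _).hom c) = 0
    rw [h1]
    apply (H2π_eq_zero_iff _).2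
    refine ⟨b', ?_⟩
    apply infl₂_injective A N'
    rw [← d₁₂_infl₁, hb']
    exact hbc

/-- (F5), degree 1: if `H¹` vanishes at all (small enough) finite levels, so does level `H¹`. -/
theorem subsingleton_H1_of_finite_levels (hA : 𝓛.IsDiscrete A) {N₀ : Subgroup H}
    (h₀ : N₀ ∈ 𝓛.levels)
    (h : ∀ (N : Subgroup H) (_ : N ∈ 𝓛.levels) (_ : N.Normal), N ≤ N₀ →
      Subsingleton (groupCohomology (A.quotientToInvariants N) 1)) :
    Subsingleton (𝓛.H1 A) := by
  refine ⟨fun x x' => ?_⟩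
  obtain ⟨N, hN, hnor, hle, y, rfl⟩ := exists_infLev₁_eq hA x h₀
  obtain ⟨N', hN', hnor', hle', y', rfl⟩ := exists_infLev₁_eq hA x' h₀
  haveI := h N hN hnor hle
  haveI := h N' hN' hnor' hle'
  rw [Subsingleton.elim y 0, Subsingleton.elim y' 0, map_zero, map_zero]

/-- (F5), degree 2. -/
theorem subsingleton_H2_of_finite_levels (hA : 𝓛.IsDiscrete A) {N₀ : Subgroup H}
    (h₀ : N₀ ∈ 𝓛.levels)
    (h : ∀ (N : Subgroup H) (_ : N ∈ 𝓛.levels) (_ : N.Normal), N ≤ N₀ →
      Subsingleton (groupCohomology (A.quotientToInvariants N) 2)) :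
    Subsingleton (𝓛.H2 A) := by
  refine ⟨fun x x' => ?_⟩
  obtain ⟨N, hN, hnor, hle, y, rfl⟩ := exists_infLev₂_eq hA x h₀
  obtain ⟨N', hN', hnor', hle', y', rfl⟩ := exists_infLev₂_eq hA x' h₀
  haveI := h N hN hnor hle
  haveI := h N' hN' hnor' hle'
  rw [Subsingleton.elim y 0, Subsingleton.elim y' 0, map_zero, map_zero]

end Colimit

end Fermat.Agent.CFT.H95

end
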