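import Mathlib
import Fermat.Agent.CFT.H55_LevelDefs

/-!
# Low-degree API for `H³(G, A)` (Mathlib stops at `H²`)

For `A : Rep.{0} k G`:
* `cochainsIso₄`, `comp_d₃₄_eq` : the differential `C³ → C⁴` of the inhomogeneous cochain complex
  is `LevelStructure.d₃₄ A` (the explicit formula of `H55_LevelDefs`).
* `cocycles₃ A = ker d₃₄`, `coboundaries₃ A = range d₂₃`,
  `H3π A : cocycles₃ A ⟶ groupCohomology A 3`, `H3π_surjective`, `H3π_eq_zero_iff`.
* `mapCocycles₃ f φ`, `map_H3π` : functoriality (`groupCohomology.map f φ 3` on explicit cocycles).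
-/

set_option autoImplicit false

noncomputable section

open CategoryTheory groupCohomology

namespace Fermat.Agent.CFT.H95

open Fermat.Agent.CFT

variable {k : Type} [CommRing k] {G : Type} [Group G] (A : Rep.{0} k G)

/-- The 4th object in the complex of inhomogeneous cochains of `A : Rep k G` is isomorphic
to `Fun(G⁴, A)` as a `k`-module. -/
def cochainsIso₄ : (inhomogeneousCochains A).X 4 ≅ ModuleCat.of k (G × G × G × G → A) :=
  (LinearEquiv.funCongrLeft k A <| ((Fin.consEquiv _).symm.trans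
    ((Equiv.refl G).prodCongr ((Fin.consEquiv _).symm.trans
      ((Equiv.refl G).prodCongr (piFinTwoEquiv fun _ => G)))))).toModuleIso.symm

theorem comp_d₃₄_eq :
    (cochainsIso₃ A).hom ≫ ModuleCat.ofHom (LevelStructure.d₃₄ A) =
      (inhomogeneousCochains A).d 3 4 ≫ (cochainsIso₄ A).hom := by
  ext x y
  change A.ρ y.1 (x _) - x _ + x _ - x _ + x _ = _ + _
  dsimp
  rw [Fin.sum_univ_four]
  have h4 : ((-1 : k) ^ (((3 : Fin 4) : ℕ) + 1)) = 1 := by
    show (-1 : k) ^ 4 = 1
    norm_num
  simp only [sub_eq_add_neg, add_assoc, Fin.val_zero, zero_add, pow_one, neg_smul,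
    one_smul, Fin.val_one, Fin.val_two, pow_succ' (-1 : k) 2, neg_sq,
    Nat.one_add, one_pow, mul_one, h4]
  rcongr i <;> fin_cases i <;> rfl

/-- `3`-cocycles: the kernel of `d₃₄`. -/
def cocycles₃ : Submodule k (G × G × G → A) := LinearMap.ker (LevelStructure.d₃₄ A)

/-- `3`-coboundaries: the range of `d₂₃`. -/
def coboundaries₃ : Submodule k (G × G × G → A) := LinearMap.range (d₂₃ A).hom

theorem eq_d₃₄_comp_inv :
    (cochainsIso₃ A).inv ≫ (inhomogeneousCochains A).d 3 4 =
      ModuleCat.ofHom (LevelStructure.d₃₄ A) ≫ (cochainsIso₄ A).inv :=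
  (CommSq.horiz_inv ⟨comp_d₃₄_eq A⟩).w

/-- the map from explicit `3`-cocycles to the abstract `3`-cocycles -/
def toCocycles₃ : ModuleCat.of k (cocycles₃ A) ⟶ cocycles A 3 :=
  (inhomogeneousCochains A).liftCycles
    (ModuleCat.ofHom (cocycles₃ A).subtype ≫ (cochainsIso₃ A).inv) 4 (by simp) (by
      rw [Category.assoc, eq_d₃₄_comp_inv, ← Category.assoc]
      have : ModuleCat.ofHom (cocycles₃ A).subtype ≫ ModuleCat.ofHom (LevelStructure.d₃₄ A) = 0 := by
        refine ModuleCat.hom_ext (LinearMap.ext fun c => ?_)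
        exact c.2
      rw [this, Limits.zero_comp])

theorem toCocycles₃_comp_i :
    toCocycles₃ A ≫ iCocycles A 3 =
      ModuleCat.ofHom (cocycles₃ A).subtype ≫ (cochainsIso₃ A).inv :=
  (inhomogeneousCochains A).liftCycles_i _ _ _ _

/-- The quotient map from the explicit `3`-cocycles to `H³(G, A)`. -/
def H3π : ModuleCat.of k (cocycles₃ A) ⟶ groupCohomology A 3 :=
  toCocycles₃ A ≫ π A 3


theorem toCocycles₃_apply_i (c : cocycles₃ A) :
    (iCocycles A 3).hom ((toCocycles₃ A).hom c) = (cochainsIso₃ A).inv.hom c.1 :=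
  congr($(toCocycles₃_comp_i A) c)

theorem iCocycles_injective (n : ℕ) : Function.Injective (iCocycles A n).hom :=
  (ModuleCat.mono_iff_injective (iCocycles A n)).1 inferInstance

/-- every abstract `3`-cocycle comes from an explicit one -/
theorem toCocycles₃_surjective : Function.Surjective (toCocycles₃ A).hom := by
  intro z
  have hz : (LevelStructure.d₃₄ A) ((cochainsIso₃ A).hom.hom ((iCocycles A 3).hom z)) = 0 := by
    have h1 := congr($(comp_d₃₄_eq A) ((iCocycles A 3).hom z))
    rw [ConcreteCategory.comp_apply, ConcreteCategory.comp_apply] at h1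
    have h2 : ((inhomogeneousCochains A).d 3 4).hom ((iCocycles A 3).hom z) = 0 :=
      congr($((inhomogeneousCochains A).iCycles_d 3 4) z)
    change (LevelStructure.d₃₄ A) _ = _ at h1
    rw [h1]
    change (cochainsIso₄ A).hom.hom (((inhomogeneousCochains A).d 3 4).hom _) = 0
    rw [h2, map_zero]
  refine ⟨⟨_, hz⟩, ?_⟩
  apply iCocycles_injective A 3
  rw [toCocycles₃_apply_i]
  exact congr($((cochainsIso₃ A).hom_inv_id) ((iCocycles A 3).hom z))

theorem H3π_surjective : Function.Surjective (H3π A).hom := by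
  intro y
  induction y using groupCohomology_induction_on with
  | h z =>
    obtain ⟨c, rfl⟩ := toCocycles₃_surjective A z
    exact ⟨c, rfl⟩


theorem exact_toCocycles_π :
    (ShortComplex.mk (toCocycles A 2 3) (π A 3)
      ((inhomogeneousCochains A).toCycles_comp_homologyπ 2 3)).Exact :=
  ShortComplex.exact_of_g_is_cokernel _
    ((inhomogeneousCochains A).homologyIsCokernel 2 3 (by simp))

theorem H3π_eq_zero_iff (c : cocycles₃ A) :
    (H3π A).hom c = 0 ↔ c.1 ∈ coboundaries₃ A := by
  constructor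
  · intro h
    obtain ⟨y, hy⟩ := (ShortComplex.moduleCat_exact_iff _).1 (exact_toCocycles_π A)
      ((toCocycles₃ A).hom c) h
    change (toCocycles A 2 3).hom y = (toCocycles₃ A).hom c at hy
    refine ⟨(cochainsIso₂ A).hom.hom y, ?_⟩
    have h1 := congr($(comp_d₂₃_eq A) y)
    rw [ConcreteCategory.comp_apply, ConcreteCategory.comp_apply] at h1
    have h2 : (iCocycles A 3).hom ((toCocycles A 2 3).hom y) =
        ((inhomogeneousCochains A).d 2 3).hom y :=
      congr($((inhomogeneousCochains A).toCycles_i 2 3) y)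
    rw [hy, toCocycles₃_apply_i] at h2
    change (d₂₃ A).hom _ = _ at h1
    rw [h1]
    change (cochainsIso₃ A).hom.hom (((inhomogeneousCochains A).d 2 3).hom y) = c.1
    rw [← h2]
    exact congr($((cochainsIso₃ A).inv_hom_id) c.1)
  · rintro ⟨b, hb⟩
    have h1 : (toCocycles₃ A).hom c = (toCocycles A 2 3).hom ((cochainsIso₂ A).inv.hom b) := by
      apply iCocycles_injective A 3
      rw [toCocycles₃_apply_i]
      have h2 : (iCocycles A 3).hom ((toCocycles A 2 3).hom ((cochainsIso₂ A).inv.hom b)) =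
          ((inhomogeneousCochains A).d 2 3).hom ((cochainsIso₂ A).inv.hom b) :=
        congr($((inhomogeneousCochains A).toCycles_i 2 3) ((cochainsIso₂ A).inv.hom b))
      rw [h2, ← hb]
      have h3 := congr($(eq_d₂₃_comp_inv A) b)
      rw [ConcreteCategory.comp_apply, ConcreteCategory.comp_apply] at h3
      exact h3.symm
    change (π A 3).hom ((toCocycles₃ A).hom c) = 0
    rw [h1]
    exact congr($((inhomogeneousCochains A).toCycles_comp_homologyπ 2 3) _)


/-! ### functoriality of `H3π` -/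

section Functoriality

variable {G' : Type} [Group G'] {A} {B : Rep.{0} k G'} (f : G' →* G) (φ : Rep.res f A ⟶ B)

/-- the induced map on `4`-cochains -/
abbrev cochainsMap₄' :
    ModuleCat.of k (G × G × G × G → A) ⟶ ModuleCat.of k (G' × G' × G' × G' → B) :=
  ModuleCat.ofHom <| φ.hom.toLinearMap.compLeft (G' × G' × G' × G') ∘ₗ
    LinearMap.funLeft k A (Prod.map f (Prod.map f (Prod.map f f)))

theorem d₃₄_cochainsMap₃ (x : G × G × G → A) :
    LevelStructure.d₃₄ B ((cochainsMap₃ f φ).hom x) =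
      (cochainsMap₄' f φ).hom (LevelStructure.d₃₄ A x) := by
  funext ⟨g1, g2, g3, g4⟩
  have h := Rep.hom_comm_apply φ g1 (x (f g2, f g3, f g4))
  change φ.hom (A.ρ (f g1) (x (f g2, f g3, f g4))) = B.ρ g1 (φ.hom (x (f g2, f g3, f g4))) at h
  show B.ρ g1 (φ.hom (x (f g2, f g3, f g4))) - φ.hom (x (f (g1 * g2), f g3, f g4))
      + φ.hom (x (f g1, f (g2 * g3), f g4)) - φ.hom (x (f g1, f g2, f (g3 * g4)))
      + φ.hom (x (f g1, f g2, f g3)) =
    φ.hom (A.ρ (f g1) (x (f g2, f g3, f g4)) - x (f g1 * f g2, f g3, f g4)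
      + x (f g1, f g2 * f g3, f g4) - x (f g1, f g2, f g3 * f g4) + x (f g1, f g2, f g3))
  rw [map_add, map_sub, map_add, map_sub, h, map_mul, map_mul, map_mul]

/-- the induced map on explicit `3`-cocycles -/
def mapCocycles₃ : cocycles₃ A →ₗ[k] cocycles₃ B :=
  LinearMap.codRestrict (cocycles₃ B) ((cochainsMap₃ f φ).hom ∘ₗ (cocycles₃ A).subtype) fun c => by
    show LevelStructure.d₃₄ B ((cochainsMap₃ f φ).hom c.1) = 0
    rw [d₃₄_cochainsMap₃, (LinearMap.mem_ker.1 c.2 : LevelStructure.d₃₄ A c.1 = 0), map_zero]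

theorem mapCocycles₃_coe (c : cocycles₃ A) :
    (mapCocycles₃ f φ c).1 = (cochainsMap₃ f φ).hom c.1 := rfl

theorem toCocycles₃_comp_cocyclesMap :
    toCocycles₃ A ≫ cocyclesMap f φ 3 =
      ModuleCat.ofHom (mapCocycles₃ f φ) ≫ toCocycles₃ B := by
  rw [← cancel_mono (iCocycles B 3), Category.assoc, Category.assoc, toCocycles₃_comp_i,
    HomologicalComplex.cyclesMap_i, ← Category.assoc, toCocycles₃_comp_i]
  refine ModuleCat.hom_ext (LinearMap.ext fun c => ?_)
  have h := congr($(cochainsMap_f_3_comp_cochainsIso₃ f φ) ((cochainsIso₃ A).inv.hom c.1))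
  rw [ConcreteCategory.comp_apply, ConcreteCategory.comp_apply] at h
  have h' : (cochainsIso₃ A).hom.hom ((cochainsIso₃ A).inv.hom c.1) = c.1 :=
    congr($((cochainsIso₃ A).inv_hom_id) c.1)
  rw [h'] at h
  have h2 := congr((cochainsIso₃ B).inv.hom $h)
  have h3 : ∀ z, (cochainsIso₃ B).inv.hom ((cochainsIso₃ B).hom.hom z) = z := fun z =>
    congr($((cochainsIso₃ B).hom_inv_id) z)
  rw [h3] at h2
  exact h2

theorem map_H3π (c : cocycles₃ A) :
    (map f φ 3).hom ((H3π A).hom c) = (H3π B).hom (mapCocycles₃ f φ c) := by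
  have h1 := congr($(π_map f φ 3) ((toCocycles₃ A).hom c))
  rw [ConcreteCategory.comp_apply, ConcreteCategory.comp_apply] at h1
  have h2 := congr($(toCocycles₃_comp_cocyclesMap f φ) c)
  rw [ConcreteCategory.comp_apply, ConcreteCategory.comp_apply] at h2
  change (map f φ 3).hom ((π A 3).hom ((toCocycles₃ A).hom c)) = _
  rw [h1, h2]
  rfl

end Functoriality

end Fermat.Agent.CFT.H95

end
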