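import Mathlib
import Fermat.Agent.CFT.H95_FinLev
import Fermat.Agent.CFT.H95_H3

/-!
# CFT / D0-FINLEV, degree 3 : level `H³` is the colimit of the finite-level `H³`

Same statements as `H95_FinLev` in degree `3`, using the explicit `H³` API of `H95_H3`.
-/

set_option autoImplicit false
set_option linter.style.haveILetI false
set_option linter.unusedSectionVars false

noncomputable section

open CategoryTheory groupCohomology

namespace Fermat.Agent.CFT.H95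

open Fermat.Agent.CFT

variable {k : Type} [CommRing k] {H : Type} [Group H] (𝓛 : LevelStructure H)

section Infl4

variable (A : Rep.{0} k H) (N : Subgroup H) [N.Normal]

/-- inflation of `4`-cochains -/
abbrev infl₄ :
    ((H ⧸ N) × (H ⧸ N) × (H ⧸ N) × (H ⧸ N) → A.quotientToInvariants N) →ₗ[k]
      (H × H × H × H → A) :=
  (cochainsMap₄' (QuotientGroup.mk' N) (inclInv A N)).hom

theorem infl₄_apply
    (x : (H ⧸ N) × (H ⧸ N) × (H ⧸ N) × (H ⧸ N) → A.quotientToInvariants N)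
    (g g' g'' g''' : H) :
    infl₄ A N x (g, g', g'', g''') =
      (x ((g : H ⧸ N), (g' : H ⧸ N), (g'' : H ⧸ N), (g''' : H ⧸ N))).1 := rfl

theorem infl₄_injective : Function.Injective (infl₄ A N) := by
  intro x y h
  funext ⟨q, q', q'', q'''⟩
  induction q using QuotientGroup.induction_on with
  | H g =>
    induction q' using QuotientGroup.induction_on with
    | H g' =>
      induction q'' using QuotientGroup.induction_on with
      | H g'' =>
        induction q''' using QuotientGroup.induction_on with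
        | H g''' => exact Subtype.ext (congrFun h (g, g', g'', g'''))

theorem d₃₄_infl₃ (x : (H ⧸ N) × (H ⧸ N) × (H ⧸ N) → A.quotientToInvariants N) :
    LevelStructure.d₃₄ A (infl₃ A N x) =
      infl₄ A N (LevelStructure.d₃₄ (A.quotientToInvariants N) x) :=
  d₃₄_cochainsMap₃ (QuotientGroup.mk' N) (inclInv A N) x

end Infl4

section InfLev3

variable (A : Rep.{0} k H) (N : Subgroup H) [N.Normal] (hN : N ∈ 𝓛.levels)

/-- inflation `Z³(H/N, A^N) → Z³_lev(H, A)` -/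
def inflCocycles₃ : cocycles₃ (A.quotientToInvariants N) →ₗ[k] 𝓛.cocycles₃ A :=
  LinearMap.codRestrict (𝓛.cocycles₃ A) (infl₃ A N ∘ₗ (cocycles₃ _).subtype) fun c =>
    ⟨by
      show LevelStructure.d₃₄ A (infl₃ A N c.1) = 0
      rw [d₃₄_infl₃, (LinearMap.mem_ker.1 c.2 : LevelStructure.d₃₄ _ c.1 = 0), map_zero],
    isConst₃_infl₃ 𝓛 hN c.1⟩

theorem inflCocycles₃_coe (c : cocycles₃ (A.quotientToInvariants N)) :
    (inflCocycles₃ 𝓛 A N hN c : H × H × H → A) = infl₃ A N c.1 := rfl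

/-- **inflation** `H³(H/N, A^N) → H³_lev(H, A)` -/
def infLev₃ : groupCohomology (A.quotientToInvariants N) 3 →ₗ[k] 𝓛.H3 A :=
  descLin (H3π (A.quotientToInvariants N)).hom (H3π_surjective _)
    (𝓛.H3π A ∘ₗ inflCocycles₃ 𝓛 A N hN) (fun c hc => by
      rw [H3π_eq_zero_iff] at hc
      obtain ⟨b, hb⟩ := hc
      rw [LinearMap.comp_apply, Submodule.mkQ_apply, Submodule.Quotient.mk_eq_zero,
        Submodule.mem_comap]
      refine ⟨infl₂ A N b, isConst₂_infl₂ 𝓛 hN b, ?_⟩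
      show (d₂₃ A).hom (infl₂ A N b) = infl₃ A N c.1
      rw [d₂₃_infl₂]
      exact congrArg (infl₃ A N) hb)

theorem infLev₃_H3π (c : cocycles₃ (A.quotientToInvariants N)) :
    infLev₃ 𝓛 A N hN ((H3π _).hom c) = 𝓛.H3π A (inflCocycles₃ 𝓛 A N hN c) :=
  descLin_apply _ _ _ _ c

end InfLev3

section Trans3

variable (A : Rep.{0} k H) (N N' : Subgroup H) [N.Normal] [N'.Normal] (h : N' ≤ N)

theorem infl₃_trans (x : (H ⧸ N) × (H ⧸ N) × (H ⧸ N) → A.quotientToInvariants N) :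
    infl₃ A N' ((cochainsMap₃ (qmap N N' h) (invIncl A N N' h)).hom x) = infl₃ A N x := rfl

variable (hN : N ∈ 𝓛.levels) (hN' : N' ∈ 𝓛.levels)

/-- (F2), degree 3 -/
theorem infLev₃_infLevel (y : groupCohomology (A.quotientToInvariants N) 3) :
    infLev₃ 𝓛 A N' hN' ((infLevel A N N' h 3).hom y) = infLev₃ 𝓛 A N hN y := by
  obtain ⟨c, rfl⟩ := H3π_surjective _ y
  have h1 : (infLevel A N N' h 3).hom ((H3π _).hom c) =
      (H3π _).hom (mapCocycles₃ (qmap N N' h) (invIncl A N N' h) c) :=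
    map_H3π (qmap N N' h) (invIncl A N N' h) c
  rw [h1, infLev₃_H3π, infLev₃_H3π]
  congr 1

end Trans3

section Colimit3

variable {𝓛} {A : Rep.{0} k H}

/-- (F3), degree 3. -/
theorem exists_infLev₃_eq (hA : 𝓛.IsDiscrete A) (x : 𝓛.H3 A) {N₀ : Subgroup H}
    (h₀ : N₀ ∈ 𝓛.levels) :
    ∃ (N : Subgroup H) (hN : N ∈ 𝓛.levels) (_ : N.Normal), N ≤ N₀ ∧
      ∃ y : groupCohomology (A.quotientToInvariants N) 3, infLev₃ 𝓛 A N hN y = x := by
  obtain ⟨c, rfl⟩ := Submodule.mkQ_surjective _ x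
  obtain ⟨N, hN, hnor, hle, x', hx'⟩ := exists_infl₃ hA c.2.2 h₀
  have hcoc : x' ∈ cocycles₃ (A.quotientToInvariants N) := by
    apply infl₄_injective A N
    rw [← d₃₄_infl₃, hx', map_zero]
    exact c.2.1
  refine ⟨N, hN, hnor, hle, (H3π _).hom ⟨x', hcoc⟩, ?_⟩
  rw [infLev₃_H3π]
  congr 1
  exact Subtype.ext hx'

/-- (F4), degree 3. -/
theorem exists_infLevel_eq_zero₃ (hA : 𝓛.IsDiscrete A) {N : Subgroup H} [N.Normal]
    (hN : N ∈ 𝓛.levels) (y : groupCohomology (A.quotientToInvariants N) 3)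
    (hy : infLev₃ 𝓛 A N hN y = 0) :
    ∃ (N' : Subgroup H) (_ : N' ∈ 𝓛.levels) (_ : N'.Normal) (h : N' ≤ N),
      (infLevel A N N' h 3).hom y = 0 := by
  obtain ⟨c, rfl⟩ := H3π_surjective _ y
  rw [infLev₃_H3π, Submodule.mkQ_apply, Submodule.Quotient.mk_eq_zero,
    Submodule.mem_comap] at hy
  obtain ⟨b, hb, hbc⟩ := hy
  obtain ⟨N', hN', hnor, hle, b', hb'⟩ := exists_infl₂ hA hb hN
  refine ⟨N', hN', hnor, hle, ?_⟩
  have h1 : (infLevel A N N' hle 3).hom ((H3π _).hom c) =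
      (H3π _).hom (mapCocycles₃ (qmap N N' hle) (invIncl A N N' hle) c) :=
    map_H3π (qmap N N' hle) (invIncl A N N' hle) c
  rw [h1]
  apply (H3π_eq_zero_iff _ _).2
  refine ⟨b', ?_⟩
  apply infl₃_injective A N'
  rw [← d₂₃_infl₂, hb']
  exact hbc

/-- (F5), degree 3. -/
theorem subsingleton_H3_of_finite_levels (hA : 𝓛.IsDiscrete A) {N₀ : Subgroup H}
    (h₀ : N₀ ∈ 𝓛.levels)
    (h : ∀ (N : Subgroup H) (_ : N ∈ 𝓛.levels) (_ : N.Normal), N ≤ N₀ →
      Subsingleton (groupCohomology (A.quotientToInvariants N) 3)) :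
    Subsingleton (𝓛.H3 A) := by
  refine ⟨fun x x' => ?_⟩
  obtain ⟨N, hN, hnor, hle, y, rfl⟩ := exists_infLev₃_eq hA x h₀
  obtain ⟨N', hN', hnor', hle', y', rfl⟩ := exists_infLev₃_eq hA x' h₀
  haveI := h N hN hnor hle
  haveI := h N' hN' hnor' hle'
  rw [Subsingleton.elim y 0, Subsingleton.elim y' 0, map_zero, map_zero]

/-! ### torsion transfer: no `m`-torsion at finite levels ⇒ no `m`-torsion in level cohomology -/

/-- degree 1 -/
theorem eq_zero_of_nsmul_eq_zero₁ (hA : 𝓛.IsDiscrete A) {N₀ : Subgroup H} (h₀ : N₀ ∈ 𝓛.levels)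
    (m : ℕ)
    (h : ∀ (N : Subgroup H) (_ : N ∈ 𝓛.levels) (_ : N.Normal), N ≤ N₀ →
      ∀ y : groupCohomology (A.quotientToInvariants N) 1, m • y = 0 → y = 0)
    (x : 𝓛.H1 A) (hx : m • x = 0) : x = 0 := by
  obtain ⟨N, hN, hnor, hle, y, rfl⟩ := exists_infLev₁_eq hA x h₀
  rw [← map_nsmul] at hx
  obtain ⟨N', hN', hnor', hle', hy⟩ := exists_infLevel_eq_zero₁ hA hN (m • y) hx
  rw [map_nsmul] at hy
  have := h N' hN' hnor' (hle'.trans hle) _ hy
  rw [← infLev₁_infLevel 𝓛 A N N' hle' hN hN', this, map_zero]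

/-- degree 2 -/
theorem eq_zero_of_nsmul_eq_zero₂ (hA : 𝓛.IsDiscrete A) {N₀ : Subgroup H} (h₀ : N₀ ∈ 𝓛.levels)
    (m : ℕ)
    (h : ∀ (N : Subgroup H) (_ : N ∈ 𝓛.levels) (_ : N.Normal), N ≤ N₀ →
      ∀ y : groupCohomology (A.quotientToInvariants N) 2, m • y = 0 → y = 0)
    (x : 𝓛.H2 A) (hx : m • x = 0) : x = 0 := by
  obtain ⟨N, hN, hnor, hle, y, rfl⟩ := exists_infLev₂_eq hA x h₀
  rw [← map_nsmul] at hx
  obtain ⟨N', hN', hnor', hle', hy⟩ := exists_infLevel_eq_zero₂ hA hN (m • y) hx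
  rw [map_nsmul] at hy
  have := h N' hN' hnor' (hle'.trans hle) _ hy
  rw [← infLev₂_infLevel 𝓛 A N N' hle' hN hN', this, map_zero]

/-- degree 3 -/
theorem eq_zero_of_nsmul_eq_zero₃ (hA : 𝓛.IsDiscrete A) {N₀ : Subgroup H} (h₀ : N₀ ∈ 𝓛.levels)
    (m : ℕ)
    (h : ∀ (N : Subgroup H) (_ : N ∈ 𝓛.levels) (_ : N.Normal), N ≤ N₀ →
      ∀ y : groupCohomology (A.quotientToInvariants N) 3, m • y = 0 → y = 0)
    (x : 𝓛.H3 A) (hx : m • x = 0) : x = 0 := by
  obtain ⟨N, hN, hnor, hle, y, rfl⟩ := exists_infLev₃_eq hA x h₀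
  rw [← map_nsmul] at hx
  obtain ⟨N', hN', hnor', hle', hy⟩ := exists_infLevel_eq_zero₃ hA hN (m • y) hx
  rw [map_nsmul] at hy
  have := h N' hN' hnor' (hle'.trans hle) _ hy
  rw [← infLev₃_infLevel 𝓛 A N N' hle' hN hN', this, map_zero]

end Colimit3

end Fermat.Agent.CFT.H95

end
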