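import Mathlib
import Fermat.Agent.CFT.H95_FinLev3
import Fermat.Agent.CFT.H50_LevelRes

/-!
# CFT / D0-FINLEV-SUB : finite levels of an OPEN SUBGROUP

`𝓛 : LevelStructure H`, `A : Rep.{0} k H`, `U : Subgroup H` (think: open), `N` a normal level
of `H`.  The image `S := subQ U N = U N / N ≤ H ⧸ N` acts on `A^N`; `subRep A U N` is
`Rep.res S.subtype (A.quotientToInvariants N)`, i.e. exactly the shape in which
`IsClassModule` / `IsPClassModule` (H91_Formation) speak about subgroups of `H ⧸ N`.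

## Part 1 (general): `φ : H →* G` with open kernel, `α : Rep.res φ B ⟶ A`
* `fpull₁ … fpull₄` cochain maps, `d₀₁_fpull … d₃₄_fpull₃`, `fpull_n_injective`,
  `exists_fpull_n_eq` (descent), `isConst_n_fpull_n`;
* `pullLev₁ pullLev₂ pullLev₃ : groupCohomology B n →ₗ[k] 𝓛.Hn A` with `pullLev_n_Hnπ`.

## Part 2 (open subgroups)
* `infLevSub₁ infLevSub₂ infLevSub₃ 𝓛 A U N hN :
    groupCohomology (subRep A U N) n →ₗ[k] (𝓛.restrict U).Hn (Rep.res U.subtype A)`;
* (S1) `infLevSub_n_resSub` : `infLevSub_n (resSub (A^N) S n y) = H50.resSubH_n 𝓛 A U (infLev_n y)`;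
* (S2) `subQmap`, `subInvIncl`, `subInf A U N N' h n`, `infLevSub_n_subInf`, and
  `subInf_resSub` : `subInf (resSub y) = resSub (infLevel y)` (all degrees);
* (S3) `exists_infLevSub_n_eq` : every class of `(𝓛.restrict U).Hn (res A)` (`A` discrete) comes
  from a normal level `N` of `H` below any prescribed level;
* (S4) `exists_subInf_eq_zero_n` : a class dying in the limit dies at a smaller normal level;
* (S5) `eq_zero_of_nsmul_eq_zero_sub_n` : torsion transfer.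
-/

set_option autoImplicit false
set_option linter.style.haveILetI false
set_option linter.unusedSectionVars false

noncomputable section

open CategoryTheory groupCohomology

namespace Fermat.Agent.CFT.H95

open Fermat.Agent.CFT

/-! ## Part 1 : pulling back finite-group cohomology to level cohomology -/

section Pull

variable {k : Type} [CommRing k] {H : Type} [Group H] (𝓛 : LevelStructure H)
  {G : Type} [Group G] (φ : H →* G) {B : Rep.{0} k G} {A : Rep.{0} k H}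
  (α : Rep.res φ B ⟶ A)

abbrev fpull₁ : (G → B) →ₗ[k] (H → A) := (cochainsMap₁ φ α).hom

abbrev fpull₂ : (G × G → B) →ₗ[k] (H × H → A) := (cochainsMap₂ φ α).hom

abbrev fpull₃ : (G × G × G → B) →ₗ[k] (H × H × H → A) := (cochainsMap₃ φ α).hom

abbrev fpull₄ : (G × G × G × G → B) →ₗ[k] (H × H × H × H → A) := (cochainsMap₄' φ α).hom

theorem fpull₁_apply (x : G → B) (g : H) : fpull₁ φ α x g = α.hom (x (φ g)) := rfl

theorem fpull₂_apply (x : G × G → B) (g g' : H) :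
    fpull₂ φ α x (g, g') = α.hom (x (φ g, φ g')) := rfl

theorem fpull₃_apply (x : G × G × G → B) (g g' g'' : H) :
    fpull₃ φ α x (g, g', g'') = α.hom (x (φ g, φ g', φ g'')) := rfl

theorem fpull₄_apply (x : G × G × G × G → B) (g g' g'' g''' : H) :
    fpull₄ φ α x (g, g', g'', g''') = α.hom (x (φ g, φ g', φ g'', φ g''')) := rfl

theorem fpull_comm (g : H) (b : B) : α.hom (B.ρ (φ g) b) = A.ρ g (α.hom b) :=
  Rep.hom_comm_apply α g b

theorem d₀₁_fpull (b : B) : (d₀₁ A).hom (α.hom b) = fpull₁ φ α ((d₀₁ B).hom b) := by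
  funext g
  show A.ρ g (α.hom b) - α.hom b = α.hom (B.ρ (φ g) b - b)
  rw [map_sub, fpull_comm]

theorem d₁₂_fpull₁ (x : G → B) :
    (d₁₂ A).hom (fpull₁ φ α x) = fpull₂ φ α ((d₁₂ B).hom x) := by
  funext ⟨g, g'⟩
  show A.ρ g (α.hom (x (φ g'))) - α.hom (x (φ (g * g'))) + α.hom (x (φ g)) =
    α.hom (B.ρ (φ g) (x (φ g')) - x (φ g * φ g') + x (φ g))
  rw [map_add, map_sub, fpull_comm, map_mul]

theorem d₂₃_fpull₂ (x : G × G → B) :
    (d₂₃ A).hom (fpull₂ φ α x) = fpull₃ φ α ((d₂₃ B).hom x) := by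
  funext ⟨g, g', g''⟩
  show A.ρ g (α.hom (x (φ g', φ g''))) - α.hom (x (φ (g * g'), φ g''))
      + α.hom (x (φ g, φ (g' * g''))) - α.hom (x (φ g, φ g')) =
    α.hom (B.ρ (φ g) (x (φ g', φ g'')) - x (φ g * φ g', φ g'') + x (φ g, φ g' * φ g'')
      - x (φ g, φ g'))
  rw [map_sub, map_add, map_sub, fpull_comm, map_mul, map_mul]

theorem d₃₄_fpull₃ (x : G × G × G → B) :
    LevelStructure.d₃₄ A (fpull₃ φ α x) = fpull₄ φ α (LevelStructure.d₃₄ B x) :=
  d₃₄_cochainsMap₃ φ α x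

/-! ### injectivity and descent -/

section InjDesc

variable {φ} (hφ : Function.Surjective φ)

include hφ

theorem fpull₁_injective (hα : Function.Injective α.hom) : Function.Injective (fpull₁ φ α) := by
  intro x y h
  funext q
  obtain ⟨g, rfl⟩ := hφ q
  exact hα (congrFun h g)

theorem fpull₂_injective (hα : Function.Injective α.hom) : Function.Injective (fpull₂ φ α) := by
  intro x y h
  funext ⟨q, q'⟩
  obtain ⟨g, rfl⟩ := hφ q
  obtain ⟨g', rfl⟩ := hφ q'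
  exact hα (congrFun h (g, g'))

theorem fpull₃_injective (hα : Function.Injective α.hom) : Function.Injective (fpull₃ φ α) := by
  intro x y h
  funext ⟨q, q', q''⟩
  obtain ⟨g, rfl⟩ := hφ q
  obtain ⟨g', rfl⟩ := hφ q'
  obtain ⟨g'', rfl⟩ := hφ q''
  exact hα (congrFun h (g, g', g''))

theorem fpull₄_injective (hα : Function.Injective α.hom) : Function.Injective (fpull₄ φ α) := by
  intro x y h
  funext ⟨q, q', q'', q'''⟩
  obtain ⟨g, rfl⟩ := hφ q
  obtain ⟨g', rfl⟩ := hφ q'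
  obtain ⟨g'', rfl⟩ := hφ q''
  obtain ⟨g''', rfl⟩ := hφ q'''
  exact hα (congrFun h (g, g', g'', g'''))

theorem surjInv_eq_mul (g : H) : ∃ s ∈ φ.ker, Function.surjInv hφ (φ g) = g * s := by
  refine ⟨g⁻¹ * Function.surjInv hφ (φ g), ?_, by group⟩
  rw [MonoidHom.mem_ker, map_mul, map_inv, Function.surjInv_eq hφ, inv_mul_cancel]

theorem exists_fpull₁_eq (f : H → A) (hinv : ∀ g s, s ∈ φ.ker → f (g * s) = f g)
    (hval : ∀ g, ∃ b : B, α.hom b = f g) : ∃ x : G → B, fpull₁ φ α x = f := by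
  refine ⟨fun q => Classical.choose (hval (Function.surjInv hφ q)), ?_⟩
  funext g
  obtain ⟨s, hs, h⟩ := surjInv_eq_mul hφ g
  rw [fpull₁_apply, Classical.choose_spec (hval (Function.surjInv hφ (φ g))), h, hinv g s hs]

theorem exists_fpull₂_eq (f : H × H → A)
    (hinv : ∀ g g' s s', s ∈ φ.ker → s' ∈ φ.ker → f (g * s, g' * s') = f (g, g'))
    (hval : ∀ g, ∃ b : B, α.hom b = f g) : ∃ x : G × G → B, fpull₂ φ α x = f := by
  refine ⟨fun q => Classical.choose
    (hval (Function.surjInv hφ q.1, Function.surjInv hφ q.2)), ?_⟩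
  funext ⟨g, g'⟩
  obtain ⟨s, hs, h⟩ := surjInv_eq_mul hφ g
  obtain ⟨s', hs', h'⟩ := surjInv_eq_mul hφ g'
  rw [fpull₂_apply, Classical.choose_spec
    (hval (Function.surjInv hφ (φ g), Function.surjInv hφ (φ g'))), h, h', hinv g g' s s' hs hs']

theorem exists_fpull₃_eq (f : H × H × H → A)
    (hinv : ∀ g g' g'' s s' s'', s ∈ φ.ker → s' ∈ φ.ker → s'' ∈ φ.ker →
      f (g * s, g' * s', g'' * s'') = f (g, g', g''))
    (hval : ∀ g, ∃ b : B, α.hom b = f g) : ∃ x : G × G × G → B, fpull₃ φ α x = f := by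
  refine ⟨fun q => Classical.choose
    (hval (Function.surjInv hφ q.1, Function.surjInv hφ q.2.1, Function.surjInv hφ q.2.2)), ?_⟩
  funext ⟨g, g', g''⟩
  obtain ⟨s, hs, h⟩ := surjInv_eq_mul hφ g
  obtain ⟨s', hs', h'⟩ := surjInv_eq_mul hφ g'
  obtain ⟨s'', hs'', h''⟩ := surjInv_eq_mul hφ g''
  rw [fpull₃_apply, Classical.choose_spec
    (hval (Function.surjInv hφ (φ g), Function.surjInv hφ (φ g'), Function.surjInv hφ (φ g''))),
    h, h', h'', hinv g g' g'' s s' s'' hs hs' hs'']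

end InjDesc

/-! ### level-constancy -/

section Const

variable {φ} {N : Subgroup H} (hN : N ∈ 𝓛.levels) (hker : N ≤ φ.ker)

include hN hker

theorem map_mul_of_le_ker (g : H) {s : H} (hs : s ∈ N) : φ (g * s) = φ g := by
  rw [map_mul, MonoidHom.mem_ker.1 (hker hs), mul_one]

theorem isConst₁_fpull₁ (x : G → B) : 𝓛.IsConst₁ (fpull₁ φ α x) :=
  ⟨N, hN, fun g s hs => by
    rw [fpull₁_apply, fpull₁_apply, map_mul_of_le_ker 𝓛 hN hker g hs]⟩

theorem isConst₂_fpull₂ (x : G × G → B) : 𝓛.IsConst₂ (fpull₂ φ α x) :=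
  ⟨N, hN, fun g g' s s' hs hs' => by
    rw [fpull₂_apply, fpull₂_apply, map_mul_of_le_ker 𝓛 hN hker g hs,
      map_mul_of_le_ker 𝓛 hN hker g' hs']⟩

theorem isConst₃_fpull₃ (x : G × G × G → B) : 𝓛.IsConst₃ (fpull₃ φ α x) :=
  ⟨N, hN, fun g g' g'' s s' s'' hs hs' hs'' => by
    rw [fpull₃_apply, fpull₃_apply, map_mul_of_le_ker 𝓛 hN hker g hs,
      map_mul_of_le_ker 𝓛 hN hker g' hs', map_mul_of_le_ker 𝓛 hN hker g'' hs'']⟩

end Const


/-! ### the induced maps on cocycles and on cohomology -/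

section PullLev

variable (hker : ∃ N ∈ 𝓛.levels, N ≤ φ.ker)

/-- pull back of `1`-cocycles -/
def fpullCocycles₁ : cocycles₁ B →ₗ[k] 𝓛.cocycles₁ A :=
  LinearMap.codRestrict (𝓛.cocycles₁ A) (fpull₁ φ α ∘ₗ (cocycles₁ B).subtype) fun c =>
    ⟨by
      show (d₁₂ A).hom (fpull₁ φ α c.1) = 0
      rw [d₁₂_fpull₁, (LinearMap.mem_ker.1 c.2 : (d₁₂ B).hom c.1 = 0), map_zero],
    by
      obtain ⟨N, hN, hle⟩ := hker
      exact isConst₁_fpull₁ 𝓛 α hN hle c.1⟩

/-- pull back of `2`-cocycles -/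
def fpullCocycles₂ : cocycles₂ B →ₗ[k] 𝓛.cocycles₂ A :=
  LinearMap.codRestrict (𝓛.cocycles₂ A) (fpull₂ φ α ∘ₗ (cocycles₂ B).subtype) fun c =>
    ⟨by
      show (d₂₃ A).hom (fpull₂ φ α c.1) = 0
      rw [d₂₃_fpull₂, (LinearMap.mem_ker.1 c.2 : (d₂₃ B).hom c.1 = 0), map_zero],
    by
      obtain ⟨N, hN, hle⟩ := hker
      exact isConst₂_fpull₂ 𝓛 α hN hle c.1⟩

/-- pull back of `3`-cocycles -/
def fpullCocycles₃ : cocycles₃ B →ₗ[k] 𝓛.cocycles₃ A :=
  LinearMap.codRestrict (𝓛.cocycles₃ A) (fpull₃ φ α ∘ₗ (cocycles₃ B).subtype) fun c =>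
    ⟨by
      show LevelStructure.d₃₄ A (fpull₃ φ α c.1) = 0
      rw [d₃₄_fpull₃, (LinearMap.mem_ker.1 c.2 : LevelStructure.d₃₄ B c.1 = 0), map_zero],
    by
      obtain ⟨N, hN, hle⟩ := hker
      exact isConst₃_fpull₃ 𝓛 α hN hle c.1⟩

theorem fpullCocycles₁_coe (c : cocycles₁ B) :
    (fpullCocycles₁ 𝓛 φ α hker c : H → A) = fpull₁ φ α c.1 := rfl

theorem fpullCocycles₂_coe (c : cocycles₂ B) :
    (fpullCocycles₂ 𝓛 φ α hker c : H × H → A) = fpull₂ φ α c.1 := rfl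

theorem fpullCocycles₃_coe (c : cocycles₃ B) :
    (fpullCocycles₃ 𝓛 φ α hker c : H × H × H → A) = fpull₃ φ α c.1 := rfl

/-- **pull back** `H¹(G, B) → H¹_lev(H, A)` along `φ : H → G` with open kernel -/
def pullLev₁ : groupCohomology B 1 →ₗ[k] 𝓛.H1 A :=
  descLin (H1π B).hom (H1π_surjective _)
    (𝓛.H1π A ∘ₗ fpullCocycles₁ 𝓛 φ α hker) (fun c hc => by
      rw [H1π_eq_zero_iff] at hc
      obtain ⟨b, hb⟩ := hc
      rw [LinearMap.comp_apply, Submodule.mkQ_apply, Submodule.Quotient.mk_eq_zero,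
        Submodule.mem_comap]
      refine ⟨α.hom b, ?_⟩
      show (d₀₁ A).hom (α.hom b) = fpull₁ φ α c.1
      rw [d₀₁_fpull]
      exact congrArg (fpull₁ φ α) hb)

theorem pullLev₁_H1π (c : cocycles₁ B) :
    pullLev₁ 𝓛 φ α hker ((H1π B).hom c) = 𝓛.H1π A (fpullCocycles₁ 𝓛 φ α hker c) :=
  descLin_apply _ _ _ _ c

/-- **pull back** `H²(G, B) → H²_lev(H, A)` -/
def pullLev₂ : groupCohomology B 2 →ₗ[k] 𝓛.H2 A :=
  descLin (H2π B).hom (H2π_surjective _)
    (𝓛.H2π A ∘ₗ fpullCocycles₂ 𝓛 φ α hker) (fun c hc => by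
      rw [H2π_eq_zero_iff] at hc
      obtain ⟨b, hb⟩ := hc
      rw [LinearMap.comp_apply, Submodule.mkQ_apply, Submodule.Quotient.mk_eq_zero,
        Submodule.mem_comap]
      obtain ⟨N, hN, hle⟩ := hker
      refine ⟨fpull₁ φ α b, isConst₁_fpull₁ 𝓛 α hN hle b, ?_⟩
      show (d₁₂ A).hom (fpull₁ φ α b) = fpull₂ φ α c.1
      rw [d₁₂_fpull₁]
      exact congrArg (fpull₂ φ α) hb)

theorem pullLev₂_H2π (c : cocycles₂ B) :
    pullLev₂ 𝓛 φ α hker ((H2π B).hom c) = 𝓛.H2π A (fpullCocycles₂ 𝓛 φ α hker c) :=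
  descLin_apply _ _ _ _ c

/-- **pull back** `H³(G, B) → H³_lev(H, A)` -/
def pullLev₃ : groupCohomology B 3 →ₗ[k] 𝓛.H3 A :=
  descLin (H3π B).hom (H3π_surjective _)
    (𝓛.H3π A ∘ₗ fpullCocycles₃ 𝓛 φ α hker) (fun c hc => by
      rw [H3π_eq_zero_iff] at hc
      obtain ⟨b, hb⟩ := hc
      rw [LinearMap.comp_apply, Submodule.mkQ_apply, Submodule.Quotient.mk_eq_zero,
        Submodule.mem_comap]
      obtain ⟨N, hN, hle⟩ := hker
      refine ⟨fpull₂ φ α b, isConst₂_fpull₂ 𝓛 α hN hle b, ?_⟩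
      show (d₂₃ A).hom (fpull₂ φ α b) = fpull₃ φ α c.1
      rw [d₂₃_fpull₂]
      exact congrArg (fpull₃ φ α) hb)

theorem pullLev₃_H3π (c : cocycles₃ B) :
    pullLev₃ 𝓛 φ α hker ((H3π B).hom c) = 𝓛.H3π A (fpullCocycles₃ 𝓛 φ α hker c) :=
  descLin_apply _ _ _ _ c

end PullLev

end Pull


/-! ## Part 2 : finite levels of an open subgroup -/

section Sub

variable {k : Type} [CommRing k] {H : Type} [Group H] (𝓛 : LevelStructure H)
  (A : Rep.{0} k H) (U : Subgroup H) (N : Subgroup H) [N.Normal]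

/-- the image `U N / N` of `U` in `H ⧸ N` -/
abbrev subQ : Subgroup (H ⧸ N) := U.map (QuotientGroup.mk' N)

/-- the projection `U → U N / N` -/
abbrev subφ : U →* subQ U N := (QuotientGroup.mk' N).subgroupMap U

theorem subφ_surjective : Function.Surjective (subφ U N) :=
  MonoidHom.subgroupMap_surjective _ _

theorem subφ_coe (u : U) : ((subφ U N u : subQ U N) : H ⧸ N) = ((u : H) : H ⧸ N) := rfl

theorem mem_ker_subφ (u : U) : u ∈ (subφ U N).ker ↔ (u : H) ∈ N := by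
  rw [MonoidHom.mem_ker, Subtype.ext_iff, subφ_coe]
  exact QuotientGroup.eq_one_iff _

theorem ker_subφ : (subφ U N).ker = N.subgroupOf U := by
  ext u
  rw [mem_ker_subφ, Subgroup.mem_subgroupOf]

/-- the finite-level coefficients: `A^N` as a representation of `U N / N ≤ H ⧸ N` -/
abbrev subRep : Rep.{0} k (subQ U N) :=
  Rep.res (subQ U N).subtype (A.quotientToInvariants N)

/-- the inclusion `A^N → A` as a morphism of `U`-representations -/
abbrev subIncl : Rep.res (subφ U N) (subRep A U N) ⟶ Rep.res U.subtype A :=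
  Rep.ofHom ⟨(A.ρ.quotientToInvariants_lift N).toLinearMap, fun u =>
    (A.ρ.quotientToInvariants_lift N).isIntertwining' (u : H)⟩

theorem subIncl_apply (a : A.quotientToInvariants N) : (subIncl A U N).hom a = a.1 := rfl

theorem subIncl_injective : Function.Injective (subIncl A U N).hom :=
  fun _ _ h => Subtype.ext h

variable {N} in
theorem hker_sub (hN : N ∈ 𝓛.levels) :
    ∃ M ∈ (𝓛.restrict U).levels, M ≤ (subφ U N).ker :=
  ⟨N.subgroupOf U, ⟨N, hN, rfl⟩, (ker_subφ U N).ge⟩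

variable (hN : N ∈ 𝓛.levels)

/-- **inflation** `H¹(U N / N, A^N) → H¹_lev(U, A)` -/
def infLevSub₁ : groupCohomology (subRep A U N) 1 →ₗ[k] (𝓛.restrict U).H1 (Rep.res U.subtype A) :=
  pullLev₁ (𝓛.restrict U) (subφ U N) (subIncl A U N) (hker_sub 𝓛 U hN)

/-- **inflation** `H²(U N / N, A^N) → H²_lev(U, A)` -/
def infLevSub₂ : groupCohomology (subRep A U N) 2 →ₗ[k] (𝓛.restrict U).H2 (Rep.res U.subtype A) :=
  pullLev₂ (𝓛.restrict U) (subφ U N) (subIncl A U N) (hker_sub 𝓛 U hN)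

/-- **inflation** `H³(U N / N, A^N) → H³_lev(U, A)` -/
def infLevSub₃ : groupCohomology (subRep A U N) 3 →ₗ[k] (𝓛.restrict U).H3 (Rep.res U.subtype A) :=
  pullLev₃ (𝓛.restrict U) (subφ U N) (subIncl A U N) (hker_sub 𝓛 U hN)

/-! ### (S1) compatibility with restriction -/

theorem infLevSub₁_resSub (y : groupCohomology (A.quotientToInvariants N) 1) :
    infLevSub₁ 𝓛 A U N hN ((resSub (A.quotientToInvariants N) (subQ U N) 1).hom y) =
      H50.resSubH1 𝓛 A U (infLev₁ 𝓛 A N hN y) := by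
  induction y using H1_induction_on with
  | h c =>
    have h1 : (resSub (A.quotientToInvariants N) (subQ U N) 1).hom ((H1π _).hom c) =
        (H1π _).hom ((mapCocycles₁ (subQ U N).subtype (𝟙 (subRep A U N))).hom c) :=
      congr($(H1π_comp_map (subQ U N).subtype (𝟙 (subRep A U N))) c)
    change infLevSub₁ 𝓛 A U N hN ((resSub _ _ 1).hom ((H1π _).hom c)) =
      H50.resSubH1 𝓛 A U (infLev₁ 𝓛 A N hN ((H1π _).hom c))
    rw [h1, infLev₁_H1π, infLevSub₁, pullLev₁_H1π]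
    rfl


theorem infLevSub₂_resSub (y : groupCohomology (A.quotientToInvariants N) 2) :
    infLevSub₂ 𝓛 A U N hN ((resSub (A.quotientToInvariants N) (subQ U N) 2).hom y) =
      H50.resSubH2 𝓛 A U (infLev₂ 𝓛 A N hN y) := by
  induction y using H2_induction_on with
  | h c =>
    have h1 : (resSub (A.quotientToInvariants N) (subQ U N) 2).hom ((H2π _).hom c) =
        (H2π _).hom ((mapCocycles₂ (subQ U N).subtype (𝟙 (subRep A U N))).hom c) :=
      congr($(H2π_comp_map (subQ U N).subtype (𝟙 (subRep A U N))) c)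
    change infLevSub₂ 𝓛 A U N hN ((resSub _ _ 2).hom ((H2π _).hom c)) =
      H50.resSubH2 𝓛 A U (infLev₂ 𝓛 A N hN ((H2π _).hom c))
    rw [h1, infLev₂_H2π, infLevSub₂, pullLev₂_H2π]
    rfl

theorem infLevSub₃_resSub (y : groupCohomology (A.quotientToInvariants N) 3) :
    infLevSub₃ 𝓛 A U N hN ((resSub (A.quotientToInvariants N) (subQ U N) 3).hom y) =
      H50.resSubH3 𝓛 A U (infLev₃ 𝓛 A N hN y) := by
  obtain ⟨c, rfl⟩ := H3π_surjective _ y
  have h1 : (resSub (A.quotientToInvariants N) (subQ U N) 3).hom ((H3π _).hom c) =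
      (H3π _).hom (mapCocycles₃ (subQ U N).subtype (𝟙 (subRep A U N)) c) :=
    map_H3π (subQ U N).subtype (𝟙 (subRep A U N)) c
  rw [h1, infLev₃_H3π, infLevSub₃, pullLev₃_H3π]
  rfl

/-! ### (S2) transition maps -/

section Trans

variable (N' : Subgroup H) [N'.Normal] (h : N' ≤ N)

/-- the transition homomorphism `U N' / N' → U N / N` -/
def subQmap : subQ U N' →* subQ U N :=
  ((qmap N N' h).comp (subQ U N').subtype).codRestrict (subQ U N) (by
    rintro ⟨_, u, hu, rfl⟩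
    exact ⟨u, hu, rfl⟩)

theorem subQmap_coe (s : subQ U N') :
    ((subQmap U N N' h s : subQ U N) : H ⧸ N) = qmap N N' h (s : H ⧸ N') := rfl

theorem subQmap_subφ (u : U) : subQmap U N N' h (subφ U N' u) = subφ U N u := rfl

/-- the inclusion `A^N → A^{N'}` over `U N' / N'` -/
abbrev subInvIncl :
    Rep.res (subQmap U N N' h) (subRep A U N) ⟶ subRep A U N' :=
  Rep.ofHom ⟨(invIncl A N N' h).hom.toLinearMap, fun s =>
    (invIncl A N N' h).hom.isIntertwining' (s : H ⧸ N')⟩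

theorem subInvIncl_apply (a : A.quotientToInvariants N) :
    ((subInvIncl A U N N' h).hom a : A.quotientToInvariants N').1 = a.1 := rfl

/-- inflation `Hⁿ(U N / N, A^N) → Hⁿ(U N' / N', A^{N'})` -/
def subInf (n : ℕ) : groupCohomology (subRep A U N) n ⟶ groupCohomology (subRep A U N') n :=
  groupCohomology.map (subQmap U N N' h) (subInvIncl A U N N' h) n

variable (hN' : N' ∈ 𝓛.levels)

theorem infLevSub₁_subInf (y : groupCohomology (subRep A U N) 1) :
    infLevSub₁ 𝓛 A U N' hN' ((subInf A U N N' h 1).hom y) = infLevSub₁ 𝓛 A U N hN y := by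
  induction y using H1_induction_on with
  | h c =>
    have h1 : (subInf A U N N' h 1).hom ((H1π _).hom c) =
        (H1π _).hom ((mapCocycles₁ (subQmap U N N' h) (subInvIncl A U N N' h)).hom c) :=
      congr($(H1π_comp_map (subQmap U N N' h) (subInvIncl A U N N' h)) c)
    change infLevSub₁ 𝓛 A U N' hN' ((subInf A U N N' h 1).hom ((H1π _).hom c)) =
      infLevSub₁ 𝓛 A U N hN ((H1π _).hom c)
    rw [h1, infLevSub₁, infLevSub₁, pullLev₁_H1π, pullLev₁_H1π]
    rfl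

theorem infLevSub₂_subInf (y : groupCohomology (subRep A U N) 2) :
    infLevSub₂ 𝓛 A U N' hN' ((subInf A U N N' h 2).hom y) = infLevSub₂ 𝓛 A U N hN y := by
  induction y using H2_induction_on with
  | h c =>
    have h1 : (subInf A U N N' h 2).hom ((H2π _).hom c) =
        (H2π _).hom ((mapCocycles₂ (subQmap U N N' h) (subInvIncl A U N N' h)).hom c) :=
      congr($(H2π_comp_map (subQmap U N N' h) (subInvIncl A U N N' h)) c)
    change infLevSub₂ 𝓛 A U N' hN' ((subInf A U N N' h 2).hom ((H2π _).hom c)) =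
      infLevSub₂ 𝓛 A U N hN ((H2π _).hom c)
    rw [h1, infLevSub₂, infLevSub₂, pullLev₂_H2π, pullLev₂_H2π]
    rfl

theorem infLevSub₃_subInf (y : groupCohomology (subRep A U N) 3) :
    infLevSub₃ 𝓛 A U N' hN' ((subInf A U N N' h 3).hom y) = infLevSub₃ 𝓛 A U N hN y := by
  obtain ⟨c, rfl⟩ := H3π_surjective _ y
  have h1 : (subInf A U N N' h 3).hom ((H3π _).hom c) =
      (H3π _).hom (mapCocycles₃ (subQmap U N N' h) (subInvIncl A U N N' h) c) :=
    map_H3π (subQmap U N N' h) (subInvIncl A U N N' h) c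
  rw [h1, infLevSub₃, infLevSub₃, pullLev₃_H3π, pullLev₃_H3π]
  rfl

/-- (S2b) finite-level inflation commutes with finite-level restriction -/
theorem subInf_resSub (n : ℕ) (y : groupCohomology (A.quotientToInvariants N) n) :
    (subInf A U N N' h n).hom ((resSub (A.quotientToInvariants N) (subQ U N) n).hom y) =
      (resSub (A.quotientToInvariants N') (subQ U N') n).hom ((infLevel A N N' h n).hom y) := by
  have e : resSub (A.quotientToInvariants N) (subQ U N) n ≫ subInf A U N N' h n =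
      infLevel A N N' h n ≫ resSub (A.quotientToInvariants N') (subQ U N') n := by
    rw [resSub, subInf, infLevel, resSub, ← groupCohomology.map_comp, ← groupCohomology.map_comp]
    rfl
  exact congr($e y)

end Trans


/-! ### descent of level cochains of `U` to a finite level -/

section Descent

variable {𝓛 A}

theorem exists_subfpull₁ (hA : 𝓛.IsDiscrete A) {f : U → A}
    (hf : (𝓛.restrict U).IsConst₁ f) {N₀ : Subgroup H} (h₀ : N₀ ∈ 𝓛.levels) :
    ∃ N ∈ 𝓛.levels, ∃ _ : N.Normal, N ≤ N₀ ∧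
      ∃ x : subQ U N → A.quotientToInvariants N, fpull₁ (subφ U N) (subIncl A U N) x = f := by
  have hfin := finite_range_of_isConst₁ hf
  obtain ⟨_, ⟨N₁, h₁, rfl⟩, hinv⟩ := hf
  obtain ⟨N, hN, hnor, hle0, hle1, hval⟩ := exists_level_of_finite_range hA f hfin h₀ h₁
  refine ⟨N, hN, hnor, hle0, ?_⟩
  refine exists_fpull₁_eq (subIncl A U N) (subφ_surjective U N) f (fun g s hs => ?_)
    (fun g => ⟨⟨f g, fun n => hval g n.1 n.2⟩, rfl⟩)
  exact hinv g s (hle1 ((mem_ker_subφ U N s).1 hs))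

theorem exists_subfpull₂ (hA : 𝓛.IsDiscrete A) {f : U × U → A}
    (hf : (𝓛.restrict U).IsConst₂ f) {N₀ : Subgroup H} (h₀ : N₀ ∈ 𝓛.levels) :
    ∃ N ∈ 𝓛.levels, ∃ _ : N.Normal, N ≤ N₀ ∧
      ∃ x : subQ U N × subQ U N → A.quotientToInvariants N,
        fpull₂ (subφ U N) (subIncl A U N) x = f := by
  have hfin := finite_range_of_isConst₂ hf
  obtain ⟨_, ⟨N₁, h₁, rfl⟩, hinv⟩ := hf
  obtain ⟨N, hN, hnor, hle0, hle1, hval⟩ := exists_level_of_finite_range hA f hfin h₀ h₁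
  refine ⟨N, hN, hnor, hle0, ?_⟩
  refine exists_fpull₂_eq (subIncl A U N) (subφ_surjective U N) f (fun g g' s s' hs hs' => ?_)
    (fun g => ⟨⟨f g, fun n => hval g n.1 n.2⟩, rfl⟩)
  exact hinv g g' s s' (hle1 ((mem_ker_subφ U N s).1 hs)) (hle1 ((mem_ker_subφ U N s').1 hs'))

theorem exists_subfpull₃ (hA : 𝓛.IsDiscrete A) {f : U × U × U → A}
    (hf : (𝓛.restrict U).IsConst₃ f) {N₀ : Subgroup H} (h₀ : N₀ ∈ 𝓛.levels) :
    ∃ N ∈ 𝓛.levels, ∃ _ : N.Normal, N ≤ N₀ ∧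
      ∃ x : subQ U N × subQ U N × subQ U N → A.quotientToInvariants N,
        fpull₃ (subφ U N) (subIncl A U N) x = f := by
  have hfin := finite_range_of_isConst₃ hf
  obtain ⟨_, ⟨N₁, h₁, rfl⟩, hinv⟩ := hf
  obtain ⟨N, hN, hnor, hle0, hle1, hval⟩ := exists_level_of_finite_range hA f hfin h₀ h₁
  refine ⟨N, hN, hnor, hle0, ?_⟩
  refine exists_fpull₃_eq (subIncl A U N) (subφ_surjective U N) f
    (fun g g' g'' s s' s'' hs hs' hs'' => ?_)
    (fun g => ⟨⟨f g, fun n => hval g n.1 n.2⟩, rfl⟩)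
  exact hinv g g' g'' s s' s'' (hle1 ((mem_ker_subφ U N s).1 hs))
    (hle1 ((mem_ker_subφ U N s').1 hs')) (hle1 ((mem_ker_subφ U N s'').1 hs''))

end Descent

/-! ### (S3) surjectivity and (S4) injectivity in the colimit -/

section Colimit

variable {𝓛 A}

/-- (S3), degree 1 -/
theorem exists_infLevSub₁_eq (hA : 𝓛.IsDiscrete A)
    (x : (𝓛.restrict U).H1 (Rep.res U.subtype A)) {N₀ : Subgroup H} (h₀ : N₀ ∈ 𝓛.levels) :
    ∃ (N : Subgroup H) (hN : N ∈ 𝓛.levels) (_ : N.Normal), N ≤ N₀ ∧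
      ∃ y : groupCohomology (subRep A U N) 1, infLevSub₁ 𝓛 A U N hN y = x := by
  obtain ⟨c, rfl⟩ := Submodule.mkQ_surjective _ x
  obtain ⟨N, hN, hnor, hle, x', hx'⟩ := exists_subfpull₁ U hA c.2.2 h₀
  have hcoc : x' ∈ cocycles₁ (subRep A U N) := by
    apply fpull₂_injective (subIncl A U N) (subφ_surjective U N) (subIncl_injective A U N)
    rw [← d₁₂_fpull₁, hx', map_zero]
    exact c.2.1
  refine ⟨N, hN, hnor, hle, (H1π _).hom ⟨x', hcoc⟩, ?_⟩
  rw [infLevSub₁, pullLev₁_H1π]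
  congr 1
  exact Subtype.ext hx'

/-- (S3), degree 2 -/
theorem exists_infLevSub₂_eq (hA : 𝓛.IsDiscrete A)
    (x : (𝓛.restrict U).H2 (Rep.res U.subtype A)) {N₀ : Subgroup H} (h₀ : N₀ ∈ 𝓛.levels) :
    ∃ (N : Subgroup H) (hN : N ∈ 𝓛.levels) (_ : N.Normal), N ≤ N₀ ∧
      ∃ y : groupCohomology (subRep A U N) 2, infLevSub₂ 𝓛 A U N hN y = x := by
  obtain ⟨c, rfl⟩ := Submodule.mkQ_surjective _ x
  obtain ⟨N, hN, hnor, hle, x', hx'⟩ := exists_subfpull₂ U hA c.2.2 h₀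
  have hcoc : x' ∈ cocycles₂ (subRep A U N) := by
    apply fpull₃_injective (subIncl A U N) (subφ_surjective U N) (subIncl_injective A U N)
    rw [← d₂₃_fpull₂, hx', map_zero]
    exact c.2.1
  refine ⟨N, hN, hnor, hle, (H2π _).hom ⟨x', hcoc⟩, ?_⟩
  rw [infLevSub₂, pullLev₂_H2π]
  congr 1
  exact Subtype.ext hx'

/-- (S3), degree 3 -/
theorem exists_infLevSub₃_eq (hA : 𝓛.IsDiscrete A)
    (x : (𝓛.restrict U).H3 (Rep.res U.subtype A)) {N₀ : Subgroup H} (h₀ : N₀ ∈ 𝓛.levels) :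
    ∃ (N : Subgroup H) (hN : N ∈ 𝓛.levels) (_ : N.Normal), N ≤ N₀ ∧
      ∃ y : groupCohomology (subRep A U N) 3, infLevSub₃ 𝓛 A U N hN y = x := by
  obtain ⟨c, rfl⟩ := Submodule.mkQ_surjective _ x
  obtain ⟨N, hN, hnor, hle, x', hx'⟩ := exists_subfpull₃ U hA c.2.2 h₀
  have hcoc : x' ∈ cocycles₃ (subRep A U N) := by
    apply fpull₄_injective (subIncl A U N) (subφ_surjective U N) (subIncl_injective A U N)
    rw [← d₃₄_fpull₃, hx', map_zero]
    exact c.2.1
  refine ⟨N, hN, hnor, hle, (H3π _).hom ⟨x', hcoc⟩, ?_⟩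
  rw [infLevSub₃, pullLev₃_H3π]
  congr 1
  exact Subtype.ext hx'

/-- (S4), degree 1 -/
theorem exists_subInf_eq_zero₁ (hA : 𝓛.IsDiscrete A) {N : Subgroup H} [N.Normal]
    (hN : N ∈ 𝓛.levels) (y : groupCohomology (subRep A U N) 1)
    (hy : infLevSub₁ 𝓛 A U N hN y = 0) :
    ∃ (N' : Subgroup H) (_ : N' ∈ 𝓛.levels) (_ : N'.Normal) (h : N' ≤ N),
      (subInf A U N N' h 1).hom y = 0 := by
  induction y using H1_induction_on with
  | h c =>
    change infLevSub₁ 𝓛 A U N hN ((H1π _).hom c) = 0 at hy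
    rw [infLevSub₁, pullLev₁_H1π, Submodule.mkQ_apply, Submodule.Quotient.mk_eq_zero,
      Submodule.mem_comap] at hy
    obtain ⟨a, ha⟩ := hy
    obtain ⟨N₁, h₁, hfix⟩ := hA a
    obtain ⟨N', hN', hnor, hle, hle₁⟩ := exists_normal_level_le 𝓛 hN h₁
    refine ⟨N', hN', hnor, hle, ?_⟩
    have h1 : (subInf A U N N' hle 1).hom ((H1π _).hom c) =
        (H1π _).hom ((mapCocycles₁ (subQmap U N N' hle) (subInvIncl A U N N' hle)).hom c) :=
      congr($(H1π_comp_map (subQmap U N N' hle) (subInvIncl A U N N' hle)) c)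
    change (subInf A U N N' hle 1).hom ((H1π _).hom c) = 0
    rw [h1]
    apply (H1π_eq_zero_iff _).2
    refine ⟨⟨a, fun n => hfix n.1 (hle₁ n.2)⟩, ?_⟩
    apply fpull₁_injective (subIncl A U N') (subφ_surjective U N') (subIncl_injective A U N')
    rw [← d₀₁_fpull]
    exact ha

/-- (S4), degree 2 -/
theorem exists_subInf_eq_zero₂ (hA : 𝓛.IsDiscrete A) {N : Subgroup H} [N.Normal]
    (hN : N ∈ 𝓛.levels) (y : groupCohomology (subRep A U N) 2)
    (hy : infLevSub₂ 𝓛 A U N hN y = 0) :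
    ∃ (N' : Subgroup H) (_ : N' ∈ 𝓛.levels) (_ : N'.Normal) (h : N' ≤ N),
      (subInf A U N N' h 2).hom y = 0 := by
  induction y using H2_induction_on with
  | h c =>
    change infLevSub₂ 𝓛 A U N hN ((H2π _).hom c) = 0 at hy
    rw [infLevSub₂, pullLev₂_H2π, Submodule.mkQ_apply, Submodule.Quotient.mk_eq_zero,
      Submodule.mem_comap] at hy
    obtain ⟨b, hb, hbc⟩ := hy
    obtain ⟨N', hN', hnor, hle, b', hb'⟩ := exists_subfpull₁ U hA hb hN
    refine ⟨N', hN', hnor, hle, ?_⟩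
    have h1 : (subInf A U N N' hle 2).hom ((H2π _).hom c) =
        (H2π _).hom ((mapCocycles₂ (subQmap U N N' hle) (subInvIncl A U N N' hle)).hom c) :=
      congr($(H2π_comp_map (subQmap U N N' hle) (subInvIncl A U N N' hle)) c)
    change (subInf A U N N' hle 2).hom ((H2π _).hom c) = 0
    rw [h1]
    apply (H2π_eq_zero_iff _).2
    refine ⟨b', ?_⟩
    apply fpull₂_injective (subIncl A U N') (subφ_surjective U N') (subIncl_injective A U N')
    rw [← d₁₂_fpull₁, hb']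
    exact hbc

/-- (S4), degree 3 -/
theorem exists_subInf_eq_zero₃ (hA : 𝓛.IsDiscrete A) {N : Subgroup H} [N.Normal]
    (hN : N ∈ 𝓛.levels) (y : groupCohomology (subRep A U N) 3)
    (hy : infLevSub₃ 𝓛 A U N hN y = 0) :
    ∃ (N' : Subgroup H) (_ : N' ∈ 𝓛.levels) (_ : N'.Normal) (h : N' ≤ N),
      (subInf A U N N' h 3).hom y = 0 := by
  obtain ⟨c, rfl⟩ := H3π_surjective _ y
  rw [infLevSub₃, pullLev₃_H3π, Submodule.mkQ_apply, Submodule.Quotient.mk_eq_zero,
    Submodule.mem_comap] at hy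
  obtain ⟨b, hb, hbc⟩ := hy
  obtain ⟨N', hN', hnor, hle, b', hb'⟩ := exists_subfpull₂ U hA hb hN
  refine ⟨N', hN', hnor, hle, ?_⟩
  have h1 : (subInf A U N N' hle 3).hom ((H3π _).hom c) =
      (H3π _).hom (mapCocycles₃ (subQmap U N N' hle) (subInvIncl A U N N' hle) c) :=
    map_H3π (subQmap U N N' hle) (subInvIncl A U N N' hle) c
  rw [h1]
  apply (H3π_eq_zero_iff _ _).2
  refine ⟨b', ?_⟩
  apply fpull₃_injective (subIncl A U N') (subφ_surjective U N') (subIncl_injective A U N')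
  rw [← d₂₃_fpull₂, hb']
  exact hbc

/-! ### (S5) torsion transfer -/

/-- degree 1 -/
theorem eq_zero_of_nsmul_eq_zero_sub₁ (hA : 𝓛.IsDiscrete A) {N₀ : Subgroup H}
    (h₀ : N₀ ∈ 𝓛.levels) (m : ℕ)
    (h : ∀ (N : Subgroup H) (_ : N ∈ 𝓛.levels) (_ : N.Normal), N ≤ N₀ →
      ∀ y : groupCohomology (subRep A U N) 1, m • y = 0 → y = 0)
    (x : (𝓛.restrict U).H1 (Rep.res U.subtype A)) (hx : m • x = 0) : x = 0 := by
  obtain ⟨N, hN, hnor, hle, y, rfl⟩ := exists_infLevSub₁_eq U hA x h₀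
  rw [← map_nsmul] at hx
  obtain ⟨N', hN', hnor', hle', hy⟩ := exists_subInf_eq_zero₁ U hA hN (m • y) hx
  rw [map_nsmul] at hy
  have := h N' hN' hnor' (hle'.trans hle) _ hy
  rw [← infLevSub₁_subInf 𝓛 A U N hN N' hle' hN', this, map_zero]

/-- degree 2 -/
theorem eq_zero_of_nsmul_eq_zero_sub₂ (hA : 𝓛.IsDiscrete A) {N₀ : Subgroup H}
    (h₀ : N₀ ∈ 𝓛.levels) (m : ℕ)
    (h : ∀ (N : Subgroup H) (_ : N ∈ 𝓛.levels) (_ : N.Normal), N ≤ N₀ →
      ∀ y : groupCohomology (subRep A U N) 2, m • y = 0 → y = 0)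
    (x : (𝓛.restrict U).H2 (Rep.res U.subtype A)) (hx : m • x = 0) : x = 0 := by
  obtain ⟨N, hN, hnor, hle, y, rfl⟩ := exists_infLevSub₂_eq U hA x h₀
  rw [← map_nsmul] at hx
  obtain ⟨N', hN', hnor', hle', hy⟩ := exists_subInf_eq_zero₂ U hA hN (m • y) hx
  rw [map_nsmul] at hy
  have := h N' hN' hnor' (hle'.trans hle) _ hy
  rw [← infLevSub₂_subInf 𝓛 A U N hN N' hle' hN', this, map_zero]

/-- degree 3 -/
theorem eq_zero_of_nsmul_eq_zero_sub₃ (hA : 𝓛.IsDiscrete A) {N₀ : Subgroup H}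
    (h₀ : N₀ ∈ 𝓛.levels) (m : ℕ)
    (h : ∀ (N : Subgroup H) (_ : N ∈ 𝓛.levels) (_ : N.Normal), N ≤ N₀ →
      ∀ y : groupCohomology (subRep A U N) 3, m • y = 0 → y = 0)
    (x : (𝓛.restrict U).H3 (Rep.res U.subtype A)) (hx : m • x = 0) : x = 0 := by
  obtain ⟨N, hN, hnor, hle, y, rfl⟩ := exists_infLevSub₃_eq U hA x h₀
  rw [← map_nsmul] at hx
  obtain ⟨N', hN', hnor', hle', hy⟩ := exists_subInf_eq_zero₃ U hA hN (m • y) hx
  rw [map_nsmul] at hy
  have := h N' hN' hnor' (hle'.trans hle) _ hy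
  rw [← infLevSub₃_subInf 𝓛 A U N hN N' hle' hN', this, map_zero]

end Colimit

end Sub

end Fermat.Agent.CFT.H95

end
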