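/-
CFT project, layer D, package D2b-I3 (helper52): axiom (I3') of the W-model for the envelope
datum of a `p`-class formation, final form:
`PClassFormation` + acyclic `p`-divisible envelope + (DIV) ⇒ `H²(U; (I/C)[p]) = 0` for all `U`.
-/
import Fermat.Agent.CFT.H52_AxI3
import Fermat.Agent.CFT.H52_ClassModule
import Fermat.Agent.CFT.H17_D2aFinite
import Fermat.Agent.CFT.H95_FinLevSub

set_option autoImplicit false
set_option linter.style.haveILetI false

open CategoryTheory groupCohomology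

namespace Fermat.Agent.CFT.H52

open Fermat.Agent.CFT LevelStructure

section Aux

/-- A purely additive lemma: if `a • y = a • (n • e)`, `b • e = b • ((p * r) • g)` and `a * b` is
prime to `p`, then `y` is divisible by `p`. -/
lemma exists_nsmul_eq_of_coprime_aux {M : Type*} [AddCommGroup M] (p a b r : ℕ) (n : ℤ)
    (hab : Nat.Coprime (b * a) p) (y e g : M)
    (h1 : a • y = a • (n • e)) (h2 : b • e = b • ((p * r) • g)) : ∃ t : M, p • t = y := by
  obtain ⟨u, v, huv⟩ := Nat.isCoprime_iff_coprime.2 hab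
  have h3 : (b * a) • y = p • ((a * b * r) • (n • g)) := by
    calc (b * a) • y = b • (a • y) := by rw [mul_smul]
      _ = b • (a • (n • e)) := by rw [h1]
      _ = a • (n • (b • e)) := by
          rw [smul_comm b a, smul_comm b n]
      _ = a • (n • (b • ((p * r) • g))) := by rw [h2]
      _ = p • ((a * b * r) • (n • g)) := by
          rw [smul_comm n b, smul_comm n ((p * r)), ← mul_smul, ← mul_smul, ← mul_smul]
          congr 1
          ring
  refine ⟨u • ((a * b * r) • (n • g)) + v • y, ?_⟩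
  calc p • (u • ((a * b * r) • (n • g)) + v • y)
      = u • (p • ((a * b * r) • (n • g))) + v • (p • y) := by
        rw [smul_add, smul_comm p u, smul_comm p v]
    _ = u • ((b * a) • y) + v • (p • y) := by rw [← h3]
    _ = u • (((b * a : ℕ) : ℤ) • y) + v • ((p : ℤ) • y) := by
        rw [natCast_zsmul, natCast_zsmul]
    _ = (u * ((b * a : ℕ) : ℤ) + v * (p : ℤ)) • y := by rw [add_smul, mul_smul, mul_smul]
    _ = y := by rw [huv, one_smul]

end Aux

section Formation

variable {p : ℕ} [Fact p.Prime] {H : Type} [Group H] {𝓛 : LevelStructure H}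

/-- **(A)**: for a `p`-class formation, level `H³(U; C)` has no `p`-torsion, for every subgroup
`U` (with the induced level structure). -/
theorem H3_pTorsionFree_restrict {C : Rep.{0} ℤ H} (F : PClassFormation p 𝓛 C) (U : Subgroup H)
    (z : (𝓛.restrict U).H3 (Rep.res U.subtype C)) (hz : p • z = 0) : z = 0 := by
  obtain ⟨N₀, h₀⟩ := 𝓛.nonempty
  refine H95.eq_zero_of_nsmul_eq_zero_sub₃ U F.discrete h₀ p ?_ z hz
  intro N hN hnor _ y hy
  haveI := hnor
  haveI := 𝓛.finiteIndex N hN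
  haveI : Finite (H ⧸ N) := Subgroup.finite_quotient_of_finiteIndex
  exact H3_pTorsionFree_res_of_isPClassModule (C.quotientToInvariants N) (F.fund N hN)
    (F.isClass N hN) (H95.subQ U N) y 1 (by rwa [pow_one])

/-- **(A₁)**: for a `p`-class formation, level `H¹(U; C)` has no `p`-torsion. -/
theorem H1_pTorsionFree_restrict {C : Rep.{0} ℤ H} (F : PClassFormation p 𝓛 C) (U : Subgroup H)
    (z : (𝓛.restrict U).H1 (Rep.res U.subtype C)) (hz : p • z = 0) : z = 0 := by
  obtain ⟨N₀, h₀⟩ := 𝓛.nonempty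
  refine H95.eq_zero_of_nsmul_eq_zero_sub₁ U F.discrete h₀ p ?_ z hz
  intro N hN hnor _ y hy
  haveI := hnor
  haveI := 𝓛.finiteIndex N hN
  haveI : Finite (H ⧸ N) := Subgroup.finite_quotient_of_finiteIndex
  exact H1_pTorsionFree_res_of_isPClassModule (C.quotientToInvariants N) (F.fund N hN)
    (F.isClass N hN) (H95.subQ U N) y 1 (by rwa [pow_one])

omit [Fact p.Prime] in
/-- (DIV) gives, below every normal level, a normal level of relative index divisible by `p`. -/
lemma exists_normal_level_dvd_relIndex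
    (hDIV : ∀ U : Subgroup H, 𝓛.IsOpen U → ∀ m : ℕ,
      ∃ V : Subgroup H, 𝓛.IsOpen V ∧ V ≤ U ∧ p ^ m ∣ V.relIndex U)
    (N : Subgroup H) (hN : N ∈ 𝓛.levels) :
    ∃ N' ∈ 𝓛.levels, N'.Normal ∧ N' ≤ N ∧ p ∣ N'.relIndex N := by
  obtain ⟨V, ⟨N₁, hN₁, hle₁⟩, hVN, hdvd⟩ := hDIV N ⟨N, hN, le_rfl⟩ 1
  obtain ⟨N', hN', hle', hnor'⟩ := 𝓛.exists_normal N₁ hN₁
  refine ⟨N', hN', hnor', (hle'.trans hle₁).trans hVN, ?_⟩
  rw [← Subgroup.relIndex_mul_relIndex N' V N (hle'.trans hle₁) hVN]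
  rw [pow_one] at hdvd
  exact Dvd.dvd.mul_left hdvd _

/-- **(B)**: for a `p`-class formation satisfying (DIV), level `H²(U; C)` is `p`-divisible, for
every subgroup `U` (with the induced level structure). -/
theorem H2_pDivisible_restrict {k : Type} [CommRing k] {C : Rep.{0} k H}
    (F : PClassFormation p 𝓛 C)
    (hDIV : ∀ U : Subgroup H, 𝓛.IsOpen U → ∀ m : ℕ,
      ∃ V : Subgroup H, 𝓛.IsOpen V ∧ V ≤ U ∧ p ^ m ∣ V.relIndex U)
    (U : Subgroup H) (w : (𝓛.restrict U).H2 (Rep.res U.subtype C)) :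
    ∃ w' : (𝓛.restrict U).H2 (Rep.res U.subtype C), p • w' = w := by
  have hp : p.Prime := Fact.out
  obtain ⟨N₀, h₀⟩ := 𝓛.nonempty
  obtain ⟨N, hN, hnor, -, y, rfl⟩ := H95.exists_infLevSub₂_eq U F.discrete w h₀
  haveI := hnor
  obtain ⟨N', hN', hnor', hle, r, hr⟩ := exists_normal_level_dvd_relIndex hDIV N hN
  haveI := hnor'
  haveI := 𝓛.finiteIndex N hN
  haveI : Finite (H ⧸ N) := Subgroup.finite_quotient_of_finiteIndex
  haveI := 𝓛.finiteIndex N' hN'
  haveI : Finite (H ⧸ N') := Subgroup.finite_quotient_of_finiteIndex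
  -- finite level `N`: `y` agrees with a multiple of the fundamental class up to prime-to-`p`
  have hS := H17.isPClassModule_res (F.isClass N hN) (H95.subQ U N)
  obtain ⟨P⟩ : Nonempty (Sylow p (H95.subQ U N)) := inferInstance
  obtain ⟨n, hn⟩ := hS.h2_gen (P : Subgroup (H95.subQ U N)) P.isPGroup'
    ((resSub (H95.subRep C U N) (P : Subgroup (H95.subQ U N)) 2).hom y)
  have h1 := H17.coPart_nsmul_eq_of_res_sylow hS y
    (n • (resSub (C.quotientToInvariants N) (H95.subQ U N) 2).hom (F.fund N hN)) P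
    (by rw [map_zsmul]; exact hn)
  -- inflate to `N'`
  have h1' := congrArg (H95.subInf C U N N' hle 2).hom h1
  rw [map_nsmul, map_nsmul, map_zsmul, H95.subInf_resSub] at h1'
  have h2 := H17.coPart_nsmul_infLevel F N N' hN hN' hle (H95.subQ U N')
  rw [hr] at h2
  have hcop : Nat.Coprime (H17.coPart p (H95.subQ U N') * H17.coPart p (H95.subQ U N)) p := by
    rw [Nat.coprime_comm, Nat.Prime.coprime_iff_not_dvd hp, Nat.Prime.dvd_mul hp]
    rintro (h | h)
    · exact H17.not_dvd_coPart p (H95.subQ U N') h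
    · exact H17.not_dvd_coPart p (H95.subQ U N) h
  obtain ⟨t, ht⟩ := exists_nsmul_eq_of_coprime_aux p _ _ r n hcop _ _ _ h1' h2
  refine ⟨H95.infLevSub₂ 𝓛 C U N' hN' t, ?_⟩
  rw [← map_nsmul, ht, H95.infLevSub₂_subInf]

/-- **(I3')** for the envelope datum of a `p`-class formation: given an acyclic `p`-divisible
envelope `0 → C → I → Q → 0` and (DIV), `H²(U; Q[p]) = 0` for every subgroup `U`. -/
theorem axI3_restrict {C : Rep.{0} ℤ H} (F : PClassFormation p 𝓛 C)
    (E : H36.DivEnvelope 𝓛 p C)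
    (hDIV : ∀ U : Subgroup H, 𝓛.IsOpen U → ∀ m : ℕ,
      ∃ V : Subgroup H, 𝓛.IsOpen V ∧ V ≤ U ∧ p ^ m ∣ V.relIndex U)
    (U : Subgroup H)
    (hE1 : Subsingleton ((𝓛.restrict U).H1 (Rep.res U.subtype E.I)))
    (hE2 : Subsingleton ((𝓛.restrict U).H2 (Rep.res U.subtype E.I))) :
    Subsingleton ((𝓛.restrict U).H2 (Rep.res U.subtype (H36.torsionRep p E.Q))) :=
  axI3_of 𝓛 p E U hE1 hE2 (H3_pTorsionFree_restrict F U) (H2_pDivisible_restrict F hDIV U)

/-- **(I3')**, in the form used by the D2 skeleton (`hEac` = acyclicity of the envelope on all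
open subgroups). -/
theorem axI3 {C : Rep.{0} ℤ H} (F : PClassFormation p 𝓛 C)
    (E : H36.DivEnvelope 𝓛 p C)
    (hEac : ∀ U : Subgroup H, 𝓛.IsOpen U →
      Subsingleton ((𝓛.restrict U).H1 (Rep.res U.subtype E.I)) ∧
      Subsingleton ((𝓛.restrict U).H2 (Rep.res U.subtype E.I)))
    (hDIV : ∀ U : Subgroup H, 𝓛.IsOpen U → ∀ m : ℕ,
      ∃ V : Subgroup H, 𝓛.IsOpen V ∧ V ≤ U ∧ p ^ m ∣ V.relIndex U)
    (U : Subgroup H) (hU : 𝓛.IsOpen U) :
    Subsingleton ((𝓛.restrict U).H2 (Rep.res U.subtype (H36.torsionRep p E.Q))) :=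
  axI3_restrict F E hDIV U (hEac U hU).1 (hEac U hU).2

end Formation

end Fermat.Agent.CFT.H52
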