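import Mathlib

/-!
# CFT / D2b : formal core (vocabulary neutral)

Pure diagram chases on abelian groups used to pass from the class-formation module `C`
(with envelope `0 → C → I → Q → 0`, `I` acyclic and `p`-divisible, `W = Q[p]`, `Vm = I[p]`)
to the `W`-model axioms `(I2')`, `(I3')` and `W^U / d(Vm^U) = C^U / p`.

Everything is stated for plain additive groups, additive maps and `Function.Exact`, so any
encoding of the level long exact sequences can feed it.

* `pTors p A` : the subgroup `A[p]` of elements killed by `p`.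
* `injective_of_exact_of_divisible`, `equivPTors` : `H¹(W) ≃ H¹(Q)[p]` from the long exact
  sequence of `0 → W → Q -p→ Q → 0` when `Q⁰` is `p`-divisible.
* `subsingleton_of_exact` : `H²(W) = 0`.
* `bijective_of_exact_of_subsingleton` : a connecting map between two vanishing groups.
* `divisible_of_torsion_of_no_p_torsion` : torsion without `p`-torsion is `p`-divisible.
* `divisible_of_exact` : an extension of `p`-divisible groups is `p`-divisible.
* `no_p_torsion_of_injective` : transport of `p`-torsion-freeness along an injection.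
* `Envelope0` : the degree `0` chase giving `C⁰/p ≃ Q⁰[p] / π(I⁰[p])`.
* `torsEquivZMod` : `A[p] ≃+ ZMod p` when `A[p]` is generated by a nonzero element.
-/

set_option autoImplicit false

namespace Fermat.Agent.CFT.H62

open Function

/-- The subgroup `A[p]` of elements killed by `p`. -/
def pTors (p : ℕ) (A : Type*) [AddCommGroup A] : AddSubgroup A where
  carrier := {x | p • x = 0}
  zero_mem' := smul_zero p
  add_mem' := fun {a b} ha hb => by
    change p • a = 0 at ha
    change p • b = 0 at hb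
    change p • (a + b) = 0
    rw [smul_add, ha, hb, add_zero]
  neg_mem' := fun {a} ha => by
    change p • a = 0 at ha
    change p • (-a) = 0
    rw [smul_neg, ha, neg_zero]

@[simp]
theorem mem_pTors {p : ℕ} {A : Type*} [AddCommGroup A] {x : A} : x ∈ pTors p A ↔ p • x = 0 :=
  Iff.rfl

section Torsion

variable {A B C : Type*} [AddCommGroup A] [AddCommGroup B] [AddCommGroup C]

/-- `(I2')`, first half.  From the piece `Q⁰ -a→ H¹W -b→ H¹Q` of the long exact
sequence of `0 → W → Q -p→ Q → 0` with `Q⁰` `p`-divisible (and `a ∘ p = 0`): `b` is injective. -/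
theorem injective_of_exact_of_divisible (p : ℕ) (a : A →+ B) (b : B →+ C)
    (hab : Exact a b) (hdiv : ∀ x : A, ∃ y : A, p • y = x) (hap : ∀ y : A, a (p • y) = 0) :
    Injective b := by
  rw [injective_iff_map_eq_zero]
  intro x hx
  obtain ⟨q, rfl⟩ := (hab x).1 hx
  obtain ⟨y, rfl⟩ := hdiv q
  exact hap y

/-- The bijection `H¹W ≃ H¹Q[p]` packaged as an additive equivalence onto the torsion subgroup:
`Q⁰ -a→ H¹W -b→ H¹Q -p→ H¹Q` exact, `Q⁰` `p`-divisible. -/
noncomputable def equivPTors (p : ℕ) (a : A →+ B) (b : B →+ C)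
    (hab : Exact a b) (hdiv : ∀ x : A, ∃ y : A, p • y = x) (hap : ∀ y : A, a (p • y) = 0)
    (hbp : ∀ y : C, p • y = 0 ↔ y ∈ Set.range b) :
    B ≃+ pTors p C :=
  AddEquiv.ofBijective
    (b.codRestrict (pTors p C) (fun x => (hbp (b x)).2 ⟨x, rfl⟩))
    ⟨fun x y h => injective_of_exact_of_divisible p a b hab hdiv hap (by
        simpa using congrArg Subtype.val h),
     fun ⟨y, hy⟩ => by
      obtain ⟨x, hx⟩ := (hbp y).1 hy
      exact ⟨x, Subtype.ext hx⟩⟩

@[simp]
theorem equivPTors_apply_coe (p : ℕ) (a : A →+ B) (b : B →+ C)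
    (hab : Exact a b) (hdiv : ∀ x : A, ∃ y : A, p • y = x) (hap : ∀ y : A, a (p • y) = 0)
    (hbp : ∀ y : C, p • y = 0 ↔ y ∈ Set.range b) (x : B) :
    ((equivPTors p a b hab hdiv hap hbp x : pTors p C) : C) = b x := rfl

/-- An additive equivalence restricts to the `p`-torsion subgroups. -/
noncomputable def pTorsCongr (p : ℕ) (e : A ≃+ B) : pTors p A ≃+ pTors p B where
  toFun x := ⟨e x.1, by
    have := x.2
    rw [mem_pTors] at this ⊢
    rw [← map_nsmul, this, map_zero]⟩
  invFun y := ⟨e.symm y.1, by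
    have := y.2
    rw [mem_pTors] at this ⊢
    rw [← map_nsmul, this, map_zero]⟩
  left_inv x := Subtype.ext (e.symm_apply_apply _)
  right_inv y := Subtype.ext (e.apply_symm_apply _)
  map_add' x y := Subtype.ext (map_add e _ _)

@[simp]
theorem pTorsCongr_apply_coe (p : ℕ) (e : A ≃+ B) (x : pTors p A) :
    ((pTorsCongr p e x : pTors p B) : B) = e x.1 := rfl

end Torsion

section Vanishing

variable {A B C : Type*} [AddCommGroup A] [AddCommGroup B] [AddCommGroup C]

/-- `(I3')`.  From the piece `H¹Q -c→ H²W -e→ H²Q` of the long exact sequence of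
`0 → W → Q -p→ Q → 0` (with `c ∘ p = 0`): if `H¹Q` is `p`-divisible, `H²W` is killed by `p` and
`H²Q` has no `p`-torsion, then `H²W = 0`. -/
theorem subsingleton_of_exact (p : ℕ) (c : A →+ B) (e : B →+ C)
    (hce : Exact c e) (hdiv : ∀ x : A, ∃ y : A, p • y = x) (hcp : ∀ y : A, c (p • y) = 0)
    (hB : ∀ x : B, p • x = 0) (hC : ∀ y : C, p • y = 0 → y = 0) :
    Subsingleton B := by
  refine subsingleton_of_forall_eq 0 fun x => ?_
  have hex : e x = 0 := hC _ (by rw [← map_nsmul, hB, map_zero])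
  obtain ⟨y, rfl⟩ := (hce x).1 hex
  obtain ⟨z, rfl⟩ := hdiv y
  exact hcp z

/-- Connecting maps squeezed between two vanishing groups are bijective:
`H¹I → H¹Q -δ→ H²C → H²I` exact with `H¹I = 0 = H²I`. -/
theorem bijective_of_exact_of_subsingleton {A' D : Type*} [AddCommGroup A'] [AddCommGroup D]
    (f : A' →+ A) (δ : A →+ B) (g : B →+ D) (hfδ : Exact f δ) (hδg : Exact δ g)
    [Subsingleton A'] [Subsingleton D] : Bijective δ := by
  constructor
  · rw [injective_iff_map_eq_zero]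
    intro x hx
    obtain ⟨y, rfl⟩ := (hfδ x).1 hx
    rw [Subsingleton.elim y 0, map_zero]
  · intro y
    exact (hδg y).1 (Subsingleton.elim _ _)

/-- Injectivity only: `H²I → H²Q -δ→ H³C` exact with `H²I = 0`. -/
theorem injective_of_exact_of_subsingleton {A' : Type*} [AddCommGroup A']
    (f : A' →+ A) (δ : A →+ B) (hfδ : Exact f δ) [Subsingleton A'] : Injective δ := by
  rw [injective_iff_map_eq_zero]
  intro x hx
  obtain ⟨y, rfl⟩ := (hfδ x).1 hx
  rw [Subsingleton.elim y 0, map_zero]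

/-- `p`-torsion-freeness is inherited along an injective additive map. -/
theorem no_p_torsion_of_injective (p : ℕ) (f : A →+ B) (hf : Injective f)
    (hB : ∀ y : B, p • y = 0 → y = 0) (x : A) (hx : p • x = 0) : x = 0 := by
  apply hf
  rw [map_zero]
  apply hB
  rw [← map_nsmul, hx, map_zero]

/-- `p`-divisibility is inherited along a surjective additive map. -/
theorem divisible_of_surjective (p : ℕ) (f : A →+ B) (hf : Surjective f)
    (hA : ∀ x : A, ∃ y : A, p • y = x) (x : B) : ∃ y : B, p • y = x := by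
  obtain ⟨a, rfl⟩ := hf x
  obtain ⟨a', rfl⟩ := hA a
  exact ⟨f a', (map_nsmul f p a').symm⟩

end Vanishing

section Divisible

variable {A B C : Type*} [AddCommGroup A] [AddCommGroup B] [AddCommGroup C]

/-- No `p`-torsion implies no `p^a`-torsion. -/
theorem no_p_pow_torsion (p : ℕ) (hnop : ∀ x : A, p • x = 0 → x = 0) :
    ∀ (a : ℕ) (z : A), p ^ a • z = 0 → z = 0 := by
  intro a
  induction a with
  | zero => intro z hz; simpa using hz
  | succ n ih =>
    intro z hz
    apply ih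
    apply hnop
    rw [← mul_nsmul', ← pow_succ']
    exact hz

/-- An element killed by an integer prime to `p` is divisible by `p`. -/
theorem exists_nsmul_eq_of_coprime (p m' : ℕ) (hcop : Nat.Coprime p m') (w : A)
    (hw : m' • w = 0) : ∃ z : A, p • z = w := by
  have hbez : (p : ℤ).gcd m' = 1 := by
    rw [Int.gcd_natCast_natCast]; exact hcop
  have hb := Int.gcd_eq_gcd_ab (p : ℤ) (m' : ℤ)
  rw [hbez] at hb
  refine ⟨(Int.gcdA p m') • w, ?_⟩
  have h2 : ((m' : ℤ) * Int.gcdB p m') • w = 0 := by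
    rw [mul_comm, mul_smul, natCast_zsmul, hw, smul_zero]
  calc p • (Int.gcdA p m') • w = ((p : ℤ) * Int.gcdA p m') • w := by
        rw [mul_smul, natCast_zsmul]
    _ = ((p : ℤ) * Int.gcdA p m') • w + ((m' : ℤ) * Int.gcdB p m') • w := by rw [h2, add_zero]
    _ = ((1 : ℕ) : ℤ) • w := by rw [← add_smul, ← hb]
    _ = w := by simp

/-- Primary decomposition of an element killed by `q * m'` with `q`, `m'` coprime. -/
theorem exists_add_of_coprime_mul_nsmul_eq_zero (q m' : ℕ) (hcop : Nat.Coprime q m') (y : A)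
    (hy : (q * m') • y = 0) : ∃ y₁ y₂ : A, y = y₁ + y₂ ∧ q • y₁ = 0 ∧ m' • y₂ = 0 := by
  have hbez : (q : ℤ).gcd m' = 1 := by
    rw [Int.gcd_natCast_natCast]; exact hcop
  have hb := Int.gcd_eq_gcd_ab (q : ℤ) (m' : ℤ)
  rw [hbez] at hb
  refine ⟨((m' : ℤ) * Int.gcdB q m') • y, ((q : ℤ) * Int.gcdA q m') • y, ?_, ?_, ?_⟩
  · rw [← add_smul, add_comm, ← hb]; simp
  · rw [← natCast_zsmul, ← mul_smul, ← mul_assoc, ← Nat.cast_mul, mul_comm, mul_smul,
      natCast_zsmul, hy, smul_zero]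
  · rw [← natCast_zsmul, ← mul_smul, ← mul_assoc, ← Nat.cast_mul, mul_comm m' q, mul_comm,
      mul_smul, natCast_zsmul, hy, smul_zero]

/-- A torsion abelian group without `p`-torsion is `p`-divisible. -/
theorem divisible_of_torsion_of_no_p_torsion (p : ℕ) (hp : p.Prime)
    (htors : ∀ x : A, ∃ m : ℕ, 0 < m ∧ m • x = 0)
    (hnop : ∀ x : A, p • x = 0 → x = 0) (x : A) : ∃ y : A, p • y = x := by
  obtain ⟨m, hm, hmx⟩ := htors x
  -- split `m = p^a * m'` with `p ∤ m'`; then `m' • x` is killed by `p^a`, hence zero.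
  obtain ⟨a, m', hm', rfl⟩ := Nat.exists_eq_pow_mul_and_not_dvd hm.ne' p hp.ne_one
  have h1 : m' • x = 0 := by
    apply no_p_pow_torsion p hnop a
    rw [← mul_nsmul']
    exact hmx
  exact exists_nsmul_eq_of_coprime p m' ((Nat.Prime.coprime_iff_not_dvd hp).2 hm') x h1

/-- An extension of `p`-divisible groups is `p`-divisible: `A -f→ B -g→ C` exact, `g` onto. -/
theorem divisible_of_exact (p : ℕ) (f : A →+ B) (g : B →+ C) (hfg : Exact f g)
    (hg : Surjective g) (hA : ∀ x : A, ∃ y : A, p • y = x) (hC : ∀ x : C, ∃ y : C, p • y = x)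
    (x : B) : ∃ y : B, p • y = x := by
  obtain ⟨c, hc⟩ := hC (g x)
  obtain ⟨b, rfl⟩ := hg c
  have h0 : g (x - p • b) = 0 := by rw [map_sub, map_nsmul, hc, sub_self]
  obtain ⟨a, ha⟩ := (hfg _).1 h0
  obtain ⟨a', rfl⟩ := hA a
  refine ⟨f a' + b, ?_⟩
  rw [smul_add, ← map_nsmul, ha]
  abel

/-- Variant of `divisible_of_exact` where only the image of `g` is assumed `p`-divisible. -/
theorem divisible_of_exact' (p : ℕ) (f : A →+ B) (g : B →+ C) (hfg : Exact f g)
    (hA : ∀ x : A, ∃ y : A, p • y = x)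
    (hC : ∀ x : B, ∃ y : B, p • g y = g x) (x : B) : ∃ y : B, p • y = x := by
  obtain ⟨b, hb⟩ := hC x
  have h0 : g (x - p • b) = 0 := by rw [map_sub, map_nsmul, hb, sub_self]
  obtain ⟨a, ha⟩ := (hfg _).1 h0
  obtain ⟨a', rfl⟩ := hA a
  refine ⟨f a' + b, ?_⟩
  rw [smul_add, ← map_nsmul, ha]
  abel

end Divisible

/-! ### Degree `0` : `C⁰ / p ≃ Q⁰[p] / π (I⁰[p])`

`0 → C⁰ -ι→ I⁰ -π→ Q⁰ -δ→ X` exact (`X = H¹(U;C)`), `I⁰` `p`-divisible, `X` without `p`-torsion.
For `a ∈ C⁰` choose `i ∈ I⁰` with `p • i = ι a`; then `π i ∈ Q⁰[p]` and its class modulo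
`π (I⁰[p])` only depends on `a`.  This is the isomorphism `C^U / p ≃ W^U / d(Vm^U)`. -/

section Envelope0

variable {C0 I0 Q0 X : Type*} [AddCommGroup C0] [AddCommGroup I0] [AddCommGroup Q0]
  [AddCommGroup X]

/-- The restriction of an additive map to the `p`-torsion subgroups. -/
def dTors (p : ℕ) (π : I0 →+ Q0) : pTors p I0 →+ pTors p Q0 :=
  (π.comp (pTors p I0).subtype).codRestrict (pTors p Q0) (fun x => by
    have := x.2
    rw [mem_pTors] at this ⊢
    change p • π x.1 = 0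
    rw [← map_nsmul, this, map_zero])

@[simp]
theorem dTors_apply_coe (p : ℕ) (π : I0 →+ Q0) (x : pTors p I0) :
    ((dTors p π x : pTors p Q0) : Q0) = π x.1 := rfl

/-- The data of the degree-`0` chase. -/
structure Envelope0 (p : ℕ) (ι : C0 →+ I0) (π : I0 →+ Q0) (δ : Q0 →+ X) : Prop where
  inj : Injective ι
  exact_ιπ : Exact ι π
  exact_πδ : Exact π δ
  div : ∀ x : I0, ∃ y : I0, p • y = x
  notors : ∀ x : X, p • x = 0 → x = 0

namespace Envelope0

variable {p : ℕ} {ι : C0 →+ I0} {π : I0 →+ Q0} {δ : Q0 →+ X} (E : Envelope0 p ι π δ)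

/-- a chosen `p`-th root in `I⁰` of `ι a` -/
noncomputable def root (a : C0) : I0 := (E.div (ι a)).choose

theorem root_spec (a : C0) : p • E.root a = ι a := (E.div (ι a)).choose_spec

include E in
theorem pi_mem (a : C0) (i : I0) (hi : p • i = ι a) : π i ∈ pTors p Q0 := by
  rw [mem_pTors, ← map_nsmul, hi]
  exact (E.exact_ιπ _).2 ⟨a, rfl⟩

include E in
/-- Every element of `Q⁰[p]` is `π i` with `p • i ∈ ι C⁰`. -/
theorem exists_root_of_mem {w : Q0} (hw : w ∈ pTors p Q0) :
    ∃ (i : I0) (a : C0), p • i = ι a ∧ π i = w := by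
  rw [mem_pTors] at hw
  have h1 : δ w = 0 := E.notors _ (by rw [← map_nsmul, hw, map_zero])
  obtain ⟨i, rfl⟩ := (E.exact_πδ w).1 h1
  rw [← map_nsmul] at hw
  obtain ⟨a, ha⟩ := (E.exact_ιπ _).1 hw
  exact ⟨i, a, ha.symm, rfl⟩

/-- `a ↦ [π (p-th root of ι a)]` as an additive map `C⁰ → Q⁰[p] / π (I⁰[p])`. -/
noncomputable def toQuot : C0 →+ pTors p Q0 ⧸ (dTors p π).range :=
  AddMonoidHom.mk' (fun a => QuotientAddGroup.mk ⟨π (E.root a), E.pi_mem a _ (E.root_spec a)⟩)
    (fun a b => by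
      rw [← QuotientAddGroup.mk_add, QuotientAddGroup.eq]
      refine ⟨⟨-(E.root (a + b)) + (E.root a + E.root b), ?_⟩, ?_⟩
      · rw [mem_pTors, smul_add, smul_neg, smul_add, E.root_spec, E.root_spec, E.root_spec,
          map_add]
        abel
      · apply Subtype.ext
        simp only [dTors_apply_coe, map_add, map_neg, AddSubgroup.coe_add, AddSubgroup.coe_neg])

theorem toQuot_eq (a : C0) (i : I0) (hi : p • i = ι a) :
    E.toQuot a = QuotientAddGroup.mk ⟨π i, E.pi_mem a i hi⟩ := by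
  change (QuotientAddGroup.mk ⟨π (E.root a), E.pi_mem a _ (E.root_spec a)⟩ :
    pTors p Q0 ⧸ (dTors p π).range) = _
  rw [QuotientAddGroup.eq]
  refine ⟨⟨-(E.root a) + i, ?_⟩, ?_⟩
  · rw [mem_pTors, smul_add, smul_neg, E.root_spec, hi]
    abel
  · apply Subtype.ext
    simp only [dTors_apply_coe, map_add, map_neg, AddSubgroup.coe_add, AddSubgroup.coe_neg]

theorem toQuot_surjective : Surjective E.toQuot := by
  intro w
  induction w using QuotientAddGroup.induction_on with
  | H w =>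
    obtain ⟨i, a, hi, hw⟩ := E.exists_root_of_mem w.2
    refine ⟨a, ?_⟩
    rw [E.toQuot_eq a i hi]
    congr 1
    exact Subtype.ext hw

theorem toQuot_eq_zero_iff (a : C0) : E.toQuot a = 0 ↔ ∃ c : C0, p • c = a := by
  constructor
  · intro h
    change (QuotientAddGroup.mk ⟨π (E.root a), E.pi_mem a _ (E.root_spec a)⟩ :
      pTors p Q0 ⧸ (dTors p π).range) = 0 at h
    rw [QuotientAddGroup.eq_zero_iff] at h
    obtain ⟨v, hv⟩ := h
    have hv' : π v.1 = π (E.root a) := congrArg Subtype.val hv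
    have h0 : π (E.root a - v.1) = 0 := by rw [map_sub, hv', sub_self]
    obtain ⟨c, hc⟩ := (E.exact_ιπ _).1 h0
    refine ⟨c, E.inj ?_⟩
    have hvp : p • v.1 = 0 := v.2
    rw [map_nsmul, hc, smul_sub, E.root_spec, hvp, sub_zero]
  · rintro ⟨c, rfl⟩
    rw [E.toQuot_eq (p • c) (ι c) (map_nsmul ι p c).symm, QuotientAddGroup.eq_zero_iff]
    refine ⟨0, ?_⟩
    apply Subtype.ext
    rw [map_zero]
    exact ((E.exact_ιπ _).2 ⟨c, rfl⟩).symm

theorem ker_toQuot : E.toQuot.ker = (nsmulAddMonoidHom (α := C0) p).range := by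
  ext a
  rw [AddMonoidHom.mem_ker, E.toQuot_eq_zero_iff, AddMonoidHom.mem_range]
  rfl

/-- The isomorphism `C⁰ / p ≃ Q⁰[p] / π (I⁰[p])`, i.e. `C^U / p ≃ W^U / d (Vm^U)`. -/
noncomputable def equiv :
    C0 ⧸ (nsmulAddMonoidHom (α := C0) p).range ≃+ pTors p Q0 ⧸ (dTors p π).range :=
  (QuotientAddGroup.quotientAddEquivOfEq E.ker_toQuot.symm).trans
    (QuotientAddGroup.quotientKerEquivOfSurjective E.toQuot E.toQuot_surjective)

theorem equiv_mk (a : C0) (i : I0) (hi : p • i = ι a) :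
    E.equiv (QuotientAddGroup.mk a) = QuotientAddGroup.mk ⟨π i, E.pi_mem a i hi⟩ := by
  rw [← E.toQuot_eq a i hi]
  rfl

end Envelope0

end Envelope0

/-! ### `A[p] ≃ ZMod p` from a generator -/

section ZModTors

variable {A : Type*} [AddCommGroup A]

/-- the additive map `ZMod p → A`, `n ↦ n • c`, for `c` killed by `p` -/
noncomputable def zmodToTors (p : ℕ) (c : A) (hpc : p • c = 0) : ZMod p →+ pTors p A :=
  ZMod.lift p ⟨((zmultiplesHom (pTors p A)) ⟨c, hpc⟩ : ℤ →+ pTors p A), by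
    apply Subtype.ext
    simp only [zmultiplesHom_apply, natCast_zsmul]
    exact hpc⟩

theorem zmodToTors_intCast (p : ℕ) (c : A) (hpc : p • c = 0) (n : ℤ) :
    ((zmodToTors p c hpc (n : ZMod p) : pTors p A) : A) = n • c := by
  unfold zmodToTors
  rw [ZMod.lift_coe]
  simp

theorem zmodToTors_bijective (p : ℕ) [hp : Fact p.Prime] (c : A) (hc0 : c ≠ 0)
    (hpc : p • c = 0) (hgen : ∀ x : A, p • x = 0 → ∃ n : ℤ, x = n • c) :
    Bijective (zmodToTors p c hpc) := by
  have hord : addOrderOf c = p := addOrderOf_eq_prime hpc hc0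
  constructor
  · rw [injective_iff_map_eq_zero]
    intro a ha
    obtain ⟨n, rfl⟩ := ZMod.intCast_surjective a
    have h1 : n • c = 0 := by
      rw [← zmodToTors_intCast p c hpc n, ha]; rfl
    rw [ZMod.intCast_zmod_eq_zero_iff_dvd, ← hord]
    exact addOrderOf_dvd_iff_zsmul_eq_zero.2 h1
  · rintro ⟨x, hx⟩
    obtain ⟨n, rfl⟩ := hgen x hx
    exact ⟨(n : ZMod p), Subtype.ext (zmodToTors_intCast p c hpc n)⟩

/-- `A[p] ≃ ZMod p` when `A[p]` is generated by a nonzero element `c`; `c ↦ 1`. -/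
noncomputable def torsEquivZMod (p : ℕ) [hp : Fact p.Prime] (c : A) (hc0 : c ≠ 0)
    (hpc : p • c = 0) (hgen : ∀ x : A, p • x = 0 → ∃ n : ℤ, x = n • c) :
    pTors p A ≃+ ZMod p :=
  (AddEquiv.ofBijective (zmodToTors p c hpc) (zmodToTors_bijective p c hc0 hpc hgen)).symm

theorem torsEquivZMod_zsmul (p : ℕ) [hp : Fact p.Prime] (c : A) (hc0 : c ≠ 0)
    (hpc : p • c = 0) (hgen : ∀ x : A, p • x = 0 → ∃ n : ℤ, x = n • c) (n : ℤ)
    (h : n • c ∈ pTors p A) :
    torsEquivZMod p c hc0 hpc hgen ⟨n • c, h⟩ = (n : ZMod p) := by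
  unfold torsEquivZMod
  rw [AddEquiv.symm_apply_eq]
  exact Subtype.ext (zmodToTors_intCast p c hpc n).symm

theorem torsEquivZMod_gen (p : ℕ) [Fact p.Prime] (c : A) (hc0 : c ≠ 0)
    (hpc : p • c = 0) (hgen : ∀ x : A, p • x = 0 → ∃ n : ℤ, x = n • c) :
    torsEquivZMod p c hc0 hpc hgen ⟨c, hpc⟩ = 1 := by
  have := torsEquivZMod_zsmul p c hc0 hpc hgen 1 (by rw [one_smul]; exact hpc)
  simpa using this

theorem coe_torsEquivZMod_symm (p : ℕ) [Fact p.Prime] (c : A) (hc0 : c ≠ 0)
    (hpc : p • c = 0) (hgen : ∀ x : A, p • x = 0 → ∃ n : ℤ, x = n • c) (n : ℤ) :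
    (((torsEquivZMod p c hc0 hpc hgen).symm (n : ZMod p) : pTors p A) : A) = n • c :=
  zmodToTors_intCast p c hpc n

end ZModTors

end Fermat.Agent.CFT.H62
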