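/-
CFT project, layer D, package D2b-cor (helper83): in a `p`-class formation, for an open subgroup
`U`, the `p`-torsion of the level cohomology `H²(U; C)` is generated by a canonical class `tSub`,
that of `H²(Γ; C)` by `tTop`, and the corestriction (helper50's `H50.corH2`) maps `tSub` to
`tTop`; hence `cor : H²(U; C)[p] → H²(Γ; C)[p]` is bijective.  No finite-level corestriction is
used: only `cor ∘ res = [Γ : U]` on level cohomology.
-/
import Mathlib
import Fermat.Agent.CFT.H83_FormationPSub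
import Fermat.Agent.CFT.H50_LevelCor
import Fermat.Agent.CFT.H62_D2bFormal

set_option autoImplicit false
set_option linter.unusedSectionVars false

open CategoryTheory groupCohomology

namespace Fermat.Agent.CFT.H83

open Fermat.Agent.CFT.H95

/-! ## `cP` in the normalisation `(|G| / p) • γ` -/

section Normalisation

variable {G : Type} [Group G] [Finite G] {p : ℕ} [Fact p.Prime] (C : Rep.{0} ℤ G)
  (γ : groupCohomology C 2)

/-- `cP = (|G| / p) • γ` as soon as `p ∣ |G|`. -/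
theorem cP_eq (hdvd : p ∣ Nat.card G) : cP p C γ = (Nat.card G / p) • γ := by
  rw [cP, gammaP, smul_smul]
  congr 1
  conv_rhs => rw [← Nat.ordProj_mul_ordCompl_eq_self (Nat.card G) p]
  rw [Nat.mul_div_right_comm (p_dvd_ordProj hdvd)]

end Normalisation

section Classes

variable {Γ : Type} [Group Γ] {𝓛 : LevelStructure Γ} {C : Rep.{0} ℤ Γ} {p : ℕ} [Fact p.Prime]
  (F : PClassFormation p 𝓛 C) (U N : Subgroup Γ) (hN : N ∈ 𝓛.levels) [N.Normal]

/-- The canonical `p`-torsion class of `H²(Γ; C)` seen from the normal level `N`. -/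
noncomputable def tTop : 𝓛.H2 C :=
  infLev₂ 𝓛 C N hN (cP p (C.quotientToInvariants N) (F.fund N hN))

/-- The canonical `p`-torsion class of `H²(U; C)` seen from the normal level `N`. -/
noncomputable def tSub : (𝓛.restrict U).H2 (Rep.res U.subtype C) :=
  infLevSub₂ 𝓛 C U N hN (cP p (subRep C U N) (fundSub F U N hN))

theorem p_nsmul_tTop (hdvd : p ∣ Nat.card (Γ ⧸ N)) : p • tTop F N hN = 0 := by
  have := finite_quotient_level N hN
  rw [tTop, ← map_nsmul, p_nsmul_cP hdvd, map_zero]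

theorem p_nsmul_tSub (hdvd : p ∣ Nat.card (subQ U N)) : p • tSub F U N hN = 0 := by
  have := finite_quotient_level N hN
  rw [tSub, ← map_nsmul, p_nsmul_cP hdvd, map_zero]

/-! ### independence of the level -/

variable (N' : Subgroup Γ) (hN' : N' ∈ 𝓛.levels) [N'.Normal] (h : N' ≤ N)

include h in
theorem tTop_eq (hdvd : p ∣ Nat.card (Γ ⧸ N)) : tTop F N' hN' = tTop F N hN := by
  rw [tTop, tTop, ← infLevel_cP F N N' hN hN' h hdvd, infLev₂_infLevel 𝓛 C N N' h hN hN']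

include h in
theorem tSub_eq (hNU : N ≤ U) (hdvd : p ∣ Nat.card (subQ U N)) :
    tSub F U N' hN' = tSub F U N hN := by
  rw [tSub, tSub, ← subInf_cP F U N N' hN hN' h hNU hdvd,
    infLevSub₂_subInf 𝓛 C U N hN N' h hN']

include h hN' in
theorem dvd_card_subQ_of_le (hdvd : p ∣ Nat.card (subQ U N)) (hNU : N ≤ U) :
    p ∣ Nat.card (subQ U N') := by
  have := 𝓛.finiteIndex N' hN'
  rw [card_subQ_mul U N N' h hNU]
  exact Dvd.dvd.mul_right hdvd _

/-- `tTop` does not depend on the normal level (of index divisible by `p`) at all. -/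
theorem tTop_eq_of_dvd (M : Subgroup Γ) (hM : M ∈ 𝓛.levels) [M.Normal]
    (hdvd : p ∣ Nat.card (Γ ⧸ N)) (hdvdM : p ∣ Nat.card (Γ ⧸ M)) :
    tTop F N hN = tTop F M hM := by
  obtain ⟨N₃, h₃, hnor, hle, hle'⟩ := exists_normal_level_le 𝓛 hN hM
  rw [← tTop_eq F N hN N₃ h₃ hle hdvd, ← tTop_eq F M hM N₃ h₃ hle' hdvdM]

/-- `tSub` does not depend on the normal level `≤ U` (of relative index divisible by `p`). -/
theorem tSub_eq_of_dvd (M : Subgroup Γ) (hM : M ∈ 𝓛.levels) [M.Normal] (hNU : N ≤ U)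
    (hMU : M ≤ U) (hdvd : p ∣ Nat.card (subQ U N)) (hdvdM : p ∣ Nat.card (subQ U M)) :
    tSub F U N hN = tSub F U M hM := by
  obtain ⟨N₃, h₃, hnor, hle, hle'⟩ := exists_normal_level_le 𝓛 hN hM
  rw [← tSub_eq F U N hN N₃ h₃ hle hNU hdvd, ← tSub_eq F U M hM N₃ h₃ hle' hMU hdvdM]

/-- (S-1) normalisation: the class `(|Γ/M| / p) • fund M` of ANY normal level `M` with
`p ∣ |Γ/M|` inflates to `tTop`. -/
theorem infLev₂_card_div_nsmul (M : Subgroup Γ) (hM : M ∈ 𝓛.levels) [M.Normal]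
    (hdvd : p ∣ Nat.card (Γ ⧸ N)) (hdvdM : p ∣ Nat.card (Γ ⧸ M)) :
    infLev₂ 𝓛 C M hM ((Nat.card (Γ ⧸ M) / p) • F.fund M hM) = tTop F N hN := by
  have := finite_quotient_level M hM
  rw [tTop_eq_of_dvd F N hN M hM hdvd hdvdM, tTop, cP_eq _ _ hdvdM]

/-- the same for an open subgroup `U`. -/
theorem infLevSub₂_card_div_nsmul (M : Subgroup Γ) (hM : M ∈ 𝓛.levels) [M.Normal] (hNU : N ≤ U)
    (hMU : M ≤ U) (hdvd : p ∣ Nat.card (subQ U N)) (hdvdM : p ∣ Nat.card (subQ U M)) :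
    infLevSub₂ 𝓛 C U M hM ((Nat.card (subQ U M) / p) • fundSub F U M hM) = tSub F U N hN := by
  have := finite_quotient_level M hM
  rw [tSub_eq_of_dvd F U N hN M hM hNU hMU hdvd hdvdM, tSub, cP_eq _ _ hdvdM]

theorem dvd_card_quotient_of_subQ (hdvd : p ∣ Nat.card (subQ U N)) : p ∣ Nat.card (Γ ⧸ N) :=
  hdvd.trans (Subgroup.card_subgroup_dvd_card _)

end Classes

/-! ## The `p`-torsion of `H²` is generated by the canonical classes -/

section Generation

variable {Γ : Type} [Group Γ] {𝓛 : LevelStructure Γ} {C : Rep.{0} ℤ Γ} {p : ℕ} [Fact p.Prime]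
  (F : PClassFormation p 𝓛 C) (U N : Subgroup Γ) (hN : N ∈ 𝓛.levels) [N.Normal]

/-- Every class of `H²(U; C)` killed by `p` is a multiple of `tSub`. -/
theorem exists_zsmul_tSub (hNU : N ≤ U) (hdvd : p ∣ Nat.card (subQ U N))
    (x : (𝓛.restrict U).H2 (Rep.res U.subtype C)) (hx : p • x = 0) :
    ∃ n : ℤ, x = n • tSub F U N hN := by
  obtain ⟨N₁, hN₁, hnor₁, hle₁, y, rfl⟩ := exists_infLevSub₂_eq U F.discrete x hN
  rw [← map_nsmul] at hx
  obtain ⟨N₂, hN₂, hnor₂, hle₂, hy⟩ := exists_subInf_eq_zero₂ U F.discrete hN₁ (p • y) hx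
  rw [map_nsmul] at hy
  have hle : N₂ ≤ N := hle₂.trans hle₁
  have := finite_quotient_level N₂ hN₂
  have hdvd₂ : p ∣ Nat.card (subQ U N₂) := dvd_card_subQ_of_le U N N₂ hN₂ hle hdvd hNU
  obtain ⟨n, hn⟩ := exists_eq_zsmul_cP (isPClassModule_sub F U N₂ hN₂) hdvd₂ _ hy
  refine ⟨n, ?_⟩
  rw [← infLevSub₂_subInf 𝓛 C U N₁ hN₁ N₂ hle₂ hN₂, hn, map_zsmul,
    ← tSub_eq F U N hN N₂ hN₂ hle hNU hdvd, tSub]

/-- `tSub ≠ 0`. -/
theorem tSub_ne_zero (hNU : N ≤ U) (hdvd : p ∣ Nat.card (subQ U N)) : tSub F U N hN ≠ 0 := by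
  intro h0
  have hp : p.Prime := Fact.out
  rw [tSub] at h0
  obtain ⟨N₂, hN₂, hnor₂, hle₂, hy⟩ := exists_subInf_eq_zero₂ U F.discrete hN _ h0
  rw [subInf_cP F U N N₂ hN hN₂ hle₂ hNU hdvd] at hy
  have := finite_quotient_level N₂ hN₂
  have hdvd₂ : p ∣ Nat.card (subQ U N₂) := dvd_card_subQ_of_le U N N₂ hN₂ hle₂ hdvd hNU
  have h1 := addOrderOf_cP (isPClassModule_sub F U N₂ hN₂) hdvd₂
  rw [hy, addOrderOf_zero] at h1
  exact hp.one_lt.ne h1

/-- Every class of `H²(Γ; C)` killed by `p` is a multiple of `tTop`. -/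
theorem exists_zsmul_tTop (hdvd : p ∣ Nat.card (Γ ⧸ N)) (x : 𝓛.H2 C) (hx : p • x = 0) :
    ∃ n : ℤ, x = n • tTop F N hN := by
  obtain ⟨N₁, hN₁, hnor₁, hle₁, y, rfl⟩ := exists_infLev₂_eq F.discrete x hN
  rw [← map_nsmul] at hx
  obtain ⟨N₂, hN₂, hnor₂, hle₂, hy⟩ := exists_infLevel_eq_zero₂ F.discrete hN₁ (p • y) hx
  rw [map_nsmul] at hy
  have hle : N₂ ≤ N := hle₂.trans hle₁
  have := finite_quotient_level N₂ hN₂
  have hdvd₂ : p ∣ Nat.card (Γ ⧸ N₂) := by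
    rw [card_quotient_level N N₂ hle]
    exact Dvd.dvd.mul_right hdvd _
  obtain ⟨n, hn⟩ := exists_eq_zsmul_cP (F.isClass N₂ hN₂) hdvd₂ _ hy
  refine ⟨n, ?_⟩
  rw [← infLev₂_infLevel 𝓛 C N₁ N₂ hle₂ hN₁ hN₂, hn, map_zsmul,
    ← tTop_eq F N hN N₂ hN₂ hle hdvd, tTop]

/-- `tTop ≠ 0`. -/
theorem tTop_ne_zero (hdvd : p ∣ Nat.card (Γ ⧸ N)) : tTop F N hN ≠ 0 := by
  intro h0
  have hp : p.Prime := Fact.out
  rw [tTop] at h0
  obtain ⟨N₂, hN₂, hnor₂, hle₂, hy⟩ := exists_infLevel_eq_zero₂ F.discrete hN _ h0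
  rw [infLevel_cP F N N₂ hN hN₂ hle₂ hdvd] at hy
  have := finite_quotient_level N₂ hN₂
  have hdvd₂ : p ∣ Nat.card (Γ ⧸ N₂) := by
    rw [card_quotient_level N N₂ hle₂]
    exact Dvd.dvd.mul_right hdvd _
  have h1 := addOrderOf_cP (F.isClass N₂ hN₂) hdvd₂
  rw [hy, addOrderOf_zero] at h1
  exact hp.one_lt.ne h1

end Generation

/-! ## Corestriction maps `tSub` to `tTop` -/

section Cor

variable {Γ : Type} [Group Γ] {𝓛 : LevelStructure Γ} {C : Rep.{0} ℤ Γ} {p : ℕ} [Fact p.Prime]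
  (F : PClassFormation p 𝓛 C) (U N : Subgroup Γ) (hN : N ∈ 𝓛.levels) [N.Normal]

/-- restriction multiplies the canonical class by the index: `res_U t_Γ = [Γ : U] • t_U`. -/
theorem resSubH2_tTop (hNU : N ≤ U) (hdvd : p ∣ Nat.card (subQ U N)) :
    H50.resSubH2 𝓛 C U (tTop F N hN) = U.index • tSub F U N hN := by
  have := finite_quotient_level N hN
  have hidx : (subQ U N).index = U.index :=
    Subgroup.index_map_eq U (QuotientGroup.mk'_surjective N)
      (by rw [QuotientGroup.ker_mk']; exact hNU)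
  have hcard : Nat.card (Γ ⧸ N) = Nat.card (subQ U N) * U.index := by
    rw [← hidx, Subgroup.card_mul_index]
  have e1 : (resSub (C.quotientToInvariants N) (subQ U N) 2).hom
      ((Nat.card (Γ ⧸ N) / p) • F.fund N hN) =
      U.index • ((Nat.card (subQ U N) / p) • fundSub F U N hN) := by
    rw [map_nsmul, smul_smul, hcard, Nat.mul_div_right_comm hdvd, mul_comm]
  rw [tTop, tSub, ← infLevSub₂_resSub, cP_eq _ _ (dvd_card_quotient_of_subQ U N hdvd),
    cP_eq _ _ hdvd, e1, map_nsmul]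

variable [Fintype (Γ ⧸ U)] (hU : 𝓛.IsOpen U) (σ : H50.Sec U)

/-- **Corestriction preserves the canonical `p`-torsion classes**: `cor t_U = t_Γ`. -/
theorem corH2_tSub (hNU : N ≤ U) (hdvd : p ∣ Nat.card (subQ U N)) :
    H50.corH2 𝓛 C hU σ (tSub F U N hN) = tTop F N hN := by
  have hp : p.Prime := Fact.out
  have := finite_quotient_level N hN
  have hdvdG := dvd_card_quotient_of_subQ U N hdvd
  have hidx : (subQ U N).index = U.index :=
    Subgroup.index_map_eq U (QuotientGroup.mk'_surjective N)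
      (by rw [QuotientGroup.ker_mk']; exact hNU)
  have hcard : Nat.card (Γ ⧸ N) = Nat.card (subQ U N) * U.index := by
    rw [← hidx, Subgroup.card_mul_index]
  have hU0 : U.index ≠ 0 := by
    rw [← H50.card_eq_index]
    exact Fintype.card_ne_zero
  -- the auxiliary class
  set xG : groupCohomology (C.quotientToInvariants N) 2 :=
    ((Nat.card (subQ U N) / p) * ordCompl[p] U.index) • F.fund N hN with hxG
  set x : 𝓛.H2 C := infLev₂ 𝓛 C N hN xG with hx
  have hA : H50.resSubH2 𝓛 C U x = ordCompl[p] U.index • tSub F U N hN := by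
    have e1 : (resSub (C.quotientToInvariants N) (subQ U N) 2).hom xG =
        ordCompl[p] U.index • ((Nat.card (subQ U N) / p) • fundSub F U N hN) := by
      rw [hxG, map_nsmul, smul_smul, mul_comm]
    rw [hx, ← infLevSub₂_resSub, e1, tSub, cP_eq _ _ hdvd, map_nsmul]
  have hC : U.index • x = ordCompl[p] U.index • tTop F N hN := by
    rw [hx, ← map_nsmul, hxG, smul_smul, tTop, cP_eq _ _ hdvdG, ← map_nsmul, smul_smul, hcard]
    congr 2
    rw [Nat.mul_div_right_comm hdvd]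
    ring
  refine eq_of_coprime_nsmul (m := ordCompl[p] U.index) (n := p) ?_ _ _ ?_ ?_ ?_
  · exact (Nat.coprime_ordCompl hp hU0).symm
  · rw [← map_nsmul, ← hA, H50.corH2_resSubH2, H50.card_eq_index, hC]
  · rw [← map_nsmul, p_nsmul_tSub F U N hN hdvd, map_zero]
  · exact p_nsmul_tTop F N hN hdvdG

include F hN in
/-- corestriction is injective on the `p`-torsion of `H²(U; C)`. -/
theorem corH2_eq_zero_imp (hNU : N ≤ U) (hdvd : p ∣ Nat.card (subQ U N))
    (x : (𝓛.restrict U).H2 (Rep.res U.subtype C)) (hx : p • x = 0)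
    (hcor : H50.corH2 𝓛 C hU σ x = 0) : x = 0 := by
  have hp : p.Prime := Fact.out
  have hdvdG := dvd_card_quotient_of_subQ U N hdvd
  obtain ⟨n, rfl⟩ := exists_zsmul_tSub F U N hN hNU hdvd x hx
  rw [map_zsmul, corH2_tSub F U N hN hU σ hNU hdvd] at hcor
  have hord : addOrderOf (tTop F N hN) = p :=
    addOrderOf_eq_prime (p_nsmul_tTop F N hN hdvdG) (tTop_ne_zero F N hN hdvdG)
  have h1 : (p : ℤ) ∣ n := by
    rw [← hord]; exact addOrderOf_dvd_iff_zsmul_eq_zero.2 hcor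
  obtain ⟨m, rfl⟩ := h1
  rw [mul_comm, mul_zsmul, natCast_zsmul, p_nsmul_tSub F U N hN hdvd, zsmul_zero]

include F hN in
/-- corestriction is surjective onto the `p`-torsion of `H²(Γ; C)`. -/
theorem exists_corH2_eq (hNU : N ≤ U) (hdvd : p ∣ Nat.card (subQ U N))
    (y : 𝓛.H2 C) (hy : p • y = 0) :
    ∃ x : (𝓛.restrict U).H2 (Rep.res U.subtype C), p • x = 0 ∧ H50.corH2 𝓛 C hU σ x = y := by
  have hdvdG := dvd_card_quotient_of_subQ U N hdvd
  obtain ⟨n, rfl⟩ := exists_zsmul_tTop F N hN hdvdG y hy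
  refine ⟨n • tSub F U N hN, ?_, ?_⟩
  · rw [smul_comm, p_nsmul_tSub F U N hN hdvd, zsmul_zero]
  · rw [map_zsmul, corH2_tSub F U N hN hU σ hNU hdvd]

end Cor

/-! ## The invariant maps on the `p`-torsion -/

section Inv

variable {Γ : Type} [Group Γ] {𝓛 : LevelStructure Γ} {C : Rep.{0} ℤ Γ} {p : ℕ} [Fact p.Prime]
  (F : PClassFormation p 𝓛 C) (U N : Subgroup Γ) (hN : N ∈ 𝓛.levels) [N.Normal]

/-- `inv : H²(Γ; C)[p] ≃ ZMod p`, `tTop ↦ 1`. -/
noncomputable def invTop (hdvd : p ∣ Nat.card (Γ ⧸ N)) : H62.pTors p (𝓛.H2 C) ≃+ ZMod p :=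
  H62.torsEquivZMod p (tTop F N hN) (tTop_ne_zero F N hN hdvd) (p_nsmul_tTop F N hN hdvd)
    (exists_zsmul_tTop F N hN hdvd)

/-- `inv_U : H²(U; C)[p] ≃ ZMod p`, `tSub ↦ 1`. -/
noncomputable def invSub (hNU : N ≤ U) (hdvd : p ∣ Nat.card (subQ U N)) :
    H62.pTors p ((𝓛.restrict U).H2 (Rep.res U.subtype C)) ≃+ ZMod p :=
  H62.torsEquivZMod p (tSub F U N hN) (tSub_ne_zero F U N hN hNU hdvd)
    (p_nsmul_tSub F U N hN hdvd) (exists_zsmul_tSub F U N hN hNU hdvd)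

theorem invTop_zsmul (hdvd : p ∣ Nat.card (Γ ⧸ N)) (n : ℤ)
    (h : n • tTop F N hN ∈ H62.pTors p (𝓛.H2 C)) :
    invTop F N hN hdvd ⟨n • tTop F N hN, h⟩ = (n : ZMod p) :=
  H62.torsEquivZMod_zsmul p _ _ _ _ n h

theorem invSub_zsmul (hNU : N ≤ U) (hdvd : p ∣ Nat.card (subQ U N)) (n : ℤ)
    (h : n • tSub F U N hN ∈ H62.pTors p ((𝓛.restrict U).H2 (Rep.res U.subtype C))) :
    invSub F U N hN hNU hdvd ⟨n • tSub F U N hN, h⟩ = (n : ZMod p) :=
  H62.torsEquivZMod_zsmul p _ _ _ _ n h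

variable [Fintype (Γ ⧸ U)] (hU : 𝓛.IsOpen U) (σ : H50.Sec U)

/-- **`inv ∘ cor = inv_U`** on the `p`-torsion of `H²(U; C)`. -/
theorem invTop_corH2 (hNU : N ≤ U) (hdvd : p ∣ Nat.card (subQ U N))
    (x : (𝓛.restrict U).H2 (Rep.res U.subtype C)) (hx : p • x = 0)
    (hx' : p • H50.corH2 𝓛 C hU σ x = 0) :
    invTop F N hN (dvd_card_quotient_of_subQ U N hdvd) ⟨H50.corH2 𝓛 C hU σ x, hx'⟩ =
      invSub F U N hN hNU hdvd ⟨x, hx⟩ := by
  obtain ⟨n, rfl⟩ := exists_zsmul_tSub F U N hN hNU hdvd x hx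
  rw [invSub_zsmul]
  have e : H50.corH2 𝓛 C hU σ (n • tSub F U N hN) = n • tTop F N hN := by
    rw [map_zsmul, corH2_tSub F U N hN hU σ hNU hdvd]
  have h2 : n • tTop F N hN ∈ H62.pTors p (𝓛.H2 C) := by
    rw [← e]; exact hx'
  have e2 : (⟨H50.corH2 𝓛 C hU σ (n • tSub F U N hN), hx'⟩ : H62.pTors p (𝓛.H2 C)) =
      ⟨n • tTop F N hN, h2⟩ := Subtype.ext e
  rw [e2, invTop_zsmul]

end Inv

end Fermat.Agent.CFT.H83
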