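/-
CFT project, layer D (helper52): nested restrictions.  For `U : Subgroup H` and
`V : Subgroup ↥U` the level cohomology of `V` with the doubly restricted level structure
`(𝓛.restrict U).restrict V` is identified with that of `V' := V.map U.subtype ≤ H` with
`𝓛.restrict V'`, compatibly with the restriction maps.  Consequences for a `p`-class formation
(inputs (H2), (H3) of the (I1') assembly, at the group `N₀ = U`).
-/
import Fermat.Agent.CFT.H52_AxI3Final
import Fermat.Agent.CFT.H83_CorInv

set_option autoImplicit false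
set_option linter.style.haveILetI false
set_option linter.unusedSectionVars false

open CategoryTheory groupCohomology

namespace Fermat.Agent.CFT.H52

open Fermat.Agent.CFT LevelStructure

/-! ## The group isomorphism `V ≃ V.map U.subtype` -/

section Groups

variable {H : Type} [Group H] (U : Subgroup H) (V : Subgroup ↥U)

/-- `V → V.map U.subtype`, `g ↦ g`. -/
def fromNested : ↥V →* ↥(V.map U.subtype) where
  toFun g := ⟨g.1.1, Subgroup.mem_map.2 ⟨g.1, g.2, rfl⟩⟩
  map_one' := rfl
  map_mul' _ _ := rfl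

lemma mem_of_mem_map_subtype {x : H} (hx : x ∈ V.map U.subtype) : x ∈ U := by
  obtain ⟨y, _, rfl⟩ := Subgroup.mem_map.1 hx
  exact y.2

lemma mk_mem_of_mem_map_subtype {x : H} (hx : x ∈ V.map U.subtype) :
    (⟨x, mem_of_mem_map_subtype U V hx⟩ : ↥U) ∈ V := by
  obtain ⟨y, hyV, hy⟩ := Subgroup.mem_map.1 hx
  have h : y = ⟨x, mem_of_mem_map_subtype U V hx⟩ := Subtype.ext hy
  rwa [← h]

/-- `V.map U.subtype → V`, `x ↦ x`. -/
def toNested : ↥(V.map U.subtype) →* ↥V where
  toFun x := ⟨⟨x.1, mem_of_mem_map_subtype U V x.2⟩, mk_mem_of_mem_map_subtype U V x.2⟩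
  map_one' := rfl
  map_mul' _ _ := rfl

@[simp] lemma coe_fromNested (g : ↥V) : ((fromNested U V g : ↥(V.map U.subtype)) : H) = g.1.1 := rfl

@[simp] lemma coe_toNested (x : ↥(V.map U.subtype)) : ((toNested U V x : ↥V) : ↥U).1 = x.1 := rfl

lemma toNested_fromNested (g : ↥V) : toNested U V (fromNested U V g) = g := rfl

lemma fromNested_toNested (x : ↥(V.map U.subtype)) : fromNested U V (toNested U V x) = x := rfl

variable (𝓛 : LevelStructure H)

lemma isCont_toNested :
    H50.IsCont (𝓛.restrict (V.map U.subtype)) ((𝓛.restrict U).restrict V) (toNested U V) := by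
  rintro _ ⟨_, ⟨N, hN, rfl⟩, rfl⟩
  exact ⟨N.comap (V.map U.subtype).subtype, ⟨N, hN, rfl⟩, fun x hx => hx⟩

lemma isCont_fromNested :
    H50.IsCont ((𝓛.restrict U).restrict V) (𝓛.restrict (V.map U.subtype)) (fromNested U V) := by
  rintro _ ⟨N, hN, rfl⟩
  exact ⟨(N.comap U.subtype).comap V.subtype, ⟨_, ⟨N, hN, rfl⟩, rfl⟩, fun x hx => hx⟩

/-- `V` open in `U`, `U` open in `H` ⇒ `V.map U.subtype` open in `H`. -/
lemma isOpen_map_subtype (hU : 𝓛.IsOpen U) (hV : (𝓛.restrict U).IsOpen V) :
    𝓛.IsOpen (V.map U.subtype) := by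
  obtain ⟨N₁, hN₁, h₁⟩ := hU
  obtain ⟨_, ⟨N₂, hN₂, rfl⟩, h₂⟩ := hV
  obtain ⟨N₃, hN₃, h₃⟩ := 𝓛.directed N₁ hN₁ N₂ hN₂
  refine ⟨N₃, hN₃, fun x hx => ?_⟩
  have hxU : x ∈ U := h₁ ((h₃ hx).1)
  exact Subgroup.mem_map.2 ⟨⟨x, hxU⟩, h₂ (show (⟨x, hxU⟩ : ↥U).1 ∈ N₂ from (h₃ hx).2), rfl⟩

lemma map_subtype_le : V.map U.subtype ≤ U := fun _ hx => mem_of_mem_map_subtype U V hx

lemma relIndex_map_subtype : (V.map U.subtype).relIndex U = V.index := by
  rw [Subgroup.relIndex, Subgroup.subgroupOf,
    Subgroup.comap_map_eq_self_of_injective U.subtype_injective]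

end Groups

/-! ## The transport of level cohomology -/

noncomputable section Transport

variable {k : Type} [CommRing k] {H : Type} [Group H] (𝓛 : LevelStructure H)
  (A : Rep.{0} k H) (U : Subgroup H) (V : Subgroup ↥U)

lemma isEquivariant_toNested :
    H50.IsEquivariant (toNested U V) (Rep.res V.subtype (Rep.res U.subtype A))
      (Rep.res (V.map U.subtype).subtype A) LinearMap.id := fun _ _ => rfl

lemma isEquivariant_fromNested :
    H50.IsEquivariant (fromNested U V) (Rep.res (V.map U.subtype).subtype A)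
      (Rep.res V.subtype (Rep.res U.subtype A)) LinearMap.id := fun _ _ => rfl

/-- `H¹(V; A) ≃ H¹(V'; A)` for the nested restriction. -/
def nestedEquiv₁ :
    ((𝓛.restrict U).restrict V).H1 (Rep.res V.subtype (Rep.res U.subtype A)) ≃ₗ[k]
      (𝓛.restrict (V.map U.subtype)).H1 (Rep.res (V.map U.subtype).subtype A) :=
  LinearEquiv.ofLinearMap
    (H50.mapH1 _ _ (isCont_toNested U V 𝓛) (isEquivariant_toNested A U V))
    (H50.mapH1 _ _ (isCont_fromNested U V 𝓛) (isEquivariant_fromNested A U V))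
    (LinearMap.ext fun x => by
      induction x using Submodule.Quotient.induction_on with
      | H f => rfl)
    (LinearMap.ext fun x => by
      induction x using Submodule.Quotient.induction_on with
      | H f => rfl)

/-- `H²(V; A) ≃ H²(V'; A)` for the nested restriction. -/
def nestedEquiv₂ :
    ((𝓛.restrict U).restrict V).H2 (Rep.res V.subtype (Rep.res U.subtype A)) ≃ₗ[k]
      (𝓛.restrict (V.map U.subtype)).H2 (Rep.res (V.map U.subtype).subtype A) :=
  LinearEquiv.ofLinearMap
    (H50.mapH2 _ _ (isCont_toNested U V 𝓛) (isEquivariant_toNested A U V))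
    (H50.mapH2 _ _ (isCont_fromNested U V 𝓛) (isEquivariant_fromNested A U V))
    (LinearMap.ext fun x => by
      induction x using Submodule.Quotient.induction_on with
      | H f => rfl)
    (LinearMap.ext fun x => by
      induction x using Submodule.Quotient.induction_on with
      | H f => rfl)

/-- `H³(V; A) ≃ H³(V'; A)` for the nested restriction. -/
def nestedEquiv₃ :
    ((𝓛.restrict U).restrict V).H3 (Rep.res V.subtype (Rep.res U.subtype A)) ≃ₗ[k]
      (𝓛.restrict (V.map U.subtype)).H3 (Rep.res (V.map U.subtype).subtype A) :=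
  LinearEquiv.ofLinearMap
    (H50.mapH3 _ _ (isCont_toNested U V 𝓛) (isEquivariant_toNested A U V))
    (H50.mapH3 _ _ (isCont_fromNested U V 𝓛) (isEquivariant_fromNested A U V))
    (LinearMap.ext fun x => by
      induction x using Submodule.Quotient.induction_on with
      | H f => rfl)
    (LinearMap.ext fun x => by
      induction x using Submodule.Quotient.induction_on with
      | H f => rfl)

/-- Transitivity of restriction, degree 1. -/
theorem nestedEquiv₁_resSub (x : 𝓛.H1 A) :
    nestedEquiv₁ 𝓛 A U V (H50.resSubH1 (𝓛.restrict U) (Rep.res U.subtype A) V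
      (H50.resSubH1 𝓛 A U x)) = H50.resSubH1 𝓛 A (V.map U.subtype) x := by
  induction x using Submodule.Quotient.induction_on with
  | H f => rfl

/-- Transitivity of restriction, degree 2. -/
theorem nestedEquiv₂_resSub (x : 𝓛.H2 A) :
    nestedEquiv₂ 𝓛 A U V (H50.resSubH2 (𝓛.restrict U) (Rep.res U.subtype A) V
      (H50.resSubH2 𝓛 A U x)) = H50.resSubH2 𝓛 A (V.map U.subtype) x := by
  induction x using Submodule.Quotient.induction_on with
  | H f => rfl

/-- Transitivity of restriction, degree 3. -/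
theorem nestedEquiv₃_resSub (x : 𝓛.H3 A) :
    nestedEquiv₃ 𝓛 A U V (H50.resSubH3 (𝓛.restrict U) (Rep.res U.subtype A) V
      (H50.resSubH3 𝓛 A U x)) = H50.resSubH3 𝓛 A (V.map U.subtype) x := by
  induction x using Submodule.Quotient.induction_on with
  | H f => rfl

end Transport

/-! ## Consequences for a `p`-class formation -/

section Formation

variable {p : ℕ} [Fact p.Prime] {H : Type} [Group H] {𝓛 : LevelStructure H}

/-- Bezout: an element killed by `m` prime to `p` is divisible by `p`. -/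
lemma exists_nsmul_eq_of_coprime_nsmul_eq_zero {M : Type*} [AddCommGroup M] (m : ℕ)
    (hcop : Nat.Coprime m p) (y : M) (hy : m • y = 0) : ∃ t : M, p • t = y := by
  obtain ⟨u, v, huv⟩ := Nat.isCoprime_iff_coprime.2 hcop
  have h1 : (m : ℤ) • y = 0 := by rw [natCast_zsmul, hy]
  have h2 : y = (u * (m : ℤ) + v * (p : ℤ)) • y := by rw [huv, one_smul]
  rw [add_smul, mul_smul, mul_smul, h1, smul_zero, zero_add, natCast_zsmul] at h2
  exact ⟨v • y, by rw [smul_comm]; exact h2.symm⟩

/-- Bezout: an element killed by `p` and by `m` prime to `p` is zero. -/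
lemma eq_zero_of_coprime_nsmul_eq_zero {M : Type*} [AddCommGroup M] (m : ℕ)
    (hcop : Nat.Coprime m p) (y : M) (hy : m • y = 0) (hp : p • y = 0) : y = 0 := by
  obtain ⟨u, v, huv⟩ := Nat.isCoprime_iff_coprime.2 hcop
  have h1 : (m : ℤ) • y = 0 := by rw [natCast_zsmul, hy]
  have h3 : (p : ℤ) • y = 0 := by rw [natCast_zsmul, hp]
  have h2 : y = (u * (m : ℤ) + v * (p : ℤ)) • y := by rw [huv, one_smul]
  rw [add_smul, mul_smul, mul_smul, h1, h3, smul_zero, smul_zero, zero_add] at h2
  exact h2

/-- **(H2)**: for a `p`-class formation, level `H¹(U; C)` is `p`-divisible, for every subgroup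
`U`.  (With `H1_pTorsionFree_restrict`: uniquely `p`-divisible.) -/
theorem H1_pDivisible_restrict {C : Rep.{0} ℤ H} (F : PClassFormation p 𝓛 C) (U : Subgroup H)
    (x : (𝓛.restrict U).H1 (Rep.res U.subtype C)) :
    ∃ x' : (𝓛.restrict U).H1 (Rep.res U.subtype C), p • x' = x := by
  have hp : p.Prime := Fact.out
  obtain ⟨N₀, h₀⟩ := 𝓛.nonempty
  obtain ⟨N, hN, hnor, -, y, rfl⟩ := H95.exists_infLevSub₁_eq U F.discrete x h₀
  haveI := hnor
  haveI := 𝓛.finiteIndex N hN
  haveI : Finite (H ⧸ N) := Subgroup.finite_quotient_of_finiteIndex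
  have hcard : Nat.card (H95.subQ U N) • y = 0 := H33.card_nsmul_eq_zero (H95.subRep C U N) 0 y
  have hs0 : Nat.card (H95.subQ U N) ≠ 0 := Nat.card_pos.ne'
  have hm : ordCompl[p] (Nat.card (H95.subQ U N)) • y = 0 :=
    H1_pTorsionFree_res_of_isPClassModule (C.quotientToInvariants N) (F.fund N hN)
      (F.isClass N hN) (H95.subQ U N) _ ((Nat.card (H95.subQ U N)).factorization p) (by
        rw [smul_smul, Nat.ordProj_mul_ordCompl_eq_self]; exact hcard)
  obtain ⟨t, ht⟩ := exists_nsmul_eq_of_coprime_nsmul_eq_zero (p := p) _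
    (Nat.coprime_ordCompl hp hs0).symm y hm
  exact ⟨H95.infLevSub₁ 𝓛 C U N hN t, by rw [← map_nsmul, ht]⟩

variable {C : Rep.{0} ℤ H} (F : PClassFormation p 𝓛 C) (U : Subgroup H) (V : Subgroup ↥U)

include F

/-- **(H3a)**: `H¹(V; C)` has no `p`-torsion for a subgroup `V` of a subgroup `U`
(doubly restricted level structure). -/
theorem H1_pTorsionFree_nested
    (z : ((𝓛.restrict U).restrict V).H1 (Rep.res V.subtype (Rep.res U.subtype C)))
    (hz : p • z = 0) : z = 0 := by
  apply (nestedEquiv₁ 𝓛 C U V).injective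
  rw [map_zero]
  exact H1_pTorsionFree_restrict F (V.map U.subtype) _ (by rw [← map_nsmul, hz, map_zero])

/-- `H¹(V; C)` is `p`-divisible for a subgroup `V` of a subgroup `U`. -/
theorem H1_pDivisible_nested
    (z : ((𝓛.restrict U).restrict V).H1 (Rep.res V.subtype (Rep.res U.subtype C))) :
    ∃ z', p • z' = z := by
  obtain ⟨w, hw⟩ := H1_pDivisible_restrict F (V.map U.subtype) (nestedEquiv₁ 𝓛 C U V z)
  refine ⟨(nestedEquiv₁ 𝓛 C U V).symm w, ?_⟩
  rw [← map_nsmul, hw, LinearEquiv.symm_apply_apply]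

/-- `H³(V; C)` has no `p`-torsion for a subgroup `V` of a subgroup `U`. -/
theorem H3_pTorsionFree_nested
    (z : ((𝓛.restrict U).restrict V).H3 (Rep.res V.subtype (Rep.res U.subtype C)))
    (hz : p • z = 0) : z = 0 := by
  apply (nestedEquiv₃ 𝓛 C U V).injective
  rw [map_zero]
  exact H3_pTorsionFree_restrict F (V.map U.subtype) _ (by rw [← map_nsmul, hz, map_zero])

/-- **(H3c)**: for a `p`-class formation, `U` open, `V` an open subgroup of `U` with `p ∣ [U : V]`:
the restriction `H²(U; C) → H²(V; C)` kills the `p`-torsion.  (Proved through the top group: no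
relative corestriction / formation on `U` is needed.) -/
theorem resSubH2_eq_zero_of_dvd_index (hU : 𝓛.IsOpen U) (hV : (𝓛.restrict U).IsOpen V)
    (hdvd : p ∣ V.index) (x : (𝓛.restrict U).H2 (Rep.res U.subtype C)) (hx : p • x = 0) :
    H50.resSubH2 (𝓛.restrict U) (Rep.res U.subtype C) V x = 0 := by
  have hp : p.Prime := Fact.out
  have hV'open : 𝓛.IsOpen (V.map U.subtype) := isOpen_map_subtype U V 𝓛 hU hV
  obtain ⟨N, hN, hNV', hnor⟩ := H50.exists_normal_level_le 𝓛 hV'open
  haveI := hnor
  have hNU : N ≤ U := hNV'.trans (map_subtype_le U V)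
  haveI := 𝓛.finiteIndex N hN
  haveI : Finite (H ⧸ N) := Subgroup.finite_quotient_of_finiteIndex
  haveI := H50.finiteIndex_of_isOpen 𝓛 hU
  have hU0 : U.index ≠ 0 := Subgroup.FiniteIndex.index_ne_zero
  -- cardinalities
  have hcS : Nat.card (H95.subQ U N) = N.relIndex U := H83.card_subQ U N hNU
  have hcT : Nat.card (H95.subQ (V.map U.subtype) N) = N.relIndex (V.map U.subtype) :=
    H83.card_subQ (V.map U.subtype) N hNV'
  have hmul : N.relIndex U = N.relIndex (V.map U.subtype) * V.index := by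
    rw [← relIndex_map_subtype U V,
      Subgroup.relIndex_mul_relIndex N (V.map U.subtype) U hNV' (map_subtype_le U V)]
  have hdvdS : p ∣ Nat.card (H95.subQ U N) := by
    rw [hcS, hmul]; exact Dvd.dvd.mul_left hdvd _
  obtain ⟨n, rfl⟩ := H83.exists_zsmul_tSub F U N hN hNU hdvdS x hx
  rw [map_zsmul]
  suffices h : H50.resSubH2 (𝓛.restrict U) (Rep.res U.subtype C) V (H83.tSub F U N hN) = 0 by
    rw [h]; exact zsmul_zero n
  -- the auxiliary class of the top group
  have hA : H50.resSubH2 𝓛 C U (H95.infLev₂ 𝓛 C N hN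
      (((Nat.card (H95.subQ U N) / p) * ordCompl[p] U.index) • F.fund N hN)) =
      ordCompl[p] U.index • H83.tSub F U N hN := by
    rw [← H95.infLevSub₂_resSub, map_nsmul, H83.tSub, H83.cP_eq _ _ hdvdS, mul_comm, mul_smul,
      map_nsmul]
  have hB : H50.resSubH2 𝓛 C (V.map U.subtype) (H95.infLev₂ 𝓛 C N hN
      (((Nat.card (H95.subQ U N) / p) * ordCompl[p] U.index) • F.fund N hN)) = 0 := by
    rw [← H95.infLevSub₂_resSub, map_nsmul]
    have hc' : (Nat.card (H95.subQ U N) / p) * ordCompl[p] U.index =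
        ((V.index / p) * ordCompl[p] U.index) * Nat.card (H95.subQ (V.map U.subtype) N) := by
      obtain ⟨d, hd⟩ := hdvd
      have e1 : N.relIndex (V.map U.subtype) * (p * d) / p = N.relIndex (V.map U.subtype) * d := by
        rw [mul_comm p d, ← mul_assoc, Nat.mul_div_cancel _ hp.pos]
      rw [hcS, hcT, hmul, hd, Nat.mul_div_cancel_left _ hp.pos, e1]
      ring
    rw [hc', mul_smul, H33.card_nsmul_eq_zero (H95.subRep C (V.map U.subtype) N) 1, smul_zero,
      map_zero]
  have h1 : ordCompl[p] U.index •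
      H50.resSubH2 (𝓛.restrict U) (Rep.res U.subtype C) V (H83.tSub F U N hN) = 0 := by
    apply (nestedEquiv₂ 𝓛 C U V).injective
    rw [map_zero, ← map_nsmul, ← hA, nestedEquiv₂_resSub, hB]
  have h2 : p • H50.resSubH2 (𝓛.restrict U) (Rep.res U.subtype C) V (H83.tSub F U N hN) = 0 := by
    rw [← map_nsmul, H83.p_nsmul_tSub F U N hN hdvdS, map_zero]
  exact eq_zero_of_coprime_nsmul_eq_zero (p := p) _ (Nat.coprime_ordCompl hp hU0).symm _ h1 h2

omit F

end Formation

/-! ## Acyclic modules -/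

section Acyclic

variable {k : Type} [CommRing k] {H : Type} [Group H] (𝓛 : LevelStructure H)
  (A : Rep.{0} k H) (U : Subgroup H) (V : Subgroup ↥U)

/-- **(H3b)**: a module acyclic on all open subgroups is acyclic on the open subgroups of an open
subgroup (degree 1). -/
theorem subsingleton_H1_nested (hU : 𝓛.IsOpen U) (hV : (𝓛.restrict U).IsOpen V)
    (hA : ∀ W : Subgroup H, 𝓛.IsOpen W → Subsingleton ((𝓛.restrict W).H1 (Rep.res W.subtype A))) :
    Subsingleton (((𝓛.restrict U).restrict V).H1 (Rep.res V.subtype (Rep.res U.subtype A))) :=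
  haveI := hA _ (isOpen_map_subtype U V 𝓛 hU hV)
  (nestedEquiv₁ 𝓛 A U V).toEquiv.subsingleton

/-- Degree 2 version. -/
theorem subsingleton_H2_nested (hU : 𝓛.IsOpen U) (hV : (𝓛.restrict U).IsOpen V)
    (hA : ∀ W : Subgroup H, 𝓛.IsOpen W → Subsingleton ((𝓛.restrict W).H2 (Rep.res W.subtype A))) :
    Subsingleton (((𝓛.restrict U).restrict V).H2 (Rep.res V.subtype (Rep.res U.subtype A))) :=
  haveI := hA _ (isOpen_map_subtype U V 𝓛 hU hV)
  (nestedEquiv₂ 𝓛 A U V).toEquiv.subsingleton

end Acyclic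

end Fermat.Agent.CFT.H52
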