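/-
CFT project, layer D0, package D0-ENV (helper36), slice 5.

* `DivEnvelope.res`, `DivEnvelope.resSub`: the restriction of a divisible envelope along a
  continuous homomorphism / to a subgroup, with its `W`-datum and (AC);
* compatibility of the additive coefficient maps `addHn` / `torsionToHn` (H36_Kummer) with
  restriction (`H50.resHn`, `H50.resSubHn`) and corestriction (`H50.cor0 … cor3`).
-/
import Fermat.Agent.CFT.H36_Envelope3
import Fermat.Agent.CFT.H36_Kummer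
import Fermat.Agent.CFT.H50_LevelCorStd

set_option autoImplicit false

open CategoryTheory groupCohomology

namespace Fermat.Agent.CFT.H36

open Fermat.Agent.CFT

noncomputable section

/-! ## Restriction of envelopes -/

section EnvRes

variable {k : Type} [CommRing k] {H H' : Type} [Group H] [Group H'] {𝓛 : LevelStructure H}
  {𝓛' : LevelStructure H'} {m : ℕ} {N : Rep.{0} k H}

/-- Restriction of a divisible envelope along a continuous homomorphism. -/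
def DivEnvelope.res (E : DivEnvelope 𝓛 m N) (φ : H' →* H) (hφ : H50.IsCont 𝓛' 𝓛 φ) :
    DivEnvelope 𝓛' m (Rep.res φ N) where
  I := Rep.res φ E.I
  Q := Rep.res φ E.Q
  ι := Rep.resMap φ E.ι
  π := Rep.resMap φ E.π
  ι_injective := E.ι_injective
  π_surjective := E.π_surjective
  exact := E.exact
  discrete := H50.isDiscrete_res 𝓛' 𝓛 hφ E.discrete
  divisible := E.divisible

@[simp] lemma DivEnvelope.res_I (E : DivEnvelope 𝓛 m N) (φ : H' →* H)
    (hφ : H50.IsCont 𝓛' 𝓛 φ) : (E.res φ hφ).I = Rep.res φ E.I := rfl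

@[simp] lemma DivEnvelope.res_Q (E : DivEnvelope 𝓛 m N) (φ : H' →* H)
    (hφ : H50.IsCont 𝓛' 𝓛 φ) : (E.res φ hφ).Q = Rep.res φ E.Q := rfl

@[simp] lemma DivEnvelope.res_ι (E : DivEnvelope 𝓛 m N) (φ : H' →* H)
    (hφ : H50.IsCont 𝓛' 𝓛 φ) : (E.res φ hφ).ι = Rep.resMap φ E.ι := rfl

@[simp] lemma DivEnvelope.res_π (E : DivEnvelope 𝓛 m N) (φ : H' →* H)
    (hφ : H50.IsCont 𝓛' 𝓛 φ) : (E.res φ hφ).π = Rep.resMap φ E.π := rfl

lemma DivEnvelope.res_dComplex (E : DivEnvelope 𝓛 m N) (φ : H' →* H)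
    (hφ : H50.IsCont 𝓛' 𝓛 φ) : (E.res φ hφ).dComplex = Rep.resMap φ E.dComplex := rfl

lemma DivEnvelope.res_dKer (E : DivEnvelope 𝓛 m N) (φ : H' →* H)
    (hφ : H50.IsCont 𝓛' 𝓛 φ) : (E.res φ hφ).dKer = Rep.resMap φ E.dKer := rfl

/-- Restriction of a divisible envelope to a subgroup. -/
def DivEnvelope.resSub (E : DivEnvelope 𝓛 m N) (U : Subgroup H) :
    DivEnvelope (𝓛.restrict U) m (Rep.res U.subtype N) :=
  E.res U.subtype (H50.isCont_subtype 𝓛 U)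

@[simp] lemma DivEnvelope.resSub_I (E : DivEnvelope 𝓛 m N) (U : Subgroup H) :
    (E.resSub U).I = Rep.res U.subtype E.I := rfl

@[simp] lemma DivEnvelope.resSub_Q (E : DivEnvelope 𝓛 m N) (U : Subgroup H) :
    (E.resSub U).Q = Rep.res U.subtype E.Q := rfl

end EnvRes

section EnvResW

variable {k : Type} [CommRing k] {H H' : Type} [Group H] [Group H'] {𝓛 : LevelStructure H}
  {𝓛' : LevelStructure H'} {p : ℕ} [Fact p.Prime] {N : Rep.{0} k H}

lemma DivEnvelope.res_wDatum_Vm (E : DivEnvelope 𝓛 p N) (φ : H' →* H)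
    (hφ : H50.IsCont 𝓛' 𝓛 φ) : (E.res φ hφ).wDatum.Vm = Rep.res φ E.wDatum.Vm := rfl

lemma DivEnvelope.res_wDatum_W (E : DivEnvelope 𝓛 p N) (φ : H' →* H)
    (hφ : H50.IsCont 𝓛' 𝓛 φ) : (E.res φ hφ).wDatum.W = Rep.res φ E.wDatum.W := rfl

lemma DivEnvelope.res_wDatum_d (E : DivEnvelope 𝓛 p N) (φ : H' →* H)
    (hφ : H50.IsCont 𝓛' 𝓛 φ) : (E.res φ hφ).wDatum.d = Rep.resMap φ E.wDatum.d := rfl

/-- (AC) for the restriction to an open subgroup of an envelope with coinduced `I`. -/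
theorem DivEnvelope.isAcyclic_resSub_of_isCoinduced (E : DivEnvelope 𝓛 p N)
    (h : IsCoinduced 𝓛 E.I) (U : Subgroup H) (hU : 𝓛.IsOpen U) :
    (E.resSub U).wDatum.IsAcyclic := fun X hX =>
  ⟨(h.torsion p).subsingleton_H1_hom_restrict U hU X hX.discrete,
    (h.torsion p).subsingleton_H2_hom_restrict U hU X hX.discrete⟩

end EnvResW

/-! ## Additive coefficient maps versus restriction -/

section AddRes

variable {k k' : Type} [CommRing k] [CommRing k'] {H H' : Type} [Group H] [Group H']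
  (𝓛' : LevelStructure H') (𝓛 : LevelStructure H) {φ : H' →* H} (hφ : H50.IsCont 𝓛' 𝓛 φ)
  {A : Rep.{0} k H} {A' : Rep.{0} k' H} {e : A.V →+ A'.V} (he : IsAddEquivariant A A' e)

omit he in
/-- An additive equivariant map stays equivariant after restriction. -/
lemma IsAddEquivariant.res (he : IsAddEquivariant A A' e) (φ : H' →* H) :
    IsAddEquivariant (Rep.res φ A) (Rep.res φ A') e := fun g a => he (φ g) a

lemma addH0_resH0 (x : LevelStructure.H0 A) :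
    addH0 (he.res φ) (H50.resH0 φ A x) = H50.resH0 φ A' (addH0 he x) := rfl

lemma addH1_resH1 (x : 𝓛.H1 A) :
    addH1 𝓛' (he.res φ) (H50.resH1 𝓛' 𝓛 hφ A x) = H50.resH1 𝓛' 𝓛 hφ A' (addH1 𝓛 he x) := by
  obtain ⟨c, rfl⟩ := Submodule.mkQ_surjective _ x
  rfl

lemma addH2_resH2 (x : 𝓛.H2 A) :
    addH2 𝓛' (he.res φ) (H50.resH2 𝓛' 𝓛 hφ A x) = H50.resH2 𝓛' 𝓛 hφ A' (addH2 𝓛 he x) := by
  obtain ⟨c, rfl⟩ := Submodule.mkQ_surjective _ x
  rfl

lemma addH3_resH3 (x : 𝓛.H3 A) :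
    addH3 𝓛' (he.res φ) (H50.resH3 𝓛' 𝓛 hφ A x) = H50.resH3 𝓛' 𝓛 hφ A' (addH3 𝓛 he x) := by
  obtain ⟨c, rfl⟩ := Submodule.mkQ_surjective _ x
  rfl

lemma addH1_resSubH1 (U : Subgroup H) (x : 𝓛.H1 A) :
    addH1 (𝓛.restrict U) (he.res U.subtype) (H50.resSubH1 𝓛 A U x) =
      H50.resSubH1 𝓛 A' U (addH1 𝓛 he x) :=
  addH1_resH1 (𝓛.restrict U) 𝓛 (H50.isCont_subtype 𝓛 U) he x

lemma addH2_resSubH2 (U : Subgroup H) (x : 𝓛.H2 A) :
    addH2 (𝓛.restrict U) (he.res U.subtype) (H50.resSubH2 𝓛 A U x) =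
      H50.resSubH2 𝓛 A' U (addH2 𝓛 he x) :=
  addH2_resH2 (𝓛.restrict U) 𝓛 (H50.isCont_subtype 𝓛 U) he x

lemma addH3_resSubH3 (U : Subgroup H) (x : 𝓛.H3 A) :
    addH3 (𝓛.restrict U) (he.res U.subtype) (H50.resSubH3 𝓛 A U x) =
      H50.resSubH3 𝓛 A' U (addH3 𝓛 he x) :=
  addH3_resH3 (𝓛.restrict U) 𝓛 (H50.isCont_subtype 𝓛 U) he x

end AddRes

section TorsionRes

variable {k : Type} [CommRing k] {H H' : Type} [Group H] [Group H']
  (𝓛' : LevelStructure H') (𝓛 : LevelStructure H) {φ : H' →* H} (hφ : H50.IsCont 𝓛' 𝓛 φ)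
  (p : ℕ) (M : Rep.{0} k H)

/-- `torsionToH1` commutes with restriction. -/
lemma torsionToH1_resH1 (y : 𝓛.H1 (torsionRep p M)) :
    torsionToH1 𝓛' p (Rep.res φ M) (H50.resH1 𝓛' 𝓛 hφ (torsionRep p M) y) =
      H50.resH1 𝓛' 𝓛 hφ M (torsionToH1 𝓛 p M y) :=
  addH1_resH1 𝓛' 𝓛 hφ (isAddEquivariant_torsionIncl p M) y

/-- `torsionToH2` commutes with restriction. -/
lemma torsionToH2_resH2 (y : 𝓛.H2 (torsionRep p M)) :
    torsionToH2 𝓛' p (Rep.res φ M) (H50.resH2 𝓛' 𝓛 hφ (torsionRep p M) y) =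
      H50.resH2 𝓛' 𝓛 hφ M (torsionToH2 𝓛 p M y) :=
  addH2_resH2 𝓛' 𝓛 hφ (isAddEquivariant_torsionIncl p M) y

/-- `torsionToH3` commutes with restriction. -/
lemma torsionToH3_resH3 (y : 𝓛.H3 (torsionRep p M)) :
    torsionToH3 𝓛' p (Rep.res φ M) (H50.resH3 𝓛' 𝓛 hφ (torsionRep p M) y) =
      H50.resH3 𝓛' 𝓛 hφ M (torsionToH3 𝓛 p M y) :=
  addH3_resH3 𝓛' 𝓛 hφ (isAddEquivariant_torsionIncl p M) y

lemma torsionToH1_resSubH1 (U : Subgroup H) (y : 𝓛.H1 (torsionRep p M)) :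
    torsionToH1 (𝓛.restrict U) p (Rep.res U.subtype M) (H50.resSubH1 𝓛 (torsionRep p M) U y) =
      H50.resSubH1 𝓛 M U (torsionToH1 𝓛 p M y) :=
  torsionToH1_resH1 (𝓛.restrict U) 𝓛 (H50.isCont_subtype 𝓛 U) p M y

lemma torsionToH2_resSubH2 (U : Subgroup H) (y : 𝓛.H2 (torsionRep p M)) :
    torsionToH2 (𝓛.restrict U) p (Rep.res U.subtype M) (H50.resSubH2 𝓛 (torsionRep p M) U y) =
      H50.resSubH2 𝓛 M U (torsionToH2 𝓛 p M y) :=
  torsionToH2_resH2 (𝓛.restrict U) 𝓛 (H50.isCont_subtype 𝓛 U) p M y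

lemma torsionToH3_resSubH3 (U : Subgroup H) (y : 𝓛.H3 (torsionRep p M)) :
    torsionToH3 (𝓛.restrict U) p (Rep.res U.subtype M) (H50.resSubH3 𝓛 (torsionRep p M) U y) =
      H50.resSubH3 𝓛 M U (torsionToH3 𝓛 p M y) :=
  torsionToH3_resH3 (𝓛.restrict U) 𝓛 (H50.isCont_subtype 𝓛 U) p M y

end TorsionRes

/-! ## Additive coefficient maps versus corestriction -/

section AddCor

variable {k k' : Type} [CommRing k] [CommRing k'] {H : Type} [Group H]
  (𝓛 : LevelStructure H) (U : Subgroup H) (hU : 𝓛.IsOpen U)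
  {A : Rep.{0} k H} {A' : Rep.{0} k' H} {e : A.V →+ A'.V} (he : IsAddEquivariant A A' e)

include he in
lemma IsAddEquivariant.corC₁ [Fintype (H ⧸ U)] (σ : H50.Sec U) (f : U → A.V) :
    (fun g => e (H50.corC₁ σ A f g)) = H50.corC₁ σ A' (fun u => e (f u)) := by
  funext g
  rw [H50.corC₁_apply, H50.corC₁_apply, map_sum]
  exact Finset.sum_congr rfl fun q _ => he _ _

include he in
lemma IsAddEquivariant.corC₂ [Fintype (H ⧸ U)] (σ : H50.Sec U) (f : U × U → A.V) :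
    (fun g => e (H50.corC₂ σ A f g)) = H50.corC₂ σ A' (fun u => e (f u)) := by
  funext g
  rw [H50.corC₂_apply, H50.corC₂_apply, map_sum]
  exact Finset.sum_congr rfl fun q _ => he _ _

include he in
lemma IsAddEquivariant.corC₃ [Fintype (H ⧸ U)] (σ : H50.Sec U) (f : U × U × U → A.V) :
    (fun g => e (H50.corC₃ σ A f g)) = H50.corC₃ σ A' (fun u => e (f u)) := by
  funext g
  rw [H50.corC₃_apply, H50.corC₃_apply, map_sum]
  exact Finset.sum_congr rfl fun q _ => he _ _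

/-- Additive coefficient maps commute with `cor0`. -/
lemma addH0_cor0 (x : LevelStructure.H0 (Rep.res U.subtype A)) :
    addH0 he (H50.cor0 𝓛 U hU A x) = H50.cor0 𝓛 U hU A' (addH0 (he.res U.subtype) x) := by
  let _ := H50.fintypeOfIsOpen 𝓛 hU
  apply Subtype.ext
  show e (H50.corC₀ (H50.Sec.out U) A x.1) = H50.corC₀ (H50.Sec.out U) A' (e x.1)
  rw [H50.corC₀_apply, H50.corC₀_apply, map_sum]
  exact Finset.sum_congr rfl fun q _ => he _ _

/-- Additive coefficient maps commute with `cor1`. -/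
lemma addH1_cor1 (x : (𝓛.restrict U).H1 (Rep.res U.subtype A)) :
    addH1 𝓛 he (H50.cor1 𝓛 U hU A x) =
      H50.cor1 𝓛 U hU A' (addH1 (𝓛.restrict U) (he.res U.subtype) x) := by
  let _ := H50.fintypeOfIsOpen 𝓛 hU
  obtain ⟨c, rfl⟩ := Submodule.mkQ_surjective _ x
  show addH1 𝓛 he (H50.corH1 𝓛 A hU (H50.Sec.out U) ((𝓛.restrict U).H1π _ c)) =
    H50.corH1 𝓛 A' hU (H50.Sec.out U) ((𝓛.restrict U).H1π _ (addZ1 (𝓛.restrict U) (he.res U.subtype) c))
  rw [H50.corH1_mk, H50.corH1_mk, addH1_mk]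
  congr 1
  exact Subtype.ext (he.corC₁ U (H50.Sec.out U) c.1)

/-- Additive coefficient maps commute with `cor2`. -/
lemma addH2_cor2 (x : (𝓛.restrict U).H2 (Rep.res U.subtype A)) :
    addH2 𝓛 he (H50.cor2 𝓛 U hU A x) =
      H50.cor2 𝓛 U hU A' (addH2 (𝓛.restrict U) (he.res U.subtype) x) := by
  let _ := H50.fintypeOfIsOpen 𝓛 hU
  obtain ⟨c, rfl⟩ := Submodule.mkQ_surjective _ x
  show addH2 𝓛 he (H50.corH2 𝓛 A hU (H50.Sec.out U) ((𝓛.restrict U).H2π _ c)) =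
    H50.corH2 𝓛 A' hU (H50.Sec.out U) ((𝓛.restrict U).H2π _ (addZ2 (𝓛.restrict U) (he.res U.subtype) c))
  rw [H50.corH2_mk, H50.corH2_mk, addH2_mk]
  congr 1
  exact Subtype.ext (he.corC₂ U (H50.Sec.out U) c.1)

/-- Additive coefficient maps commute with `cor3`. -/
lemma addH3_cor3 (x : (𝓛.restrict U).H3 (Rep.res U.subtype A)) :
    addH3 𝓛 he (H50.cor3 𝓛 U hU A x) =
      H50.cor3 𝓛 U hU A' (addH3 (𝓛.restrict U) (he.res U.subtype) x) := by
  let _ := H50.fintypeOfIsOpen 𝓛 hU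
  obtain ⟨c, rfl⟩ := Submodule.mkQ_surjective _ x
  show addH3 𝓛 he (H50.corH3 𝓛 A hU (H50.Sec.out U) ((𝓛.restrict U).H3π _ c)) =
    H50.corH3 𝓛 A' hU (H50.Sec.out U) ((𝓛.restrict U).H3π _ (addZ3 (𝓛.restrict U) (he.res U.subtype) c))
  rw [H50.corH3_mk, H50.corH3_mk, addH3_mk]
  congr 1
  exact Subtype.ext (he.corC₃ U (H50.Sec.out U) c.1)

end AddCor

section TorsionCor

variable {k : Type} [CommRing k] {H : Type} [Group H]
  (𝓛 : LevelStructure H) (U : Subgroup H) (hU : 𝓛.IsOpen U) (p : ℕ) (M : Rep.{0} k H)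

/-- `torsionToH1` commutes with corestriction. -/
lemma torsionToH1_cor1 (y : (𝓛.restrict U).H1 (Rep.res U.subtype (torsionRep p M))) :
    torsionToH1 𝓛 p M (H50.cor1 𝓛 U hU (torsionRep p M) y) =
      H50.cor1 𝓛 U hU M (torsionToH1 (𝓛.restrict U) p (Rep.res U.subtype M) y) :=
  addH1_cor1 𝓛 U hU (isAddEquivariant_torsionIncl p M) y

/-- `torsionToH2` commutes with corestriction. -/
lemma torsionToH2_cor2 (y : (𝓛.restrict U).H2 (Rep.res U.subtype (torsionRep p M))) :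
    torsionToH2 𝓛 p M (H50.cor2 𝓛 U hU (torsionRep p M) y) =
      H50.cor2 𝓛 U hU M (torsionToH2 (𝓛.restrict U) p (Rep.res U.subtype M) y) :=
  addH2_cor2 𝓛 U hU (isAddEquivariant_torsionIncl p M) y

/-- `torsionToH3` commutes with corestriction. -/
lemma torsionToH3_cor3 (y : (𝓛.restrict U).H3 (Rep.res U.subtype (torsionRep p M))) :
    torsionToH3 𝓛 p M (H50.cor3 𝓛 U hU (torsionRep p M) y) =
      H50.cor3 𝓛 U hU M (torsionToH3 (𝓛.restrict U) p (Rep.res U.subtype M) y) :=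
  addH3_cor3 𝓛 U hU (isAddEquivariant_torsionIncl p M) y

end TorsionCor

end

end Fermat.Agent.CFT.H36
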