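import Mathlib
import Fermat.Agent.CFT.H62_D2bFormal

/-!
# CFT / D2b : the `p`-part of a directed colimit of finite-level cohomology groups (abstract)

Vocabulary-neutral version of the passage to the limit.  `ι` is a preordered index set
(`j ≤ i` = "`j` is a deeper level than `i`"), `A i` the finite-level groups, `t : A i → A j` the
inflations, `φ i : A i → L` the maps to the limit group.  `ColimPres` records that `L` is the
colimit: compatibility (F2), joint surjectivity (F3), injectivity in the colimit (F4).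

* `ColimPres.no_p_torsion`, `ColimPres.p_divisible` : degrees `1` and `3`.
* `PClassData` (degree `2`): classes `gen i` of order `p ^ v i` generating the `p`-primary part
  of `A i`, with `t (gen i) = p ^ (v j - v i) • gen j`.  Then `c : L` is the canonical generator
  of `L[p]`, `trEquiv : pTors p L ≃+ ZMod p`, and `L` is `p`-divisible if `v` is unbounded
  below every index (`HasDiv`).

Instances: `(H, 𝓛)` with `H95.infLev_n`; an open subgroup `U` with `H95.infLevSub_n`.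
-/

set_option autoImplicit false
set_option linter.unusedSectionVars false
set_option linter.style.haveILetI false

namespace Fermat.Agent.CFT.H62

universe u v w

/-- A hand-made presentation of `L` as the directed colimit of the groups `A i`. -/
structure ColimPres (ι : Type u) [Preorder ι] (A : ι → Type v) [∀ i, AddCommGroup (A i)]
    (L : Type w) [AddCommGroup L] where
  nonempty : Nonempty ι
  directed : ∀ i j : ι, ∃ k, k ≤ i ∧ k ≤ j
  /-- transition maps (inflations) -/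
  t : ∀ i j : ι, j ≤ i → (A i →+ A j)
  t_comp : ∀ (i j k : ι) (h : j ≤ i) (h' : k ≤ j) (y : A i),
    t j k h' (t i j h y) = t i k (h'.trans h) y
  /-- maps to the limit -/
  φ : ∀ i : ι, A i →+ L
  /-- (F2) -/
  φ_t : ∀ (i j : ι) (h : j ≤ i) (y : A i), φ j (t i j h y) = φ i y
  /-- (F3) -/
  surj : ∀ (x : L) (i₀ : ι), ∃ i, i ≤ i₀ ∧ ∃ y : A i, φ i y = x
  /-- (F4) -/
  inj : ∀ (i : ι) (y : A i), φ i y = 0 → ∃ (j : ι) (h : j ≤ i), t i j h y = 0

namespace ColimPres

variable {ι : Type u} [Preorder ι] {A : ι → Type v} [∀ i, AddCommGroup (A i)]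
  {L : Type w} [AddCommGroup L] (P : ColimPres ι A L)

include P in
/-- If no `A i` has `p`-torsion, neither has the colimit. -/
theorem no_p_torsion (p : ℕ) (h : ∀ (i : ι) (x : A i), p • x = 0 → x = 0) (x : L)
    (hx : p • x = 0) : x = 0 := by
  obtain ⟨i₀⟩ := P.nonempty
  obtain ⟨i, -, y, rfl⟩ := P.surj x i₀
  rw [← map_nsmul] at hx
  obtain ⟨j, hji, h0⟩ := P.inj i (p • y) hx
  rw [map_nsmul] at h0
  rw [← P.φ_t i j hji y, h _ _ h0, map_zero]

include P in
/-- If every `A i` is `p`-divisible, so is the colimit. -/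
theorem p_divisible (p : ℕ) (h : ∀ (i : ι) (x : A i), ∃ y : A i, p • y = x) (x : L) :
    ∃ y : L, p • y = x := by
  obtain ⟨i₀⟩ := P.nonempty
  obtain ⟨i, -, y, rfl⟩ := P.surj x i₀
  obtain ⟨z, rfl⟩ := h i y
  exact ⟨P.φ i z, (map_nsmul _ _ _).symm⟩

include P in
/-- If every `A i` is torsion without `p`-torsion, the colimit is `p`-divisible. -/
theorem p_divisible_of_torsion (p : ℕ) (hp : p.Prime)
    (htors : ∀ (i : ι) (x : A i), ∃ m : ℕ, 0 < m ∧ m • x = 0)
    (h : ∀ (i : ι) (x : A i), p • x = 0 → x = 0) (x : L) : ∃ y : L, p • y = x :=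
  P.p_divisible p (fun i => divisible_of_torsion_of_no_p_torsion p hp (htors i) (h i)) x

include P in
/-- If every `A i` vanishes, so does the colimit. -/
theorem subsingleton (h : ∀ i : ι, Subsingleton (A i)) : Subsingleton L := by
  refine subsingleton_of_forall_eq 0 fun x => ?_
  obtain ⟨i₀⟩ := P.nonempty
  obtain ⟨i, -, y, rfl⟩ := P.surj x i₀
  haveI := h i
  rw [Subsingleton.elim y 0, map_zero]

end ColimPres

/-- The degree-2 class data over a colimit presentation. -/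
structure PClassData (p : ℕ) {ι : Type u} [Preorder ι] {A : ι → Type v}
    [∀ i, AddCommGroup (A i)] {L : Type w} [AddCommGroup L] (P : ColimPres ι A L) where
  /-- the `p`-adic valuation of the order of the finite group at level `i` -/
  v : ι → ℕ
  v_mono : ∀ i j : ι, j ≤ i → v i ≤ v j
  tors : ∀ (i : ι) (x : A i), ∃ m : ℕ, 0 < m ∧ m • x = 0
  gen : ∀ i : ι, A i
  gen_order : ∀ i : ι, addOrderOf (gen i) = p ^ v i
  gen_span : ∀ (i : ι) (x : A i) (m : ℕ), p ^ m • x = 0 → ∃ n : ℤ, x = n • gen i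
  t_gen : ∀ (i j : ι) (h : j ≤ i), P.t i j h (gen i) = p ^ (v j - v i) • gen j

namespace PClassData

variable {p : ℕ} [hp : Fact p.Prime] {ι : Type u} [Preorder ι] {A : ι → Type v}
  [∀ i, AddCommGroup (A i)] {L : Type w} [AddCommGroup L] {P : ColimPres ι A L}
  (D : PClassData p P)

/-- the candidate generator of `A i [p]` -/
def cN (i : ι) : A i := p ^ (D.v i - 1) • D.gen i

theorem p_nsmul_cN (i : ι) (hv : 1 ≤ D.v i) : p • D.cN i = 0 := by
  unfold cN
  rw [← mul_nsmul', ← pow_succ', Nat.sub_add_cancel hv, ← D.gen_order i]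
  exact addOrderOf_nsmul_eq_zero _

theorem cN_ne_zero (i : ι) (hv : 1 ≤ D.v i) : D.cN i ≠ 0 := by
  unfold cN
  intro h0
  have h1 := addOrderOf_dvd_of_nsmul_eq_zero h0
  rw [D.gen_order i] at h1
  have h2 := Nat.le_of_dvd (pow_pos hp.out.pos _) h1
  have h3 : D.v i - 1 < D.v i := by omega
  exact absurd h2 (not_le.2 (Nat.pow_lt_pow_right hp.out.one_lt h3))

theorem t_cN (i j : ι) (h : j ≤ i) (hv : 1 ≤ D.v i) : P.t i j h (D.cN i) = D.cN j := by
  unfold cN
  rw [map_nsmul, D.t_gen i j h, ← mul_nsmul', ← pow_add]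
  congr 2
  have := D.v_mono i j h
  omega

/-- every element of `A i [p]` is a multiple of `cN i` -/
theorem exists_zsmul_cN (i : ι) (y : A i) (hy : p • y = 0) : ∃ n : ℤ, y = n • D.cN i := by
  obtain ⟨n₀, rfl⟩ := D.gen_span i y 1 (by rwa [pow_one])
  rcases Nat.eq_zero_or_pos (D.v i) with hv | hv
  · have h1 : D.gen i = 0 := by
      have := D.gen_order i
      rw [hv, pow_zero, AddMonoid.addOrderOf_eq_one_iff] at this
      exact this
    exact ⟨0, by rw [h1, smul_zero, zero_smul]⟩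
  · have h1 : ((p : ℤ) * n₀) • D.gen i = 0 := by
      rw [mul_smul, natCast_zsmul]; exact hy
    have h2 := addOrderOf_dvd_iff_zsmul_eq_zero.2 h1
    rw [D.gen_order i] at h2
    have h3 : D.v i = (D.v i - 1) + 1 := by omega
    rw [h3, pow_succ, Nat.cast_mul, mul_comm] at h2
    have hp0 : (p : ℤ) ≠ 0 := by exact_mod_cast hp.out.ne_zero
    obtain ⟨n, hn⟩ := (mul_dvd_mul_iff_left hp0).1 h2
    refine ⟨n, ?_⟩
    unfold cN
    rw [hn, mul_smul, natCast_zsmul, smul_comm]

/-- the class of `cN i` in the limit -/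
def cLev (i : ι) : L := P.φ i (D.cN i)

theorem cLev_eq_of_le (i j : ι) (h : j ≤ i) (hv : 1 ≤ D.v i) : D.cLev j = D.cLev i := by
  unfold cLev
  rw [← D.t_cN i j h hv]
  exact P.φ_t i j h _

/-- independence of the level -/
theorem cLev_eq (i j : ι) (hv : 1 ≤ D.v i) (hv' : 1 ≤ D.v j) : D.cLev j = D.cLev i := by
  obtain ⟨k, hki, hkj⟩ := P.directed i j
  rw [← D.cLev_eq_of_le i k hki hv, ← D.cLev_eq_of_le j k hkj hv']

theorem p_nsmul_cLev (i : ι) (hv : 1 ≤ D.v i) : p • D.cLev i = 0 := by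
  unfold cLev
  rw [← map_nsmul, D.p_nsmul_cN i hv, map_zero]

theorem cLev_ne_zero (i : ι) (hv : 1 ≤ D.v i) : D.cLev i ≠ 0 := by
  intro h0
  obtain ⟨j, hji, h1⟩ := P.inj i (D.cN i) h0
  rw [D.t_cN i j hji hv] at h1
  exact D.cN_ne_zero j (hv.trans (D.v_mono i j hji)) h1

/-- `L[p]` is generated by `cLev i` for any `i` with `1 ≤ v i`. -/
theorem exists_zsmul_cLev (i : ι) (hv : 1 ≤ D.v i) (x : L) (hx : p • x = 0) :
    ∃ n : ℤ, x = n • D.cLev i := by
  obtain ⟨i₁, hi₁, y, rfl⟩ := P.surj x i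
  rw [← map_nsmul] at hx
  obtain ⟨j, hj, h0⟩ := P.inj i₁ (p • y) hx
  rw [map_nsmul] at h0
  obtain ⟨n, hn⟩ := D.exists_zsmul_cN j _ h0
  refine ⟨n, ?_⟩
  rw [← P.φ_t i₁ j hj y, hn, map_zsmul, ← D.cLev_eq_of_le i j (hj.trans hi₁) hv]
  rfl

/-- `tr : L[p] ≃ ZMod p`, normalised by `tr (cLev i) = 1`. -/
noncomputable def trEquiv (i : ι) (hv : 1 ≤ D.v i) : pTors p L ≃+ ZMod p :=
  torsEquivZMod p (D.cLev i) (D.cLev_ne_zero i hv) (D.p_nsmul_cLev i hv)
    (D.exists_zsmul_cLev i hv)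

theorem trEquiv_cLev (i : ι) (hv : 1 ≤ D.v i) :
    D.trEquiv i hv ⟨D.cLev i, D.p_nsmul_cLev i hv⟩ = 1 :=
  torsEquivZMod_gen p _ _ _ _

theorem trEquiv_zsmul (i : ι) (hv : 1 ≤ D.v i) (n : ℤ) (h : n • D.cLev i ∈ pTors p L) :
    D.trEquiv i hv ⟨n • D.cLev i, h⟩ = (n : ZMod p) :=
  torsEquivZMod_zsmul p _ _ _ _ n h

/-- `(DIV)`: below every index the valuation increases. -/
def HasDiv : Prop := ∀ i : ι, ∃ j : ι, j ≤ i ∧ D.v i < D.v j

/-- Under `(DIV)`, `L` is `p`-divisible. -/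
theorem p_divisible (hdiv : D.HasDiv) (x : L) : ∃ y : L, p • y = x := by
  obtain ⟨i₀⟩ := P.nonempty
  obtain ⟨i, -, y, rfl⟩ := P.surj x i₀
  obtain ⟨m, hm, hmy⟩ := D.tors i y
  obtain ⟨a, m', hm', rfl⟩ := Nat.exists_eq_pow_mul_and_not_dvd hm.ne' p hp.out.ne_one
  have hcop' : Nat.Coprime p m' := (Nat.Prime.coprime_iff_not_dvd hp.out).2 hm'
  have hcop : Nat.Coprime (p ^ a) m' := Nat.Coprime.pow_left a hcop'
  obtain ⟨y₁, y₂, rfl, hy₁, hy₂⟩ := exists_add_of_coprime_mul_nsmul_eq_zero (p ^ a) m' hcop y hmy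
  obtain ⟨z₂, rfl⟩ := exists_nsmul_eq_of_coprime p m' hcop' y₂ hy₂
  obtain ⟨n, rfl⟩ := D.gen_span i _ a hy₁
  obtain ⟨j, hji, hlt⟩ := hdiv i
  have hr : 1 ≤ D.v j - D.v i := by omega
  refine ⟨n • (p ^ (D.v j - D.v i - 1)) • P.φ j (D.gen j) + P.φ i z₂, ?_⟩
  rw [map_add, smul_add, map_nsmul, map_zsmul]
  congr 1
  rw [← P.φ_t i j hji, D.t_gen i j hji, map_nsmul, smul_comm p n, ← mul_nsmul', ← pow_succ',
    Nat.sub_add_cancel hr]

/-- Without `(DIV)`: the `p`-primary part of `L` is NOT `p`-divisible in general, but `L[p]` is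
still generated by `cLev`.  If no level has order divisible by `p`, `L` has no `p`-torsion. -/
theorem no_p_torsion_of_v_eq_zero (hv : ∀ i, D.v i = 0) (x : L) (hx : p • x = 0) : x = 0 := by
  refine P.no_p_torsion p (fun i y hy => ?_) x hx
  obtain ⟨n, rfl⟩ := D.gen_span i y 1 (by rwa [pow_one])
  have := D.gen_order i
  rw [hv i, pow_zero, AddMonoid.addOrderOf_eq_one_iff] at this
  rw [this, smul_zero]

end PClassData

end Fermat.Agent.CFT.H62
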