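import Mathlib
import Fermat.Agent.CFT.H95_FinLev
import Fermat.Agent.CFT.H62_D2bFormal

/-!
# CFT / D2b : passage to the limit (degrees 1 and 2)

`𝓛 : LevelStructure H`, `C : Rep.{0} k H` discrete.  The structure `PLevelData p 𝓛 C` packages
exactly the finite-level (D2a) facts about `Hⁿ(H/N, C^N)` for a COFINAL family `good` of normal
levels that are needed to compute the `p`-part of the level cohomology `𝓛.H1 C`, `𝓛.H2 C`:

* `H¹(H/N, C^N)` has no `p`-torsion;
* `H²(H/N, C^N)(p)` is cyclic of order `|H/N|_p`, generated by `gen N`, and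
  `inf (gen N) = [N : N']_p • gen N'`.

Results (`D : PLevelData p 𝓛 C`):

* `D.H1_no_p_torsion`, `D.H1_p_divisible` : `𝓛.H1 C` is uniquely `p`-divisible;
* `D.c` : the canonical generator of `(𝓛.H2 C)[p]` (needs one good level of index divisible
  by `p`), `D.c_ne_zero`, `D.p_nsmul_c`, `D.exists_zsmul_c_of_p_nsmul_eq_zero`;
* `D.trEquiv : pTors p (𝓛.H2 C) ≃+ ZMod p` with `trEquiv c = 1`;
* `D.H2_p_divisible` : under `(DIV)`, `𝓛.H2 C` is `p`-divisible.

Everything is for the TOP group `H`; for an open subgroup `U` apply it to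
`(U, 𝓛.restrict U, Rep.res U.subtype C)` with `good` := traces of the `H`-normal levels `≤ U`.
-/

set_option autoImplicit false
set_option linter.unusedSectionVars false
set_option linter.style.haveILetI false

noncomputable section

open CategoryTheory groupCohomology

namespace Fermat.Agent.CFT.H62

open Fermat.Agent.CFT Fermat.Agent.CFT.H95

variable {k : Type} [CommRing k] {H : Type} [Group H]

/-! ### functoriality of `infLevel` -/

theorem map_congr_hom {G G' : Type} [Group G] [Group G'] {A : Rep.{0} k G} {B : Rep.{0} k G'}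
    {f f' : G' →* G} (hf : f = f') (φ : Rep.res f A ⟶ B) (φ' : Rep.res f' A ⟶ B)
    (hφ : ∀ a : A.V, φ.hom a = φ'.hom a) (n : ℕ) :
    groupCohomology.map f φ n = groupCohomology.map f' φ' n := by
  subst hf
  have : φ = φ' := by
    ext a
    exact hφ a
  rw [this]

theorem infLevel_comp (C : Rep.{0} k H) (N N' N'' : Subgroup H) [N.Normal] [N'.Normal]
    [N''.Normal] (h : N' ≤ N) (h' : N'' ≤ N') (n : ℕ) :
    infLevel C N N' h n ≫ infLevel C N' N'' h' n = infLevel C N N'' (h'.trans h) n := by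
  unfold infLevel
  rw [← groupCohomology.map_comp]
  apply map_congr_hom
  · ext x
    rfl
  · intro a
    rfl

theorem infLevel_comp_apply (C : Rep.{0} k H) (N N' N'' : Subgroup H) [N.Normal] [N'.Normal]
    [N''.Normal] (h : N' ≤ N) (h' : N'' ≤ N') (n : ℕ)
    (y : groupCohomology (C.quotientToInvariants N) n) :
    (infLevel C N' N'' h' n).hom ((infLevel C N N' h n).hom y) =
      (infLevel C N N'' (h'.trans h) n).hom y := by
  rw [← infLevel_comp C N N' N'' h h' n]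
  rfl

/-! ### the finite-level data -/

/-- The finite-level input (D2a) for the computation of the `p`-part of level cohomology. -/
structure PLevelData (p : ℕ) (𝓛 : LevelStructure H) (C : Rep.{0} k H) where
  discrete : 𝓛.IsDiscrete C
  /-- a cofinal family of normal levels -/
  good : Set (Subgroup H)
  good_level : ∀ N ∈ good, N ∈ 𝓛.levels
  good_normal : ∀ N ∈ good, N.Normal
  cofinal : ∀ N₀ ∈ 𝓛.levels, ∃ N ∈ good, N ≤ N₀
  /-- finite-level cohomology is torsion in degrees `1`, `2` -/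
  tors1 : ∀ (N : Subgroup H) [N.Normal], N ∈ good →
    ∀ x : groupCohomology (C.quotientToInvariants N) 1, ∃ m : ℕ, 0 < m ∧ m • x = 0
  tors2 : ∀ (N : Subgroup H) [N.Normal], N ∈ good →
    ∀ x : groupCohomology (C.quotientToInvariants N) 2, ∃ m : ℕ, 0 < m ∧ m • x = 0
  /-- `H¹(H/N, C^N)` has no `p`-torsion -/
  h1 : ∀ (N : Subgroup H) [N.Normal], N ∈ good →
    ∀ x : groupCohomology (C.quotientToInvariants N) 1, p • x = 0 → x = 0
  /-- the generator of `H²(H/N, C^N)(p)` -/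
  gen : ∀ (N : Subgroup H) [N.Normal], N ∈ good → groupCohomology (C.quotientToInvariants N) 2
  gen_order : ∀ (N : Subgroup H) [N.Normal] (hN : N ∈ good),
    addOrderOf (gen N hN) = p ^ (N.index.factorization p)
  gen_span : ∀ (N : Subgroup H) [N.Normal] (hN : N ∈ good)
    (x : groupCohomology (C.quotientToInvariants N) 2) (m : ℕ), p ^ m • x = 0 →
      ∃ n : ℤ, x = n • gen N hN
  inf_gen : ∀ (N N' : Subgroup H) [N.Normal] [N'.Normal] (hN : N ∈ good) (hN' : N' ∈ good)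
    (h : N' ≤ N), (infLevel C N N' h 2).hom (gen N hN) =
      (p ^ ((N'.relIndex N).factorization p)) • gen N' hN'

namespace PLevelData

variable {p : ℕ} [hp : Fact p.Prime] {𝓛 : LevelStructure H} {C : Rep.{0} k H}
  (D : PLevelData p 𝓛 C)

/-- a good level below two given good levels -/
theorem exists_good_le {N₁ N₂ : Subgroup H} (h₁ : N₁ ∈ 𝓛.levels) (h₂ : N₂ ∈ 𝓛.levels) :
    ∃ N ∈ D.good, N ≤ N₁ ∧ N ≤ N₂ := by
  obtain ⟨N₃, h₃, hle⟩ := 𝓛.directed N₁ h₁ N₂ h₂
  obtain ⟨N, hN, hle'⟩ := D.cofinal N₃ h₃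
  exact ⟨N, hN, hle'.trans (hle.trans inf_le_left), hle'.trans (hle.trans inf_le_right)⟩

/-! ### (F3), (F4) relative to the good levels -/

theorem exists_good_infLev₁_eq (x : 𝓛.H1 C) {N₀ : Subgroup H} (h₀ : N₀ ∈ 𝓛.levels) :
    ∃ (N : Subgroup H) (hN : N ∈ D.good) (_ : N.Normal), N ≤ N₀ ∧
      ∃ y : groupCohomology (C.quotientToInvariants N) 1,
        infLev₁ 𝓛 C N (D.good_level N hN) y = x := by
  obtain ⟨N₁, hN₁, hnor₁, hle₁, y₁, rfl⟩ := exists_infLev₁_eq D.discrete x h₀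
  obtain ⟨N, hN, hle⟩ := D.cofinal N₁ hN₁
  haveI := D.good_normal N hN
  exact ⟨N, hN, inferInstance, hle.trans hle₁, (infLevel C N₁ N hle 1).hom y₁,
    infLev₁_infLevel 𝓛 C N₁ N hle hN₁ (D.good_level N hN) y₁⟩

theorem exists_good_infLev₂_eq (x : 𝓛.H2 C) {N₀ : Subgroup H} (h₀ : N₀ ∈ 𝓛.levels) :
    ∃ (N : Subgroup H) (hN : N ∈ D.good) (_ : N.Normal), N ≤ N₀ ∧
      ∃ y : groupCohomology (C.quotientToInvariants N) 2,
        infLev₂ 𝓛 C N (D.good_level N hN) y = x := by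
  obtain ⟨N₁, hN₁, hnor₁, hle₁, y₁, rfl⟩ := exists_infLev₂_eq D.discrete x h₀
  obtain ⟨N, hN, hle⟩ := D.cofinal N₁ hN₁
  haveI := D.good_normal N hN
  exact ⟨N, hN, inferInstance, hle.trans hle₁, (infLevel C N₁ N hle 2).hom y₁,
    infLev₂_infLevel 𝓛 C N₁ N hle hN₁ (D.good_level N hN) y₁⟩

theorem exists_good_infLevel_eq_zero₁ {N : Subgroup H} [N.Normal] (hN : N ∈ 𝓛.levels)
    (y : groupCohomology (C.quotientToInvariants N) 1) (hy : infLev₁ 𝓛 C N hN y = 0) :
    ∃ (N' : Subgroup H) (_ : N' ∈ D.good) (_ : N'.Normal) (h : N' ≤ N),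
      (infLevel C N N' h 1).hom y = 0 := by
  obtain ⟨N₁, hN₁, hnor₁, hle₁, h0⟩ := exists_infLevel_eq_zero₁ D.discrete hN y hy
  obtain ⟨N', hN', hle⟩ := D.cofinal N₁ hN₁
  haveI := D.good_normal N' hN'
  refine ⟨N', hN', inferInstance, hle.trans hle₁, ?_⟩
  rw [← infLevel_comp_apply C N N₁ N' hle₁ hle 1 y, h0, map_zero]

theorem exists_good_infLevel_eq_zero₂ {N : Subgroup H} [N.Normal] (hN : N ∈ 𝓛.levels)
    (y : groupCohomology (C.quotientToInvariants N) 2) (hy : infLev₂ 𝓛 C N hN y = 0) :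
    ∃ (N' : Subgroup H) (_ : N' ∈ D.good) (_ : N'.Normal) (h : N' ≤ N),
      (infLevel C N N' h 2).hom y = 0 := by
  obtain ⟨N₁, hN₁, hnor₁, hle₁, h0⟩ := exists_infLevel_eq_zero₂ D.discrete hN y hy
  obtain ⟨N', hN', hle⟩ := D.cofinal N₁ hN₁
  haveI := D.good_normal N' hN'
  refine ⟨N', hN', inferInstance, hle.trans hle₁, ?_⟩
  rw [← infLevel_comp_apply C N N₁ N' hle₁ hle 2 y, h0, map_zero]

/-! ### degree 1 -/

include D in
/-- `𝓛.H1 C` has no `p`-torsion. -/
theorem H1_no_p_torsion (x : 𝓛.H1 C) (hx : p • x = 0) : x = 0 := by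
  obtain ⟨N₀, h₀⟩ := 𝓛.nonempty
  obtain ⟨N, hN, hnor, -, y, rfl⟩ := D.exists_good_infLev₁_eq x h₀
  rw [← map_nsmul] at hx
  obtain ⟨N', hN', hnor', hle, h0⟩ :=
    D.exists_good_infLevel_eq_zero₁ (D.good_level N hN) (p • y) hx
  rw [map_nsmul] at h0
  have h1 := D.h1 N' hN' _ h0
  rw [← infLev₁_infLevel 𝓛 C N N' hle (D.good_level N hN) (D.good_level N' hN') y, h1, map_zero]

include D in
/-- `𝓛.H1 C` is `p`-divisible. -/
theorem H1_p_divisible (x : 𝓛.H1 C) : ∃ y : 𝓛.H1 C, p • y = x := by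
  obtain ⟨N₀, h₀⟩ := 𝓛.nonempty
  obtain ⟨N, hN, hnor, -, y, rfl⟩ := D.exists_good_infLev₁_eq x h₀
  obtain ⟨z, rfl⟩ := divisible_of_torsion_of_no_p_torsion p hp.out (D.tors1 N hN) (D.h1 N hN) y
  exact ⟨infLev₁ 𝓛 C N (D.good_level N hN) z, (map_nsmul _ _ _).symm⟩

/-! ### degree 2 : finite level -/

/-- the `p`-adic valuation of the index of a level -/
abbrev v (_D : PLevelData p 𝓛 C) (N : Subgroup H) : ℕ := N.index.factorization p

include D in
theorem index_ne_zero {N : Subgroup H} (hN : N ∈ D.good) : N.index ≠ 0 :=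
  (𝓛.finiteIndex N (D.good_level N hN)).index_ne_zero

include D in
theorem v_eq_add {N N' : Subgroup H} (hN : N ∈ D.good) (hN' : N' ∈ D.good) (h : N' ≤ N) :
    D.v N' = (N'.relIndex N).factorization p + D.v N := by
  have h1 : N'.relIndex N * N.index = N'.index := Subgroup.relIndex_mul_index h
  have h2 : N'.relIndex N ≠ 0 := by
    intro h0
    rw [h0, zero_mul] at h1
    exact D.index_ne_zero hN' h1.symm
  change N'.index.factorization p = _
  rw [← h1, Nat.factorization_mul h2 (D.index_ne_zero hN)]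
  rfl

include D in
theorem v_mono {N N' : Subgroup H} (hN : N ∈ D.good) (hN' : N' ∈ D.good) (h : N' ≤ N) :
    D.v N ≤ D.v N' := by
  rw [D.v_eq_add hN hN' h]
  exact Nat.le_add_left _ _

/-- the candidate generator of `H²(H/N, C^N)[p]` -/
def cN (N : Subgroup H) [N.Normal] (hN : N ∈ D.good) :
    groupCohomology (C.quotientToInvariants N) 2 :=
  (p ^ (D.v N - 1)) • D.gen N hN

theorem p_nsmul_cN (N : Subgroup H) [N.Normal] (hN : N ∈ D.good) (hv : 1 ≤ D.v N) :
    p • D.cN N hN = 0 := by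
  unfold cN
  rw [← mul_nsmul', ← pow_succ', Nat.sub_add_cancel hv, ← D.gen_order N hN]
  exact addOrderOf_nsmul_eq_zero _

theorem cN_ne_zero (N : Subgroup H) [N.Normal] (hN : N ∈ D.good) (hv : 1 ≤ D.v N) :
    D.cN N hN ≠ 0 := by
  unfold cN
  intro h0
  have h1 := addOrderOf_dvd_of_nsmul_eq_zero h0
  rw [D.gen_order N hN] at h1
  have h2 := Nat.le_of_dvd (pow_pos hp.out.pos _) h1
  have h3 : D.v N - 1 < D.v N := by omega
  exact absurd h2 (not_le.2 (Nat.pow_lt_pow_right hp.out.one_lt h3))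

theorem infLevel_cN (N N' : Subgroup H) [N.Normal] [N'.Normal] (hN : N ∈ D.good)
    (hN' : N' ∈ D.good) (h : N' ≤ N) (hv : 1 ≤ D.v N) :
    (infLevel C N N' h 2).hom (D.cN N hN) = D.cN N' hN' := by
  unfold cN
  rw [map_nsmul, D.inf_gen N N' hN hN' h, ← mul_nsmul', ← pow_add, D.v_eq_add hN hN' h]
  congr 2
  omega

/-- every element of `H²(H/N, C^N)[p]` is a multiple of `cN` (and is `0` if `p ∤ [H : N]`) -/
theorem exists_zsmul_cN (N : Subgroup H) [N.Normal] (hN : N ∈ D.good)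
    (y : groupCohomology (C.quotientToInvariants N) 2) (hy : p • y = 0) :
    ∃ n : ℤ, y = n • D.cN N hN := by
  obtain ⟨n₀, rfl⟩ := D.gen_span N hN y 1 (by rwa [pow_one])
  rcases Nat.eq_zero_or_pos (D.v N) with hv | hv
  · have h1 : D.gen N hN = 0 := by
      have := D.gen_order N hN
      change addOrderOf (D.gen N hN) = p ^ D.v N at this
      rw [hv, pow_zero, AddMonoid.addOrderOf_eq_one_iff] at this
      exact this
    exact ⟨0, by rw [h1, smul_zero, zero_smul]⟩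
  · have h1 : ((p : ℤ) * n₀) • D.gen N hN = 0 := by
      rw [mul_smul, natCast_zsmul]; exact hy
    have h2 := addOrderOf_dvd_iff_zsmul_eq_zero.2 h1
    rw [D.gen_order N hN] at h2
    change ((p ^ D.v N : ℕ) : ℤ) ∣ _ at h2
    have h3 : D.v N = (D.v N - 1) + 1 := by omega
    rw [h3, pow_succ, Nat.cast_mul, mul_comm] at h2
    have hp0 : (p : ℤ) ≠ 0 := by exact_mod_cast hp.out.ne_zero
    obtain ⟨n, hn⟩ := (mul_dvd_mul_iff_left hp0).1 h2
    refine ⟨n, ?_⟩
    unfold cN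
    rw [hn, mul_smul, natCast_zsmul, smul_comm]

/-! ### degree 2 : the generator of `(𝓛.H2 C)[p]` -/

/-- the class of `cN` in level cohomology -/
def cLev (N : Subgroup H) [N.Normal] (hN : N ∈ D.good) : 𝓛.H2 C :=
  infLev₂ 𝓛 C N (D.good_level N hN) (D.cN N hN)

theorem cLev_eq_of_le (N N' : Subgroup H) [N.Normal] [N'.Normal] (hN : N ∈ D.good)
    (hN' : N' ∈ D.good) (h : N' ≤ N) (hv : 1 ≤ D.v N) : D.cLev N' hN' = D.cLev N hN := by
  unfold cLev
  rw [← D.infLevel_cN N N' hN hN' h hv]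
  exact infLev₂_infLevel 𝓛 C N N' h (D.good_level N hN) (D.good_level N' hN') _

/-- independence of the level -/
theorem cLev_eq (N N' : Subgroup H) [N.Normal] [N'.Normal] (hN : N ∈ D.good)
    (hN' : N' ∈ D.good) (hv : 1 ≤ D.v N) (hv' : 1 ≤ D.v N') : D.cLev N' hN' = D.cLev N hN := by
  obtain ⟨N'', hN'', hle, hle'⟩ := D.exists_good_le (D.good_level N hN) (D.good_level N' hN')
  haveI := D.good_normal N'' hN''
  rw [← D.cLev_eq_of_le N N'' hN hN'' hle hv, ← D.cLev_eq_of_le N' N'' hN' hN'' hle' hv']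

theorem p_nsmul_cLev (N : Subgroup H) [N.Normal] (hN : N ∈ D.good) (hv : 1 ≤ D.v N) :
    p • D.cLev N hN = 0 := by
  unfold cLev
  rw [← map_nsmul, D.p_nsmul_cN N hN hv, map_zero]

theorem cLev_ne_zero (N : Subgroup H) [N.Normal] (hN : N ∈ D.good) (hv : 1 ≤ D.v N) :
    D.cLev N hN ≠ 0 := by
  intro h0
  obtain ⟨N', hN', hnor', hle, h1⟩ :=
    D.exists_good_infLevel_eq_zero₂ (D.good_level N hN) (D.cN N hN) h0
  rw [D.infLevel_cN N N' hN hN' hle hv] at h1
  exact D.cN_ne_zero N' hN' (hv.trans (D.v_mono hN hN' hle)) h1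

/-- `(𝓛.H2 C)[p]` is generated by `cLev N` for any good `N` with `p ∣ [H : N]`. -/
theorem exists_zsmul_cLev (N : Subgroup H) [N.Normal] (hN : N ∈ D.good) (hv : 1 ≤ D.v N)
    (x : 𝓛.H2 C) (hx : p • x = 0) : ∃ n : ℤ, x = n • D.cLev N hN := by
  obtain ⟨N₁, hN₁, hnor₁, hle₁, y, rfl⟩ := D.exists_good_infLev₂_eq x (D.good_level N hN)
  rw [← map_nsmul] at hx
  obtain ⟨N', hN', hnor', hle, h0⟩ :=
    D.exists_good_infLevel_eq_zero₂ (D.good_level N₁ hN₁) (p • y) hx
  rw [map_nsmul] at h0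
  obtain ⟨n, hn⟩ := D.exists_zsmul_cN N' hN' _ h0
  refine ⟨n, ?_⟩
  rw [← infLev₂_infLevel 𝓛 C N₁ N' hle (D.good_level N₁ hN₁) (D.good_level N' hN') y, hn,
    map_zsmul, ← D.cLev_eq_of_le N N' hN hN' (hle.trans hle₁) hv]
  rfl

/-- `tr : (𝓛.H2 C)[p] ≃ ZMod p`, normalised by `tr (cLev N) = 1`. -/
def trEquiv (N : Subgroup H) [N.Normal] (hN : N ∈ D.good) (hv : 1 ≤ D.v N) :
    pTors p (𝓛.H2 C) ≃+ ZMod p :=
  torsEquivZMod p (D.cLev N hN) (D.cLev_ne_zero N hN hv) (D.p_nsmul_cLev N hN hv)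
    (D.exists_zsmul_cLev N hN hv)

theorem trEquiv_cLev (N : Subgroup H) [N.Normal] (hN : N ∈ D.good) (hv : 1 ≤ D.v N) :
    D.trEquiv N hN hv ⟨D.cLev N hN, D.p_nsmul_cLev N hN hv⟩ = 1 :=
  torsEquivZMod_gen p _ _ _ _

theorem trEquiv_zsmul (N : Subgroup H) [N.Normal] (hN : N ∈ D.good) (hv : 1 ≤ D.v N) (n : ℤ)
    (h : n • D.cLev N hN ∈ pTors p (𝓛.H2 C)) :
    D.trEquiv N hN hv ⟨n • D.cLev N hN, h⟩ = (n : ZMod p) :=
  torsEquivZMod_zsmul p _ _ _ _ n h

/-! ### degree 2 : `p`-divisibility under `(DIV)` -/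

/-- `(DIV)`: every good level has a good sublevel of relative index divisible by `p`. -/
def HasDiv : Prop := ∀ N ∈ D.good, ∃ N' ∈ D.good, N' ≤ N ∧ p ∣ N'.relIndex N

/-- Under `(DIV)`, `𝓛.H2 C` is `p`-divisible. -/
theorem H2_p_divisible (hdiv : D.HasDiv) (x : 𝓛.H2 C) : ∃ y : 𝓛.H2 C, p • y = x := by
  obtain ⟨N₀, h₀⟩ := 𝓛.nonempty
  obtain ⟨N, hN, hnor, -, y, rfl⟩ := D.exists_good_infLev₂_eq x h₀
  obtain ⟨m, hm, hmy⟩ := D.tors2 N hN y
  obtain ⟨a, m', hm', rfl⟩ := Nat.exists_eq_pow_mul_and_not_dvd hm.ne' p hp.out.ne_one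
  have hcop' : Nat.Coprime p m' := (Nat.Prime.coprime_iff_not_dvd hp.out).2 hm'
  have hcop : Nat.Coprime (p ^ a) m' := Nat.Coprime.pow_left a hcop'
  -- the `p`-primary component `y₁` and the prime-to-`p` component `y₂`
  obtain ⟨y₁, y₂, rfl, hy₁, hy₂⟩ := exists_add_of_coprime_mul_nsmul_eq_zero (p ^ a) m' hcop y hmy
  -- `y₂` is divisible by `p` at level `N`
  obtain ⟨z₂, rfl⟩ := exists_nsmul_eq_of_coprime p m' hcop' y₂ hy₂
  -- `y₁` is a multiple of `gen N`, whose inflation to a deeper level is divisible by `p`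
  obtain ⟨n, rfl⟩ := D.gen_span N hN _ a hy₁
  obtain ⟨N', hN', hle, hpdvd⟩ := hdiv N hN
  haveI := D.good_normal N' hN'
  have hrel : N'.relIndex N ≠ 0 := by
    intro h0
    have h1 : N'.relIndex N * N.index = N'.index := Subgroup.relIndex_mul_index hle
    rw [h0, zero_mul] at h1
    exact D.index_ne_zero hN' h1.symm
  have hr : 1 ≤ (N'.relIndex N).factorization p :=
    (hp.out.dvd_iff_one_le_factorization hrel).1 hpdvd
  refine ⟨n • (p ^ ((N'.relIndex N).factorization p - 1)) •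
      infLev₂ 𝓛 C N' (D.good_level N' hN') (D.gen N' hN') +
    infLev₂ 𝓛 C N (D.good_level N hN) z₂, ?_⟩
  rw [map_add, smul_add, map_nsmul, map_zsmul]
  congr 1
  rw [← infLev₂_infLevel 𝓛 C N N' hle (D.good_level N hN) (D.good_level N' hN'),
    D.inf_gen N N' hN hN' hle, map_nsmul, smul_comm p n, ← mul_nsmul', ← pow_succ',
    Nat.sub_add_cancel hr]

end PLevelData

end Fermat.Agent.CFT.H62
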