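/-
CFT project, layer D, package D2a (helper83): finite-level consequences of a `p`-class module
structure (`IsPClassModule p C γ`, `H91_Formation`) on a finite group `G`:

* the structure restricts to every subgroup;
* `H¹(G, C)` and `H³(G, C)` have no `p`-torsion;
* the `p`-primary part of `H²(G, C)` is cyclic of order `|G|_p`, generated by the `p`-part of `γ`.
-/
import Mathlib
import Fermat.Agent.CFT.H91_Formation
import Fermat.Agent.CFT.H43_Maps
import Fermat.Agent.CFT.H33_CorRes
import Fermat.Agent.CFT.H52_TateFinal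
import Fermat.Agent.CFT.H40_ResIndex

set_option autoImplicit false
set_option linter.unusedSectionVars false

open CategoryTheory groupCohomology

namespace Fermat.Agent.CFT.H83

variable {k : Type} [CommRing k] {G : Type} [Group G]

/-! ## Subgroups of subgroups -/

section SubSub

variable (C : Rep.{0} k G) (H : Subgroup G) (S : Subgroup H)

/-- The pair `(S, C|_H|_S)` for `S ≤ H ≤ G` is equivalent to the pair `(S.map H.subtype, C|_…)`. -/
noncomputable def subPair : H43.PairEquiv (Rep.res S.subtype (Rep.res H.subtype C))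
    (Rep.res (S.map H.subtype).subtype C) where
  e := Subgroup.equivMapOfInjective S H.subtype H.subtype_injective
  φ := LinearEquiv.refl k _
  comm _ _ := rfl

lemma subPair_e_coe (s : S) : ((subPair C H S).e s : G) = ((s : H) : G) := rfl

/-- Transitivity of restriction, up to the transport `subPair`. -/
lemma cohIso_resSub_resSub (n : ℕ) (x : groupCohomology C n) :
    ((subPair C H S).cohIso n).hom.hom
        ((resSub (Rep.res H.subtype C) S n).hom ((resSub C H n).hom x)) =
      (resSub C (S.map H.subtype) n).hom x := by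
  have key : resSub C H n ≫ resSub (Rep.res H.subtype C) S n ≫ ((subPair C H S).cohIso n).hom =
      resSub C (S.map H.subtype) n := by
    rw [H43.PairEquiv.cohIso_hom]
    unfold resSub
    rw [← groupCohomology.map_comp, ← groupCohomology.map_comp]
    refine groupCohomology.map_congr ?_ ?_ n
    · ext s'
      obtain ⟨s, rfl⟩ := (subPair C H S).e.surjective s'
      simp [subPair_e_coe]
    · rfl
  have := congrArg (fun f => f.hom x) key
  simpa using this

end SubSub

/-! ## (R) Restriction of a `p`-class module structure to a subgroup -/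

section Restrict

variable {p : ℕ} {C : Rep.{0} k G} {γ : groupCohomology C 2}

lemma cohIso_injective {G' : Type} [Group G'] {A : Rep.{0} k G} {A' : Rep.{0} k G'}
    (E : H43.PairEquiv A A') (n : ℕ) : Function.Injective ((E.cohIso n).hom.hom) :=
  (E.cohIso n).toLinearEquiv.injective

/-- A `p`-class module restricts to a `p`-class module on every subgroup. -/
theorem isPClassModule_res (hC : IsPClassModule p C γ) (H : Subgroup G) :
    IsPClassModule p (Rep.res H.subtype C) ((resSub C H 2).hom γ) where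
  h1 S hS := by
    have hS' : IsPGroup p (S.map H.subtype) := hS.of_equiv (subPair C H S).e
    have := hC.h1 (S.map H.subtype) hS'
    exact (((subPair C H S).cohIso 1).toLinearEquiv.toEquiv).subsingleton
  h2_gen S hS x := by
    have hS' : IsPGroup p (S.map H.subtype) := hS.of_equiv (subPair C H S).e
    obtain ⟨n, hn⟩ := hC.h2_gen (S.map H.subtype) hS' (((subPair C H S).cohIso 2).hom.hom x)
    refine ⟨n, cohIso_injective (subPair C H S) 2 ?_⟩
    rw [hn, map_zsmul, cohIso_resSub_resSub]
  h2_order S hS := by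
    have hS' : IsPGroup p (S.map H.subtype) := hS.of_equiv (subPair C H S).e
    have h1 := hC.h2_order (S.map H.subtype) hS'
    rw [← cohIso_resSub_resSub C H S 2 γ] at h1
    rw [← Nat.card_congr (subPair C H S).e.toEquiv] at h1
    rw [← h1]
    exact (addOrderOf_injective
      (((subPair C H S).cohIso 2).toLinearEquiv.toLinearMap.toAddMonoidHom)
      (cohIso_injective (subPair C H S) 2) _).symm

end Restrict

/-! ## `H¹` and `H³`: no `p`-torsion -/

section Vanishing

variable [Finite G] {p : ℕ}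

omit [Finite G] in
lemma H2π_resCocycle₂ (A : Rep.{0} ℤ G) (γ' : cocycles₂ A) (S : Subgroup G) :
    (H2π (Rep.res S.subtype A)) (H52.resCocycle₂ A γ' S) = (resSub A S 2).hom ((H2π A) γ') := by
  have h := congrArg (fun f => f.hom γ')
    (H2π_comp_map (A := A) S.subtype (𝟙 (Rep.res S.subtype A)))
  simp only [ModuleCat.hom_comp, LinearMap.comp_apply] at h
  unfold resSub
  rw [h]
  congr 1

/-- For a finite `p`-group, a `p`-class module has a fundamental class in the sense of `H52`,
hence `H³ = 0` by Tate's theorem. -/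
theorem subsingleton_H3_of_isPGroup (hG : IsPGroup p G) {C : Rep.{0} ℤ G}
    {γ : groupCohomology C 2} (hC : IsPClassModule p C γ) :
    Subsingleton (groupCohomology C 3) := by
  obtain ⟨γ', rfl⟩ : ∃ γ' : cocycles₂ C, (H2π C) γ' = γ :=
    H2_induction_on γ (fun x => ⟨x, rfl⟩)
  refine H52.subsingleton_H3_of_isFundamental C γ' ⟨?_, ?_, ?_⟩
  · intro S
    exact hC.h1 S (hG.to_subgroup S)
  · intro S x
    obtain ⟨n, hn⟩ := hC.h2_gen S (hG.to_subgroup S) x
    rw [H2π_resCocycle₂]
    exact AddSubgroup.mem_zmultiples_iff.2 ⟨n, hn.symm⟩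
  · intro S
    have htop : AddSubgroup.zmultiples ((resSub C S 2).hom ((H2π C) γ')) = ⊤ := by
      refine eq_top_iff.2 (fun x _ => ?_)
      obtain ⟨n, hn⟩ := hC.h2_gen S (hG.to_subgroup S) x
      exact AddSubgroup.mem_zmultiples_iff.2 ⟨n, hn.symm⟩
    rw [← hC.h2_order S (hG.to_subgroup S), ← Nat.card_zmultiples, htop]
    exact (Nat.card_congr AddSubgroup.topEquiv.toEquiv).symm

variable [Fact p.Prime] {C : Rep.{0} ℤ G} {γ : groupCohomology C 2}

/-- (T1) `H¹(G, C)` has no `p`-torsion. -/
theorem eq_zero_of_pow_smul_H1 (hC : IsPClassModule p C γ) (x : groupCohomology C 1) (m : ℕ)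
    (hx : p ^ m • x = 0) : x = 0 := by
  obtain ⟨P⟩ : Nonempty (Sylow p G) := inferInstance
  have hP : Subsingleton (groupCohomology (Rep.res (P : Subgroup G).subtype C) 1) :=
    hC.h1 P P.isPGroup'
  exact H33.eq_zero_of_pow_nsmul_of_sylow C 1 P hP x m hx

/-- (T3) `H³(G, C)` has no `p`-torsion. -/
theorem eq_zero_of_pow_smul_H3 (hC : IsPClassModule p C γ) (x : groupCohomology C 3) (m : ℕ)
    (hx : p ^ m • x = 0) : x = 0 := by
  obtain ⟨P⟩ : Nonempty (Sylow p G) := inferInstance
  have hP : Subsingleton (groupCohomology (Rep.res (P : Subgroup G).subtype C) 3) :=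
    subsingleton_H3_of_isPGroup P.isPGroup' (isPClassModule_res hC (P : Subgroup G))
  exact H33.eq_zero_of_pow_nsmul_of_sylow C 3 P hP x m hx

end Vanishing

/-! ## (T2) The `p`-primary part of `H²` -/

section H2

variable [Finite G] {p : ℕ} [Fact p.Prime] (C : Rep.{0} ℤ G) (γ : groupCohomology C 2)

/-- The kernel of (Mathlib's) restriction to a subgroup is killed by the index (weak transfer,
`H40_ResIndex`). -/
lemma index_nsmul_eq_zero_of_resSub_eq_zero (S : Subgroup G) (n : ℕ)
    (y : groupCohomology C (n + 1)) (hy : (resSub C S (n + 1)).hom y = 0) : S.index • y = 0 :=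
  H40.index_nsmul_eq_zero_of_res_eq_zero n C S y hy

variable (p) in
/-- The `p`-part of the fundamental class: `|G|_{p'} • γ`. -/
noncomputable def gammaP : groupCohomology C 2 := (ordCompl[p] (Nat.card G)) • γ

omit [Finite G] in
lemma sylow_index_eq (P : Sylow p G) [Finite G] :
    (P : Subgroup G).index = ordCompl[p] (Nat.card G) := by
  have h1 := (P : Subgroup G).card_mul_index
  rw [P.card_eq_multiplicity] at h1
  have h2 := Nat.ordProj_mul_ordCompl_eq_self (Nat.card G) p
  exact Nat.eq_of_mul_eq_mul_left (pow_pos (Fact.out : p.Prime).pos _) (h1.trans h2.symm)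

lemma coprime_ordProj_ordCompl : Nat.Coprime (ordProj[p] (Nat.card G)) (ordCompl[p] (Nat.card G)) :=
  Nat.Coprime.pow_left _ (Nat.coprime_ordCompl (Fact.out : p.Prime) Nat.card_pos.ne')

variable {C γ}

/-- (T2a) the `p`-part of `γ` has order `|G|_p`. -/
theorem addOrderOf_gammaP (hC : IsPClassModule p C γ) :
    addOrderOf (gammaP p C γ) = ordProj[p] (Nat.card G) := by
  obtain ⟨P⟩ : Nonempty (Sylow p G) := inferInstance
  apply Nat.dvd_antisymm
  · apply addOrderOf_dvd_of_nsmul_eq_zero
    rw [gammaP, smul_smul, Nat.ordProj_mul_ordCompl_eq_self]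
    exact H33.card_nsmul_eq_zero C 1 γ
  · have h1 : addOrderOf ((resSub C (P : Subgroup G) 2).hom (gammaP p C γ)) ∣
        addOrderOf (gammaP p C γ) :=
      addOrderOf_map_dvd ((resSub C (P : Subgroup G) 2).hom.toAddMonoidHom) _
    have h2 : addOrderOf ((resSub C (P : Subgroup G) 2).hom (gammaP p C γ)) =
        ordProj[p] (Nat.card G) := by
      rw [gammaP, map_nsmul]
      have h3 := hC.h2_order P P.isPGroup'
      rw [P.card_eq_multiplicity] at h3
      rw [← h3]
      apply Nat.Coprime.addOrderOf_nsmul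
      rw [h3]
      exact coprime_ordProj_ordCompl
    rwa [h2] at h1

/-- (T2b) every `p`-power torsion class in `H²(G, C)` is a multiple of the `p`-part of `γ`. -/
theorem exists_eq_zsmul_gammaP (hC : IsPClassModule p C γ)
    (x : groupCohomology C 2) (m : ℕ) (hx : p ^ m • x = 0) : ∃ n : ℤ, x = n • gammaP p C γ := by
  obtain ⟨P⟩ : Nonempty (Sylow p G) := inferInstance
  obtain ⟨n, hn⟩ := hC.h2_gen P P.isPGroup' ((resSub C (P : Subgroup G) 2).hom x)
  have h0 : (resSub C (P : Subgroup G) 2).hom (x - n • γ) = 0 := by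
    rw [map_sub, map_zsmul, hn, sub_self]
  have h1 := index_nsmul_eq_zero_of_resSub_eq_zero C (P : Subgroup G) 1 _ h0
  rw [sylow_index_eq, smul_sub, sub_eq_zero] at h1
  have hcop : IsCoprime ((ordCompl[p] (Nat.card G) : ℕ) : ℤ) ((p ^ m : ℕ) : ℤ) := by
    rw [Nat.isCoprime_iff_coprime]
    exact (Nat.Coprime.pow_left m
      (Nat.coprime_ordCompl (Fact.out : p.Prime) Nat.card_pos.ne')).symm
  obtain ⟨u, v, huv⟩ := hcop
  refine ⟨u * n, ?_⟩
  have hx' : ((p ^ m : ℕ) : ℤ) • x = 0 := by
    rw [natCast_zsmul]; exact hx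
  have e1 : x = (u * ((ordCompl[p] (Nat.card G) : ℕ) : ℤ) + v * ((p ^ m : ℕ) : ℤ)) • x := by
    rw [huv, one_zsmul]
  rw [e1, add_zsmul, mul_zsmul, mul_zsmul, hx', zsmul_zero, add_zero, natCast_zsmul, h1,
    mul_zsmul, gammaP, smul_comm (ordCompl[p] (Nat.card G)) n γ]

/-- (T2c) the `p`-part of `γ` is `p`-power torsion. -/
theorem ordProj_nsmul_gammaP : ordProj[p] (Nat.card G) • gammaP p C γ = 0 := by
  rw [gammaP, smul_smul, Nat.ordProj_mul_ordCompl_eq_self]
  exact H33.card_nsmul_eq_zero C 1 γ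

/-- (T4) restriction of the `p`-part of `γ` to a subgroup. -/
theorem resSub_gammaP (H : Subgroup G) :
    (resSub C H 2).hom (gammaP p C γ) =
      (ordCompl[p] (Nat.card G) / ordCompl[p] (Nat.card H)) •
        gammaP p (Rep.res H.subtype C) ((resSub C H 2).hom γ) := by
  have hdvd : ordCompl[p] (Nat.card H) ∣ ordCompl[p] (Nat.card G) :=
    Nat.ordCompl_dvd_ordCompl_of_dvd (Subgroup.card_subgroup_dvd_card H) p
  rw [gammaP, gammaP, map_nsmul, smul_smul, Nat.div_mul_cancel hdvd]

/-! ### The `p`-torsion of `H²` -/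

/-- If `p ∤ |G|` then `H²(G, C)` has no `p`-torsion. -/
theorem eq_zero_of_pow_smul_H2_of_not_dvd (hC : IsPClassModule p C γ) (hp : ¬ p ∣ Nat.card G)
    (x : groupCohomology C 2) (m : ℕ) (hx : p ^ m • x = 0) : x = 0 := by
  obtain ⟨n, rfl⟩ := exists_eq_zsmul_gammaP hC x m hx
  have h1 : addOrderOf (gammaP p C γ) = 1 := by
    rw [addOrderOf_gammaP hC, Nat.factorization_eq_zero_of_not_dvd hp, pow_zero]
  rw [AddMonoid.addOrderOf_eq_one_iff.1 h1, zsmul_zero]

variable (p C γ) in
/-- The canonical generator of `H²(G, C)[p]`: `(|G|_p / p) • γ_p`. -/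
noncomputable def cP : groupCohomology C 2 := (ordProj[p] (Nat.card G) / p) • gammaP p C γ

lemma p_dvd_ordProj (hdvd : p ∣ Nat.card G) : p ∣ ordProj[p] (Nat.card G) := by
  have hpos : 0 < (Nat.card G).factorization p :=
    (Fact.out : p.Prime).factorization_pos_of_dvd Nat.card_pos.ne' hdvd
  exact dvd_pow_self p hpos.ne'

theorem p_nsmul_cP (hdvd : p ∣ Nat.card G) : p • cP p C γ = 0 := by
  rw [cP, smul_smul, Nat.mul_div_cancel' (p_dvd_ordProj hdvd)]
  exact ordProj_nsmul_gammaP

/-- If `p ∣ |G|` the generator `cP` has order exactly `p`. -/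
theorem addOrderOf_cP (hC : IsPClassModule p C γ) (hdvd : p ∣ Nat.card G) :
    addOrderOf (cP p C γ) = p := by
  have hp : p.Prime := Fact.out
  have h1 : addOrderOf (cP p C γ) ∣ p := addOrderOf_dvd_of_nsmul_eq_zero (p_nsmul_cP hdvd)
  rcases (Nat.dvd_prime hp).1 h1 with h | h
  · exfalso
    have h0 : cP p C γ = 0 := AddMonoid.addOrderOf_eq_one_iff.1 h
    rw [cP] at h0
    have h2 := addOrderOf_dvd_of_nsmul_eq_zero h0
    rw [addOrderOf_gammaP hC] at h2
    obtain ⟨t, ht⟩ := p_dvd_ordProj (G := G) hdvd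
    rw [ht, Nat.mul_div_cancel_left t hp.pos] at h2
    have ht0 : 0 < t := by
      rcases Nat.eq_zero_or_pos t with h' | h'
      · rw [h', mul_zero] at ht
        exact absurd ht (pow_pos hp.pos _).ne'
      · exact h'
    have := Nat.le_of_dvd ht0 h2
    have : t < p * t := lt_mul_of_one_lt_left ht0 hp.one_lt
    omega
  · exact h

/-- Every class of `H²(G, C)` killed by `p` is a multiple of `cP`. -/
theorem exists_eq_zsmul_cP (hC : IsPClassModule p C γ) (hdvd : p ∣ Nat.card G)
    (x : groupCohomology C 2) (hx : p • x = 0) : ∃ n : ℤ, x = n • cP p C γ := by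
  have hp : p.Prime := Fact.out
  obtain ⟨n, rfl⟩ := exists_eq_zsmul_gammaP hC x 1 (by rwa [pow_one])
  obtain ⟨t, ht⟩ := p_dvd_ordProj (G := G) hdvd
  have h1 : ((p : ℤ) * n) • gammaP p C γ = 0 := by
    rw [mul_zsmul, natCast_zsmul]; exact hx
  rw [← addOrderOf_dvd_iff_zsmul_eq_zero, addOrderOf_gammaP hC, ht] at h1
  have h2 : (t : ℤ) ∣ n := by
    have h3 : ((p : ℤ) * (t : ℤ)) ∣ (p : ℤ) * n := by exact_mod_cast h1
    exact Int.dvd_of_mul_dvd_mul_left (by exact_mod_cast hp.ne_zero) h3
  obtain ⟨n', rfl⟩ := h2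
  refine ⟨n', ?_⟩
  rw [cP, ht, Nat.mul_div_cancel_left t hp.pos, mul_comm (t : ℤ) n', mul_zsmul, natCast_zsmul]

end H2

/-! ## Multiplication by `p` on `H¹` and `H³` is bijective -/

section Divisible

variable [Finite G] {p : ℕ} [Fact p.Prime] {C : Rep.{0} ℤ G} {γ : groupCohomology C 2}

lemma exists_p_smul_eq_of_torsionFree (n : ℕ)
    (htf : ∀ (x : groupCohomology C (n + 1)) (m : ℕ), p ^ m • x = 0 → x = 0)
    (x : groupCohomology C (n + 1)) : ∃ y : groupCohomology C (n + 1), p • y = x := by
  have hp : p.Prime := Fact.out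
  have h1 : ordCompl[p] (Nat.card G) • x = 0 := by
    apply htf _ ((Nat.card G).factorization p)
    rw [smul_smul, Nat.ordProj_mul_ordCompl_eq_self]
    exact H33.card_nsmul_eq_zero C n x
  have hcop : IsCoprime ((p : ℕ) : ℤ) ((ordCompl[p] (Nat.card G) : ℕ) : ℤ) := by
    rw [Nat.isCoprime_iff_coprime]
    exact Nat.coprime_ordCompl hp Nat.card_pos.ne'
  obtain ⟨u, v, huv⟩ := hcop
  refine ⟨u • x, ?_⟩
  have e1 : x = (u * ((p : ℕ) : ℤ) + v * ((ordCompl[p] (Nat.card G) : ℕ) : ℤ)) • x := by
    rw [huv, one_zsmul]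
  conv_rhs => rw [e1]
  rw [add_zsmul, mul_zsmul, mul_zsmul, natCast_zsmul, natCast_zsmul, h1, zsmul_zero, add_zero,
    smul_comm]

/-- Multiplication by `p` is surjective on `H¹(G, C)`. -/
theorem exists_p_smul_eq_H1 (hC : IsPClassModule p C γ) (x : groupCohomology C 1) :
    ∃ y : groupCohomology C 1, p • y = x :=
  exists_p_smul_eq_of_torsionFree 0 (eq_zero_of_pow_smul_H1 hC) x

/-- Multiplication by `p` is surjective on `H³(G, C)`. -/
theorem exists_p_smul_eq_H3 (hC : IsPClassModule p C γ) (x : groupCohomology C 3) :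
    ∃ y : groupCohomology C 3, p • y = x :=
  exists_p_smul_eq_of_torsionFree 2 (eq_zero_of_pow_smul_H3 hC) x

end Divisible

end Fermat.Agent.CFT.H83
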