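import Mathlib
import Fermat.Agent.CFT.H83_ClassModuleP
import Fermat.Agent.CFT.H62_D2bLimit

/-!
# CFT / D2b : the finite-level data of a `p`-class formation (top group)

`F : PClassFormation p 𝓛 C` (`C : Rep.{0} ℤ H`).  With helper83's finite-level results
(`H83_ClassModuleP`) we build `pLevelData F : PLevelData p 𝓛 C` (`good` = all normal levels,
`gen N = H83.gammaP p (C^N) (F.fund N)`), the missing piece being the formation-level rule
`(F)`: `inf (γ_N)_p = [N : N']_p • (γ_N')_p` on ALL of `H/N'` (`infLevel_gammaP`).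

Consequences (`H62_D2bLimit`): `𝓛.H1 C` uniquely `p`-divisible, `(𝓛.H2 C)[p] ≃ ZMod p` with the
canonical generator, `𝓛.H2 C` `p`-divisible under `(DIV)`.
-/

set_option autoImplicit false
set_option linter.unusedSectionVars false
set_option linter.style.haveILetI false

noncomputable section

open CategoryTheory groupCohomology

namespace Fermat.Agent.CFT.H62

open Fermat.Agent.CFT Fermat.Agent.CFT.H95

variable {H : Type} [Group H] {p : ℕ} [hp : Fact p.Prime] {𝓛 : LevelStructure H}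
  {C : Rep.{0} ℤ H}

theorem finite_quotient_of_level (𝓛 : LevelStructure H) {N : Subgroup H} (hN : N ∈ 𝓛.levels) :
    Finite (H ⧸ N) :=
  haveI := 𝓛.finiteIndex N hN
  Subgroup.finite_quotient_of_finiteIndex

/-- **(F)** at formation level: `inf (γ_N)_p = [N : N']_p • (γ_N')_p` in `H²(H/N', C^N')`. -/
theorem infLevel_gammaP (F : PClassFormation p 𝓛 C) (N N' : Subgroup H) (hN : N ∈ 𝓛.levels)
    (hN' : N' ∈ 𝓛.levels) [N.Normal] [N'.Normal] (h : N' ≤ N) :
    haveI := finite_quotient_of_level 𝓛 hN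
    haveI := finite_quotient_of_level 𝓛 hN'
    (infLevel C N N' h 2).hom (H83.gammaP p (C.quotientToInvariants N) (F.fund N hN)) =
      (p ^ ((N'.relIndex N).factorization p)) •
        H83.gammaP p (C.quotientToInvariants N') (F.fund N' hN') := by
  haveI := finite_quotient_of_level 𝓛 hN
  haveI := finite_quotient_of_level 𝓛 hN'
  have hidx : N'.relIndex N * N.index = N'.index := Subgroup.relIndex_mul_index h
  have hN0 : N.index ≠ 0 := (𝓛.finiteIndex N hN).index_ne_zero
  have hN'0 : N'.index ≠ 0 := (𝓛.finiteIndex N' hN').index_ne_zero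
  have hrel0 : N'.relIndex N ≠ 0 := by
    intro h0
    rw [h0, zero_mul] at hidx
    exact hN'0 hidx.symm
  have hcardN : Nat.card (H ⧸ N) = N.index := rfl
  have hcardN' : Nat.card (H ⧸ N') = N'.index := rfl
  set r := (N'.relIndex N).factorization p with hr
  rw [← sub_eq_zero]
  obtain ⟨P⟩ : Nonempty (Sylow p (H ⧸ N')) := inferInstance
  apply H40.eq_zero_of_pow_nsmul_of_res_sylow (C.quotientToInvariants N') 1 P _
    ((N'.index).factorization p)
  · -- killed by `|H/N'|_p`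
    rw [smul_sub, ← map_nsmul]
    have e1 : p ^ (N'.index.factorization p) •
        H83.gammaP p (C.quotientToInvariants N) (F.fund N hN) = 0 := by
      rw [← hidx, Nat.factorization_mul hrel0 hN0, Finsupp.add_apply, pow_add, mul_nsmul',
        ← hcardN]
      rw [H83.ordProj_nsmul_gammaP, smul_zero]
    have e2 : p ^ (N'.index.factorization p) •
        H83.gammaP p (C.quotientToInvariants N') (F.fund N' hN') = 0 := by
      rw [← hcardN']
      exact H83.ordProj_nsmul_gammaP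
    rw [e1, map_zero, smul_comm, e2, smul_zero, sub_zero]
  · -- restriction to the Sylow subgroup
    rw [map_sub, sub_eq_zero]
    unfold H83.gammaP
    rw [map_nsmul, map_nsmul, map_nsmul, map_nsmul]
    have := F.inf_fund N N' hN hN' h (P : Subgroup (H ⧸ N')) P.isPGroup'
    unfold resSub at this
    rw [this, ← mul_nsmul', ← mul_nsmul']
    congr 1
    rw [hcardN, hcardN', ← hidx, Nat.ordCompl_mul, ← mul_assoc,
      mul_comm (N.index / p ^ N.index.factorization p)]
    congr 1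
    exact (Nat.ordProj_mul_ordCompl_eq_self (N'.relIndex N) p).symm

/-- The finite-level data of a `p`-class formation: `good` = all normal levels. -/
def pLevelData (F : PClassFormation p 𝓛 C) : PLevelData p 𝓛 C where
  discrete := F.discrete
  good := {N | N ∈ 𝓛.levels ∧ N.Normal}
  good_level := fun _ hN => hN.1
  good_normal := fun _ hN => hN.2
  cofinal := fun N₀ h₀ => by
    obtain ⟨N, hN, hle, hnor⟩ := 𝓛.exists_normal N₀ h₀
    exact ⟨N, ⟨hN, hnor⟩, hle⟩
  tors1 := fun N _ hN x => by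
    haveI := finite_quotient_of_level 𝓛 hN.1
    exact ⟨Nat.card (H ⧸ N), Nat.card_pos, H33.card_nsmul_eq_zero _ 0 x⟩
  tors2 := fun N _ hN x => by
    haveI := finite_quotient_of_level 𝓛 hN.1
    exact ⟨Nat.card (H ⧸ N), Nat.card_pos, H33.card_nsmul_eq_zero _ 1 x⟩
  h1 := fun N _ hN x hx => by
    haveI := finite_quotient_of_level 𝓛 hN.1
    exact H83.eq_zero_of_pow_smul_H1 (F.isClass N hN.1) x 1 (by rwa [pow_one])
  gen := fun N _ hN =>
    haveI := finite_quotient_of_level 𝓛 hN.1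
    H83.gammaP p (C.quotientToInvariants N) (F.fund N hN.1)
  gen_order := fun N _ hN => by
    haveI := finite_quotient_of_level 𝓛 hN.1
    exact H83.addOrderOf_gammaP (F.isClass N hN.1)
  gen_span := fun N _ hN x m hx => by
    haveI := finite_quotient_of_level 𝓛 hN.1
    exact H83.exists_eq_zsmul_gammaP (F.isClass N hN.1) x m hx
  inf_gen := fun N N' _ _ hN hN' h => infLevel_gammaP F N N' hN.1 hN'.1 h

/-! ### consequences for the top group -/

/-- `𝓛.H1 C` has no `p`-torsion (formation module). -/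
theorem H1_no_p_torsion_of_formation (F : PClassFormation p 𝓛 C) (x : 𝓛.H1 C)
    (hx : p • x = 0) : x = 0 :=
  (pLevelData F).H1_no_p_torsion x hx

/-- `𝓛.H1 C` is `p`-divisible (formation module). -/
theorem H1_p_divisible_of_formation (F : PClassFormation p 𝓛 C) (x : 𝓛.H1 C) :
    ∃ y : 𝓛.H1 C, p • y = x :=
  (pLevelData F).H1_p_divisible x

/-- `(DIV)` in the shape of the layer-D skeleton implies `HasDiv` for `pLevelData F`. -/
theorem hasDiv_pLevelData (F : PClassFormation p 𝓛 C)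
    (hDIV : ∀ U : Subgroup H, 𝓛.IsOpen U → ∀ m : ℕ,
      ∃ V : Subgroup H, 𝓛.IsOpen V ∧ V ≤ U ∧ p ^ m ∣ V.relIndex U) :
    (pLevelData F).HasDiv := by
  rintro N ⟨hN, hnor⟩
  obtain ⟨V, ⟨N₁, hN₁, hle₁⟩, hVN, hdvd⟩ := hDIV N ⟨N, hN, le_rfl⟩ 1
  obtain ⟨N', hN', hle', hnor'⟩ := 𝓛.exists_normal N₁ hN₁
  refine ⟨N', ⟨hN', hnor'⟩, (hle'.trans hle₁).trans hVN, ?_⟩
  rw [pow_one] at hdvd
  rw [← Subgroup.relIndex_mul_relIndex N' V N (hle'.trans hle₁) hVN]
  exact Dvd.dvd.mul_left hdvd _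

/-- Under `(DIV)` there is a normal level of index divisible by `p`. -/
theorem exists_level_p_dvd_index (F : PClassFormation p 𝓛 C)
    (hDIV : ∀ U : Subgroup H, 𝓛.IsOpen U → ∀ m : ℕ,
      ∃ V : Subgroup H, 𝓛.IsOpen V ∧ V ≤ U ∧ p ^ m ∣ V.relIndex U) :
    ∃ N ∈ (pLevelData F).good, 1 ≤ (pLevelData F).v N := by
  obtain ⟨N₀, h₀⟩ := 𝓛.nonempty
  obtain ⟨N, hN, -⟩ := (pLevelData F).cofinal N₀ h₀
  obtain ⟨N', hN', hle, hdvd⟩ := hasDiv_pLevelData F hDIV N hN
  refine ⟨N', hN', ?_⟩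
  have hidx : N'.relIndex N * N.index = N'.index := Subgroup.relIndex_mul_index hle
  have h0 : N'.index ≠ 0 := (pLevelData F).index_ne_zero hN'
  have hd : p ∣ N'.index := by
    rw [← hidx]; exact Dvd.dvd.mul_right hdvd _
  exact (hp.out.dvd_iff_one_le_factorization h0).1 hd

/-- `𝓛.H2 C` is `p`-divisible under `(DIV)`. -/
theorem H2_p_divisible_of_formation (F : PClassFormation p 𝓛 C)
    (hDIV : ∀ U : Subgroup H, 𝓛.IsOpen U → ∀ m : ℕ,
      ∃ V : Subgroup H, 𝓛.IsOpen V ∧ V ≤ U ∧ p ^ m ∣ V.relIndex U) (x : 𝓛.H2 C) :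
    ∃ y : 𝓛.H2 C, p • y = x :=
  (pLevelData F).H2_p_divisible (hasDiv_pLevelData F hDIV) x

/-- `inv : (𝓛.H2 C)[p] ≃ ZMod p` for a formation module with `(DIV)`. -/
theorem exists_invEquiv_of_formation (F : PClassFormation p 𝓛 C)
    (hDIV : ∀ U : Subgroup H, 𝓛.IsOpen U → ∀ m : ℕ,
      ∃ V : Subgroup H, 𝓛.IsOpen V ∧ V ≤ U ∧ p ^ m ∣ V.relIndex U) :
    ∃ (c : 𝓛.H2 C) (_ : c ≠ 0) (hc : p • c = 0) (e : pTors p (𝓛.H2 C) ≃+ ZMod p),
      e ⟨c, hc⟩ = 1 ∧ ∀ x : 𝓛.H2 C, p • x = 0 → ∃ n : ℤ, x = n • c := by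
  obtain ⟨N, hN, hv⟩ := exists_level_p_dvd_index F hDIV
  haveI := (pLevelData F).good_normal N hN
  exact ⟨(pLevelData F).cLev N hN, (pLevelData F).cLev_ne_zero N hN hv,
    (pLevelData F).p_nsmul_cLev N hN hv, (pLevelData F).trEquiv N hN hv,
    (pLevelData F).trEquiv_cLev N hN hv, (pLevelData F).exists_zsmul_cLev N hN hv⟩

end Fermat.Agent.CFT.H62
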