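/-
CFT project, layer D, package D2a (helper83), part (F): compatibility of the canonical
`p`-primary classes `gammaP`, `cP` (see `H83_ClassModuleP`) with inflation in a `p`-class
formation, on the whole quotient `Γ/N'` and on the images of an open subgroup `U`.
-/
import Mathlib
import Fermat.Agent.CFT.H83_ClassModuleP

set_option autoImplicit false
set_option linter.unusedSectionVars false

open CategoryTheory groupCohomology

namespace Fermat.Agent.CFT.H83

/-! ## Elementary torsion lemmas -/

section Torsion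

variable {M : Type*} [AddCommGroup M]

lemma eq_zero_of_coprime_nsmul' {m n : ℕ} (h : m.Coprime n) (z : M) (h1 : m • z = 0)
    (h2 : n • z = 0) : z = 0 := by
  have h3 := Nat.dvd_gcd (addOrderOf_dvd_of_nsmul_eq_zero h1) (addOrderOf_dvd_of_nsmul_eq_zero h2)
  rw [h.gcd_eq_one] at h3
  exact AddMonoid.addOrderOf_eq_one_iff.1 (Nat.dvd_one.1 h3)

lemma eq_of_coprime_nsmul {m n : ℕ} (h : m.Coprime n) (x y : M) (h1 : m • x = m • y)
    (hx : n • x = 0) (hy : n • y = 0) : x = y := by
  rw [← sub_eq_zero]
  refine eq_zero_of_coprime_nsmul' h _ ?_ ?_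
  · rw [smul_sub, h1, sub_self]
  · rw [smul_sub, hx, hy, sub_self]

end Torsion

/-! ## (F) Inflation in a `p`-class formation -/

section Inflation

variable {Γ : Type} [Group Γ] {𝓛 : LevelStructure Γ} {C : Rep.{0} ℤ Γ} {p : ℕ} [Fact p.Prime]
  (F : PClassFormation p 𝓛 C) (N N' : Subgroup Γ) (hN : N ∈ 𝓛.levels) (hN' : N' ∈ 𝓛.levels)
  [N.Normal] [N'.Normal] (h : N' ≤ N)

include hN' in
lemma finite_quotient_level : Finite (Γ ⧸ N') := by
  have := 𝓛.finiteIndex N' hN'
  exact Subgroup.finite_quotient_of_finiteIndex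

/-- (F0) On every subgroup `S'` of `Γ/N'`, `inf (fund N)` and `[N : N'] • fund N'` agree up to
a class killed by the prime-to-`p` part of `|S'|`. -/
theorem ordCompl_nsmul_resSub_infLevel (S' : Subgroup (Γ ⧸ N')) :
    ordCompl[p] (Nat.card S') •
        (resSub (C.quotientToInvariants N') S' 2).hom
          ((infLevel C N N' h 2).hom (F.fund N hN)) =
      ordCompl[p] (Nat.card S') •
        (N'.relIndex N • (resSub (C.quotientToInvariants N') S' 2).hom (F.fund N' hN')) := by
  have := finite_quotient_level N' hN'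
  obtain ⟨P⟩ : Nonempty (Sylow p S') := inferInstance
  rw [← sub_eq_zero, ← smul_sub, ← sylow_index_eq P]
  refine index_nsmul_eq_zero_of_resSub_eq_zero _ (P : Subgroup S') 1 _ ?_
  apply cohIso_injective (subPair (C.quotientToInvariants N') S' (P : Subgroup S')) 2
  rw [map_sub, map_sub, map_nsmul, map_nsmul, cohIso_resSub_resSub, cohIso_resSub_resSub, map_zero,
    sub_eq_zero]
  exact F.inf_fund N N' hN hN' h _ (P.isPGroup'.map _)

/-- (F0') The same statement on the whole quotient `Γ/N'`. -/
theorem ordCompl_nsmul_infLevel :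
    ordCompl[p] (Nat.card (Γ ⧸ N')) • (infLevel C N N' h 2).hom (F.fund N hN) =
      ordCompl[p] (Nat.card (Γ ⧸ N')) • (N'.relIndex N • F.fund N' hN') := by
  have := finite_quotient_level N' hN'
  obtain ⟨P⟩ : Nonempty (Sylow p (Γ ⧸ N')) := inferInstance
  rw [← sub_eq_zero, ← smul_sub, ← sylow_index_eq P]
  refine index_nsmul_eq_zero_of_resSub_eq_zero _ (P : Subgroup (Γ ⧸ N')) 1 _ ?_
  rw [map_sub, map_nsmul, sub_eq_zero]
  exact F.inf_fund N N' hN hN' h _ P.isPGroup'

include hN' h in
lemma relIndex_level_ne_zero : N'.relIndex N ≠ 0 := by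
  have := 𝓛.finiteIndex N' hN'
  intro h0
  have h1 := Subgroup.relIndex_mul_index h
  rw [h0, zero_mul] at h1
  exact Subgroup.FiniteIndex.index_ne_zero h1.symm

include h in
lemma card_quotient_level : Nat.card (Γ ⧸ N') = Nat.card (Γ ⧸ N) * N'.relIndex N := by
  rw [← Subgroup.index_eq_card, ← Subgroup.index_eq_card, mul_comm, Subgroup.relIndex_mul_index h]

/-- (F) inflation multiplies the canonical `p`-primary generator by the `p`-part of the index:
`inf (gammaP (fund N)) = [N : N']_p • gammaP (fund N')`. -/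
theorem infLevel_gammaP :
    (infLevel C N N' h 2).hom (gammaP p (C.quotientToInvariants N) (F.fund N hN)) =
      ordProj[p] (N'.relIndex N) • gammaP p (C.quotientToInvariants N') (F.fund N' hN') := by
  have hp : p.Prime := Fact.out
  have := finite_quotient_level N' hN'
  have := finite_quotient_level N hN
  have hrel := relIndex_level_ne_zero N N' hN' h
  have hcard := card_quotient_level N N' h
  have hcardN : Nat.card (Γ ⧸ N) ≠ 0 := Nat.card_pos.ne'
  refine eq_of_coprime_nsmul (m := ordCompl[p] (N'.relIndex N))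
    (n := ordProj[p] (Nat.card (Γ ⧸ N'))) ?_ _ _ ?_ ?_ ?_
  · exact (Nat.Coprime.pow_left _ (Nat.coprime_ordCompl hp hrel)).symm
  · rw [gammaP, gammaP, map_nsmul, smul_smul, smul_smul, smul_smul, mul_comm _ (ordCompl[p] _),
      ← Nat.ordCompl_mul, ← hcard, ordCompl_nsmul_infLevel F N N' hN hN' h, smul_smul, hcard,
      Nat.ordCompl_mul]
    congr 1
    have := Nat.ordProj_mul_ordCompl_eq_self (N'.relIndex N) p
    calc ordCompl[p] (Nat.card (Γ ⧸ N)) * ordCompl[p] (N'.relIndex N) * N'.relIndex N
        = ordCompl[p] (N'.relIndex N) * ((ordProj[p] (N'.relIndex N) * ordCompl[p] (N'.relIndex N)) *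
            ordCompl[p] (Nat.card (Γ ⧸ N))) := by rw [this]; ring
      _ = _ := by ring
  · rw [← map_nsmul, hcard, Nat.ordProj_mul p hcardN hrel, mul_comm, mul_smul,
      ordProj_nsmul_gammaP, smul_zero, map_zero]
  · rw [smul_comm, ordProj_nsmul_gammaP, smul_zero]

/-- (F') the canonical generators of the `p`-torsion are compatible with inflation:
`inf (cP (fund N)) = cP (fund N')` as soon as `p ∣ |Γ/N|`. -/
theorem infLevel_cP (hdvd : p ∣ Nat.card (Γ ⧸ N)) :
    (infLevel C N N' h 2).hom (cP p (C.quotientToInvariants N) (F.fund N hN)) =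
      cP p (C.quotientToInvariants N') (F.fund N' hN') := by
  have := finite_quotient_level N' hN'
  have := finite_quotient_level N hN
  have hrel := relIndex_level_ne_zero N N' hN' h
  have hcard := card_quotient_level N N' h
  have hcardN : Nat.card (Γ ⧸ N) ≠ 0 := Nat.card_pos.ne'
  rw [cP, cP, map_nsmul, infLevel_gammaP F N N' hN hN' h, smul_smul, hcard,
    Nat.ordProj_mul p hcardN hrel, Nat.mul_div_right_comm (p_dvd_ordProj hdvd)]

/-- (F'') the same in the normalisation `t_G = (|G| / p) • γ` (helper17's `H17` generator):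
`inf ((|Γ/N| / p) • fund N) = (|Γ/N'| / p) • fund N'` as soon as `p ∣ |Γ/N|`. -/
theorem infLevel_card_div_nsmul (hdvd : p ∣ Nat.card (Γ ⧸ N)) :
    (infLevel C N N' h 2).hom ((Nat.card (Γ ⧸ N) / p) • F.fund N hN) =
      (Nat.card (Γ ⧸ N') / p) • F.fund N' hN' := by
  have hp : p.Prime := Fact.out
  have := finite_quotient_level N' hN'
  have := finite_quotient_level N hN
  have hcard := card_quotient_level N N' h
  have hdvd' : p ∣ Nat.card (Γ ⧸ N') := by rw [hcard]; exact Dvd.dvd.mul_right hdvd _
  refine eq_of_coprime_nsmul (m := ordCompl[p] (Nat.card (Γ ⧸ N'))) (n := p) ?_ _ _ ?_ ?_ ?_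
  · exact (Nat.coprime_ordCompl hp Nat.card_pos.ne').symm
  · have e1 : Nat.card (Γ ⧸ N') / p = Nat.card (Γ ⧸ N) / p * N'.relIndex N := by
      rw [hcard, Nat.mul_div_right_comm hdvd]
    rw [map_nsmul, smul_comm, ordCompl_nsmul_infLevel F N N' hN hN' h, smul_comm, smul_smul, e1,
      mul_smul, mul_smul]
  · rw [← map_nsmul, smul_smul, Nat.mul_div_cancel' hdvd,
      H33.card_nsmul_eq_zero (C.quotientToInvariants N) 1, map_zero]
  · rw [smul_smul, Nat.mul_div_cancel' hdvd',
      H33.card_nsmul_eq_zero (C.quotientToInvariants N') 1]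

end Inflation

end Fermat.Agent.CFT.H83
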