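import Mathlib
import Fermat.Agent.CFT.H95_FinLevSub
import Fermat.Agent.CFT.H83_FormationP
import Fermat.Agent.CFT.H62_ColimP
import Fermat.Agent.CFT.H62_D2bTop

/-!
# CFT / D2b : the `p`-part of `H²(U; C)` for an OPEN SUBGROUP `U`

`F : PClassFormation p 𝓛 C`, `U` open.  On helper95's `H95_FinLevSub` vocabulary
(`subQ U N = U N / N ≤ H ⧸ N`, `subRep C U N`, `subInf`, `infLevSub₂`) we build the instance of
the abstract colimit machinery `H62_ColimP`:

* `SubLevel 𝓛 U` : normal levels `N` of `H` with `N ≤ U`;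
* `subColimPres₂` : `(𝓛.restrict U).H2 (Rep.res U.subtype A)` is the colimit of the
  `H²(U/N, A^N)` along `subInf` (for any discrete `A`);
* `subPClassData F U` : the class data, `gen N = H83.gammaP p (subRep C U N) (res (F.fund N))`.

Consequences: `H2_p_divisible_sub` (= hypothesis (B) of `H52.axI3_of`) and
`exists_invEquiv_sub` (`H²(U;C)[p] ≃ ZMod p` with its canonical generator).
-/

set_option autoImplicit false
set_option linter.unusedSectionVars false
set_option linter.style.haveILetI false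

noncomputable section

open CategoryTheory groupCohomology

namespace Fermat.Agent.CFT.H62

open Fermat.Agent.CFT Fermat.Agent.CFT.H95

variable {k : Type} [CommRing k] {H : Type} [Group H]

/-! ### the index set -/

/-- normal levels of `H` contained in `U` -/
abbrev SubLevel (𝓛 : LevelStructure H) (U : Subgroup H) : Type :=
  {N : Subgroup H // N ∈ 𝓛.levels ∧ N.Normal ∧ N ≤ U}

instance subLevel_normal (𝓛 : LevelStructure H) (U : Subgroup H) (i : SubLevel 𝓛 U) :
    (i.1).Normal := i.2.2.1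

theorem subLevel_nonempty (𝓛 : LevelStructure H) {U : Subgroup H} (hU : 𝓛.IsOpen U) :
    Nonempty (SubLevel 𝓛 U) := by
  obtain ⟨N₀, h₀, hle⟩ := hU
  obtain ⟨N, hN, hle', hnor⟩ := 𝓛.exists_normal N₀ h₀
  exact ⟨⟨N, hN, hnor, hle'.trans hle⟩⟩

theorem subLevel_directed (𝓛 : LevelStructure H) (U : Subgroup H) (i j : SubLevel 𝓛 U) :
    ∃ l : SubLevel 𝓛 U, l ≤ i ∧ l ≤ j := by
  obtain ⟨N, hN, hnor, h1, h2⟩ := H95.exists_normal_level_le 𝓛 i.2.1 j.2.1
  exact ⟨⟨N, hN, hnor, h1.trans i.2.2.2⟩, h1, h2⟩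

/-! ### functoriality of `subInf` -/

theorem subInf_comp (A : Rep.{0} k H) (U N N' N'' : Subgroup H) [N.Normal] [N'.Normal]
    [N''.Normal] (h : N' ≤ N) (h' : N'' ≤ N') (n : ℕ) :
    subInf A U N N' h n ≫ subInf A U N' N'' h' n = subInf A U N N'' (h'.trans h) n := by
  unfold subInf
  rw [← groupCohomology.map_comp]
  apply map_congr_hom
  · ext ⟨x, hx⟩
    induction x using QuotientGroup.induction_on with
    | H g => rfl
  · intro a
    rfl

theorem subInf_comp_apply (A : Rep.{0} k H) (U N N' N'' : Subgroup H) [N.Normal] [N'.Normal]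
    [N''.Normal] (h : N' ≤ N) (h' : N'' ≤ N') (n : ℕ)
    (y : groupCohomology (subRep A U N) n) :
    (subInf A U N' N'' h' n).hom ((subInf A U N N' h n).hom y) =
      (subInf A U N N'' (h'.trans h) n).hom y := by
  rw [← subInf_comp A U N N' N'' h h' n]
  rfl

/-! ### the colimit presentation in degree 2 -/

/-- `H²_lev(U; A)` is the colimit of the `H²(U/N, A^N)`, `N ≤ U` normal levels of `H`. -/
def subColimPres₂ (𝓛 : LevelStructure H) {A : Rep.{0} k H} (hA : 𝓛.IsDiscrete A)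
    {U : Subgroup H} (hU : 𝓛.IsOpen U) :
    ColimPres (SubLevel 𝓛 U) (fun i => groupCohomology (subRep A U i.1) 2)
      ((𝓛.restrict U).H2 (Rep.res U.subtype A)) where
  nonempty := subLevel_nonempty 𝓛 hU
  directed := subLevel_directed 𝓛 U
  t := fun i j h => (subInf A U i.1 j.1 h 2).hom.toAddMonoidHom
  t_comp := fun i j l h h' y => subInf_comp_apply A U i.1 j.1 l.1 h h' 2 y
  φ := fun i => (infLevSub₂ 𝓛 A U i.1 i.2.1).toAddMonoidHom
  φ_t := fun i j h y => infLevSub₂_subInf 𝓛 A U i.1 i.2.1 j.1 h j.2.1 y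
  surj := fun x i₀ => by
    obtain ⟨N, hN, hnor, hle, y, hy⟩ := exists_infLevSub₂_eq U hA x i₀.2.1
    exact ⟨⟨N, hN, hnor, hle.trans i₀.2.2.2⟩, hle, y, hy⟩
  inj := fun i y hy => by
    obtain ⟨N', hN', hnor', hle, h0⟩ := exists_subInf_eq_zero₂ U hA i.2.1 y hy
    exact ⟨⟨N', hN', hnor', hle.trans i.2.2.2⟩, hle, h0⟩

/-! ### the order of `subQ U N` -/

theorem card_subQ (U N : Subgroup H) [N.Normal] : Nat.card (subQ U N) = N.relIndex U := by
  have e := QuotientGroup.quotientKerEquivOfSurjective (subφ U N) (subφ_surjective U N)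
  rw [← Nat.card_congr e.toEquiv, ker_subφ]
  rfl

theorem finite_subQ (𝓛 : LevelStructure H) (U : Subgroup H) {N : Subgroup H} [N.Normal]
    (hN : N ∈ 𝓛.levels) : Finite (subQ U N) :=
  haveI := finite_quotient_of_level 𝓛 hN
  inferInstance

theorem card_subQ_ne_zero (𝓛 : LevelStructure H) (U : Subgroup H) {N : Subgroup H} [N.Normal]
    (hN : N ∈ 𝓛.levels) : Nat.card (subQ U N) ≠ 0 :=
  haveI := finite_subQ 𝓛 U hN
  Nat.card_pos.ne'

theorem card_subQ_eq_mul (U : Subgroup H) {N N' : Subgroup H} [N.Normal] [N'.Normal]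
    (h : N' ≤ N) (hNU : N ≤ U) :
    Nat.card (subQ U N') = N'.relIndex N * Nat.card (subQ U N) := by
  rw [card_subQ, card_subQ, Subgroup.relIndex_mul_relIndex N' N U h hNU]

/-! ### the class data in degree 2 -/

section Formation

variable {p : ℕ} [hp : Fact p.Prime] {𝓛 : LevelStructure H} {C : Rep.{0} ℤ H}

/-- the class module structure on `(U N / N, C^N)` -/
theorem isPClassModule_sub (F : PClassFormation p 𝓛 C) (U N : Subgroup H) [N.Normal]
    (hN : N ∈ 𝓛.levels) :
    IsPClassModule p (subRep C U N)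
      ((resSub (C.quotientToInvariants N) (subQ U N) 2).hom (F.fund N hN)) :=
  H83.isPClassModule_res (F.isClass N hN) (subQ U N)

/-- the generator of `H²(U N / N, C^N)(p)` -/
def genSub (F : PClassFormation p 𝓛 C) (U N : Subgroup H) [N.Normal] (hN : N ∈ 𝓛.levels) :
    groupCohomology (subRep C U N) 2 :=
  haveI := finite_subQ 𝓛 U hN
  H83.gammaP p (subRep C U N)
    ((resSub (C.quotientToInvariants N) (subQ U N) 2).hom (F.fund N hN))

/-- **(F-sub)**: `subInf (gen N) = [N : N']_p • gen N'` for normal levels `N' ≤ N ≤ U`. -/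
theorem subInf_genSub (F : PClassFormation p 𝓛 C) (U N N' : Subgroup H) [N.Normal] [N'.Normal]
    (hN : N ∈ 𝓛.levels) (hN' : N' ∈ 𝓛.levels) (h : N' ≤ N) (hNU : N ≤ U) :
    (subInf C U N N' h 2).hom (genSub F U N hN) =
      (p ^ ((N'.relIndex N).factorization p)) • genSub F U N' hN' := by
  haveI := finite_subQ 𝓛 U hN
  haveI := finite_subQ 𝓛 U hN'
  have hpp : p.Prime := hp.out
  have hrel : N'.relIndex N ≠ 0 := H83.relIndex_level_ne_zero N N' hN' h
  have hcard := card_subQ_eq_mul U h hNU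
  have hS0 : Nat.card (subQ U N) ≠ 0 := card_subQ_ne_zero 𝓛 U hN
  refine H83.eq_of_coprime_nsmul (m := ordCompl[p] (N'.relIndex N))
    (n := ordProj[p] (Nat.card (subQ U N'))) ?_ _ _ ?_ ?_ ?_
  · exact (Nat.Coprime.pow_left _ (Nat.coprime_ordCompl hpp hrel)).symm
  · unfold genSub H83.gammaP
    rw [map_nsmul, subInf_resSub, smul_smul, smul_smul, smul_smul, ← Nat.ordCompl_mul, ← hcard,
      H83.ordCompl_nsmul_resSub_infLevel F N N' hN hN' h (subQ U N'), smul_smul]
    congr 1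
    rw [hcard, Nat.ordCompl_mul]
    have := Nat.ordProj_mul_ordCompl_eq_self (N'.relIndex N) p
    calc ordCompl[p] (N'.relIndex N) * ordCompl[p] (Nat.card (subQ U N)) * N'.relIndex N
        = ordCompl[p] (N'.relIndex N) * ordCompl[p] (Nat.card (subQ U N)) *
            (ordProj[p] (N'.relIndex N) * ordCompl[p] (N'.relIndex N)) := by rw [this]
      _ = _ := by ring
  · rw [← map_nsmul, hcard, Nat.ordProj_mul p hrel hS0, mul_smul]
    unfold genSub
    rw [H83.ordProj_nsmul_gammaP, smul_zero, map_zero]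
  · rw [smul_comm]
    unfold genSub
    rw [H83.ordProj_nsmul_gammaP, smul_zero]

/-- The degree-2 class data of the open subgroup `U`. -/
def subPClassData (F : PClassFormation p 𝓛 C) {U : Subgroup H} (hU : 𝓛.IsOpen U) :
    PClassData p (subColimPres₂ 𝓛 F.discrete hU) where
  v := fun i => (Nat.card (subQ U i.1)).factorization p
  v_mono := fun i j h => by
    rw [card_subQ_eq_mul U h i.2.2.2,
      Nat.factorization_mul (H83.relIndex_level_ne_zero i.1 j.1 j.2.1 h)
        (card_subQ_ne_zero 𝓛 U i.2.1)]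
    exact Nat.le_add_left _ _
  tors := fun i x => by
    haveI := finite_subQ 𝓛 U i.2.1
    exact ⟨Nat.card (subQ U i.1), Nat.card_pos, H33.card_nsmul_eq_zero _ 1 x⟩
  gen := fun i => genSub F U i.1 i.2.1
  gen_order := fun i => by
    haveI := finite_subQ 𝓛 U i.2.1
    exact H83.addOrderOf_gammaP (isPClassModule_sub F U i.1 i.2.1)
  gen_span := fun i x m hx => by
    haveI := finite_subQ 𝓛 U i.2.1
    exact H83.exists_eq_zsmul_gammaP (isPClassModule_sub F U i.1 i.2.1) x m hx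
  t_gen := fun i j h => by
    have e : (Nat.card (subQ U j.1)).factorization p - (Nat.card (subQ U i.1)).factorization p =
        (j.1.relIndex i.1).factorization p := by
      rw [card_subQ_eq_mul U h i.2.2.2,
        Nat.factorization_mul (H83.relIndex_level_ne_zero i.1 j.1 j.2.1 h)
          (card_subQ_ne_zero 𝓛 U i.2.1)]
      simp
    rw [e]
    exact subInf_genSub F U i.1 j.1 i.2.1 j.2.1 h i.2.2.2

/-- `(DIV)` in the shape of the layer-D skeleton implies `HasDiv` for `subPClassData F hU`. -/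
theorem hasDiv_subPClassData (F : PClassFormation p 𝓛 C) {U : Subgroup H} (hU : 𝓛.IsOpen U)
    (hDIV : ∀ V : Subgroup H, 𝓛.IsOpen V → ∀ m : ℕ,
      ∃ V' : Subgroup H, 𝓛.IsOpen V' ∧ V' ≤ V ∧ p ^ m ∣ V'.relIndex V) :
    (subPClassData F hU).HasDiv := by
  intro i
  obtain ⟨V, ⟨N₁, hN₁, hle₁⟩, hVN, hdvd⟩ := hDIV i.1 ⟨i.1, i.2.1, le_rfl⟩ 1
  obtain ⟨N', hN', hle', hnor'⟩ := 𝓛.exists_normal N₁ hN₁
  have hle : N' ≤ i.1 := (hle'.trans hle₁).trans hVN
  refine ⟨⟨N', hN', hnor', hle.trans i.2.2.2⟩, hle, ?_⟩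
  rw [pow_one] at hdvd
  have hd : p ∣ N'.relIndex i.1 := by
    rw [← Subgroup.relIndex_mul_relIndex N' V i.1 (hle'.trans hle₁) hVN]
    exact Dvd.dvd.mul_left hdvd _
  haveI : N'.Normal := hnor'
  have hrel : N'.relIndex i.1 ≠ 0 := H83.relIndex_level_ne_zero i.1 N' hN' hle
  change (Nat.card (subQ U i.1)).factorization p < (Nat.card (subQ U N')).factorization p
  rw [card_subQ_eq_mul U hle i.2.2.2,
    Nat.factorization_mul hrel (card_subQ_ne_zero 𝓛 U i.2.1), Finsupp.add_apply]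
  have := (hp.out.dvd_iff_one_le_factorization hrel).1 hd
  omega

/-- **(B)** `H²(U; C)` is `p`-divisible for every open `U` (formation module with `(DIV)`).
This is hypothesis `h2` of `H52.axI3_of` verbatim. -/
theorem H2_p_divisible_sub (F : PClassFormation p 𝓛 C)
    (hDIV : ∀ V : Subgroup H, 𝓛.IsOpen V → ∀ m : ℕ,
      ∃ V' : Subgroup H, 𝓛.IsOpen V' ∧ V' ≤ V ∧ p ^ m ∣ V'.relIndex V)
    (U : Subgroup H) (hU : 𝓛.IsOpen U) (w : (𝓛.restrict U).H2 (Rep.res U.subtype C)) :
    ∃ w' : (𝓛.restrict U).H2 (Rep.res U.subtype C), p • w' = w :=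
  (subPClassData F hU).p_divisible (hasDiv_subPClassData F hU hDIV) w

/-- Under `(DIV)` there is a normal level `N ≤ U` with `p ∣ [U : N]`. -/
theorem exists_subLevel_one_le_v (F : PClassFormation p 𝓛 C) {U : Subgroup H}
    (hU : 𝓛.IsOpen U)
    (hDIV : ∀ V : Subgroup H, 𝓛.IsOpen V → ∀ m : ℕ,
      ∃ V' : Subgroup H, 𝓛.IsOpen V' ∧ V' ≤ V ∧ p ^ m ∣ V'.relIndex V) :
    ∃ i : SubLevel 𝓛 U, 1 ≤ (subPClassData F hU).v i := by
  obtain ⟨i₀⟩ := subLevel_nonempty 𝓛 hU
  obtain ⟨j, -, hlt⟩ := hasDiv_subPClassData F hU hDIV i₀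
  exact ⟨j, by omega⟩

/-- the canonical generator of `H²(U; C)[p]` attached to a normal level `N ≤ U` -/
def cSub (F : PClassFormation p 𝓛 C) {U : Subgroup H} (hU : 𝓛.IsOpen U) (i : SubLevel 𝓛 U) :
    (𝓛.restrict U).H2 (Rep.res U.subtype C) :=
  (subPClassData F hU).cLev i

theorem cSub_eq (F : PClassFormation p 𝓛 C) {U : Subgroup H} (hU : 𝓛.IsOpen U)
    (i : SubLevel 𝓛 U) :
    cSub F hU i = infLevSub₂ 𝓛 C U i.1 i.2.1
      ((p ^ ((Nat.card (subQ U i.1)).factorization p - 1)) • genSub F U i.1 i.2.1) := rfl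

/-- `H²(U; C)[p] ≃ ZMod p` with its canonical generator, for every open `U`. -/
theorem exists_invEquiv_sub (F : PClassFormation p 𝓛 C)
    (hDIV : ∀ V : Subgroup H, 𝓛.IsOpen V → ∀ m : ℕ,
      ∃ V' : Subgroup H, 𝓛.IsOpen V' ∧ V' ≤ V ∧ p ^ m ∣ V'.relIndex V)
    (U : Subgroup H) (hU : 𝓛.IsOpen U) :
    ∃ (c : (𝓛.restrict U).H2 (Rep.res U.subtype C)) (_ : c ≠ 0) (hc : p • c = 0)
      (e : pTors p ((𝓛.restrict U).H2 (Rep.res U.subtype C)) ≃+ ZMod p),
      e ⟨c, hc⟩ = 1 ∧
        (∀ x : (𝓛.restrict U).H2 (Rep.res U.subtype C), p • x = 0 → ∃ n : ℤ, x = n • c) ∧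
        ∀ i : SubLevel 𝓛 U, 1 ≤ (subPClassData F hU).v i → cSub F hU i = c := by
  obtain ⟨i, hv⟩ := exists_subLevel_one_le_v F hU hDIV
  refine ⟨cSub F hU i, (subPClassData F hU).cLev_ne_zero i hv,
    (subPClassData F hU).p_nsmul_cLev i hv, (subPClassData F hU).trEquiv i hv,
    (subPClassData F hU).trEquiv_cLev i hv, (subPClassData F hU).exists_zsmul_cLev i hv,
    fun j hj => (subPClassData F hU).cLev_eq i j hv hj⟩

end Formation

end Fermat.Agent.CFT.H62
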