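/-
CFT project, layer D2b (hub): the maps `H¹(W) → H¹(Q)[p] → H²(C)[p]` for a `p`-divisible
envelope `0 → C → I → Q → 0`, `W = Q[p]`, and the identification `W^H / d(Vm^H) = C^H / p`.
Pure long-exact-sequence arguments; no class formation theory.  helper91.
-/
import Fermat.Agent.CFT.H36_Envelope
import Fermat.Agent.CFT.H1_LevelLES

set_option autoImplicit false

open CategoryTheory groupCohomology

namespace Fermat.Agent.CFT.H91

open Fermat.Agent.CFT Fermat.Agent.CFT.H36 Fermat.Agent.CFT.H1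

variable (p : ℕ) {H : Type} [Group H] (𝓛 : LevelStructure H)

/-! ### Comparison `H¹(M[p]) → H¹(M)` -/

section Compare

variable {k : Type} [CommRing k] (M : Rep.{0} k H)

/-- Forget that a function takes values in the `p`-torsion. -/
def torsionVal (f : H → (torsionRep p M).V) : H → M.V :=
  fun g => (show torsionSub p M.V from f g).1

lemma torsionVal_apply (f : H → (torsionRep p M).V) (g : H) :
    torsionVal p M f g = (show torsionSub p M.V from f g).1 := rfl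

lemma torsionVal_add (f f' : H → (torsionRep p M).V) :
    torsionVal p M (f + f') = torsionVal p M f + torsionVal p M f' := rfl

lemma torsionVal_injective : Function.Injective (torsionVal p M) := by
  intro f f' h
  funext g
  exact Subtype.ext (congrFun h g)

lemma torsionVal_mem_cocycles₁ {f : H → (torsionRep p M).V}
    (hf : f ∈ 𝓛.cocycles₁ (torsionRep p M)) : torsionVal p M f ∈ 𝓛.cocycles₁ M := by
  obtain ⟨h1, h2⟩ := Submodule.mem_inf.1 hf
  refine Submodule.mem_inf.2 ⟨?_, ?_⟩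
  · rw [groupCohomology.mem_cocycles₁_iff] at h1 ⊢
    intro g h
    have := congrArg (fun x : (torsionRep p M).V => (show torsionSub p M.V from x).1) (h1 g h)
    exact this
  · exact LevelStructure.IsConst₁.comp h2 (fun x => (show torsionSub p M.V from x).1)

lemma torsionVal_mem_coboundaries₁ {f : H → (torsionRep p M).V}
    (hf : f ∈ 𝓛.coboundaries₁ (torsionRep p M)) : torsionVal p M f ∈ 𝓛.coboundaries₁ M := by
  obtain ⟨a, ha⟩ := hf
  refine ⟨(show torsionSub p M.V from a).1, ?_⟩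
  funext g
  subst ha
  rfl

/-- The map on level cocycles induced by `M[p] ⊆ M`. -/
def torsionZ1 : ↥(𝓛.cocycles₁ (torsionRep p M)) →+ ↥(𝓛.cocycles₁ M) where
  toFun f := ⟨torsionVal p M f.1, torsionVal_mem_cocycles₁ p 𝓛 M f.2⟩
  map_zero' := rfl
  map_add' _ _ := rfl

/-- The comparison map `H¹(M[p]) → H¹(M)` (additive; the two sides are modules over different
rings). -/
def torsionH1 : 𝓛.H1 (torsionRep p M) →+ 𝓛.H1 M :=
  QuotientAddGroup.lift
    ((𝓛.coboundaries₁ (torsionRep p M)).comap (𝓛.cocycles₁ (torsionRep p M)).subtype).toAddSubgroup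
    ((𝓛.H1π M).toAddMonoidHom.comp (torsionZ1 p 𝓛 M)) (by
      intro f hf
      rw [AddMonoidHom.mem_ker]
      exact (Submodule.Quotient.mk_eq_zero _).2 (torsionVal_mem_coboundaries₁ p 𝓛 M hf))

lemma torsionH1_mk (f : 𝓛.cocycles₁ (torsionRep p M)) :
    torsionH1 p 𝓛 M (𝓛.H1π _ f) = 𝓛.H1π M (torsionZ1 p 𝓛 M f) := rfl

lemma nsmul_torsionH1 (x : 𝓛.H1 (torsionRep p M)) : p • torsionH1 p 𝓛 M x = 0 := by
  obtain ⟨f, rfl⟩ := Submodule.Quotient.mk_surjective _ x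
  show p • 𝓛.H1π M (torsionZ1 p 𝓛 M f) = 0
  rw [← map_nsmul]
  have : p • torsionZ1 p 𝓛 M f = 0 := by
    apply Subtype.ext
    funext g
    show p • (show torsionSub p M.V from f.1 g).1 = 0
    exact (show torsionSub p M.V from f.1 g).2
  rw [this, map_zero]

/-- Lift a `p`-torsion-valued function back to the torsion representation. -/
def torsionLift (c : H → M.V) (hc : ∀ g, p • c g = 0) : H → (torsionRep p M).V :=
  fun g => (⟨c g, hc g⟩ : torsionSub p M.V)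

lemma torsionVal_torsionLift (c : H → M.V) (hc : ∀ g, p • c g = 0) :
    torsionVal p M (torsionLift p M c hc) = c := rfl

lemma torsionLift_mem_cocycles₁ {c : H → M.V} (hc : ∀ g, p • c g = 0)
    (h : c ∈ 𝓛.cocycles₁ M) : torsionLift p M c hc ∈ 𝓛.cocycles₁ (torsionRep p M) := by
  obtain ⟨h1, h2⟩ := Submodule.mem_inf.1 h
  refine Submodule.mem_inf.2 ⟨?_, ?_⟩
  · rw [groupCohomology.mem_cocycles₁_iff] at h1 ⊢
    intro g g'
    exact Subtype.ext (h1 g g')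
  · obtain ⟨N, hN, hN'⟩ := h2
    exact ⟨N, hN, fun g s hs => Subtype.ext (hN' g s hs)⟩

/-- If the invariants `M^H` are `p`-divisible then `H¹(M[p]) → H¹(M)` is injective. -/
theorem torsionH1_injective
    (hdiv : ∀ q : M.V, (∀ g, M.ρ g q = q) → ∃ q' : M.V, (∀ g, M.ρ g q' = q') ∧ p • q' = q) :
    Function.Injective (torsionH1 p 𝓛 M) := by
  rw [injective_iff_map_eq_zero]
  intro x hx
  obtain ⟨f, rfl⟩ := Submodule.Quotient.mk_surjective _ x
  have hx' : 𝓛.H1π M (torsionZ1 p 𝓛 M f) = 0 := hx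
  rw [Submodule.mkQ_apply, Submodule.Quotient.mk_eq_zero] at hx'
  obtain ⟨q, hq⟩ := hx'
  -- `f g = g q - q` in `M`
  have hq' : ∀ g, M.ρ g q - q = (show torsionSub p M.V from f.1 g).1 := fun g => congrFun hq g
  have hpq : ∀ g, M.ρ g (p • q) = p • q := by
    intro g
    have h0 : p • (M.ρ g q - q) = 0 := by
      rw [hq' g]; exact (show torsionSub p M.V from f.1 g).2
    rw [smul_sub, sub_eq_zero] at h0
    rw [map_nsmul, h0]
  obtain ⟨q', hq'inv, hq'p⟩ := hdiv (p • q) hpq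
  have htor : p • (q - q') = 0 := by rw [smul_sub, hq'p, sub_self]
  refine (Submodule.Quotient.mk_eq_zero _).2 ?_
  refine ⟨(⟨q - q', htor⟩ : torsionSub p M.V), ?_⟩
  funext g
  apply Subtype.ext
  show M.ρ g (q - q') - (q - q') = (show torsionSub p M.V from f.1 g).1
  rw [map_sub, hq'inv g, ← hq' g]
  abel

/-- If `M` is discrete and `p`-divisible, every `p`-torsion class of `H¹(M)` comes from
`H¹(M[p])`. -/
theorem exists_torsionH1_eq (hM : 𝓛.IsDiscrete M) (hdiv : ∀ q : M.V, ∃ q' : M.V, p • q' = q)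
    (x : 𝓛.H1 M) (hx : p • x = 0) : ∃ y : 𝓛.H1 (torsionRep p M), torsionH1 p 𝓛 M y = x := by
  obtain ⟨c, rfl⟩ := Submodule.Quotient.mk_surjective _ x
  have hx' : 𝓛.H1π M (p • c) = 0 := by rw [map_nsmul]; exact hx
  rw [Submodule.mkQ_apply, Submodule.Quotient.mk_eq_zero] at hx'
  obtain ⟨q₀, hq₀⟩ := hx'
  obtain ⟨q₁, hq₁⟩ := hdiv q₀
  -- `c' = c - d q₁`
  have hd : (d₀₁ M).hom q₁ ∈ 𝓛.cocycles₁ M :=
    H1.coboundaries₁_le hM ⟨q₁, rfl⟩
  let c' : 𝓛.cocycles₁ M := c - ⟨(d₀₁ M).hom q₁, hd⟩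
  have hc' : ∀ g, p • c'.1 g = 0 := by
    intro g
    have h1 : p • c.1 g = M.ρ g q₀ - q₀ := (congrFun hq₀ g).symm
    show p • (c.1 g - (M.ρ g q₁ - q₁)) = 0
    rw [smul_sub, h1, smul_sub, ← map_nsmul, hq₁, sub_self]
  refine ⟨𝓛.H1π _ ⟨torsionLift p M c'.1 hc', torsionLift_mem_cocycles₁ p 𝓛 M hc' c'.2⟩, ?_⟩
  rw [torsionH1_mk]
  show 𝓛.H1π M c' = 𝓛.H1π M c
  rw [Submodule.mkQ_apply, Submodule.mkQ_apply, Submodule.Quotient.eq]
  refine ⟨-q₁, ?_⟩
  funext g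
  show M.ρ g (-q₁) - -q₁ = (c.1 g - (M.ρ g q₁ - q₁)) - c.1 g
  rw [map_neg]
  abel

end Compare

/-! ### The envelope sequence `0 → C → I → Q → 0` -/

section Envelope

variable {p} {k : Type} [CommRing k] {C : Rep.{0} k H} {𝓛} (E : DivEnvelope 𝓛 p C)

/-- The envelope sequence is short exact. -/
lemma isSES : H1.IsSES E.ι E.π :=
  ⟨E.ι_injective, E.π_surjective, fun x => by rw [E.exact]; rfl⟩

/-- `θ : H¹(W) → H²(C)`, `W = Q[p]`: comparison `H¹(Q[p]) → H¹(Q)` followed by the connecting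
map of `0 → C → I → Q → 0`. -/
noncomputable def theta : 𝓛.H1 (torsionRep p E.Q) →+ 𝓛.H2 C :=
  (H1.δ₁ 𝓛 (isSES E) E.discrete).toAddMonoidHom.comp (torsionH1 p 𝓛 E.Q)

lemma theta_apply (x : 𝓛.H1 (torsionRep p E.Q)) :
    theta E x = H1.δ₁ 𝓛 (isSES E) E.discrete (torsionH1 p 𝓛 E.Q x) := rfl

lemma nsmul_theta (x : 𝓛.H1 (torsionRep p E.Q)) : p • theta E x = 0 := by
  rw [theta_apply, ← map_nsmul, nsmul_torsionH1, map_zero]

/-- `Q^H` is `p`-divisible if `I^H` is and `H¹(H; C)` consists of elements of order prime to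
`p`. -/
theorem invariants_Q_divisible (hp : 1 < p)
    (hI : ∀ i : E.I.V, (∀ g, E.I.ρ g i = i) → ∃ i' : E.I.V, (∀ g, E.I.ρ g i' = i') ∧ p • i' = i)
    (hH1 : ∀ x : 𝓛.H1 C, ∃ m : ℕ, Nat.Coprime m p ∧ m • x = 0)
    (q : E.Q.V) (hq : ∀ g, E.Q.ρ g q = q) :
    ∃ q' : E.Q.V, (∀ g, E.Q.ρ g q' = q') ∧ p • q' = q := by
  obtain ⟨m, hm, hmx⟩ := hH1 (H1.δ₀ 𝓛 (isSES E) E.discrete ⟨q, hq⟩)
  rw [← map_nsmul] at hmx
  obtain ⟨i, hi⟩ := (H1.exact_H0map_δ₀ 𝓛 (isSES E) E.discrete _).1 hmx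
  obtain ⟨i', hi'inv, hi'p⟩ := hI i.1 i.2
  have hπi : E.π.hom i.1 = m • q := congrArg Subtype.val hi
  -- `a * m = 1 + b * p`
  obtain ⟨a, -, ha⟩ := Nat.exists_mul_mod_eq_one_of_coprime hm hp
  have hdiv := Nat.div_add_mod (m * a) p
  rw [ha] at hdiv
  -- q = (m*a) • q - (p * b) • q
  refine ⟨a • E.π.hom i' - (m * a / p) • q, ?_, ?_⟩
  · intro g
    rw [map_sub, map_nsmul, map_nsmul, hq g, ← Rep.hom_comm_apply, hi'inv g]
  · have h1 : p • E.π.hom i' = m • q := by rw [← map_nsmul, hi'p, hπi]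
    have h2 : (m * a) • q = (p * (m * a / p)) • q + q := by
      conv_lhs => rw [← hdiv]
      rw [add_smul, one_smul]
    rw [smul_sub, smul_comm p a, h1, smul_smul, smul_smul, mul_comm a m, h2]
    abel

/-- `θ` is injective if `Q^H` is `p`-divisible and `H¹(H; I) = 0`. -/
theorem theta_injective
    (hQ : ∀ q : E.Q.V, (∀ g, E.Q.ρ g q = q) → ∃ q' : E.Q.V, (∀ g, E.Q.ρ g q' = q') ∧ p • q' = q)
    (hH1I : Subsingleton (𝓛.H1 E.I)) : Function.Injective (theta E) := by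
  rw [injective_iff_map_eq_zero]
  intro x hx
  rw [theta_apply] at hx
  obtain ⟨y, hy⟩ := (H1.exact_H1map_δ₁ 𝓛 (isSES E) E.discrete _).1 hx
  have hy0 : y = 0 := Subsingleton.elim _ _
  rw [hy0, map_zero] at hy
  exact (injective_iff_map_eq_zero _).1 (torsionH1_injective p 𝓛 E.Q hQ) x hy.symm

/-- Every `p`-torsion class of `H²(H; C)` is in the image of `θ` if `H¹(H; I) = H²(H; I) = 0`. -/
theorem exists_theta_eq (hH1I : Subsingleton (𝓛.H1 E.I)) (hH2I : Subsingleton (𝓛.H2 E.I))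
    (x : 𝓛.H2 C) (hx : p • x = 0) : ∃ y : 𝓛.H1 (torsionRep p E.Q), theta E y = x := by
  have h0 : H1.H2map 𝓛 E.ι x = 0 := Subsingleton.elim _ _
  obtain ⟨z, hz⟩ := (H1.exact_δ₁_H2map 𝓛 (isSES E) E.discrete _).1 h0
  have hpz : p • z = 0 := by
    have h1 : H1.δ₁ 𝓛 (isSES E) E.discrete (p • z) = 0 := by rw [map_nsmul, hz, hx]
    obtain ⟨w, hw⟩ := (H1.exact_H1map_δ₁ 𝓛 (isSES E) E.discrete _).1 h1
    have hw0 : w = 0 := Subsingleton.elim _ _
    rw [← hw, hw0, map_zero]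
  obtain ⟨y, hy⟩ := exists_torsionH1_eq p 𝓛 E.Q E.Q_discrete E.Q_divisible z hpz
  exact ⟨y, by rw [theta_apply, hy, hz]⟩

/-! ### `W^H / d(Vm^H) = C^H / p` -/

/-- Every invariant of `W = Q[p]` is the image of an invariant `i ∈ I^H` with `p • i ∈ ι(C^H)`,
provided `H¹(H; C)` has no `p`-torsion. -/
theorem exists_invariant_lift
    (hH1 : ∀ x : 𝓛.H1 C, p • x = 0 → x = 0)
    (w : E.Q.V) (hw : ∀ g, E.Q.ρ g w = w) (hpw : p • w = 0) :
    ∃ (i : E.I.V) (a : C.V), (∀ g, E.I.ρ g i = i) ∧ (∀ g, C.ρ g a = a) ∧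
      p • i = E.ι.hom a ∧ E.π.hom i = w := by
  obtain ⟨i₀, hi₀⟩ := E.π_surjective w
  -- the cocycle `g ↦ ι⁻¹ (g i₀ - i₀)`
  have hker : ∀ g, ∃ c : C.V, E.ι.hom c = E.I.ρ g i₀ - i₀ := fun g =>
    (E.exact _).1 (by rw [map_sub, Rep.hom_comm_apply, hi₀, hw g, sub_self])
  choose c hc using hker
  have hcoc : c ∈ 𝓛.cocycles₁ C := by
    refine Submodule.mem_inf.2 ⟨?_, ?_⟩
    · rw [groupCohomology.mem_cocycles₁_iff]
      intro g h
      apply E.ι_injective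
      rw [map_add, Rep.hom_comm_apply, hc, hc, hc, map_sub, ← Module.End.mul_apply, ← map_mul]
      abel
    · obtain ⟨N, hN, hfix⟩ := E.discrete i₀
      refine ⟨N, hN, fun g s hs => E.ι_injective ?_⟩
      rw [hc, hc, map_mul, Module.End.mul_apply, hfix s hs]
  obtain ⟨a₀, ha₀⟩ := (E.exact (p • i₀)).1 (by rw [map_nsmul, hi₀, hpw])
  -- `p • c = d a₀`
  have hpc : 𝓛.H1π C ⟨c, hcoc⟩ = 0 := by
    apply hH1
    rw [← map_nsmul, Submodule.mkQ_apply, Submodule.Quotient.mk_eq_zero]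
    refine ⟨a₀, ?_⟩
    funext g
    apply E.ι_injective
    show E.ι.hom (C.ρ g a₀ - a₀) = E.ι.hom (p • c g)
    have h3 : E.ι.hom (p • c g) = p • E.ι.hom (c g) := map_nsmul _ _ _
    rw [h3, hc, map_sub, Rep.hom_comm_apply, ha₀, map_nsmul, smul_sub]
  rw [Submodule.mkQ_apply, Submodule.Quotient.mk_eq_zero] at hpc
  obtain ⟨c₀, hc₀⟩ := hpc
  have hc₀' : ∀ g, C.ρ g c₀ - c₀ = c g := fun g => congrFun hc₀ g
  have hinv : ∀ g, E.I.ρ g (i₀ - E.ι.hom c₀) = i₀ - E.ι.hom c₀ := by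
    intro g
    have := hc g
    rw [← hc₀' g, map_sub, Rep.hom_comm_apply] at this
    rw [map_sub]
    have h2 : E.I.ρ g i₀ = i₀ + (E.I.ρ g (E.ι.hom c₀) - E.ι.hom c₀) := by rw [this]; abel
    rw [h2]; abel
  refine ⟨i₀ - E.ι.hom c₀, a₀ - p • c₀, hinv, ?_, ?_, ?_⟩
  · intro g
    apply E.ι_injective
    rw [Rep.hom_comm_apply, map_sub, map_nsmul, ha₀, ← smul_sub, map_nsmul, hinv g]
  · rw [map_sub, map_nsmul, ha₀, smul_sub]
  · rw [map_sub, hi₀, (E.exact _).2 ⟨c₀, rfl⟩, sub_zero]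

/-- For `i ∈ I^H` with `p • i = ι a`, `a ∈ C^H`: the class `π i ∈ W^H` lies in `d(Vm^H)` iff
`a ∈ p • C^H`. -/
theorem pi_mem_range_d_iff (i : E.I.V) (a : C.V) (hi : ∀ g, E.I.ρ g i = i)
    (hia : p • i = E.ι.hom a) :
    (∃ v : E.I.V, (∀ g, E.I.ρ g v = v) ∧ p • v = 0 ∧ E.π.hom v = E.π.hom i) ↔
      ∃ b : C.V, (∀ g, C.ρ g b = b) ∧ p • b = a := by
  constructor
  · rintro ⟨v, hv, hpv, hπ⟩
    obtain ⟨b, hb⟩ := (E.exact (i - v)).1 (by rw [map_sub, hπ, sub_self])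
    refine ⟨b, fun g => E.ι_injective ?_, E.ι_injective ?_⟩
    · rw [Rep.hom_comm_apply, hb, map_sub, hi g, hv g]
    · rw [map_nsmul, hb, smul_sub, hpv, sub_zero, hia]
  · rintro ⟨b, hb, hpb⟩
    refine ⟨i - E.ι.hom b, fun g => ?_, ?_, ?_⟩
    · rw [map_sub, hi g, ← Rep.hom_comm_apply, hb g]
    · rw [smul_sub, hia, ← map_nsmul, hpb, sub_self]
    · rw [map_sub, (E.exact _).2 ⟨b, rfl⟩, sub_zero]

end Envelope

end Fermat.Agent.CFT.H91
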