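import Mathlib
import Fermat.Agent.CFT.H91_D2Theta
import Fermat.Agent.CFT.H91_D2Defs
import Fermat.Agent.CFT.H36_EnvelopeRes
import Fermat.Agent.CFT.H52_AxI3Final
import Fermat.Agent.CFT.H62_D2bSub

/-!
# CFT / D2 assembly : the key lemma `θ ∘ cor = cor ∘ θ_U`, the trace, and `(I2')`

`F : PClassFormation p 𝓛 C`, `E : H36.DivEnvelope 𝓛 p C`, `W = Q[p]`.

* `torsionH1_eq_torsionToH1` : helper91's and helper36's comparison maps agree;
* `theta_cor1` : `θ_H (cor₁ y) = cor₂ (θ_U y)` for open `U`, `θ_U := H91.theta (E.resSub U)`;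
* `theta_sub_injective`, `exists_theta_sub_eq` : `θ_U : H¹(U;W) ≃ H²(U;C)[p]` for open `U`;
* `trace`, `trace_bijective`, `trace_cor1`;
* `axI2_of_corInv`, `trace_cor1_eq_zero_iff` (hypothesis (H1) of helper74's `AxI1`).
-/

set_option autoImplicit false
set_option linter.unusedSectionVars false
set_option linter.style.haveILetI false

noncomputable section

open CategoryTheory groupCohomology

namespace Fermat.Agent.CFT.H62

open Fermat.Agent.CFT

variable {p : ℕ} [hp : Fact p.Prime] {H : Type} [Group H] {𝓛 : LevelStructure H}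

/-! ### the two comparison maps `H¹(M[p]) → H¹(M)` agree -/

theorem torsionH1_eq_torsionToH1 {k : Type} [CommRing k] (M : Rep.{0} k H)
    (x : 𝓛.H1 (H36.torsionRep p M)) :
    H91.torsionH1 p 𝓛 M x = H36.torsionToH1 𝓛 p M x := by
  obtain ⟨c, rfl⟩ := Submodule.mkQ_surjective _ x
  rfl

/-! ### the key lemma -/

section Key

variable {C : Rep.{0} ℤ H} (E : H36.DivEnvelope 𝓛 p C)

/-- `θ_U` : the map `θ` of the envelope restricted to `U`. -/
abbrev thetaSub (U : Subgroup H) :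
    (𝓛.restrict U).H1 (Rep.res U.subtype (H36.torsionRep p E.Q)) →+
      (𝓛.restrict U).H2 (Rep.res U.subtype C) :=
  H91.theta (E.resSub U)

/-- **Key lemma**: `θ_H ∘ cor₁ = cor₂ ∘ θ_U`. -/
theorem theta_cor1 (U : Subgroup H) (hU : 𝓛.IsOpen U)
    (y : (𝓛.restrict U).H1 (Rep.res U.subtype (H36.torsionRep p E.Q))) :
    H91.theta E (H50.cor1 𝓛 U hU (H36.torsionRep p E.Q) y) =
      H50.cor2 𝓛 U hU C (thetaSub E U y) := by
  rw [H91.theta_apply, torsionH1_eq_torsionToH1, H36.torsionToH1_cor1]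
  show _ = H50.cor2 𝓛 U hU C (H91.theta (E.resSub U) y)
  rw [H91.theta_apply, torsionH1_eq_torsionToH1]
  exact (H50.cor2_δ₁ 𝓛 U hU (H91.isSES E) E.discrete _).symm

end Key

/-! ### `H¹(U; C)` is torsion of order prime to `p` -/

section Coprime

variable {C : Rep.{0} ℤ H} (F : PClassFormation p 𝓛 C)

include F in
/-- every class of `H¹(U; C)` is killed by an integer prime to `p` (any subgroup `U`) -/
theorem exists_coprime_nsmul_eq_zero_H1_sub (U : Subgroup H)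
    (x : (𝓛.restrict U).H1 (Rep.res U.subtype C)) :
    ∃ m : ℕ, Nat.Coprime m p ∧ m • x = 0 := by
  obtain ⟨N₀, h₀⟩ := 𝓛.nonempty
  obtain ⟨N, hN, hnor, -, y, rfl⟩ := H95.exists_infLevSub₁_eq U F.discrete x h₀
  haveI := finite_subQ 𝓛 U hN
  have hcard : Nat.card (H95.subQ U N) ≠ 0 := Nat.card_pos.ne'
  obtain ⟨a, m', hm', hcm⟩ := Nat.exists_eq_pow_mul_and_not_dvd hcard p hp.out.ne_one
  refine ⟨m', ((Nat.Prime.coprime_iff_not_dvd hp.out).2 hm').symm, ?_⟩
  have h1 : p ^ a • (m' • y) = 0 := by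
    rw [← mul_nsmul', ← hcm]
    exact H33.card_nsmul_eq_zero _ 0 y
  have h2 : m' • y = 0 :=
    H83.eq_zero_of_pow_smul_H1 (isPClassModule_sub F U N hN) _ a h1
  rw [← map_nsmul, h2, map_zero]

include F in
/-- every class of `H¹(H; C)` is killed by an integer prime to `p` (top group) -/
theorem exists_coprime_nsmul_eq_zero_H1 (x : 𝓛.H1 C) :
    ∃ m : ℕ, Nat.Coprime m p ∧ m • x = 0 := by
  obtain ⟨N₀, h₀⟩ := 𝓛.nonempty
  obtain ⟨N, hN, hnor, -, y, rfl⟩ := H95.exists_infLev₁_eq F.discrete x h₀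
  haveI := finite_quotient_of_level 𝓛 hN
  have hcard : Nat.card (H ⧸ N) ≠ 0 := Nat.card_pos.ne'
  obtain ⟨a, m', hm', hcm⟩ := Nat.exists_eq_pow_mul_and_not_dvd hcard p hp.out.ne_one
  refine ⟨m', ((Nat.Prime.coprime_iff_not_dvd hp.out).2 hm').symm, ?_⟩
  have h1 : p ^ a • (m' • y) = 0 := by
    rw [← mul_nsmul', ← hcm]
    exact H33.card_nsmul_eq_zero _ 0 y
  have h2 : m' • y = 0 := H83.eq_zero_of_pow_smul_H1 (F.isClass N hN) _ a h1
  rw [← map_nsmul, h2, map_zero]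

end Coprime

/-! ### from the restricted group `⊤` to the top group -/

section Top

variable {k : Type} [CommRing k] (A : Rep.{0} k H)

theorem isOpen_top (𝓛 : LevelStructure H) : 𝓛.IsOpen (⊤ : Subgroup H) := by
  obtain ⟨N₀, h₀⟩ := 𝓛.nonempty
  exact ⟨N₀, h₀, le_top⟩

theorem subsingleton_H1_of_top
    (h : Subsingleton ((𝓛.restrict ⊤).H1 (Rep.res (⊤ : Subgroup H).subtype A))) :
    Subsingleton (𝓛.H1 A) := by
  refine subsingleton_of_forall_eq 0 fun x => ?_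
  have h1 := H50.cor1_resSubH1 𝓛 ⊤ (isOpen_top 𝓛) A x
  rw [Subgroup.index_top, one_smul] at h1
  rw [← h1, Subsingleton.elim (H50.resSubH1 𝓛 A ⊤ x) 0, map_zero]

theorem subsingleton_H2_of_top
    (h : Subsingleton ((𝓛.restrict ⊤).H2 (Rep.res (⊤ : Subgroup H).subtype A))) :
    Subsingleton (𝓛.H2 A) := by
  refine subsingleton_of_forall_eq 0 fun x => ?_
  have h1 := H50.cor2_resSubH2 𝓛 ⊤ (isOpen_top 𝓛) A x
  rw [Subgroup.index_top, one_smul] at h1
  rw [← h1, Subsingleton.elim (H50.resSubH2 𝓛 A ⊤ x) 0, map_zero]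

end Top

/-! ### `p`-divisibility of the invariants of the envelope -/

section Invariants

variable {C : Rep.{0} ℤ H} (E : H36.DivEnvelope 𝓛 p C)

/-- `H¹(U; I[p]) = 0` implies that `I^U` is `p`-divisible. -/
theorem invariants_I_divisible_sub (U : Subgroup H)
    (hVm : Subsingleton ((𝓛.restrict U).H1 (Rep.res U.subtype (H36.torsionRep p E.I))))
    (i : E.I.V) (hi : ∀ g : U, E.I.ρ (g : H) i = i) :
    ∃ i' : E.I.V, (∀ g : U, E.I.ρ (g : H) i' = i') ∧ p • i' = i := by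
  have hM : (𝓛.restrict U).IsDiscrete (Rep.res U.subtype E.I) :=
    H50.isDiscrete_res (𝓛.restrict U) 𝓛 (H50.isCont_subtype 𝓛 U) E.discrete
  have hdiv : ∀ x : (Rep.res U.subtype E.I).V, ∃ y : (Rep.res U.subtype E.I).V, p • y = x :=
    E.divisible
  have h := (H36.subsingleton_H1_torsion_iff (𝓛.restrict U) p (Rep.res U.subtype E.I) hM
    hdiv).1 hVm
  obtain ⟨x', hx'⟩ := h.1 ⟨i, fun g => hi g⟩
  exact ⟨x'.1, fun g => x'.2 g, congrArg Subtype.val hx'⟩

end Invariants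

/-! ### `θ_U : H¹(U; W) ≃ H²(U; C)[p]` -/

section ThetaSub

variable {C : Rep.{0} ℤ H} (F : PClassFormation p 𝓛 C) (E : H36.DivEnvelope 𝓛 p C)

include F in
/-- `Q^U` is `p`-divisible. -/
theorem invariants_Q_divisible_sub (U : Subgroup H)
    (hVm : Subsingleton ((𝓛.restrict U).H1 (Rep.res U.subtype (H36.torsionRep p E.I))))
    (q : E.Q.V) (hq : ∀ g : U, E.Q.ρ (g : H) q = q) :
    ∃ q' : E.Q.V, (∀ g : U, E.Q.ρ (g : H) q' = q') ∧ p • q' = q :=
  H91.invariants_Q_divisible (E.resSub U) hp.out.one_lt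
    (fun i hi => invariants_I_divisible_sub E U hVm i hi)
    (fun x => exists_coprime_nsmul_eq_zero_H1_sub F U x) q hq

include F in
/-- `θ_U` is injective for every subgroup `U` with `H¹(U; I) = 0 = H¹(U; I[p])`. -/
theorem thetaSub_injective (U : Subgroup H)
    (hI1 : Subsingleton ((𝓛.restrict U).H1 (Rep.res U.subtype E.I)))
    (hVm : Subsingleton ((𝓛.restrict U).H1 (Rep.res U.subtype (H36.torsionRep p E.I)))) :
    Function.Injective (thetaSub E U) :=
  H91.theta_injective (E.resSub U) (fun q hq => invariants_Q_divisible_sub F E U hVm q hq) hI1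

/-- the image of `θ_U` is the whole `p`-torsion of `H²(U; C)` -/
theorem exists_thetaSub_eq (U : Subgroup H)
    (hI1 : Subsingleton ((𝓛.restrict U).H1 (Rep.res U.subtype E.I)))
    (hI2 : Subsingleton ((𝓛.restrict U).H2 (Rep.res U.subtype E.I)))
    (x : (𝓛.restrict U).H2 (Rep.res U.subtype C)) (hx : p • x = 0) :
    ∃ y, thetaSub E U y = x :=
  H91.exists_theta_eq (E.resSub U) hI1 hI2 x hx

theorem nsmul_thetaSub (U : Subgroup H)
    (y : (𝓛.restrict U).H1 (Rep.res U.subtype (H36.torsionRep p E.Q))) :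
    p • thetaSub E U y = 0 :=
  H91.nsmul_theta (E.resSub U) y

end ThetaSub

/-! ### the trace -/

section Trace

variable {C : Rep.{0} ℤ H} (F : PClassFormation p 𝓛 C) (E : H36.DivEnvelope 𝓛 p C)

/-- the shape of `(DIV)` in `H91_D2Defs` (`HasDIV 𝓛 p` unfolds to this) -/
abbrev DivHyp (𝓛 : LevelStructure H) (p : ℕ) : Prop :=
  ∀ U : Subgroup H, 𝓛.IsOpen U → ∀ m : ℕ,
    ∃ V : Subgroup H, 𝓛.IsOpen V ∧ V ≤ U ∧ p ^ m ∣ V.relIndex U

/-- a normal level of `H` of index divisible by `p` -/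
def goodLevel (hDIV : DivHyp 𝓛 p) : Subgroup H := (exists_level_p_dvd_index F hDIV).choose

theorem goodLevel_mem (hDIV : DivHyp 𝓛 p) : goodLevel F hDIV ∈ (pLevelData F).good :=
  (exists_level_p_dvd_index F hDIV).choose_spec.1

theorem goodLevel_v (hDIV : DivHyp 𝓛 p) : 1 ≤ (pLevelData F).v (goodLevel F hDIV) :=
  (exists_level_p_dvd_index F hDIV).choose_spec.2

instance goodLevel_normal (hDIV : DivHyp 𝓛 p) : (goodLevel F hDIV).Normal :=
  (goodLevel_mem F hDIV).2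

/-- the canonical generator `c_H` of `H²(H; C)[p]` -/
def cTop (hDIV : DivHyp 𝓛 p) : 𝓛.H2 C :=
  (pLevelData F).cLev (goodLevel F hDIV) (goodLevel_mem F hDIV)

theorem p_nsmul_cTop (hDIV : DivHyp 𝓛 p) : p • cTop F hDIV = 0 :=
  (pLevelData F).p_nsmul_cLev _ _ (goodLevel_v F hDIV)

theorem cTop_ne_zero (hDIV : DivHyp 𝓛 p) : cTop F hDIV ≠ 0 :=
  (pLevelData F).cLev_ne_zero _ _ (goodLevel_v F hDIV)

/-- `cTop` is the class of `(p^(v-1)) • gammaP (fund N)` for EVERY normal level `N` with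
`p ∣ [H : N]`. -/
theorem cTop_eq (hDIV : DivHyp 𝓛 p) (N : Subgroup H) [N.Normal] (hN : N ∈ (pLevelData F).good)
    (hv : 1 ≤ (pLevelData F).v N) : (pLevelData F).cLev N hN = cTop F hDIV :=
  (pLevelData F).cLev_eq _ N (goodLevel_mem F hDIV) hN (goodLevel_v F hDIV) hv

/-- `inv_H : H²(H; C)[p] ≃ ZMod p`, `c_H ↦ 1` -/
def invTop (hDIV : DivHyp 𝓛 p) : pTors p (𝓛.H2 C) ≃+ ZMod p :=
  (pLevelData F).trEquiv (goodLevel F hDIV) (goodLevel_mem F hDIV) (goodLevel_v F hDIV)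

theorem invTop_cTop (hDIV : DivHyp 𝓛 p) :
    invTop F hDIV ⟨cTop F hDIV, p_nsmul_cTop F hDIV⟩ = 1 :=
  (pLevelData F).trEquiv_cLev _ _ _

/-- `θ_H` with values in the `p`-torsion -/
def thetaTors : 𝓛.H1 (H36.torsionRep p E.Q) →+ pTors p (𝓛.H2 C) :=
  (H91.theta E).codRestrict (pTors p (𝓛.H2 C)) (fun x => H91.nsmul_theta E x)

@[simp]
theorem thetaTors_coe (x : 𝓛.H1 (H36.torsionRep p E.Q)) :
    ((thetaTors E x : pTors p (𝓛.H2 C)) : 𝓛.H2 C) = H91.theta E x := rfl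

/-- **the trace** `tr = inv_H ∘ θ_H : H¹(H; W) → ZMod p` -/
def trace (hDIV : DivHyp 𝓛 p) : 𝓛.H1 E.wDatum.W →ₗ[ZMod p] ZMod p :=
  AddMonoidHom.toZModLinearMap p ((invTop F hDIV).toAddMonoidHom.comp (thetaTors E))

theorem trace_apply (hDIV : DivHyp 𝓛 p) (x : 𝓛.H1 E.wDatum.W) :
    trace F E hDIV x = invTop F hDIV (thetaTors E x) := rfl

theorem trace_eq_zero_iff (hDIV : DivHyp 𝓛 p) (x : 𝓛.H1 E.wDatum.W) :
    trace F E hDIV x = 0 ↔ H91.theta E x = 0 := by
  rw [trace_apply, AddEquiv.map_eq_zero_iff, ← thetaTors_coe]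
  exact ⟨fun h => by rw [h]; rfl, fun h => Subtype.ext h⟩

/-- the trace is bijective (needs acyclicity of `I` and of `I[p]` on the whole group) -/
theorem trace_bijective (hDIV : DivHyp 𝓛 p)
    (hI1 : Subsingleton ((𝓛.restrict ⊤).H1 (Rep.res (⊤ : Subgroup H).subtype E.I)))
    (hI2 : Subsingleton ((𝓛.restrict ⊤).H2 (Rep.res (⊤ : Subgroup H).subtype E.I)))
    (hVm : Subsingleton
      ((𝓛.restrict ⊤).H1 (Rep.res (⊤ : Subgroup H).subtype (H36.torsionRep p E.I)))) :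
    Function.Bijective (trace F E hDIV) := by
  have h1 : Subsingleton (𝓛.H1 E.I) := subsingleton_H1_of_top E.I hI1
  have h2 : Subsingleton (𝓛.H2 E.I) := subsingleton_H2_of_top E.I hI2
  have hQ : ∀ q : E.Q.V, (∀ g, E.Q.ρ g q = q) →
      ∃ q' : E.Q.V, (∀ g, E.Q.ρ g q' = q') ∧ p • q' = q :=
    H91.invariants_Q_divisible E hp.out.one_lt
      (fun i hi => by
        obtain ⟨i', hi', hpi'⟩ := invariants_I_divisible_sub E ⊤ hVm i (fun g => hi g)
        exact ⟨i', fun g => hi' ⟨g, Subgroup.mem_top g⟩, hpi'⟩)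
      (fun x => exists_coprime_nsmul_eq_zero_H1 F x)
  have hinj := H91.theta_injective E hQ h1
  constructor
  · intro x y hxy
    rw [trace_apply, trace_apply] at hxy
    have := (invTop F hDIV).injective hxy
    exact hinj (congrArg Subtype.val this)
  · intro z
    obtain ⟨⟨x, hx⟩, rfl⟩ := (invTop F hDIV).surjective z
    obtain ⟨y, hy⟩ := H91.exists_theta_eq E h1 h2 x hx
    exact ⟨y, by rw [trace_apply]; congr 1; exact Subtype.ext hy⟩

/-- **`tr ∘ cor₁ = inv_H ∘ cor₂ ∘ θ_U`** -/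
theorem trace_cor1 (hDIV : DivHyp 𝓛 p) (U : Subgroup H) (hU : 𝓛.IsOpen U)
    (y : (𝓛.restrict U).H1 (Rep.res U.subtype E.wDatum.W)) :
    trace F E hDIV (H50.cor1 𝓛 U hU E.wDatum.W y) =
      invTop F hDIV ⟨H50.cor2 𝓛 U hU C (thetaSub E U y), by
        rw [mem_pTors, ← map_nsmul, nsmul_thetaSub, map_zero]⟩ := by
  rw [trace_apply]
  congr 1
  exact Subtype.ext (theta_cor1 E U hU y)

theorem trace_cor1_eq_zero_iff (hDIV : DivHyp 𝓛 p) (U : Subgroup H) (hU : 𝓛.IsOpen U)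
    (y : (𝓛.restrict U).H1 (Rep.res U.subtype E.wDatum.W)) :
    trace F E hDIV (H50.cor1 𝓛 U hU E.wDatum.W y) = 0 ↔
      H50.cor2 𝓛 U hU C (thetaSub E U y) = 0 := by
  rw [trace_eq_zero_iff]
  have key := theta_cor1 E U hU y
  exact ⟨fun h => key.symm.trans h, fun h => key.trans h⟩

/-! ### `(I2')` from the bijectivity of `cor₂` on `p`-torsion (helper83's `CorInv`) -/

/-- `(I2')` at an open subgroup `U`, given that `cor₂ : H²(U; C)[p] → H²(H; C)[p]` is
bijective. -/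
theorem axI2_of_corInv (hDIV : DivHyp 𝓛 p) (U : Subgroup H) (hU : 𝓛.IsOpen U)
    (hI1 : Subsingleton ((𝓛.restrict U).H1 (Rep.res U.subtype E.I)))
    (hI2 : Subsingleton ((𝓛.restrict U).H2 (Rep.res U.subtype E.I)))
    (hVm : Subsingleton ((𝓛.restrict U).H1 (Rep.res U.subtype (H36.torsionRep p E.I))))
    (hcor_inj : ∀ x : (𝓛.restrict U).H2 (Rep.res U.subtype C), p • x = 0 →
      H50.cor2 𝓛 U hU C x = 0 → x = 0)
    (hcor_surj : ∀ z : 𝓛.H2 C, p • z = 0 →
      ∃ x : (𝓛.restrict U).H2 (Rep.res U.subtype C), p • x = 0 ∧ H50.cor2 𝓛 U hU C x = z) :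
    AxI2 E.wDatum (trace F E hDIV) U hU := by
  constructor
  · rw [injective_iff_map_eq_zero]
    intro y hy
    have h0 : trace F E hDIV (H50.cor1 𝓛 U hU E.wDatum.W y) = 0 := hy
    rw [trace_cor1_eq_zero_iff] at h0
    have h1 := hcor_inj _ (nsmul_thetaSub E U y) h0
    exact (injective_iff_map_eq_zero _).1 (thetaSub_injective F E U hI1 hVm) y h1
  · intro z
    obtain ⟨⟨x, hx⟩, rfl⟩ := (invTop F hDIV).surjective z
    obtain ⟨x', hx', hcx'⟩ := hcor_surj x hx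
    obtain ⟨y, hy⟩ := exists_thetaSub_eq E U hI1 hI2 x' hx'
    refine ⟨y, ?_⟩
    show trace F E hDIV (H50.cor1 𝓛 U hU E.wDatum.W y) = _
    rw [trace_cor1]
    congr 1
    exact Subtype.ext ((congrArg (H50.cor2 𝓛 U hU C) hy).trans hcx')

/-- hypothesis (H1) of helper74's `AxI1` theorem: `t := tr ∘ cor₁` vanishes exactly where
`θ_U` does. -/
theorem trace_cor1_eq_zero_iff_thetaSub (hDIV : DivHyp 𝓛 p) (U : Subgroup H)
    (hU : 𝓛.IsOpen U)
    (hcor_inj : ∀ x : (𝓛.restrict U).H2 (Rep.res U.subtype C), p • x = 0 →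
      H50.cor2 𝓛 U hU C x = 0 → x = 0)
    (y : (𝓛.restrict U).H1 (Rep.res U.subtype E.wDatum.W)) :
    (trace F E hDIV ∘ₗ H50.cor1 𝓛 U hU E.wDatum.W) y = 0 ↔ H91.theta (E.resSub U) y = 0 := by
  show trace F E hDIV (H50.cor1 𝓛 U hU E.wDatum.W y) = 0 ↔ _
  rw [trace_cor1_eq_zero_iff]
  exact ⟨fun h => hcor_inj _ (nsmul_thetaSub E U y) h, fun h => by
    show H50.cor2 𝓛 U hU C (H91.theta (E.resSub U) y) = 0
    rw [h, map_zero]⟩

end Trace

end Fermat.Agent.CFT.H62
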