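/-
CFT project, layer D (helper83): the statements of `H83_CorInv` for the STANDARD corestriction
`H50.cor2 𝓛 U hU C` of `H50_LevelCorStd` (the one used in `AxI2` of the layer-D statements).
-/
import Mathlib
import Fermat.Agent.CFT.H83_CorInv
import Fermat.Agent.CFT.H50_LevelCorStd

set_option autoImplicit false
set_option linter.unusedSectionVars false
set_option linter.style.haveILetI false

open CategoryTheory groupCohomology

namespace Fermat.Agent.CFT.H83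

open Fermat.Agent.CFT.H95

variable {Γ : Type} [Group Γ] {𝓛 : LevelStructure Γ} {C : Rep.{0} ℤ Γ} {p : ℕ} [Fact p.Prime]
  (F : PClassFormation p 𝓛 C) (U N : Subgroup Γ) (hN : N ∈ 𝓛.levels) [N.Normal]
  (hU : 𝓛.IsOpen U)

/-- `cor t_U = t_Γ` for the standard corestriction. -/
theorem cor2_tSub (hNU : N ≤ U) (hdvd : p ∣ Nat.card (subQ U N)) :
    H50.cor2 𝓛 U hU C (tSub F U N hN) = tTop F N hN := by
  letI := H50.fintypeOfIsOpen 𝓛 hU
  exact corH2_tSub F U N hN hU (H50.Sec.out U) hNU hdvd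

include F hN in
/-- the standard corestriction is injective on the `p`-torsion of `H²(U; C)`. -/
theorem cor2_eq_zero_imp (hNU : N ≤ U) (hdvd : p ∣ Nat.card (subQ U N))
    (x : (𝓛.restrict U).H2 (Rep.res U.subtype C)) (hx : p • x = 0)
    (hcor : H50.cor2 𝓛 U hU C x = 0) : x = 0 := by
  letI := H50.fintypeOfIsOpen 𝓛 hU
  exact corH2_eq_zero_imp F U N hN hU (H50.Sec.out U) hNU hdvd x hx hcor

include F hN in
/-- the standard corestriction is surjective onto the `p`-torsion of `H²(Γ; C)`. -/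
theorem exists_cor2_eq (hNU : N ≤ U) (hdvd : p ∣ Nat.card (subQ U N))
    (y : 𝓛.H2 C) (hy : p • y = 0) :
    ∃ x : (𝓛.restrict U).H2 (Rep.res U.subtype C), p • x = 0 ∧ H50.cor2 𝓛 U hU C x = y := by
  letI := H50.fintypeOfIsOpen 𝓛 hU
  exact exists_corH2_eq F U N hN hU (H50.Sec.out U) hNU hdvd y hy

/-- `inv ∘ cor = inv_U` for the standard corestriction. -/
theorem invTop_cor2 (hNU : N ≤ U) (hdvd : p ∣ Nat.card (subQ U N))
    (x : (𝓛.restrict U).H2 (Rep.res U.subtype C)) (hx : p • x = 0)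
    (hx' : p • H50.cor2 𝓛 U hU C x = 0) :
    invTop F N hN (dvd_card_quotient_of_subQ U N hdvd) ⟨H50.cor2 𝓛 U hU C x, hx'⟩ =
      invSub F U N hN hNU hdvd ⟨x, hx⟩ := by
  letI := H50.fintypeOfIsOpen 𝓛 hU
  exact invTop_corH2 F U N hN hU (H50.Sec.out U) hNU hdvd x hx hx'

include F in
/-- For an open subgroup `U` and `(DIV)` in the form "some normal level `N ≤ U` has
`p ∣ [U : N]`": the whole package at once. -/
theorem exists_cor2_package
    (hdiv : ∃ N ∈ 𝓛.levels, N.Normal ∧ N ≤ U ∧ p ∣ N.relIndex U) :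
    ∃ (tU : (𝓛.restrict U).H2 (Rep.res U.subtype C)) (tΓ : 𝓛.H2 C),
      tU ≠ 0 ∧ p • tU = 0 ∧ tΓ ≠ 0 ∧ p • tΓ = 0 ∧
      (∀ x : (𝓛.restrict U).H2 (Rep.res U.subtype C), p • x = 0 → ∃ n : ℤ, x = n • tU) ∧
      (∀ y : 𝓛.H2 C, p • y = 0 → ∃ n : ℤ, y = n • tΓ) ∧
      H50.cor2 𝓛 U hU C tU = tΓ ∧ H50.resSubH2 𝓛 C U tΓ = U.index • tU := by
  obtain ⟨N, hN, hnor, hNU, hdvd⟩ := hdiv
  have := 𝓛.finiteIndex N hN
  rw [← card_subQ U N hNU] at hdvd
  have hdvdG := dvd_card_quotient_of_subQ U N hdvd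
  exact ⟨tSub F U N hN, tTop F N hN, tSub_ne_zero F U N hN hNU hdvd, p_nsmul_tSub F U N hN hdvd,
    tTop_ne_zero F N hN hdvdG, p_nsmul_tTop F N hN hdvdG, exists_zsmul_tSub F U N hN hNU hdvd,
    exists_zsmul_tTop F N hN hdvdG, cor2_tSub F U N hN hU hNU hdvd,
    resSubH2_tTop F U N hN hNU hdvd⟩

end Fermat.Agent.CFT.H83
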