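import Mathlib
import Fermat.Agent.CFT.H62_D2Key
import Fermat.Agent.CFT.H83_CorInvStd
import Fermat.Agent.CFT.H91_DStatements

/-!
# CFT / D2 : assembly

`F : PClassFormation p 𝓛 C`, `E : H36.DivEnvelope 𝓛 p C` with `I` and `I[p]` acyclic on open
subgroups, `(DIV)`.  With the trace `tr = inv_H ∘ θ_H` of `H62_D2Key`:

* `axI2` : `(I2')` at EVERY open subgroup `U` (`tr ∘ cor₁ : H¹(U; W) → ZMod p` bijective)
  [key lemma `θ_H ∘ cor₁ = cor₂ ∘ θ_U` + helper83's `H83_CorInvStd`];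
* `axI3` : `(I3')` at every open subgroup [helper52's `H52.axI3`];
* `trace_bijective'` : `tr` itself is bijective on `H¹(H; W)`;
* `D2_of_axI1` : the conclusion `D2Conclusion 𝓛 C E good` of the layer-D skeleton, given `(I1')`
  for this trace at the good normal levels.

NOTE: compared with `D2Statement` of `H91_DStatements` there is ONE extra hypothesis `hVm`
(`H¹(U; I[p]) = 0` for open `U`); without it the statement is false (see the board).  It holds
for the canonical envelope.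
-/

set_option autoImplicit false
set_option linter.unusedSectionVars false
set_option linter.style.haveILetI false

noncomputable section

open CategoryTheory groupCohomology

namespace Fermat.Agent.CFT.H62

open Fermat.Agent.CFT

variable {p : ℕ} [hp : Fact p.Prime] {H : Type} [Group H] {𝓛 : LevelStructure H}
  {C : Rep.{0} ℤ H} (F : PClassFormation p 𝓛 C) (E : H36.DivEnvelope 𝓛 p C)

include F in
/-- Under `(DIV)` every open `U` contains a normal level `N` of `H` with `p ∣ [U : N]`. -/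
theorem exists_normal_level_dvd_card_subQ (hDIV : HasDIV 𝓛 p) (U : Subgroup H)
    (hU : 𝓛.IsOpen U) :
    ∃ (N : Subgroup H) (_ : N ∈ 𝓛.levels) (_ : N.Normal), N ≤ U ∧
      p ∣ Nat.card (H95.subQ U N) := by
  obtain ⟨i, hv⟩ := exists_subLevel_one_le_v F hU hDIV
  refine ⟨i.1, i.2.1, i.2.2.1, i.2.2.2, ?_⟩
  exact (hp.out.dvd_iff_one_le_factorization (card_subQ_ne_zero 𝓛 U i.2.1)).2 hv

/-- **(I2')** at every open subgroup, for the trace `tr = inv_H ∘ θ_H`. -/
theorem axI2 (hDIV : HasDIV 𝓛 p)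
    (hEac : ∀ U : Subgroup H, 𝓛.IsOpen U →
      Subsingleton ((𝓛.restrict U).H1 (Rep.res U.subtype E.I)) ∧
      Subsingleton ((𝓛.restrict U).H2 (Rep.res U.subtype E.I)))
    (hVm : ∀ U : Subgroup H, 𝓛.IsOpen U →
      Subsingleton ((𝓛.restrict U).H1 (Rep.res U.subtype (H36.torsionRep p E.I))))
    (U : Subgroup H) (hU : 𝓛.IsOpen U) :
    AxI2 E.wDatum (trace F E hDIV) U hU := by
  obtain ⟨N, hN, hnor, hNU, hdvd⟩ := exists_normal_level_dvd_card_subQ F hDIV U hU
  exact axI2_of_corInv F E hDIV U hU (hEac U hU).1 (hEac U hU).2 (hVm U hU)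
    (fun x hx hc => H83.cor2_eq_zero_imp F U N hN hU hNU hdvd x hx hc)
    (fun z hz => H83.exists_cor2_eq F U N hN hU hNU hdvd z hz)

/-- hypothesis (H1) of the `AxI1` theorem: `tr ∘ cor₁` and `θ_U` have the same kernel. -/
theorem trace_comp_cor1_eq_zero_iff (hDIV : HasDIV 𝓛 p) (U : Subgroup H) (hU : 𝓛.IsOpen U)
    (y : (𝓛.restrict U).H1 (Rep.res U.subtype E.wDatum.W)) :
    (trace F E hDIV ∘ₗ H50.cor1 𝓛 U hU E.wDatum.W) y = 0 ↔ H91.theta (E.resSub U) y = 0 := by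
  obtain ⟨N, hN, hnor, hNU, hdvd⟩ := exists_normal_level_dvd_card_subQ F hDIV U hU
  exact trace_cor1_eq_zero_iff_thetaSub F E hDIV U hU
    (fun x hx hc => H83.cor2_eq_zero_imp F U N hN hU hNU hdvd x hx hc) y

/-- the trace is bijective on `H¹(H; W)` -/
theorem trace_bijective' (hDIV : HasDIV 𝓛 p)
    (hEac : ∀ U : Subgroup H, 𝓛.IsOpen U →
      Subsingleton ((𝓛.restrict U).H1 (Rep.res U.subtype E.I)) ∧
      Subsingleton ((𝓛.restrict U).H2 (Rep.res U.subtype E.I)))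
    (hVm : ∀ U : Subgroup H, 𝓛.IsOpen U →
      Subsingleton ((𝓛.restrict U).H1 (Rep.res U.subtype (H36.torsionRep p E.I)))) :
    Function.Bijective (trace F E hDIV) :=
  trace_bijective F E hDIV (hEac ⊤ (isOpen_top 𝓛)).1 (hEac ⊤ (isOpen_top 𝓛)).2
    (hVm ⊤ (isOpen_top 𝓛))

include F in
/-- **(I3')** at every open subgroup (helper52). -/
theorem axI3 (hDIV : HasDIV 𝓛 p)
    (hEac : ∀ U : Subgroup H, 𝓛.IsOpen U →
      Subsingleton ((𝓛.restrict U).H1 (Rep.res U.subtype E.I)) ∧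
      Subsingleton ((𝓛.restrict U).H2 (Rep.res U.subtype E.I)))
    (U : Subgroup H) (hU : 𝓛.IsOpen U) : AxI3 E.wDatum U :=
  H52.axI3 F E hEac hDIV U hU

/-- **D2**, modulo `(I1')` for the trace `tr = inv_H ∘ θ_H` at the good normal levels. -/
theorem D2_of_axI1 (hDIV : HasDIV 𝓛 p)
    (hEac : ∀ U : Subgroup H, 𝓛.IsOpen U →
      Subsingleton ((𝓛.restrict U).H1 (Rep.res U.subtype E.I)) ∧
      Subsingleton ((𝓛.restrict U).H2 (Rep.res U.subtype E.I)))
    (hVm : ∀ U : Subgroup H, 𝓛.IsOpen U →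
      Subsingleton ((𝓛.restrict U).H1 (Rep.res U.subtype (H36.torsionRep p E.I))))
    (good : Subgroup H → Prop)
    (hAxI1 : ∀ (N₀ : Subgroup H) (hN : N₀ ∈ 𝓛.levels), N₀.Normal → good N₀ →
      AxI1 E.wDatum (trace F E hDIV) N₀ ⟨N₀, hN, le_rfl⟩) :
    D2Conclusion 𝓛 C E good :=
  ⟨trace F E hDIV,
    fun N₀ hN hnor hg => ⟨hAxI1 N₀ hN hnor hg, axI2 F E hDIV hEac hVm N₀ ⟨N₀, hN, le_rfl⟩⟩,
    fun U hU => axI3 F E hDIV hEac U hU⟩

end Fermat.Agent.CFT.H62
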