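import Fermat.Agent.CFT.H74_CarryPairing

/-!
# The norm criterion for the carry class under `p`-primary hypotheses  (CFT layer D, D2c)

A `p`-class formation only provides that the level `H¹(U; C)` are *uniquely `p`-divisible*.
This suffices for the norm criterion: `[ε_χ • a] = 0` iff `a` is a norm from `C^(ker χ)`,
provided `H¹(H; C)` is `n`-divisible and `H¹(ker χ; C)` has no `n`-torsion.
-/

set_option autoImplicit false
set_option linter.unusedSectionVars false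

universe u

open CategoryTheory groupCohomology

namespace Fermat.Agent.CFT.H74

open Fermat.Agent.CFT LevelStructure

variable {k : Type u} [CommRing k] {H : Type u} [Group H] {𝓛 : LevelStructure H} {C : Rep k H}
variable {n : ℕ} [NeZero n]

/-! ### The core of the norm criterion -/

/-- Core computation: a `1`-cochain `β` (no level condition) with `dβ = ε_χ • a` which is a
coboundary on `ker χ` exhibits `a` as a norm from `C^(ker χ)`. -/
theorem exists_norm_of_d₁₂_eq {χ : H → ZMod n} (hχ : IsAddChar χ) (h1 : 1 < n) {σ : H}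
    (hσ : χ σ = 1) {a : C} (β : H → C)
    (hβ' : ∀ u v, C.ρ u (β v) - β (u * v) + β u = zcarry (χ u) (χ v) • a)
    (c : C) (hc : ∀ κ, χ κ = 0 → β κ = C.ρ κ c - c) :
    ∃ b : C, IsKerFixed χ b ∧ a = pnormσ σ b n := by
  set β' : H → C := fun u => β u - (C.ρ u c - c) with hβ'def
  have hβ'' : ∀ u v, C.ρ u (β' v) - β' (u * v) + β' u = zcarry (χ u) (χ v) • a := fun u v => by
    rw [← hβ' u v]
    simp only [hβ'def, map_sub, map_mul, Module.End.mul_apply]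
    abel
  have hβ'ker : ∀ κ, χ κ = 0 → β' κ = 0 := fun κ hκ => by
    simp only [hβ'def, hc κ hκ, sub_self]
  have hright : ∀ u κ, χ κ = 0 → β' (u * κ) = β' u := fun u κ hκ => by
    have := hβ'' u κ
    rw [hκ, zcarry_zero_right, zero_smul, hβ'ker κ hκ, map_zero, zero_sub] at this
    exact (neg_add_eq_zero.mp this)
  have hfix : ∀ u, IsKerFixed χ (β' u) := fun u κ hκ => by
    have := hβ'' κ u
    rw [hκ, zcarry_zero_left, zero_smul, hβ'ker κ hκ, add_zero] at this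
    rw [sub_eq_zero.mp this]
    have h0 : χ (u⁻¹ * κ * u) = 0 := by rw [hχ, hχ, hχ.map_inv, hκ]; ring
    have : κ * u = u * (u⁻¹ * κ * u) := by group
    rw [this, hright u _ h0]
  refine ⟨β' σ, hfix σ, ?_⟩
  have hind : ∀ m : ℕ, m < n → β' (σ ^ m) = pnormσ σ (β' σ) m := by
    intro m
    induction m with
    | zero =>
      intro _
      rw [pow_zero, pnormσ_zero, hβ'ker 1 hχ.map_one]
    | succ m ih =>
      intro hm
      have := hβ'' (σ ^ m) σ
      rw [char_pow_of_eq_one hχ hσ, hσ, zcarry_natCast_one_of_lt hm, zero_smul,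
        ← pow_succ, ih (by omega)] at this
      rw [pnormσ_succ]
      have h' : pnormσ σ (β' σ) m + C.ρ (σ ^ m) (β' σ) - β' (σ ^ (m + 1)) = 0 := by
        rw [← this]; abel
      exact (sub_eq_zero.mp h').symm
  have hlast := hβ'' (σ ^ (n - 1)) σ
  have hn0 : χ (σ ^ n) = 0 := by rw [char_pow_of_eq_one hχ hσ, ZMod.natCast_self]
  rw [char_pow_of_eq_one hχ hσ, hσ, zcarry_natCast_pred_one h1, one_smul, ← pow_succ,
    Nat.sub_add_cancel (by omega), hβ'ker _ hn0, sub_zero, hind (n - 1) (by omega)] at hlast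
  have : n = (n - 1) + 1 := by omega
  rw [← hlast]
  conv_rhs => rw [this, pnormσ_succ]
  abel

/-! ### Primitive forms of the `p`-primary hypotheses -/

/-- `H¹(H; C)` is `n`-divisible (primitive form). -/
def H1Divisible (𝓛 : LevelStructure H) (C : Rep k H) (n : ℕ) : Prop :=
  ∀ γ ∈ 𝓛.cocycles₁ C, ∃ γ' ∈ 𝓛.cocycles₁ C, ∃ c : C, γ = n • γ' + (d₀₁ C).hom c

/-- `H¹(ker χ; C)` has no `n`-torsion (primitive form: statements about functions on `H`
restricted to `ker χ`). -/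
def KerH1TorsionFree (𝓛 : LevelStructure H) (C : Rep k H) (χ : H → ZMod n) : Prop :=
  ∀ f : H → C, 𝓛.IsConst₁ f →
    (∀ κ κ', χ κ = 0 → χ κ' = 0 → f (κ * κ') = C.ρ κ (f κ') + f κ) →
    (∃ c : C, ∀ κ, χ κ = 0 → n • f κ = C.ρ κ c - c) →
    ∃ c : C, ∀ κ, χ κ = 0 → f κ = C.ρ κ c - c

lemma KerH1Vanishes.torsionFree {χ : H → ZMod n} (h : KerH1Vanishes 𝓛 C χ) :
    KerH1TorsionFree 𝓛 C χ := fun f hf hcoc _ => h f hf hcoc

/-- from the `H55_LevelDefs` shape -/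
theorem h1Divisible_of_forall (h : ∀ x : 𝓛.H1 C, ∃ x' : 𝓛.H1 C, n • x' = x) :
    H1Divisible 𝓛 C n := by
  intro γ hγ
  obtain ⟨x', hx'⟩ := h (𝓛.H1π C ⟨γ, hγ⟩)
  obtain ⟨γ', rfl⟩ := Submodule.Quotient.mk_surjective _ x'
  have h0 : 𝓛.H1π C (⟨γ, hγ⟩ - n • γ') = 0 := by
    rw [map_sub, map_nsmul]
    exact sub_eq_zero.mpr hx'.symm
  have h1 := (Submodule.Quotient.mk_eq_zero _).mp h0
  obtain ⟨c, hc⟩ := h1
  refine ⟨γ'.1, γ'.2, c, ?_⟩
  have h2 : (d₀₁ C).hom c = γ - n • γ'.1 := hc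
  rw [h2]
  abel

/-- from the `H55_LevelDefs` shape, for a subgroup `K` with underlying set `ker χ` -/
theorem kerH1TorsionFree_of_forall {χ : H → ZMod n} (K : Subgroup H)
    (hK : ∀ u, u ∈ K ↔ χ u = 0)
    (h : ∀ x : (𝓛.restrict K).H1 (Rep.res K.subtype C), n • x = 0 → x = 0) :
    KerH1TorsionFree 𝓛 C χ := by
  intro f hf hcoc hn
  have hmem : (fun κ : K => f κ.1) ∈ (𝓛.restrict K).cocycles₁ (Rep.res K.subtype C) := by
    refine ⟨(mem_cocycles₁_iff (A := Rep.res K.subtype C) _).mpr fun g g' => ?_, ?_⟩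
    · exact hcoc g.1 g'.1 ((hK _).mp g.2) ((hK _).mp g'.2)
    · obtain ⟨N, hN, hc⟩ := hf
      refine ⟨N.comap K.subtype, ⟨N, hN, rfl⟩, fun g s hs => ?_⟩
      exact hc g.1 s.1 hs
  obtain ⟨c₀, hc₀⟩ := hn
  have h0 : (𝓛.restrict K).H1π (Rep.res K.subtype C) ⟨_, hmem⟩ = 0 := by
    apply h
    rw [← map_nsmul]
    refine (Submodule.Quotient.mk_eq_zero _).mpr ?_
    refine ⟨c₀, ?_⟩
    funext κ
    have := hc₀ κ.1 ((hK _).mp κ.2)
    change (Rep.res K.subtype C).ρ κ c₀ - c₀ = n • f κ.1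
    exact this.symm
  have h1 := (Submodule.Quotient.mk_eq_zero _).mp h0
  obtain ⟨c, hc⟩ := h1
  refine ⟨c, fun κ hκ => ?_⟩
  have := congrFun hc ⟨κ, (hK κ).mpr hκ⟩
  rw [d₀₁_hom_apply] at this
  exact this.symm

/-! ### The norm criterion, `p`-primary form -/

/-- **(b2')** if `ε_χ • a` is a level coboundary, `H¹(H; C)` is `n`-divisible and `H¹(ker χ; C)`
has no `n`-torsion, then `a` is a norm from `C^(ker χ)`. -/
theorem exists_norm_of_carryCochain_mem_coboundaries₂' {χ : H → ZMod n} (hχ : IsAddChar χ)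
    (hc : 𝓛.IsConst₁ χ) (h1 : 1 < n) {σ : H} (hσ : χ σ = 1) {a : C}
    (ha : a ∈ LevelStructure.H0 C) (hdiv : H1Divisible 𝓛 C n)
    (htf : KerH1TorsionFree 𝓛 C χ) (h : carryCochain C χ a ∈ 𝓛.coboundaries₂ C) :
    ∃ b : C, IsKerFixed χ b ∧ a = pnormσ σ b n := by
  obtain ⟨β, hβc, hβ⟩ := h
  -- the cocycle `γ = n β - χ~ a`
  have hγ : (n : ℤ) • β - valCochain C χ a ∈ 𝓛.cocycles₁ C := by
    refine ⟨LinearMap.mem_ker.mpr ?_, ?_⟩
    · rw [map_sub, map_zsmul, hβ, d₁₂_valCochain hχ ha, carryCochain_zsmul, sub_self]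
    · exact (𝓛.cochains₁ C).sub_mem ((𝓛.cochains₁ C).smul_of_tower_mem (n : ℤ) hβc)
        (isConst₁_valCochain hc a)
  obtain ⟨γ', hγ', c₀, hc₀⟩ := hdiv _ hγ
  have hγ'd : (d₁₂ C).hom γ' = 0 := LinearMap.mem_ker.mp hγ'.1
  have hβ₁ : ∀ u v, C.ρ u ((β - γ') v) - (β - γ') (u * v) + (β - γ') u =
      zcarry (χ u) (χ v) • a := fun u v => by
    have e1 := congrFun hβ (u, v)
    have e2 := congrFun hγ'd (u, v)
    simp only [d₁₂_hom_apply, carryCochain_apply] at e1 e2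
    rw [← e1]
    simp only [Pi.sub_apply, map_sub]
    have e2' : C.ρ u (γ' v) - γ' (u * v) + γ' u = 0 := e2
    have : C.ρ u (β v) - C.ρ u (γ' v) - (β (u * v) - γ' (u * v)) + (β u - γ' u) =
        (C.ρ u (β v) - β (u * v) + β u) - (C.ρ u (γ' v) - γ' (u * v) + γ' u) := by abel
    rw [this, e2', sub_zero]
  have hcocK : ∀ κ κ', χ κ = 0 → χ κ' = 0 →
      (β - γ') (κ * κ') = C.ρ κ ((β - γ') κ') + (β - γ') κ := fun κ κ' hκ hκ' => by
    have := hβ₁ κ κ'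
    rw [hκ, hκ', zcarry_zero_left, zero_smul] at this
    have h' : C.ρ κ ((β - γ') κ') + (β - γ') κ - (β - γ') (κ * κ') = 0 := by rw [← this]; abel
    exact (sub_eq_zero.mp h').symm
  have hnK : ∃ c : C, ∀ κ, χ κ = 0 → n • (β - γ') κ = C.ρ κ c - c := by
    refine ⟨c₀, fun κ hκ => ?_⟩
    have e := congrFun hc₀ κ
    simp only [Pi.sub_apply, Pi.add_apply, Pi.smul_apply, valCochain_apply, hκ, ZMod.val_zero,
      Nat.cast_zero, zero_smul, sub_zero, d₀₁_hom_apply] at e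
    rw [Pi.sub_apply, smul_sub]
    have : (n : ℤ) • β κ = n • β κ := natCast_zsmul _ _
    rw [← this, e]
    abel
  have hconst : 𝓛.IsConst₁ (β - γ') := (𝓛.cochains₁ C).sub_mem hβc hγ'.2
  obtain ⟨c, hc⟩ := htf (β - γ') hconst hcocK hnK
  exact exists_norm_of_d₁₂_eq hχ h1 hσ (β - γ') hβ₁ c hc

/-- **Norm criterion, `p`-primary form.** -/
theorem carryCochain_mem_coboundaries₂_iff' {χ : H → ZMod n} (hχ : IsAddChar χ)
    (hc : 𝓛.IsConst₁ χ) (h1 : 1 < n) {σ : H} (hσ : χ σ = 1) {a : C}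
    (ha : a ∈ LevelStructure.H0 C) (hdiv : H1Divisible 𝓛 C n)
    (htf : KerH1TorsionFree 𝓛 C χ) :
    carryCochain C χ a ∈ 𝓛.coboundaries₂ C ↔ ∃ b : C, IsKerFixed χ b ∧ a = pnormσ σ b n := by
  constructor
  · exact exists_norm_of_carryCochain_mem_coboundaries₂' hχ hc h1 hσ ha hdiv htf
  · rintro ⟨b, hb, rfl⟩
    exact carryCochain_norm_mem_coboundaries₂ hχ hc hσ hb


/-! ### Kernels of the carry pairing, `p`-primary hypotheses -/

section Kernels

variable {p : ℕ} [hp : Fact p.Prime]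

/-- for `χ ≠ 0`: `a ∪ δχ = 0` iff `a` is a norm from `C^(ker χ)` (`p`-primary hypotheses). -/
theorem carryH2_eq_zero_iff_isKerNorm' (χ : levelChars 𝓛 p) (h0 : χ.1 ≠ 0)
    (hdiv : H1Divisible 𝓛 C p) (htf : KerH1TorsionFree 𝓛 C χ.1)
    (a : ↥(LevelStructure.H0 C)) :
    carryH2 𝓛 C p χ a = 0 ↔ IsKerNorm χ.1 a.1 := by
  obtain ⟨σ, hσ⟩ := exists_char_eq_one χ.2.1 h0
  rw [carryH2_eq_zero_iff_mem, isKerNorm_iff χ.2.1 hσ]
  exact carryCochain_mem_coboundaries₂_iff' χ.2.1 χ.2.2 hp.out.one_lt hσ a.2 hdiv htf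

/-- **Right kernel** (`p`-primary hypotheses). -/
theorem exists_carryH2_ne_zero' (χ : levelChars 𝓛 p) (h0 : χ.1 ≠ 0)
    (hdiv : H1Divisible 𝓛 C p) (htf : KerH1TorsionFree 𝓛 C χ.1)
    (hidx : ∃ a : ↥(LevelStructure.H0 C), ¬ IsKerNorm χ.1 a.1) :
    ∃ a : ↥(LevelStructure.H0 C), carryH2 𝓛 C p χ a ≠ 0 := by
  obtain ⟨a, ha⟩ := hidx
  exact ⟨a, fun h => ha ((carryH2_eq_zero_iff_isKerNorm' χ h0 hdiv htf a).mp h)⟩

/-- **Left kernel** (`p`-primary hypotheses). -/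
theorem forall_carryH2_eq_zero_iff' (hdiv : H1Divisible 𝓛 C p)
    (htf : ∀ χ : levelChars 𝓛 p, χ.1 ≠ 0 → KerH1TorsionFree 𝓛 C χ.1)
    (a : ↥(LevelStructure.H0 C)) :
    (∀ χ : levelChars 𝓛 p, carryH2 𝓛 C p χ a = 0) ↔
      ∀ χ : levelChars 𝓛 p, χ.1 ≠ 0 → IsKerNorm χ.1 a.1 := by
  constructor
  · intro h χ h0
    exact (carryH2_eq_zero_iff_isKerNorm' χ h0 hdiv (htf χ h0) a).mp (h χ)
  · intro h χ
    by_cases h0 : χ.1 = 0
    · have : χ = 0 := Subtype.ext h0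
      rw [this]
      exact carryH2_zero_char a
    · exact (carryH2_eq_zero_iff_isKerNorm' χ h0 hdiv (htf χ h0) a).mpr (h χ h0)

/-- **Left kernel with EXIST** (`p`-primary hypotheses). -/
theorem forall_carryH2_eq_zero_iff_of_exist' (hdiv : H1Divisible 𝓛 C p)
    (htf : ∀ χ : levelChars 𝓛 p, χ.1 ≠ 0 → KerH1TorsionFree 𝓛 C χ.1)
    (hEx : ∀ a : ↥(LevelStructure.H0 C),
      (∀ χ : levelChars 𝓛 p, χ.1 ≠ 0 → IsKerNorm χ.1 a.1) →
        ∃ a' : ↥(LevelStructure.H0 C), a = (p : ℤ) • a')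
    (a : ↥(LevelStructure.H0 C)) :
    (∀ χ : levelChars 𝓛 p, carryH2 𝓛 C p χ a = 0) ↔
      ∃ a' : ↥(LevelStructure.H0 C), a = (p : ℤ) • a' := by
  constructor
  · intro h
    exact hEx a ((forall_carryH2_eq_zero_iff' hdiv htf a).mp h)
  · rintro ⟨a', rfl⟩ χ
    exact carryH2_nsmul χ a'

end Kernels

end Fermat.Agent.CFT.H74
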