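/-
CFT layer D, D2: bridges from the frozen `HasEXIST` / `HasFIN` bodies (H91_D2Defs) to the
intrinsic shapes used by the carry pairing (H74) at `(N₀, 𝓛.restrict N₀, Rep.res N₀.subtype C)`.
Author: helper62.
-/
import Fermat.Agent.CFT.H74_CarryNormP
import Fermat.Agent.CFT.H91_D2Defs

set_option autoImplicit false

open CategoryTheory

namespace Fermat.Agent.CFT.H62

/-! ### an index-`p` normal subgroup is the kernel of an additive character -/

section Char

variable {G : Type*} [Group G] {p : ℕ} [hp : Fact p.Prime]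

/-- an index-`p` normal subgroup is the kernel of an additive character to `ZMod p` -/
theorem exists_addChar_ker_eq (K : Subgroup G) [K.Normal] (hK : K.index = p) :
    ∃ χ : G → ZMod p, H74.IsAddChar χ ∧ (∀ g, χ g = 0 ↔ g ∈ K) ∧
      ∀ g g', χ g = χ g' ↔ g⁻¹ * g' ∈ K := by
  have h1 : Nat.card (G ⧸ K) = p := by rw [← Subgroup.index_eq_card]; exact hK
  have h2 : Nat.card (Multiplicative (ZMod p)) = p := by
    rw [Nat.card_congr Multiplicative.toAdd, Nat.card_zmod]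
  let e : G ⧸ K ≃* Multiplicative (ZMod p) := mulEquivOfPrimeCardEq h1 h2
  refine ⟨fun g => Multiplicative.toAdd (e (QuotientGroup.mk g)), ?_, ?_, ?_⟩
  · intro u v
    show Multiplicative.toAdd (e (QuotientGroup.mk (u * v))) = _
    rw [QuotientGroup.mk_mul, map_mul, toAdd_mul]
  · intro g
    show Multiplicative.toAdd (e (QuotientGroup.mk g)) = 0 ↔ _
    rw [← QuotientGroup.eq_one_iff, ← toAdd_one, Multiplicative.toAdd.apply_eq_iff_eq,
      EmbeddingLike.map_eq_one_iff]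
  · intro g g'
    show Multiplicative.toAdd (e (QuotientGroup.mk g)) =
      Multiplicative.toAdd (e (QuotientGroup.mk g')) ↔ _
    rw [Multiplicative.toAdd.apply_eq_iff_eq, e.apply_eq_iff_eq, QuotientGroup.eq]

end Char

/-! ### (EXIST): from the frozen body to the intrinsic shape of the carry pairing -/

section Exist

variable {H : Type} [Group H] {𝓛 : LevelStructure H} {C : Rep.{0} ℤ H} {p : ℕ}
  [hp : Fact p.Prime]

/-- the norm `∑_{q ∈ G/K} out(q) b` of a `K`-fixed element, `K = ker χ` of index `p`, is the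
cyclic norm `∑_{j<p} σ^j b` -/
theorem finsum_out_eq_pnormσ {G : Type} [Group G] (A : Rep.{0} ℤ G) (K : Subgroup G) [K.Normal]
    (hK : K.index = p) {χ : G → ZMod p} (hχ : H74.IsAddChar χ)
    (hχeq : ∀ g g', χ g = χ g' ↔ g⁻¹ * g' ∈ K) {σ : G} (hσ : χ σ = 1) {b : A}
    (hb : H74.IsKerFixed χ b) :
    (∑ᶠ q : G ⧸ K, A.ρ (Quotient.out q : G) b) = H74.pnormσ σ b p := by
  haveI : K.FiniteIndex := ⟨by rw [hK]; exact hp.out.ne_zero⟩
  haveI : Finite (G ⧸ K) := Subgroup.finite_quotient_of_finiteIndex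
  letI : Fintype (G ⧸ K) := Fintype.ofFinite _
  classical
  rw [finsum_eq_sum_of_fintype]
  have hcard : Fintype.card (G ⧸ K) = p := by
    rw [← Nat.card_eq_fintype_card, ← Subgroup.index_eq_card]; exact hK
  let g : ℕ → G ⧸ K := fun j => QuotientGroup.mk (σ ^ j)
  have hinj : Set.InjOn g (Finset.range p : Set ℕ) := by
    intro i hi j hj hij
    have h1 : χ (σ ^ i) = χ (σ ^ j) := (hχeq _ _).mpr (QuotientGroup.eq.mp hij)
    rw [H74.char_pow_of_eq_one hχ hσ, H74.char_pow_of_eq_one hχ hσ] at h1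
    have h2 := congrArg ZMod.val h1
    rwa [ZMod.val_natCast_of_lt (Finset.mem_range.mp hi),
      ZMod.val_natCast_of_lt (Finset.mem_range.mp hj)] at h2
  have himg : (Finset.range p).image g = Finset.univ := by
    apply Finset.eq_univ_of_card
    rw [Finset.card_image_of_injOn hinj, Finset.card_range, hcard]
  rw [← himg, Finset.sum_image hinj]
  unfold H74.pnormσ
  refine Finset.sum_congr rfl fun j _ => hb.ρ_eq hχ ?_
  refine (hχeq _ _).mpr (QuotientGroup.eq.mp ?_)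
  exact QuotientGroup.out_eq' _

/-- **(H6)**: the frozen `HasEXIST 𝓛 C p N₀` gives the hypothesis `hEx` of
`H74.forall_carryH2_eq_zero_iff_of_exist'` at `(N₀, 𝓛.restrict N₀, Rep.res N₀.subtype C)`. -/
theorem hEx_of_hasEXIST (N₀ : Subgroup H) (hEX : HasEXIST 𝓛 C p N₀)
    (a : ↥(LevelStructure.H0 (Rep.res N₀.subtype C)))
    (h : ∀ χ : H74.levelChars (𝓛.restrict N₀) p, χ.1 ≠ 0 → H74.IsKerNorm χ.1 a.1) :
    ∃ a' : ↥(LevelStructure.H0 (Rep.res N₀.subtype C)), a = (p : ℤ) • a' := by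
  have ha : ∀ n ∈ N₀, C.ρ n a.1 = a.1 := fun n hn => a.2 ⟨n, hn⟩
  have key : ∀ V : Subgroup H, 𝓛.IsOpen V → V ≤ N₀ → (V.subgroupOf N₀).Normal →
      (V.subgroupOf N₀).index = p →
        ∃ b : C.V, (∀ v ∈ V, C.ρ v b = b) ∧
          (∑ᶠ q : N₀ ⧸ V.subgroupOf N₀, C.ρ (Quotient.out q : N₀).1 b) = a.1 := by
    intro V hV hVN hnor hidx
    haveI := hnor
    obtain ⟨χ, hχ, hker, hχeq⟩ := exists_addChar_ker_eq (V.subgroupOf N₀) hidx
    have hconst : (𝓛.restrict N₀).IsConst₁ χ := by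
      obtain ⟨N, hN, hNV⟩ := hV
      refine ⟨N.comap N₀.subtype, ⟨N, hN, rfl⟩, fun g s hs => ?_⟩
      have hs' : s ∈ V.subgroupOf N₀ := Subgroup.mem_subgroupOf.mpr (hNV hs)
      rw [hχ, (hker s).mpr hs', add_zero]
    have h0 : χ ≠ 0 := by
      intro h0
      have htop : V.subgroupOf N₀ = ⊤ := by
        ext g
        simp only [Subgroup.mem_top, iff_true]
        exact (hker g).mp (by rw [h0]; rfl)
      rw [htop, Subgroup.index_top] at hidx
      exact hp.out.one_lt.ne' hidx.symm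
    obtain ⟨σ, hσ, b, hb, hab⟩ := h ⟨χ, hχ, hconst⟩ h0
    refine ⟨b, fun v hv => hb ⟨v, hVN hv⟩ ((hker _).mpr (Subgroup.mem_subgroupOf.mpr hv)), ?_⟩
    rw [hab]
    exact finsum_out_eq_pnormσ (Rep.res N₀.subtype C) (V.subgroupOf N₀) hidx hχ hχeq hσ hb
  obtain ⟨b, hb, hpb⟩ := hEX a.1 ha key
  refine ⟨⟨b, fun g => hb g.1 g.2⟩, Subtype.ext ?_⟩
  show a.1 = (p : ℤ) • b
  rw [← hpb]
  exact (natCast_zsmul b p).symm

end Exist

/-! ### (FIN): from the frozen body to finiteness of `C^{N₀} / p` -/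

section Fin

variable {H : Type} [Group H] {𝓛 : LevelStructure H} {C : Rep.{0} ℤ H} {p : ℕ}

/-- **(H7)**, finset form: finitely many invariants represent `C^{N₀}` modulo `p C^{N₀}`. -/
theorem exists_finset_H0_of_hasFIN (hFIN : HasFIN 𝓛 C p) (N₀ : Subgroup H) (hN : 𝓛.IsOpen N₀) :
    ∃ T : Finset ↥(LevelStructure.H0 (Rep.res N₀.subtype C)),
      ∀ a : ↥(LevelStructure.H0 (Rep.res N₀.subtype C)), ∃ t ∈ T,
        ∃ b : ↥(LevelStructure.H0 (Rep.res N₀.subtype C)), a = t + (p : ℤ) • b := by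
  classical
  obtain ⟨T, hT⟩ := hFIN N₀ hN
  refine ⟨T.subtype (· ∈ LevelStructure.H0 (Rep.res N₀.subtype C)), fun a => ?_⟩
  obtain ⟨t, htT, b, hb, hab⟩ := hT a.1 (fun u hu => a.2 ⟨u, hu⟩)
  have hbmem : b ∈ LevelStructure.H0 (Rep.res N₀.subtype C) := fun g => hb g.1 g.2
  have htmem : t ∈ LevelStructure.H0 (Rep.res N₀.subtype C) := by
    have : t = a.1 - p • b := by rw [hab]; abel
    rw [this]
    exact Submodule.sub_mem _ a.2 (Submodule.smul_of_tower_mem _ p hbmem)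
  refine ⟨⟨t, htmem⟩, Finset.mem_subtype.mpr htT, ⟨b, hbmem⟩, Subtype.ext ?_⟩
  show a.1 = t + (p : ℤ) • b
  rw [hab, natCast_zsmul]

/-- **(H7)**, quotient form: `C^{N₀} / S` is finite for every submodule `S ⊇ p C^{N₀}`. -/
theorem finite_H0_quotient_of_hasFIN (hFIN : HasFIN 𝓛 C p) (N₀ : Subgroup H) (hN : 𝓛.IsOpen N₀)
    (S : Submodule ℤ ↥(LevelStructure.H0 (Rep.res N₀.subtype C)))
    (hS : ∀ b : ↥(LevelStructure.H0 (Rep.res N₀.subtype C)), (p : ℤ) • b ∈ S) :
    Finite (↥(LevelStructure.H0 (Rep.res N₀.subtype C)) ⧸ S) := by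
  obtain ⟨T, hT⟩ := exists_finset_H0_of_hasFIN hFIN N₀ hN
  refine Finite.of_surjective (fun t : ↥T => S.mkQ t.1) fun x => ?_
  obtain ⟨a, rfl⟩ := S.mkQ_surjective x
  obtain ⟨t, ht, b, hab⟩ := hT a
  refine ⟨⟨t, ht⟩, ?_⟩
  show S.mkQ t = S.mkQ a
  have h0 : S.mkQ ((p : ℤ) • b) = 0 := by
    rw [Submodule.mkQ_apply, Submodule.Quotient.mk_eq_zero]
    exact hS b
  rw [hab, map_add, h0, add_zero]

end Fin

end Fermat.Agent.CFT.H62
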