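import Fermat.Agent.CFT.H74_Carry
import Fermat.Agent.CFT.H1_LevelLES

/-!
# The carry class is a connecting-map image  (identity (Y3) of the CFT layer D blueprint)

For a short exact sequence `0 → C → I → Q → 0` of representations (`I` discrete), an invariant
`i ∈ I^H` with `n • i = ι a`, `a ∈ C^H`, and a level-constant additive character
`χ : H → ZMod n`, the connecting map `δ₁ : H¹(H; Q) → H²(H; C)` of `H1_LevelLES` sends the class
of the cocycle `u ↦ χ~(u) • π(i)` to the carry class `[ε_χ • a]`.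
-/

set_option autoImplicit false

universe u

open CategoryTheory groupCohomology

namespace Fermat.Agent.CFT.H74

open Fermat.Agent.CFT LevelStructure

variable {k : Type u} [CommRing k] {H : Type u} [Group H] {𝓛 : LevelStructure H}
variable {n : ℕ} [NeZero n]

/-- `u ↦ χ~(u) • q` is a level `1`-cocycle when `q` is invariant and killed by `n`. -/
theorem valCochain_mem_level_cocycles₁ {Q : Rep.{u} k H} {χ : H → ZMod n} (hχ : IsAddChar χ)
    (hc : 𝓛.IsConst₁ χ) {q : Q} (hq : q ∈ LevelStructure.H0 Q) (hnq : (n : ℤ) • q = 0) :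
    valCochain Q χ q ∈ 𝓛.cocycles₁ Q := by
  refine ⟨LinearMap.mem_ker.mpr ?_, isConst₁_valCochain hc q⟩
  rw [d₁₂_valCochain hχ hq, hnq]
  ext x
  change zcarry (χ x.1) (χ x.2) • (0 : Q) = (0 : Q)
  rw [smul_zero]

variable {C I Q : Rep.{u} k H} {ι : C ⟶ I} {π : I ⟶ Q}

/-- **(Y3) on classes.** -/
theorem δ₁_valCochain (h : H1.IsSES ι π) (hI : 𝓛.IsDiscrete I) (χ : levelChars 𝓛 n) {i : I}
    (hi : i ∈ LevelStructure.H0 I) (a : ↥(LevelStructure.H0 C))
    (hia : (n : ℤ) • i = ι.hom a.1)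
    (hmem : valCochain Q χ.1 (π.hom i) ∈ 𝓛.cocycles₁ Q) :
    H1.δ₁ 𝓛 h hI (Submodule.Quotient.mk ⟨valCochain Q χ.1 (π.hom i), hmem⟩) =
      carryH2 𝓛 C n χ a := by
  rw [carryH2_apply]
  refine H1.δ₁_mk 𝓛 h hI _ hmem (valCochain I χ.1 i) (isConst₁_valCochain χ.2.2 i) ?_ _ _ ?_
  · ext u
    simp only [H1.compL, valCochain_apply]
    change π.hom.toLinearMap ((((χ.1 u).val : ℤ)) • i) = _
    rw [map_zsmul]
    rfl
  · rw [d₁₂_valCochain χ.2.1 hi, hia]
    ext x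
    simp only [H1.compL, carryCochain]
    change ι.hom.toLinearMap (zcarry (χ.1 x.1) (χ.1 x.2) • a.1) = _
    rw [map_zsmul]
    rfl

/-- the class `[u ↦ χ~(u) • π i] ∈ H¹(H; Q)` for `i ∈ I^H` with `n • i ∈ ι(C)` -/
theorem valCochain_π_mem_level_cocycles₁ (h : H1.IsSES ι π) (χ : levelChars 𝓛 n) {i : I}
    (hi : i ∈ LevelStructure.H0 I) (a : C) (hia : (n : ℤ) • i = ι.hom a) :
    valCochain Q χ.1 (π.hom i) ∈ 𝓛.cocycles₁ Q := by
  refine valCochain_mem_level_cocycles₁ χ.2.1 χ.2.2 ?_ ?_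
  · intro g
    rw [← Rep.hom_comm_apply, hi g]
  · have : (n : ℤ) • π.hom i = π.hom ((n : ℤ) • i) := by
      change _ = π.hom.toLinearMap _
      rw [map_zsmul]; rfl
    rw [this, hia]
    exact h.zero a

/-- **(Y3) on classes**, self-contained form. -/
theorem δ₁_valCochain' (h : H1.IsSES ι π) (hI : 𝓛.IsDiscrete I) (χ : levelChars 𝓛 n) {i : I}
    (hi : i ∈ LevelStructure.H0 I) (a : ↥(LevelStructure.H0 C))
    (hia : (n : ℤ) • i = ι.hom a.1) :
    H1.δ₁ 𝓛 h hI (𝓛.H1π Q ⟨valCochain Q χ.1 (π.hom i),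
      valCochain_π_mem_level_cocycles₁ h χ hi a.1 hia⟩) = carryH2 𝓛 C n χ a :=
  δ₁_valCochain h hI χ hi a hia _

end Fermat.Agent.CFT.H74
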