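import Fermat.Agent.CFT.H74_CarryInfRes
import Fermat.Agent.CFT.H74_CarryDelta
import Fermat.Agent.CFT.H91_D2Theta
import Fermat.Agent.CFT.H91_WModel
import Fermat.Agent.CFT.H36_Envelope3

/-!
# CFT / D2c : the axiom (I1') for the `W`-datum of a `p`-divisible envelope (intrinsic form)

`(G, 𝓛)` a group with level structure, `C : Rep ℤ G`, `E : 0 → C → I → Q → 0` a `p`-divisible
envelope, `W = Q[p]`, `Vm = I[p]`, `t : H¹(G; W) → 𝔽_p` a linear form with the same kernel as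
`θ : H¹(G; W) → H²(G; C)`.  The pairing

  `P : W^G → H¹(G; 𝔽_p)^∨`, `(w, [χ]) ↦ t [g ↦ χ(g) • w]`

is surjective with kernel `d(Vm^G)`, under the cohomological hypotheses (H2)–(H7) listed in
`axI1_intrinsic`.  The proof goes through the carry pairing `C^G × Hom(G, 𝔽_p) → H²(G; C)` of
`H74_Carry`: `θ [g ↦ χ(g) • w] = a ∪ δχ` where `w = π(i)`, `p • i = ι(a)`.
-/

set_option autoImplicit false
set_option linter.unusedSectionVars false

open CategoryTheory groupCohomology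

namespace Fermat.Agent.CFT.H74

open Fermat.Agent.CFT LevelStructure

variable {p : ℕ} [hp : Fact p.Prime] {G : Type} [Group G] {𝓛 : LevelStructure G}

/-! ### Characters and `H¹(G; 𝔽_p)` -/

section Chars

/-- a level character is a level `1`-cocycle of the trivial module `𝔽_p` -/
theorem levelChar_mem_cocycles₁ (χ : levelChars 𝓛 p) :
    (χ.1 : G → (Rep.trivial (ZMod p) G (ZMod p)).V) ∈
      𝓛.cocycles₁ (Rep.trivial (ZMod p) G (ZMod p)) := by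
  refine Submodule.mem_inf.2 ⟨?_, χ.2.2⟩
  rw [groupCohomology.mem_cocycles₁_iff]
  intro g h
  have := χ.2.1 g h
  simp only [Rep.trivial]
  rw [this, add_comm]
  rfl

/-- every class of `H¹(G; 𝔽_p)` is the class of a level character -/
theorem exists_levelChar_eq (ξ : 𝓛.H1 (Rep.trivial (ZMod p) G (ZMod p))) :
    ∃ χ : levelChars 𝓛 p, ξ = 𝓛.H1π _ ⟨χ.1, levelChar_mem_cocycles₁ χ⟩ := by
  obtain ⟨⟨f, hf⟩, rfl⟩ := Submodule.Quotient.mk_surjective _ ξ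
  obtain ⟨h1, h2⟩ := Submodule.mem_inf.1 hf
  rw [groupCohomology.mem_cocycles₁_iff] at h1
  refine ⟨⟨f, fun u v => ?_, h2⟩, rfl⟩
  have := h1 u v
  rw [this, add_comm]
  rfl

end Chars

/-! ### The key computation `θ [g ↦ χ(g) • w] = a ∪ δχ` -/

section Compute

variable {C : Rep.{0} ℤ G} (E : H36.DivEnvelope 𝓛 p C)

/-- scalar multiplication by `c : ZMod p` on a `ZMod p`-module is `c.val`-fold addition -/
lemma zmod_smul_eq_val_zsmul {M : Type*} [AddCommGroup M] [Module (ZMod p) M] (c : ZMod p)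
    (x : M) : c • x = ((c.val : ℕ) : ℤ) • x := by
  conv_lhs => rw [← ZMod.natCast_zmod_val c]
  rw [Nat.cast_smul_eq_nsmul, natCast_zsmul]

/-- the underlying element of an element of `M[p]` -/
def tcoe {k : Type} [CommRing k] (M : Rep.{0} k G) (x : (H36.torsionRep p M).V) : M.V :=
  (show H36.torsionSub p M.V from x).1

lemma tcoe_smul {k : Type} [CommRing k] (M : Rep.{0} k G) (c : ZMod p)
    (x : (H36.torsionRep p M).V) : tcoe M (c • x) = ((c.val : ℕ) : ℤ) • tcoe M x := by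
  rw [zmod_smul_eq_val_zsmul c x]
  rfl

lemma tcoe_ρ {k : Type} [CommRing k] (M : Rep.{0} k G) (g : G) (x : (H36.torsionRep p M).V) :
    tcoe M ((H36.torsionRep p M).ρ g x) = M.ρ g (tcoe M x) := rfl

lemma nsmul_tcoe {k : Type} [CommRing k] (M : Rep.{0} k G) (x : (H36.torsionRep p M).V) :
    p • tcoe M x = 0 := (show H36.torsionSub p M.V from x).2

lemma tcoe_injective {k : Type} [CommRing k] (M : Rep.{0} k G) :
    Function.Injective (tcoe (p := p) M) := fun _ _ h => Subtype.ext h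

variable (β : RepPairing (H36.torsionRep p E.Q) (Rep.trivial (ZMod p) G (ZMod p))
  (H36.torsionRep p E.Q))

/-- **Key computation.** For `w ∈ W^G` with `w = π i`, `i ∈ I^G`, `p • i = ι a`, `a ∈ C^G`, and a
level character `χ`: `θ (w ∪ χ) = a ∪ δχ` (the carry class). -/
theorem theta_pair01 (hβ : ∀ w c, β.toFun w c = c • w)
    (w : ↥(H36.torsionRep p E.Q).ρ.invariants) (χ : levelChars 𝓛 p)
    {i : E.I} (hi : i ∈ LevelStructure.H0 E.I) (a : ↥(LevelStructure.H0 C))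
    (hia : (p : ℤ) • i = E.ι.hom a.1) (hπ : E.π.hom i = tcoe E.Q w.1) :
    H91.theta E (pair01 𝓛 β w (𝓛.H1π _ ⟨χ.1, levelChar_mem_cocycles₁ χ⟩)) =
      carryH2 𝓛 C p χ a := by
  rw [pair01_mk, H91.theta_apply, H91.torsionH1_mk]
  have hmem := valCochain_π_mem_level_cocycles₁ (H91.isSES E) χ hi a.1 hia
  have hcoc : H91.torsionZ1 p 𝓛 E.Q (pair01Z 𝓛 β w ⟨χ.1, levelChar_mem_cocycles₁ χ⟩) =
      ⟨valCochain E.Q χ.1 (E.π.hom i), hmem⟩ := by
    apply Subtype.ext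
    funext g
    show tcoe E.Q (β.toFun w.1 (χ.1 g)) = valCochain E.Q χ.1 (E.π.hom i) g
    rw [hβ, hπ, valCochain_apply, tcoe_smul]
  rw [hcoc]
  exact δ₁_valCochain (H91.isSES E) E.discrete χ hi a hia hmem

/-- every `w ∈ W^G` has a lift `(i, a)`: `i ∈ I^G`, `a ∈ C^G`, `p • i = ι a`, `π i = w`
(if `H¹(G; C)` has no `p`-torsion) -/
theorem exists_lift (htf : ∀ x : 𝓛.H1 C, p • x = 0 → x = 0)
    (w : ↥(H36.torsionRep p E.Q).ρ.invariants) :
    ∃ (i : E.I) (a : ↥(LevelStructure.H0 C)), i ∈ LevelStructure.H0 E.I ∧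
      (p : ℤ) • i = E.ι.hom a.1 ∧ E.π.hom i = tcoe E.Q w.1 := by
  obtain ⟨i, a, hi, ha, hia, hπ⟩ := H91.exists_invariant_lift E htf (tcoe E.Q w.1)
    (fun g => by rw [← tcoe_ρ, w.2 g]) (nsmul_tcoe E.Q w.1)
  exact ⟨i, ⟨a, ha⟩, hi, by rw [natCast_zsmul]; exact hia, hπ⟩

/-- `w ∈ d(Vm^G)` iff `a ∈ p • C^G`, for a lift `(i, a)` of `w` -/
theorem mem_range_d_iff (w : ↥(H36.torsionRep p E.Q).ρ.invariants)
    {i : E.I} (hi : i ∈ LevelStructure.H0 E.I) (a : ↥(LevelStructure.H0 C))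
    (hia : (p : ℤ) • i = E.ι.hom a.1) (hπ : E.π.hom i = tcoe E.Q w.1) :
    w ∈ LinearMap.range (H50.coeffH0 E.dComplex) ↔
      ∃ a' : ↥(LevelStructure.H0 C), a = (p : ℤ) • a' := by
  have hia' : p • i = E.ι.hom a.1 := by rw [← natCast_zsmul]; exact hia
  have key := H91.pi_mem_range_d_iff E i a.1 hi hia'
  constructor
  · rintro ⟨v, rfl⟩
    obtain ⟨b, hb, hpb⟩ := key.mp ⟨tcoe E.I v.1, fun g => by rw [← tcoe_ρ, v.2 g],
      nsmul_tcoe E.I v.1, by rw [hπ]; rfl⟩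
    refine ⟨⟨b, hb⟩, Subtype.ext ?_⟩
    show a.1 = (p : ℤ) • b
    rw [natCast_zsmul, hpb]
  · rintro ⟨a', rfl⟩
    obtain ⟨v, hv, hpv, hπv⟩ := key.mpr ⟨a'.1, a'.2, by
      show p • a'.1 = (p : ℤ) • a'.1
      rw [natCast_zsmul]⟩
    refine ⟨⟨(⟨v, hpv⟩ : H36.torsionSub p E.I.V), fun g => Subtype.ext (hv g)⟩, ?_⟩
    apply Subtype.ext
    apply tcoe_injective
    show E.π.hom v = tcoe E.Q w.1
    rw [hπv, hπ]

variable (t : 𝓛.H1 (H36.torsionRep p E.Q) →ₗ[ZMod p] ZMod p)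

/-- `w` is in the left kernel of the pairing iff all carry classes of `a` vanish -/
theorem mem_ker_pair_iff (hβ : ∀ w c, β.toFun w c = c • w)
    (ht : ∀ y, t y = 0 ↔ H91.theta E y = 0)
    (w : ↥(H36.torsionRep p E.Q).ρ.invariants)
    {i : E.I} (hi : i ∈ LevelStructure.H0 E.I) (a : ↥(LevelStructure.H0 C))
    (hia : (p : ℤ) • i = E.ι.hom a.1) (hπ : E.π.hom i = tcoe E.Q w.1) :
    w ∈ LinearMap.ker ((pair01 𝓛 β).compr₂ t) ↔
      ∀ χ : levelChars 𝓛 p, carryH2 𝓛 C p χ a = 0 := by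
  rw [LinearMap.mem_ker]
  constructor
  · intro h χ
    rw [← theta_pair01 E β hβ w χ hi a hia hπ, ← ht]
    exact LinearMap.congr_fun h _
  · intro h
    refine LinearMap.ext fun ξ => ?_
    obtain ⟨χ, rfl⟩ := exists_levelChar_eq ξ
    rw [LinearMap.compr₂_apply, LinearMap.zero_apply, ht, theta_pair01 E β hβ w χ hi a hia hπ]
    exact h χ

/-- **Left kernel** of the pairing `= d(Vm^G)`. -/
theorem ker_pair_eq_range (hβ : ∀ w c, β.toFun w c = c • w)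
    (ht : ∀ y, t y = 0 ↔ H91.theta E y = 0)
    (htf : ∀ x : 𝓛.H1 C, p • x = 0 → x = 0) (hdiv : H1Divisible 𝓛 C p)
    (hKC : ∀ χ : levelChars 𝓛 p, χ.1 ≠ 0 → KerH1TorsionFree 𝓛 C χ.1)
    (hEx : ∀ a : ↥(LevelStructure.H0 C),
      (∀ χ : levelChars 𝓛 p, χ.1 ≠ 0 → IsKerNorm χ.1 a.1) →
        ∃ a' : ↥(LevelStructure.H0 C), a = (p : ℤ) • a') :
    LinearMap.ker ((pair01 𝓛 β).compr₂ t) = LinearMap.range (H50.coeffH0 E.dComplex) := by
  ext w
  obtain ⟨i, a, hi, hia, hπ⟩ := exists_lift E htf w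
  rw [mem_ker_pair_iff E β t hβ ht w hi a hia hπ, mem_range_d_iff E w hi a hia hπ,
    forall_carryH2_eq_zero_iff_of_exist' hdiv hKC hEx a]

/-- **Finiteness**: `W^G / d(Vm^G)` is finite if `C^G / p` is. -/
theorem finite_quotient_range_d (htf : ∀ x : 𝓛.H1 C, p • x = 0 → x = 0)
    (hFin : ∃ T : Finset C.V, ∀ a : C.V, (∀ g, C.ρ g a = a) →
      ∃ t ∈ T, ∃ b : C.V, (∀ g, C.ρ g b = b) ∧ a = t + p • b) :
    Finite (↥(H36.torsionRep p E.Q).ρ.invariants ⧸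
      LinearMap.range (H50.coeffH0 E.dComplex)) := by
  classical
  obtain ⟨T, hT⟩ := hFin
  choose li la hli hlia hlπ using exists_lift E htf
  choose lt hltT lb hlb hlab using fun w => hT (la w).1 (la w).2
  -- the class of `w` is determined by `lt w ∈ T`
  have hkey : ∀ w w', lt w = lt w' →
      w - w' ∈ LinearMap.range (H50.coeffH0 E.dComplex) := by
    intro w w' hww'
    have hi : li w - li w' ∈ LevelStructure.H0 E.I := (LevelStructure.H0 E.I).sub_mem (hli w) (hli w')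
    rw [mem_range_d_iff E (w - w') hi (la w - la w') (by
      rw [smul_sub, hlia w, hlia w']
      show _ = E.ι.hom ((la w).1 - (la w').1)
      rw [map_sub]) (by
      rw [map_sub, hlπ w, hlπ w']
      rfl)]
    refine ⟨⟨lb w - lb w', fun g => ?_⟩, Subtype.ext ?_⟩
    · rw [map_sub, hlb w g, hlb w' g]
    · show (la w).1 - (la w').1 = (p : ℤ) • (lb w - lb w')
      rw [hlab w, hlab w', hww', natCast_zsmul, smul_sub]
      abel
  let τ : (↥(H36.torsionRep p E.Q).ρ.invariants ⧸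
      LinearMap.range (H50.coeffH0 E.dComplex)) → T := fun q => ⟨lt (Quotient.out q), hltT _⟩
  refine Finite.of_injective τ fun q q' hqq' => ?_
  have h1 : lt (Quotient.out q) = lt (Quotient.out q') := congrArg Subtype.val hqq'
  have h2 := hkey _ _ h1
  have h3 : (Submodule.Quotient.mk (Quotient.out q) :
      ↥(H36.torsionRep p E.Q).ρ.invariants ⧸ LinearMap.range (H50.coeffH0 E.dComplex)) =
      Submodule.Quotient.mk (Quotient.out q') := (Submodule.Quotient.eq _).mpr h2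
  have h4 : ∀ q : ↥(H36.torsionRep p E.Q).ρ.invariants ⧸
      LinearMap.range (H50.coeffH0 E.dComplex), Submodule.Quotient.mk (Quotient.out q) = q :=
    fun q => Quotient.out_eq q
  rw [h4, h4] at h3
  exact h3

/-- **Right non-degeneracy** of the pairing. -/
theorem pair_right_nondegenerate (hβ : ∀ w c, β.toFun w c = c • w)
    (ht : ∀ y, t y = 0 ↔ H91.theta E y = 0)
    (hI1 : Subsingleton (𝓛.H1 E.I)) (hI2 : Subsingleton (𝓛.H2 E.I))
    (hIG : ∀ i : E.I.V, (∀ g, E.I.ρ g i = i) → ∃ i' : E.I.V, (∀ g, E.I.ρ g i' = i') ∧ p • i' = i)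
    (hKI : ∀ χ : levelChars 𝓛 p, χ.1 ≠ 0 → KerH1Vanishes 𝓛 E.I χ.1)
    (hKC : ∀ χ : levelChars 𝓛 p, χ.1 ≠ 0 → KerH1TorsionFree 𝓛 C χ.1)
    (hQdiv : ∀ χ : levelChars 𝓛 p, χ.1 ≠ 0 → ∀ q : E.Q, IsKerFixed χ.1 q →
      ∃ q₁ : E.Q, IsKerFixed χ.1 q₁ ∧ p • q₁ = q)
    (hres : ∀ χ : levelChars 𝓛 p, χ.1 ≠ 0 →
      ∃ x : 𝓛.H2 C, p • x = 0 ∧ x ≠ 0 ∧ ResKerVanishes 𝓛 C χ.1 x)
    (ξ : 𝓛.H1 (Rep.trivial (ZMod p) G (ZMod p)))
    (hξ : ∀ w, (pair01 𝓛 β).compr₂ t w ξ = 0) : ξ = 0 := by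
  obtain ⟨χ, rfl⟩ := exists_levelChar_eq ξ
  by_contra hne
  have hχ0 : χ.1 ≠ 0 := by
    intro h0
    apply hne
    have : (⟨χ.1, levelChar_mem_cocycles₁ χ⟩ :
        ↥(𝓛.cocycles₁ (Rep.trivial (ZMod p) G (ZMod p)))) = 0 := Subtype.ext h0
    rw [this, map_zero]
  obtain ⟨σ, hσ⟩ := exists_char_eq_one χ.2.1 hχ0
  obtain ⟨a, ha⟩ := exists_carryH2_ne_zero_of_resKerVanishes (H91.isSES E) E.discrete
    E.divisible hI1 hI2 χ hσ (hKI χ hχ0) (hKC χ hχ0) (hQdiv χ hχ0) (hres χ hχ0)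
  obtain ⟨i, hi, hpi⟩ := hIG (E.ι.hom a.1) (fun g => by rw [← Rep.hom_comm_apply, a.2 g])
  have hpπ : p • E.π.hom i = 0 := by
    rw [← map_nsmul, hpi]
    exact (H91.isSES E).zero a.1
  let w : ↥(H36.torsionRep p E.Q).ρ.invariants :=
    ⟨(⟨E.π.hom i, hpπ⟩ : H36.torsionSub p E.Q.V), fun g => Subtype.ext (by
      show E.Q.ρ g (E.π.hom i) = E.π.hom i
      rw [← Rep.hom_comm_apply, hi g])⟩
  have h1 := hξ w
  rw [LinearMap.compr₂_apply, ht, theta_pair01 E β hβ w χ hi a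
    (by rw [natCast_zsmul]; exact hpi) rfl] at h1
  exact ha h1

/-- **(I1') in intrinsic form.**  `(G, 𝓛)` a group with level structure, `E : 0 → C → I → Q → 0`
a `p`-divisible envelope, `β` the scalar pairing `W × 𝔽_p → W`, `t : H¹(G; W) → 𝔽_p` a linear form
with the same kernel as `θ`.  Then `(w, ξ) ↦ t (w ∪ ξ)` induces `W^G / d(Vm^G) ≃ H¹(G; 𝔽_p)^∨`. -/
theorem axI1_intrinsic (hβ : ∀ w c, β.toFun w c = c • w)
    (ht : ∀ y, t y = 0 ↔ H91.theta E y = 0)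
    (htf : ∀ x : 𝓛.H1 C, p • x = 0 → x = 0) (hdiv : H1Divisible 𝓛 C p)
    (hI1 : Subsingleton (𝓛.H1 E.I)) (hI2 : Subsingleton (𝓛.H2 E.I))
    (hIG : ∀ i : E.I.V, (∀ g, E.I.ρ g i = i) → ∃ i' : E.I.V, (∀ g, E.I.ρ g i' = i') ∧ p • i' = i)
    (hKI : ∀ χ : levelChars 𝓛 p, χ.1 ≠ 0 → KerH1Vanishes 𝓛 E.I χ.1)
    (hKC : ∀ χ : levelChars 𝓛 p, χ.1 ≠ 0 → KerH1TorsionFree 𝓛 C χ.1)
    (hQdiv : ∀ χ : levelChars 𝓛 p, χ.1 ≠ 0 → ∀ q : E.Q, IsKerFixed χ.1 q →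
      ∃ q₁ : E.Q, IsKerFixed χ.1 q₁ ∧ p • q₁ = q)
    (hres : ∀ χ : levelChars 𝓛 p, χ.1 ≠ 0 →
      ∃ x : 𝓛.H2 C, p • x = 0 ∧ x ≠ 0 ∧ ResKerVanishes 𝓛 C χ.1 x)
    (hEx : ∀ a : ↥(LevelStructure.H0 C),
      (∀ χ : levelChars 𝓛 p, χ.1 ≠ 0 → IsKerNorm χ.1 a.1) →
        ∃ a' : ↥(LevelStructure.H0 C), a = (p : ℤ) • a')
    (hFin : ∃ T : Finset C.V, ∀ a : C.V, (∀ g, C.ρ g a = a) →
      ∃ t ∈ T, ∃ b : C.V, (∀ g, C.ρ g b = b) ∧ a = t + p • b) :
    Function.Surjective ((pair01 𝓛 β).compr₂ t) ∧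
      LinearMap.ker ((pair01 𝓛 β).compr₂ t) = LinearMap.range (H50.coeffH0 E.dComplex) := by
  have hker := ker_pair_eq_range E β t hβ ht htf hdiv hKC hEx
  refine ⟨?_, hker⟩
  have : Finite (↥(H36.torsionRep p E.Q).ρ.invariants ⧸
      LinearMap.ker ((pair01 𝓛 β).compr₂ t)) := by
    rw [hker]
    exact finite_quotient_range_d E htf hFin
  have : FiniteDimensional (ZMod p) (↥(H36.torsionRep p E.Q).ρ.invariants ⧸
      LinearMap.ker ((pair01 𝓛 β).compr₂ t)) := Module.Finite.of_finite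
  exact (surjective_of_right_nondegenerate ((pair01 𝓛 β).compr₂ t)
    (pair_right_nondegenerate E β t hβ ht hI1 hI2 hIG hKI hKC hQdiv hres)).2

end Compute

end Fermat.Agent.CFT.H74
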