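/-
CFT layer D, D2: the axiom (I1') for the trace `tr = inv_H ∘ θ_H` of a `p`-class formation at an
open subgroup `N₀` with (EXIST), from helper74's intrinsic theorem `H74.axI1_intrinsic` applied to
`(N₀, 𝓛.restrict N₀, E.resSub N₀)`.
Author: helper62.
-/
import Fermat.Agent.CFT.H62_D2
import Fermat.Agent.CFT.H62_ExistBridge
import Fermat.Agent.CFT.H74_AxI1
import Fermat.Agent.CFT.H52_Nested

set_option autoImplicit false

open CategoryTheory

namespace Fermat.Agent.CFT.H62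

/-! ### the kernel of an additive character -/

section KerSub

variable {G : Type} [Group G] {p : ℕ} [hp : Fact p.Prime]

/-- the kernel of an additive character, as a subgroup -/
def kerSub {χ : G → ZMod p} (hχ : H74.IsAddChar χ) : Subgroup G where
  carrier := {g | χ g = 0}
  one_mem' := hχ.map_one
  mul_mem' := fun {a b} ha hb => by
    show χ (a * b) = 0
    rw [hχ a b, show χ a = 0 from ha, show χ b = 0 from hb, add_zero]
  inv_mem' := fun {a} ha => by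
    show χ a⁻¹ = 0
    rw [hχ.map_inv, show χ a = 0 from ha, neg_zero]

lemma mem_kerSub {χ : G → ZMod p} (hχ : H74.IsAddChar χ) (g : G) :
    g ∈ kerSub hχ ↔ χ g = 0 := Iff.rfl

lemma isOpen_kerSub {𝓛 : LevelStructure G} {χ : G → ZMod p} (hχ : H74.IsAddChar χ)
    (hc : 𝓛.IsConst₁ χ) : 𝓛.IsOpen (kerSub hχ) := by
  obtain ⟨N, hN, h⟩ := hc
  refine ⟨N, hN, fun s hs => ?_⟩
  have h1 := h 1 s hs
  rw [one_mul, hχ.map_one] at h1
  exact h1

lemma index_kerSub {χ : G → ZMod p} (hχ : H74.IsAddChar χ) (h0 : χ ≠ 0) :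
    (kerSub hχ).index = p := by
  obtain ⟨σ, hσ⟩ := H74.exists_char_eq_one hχ h0
  let φ : G →* Multiplicative (ZMod p) :=
    { toFun := fun g => Multiplicative.ofAdd (χ g)
      map_one' := by rw [hχ.map_one]; rfl
      map_mul' := fun a b => by rw [hχ a b]; rfl }
  have hker : kerSub hχ = φ.ker := by
    ext g
    rw [MonoidHom.mem_ker, mem_kerSub]
    constructor
    · intro h
      show Multiplicative.ofAdd (χ g) = 1
      rw [h]; rfl
    · intro h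
      exact Multiplicative.ofAdd.injective h
  have hsurj : Function.Surjective φ := fun x => ⟨σ ^ (Multiplicative.toAdd x).val, by
    show Multiplicative.ofAdd (χ (σ ^ (Multiplicative.toAdd x).val)) = x
    rw [H74.char_pow_of_eq_one hχ hσ, ZMod.natCast_zmod_val]
    rfl⟩
  rw [hker, Subgroup.index_ker, MonoidHom.range_eq_top.mpr hsurj, Subgroup.card_top,
    Nat.card_congr Multiplicative.toAdd, Nat.card_zmod]

end KerSub

/-! ### the instantiation -/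

section Inst

variable {p : ℕ} [hp : Fact p.Prime] {H : Type} [Group H] {𝓛 : LevelStructure H}
  {C : Rep.{0} ℤ H} (F : PClassFormation p 𝓛 C) (E : H36.DivEnvelope 𝓛 p C)

/-- **(I1')** for the trace of a `p`-class formation at an open subgroup with (EXIST). -/
theorem axI1 (hDIV : HasDIV 𝓛 p)
    (hEac : ∀ U : Subgroup H, 𝓛.IsOpen U →
      Subsingleton ((𝓛.restrict U).H1 (Rep.res U.subtype E.I)) ∧
      Subsingleton ((𝓛.restrict U).H2 (Rep.res U.subtype E.I)))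
    (hVm : ∀ U : Subgroup H, 𝓛.IsOpen U →
      Subsingleton ((𝓛.restrict U).H1 (Rep.res U.subtype (H36.torsionRep p E.I))))
    (hFIN : HasFIN 𝓛 C p) (N₀ : Subgroup H) (hN : 𝓛.IsOpen N₀) (hEX : HasEXIST 𝓛 C p N₀) :
    AxI1 E.wDatum (trace F E hDIV) N₀ hN := by
  -- (hKI): `H¹(ker χ; I) = 0`
  have hKI : ∀ χ : H74.levelChars (𝓛.restrict N₀) p, χ.1 ≠ 0 →
      H74.KerH1Vanishes (𝓛.restrict N₀) (E.resSub N₀).I χ.1 := fun χ _ => by
    have hsub := H52.subsingleton_H1_nested 𝓛 E.I N₀ (kerSub χ.2.1) hN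
      (isOpen_kerSub χ.2.1 χ.2.2) (fun W hW => (hEac W hW).1)
    exact H74.kerH1Vanishes_of_subsingleton (h := hsub) (kerSub χ.2.1) (mem_kerSub χ.2.1)
  -- (hKC): `H¹(ker χ; C)` has no `p`-torsion
  have hKC : ∀ χ : H74.levelChars (𝓛.restrict N₀) p, χ.1 ≠ 0 →
      H74.KerH1TorsionFree (𝓛.restrict N₀) (Rep.res N₀.subtype C) χ.1 := fun χ _ =>
    H74.kerH1TorsionFree_of_forall (kerSub χ.2.1) (mem_kerSub χ.2.1)
      (fun x hx => H52.H1_pTorsionFree_nested F N₀ (kerSub χ.2.1) x hx)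
  -- (hQdiv): `Q^(ker χ)` is `p`-divisible
  have hQdiv : ∀ χ : H74.levelChars (𝓛.restrict N₀) p, χ.1 ≠ 0 →
      ∀ q : (E.resSub N₀).Q, H74.IsKerFixed χ.1 q →
        ∃ q₁ : (E.resSub N₀).Q, H74.IsKerFixed χ.1 q₁ ∧ p • q₁ = q := fun χ _ q hq => by
    have hV' : 𝓛.IsOpen ((kerSub χ.2.1).map N₀.subtype) :=
      H52.isOpen_map_subtype N₀ (kerSub χ.2.1) 𝓛 hN (isOpen_kerSub χ.2.1 χ.2.2)
    obtain ⟨q', hq', hpq'⟩ := invariants_Q_divisible_sub F E ((kerSub χ.2.1).map N₀.subtype)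
      (hVm _ hV') q (fun g => hq ⟨g.1, H52.mem_of_mem_map_subtype N₀ (kerSub χ.2.1) g.2⟩
        (H52.mk_mem_of_mem_map_subtype N₀ (kerSub χ.2.1) g.2))
    refine ⟨q', fun κ hκ => ?_, hpq'⟩
    exact hq' ⟨κ.1, Subgroup.mem_map.2 ⟨κ, hκ, rfl⟩⟩
  -- (hres): a nonzero `p`-torsion class of `H²(N₀; C)` dying on `ker χ`
  have hres : ∀ χ : H74.levelChars (𝓛.restrict N₀) p, χ.1 ≠ 0 →
      ∃ x : (𝓛.restrict N₀).H2 (Rep.res N₀.subtype C), p • x = 0 ∧ x ≠ 0 ∧
        H74.ResKerVanishes (𝓛.restrict N₀) (Rep.res N₀.subtype C) χ.1 x := fun χ h0 => by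
    obtain ⟨c, hc0, hpc, -⟩ := exists_invEquiv_sub F hDIV N₀ hN
    refine ⟨c, hpc, hc0, H74.resKerVanishes_of_resSubH2 χ.2.2 (kerSub χ.2.1)
      (mem_kerSub χ.2.1) c ?_⟩
    exact H52.resSubH2_eq_zero_of_dvd_index F N₀ (kerSub χ.2.1) hN
      (isOpen_kerSub χ.2.1 χ.2.2) (by rw [index_kerSub χ.2.1 h0]) c hpc
  -- (hFin)
  have hFin : ∃ T : Finset (Rep.res N₀.subtype C).V,
      ∀ a : (Rep.res N₀.subtype C).V, (∀ g, (Rep.res N₀.subtype C).ρ g a = a) →
        ∃ t ∈ T, ∃ b : (Rep.res N₀.subtype C).V,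
          (∀ g, (Rep.res N₀.subtype C).ρ g b = b) ∧ a = t + p • b := by
    obtain ⟨T, hT⟩ := hFIN N₀ hN
    refine ⟨T, fun a ha => ?_⟩
    obtain ⟨t, ht, b, hb, hab⟩ := hT a (fun u hu => ha ⟨u, hu⟩)
    exact ⟨t, ht, b, fun g => hb g.1 g.2, hab⟩
  exact H74.axI1_intrinsic (E.resSub N₀) (smulPairing N₀ E.wDatum.W)
    (trace F E hDIV ∘ₗ H50.cor1 𝓛 N₀ hN E.wDatum.W)
    (fun w c => rfl) (fun y => trace_comp_cor1_eq_zero_iff F E hDIV N₀ hN y)
    (fun x hx => H52.H1_pTorsionFree_restrict F N₀ x hx)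
    (H74.h1Divisible_of_forall (H52.H1_pDivisible_restrict F N₀))
    (hEac N₀ hN).1 (hEac N₀ hN).2
    (fun i hi => invariants_I_divisible_sub E N₀ (hVm N₀ hN) i hi)
    hKI hKC hQdiv hres (hEx_of_hasEXIST N₀ hEX) hFin

end Inst

end Fermat.Agent.CFT.H62
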