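/-
CFT layer D: **theorem D2** in the frozen shape `D2Statement p` of `H91_DStatements`.
Assembly: `H62.D2_of_axI1` (trace `tr = inv_H ∘ θ_H`, (I2') at every open subgroup, (I3')) +
`H62.axI1` ((I1') for the trace, = helper74's intrinsic theorem `H74.axI1_intrinsic` at
`(N₀, 𝓛.restrict N₀, E.resSub N₀)` with helper52's nested transport).
Author: helper62.
-/
import Fermat.Agent.CFT.H62_AxI1Inst

set_option autoImplicit false

open CategoryTheory

namespace Fermat.Agent.CFT.H62

variable {p : ℕ} [Fact p.Prime]

/-- **D2**: a `p`-class formation with (DIV), (FIN), (EXIST) satisfies (I1'), (I2') at the good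
normal levels and (I3') at all open subgroups, for the `W`-datum of any acyclic envelope. -/
theorem d2Statement : D2Statement p := by
  intro H _ 𝓛 C F E hEac hVm hDIV hFIN good hEX
  exact D2_of_axI1 F E hDIV hEac hVm good fun N₀ hN hnor hg =>
    axI1 F E hDIV hEac hVm hFIN N₀ ⟨N₀, hN, le_rfl⟩ (hEX N₀ hN hnor hg)

end Fermat.Agent.CFT.H62
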