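import Fermat.Agent.CFT.H46_WRows

/-!
# Tate duality in the W-model: the main theorem of layer D1 (project CFT)

`WModel.bijective_α` : let `M` be a W-model over a field `K`, `tr : H¹(H;W) → K`.  Assume

* `(AC1)` : `H¹(H; Hom(X,Vm)) = 0` for every finite discrete `X` (and `H¹(H;Vm) = 0`);
* `(T3)`  : `T³(X) = H²(H; Hom(X,W)) = 0` for every finite discrete `X`;
* `(IND)` : every finite discrete `X` embeds, by a short exact sequence `0 → X → Xs → X1 → 0` of
  finite discrete representations, into some `Xs` for which `α¹(Xs)` and `α²(Xs)` are bijective.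

Then `α¹(X) : T¹(X) → H¹(X)^*` and `α²(X) : T²(X) → H⁰(X)^*` are bijective for every finite
discrete `X`.
-/

set_option autoImplicit false

noncomputable section

universe u

open CategoryTheory

namespace Fermat.Agent.CFT.H46

open Fermat.Agent.CFT Fermat.Agent.CFT.H1 LevelStructure

variable {H : Type u} [Group H] {K : Type u} [Field K] {𝓛 : LevelStructure H}

/-- Finite discrete representations. -/
structure FinDisc (𝓛 : LevelStructure H) (K : Type u) [Field K] where
  /-- the underlying representation -/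
  X : Rep.{u} K H
  fin : Module.Finite K X
  disc : 𝓛.IsDiscrete X

namespace WModel

variable (M : WModel 𝓛 K) (tr : 𝓛.H1 M.W →ₗ[K] K) (hVm : Subsingleton (𝓛.H1 M.Vm))

/-- The embedding datum `(IND)` for one finite discrete `X`. -/
structure Ind (X : FinDisc 𝓛 K) where
  /-- the induced module -/
  Xs : FinDisc 𝓛 K
  /-- the quotient -/
  X1 : FinDisc 𝓛 K
  /-- the embedding -/
  i : X.X ⟶ Xs.X
  /-- the projection -/
  p : Xs.X ⟶ X1.X
  ses : IsSES i p
  bij1 : Function.Bijective (M.α1 tr hVm Xs.X)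
  bij2 : Function.Bijective (M.α2 tr Xs.X)

variable {M tr hVm}

/-- **Tate duality in the W-model.** -/
theorem bijective_α
    (hAC : ∀ X : FinDisc 𝓛 K, Subsingleton (𝓛.H1 (homRep X.X M.Vm)))
    (hT3 : ∀ X : FinDisc 𝓛 K, Subsingleton (M.T3 X.X))
    (ind : ∀ X : FinDisc 𝓛 K, Nonempty (M.Ind tr hVm X)) (X : FinDisc 𝓛 K) :
    Function.Bijective (M.α1 tr hVm X.X) ∧ Function.Bijective (M.α2 tr X.X) := by
  classical
  let I : ∀ X : FinDisc 𝓛 K, M.Ind tr hVm X := fun X => (ind X).some
  have hfin : ∀ X : FinDisc 𝓛 K, Module.Finite K (I X).Xs.X := fun X => (I X).Xs.fin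
  have hch : ChaseHyp (Obj := FinDisc 𝓛 K) (fun X => (I X).Xs) (fun X => (I X).X1)
      (fun X => M.T1 X.X) (fun X => M.T2 X.X)
      (fun X => Module.Dual K (𝓛.H1 X.X)) (fun X => Module.Dual K (LevelStructure.H0 X.X))
      (fun X => (M.α1 tr hVm X.X).toAddMonoidHom) (fun X => (M.α2 tr X.X).toAddMonoidHom)
      (fun X => (M.T1map (I X).p).toAddMonoidHom) (fun X => (M.T1map (I X).i).toAddMonoidHom)
      (fun X => (M.rowδ (I X).ses (I X).Xs.disc (hAC (I X).X1)).toAddMonoidHom)
      (fun X => (M.T2map (I X).p).toAddMonoidHom) (fun X => (M.T2map (I X).i).toAddMonoidHom)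
      (fun X => (H1map 𝓛 (I X).p).dualMap.toAddMonoidHom)
      (fun X => (H1map 𝓛 (I X).i).dualMap.toAddMonoidHom)
      (fun X => (δ₀ 𝓛 (I X).ses (I X).Xs.disc).dualMap.toAddMonoidHom)
      (fun X => (H0map (I X).p).dualMap.toAddMonoidHom)
      (fun X => (H0map (I X).i).dualMap.toAddMonoidHom) :=
    { exact_a12 := fun X => M.exact_T1map_T1map (I X).ses (I X).Xs.disc (hAC (I X).X1)
      exact_a23 := fun X => M.exact_T1map_rowδ (I X).ses (I X).Xs.disc (hAC (I X).X1)
      exact_a34 := fun X => M.exact_rowδ_T2map (I X).ses (I X).Xs.disc (hAC (I X).X1)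
      exact_a45 := fun X => M.exact_T2map_T2map (I X).ses (I X).Xs.disc
      surj_a5 := fun X => M.surjective_T2map (I X).ses (I X).Xs.disc (hT3 (I X).X1)
      exact_b12 := fun X => exact_E1_E1 (I X).ses (I X).Xs.disc
      exact_b23 := fun X => exact_E1_δ (I X).ses (I X).Xs.disc
      exact_b34 := fun X => exact_δ_E0 (I X).ses (I X).Xs.disc
      exact_b45 := fun X => exact_E0_E0 (I X).ses
      surj_b5 := fun X => surjective_E0 (I X).ses
      comm1 := fun X => congrArg LinearMap.toAddMonoidHom (M.α1_natural tr hVm (I X).p)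
      comm2 := fun X => congrArg LinearMap.toAddMonoidHom (M.α1_natural tr hVm (I X).i)
      comm3 := fun X => congrArg LinearMap.toAddMonoidHom
        (M.α_rowδ (I X).ses (I X).Xs.disc tr hVm (hAC (I X).X1))
      comm4 := fun X => congrArg LinearMap.toAddMonoidHom (M.α2_natural tr (I X).p)
      comm5 := fun X => congrArg LinearMap.toAddMonoidHom (M.α2_natural tr (I X).i)
      bij_star1 := fun X => (I X).bij1
      bij_star2 := fun X => (I X).bij2 }
  exact ⟨hch.bijective_α1 X, hch.bijective_α2 X⟩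

end WModel

end Fermat.Agent.CFT.H46
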