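import Fermat.Agent.CFT.H91_WModel
import Fermat.Agent.CFT.H46_D1Main

/-!
# `D1_main` of the layer-D skeleton (project CFT), verbatim in the `H91_WModel` vocabulary

Bridge between the official vocabulary `WDatum p 𝓛`, `𝒟.alpha2`, `𝒟.alpha1num`, `𝒟.IsDual1`,
`𝒟.IsDual2`, `starRep` (`H91_WModel`) and the W-model development of `H46_WModel` /
`H46_D1Main`, ending in the skeleton statement `D1_main`.
-/

set_option autoImplicit false

noncomputable section

open CategoryTheory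

namespace Fermat.Agent.CFT.H46

open Fermat.Agent.CFT Fermat.Agent.CFT.H1 LevelStructure

variable {p : ℕ} [Fact p.Prime] {H : Type} [Group H] {𝓛 : LevelStructure H}

/-- The `H46.WModel` underlying a `WDatum`. -/
def ofWDatum (𝒟 : WDatum p 𝓛) : WModel 𝓛 (ZMod p) where
  Vm := 𝒟.Vm
  W := 𝒟.W
  d := 𝒟.d
  discrete_Vm := 𝒟.discrete_Vm
  discrete_W := 𝒟.discrete_W

variable (𝒟 : WDatum p 𝓛) (tr : 𝓛.H1 𝒟.W →ₗ[ZMod p] ZMod p)

/-! ### Comparison of the duality maps -/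

lemma alpha2_eq (X : Rep.{0} (ZMod p) H) (φ : 𝒟.T2 X) (x : X.ρ.invariants) :
    𝒟.alpha2 tr X φ x = (ofWDatum 𝒟).α2 tr X φ x := by
  induction φ using Submodule.Quotient.induction_on with
  | H φ => rfl

lemma alpha1num_eq (hVm : Subsingleton (𝓛.H1 (ofWDatum 𝒟).Vm)) (X : Rep.{0} (ZMod p) H)
    (h : 𝒟.T1num X) (ξ : 𝓛.H1 X) :
    𝒟.alpha1num tr X h ξ = (ofWDatum 𝒟).α1 tr hVm X ((ofWDatum 𝒟).T1π X h) ξ := by
  induction ξ using Submodule.Quotient.induction_on with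
  | H ξ => rfl

lemma T1den_eq (X : Rep.{0} (ZMod p) H) :
    𝒟.T1den X = LinearMap.range ((ofWDatum 𝒟).dHom X) := by
  ext h
  constructor
  · rintro ⟨v, rfl⟩
    exact ⟨v, rfl⟩
  · rintro ⟨v, rfl⟩
    exact ⟨v, rfl⟩

lemma isDual2_iff (X : Rep.{0} (ZMod p) H) :
    𝒟.IsDual2 tr X ↔ Function.Bijective ((ofWDatum 𝒟).α2 tr X) := by
  have h : (𝒟.alpha2 tr X : 𝒟.T2 X → _) = ((ofWDatum 𝒟).α2 tr X : _ → _) := by
    funext φ
    exact LinearMap.ext fun x => alpha2_eq 𝒟 tr X φ x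
  unfold WDatum.IsDual2
  rw [h]
  exact Iff.rfl

lemma isDual1_iff (hVm : Subsingleton (𝓛.H1 (ofWDatum 𝒟).Vm)) (X : Rep.{0} (ZMod p) H) :
    𝒟.IsDual1 tr X ↔ Function.Bijective ((ofWDatum 𝒟).α1 tr hVm X) := by
  have hcomp : ∀ h : 𝒟.T1num X,
      𝒟.alpha1num tr X h = (ofWDatum 𝒟).α1 tr hVm X ((ofWDatum 𝒟).T1π X h) :=
    fun h => LinearMap.ext fun ξ => alpha1num_eq 𝒟 tr hVm X h ξ
  have hπ : ∀ t : (ofWDatum 𝒟).T1 X, ∃ h : 𝒟.T1num X, (ofWDatum 𝒟).T1π X h = t :=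
    fun t => Submodule.mkQ_surjective _ t
  have hzero : ∀ h : 𝒟.T1num X, (ofWDatum 𝒟).T1π X h = 0 ↔ h ∈ 𝒟.T1den X := by
    intro h
    rw [T1den_eq]
    exact Submodule.Quotient.mk_eq_zero _
  constructor
  · rintro ⟨hsurj, hker⟩
    constructor
    · rw [injective_iff_map_eq_zero]
      intro t ht
      obtain ⟨h, rfl⟩ := hπ t
      rw [hzero, ← hker, LinearMap.mem_ker, hcomp]
      exact ht
    · intro ψ
      obtain ⟨h, rfl⟩ := hsurj ψ
      exact ⟨(ofWDatum 𝒟).T1π X h, (hcomp h).symm⟩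
  · rintro ⟨hinj, hsurj⟩
    constructor
    · intro ψ
      obtain ⟨t, rfl⟩ := hsurj ψ
      obtain ⟨h, rfl⟩ := hπ t
      exact ⟨h, hcomp h⟩
    · ext h
      rw [LinearMap.mem_ker, hcomp, ← hzero]
      constructor
      · intro h0
        exact hinj (h0.trans (map_zero _).symm)
      · intro hmem
        rw [hmem, map_zero]

/-! ### `H¹(H; Vm) = 0` from (AC) -/

lemma isFinDiscrete_trivial : IsFinDiscrete 𝓛 (Rep.trivial (ZMod p) H (ZMod p)) where
  finite := inferInstanceAs (Finite (ZMod p))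
  discrete := fun a => by
    obtain ⟨N, hN⟩ := 𝓛.nonempty
    exact ⟨N, hN, fun n _ => rfl⟩

/-- `v ↦ (c ↦ c • v)`, `A ⟶ Hom(k, A)`. -/
def toHomTriv (A : Rep.{0} (ZMod p) H) : A ⟶ homRep (Rep.trivial (ZMod p) H (ZMod p)) A :=
  Rep.ofHom ⟨(LinearMap.lsmul (ZMod p) A.V).flip, fun g => by
    refine LinearMap.ext fun v => ?_
    change ofLin _ = ofLin _
    congr 1
    ext
    change (1 : ZMod p) • A.ρ g v = A.ρ g ((1 : ZMod p) • v)
    rw [one_smul, one_smul]⟩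

lemma subsingleton_H1_of_homTriv (A : Rep.{0} (ZMod p) H)
    (h : Subsingleton (𝓛.H1 (homRep (Rep.trivial (ZMod p) H (ZMod p)) A))) :
    Subsingleton (𝓛.H1 A) := by
  let one : LevelStructure.H0 (Rep.trivial (ZMod p) H (ZMod p)) := ⟨(1 : ZMod p), fun _ => rfl⟩
  have hcomp : toHomTriv A ≫ evHom A one = 𝟙 A := by
    ext v
    change (1 : ZMod p) • v = v
    rw [one_smul]
  have hinj : Function.Injective (H1map 𝓛 (toHomTriv A)) := by
    intro x y hxy
    have := congrArg (H1map 𝓛 (evHom A one)) hxy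
    rwa [← LinearMap.comp_apply, ← LinearMap.comp_apply, ← H1map_comp, hcomp, H1map_id] at this
  exact hinj.subsingleton

lemma subsingleton_H1_Vm (hAC : 𝒟.IsAcyclic) : Subsingleton (𝓛.H1 (ofWDatum 𝒟).Vm) :=
  subsingleton_H1_of_homTriv 𝒟.Vm (hAC _ isFinDiscrete_trivial).1

/-! ### `FinDisc` versus `IsFinDiscrete` -/

lemma FinDisc.isFinDiscrete (X : FinDisc 𝓛 (ZMod p)) : IsFinDiscrete 𝓛 X.X where
  finite := by
    have := X.fin
    exact Module.finite_of_finite (ZMod p)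
  discrete := X.disc

/-- A finite discrete representation, bundled. -/
def FinDisc.of {X : Rep.{0} (ZMod p) H} (hX : IsFinDiscrete 𝓛 X) : FinDisc 𝓛 (ZMod p) where
  X := X
  fin := by
    have := hX.finite
    exact Module.Finite.of_finite
  disc := hX.discrete

/-! ### The sequence `0 → X → X⋆ → X₁ → 0` -/

section Star

variable (N₀ : Subgroup H) [N₀.Normal] (X : Rep.{0} (ZMod p) H)

omit [N₀.Normal] in
lemma starRep_ρ_apply (g : H) (f : H ⧸ N₀ → X.V) (y : H ⧸ N₀) :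
    (starRep N₀ X).ρ g f y = X.ρ g (f (g⁻¹ • y)) := rfl

lemma starRep_fixed (htriv : ∀ n ∈ N₀, X.ρ n = 1) (n : H) (hn : n ∈ N₀) (f : H ⧸ N₀ → X.V) :
    (starRep N₀ X).ρ n f = f := by
  funext y
  rw [starRep_ρ_apply, htriv n hn, Module.End.one_apply]
  congr 1
  induction y using QuotientGroup.induction_on with
  | H h =>
    rw [MulAction.Quotient.smul_mk]
    apply QuotientGroup.eq.2
    have : (n⁻¹ • h)⁻¹ * h = h⁻¹ * n * h := by
      rw [smul_eq_mul, mul_inv_rev, inv_inv]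
    rw [this]
    have := Subgroup.Normal.conj_mem ‹N₀.Normal› n hn h⁻¹
    rwa [inv_inv] at this

lemma isFinDiscrete_starRep (hN : N₀ ∈ 𝓛.levels) (hX : IsFinDiscrete 𝓛 X)
    (htriv : ∀ n ∈ N₀, X.ρ n = 1) : IsFinDiscrete 𝓛 (starRep N₀ X) where
  finite := by
    have := hX.finite
    have := 𝓛.finiteIndex N₀ hN
    have : Finite (H ⧸ N₀) := Subgroup.finite_quotient_of_finiteIndex
    exact inferInstanceAs (Finite (H ⧸ N₀ → X.V))
  discrete := fun f => ⟨N₀, hN, fun n hn => starRep_fixed N₀ X htriv n hn f⟩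

omit [N₀.Normal] in
/-- The image of `X` in `X⋆` is a subrepresentation. -/
lemma range_starIncl_le_comap (g : H) :
    LinearMap.range (starIncl N₀ X).hom.toLinearMap ≤
      (LinearMap.range (starIncl N₀ X).hom.toLinearMap).comap ((starRep N₀ X).ρ g) := by
  rintro _ ⟨x, rfl⟩
  exact ⟨X.ρ g x, Rep.hom_comm_apply (starIncl N₀ X) g x⟩

/-- `X₁ = X⋆ / X`. -/
def starQuot : Rep.{0} (ZMod p) H :=
  (starRep N₀ X).quotient (LinearMap.range (starIncl N₀ X).hom.toLinearMap)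
    (range_starIncl_le_comap N₀ X)

/-- The projection `X⋆ → X₁`. -/
def starProj : starRep N₀ X ⟶ starQuot N₀ X :=
  (starRep N₀ X).mkQ (LinearMap.range (starIncl N₀ X).hom.toLinearMap)
    (range_starIncl_le_comap N₀ X)

omit [N₀.Normal] in
lemma isSES_star : IsSES (starIncl N₀ X) (starProj N₀ X) where
  inj := starIncl_injective N₀ X
  surj := Submodule.mkQ_surjective _
  exact := fun y => by
    change Submodule.Quotient.mk y = 0 ↔ _
    rw [Submodule.Quotient.mk_eq_zero]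
    rfl

lemma isFinDiscrete_starQuot (hN : N₀ ∈ 𝓛.levels) (hX : IsFinDiscrete 𝓛 X)
    (htriv : ∀ n ∈ N₀, X.ρ n = 1) : IsFinDiscrete 𝓛 (starQuot N₀ X) where
  finite := by
    have := (isFinDiscrete_starRep N₀ X hN hX htriv).finite
    exact Finite.of_surjective _ (isSES_star N₀ X).surj
  discrete := (isSES_star N₀ X).discrete_right (isFinDiscrete_starRep N₀ X hN hX htriv).discrete

end Star

/-! ### `D1_main` -/

/-- **D1-main**, verbatim from the layer-D skeleton: if duality holds for the coinduced modules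
`X⋆ = Map(H/N₀, X)` (`N₀` a good normal level acting trivially on `X`) and `T³` vanishes, then
duality holds for every finite discrete `X`. -/
theorem D1_main (hAC : 𝒟.IsAcyclic) (good : Subgroup H → Prop)
    (hgood : ∀ N ∈ 𝓛.levels, ∃ N' ∈ 𝓛.levels, N' ≤ N ∧ N'.Normal ∧ good N')
    (hstar : ∀ (N₀ : Subgroup H) (_ : N₀ ∈ 𝓛.levels) [N₀.Normal] (_ : good N₀)
      (X : Rep.{0} (ZMod p) H), IsFinDiscrete 𝓛 X → (∀ n ∈ N₀, X.ρ n = 1) →
        𝒟.IsDual2 tr (starRep N₀ X) ∧ 𝒟.IsDual1 tr (starRep N₀ X))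
    (hT3 : ∀ X : Rep.{0} (ZMod p) H, IsFinDiscrete 𝓛 X → Subsingleton (𝒟.T3 X))
    (X : Rep.{0} (ZMod p) H) (hX : IsFinDiscrete 𝓛 X) :
    𝒟.IsDual2 tr X ∧ 𝒟.IsDual1 tr X := by
  have hVm := subsingleton_H1_Vm 𝒟 hAC
  have hmain := WModel.bijective_α (M := ofWDatum 𝒟) (tr := tr) (hVm := hVm)
    (fun Y => (hAC Y.X Y.isFinDiscrete).1) (fun Y => hT3 Y.X Y.isFinDiscrete) ?_ (FinDisc.of hX)
  · exact ⟨(isDual2_iff 𝒟 tr X).2 hmain.2, (isDual1_iff 𝒟 tr hVm X).2 hmain.1⟩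
  · intro Y
    have hY := Y.isFinDiscrete
    have : Finite Y.X.V := hY.finite
    obtain ⟨N, hN, hfix⟩ := exists_level_fixing hY.discrete (Set.finite_univ (α := Y.X.V))
    obtain ⟨N₀, hN₀, hle, hnor, hg⟩ := hgood N hN
    have htriv : ∀ n ∈ N₀, Y.X.ρ n = 1 := fun n hn =>
      LinearMap.ext fun a => hfix a (Set.mem_univ a) n (hle hn)
    obtain ⟨h2, h1⟩ := hstar N₀ hN₀ hg Y.X hY htriv
    exact ⟨{ Xs := FinDisc.of (isFinDiscrete_starRep N₀ Y.X hN₀ hY htriv)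
             X1 := FinDisc.of (isFinDiscrete_starQuot N₀ Y.X hN₀ hY htriv)
             i := starIncl N₀ Y.X
             p := starProj N₀ Y.X
             ses := isSES_star N₀ Y.X
             bij1 := (isDual1_iff 𝒟 tr hVm _).1 h1
             bij2 := (isDual2_iff 𝒟 tr _).1 h2 }⟩

end Fermat.Agent.CFT.H46
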