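import Mathlib

/-!
# Cup products of inhomogeneous cochains in low degrees (cochain level, pure algebra)

For `A B C : Rep k H` and an `H`-equivariant `k`-bilinear pairing `φ : A → B → C` we define the
cup products of inhomogeneous cochains in the bidegrees
`(0,1) (1,0) (0,2) (2,0) (1,1) (1,2) (2,1)` and prove the Leibniz rules with respect to Mathlib's
differentials `d₀₁ d₁₂ d₂₃`.
-/

set_option autoImplicit false

universe u

open CategoryTheory groupCohomology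

namespace Fermat.Agent.CFT.H74

variable {k : Type u} [CommRing k] {H : Type u} [Group H]

/-- An `H`-equivariant `k`-bilinear pairing `A × B → C`. -/
structure EqPairing (A B C : Rep k H) where
  /-- the underlying bilinear map -/
  toFun : A →ₗ[k] B →ₗ[k] C
  /-- equivariance -/
  map_ρ : ∀ (g : H) (a : A) (b : B), toFun (A.ρ g a) (B.ρ g b) = C.ρ g (toFun a b)

namespace EqPairing

variable {A B C : Rep k H} (φ : EqPairing A B C)

/-- the pairing as a function -/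
abbrev pr (a : A) (b : B) : C := φ.toFun a b

lemma ρ_pr (g : H) (a : A) (b : B) : C.ρ g (φ.pr a b) = φ.pr (A.ρ g a) (B.ρ g b) :=
  (φ.map_ρ g a b).symm

/-- `(a ∪ f)(g) = φ(a, f g)` -/
def cup₀₁ : A →ₗ[k] (H → B) →ₗ[k] (H → C) :=
  LinearMap.mk₂ k (fun a f g => φ.pr a (f g))
    (fun a a' f => by ext g; simp [pr])
    (fun c a f => by ext g; simp [pr])
    (fun a f f' => by ext g; simp [pr])
    (fun c a f => by ext g; simp [pr])

/-- `(f ∪ b)(g) = φ(f g, g • b)` -/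
def cup₁₀ : (H → A) →ₗ[k] B →ₗ[k] (H → C) :=
  LinearMap.mk₂ k (fun f b g => φ.pr (f g) (B.ρ g b))
    (fun f f' b => by ext g; simp [pr])
    (fun c f b => by ext g; simp [pr])
    (fun f b b' => by ext g; simp [pr])
    (fun c f b => by ext g; simp [pr])

/-- `(a ∪ f)(g, h) = φ(a, f (g, h))` -/
def cup₀₂ : A →ₗ[k] (H × H → B) →ₗ[k] (H × H → C) :=
  LinearMap.mk₂ k (fun a f x => φ.pr a (f x))
    (fun a a' f => by ext x; simp [pr])
    (fun c a f => by ext x; simp [pr])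
    (fun a f f' => by ext x; simp [pr])
    (fun c a f => by ext x; simp [pr])

/-- `(f ∪ b)(g, h) = φ(f (g, h), (g h) • b)` -/
def cup₂₀ : (H × H → A) →ₗ[k] B →ₗ[k] (H × H → C) :=
  LinearMap.mk₂ k (fun f b x => φ.pr (f x) (B.ρ (x.1 * x.2) b))
    (fun f f' b => by ext x; simp [pr])
    (fun c f b => by ext x; simp [pr])
    (fun f b b' => by ext x; simp [pr])
    (fun c f b => by ext x; simp [pr])

/-- `(a ∪ f)(g, h, l) = φ(a, f (g, h, l))` -/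
def cup₀₃ : A →ₗ[k] (H × H × H → B) →ₗ[k] (H × H × H → C) :=
  LinearMap.mk₂ k (fun a f x => φ.pr a (f x))
    (fun a a' f => by ext x; simp [pr])
    (fun c a f => by ext x; simp [pr])
    (fun a f f' => by ext x; simp [pr])
    (fun c a f => by ext x; simp [pr])

/-- `(f ∪ b)(g, h, l) = φ(f (g, h, l), (g h l) • b)` -/
def cup₃₀ : (H × H × H → A) →ₗ[k] B →ₗ[k] (H × H × H → C) :=
  LinearMap.mk₂ k (fun f b x => φ.pr (f x) (B.ρ (x.1 * x.2.1 * x.2.2) b))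
    (fun f f' b => by ext x; simp [pr])
    (fun c f b => by ext x; simp [pr])
    (fun f b b' => by ext x; simp [pr])
    (fun c f b => by ext x; simp [pr])

/-- `(f ∪ f')(g, h) = φ(f g, g • f' h)` -/
def cup₁₁ : (H → A) →ₗ[k] (H → B) →ₗ[k] (H × H → C) :=
  LinearMap.mk₂ k (fun f f' x => φ.pr (f x.1) (B.ρ x.1 (f' x.2)))
    (fun f₁ f₂ f' => by ext x; simp [pr])
    (fun c f f' => by ext x; simp [pr])
    (fun f f₁ f₂ => by ext x; simp [pr])
    (fun c f f' => by ext x; simp [pr])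

/-- `(f ∪ f')(g, h, l) = φ(f g, g • f' (h, l))` -/
def cup₁₂ : (H → A) →ₗ[k] (H × H → B) →ₗ[k] (H × H × H → C) :=
  LinearMap.mk₂ k (fun f f' x => φ.pr (f x.1) (B.ρ x.1 (f' (x.2.1, x.2.2))))
    (fun f₁ f₂ f' => by ext x; simp [pr])
    (fun c f f' => by ext x; simp [pr])
    (fun f f₁ f₂ => by ext x; simp [pr])
    (fun c f f' => by ext x; simp [pr])

/-- `(f ∪ f')(g, h, l) = φ(f (g, h), (g h) • f' l)` -/
def cup₂₁ : (H × H → A) →ₗ[k] (H → B) →ₗ[k] (H × H × H → C) :=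
  LinearMap.mk₂ k (fun f f' x => φ.pr (f (x.1, x.2.1)) (B.ρ (x.1 * x.2.1) (f' x.2.2)))
    (fun f₁ f₂ f' => by ext x; simp [pr])
    (fun c f f' => by ext x; simp [pr])
    (fun f f₁ f₂ => by ext x; simp [pr])
    (fun c f f' => by ext x; simp [pr])

@[simp] lemma cup₀₁_apply (a : A) (f : H → B) (g : H) : φ.cup₀₁ a f g = φ.pr a (f g) := rfl
@[simp] lemma cup₁₀_apply (f : H → A) (b : B) (g : H) :
    φ.cup₁₀ f b g = φ.pr (f g) (B.ρ g b) := rfl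
@[simp] lemma cup₀₂_apply (a : A) (f : H × H → B) (x : H × H) :
    φ.cup₀₂ a f x = φ.pr a (f x) := rfl
@[simp] lemma cup₂₀_apply (f : H × H → A) (b : B) (x : H × H) :
    φ.cup₂₀ f b x = φ.pr (f x) (B.ρ (x.1 * x.2) b) := rfl
@[simp] lemma cup₀₃_apply (a : A) (f : H × H × H → B) (x : H × H × H) :
    φ.cup₀₃ a f x = φ.pr a (f x) := rfl
@[simp] lemma cup₃₀_apply (f : H × H × H → A) (b : B) (x : H × H × H) :
    φ.cup₃₀ f b x = φ.pr (f x) (B.ρ (x.1 * x.2.1 * x.2.2) b) := rfl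
@[simp] lemma cup₁₁_apply (f : H → A) (f' : H → B) (x : H × H) :
    φ.cup₁₁ f f' x = φ.pr (f x.1) (B.ρ x.1 (f' x.2)) := rfl
@[simp] lemma cup₁₂_apply (f : H → A) (f' : H × H → B) (x : H × H × H) :
    φ.cup₁₂ f f' x = φ.pr (f x.1) (B.ρ x.1 (f' (x.2.1, x.2.2))) := rfl
@[simp] lemma cup₂₁_apply (f : H × H → A) (f' : H → B) (x : H × H × H) :
    φ.cup₂₁ f f' x = φ.pr (f (x.1, x.2.1)) (B.ρ (x.1 * x.2.1) (f' x.2.2)) := rfl

/-! ### Leibniz rules -/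

/-- `d(a ∪ f) = da ∪ f + a ∪ df` in bidegree `(0,1)` -/
theorem d₁₂_cup₀₁ (a : A) (f : H → B) :
    (d₁₂ C).hom (φ.cup₀₁ a f) = φ.cup₁₁ ((d₀₁ A).hom a) f + φ.cup₀₂ a ((d₁₂ B).hom f) := by
  ext ⟨g, h⟩
  simp only [d₁₂_hom_apply, d₀₁_hom_apply, cup₀₁_apply, cup₁₁_apply, cup₀₂_apply, Pi.add_apply,
    ρ_pr, pr, map_sub, map_add, LinearMap.sub_apply, LinearMap.add_apply]
  abel

/-- `d(f ∪ b) = df ∪ b - f ∪ db` in bidegree `(1,0)` -/
theorem d₁₂_cup₁₀ (f : H → A) (b : B) :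
    (d₁₂ C).hom (φ.cup₁₀ f b) = φ.cup₂₀ ((d₁₂ A).hom f) b - φ.cup₁₁ f ((d₀₁ B).hom b) := by
  ext ⟨g, h⟩
  simp only [d₁₂_hom_apply, d₀₁_hom_apply, cup₁₀_apply, cup₁₁_apply, cup₂₀_apply, Pi.sub_apply,
    ρ_pr, pr, map_sub, map_add, LinearMap.sub_apply, LinearMap.add_apply, map_mul,
    Module.End.mul_apply]
  abel

/-- `d(f ∪ f') = df ∪ f' - f ∪ df'` in bidegree `(1,1)` -/
theorem d₂₃_cup₁₁ (f : H → A) (f' : H → B) :
    (d₂₃ C).hom (φ.cup₁₁ f f') = φ.cup₂₁ ((d₁₂ A).hom f) f' - φ.cup₁₂ f ((d₁₂ B).hom f') := by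
  ext ⟨g, h, l⟩
  simp only [d₂₃_hom_apply, d₁₂_hom_apply, cup₁₁_apply, cup₂₁_apply, cup₁₂_apply, Pi.sub_apply,
    ρ_pr, pr, map_sub, map_add, LinearMap.sub_apply, LinearMap.add_apply, map_mul,
    Module.End.mul_apply]
  abel

/-- `d(a ∪ f) = da ∪ f + a ∪ df` in bidegree `(0,2)` -/
theorem d₂₃_cup₀₂ (a : A) (f : H × H → B) :
    (d₂₃ C).hom (φ.cup₀₂ a f) = φ.cup₁₂ ((d₀₁ A).hom a) f + φ.cup₀₃ a ((d₂₃ B).hom f) := by
  ext ⟨g, h, l⟩
  simp only [d₂₃_hom_apply, d₀₁_hom_apply, cup₀₂_apply, cup₁₂_apply, cup₀₃_apply, Pi.add_apply,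
    ρ_pr, pr, map_sub, map_add, LinearMap.sub_apply, LinearMap.add_apply]
  abel

/-- `d(f ∪ b) = df ∪ b + f ∪ db` in bidegree `(2,0)` -/
theorem d₂₃_cup₂₀ (f : H × H → A) (b : B) :
    (d₂₃ C).hom (φ.cup₂₀ f b) = φ.cup₃₀ ((d₂₃ A).hom f) b + φ.cup₂₁ f ((d₀₁ B).hom b) := by
  ext ⟨g, h, l⟩
  simp only [d₂₃_hom_apply, d₀₁_hom_apply, cup₂₀_apply, cup₂₁_apply, cup₃₀_apply, Pi.add_apply,
    ρ_pr, pr, map_sub, map_add, LinearMap.sub_apply, LinearMap.add_apply, map_mul,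
    Module.End.mul_apply, mul_assoc]
  abel

end EqPairing

end Fermat.Agent.CFT.H74
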