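import Fermat.Agent.CFT.H55_LevelDefs
import Fermat.Agent.CFT.H74_CupCochain

/-!
# Cup products and level-constant cochains

Level-constancy of the cochain-level cup products of `H74_CupCochain`, for a level structure
`𝓛` (vocabulary of `H55_LevelDefs`) and a discrete second factor.
-/

set_option autoImplicit false
set_option linter.unusedSimpArgs false

universe u

open CategoryTheory groupCohomology

namespace Fermat.Agent.CFT.H74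

open Fermat.Agent.CFT LevelStructure

variable {k : Type u} [CommRing k] {H : Type u} [Group H] (𝓛 : LevelStructure H)

/-! ### Generalities on levels -/

lemma exists_normal_le_inf {N₁ N₂ : Subgroup H} (h₁ : N₁ ∈ 𝓛.levels) (h₂ : N₂ ∈ 𝓛.levels) :
    ∃ N ∈ 𝓛.levels, N.Normal ∧ N ≤ N₁ ∧ N ≤ N₂ := by
  obtain ⟨N₃, h₃, hle⟩ := 𝓛.directed N₁ h₁ N₂ h₂
  obtain ⟨N₄, h₄, hle', hn⟩ := 𝓛.exists_normal N₃ h₃
  exact ⟨N₄, h₄, hn, hle'.trans (hle.trans inf_le_left), hle'.trans (hle.trans inf_le_right)⟩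

lemma exists_normal_le {N₁ : Subgroup H} (h₁ : N₁ ∈ 𝓛.levels) :
    ∃ N ∈ 𝓛.levels, N.Normal ∧ N ≤ N₁ := by
  obtain ⟨N, hN, hn, h, -⟩ := exists_normal_le_inf 𝓛 h₁ h₁
  exact ⟨N, hN, hn, h⟩

variable {𝓛}

lemma finite_range_of_isConst₁ {X : Type*} {f : H → X} (hf : 𝓛.IsConst₁ f) :
    (Set.range f).Finite := by
  obtain ⟨N, hN, h⟩ := hf
  haveI := 𝓛.finiteIndex N hN
  let fbar : H ⧸ N → X := Quotient.lift f (by
    intro a b hab
    have hab' : a⁻¹ * b ∈ N := QuotientGroup.leftRel_apply.mp hab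
    have : b = a * (a⁻¹ * b) := by group
    rw [this, h a _ hab'])
  refine (Set.finite_range fbar).subset ?_
  rintro _ ⟨g, rfl⟩
  exact ⟨QuotientGroup.mk g, rfl⟩

lemma finite_range_of_isConst₂ {X : Type*} {f : H × H → X} (hf : 𝓛.IsConst₂ f) :
    (Set.range f).Finite := by
  obtain ⟨N, hN, h⟩ := hf
  haveI := 𝓛.finiteIndex N hN
  let fbar : (H ⧸ N) × (H ⧸ N) → X := fun x =>
    Quotient.lift₂ (s₁ := QuotientGroup.leftRel N) (s₂ := QuotientGroup.leftRel N)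
      (fun a b => f (a, b)) (by
        intro a b a' b' haa hbb
        have haa' : a⁻¹ * a' ∈ N := QuotientGroup.leftRel_apply.mp haa
        have hbb' : b⁻¹ * b' ∈ N := QuotientGroup.leftRel_apply.mp hbb
        have e1 : a' = a * (a⁻¹ * a') := by group
        have e2 : b' = b * (b⁻¹ * b') := by group
        show f (a, b) = f (a', b')
        rw [e1, e2, h a b _ _ haa' hbb']) x.1 x.2
  refine (Set.finite_range fbar).subset ?_
  rintro _ ⟨⟨g, g'⟩, rfl⟩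
  exact ⟨(QuotientGroup.mk g, QuotientGroup.mk g'), rfl⟩

variable (𝓛)

/-- a finite set of vectors of a discrete representation is fixed by a common level -/
lemma exists_level_fixing_finite {B : Rep k H} (hB : 𝓛.IsDiscrete B) {s : Set B}
    (hs : s.Finite) : ∃ N ∈ 𝓛.levels, ∀ n ∈ N, ∀ b ∈ s, B.ρ n b = b := by
  induction s, hs using Set.Finite.induction_on with
  | empty =>
    obtain ⟨N, hN⟩ := 𝓛.nonempty
    exact ⟨N, hN, fun _ _ _ hb => absurd hb (Set.notMem_empty _)⟩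
  | insert _ _ ih =>
    rename_i b t _ _
    obtain ⟨N₁, h₁, hfix₁⟩ := ih
    obtain ⟨N₂, h₂, hfix₂⟩ := hB b
    obtain ⟨N₃, h₃, hle⟩ := 𝓛.directed N₁ h₁ N₂ h₂
    refine ⟨N₃, h₃, fun n hn c hc => ?_⟩
    rcases Set.mem_insert_iff.mp hc with rfl | hc
    · exact hfix₂ n (hle hn).2
    · exact hfix₁ n (hle hn).1 c hc

variable {𝓛}

/-- a level-constant `1`-cochain with values in a discrete module: a common normal level for
the invariance and for fixing all values -/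
lemma exists_level_fixing_values₁ {B : Rep k H} (hB : 𝓛.IsDiscrete B) {f : H → B}
    (hf : 𝓛.IsConst₁ f) : ∃ N ∈ 𝓛.levels, N.Normal ∧ (∀ g s, s ∈ N → f (g * s) = f g) ∧
      ∀ n ∈ N, ∀ g, B.ρ n (f g) = f g := by
  obtain ⟨N₂, h₂, hfix⟩ := exists_level_fixing_finite 𝓛 hB (finite_range_of_isConst₁ hf)
  obtain ⟨N₁, h₁, hc⟩ := hf
  obtain ⟨N, hN, hn, hle₁, hle₂⟩ := exists_normal_le_inf 𝓛 h₁ h₂
  exact ⟨N, hN, hn, fun g s hs => hc g s (hle₁ hs), fun n hn g => hfix n (hle₂ hn) _ ⟨g, rfl⟩⟩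

lemma exists_level_fixing_values₂ {B : Rep k H} (hB : 𝓛.IsDiscrete B) {f : H × H → B}
    (hf : 𝓛.IsConst₂ f) : ∃ N ∈ 𝓛.levels, N.Normal ∧
      (∀ g g' s s', s ∈ N → s' ∈ N → f (g * s, g' * s') = f (g, g')) ∧
      ∀ n ∈ N, ∀ x, B.ρ n (f x) = f x := by
  obtain ⟨N₂, h₂, hfix⟩ := exists_level_fixing_finite 𝓛 hB (finite_range_of_isConst₂ hf)
  obtain ⟨N₁, h₁, hc⟩ := hf
  obtain ⟨N, hN, hn, hle₁, hle₂⟩ := exists_normal_le_inf 𝓛 h₁ h₂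
  exact ⟨N, hN, hn, fun g g' s s' hs hs' => hc g g' s s' (hle₁ hs) (hle₁ hs'),
    fun n hn x => hfix n (hle₂ hn) _ ⟨x, rfl⟩⟩

/-! ### Level-constancy of the cup products -/

variable {A B C : Rep k H} (φ : EqPairing A B C)

lemma isConst₁_cup₀₁ (a : A) {f : H → B} (hf : 𝓛.IsConst₁ f) : 𝓛.IsConst₁ (φ.cup₀₁ a f) :=
  hf.comp (fun b => φ.pr a b)

lemma isConst₂_cup₀₂ (a : A) {f : H × H → B} (hf : 𝓛.IsConst₂ f) :
    𝓛.IsConst₂ (φ.cup₀₂ a f) :=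
  hf.comp (fun b => φ.pr a b)

lemma isConst₃_cup₀₃ (a : A) {f : H × H × H → B} (hf : 𝓛.IsConst₃ f) :
    𝓛.IsConst₃ (φ.cup₀₃ a f) :=
  hf.comp (fun b => φ.pr a b)

lemma isConst₁_cup₁₀ {f : H → A} (hf : 𝓛.IsConst₁ f) {b : B}
    (hb : ∃ N ∈ 𝓛.levels, ∀ n ∈ N, B.ρ n b = b) : 𝓛.IsConst₁ (φ.cup₁₀ f b) := by
  obtain ⟨N₁, h₁, hc⟩ := hf
  obtain ⟨N₂, h₂, hfix⟩ := hb
  obtain ⟨N, hN, hle⟩ := 𝓛.directed N₁ h₁ N₂ h₂
  refine ⟨N, hN, fun g s hs => ?_⟩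
  simp only [EqPairing.cup₁₀_apply, map_mul, Module.End.mul_apply]
  rw [hc g s (hle hs).1, hfix s (hle hs).2]

lemma isConst₂_cup₂₀ {f : H × H → A} (hf : 𝓛.IsConst₂ f) {b : B}
    (hb : ∃ N ∈ 𝓛.levels, ∀ n ∈ N, B.ρ n b = b) : 𝓛.IsConst₂ (φ.cup₂₀ f b) := by
  obtain ⟨N₁, h₁, hc⟩ := hf
  obtain ⟨N₂, h₂, hfix⟩ := hb
  obtain ⟨N, hN, hn, hle₁, hle₂⟩ := exists_normal_le_inf 𝓛 h₁ h₂
  refine ⟨N, hN, fun g g' s s' hs hs' => ?_⟩
  simp only [EqPairing.cup₂₀_apply]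
  rw [hc g g' s s' (hle₁ hs) (hle₁ hs')]
  have e : g * s * (g' * s') = g * g' * (g'⁻¹ * s * g' * s') := by group
  have hmem : g'⁻¹ * s * g' * s' ∈ N := by
    refine N.mul_mem ?_ hs'
    have := hn.conj_mem s hs g'⁻¹
    simpa using this
  rw [e, map_mul, Module.End.mul_apply, hfix _ (hle₂ hmem)]

lemma isConst₂_cup₁₁ (hB : 𝓛.IsDiscrete B) {f : H → A} (hf : 𝓛.IsConst₁ f) {f' : H → B}
    (hf' : 𝓛.IsConst₁ f') : 𝓛.IsConst₂ (φ.cup₁₁ f f') := by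
  obtain ⟨N₁, h₁, hc⟩ := hf
  obtain ⟨N₂, h₂, -, hc', hfix⟩ := exists_level_fixing_values₁ hB hf'
  obtain ⟨N, hN, hle⟩ := 𝓛.directed N₁ h₁ N₂ h₂
  refine ⟨N, hN, fun g g' s s' hs hs' => ?_⟩
  simp only [EqPairing.cup₁₁_apply, map_mul, Module.End.mul_apply]
  rw [hc g s (hle hs).1, hc' g' s' (hle hs').2, hfix s (hle hs).2]

lemma isConst₃_cup₁₂ (hB : 𝓛.IsDiscrete B) {f : H → A} (hf : 𝓛.IsConst₁ f) {f' : H × H → B}
    (hf' : 𝓛.IsConst₂ f') : 𝓛.IsConst₃ (φ.cup₁₂ f f') := by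
  obtain ⟨N₁, h₁, hc⟩ := hf
  obtain ⟨N₂, h₂, -, hc', hfix⟩ := exists_level_fixing_values₂ hB hf'
  obtain ⟨N, hN, hle⟩ := 𝓛.directed N₁ h₁ N₂ h₂
  refine ⟨N, hN, fun g g' g'' s s' s'' hs hs' hs'' => ?_⟩
  simp only [EqPairing.cup₁₂_apply, map_mul, Module.End.mul_apply]
  rw [hc g s (hle hs).1, hc' g' g'' s' s'' (hle hs').2 (hle hs'').2, hfix s (hle hs).2]

lemma isConst₃_cup₂₁ (hB : 𝓛.IsDiscrete B) {f : H × H → A} (hf : 𝓛.IsConst₂ f) {f' : H → B}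
    (hf' : 𝓛.IsConst₁ f') : 𝓛.IsConst₃ (φ.cup₂₁ f f') := by
  obtain ⟨N₁, h₁, hc⟩ := hf
  obtain ⟨N₂, h₂, hn₂, hc', hfix⟩ := exists_level_fixing_values₁ hB hf'
  obtain ⟨N, hN, hn, hle₁, hle₂⟩ := exists_normal_le_inf 𝓛 h₁ h₂
  refine ⟨N, hN, fun g g' g'' s s' s'' hs hs' hs'' => ?_⟩
  simp only [EqPairing.cup₂₁_apply]
  rw [hc g g' s s' (hle₁ hs) (hle₁ hs'), hc' g'' s'' (hle₂ hs'')]
  have e : g * s * (g' * s') = g * g' * (g'⁻¹ * s * g' * s') := by group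
  have hmem : g'⁻¹ * s * g' * s' ∈ N := by
    refine N.mul_mem ?_ hs'
    have := hn.conj_mem s hs g'⁻¹
    simpa using this
  rw [e, map_mul, Module.End.mul_apply, hfix _ (hle₂ hmem)]

end Fermat.Agent.CFT.H74
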