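import Mathlib

/-!
# Unipotent dévissage for mod `p` representations

`G` a group acting `ZMod p`-linearly on a finite-dimensional space `V` such that every element
acts with `p`-power order (e.g. the action factors through a finite `p`-group).  Then

* `exists_fixed_ne_zero` : if `V ≠ 0` there is a nonzero `G`-fixed vector;
* `unipotent_induction` : a property of representations which holds for the zero space, for
  lines with trivial action, and which is inherited by extensions
  (`P (sub) → P (quotient) → P (total)`) holds for `V`.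

This is the formal part of the argument "`T³(X) = 0` after restriction to the preimage of a
`p`-Sylow subgroup" in the proof of Milne ADT I.1.8 (layer D1 of the CFT project), and is stated
for unbundled `Representation`s so that it is independent of the cohomological vocabulary.
-/

set_option autoImplicit false

namespace Fermat.Agent.CFT.H86

open Representation

universe u

variable {p : ℕ} [Fact p.Prime] {G : Type*} [Group G]

/-- Every element of `G` acts on `V` with `p`-power order. -/
def ActsWithPPowerOrder (p : ℕ) {G V : Type*} [Group G] [AddCommGroup V] [Module (ZMod p) V]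
    (ρ : Representation (ZMod p) G V) : Prop :=
  ∀ g : G, ∃ n : ℕ, ρ (g ^ p ^ n) = 1

/-- If a normal subgroup `N` acts trivially and `G ⧸ N` is a `p`-group, every element acts with
`p`-power order. -/
theorem actsWithPPowerOrder_of_quotient {V : Type*} [AddCommGroup V] [Module (ZMod p) V]
    (ρ : Representation (ZMod p) G V) (N : Subgroup G) [N.Normal] (hN : ∀ g ∈ N, ρ g = 1)
    (hQ : IsPGroup p (G ⧸ N)) : ActsWithPPowerOrder p ρ := by
  intro g
  obtain ⟨n, hn⟩ := hQ (g : G ⧸ N)
  refine ⟨n, hN _ ?_⟩
  rw [← QuotientGroup.eq_one_iff, QuotientGroup.mk_pow]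
  exact hn

/-- If every element of `G` has `p`-power order modulo a subgroup acting trivially, every element
acts with `p`-power order (no normality needed). -/
theorem actsWithPPowerOrder_of_forall_pow_mem {V : Type*} [AddCommGroup V] [Module (ZMod p) V]
    (ρ : Representation (ZMod p) G V) (N : Subgroup G) (hN : ∀ g ∈ N, ρ g = 1)
    (h : ∀ g : G, ∃ n : ℕ, g ^ p ^ n ∈ N) : ActsWithPPowerOrder p ρ := by
  intro g
  obtain ⟨n, hn⟩ := h g
  exact ⟨n, hN _ hn⟩

theorem ActsWithPPowerOrder.subrepresentation {V : Type*} [AddCommGroup V] [Module (ZMod p) V]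
    {ρ : Representation (ZMod p) G V} (hρ : ActsWithPPowerOrder p ρ) (W : Submodule (ZMod p) V)
    (hW : ∀ g, W ≤ W.comap (ρ g)) : ActsWithPPowerOrder p (ρ.subrepresentation W hW) := by
  intro g
  obtain ⟨n, hn⟩ := hρ g
  refine ⟨n, ?_⟩
  ext ⟨x, hx⟩
  simp [hn]

theorem ActsWithPPowerOrder.quotient {V : Type*} [AddCommGroup V] [Module (ZMod p) V]
    {ρ : Representation (ZMod p) G V} (hρ : ActsWithPPowerOrder p ρ) (W : Submodule (ZMod p) V)
    (hW : ∀ g, W ≤ W.comap (ρ g)) : ActsWithPPowerOrder p (ρ.quotient W hW) := by
  intro g
  obtain ⟨n, hn⟩ := hρ g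
  refine ⟨n, ?_⟩
  ext x
  simp [hn]

/-- A group all of whose elements act with `p`-power order on a nonzero finite-dimensional
`ZMod p`-space has a nonzero fixed vector. -/
theorem exists_fixed_ne_zero {V : Type*} [AddCommGroup V] [Module (ZMod p) V]
    [FiniteDimensional (ZMod p) V] [Nontrivial V] (ρ : Representation (ZMod p) G V)
    (hρ : ActsWithPPowerOrder p ρ) : ∃ v : V, v ≠ 0 ∧ ∀ g, ρ g v = v := by
  classical
  have : Finite V := Module.finite_of_finite (ZMod p)
  -- the image of `G` in the units of `End V` is a `p`-group
  set R : Subgroup (V →ₗ[ZMod p] V)ˣ := (asGroupHom ρ).range with hR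
  have hRp : IsPGroup p R := by
    rintro ⟨x, g, rfl⟩
    obtain ⟨n, hn⟩ := hρ g
    refine ⟨n, ?_⟩
    apply Subtype.ext
    apply Units.ext
    simp only [SubgroupClass.coe_pow, Units.val_pow_eq_pow_val, asGroupHom_apply,
      OneMemClass.coe_one, Units.val_one]
    rw [← map_pow, hn]
  -- `p` divides the cardinality of `V`
  have hcard : p ∣ Nat.card V := by
    have h1 : Nat.card V = p ^ Module.finrank (ZMod p) V := by
      rw [Module.natCard_eq_pow_finrank (K := ZMod p) (V := V), Nat.card_zmod]
    rw [h1]
    exact dvd_pow_self p (Module.finrank_pos (R := ZMod p) (M := V)).ne'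
  have h0 : (0 : V) ∈ MulAction.fixedPoints R V := by
    intro r
    change ((r : (V →ₗ[ZMod p] V)ˣ) : V →ₗ[ZMod p] V) 0 = 0
    simp
  obtain ⟨v, hv, hne⟩ := hRp.exists_fixed_point_of_prime_dvd_card_of_fixed_point V hcard h0
  refine ⟨v, fun h => hne h.symm, fun g => ?_⟩
  have := hv ⟨asGroupHom ρ g, g, rfl⟩
  change ((asGroupHom ρ g : (V →ₗ[ZMod p] V)ˣ) : V →ₗ[ZMod p] V) v = v at this
  rwa [asGroupHom_apply] at this

/-- **Unipotent dévissage.**  Let `P` be a property of `ZMod p`-representations of `G` (on types
of a fixed universe) such that `P` holds for subsingleton spaces, for one-dimensional spaces with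
trivial action, and `P (sub) → P (quotient) → P (total)` for every invariant subspace.  Then `P`
holds for every finite-dimensional representation on which all elements act with `p`-power
order. -/
theorem unipotent_induction
    (P : ∀ (V : Type u) [AddCommGroup V] [Module (ZMod p) V], Representation (ZMod p) G V → Prop)
    (hzero : ∀ (V : Type u) [AddCommGroup V] [Module (ZMod p) V] [Subsingleton V]
      (ρ : Representation (ZMod p) G V), P V ρ)
    (hline : ∀ (V : Type u) [AddCommGroup V] [Module (ZMod p) V]
      (ρ : Representation (ZMod p) G V), Module.finrank (ZMod p) V = 1 → (∀ g, ρ g = 1) → P V ρ)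
    (hext : ∀ (V : Type u) [AddCommGroup V] [Module (ZMod p) V]
      (ρ : Representation (ZMod p) G V) (W : Submodule (ZMod p) V)
      (hW : ∀ g, W ≤ W.comap (ρ g)),
      P W (ρ.subrepresentation W hW) → P (V ⧸ W) (ρ.quotient W hW) → P V ρ)
    (V : Type u) [AddCommGroup V] [Module (ZMod p) V] [FiniteDimensional (ZMod p) V]
    (ρ : Representation (ZMod p) G V) (hρ : ActsWithPPowerOrder p ρ) : P V ρ := by
  -- strong induction on the dimension
  suffices H : ∀ (n : ℕ) (V : Type u) [AddCommGroup V] [Module (ZMod p) V]
      [FiniteDimensional (ZMod p) V] (ρ : Representation (ZMod p) G V),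
      ActsWithPPowerOrder p ρ → Module.finrank (ZMod p) V = n → P V ρ from
    H _ V ρ hρ rfl
  intro n
  induction n using Nat.strong_induction_on with
  | _ n ih =>
    intro V _ _ _ ρ hρ hn
    rcases subsingleton_or_nontrivial V with hV | hV
    · exact hzero V ρ
    · obtain ⟨v, hv0, hv⟩ := exists_fixed_ne_zero ρ hρ
      set W : Submodule (ZMod p) V := Submodule.span (ZMod p) {v} with hWdef
      have hW : ∀ g, W ≤ W.comap (ρ g) := by
        intro g x hx
        rw [Submodule.mem_comap]
        rw [hWdef, Submodule.mem_span_singleton] at hx ⊢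
        obtain ⟨c, rfl⟩ := hx
        exact ⟨c, by rw [map_smul, hv g]⟩
      have hWrank : Module.finrank (ZMod p) W = 1 := finrank_span_singleton hv0
      refine hext V ρ W hW ?_ ?_
      · refine hline W _ hWrank fun g => ?_
        ext ⟨x, hx⟩
        rw [hWdef, Submodule.mem_span_singleton] at hx
        obtain ⟨c, rfl⟩ := hx
        simp [hv g]
      · have hlt : Module.finrank (ZMod p) (V ⧸ W) < n := by
          have := Submodule.finrank_quotient_add_finrank W
          omega
        exact ih _ hlt (V ⧸ W) (ρ.quotient W hW) (hρ.quotient W hW) rfl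

end Fermat.Agent.CFT.H86
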