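import Mathlib
import Fermat.Agent.CFT.H55_LevelDefs
import Fermat.Agent.CFT.H50_LevelRes
import Fermat.Agent.CFT.H74_CupLevel
import Fermat.Agent.CFT.H86_Unipotent

/-!
# CFT layer D1, package D1-T3: `T³(X) = H²(H; Hom(X, W)) = 0`

Vocabulary: `LevelStructure` / level cohomology of `H55_LevelDefs`, functoriality `mapH2` of
`H50_LevelRes`.

* `exact_mapH2`: middle exactness of level `H²` for a short exact sequence of coefficient
  modules (elementary; no long exact sequence needed);
* `subsingleton_H2_of_equiv`, `subsingleton_H2_of_subsingleton`;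
* `homRep ρ W`: the representation on `V →ₗ W`, its short exact sequence for an invariant subspace;
* `subsingleton_H2_homRep_of_unipotent`: unipotent dévissage;
* `exists_sylow_open`: the preimage of a `p`-Sylow subgroup of a finite quotient;
* `subsingleton_T3`: the main statement.
-/

set_option autoImplicit false

universe u

open CategoryTheory groupCohomology

namespace Fermat.Agent.CFT.H89

open Fermat.Agent.CFT LevelStructure Fermat.Agent.CFT.H50

section General

variable {k : Type u} [CommRing k] {H : Type u} [Group H] (𝓛 : LevelStructure H)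

/-- `d₁₂` of a level-constant `1`-cochain with values in a discrete module is level-constant. -/
lemma isConst₂_d₁₂ {B : Rep.{u} k H} (hB : 𝓛.IsDiscrete B) {b : H → B.V} (hb : 𝓛.IsConst₁ b) :
    𝓛.IsConst₂ ((d₁₂ B).hom b) := by
  obtain ⟨N, hN, hnor, hc, hfix⟩ := H74.exists_level_fixing_values₁ hB hb
  refine ⟨N, hN, fun g g' s s' hs hs' => ?_⟩
  simp only [d₁₂_hom_apply]
  have e1 : b (g' * s') = b g' := hc g' s' hs'
  have e2 : b (g * s) = b g := hc g s hs
  have e3 : b (g * s * (g' * s')) = b (g * g') := by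
    have hmem : g'⁻¹ * s * g' * s' ∈ N := by
      refine N.mul_mem ?_ hs'
      have := hnor.conj_mem s hs g'⁻¹
      simpa [mul_assoc] using this
    have : g * s * (g' * s') = g * g' * (g'⁻¹ * s * g' * s') := by group
    rw [this]
    exact hc _ _ hmem
  rw [e1, e2, e3, map_mul]
  have e4 : B.ρ s (b g') = b g' := hfix s hs g'
  simp only [Module.End.mul_apply, e4]


/-- **Middle exactness of level `H²`** for a short exact sequence `A → B → C` of coefficient
modules (`B` discrete, `α` injective, `β` surjective, `ker β ⊆ range α`). -/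
theorem exact_mapH2 {A B C : Rep.{u} k H} {α : A.V →ₗ[k] B.V} {β : B.V →ₗ[k] C.V}
    (hα : IsEquivariant (MonoidHom.id H) A B α) (hβ : IsEquivariant (MonoidHom.id H) B C β)
    (hB : 𝓛.IsDiscrete B) (hinj : Function.Injective α) (hsurj : Function.Surjective β)
    (hex : ∀ b : B.V, β b = 0 → ∃ a : A.V, α a = b)
    (x : 𝓛.H2 B) (hx : mapH2 𝓛 𝓛 (isCont_id 𝓛) hβ x = 0) :
    ∃ y : 𝓛.H2 A, mapH2 𝓛 𝓛 (isCont_id 𝓛) hα y = x := by
  induction x using Submodule.Quotient.induction_on with
  | H f =>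
    -- `β ∘ f` is a level coboundary
    have h0 : 𝓛.H2π C (mapZ2 𝓛 𝓛 (isCont_id 𝓛) hβ f) = 0 := hx
    rw [Submodule.mkQ_apply, Submodule.Quotient.mk_eq_zero, Submodule.mem_comap,
      Submodule.subtype_apply, mapZ2_coe] at h0
    obtain ⟨c, hc, hdc⟩ := h0
    have hc' : 𝓛.IsConst₁ c := hc
    -- lift `c` through a set-theoretic section of `β`
    set s : C.V → B.V := Function.surjInv hsurj with hs
    have hβs : ∀ z, β (s z) = z := Function.surjInv_eq hsurj
    set b : H → B.V := s ∘ c with hbdef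
    have hb : 𝓛.IsConst₁ b := hc'.comp s
    have hdb : 𝓛.IsConst₂ ((d₁₂ B).hom b) := isConst₂_d₁₂ 𝓛 hB hb
    have hf2 : (f : H × H → B.V) ∈ groupCohomology.cocycles₂ B := f.2.1
    have hfc : 𝓛.IsConst₂ (f : H × H → B.V) := f.2.2
    -- the corrected cocycle
    set f' : H × H → B.V := (f : H × H → B.V) - (d₁₂ B).hom b with hf'def
    have hf'coc : f' ∈ groupCohomology.cocycles₂ B :=
      Submodule.sub_mem _ hf2 (d₁₂_apply_mem_cocycles₂ b)
    have hf'c : 𝓛.IsConst₂ f' := by
      have : 𝓛.IsConst₂ (fun x => -((d₁₂ B).hom b) x) := hdb.comp (fun z => -z)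
      have h2 := hfc.add this
      have e : f' = (f : H × H → B.V) + fun x => -((d₁₂ B).hom b) x := by
        rw [hf'def]; ext x; simp [sub_eq_add_neg]
      rw [e]; exact h2
    -- `β ∘ f' = 0`
    have hβf' : ∀ x, β (f' x) = 0 := by
      intro x
      have e1 : pull₂ (MonoidHom.id H) β ((d₁₂ B).hom b) = (d₁₂ C).hom (pull₁ (MonoidHom.id H) β b) :=
        (d₁₂_pull hβ b).symm
      have e2 : pull₁ (MonoidHom.id H) β b = c := by
        ext g; simp [hbdef, hβs]
      have e3 : β (((d₁₂ B).hom b) x) = ((d₁₂ C).hom c) x := by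
        have := congrFun e1 x
        rw [e2] at this
        simpa using this
      have e4 : β ((f : H × H → B.V) x) = ((d₁₂ C).hom c) x := by
        have := congrFun hdc x
        simpa using this.symm
      rw [hf'def, Pi.sub_apply, map_sub, e3, e4, sub_self]
    -- descend to `A`
    choose a ha using fun x => hex (f' x) (hβf' x)
    have haf : pull₂ (MonoidHom.id H) α a = f' := by
      ext x; simp [ha]
    have hac : 𝓛.IsConst₂ a := by
      obtain ⟨N, hN, hNc⟩ := hf'c
      refine ⟨N, hN, fun g g' s s' hs hs' => hinj ?_⟩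
      rw [ha, ha]; exact hNc g g' s s' hs hs'
    have hacoc : a ∈ groupCohomology.cocycles₂ A := by
      change (d₂₃ A).hom a = 0
      have h1 : (d₂₃ B).hom (pull₂ (MonoidHom.id H) α a) =
          pull₃ (MonoidHom.id H) α ((d₂₃ A).hom a) := d₂₃_pull hα a
      rw [haf] at h1
      have h2 : (d₂₃ B).hom f' = 0 := hf'coc
      rw [h2] at h1
      funext x
      apply hinj
      have := congrFun h1 x
      simp only [pull₃_apply, MonoidHom.id_apply] at this
      rw [Pi.zero_apply, map_zero]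
      exact this.symm
    refine ⟨𝓛.H2π A ⟨a, hacoc, hac⟩, ?_⟩
    rw [mapH2_mk]
    -- the difference is the level coboundary `d b`
    change Submodule.Quotient.mk _ = Submodule.Quotient.mk _
    rw [Submodule.Quotient.eq, Submodule.mem_comap, Submodule.subtype_apply]
    refine ⟨-b, Submodule.neg_mem _ hb, ?_⟩
    rw [map_neg]
    funext x
    simp only [Submodule.coe_sub, mapZ2_coe, haf, hf'def, Pi.sub_apply, Pi.neg_apply]
    abel

/-- Level `H²` of a module with subsingleton underlying space is trivial. -/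
theorem subsingleton_H2_of_subsingleton {A : Rep.{u} k H} [Subsingleton A.V] :
    Subsingleton (𝓛.H2 A) := by
  refine ⟨fun x y => ?_⟩
  induction x using Submodule.Quotient.induction_on with
  | H f =>
    induction y using Submodule.Quotient.induction_on with
    | H f' =>
      have : f = f' := by
        apply Subtype.ext
        funext x
        exact Subsingleton.elim _ _
      rw [this]

/-- Transport of the vanishing of level `H²` along an equivariant bijection of coefficients. -/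
theorem subsingleton_H2_of_equiv {A B : Rep.{u} k H} (e : A.V ≃ₗ[k] B.V)
    (he : IsEquivariant (MonoidHom.id H) A B (e : A.V →ₗ[k] B.V))
    (hB : Subsingleton (𝓛.H2 B)) : Subsingleton (𝓛.H2 A) := by
  have hesymm : IsEquivariant (MonoidHom.id H) B A (e.symm : B.V →ₗ[k] A.V) := by
    intro g b
    apply e.injective
    have := he g (e.symm b)
    simp only [LinearEquiv.coe_coe, LinearEquiv.apply_symm_apply] at this ⊢
    exact this.symm
  refine ⟨fun x y => ?_⟩
  suffices h : ∀ z : 𝓛.H2 A, z = 0 by rw [h x, h y]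
  intro z
  induction z using Submodule.Quotient.induction_on with
  | H f =>
    have h0 : 𝓛.H2π B (mapZ2 𝓛 𝓛 (isCont_id 𝓛) he f) = 0 := Subsingleton.elim _ _
    rw [Submodule.mkQ_apply, Submodule.Quotient.mk_eq_zero, Submodule.mem_comap,
      Submodule.subtype_apply, mapZ2_coe] at h0
    obtain ⟨c, hc, hdc⟩ := h0
    have hc' : 𝓛.IsConst₁ c := hc
    rw [Submodule.Quotient.mk_eq_zero, Submodule.mem_comap, Submodule.subtype_apply]
    refine ⟨pull₁ (MonoidHom.id H) (e.symm : B.V →ₗ[k] A.V) c,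
      isConst₁_pull (isCont_id 𝓛) _ hc', ?_⟩
    rw [d₁₂_pull hesymm c, hdc]
    ext x
    simp


/-! ### The representation on `Hom(V, W)` -/

/-- The representation of `H` on `V →ₗ[k] W` for an unbundled representation `ρ` on `V`:
`(g • f) = W.ρ g ∘ f ∘ ρ g⁻¹`. For `V = X.V`, `ρ = X.ρ` this is `(Rep.ihom X).obj W`. -/
noncomputable abbrev homRep {V : Type u} [AddCommGroup V] [Module k V]
    (ρ : Representation k H V) (W : Rep.{u} k H) : Rep.{u} k H :=
  Rep.of (Representation.linHom ρ W.ρ)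

lemma homRep_ρ_apply {V : Type u} [AddCommGroup V] [Module k V]
    (ρ : Representation k H V) (W : Rep.{u} k H) (g : H) (f : V →ₗ[k] W.V) (v : V) :
    (homRep ρ W).ρ g f v = W.ρ g (f (ρ g⁻¹ v)) := by
  simp [homRep, Representation.linHom_apply]

lemma ihom_eq_homRep (X W : Rep.{u} k H) : (Rep.ihom X).obj W = homRep X.ρ W := rfl

variable {V : Type u} [AddCommGroup V] [Module k V] (ρ : Representation k H V)
  (W : Rep.{u} k H)

/-- precomposition with the quotient map: `Hom(V ⧸ S, W) → Hom(V, W)` -/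
noncomputable def homQuotMap (S : Submodule k V) :
    ((V ⧸ S) →ₗ[k] W.V) →ₗ[k] (V →ₗ[k] W.V) :=
  LinearMap.lcomp k W.V S.mkQ

/-- precomposition with the inclusion: `Hom(V, W) → Hom(S, W)` -/
noncomputable def homSubMap (S : Submodule k V) :
    (V →ₗ[k] W.V) →ₗ[k] (S →ₗ[k] W.V) :=
  LinearMap.lcomp k W.V S.subtype

lemma isEquivariant_homQuotMap (S : Submodule k V) (hS : ∀ g, S ≤ S.comap (ρ g)) :
    IsEquivariant (MonoidHom.id H) (homRep (ρ.quotient S hS) W) (homRep ρ W)
      (homQuotMap W S) := by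
  intro g f
  apply LinearMap.ext
  intro v
  simp only [MonoidHom.id_apply]
  rw [homRep_ρ_apply]
  simp only [homQuotMap, LinearMap.lcomp_apply]
  rw [homRep_ρ_apply]
  simp

lemma isEquivariant_homSubMap (S : Submodule k V) (hS : ∀ g, S ≤ S.comap (ρ g)) :
    IsEquivariant (MonoidHom.id H) (homRep ρ W) (homRep (ρ.subrepresentation S hS) W)
      (homSubMap W S) := by
  intro g f
  apply LinearMap.ext
  intro v
  simp only [MonoidHom.id_apply]
  rw [homRep_ρ_apply]
  simp only [homSubMap, LinearMap.lcomp_apply]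
  rw [homRep_ρ_apply]
  simp

lemma homQuotMap_injective (S : Submodule k V) : Function.Injective (homQuotMap W S) := by
  intro f f' h
  apply LinearMap.ext
  intro x
  induction x using Submodule.Quotient.induction_on with
  | H v =>
    have := LinearMap.congr_fun h v
    simpa [homQuotMap] using this

lemma exists_homQuotMap_eq (S : Submodule k V) (f : V →ₗ[k] W.V) (hf : homSubMap W S f = 0) :
    ∃ f' : (V ⧸ S) →ₗ[k] W.V, homQuotMap W S f' = f := by
  have hle : S ≤ LinearMap.ker f := by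
    intro v hv
    have := LinearMap.congr_fun hf ⟨v, hv⟩
    simpa [homSubMap] using this
  refine ⟨S.liftQ f hle, ?_⟩
  apply LinearMap.ext
  intro v
  simp [homQuotMap]

end General

section Field

variable {k : Type u} [Field k] {H : Type u} [Group H] (𝓛 : LevelStructure H)
variable {V : Type u} [AddCommGroup V] [Module k V] (W : Rep.{u} k H)

lemma homSubMap_surjective (S : Submodule k V) : Function.Surjective (homSubMap W S) := by
  intro f
  obtain ⟨f', hf'⟩ := LinearMap.exists_extend f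
  refine ⟨f', ?_⟩
  rw [← hf']
  rfl

/-- `Hom(V, W)` is discrete when a level acts trivially on the finitely generated `V` and `W` is
discrete. -/
lemma isDiscrete_homRep [Module.Finite k V] (ρ : Representation k H V)
    (hρ : ∃ N ∈ 𝓛.levels, ∀ n ∈ N, ρ n = 1) (hW : 𝓛.IsDiscrete W) :
    𝓛.IsDiscrete (homRep ρ W) := by
  intro f
  obtain ⟨N₁, hN₁, h₁⟩ := hρ
  obtain ⟨t, ht⟩ := (Module.Finite.fg_top : (⊤ : Submodule k V).FG)
  -- a level fixing the finitely many values `f v`, `v ∈ t`
  have hfin : ((fun v : V => (f : V →ₗ[k] W.V) v) '' (t : Set V)).Finite := t.finite_toSet.image _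
  obtain ⟨N₂, hN₂, h₂⟩ := H74.exists_level_fixing_finite 𝓛 hW hfin
  obtain ⟨N, hN, hle⟩ := 𝓛.directed N₁ hN₁ N₂ hN₂
  refine ⟨N, hN, fun n hn => ?_⟩
  have hn1 : n⁻¹ ∈ N₁ := N₁.inv_mem (hle hn).1
  have hn2 : n ∈ N₂ := (hle hn).2
  -- the two maps agree on the spanning set `t`
  have key : ∀ v ∈ (t : Set V), ((homRep ρ W).ρ n f : V →ₗ[k] W.V) v = (f : V →ₗ[k] W.V) v := by
    intro v hv
    rw [homRep_ρ_apply, h₁ _ hn1]
    exact h₂ n hn2 _ ⟨v, hv, rfl⟩
  apply LinearMap.ext_on_range (v := fun x : (t : Set V) => (x : V))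
  · rw [Subtype.range_coe]; exact ht
  · intro x; exact key x x.2

end Field

section General'

variable {k : Type u} [CommRing k] {H : Type u} [Group H] (𝓛 : LevelStructure H)

end General'

section Unipotent

variable {p : ℕ} [Fact p.Prime] {H : Type} [Group H] (𝓛 : LevelStructure H)
  (W : Rep.{0} (ZMod p) H)

/-- `Hom(V, W) ≅ W` for a line `V` with trivial action. -/
lemma subsingleton_H2_homRep_of_line (hW2 : Subsingleton (𝓛.H2 W))
    (V : Type) [AddCommGroup V] [Module (ZMod p) V] (ρ : Representation (ZMod p) H V)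
    (hrank : Module.finrank (ZMod p) V = 1) (htriv : ∀ g, ρ g = 1) :
    Subsingleton (𝓛.H2 (homRep ρ W)) := by
  set b : Module.Basis Unit (ZMod p) V := Module.basisUnique Unit hrank with hb
  set e : (V →ₗ[ZMod p] W.V) ≃ₗ[ZMod p] W.V :=
    (b.constr (ZMod p)).symm ≪≫ₗ LinearEquiv.funUnique Unit (ZMod p) W.V with he
  have hev : ∀ f : V →ₗ[ZMod p] W.V, e f = f (b ()) := fun f => rfl
  refine subsingleton_H2_of_equiv 𝓛 (A := homRep ρ W) (B := W) e ?_ hW2
  intro g f
  simp only [MonoidHom.id_apply, LinearEquiv.coe_coe]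
  rw [hev, hev, homRep_ρ_apply, htriv]
  rfl

/-- **Unipotent dévissage**: if `H²(𝓛; W) = 0` then `H²(𝓛; Hom(V, W)) = 0` for every
finite-dimensional `V` on which a level acts trivially and every element acts with `p`-power
order. -/
theorem subsingleton_H2_homRep_of_unipotent (hW : 𝓛.IsDiscrete W)
    (hW2 : Subsingleton (𝓛.H2 W))
    (V : Type) [AddCommGroup V] [Module (ZMod p) V] [FiniteDimensional (ZMod p) V]
    (ρ : Representation (ZMod p) H V) (hρN : ∃ N ∈ 𝓛.levels, ∀ n ∈ N, ρ n = 1)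
    (hρ : H86.ActsWithPPowerOrder p ρ) :
    Subsingleton (𝓛.H2 (homRep ρ W)) := by
  have key := H86.unipotent_induction (p := p) (G := H)
    (P := fun V _ _ ρ => FiniteDimensional (ZMod p) V → (∃ N ∈ 𝓛.levels, ∀ n ∈ N, ρ n = 1) →
      Subsingleton (𝓛.H2 (homRep ρ W)))
    ?_ ?_ ?_ V ρ hρ
  · exact key inferInstance hρN
  · -- zero space
    intro V _ _ _ ρ _ _
    have : Subsingleton (homRep ρ W).V :=
      (inferInstance : Subsingleton (V →ₗ[ZMod p] W.V))
    exact subsingleton_H2_of_subsingleton 𝓛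
  · -- trivial line
    intro V _ _ ρ hrank htriv _ _
    exact subsingleton_H2_homRep_of_line 𝓛 W hW2 V ρ hrank htriv
  · -- extensions
    intro V _ _ ρ S hS hsub hquot hfd hN
    have := hfd
    have hNsub : ∃ N ∈ 𝓛.levels, ∀ n ∈ N, ρ.subrepresentation S hS n = 1 := by
      obtain ⟨N, hN1, hN2⟩ := hN
      refine ⟨N, hN1, fun n hn => ?_⟩
      ext ⟨x, hx⟩
      simp [hN2 n hn]
    have hNquot : ∃ N ∈ 𝓛.levels, ∀ n ∈ N, ρ.quotient S hS n = 1 := by
      obtain ⟨N, hN1, hN2⟩ := hN
      refine ⟨N, hN1, fun n hn => ?_⟩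
      ext x
      simp [hN2 n hn]
    have h1 := hsub inferInstance hNsub
    have h2 := hquot inferInstance hNquot
    have hdisc : 𝓛.IsDiscrete (homRep ρ W) := isDiscrete_homRep 𝓛 W ρ hN hW
    refine ⟨fun x y => ?_⟩
    suffices h : ∀ z : 𝓛.H2 (homRep ρ W), z = 0 by rw [h x, h y]
    intro z
    have hz : mapH2 𝓛 𝓛 (isCont_id 𝓛) (isEquivariant_homSubMap ρ W S hS) z = 0 :=
      Subsingleton.elim _ _
    obtain ⟨y, hy⟩ := exact_mapH2 𝓛 (isEquivariant_homQuotMap ρ W S hS)
      (isEquivariant_homSubMap ρ W S hS) hdisc (homQuotMap_injective W S)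
      (homSubMap_surjective W S) (exists_homQuotMap_eq W S) z hz
    rw [← hy, Subsingleton.elim y 0, map_zero]

/-- A finitely generated discrete module is acted on trivially by some normal level. -/
lemma exists_normal_level_acting_trivially (X : Rep.{0} (ZMod p) H) [Module.Finite (ZMod p) X.V]
    (hX : 𝓛.IsDiscrete X) : ∃ N ∈ 𝓛.levels, N.Normal ∧ ∀ n ∈ N, X.ρ n = 1 := by
  obtain ⟨t, ht⟩ := (Module.Finite.fg_top : (⊤ : Submodule (ZMod p) X.V).FG)
  obtain ⟨N₁, hN₁, h₁⟩ := H74.exists_level_fixing_finite 𝓛 hX t.finite_toSet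
  obtain ⟨N, hN, hle, hnor⟩ := 𝓛.exists_normal N₁ hN₁
  refine ⟨N, hN, hnor, fun n hn => ?_⟩
  apply LinearMap.ext_on_range (v := fun x : (t : Set X.V) => (x : X.V))
  · rw [Subtype.range_coe]; exact ht
  · intro x
    simpa using h₁ n (hle hn) x x.2

/-- The preimage `U` of a `p`-Sylow subgroup of `H ⧸ N₀`, `N₀` a normal level acting trivially on
`X`: `U` is open of index prime to `p` and acts unipotently on `X`. -/
theorem exists_sylow_open (X : Rep.{0} (ZMod p) H) [Module.Finite (ZMod p) X.V]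
    (hX : 𝓛.IsDiscrete X) :
    ∃ U : Subgroup H, 𝓛.IsOpen U ∧ ¬ p ∣ U.index ∧
      (∃ N ∈ (𝓛.restrict U).levels, ∀ n ∈ N, (X.ρ.comp U.subtype) n = 1) ∧
      H86.ActsWithPPowerOrder p (X.ρ.comp U.subtype) := by
  obtain ⟨N₀, hN₀, hnor, htriv⟩ := exists_normal_level_acting_trivially 𝓛 X hX
  have := hnor
  have : N₀.FiniteIndex := 𝓛.finiteIndex N₀ hN₀
  have : Finite (H ⧸ N₀) := Subgroup.finite_quotient_of_finiteIndex
  obtain ⟨P⟩ := (inferInstance : Nonempty (Sylow p (H ⧸ N₀)))
  set U : Subgroup H := (P : Subgroup (H ⧸ N₀)).comap (QuotientGroup.mk' N₀) with hU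
  have hN₀U : N₀ ≤ U := by
    intro n hn
    rw [hU, Subgroup.mem_comap]
    have : QuotientGroup.mk' N₀ n = 1 := (QuotientGroup.eq_one_iff n).mpr hn
    rw [this]; exact Subgroup.one_mem _
  refine ⟨U, ⟨N₀, hN₀, hN₀U⟩, ?_, ⟨N₀.comap U.subtype, ⟨N₀, hN₀, rfl⟩, ?_⟩, ?_⟩
  · rw [hU, Subgroup.index_comap_of_surjective _ (QuotientGroup.mk'_surjective N₀)]
    exact P.not_dvd_index
  · intro n hn
    exact htriv _ hn
  · refine H86.actsWithPPowerOrder_of_forall_pow_mem (X.ρ.comp U.subtype)
      (N₀.comap U.subtype) (fun g hg => htriv _ hg) ?_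
    intro g
    have hgP : QuotientGroup.mk' N₀ (g : H) ∈ (P : Subgroup (H ⧸ N₀)) := g.2
    obtain ⟨n, hn⟩ := P.2 ⟨_, hgP⟩
    refine ⟨n, ?_⟩
    rw [Subgroup.mem_comap]
    have h1 : (QuotientGroup.mk' N₀ (g : H)) ^ p ^ n = 1 := by
      have := congrArg Subtype.val hn
      simpa using this
    have h2 : QuotientGroup.mk' N₀ ((g : H) ^ p ^ n) = 1 := by rw [map_pow, h1]
    have h3 : (g : H) ^ p ^ n ∈ N₀ := (QuotientGroup.eq_one_iff _).mp h2
    simpa using h3

/-- **D1-T3.** Let `W` be a discrete `ZMod p`-module of `(H, 𝓛)` with `H²(U; W) = 0` for every open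
subgroup `U` (axiom (I3') of the `W`-model), and assume the consequence `hcor` of the
corestriction: restriction to an open subgroup of index prime to `p` is injective on level `H²`.
Then `T³(X) = H²(H; Hom(X, W)) = 0` for every finite discrete `ZMod p`-module `X`. -/
theorem subsingleton_H2_homRep (hW : 𝓛.IsDiscrete W)
    (hI3 : ∀ U : Subgroup H, 𝓛.IsOpen U →
      Subsingleton ((𝓛.restrict U).H2 (Rep.res U.subtype W)))
    (hcor : ∀ (A : Rep.{0} (ZMod p) H) (U : Subgroup H), 𝓛.IsOpen U → ¬ p ∣ U.index →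
      ∀ x : 𝓛.H2 A, resSubH2 𝓛 A U x = 0 → x = 0)
    (X : Rep.{0} (ZMod p) H) [Module.Finite (ZMod p) X.V] (hX : 𝓛.IsDiscrete X) :
    Subsingleton (𝓛.H2 (homRep X.ρ W)) := by
  obtain ⟨U, hUo, hUp, hUN, hUρ⟩ := exists_sylow_open 𝓛 X hX
  -- vanishing over `U`
  have hWU : (𝓛.restrict U).IsDiscrete (Rep.res U.subtype W) :=
    isDiscrete_res (𝓛.restrict U) 𝓛 (isCont_subtype 𝓛 U) hW
  have h1 : Subsingleton ((𝓛.restrict U).H2 (homRep (X.ρ.comp U.subtype) (Rep.res U.subtype W))) :=
    subsingleton_H2_homRep_of_unipotent (𝓛.restrict U) (Rep.res U.subtype W) hWU (hI3 U hUo)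
      X.V (X.ρ.comp U.subtype) hUN hUρ
  -- compare with the restriction of `Hom(X, W)`
  have h2 : Subsingleton ((𝓛.restrict U).H2 (Rep.res U.subtype (homRep X.ρ W))) := by
    refine subsingleton_H2_of_equiv (𝓛.restrict U)
      (A := Rep.res U.subtype (homRep X.ρ W))
      (B := homRep (X.ρ.comp U.subtype) (Rep.res U.subtype W))
      (LinearEquiv.refl (ZMod p) (X.V →ₗ[ZMod p] W.V)) ?_ h1
    intro g f
    apply LinearMap.ext
    intro v
    simp only [MonoidHom.id_apply, LinearEquiv.refl_toLinearMap, LinearMap.id_coe, id_eq]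
    simp [Representation.linHom_apply, MonoidHom.comp_apply]
  refine ⟨fun x y => ?_⟩
  suffices h : ∀ z : 𝓛.H2 (homRep X.ρ W), z = 0 by rw [h x, h y]
  intro z
  exact hcor _ U hUo hUp z (Subsingleton.elim _ _)

/-- **D1-T3**, in the `Rep.ihom` vocabulary: `T³(X) := H²(H; (Rep.ihom X).obj W) = 0`. -/
theorem subsingleton_T3 (hW : 𝓛.IsDiscrete W)
    (hI3 : ∀ U : Subgroup H, 𝓛.IsOpen U →
      Subsingleton ((𝓛.restrict U).H2 (Rep.res U.subtype W)))
    (hcor : ∀ (A : Rep.{0} (ZMod p) H) (U : Subgroup H), 𝓛.IsOpen U → ¬ p ∣ U.index →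
      ∀ x : 𝓛.H2 A, resSubH2 𝓛 A U x = 0 → x = 0)
    (X : Rep.{0} (ZMod p) H) [Module.Finite (ZMod p) X.V] (hX : 𝓛.IsDiscrete X) :
    Subsingleton (𝓛.H2 ((Rep.ihom X).obj W)) :=
  subsingleton_H2_homRep 𝓛 W hW hI3 hcor X hX

end Unipotent

end Fermat.Agent.CFT.H89
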