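import Mathlib
import Fermat.Agent.CFT.H89_T3
import Fermat.Agent.CFT.H50_LevelCor
import Fermat.Agent.CFT.H91_WModel

/-!
# CFT layer D1, package D1-T3: final form in the `W`-model vocabulary

`H89_T3` proves `T³(X) = 0` modulo the Sylow consequence `hcor` of the corestriction; here `hcor`
is discharged with helper50's `H50_LevelCor` and the statement is put in the vocabulary of
`H91_WModel` (`WDatum`, `IsFinDiscrete`, `WDatum.T3`): this is `D1_T3` of the layer D skeleton.
-/

set_option autoImplicit false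

open CategoryTheory groupCohomology

namespace Fermat.Agent.CFT.H89

open Fermat.Agent.CFT LevelStructure Fermat.Agent.CFT.H50

variable {p : ℕ} [Fact p.Prime] {H : Type} [Group H] (𝓛 : LevelStructure H)

/-- An open subgroup has finite index. -/
lemma finiteIndex_of_isOpen {U : Subgroup H} (hU : 𝓛.IsOpen U) : U.FiniteIndex := by
  obtain ⟨N, hN, hNU⟩ := hU
  have : N.FiniteIndex := 𝓛.finiteIndex N hN
  exact Subgroup.finiteIndex_of_le hNU

/-- **Sylow injectivity.** Restriction to an open subgroup of index prime to `p` is injective on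
level `H²` with `ZMod p`-coefficients (`cor ∘ res = [H : U]`, helper50's `H50_LevelCor`). -/
theorem eq_zero_of_resSubH2_eq_zero_of_not_dvd (A : Rep.{0} (ZMod p) H) (U : Subgroup H)
    (hU : 𝓛.IsOpen U) (hp : ¬ p ∣ U.index) (x : 𝓛.H2 A) (hx : resSubH2 𝓛 A U x = 0) : x = 0 := by
  have : U.FiniteIndex := finiteIndex_of_isOpen 𝓛 hU
  let _ : Fintype (H ⧸ U) := Subgroup.fintypeQuotientOfFiniteIndex
  refine eq_zero_of_resSubH2_eq_zero 𝓛 A hU (p := p) ?_ x ?_ hx
  · rw [card_eq_index]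
    exact (Nat.Prime.coprime_iff_not_dvd (Fact.out : p.Prime)).2 hp
  · rw [← Nat.cast_smul_eq_nsmul (ZMod p), ZMod.natCast_self, zero_smul]

/-- The same for `H¹`. -/
theorem eq_zero_of_resSubH1_eq_zero_of_not_dvd (A : Rep.{0} (ZMod p) H) (U : Subgroup H)
    (hU : 𝓛.IsOpen U) (hp : ¬ p ∣ U.index) (x : 𝓛.H1 A) (hx : resSubH1 𝓛 A U x = 0) : x = 0 := by
  have : U.FiniteIndex := finiteIndex_of_isOpen 𝓛 hU
  let _ : Fintype (H ⧸ U) := Subgroup.fintypeQuotientOfFiniteIndex
  refine eq_zero_of_resSubH1_eq_zero 𝓛 A hU (p := p) ?_ x ?_ hx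
  · rw [card_eq_index]
    exact (Nat.Prime.coprime_iff_not_dvd (Fact.out : p.Prime)).2 hp
  · rw [← Nat.cast_smul_eq_nsmul (ZMod p), ZMod.natCast_self, zero_smul]

/-- **D1-T3**, unconditional form: if `W` is discrete and `H²(U; W) = 0` for every open subgroup
`U` (axiom (I3')), then `H²(H; Hom(X, W)) = 0` for every finite discrete `ZMod p`-module `X`. -/
theorem subsingleton_H2_homRep_of_I3 (W : Rep.{0} (ZMod p) H) (hW : 𝓛.IsDiscrete W)
    (hI3 : ∀ U : Subgroup H, 𝓛.IsOpen U →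
      Subsingleton ((𝓛.restrict U).H2 (Rep.res U.subtype W)))
    (X : Rep.{0} (ZMod p) H) [Module.Finite (ZMod p) X.V] (hX : 𝓛.IsDiscrete X) :
    Subsingleton (𝓛.H2 ((Rep.ihom X).obj W)) :=
  subsingleton_T3 𝓛 W hW hI3
    (fun A U hU hp x hx => eq_zero_of_resSubH2_eq_zero_of_not_dvd 𝓛 A U hU hp x hx) X hX

/-- **D1-T3** in the `W`-model vocabulary (`D1_T3` of the layer D skeleton): (I3') at every open
subgroup implies `T³(X) = 0` for every finite discrete `X`. -/
theorem D1_T3 {𝓛 : LevelStructure H} (𝒟 : WDatum p 𝓛)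
    (h3 : ∀ U : Subgroup H, 𝓛.IsOpen U →
      Subsingleton ((𝓛.restrict U).H2 (Rep.res U.subtype 𝒟.W)))
    (X : Rep.{0} (ZMod p) H) (hX : IsFinDiscrete 𝓛 X) : Subsingleton (𝒟.T3 X) := by
  have : Finite X.V := hX.finite
  have : Module.Finite (ZMod p) X.V := Module.Finite.of_finite
  exact subsingleton_H2_homRep_of_I3 𝓛 𝒟.W 𝒟.discrete_W h3 X hX.discrete

end Fermat.Agent.CFT.H89
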