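import Fermat.Agent.CFT.H91_DStatements
import Fermat.Agent.CFT.H89_T3Final
import Fermat.Agent.CFT.H46_D1Skeleton

/-!
# Layer D1 assembled (project CFT)

`D1_of_shapiro` : the theorem `D1` of the layer-D skeleton (`(AC)`, `(I1')`, `(I2')` at the good
normal levels, `(I3')` at all open subgroups ⇒ duality for every finite discrete `X`), from
`H46.D1_main`, `H89.D1_T3` and the statement of D1-shapiro (taken as a hypothesis
`D1ShapiroStatement` until it is landed; then `D1` is `D1_of_shapiro` applied to it).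
-/

set_option autoImplicit false

open CategoryTheory

namespace Fermat.Agent.CFT.H46

open Fermat.Agent.CFT

variable {p : ℕ} [Fact p.Prime] {H : Type} [Group H] {𝓛 : LevelStructure H}

/-- The statement of **D1-shapiro** (layer-D skeleton): `(I1')`, `(I2')` at the normal level
`N₀` imply duality for `X⋆ = Map(H/N₀, X)` whenever `N₀` acts trivially on `X`. -/
def D1ShapiroStatement (𝒟 : WDatum p 𝓛) (tr : 𝓛.H1 𝒟.W →ₗ[ZMod p] ZMod p) : Prop :=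
  ∀ (N₀ : Subgroup H) (hN : N₀ ∈ 𝓛.levels) [N₀.Normal],
    AxI1 𝒟 tr N₀ ⟨N₀, hN, le_rfl⟩ → AxI2 𝒟 tr N₀ ⟨N₀, hN, le_rfl⟩ →
    ∀ X : Rep.{0} (ZMod p) H, IsFinDiscrete 𝓛 X → (∀ n ∈ N₀, X.ρ n = 1) →
      𝒟.IsDual2 tr (starRep N₀ X) ∧ 𝒟.IsDual1 tr (starRep N₀ X)

/-- **D1**, assembled from `D1_main`, `D1_T3` and the statement of D1-shapiro. -/
theorem D1_of_shapiro (𝒟 : WDatum p 𝓛) (tr : 𝓛.H1 𝒟.W →ₗ[ZMod p] ZMod p)
    (hshap : D1ShapiroStatement 𝒟 tr)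
    (hAC : 𝒟.IsAcyclic) (good : Subgroup H → Prop)
    (hgood : ∀ N ∈ 𝓛.levels, ∃ N' ∈ 𝓛.levels, N' ≤ N ∧ N'.Normal ∧ good N')
    (h1 : ∀ (N₀ : Subgroup H) (hN : N₀ ∈ 𝓛.levels) [N₀.Normal], good N₀ →
      AxI1 𝒟 tr N₀ ⟨N₀, hN, le_rfl⟩)
    (h2 : ∀ (N₀ : Subgroup H) (hN : N₀ ∈ 𝓛.levels) [N₀.Normal], good N₀ →
      AxI2 𝒟 tr N₀ ⟨N₀, hN, le_rfl⟩)
    (h3 : ∀ U : Subgroup H, 𝓛.IsOpen U → AxI3 𝒟 U) :
    D1Conclusion 𝓛 𝒟 tr := fun X hX =>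
  D1_main 𝒟 tr hAC good hgood
    (fun N₀ hN _ hg X hX ht => hshap N₀ hN (h1 N₀ hN hg) (h2 N₀ hN hg) X hX ht)
    (fun X hX => H89.D1_T3 𝒟 h3 X hX) X hX

/-- `D1` for the `W`-datum of an envelope, from the conclusion of `D2`. -/
theorem D1_of_D2 {C : Rep.{0} ℤ H} (E : H36.DivEnvelope 𝓛 p C) (good : Subgroup H → Prop)
    (hgood : ∀ N ∈ 𝓛.levels, ∃ N' ∈ 𝓛.levels, N' ≤ N ∧ N'.Normal ∧ good N')
    (hAC : E.wDatum.IsAcyclic)
    (hshap : ∀ tr : 𝓛.H1 E.wDatum.W →ₗ[ZMod p] ZMod p, D1ShapiroStatement E.wDatum tr)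
    (hD2 : D2Conclusion 𝓛 C E good) :
    ∃ tr : 𝓛.H1 E.wDatum.W →ₗ[ZMod p] ZMod p, D1Conclusion 𝓛 E.wDatum tr := by
  obtain ⟨tr, h12, h3⟩ := hD2
  exact ⟨tr, D1_of_shapiro E.wDatum tr (hshap tr) hAC good hgood
    (fun N₀ hN hnor hg => (h12 N₀ hN hnor hg).1) (fun N₀ hN hnor hg => (h12 N₀ hN hnor hg).2) h3⟩

/-- `D1Statement p` (the chief's `H91_DStatements`) from the statement of D1-shapiro for all
groups, level structures, data and traces. -/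
theorem d1Statement_of_shapiro
    (hshap : ∀ (H : Type) [Group H] (𝓛 : LevelStructure H) (𝒟 : WDatum p 𝓛)
      (tr : 𝓛.H1 𝒟.W →ₗ[ZMod p] ZMod p), D1ShapiroStatement 𝒟 tr) :
    D1Statement p := fun H _ 𝓛 𝒟 tr hAC good hgood h12 h3 =>
  D1_of_shapiro 𝒟 tr (hshap H 𝓛 𝒟 tr) hAC good hgood
    (fun N₀ hN hnor hg => (h12 N₀ hN hnor hg).1) (fun N₀ hN hnor hg => (h12 N₀ hN hnor hg).2) h3

end Fermat.Agent.CFT.H46
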