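import Mathlib

/-!
# The norm lemma for the transfer in degree one  (CFT / D1-shapiro, part N)

`U ≤ H` a subgroup of finite index, `ρA ρB` representations of `H` on `A`, `B`, and
`u : A →ₗ[k] B` a `U`-equivariant linear map.  Its *norm* is the `H`-equivariant map
`normMap u = ∑_{q ∈ H/U} a_q ∘ u ∘ a_q⁻¹` (`a_q := Quotient.out q`).

The transfer (corestriction) of a `1`-cochain `F` (a function on `H`, only its values on `U`
matter) is `transferFun F g = ∑_q a_q • F (a_q⁻¹ * g * a_{g⁻¹ • q})`.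

**Norm lemma** (`transferFun_comp_cocycle`): for a `1`-cocycle `ξ : H → A`,
`transferFun (u ∘ ξ) g = normMap u (ξ g) + (g • b - b)` with `b = ∑_q (a_q u a_q⁻¹) (ξ a_q)`.
So on cohomology `(normMap u)_* = cor ∘ u_* ∘ res`.
-/

set_option autoImplicit false

namespace Fermat.Agent.CFT.H86

open scoped BigOperators

variable {k : Type*} [CommRing k] {H : Type*} [Group H] (U : Subgroup H)
  {A B : Type*} [AddCommGroup A] [Module k A] [AddCommGroup B] [Module k B]
  (ρA : Representation k H A) (ρB : Representation k H B)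

/-- The coset representative `a_q`. -/
noncomputable def rep (q : H ⧸ U) : H := Quotient.out q

@[simp] lemma mk_rep (q : H ⧸ U) : ((rep U q : H) : H ⧸ U) = q := QuotientGroup.out_eq' q

lemma smul_eq_mk (g : H) (q : H ⧸ U) : g • q = ((g * rep U q : H) : H ⧸ U) :=
  (MulAction.Quotient.mk_smul_out U g q).symm

lemma rep_smul_mem (g : H) (q : H ⧸ U) : (rep U q)⁻¹ * g * rep U (g⁻¹ • q) ∈ U := by
  have h : ((g⁻¹ * rep U q : H) : H ⧸ U) = ((rep U (g⁻¹ • q) : H) : H ⧸ U) := by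
    rw [mk_rep, smul_eq_mk]
  rw [QuotientGroup.eq] at h
  simpa [mul_assoc] using h

/-- `u` conjugated by `g`: `g ∘ u ∘ g⁻¹`. -/
def conjMap (g : H) (u : A →ₗ[k] B) : A →ₗ[k] B := ρB g ∘ₗ u ∘ₗ ρA g⁻¹

@[simp] lemma conjMap_apply (g : H) (u : A →ₗ[k] B) (a : A) :
    conjMap ρA ρB g u a = ρB g (u (ρA g⁻¹ a)) := rfl

/-- `u` commutes with the action of `U`. -/
def IsSubEquivariant (u : A →ₗ[k] B) : Prop := ∀ n ∈ U, ∀ a, u (ρA n a) = ρB n (u a)

variable {U ρA ρB}

lemma conjMap_mul_of_mem {u : A →ₗ[k] B} (hu : IsSubEquivariant U ρA ρB u) (g : H) {n : H}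
    (hn : n ∈ U) : conjMap ρA ρB (g * n) u = conjMap ρA ρB g u := by
  ext a
  simp only [conjMap_apply, mul_inv_rev, map_mul, Module.End.mul_apply]
  rw [hu n⁻¹ (U.inv_mem hn), Representation.self_inv_apply]

lemma conjMap_eq_of_coset {u : A →ₗ[k] B} (hu : IsSubEquivariant U ρA ρB u) {g g' : H}
    (h : (g : H ⧸ U) = (g' : H ⧸ U)) : conjMap ρA ρB g u = conjMap ρA ρB g' u := by
  rw [QuotientGroup.eq] at h
  have : g' = g * (g⁻¹ * g') := by group
  rw [this, conjMap_mul_of_mem hu g h]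

lemma conjMap_rep_smul {u : A →ₗ[k] B} (hu : IsSubEquivariant U ρA ρB u) (g : H) (q : H ⧸ U) :
    conjMap ρA ρB (rep U (g • q)) u = conjMap ρA ρB (g * rep U q) u := by
  apply conjMap_eq_of_coset hu
  rw [mk_rep, smul_eq_mk]

lemma conjMap_mul (g g' : H) (u : A →ₗ[k] B) (a : A) :
    conjMap ρA ρB (g * g') u (ρA g a) = ρB g (conjMap ρA ρB g' u a) := by
  simp only [conjMap_apply, mul_inv_rev, map_mul, Module.End.mul_apply]
  rw [Representation.inv_self_apply]

variable (U ρA ρB)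
variable [U.FiniteIndex]

noncomputable instance : Fintype (H ⧸ U) := Subgroup.fintypeQuotientOfFiniteIndex

/-- The norm of a linear map: `∑_q a_q ∘ u ∘ a_q⁻¹`. -/
noncomputable def normMap (u : A →ₗ[k] B) : A →ₗ[k] B :=
  ∑ q : H ⧸ U, conjMap ρA ρB (rep U q) u

lemma normMap_apply (u : A →ₗ[k] B) (a : A) :
    normMap U ρA ρB u a = ∑ q : H ⧸ U, ρB (rep U q) (u (ρA (rep U q)⁻¹ a)) := by
  simp [normMap, LinearMap.sum_apply]

variable {U ρA ρB}

/-- The norm of a `U`-equivariant map is `H`-equivariant. -/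
lemma normMap_equivariant {u : A →ₗ[k] B} (hu : IsSubEquivariant U ρA ρB u) (g : H) (a : A) :
    normMap U ρA ρB u (ρA g a) = ρB g (normMap U ρA ρB u a) := by
  simp only [normMap, LinearMap.sum_apply, map_sum]
  rw [← Equiv.sum_comp (MulAction.toPerm g : H ⧸ U ≃ H ⧸ U)]
  refine Finset.sum_congr rfl fun q _ => ?_
  rw [MulAction.toPerm_apply, conjMap_rep_smul hu, conjMap_mul]

variable (U ρB)

/-- The transfer of a `1`-cochain (given as a function on `H`; only the values on `U` matter). -/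
noncomputable def transferFun (F : H → B) (g : H) : B :=
  ∑ q : H ⧸ U, ρB (rep U q) (F ((rep U q)⁻¹ * g * rep U (g⁻¹ • q)))

variable {U ρB}

/-- The correcting `0`-cochain in the norm lemma. -/
noncomputable def normCorr (U : Subgroup H) [U.FiniteIndex] (ρA : Representation k H A)
    (ρB : Representation k H B) (u : A →ₗ[k] B) (ξ : H → A) : B :=
  ∑ q : H ⧸ U, conjMap ρA ρB (rep U q) u (ξ (rep U q))

/-- **Norm lemma, degree one.** -/
theorem transferFun_comp_cocycle {u : A →ₗ[k] B} (hu : IsSubEquivariant U ρA ρB u)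
    {ξ : H → A} (hξ : ∀ g h, ξ (g * h) = ξ g + ρA g (ξ h)) (g : H) :
    transferFun U ρB (fun x => u (ξ x)) g =
      normMap U ρA ρB u (ξ g) + (ρB g (normCorr U ρA ρB u ξ) - normCorr U ρA ρB u ξ) := by
  have hξ1 : ξ 1 = 0 := by
    have := hξ 1 1
    simpa using this
  have hξinv : ∀ x : H, ξ x⁻¹ = - ρA x⁻¹ (ξ x) := by
    intro x
    have := hξ x⁻¹ x
    rw [inv_mul_cancel, hξ1] at this
    exact eq_neg_of_add_eq_zero_left this.symm
  -- expand each summand
  have hterm : ∀ q : H ⧸ U,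
      ρB (rep U q) (u (ξ ((rep U q)⁻¹ * g * rep U (g⁻¹ • q)))) =
        conjMap ρA ρB (rep U q) u (ξ g) - conjMap ρA ρB (rep U q) u (ξ (rep U q)) +
          ρB g (conjMap ρA ρB (rep U (g⁻¹ • q)) u (ξ (rep U (g⁻¹ • q)))) := by
    intro q
    have e1 : ξ ((rep U q)⁻¹ * g * rep U (g⁻¹ • q)) =
        ρA (rep U q)⁻¹ (ξ g - ξ (rep U q) + ρA g (ξ (rep U (g⁻¹ • q)))) := by
      rw [mul_assoc, hξ, hξ g, hξinv]
      simp only [map_add, map_sub]
      abel
    have e2 : conjMap ρA ρB (rep U q) u (ρA g (ξ (rep U (g⁻¹ • q)))) =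
        ρB g (conjMap ρA ρB (g⁻¹ * rep U q) u (ξ (rep U (g⁻¹ • q)))) := by
      have := conjMap_mul (ρA := ρA) (ρB := ρB) g (g⁻¹ * rep U q) u (ξ (rep U (g⁻¹ • q)))
      rwa [mul_inv_cancel_left] at this
    have e3 : ρB (rep U q) (u (ρA (rep U q)⁻¹
        (ξ g - ξ (rep U q) + ρA g (ξ (rep U (g⁻¹ • q)))))) =
        conjMap ρA ρB (rep U q) u (ξ g) - conjMap ρA ρB (rep U q) u (ξ (rep U q)) +
          conjMap ρA ρB (rep U q) u (ρA g (ξ (rep U (g⁻¹ • q)))) := by
      simp only [conjMap_apply, map_add, map_sub]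
    rw [e1, e3, e2, conjMap_rep_smul hu]
  unfold transferFun
  rw [Finset.sum_congr rfl fun q _ => hterm q]
  rw [Finset.sum_add_distrib, Finset.sum_sub_distrib]
  have hsum3 : ∑ q : H ⧸ U, ρB g (conjMap ρA ρB (rep U (g⁻¹ • q)) u (ξ (rep U (g⁻¹ • q)))) =
      ρB g (normCorr U ρA ρB u ξ) := by
    unfold normCorr
    rw [map_sum]
    exact Equiv.sum_comp (MulAction.toPerm g⁻¹ : H ⧸ U ≃ H ⧸ U)
      (fun q => ρB g (conjMap ρA ρB (rep U q) u (ξ (rep U q))))
  rw [hsum3]
  simp only [normMap, LinearMap.sum_apply, normCorr]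
  abel

/-- Degree zero: the norm map on invariants is the transfer `∑_q a_q • u a`. -/
lemma normMap_apply_of_invariant (u : A →ₗ[k] B) {a : A} (ha : ∀ g, ρA g a = a) :
    normMap U ρA ρB u a = ∑ q : H ⧸ U, ρB (rep U q) (u a) := by
  rw [normMap_apply]
  simp only [ha]

end Fermat.Agent.CFT.H86
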