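import Mathlib
import Fermat.Agent.CFT.H55_LevelDefs
import Fermat.Agent.CFT.H50_LevelRes
import Fermat.Agent.CFT.H86_NormLemma

/-!
# The transfer (corestriction) on level `H¹`, explicit form  (CFT / D1-shapiro, part T)

`N ≤ H` an open subgroup for a level structure `𝓛`.  For a `1`-cochain `f : N → B` of the
restricted representation, `transferSub N ρB f g = ∑_q a_q • f (a_q⁻¹ * g * a_{g⁻¹ • q})`
(`a_q := Quotient.out q`, `q ∈ H ⧸ N`).  It maps cocycles to cocycles, coboundaries to
coboundaries and preserves level-constancy, hence induces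
`corH1 : (𝓛.restrict N).H1 (Rep.res N.subtype B) →ₗ[k] 𝓛.H1 B`.
-/

set_option autoImplicit false

namespace Fermat.Agent.CFT.H86

open Fermat.Agent.CFT

section Fun

variable {k : Type*} [CommRing k] {H : Type*} [Group H] (N : Subgroup H) [N.FiniteIndex]
  {B : Type*} [AddCommGroup B] [Module k B] (ρB : Representation k H B)

/-- Extension by zero of a function on the subgroup `N`. -/
noncomputable def extendFun (f : N → B) : H → B := by
  classical
  exact fun x => if hx : x ∈ N then f ⟨x, hx⟩ else 0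

omit [N.FiniteIndex] in
lemma extendFun_of_mem (f : N → B) {x : H} (hx : x ∈ N) : extendFun N f x = f ⟨x, hx⟩ := by
  classical
  simp [extendFun, hx]

omit [N.FiniteIndex] in
@[simp] lemma extendFun_coe (f : N → B) (x : N) : extendFun N f (x : H) = f x := by
  rw [extendFun_of_mem N f x.2]

/-- The transfer of a `1`-cochain on `N`. -/
noncomputable def transferSub (f : N → B) (g : H) : B := transferFun N ρB (extendFun N f) g

lemma transferSub_apply (f : N → B) (g : H) :
    transferSub N ρB f g =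
      ∑ q : H ⧸ N, ρB (rep N q) (f ⟨(rep N q)⁻¹ * g * rep N (g⁻¹ • q), rep_smul_mem N g q⟩) := by
  unfold transferSub transferFun
  refine Finset.sum_congr rfl fun q _ => ?_
  rw [extendFun_of_mem N f (rep_smul_mem N g q)]

/-- `transferFun` only depends on the values on `N`. -/
lemma transferFun_congr {F F' : H → B} (h : ∀ x ∈ N, F x = F' x) (g : H) :
    transferFun N ρB F g = transferFun N ρB F' g := by
  unfold transferFun
  refine Finset.sum_congr rfl fun q _ => ?_
  rw [h _ (rep_smul_mem N g q)]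

lemma transferFun_eq_transferSub (F : H → B) (g : H) :
    transferFun N ρB F g = transferSub N ρB (fun x : N => F x) g := by
  unfold transferSub
  exact transferFun_congr N ρB (fun x hx => by rw [extendFun_of_mem N _ hx]) g

/-- The transfer of a cocycle is a cocycle. -/
theorem transferSub_cocycle {f : N → B}
    (hf : ∀ x y : N, f (x * y) = f x + ρB (x : H) (f y)) (g h : H) :
    transferSub N ρB f (g * h) = transferSub N ρB f g + ρB g (transferSub N ρB f h) := by
  simp only [transferSub_apply, map_sum]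
  rw [← Equiv.sum_comp (MulAction.toPerm g⁻¹ : H ⧸ N ≃ H ⧸ N)
    (fun q => ρB g (ρB (rep N q) (f ⟨(rep N q)⁻¹ * h * rep N (h⁻¹ • q), rep_smul_mem N h q⟩))),
    ← Finset.sum_add_distrib]
  refine Finset.sum_congr rfl fun q _ => ?_
  simp only [MulAction.toPerm_apply]
  -- split the argument
  have hsplit : (⟨(rep N q)⁻¹ * (g * h) * rep N ((g * h)⁻¹ • q), rep_smul_mem N (g * h) q⟩ : N) =
      ⟨(rep N q)⁻¹ * g * rep N (g⁻¹ • q), rep_smul_mem N g q⟩ *
        ⟨(rep N (g⁻¹ • q))⁻¹ * h * rep N (h⁻¹ • (g⁻¹ • q)), rep_smul_mem N h (g⁻¹ • q)⟩ := by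
    apply Subtype.ext
    simp only [Subgroup.coe_mul, mul_inv_rev, mul_smul]
    group
  rw [hsplit, hf, map_add]
  congr 1
  simp only [← Module.End.mul_apply, ← map_mul]
  congr 2
  group

/-- The transfer of a coboundary is a coboundary. -/
theorem transferSub_coboundary (b : B) (g : H) :
    transferSub N ρB (fun x : N => ρB (x : H) b - b) g =
      ρB g (∑ q : H ⧸ N, ρB (rep N q) b) - ∑ q : H ⧸ N, ρB (rep N q) b := by
  simp only [transferSub_apply, map_sum, map_sub]
  rw [Finset.sum_sub_distrib]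
  congr 1
  rw [← Equiv.sum_comp (MulAction.toPerm g⁻¹ : H ⧸ N ≃ H ⧸ N)
    (fun q => ρB g (ρB (rep N q) b))]
  refine Finset.sum_congr rfl fun q _ => ?_
  simp only [MulAction.toPerm_apply, ← Module.End.mul_apply, ← map_mul]
  congr 2
  group

lemma transferSub_add (f f' : N → B) (g : H) :
    transferSub N ρB (f + f') g = transferSub N ρB f g + transferSub N ρB f' g := by
  simp only [transferSub_apply, Pi.add_apply, map_add, Finset.sum_add_distrib]

lemma transferSub_smul (c : k) (f : N → B) (g : H) :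
    transferSub N ρB (c • f) g = c • transferSub N ρB f g := by
  simp only [transferSub_apply, Pi.smul_apply, map_smul, Finset.smul_sum]

end Fun

section Level

universe u

variable {k : Type u} [CommRing k] {H : Type u} [Group H] (𝓛 : LevelStructure H)
  (N : Subgroup H) [N.FiniteIndex] (B : Rep.{u} k H)

omit [N.FiniteIndex] in
/-- A normal subgroup contained in `N` acts trivially on `H ⧸ N`. -/
lemma smul_eq_self_of_mem_normal {N' : Subgroup H} [N'.Normal] (hle : N' ≤ N) {s : H}
    (hs : s ∈ N') (q : H ⧸ N) : s • q = q := by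
  induction q using QuotientGroup.induction_on with
  | H x =>
    rw [MulAction.Quotient.smul_mk, smul_eq_mul, eq_comm, QuotientGroup.eq]
    have := Subgroup.Normal.conj_mem' (inferInstance : N'.Normal) s hs x
    exact hle (by simpa [mul_assoc] using this)

variable {N}

/-- The transfer preserves level-constancy (for `N` open). -/
theorem isConst₁_transferSub (hN : 𝓛.IsOpen N) {f : N → B.V}
    (hf : (𝓛.restrict N).IsConst₁ f) : 𝓛.IsConst₁ (transferSub N B.ρ f) := by
  obtain ⟨_, ⟨N₁, hN₁, rfl⟩, hconst⟩ := hf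
  obtain ⟨N₂, hN₂, hle₂⟩ := hN
  obtain ⟨N₃, hN₃, hle₃⟩ := 𝓛.directed N₁ hN₁ N₂ hN₂
  obtain ⟨N₄, hN₄, hle₄, hnor⟩ := 𝓛.exists_normal N₃ hN₃
  have hN₄N : N₄ ≤ N := hle₄.trans (hle₃.trans (inf_le_right.trans hle₂))
  have hN₄N₁ : N₄ ≤ N₁ := hle₄.trans (hle₃.trans inf_le_left)
  refine ⟨N₄, hN₄, fun g s hs => ?_⟩
  simp only [transferSub_apply]
  refine Finset.sum_congr rfl fun q _ => ?_
  have hq : (g * s)⁻¹ • q = g⁻¹ • q := by
    rw [mul_inv_rev, mul_smul, smul_eq_self_of_mem_normal N hN₄N (N₄.inv_mem hs)]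
  -- the new argument is the old one times an element of `N₄`
  have hmem : (rep N (g⁻¹ • q))⁻¹ * s * rep N (g⁻¹ • q) ∈ N₄ :=
    Subgroup.Normal.conj_mem' hnor s hs _
  have harg : (⟨(rep N q)⁻¹ * (g * s) * rep N ((g * s)⁻¹ • q), rep_smul_mem N (g * s) q⟩ : N) =
      ⟨(rep N q)⁻¹ * g * rep N (g⁻¹ • q), rep_smul_mem N g q⟩ *
        ⟨(rep N (g⁻¹ • q))⁻¹ * s * rep N (g⁻¹ • q), hN₄N hmem⟩ := by
    apply Subtype.ext
    simp only [Subgroup.coe_mul, hq]
    group
  rw [harg, hconst _ _ (by
    show ((⟨_, hN₄N hmem⟩ : N) : H) ∈ N₁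
    exact hN₄N₁ hmem)]

variable (N)

/-- The transfer on level `1`-cocycles. -/
noncomputable def corZ1 (hN : 𝓛.IsOpen N) :
    ↥((𝓛.restrict N).cocycles₁ (Rep.res N.subtype B)) →ₗ[k] ↥(𝓛.cocycles₁ B) where
  toFun f := ⟨transferSub N B.ρ f.1, by
    refine ⟨(groupCohomology.mem_cocycles₁_iff _).2 fun g h => ?_,
      isConst₁_transferSub 𝓛 B hN f.2.2⟩
    have hf := (groupCohomology.mem_cocycles₁_iff (A := Rep.res N.subtype B) f.1).1 f.2.1
    rw [transferSub_cocycle N B.ρ (fun x y => by rw [hf x y, add_comm]; rfl) g h, add_comm]⟩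
  map_add' f f' := by
    apply Subtype.ext
    funext g
    exact transferSub_add N B.ρ f.1 f'.1 g
  map_smul' c f := by
    apply Subtype.ext
    funext g
    exact transferSub_smul N B.ρ c f.1 g

@[simp] lemma corZ1_coe (hN : 𝓛.IsOpen N)
    (f : (𝓛.restrict N).cocycles₁ (Rep.res N.subtype B)) :
    ((corZ1 𝓛 N B hN f : 𝓛.cocycles₁ B) : H → B.V) = transferSub N B.ρ f.1 := rfl

/-- The transfer (corestriction) on level `H¹`. -/
noncomputable def corH1 (hN : 𝓛.IsOpen N) :
    (𝓛.restrict N).H1 (Rep.res N.subtype B) →ₗ[k] 𝓛.H1 B :=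
  Submodule.mapQ _ _ (corZ1 𝓛 N B hN) (by
    intro f hf
    simp only [Submodule.mem_comap, Submodule.subtype_apply] at hf ⊢
    obtain ⟨b, hb⟩ := hf
    refine ⟨∑ q : H ⧸ N, B.ρ (rep N q) b, ?_⟩
    funext g
    have hf' : (f : N → B.V) = fun x : N => B.ρ (x : H) b - b := by
      rw [← hb]
      funext x
      rw [groupCohomology.d₀₁_hom_apply]
      rfl
    rw [groupCohomology.d₀₁_hom_apply, corZ1_coe, hf', transferSub_coboundary])

@[simp] lemma corH1_mk (hN : 𝓛.IsOpen N)
    (f : (𝓛.restrict N).cocycles₁ (Rep.res N.subtype B)) :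
    corH1 𝓛 N B hN ((𝓛.restrict N).H1π _ f) = 𝓛.H1π B (corZ1 𝓛 N B hN f) := rfl

end Level

end Fermat.Agent.CFT.H86
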