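import Mathlib
import Fermat.Agent.CFT.H91_WModel
import Fermat.Agent.CFT.H50_LevelCorStd
import Fermat.Agent.CFT.H86_Transfer

/-!
# The axioms (I1'), (I2') of the `W`-model at a normal level, and the corestriction bridge
(CFT / D1-shapiro, definitions)

* `corH1_eq_cor1` : the transfer `H86.corH1` of `H86_Transfer` is helper50's standard
  corestriction `H50.cor1` (same representatives `Quotient.out`, same formula).
* `smulPairing`, `AxI1`, `AxI2` : verbatim the definitions of the layer-D skeleton, with the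
  skeleton's placeholder corestriction replaced by `H50.cor1`.
-/

set_option autoImplicit false

namespace Fermat.Agent.CFT.H86

open Fermat.Agent.CFT

section Bridge

universe u

variable {k : Type u} [CommRing k] {H : Type u} [Group H] (𝓛 : LevelStructure H)

/-- The transfer of `H86_Transfer` is the standard corestriction of `H50_LevelCorStd`. -/
theorem corH1_eq_cor1 (N : Subgroup H) [N.FiniteIndex] (B : Rep.{u} k H) (hN : 𝓛.IsOpen N) :
    corH1 𝓛 N B hN = H50.cor1 𝓛 N hN B := by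
  refine LinearMap.ext fun x => ?_
  induction x using Submodule.Quotient.induction_on with
  | H f =>
    show 𝓛.H1π B (corZ1 𝓛 N B hN f) = 𝓛.H1π B _
    congr 1
    apply Subtype.ext
    funext g
    rw [corZ1_coe, transferSub_apply]
    rfl

end Bridge

section Axioms

variable {p : ℕ} [Fact p.Prime] {H : Type} [Group H] {𝓛 : LevelStructure H}

/-- Scalar multiplication pairing `A × 𝔽_p → A` (restricted to a subgroup `U`). -/
noncomputable def smulPairing (U : Subgroup H) (A : Rep.{0} (ZMod p) H) :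
    RepPairing (Rep.res U.subtype A) (Rep.trivial (ZMod p) U (ZMod p)) (Rep.res U.subtype A) where
  toFun := (LinearMap.lsmul (ZMod p) A.V).flip
  equivariant g a c := by
    simp [Rep.trivial]

variable (𝒟 : WDatum p 𝓛) (tr : 𝓛.H1 𝒟.W →ₗ[ZMod p] ZMod p)

/-- Axiom (I2') at an open subgroup `N₀`: `tr ∘ cor : H¹(N₀; W) → 𝔽_p` is bijective. -/
def AxI2 (N₀ : Subgroup H) (hN : 𝓛.IsOpen N₀) : Prop :=
  Function.Bijective (tr ∘ₗ H50.cor1 𝓛 N₀ hN 𝒟.W)

/-- Axiom (I1') at an open subgroup `N₀`: the pairing `W^{N₀} × H¹(N₀; 𝔽_p) → H¹(N₀; W) → 𝔽_p`,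
`(w, χ) ↦ tr (cor [n ↦ χ(n) • w])`, induces `W^{N₀} / d(Vm^{N₀}) ≃ H¹(N₀; 𝔽_p)^∨`. -/
def AxI1 (N₀ : Subgroup H) (hN : 𝓛.IsOpen N₀) : Prop :=
  let P : ↥(Rep.res N₀.subtype 𝒟.W).ρ.invariants →ₗ[ZMod p]
      Module.Dual (ZMod p) ((𝓛.restrict N₀).H1 (Rep.trivial (ZMod p) N₀ (ZMod p))) :=
    (pair01 (𝓛.restrict N₀) (smulPairing N₀ 𝒟.W)).compr₂ (tr ∘ₗ H50.cor1 𝓛 N₀ hN 𝒟.W)
  Function.Surjective P ∧
    LinearMap.ker P = LinearMap.range (H50.coeffH0 ((Rep.resFunctor N₀.subtype).map 𝒟.d))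

end Axioms

end Fermat.Agent.CFT.H86
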