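import Mathlib
import Fermat.Agent.CFT.H55_LevelDefs
import Fermat.Agent.CFT.H50_LevelRes
import Fermat.Agent.CFT.H86_NormLemma
import Fermat.Agent.CFT.H86_Transfer

/-!
# Induced modules and Shapiro's lemma in degree one, explicit form (CFT / D1-shapiro, part S)

`N ≤ H` an open normal subgroup.  An `InducedData N M M₀` exhibits the `H`-module `M` as induced
from the `N`-module `M₀`: `N`-linear maps `ι : M₀ → M`, `π : M → M₀` with `π ι = 1`,
`π g ι = 0` for `g ∉ N` and `∑_q a_q ι π a_q⁻¹ = 1`.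

* `shH1 : H¹(H; M) → H¹(N; M₀)` (restriction followed by `π`) and
  `indH1 : H¹(N; M₀) → H¹(H; M)` (`ι` followed by corestriction) are mutually inverse;
* `coeffH1_normMap`: for an `N`-linear `v : M₀ → B` (`B` an `H`-module), the `H`-linear map
  `Nm (v ∘ π) : M → B` induces `cor ∘ v_* ∘ sh` on `H¹`.
-/

set_option autoImplicit false

namespace Fermat.Agent.CFT.H86

open Fermat.Agent.CFT

universe u

variable {k : Type u} [CommRing k] {H : Type u} [Group H]

/-- `M` is induced from the `N`-module `M₀`. -/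
structure InducedData (N : Subgroup H) [N.FiniteIndex] (M : Rep.{u} k H) (M₀ : Rep.{u} k N) where
  ι : M₀.V →ₗ[k] M.V
  π : M.V →ₗ[k] M₀.V
  ι_equiv : ∀ (n : N) (x : M₀.V), ι (M₀.ρ n x) = M.ρ (n : H) (ι x)
  π_equiv : ∀ (n : N) (m : M.V), π (M.ρ (n : H) m) = M₀.ρ n (π m)
  π_ι : ∀ x, π (ι x) = x
  orth : ∀ g : H, g ∉ N → ∀ x, π (M.ρ g (ι x)) = 0
  sum_eq : ∀ m : M.V, ∑ q : H ⧸ N, M.ρ (rep N q) (ι (π (M.ρ (rep N q)⁻¹ m))) = m

namespace InducedData

variable {N : Subgroup H} [N.FiniteIndex] {M : Rep.{u} k H} {M₀ : Rep.{u} k N}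
  (D : InducedData N M M₀)

lemma isEquivariant_π : H50.IsEquivariant N.subtype M M₀ D.π := fun n m => D.π_equiv n m

lemma isEquivariant_ι :
    H50.IsEquivariant (MonoidHom.id N) M₀ (Rep.res N.subtype M) D.ι := fun n x => D.ι_equiv n x

/-- For an `N`-linear `v : M₀ → B`, the map `v ∘ π` is `N`-equivariant. -/
lemma isSubEquivariant_comp_π {B : Rep.{u} k H} {v : M₀.V →ₗ[k] B.V}
    (hv : ∀ (n : N) (x : M₀.V), v (M₀.ρ n x) = B.ρ (n : H) (v x)) :
    IsSubEquivariant N M.ρ B.ρ (v ∘ₗ D.π) := by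
  intro n hn m
  have := D.π_equiv ⟨n, hn⟩ m
  simp only [LinearMap.comp_apply]
  rw [this, hv]

lemma isSubEquivariant_ιπ : IsSubEquivariant N M.ρ M.ρ (D.ι ∘ₗ D.π) :=
  D.isSubEquivariant_comp_π (B := M) (v := D.ι) D.ι_equiv

lemma normMap_ιπ : normMap N M.ρ M.ρ (D.ι ∘ₗ D.π) = LinearMap.id := by
  ext m
  rw [normMap_apply]
  exact D.sum_eq m

/-- `Nm (v ∘ π)` for `v = h ∘ ι`, `h : M → B` an `H`-linear map, is `h`. -/
lemma normMap_comp_ιπ {B : Rep.{u} k H} (h : M.V →ₗ[k] B.V)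
    (hh : ∀ (g : H) (m : M.V), h (M.ρ g m) = B.ρ g (h m)) :
    normMap N M.ρ B.ρ ((h ∘ₗ D.ι) ∘ₗ D.π) = h := by
  ext m
  rw [normMap_apply]
  simp only [LinearMap.comp_apply]
  simp only [← hh, ← map_sum]
  rw [D.sum_eq m]

/-- **Injectivity of Shapiro in degree one** (cocycle level): if `π ∘ ξ|_N` is a coboundary,
so is `ξ`. -/
theorem exists_eq_coboundary {ξ : H → M.V} (hξ : ∀ g h, ξ (g * h) = ξ g + M.ρ g (ξ h))
    (m₀ : M₀.V) (h : ∀ n : N, D.π (ξ n) = M₀.ρ n m₀ - m₀) :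
    ∃ m : M.V, ∀ g, ξ g = M.ρ g m - m := by
  set b := normCorr N M.ρ M.ρ (D.ι ∘ₗ D.π) ξ with hb
  set c := ∑ q : H ⧸ N, M.ρ (rep N q) (D.ι m₀) with hc
  refine ⟨c - b, fun g => ?_⟩
  have h1 := transferFun_comp_cocycle D.isSubEquivariant_ιπ hξ g
  rw [D.normMap_ιπ, LinearMap.id_apply, ← hb] at h1
  have h2 : transferFun N M.ρ (fun x => (D.ι ∘ₗ D.π) (ξ x)) g =
      transferSub N M.ρ (fun x : N => M.ρ (x : H) (D.ι m₀) - D.ι m₀) g := by
    rw [transferFun_eq_transferSub]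
    congr 1
    funext x
    simp only [LinearMap.comp_apply]
    rw [h x, map_sub, D.ι_equiv]
  rw [h2, transferSub_coboundary, ← hc] at h1
  rw [map_sub]
  have : ξ g = (M.ρ g c - c) - (M.ρ g b - b) := by rw [h1]; abel
  rw [this]; abel

/-- The distinguished element `a₁ = rep N (1 N) ∈ N`. -/
noncomputable def repOne (N : Subgroup H) : N :=
  ⟨rep N ((1 : H) : H ⧸ N), by
    have := mk_rep N ((1 : H) : H ⧸ N)
    rw [QuotientGroup.eq, mul_one] at this
    exact (N.inv_mem_iff).1 this⟩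

omit [N.FiniteIndex] in
@[simp] lemma coe_repOne : ((repOne N : N) : H) = rep N ((1 : H) : H ⧸ N) := rfl

omit [N.FiniteIndex] in
lemma rep_mem_iff (q : H ⧸ N) : rep N q ∈ N ↔ q = ((1 : H) : H ⧸ N) := by
  conv_rhs => rw [← mk_rep N q, QuotientGroup.eq, mul_one, N.inv_mem_iff]

/-- **Surjectivity of Shapiro in degree one** (cocycle level): for a cocycle `c` on `N`,
`π ∘ (transfer of ι ∘ c)|_N` is cohomologous to `c`. -/
theorem π_transferSub_ι [N.Normal] {c : N → M₀.V}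
    (hc : ∀ x y : N, c (x * y) = c x + M₀.ρ x (c y)) (n : N) :
    D.π (transferSub N M.ρ (fun x => D.ι (c x)) (n : H)) =
      c n + (M₀.ρ n (c (repOne N)) - c (repOne N)) := by
  classical
  rw [transferSub_apply, map_sum]
  rw [Finset.sum_eq_single ((1 : H) : H ⧸ N)]
  · -- the term `q = 1`
    have h1 : ((n : H)⁻¹ • ((1 : H) : H ⧸ N)) = ((1 : H) : H ⧸ N) := by
      rw [MulAction.Quotient.smul_mk, smul_eq_mul, mul_one, eq_comm, QuotientGroup.eq, inv_one,
        one_mul]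
      exact N.inv_mem n.2
    have harg : (⟨(rep N ((1 : H) : H ⧸ N))⁻¹ * (n : H) *
        rep N ((n : H)⁻¹ • ((1 : H) : H ⧸ N)), rep_smul_mem N (n : H) _⟩ : N) =
        (repOne N)⁻¹ * n * repOne N := by
      apply Subtype.ext
      simp only [h1, Subgroup.coe_mul, Subgroup.coe_inv, coe_repOne]
    rw [harg]
    have e1 : D.π (M.ρ (rep N ((1 : H) : H ⧸ N)) (D.ι (c ((repOne N)⁻¹ * n * repOne N)))) =
        M₀.ρ (repOne N) (c ((repOne N)⁻¹ * n * repOne N)) := by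
      have := D.π_equiv (repOne N) (D.ι (c ((repOne N)⁻¹ * n * repOne N)))
      rw [D.π_ι, coe_repOne] at this
      exact this
    rw [e1]
    -- cocycle computation
    have hc1 : c 1 = 0 := by
      have := hc 1 1
      simpa using this
    have hcinv : ∀ x : N, c x⁻¹ = - M₀.ρ x⁻¹ (c x) := by
      intro x
      have := hc x⁻¹ x
      rw [inv_mul_cancel, hc1] at this
      exact eq_neg_of_add_eq_zero_left this.symm
    rw [mul_assoc, hc, hc n, hcinv]
    simp only [map_add, map_neg, Representation.self_inv_apply]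
    abel
  · intro q _ hq
    have hnot : rep N q ∉ N := fun hmem => hq ((rep_mem_iff q).1 hmem)
    exact D.orth _ hnot _
  · intro h
    exact absurd (Finset.mem_univ _) h

end InducedData

/-! ## Level cohomology -/

section Level

variable (𝓛 : LevelStructure H) {N : Subgroup H} [N.FiniteIndex] (hN : 𝓛.IsOpen N)
  {M : Rep.{u} k H} {M₀ : Rep.{u} k N} (D : InducedData N M M₀)

/-- Two level cocycles differing by a coboundary have the same class. -/
lemma H1π_eq_of_sub_coboundary {A : Rep.{u} k H} (f f' : 𝓛.cocycles₁ A) (b : A.V)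
    (h : ∀ g, f.1 g = f'.1 g + (A.ρ g b - b)) : 𝓛.H1π A f = 𝓛.H1π A f' := by
  rw [Submodule.mkQ_apply, Submodule.mkQ_apply, Submodule.Quotient.eq]
  simp only [Submodule.mem_comap, Submodule.subtype_apply, Submodule.coe_sub]
  refine ⟨b, ?_⟩
  funext g
  rw [groupCohomology.d₀₁_hom_apply, Pi.sub_apply, h g]
  abel

/-- The Shapiro map `H¹(H; M) → H¹(N; M₀)`: restriction followed by `π`. -/
noncomputable def shH1 : 𝓛.H1 M →ₗ[k] (𝓛.restrict N).H1 M₀ :=
  H50.mapH1 (𝓛.restrict N) 𝓛 (H50.isCont_subtype 𝓛 N) D.isEquivariant_π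

/-- The induction map `H¹(N; M₀) → H¹(H; M)`: `ι` followed by corestriction. -/
noncomputable def indH1 : (𝓛.restrict N).H1 M₀ →ₗ[k] 𝓛.H1 M :=
  corH1 𝓛 N M hN ∘ₗ
    H50.mapH1 (𝓛.restrict N) (𝓛.restrict N) (H50.isCont_id _) D.isEquivariant_ι

/-- **Norm lemma on `H¹`**: for an `N`-linear `v : M₀ → B`, the `H`-linear map `Nm (v ∘ π)`
induces `cor ∘ v_* ∘ sh`. -/
theorem mapH1_normMap {B : Rep.{u} k H} {v : M₀.V →ₗ[k] B.V}
    (hv : H50.IsEquivariant (MonoidHom.id N) M₀ (Rep.res N.subtype B) v)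
    (hNv : H50.IsEquivariant (MonoidHom.id H) M B (normMap N M.ρ B.ρ (v ∘ₗ D.π)))
    (x : 𝓛.H1 M) :
    H50.mapH1 𝓛 𝓛 (H50.isCont_id 𝓛) hNv x =
      corH1 𝓛 N B hN (H50.mapH1 (𝓛.restrict N) (𝓛.restrict N) (H50.isCont_id _) hv
        (shH1 𝓛 D x)) := by
  induction x using Submodule.Quotient.induction_on with
  | H ξ =>
    have hξ : ∀ g h, ξ.1 (g * h) = ξ.1 g + M.ρ g (ξ.1 h) := by
      intro g h
      rw [(groupCohomology.mem_cocycles₁_iff ξ.1).1 ξ.2.1 g h, add_comm]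
    have hsub : IsSubEquivariant N M.ρ B.ρ (v ∘ₗ D.π) :=
      D.isSubEquivariant_comp_π (B := B) (fun n x => hv n x)
    symm
    refine H1π_eq_of_sub_coboundary 𝓛 _ _ (normCorr N M.ρ B.ρ (v ∘ₗ D.π) ξ.1) fun g => ?_
    have h1 := transferFun_comp_cocycle hsub hξ g
    rw [transferFun_eq_transferSub] at h1
    exact h1

/-- `ind ∘ sh = id` on `H¹(H; M)`. -/
theorem indH1_shH1 (x : 𝓛.H1 M) : indH1 𝓛 hN D (shH1 𝓛 D x) = x := by
  induction x using Submodule.Quotient.induction_on with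
  | H ξ =>
    have hξ : ∀ g h, ξ.1 (g * h) = ξ.1 g + M.ρ g (ξ.1 h) := by
      intro g h
      rw [(groupCohomology.mem_cocycles₁_iff ξ.1).1 ξ.2.1 g h, add_comm]
    refine H1π_eq_of_sub_coboundary 𝓛 _ _ (normCorr N M.ρ M.ρ (D.ι ∘ₗ D.π) ξ.1) fun g => ?_
    have h1 := transferFun_comp_cocycle D.isSubEquivariant_ιπ hξ g
    rw [D.normMap_ιπ, LinearMap.id_apply, transferFun_eq_transferSub] at h1
    exact h1

/-- `sh ∘ ind = id` on `H¹(N; M₀)` (for `N` normal). -/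
theorem shH1_indH1 [N.Normal] (y : (𝓛.restrict N).H1 M₀) :
    shH1 𝓛 D (indH1 𝓛 hN D y) = y := by
  induction y using Submodule.Quotient.induction_on with
  | H c =>
    have hc : ∀ x y : N, c.1 (x * y) = c.1 x + M₀.ρ x (c.1 y) := by
      intro x y
      rw [(groupCohomology.mem_cocycles₁_iff c.1).1 c.2.1 x y, add_comm]
    refine H1π_eq_of_sub_coboundary (𝓛.restrict N) _ _ (c.1 (InducedData.repOne N)) fun n => ?_
    exact D.π_transferSub_ι hc n

/-- **Shapiro's lemma in degree one** for an induced module. -/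
noncomputable def shapiroH1 [N.Normal] : 𝓛.H1 M ≃ₗ[k] (𝓛.restrict N).H1 M₀ :=
  LinearEquiv.ofLinearMap (shH1 𝓛 D) (indH1 𝓛 hN D)
    (LinearMap.ext fun y => shH1_indH1 𝓛 hN D y)
    (LinearMap.ext fun x => indH1_shH1 𝓛 hN D x)

@[simp] lemma shapiroH1_apply [N.Normal] (x : 𝓛.H1 M) :
    shapiroH1 𝓛 hN D x = shH1 𝓛 D x := rfl

@[simp] lemma shapiroH1_symm_apply [N.Normal] (y : (𝓛.restrict N).H1 M₀) :
    (shapiroH1 𝓛 hN D).symm y = indH1 𝓛 hN D y := rfl

end Level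

end Fermat.Agent.CFT.H86
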