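import Mathlib
import Fermat.Agent.CFT.H91_WModel
import Fermat.Agent.CFT.H86_Induced

/-!
# Induced data: `Hom(M, W)`, degree zero, and the module `X⋆ = Map(H/N₀, X)`
(CFT / D1-shapiro, part S')

* `InducedData.hom D W` : if `M` is induced from `M₀` then `Hom(M, W)` is induced from
  `Hom(M₀, W|N)`;
* degree zero: `M^H ≃ M₀^N` via `π`, with inverse `x ↦ ∑_q a_q ι x`;
* `Nm (v ∘ π) ∘ ι = v` for `N`-linear `v`;
* `starInducedData` : `X⋆ = starRep N₀ X` is induced from `X|N₀` when `N₀` acts trivially on `X`.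
-/

set_option autoImplicit false

namespace Fermat.Agent.CFT.H86

open Fermat.Agent.CFT

variable {k : Type} [CommRing k] {H : Type} [Group H]

namespace InducedData

variable {N : Subgroup H} [N.FiniteIndex] {M : Rep.{0} k H} {M₀ : Rep.{0} k N}
  (D : InducedData N M M₀)

/-- `Hom(M, W)` is induced from `Hom(M₀, W|N)`. -/
noncomputable def hom (W : Rep.{0} k H) :
    InducedData N (homRep M W) (homRep M₀ (Rep.res N.subtype W)) where
  ι := LinearMap.lcomp k W.V D.π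
  π := LinearMap.lcomp k W.V D.ι
  ι_equiv n f := by
    refine LinearMap.ext fun m => ?_
    show (W.ρ (n : H)) (f (M₀.ρ n⁻¹ (D.π m))) = W.ρ (n : H) (f (D.π (M.ρ (n : H)⁻¹ m)))
    have := D.π_equiv n⁻¹ m
    rw [← this]
    rfl
  π_equiv n φ := by
    refine LinearMap.ext fun x => ?_
    show W.ρ (n : H) (φ (M.ρ (n : H)⁻¹ (D.ι x))) = W.ρ (n : H) (φ (D.ι (M₀.ρ n⁻¹ x)))
    have := D.ι_equiv n⁻¹ x
    rw [this]
    rfl
  π_ι f := by
    refine LinearMap.ext fun x => ?_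
    show f (D.π (D.ι x)) = f x
    rw [D.π_ι]
  orth g hg f := by
    refine LinearMap.ext fun x => ?_
    show W.ρ g (f (D.π (M.ρ g⁻¹ (D.ι x)))) = 0
    rw [D.orth g⁻¹ (fun h => hg (by simpa using N.inv_mem h)), map_zero, map_zero]
  sum_eq φ := by
    refine LinearMap.ext fun m => ?_
    rw [LinearMap.sum_apply]
    have hterm : ∀ q : H ⧸ N,
        ((homRep M W).ρ (rep N q) ((LinearMap.lcomp k W.V D.π) ((LinearMap.lcomp k W.V D.ι)
          ((homRep M W).ρ (rep N q)⁻¹ φ)))) m =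
        φ (M.ρ (rep N q) (D.ι (D.π (M.ρ (rep N q)⁻¹ m)))) := by
      intro q
      show W.ρ (rep N q) (W.ρ (rep N q)⁻¹ (φ (M.ρ (rep N q)⁻¹⁻¹
        (D.ι (D.π (M.ρ (rep N q)⁻¹ m)))))) = _
      rw [Representation.self_inv_apply, inv_inv]
    rw [Finset.sum_congr rfl fun q _ => hterm q, ← map_sum, D.sum_eq]

/-- For `x ∈ M₀^N`, the element `∑_q a_q ι x` of `M`. -/
noncomputable def indInv (x : M₀.V) : M.V := ∑ q : H ⧸ N, M.ρ (rep N q) (D.ι x)

lemma indInv_mem_invariants {x : M₀.V} (hx : ∀ n : N, M₀.ρ n x = x) (g : H) :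
    M.ρ g (D.indInv x) = D.indInv x := by
  unfold indInv
  rw [map_sum]
  rw [← Equiv.sum_comp (MulAction.toPerm g : H ⧸ N ≃ H ⧸ N)
    (fun q => M.ρ (rep N q) (D.ι x))]
  refine Finset.sum_congr rfl fun q _ => ?_
  rw [MulAction.toPerm_apply]
  -- `g * a_q = a_{g q} * n`
  have hmem : (rep N (g • q))⁻¹ * (g * rep N q) ∈ N := by
    rw [← QuotientGroup.eq, mk_rep, smul_eq_mk]
  have e : g * rep N q = rep N (g • q) * ((rep N (g • q))⁻¹ * (g * rep N q)) := by group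
  rw [← Module.End.mul_apply, ← map_mul, e, map_mul, Module.End.mul_apply]
  congr 1
  have := D.ι_equiv ⟨_, hmem⟩ x
  rw [hx] at this
  exact this.symm

lemma eq_indInv_of_invariant {m : M.V} (hm : ∀ g, M.ρ g m = m) : m = D.indInv (D.π m) := by
  conv_lhs => rw [← D.sum_eq m]
  unfold indInv
  simp only [hm]

lemma π_indInv [N.Normal] {x : M₀.V} (hx : ∀ n : N, M₀.ρ n x = x) : D.π (D.indInv x) = x := by
  classical
  unfold indInv
  rw [map_sum, Finset.sum_eq_single ((1 : H) : H ⧸ N)]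
  · have := D.π_equiv (repOne N) (D.ι x)
    rw [coe_repOne] at this
    rw [this, D.π_ι, hx]
  · intro q _ hq
    exact D.orth _ (fun hmem => hq ((rep_mem_iff q).1 hmem)) _
  · intro h
    exact absurd (Finset.mem_univ _) h

lemma π_mem_invariants {m : M.V} (hm : ∀ g, M.ρ g m = m) (n : N) : M₀.ρ n (D.π m) = D.π m := by
  rw [← D.π_equiv, hm]

/-- `Nm (v ∘ π) ∘ ι = v` for an `N`-linear `v`. -/
lemma normMap_comp_π_ι [N.Normal] {B : Rep.{0} k H} {v : M₀.V →ₗ[k] B.V}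
    (hv : ∀ (n : N) (x : M₀.V), v (M₀.ρ n x) = B.ρ (n : H) (v x)) (x : M₀.V) :
    normMap N M.ρ B.ρ (v ∘ₗ D.π) (D.ι x) = v x := by
  classical
  rw [normMap_apply, Finset.sum_eq_single ((1 : H) : H ⧸ N)]
  · simp only [LinearMap.comp_apply]
    have h1 := D.π_equiv (repOne N)⁻¹ (D.ι x)
    rw [D.π_ι] at h1
    have h2 : ((repOne N)⁻¹ : N) = ⟨(rep N ((1 : H) : H ⧸ N))⁻¹, N.inv_mem (repOne N).2⟩ := rfl
    rw [h2] at h1
    rw [h1, hv, ← h2]
    show B.ρ (rep N ((1 : H) : H ⧸ N)) (B.ρ (((repOne N)⁻¹ : N) : H) (v x)) = v x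
    rw [Subgroup.coe_inv, coe_repOne, Representation.self_inv_apply]
  · intro q _ hq
    simp only [LinearMap.comp_apply]
    rw [D.orth _ (fun hmem => hq ((rep_mem_iff q).1 (by simpa using N.inv_mem hmem))) x,
      map_zero, map_zero]
  · intro h
    exact absurd (Finset.mem_univ _) h

end InducedData

/-! ## The module `X⋆` -/

section Star

variable (N₀ : Subgroup H) [N₀.FiniteIndex] (X : Rep.{0} k H)

omit [N₀.FiniteIndex] in
lemma starRep_ρ_apply (g : H) (f : H ⧸ N₀ → X.V) (y : H ⧸ N₀) :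
    (starRep N₀ X).ρ g f y = X.ρ g (f (g⁻¹ • y)) := rfl

omit [N₀.FiniteIndex] in
lemma smul_mk_one (g : H) : g • ((1 : H) : H ⧸ N₀) = (g : H ⧸ N₀) := by
  rw [MulAction.Quotient.smul_mk, smul_eq_mul, mul_one]

omit [N₀.FiniteIndex] in
lemma mk_eq_mk_one_iff (g : H) : (g : H ⧸ N₀) = ((1 : H) : H ⧸ N₀) ↔ g ∈ N₀ := by
  rw [QuotientGroup.eq, mul_one, N₀.inv_mem_iff]

open Classical in
/-- `X⋆ = Map(H/N₀, X)` is induced from `X|N₀` when `N₀` acts trivially on `X`. -/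
noncomputable def starInducedData (htriv : ∀ n ∈ N₀, X.ρ n = 1) :
    InducedData N₀ (starRep N₀ X) (Rep.res N₀.subtype X) where
  ι := LinearMap.single k (fun _ : H ⧸ N₀ => X.V) ((1 : H) : H ⧸ N₀)
  π := LinearMap.proj ((1 : H) : H ⧸ N₀)
  ι_equiv n x := by
    have hn : (Rep.res N₀.subtype X).ρ n x = x := by
      show X.ρ (n : H) x = x
      rw [htriv n n.2, Module.End.one_apply]
    rw [hn]
    funext y
    rw [starRep_ρ_apply, htriv n n.2, Module.End.one_apply]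
    simp only [LinearMap.coe_single, Pi.single_apply]
    have : ((n : H)⁻¹ • y = ((1 : H) : H ⧸ N₀)) ↔ (y = ((1 : H) : H ⧸ N₀)) := by
      rw [inv_smul_eq_iff, smul_mk_one, (mk_eq_mk_one_iff N₀ _).2 n.2]
    simp only [this]
  π_equiv n m := by
    show X.ρ (n : H) (m ((n : H)⁻¹ • ((1 : H) : H ⧸ N₀))) = X.ρ (n : H) (m ((1 : H) : H ⧸ N₀))
    rw [smul_mk_one, (mk_eq_mk_one_iff N₀ _).2 (N₀.inv_mem n.2)]
  π_ι x := by simp
  orth g hg x := by
    show X.ρ g ((LinearMap.single k (fun _ : H ⧸ N₀ => X.V) ((1 : H) : H ⧸ N₀) x)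
      (g⁻¹ • ((1 : H) : H ⧸ N₀))) = 0
    rw [smul_mk_one, LinearMap.coe_single, Pi.single_apply, if_neg, map_zero]
    rw [mk_eq_mk_one_iff, N₀.inv_mem_iff]
    exact hg
  sum_eq m := by
    funext y
    rw [Finset.sum_apply]
    rw [Finset.sum_eq_single y]
    · rw [starRep_ρ_apply, LinearMap.coe_single, Pi.single_apply, if_pos]
      · show X.ρ (rep N₀ y) ((starRep N₀ X).ρ (rep N₀ y)⁻¹ m ((1 : H) : H ⧸ N₀)) = m y
        rw [starRep_ρ_apply, inv_inv, smul_mk_one, mk_rep, Representation.self_inv_apply]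
      · rw [inv_smul_eq_iff, smul_mk_one, mk_rep]
    · intro q _ hq
      rw [starRep_ρ_apply, LinearMap.coe_single, Pi.single_apply, if_neg, map_zero]
      rw [inv_smul_eq_iff, smul_mk_one, mk_rep]
      exact fun h => hq h.symm
    · intro h
      exact absurd (Finset.mem_univ _) h

end Star

end Fermat.Agent.CFT.H86
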