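import Mathlib
import Fermat.Agent.CFT.H91_WModel

/-!
# Duality for trivial modules from duality for the ground field (CFT / D1-shapiro, part T)

`G` a group with level structure `𝓜`, `k` a field, `X₀` a finite-dimensional `G`-module with
trivial action, `W₀` any `G`-module and `t : H¹(G; W₀) → k` a linear form.

* `bijective_pair10_of_trivial` : if `t` is bijective then
  `H¹(G; Hom(X₀, W₀)) → (X₀^G)^∨`, `([φ], x) ↦ t [g ↦ φ(g)(x)]`, is bijective.
* `dual1_of_trivial` : if `P : W₀^G → H¹(G; k)^∨`, `(w, χ) ↦ t [g ↦ χ(g) • w]`, is surjective with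
  kernel `d₀ (Vm₀^G)`, then `Hom_G(X₀, W₀) → H¹(G; X₀)^∨`, `(h, [ξ]) ↦ t [g ↦ h (ξ g)]`, is
  surjective with kernel `d₀ ∘ Hom_G(X₀, Vm₀)`.

Both are proved by choosing a basis of `X₀`.
-/

set_option autoImplicit false

namespace Fermat.Agent.CFT.H86

open Fermat.Agent.CFT

section General

variable {k : Type} [CommRing k] {G : Type} [Group G] (𝓜 : LevelStructure G)

/-- A level class vanishes iff the cocycle is a coboundary. -/
lemma H1π_eq_zero_iff {A : Rep.{0} k G} (f : 𝓜.cocycles₁ A) :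
    𝓜.H1π A f = 0 ↔ ∃ a : A.V, ∀ g, f.1 g = A.ρ g a - a := by
  rw [Submodule.mkQ_apply, Submodule.Quotient.mk_eq_zero]
  simp only [Submodule.mem_comap, Submodule.subtype_apply]
  constructor
  · rintro ⟨a, ha⟩
    refine ⟨a, fun g => ?_⟩
    rw [← ha, groupCohomology.d₀₁_hom_apply]
  · rintro ⟨a, ha⟩
    refine ⟨a, ?_⟩
    funext g
    rw [groupCohomology.d₀₁_hom_apply, ha g]

/-- The scalar multiplication pairing `A × k → A`. -/
noncomputable def smulPairing₀ (A : Rep.{0} k G) : RepPairing A (Rep.trivial k G k) A where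
  toFun := (LinearMap.lsmul k A.V).flip
  equivariant g a c := by
    simp [Rep.trivial]

end General

section Trivial

variable {k : Type} [Field k] {G : Type} [Group G] (𝓜 : LevelStructure G)
  (X₀ W₀ : Rep.{0} k G) (htriv : ∀ g, X₀.ρ g = 1)

include htriv in
lemma mem_invariants_of_trivial (x : X₀.V) : x ∈ X₀.ρ.invariants := fun g => by
  rw [htriv g, Module.End.one_apply]

include htriv in
/-- **Degree 2, trivial module**: if `t : H¹(G; W₀) → k` is bijective then the evaluation pairing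
`H¹(G; Hom(X₀, W₀)) × X₀^G → H¹(G; W₀) → k` is perfect on the left. -/
theorem bijective_pair10_of_trivial [Module.Finite k X₀.V]
    (t : 𝓜.H1 W₀ →ₗ[k] k) (ht : Function.Bijective t) :
    Function.Bijective ((pair10 𝓜 (evalPairing X₀ W₀)).compr₂ t) := by
  have hinv := mem_invariants_of_trivial X₀ htriv
  constructor
  · rw [injective_iff_map_eq_zero]
    intro ψ hψ
    induction ψ using Submodule.Quotient.induction_on with
    | H c =>
      let b := Module.finBasis k X₀.V
      have key : ∀ i, ∃ w : W₀.V, ∀ g, c.1 g (b i) = W₀.ρ g w - w := by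
        intro i
        have h1 := LinearMap.congr_fun hψ ⟨b i, hinv (b i)⟩
        have h2 : pair10 𝓜 (evalPairing X₀ W₀) (𝓜.H1π _ c) ⟨b i, hinv (b i)⟩ = 0 :=
          ht.1 (by rw [map_zero]; exact h1)
        rw [pair10_mk, H1π_eq_zero_iff] at h2
        exact h2
      choose w hw using key
      show 𝓜.H1π _ c = 0
      rw [H1π_eq_zero_iff]
      refine ⟨b.constr k w, fun g => ?_⟩
      refine b.ext fun i => ?_
      rw [hw i g]
      show _ = ((homRep X₀ W₀).ρ g (b.constr k w)) (b i) - (b.constr k w) (b i)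
      rw [homRep_ρ_apply, htriv, Module.End.one_apply, Module.Basis.constr_basis]
  · intro θ
    obtain ⟨ζ, hζ⟩ := ht.2 1
    induction ζ using Submodule.Quotient.induction_on with
    | H c0 =>
      have hc0 := (groupCohomology.mem_cocycles₁_iff c0.1).1 c0.2.1
      let θ' : X₀.V →ₗ[k] k := θ ∘ₗ LinearMap.codRestrict X₀.ρ.invariants LinearMap.id hinv
      have hc : (fun g => θ'.smulRight (c0.1 g)) ∈ 𝓜.cocycles₁ (homRep X₀ W₀) := by
        refine Submodule.mem_inf.2 ⟨?_, ?_⟩
        · rw [groupCohomology.mem_cocycles₁_iff]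
          intro g h
          refine LinearMap.ext fun x => ?_
          rw [LinearMap.add_apply, homRep_ρ_apply, htriv, Module.End.one_apply]
          simp only [LinearMap.smulRight_apply]
          rw [hc0 g h, smul_add, map_smul]
        · exact LevelStructure.IsConst₁.comp c0.2.2 (fun w => θ'.smulRight w)
      refine ⟨𝓜.H1π _ ⟨_, hc⟩, ?_⟩
      refine LinearMap.ext fun x => ?_
      rw [LinearMap.compr₂_apply, pair10_mk]
      have e : pair10Z 𝓜 (evalPairing X₀ W₀) ⟨_, hc⟩ x = θ x • c0 := by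
        apply Subtype.ext
        funext g
        show (θ'.smulRight (c0.1 g)) x.1 = θ x • c0.1 g
        rw [LinearMap.smulRight_apply]
        rfl
      rw [e, map_smul, map_smul]
      have hζ' : t (𝓜.H1π W₀ c0) = 1 := hζ
      rw [hζ', smul_eq_mul, mul_one]

end Trivial

/-! ## Degree one -/

section Trivial1

variable {k : Type} [Field k] {G : Type} [Group G] (𝓜 : LevelStructure G)
  (X₀ : Rep.{0} k G) (htriv : ∀ g, X₀.ρ g = 1)
  {ι : Type} [Fintype ι] (b : Module.Basis ι k X₀.V)

omit [Fintype ι] in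
include htriv in
lemma isEquivariant_coord (i : ι) :
    H50.IsEquivariant (MonoidHom.id G) X₀ (Rep.trivial k G k) (b.coord i) := fun g a => by
  show b.coord i (X₀.ρ g a) = b.coord i a
  rw [htriv, Module.End.one_apply]

omit [Fintype ι] in
include htriv in
lemma isEquivariant_single (i : ι) :
    H50.IsEquivariant (MonoidHom.id G) (Rep.trivial k G k) X₀
      (LinearMap.toSpanSingleton k X₀.V (b i)) := fun g c => by
  show LinearMap.toSpanSingleton k X₀.V (b i) c =
    X₀.ρ g (LinearMap.toSpanSingleton k X₀.V (b i) c)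
  rw [htriv, Module.End.one_apply]

/-- The `i`-th coordinate `H¹(G; X₀) → H¹(G; k)`. -/
noncomputable def coordH1 (i : ι) : 𝓜.H1 X₀ →ₗ[k] 𝓜.H1 (Rep.trivial k G k) :=
  H50.mapH1 𝓜 𝓜 (H50.isCont_id 𝓜) (isEquivariant_coord X₀ htriv b i)

/-- The `i`-th inclusion `H¹(G; k) → H¹(G; X₀)`. -/
noncomputable def inclH1 (i : ι) : 𝓜.H1 (Rep.trivial k G k) →ₗ[k] 𝓜.H1 X₀ :=
  H50.mapH1 𝓜 𝓜 (H50.isCont_id 𝓜) (isEquivariant_single X₀ htriv b i)

lemma sum_inclH1_coordH1 (ξ : 𝓜.H1 X₀) :
    ∑ i, inclH1 𝓜 X₀ htriv b i (coordH1 𝓜 X₀ htriv b i ξ) = ξ := by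
  induction ξ using Submodule.Quotient.induction_on with
  | H c =>
    show ∑ i, 𝓜.H1π X₀ (H50.mapZ1 𝓜 𝓜 (H50.isCont_id 𝓜) (isEquivariant_single X₀ htriv b i)
      (H50.mapZ1 𝓜 𝓜 (H50.isCont_id 𝓜) (isEquivariant_coord X₀ htriv b i) c)) = 𝓜.H1π X₀ c
    rw [← map_sum]
    congr 1
    apply Subtype.ext
    funext g
    rw [Submodule.coe_sum, Finset.sum_apply]
    show ∑ i, (b.coord i (c.1 g)) • b i = c.1 g
    simp only [Module.Basis.coord_apply]
    exact b.sum_repr (c.1 g)

omit [Fintype ι] in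
open Classical in
lemma coordH1_inclH1 (i j : ι) (χ : 𝓜.H1 (Rep.trivial k G k)) :
    coordH1 𝓜 X₀ htriv b j (inclH1 𝓜 X₀ htriv b i χ) = if i = j then χ else 0 := by
  induction χ using Submodule.Quotient.induction_on with
  | H f =>
    show 𝓜.H1π _ (H50.mapZ1 𝓜 𝓜 (H50.isCont_id 𝓜) (isEquivariant_coord X₀ htriv b j)
      (H50.mapZ1 𝓜 𝓜 (H50.isCont_id 𝓜) (isEquivariant_single X₀ htriv b i) f)) =
        if i = j then 𝓜.H1π _ f else 0
    have e : (H50.mapZ1 𝓜 𝓜 (H50.isCont_id 𝓜) (isEquivariant_coord X₀ htriv b j)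
      (H50.mapZ1 𝓜 𝓜 (H50.isCont_id 𝓜) (isEquivariant_single X₀ htriv b i) f)) =
        if i = j then f else 0 := by
      apply Subtype.ext
      funext g
      show b.coord j (f.1 g • b i) = _
      rw [map_smul, Module.Basis.coord_apply, Module.Basis.repr_self, Finsupp.single_apply]
      split_ifs with h
      · rw [smul_eq_mul, mul_one]
      · rw [smul_zero]; rfl
    rw [e]
    split_ifs
    · rfl
    · exact map_zero _

variable (W₀ : Rep.{0} k G)

include htriv in
lemma apply_mem_invariants_of_trivial {h : X₀.V →ₗ[k] W₀.V}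
    (hh : h ∈ (homRep X₀ W₀).ρ.invariants) (x : X₀.V) : h x ∈ W₀.ρ.invariants := fun g => by
  rw [← (mem_invariants_homRep_iff X₀ W₀ h).1 hh g x, htriv, Module.End.one_apply]

omit [Fintype ι] in
include htriv in
lemma constr_mem_invariants_of_trivial (w : ι → W₀.V) (hw : ∀ i, w i ∈ W₀.ρ.invariants) :
    b.constr k w ∈ (homRep X₀ W₀).ρ.invariants := by
  rw [mem_invariants_homRep_iff]
  intro g x
  rw [htriv, Module.End.one_apply]
  have : W₀.ρ g ∘ₗ b.constr k w = b.constr k w := by
    refine b.ext fun i => ?_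
    rw [LinearMap.comp_apply, Module.Basis.constr_basis]
    exact hw i g
  exact (LinearMap.congr_fun this x).symm

/-- The evaluation pairing against a trivial module in coordinates. -/
lemma pair01_eval_eq_sum (h : (homRep X₀ W₀).ρ.invariants) (ξ : 𝓜.H1 X₀) :
    pair01 𝓜 (evalPairing X₀ W₀) h ξ =
      ∑ i, pair01 𝓜 (smulPairing₀ W₀)
        ⟨h.1 (b i), apply_mem_invariants_of_trivial X₀ htriv W₀ h.2 (b i)⟩
        (coordH1 𝓜 X₀ htriv b i ξ) := by
  induction ξ using Submodule.Quotient.induction_on with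
  | H c =>
    show 𝓜.H1π W₀ (pair01Z 𝓜 (evalPairing X₀ W₀) h c) =
      ∑ i, 𝓜.H1π W₀ (pair01Z 𝓜 (smulPairing₀ W₀)
        ⟨h.1 (b i), apply_mem_invariants_of_trivial X₀ htriv W₀ h.2 (b i)⟩
        (H50.mapZ1 𝓜 𝓜 (H50.isCont_id 𝓜) (isEquivariant_coord X₀ htriv b i) c))
    rw [← map_sum]
    congr 1
    apply Subtype.ext
    funext g
    rw [Submodule.coe_sum, Finset.sum_apply]
    show h.1 (c.1 g) = ∑ i, (b.coord i (c.1 g)) • h.1 (b i)
    conv_lhs => rw [← b.sum_repr (c.1 g), map_sum]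
    simp only [map_smul, Module.Basis.coord_apply]

variable {Vm₀ : Rep.{0} k G} {W₀} (d₀ : Vm₀ ⟶ W₀)

include htriv in
/-- **Degree 1, trivial module.** -/
theorem dual1_of_trivial [Module.Finite k X₀.V] (t : 𝓜.H1 W₀ →ₗ[k] k)
    (hsurj : Function.Surjective ((pair01 𝓜 (smulPairing₀ W₀)).compr₂ t))
    (hker : LinearMap.ker ((pair01 𝓜 (smulPairing₀ W₀)).compr₂ t) =
      LinearMap.range (H50.coeffH0 d₀)) :
    Function.Surjective ((pair01 𝓜 (evalPairing X₀ W₀)).compr₂ t) ∧
      LinearMap.ker ((pair01 𝓜 (evalPairing X₀ W₀)).compr₂ t) =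
        LinearMap.range (H50.coeffH0 (homRepMap X₀ d₀)) := by
  classical
  let b := Module.finBasis k X₀.V
  set P := (pair01 𝓜 (smulPairing₀ W₀)).compr₂ t with hP
  have formula : ∀ (h : (homRep X₀ W₀).ρ.invariants) (ξ : 𝓜.H1 X₀),
      (pair01 𝓜 (evalPairing X₀ W₀)).compr₂ t h ξ =
        ∑ i, P ⟨h.1 (b i), apply_mem_invariants_of_trivial X₀ htriv W₀ h.2 (b i)⟩
          (coordH1 𝓜 X₀ htriv b i ξ) := by
    intro h ξ
    rw [LinearMap.compr₂_apply, pair01_eval_eq_sum 𝓜 X₀ htriv b W₀ h ξ, map_sum]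
    rfl
  constructor
  · intro Θ
    have hw : ∀ i, ∃ w : W₀.ρ.invariants, P w = Θ ∘ₗ inclH1 𝓜 X₀ htriv b i := fun i => hsurj _
    choose w hw using hw
    refine ⟨⟨b.constr k (fun i => (w i).1),
      constr_mem_invariants_of_trivial X₀ htriv b W₀ _ (fun i => (w i).2)⟩, ?_⟩
    refine LinearMap.ext fun ξ => ?_
    rw [formula]
    have e : ∀ i, (⟨(b.constr k (fun i => (w i).1)) (b i),
        apply_mem_invariants_of_trivial X₀ htriv W₀
          (constr_mem_invariants_of_trivial X₀ htriv b W₀ _ (fun i => (w i).2)) (b i)⟩ :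
          W₀.ρ.invariants) = w i := by
      intro i
      apply Subtype.ext
      exact Module.Basis.constr_basis _ _ _ _
    simp only [e, hw, LinearMap.comp_apply]
    rw [← map_sum, sum_inclH1_coordH1]
  · apply le_antisymm
    · intro h hh
      rw [LinearMap.mem_ker] at hh
      have h1 : ∀ j, (⟨h.1 (b j), apply_mem_invariants_of_trivial X₀ htriv W₀ h.2 (b j)⟩ :
          W₀.ρ.invariants) ∈ LinearMap.ker P := by
        intro j
        rw [LinearMap.mem_ker]
        refine LinearMap.ext fun χ => ?_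
        have := LinearMap.congr_fun hh (inclH1 𝓜 X₀ htriv b j χ)
        rw [formula] at this
        simp only [coordH1_inclH1] at this
        rw [Finset.sum_eq_single j] at this
        · simpa using this
        · intro i _ hij
          rw [if_neg (Ne.symm hij), map_zero]
        · intro hj
          exact absurd (Finset.mem_univ _) hj
      rw [hker] at h1
      choose v hv using h1
      refine ⟨⟨b.constr k (fun j => (v j).1),
        constr_mem_invariants_of_trivial X₀ htriv b Vm₀ _ (fun j => (v j).2)⟩, ?_⟩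
      apply Subtype.ext
      refine b.ext fun j => ?_
      show d₀.hom ((b.constr k (fun j => (v j).1)) (b j)) = h.1 (b j)
      rw [Module.Basis.constr_basis]
      exact congrArg Subtype.val (hv j)
    · rintro h ⟨u, rfl⟩
      rw [LinearMap.mem_ker]
      refine LinearMap.ext fun ξ => ?_
      rw [formula]
      refine Finset.sum_eq_zero fun i _ => ?_
      have hmem : (⟨(H50.coeffH0 (homRepMap X₀ d₀) u).1 (b i),
          apply_mem_invariants_of_trivial X₀ htriv W₀ (H50.coeffH0 (homRepMap X₀ d₀) u).2 (b i)⟩ :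
          W₀.ρ.invariants) ∈ LinearMap.ker P := by
        rw [hker]
        exact ⟨⟨u.1 (b i), apply_mem_invariants_of_trivial X₀ htriv Vm₀ u.2 (b i)⟩, rfl⟩
      rw [LinearMap.mem_ker] at hmem
      rw [hmem]
      rfl

end Trivial1

end Fermat.Agent.CFT.H86
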