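import Mathlib
import Fermat.Agent.CFT.H91_WModel
import Fermat.Agent.CFT.H86_InducedHom
import Fermat.Agent.CFT.H86_TrivialDuality
import Fermat.Agent.CFT.H86_D1Axioms

/-!
# D1-shapiro: duality for `X⋆ = Map(H/N₀, X)` from the axioms (I1'), (I2') at `N₀`

* `InducedData.invEquiv` : `M^H ≃ M₀^N` for an induced module;
* `pair10_eq_cor`, `pair01_eq_cor` : under Shapiro's isomorphisms the evaluation pairings over `H`
  become the evaluation pairings over `N` followed by corestriction;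
* `bijective_pair10_of_induced`, `dual1_of_induced` : duality statements for an induced module `M`
  follow from the corresponding statements over `N` for `M₀` (with `tr ∘ cor`);
* `D1_shapiro` : the statement of the layer-D skeleton.
-/

set_option autoImplicit false

namespace Fermat.Agent.CFT.H86

open Fermat.Agent.CFT

section Pairings

variable {k : Type} [CommRing k] {G : Type} [Group G] (𝓜 : LevelStructure G)
  {A B C : Rep.{0} k G} (β : RepPairing A B C)

/-- `pair10 (-, b)` is the map induced by `β (-, b)`. -/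
lemma mapH1_eq_pair10 (b : B.ρ.invariants) {α : A.V →ₗ[k] C.V}
    (hα : H50.IsEquivariant (MonoidHom.id G) A C α) (h : ∀ a, α a = β.toFun a b.1)
    (x : 𝓜.H1 A) :
    H50.mapH1 𝓜 𝓜 (H50.isCont_id 𝓜) hα x = pair10 𝓜 β x b := by
  induction x using Submodule.Quotient.induction_on with
  | H c =>
    show 𝓜.H1π C (H50.mapZ1 𝓜 𝓜 (H50.isCont_id 𝓜) hα c) = 𝓜.H1π C (pair10Z 𝓜 β c b)
    congr 1
    apply Subtype.ext
    funext g
    exact h (c.1 g)

/-- `pair01 (a, -)` is the map induced by `β (a, -)`. -/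
lemma mapH1_eq_pair01 (a : A.ρ.invariants) {α : B.V →ₗ[k] C.V}
    (hα : H50.IsEquivariant (MonoidHom.id G) B C α) (h : ∀ b, α b = β.toFun a.1 b)
    (x : 𝓜.H1 B) :
    H50.mapH1 𝓜 𝓜 (H50.isCont_id 𝓜) hα x = pair01 𝓜 β a x := by
  induction x using Submodule.Quotient.induction_on with
  | H c =>
    show 𝓜.H1π C (H50.mapZ1 𝓜 𝓜 (H50.isCont_id 𝓜) hα c) = 𝓜.H1π C (pair01Z 𝓜 β a c)
    congr 1
    apply Subtype.ext
    funext g
    exact h (c.1 g)

end Pairings

section Induced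

variable {k : Type} [CommRing k] {H : Type} [Group H] (𝓛 : LevelStructure H)
  {N : Subgroup H} [N.FiniteIndex] [N.Normal] (hN : 𝓛.IsOpen N)
  {M : Rep.{0} k H} {M₀ : Rep.{0} k N} (D : InducedData N M M₀)

/-- Shapiro in degree zero: `M^H ≃ M₀^N`. -/
noncomputable def InducedData.invEquiv : M.ρ.invariants ≃ₗ[k] M₀.ρ.invariants where
  toFun y := ⟨D.π y.1, D.π_mem_invariants y.2⟩
  map_add' y y' := Subtype.ext (map_add D.π y.1 y'.1)
  map_smul' c y := Subtype.ext (map_smul D.π c y.1)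
  invFun x := ⟨D.indInv x.1, D.indInv_mem_invariants x.2⟩
  left_inv y := Subtype.ext (D.eq_indInv_of_invariant y.2).symm
  right_inv x := Subtype.ext (D.π_indInv x.2)

@[simp] lemma InducedData.invEquiv_coe (y : M.ρ.invariants) :
    ((D.invEquiv y : M₀.ρ.invariants) : M₀.V) = D.π y.1 := rfl

variable (W : Rep.{0} k H)

/-- **Compatibility of the `H¹ × H⁰` evaluation pairing with Shapiro.** -/
theorem pair10_eq_cor (φ : 𝓛.H1 (homRep M W)) (y : M.ρ.invariants) :
    pair10 𝓛 (evalPairing M W) φ y =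
      corH1 𝓛 N W hN (pair10 (𝓛.restrict N) (evalPairing M₀ (Rep.res N.subtype W))
        (shH1 𝓛 (D.hom W) φ) (D.invEquiv y)) := by
  -- the `N`-linear map `ev_{π y}`
  let v : (homRep M₀ (Rep.res N.subtype W)).V →ₗ[k] W.V := LinearMap.applyₗ (D.π y.1)
  have hv : H50.IsEquivariant (MonoidHom.id N) (homRep M₀ (Rep.res N.subtype W))
      (Rep.res N.subtype W) v := by
    intro n f
    show W.ρ (n : H) (f (M₀.ρ n⁻¹ (D.π y.1))) = W.ρ (n : H) (f (D.π y.1))
    rw [D.π_mem_invariants y.2]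
  have hNm : normMap N (homRep M W).ρ W.ρ (v ∘ₗ (D.hom W).π) = LinearMap.applyₗ y.1 := by
    refine LinearMap.ext fun f => ?_
    rw [normMap_apply]
    have hterm : ∀ q : H ⧸ N, W.ρ (rep N q)
        ((v ∘ₗ (D.hom W).π) ((homRep M W).ρ (rep N q)⁻¹ f)) =
          f (M.ρ (rep N q) (D.ι (D.π y.1))) := by
      intro q
      show W.ρ (rep N q) (W.ρ (rep N q)⁻¹ (f (M.ρ (rep N q)⁻¹⁻¹ (D.ι (D.π y.1))))) = _
      rw [Representation.self_inv_apply, inv_inv]
    rw [Finset.sum_congr rfl fun q _ => hterm q, ← map_sum]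
    show f (D.indInv (D.π y.1)) = f y.1
    rw [← D.eq_indInv_of_invariant y.2]
  have hNv : H50.IsEquivariant (MonoidHom.id H) (homRep M W) W
      (normMap N (homRep M W).ρ W.ρ (v ∘ₗ (D.hom W).π)) := fun g a =>
    normMap_equivariant ((D.hom W).isSubEquivariant_comp_π (B := W) (fun n x => hv n x)) g a
  have h1 := mapH1_normMap 𝓛 hN (D.hom W) hv hNv φ
  rw [mapH1_eq_pair10 𝓛 (evalPairing M W) y hNv (fun f => by rw [hNm]; rfl) φ] at h1
  rw [h1]
  congr 1
  exact mapH1_eq_pair10 (𝓛.restrict N) (evalPairing M₀ (Rep.res N.subtype W)) (D.invEquiv y) hv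
    (fun f => rfl) _

/-- **Compatibility of the `H⁰ × H¹` evaluation pairing with Shapiro.** -/
theorem pair01_eq_cor (h : (homRep M W).ρ.invariants) (ξ : 𝓛.H1 M) :
    pair01 𝓛 (evalPairing M W) h ξ =
      corH1 𝓛 N W hN (pair01 (𝓛.restrict N) (evalPairing M₀ (Rep.res N.subtype W))
        ((D.hom W).invEquiv h) (shH1 𝓛 D ξ)) := by
  have hh := (mem_invariants_homRep_iff M W h.1).1 h.2
  let v : M₀.V →ₗ[k] W.V := h.1 ∘ₗ D.ι
  have hv : H50.IsEquivariant (MonoidHom.id N) M₀ (Rep.res N.subtype W) v := by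
    intro n x
    show h.1 (D.ι (M₀.ρ n x)) = W.ρ (n : H) (h.1 (D.ι x))
    rw [D.ι_equiv, hh]
  have hNm : normMap N M.ρ W.ρ (v ∘ₗ D.π) = h.1 := D.normMap_comp_ιπ h.1 hh
  have hNv : H50.IsEquivariant (MonoidHom.id H) M W (normMap N M.ρ W.ρ (v ∘ₗ D.π)) := by
    rw [hNm]; exact hh
  have h1 := mapH1_normMap 𝓛 hN D hv hNv ξ
  rw [mapH1_eq_pair01 𝓛 (evalPairing M W) h hNv (fun x => by rw [hNm]; rfl) ξ] at h1
  rw [h1]
  congr 1
  exact mapH1_eq_pair01 (𝓛.restrict N) (evalPairing M₀ (Rep.res N.subtype W))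
    ((D.hom W).invEquiv h) hv (fun x => rfl) _

variable (tr : 𝓛.H1 W →ₗ[k] k)

include D in
/-- **Degree 2 duality for an induced module** from the statement over `N`. -/
theorem bijective_pair10_of_induced
    (hA : Function.Bijective ((pair10 (𝓛.restrict N)
      (evalPairing M₀ (Rep.res N.subtype W))).compr₂ (tr ∘ₗ corH1 𝓛 N W hN))) :
    Function.Bijective ((pair10 𝓛 (evalPairing M W)).compr₂ tr) := by
  have e : ⇑((pair10 𝓛 (evalPairing M W)).compr₂ tr) =
      ⇑(D.invEquiv.dualMap) ∘ ⇑((pair10 (𝓛.restrict N)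
        (evalPairing M₀ (Rep.res N.subtype W))).compr₂ (tr ∘ₗ corH1 𝓛 N W hN)) ∘
          ⇑(shapiroH1 𝓛 hN (D.hom W)) := by
    funext φ
    refine LinearMap.ext fun y => ?_
    show tr (pair10 𝓛 (evalPairing M W) φ y) = _
    rw [pair10_eq_cor 𝓛 hN D W φ y]
    rfl
  rw [e]
  exact D.invEquiv.dualMap.bijective.comp (hA.comp (shapiroH1 𝓛 hN (D.hom W)).bijective)

variable {Vm : Rep.{0} k H} (d : Vm ⟶ W)

/-- Naturality of degree-zero Shapiro for `Hom(M, -)` in the coefficient map `d`. -/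
lemma invEquiv_coeffH0 (u : (homRep M Vm).ρ.invariants) :
    (D.hom W).invEquiv (H50.coeffH0 (homRepMap M d) u) =
      H50.coeffH0 (homRepMap M₀ ((Rep.resFunctor N.subtype).map d)) ((D.hom Vm).invEquiv u) := by
  apply Subtype.ext
  refine LinearMap.ext fun x => ?_
  rfl

include D in
/-- **Degree 1 duality for an induced module** from the statement over `N`. -/
theorem dual1_of_induced
    (hs : Function.Surjective ((pair01 (𝓛.restrict N)
      (evalPairing M₀ (Rep.res N.subtype W))).compr₂ (tr ∘ₗ corH1 𝓛 N W hN)))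
    (hk : LinearMap.ker ((pair01 (𝓛.restrict N)
      (evalPairing M₀ (Rep.res N.subtype W))).compr₂ (tr ∘ₗ corH1 𝓛 N W hN)) =
        LinearMap.range (H50.coeffH0 (homRepMap M₀ ((Rep.resFunctor N.subtype).map d)))) :
    Function.Surjective ((pair01 𝓛 (evalPairing M W)).compr₂ tr) ∧
      LinearMap.ker ((pair01 𝓛 (evalPairing M W)).compr₂ tr) =
        LinearMap.range (H50.coeffH0 (homRepMap M d)) := by
  have e : ∀ (h : (homRep M W).ρ.invariants) (ξ : 𝓛.H1 M),
      (pair01 𝓛 (evalPairing M W)).compr₂ tr h ξ =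
        (pair01 (𝓛.restrict N) (evalPairing M₀ (Rep.res N.subtype W))).compr₂
          (tr ∘ₗ corH1 𝓛 N W hN) ((D.hom W).invEquiv h) (shapiroH1 𝓛 hN D ξ) := by
    intro h ξ
    show tr (pair01 𝓛 (evalPairing M W) h ξ) = _
    rw [pair01_eq_cor 𝓛 hN D W h ξ]
    rfl
  constructor
  · intro Θ
    obtain ⟨h₀, hh₀⟩ := hs ((shapiroH1 𝓛 hN D).symm.dualMap Θ)
    refine ⟨(D.hom W).invEquiv.symm h₀, LinearMap.ext fun ξ => ?_⟩
    rw [e, LinearEquiv.apply_symm_apply, hh₀]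
    show Θ ((shapiroH1 𝓛 hN D).symm (shapiroH1 𝓛 hN D ξ)) = Θ ξ
    rw [LinearEquiv.symm_apply_apply]
  · ext h
    rw [LinearMap.mem_ker]
    have h1 : ((pair01 𝓛 (evalPairing M W)).compr₂ tr h = 0) ↔
        (D.hom W).invEquiv h ∈ LinearMap.ker ((pair01 (𝓛.restrict N)
          (evalPairing M₀ (Rep.res N.subtype W))).compr₂ (tr ∘ₗ corH1 𝓛 N W hN)) := by
      rw [LinearMap.mem_ker]
      constructor
      · intro h0
        refine LinearMap.ext fun ζ => ?_
        have := e h ((shapiroH1 𝓛 hN D).symm ζ)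
        rw [LinearEquiv.apply_symm_apply, h0] at this
        exact this.symm
      · intro h0
        refine LinearMap.ext fun ξ => ?_
        rw [e, h0]
        rfl
    rw [h1, hk]
    constructor
    · rintro ⟨u₀, hu₀⟩
      refine ⟨(D.hom Vm).invEquiv.symm u₀, ?_⟩
      apply (D.hom W).invEquiv.injective
      rw [invEquiv_coeffH0, LinearEquiv.apply_symm_apply, hu₀]
    · rintro ⟨u, rfl⟩
      exact ⟨(D.hom Vm).invEquiv u, (invEquiv_coeffH0 D W d u).symm⟩

end Induced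

/-! ## The statement of the skeleton -/

section Final

variable {p : ℕ} [Fact p.Prime] {H : Type} [Group H] {𝓛 : LevelStructure H}
  (𝒟 : WDatum p 𝓛) (tr : 𝓛.H1 𝒟.W →ₗ[ZMod p] ZMod p)

/-- **D1-shapiro**: (I1'), (I2') at the normal level `N₀` ⇒ duality for `X⋆ = Map(H/N₀, X)`
(`N₀` acting trivially on the finite module `X`). -/
theorem D1_shapiro
    (N₀ : Subgroup H) (hN : N₀ ∈ 𝓛.levels) [N₀.Normal]
    (h1 : AxI1 𝒟 tr N₀ ⟨N₀, hN, le_rfl⟩) (h2 : AxI2 𝒟 tr N₀ ⟨N₀, hN, le_rfl⟩)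
    (X : Rep.{0} (ZMod p) H)
    (hX : IsFinDiscrete 𝓛 X) (htriv : ∀ n ∈ N₀, X.ρ n = 1) :
    𝒟.IsDual2 tr (starRep N₀ X) ∧ 𝒟.IsDual1 tr (starRep N₀ X) := by
  have hNo : 𝓛.IsOpen N₀ := ⟨N₀, hN, le_rfl⟩
  have : N₀.FiniteIndex := 𝓛.finiteIndex N₀ hN
  have : Finite X.V := hX.finite
  have : Module.Finite (ZMod p) (Rep.res N₀.subtype X).V :=
    (inferInstance : Module.Finite (ZMod p) X.V)
  have htriv₀ : ∀ n : N₀, (Rep.res N₀.subtype X).ρ n = 1 := fun n => htriv n n.2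
  let D := starInducedData N₀ X htriv
  have hcor := corH1_eq_cor1 𝓛 N₀ 𝒟.W hNo
  constructor
  · show Function.Bijective ((pair10 𝓛 (evalPairing (starRep N₀ X) 𝒟.W)).compr₂ tr)
    refine bijective_pair10_of_induced 𝓛 hNo D 𝒟.W tr ?_
    rw [hcor]
    exact bijective_pair10_of_trivial (𝓛.restrict N₀) (Rep.res N₀.subtype X)
      (Rep.res N₀.subtype 𝒟.W) htriv₀ _ h2
  · obtain ⟨hs, hk⟩ := h1
    have h3 := dual1_of_trivial (𝓛.restrict N₀) (Rep.res N₀.subtype X) htriv₀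
      ((Rep.resFunctor N₀.subtype).map 𝒟.d) (tr ∘ₗ H50.cor1 𝓛 N₀ hNo 𝒟.W) hs hk
    rw [← hcor] at h3
    exact dual1_of_induced 𝓛 hNo D 𝒟.W tr 𝒟.d h3.1 h3.2

end Final

end Fermat.Agent.CFT.H86
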