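import Mathlib
import Fermat.Agent.CFT.H91_D2Defs
import Fermat.Agent.CFT.H86_D1Shapiro

/-!
# D1-shapiro in the landed vocabulary of `H91_D2Defs`

`H86.D1_shapiro` (file `H86_D1Shapiro`) restated with the chief architect's landed definitions
`Fermat.Agent.CFT.AxI1`, `Fermat.Agent.CFT.AxI2` (`H91_D2Defs`); the two sets of definitions
are definitionally equal.
-/

set_option autoImplicit false

namespace Fermat.Agent.CFT.H86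

open Fermat.Agent.CFT

variable {p : ℕ} [Fact p.Prime] {H : Type} [Group H] {𝓛 : LevelStructure H}
  (𝒟 : WDatum p 𝓛) (tr : 𝓛.H1 𝒟.W →ₗ[ZMod p] ZMod p)

lemma axI1_iff (N₀ : Subgroup H) (hN : 𝓛.IsOpen N₀) :
    Fermat.Agent.CFT.AxI1 𝒟 tr N₀ hN ↔ H86.AxI1 𝒟 tr N₀ hN := Iff.rfl

lemma axI2_iff (N₀ : Subgroup H) (hN : 𝓛.IsOpen N₀) :
    Fermat.Agent.CFT.AxI2 𝒟 tr N₀ hN ↔ H86.AxI2 𝒟 tr N₀ hN := Iff.rfl

/-- **D1-shapiro** (statement of the layer-D skeleton, in the vocabulary of `H91_D2Defs`):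
(I1'), (I2') at the normal level `N₀` ⇒ duality for `X⋆ = Map(H/N₀, X)`. -/
theorem D1_shapiro_main
    (N₀ : Subgroup H) (hN : N₀ ∈ 𝓛.levels) [N₀.Normal]
    (h1 : Fermat.Agent.CFT.AxI1 𝒟 tr N₀ ⟨N₀, hN, le_rfl⟩)
    (h2 : Fermat.Agent.CFT.AxI2 𝒟 tr N₀ ⟨N₀, hN, le_rfl⟩)
    (X : Rep.{0} (ZMod p) H)
    (hX : IsFinDiscrete 𝓛 X) (htriv : ∀ n ∈ N₀, X.ρ n = 1) :
    𝒟.IsDual2 tr (starRep N₀ X) ∧ 𝒟.IsDual1 tr (starRep N₀ X) :=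
  D1_shapiro 𝒟 tr N₀ hN ((axI1_iff 𝒟 tr N₀ _).1 h1) ((axI2_iff 𝒟 tr N₀ _).1 h2) X hX htriv

end Fermat.Agent.CFT.H86
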