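import Mathlib
import Fermat.Agent.CFT.H46_D1Assembly
import Fermat.Agent.CFT.H86_D1ShapiroFinal

/-!
# `D1Statement p` closed (CFT, layer D1)

`H46.D1ShapiroStatement` is `H86.D1_shapiro_main`; with `H46.d1Statement_of_shapiro`
(`H46.D1_main` + `H89.D1_T3`) this closes the chief architect's `D1Statement p`
(`H91_DStatements`) unconditionally.
-/

set_option autoImplicit false

namespace Fermat.Agent.CFT.H86

open Fermat.Agent.CFT

/-- The statement of D1-shapiro in the form of `H46_D1Assembly`. -/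
theorem d1ShapiroStatement {p : ℕ} [Fact p.Prime] {H : Type} [Group H] {𝓛 : LevelStructure H}
    (𝒟 : WDatum p 𝓛) (tr : 𝓛.H1 𝒟.W →ₗ[ZMod p] ZMod p) : H46.D1ShapiroStatement 𝒟 tr :=
  fun N₀ hN _ h1 h2 X hX ht => D1_shapiro_main 𝒟 tr N₀ hN h1 h2 X hX ht

/-- **D1** (abstract Tate duality in the `W`-model), unconditional. -/
theorem d1Statement (p : ℕ) [Fact p.Prime] : D1Statement p :=
  H46.d1Statement_of_shapiro (fun _ _ _ 𝒟 tr => d1ShapiroStatement 𝒟 tr)

end Fermat.Agent.CFT.H86
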