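/-
CFT project, D3-inst-LOCAL (helper15): local Tate duality in the `W`-model, UNCONDITIONAL
(D1 = `H86.d1Statement`, D2 = `H62.d2Statement`), with bijectivity of the trace.
-/
import Fermat.Agent.CFT.H15_LocalDuality
import Fermat.Agent.CFT.H15_TraceInj
import Fermat.Agent.CFT.H86_D1Statement
import Fermat.Agent.CFT.H62_D2Statement

set_option autoImplicit false

open CategoryTheory ExtCitation

namespace Fermat.Agent.CFT.H15

open Fermat.Agent.CFT

/-- **Local Tate duality in the `W`-model, hypothesis-free** (`p` odd), on the groups and level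
structure of the frozen statement: the canonical envelope of `(PadicAlgCl q)ˣ` carries a BIJECTIVE
trace `H¹(W) ≃ 𝔽_p` for which `α¹`, `α²` are bijective for all finite discrete `𝔽_p`-modules. -/
theorem local_duality_final (q : Nat.Primes) (p : ℕ) [Fact p.Prime] (hp2 : p ≠ 2) :
    ∃ tr : (pullLevels (primeLocalToGlobal q)).H1 (H36.canonicalEnvelope
        (pullLevels (primeLocalToGlobal q)) p (Fact.out : p.Prime).ne_zero (localUnitsPrime q)
        (isDiscrete_localUnitsPrime q)).wDatum.W →ₗ[ZMod p] ZMod p,
      D1Conclusion (pullLevels (primeLocalToGlobal q)) (H36.canonicalEnvelope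
        (pullLevels (primeLocalToGlobal q)) p (Fact.out : p.Prime).ne_zero (localUnitsPrime q)
        (isDiscrete_localUnitsPrime q)).wDatum tr ∧ Function.Bijective tr := by
  obtain ⟨tr, h⟩ := local_duality q p (H86.d1Statement p) H62.d2Statement hp2
  exact ⟨tr, h, tr_bijective_of_d1Conclusion _ tr h⟩

/-- The same on `pullLevels (localGaloisToGlobal q)` for `q : ℕ`. -/
theorem local_duality_pulled_final (q : ℕ) [Fact q.Prime] (p : ℕ) [Fact p.Prime] (hp2 : p ≠ 2) :
    ∃ tr : (pulledLevels q).H1 (H36.canonicalEnvelope (pulledLevels q) p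
        (Fact.out : p.Prime).ne_zero (H78.localUnits q)
        (isDiscrete_localUnits_pulled q)).wDatum.W →ₗ[ZMod p] ZMod p,
      D1Conclusion (pulledLevels q) (H36.canonicalEnvelope (pulledLevels q) p
        (Fact.out : p.Prime).ne_zero (H78.localUnits q)
        (isDiscrete_localUnits_pulled q)).wDatum tr ∧ Function.Bijective tr := by
  obtain ⟨tr, h⟩ := local_duality_pulled q p (H86.d1Statement p) H62.d2Statement hp2
  exact ⟨tr, h, tr_bijective_of_d1Conclusion _ tr h⟩

end Fermat.Agent.CFT.H15
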