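import Mathlib
import Fermat.Agent.CFT.H36_Envelope
import Fermat.Agent.CFT.H36_Envelope2

/-!
# CFT / Layer D / D3m : the module package (Y4) of the Poitou–Tate segment

Pure module theory on helper36's `DivEnvelope` vocabulary (`H36_Envelope`).

Input: representations `E ⟶ J ⟶ C` (`ε`, `pr`) of `H`, exact at `J`
(`pr x = 0 ↔ x ∈ range ε`), with `C / pr(J)` uniquely `p`-divisible (`hdiv`, `htf`),
`p`-divisible envelopes `E ↪ I_E`, `C ↪ I_C` and an equivariant extension `f : J ⟶ I_E`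
of `ι_E` (exists for the canonical envelope: `H36.extensionHom`).

Output (`PTModules.ofEnvelopes`, `PTModules.canonical`): the split envelope
`J ↪ I_J := I_E × I_C`, `x ↦ (f x, ι_C (pr x))`, and

* `0 → W_E → W_J → W_C → 0` exact (`a_injective`, `ab_exact`, `b_surjective`),
  `W_N := (I_N / N)[p] = torsionRep p EN.Q`;
* `Vm_J = Vm_E × Vm_C` split (`iV`, `qV`, `sV`, `rV` with the four identities and `decompV`),
  `Vm_N := I_N[p] = torsionRep p EN.I`;
* the differentials `d_N = EN.dComplex : Vm_N ⟶ W_N` commute with these maps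
  (`d_sqE`, `d_sqC`), and so do the kernels `N[p] ⟶ Vm_N` (`dKer_sqE`, `dKer_sqC`);
* if `E` is `p`-divisible then `d_E` is surjective (`dE_surjective`), i.e.
  `0 → E[p] → Vm_E → W_E → 0` is exact.

Also: explicit binary products `prodRep` of representations, descent along an abstract
surjection `descSurj`, functoriality of `torsionMap`.
-/

set_option autoImplicit false
noncomputable section
open CategoryTheory

namespace Fermat.Agent.CFT.H35
open Fermat.Agent.CFT Fermat.Agent.CFT.H36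

section Prod
variable {k : Type} [CommRing k] {H : Type} [Group H]

/-- Binary product of representations (explicit carrier `A.V × B.V`). -/
def prodRep (A B : Rep.{0} k H) : Rep.{0} k H := Rep.of (A.ρ.prod B.ρ)

def prodInl (A B : Rep.{0} k H) : A ⟶ prodRep A B :=
  Rep.ofHom (Representation.IntertwiningMap.inl k A.ρ B.ρ)

def prodInr (A B : Rep.{0} k H) : B ⟶ prodRep A B :=
  Rep.ofHom (Representation.IntertwiningMap.inr k A.ρ B.ρ)

def prodFst (A B : Rep.{0} k H) : prodRep A B ⟶ A :=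
  Rep.ofHom (Representation.IntertwiningMap.fst k A.ρ B.ρ)

def prodSnd (A B : Rep.{0} k H) : prodRep A B ⟶ B :=
  Rep.ofHom (Representation.IntertwiningMap.snd k A.ρ B.ρ)

def prodLift {X A B : Rep.{0} k H} (f : X ⟶ A) (g : X ⟶ B) : X ⟶ prodRep A B :=
  Rep.ofHom (Representation.IntertwiningMap.prod f.hom g.hom)

lemma prodInl_apply (A B : Rep.{0} k H) (a : A.V) :
    ((prodInl A B).hom a : A.V × B.V) = (a, 0) := rfl

lemma prodInr_apply (A B : Rep.{0} k H) (b : B.V) :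
    ((prodInr A B).hom b : A.V × B.V) = (0, b) := rfl

lemma prodFst_apply (A B : Rep.{0} k H) (x : A.V × B.V) :
    (prodFst A B).hom (x : (prodRep A B).V) = x.1 := rfl

lemma prodSnd_apply (A B : Rep.{0} k H) (x : A.V × B.V) :
    (prodSnd A B).hom (x : (prodRep A B).V) = x.2 := rfl

lemma prodLift_apply {X A B : Rep.{0} k H} (f : X ⟶ A) (g : X ⟶ B) (x : X.V) :
    ((prodLift f g).hom x : A.V × B.V) = (f.hom x, g.hom x) := rfl

lemma prodRep_ρ_apply (A B : Rep.{0} k H) (g : H) (x : A.V × B.V) :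
    ((prodRep A B).ρ g (x : (prodRep A B).V) : A.V × B.V) = (A.ρ g x.1, B.ρ g x.2) := rfl

/-- Morphisms of representations are equal iff they agree on elements. -/
lemma rep_hom_ext_apply {A B : Rep.{0} k H} {f g : A ⟶ B} (h : ∀ x : A.V, f.hom x = g.hom x) :
    f = g := by
  apply Rep.hom_ext
  apply Representation.IntertwiningMap.ext
  exact LinearMap.ext h

lemma prodInl_fst (A B : Rep.{0} k H) : prodInl A B ≫ prodFst A B = 𝟙 A :=
  rep_hom_ext_apply fun _ => rfl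

lemma prodInr_snd (A B : Rep.{0} k H) : prodInr A B ≫ prodSnd A B = 𝟙 B :=
  rep_hom_ext_apply fun _ => rfl

lemma prodInl_snd (A B : Rep.{0} k H) : prodInl A B ≫ prodSnd A B = 0 :=
  rep_hom_ext_apply fun _ => rfl

lemma prodInr_fst (A B : Rep.{0} k H) : prodInr A B ≫ prodFst A B = 0 :=
  rep_hom_ext_apply fun _ => rfl

lemma prodLift_fst {X A B : Rep.{0} k H} (f : X ⟶ A) (g : X ⟶ B) :
    prodLift f g ≫ prodFst A B = f := rep_hom_ext_apply fun _ => rfl

lemma prodLift_snd {X A B : Rep.{0} k H} (f : X ⟶ A) (g : X ⟶ B) :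
    prodLift f g ≫ prodSnd A B = g := rep_hom_ext_apply fun _ => rfl

lemma prod_decomp (A B : Rep.{0} k H) (x : (prodRep A B).V) :
    (prodInl A B).hom ((prodFst A B).hom x) + (prodInr A B).hom ((prodSnd A B).hom x) = x := by
  show ((x : A.V × B.V).1, (0 : B.V)) + ((0 : A.V), (x : A.V × B.V).2) = (x : A.V × B.V)
  ext <;> simp

theorem isDiscrete_prodRep (𝓛 : LevelStructure H) {A B : Rep.{0} k H} (hA : 𝓛.IsDiscrete A)
    (hB : 𝓛.IsDiscrete B) : 𝓛.IsDiscrete (prodRep A B) := by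
  intro x
  obtain ⟨N₁, hN₁, h₁⟩ := hA (x : A.V × B.V).1
  obtain ⟨N₂, hN₂, h₂⟩ := hB (x : A.V × B.V).2
  obtain ⟨N₃, hN₃, hle⟩ := 𝓛.directed N₁ hN₁ N₂ hN₂
  refine ⟨N₃, hN₃, fun n hn => ?_⟩
  show ((A.ρ n (x : A.V × B.V).1, B.ρ n (x : A.V × B.V).2) : A.V × B.V) = x
  rw [h₁ n (hle hn).1, h₂ n (hle hn).2]
  rfl

end Prod

section TorsionFunctor
variable {k : Type} [CommRing k] {H : Type} [Group H] (p : ℕ)

lemma torsionMap_comp {A B C : Rep.{0} k H} (f : A ⟶ B) (g : B ⟶ C) :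
    torsionMap p (f ≫ g) = torsionMap p f ≫ torsionMap p g :=
  rep_hom_ext_apply fun _ => rfl

lemma torsionMap_id (A : Rep.{0} k H) : torsionMap p (𝟙 A) = 𝟙 (torsionRep p A) :=
  rep_hom_ext_apply fun _ => rfl

lemma torsionMap_zero (A B : Rep.{0} k H) : torsionMap p (0 : A ⟶ B) = 0 :=
  rep_hom_ext_apply fun _ => rfl

end TorsionFunctor

section Desc
variable {k : Type} [CommRing k] {H : Type} [Group H]

/-- Descent along an (abstract) surjection of representations. -/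
def descSurj {I Q X : Rep.{0} k H} (π : I ⟶ Q) (hπ : Function.Surjective π.hom) (g : I ⟶ X)
    (h : ∀ x : I.V, π.hom x = 0 → g.hom x = 0) : Q ⟶ X :=
  Rep.ofHom (ρ := Q.ρ) (σ := X.ρ)
    ⟨{ toFun := fun q => g.hom (Function.surjInv hπ q)
       map_add' := fun a b => by
        rw [← map_add, ← sub_eq_zero, ← map_sub]
        apply h
        rw [map_sub, map_add, Function.surjInv_eq hπ, Function.surjInv_eq hπ,
          Function.surjInv_eq hπ, sub_self]
       map_smul' := fun r a => by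
        rw [RingHom.id_apply, ← map_smul, ← sub_eq_zero, ← map_sub]
        apply h
        rw [map_sub, map_smul, Function.surjInv_eq hπ, Function.surjInv_eq hπ, sub_self] },
     fun s => by
      refine LinearMap.ext fun q => ?_
      show g.hom (Function.surjInv hπ (Q.ρ s q)) = X.ρ s (g.hom (Function.surjInv hπ q))
      rw [← Rep.hom_comm_apply, ← sub_eq_zero, ← map_sub]
      apply h
      rw [map_sub, Rep.hom_comm_apply, Function.surjInv_eq hπ, Function.surjInv_eq hπ, sub_self]⟩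

lemma descSurj_apply {I Q X : Rep.{0} k H} (π : I ⟶ Q) (hπ : Function.Surjective π.hom)
    (g : I ⟶ X) (h : ∀ x : I.V, π.hom x = 0 → g.hom x = 0) (x : I.V) :
    (descSurj π hπ g h).hom (π.hom x) = g.hom x := by
  show g.hom (Function.surjInv hπ (π.hom x)) = g.hom x
  rw [← sub_eq_zero, ← map_sub]
  apply h
  rw [map_sub, Function.surjInv_eq hπ, sub_self]

lemma comp_descSurj {I Q X : Rep.{0} k H} (π : I ⟶ Q) (hπ : Function.Surjective π.hom)
    (g : I ⟶ X) (h : ∀ x : I.V, π.hom x = 0 → g.hom x = 0) :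
    π ≫ descSurj π hπ g h = g :=
  rep_hom_ext_apply fun x => by rw [Rep.comp_apply, descSurj_apply]

end Desc

section ProdElem
variable {k : Type} [CommRing k] {H : Type} [Group H]

/-- Pairs as elements of `prodRep A B`. -/
def prodMk {A B : Rep.{0} k H} (a : A.V) (b : B.V) : (prodRep A B).V := ((a, b) : A.V × B.V)

@[simp] lemma prodFst_mk {A B : Rep.{0} k H} (a : A.V) (b : B.V) :
    (prodFst A B).hom (prodMk a b) = a := rfl

@[simp] lemma prodSnd_mk {A B : Rep.{0} k H} (a : A.V) (b : B.V) :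
    (prodSnd A B).hom (prodMk a b) = b := rfl

lemma prodMk_eta {A B : Rep.{0} k H} (x : (prodRep A B).V) :
    prodMk ((prodFst A B).hom x) ((prodSnd A B).hom x) = x := rfl

lemma prodRep_ext {A B : Rep.{0} k H} {x y : (prodRep A B).V}
    (h₁ : (prodFst A B).hom x = (prodFst A B).hom y)
    (h₂ : (prodSnd A B).hom x = (prodSnd A B).hom y) : x = y := by
  rw [← prodMk_eta x, ← prodMk_eta y, h₁, h₂]

lemma prodInl_eq_mk {A B : Rep.{0} k H} (a : A.V) : (prodInl A B).hom a = prodMk a 0 := rfl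

lemma prodInr_eq_mk {A B : Rep.{0} k H} (b : B.V) : (prodInr A B).hom b = prodMk 0 b := rfl

lemma prodLift_eq_mk {X A B : Rep.{0} k H} (f : X ⟶ A) (g : X ⟶ B) (x : X.V) :
    (prodLift f g).hom x = prodMk (f.hom x) (g.hom x) := rfl

end ProdElem


section PT
variable {k : Type} [CommRing k] {H : Type} [Group H]

/-- **(Y4) module package** for the Poitou–Tate segment: compatible `p`-divisible envelopes of
`E`, `J`, `C` (with `E ⟶ J ⟶ C`), where the envelope of `J` is split as `I_E × I_C`, together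
with the exact sequence `0 → W_E → W_J → W_C → 0` of the `p`-torsion of the quotients
(`W_N := (I_N / N)[p]`). -/
structure PTModules (𝓛 : LevelStructure H) (p : ℕ) (E J C : Rep.{0} k H) where
  /-- the map `E ⟶ J` -/
  ε : E ⟶ J
  /-- the map `J ⟶ C` -/
  pr : J ⟶ C
  /-- envelope of `E` -/
  EE : DivEnvelope 𝓛 p E
  /-- envelope of `J` -/
  EJ : DivEnvelope 𝓛 p J
  /-- envelope of `C` -/
  EC : DivEnvelope 𝓛 p C
  /-- `I_E ⟶ I_J` (left inclusion) -/
  iI : EE.I ⟶ EJ.I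
  /-- `I_J ⟶ I_C` (second projection) -/
  qI : EJ.I ⟶ EC.I
  /-- `I_C ⟶ I_J` (right inclusion) -/
  sI : EC.I ⟶ EJ.I
  /-- `I_J ⟶ I_E` (first projection) -/
  rI : EJ.I ⟶ EE.I
  sI_qI : sI ≫ qI = 𝟙 _
  iI_rI : iI ≫ rI = 𝟙 _
  iI_qI : iI ≫ qI = 0
  sI_rI : sI ≫ rI = 0
  decomp : ∀ x : EJ.I.V, iI.hom (rI.hom x) + sI.hom (qI.hom x) = x
  /-- `ι` is compatible with `ε` -/
  sqιE : ε ≫ EJ.ι = EE.ι ≫ iI
  /-- `ι` is compatible with `pr` -/
  sqιC : EJ.ι ≫ qI = pr ≫ EC.ι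
  /-- `Q_E ⟶ Q_J` -/
  a : EE.Q ⟶ EJ.Q
  /-- `Q_J ⟶ Q_C` -/
  b : EJ.Q ⟶ EC.Q
  sqE : EE.π ≫ a = iI ≫ EJ.π
  sqC : EJ.π ≫ b = qI ≫ EC.π
  a_injective : Function.Injective (torsionMap p a).hom
  ab_exact : ∀ y : torsionSub p EJ.Q.V,
    (torsionMap p b).hom y = 0 ↔ ∃ x : torsionSub p EE.Q.V, (torsionMap p a).hom x = y
  b_surjective : Function.Surjective (torsionMap p b).hom

namespace PTModules

variable {𝓛 : LevelStructure H} {p : ℕ} {E J C : Rep.{0} k H} (M : PTModules 𝓛 p E J C)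

/-! ### Notation of the `W`-model -/

/-- `Vm_E = I_E[p]` -/
abbrev VmE : Rep.{0} (ZMod p) H := torsionRep p M.EE.I
/-- `Vm_J = I_J[p]` -/
abbrev VmJ : Rep.{0} (ZMod p) H := torsionRep p M.EJ.I
/-- `Vm_C = I_C[p]` -/
abbrev VmC : Rep.{0} (ZMod p) H := torsionRep p M.EC.I
/-- `W_E = (I_E/E)[p]` -/
abbrev WE : Rep.{0} (ZMod p) H := torsionRep p M.EE.Q
/-- `W_J = (I_J/J)[p]` -/
abbrev WJ : Rep.{0} (ZMod p) H := torsionRep p M.EJ.Q
/-- `W_C = (I_C/C)[p]` -/
abbrev WC : Rep.{0} (ZMod p) H := torsionRep p M.EC.Q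

/-- `W_E ⟶ W_J` -/
abbrev aW : M.WE ⟶ M.WJ := torsionMap p M.a
/-- `W_J ⟶ W_C` -/
abbrev bW : M.WJ ⟶ M.WC := torsionMap p M.b
/-- `Vm_E ⟶ Vm_J` -/
abbrev iV : M.VmE ⟶ M.VmJ := torsionMap p M.iI
/-- `Vm_J ⟶ Vm_C` -/
abbrev qV : M.VmJ ⟶ M.VmC := torsionMap p M.qI
/-- `Vm_C ⟶ Vm_J` -/
abbrev sV : M.VmC ⟶ M.VmJ := torsionMap p M.sI
/-- `Vm_J ⟶ Vm_E` -/
abbrev rV : M.VmJ ⟶ M.VmE := torsionMap p M.rI

theorem sV_qV : M.sV ≫ M.qV = 𝟙 _ := by
  rw [← torsionMap_comp, M.sI_qI, torsionMap_id]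

theorem iV_rV : M.iV ≫ M.rV = 𝟙 _ := by
  rw [← torsionMap_comp, M.iI_rI, torsionMap_id]

theorem iV_qV : M.iV ≫ M.qV = 0 := by
  rw [← torsionMap_comp, M.iI_qI, torsionMap_zero]

theorem sV_rV : M.sV ≫ M.rV = 0 := by
  rw [← torsionMap_comp, M.sI_rI, torsionMap_zero]

theorem decompV (x : M.VmJ.V) : M.iV.hom (M.rV.hom x) + M.sV.hom (M.qV.hom x) = x := by
  apply Subtype.ext
  exact M.decomp (show torsionSub p M.EJ.I.V from x).1

/-- `d_E ≫ W(a) = Vm(i) ≫ d_J`. -/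
theorem d_sqE : M.EE.dComplex ≫ M.aW = M.iV ≫ M.EJ.dComplex := by
  show torsionMap p M.EE.π ≫ torsionMap p M.a = torsionMap p M.iI ≫ torsionMap p M.EJ.π
  rw [← torsionMap_comp, ← torsionMap_comp, M.sqE]

/-- `d_J ≫ W(b) = Vm(q) ≫ d_C`. -/
theorem d_sqC : M.EJ.dComplex ≫ M.bW = M.qV ≫ M.EC.dComplex := by
  show torsionMap p M.EJ.π ≫ torsionMap p M.b = torsionMap p M.qI ≫ torsionMap p M.EC.π
  rw [← torsionMap_comp, ← torsionMap_comp, M.sqC]

/-- `N[p] → Vm_N` is compatible with `ε`. -/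
theorem dKer_sqE : torsionMap p M.ε ≫ M.EJ.dKer = M.EE.dKer ≫ M.iV := by
  show torsionMap p M.ε ≫ torsionMap p M.EJ.ι = torsionMap p M.EE.ι ≫ torsionMap p M.iI
  rw [← torsionMap_comp, ← torsionMap_comp, M.sqιE]

/-- `N[p] → Vm_N` is compatible with `pr`. -/
theorem dKer_sqC : M.EJ.dKer ≫ M.qV = torsionMap p M.pr ≫ M.EC.dKer := by
  show torsionMap p M.EJ.ι ≫ torsionMap p M.qI = torsionMap p M.pr ≫ torsionMap p M.EC.ι
  rw [← torsionMap_comp, ← torsionMap_comp, M.sqιC]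

theorem aW_bW : M.aW ≫ M.bW = 0 :=
  rep_hom_ext_apply fun x => by
    rw [Rep.comp_apply]
    exact (M.ab_exact _).2 ⟨x, rfl⟩

theorem qV_surjective : Function.Surjective M.qV.hom := fun z =>
  ⟨M.sV.hom z, by rw [← Rep.comp_apply, M.sV_qV]; rfl⟩

theorem iV_injective : Function.Injective M.iV.hom := fun x y h => by
  have := congrArg M.rV.hom h
  rwa [← Rep.comp_apply, ← Rep.comp_apply, M.iV_rV] at this

/-- `0 → Vm_E → Vm_J → Vm_C → 0` is exact in the middle. -/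
theorem iV_qV_exact (y : M.VmJ.V) : M.qV.hom y = 0 ↔ ∃ x : M.VmE.V, M.iV.hom x = y := by
  constructor
  · intro hy
    refine ⟨M.rV.hom y, ?_⟩
    have := M.decompV y
    rwa [hy, map_zero, add_zero] at this
  · rintro ⟨x, rfl⟩
    rw [← Rep.comp_apply, M.iV_qV]
    rfl

/-- If `E` is `p`-divisible then `d_E : Vm_E → W_E` is surjective, so that
`0 → E[p] → Vm_E → W_E → 0` is exact (with `dKer_injective`, `dComplex_eq_zero_iff`). -/
theorem dE_surjective (hE : ∀ e : E.V, ∃ e' : E.V, p • e' = e) :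
    Function.Surjective M.EE.dComplex.hom :=
  torsionMap_surjective_of_divisible p M.EE.ι M.EE.π M.EE.exact M.EE.π_surjective hE

theorem discrete_WE : 𝓛.IsDiscrete M.WE := M.EE.isDiscrete_dComplex_target
theorem discrete_WJ : 𝓛.IsDiscrete M.WJ := M.EJ.isDiscrete_dComplex_target
theorem discrete_WC : 𝓛.IsDiscrete M.WC := M.EC.isDiscrete_dComplex_target
theorem discrete_VmE : 𝓛.IsDiscrete M.VmE := M.EE.isDiscrete_dComplex_source
theorem discrete_VmJ : 𝓛.IsDiscrete M.VmJ := M.EJ.isDiscrete_dComplex_source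
theorem discrete_VmC : 𝓛.IsDiscrete M.VmC := M.EC.isDiscrete_dComplex_source

end PTModules


/-! ### The constructor -/

namespace PTModules

section Construct

variable {𝓛 : LevelStructure H} {p : ℕ} {E J C : Rep.{0} k H}
  (ε : E ⟶ J) (pr : J ⟶ C) (EE : DivEnvelope 𝓛 p E) (EC : DivEnvelope 𝓛 p C) (f : J ⟶ EE.I)

/-- The embedding `J → I_E × I_C`, `x ↦ (f x, ι_C (pr x))`. -/
def ιJ : J ⟶ prodRep EE.I EC.I := prodLift f (pr ≫ EC.ι)

lemma ιJ_apply (x : J.V) : (ιJ pr EE EC f).hom x = prodMk (f.hom x) (EC.ι.hom (pr.hom x)) := rfl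

variable (hex : ∀ x : J.V, pr.hom x = 0 ↔ ∃ e : E.V, ε.hom e = x) (hf : ε ≫ f = EE.ι)

include hex hf in
lemma ιJ_injective : Function.Injective (ιJ pr EE EC f).hom := by
  intro x y hxy
  have h : (ιJ pr EE EC f).hom (x - y) = 0 := by rw [map_sub, hxy, sub_self]
  rw [ιJ_apply] at h
  have h1 : f.hom (x - y) = 0 := by
    have := congrArg (prodFst EE.I EC.I).hom h
    rwa [prodFst_mk, map_zero] at this
  have h2 : EC.ι.hom (pr.hom (x - y)) = 0 := by
    have := congrArg (prodSnd EE.I EC.I).hom h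
    rwa [prodSnd_mk, map_zero] at this
  have h3 : pr.hom (x - y) = 0 := EC.ι_injective (h2.trans (map_zero _).symm)
  obtain ⟨e, he⟩ := (hex _).1 h3
  have h4 : EE.ι.hom e = 0 := by rw [← hf, Rep.comp_apply, he, h1]
  have h5 : e = 0 := EE.ι_injective (h4.trans (map_zero _).symm)
  rw [h5, map_zero] at he
  exact sub_eq_zero.1 he.symm

include hex hf in
/-- The split envelope `I_E × I_C` of `J`. -/
def envJ : DivEnvelope 𝓛 p J where
  I := prodRep EE.I EC.I
  Q := cokerRep (ιJ pr EE EC f)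
  ι := ιJ pr EE EC f
  π := cokerπ (ιJ pr EE EC f)
  ι_injective := ιJ_injective ε pr EE EC f hex hf
  π_surjective := cokerπ_surjective _
  exact := cokerπ_eq_zero_iff _
  discrete := isDiscrete_prodRep 𝓛 EE.discrete EC.discrete
  divisible := by
    intro x
    obtain ⟨y₁, h₁⟩ := EE.divisible ((prodFst EE.I EC.I).hom x)
    obtain ⟨y₂, h₂⟩ := EC.divisible ((prodSnd EE.I EC.I).hom x)
    refine ⟨prodMk y₁ y₂, prodRep_ext ?_ ?_⟩
    · rw [map_nsmul, prodFst_mk, h₁]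
    · rw [map_nsmul, prodSnd_mk, h₂]

include hf hex in
lemma ιJ_ε (e : E.V) : (ιJ pr EE EC f).hom (ε.hom e) = (prodInl EE.I EC.I).hom (EE.ι.hom e) := by
  rw [ιJ_apply, prodInl_eq_mk, ← Rep.comp_apply, hf, (hex _).2 ⟨e, rfl⟩, map_zero]

include hf hex in
/-- `Q_E → Q_J`. -/
def aQ : EE.Q ⟶ cokerRep (ιJ pr EE EC f) :=
  descSurj EE.π EE.π_surjective (prodInl EE.I EC.I ≫ cokerπ (ιJ pr EE EC f)) (by
    intro x hx
    obtain ⟨e, rfl⟩ := (EE.exact x).1 hx
    rw [Rep.comp_apply]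
    exact (cokerπ_eq_zero_iff _ _).2 ⟨ε.hom e, ιJ_ε ε pr EE EC f hex hf e⟩)

lemma aQ_apply (x : EE.I.V) :
    (aQ ε pr EE EC f hex hf).hom (EE.π.hom x) =
      (cokerπ (ιJ pr EE EC f)).hom (prodMk x 0) := by
  unfold aQ
  rw [descSurj_apply, Rep.comp_apply, prodInl_eq_mk]

/-- `Q_J → Q_C`. -/
def bQ : cokerRep (ιJ pr EE EC f) ⟶ EC.Q :=
  cokerDesc (ιJ pr EE EC f) (prodSnd EE.I EC.I ≫ EC.π) (by
    intro x
    rw [Rep.comp_apply, ιJ_apply, prodSnd_mk]
    exact (EC.exact _).2 ⟨pr.hom x, rfl⟩)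

lemma bQ_apply (w : (prodRep EE.I EC.I).V) :
    (bQ pr EE EC f).hom ((cokerπ (ιJ pr EE EC f)).hom w) =
      EC.π.hom ((prodSnd EE.I EC.I).hom w) := by
  unfold bQ
  rw [cokerDesc_π_apply, Rep.comp_apply]

theorem aQ_injective : Function.Injective (aQ ε pr EE EC f hex hf).hom := by
  intro x y hxy
  obtain ⟨x, rfl⟩ := EE.π_surjective x
  obtain ⟨y, rfl⟩ := EE.π_surjective y
  have h : (aQ ε pr EE EC f hex hf).hom (EE.π.hom (x - y)) = 0 := by
    rw [map_sub, map_sub, hxy, sub_self]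
  rw [aQ_apply] at h
  obtain ⟨j, hj⟩ := (cokerπ_eq_zero_iff _ _).1 h
  rw [ιJ_apply] at hj
  have h1 : f.hom j = x - y := by
    have := congrArg (prodFst EE.I EC.I).hom hj
    rwa [prodFst_mk, prodFst_mk] at this
  have h2 : EC.ι.hom (pr.hom j) = 0 := by
    have := congrArg (prodSnd EE.I EC.I).hom hj
    rwa [prodSnd_mk, prodSnd_mk] at this
  have h3 : pr.hom j = 0 := EC.ι_injective (h2.trans (map_zero _).symm)
  obtain ⟨e, he⟩ := (hex _).1 h3
  have h4 : EE.ι.hom e = x - y := by rw [← hf, Rep.comp_apply, he, h1]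
  have h5 : EE.π.hom (x - y) = 0 := (EE.exact _).2 ⟨e, h4⟩
  rw [map_sub] at h5
  exact sub_eq_zero.1 h5

theorem bQ_surjective : Function.Surjective (bQ pr EE EC f).hom := by
  intro z
  obtain ⟨v, rfl⟩ := EC.π_surjective z
  exact ⟨(cokerπ (ιJ pr EE EC f)).hom (prodMk 0 v), by rw [bQ_apply, prodSnd_mk]⟩

theorem aQ_bQ (x : EE.Q.V) : (bQ pr EE EC f).hom ((aQ ε pr EE EC f hex hf).hom x) = 0 := by
  obtain ⟨x, rfl⟩ := EE.π_surjective x
  rw [aQ_apply, bQ_apply, prodSnd_mk, map_zero]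


/-! #### Exactness of `0 → W_E → W_J → W_C → 0` -/

variable (hdiv : ∀ c : C.V, ∃ (c' : C.V) (x : J.V), c = p • c' + pr.hom x)
  (htf : ∀ c : C.V, (∃ x : J.V, p • c = pr.hom x) → ∃ x' : J.V, c = pr.hom x')

include htf in
theorem torsion_ab_exact (y : torsionSub p (cokerRep (ιJ pr EE EC f)).V) :
    (torsionMap p (bQ pr EE EC f)).hom y = 0 ↔
      ∃ x : torsionSub p EE.Q.V, (torsionMap p (aQ ε pr EE EC f hex hf)).hom x = y := by
  constructor
  · intro hy
    have hy1 : (bQ pr EE EC f).hom y.1 = 0 := congrArg (fun z : torsionSub p EC.Q.V => z.1) hy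
    have hpy : p • y.1 = 0 := y.2
    obtain ⟨w, hw⟩ := cokerπ_surjective (ιJ pr EE EC f) y.1
    -- `p • w = ιJ j`
    have h0 : (cokerπ (ιJ pr EE EC f)).hom (p • w) = 0 := by rw [map_nsmul, hw, hpy]
    obtain ⟨j, hj⟩ := (cokerπ_eq_zero_iff _ _).1 h0
    rw [ιJ_apply] at hj
    have hj2 : EC.ι.hom (pr.hom j) = p • (prodSnd EE.I EC.I).hom w := by
      have := congrArg (prodSnd EE.I EC.I).hom hj
      rwa [prodSnd_mk, map_nsmul] at this
    -- `snd w = ι_C c`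
    rw [← hw, bQ_apply] at hy1
    obtain ⟨c, hc⟩ := (EC.exact _).1 hy1
    have hpc : p • c = pr.hom j := by
      apply EC.ι_injective
      rw [map_nsmul, hc, hj2]
    obtain ⟨j', hj'⟩ := htf c ⟨j, hpc⟩
    -- the preimage
    set u := (prodFst EE.I EC.I).hom w - f.hom j' with hu
    have hau : (aQ ε pr EE EC f hex hf).hom (EE.π.hom u) = y.1 := by
      rw [aQ_apply, ← hw]
      have : prodMk u 0 = w - (ιJ pr EE EC f).hom j' := by
        apply prodRep_ext
        · rw [prodFst_mk, map_sub, ιJ_apply, prodFst_mk]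
        · rw [prodSnd_mk, map_sub, ιJ_apply, prodSnd_mk, ← hj', hc, sub_self]
      rw [this, map_sub, (cokerπ_eq_zero_iff _ _).2 ⟨j', rfl⟩, sub_zero]
    have hpu : p • EE.π.hom u = 0 := by
      apply aQ_injective ε pr EE EC f hex hf
      rw [map_nsmul, hau, hpy, map_zero]
    exact ⟨⟨EE.π.hom u, hpu⟩, Subtype.ext hau⟩
  · rintro ⟨x, rfl⟩
    apply Subtype.ext
    exact aQ_bQ ε pr EE EC f hex hf x.1

include hdiv in
theorem torsion_b_surjective : Function.Surjective (torsionMap p (bQ pr EE EC f)).hom := by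
  intro z
  let z₀ : torsionSub p EC.Q.V := z
  obtain ⟨v, hv⟩ := EC.π_surjective z₀.1
  have h0 : EC.π.hom (p • v) = 0 := by
    rw [map_nsmul, hv]
    exact z₀.2
  obtain ⟨c, hc⟩ := (EC.exact _).1 h0
  obtain ⟨c', j, hcj⟩ := hdiv c
  obtain ⟨u, hu⟩ := EE.divisible (f.hom j)
  set v' := v - EC.ι.hom c' with hv'
  have hpv' : p • v' = EC.ι.hom (pr.hom j) := by
    rw [hv', smul_sub, ← hc, ← map_nsmul, ← map_sub, hcj, add_sub_cancel_left]
  have hw : p • (cokerπ (ιJ pr EE EC f)).hom (prodMk u v') = 0 := by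
    rw [← map_nsmul]
    refine (cokerπ_eq_zero_iff _ _).2 ⟨j, ?_⟩
    rw [ιJ_apply]
    apply prodRep_ext
    · rw [prodFst_mk, map_nsmul, prodFst_mk, hu]
    · rw [prodSnd_mk, map_nsmul, prodSnd_mk, hpv']
  refine ⟨(⟨(cokerπ (ιJ pr EE EC f)).hom (prodMk u v'), hw⟩ :
    torsionSub p (cokerRep (ιJ pr EE EC f)).V), Subtype.ext ?_⟩
  show (bQ pr EE EC f).hom ((cokerπ (ιJ pr EE EC f)).hom (prodMk u v')) = z₀.1
  rw [bQ_apply, prodSnd_mk, hv', map_sub, hv, (EC.exact _).2 ⟨c', rfl⟩, sub_zero]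

include hex hf in
lemma sqιE_aux : ε ≫ ιJ pr EE EC f = EE.ι ≫ prodInl EE.I EC.I :=
  rep_hom_ext_apply fun e => by
    rw [Rep.comp_apply, Rep.comp_apply]
    exact ιJ_ε ε pr EE EC f hex hf e

lemma sqE_aux : EE.π ≫ aQ ε pr EE EC f hex hf = prodInl EE.I EC.I ≫ cokerπ (ιJ pr EE EC f) :=
  rep_hom_ext_apply fun x => by
    rw [Rep.comp_apply, Rep.comp_apply]
    exact aQ_apply ε pr EE EC f hex hf x

lemma sqC_aux : cokerπ (ιJ pr EE EC f) ≫ bQ pr EE EC f = prodSnd EE.I EC.I ≫ EC.π :=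
  rep_hom_ext_apply fun w => by
    rw [Rep.comp_apply, Rep.comp_apply]
    exact bQ_apply pr EE EC f w

include hdiv htf in
/-- **Constructor**: from `E ⟶ J ⟶ C` exact at `J` with `C / pr(J)` uniquely `p`-divisible,
envelopes of `E` and `C`, and an extension `f : J ⟶ I_E` of `ι_E`, build the split envelope
`I_J = I_E × I_C` of `J` and the exact sequence `0 → W_E → W_J → W_C → 0`. -/
def ofEnvelopes : PTModules 𝓛 p E J C where
  ε := ε
  pr := pr
  EE := EE
  EJ := envJ ε pr EE EC f hex hf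
  EC := EC
  iI := prodInl EE.I EC.I
  qI := prodSnd EE.I EC.I
  sI := prodInr EE.I EC.I
  rI := prodFst EE.I EC.I
  sI_qI := prodInr_snd _ _
  iI_rI := prodInl_fst _ _
  iI_qI := prodInl_snd _ _
  sI_rI := prodInr_fst _ _
  decomp := prod_decomp _ _
  sqιE := sqιE_aux ε pr EE EC f hex hf
  sqιC := rep_hom_ext_apply fun _ => rfl
  a := aQ ε pr EE EC f hex hf
  b := bQ pr EE EC f
  sqE := sqE_aux ε pr EE EC f hex hf
  sqC := sqC_aux pr EE EC f
  a_injective := torsionMap_injective p _ (aQ_injective ε pr EE EC f hex hf)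
  ab_exact := torsion_ab_exact ε pr EE EC f hex hf htf
  b_surjective := torsion_b_surjective pr EE EC f hdiv


@[simp] lemma ofEnvelopes_ε : (ofEnvelopes ε pr EE EC f hex hf hdiv htf).ε = ε := rfl
@[simp] lemma ofEnvelopes_pr : (ofEnvelopes ε pr EE EC f hex hf hdiv htf).pr = pr := rfl
@[simp] lemma ofEnvelopes_EE : (ofEnvelopes ε pr EE EC f hex hf hdiv htf).EE = EE := rfl
@[simp] lemma ofEnvelopes_EC : (ofEnvelopes ε pr EE EC f hex hf hdiv htf).EC = EC := rfl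
lemma ofEnvelopes_EJ_I :
    (ofEnvelopes ε pr EE EC f hex hf hdiv htf).EJ.I = prodRep EE.I EC.I := rfl
lemma ofEnvelopes_EJ_ι :
    (ofEnvelopes ε pr EE EC f hex hf hdiv htf).EJ.ι = prodLift f (pr ≫ EC.ι) := rfl

end Construct

section Canonical

variable (𝓛 : LevelStructure H) (p : ℕ) (hp : p ≠ 0) {E J C : Rep.{0} ℤ H}
  (ε : E ⟶ J) (pr : J ⟶ C) (hε : Function.Injective ε.hom)
  (hex : ∀ x : J.V, pr.hom x = 0 ↔ ∃ e : E.V, ε.hom e = x)
  (hdiv : ∀ c : C.V, ∃ (c' : C.V) (x : J.V), c = p • c' + pr.hom x)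
  (htf : ∀ c : C.V, (∃ x : J.V, p • c = pr.hom x) → ∃ x' : J.V, c = pr.hom x')
  (hE : 𝓛.IsDiscrete E) (hJ : 𝓛.IsDiscrete J)

/-- The module package built from the **canonical envelope** of `E` (and any envelope of `C`):
no extension hypothesis is needed (`H36.extensionHom`). -/
def canonical (EC : DivEnvelope 𝓛 p C) : PTModules 𝓛 p E J C :=
  ofEnvelopes ε pr (canonicalEnvelope 𝓛 p hp E hE) EC (extensionHom 𝓛 ε hε hJ) hex
    (comp_extensionHom 𝓛 ε hε hE hJ) hdiv htf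

/-- The module package built from the canonical envelopes of `E` and `C`. -/
def canonical' (hC : 𝓛.IsDiscrete C) : PTModules 𝓛 p E J C :=
  canonical 𝓛 p hp ε pr hε hex hdiv htf hE hJ (canonicalEnvelope 𝓛 p hp C hC)

@[simp] lemma canonical_ε (EC : DivEnvelope 𝓛 p C) :
    (canonical 𝓛 p hp ε pr hε hex hdiv htf hE hJ EC).ε = ε := rfl
@[simp] lemma canonical_pr (EC : DivEnvelope 𝓛 p C) :
    (canonical 𝓛 p hp ε pr hε hex hdiv htf hE hJ EC).pr = pr := rfl
@[simp] lemma canonical_EE (EC : DivEnvelope 𝓛 p C) :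
    (canonical 𝓛 p hp ε pr hε hex hdiv htf hE hJ EC).EE = canonicalEnvelope 𝓛 p hp E hE := rfl
@[simp] lemma canonical_EC (EC : DivEnvelope 𝓛 p C) :
    (canonical 𝓛 p hp ε pr hε hex hdiv htf hE hJ EC).EC = EC := rfl

include hp hε hex hdiv htf hE hJ in
/-- **Existence** of the (Y4) module package. -/
theorem nonempty_PTModules (hC : 𝓛.IsDiscrete C) :
    ∃ M : PTModules 𝓛 p E J C, M.ε = ε ∧ M.pr = pr :=
  ⟨canonical' 𝓛 p hp ε pr hε hex hdiv htf hE hJ hC, rfl, rfl⟩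

end Canonical

end PTModules

end PT

end Fermat.Agent.CFT.H35
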