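/-
CFT project, layer C, package C-ES (helper1), part 6: (X3) in ADDITIVE `Rep ℤ G_ℚ` FORM, in the
exact shapes of helper35's `H35.PTModules.canonical'`.

* `esSub S : Subgroup (OmegaS S)ˣ` : the `S`-units `E_S` of `ℚ_S`, with the Galois action;
  `repES S : Rep ℤ G_ℚ`, `esToJTopHom S : repES S ⟶ repJTop S` (diagonal embedding).
* `esToJTopHom_injective`, `jToCSTopHom_eq_zero_iff` (exactness at `J`),
  `jToCSTopHom_hdiv`, `jToCSTopHom_htf` (the cokernel of `J → C` is uniquely `p`-divisible),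
  `repES_divisible` (`E_S` is `p`-divisible), `isDiscrete_repES`.
* `esVal : (repES S).V → ℚbar` with the five hypotheses of helper55's `isCharRep_torsionRep`
  (`E_S[p] = μ_p` is the mod `p` cyclotomic character).
* `globalPTModules S p .. : H35.PTModules (H87.levelsS S) p (repES S) (repJTop S) (repCSTop S)`.
-/
import Fermat.Agent.CFT.H1_DivTorsion
import Fermat.Agent.CFT.H77_TopDescent
import Fermat.Agent.CFT.H35_PTModules

set_option autoImplicit false

namespace Fermat.Agent.CFT.H1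

open IntermediateField CategoryTheory
open Fermat.Agent.CFT Fermat.Agent.CFT.H77

local notation "Qbar" => AlgebraicClosure ℚ
local notation "GQ" => (AlgebraicClosure ℚ ≃ₐ[ℚ] AlgebraicClosure ℚ)

noncomputable section

variable (S : Finset Nat.Primes)

/-! ### The `S`-units of `ℚ_S` as a Galois module -/

/-- The `S`-units `E_S` inside `ℚ_Sˣ`. -/
def esSub : Subgroup (OmegaS S)ˣ := (sUnits S).comap (omegaUnitsVal S)

variable {S}

theorem mem_esSub_iff {u : (OmegaS S)ˣ} :
    u ∈ esSub S ↔ IsUnitOutside S (u : OmegaS S).val := by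
  show omegaUnitsVal S u ∈ sUnits S ↔ _
  rw [mem_sUnits_iff]
  exact ⟨fun h => h.2, fun h => ⟨(u : OmegaS S).val_mem, h⟩⟩

theorem omegaUnitsVal_smul (σ : GQ) (u : (OmegaS S)ˣ) :
    omegaUnitsVal S (σ • u) = Units.map (σ : Qbar →* Qbar) (omegaUnitsVal S u) :=
  Units.ext rfl

theorem smul_mem_esSub (σ : GQ) {u : (OmegaS S)ˣ} (hu : u ∈ esSub S) : σ • u ∈ esSub S := by
  show omegaUnitsVal S (σ • u) ∈ sUnits S
  rw [omegaUnitsVal_smul]
  exact map_mem_sUnits σ hu

instance esSubAction : MulDistribMulAction GQ (esSub S) where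
  smul σ u := ⟨σ • u.1, smul_mem_esSub σ u.2⟩
  one_smul u := Subtype.ext (one_smul GQ u.1)
  mul_smul σ τ u := Subtype.ext (mul_smul σ τ u.1)
  smul_one σ := Subtype.ext (smul_one σ)
  smul_mul σ u v := Subtype.ext (smul_mul' σ u.1 v.1)

@[simp] theorem esSub_coe_smul (σ : GQ) (u : esSub S) :
    ((σ • u : esSub S) : (OmegaS S)ˣ) = σ • (u : (OmegaS S)ˣ) := rfl

variable (S)

/-- `E_S` as a representation of `G_ℚ`. -/
abbrev repES : Rep ℤ GQ := Rep.ofMulDistribMulAction GQ (esSub S)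

/-- The diagonal embedding `E_S → JTop S` on groups. -/
def esToJTop : esSub S →* JTop S := (diagJTop S).comp (esSub S).subtype

@[simp] theorem esToJTop_apply (u : esSub S) : esToJTop S u = diagJTop S (u : (OmegaS S)ˣ) := rfl

/-- The diagonal embedding `E_S ⟶ JTop S` as a morphism of representations. -/
def esToJTopHom : repES S ⟶ repJTop S :=
  Rep.ofHom
    { toLinearMap := (esToJTop S).toAdditive.toIntLinearMap
      isIntertwining' := fun σ => LinearMap.ext fun x => by
        show Additive.ofMul (esToJTop S (σ • Additive.toMul x)) =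
          Additive.ofMul (σ • esToJTop S (Additive.toMul x))
        rw [esToJTop_apply, esToJTop_apply, esSub_coe_smul, diagJTop_smul] }

theorem esToJTopHom_apply (x : (repES S).V) :
    (esToJTopHom S).hom x = Additive.ofMul (esToJTop S (Additive.toMul x)) := rfl

theorem jToCSTopHom_apply (x : (repJTop S).V) :
    (jToCSTopHom S).hom x = Additive.ofMul (jToCSTop S (Additive.toMul x)) := rfl

variable {S}

/-- `hε`: the diagonal embedding is injective (`S ≠ ∅`). -/
theorem esToJTopHom_injective (hS : S.Nonempty) : Function.Injective (esToJTopHom S).hom := by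
  intro x y hxy
  have h1 : esToJTop S (Additive.toMul x) = esToJTop S (Additive.toMul y) :=
    Additive.ofMul.injective hxy
  have h2 := diagJTop_injective hS h1
  exact Additive.toMul.injective (Subtype.ext h2)

/-- `hex`: exactness of `E_S → JTop S → CSTop S` at `JTop S`. -/
theorem jToCSTopHom_eq_zero_iff (x : (repJTop S).V) :
    (jToCSTopHom S).hom x = 0 ↔ ∃ e : (repES S).V, (esToJTopHom S).hom e = x := by
  have h0 : (jToCSTopHom S).hom x = 0 ↔ jToCSTop S (Additive.toMul x) = 1 := by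
    rw [jToCSTopHom_apply]
    exact ⟨fun h => Additive.ofMul.injective h, fun h => congrArg Additive.ofMul h⟩
  rw [h0, jToCSTop_eq_one_iff]
  constructor
  · rintro ⟨u, hu, hj⟩
    refine ⟨Additive.ofMul (⟨u, mem_esSub_iff.mpr hu⟩ : esSub S), ?_⟩
    rw [esToJTopHom_apply]
    exact (congrArg Additive.ofMul hj.symm)
  · rintro ⟨e, he⟩
    refine ⟨((Additive.toMul e : esSub S) : (OmegaS S)ˣ),
      mem_esSub_iff.mp (Additive.toMul e : esSub S).2, ?_⟩
    rw [← he]
    rfl

/-- `hdiv`: the cokernel of `JTop S → CSTop S` is `p`-divisible (`p ∈ S`). -/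
theorem jToCSTopHom_hdiv {p : ℕ} (hp : p.Prime) (hpS : ∀ ℓ : Nat.Primes, (ℓ : ℕ) = p → ℓ ∈ S)
    (c : (repCSTop S).V) :
    ∃ (c' : (repCSTop S).V) (x : (repJTop S).V), c = p • c' + (jToCSTopHom S).hom x := by
  obtain ⟨c', j, h⟩ := exists_pow_mul_jToCSTop' S hp hpS (Additive.toMul c)
  refine ⟨Additive.ofMul c', Additive.ofMul j, ?_⟩
  rw [jToCSTopHom_apply]
  exact congrArg Additive.ofMul h

/-- `htf`: the cokernel of `JTop S → CSTop S` has no `p`-torsion (`p ∈ S`). -/
theorem jToCSTopHom_htf {p : ℕ} (hp : p.Prime) (hpS : ∀ ℓ : Nat.Primes, (ℓ : ℕ) = p → ℓ ∈ S)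
    (c : (repCSTop S).V) (h : ∃ x : (repJTop S).V, p • c = (jToCSTopHom S).hom x) :
    ∃ x' : (repJTop S).V, c = (jToCSTopHom S).hom x' := by
  obtain ⟨x, hx⟩ := h
  have hnS : ∀ ℓ : Nat.Primes, (ℓ : ℕ) ∣ p → ℓ ∈ S := fun ℓ hℓ =>
    hpS ℓ ((Nat.prime_dvd_prime_iff_eq ℓ.2 hp).mp hℓ)
  set c₀ : CSTop S := Additive.toMul (show Additive (CSTop S) from c) with hc₀
  have h1 : c₀ ^ p ∈ (jToCSTop S).range := by
    refine ⟨Additive.toMul (show Additive (JTop S) from x), ?_⟩
    have := congrArg (fun z : Additive (CSTop S) => Additive.toMul z) hx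
    rw [jToCSTopHom_apply] at this
    exact this.symm
  obtain ⟨j, hj⟩ := mem_range_jToCSTop_of_pow hp.ne_zero hnS c₀ h1
  refine ⟨Additive.ofMul j, ?_⟩
  rw [jToCSTopHom_apply]
  exact (congrArg Additive.ofMul hj).symm

/-- `hE`: `E_S` is `n`-divisible when the primes of `n` lie in `S`. -/
theorem repES_divisible {n : ℕ} (hn : n ≠ 0) (hnS : ∀ ℓ : Nat.Primes, (ℓ : ℕ) ∣ n → ℓ ∈ S)
    (e : (repES S).V) : ∃ e' : (repES S).V, n • e' = e := by
  have hu : omegaUnitsVal S ((Additive.toMul e : esSub S) : (OmegaS S)ˣ) ∈ sUnits S :=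
    (Additive.toMul e : esSub S).2
  obtain ⟨y, hyS, hy⟩ := exists_root_mem_sUnits hn hnS hu
  have hyQ : (y : Qbar) ∈ QS S := hyS.1
  have hy' : omegaUnitsVal S (omegaUnitOf hyQ y.ne_zero) = y := Units.ext rfl
  have hmem : omegaUnitOf hyQ y.ne_zero ∈ esSub S := by
    show omegaUnitsVal S _ ∈ sUnits S
    rw [hy']
    exact hyS
  refine ⟨Additive.ofMul (⟨omegaUnitOf hyQ y.ne_zero, hmem⟩ : esSub S), ?_⟩
  apply Additive.toMul.injective
  apply Subtype.ext
  apply Units.ext
  apply OmegaS.ext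
  show (((omegaUnitOf hyQ y.ne_zero) ^ n : (OmegaS S)ˣ) : OmegaS S).val = _
  have h1 := congrArg (fun z : Qbarˣ => (z : Qbar)) hy
  simp only [Units.val_pow_eq_pow_val] at h1
  rw [Units.val_pow_eq_pow_val]
  show ((((omegaUnitOf hyQ y.ne_zero : (OmegaS S)ˣ) : OmegaS S)) ^ n).val = _
  have h2 : ∀ (z : OmegaS S) (k : ℕ), (z ^ k).val = z.val ^ k := fun z k =>
    map_pow (OmegaS.valHom S) z k
  rw [h2, omegaUnitOf_val]
  exact h1

theorem repES_divisible_prime {p : ℕ} (hp : p.Prime)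
    (hpS : ∀ ℓ : Nat.Primes, (ℓ : ℕ) = p → ℓ ∈ S) (e : (repES S).V) :
    ∃ e' : (repES S).V, p • e' = e :=
  repES_divisible hp.ne_zero
    (fun ℓ hℓ => hpS ℓ ((Nat.prime_dvd_prime_iff_eq ℓ.2 hp).mp hℓ)) e

variable (S)

/-- `E_S` is a discrete `G_ℚ`-module for the levels unramified outside `S`. -/
theorem isDiscrete_repES : (H87.levelsS S).IsDiscrete (repES S) := by
  refine isDiscrete_ofMulDistribMulAction S fun u => ?_
  obtain ⟨F, hF, h⟩ := omegaUnits_fixed_by_level S (u : (OmegaS S)ˣ)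
  exact ⟨F, hF, fun σ hσ => Subtype.ext (h σ hσ)⟩

/-! ### The embedding into `ℚbar` (for `E_S[p] = μ_p`) -/

/-- The value in `ℚbar` of an element of `E_S` (additive notation on the source). -/
def esVal (x : (repES S).V) : Qbar :=
  (((Additive.toMul x : esSub S) : (OmegaS S)ˣ) : OmegaS S).val

theorem esVal_add (x y : (repES S).V) : esVal S (x + y) = esVal S x * esVal S y := rfl

theorem esVal_zero : esVal S (0 : (repES S).V) = 1 := rfl

theorem esVal_injective : Function.Injective (esVal S) := by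
  intro x y h
  apply Additive.toMul.injective
  apply Subtype.ext
  apply Units.ext
  exact OmegaS.ext h

theorem esVal_smul (g : GQ) (x : (repES S).V) : esVal S ((repES S).ρ g x) = g (esVal S x) := rfl

variable {S}

theorem exists_esVal_eq_of_pow_eq_one {n : ℕ} (hn : n ≠ 0)
    (hnS : ∀ ℓ : Nat.Primes, (ℓ : ℕ) ∣ n → ℓ ∈ S) (ζ : Qbar) (hζ : ζ ^ n = 1) :
    ∃ x : (repES S).V, esVal S x = ζ := by
  have hζ0 : ζ ≠ 0 := by
    rintro rfl
    rw [zero_pow hn] at hζ
    exact zero_ne_one hζ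
  have hmem : Units.mk0 ζ hζ0 ∈ sUnits S :=
    mem_sUnits_of_pow_eq_one hn hnS (Units.ext (by simpa using hζ))
  have hQ : ζ ∈ QS S := hmem.1
  have hmem' : omegaUnitOf hQ hζ0 ∈ esSub S := by
    show omegaUnitsVal S _ ∈ sUnits S
    have : omegaUnitsVal S (omegaUnitOf hQ hζ0) = Units.mk0 ζ hζ0 := Units.ext rfl
    rw [this]
    exact hmem
  exact ⟨Additive.ofMul (⟨omegaUnitOf hQ hζ0, hmem'⟩ : esSub S), rfl⟩

/-! ### The global module package -/

variable (S)

/-- **The global Poitou–Tate module package** `E_S → J_S → C_S` (canonical envelopes). -/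
def globalPTModules {p : ℕ} (hp : p.Prime) (hpS : ∀ ℓ : Nat.Primes, (ℓ : ℕ) = p → ℓ ∈ S)
    (hS : S.Nonempty) :
    H35.PTModules (H87.levelsS S) p (repES S) (repJTop S) (repCSTop S) :=
  H35.PTModules.canonical' (H87.levelsS S) p hp.ne_zero (esToJTopHom S) (jToCSTopHom S)
    (esToJTopHom_injective hS) jToCSTopHom_eq_zero_iff (jToCSTopHom_hdiv hp hpS)
    (jToCSTopHom_htf hp hpS) (isDiscrete_repES S) (isDiscrete_repJTop S) (isDiscrete_repCSTop S)

@[simp] theorem globalPTModules_ε {p : ℕ} (hp : p.Prime)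
    (hpS : ∀ ℓ : Nat.Primes, (ℓ : ℕ) = p → ℓ ∈ S) (hS : S.Nonempty) :
    (globalPTModules S hp hpS hS).ε = esToJTopHom S := rfl

@[simp] theorem globalPTModules_pr {p : ℕ} (hp : p.Prime)
    (hpS : ∀ ℓ : Nat.Primes, (ℓ : ℕ) = p → ℓ ∈ S) (hS : S.Nonempty) :
    (globalPTModules S hp hpS hS).pr = jToCSTopHom S := rfl

end

end Fermat.Agent.CFT.H1
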