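import Mathlib

/-!
# The two rows of the duality chase (layer D1 of project CFT; Mathlib only)

Vocabulary-neutral linear algebra producing the rows consumed by `H46.ChaseHyp`
(`H46_DualityChase.lean`) / `H86.DualityRows` out of ANY long exact sequence of level cohomology.

* **Cokernel row.**  In the W-model, `T¹(X) = coker (H⁰(Hom(X,Vm)) → H⁰(Hom(X,W)))` and
  `T²(X) = H¹(Hom(X,W))`.  From the exact row `B₀' → B₀ → B₀'' → B₁' → B₁ → B₁''` (W-side) and
  the Vm-side maps `A' → A → A''` with `A → A''` onto and `δ ∘ d'' = 0`, the induced row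
  `coker d' → coker d → coker d'' → B₁' → B₁ → B₁''` is exact.
* **Dual row.**  Over a field, `Function.Exact f g → Function.Exact g.dualMap f.dualMap`.
-/

set_option autoImplicit false

namespace Fermat.Agent.CFT.H46

section Coker

variable {k : Type*} [CommRing k]
variable {A₁ A₂ A₃ B₁ B₂ B₃ C : Type*}
variable [AddCommGroup A₁] [AddCommGroup A₂] [AddCommGroup A₃]
variable [AddCommGroup B₁] [AddCommGroup B₂] [AddCommGroup B₃] [AddCommGroup C]
variable [Module k A₁] [Module k A₂] [Module k A₃]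
variable [Module k B₁] [Module k B₂] [Module k B₃] [Module k C]

/-- The cokernel of a linear map, as a quotient module. -/
abbrev Coker (d : A₁ →ₗ[k] B₁) : Type _ := B₁ ⧸ LinearMap.range d

/-- The map induced on cokernels by a commutative square. -/
def cokerMap (d₁ : A₁ →ₗ[k] B₁) (d₂ : A₂ →ₗ[k] B₂) (f : A₁ →ₗ[k] A₂) (g : B₁ →ₗ[k] B₂)
    (h : g ∘ₗ d₁ = d₂ ∘ₗ f) : Coker d₁ →ₗ[k] Coker d₂ :=
  Submodule.mapQ _ _ g (by
    rintro _ ⟨a, rfl⟩
    exact ⟨f a, (LinearMap.congr_fun h a).symm⟩)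

@[simp] lemma cokerMap_mk (d₁ : A₁ →ₗ[k] B₁) (d₂ : A₂ →ₗ[k] B₂) (f : A₁ →ₗ[k] A₂)
    (g : B₁ →ₗ[k] B₂) (h : g ∘ₗ d₁ = d₂ ∘ₗ f) (b : B₁) :
    cokerMap d₁ d₂ f g h (Submodule.Quotient.mk b) = Submodule.Quotient.mk (g b) := rfl

/-- The map out of a cokernel induced by a map killing the image. -/
def cokerDesc (d : A₁ →ₗ[k] B₁) (δ : B₁ →ₗ[k] C) (h : δ ∘ₗ d = 0) : Coker d →ₗ[k] C :=
  Submodule.liftQ _ δ (by
    rintro _ ⟨a, rfl⟩
    exact LinearMap.congr_fun h a)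

@[simp] lemma cokerDesc_mk (d : A₁ →ₗ[k] B₁) (δ : B₁ →ₗ[k] C) (h : δ ∘ₗ d = 0) (b : B₁) :
    cokerDesc d δ h (Submodule.Quotient.mk b) = δ b := rfl

lemma cokerMap_surjective (d₁ : A₁ →ₗ[k] B₁) (d₂ : A₂ →ₗ[k] B₂) (f : A₁ →ₗ[k] A₂)
    (g : B₁ →ₗ[k] B₂) (h : g ∘ₗ d₁ = d₂ ∘ₗ f) (hg : Function.Surjective g) :
    Function.Surjective (cokerMap d₁ d₂ f g h) := by
  intro y
  induction y using Submodule.Quotient.induction_on with
  | H b =>
    obtain ⟨b', rfl⟩ := hg b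
    exact ⟨Submodule.Quotient.mk b', rfl⟩

/-- Exactness of the cokernel row at the middle cokernel: needs `A₂ → A₃` onto. -/
theorem exact_cokerMap_cokerMap (d₁ : A₁ →ₗ[k] B₁) (d₂ : A₂ →ₗ[k] B₂) (d₃ : A₃ →ₗ[k] B₃)
    (f₁ : A₁ →ₗ[k] A₂) (f₂ : A₂ →ₗ[k] A₃) (g₁ : B₁ →ₗ[k] B₂) (g₂ : B₂ →ₗ[k] B₃)
    (h₁ : g₁ ∘ₗ d₁ = d₂ ∘ₗ f₁) (h₂ : g₂ ∘ₗ d₂ = d₃ ∘ₗ f₂)
    (hg : Function.Exact g₁ g₂) (hf₂ : Function.Surjective f₂) :
    Function.Exact (cokerMap d₁ d₂ f₁ g₁ h₁) (cokerMap d₂ d₃ f₂ g₂ h₂) := by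
  intro y
  induction y using Submodule.Quotient.induction_on with
  | H b =>
    constructor
    · intro hb
      rw [cokerMap_mk, Submodule.Quotient.mk_eq_zero] at hb
      obtain ⟨a₃, ha₃⟩ := hb
      obtain ⟨a₂, rfl⟩ := hf₂ a₃
      have hker : g₂ (b - d₂ a₂) = 0 := by
        rw [map_sub, ← ha₃]
        have := LinearMap.congr_fun h₂ a₂
        simp only [LinearMap.comp_apply] at this
        rw [this, sub_self]
      obtain ⟨b₁, hb₁⟩ := (hg _).1 hker
      refine ⟨Submodule.Quotient.mk b₁, ?_⟩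
      rw [cokerMap_mk, hb₁, Submodule.Quotient.mk_sub]
      have : (Submodule.Quotient.mk (d₂ a₂) : Coker d₂) = 0 :=
        (Submodule.Quotient.mk_eq_zero _).2 ⟨a₂, rfl⟩
      rw [this, sub_zero]
    · rintro ⟨y₁, hy₁⟩
      induction y₁ using Submodule.Quotient.induction_on with
      | H b₁ =>
        rw [cokerMap_mk] at hy₁
        rw [← hy₁, cokerMap_mk, (hg (g₁ b₁)).2 ⟨b₁, rfl⟩]
        rfl

/-- Exactness of the cokernel row at the last cokernel. -/
theorem exact_cokerMap_cokerDesc (d₂ : A₂ →ₗ[k] B₂) (d₃ : A₃ →ₗ[k] B₃)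
    (f₂ : A₂ →ₗ[k] A₃) (g₂ : B₂ →ₗ[k] B₃) (δ : B₃ →ₗ[k] C)
    (h₂ : g₂ ∘ₗ d₂ = d₃ ∘ₗ f₂) (hδ : δ ∘ₗ d₃ = 0) (hg : Function.Exact g₂ δ) :
    Function.Exact (cokerMap d₂ d₃ f₂ g₂ h₂) (cokerDesc d₃ δ hδ) := by
  intro y
  induction y using Submodule.Quotient.induction_on with
  | H b =>
    constructor
    · intro hb
      rw [cokerDesc_mk] at hb
      obtain ⟨b₂, rfl⟩ := (hg b).1 hb
      exact ⟨Submodule.Quotient.mk b₂, rfl⟩
    · rintro ⟨y₂, hy₂⟩
      induction y₂ using Submodule.Quotient.induction_on with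
      | H b₂ =>
        rw [cokerMap_mk] at hy₂
        rw [← hy₂, cokerDesc_mk]
        exact (hg (g₂ b₂)).2 ⟨b₂, rfl⟩

/-- Exactness of the cokernel row at the first term after the cokernels. -/
theorem exact_cokerDesc (d₃ : A₃ →ₗ[k] B₃) {C' : Type*} [AddCommGroup C'] [Module k C']
    (δ : B₃ →ₗ[k] C) (g : C →ₗ[k] C') (hδ : δ ∘ₗ d₃ = 0) (hg : Function.Exact δ g) :
    Function.Exact (cokerDesc d₃ δ hδ) g := by
  intro c
  constructor
  · intro hc
    obtain ⟨b, rfl⟩ := (hg c).1 hc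
    exact ⟨Submodule.Quotient.mk b, rfl⟩
  · rintro ⟨y, rfl⟩
    induction y using Submodule.Quotient.induction_on with
    | H b =>
      rw [cokerDesc_mk]
      exact (hg (δ b)).2 ⟨b, rfl⟩

end Coker

section Dual

variable {K : Type*} [Field K]
variable {V₁ V₂ V₃ : Type*} [AddCommGroup V₁] [AddCommGroup V₂] [AddCommGroup V₃]
variable [Module K V₁] [Module K V₂] [Module K V₃]

/-- Dualising over a field preserves exactness. -/
theorem exact_dualMap (f : V₁ →ₗ[K] V₂) (g : V₂ →ₗ[K] V₃) (h : Function.Exact f g) :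
    Function.Exact g.dualMap f.dualMap := by
  rw [LinearMap.exact_iff, LinearMap.range_dualMap_eq_dualAnnihilator_ker,
    LinearMap.ker_dualMap_eq_dualAnnihilator_range, (LinearMap.exact_iff.1 h)]

/-- The dual of an injective map over a field is surjective. -/
theorem surjective_dualMap (f : V₁ →ₗ[K] V₂) (hf : Function.Injective f) :
    Function.Surjective f.dualMap :=
  LinearMap.dualMap_surjective_of_injective hf

/-- The dual of a surjective map is injective. -/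
theorem injective_dualMap (f : V₁ →ₗ[K] V₂) (hf : Function.Surjective f) :
    Function.Injective f.dualMap :=
  LinearMap.dualMap_injective_of_surjective hf

end Dual

end Fermat.Agent.CFT.H46
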