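import Fermat.Agent.CFT.H1_LevelLES
import Fermat.Agent.CFT.H46_Rows

/-!
# The W-model of Tate duality: definitions (layer D1-defs of project CFT)

Blueprint v3 (#873): for a level structure `𝓛` on `H`, discrete `k`-representations `Vm`, `W`
and `d : Vm ⟶ W`, and a finite discrete `X`:

* `T1 X = Hom_H(X,W) / d ∘ Hom_H(X,Vm)`, `T2 X = H¹(H; Hom(X,W))`, `T3 X = H²(H; Hom(X,W))`;
* `pair2 : T2 X × H⁰(X) → H¹(H;W)`, `(φ,x) ↦ [g ↦ φ g x]`;
* `pair1 : T1 X × H¹(X) → H¹(H;W)`, `(h,ξ) ↦ [g ↦ h (ξ g)]`.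

The internal Hom is Mathlib's `(Rep.ihom X).obj A = Rep.of (Representation.linHom X.ρ A.ρ)`.
Cohomology is the level cohomology of `H55_LevelDefs` with the functoriality / connecting maps
of `H1_LevelLES`.
-/

set_option autoImplicit false

noncomputable section

universe u

open CategoryTheory

namespace Fermat.Agent.CFT.H46

open Fermat.Agent.CFT Fermat.Agent.CFT.H1 LevelStructure

variable {H : Type u} [Group H] {k : Type u} [CommRing k]

/-! ### Internal Hom -/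

/-- The internal Hom `Hom_k(X, A)` with the conjugation action. -/
abbrev homRep (X A : Rep.{u} k H) : Rep.{u} k H := (Rep.ihom X).obj A

/-- View an element of `Hom(X,A)` as a linear map. -/
abbrev asLin {X A : Rep.{u} k H} (f : homRep X A) : X →ₗ[k] A := f

/-- View a linear map as an element of `Hom(X,A)`. -/
abbrev ofLin {X A : Rep.{u} k H} (f : X →ₗ[k] A) : homRep X A := f

lemma homRep_ρ_apply (X A : Rep.{u} k H) (g : H) (f : X →ₗ[k] A) (x : X) :
    asLin ((homRep X A).ρ g (ofLin f)) x = A.ρ g (f (X.ρ g⁻¹ x)) := rfl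

/-- Post-composition `Hom(X,A) ⟶ Hom(X,B)`. -/
abbrev postHom (X : Rep.{u} k H) {A B : Rep.{u} k H} (v : A ⟶ B) : homRep X A ⟶ homRep X B :=
  (Rep.ihom X).map v

lemma postHom_apply (X : Rep.{u} k H) {A B : Rep.{u} k H} (v : A ⟶ B) (f : X →ₗ[k] A) (x : X) :
    asLin ((postHom X v).hom (ofLin f)) x = v.hom (f x) := rfl

/-- Pre-composition `Hom(Y,A) ⟶ Hom(X,A)` along `u : X ⟶ Y`. -/
def preHom {X Y : Rep.{u} k H} (u : X ⟶ Y) (A : Rep.{u} k H) : homRep Y A ⟶ homRep X A :=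
  Rep.ofHom ⟨(LinearMap.lcomp k A.V u.hom.toLinearMap : (Y →ₗ[k] A) →ₗ[k] (X →ₗ[k] A)),
    fun g => by
      ext f x
      change A.ρ g (f (Y.ρ g⁻¹ (u.hom x))) = A.ρ g (f (u.hom (X.ρ g⁻¹ x)))
      rw [Rep.hom_comm_apply]⟩

lemma preHom_apply {X Y : Rep.{u} k H} (u : X ⟶ Y) (A : Rep.{u} k H) (f : Y →ₗ[k] A) (x : X) :
    asLin ((preHom u A).hom (ofLin f)) x = f (u.hom x) := rfl

lemma preHom_postHom_comm {X Y : Rep.{u} k H} (u : X ⟶ Y) {A B : Rep.{u} k H} (v : A ⟶ B)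
    (f : homRep Y A) :
    (postHom X v).hom ((preHom u A).hom f) = (preHom u B).hom ((postHom Y v).hom f) := rfl

/-- An element of `Hom(X,A)` is invariant iff it is equivariant. -/
lemma mem_invariants_homRep_iff {X A : Rep.{u} k H} (f : X →ₗ[k] A) :
    f ∈ (homRep X A).ρ.invariants ↔ ∀ g x, f (X.ρ g x) = A.ρ g (f x) := by
  constructor
  · intro hf g x
    have := (Representation.linHom.mem_invariants_iff_comm (X := X) (Y := A) f g).1 (hf g)
    exact LinearMap.congr_fun this x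
  · intro hf g
    refine (Representation.linHom.mem_invariants_iff_comm (X := X) (Y := A) f g).2 ?_
    ext x
    exact hf g x

/-- The morphism of representations attached to an invariant element of `Hom(X,A)`. -/
def toHom {X A : Rep.{u} k H} (f : LevelStructure.H0 (homRep X A)) : X ⟶ A :=
  Rep.ofHom ⟨asLin f.1, fun g => by
    ext x
    exact (mem_invariants_homRep_iff (asLin f.1)).1 f.2 g x⟩

@[simp] lemma toHom_apply {X A : Rep.{u} k H} (f : LevelStructure.H0 (homRep X A)) (x : X) :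
    (toHom f).hom x = asLin f.1 x := rfl

/-- Evaluation at an invariant vector, as a morphism of representations. -/
def evHom {X : Rep.{u} k H} (A : Rep.{u} k H) (x : LevelStructure.H0 X) : homRep X A ⟶ A :=
  Rep.ofHom ⟨(LinearMap.applyₗ (x.1 : X) : (X →ₗ[k] A) →ₗ[k] A), fun g => by
    ext f
    change A.ρ g (f (X.ρ g⁻¹ x.1)) = A.ρ g (f x.1)
    rw [x.2 g⁻¹]⟩

@[simp] lemma evHom_apply {X : Rep.{u} k H} (A : Rep.{u} k H) (x : LevelStructure.H0 X)
    (f : X →ₗ[k] A) : (evHom A x).hom f = f x.1 := rfl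

/-- `Hom(X,A)` is discrete when `X` is finitely generated and `X`, `A` are discrete. -/
lemma isDiscrete_homRep (𝓛 : LevelStructure H) {X A : Rep.{u} k H} [Module.Finite k X]
    (hX : 𝓛.IsDiscrete X) (hA : 𝓛.IsDiscrete A) : 𝓛.IsDiscrete (homRep X A) := by
  intro f
  obtain ⟨S, hS⟩ := (Module.Finite.fg_top : (⊤ : Submodule k X).FG)
  obtain ⟨N₁, hN₁, h₁⟩ := exists_level_fixing hX (S.finite_toSet)
  obtain ⟨N₂, hN₂, h₂⟩ := exists_level_fixing hA ((S.finite_toSet).image (asLin f))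
  obtain ⟨N₃, hN₃, hle⟩ := 𝓛.directed N₁ hN₁ N₂ hN₂
  refine ⟨N₃, hN₃, fun n hn => ?_⟩
  change ofLin (asLin ((homRep X A).ρ n f)) = ofLin (asLin f)
  congr 1
  apply LinearMap.ext_on hS
  intro x hx
  change A.ρ n (asLin f (X.ρ n⁻¹ x)) = asLin f x
  rw [h₁ x hx n⁻¹ (N₁.inv_mem (hle hn).1), h₂ _ ⟨x, hx, rfl⟩ n (hle hn).2]

section Field

variable {K : Type u} [Field K]

/-- `Hom(-,A)` is exact over a field. -/
lemma isSES_preHom {X' X X'' : Rep.{u} K H} {i : X' ⟶ X} {p : X ⟶ X''} (h : IsSES i p)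
    (A : Rep.{u} K H) : IsSES (preHom p A) (preHom i A) := by
  refine ⟨?_, ?_, ?_⟩
  · intro f f' hff'
    change ofLin (asLin f) = ofLin (asLin f')
    congr 1
    ext x''
    obtain ⟨x, rfl⟩ := h.surj x''
    exact LinearMap.congr_fun (show asLin ((preHom p A).hom f) = asLin ((preHom p A).hom f')
      from congrArg asLin hff') x
  · intro f'
    obtain ⟨r, hr⟩ := LinearMap.exists_leftInverse_of_injective i.hom.toLinearMap
      (LinearMap.ker_eq_bot.2 h.inj)
    refine ⟨ofLin ((asLin f').comp r), ?_⟩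
    change ofLin _ = ofLin (asLin f')
    congr 1
    ext x'
    change asLin f' (r (i.hom x')) = asLin f' x'
    have := LinearMap.congr_fun hr x'
    simp only [LinearMap.comp_apply, LinearMap.id_apply] at this
    rw [show r (i.hom x') = x' from this]
  · intro f
    constructor
    · intro hf
      obtain ⟨s, hs⟩ := LinearMap.exists_rightInverse_of_surjective p.hom.toLinearMap
        (LinearMap.range_eq_top.2 h.surj)
      refine ⟨ofLin ((asLin f).comp s), ?_⟩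
      change ofLin _ = ofLin (asLin f)
      congr 1
      ext x
      change asLin f (s (p.hom x)) = asLin f x
      have hps : p.hom (s (p.hom x)) = p.hom x := by
        have := LinearMap.congr_fun hs (p.hom x)
        simpa using this
      have hker : p.hom (s (p.hom x) - x) = 0 := by rw [map_sub, hps, sub_self]
      obtain ⟨x', hx'⟩ := (h.exact _).1 hker
      have hfi : asLin f (i.hom x') = 0 :=
        LinearMap.congr_fun (show asLin ((preHom i A).hom f) = 0 from congrArg asLin hf) x'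
      rw [hx', map_sub, sub_eq_zero] at hfi
      exact hfi
    · rintro ⟨f'', rfl⟩
      change ofLin _ = ofLin 0
      congr 1
      ext x'
      change asLin f'' (p.hom (i.hom x')) = 0
      rw [h.zero, map_zero]

/-- `Hom(X,-)` is exact over a field. -/
lemma isSES_postHom (X : Rep.{u} K H) {A' A A'' : Rep.{u} K H} {i : A' ⟶ A} {p : A ⟶ A''}
    (h : IsSES i p) : IsSES (postHom X i) (postHom X p) := by
  refine ⟨?_, ?_, ?_⟩
  · intro f f' hff'
    change ofLin (asLin f) = ofLin (asLin f')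
    congr 1
    ext x
    apply h.inj
    exact LinearMap.congr_fun (show asLin ((postHom X i).hom f) = asLin ((postHom X i).hom f')
      from congrArg asLin hff') x
  · intro f''
    obtain ⟨s, hs⟩ := LinearMap.exists_rightInverse_of_surjective p.hom.toLinearMap
      (LinearMap.range_eq_top.2 h.surj)
    refine ⟨ofLin (s.comp (asLin f'')), ?_⟩
    change ofLin _ = ofLin (asLin f'')
    congr 1
    ext x
    change p.hom (s (asLin f'' x)) = asLin f'' x
    have := LinearMap.congr_fun hs (asLin f'' x)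
    simpa using this
  · intro f
    constructor
    · intro hf
      obtain ⟨r, hr⟩ := LinearMap.exists_leftInverse_of_injective i.hom.toLinearMap
        (LinearMap.ker_eq_bot.2 h.inj)
      refine ⟨ofLin (r.comp (asLin f)), ?_⟩
      change ofLin _ = ofLin (asLin f)
      congr 1
      ext x
      change i.hom (r (asLin f x)) = asLin f x
      have hpf : p.hom (asLin f x) = 0 :=
        LinearMap.congr_fun (show asLin ((postHom X p).hom f) = 0 from congrArg asLin hf) x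
      obtain ⟨a', ha'⟩ := (h.exact _).1 hpf
      rw [← ha']
      have := LinearMap.congr_fun hr a'
      simp only [LinearMap.comp_apply, LinearMap.id_apply] at this
      rw [show r (i.hom a') = a' from this]
    · rintro ⟨f', rfl⟩
      change ofLin _ = ofLin 0
      congr 1
      ext x
      change p.hom (i.hom (asLin f' x)) = 0
      rw [h.zero]

end Field

/-! ### Additivity of the functoriality maps in the morphism -/

section Additive

variable (𝓛 : LevelStructure H) {A B : Rep.{u} k H}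

lemma H1map_add (φ ψ : A ⟶ B) : H1map 𝓛 (φ + ψ) = H1map 𝓛 φ + H1map 𝓛 ψ := by
  ext x
  obtain ⟨f, hf⟩ := x
  rfl

lemma H1map_smul (c : k) (φ : A ⟶ B) : H1map 𝓛 (c • φ) = c • H1map 𝓛 φ := by
  ext x
  obtain ⟨f, hf⟩ := x
  rfl

lemma H1map_zero : H1map 𝓛 (0 : A ⟶ B) = 0 := by
  ext x
  obtain ⟨f, hf⟩ := x
  rfl

end Additive

/-! ### The W-model -/

/-- The data of a W-model: discrete representations `Vm`, `W` and a morphism `d : Vm ⟶ W`. -/
structure WModel (𝓛 : LevelStructure H) (k : Type u) [CommRing k] where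
  /-- the acyclic module (`I[p]` for an envelope `I`) -/
  Vm : Rep.{u} k H
  /-- the dualising module (`(I/N)[p]`) -/
  W : Rep.{u} k H
  /-- the differential of the two-term complex -/
  d : Vm ⟶ W
  discrete_Vm : 𝓛.IsDiscrete Vm
  discrete_W : 𝓛.IsDiscrete W

namespace WModel

variable {𝓛 : LevelStructure H} (M : WModel 𝓛 k)

/-- The map `Hom_H(X,Vm) → Hom_H(X,W)`, `v ↦ d ∘ v`. -/
abbrev dHom (X : Rep.{u} k H) :
    LevelStructure.H0 (homRep X M.Vm) →ₗ[k] LevelStructure.H0 (homRep X M.W) :=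
  H0map (postHom X M.d)

/-- `T¹(X) = Hom_H(X,W) / d ∘ Hom_H(X,Vm)`. -/
abbrev T1 (X : Rep.{u} k H) : Type u := Coker (M.dHom X)

/-- `T²(X) = H¹(H; Hom(X,W))`. -/
abbrev T2 (X : Rep.{u} k H) : Type u := 𝓛.H1 (homRep X M.W)

/-- `T³(X) = H²(H; Hom(X,W))`. -/
abbrev T3 (X : Rep.{u} k H) : Type u := 𝓛.H2 (homRep X M.W)

/-- Contravariant functoriality of `T¹`. -/
def T1map {X Y : Rep.{u} k H} (u : X ⟶ Y) : M.T1 Y →ₗ[k] M.T1 X :=
  cokerMap (M.dHom Y) (M.dHom X) (H0map (preHom u M.Vm)) (H0map (preHom u M.W)) (by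
    ext v
    rfl)

/-- Contravariant functoriality of `T²`. -/
def T2map {X Y : Rep.{u} k H} (u : X ⟶ Y) : M.T2 Y →ₗ[k] M.T2 X := H1map 𝓛 (preHom u M.W)

/-- Contravariant functoriality of `T³`. -/
def T3map {X Y : Rep.{u} k H} (u : X ⟶ Y) : M.T3 Y →ₗ[k] M.T3 X := H2map 𝓛 (preHom u M.W)

/-- The projection `Hom_H(X,W) → T¹(X)`. -/
abbrev T1π (X : Rep.{u} k H) : LevelStructure.H0 (homRep X M.W) →ₗ[k] M.T1 X :=
  Submodule.mkQ _

lemma T1map_mk {X Y : Rep.{u} k H} (u : X ⟶ Y) (h : LevelStructure.H0 (homRep Y M.W)) :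
    M.T1map u (M.T1π Y h) = M.T1π X (H0map (preHom u M.W) h) := rfl

/-! ### The pairings -/

lemma evHom_add {X : Rep.{u} k H} (A : Rep.{u} k H) (x y : LevelStructure.H0 X) :
    evHom A (x + y) = evHom A x + evHom A y := by
  ext f
  exact map_add (asLin f) x.1 y.1

lemma evHom_smul {X : Rep.{u} k H} (A : Rep.{u} k H) (c : k) (x : LevelStructure.H0 X) :
    evHom A (c • x) = c • evHom A x := by
  ext f
  exact map_smul (asLin f) c x.1

lemma toHom_add {X A : Rep.{u} k H} (f f' : LevelStructure.H0 (homRep X A)) :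
    toHom (f + f') = toHom f + toHom f' := by
  ext x
  rfl

lemma toHom_smul {X A : Rep.{u} k H} (c : k) (f : LevelStructure.H0 (homRep X A)) :
    toHom (c • f) = c • toHom f := by
  ext x
  rfl

lemma toHom_dHom {X : Rep.{u} k H} (v : LevelStructure.H0 (homRep X M.Vm)) :
    toHom (M.dHom X v) = toHom v ≫ M.d := by
  ext x
  rfl

lemma toHom_preHom {X Y A : Rep.{u} k H} (u : X ⟶ Y) (f : LevelStructure.H0 (homRep Y A)) :
    toHom (H0map (preHom u A) f) = u ≫ toHom f := by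
  ext x
  rfl

lemma preHom_evHom {X Y : Rep.{u} k H} (u : X ⟶ Y) (A : Rep.{u} k H)
    (x : LevelStructure.H0 X) : preHom u A ≫ evHom A x = evHom A (H0map u x) := by
  ext f
  rfl

/-- `x ↦ (φ ↦ [g ↦ φ g x])`. -/
def pair2' (X : Rep.{u} k H) : LevelStructure.H0 X →ₗ[k] M.T2 X →ₗ[k] 𝓛.H1 M.W where
  toFun x := H1map 𝓛 (evHom M.W x)
  map_add' x y := by rw [evHom_add, H1map_add]
  map_smul' c x := by rw [evHom_smul, H1map_smul, RingHom.id_apply]

/-- The pairing `T²(X) × H⁰(X) → H¹(H;W)`, `(φ,x) ↦ [g ↦ φ g x]`. -/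
def pair2 (X : Rep.{u} k H) : M.T2 X →ₗ[k] LevelStructure.H0 X →ₗ[k] 𝓛.H1 M.W :=
  (M.pair2' X).flip

lemma pair2_apply (X : Rep.{u} k H) (φ : M.T2 X) (x : LevelStructure.H0 X) :
    M.pair2 X φ x = H1map 𝓛 (evHom M.W x) φ := rfl

/-- `h ↦ (ξ ↦ [g ↦ h (ξ g)])` on `Hom_H(X,W)`. -/
def pair1pre (X : Rep.{u} k H) :
    LevelStructure.H0 (homRep X M.W) →ₗ[k] 𝓛.H1 X →ₗ[k] 𝓛.H1 M.W where
  toFun h := H1map 𝓛 (toHom h)
  map_add' h h' := by rw [toHom_add, H1map_add]
  map_smul' c h := by rw [toHom_smul, H1map_smul, RingHom.id_apply]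

lemma pair1pre_apply (X : Rep.{u} k H) (h : LevelStructure.H0 (homRep X M.W)) (ξ : 𝓛.H1 X) :
    M.pair1pre X h ξ = H1map 𝓛 (toHom h) ξ := rfl

lemma pair1pre_dHom (hVm : Subsingleton (𝓛.H1 M.Vm)) (X : Rep.{u} k H) :
    M.pair1pre X ∘ₗ M.dHom X = 0 := by
  ext v ξ
  change H1map 𝓛 (toHom (M.dHom X v)) (Submodule.Quotient.mk ξ) = 0
  rw [toHom_dHom, H1map_comp, LinearMap.comp_apply,
    Subsingleton.elim (H1map 𝓛 (toHom v) (Submodule.Quotient.mk ξ)) 0, map_zero]

/-- The pairing `T¹(X) × H¹(X) → H¹(H;W)`, `(h,ξ) ↦ [g ↦ h (ξ g)]`; well defined because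
`H¹(H;Vm) = 0`. -/
def pair1 (hVm : Subsingleton (𝓛.H1 M.Vm)) (X : Rep.{u} k H) :
    M.T1 X →ₗ[k] 𝓛.H1 X →ₗ[k] 𝓛.H1 M.W :=
  cokerDesc (M.dHom X) (M.pair1pre X) (M.pair1pre_dHom hVm X)

lemma pair1_mk (hVm : Subsingleton (𝓛.H1 M.Vm)) (X : Rep.{u} k H)
    (h : LevelStructure.H0 (homRep X M.W)) (ξ : 𝓛.H1 X) :
    M.pair1 hVm X (M.T1π X h) ξ = H1map 𝓛 (toHom h) ξ := rfl

/-! ### Naturality of the pairings in `X` -/

lemma pair2_natural {X Y : Rep.{u} k H} (u : X ⟶ Y) (φ : M.T2 Y) (x : LevelStructure.H0 X) :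
    M.pair2 X (M.T2map u φ) x = M.pair2 Y φ (H0map u x) := by
  rw [pair2_apply, pair2_apply, T2map, ← LinearMap.comp_apply, ← H1map_comp, preHom_evHom]

lemma pair1_natural (hVm : Subsingleton (𝓛.H1 M.Vm)) {X Y : Rep.{u} k H} (u : X ⟶ Y)
    (t : M.T1 Y) (ξ : 𝓛.H1 X) :
    M.pair1 hVm X (M.T1map u t) ξ = M.pair1 hVm Y t (H1map 𝓛 u ξ) := by
  induction t using Submodule.Quotient.induction_on with
  | H h =>
    change H1map 𝓛 (toHom (H0map (preHom u M.W) h)) ξ = H1map 𝓛 (toHom h) (H1map 𝓛 u ξ)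
    rw [toHom_preHom, H1map_comp, LinearMap.comp_apply]

/-! ### The duality maps attached to a trace -/

variable (tr : 𝓛.H1 M.W →ₗ[k] k)

/-- `α²(X) : T²(X) → H⁰(X)^*`. -/
def α2 (X : Rep.{u} k H) : M.T2 X →ₗ[k] Module.Dual k (LevelStructure.H0 X) :=
  (M.pair2 X).compr₂ tr

/-- `α¹(X) : T¹(X) → H¹(X)^*`. -/
def α1 (hVm : Subsingleton (𝓛.H1 M.Vm)) (X : Rep.{u} k H) :
    M.T1 X →ₗ[k] Module.Dual k (𝓛.H1 X) :=
  (M.pair1 hVm X).compr₂ tr

lemma α2_apply (X : Rep.{u} k H) (φ : M.T2 X) (x : LevelStructure.H0 X) :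
    M.α2 tr X φ x = tr (M.pair2 X φ x) := rfl

lemma α1_apply (hVm : Subsingleton (𝓛.H1 M.Vm)) (X : Rep.{u} k H) (t : M.T1 X) (ξ : 𝓛.H1 X) :
    M.α1 tr hVm X t ξ = tr (M.pair1 hVm X t ξ) := rfl

/-- Naturality square of `α²`: `(H⁰(u))^* ∘ α²(Y) = α²(X) ∘ T²(u)`. -/
lemma α2_natural {X Y : Rep.{u} k H} (u : X ⟶ Y) :
    (H0map u).dualMap ∘ₗ M.α2 tr Y = M.α2 tr X ∘ₗ M.T2map u := by
  ext φ x
  change tr (M.pair2 Y _ (H0map u x)) = tr (M.pair2 X (M.T2map u _) x)
  rw [pair2_natural]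

/-- Naturality square of `α¹`: `(H¹(u))^* ∘ α¹(Y) = α¹(X) ∘ T¹(u)`. -/
lemma α1_natural (hVm : Subsingleton (𝓛.H1 M.Vm)) {X Y : Rep.{u} k H} (u : X ⟶ Y) :
    (H1map 𝓛 u).dualMap ∘ₗ M.α1 tr hVm Y = M.α1 tr hVm X ∘ₗ M.T1map u := by
  refine LinearMap.ext fun t => LinearMap.ext fun ξ => ?_
  change tr (M.pair1 hVm Y t (H1map 𝓛 u ξ)) = tr (M.pair1 hVm X (M.T1map u t) ξ)
  rw [pair1_natural]

end WModel

end Fermat.Agent.CFT.H46
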