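import Mathlib
import Fermat.Agent.CFT.H35_PTModules
import Fermat.Agent.CFT.H46_WModel
import Fermat.Agent.CFT.H36_Envelope3

/-!
# CFT / Layer D / D3c hedge (G): the GLOBAL SEGMENT of Poitou–Tate

For a module package `M : H35.PTModules 𝓛 p E J C` (over `ℤ` or any `k`), a representation `X`
of `H` over `ZMod p`, writing `T¹(X;N) = Hom_H(X,W_N) / d ∘ Hom_H(X,Vm_N)` and
`T²(X;N) = H¹(H; Hom(X,W_N))` (the `W`-model of `N` attached to the envelope `EN`, in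
helper46's `H46.WModel` vocabulary), we construct

  `T¹(X;J) --β--> T¹(X;C) --δ̄--> H¹(H; Hom(X,W_E)) --ι--> T²(X;J)`

and prove exactness at the two middle spots (from helper1's long exact sequence of
`0 → Hom(X,W_E) → Hom(X,W_J) → Hom(X,W_C) → 0` and the splitting of `Vm_J → Vm_C`).

If `E` is `p`-divisible and `Hom(X,Vm_E)` is acyclic in degrees `1, 2`, the connecting map
`θ_E : H¹(H; Hom(X,W_E)) → H²(H; Hom(X,μ))`, `μ = E[p]`, is bijective, whence the segment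

  `T¹(X;J) --β--> T¹(X;C) --δ--> H²(H; Hom(X,μ)) --γ--> T²(X;J)`,

exact at `T¹(X;C)` and at `H²`.
-/

set_option autoImplicit false

noncomputable section

open CategoryTheory

namespace Fermat.Agent.CFT.H35

open Fermat.Agent.CFT Fermat.Agent.CFT.H36 Fermat.Agent.CFT.H1 Fermat.Agent.CFT.H46
  LevelStructure

variable {k : Type} [CommRing k] {H : Type} [Group H] {𝓛 : LevelStructure H}

/-- The `W`-model `[I[p] → (I/N)[p]]` attached to a `p`-divisible envelope of `N`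
(helper46's vocabulary). -/
def wModelOf {p : ℕ} {N : Rep.{0} k H} (EN : DivEnvelope 𝓛 p N) : WModel 𝓛 (ZMod p) where
  Vm := torsionRep p EN.I
  W := torsionRep p EN.Q
  d := EN.dComplex
  discrete_Vm := EN.isDiscrete_dComplex_source
  discrete_W := EN.isDiscrete_dComplex_target

namespace PTModules

variable {p : ℕ} {E J C : Rep.{0} k H} (M : PTModules 𝓛 p E J C)

/-- The `W`-model of `E`. -/
abbrev wE : WModel 𝓛 (ZMod p) := wModelOf M.EE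
/-- The `W`-model of `J`. -/
abbrev wJ : WModel 𝓛 (ZMod p) := wModelOf M.EJ
/-- The `W`-model of `C`. -/
abbrev wC : WModel 𝓛 (ZMod p) := wModelOf M.EC

/-- `0 → W_E → W_J → W_C → 0` as a short exact sequence. -/
theorem isSES_W : IsSES M.aW M.bW where
  inj := M.a_injective
  surj := M.b_surjective
  exact := fun y => by
    constructor
    · intro hy
      obtain ⟨x, hx⟩ := (M.ab_exact y).1 hy
      exact ⟨x, hx⟩
    · rintro ⟨x, rfl⟩
      exact (M.ab_exact _).2 ⟨x, rfl⟩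

/-- `0 → E[p] → Vm_E → W_E → 0` as a short exact sequence, for `p`-divisible `E`. -/
theorem isSES_E (hE : ∀ e : E.V, ∃ e' : E.V, p • e' = e) :
    IsSES M.EE.dKer M.EE.dComplex where
  inj := M.EE.dKer_injective
  surj := M.dE_surjective hE
  exact := fun y => by
    constructor
    · intro hy
      obtain ⟨x, hx⟩ := (M.EE.dComplex_eq_zero_iff y).1 hy
      exact ⟨x, hx⟩
    · rintro ⟨x, rfl⟩
      exact (M.EE.dComplex_eq_zero_iff _).2 ⟨x, rfl⟩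

variable [Fact p.Prime] (X : Rep.{0} (ZMod p) H)

/-- `0 → Hom(X,W_E) → Hom(X,W_J) → Hom(X,W_C) → 0`. -/
theorem isSES_homW : IsSES (postHom X M.aW) (postHom X M.bW) := isSES_postHom X M.isSES_W

/-- `0 → Hom(X,μ) → Hom(X,Vm_E) → Hom(X,W_E) → 0`. -/
theorem isSES_homE (hE : ∀ e : E.V, ∃ e' : E.V, p • e' = e) :
    IsSES (postHom X M.EE.dKer) (postHom X M.EE.dComplex) := isSES_postHom X (M.isSES_E hE)

/-! ### The segment `T¹(X;J) → T¹(X;C) → H¹(Hom(X,W_E)) → T²(X;J)` -/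

lemma postHom_comp {A B D : Rep.{0} (ZMod p) H} (f : A ⟶ B) (g : B ⟶ D) :
    postHom X (f ≫ g) = postHom X f ≫ postHom X g := (Rep.ihom X).map_comp f g

lemma postHom_id (A : Rep.{0} (ZMod p) H) : postHom X (𝟙 A) = 𝟙 (homRep X A) :=
  (Rep.ihom X).map_id A

/-- The square `Hom_H(X,Vm_J) → Hom_H(X,Vm_C)`, `Hom_H(X,W_J) → Hom_H(X,W_C)`. -/
lemma sq_β : H0map (postHom X M.bW) ∘ₗ M.wJ.dHom X = M.wC.dHom X ∘ₗ H0map (postHom X M.qV) := by
  show H0map (postHom X M.bW) ∘ₗ H0map (postHom X M.EJ.dComplex) =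
    H0map (postHom X M.EC.dComplex) ∘ₗ H0map (postHom X M.qV)
  rw [← H0map_comp, ← H0map_comp, ← postHom_comp, ← postHom_comp, M.d_sqC]

/-- `β : T¹(X;J) → T¹(X;C)`, induced by `W_J → W_C`. -/
def β : M.wJ.T1 X →ₗ[ZMod p] M.wC.T1 X :=
  cokerMap (M.wJ.dHom X) (M.wC.dHom X) (H0map (postHom X M.qV)) (H0map (postHom X M.bW))
    (M.sq_β X)

lemma β_mk (h : LevelStructure.H0 (homRep X M.wJ.W)) :
    M.β X (M.wJ.T1π X h) = M.wC.T1π X (H0map (postHom X M.bW) h) := rfl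

/-- `d_C ∘ h = b ∘ (d_J ∘ s ∘ h)`: the image of `Hom_H(X,Vm_C)` in `Hom_H(X,W_C)` comes from
`Hom_H(X,W_J)` (because `Vm_J → Vm_C` is split). -/
lemma dHom_C_eq : M.wC.dHom X =
    H0map (postHom X M.bW) ∘ₗ M.wJ.dHom X ∘ₗ H0map (postHom X M.sV) := by
  have key : M.EC.dComplex = M.sV ≫ M.EJ.dComplex ≫ M.bW := by
    rw [M.d_sqC, ← Category.assoc, M.sV_qV, Category.id_comp]
  show H0map (postHom X M.EC.dComplex) =
    H0map (postHom X M.bW) ∘ₗ H0map (postHom X M.EJ.dComplex) ∘ₗ H0map (postHom X M.sV)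
  rw [key, postHom_comp, postHom_comp, H0map_comp, H0map_comp]
  rfl

section Discrete

variable [Module.Finite (ZMod p) X] (hX : 𝓛.IsDiscrete X)

/-- The connecting map `δ₀ : Hom_H(X,W_C) → H¹(H; Hom(X,W_E))`. -/
def δ₀W : LevelStructure.H0 (homRep X M.wC.W) →ₗ[ZMod p] 𝓛.H1 (homRep X M.wE.W) :=
  δ₀ 𝓛 (M.isSES_homW X) (isDiscrete_homRep 𝓛 hX M.discrete_WJ)

lemma exact_bW_δ₀W : Function.Exact (H0map (postHom X M.bW)) (M.δ₀W X hX) :=
  exact_H0map_δ₀ 𝓛 (M.isSES_homW X) (isDiscrete_homRep 𝓛 hX M.discrete_WJ)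

lemma exact_δ₀W_aW : Function.Exact (M.δ₀W X hX) (H1map 𝓛 (postHom X M.aW)) :=
  exact_δ₀_H1map 𝓛 (M.isSES_homW X) (isDiscrete_homRep 𝓛 hX M.discrete_WJ)

/-- `δ₀` kills `d_C ∘ Hom_H(X,Vm_C)`. -/
lemma δ₀W_comp_dHom : M.δ₀W X hX ∘ₗ M.wC.dHom X = 0 := by
  refine LinearMap.ext fun v => ?_
  rw [M.dHom_C_eq X]
  exact (M.exact_bW_δ₀W X hX).apply_apply_eq_zero _

/-- `δ̄ : T¹(X;C) → H¹(H; Hom(X,W_E))`. -/
def δbar : M.wC.T1 X →ₗ[ZMod p] 𝓛.H1 (homRep X M.wE.W) :=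
  cokerDesc (M.wC.dHom X) (M.δ₀W X hX) (M.δ₀W_comp_dHom X hX)

lemma δbar_mk (h : LevelStructure.H0 (homRep X M.wC.W)) :
    M.δbar X hX (M.wC.T1π X h) = M.δ₀W X hX h := rfl

/-- `ι : H¹(H; Hom(X,W_E)) → T²(X;J)`. -/
def ιT2 : 𝓛.H1 (homRep X M.wE.W) →ₗ[ZMod p] M.wJ.T2 X := H1map 𝓛 (postHom X M.aW)

/-- **Exactness at `T¹(X;C)`**. -/
theorem exact_β_δbar : Function.Exact (M.β X) (M.δbar X hX) :=
  exact_cokerMap_cokerDesc (M.wJ.dHom X) (M.wC.dHom X) (H0map (postHom X M.qV))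
    (H0map (postHom X M.bW)) (M.δ₀W X hX) (M.sq_β X) (M.δ₀W_comp_dHom X hX)
    (M.exact_bW_δ₀W X hX)

/-- **Exactness at `H¹(H; Hom(X,W_E))`**. -/
theorem exact_δbar_ιT2 : Function.Exact (M.δbar X hX) (M.ιT2 X) :=
  exact_cokerDesc (M.wC.dHom X) (M.δ₀W X hX) (M.ιT2 X) (M.δ₀W_comp_dHom X hX)
    (M.exact_δ₀W_aW X hX)

/-! ### The identification `θ_E : H¹(H; Hom(X,W_E)) ≃ H²(H; Hom(X,μ))` -/

variable (hE : ∀ e : E.V, ∃ e' : E.V, p • e' = e)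

/-- The connecting map `θ_E : H¹(H; Hom(X,W_E)) → H²(H; Hom(X,E[p]))` of
`0 → Hom(X,E[p]) → Hom(X,Vm_E) → Hom(X,W_E) → 0`. -/
def θE : 𝓛.H1 (homRep X M.wE.W) →ₗ[ZMod p] 𝓛.H2 (homRep X (torsionRep p E)) :=
  δ₁ 𝓛 (M.isSES_homE X hE) (isDiscrete_homRep 𝓛 hX M.discrete_VmE)

theorem θE_injective (h1 : Subsingleton (𝓛.H1 (homRep X M.VmE))) :
    Function.Injective (M.θE X hX hE) := by
  rw [injective_iff_map_eq_zero]
  intro y hy
  obtain ⟨z, rfl⟩ := ((exact_H1map_δ₁ 𝓛 (M.isSES_homE X hE)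
    (isDiscrete_homRep 𝓛 hX M.discrete_VmE)) y).1 hy
  rw [@Subsingleton.elim _ h1 z 0]
  exact map_zero _

theorem θE_surjective (h2 : Subsingleton (𝓛.H2 (homRep X M.VmE))) :
    Function.Surjective (M.θE X hX hE) := by
  intro a
  exact ((exact_δ₁_H2map 𝓛 (M.isSES_homE X hE)
    (isDiscrete_homRep 𝓛 hX M.discrete_VmE)) a).1 (@Subsingleton.elim _ h2 _ _)

/-- `θ_E` as a linear equivalence, under (AC) for `Vm_E`. -/
def θEquiv (h1 : Subsingleton (𝓛.H1 (homRep X M.VmE)))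
    (h2 : Subsingleton (𝓛.H2 (homRep X M.VmE))) :
    𝓛.H1 (homRep X M.wE.W) ≃ₗ[ZMod p] 𝓛.H2 (homRep X (torsionRep p E)) :=
  LinearEquiv.ofBijective (M.θE X hX hE) ⟨M.θE_injective X hX hE h1, M.θE_surjective X hX hE h2⟩

variable (h1 : Subsingleton (𝓛.H1 (homRep X M.VmE)))
  (h2 : Subsingleton (𝓛.H2 (homRep X M.VmE)))

/-- `δ : T¹(X;C) → H²(H; Hom(X,μ))`, `μ = E[p]`. -/
def δPT : M.wC.T1 X →ₗ[ZMod p] 𝓛.H2 (homRep X (torsionRep p E)) :=
  (M.θEquiv X hX hE h1 h2).toLinearMap ∘ₗ M.δbar X hX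

/-- `γ : H²(H; Hom(X,μ)) → T²(X;J)`. -/
def γPT : 𝓛.H2 (homRep X (torsionRep p E)) →ₗ[ZMod p] M.wJ.T2 X :=
  M.ιT2 X ∘ₗ (M.θEquiv X hX hE h1 h2).symm.toLinearMap

/-- **The Poitou–Tate segment, exactness at `T¹(X;C)`**: `range β = ker δ`. -/
theorem exact_β_δPT : Function.Exact (M.β X) (M.δPT X hX hE h1 h2) := by
  intro t
  rw [← (M.exact_β_δbar X hX) t]
  show (M.θEquiv X hX hE h1 h2) (M.δbar X hX t) = 0 ↔ _
  rw [LinearEquiv.map_eq_zero_iff]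

/-- **The Poitou–Tate segment, exactness at `H²(H; Hom(X,μ))`**: `range δ = ker γ`. -/
theorem exact_δPT_γPT : Function.Exact (M.δPT X hX hE h1 h2) (M.γPT X hX hE h1 h2) := by
  intro a
  show M.ιT2 X ((M.θEquiv X hX hE h1 h2).symm a) = 0 ↔ _
  rw [(M.exact_δbar_ιT2 X hX) _]
  constructor
  · rintro ⟨t, ht⟩
    refine ⟨t, ?_⟩
    show (M.θEquiv X hX hE h1 h2) (M.δbar X hX t) = a
    rw [ht, LinearEquiv.apply_symm_apply]
  · rintro ⟨t, rfl⟩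
    refine ⟨t, ?_⟩
    show M.δbar X hX t = (M.θEquiv X hX hE h1 h2).symm ((M.θEquiv X hX hE h1 h2) (M.δbar X hX t))
    rw [LinearEquiv.symm_apply_apply]

lemma δPT_mk (h : LevelStructure.H0 (homRep X M.wC.W)) :
    M.δPT X hX hE h1 h2 (M.wC.T1π X h) = M.θE X hX hE (M.δ₀W X hX h) := rfl

lemma γPT_θE (y : 𝓛.H1 (homRep X M.wE.W)) :
    M.γPT X hX hE h1 h2 (M.θE X hX hE y) = H1map 𝓛 (postHom X M.aW) y := by
  show M.ιT2 X ((M.θEquiv X hX hE h1 h2).symm ((M.θEquiv X hX hE h1 h2) y)) = _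
  rw [LinearEquiv.symm_apply_apply]
  rfl

end Discrete

/-! ### The same segment in helper91's `WDatum` vocabulary (`H91_WModel`, `DivEnvelope.wDatum`)

All objects agree definitionally with the `H46.WModel` ones used above. -/

section H91

variable (hE : ∀ e : E.V, ∃ e' : E.V, p • e' = e) (hAC : M.EE.wDatum.IsAcyclic)
  (hX : IsFinDiscrete 𝓛 X)

/-- `β : T¹(X;J) → T¹(X;C)`. -/
def β91 : M.EJ.wDatum.T1 X →ₗ[ZMod p] M.EC.wDatum.T1 X := M.β X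

include hX in
lemma moduleFinite_of_isFinDiscrete : Module.Finite (ZMod p) X.V :=
  haveI := hX.finite
  Module.Finite.of_finite

/-- `δ : T¹(X;C) → H²(H; Hom(X,μ))`, `μ = E[p]`. -/
def δ91 : M.EC.wDatum.T1 X →ₗ[ZMod p] 𝓛.H2 (Fermat.Agent.CFT.homRep X (torsionRep p E)) :=
  haveI := moduleFinite_of_isFinDiscrete X hX
  M.δPT X hX.discrete hE (hAC X hX).1 (hAC X hX).2

/-- `γ : H²(H; Hom(X,μ)) → T²(X;J)`. -/
def γ91 : 𝓛.H2 (Fermat.Agent.CFT.homRep X (torsionRep p E)) →ₗ[ZMod p] M.EJ.wDatum.T2 X :=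
  haveI := moduleFinite_of_isFinDiscrete X hX
  M.γPT X hX.discrete hE (hAC X hX).1 (hAC X hX).2

/-- **Exactness at `T¹(X;C)`** (`range β = ker δ`). -/
theorem exact_β91_δ91 : Function.Exact (M.β91 X) (M.δ91 X hE hAC hX) :=
  haveI := moduleFinite_of_isFinDiscrete X hX
  M.exact_β_δPT X hX.discrete hE (hAC X hX).1 (hAC X hX).2

/-- **Exactness at `H²(H; Hom(X,μ))`** (`range δ = ker γ`). -/
theorem exact_δ91_γ91 : Function.Exact (M.δ91 X hE hAC hX) (M.γ91 X hE hAC hX) :=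
  haveI := moduleFinite_of_isFinDiscrete X hX
  M.exact_δPT_γPT X hX.discrete hE (hAC X hX).1 (hAC X hX).2

/-- `0 → Hom(X,W_E) → Hom(X,W_J) → Hom(X,W_C) → 0` in `H91` vocabulary. -/
theorem isSES_homW91 : IsSES (homRepMap X M.aW) (homRepMap X M.bW) := M.isSES_homW X

include hE in
/-- `0 → Hom(X,μ) → Hom(X,Vm_E) → Hom(X,W_E) → 0` in `H91` vocabulary. -/
theorem isSES_homE91 : IsSES (homRepMap X M.EE.dKer) (homRepMap X M.EE.dComplex) :=
  M.isSES_homE X hE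

/-- `θ_E : H¹(H; Hom(X,W_E)) → H²(H; Hom(X,μ))`, the connecting map `δ₁` of
`isSES_homE91`. -/
def θ91 : 𝓛.H1 (Fermat.Agent.CFT.homRep X M.EE.wDatum.W) →ₗ[ZMod p]
    𝓛.H2 (Fermat.Agent.CFT.homRep X (torsionRep p E)) :=
  haveI := moduleFinite_of_isFinDiscrete X hX
  M.θE X hX.discrete hE

lemma θ91_eq :
    M.θ91 X hE hX = δ₁ 𝓛 (M.isSES_homE91 X hE)
      (haveI := moduleFinite_of_isFinDiscrete X hX
       isDiscrete_homRep 𝓛 hX.discrete M.discrete_VmE) := rfl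

include hAC in
theorem θ91_bijective : Function.Bijective (M.θ91 X hE hX) :=
  haveI := moduleFinite_of_isFinDiscrete X hX
  ⟨M.θE_injective X hX.discrete hE (hAC X hX).1, M.θE_surjective X hX.discrete hE (hAC X hX).2⟩

/-- `γ ∘ θ_E = H¹(a)`. -/
lemma γ91_θ91 (y : 𝓛.H1 (Fermat.Agent.CFT.homRep X M.EE.wDatum.W)) :
    M.γ91 X hE hAC hX (M.θ91 X hE hX y) = H50.coeffH1 𝓛 (homRepMap X M.aW) y :=
  haveI := moduleFinite_of_isFinDiscrete X hX
  M.γPT_θE X hX.discrete hE (hAC X hX).1 (hAC X hX).2 y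

/-- `δ [h] = θ_E (δ₀ h)`, `δ₀` the connecting map of `isSES_homW91`. -/
lemma δ91_mk (h : M.EC.wDatum.T1num X) :
    M.δ91 X hE hAC hX (Submodule.Quotient.mk h) =
      M.θ91 X hE hX (δ₀ 𝓛 (M.isSES_homW91 X)
        (haveI := moduleFinite_of_isFinDiscrete X hX
         isDiscrete_homRep 𝓛 hX.discrete M.discrete_WJ) h) := rfl

/-- `β` on representatives: `[h] ↦ [b ∘ h]`. -/
lemma β91_mk (h : M.EJ.wDatum.T1num X) :
    M.β91 X (Submodule.Quotient.mk h) =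
      Submodule.Quotient.mk (H50.coeffH0 (homRepMap X M.bW) h) := rfl

end H91

/-! ### (AC) for the packages built by the constructors -/

section AC

omit [Fact p.Prime]

/-- The envelope `I_E × I_C` of `J` built by `ofEnvelopes` is coinduced if `I_E`, `I_C` are. -/
theorem isCoinduced_ofEnvelopes_EJ (ε : E ⟶ J) (pr : J ⟶ C) (EE : DivEnvelope 𝓛 p E)
    (EC : DivEnvelope 𝓛 p C) (f : J ⟶ EE.I)
    (hex : ∀ x : J.V, pr.hom x = 0 ↔ ∃ e : E.V, ε.hom e = x) (hf : ε ≫ f = EE.ι)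
    (hdiv : ∀ c : C.V, ∃ (c' : C.V) (x : J.V), c = p • c' + pr.hom x)
    (htf : ∀ c : C.V, (∃ x : J.V, p • c = pr.hom x) → ∃ x' : J.V, c = pr.hom x')
    (hEE : IsCoinduced 𝓛 EE.I) (hEC : IsCoinduced 𝓛 EC.I) :
    IsCoinduced 𝓛 (ofEnvelopes ε pr EE EC f hex hf hdiv htf).EJ.I :=
  hEE.prod hEC

end AC

section ACcanonical

variable {H' : Type} [Group H'] (𝓛' : LevelStructure H') (q : ℕ) [Fact q.Prime] (hq : q ≠ 0)
  {E' J' C' : Rep.{0} ℤ H'} (ε : E' ⟶ J') (pr : J' ⟶ C') (hε : Function.Injective ε.hom)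
  (hex : ∀ x : J'.V, pr.hom x = 0 ↔ ∃ e : E'.V, ε.hom e = x)
  (hdiv : ∀ c : C'.V, ∃ (c' : C'.V) (x : J'.V), c = q • c' + pr.hom x)
  (htf : ∀ c : C'.V, (∃ x : J'.V, q • c = pr.hom x) → ∃ x' : J'.V, c = pr.hom x')
  (hE' : 𝓛'.IsDiscrete E') (hJ' : 𝓛'.IsDiscrete J') (hC' : 𝓛'.IsDiscrete C')

/-- (AC) for the three `W`-data of the canonical module package. -/
theorem canonical'_isAcyclic :
    (canonical' 𝓛' q hq ε pr hε hex hdiv htf hE' hJ' hC').EE.wDatum.IsAcyclic ∧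
    (canonical' 𝓛' q hq ε pr hε hex hdiv htf hE' hJ' hC').EJ.wDatum.IsAcyclic ∧
    (canonical' 𝓛' q hq ε pr hε hex hdiv htf hE' hJ' hC').EC.wDatum.IsAcyclic := by
  have h1 : IsCoinduced 𝓛' (canonicalEnvelope 𝓛' q hq E' hE').I :=
    isCoinduced_canonicalEnvelope 𝓛' q hq E' hE'
  have h2 : IsCoinduced 𝓛' (canonicalEnvelope 𝓛' q hq C' hC').I :=
    isCoinduced_canonicalEnvelope 𝓛' q hq C' hC'
  refine ⟨DivEnvelope.isAcyclic_of_isCoinduced _ h1, DivEnvelope.isAcyclic_of_isCoinduced _ ?_,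
    DivEnvelope.isAcyclic_of_isCoinduced _ h2⟩
  exact h1.prod h2

end ACcanonical

end PTModules

end Fermat.Agent.CFT.H35
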