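/-
CFT project, package D3-inst-global-modules-extras (helper1): complements to
`H1.globalPTModules` requested by D3-inst (helper55, board #1325 (4)).

* (a) the `J`-split: `repJq S q`, `inq S q : repJq S q ⟶ repJTop S`, `prq S q : repJTop S ⟶ repJq S q`
  with the projector identities;
* (b) acyclicity (AC) of the three `W`-data of `globalPTModules`;
* (c) the envelopes `H36.envelope 𝓛 N` (and products of two of them, e.g. `(globalPTModules ..).EJ.I`)
  are injective among `𝓛`-discrete modules.
-/
import Fermat.Agent.CFT.H1_GlobalPT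
import Fermat.Agent.CFT.H35_PTSegment

set_option autoImplicit false

namespace Fermat.Agent.CFT.H1

open IntermediateField CategoryTheory
open Fermat.Agent.CFT Fermat.Agent.CFT.H77

local notation "Qbar" => AlgebraicClosure ℚ
local notation "GQ" => (AlgebraicClosure ℚ ≃ₐ[ℚ] AlgebraicClosure ℚ)

noncomputable section

/-! ### (c) Injectivity of the envelopes among discrete modules -/

section Injective

variable {H : Type} [Group H] (𝓛 : LevelStructure H)

/-- Additive maps into `V(N) = ∏ ℚ/ℤ` extend along injective additive maps. -/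
theorem exists_Vdiv_extension {M A B : Type} [AddCommGroup M] [AddCommGroup A] [AddCommGroup B]
    (i : A →+ B) (hi : Function.Injective i) (f : A →+ H36.Vdiv M) :
    ∃ g : B →+ H36.Vdiv M, ∀ a, g (i a) = f a := by
  classical
  have key : ∀ χ : CharacterModule M, ∃ ψ : CharacterModule B, ∀ a, ψ (i a) = f a χ := by
    intro χ
    let φ : CharacterModule A :=
      { toFun := fun a => f a χ
        map_zero' := by rw [map_zero]; rfl
        map_add' := fun a b => by rw [map_add]; rfl }
    obtain ⟨ψ, hψ⟩ := H36.exists_char_extension i hi φ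
    exact ⟨ψ, hψ⟩
  choose ψ hψ using key
  refine ⟨{ toFun := fun b => fun χ => ψ χ b
            map_zero' := by funext χ; exact map_zero (ψ χ)
            map_add' := fun a b => by funext χ; exact map_add (ψ χ) a b }, fun a => ?_⟩
  funext χ
  exact hψ χ a

/-- **`H36.envelope 𝓛 N` is injective among `𝓛`-discrete modules.** -/
theorem exists_extension_envelope (N : Rep.{0} ℤ H) {A B : Rep.{0} ℤ H}
    (hA : 𝓛.IsDiscrete A) (hB : 𝓛.IsDiscrete B) (i : A ⟶ B) (hi : Function.Injective i.hom)
    (f : A ⟶ H36.envelope 𝓛 N) : ∃ g : B ⟶ H36.envelope 𝓛 N, i ≫ g = f := by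
  -- evaluation at `1`
  let f₀ : A.V →+ H36.Vdiv N.V :=
    { toFun := fun a => (show H36.levelFun (k := ℤ) 𝓛 (H36.Vdiv N.V) from f.hom a).1 1
      map_zero' := by rw [map_zero]; rfl
      map_add' := fun a b => by rw [map_add]; rfl }
  obtain ⟨g₀, hg₀⟩ := exists_Vdiv_extension (H36.homAdd i) hi f₀
  refine ⟨H36.orbitMap 𝓛 B hB (H36.intLinearOfAddHom g₀), ?_⟩
  apply H35.rep_hom_ext_apply
  intro a
  apply Subtype.ext
  funext x
  show g₀ (B.ρ x (i.hom a)) = (show H36.levelFun (k := ℤ) 𝓛 (H36.Vdiv N.V) from f.hom a).1 x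
  rw [← Rep.hom_comm_apply]
  have h1 := hg₀ (A.ρ x a)
  have h2 : (show H36.levelFun (k := ℤ) 𝓛 (H36.Vdiv N.V) from f.hom (A.ρ x a)).1 1 =
      (show H36.levelFun (k := ℤ) 𝓛 (H36.Vdiv N.V) from f.hom a).1 x := by
    rw [Rep.hom_comm_apply]
    show (show H36.levelFun (k := ℤ) 𝓛 (H36.Vdiv N.V) from f.hom a).1 (1 * x) = _
    rw [one_mul]
  exact h1.trans h2

/-- The product of two envelopes is injective among `𝓛`-discrete modules. -/
theorem exists_extension_prodRep_envelope (N N' : Rep.{0} ℤ H) {A B : Rep.{0} ℤ H}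
    (hA : 𝓛.IsDiscrete A) (hB : 𝓛.IsDiscrete B) (i : A ⟶ B) (hi : Function.Injective i.hom)
    (f : A ⟶ H35.prodRep (H36.envelope 𝓛 N) (H36.envelope 𝓛 N')) :
    ∃ g : B ⟶ H35.prodRep (H36.envelope 𝓛 N) (H36.envelope 𝓛 N'), i ≫ g = f := by
  obtain ⟨g₁, hg₁⟩ := exists_extension_envelope 𝓛 N hA hB i hi (f ≫ H35.prodFst _ _)
  obtain ⟨g₂, hg₂⟩ := exists_extension_envelope 𝓛 N' hA hB i hi (f ≫ H35.prodSnd _ _)
  refine ⟨H35.prodLift g₁ g₂, ?_⟩
  apply H35.rep_hom_ext_apply
  intro a
  apply H35.prodRep_ext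
  · have := congrArg (fun φ : A ⟶ H36.envelope 𝓛 N => φ.hom a) hg₁
    exact this
  · have := congrArg (fun φ : A ⟶ H36.envelope 𝓛 N' => φ.hom a) hg₂
    exact this

end Injective

variable (S : Finset Nat.Primes)

/-! ### (a) The `J`-split -/

/-- The `q`-component of `JTop S` as a representation of `G_ℚ`. -/
abbrev repJq (q : ↥S) : Rep ℤ GQ := Rep.ofMulDistribMulAction GQ (LocTop S q.1)ˣ

/-- The inclusion of the `q`-component, on groups. -/
def inqMul (q : ↥S) : (LocTop S q.1)ˣ →* JTop S :=
  MonoidHom.mulSingle (fun q : ↥S => (LocTop S q.1)ˣ) q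

/-- The projection to the `q`-component, on groups. -/
def prqMul (q : ↥S) : JTop S →* (LocTop S q.1)ˣ :=
  Pi.evalMonoidHom (fun q : ↥S => (LocTop S q.1)ˣ) q

theorem inqMul_same (q : ↥S) (x : (LocTop S q.1)ˣ) : inqMul S q x q = x :=
  Pi.mulSingle_eq_same (M := fun q : ↥S => (LocTop S q.1)ˣ) q x

theorem inqMul_of_ne {q u : ↥S} (h : u ≠ q) (x : (LocTop S q.1)ˣ) : inqMul S q x u = 1 :=
  Pi.mulSingle_eq_of_ne (M := fun q : ↥S => (LocTop S q.1)ˣ) h x

theorem prqMul_apply (q : ↥S) (j : JTop S) : prqMul S q j = j q := rfl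

theorem smul_inqMul (σ : GQ) (q : ↥S) (x : (LocTop S q.1)ˣ) :
    σ • inqMul S q x = inqMul S q (σ • x) := by
  funext u
  by_cases h : u = q
  · subst h
    show σ • inqMul S u x u = inqMul S u (σ • x) u
    rw [inqMul_same, inqMul_same]
  · show σ • inqMul S q x u = inqMul S q (σ • x) u
    rw [inqMul_of_ne S h, inqMul_of_ne S h, smul_one]

/-- The inclusion `J_q ⟶ J_S`. -/
def inq (q : ↥S) : repJq S q ⟶ repJTop S :=
  Rep.ofHom
    { toLinearMap := (inqMul S q).toAdditive.toIntLinearMap
      isIntertwining' := fun σ => LinearMap.ext fun x => by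
        show Additive.ofMul (inqMul S q (σ • Additive.toMul x)) =
          Additive.ofMul (σ • inqMul S q (Additive.toMul x))
        rw [smul_inqMul] }

/-- The projection `J_S ⟶ J_q`. -/
def prq (q : ↥S) : repJTop S ⟶ repJq S q :=
  Rep.ofHom
    { toLinearMap := (prqMul S q).toAdditive.toIntLinearMap
      isIntertwining' := fun _ => LinearMap.ext fun _ => rfl }

theorem inq_apply (q : ↥S) (x : (repJq S q).V) :
    (inq S q).hom x = Additive.ofMul (inqMul S q (Additive.toMul x)) := rfl

theorem prq_apply (q : ↥S) (j : (repJTop S).V) :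
    (prq S q).hom j = Additive.ofMul ((Additive.toMul j : JTop S) q) := rfl

/-- `(in_q x) q = x`. -/
theorem inq_apply_same (q : ↥S) (x : (repJq S q).V) :
    (Additive.toMul ((inq S q).hom x) : JTop S) q = Additive.toMul x :=
  inqMul_same S q _

/-- `(in_q x) u = 1` for `u ≠ q`. -/
theorem inq_apply_of_ne {q u : ↥S} (h : u ≠ q) (x : (repJq S q).V) :
    (Additive.toMul ((inq S q).hom x) : JTop S) u = 1 :=
  inqMul_of_ne S h _

theorem inq_prq_self (q : ↥S) : inq S q ≫ prq S q = 𝟙 (repJq S q) := by
  apply H35.rep_hom_ext_apply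
  intro x
  show Additive.ofMul (inqMul S q (Additive.toMul x) q) = x
  rw [inqMul_same]
  rfl

theorem inq_prq_of_ne {q u : ↥S} (h : u ≠ q) : inq S q ≫ prq S u = 0 := by
  apply H35.rep_hom_ext_apply
  intro x
  show Additive.ofMul (inqMul S q (Additive.toMul x) u) = 0
  rw [inqMul_of_ne S h]
  rfl

theorem inq_injective (q : ↥S) : Function.Injective (inq S q).hom := by
  intro x y h
  have := congrArg (fun z => (prq S q).hom z) h
  have h1 : ∀ z : (repJq S q).V, (prq S q).hom ((inq S q).hom z) = z := fun z => by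
    have := congrArg (fun φ : repJq S q ⟶ repJq S q => φ.hom z) (inq_prq_self S q)
    exact this
  simpa only [h1] using this

/-- `Σ_q in_q (pr_q j) = j`. -/
theorem sum_inq_prq (j : (repJTop S).V) :
    ∑ q : ↥S, (inq S q).hom ((prq S q).hom j) = j := by
  classical
  have key : ∀ (T : Finset ↥S) (u : ↥S),
      (Additive.toMul (show Additive (JTop S) from
        ∑ q ∈ T, (inq S q).hom ((prq S q).hom j)) : JTop S) u =
      if u ∈ T then (Additive.toMul (show Additive (JTop S) from j) : JTop S) u else 1 := by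
    intro T
    induction T using Finset.induction_on with
    | empty => intro u; simp
    | insert a T ha ih =>
      intro u
      rw [Finset.sum_insert ha]
      show (inqMul S a ((Additive.toMul (show Additive (JTop S) from j) : JTop S) a) u) *
        (Additive.toMul (show Additive (JTop S) from
          ∑ q ∈ T, (inq S q).hom ((prq S q).hom j)) : JTop S) u = _
      rw [ih u]
      by_cases hua : u = a
      · subst hua
        rw [inqMul_same, if_neg ha, mul_one, if_pos (Finset.mem_insert_self _ _)]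
      · rw [inqMul_of_ne S hua, one_mul]
        simp only [Finset.mem_insert, hua, false_or]
  apply Additive.toMul.injective
  funext u
  have := key Finset.univ u
  rw [if_pos (Finset.mem_univ u)] at this
  exact this

/-- Two elements of `J_S` with the same components are equal. -/
theorem repJTop_ext {j j' : (repJTop S).V} (h : ∀ q : ↥S, (prq S q).hom j = (prq S q).hom j') :
    j = j' := by
  rw [← sum_inq_prq S j, ← sum_inq_prq S j']
  exact Finset.sum_congr rfl fun q _ => by rw [h q]

theorem isDiscrete_repJq (q : ↥S) : (H87.levelsS S).IsDiscrete (repJq S q) :=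
  isDiscrete_ofMulDistribMulAction S (locTopUnits_fixed_by_level S q.1)

/-! ### (b) Acyclicity of the global package, (c) injectivity of its middle envelope -/

variable {p : ℕ} [Fact p.Prime]

/-- (AC) for the three `W`-data of the global module package. -/
theorem globalPTModules_isAcyclic (hp : p.Prime)
    (hpS : ∀ ℓ : Nat.Primes, (ℓ : ℕ) = p → ℓ ∈ S) (hS : S.Nonempty) :
    (globalPTModules S hp hpS hS).EE.wDatum.IsAcyclic ∧
    (globalPTModules S hp hpS hS).EJ.wDatum.IsAcyclic ∧
    (globalPTModules S hp hpS hS).EC.wDatum.IsAcyclic :=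
  H35.PTModules.canonical'_isAcyclic (H87.levelsS S) p hp.ne_zero (esToJTopHom S) (jToCSTopHom S)
    (esToJTopHom_injective hS) jToCSTopHom_eq_zero_iff (jToCSTopHom_hdiv hp hpS)
    (jToCSTopHom_htf hp hpS) (isDiscrete_repES S) (isDiscrete_repJTop S) (isDiscrete_repCSTop S)

omit [Fact p.Prime] in
/-- The middle envelope `I_J = I_E × I_C` of the global package is injective among discrete
modules. -/
theorem globalPTModules_EJ_injective (hp : p.Prime)
    (hpS : ∀ ℓ : Nat.Primes, (ℓ : ℕ) = p → ℓ ∈ S) (hS : S.Nonempty)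
    {A B : Rep.{0} ℤ GQ} (hA : (H87.levelsS S).IsDiscrete A) (hB : (H87.levelsS S).IsDiscrete B)
    (i : A ⟶ B) (hi : Function.Injective i.hom) (f : A ⟶ (globalPTModules S hp hpS hS).EJ.I) :
    ∃ g : B ⟶ (globalPTModules S hp hpS hS).EJ.I, i ≫ g = f :=
  exists_extension_prodRep_envelope (H87.levelsS S) (repES S) (repCSTop S) hA hB i hi f

end

end Fermat.Agent.CFT.H1
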