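import Mathlib
import Fermat.Agent.CFT.H36_Envelope
import Fermat.Agent.CFT.H50_LevelRes
import Fermat.Agent.CFT.H91_WModel
import Fermat.Agent.CFT.H36_Envelope3

/-!
# CFT / Layer D / D4-PI : finite products of representations and level cohomology

* `piRep M` : the product `Π v, M v` of a family of representations (componentwise action),
  with `piProj`, `piLift`, `piMap`; discreteness for finite index sets;
* the abstract product lemma: if `pv v : M ⟶ Mv v` is jointly injective and jointly surjective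
  on vectors, then `H⁰(M) → Π H⁰(Mv v)` is bijective, and for a finite index set so is
  `H¹(M) → Π H¹(Mv v)` (level cohomology);
* `divEnvelopePi` : the product of divisible envelopes.
-/

set_option autoImplicit false

noncomputable section

open CategoryTheory

namespace Fermat.Agent.CFT.H35

open Fermat.Agent.CFT Fermat.Agent.CFT.H36

section PiRep

variable {k G ι : Type} [CommRing k] [Group G]

/-- The componentwise representation on a product. -/
def piRepresentation (M : ι → Rep.{0} k G) : Representation k G (∀ v, (M v).V) where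
  toFun g := LinearMap.pi fun v => (M v).ρ g ∘ₗ LinearMap.proj v
  map_one' := by
    refine LinearMap.ext fun x => funext fun v => ?_
    show (M v).ρ 1 (x v) = x v
    rw [map_one]; rfl
  map_mul' g h := by
    refine LinearMap.ext fun x => funext fun v => ?_
    show (M v).ρ (g * h) (x v) = (M v).ρ g ((M v).ρ h (x v))
    rw [map_mul]; rfl

/-- The product of a family of representations. -/
abbrev piRep (M : ι → Rep.{0} k G) : Rep.{0} k G := Rep.of (piRepresentation M)

lemma piRep_ρ_apply (M : ι → Rep.{0} k G) (g : G) (x : ∀ v, (M v).V) (v : ι) :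
    ((piRep M).ρ g x : ∀ v, (M v).V) v = (M v).ρ g (x v) := rfl

/-- The projections. -/
def piProj (M : ι → Rep.{0} k G) (v : ι) : piRep M ⟶ M v :=
  Rep.ofHom (ρ := (piRep M).ρ) (σ := (M v).ρ)
    ⟨LinearMap.proj v, fun _ => LinearMap.ext fun _ => rfl⟩

lemma piProj_apply (M : ι → Rep.{0} k G) (v : ι) (x : ∀ v, (M v).V) :
    (piProj M v).hom (x : (piRep M).V) = x v := rfl

/-- The universal map into the product. -/
def piLift {N : Rep.{0} k G} {M : ι → Rep.{0} k G} (f : ∀ v, N ⟶ M v) : N ⟶ piRep M :=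
  Rep.ofHom (ρ := N.ρ) (σ := (piRep M).ρ)
    ⟨LinearMap.pi fun v => (f v).hom.toLinearMap, fun g => by
      refine LinearMap.ext fun x => funext fun v => ?_
      exact Rep.hom_comm_apply (f v) g x⟩

lemma piLift_apply {N : Rep.{0} k G} {M : ι → Rep.{0} k G} (f : ∀ v, N ⟶ M v) (x : N.V)
    (v : ι) : ((piLift f).hom x : ∀ v, (M v).V) v = (f v).hom x := rfl

/-- Functoriality of the product. -/
def piMap {M M' : ι → Rep.{0} k G} (f : ∀ v, M v ⟶ M' v) : piRep M ⟶ piRep M' :=
  piLift fun v => piProj M v ≫ f v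

lemma piMap_apply {M M' : ι → Rep.{0} k G} (f : ∀ v, M v ⟶ M' v) (x : ∀ v, (M v).V) (v : ι) :
    ((piMap f).hom (x : (piRep M).V) : ∀ v, (M' v).V) v = (f v).hom (x v) := rfl

lemma piLift_proj {N : Rep.{0} k G} {M : ι → Rep.{0} k G} (f : ∀ v, N ⟶ M v) (v : ι) :
    piLift f ≫ piProj M v = f v := by
  apply Rep.hom_ext
  apply Representation.IntertwiningMap.ext
  exact LinearMap.ext fun _ => rfl

lemma piMap_proj {M M' : ι → Rep.{0} k G} (f : ∀ v, M v ⟶ M' v) (v : ι) :
    piMap f ≫ piProj M' v = piProj M v ≫ f v := piLift_proj _ v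

/-- A finite product of discrete representations is discrete. -/
theorem isDiscrete_piRep [Finite ι] (𝓛 : LevelStructure G) {M : ι → Rep.{0} k G}
    (h : ∀ v, 𝓛.IsDiscrete (M v)) : 𝓛.IsDiscrete (piRep M) := by
  classical
  cases nonempty_fintype ι
  intro x
  have hx : ∀ v, ∃ N ∈ 𝓛.levels, ∀ n ∈ N, (M v).ρ n ((x : ∀ v, (M v).V) v) = (x : ∀ v, (M v).V) v :=
    fun v => h v _
  choose N hN hfix using hx
  -- a common level below all `N v`
  have key : ∀ s : Finset ι, ∃ N₀ ∈ 𝓛.levels, ∀ v ∈ s, N₀ ≤ N v := by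
    intro s
    induction s using Finset.induction_on with
    | empty =>
      obtain ⟨N₀, hN₀⟩ := 𝓛.nonempty
      exact ⟨N₀, hN₀, fun v hv => absurd hv (Finset.notMem_empty v)⟩
    | insert a s _ ih =>
      obtain ⟨N₁, hN₁, h₁⟩ := ih
      obtain ⟨N₂, hN₂, hle⟩ := 𝓛.directed N₁ hN₁ (N a) (hN a)
      refine ⟨N₂, hN₂, fun v hv => ?_⟩
      rcases Finset.mem_insert.1 hv with rfl | hv
      · exact hle.trans inf_le_right
      · exact (hle.trans inf_le_left).trans (h₁ v hv)
  obtain ⟨N₀, hN₀, hle⟩ := key Finset.univ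
  refine ⟨N₀, hN₀, fun n hn => ?_⟩
  funext v
  exact hfix v n (hle v (Finset.mem_univ v) hn)

end PiRep

/-! ### The abstract product lemma -/

section Product

variable {k G ι : Type} [CommRing k] [Group G] (𝓛 : LevelStructure G)
  {M : Rep.{0} k G} {Mv : ι → Rep.{0} k G} (pv : ∀ v, M ⟶ Mv v)
  (hinj : ∀ m : M.V, (∀ v, (pv v).hom m = 0) → m = 0)
  (hsurj : ∀ m : (∀ v, (Mv v).V), ∃ m₀ : M.V, ∀ v, (pv v).hom m₀ = m v)

include hinj in
lemma eq_of_forall_pv_eq {m m' : M.V} (h : ∀ v, (pv v).hom m = (pv v).hom m') : m = m' := by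
  rw [← sub_eq_zero]
  apply hinj
  intro v
  rw [map_sub, h v, sub_self]

include hinj hsurj in
/-- `H⁰(M) → Π H⁰(Mv v)` is bijective. -/
theorem H0_pi_bijective :
    Function.Bijective
      (fun x : LevelStructure.H0 M => fun v => H50.coeffH0 (pv v) x) := by
  constructor
  · intro x y hxy
    apply Subtype.ext
    apply eq_of_forall_pv_eq pv hinj
    intro v
    exact congrArg Subtype.val (congrFun hxy v)
  · intro y
    obtain ⟨m₀, hm₀⟩ := hsurj fun v => (y v).1
    have hinv : m₀ ∈ LevelStructure.H0 M := by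
      intro g
      apply eq_of_forall_pv_eq pv hinj
      intro v
      rw [Rep.hom_comm_apply, hm₀]
      exact (y v).2 g
    refine ⟨⟨m₀, hinv⟩, funext fun v => Subtype.ext ?_⟩
    exact hm₀ v

/-- A finite family of levels has a common lower bound which is a level. -/
lemma exists_level_le_of_finite [Finite ι] (N : ι → Subgroup G) (hN : ∀ v, N v ∈ 𝓛.levels) :
    ∃ N₀ ∈ 𝓛.levels, ∀ v, N₀ ≤ N v := by
  classical
  cases nonempty_fintype ι
  have key : ∀ s : Finset ι, ∃ N₀ ∈ 𝓛.levels, ∀ v ∈ s, N₀ ≤ N v := by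
    intro s
    induction s using Finset.induction_on with
    | empty =>
      obtain ⟨N₀, hN₀⟩ := 𝓛.nonempty
      exact ⟨N₀, hN₀, fun v hv => absurd hv (Finset.notMem_empty v)⟩
    | insert a s _ ih =>
      obtain ⟨N₁, hN₁, h₁⟩ := ih
      obtain ⟨N₂, hN₂, hle⟩ := 𝓛.directed N₁ hN₁ (N a) (hN a)
      refine ⟨N₂, hN₂, fun v hv => ?_⟩
      rcases Finset.mem_insert.1 hv with rfl | hv
      · exact hle.trans inf_le_right
      · exact (hle.trans inf_le_left).trans (h₁ v hv)
  obtain ⟨N₀, hN₀, hle⟩ := key Finset.univ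
  exact ⟨N₀, hN₀, fun v => hle v (Finset.mem_univ v)⟩

include hinj hsurj in
lemma H1_eq_zero_of_forall_coeffH1 (x : 𝓛.H1 M) (hx : ∀ v, H50.coeffH1 𝓛 (pv v) x = 0) :
    x = 0 := by
  induction x using Submodule.Quotient.induction_on with
  | H f =>
    -- each component is a coboundary
    have hcob : ∀ v, ∃ a : (Mv v).V, ∀ g, (pv v).hom (f.1 g) = (Mv v).ρ g a - a := by
      intro v
      have h1 := hx v
      have h2 : H50.coeffH1 𝓛 (pv v) (Submodule.Quotient.mk f) =
          Submodule.Quotient.mk (H50.mapZ1 𝓛 𝓛 (H50.isCont_id 𝓛) (H50.isEquivariant_hom (pv v)) f) :=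
        rfl
      rw [h2, Submodule.Quotient.mk_eq_zero] at h1
      obtain ⟨a, ha⟩ := h1
      refine ⟨a, fun g => ?_⟩
      have := congrFun ha g
      rw [groupCohomology.d₀₁_hom_apply] at this
      exact this.symm
    choose a ha using hcob
    obtain ⟨m₀, hm₀⟩ := hsurj a
    rw [Submodule.Quotient.mk_eq_zero]
    refine ⟨m₀, ?_⟩
    funext g
    rw [groupCohomology.d₀₁_hom_apply]
    apply eq_of_forall_pv_eq pv hinj
    intro v
    rw [map_sub, Rep.hom_comm_apply, hm₀, ← ha v g]
    rfl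

include hinj hsurj in
/-- `H¹(M) → Π H¹(Mv v)` is bijective for a finite index set (level cohomology). -/
theorem H1_pi_bijective [Finite ι] :
    Function.Bijective (fun x : 𝓛.H1 M => fun v => H50.coeffH1 𝓛 (pv v) x) := by
  constructor
  · -- injectivity
    intro x y hxy
    rw [← sub_eq_zero]
    apply H1_eq_zero_of_forall_coeffH1 𝓛 pv hinj hsurj
    intro v
    rw [map_sub, sub_eq_zero]
    exact congrFun hxy v
  · -- surjectivity
    intro y
    have hrep : ∀ v, ∃ f : 𝓛.cocycles₁ (Mv v), Submodule.Quotient.mk f = y v :=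
      fun v => Submodule.Quotient.mk_surjective _ (y v)
    choose f hf using hrep
    -- glue the cocycles
    have hglue : ∀ g : G, ∃ m₀ : M.V, ∀ v, (pv v).hom m₀ = (f v).1 g := fun g =>
      hsurj fun v => (f v).1 g
    choose F hF using hglue
    have hcoc : ∀ v, (f v).1 ∈ groupCohomology.cocycles₁ (Mv v) := fun v =>
      (Submodule.mem_inf.1 (f v).2).1
    have hconst : ∀ v, 𝓛.IsConst₁ (f v).1 := fun v => (Submodule.mem_inf.1 (f v).2).2
    have hFmem : F ∈ 𝓛.cocycles₁ M := by
      refine Submodule.mem_inf.2 ⟨?_, ?_⟩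
      · rw [groupCohomology.mem_cocycles₁_iff]
        intro g h
        apply eq_of_forall_pv_eq pv hinj
        intro v
        rw [map_add, Rep.hom_comm_apply, hF, hF, hF]
        exact (groupCohomology.mem_cocycles₁_iff _).1 (hcoc v) g h
      · choose N hN hconstN using hconst
        obtain ⟨N₀, hN₀, hle⟩ := exists_level_le_of_finite 𝓛 N hN
        refine ⟨N₀, hN₀, fun g s hs => ?_⟩
        apply eq_of_forall_pv_eq pv hinj
        intro v
        rw [hF, hF]
        exact hconstN v g s (hle v hs)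
    refine ⟨Submodule.Quotient.mk ⟨F, hFmem⟩, funext fun v => ?_⟩
    rw [← hf v]
    show Submodule.Quotient.mk (H50.mapZ1 𝓛 𝓛 (H50.isCont_id 𝓛)
      (H50.isEquivariant_hom (pv v)) ⟨F, hFmem⟩) = Submodule.Quotient.mk (f v)
    congr 1
    apply Subtype.ext
    funext g
    exact hF g v

end Product

/-! ### Stability of the hypotheses of the product lemma -/

section Stability

variable {k G ι : Type} [CommRing k] [Group G]
  {M : Rep.{0} k G} {Mv : ι → Rep.{0} k G} (pv : ∀ v, M ⟶ Mv v)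
  (hinj : ∀ m : M.V, (∀ v, (pv v).hom m = 0) → m = 0)
  (hsurj : ∀ m : (∀ v, (Mv v).V), ∃ m₀ : M.V, ∀ v, (pv v).hom m₀ = m v)

/-- The projections of `piRep` satisfy the hypotheses of the product lemma. -/
lemma piProj_hinj (N : ι → Rep.{0} k G) (m : (piRep N).V)
    (h : ∀ v, (piProj N v).hom m = 0) : m = 0 := funext h

lemma piProj_hsurj (N : ι → Rep.{0} k G) (m : ∀ v, (N v).V) :
    ∃ m₀ : (piRep N).V, ∀ v, (piProj N v).hom m₀ = m v := ⟨(m : ∀ v, (N v).V), fun _ => rfl⟩

include hinj in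
/-- `p`-torsion preserves joint injectivity. -/
lemma torsionMap_hinj (p : ℕ) (m : (torsionRep p M).V)
    (h : ∀ v, (torsionMap p (pv v)).hom m = 0) : m = 0 := by
  apply Subtype.ext
  apply hinj
  intro v
  exact congrArg (fun z : torsionSub p (Mv v).V => z.1) (h v)

include hinj hsurj in
/-- `p`-torsion preserves joint surjectivity. -/
lemma torsionMap_hsurj (p : ℕ) (m : ∀ v, (torsionRep p (Mv v)).V) :
    ∃ m₀ : (torsionRep p M).V, ∀ v, (torsionMap p (pv v)).hom m₀ = m v := by
  obtain ⟨m₀, hm₀⟩ := hsurj fun v => (show torsionSub p (Mv v).V from m v).1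
  have hp : p • m₀ = 0 := by
    apply hinj
    intro v
    rw [map_nsmul, hm₀]
    exact (show torsionSub p (Mv v).V from m v).2
  exact ⟨(⟨m₀, hp⟩ : torsionSub p M.V), fun v => Subtype.ext (hm₀ v)⟩

include hinj in
/-- `Hom(X,-)` preserves joint injectivity. -/
lemma homRepMap_hinj (X : Rep.{0} k G) (h : (Fermat.Agent.CFT.homRep X M).V)
    (hh : ∀ v, (homRepMap X (pv v)).hom h = 0) : h = 0 := by
  refine LinearMap.ext fun x => ?_
  apply hinj
  intro v
  exact LinearMap.congr_fun (hh v) x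

include hinj hsurj in
/-- `Hom(X,-)` preserves joint surjectivity. -/
lemma homRepMap_hsurj (X : Rep.{0} k G) (h : ∀ v, (Fermat.Agent.CFT.homRep X (Mv v)).V) :
    ∃ h₀ : (Fermat.Agent.CFT.homRep X M).V, ∀ v, (homRepMap X (pv v)).hom h₀ = h v := by
  -- `M ≃ Π Mv`
  let P : M.V →ₗ[k] ∀ v, (Mv v).V := LinearMap.pi fun v => (pv v).hom.toLinearMap
  have hP : Function.Bijective P := by
    constructor
    · rw [injective_iff_map_eq_zero]
      intro m hm
      exact hinj m fun v => congrFun hm v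
    · intro m
      obtain ⟨m₀, hm₀⟩ := hsurj m
      exact ⟨m₀, funext hm₀⟩
  let e : M.V ≃ₗ[k] ∀ v, (Mv v).V := LinearEquiv.ofBijective P hP
  let h' : X.V →ₗ[k] ∀ v, (Mv v).V := LinearMap.pi fun v => (h v : X.V →ₗ[k] (Mv v).V)
  refine ⟨(e.symm.toLinearMap ∘ₗ h' : X.V →ₗ[k] M.V), fun v => ?_⟩
  refine LinearMap.ext fun x => ?_
  show (pv v).hom (e.symm (h' x)) = (h v : X.V →ₗ[k] (Mv v).V) x
  have : P (e.symm (h' x)) = h' x := e.apply_symm_apply (h' x)
  exact congrFun this v

end Stability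

/-! ### Products of divisible envelopes -/

section EnvelopePi

variable {k G ι : Type} [CommRing k] [Group G] {𝓛 : LevelStructure G} {m : ℕ}

/-- The product of a finite family of divisible envelopes. -/
def divEnvelopePi [Finite ι] {N : ι → Rep.{0} k G} (E : ∀ v, DivEnvelope 𝓛 m (N v)) :
    DivEnvelope 𝓛 m (piRep N) where
  I := piRep fun v => (E v).I
  Q := piRep fun v => (E v).Q
  ι := piMap fun v => (E v).ι
  π := piMap fun v => (E v).π
  ι_injective := by
    intro x y hxy
    funext v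
    apply (E v).ι_injective
    exact congrFun hxy v
  π_surjective := by
    intro q
    choose x hx using fun v => (E v).π_surjective ((q : ∀ v, (E v).Q.V) v)
    exact ⟨(x : ∀ v, (E v).I.V), funext fun v => hx v⟩
  exact := by
    intro x
    constructor
    · intro hx
      have h : ∀ v, ∃ c : (N v).V, (E v).ι.hom c = (x : ∀ v, (E v).I.V) v := fun v =>
        ((E v).exact _).1 (congrFun hx v)
      choose c hc using h
      exact ⟨(c : ∀ v, (N v).V), funext fun v => hc v⟩
    · rintro ⟨c, rfl⟩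
      funext v
      exact ((E v).exact _).2 ⟨(c : ∀ v, (N v).V) v, rfl⟩
  discrete := isDiscrete_piRep 𝓛 fun v => (E v).discrete
  divisible := by
    intro x
    choose y hy using fun v => (E v).divisible ((x : ∀ v, (E v).I.V) v)
    exact ⟨(y : ∀ v, (E v).I.V), funext fun v => hy v⟩

@[simp] lemma divEnvelopePi_I [Finite ι] {N : ι → Rep.{0} k G}
    (E : ∀ v, DivEnvelope 𝓛 m (N v)) : (divEnvelopePi E).I = piRep fun v => (E v).I := rfl

@[simp] lemma divEnvelopePi_Q [Finite ι] {N : ι → Rep.{0} k G}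
    (E : ∀ v, DivEnvelope 𝓛 m (N v)) : (divEnvelopePi E).Q = piRep fun v => (E v).Q := rfl

@[simp] lemma divEnvelopePi_ι [Finite ι] {N : ι → Rep.{0} k G}
    (E : ∀ v, DivEnvelope 𝓛 m (N v)) : (divEnvelopePi E).ι = piMap fun v => (E v).ι := rfl

@[simp] lemma divEnvelopePi_π [Finite ι] {N : ι → Rep.{0} k G}
    (E : ∀ v, DivEnvelope 𝓛 m (N v)) : (divEnvelopePi E).π = piMap fun v => (E v).π := rfl

end EnvelopePi

/-! ### `T¹`, `T²` of a product envelope -/

section TPi

variable {k G ι : Type} [CommRing k] [Group G] {𝓛 : LevelStructure G} {p : ℕ} [Fact p.Prime]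
  [Finite ι] {N : ι → Rep.{0} k G} (E : ∀ v, DivEnvelope 𝓛 p (N v)) (X : Rep.{0} (ZMod p) G)

/-- The projection `W_Π ⟶ W_v`. -/
def piW (v : ι) : (divEnvelopePi E).wDatum.W ⟶ (E v).wDatum.W :=
  torsionMap p (piProj (fun v => (E v).Q) v)

/-- The projection `Vm_Π ⟶ Vm_v`. -/
def piVm (v : ι) : (divEnvelopePi E).wDatum.Vm ⟶ (E v).wDatum.Vm :=
  torsionMap p (piProj (fun v => (E v).I) v)

lemma piVm_d (v : ι) (x : (divEnvelopePi E).wDatum.Vm.V) :
    (piW E v).hom ((divEnvelopePi E).wDatum.d.hom x) = (E v).wDatum.d.hom ((piVm E v).hom x) :=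
  rfl

lemma piW_hinj (m : (divEnvelopePi E).wDatum.W.V) (h : ∀ v, (piW E v).hom m = 0) : m = 0 :=
  torsionMap_hinj (fun v => piProj (fun v => (E v).Q) v) (piProj_hinj _) p m h

lemma piW_hsurj (m : ∀ v, (E v).wDatum.W.V) :
    ∃ m₀ : (divEnvelopePi E).wDatum.W.V, ∀ v, (piW E v).hom m₀ = m v :=
  torsionMap_hsurj (fun v => piProj (fun v => (E v).Q) v) (piProj_hinj _) (piProj_hsurj _) p m

lemma piVm_hinj (m : (divEnvelopePi E).wDatum.Vm.V) (h : ∀ v, (piVm E v).hom m = 0) : m = 0 :=
  torsionMap_hinj (fun v => piProj (fun v => (E v).I) v) (piProj_hinj _) p m h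

lemma piVm_hsurj (m : ∀ v, (E v).wDatum.Vm.V) :
    ∃ m₀ : (divEnvelopePi E).wDatum.Vm.V, ∀ v, (piVm E v).hom m₀ = m v :=
  torsionMap_hsurj (fun v => piProj (fun v => (E v).I) v) (piProj_hinj _) (piProj_hsurj _) p m

/-- `T²(X; Π N_v) → Π T²(X; N_v)` is bijective. -/
theorem T2_pi_bijective :
    Function.Bijective (fun x : (divEnvelopePi E).wDatum.T2 X =>
      fun v => H50.coeffH1 𝓛 (homRepMap X (piW E v)) x) :=
  H1_pi_bijective 𝓛 (fun v => homRepMap X (piW E v))
    (homRepMap_hinj _ (piW_hinj E) X) (homRepMap_hsurj _ (piW_hinj E) (piW_hsurj E) X)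

/-- `Hom_G(X, W_Π) → Π Hom_G(X, W_v)` is bijective. -/
theorem T1num_pi_bijective :
    Function.Bijective (fun x : (divEnvelopePi E).wDatum.T1num X =>
      fun v => H50.coeffH0 (homRepMap X (piW E v)) x) :=
  H0_pi_bijective (fun v => homRepMap X (piW E v))
    (homRepMap_hinj _ (piW_hinj E) X) (homRepMap_hsurj _ (piW_hinj E) (piW_hsurj E) X)

/-- `Hom_G(X, Vm_Π) → Π Hom_G(X, Vm_v)` is bijective. -/
theorem homVm_pi_bijective :
    Function.Bijective (fun x : LevelStructure.H0 (Fermat.Agent.CFT.homRep X (divEnvelopePi E).wDatum.Vm) =>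
      fun v => H50.coeffH0 (homRepMap X (piVm E v)) x) :=
  H0_pi_bijective (fun v => homRepMap X (piVm E v))
    (homRepMap_hinj _ (piVm_hinj E) X) (homRepMap_hsurj _ (piVm_hinj E) (piVm_hsurj E) X)

/-- The square `d_v ∘ piVm = piW ∘ d_Π` on `Hom_G(X,-)`. -/
lemma coeffH0_piW_d (v : ι)
    (b : LevelStructure.H0 (Fermat.Agent.CFT.homRep X (divEnvelopePi E).wDatum.Vm)) :
    H50.coeffH0 (homRepMap X (piW E v)) (H50.coeffH0 (homRepMap X (divEnvelopePi E).wDatum.d) b) =
      H50.coeffH0 (homRepMap X (E v).wDatum.d) (H50.coeffH0 (homRepMap X (piVm E v)) b) := rfl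

/-- The projection `T¹(X; Π N_v) → T¹(X; N_v)`. -/
def T1piMap (v : ι) : (divEnvelopePi E).wDatum.T1 X →ₗ[ZMod p] (E v).wDatum.T1 X :=
  Submodule.mapQ _ _ (H50.coeffH0 (homRepMap X (piW E v))) (by
    rintro _ ⟨b, rfl⟩
    exact ⟨H50.coeffH0 (homRepMap X (piVm E v)) b, (coeffH0_piW_d E X v b).symm⟩)

lemma T1piMap_mk (v : ι) (h : (divEnvelopePi E).wDatum.T1num X) :
    T1piMap E X v (Submodule.Quotient.mk h) =
      Submodule.Quotient.mk (H50.coeffH0 (homRepMap X (piW E v)) h) := rfl

/-- `T¹(X; Π N_v) → Π T¹(X; N_v)` is bijective. -/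
theorem T1_pi_bijective :
    Function.Bijective (fun t : (divEnvelopePi E).wDatum.T1 X => fun v => T1piMap E X v t) := by
  constructor
  · have hlin : (fun t : (divEnvelopePi E).wDatum.T1 X => fun v => T1piMap E X v t) =
        ⇑(LinearMap.pi fun v => T1piMap E X v) := rfl
    rw [hlin, injective_iff_map_eq_zero]
    intro t ht
    induction t using Submodule.Quotient.induction_on with
    | H h =>
      have hv : ∀ v, ∃ b : LevelStructure.H0 (Fermat.Agent.CFT.homRep X (E v).wDatum.Vm),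
          H50.coeffH0 (homRepMap X (E v).wDatum.d) b =
            H50.coeffH0 (homRepMap X (piW E v)) h := by
        intro v
        have := congrFun ht v
        rw [LinearMap.pi_apply, T1piMap_mk] at this
        exact (Submodule.Quotient.mk_eq_zero _).1 this
      choose b hb using hv
      obtain ⟨b₀, hb₀⟩ := (homVm_pi_bijective E X).2 b
      rw [Submodule.Quotient.mk_eq_zero]
      refine ⟨b₀, ?_⟩
      apply (T1num_pi_bijective E X).1
      funext v
      show H50.coeffH0 (homRepMap X (piW E v))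
        (H50.coeffH0 (homRepMap X (divEnvelopePi E).wDatum.d) b₀) =
          H50.coeffH0 (homRepMap X (piW E v)) h
      rw [coeffH0_piW_d, ← hb v]
      exact congrArg _ (congrFun hb₀ v)
  · intro y
    have hrep : ∀ v, ∃ h : (E v).wDatum.T1num X, Submodule.Quotient.mk h = y v :=
      fun v => Submodule.Quotient.mk_surjective _ (y v)
    choose h hh using hrep
    obtain ⟨h₀, hh₀⟩ := (T1num_pi_bijective E X).2 h
    refine ⟨Submodule.Quotient.mk h₀, funext fun v => ?_⟩
    show T1piMap E X v (Submodule.Quotient.mk h₀) = y v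
    rw [T1piMap_mk, ← hh v]
    exact congrArg _ (congrFun hh₀ v)

end TPi

end Fermat.Agent.CFT.H35

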