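/-
CFT project, layer D, package D4-SL (helper22).
Smooth vectors of a representation for a level structure, and the level-constant
coinduced module `coindLC 𝓛 φ B` along a homomorphism `φ : D →* G`
(`= ` smooth vectors of Mathlib's `Rep.coind φ B`).
-/
import Fermat.Agent.CFT.H55_LevelDefs

set_option autoImplicit false

universe u

open CategoryTheory groupCohomology

namespace Fermat.Agent.CFT.H22

open Fermat.Agent.CFT

section Smooth

variable {H : Type u} [Group H] (𝓛 : LevelStructure H) {k : Type u} [CommRing k] (A : Rep k H)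

/-- Every level contains a normal level. -/
lemma exists_normal_le {N : Subgroup H} (hN : N ∈ 𝓛.levels) :
    ∃ N' ∈ 𝓛.levels, N' ≤ N ∧ N'.Normal := 𝓛.exists_normal N hN

/-- The `𝓛`-smooth vectors: those fixed by some level. -/
def smoothSub : Submodule k A where
  carrier := {a | ∃ N ∈ 𝓛.levels, ∀ n ∈ N, A.ρ n a = a}
  add_mem' := by
    rintro a b ⟨N, hN, ha⟩ ⟨N', hN', hb⟩
    obtain ⟨N'', hN'', hle⟩ := 𝓛.directed N hN N' hN'
    exact ⟨N'', hN'', fun n hn => by rw [map_add, ha n (hle hn).1, hb n (hle hn).2]⟩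
  zero_mem' := by
    obtain ⟨N, hN⟩ := 𝓛.nonempty
    exact ⟨N, hN, fun n _ => map_zero _⟩
  smul_mem' := by
    rintro c a ⟨N, hN, ha⟩
    exact ⟨N, hN, fun n hn => by rw [map_smul, ha n hn]⟩

lemma mem_smoothSub_iff (a : A) :
    a ∈ smoothSub 𝓛 A ↔ ∃ N ∈ 𝓛.levels, ∀ n ∈ N, A.ρ n a = a := Iff.rfl

lemma smoothSub_le_comap (g : H) : smoothSub 𝓛 A ≤ (smoothSub 𝓛 A).comap (A.ρ g) := by
  rintro a ⟨N, hN, ha⟩
  obtain ⟨N', hN', hle, hnor⟩ := 𝓛.exists_normal N hN
  refine ⟨N', hN', fun n hn => ?_⟩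
  have h1 : g⁻¹ * n * g ∈ N' := by
    have := hnor.conj_mem n hn g⁻¹
    simpa using this
  have h2 := ha _ (hle h1)
  calc A.ρ n (A.ρ g a) = A.ρ (g * (g⁻¹ * n * g)) a := by
        rw [← Module.End.mul_apply, ← map_mul]; congr 2; group
    _ = A.ρ g (A.ρ (g⁻¹ * n * g) a) := by rw [map_mul, Module.End.mul_apply]
    _ = A.ρ g a := by rw [h2]

/-- The subrepresentation of smooth vectors. -/
noncomputable def smooth : Rep k H :=
  Rep.of (A.ρ.subrepresentation (smoothSub 𝓛 A) (smoothSub_le_comap 𝓛 A))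

lemma smooth_ρ_coe (g : H) (a : smooth 𝓛 A) :
    (((smooth 𝓛 A).ρ g a : smooth 𝓛 A).1 : A) = A.ρ g a.1 := rfl

/-- The smooth part is discrete. -/
lemma isDiscrete_smooth : 𝓛.IsDiscrete (smooth 𝓛 A) := by
  rintro ⟨a, N, hN, ha⟩
  exact ⟨N, hN, fun n hn => Subtype.ext (ha n hn)⟩

/-- The inclusion of the smooth part. -/
noncomputable def smoothι : smooth 𝓛 A ⟶ A :=
  Rep.ofHom ⟨(smoothSub 𝓛 A).subtype, fun _ => rfl⟩

lemma smoothι_apply (a : smooth 𝓛 A) : (smoothι 𝓛 A).hom a = a.1 := rfl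

lemma smoothι_injective : Function.Injective (smoothι 𝓛 A).hom :=
  fun _ _ h => Subtype.ext h

lemma isDiscrete_of_forall_mem_smoothSub (h : ∀ a : A, a ∈ smoothSub 𝓛 A) : 𝓛.IsDiscrete A := h

lemma isDiscrete_iff_smoothSub_eq_top : 𝓛.IsDiscrete A ↔ smoothSub 𝓛 A = ⊤ := by
  constructor
  · intro h
    exact eq_top_iff.2 fun a _ => h a
  · intro h a
    have : a ∈ smoothSub 𝓛 A := by rw [h]; trivial
    exact this

end Smooth

end Fermat.Agent.CFT.H22
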