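/-
CFT project, layer D, package D4-SL (helper22).
The level-constant coinduced module `coindLC 𝓛 φ B` along `φ : D →* G` and Shapiro's lemma
in degrees `0` and `1` for the COARSE level structure `𝓛.comap φ` on `D`
(no finiteness / openness hypothesis on the image of `φ`, no discreteness hypothesis on `B`).
-/
import Fermat.Agent.CFT.H22_SLSmooth
set_option autoImplicit false
universe u
open CategoryTheory groupCohomology
namespace Fermat.Agent.CFT.H22
open Fermat.Agent.CFT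

section Coind

variable {G D : Type u} [Group G] [Group D] (𝓛 : LevelStructure G) (φ : D →* G)
  {k : Type u} [CommRing k] (B : Rep.{u} k D)

/-- Level-constant `φ`-equivariant functions `G → B`. -/
def coindLCSub : Submodule k (G → B) where
  carrier := {f | (∀ d g, f (φ d * g) = B.ρ d (f g)) ∧ 𝓛.IsConst₁ f}
  add_mem' := by
    rintro f f' ⟨hf, hc⟩ ⟨hf', hc'⟩
    exact ⟨fun d g => by simp only [Pi.add_apply, hf d g, hf' d g, map_add], hc.add hc'⟩
  zero_mem' := ⟨fun d g => by simp, 𝓛.isConst₁_const (0 : B)⟩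
  smul_mem' := by
    rintro c f ⟨hf, hc⟩
    exact ⟨fun d g => by simp only [Pi.smul_apply, hf d g, map_smul], hc.comp (c • ·)⟩

lemma mem_coindLCSub_iff (f : G → B) :
    f ∈ coindLCSub 𝓛 φ B ↔ (∀ d g, f (φ d * g) = B.ρ d (f g)) ∧ 𝓛.IsConst₁ f := Iff.rfl

/-- right translation preserves level-constancy -/
lemma isConst₁_rightTranslate {X : Type*} {f : G → X} (hf : 𝓛.IsConst₁ f) (h : G) :
    𝓛.IsConst₁ (fun x => f (x * h)) := by
  obtain ⟨N, hN, hc⟩ := hf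
  obtain ⟨N', hN', hle, hnor⟩ := 𝓛.exists_normal N hN
  refine ⟨N', hN', fun g s hs => ?_⟩
  have h1 : h⁻¹ * s * h ∈ N' := by
    have := hnor.conj_mem s hs h⁻¹
    simpa using this
  have : g * s * h = g * h * (h⁻¹ * s * h) := by group
  show f (g * s * h) = f (g * h)
  rw [this]
  exact hc _ _ (hle h1)

/-- The representation of `G` on level-constant coinduced functions by right translation. -/
def coindLCRep : Representation k G (coindLCSub 𝓛 φ B) where
  toFun h := (LinearMap.funLeft k B (· * h)).restrict fun f hf =>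
    ⟨fun d g => by simpa [mul_assoc] using hf.1 d (g * h), isConst₁_rightTranslate 𝓛 hf.2 h⟩
  map_one' := by ext; simp
  map_mul' a b := by
    ext f x
    exact congrArg f.1 (mul_assoc x a b).symm

/-- The level-constant coinduced module. -/
noncomputable abbrev coindLC : Rep.{u} k G := Rep.of (coindLCRep 𝓛 φ B)

lemma coindLC_ρ_apply (h : G) (f : coindLC 𝓛 φ B) (x : G) :
    (((coindLC 𝓛 φ B).ρ h f : coindLC 𝓛 φ B).1 : G → B) x = f.1 (x * h) := rfl

lemma coindLC_equivariant (f : coindLC 𝓛 φ B) (d : D) (g : G) :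
    f.1 (φ d * g) = B.ρ d (f.1 g) := f.2.1 d g

lemma coindLC_isConst (f : coindLC 𝓛 φ B) : 𝓛.IsConst₁ f.1 := f.2.2

/-- `coindLC` is discrete. -/
lemma isDiscrete_coindLC : 𝓛.IsDiscrete (coindLC 𝓛 φ B) := by
  intro f
  obtain ⟨N, hN, h⟩ := coindLC_isConst 𝓛 φ B f
  refine ⟨N, hN, fun n hn => ?_⟩
  apply Subtype.ext
  funext x
  exact h x n hn

/-- Values of a level-constant coinduced function are smooth for the coarse structure. -/
lemma coindLC_apply_mem_smoothSub (f : coindLC 𝓛 φ B) (g : G) :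
    f.1 g ∈ smoothSub (𝓛.comap φ) B := by
  obtain ⟨N, hN, h⟩ := coindLC_isConst 𝓛 φ B f
  obtain ⟨N', hN', hle, hnor⟩ := 𝓛.exists_normal N hN
  refine ⟨N'.comap φ, ⟨N', hN', rfl⟩, fun d hd => ?_⟩
  rw [← coindLC_equivariant]
  have h1 : g⁻¹ * φ d * g ∈ N' := by
    have := hnor.conj_mem (φ d) hd g⁻¹
    simpa using this
  have : φ d * g = g * (g⁻¹ * φ d * g) := by group
  rw [this]
  exact h g _ (hle h1)

/-! ### Shapiro in degree 1 -/

/-- restriction along `φ` followed by evaluation at `1`. -/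
noncomputable def shapiroLin : (G → coindLC 𝓛 φ B) →ₗ[k] (D → B) where
  toFun c d := (c (φ d)).1 1
  map_add' _ _ := rfl
  map_smul' _ _ := rfl

@[simp] lemma shapiroLin_apply (c : G → coindLC 𝓛 φ B) (d : D) :
    shapiroLin 𝓛 φ B c d = (c (φ d)).1 1 := rfl

lemma shapiroLin_mem_cocycles₁ {c : G → coindLC 𝓛 φ B}
    (hc : c ∈ 𝓛.cocycles₁ (coindLC 𝓛 φ B)) :
    shapiroLin 𝓛 φ B c ∈ (𝓛.comap φ).cocycles₁ B := by
  obtain ⟨hc1, N, hN, hc2⟩ := hc
  have hc1' := (mem_cocycles₁_iff c).1 hc1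
  refine ⟨(mem_cocycles₁_iff _).2 ?_, N.comap φ, ⟨N, hN, rfl⟩, fun d s hs => ?_⟩
  · intro d d'
    have := congrArg (fun f : coindLC 𝓛 φ B => f.1 1) (hc1' (φ d) (φ d'))
    simp only [shapiroLin_apply, map_mul]
    rw [this]
    show ((coindLC 𝓛 φ B).ρ (φ d) (c (φ d'))).1 1 + (c (φ d)).1 1 = _
    rw [coindLC_ρ_apply, one_mul, ← mul_one (φ d), coindLC_equivariant, mul_one]
  · simp only [shapiroLin_apply, map_mul]
    rw [hc2 (φ d) (φ s) hs]

lemma shapiroLin_mem_coboundaries₁ {c : G → coindLC 𝓛 φ B}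
    (hc : c ∈ coboundaries₁ (coindLC 𝓛 φ B)) :
    shapiroLin 𝓛 φ B c ∈ coboundaries₁ B := by
  obtain ⟨F, rfl⟩ := hc
  refine ⟨F.1 1, ?_⟩
  funext d
  show B.ρ d (F.1 1) - F.1 1 = ((coindLC 𝓛 φ B).ρ (φ d) F).1 1 - F.1 1
  rw [coindLC_ρ_apply, one_mul, ← mul_one (φ d), coindLC_equivariant]

/-- The Shapiro map on level cocycles. -/
noncomputable def shapiroZ1 : ↥(𝓛.cocycles₁ (coindLC 𝓛 φ B)) →ₗ[k] ↥((𝓛.comap φ).cocycles₁ B) :=
  (shapiroLin 𝓛 φ B).restrict fun _ hc => shapiroLin_mem_cocycles₁ 𝓛 φ B hc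

/-- The Shapiro map `H¹(𝓛; coindLC B) → H¹(𝓛.comap φ; B)`. -/
lemma shapiroZ1_comap_le :
    (𝓛.coboundaries₁ (coindLC 𝓛 φ B)).comap (𝓛.cocycles₁ (coindLC 𝓛 φ B)).subtype ≤
      (((𝓛.comap φ).coboundaries₁ B).comap ((𝓛.comap φ).cocycles₁ B).subtype).comap
        (shapiroZ1 𝓛 φ B) := by
  intro c hc
  exact shapiroLin_mem_coboundaries₁ 𝓛 φ B hc

noncomputable def shapiroH1 : 𝓛.H1 (coindLC 𝓛 φ B) →ₗ[k] (𝓛.comap φ).H1 B :=
  Submodule.mapQ _ _ (shapiroZ1 𝓛 φ B) (shapiroZ1_comap_le 𝓛 φ B)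

lemma shapiroH1_mk (c : ↥(𝓛.cocycles₁ (coindLC 𝓛 φ B))) :
    shapiroH1 𝓛 φ B (𝓛.H1π _ c) = (𝓛.comap φ).H1π _ (shapiroZ1 𝓛 φ B c) := rfl

/-- For a cocycle `c`, the function `g ↦ c g 1` "integrates" `c`. -/
lemma cocycle_eval_eq {c : G → coindLC 𝓛 φ B} (hc : c ∈ cocycles₁ (coindLC 𝓛 φ B)) (g x : G) :
    (c g).1 x = (c (x * g)).1 1 - (c x).1 1 := by
  have h := (mem_cocycles₁_iff c).1 hc x g
  have := congrArg (fun f : coindLC 𝓛 φ B => f.1 1) h
  simp only at this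
  rw [this]
  show _ = ((coindLC 𝓛 φ B).ρ x (c g)).1 1 + (c x).1 1 - (c x).1 1
  rw [coindLC_ρ_apply, one_mul, add_sub_cancel_right]

theorem shapiroH1_injective : Function.Injective (shapiroH1 𝓛 φ B) := by
  rw [← LinearMap.ker_eq_bot, LinearMap.ker_eq_bot']
  intro x hx
  obtain ⟨⟨c, hc⟩, rfl⟩ := Submodule.mkQ_surjective _ x
  rw [show (Submodule.mkQ _ (⟨c, hc⟩ : ↥(𝓛.cocycles₁ (coindLC 𝓛 φ B)))) = 𝓛.H1π _ ⟨c, hc⟩ from rfl,
    shapiroH1_mk, Submodule.mkQ_apply, Submodule.Quotient.mk_eq_zero] at hx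
  rw [Submodule.mkQ_apply, Submodule.Quotient.mk_eq_zero]
  obtain ⟨b, hb⟩ := hx
  obtain ⟨hc1, N, hN, hc2⟩ := hc
  -- `F g = c g 1 + b`
  have hbd : ∀ d, (c (φ d)).1 1 = B.ρ d b - b := fun d => (congrFun hb d).symm
  have hF : (fun g => (c g).1 1 + b) ∈ coindLCSub 𝓛 φ B := by
    refine ⟨fun d g => ?_, ⟨N, hN, fun g s hs => by
      show (c (g * s)).1 1 + b = (c g).1 1 + b
      rw [hc2 g s hs]⟩⟩
    have h := (mem_cocycles₁_iff c).1 hc1 (φ d) g
    have := congrArg (fun f : coindLC 𝓛 φ B => f.1 1) h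
    simp only at this
    show (c (φ d * g)).1 1 + b = B.ρ d ((c g).1 1 + b)
    rw [this]
    show ((coindLC 𝓛 φ B).ρ (φ d) (c g)).1 1 + (c (φ d)).1 1 + b = _
    rw [coindLC_ρ_apply, one_mul, ← mul_one (φ d), coindLC_equivariant, mul_one, hbd, map_add]
    abel
  refine ⟨⟨_, hF⟩, ?_⟩
  funext g
  apply Subtype.ext
  funext x
  show ((coindLC 𝓛 φ B).ρ g ⟨_, hF⟩ - (⟨_, hF⟩ : coindLC 𝓛 φ B)).1 x = (c g).1 x
  rw [cocycle_eval_eq 𝓛 φ B hc1 g x]
  show ((c (x * g)).1 1 + b) - ((c x).1 1 + b) = _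
  abel

/-! #### surjectivity -/

/-- The double coset relation `g ~ φ d * g * n`. -/
def dcSetoid (N : Subgroup G) : Setoid G where
  r g g' := ∃ d : D, ∃ n ∈ N, g' = φ d * g * n
  iseqv :=
    { refl := fun g => ⟨1, 1, N.one_mem, by simp⟩
      symm := by
        rintro g g' ⟨d, n, hn, rfl⟩
        exact ⟨d⁻¹, n⁻¹, N.inv_mem hn, by simp [mul_assoc]⟩
      trans := by
        rintro g g' g'' ⟨d, n, hn, rfl⟩ ⟨d', n', hn', rfl⟩
        exact ⟨d' * d, n * n', N.mul_mem hn hn', by simp [mul_assoc]⟩ }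

variable {𝓛 φ B}

/-- well-definedness: a level cocycle of `D` only depends on the double coset datum. -/
lemma cocycle_eq_of_dc {c' : D → B} {N₀ N : Subgroup G} (hNN : N ≤ N₀) [hnor : N.Normal]
    (hinv : ∀ d s, s ∈ N₀.comap φ → c' (d * s) = c' d) {d d' : D} {r n n' : G}
    (hn : n ∈ N) (hn' : n' ∈ N) (h : φ d * r * n = φ d' * r * n') : c' d = c' d' := by
  have he : φ (d'⁻¹ * d) = r * (n' * n⁻¹) * r⁻¹ := by
    rw [map_mul, map_inv]
    have : φ d = φ d' * r * n' * n⁻¹ * r⁻¹ := by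
      rw [← h]; group
    rw [this]; group
  have hmem : d'⁻¹ * d ∈ N₀.comap φ := by
    rw [Subgroup.mem_comap, he]
    exact hNN (hnor.conj_mem _ (N.mul_mem hn' (N.inv_mem hn)) r)
  have := hinv d' (d'⁻¹ * d) hmem
  rw [mul_inv_cancel_left] at this
  exact this

variable (𝓛 φ B)

theorem shapiroH1_surjective : Function.Surjective (shapiroH1 𝓛 φ B) := by
  intro y
  obtain ⟨⟨c', hc'⟩, rfl⟩ := Submodule.mkQ_surjective _ y
  obtain ⟨hc1, _, ⟨N₀, hN₀, rfl⟩, hinv⟩ := hc'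
  obtain ⟨N, hN, hNN, hnor⟩ := 𝓛.exists_normal N₀ hN₀
  have hcoc := (mem_cocycles₁_iff c').1 hc1
  -- representatives
  let S := dcSetoid (D := D) φ N
  have hout : ∀ g : G, ∃ d : D, ∃ n ∈ N, g = φ d * (Quotient.mk S g).out * n := fun g =>
    Quotient.mk_out (s := S) g
  let δ : G → D := fun g => Classical.choose (hout g)
  have hδ : ∀ g, ∃ n ∈ N, g = φ (δ g) * (Quotient.mk S g).out * n := fun g =>
    Classical.choose_spec (hout g)
  let F : G → B := fun g => c' (δ g)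
  -- characterisation
  have hCH : ∀ (g : G) (d : D) (n : G), n ∈ N → g = φ d * (Quotient.mk S g).out * n →
      F g = c' d := by
    intro g d n hn hg
    obtain ⟨n₀, hn₀, hg₀⟩ := hδ g
    exact cocycle_eq_of_dc hNN hinv hn₀ hn (hg₀.symm.trans hg)
  have hP1 : ∀ d g, F (φ d * g) = B.ρ d (F g) + c' d := by
    intro d g
    obtain ⟨n₀, hn₀, hg₀⟩ := hδ g
    have hcls : Quotient.mk S (φ d * g) = Quotient.mk S g :=
      Quotient.sound (s := S) (Setoid.symm (⟨d, 1, N.one_mem, by simp⟩ : S.r g (φ d * g)))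
    have := hCH (φ d * g) (d * δ g) n₀ hn₀ (by
      rw [hcls, map_mul]
      conv_lhs => rw [hg₀]
      simp only [mul_assoc])
    rw [this, hcoc]
  have hP2 : ∀ g n, n ∈ N → F (g * n) = F g := by
    intro g n hn
    obtain ⟨n₀, hn₀, hg₀⟩ := hδ g
    have hcls : Quotient.mk S (g * n) = Quotient.mk S g :=
      Quotient.sound (s := S) (Setoid.symm (⟨1, n, hn, by simp⟩ : S.r g (g * n)))
    exact hCH (g * n) (δ g) (n₀ * n) (N.mul_mem hn₀ hn) (by
      rw [hcls]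
      conv_lhs => rw [hg₀]
      simp only [mul_assoc])
  have hP2' : ∀ x s g, s ∈ N → F (x * s * g) = F (x * g) := by
    intro x s g hs
    have : x * s * g = x * g * (g⁻¹ * s * g) := by group
    rw [this]
    refine hP2 _ _ ?_
    have := hnor.conj_mem s hs g⁻¹
    simpa using this
  -- the cocycle
  have hmem : ∀ g, (fun x => F (x * g) - F x) ∈ coindLCSub 𝓛 φ B := by
    intro g
    refine ⟨fun d x => ?_, N, hN, fun x s hs => ?_⟩
    · show F (φ d * x * g) - F (φ d * x) = B.ρ d (F (x * g) - F x)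
      rw [mul_assoc, hP1, hP1, map_sub]
      abel
    · show F (x * s * g) - F (x * s) = F (x * g) - F x
      rw [hP2' x s g hs, hP2 x s hs]
  let c : G → coindLC 𝓛 φ B := fun g => ⟨_, hmem g⟩
  have hc : c ∈ 𝓛.cocycles₁ (coindLC 𝓛 φ B) := by
    refine ⟨(mem_cocycles₁_iff c).2 fun g h => ?_, N, hN, fun g s hs => ?_⟩
    · apply Subtype.ext
      funext x
      show F (x * (g * h)) - F x = ((coindLC 𝓛 φ B).ρ g (c h)).1 x + (c g).1 x
      rw [coindLC_ρ_apply]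
      show _ = (F (x * g * h) - F (x * g)) + (F (x * g) - F x)
      rw [mul_assoc]
      abel
    · apply Subtype.ext
      funext x
      show F (x * (g * s)) - F x = F (x * g) - F x
      rw [← mul_assoc, hP2 _ s hs]
  refine ⟨𝓛.H1π _ ⟨c, hc⟩, ?_⟩
  rw [shapiroH1_mk]
  rw [Submodule.mkQ_apply, Submodule.mkQ_apply, ← sub_eq_zero, ← Submodule.Quotient.mk_sub,
    Submodule.Quotient.mk_eq_zero]
  refine ⟨F 1, ?_⟩
  funext d
  show B.ρ d (F 1) - F 1 = (F (1 * φ d) - F 1) - c' d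
  rw [one_mul, ← mul_one (φ d), hP1]
  abel

/-- Shapiro's lemma in degree `1` for the coarse level structure. -/
noncomputable def shapiroH1Equiv : 𝓛.H1 (coindLC 𝓛 φ B) ≃ₗ[k] (𝓛.comap φ).H1 B :=
  LinearEquiv.ofBijective (shapiroH1 𝓛 φ B)
    ⟨shapiroH1_injective 𝓛 φ B, shapiroH1_surjective 𝓛 φ B⟩

/-! ### Shapiro in degree 0 -/

/-- evaluation at `1` on invariants. -/
noncomputable def shapiroH0 : ↥(LevelStructure.H0 (coindLC 𝓛 φ B)) →ₗ[k] ↥(LevelStructure.H0 B) where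
  toFun f := ⟨f.1.1 1, fun d => by
    have h1 := coindLC_equivariant 𝓛 φ B f.1 d 1
    have h2 : ((coindLC 𝓛 φ B).ρ (φ d) f.1).1 1 = f.1.1 1 := by rw [f.2 (φ d)]
    rw [coindLC_ρ_apply, one_mul] at h2
    rw [← h1, mul_one, h2]⟩
  map_add' _ _ := rfl
  map_smul' _ _ := rfl

lemma shapiroH0_apply (f : ↥(LevelStructure.H0 (coindLC 𝓛 φ B))) :
    (shapiroH0 𝓛 φ B f : B) = f.1.1 1 := rfl

theorem shapiroH0_bijective : Function.Bijective (shapiroH0 𝓛 φ B) := by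
  constructor
  · rw [← LinearMap.ker_eq_bot, LinearMap.ker_eq_bot']
    intro f hf
    have h1 : f.1.1 1 = 0 := congrArg Subtype.val hf
    apply Subtype.ext
    apply Subtype.ext
    funext x
    have h2 : ((coindLC 𝓛 φ B).ρ x f.1).1 1 = f.1.1 1 := by rw [f.2 x]
    rw [coindLC_ρ_apply, one_mul] at h2
    rw [h2, h1]
    rfl
  · intro b
    have hmem : (fun _ : G => (b : B)) ∈ coindLCSub 𝓛 φ B :=
      ⟨fun d _ => (b.2 d).symm, 𝓛.isConst₁_const (b : B)⟩
    refine ⟨⟨⟨_, hmem⟩, fun g => ?_⟩, ?_⟩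
    · apply Subtype.ext
      funext x
      rfl
    · apply Subtype.ext
      rfl

end Coind
end Fermat.Agent.CFT.H22
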