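import Mathlib
import Fermat.Prelude.Def_GaloisRep_CompletionBridge
import Fermat.Agent.CFT.H15_LocalToGlobal
import Fermat.Agent.CFT.H15_PrimeLocal
import Fermat.Agent.CFT.H37_PlaceOrbits

/-!
# CFT / C-LG (helper37): the local compositum `F·ℚ_q ⊆ PadicAlgCl q` of a number field

For a number field `F ⊆ Qbar` (finite Galois over `ℚ`) and a prime `q`, the field
`locComp q F = ℚ_q(padicEmbedding q '' F)` is finite Galois over `ℚ_q`, the restriction map
`resLoc : Gal(PadicAlgCl q / ℚ_q) → Gal(F/ℚ)` has kernel `Gal(PadicAlgCl q / locComp q F)` and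
range the decomposition group of the prime of `𝓞 F` cut out by `padicPlace q`.
-/

set_option autoImplicit false
set_option linter.style.haveILetI false

noncomputable section

namespace Fermat.Agent.CFT.H37

open NumberField IntermediateField Fermat.Agent.S54 Fermat.Agent.S14.H37 Fermat.Agent.S14.H54
open scoped Pointwise

attribute [local instance] isAlgebraic_Qbar isAlgClosure_Qbar isGalois_Qbar

local instance instTowerQqPadic' (q : ℕ) [Fact q.Prime] : IsScalarTower ℚ ℚ_[q] (PadicAlgCl q) :=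
  IsScalarTower.of_algebraMap_eq' (Subsingleton.elim _ _)

variable (q : ℕ) [Fact q.Prime] (F : IntermediateField ℚ (AlgebraicClosure ℚ))

/-- The compositum `F·ℚ_q` inside `PadicAlgCl q`. -/
def locComp : IntermediateField ℚ_[q] (PadicAlgCl q) :=
  adjoin ℚ_[q] ((padicEmbedding q) '' (F : Set (AlgebraicClosure ℚ)))

theorem padicEmbedding_mem_locComp {x : AlgebraicClosure ℚ} (hx : x ∈ F) :
    padicEmbedding q x ∈ locComp q F :=
  subset_adjoin _ _ ⟨x, hx, rfl⟩

/-- `locComp` is generated by the image of any generating set of `F`. -/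
theorem locComp_adjoin (t : Set (AlgebraicClosure ℚ)) :
    locComp q (adjoin ℚ t) = adjoin ℚ_[q] ((padicEmbedding q) '' t) := by
  apply le_antisymm
  · rw [locComp, adjoin_le_iff]
    rintro _ ⟨x, hx, rfl⟩
    -- pull back along `padicEmbedding`
    let S : IntermediateField ℚ (AlgebraicClosure ℚ) :=
      ((adjoin ℚ_[q] ((padicEmbedding q) '' t)).restrictScalars ℚ).comap (padicEmbedding q)
    have hle : adjoin ℚ t ≤ S := by
      rw [adjoin_le_iff]
      intro y hy
      show padicEmbedding q y ∈ adjoin ℚ_[q] ((padicEmbedding q) '' t)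
      exact subset_adjoin _ _ ⟨y, hy, rfl⟩
    exact hle hx
  · apply adjoin.mono
    exact Set.image_mono (subset_adjoin ℚ t)

instance locComp_finiteDimensional [FiniteDimensional ℚ F] :
    FiniteDimensional ℚ_[q] (locComp q F) := by
  have h : F.toSubalgebra.FG := by
    apply Subalgebra.fg_of_fg_toSubmodule
    exact (Submodule.fg_top _).mp (Module.Finite.fg_top (R := ℚ) (M := F))
  obtain ⟨t, htfin, rfl⟩ := IntermediateField.fg_def.mp (IntermediateField.fg_of_fg_toSubalgebra F h)
  rw [locComp_adjoin]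
  have : Finite ↥((padicEmbedding q) '' t) := (htfin.image _).to_subtype
  exact IntermediateField.finiteDimensional_adjoin
    (fun x _ => Algebra.IsIntegral.isIntegral (R := ℚ_[q]) x)

/-- An element of the local Galois group fixes `F·ℚ_q` iff it fixes the image of `F`. -/
theorem mem_fixingSubgroup_locComp_iff (τ : PadicAlgCl q ≃ₐ[ℚ_[q]] PadicAlgCl q) :
    τ ∈ (locComp q F).fixingSubgroup ↔
      ∀ x ∈ F, τ (padicEmbedding q x) = padicEmbedding q x := by
  rw [IntermediateField.mem_fixingSubgroup_iff]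
  constructor
  · intro h x hx
    exact h _ (padicEmbedding_mem_locComp q F hx)
  · intro hfix
    have hle : locComp q F ≤ IntermediateField.fixedField (Subgroup.zpowers τ) := by
      rw [locComp, adjoin_le_iff]
      rintro _ ⟨x, hx, rfl⟩
      rw [SetLike.mem_coe, IntermediateField.mem_fixedField_iff]
      intro ρ hρ
      obtain ⟨n, rfl⟩ := Subgroup.mem_zpowers_iff.mp hρ
      have hmem : τ ∈ MulAction.stabilizer (PadicAlgCl q ≃ₐ[ℚ_[q]] PadicAlgCl q)
          (padicEmbedding q x) := hfix x hx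
      exact Subgroup.zpow_mem _ hmem n
    intro y hy
    have := hle hy
    rw [IntermediateField.mem_fixedField_iff] at this
    exact this τ (Subgroup.mem_zpowers τ)

/-- The pull-back of the level `Gal(Qbar/F)` to the local Galois group at `q` is
`Gal(PadicAlgCl q / F·ℚ_q)` (no normality needed). -/
theorem comap_fixingSubgroup :
    F.fixingSubgroup.comap (localGaloisToGlobal q) = (locComp q F).fixingSubgroup := by
  ext τ
  rw [Subgroup.mem_comap, IntermediateField.mem_fixingSubgroup_iff, mem_fixingSubgroup_locComp_iff]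
  constructor
  · intro h x hx
    rw [← padicEmbedding_localGaloisToGlobal, h x hx]
  · intro h x hx
    apply (padicEmbedding q).injective
    show padicEmbedding q (localGaloisToGlobal q τ x) = padicEmbedding q x
    rw [padicEmbedding_localGaloisToGlobal]
    exact h x hx

/-- Krasner: every finite extension of `ℚ_q` inside `PadicAlgCl q` is contained in `F·ℚ_q` for a
number field `F`. -/
theorem exists_le_locComp (K : IntermediateField ℚ_[q] (PadicAlgCl q))
    [FiniteDimensional ℚ_[q] K] :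
    ∃ F : IntermediateField ℚ (AlgebraicClosure ℚ), FiniteDimensional ℚ F ∧ K ≤ locComp q F := by
  classical
  have h : K.toSubalgebra.FG := by
    apply Subalgebra.fg_of_fg_toSubmodule
    exact (Submodule.fg_top _).mp (Module.Finite.fg_top (R := ℚ_[q]) (M := K))
  obtain ⟨B, hBfin, rfl⟩ :=
    IntermediateField.fg_def.mp (IntermediateField.fg_of_fg_toSubalgebra K h)
  choose x hx using H15.exists_mem_adjoin_padicEmbedding q
  let T : Set (AlgebraicClosure ℚ) := x '' B
  have hTfin : T.Finite := hBfin.image x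
  have : Finite ↥T := hTfin.to_subtype
  have hfd : FiniteDimensional ℚ (adjoin ℚ T) :=
    IntermediateField.finiteDimensional_adjoin
      (fun y _ => Algebra.IsIntegral.isIntegral (R := ℚ) y)
  refine ⟨adjoin ℚ T, hfd, ?_⟩
  rw [adjoin_le_iff]
  intro b hb
  have h1 : ℚ_[q]⟮padicEmbedding q (x b)⟯ ≤ locComp q (adjoin ℚ T) := by
    rw [adjoin_le_iff]
    intro y hy
    rw [Set.mem_singleton_iff] at hy
    subst hy
    exact padicEmbedding_mem_locComp q _ (subset_adjoin ℚ T ⟨b, hb, rfl⟩)
  exact h1 (hx b)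

/-- The action of the local Galois group on the image of `F` (for `F/ℚ` normal). -/
theorem localGaloisToGlobal_mem [hF : Normal ℚ F] (τ : PadicAlgCl q ≃ₐ[ℚ_[q]] PadicAlgCl q)
    {x : AlgebraicClosure ℚ} (hx : x ∈ F) : localGaloisToGlobal q τ x ∈ F := by
  have hN : @Normal ℚ ↥F _ _ F.algebra' := hF
  have h := (IntermediateField.normal_iff_forall_map_le' (K := F)).mp hN
    (localGaloisToGlobal q τ)
  exact h ⟨x, hx, rfl⟩

instance locComp_normal [Normal ℚ F] : Normal ℚ_[q] (locComp q F) := by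
  rw [IntermediateField.normal_iff_forall_map_le']
  intro τ
  rw [locComp, IntermediateField.adjoin_map, adjoin_le_iff]
  rintro _ ⟨_, ⟨x, hx, rfl⟩, rfl⟩
  have h1 : (τ : PadicAlgCl q →ₐ[ℚ_[q]] PadicAlgCl q) (padicEmbedding q x)
      = padicEmbedding q (localGaloisToGlobal q τ x) :=
    (padicEmbedding_localGaloisToGlobal q τ x).symm
  rw [h1]
  exact subset_adjoin _ _ ⟨_, localGaloisToGlobal_mem q F τ hx, rfl⟩

instance locComp_isGalois [Normal ℚ F] : IsGalois ℚ_[q] (locComp q F) := ⟨⟩

/-- Restriction from the local Galois group at `q` to `Gal(F/ℚ)`. -/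
def resLoc [Normal ℚ F] : (PadicAlgCl q ≃ₐ[ℚ_[q]] PadicAlgCl q) →* (↥F ≃ₐ[ℚ] ↥F) :=
  (AlgEquiv.restrictNormalHom (F := ℚ) (K₁ := AlgebraicClosure ℚ) ↥F).comp (localGaloisToGlobal q)

theorem coe_resLoc [Normal ℚ F] (τ : PadicAlgCl q ≃ₐ[ℚ_[q]] PadicAlgCl q) (x : ↥F) :
    ((resLoc q F τ x : ↥F) : AlgebraicClosure ℚ) = localGaloisToGlobal q τ (x : AlgebraicClosure ℚ) :=
  AlgEquiv.restrictNormal_commutes (localGaloisToGlobal q τ) ↥F x

theorem padicEmbedding_resLoc [Normal ℚ F] (τ : PadicAlgCl q ≃ₐ[ℚ_[q]] PadicAlgCl q) (x : ↥F) :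
    padicEmbedding q ((resLoc q F τ x : ↥F) : AlgebraicClosure ℚ)
      = τ (padicEmbedding q (x : AlgebraicClosure ℚ)) := by
  rw [coe_resLoc, padicEmbedding_localGaloisToGlobal]

/-- The kernel of `resLoc` is `Gal(PadicAlgCl q / locComp q F)`. -/
theorem ker_resLoc [Normal ℚ F] : (resLoc q F).ker = (locComp q F).fixingSubgroup := by
  ext τ
  rw [MonoidHom.mem_ker, IntermediateField.mem_fixingSubgroup_iff]
  constructor
  · intro h
    have hfix : ∀ y ∈ (padicEmbedding q) '' (F : Set (AlgebraicClosure ℚ)), τ y = y := by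
      rintro _ ⟨x, hx, rfl⟩
      have h1 := padicEmbedding_resLoc q F τ ⟨x, hx⟩
      rw [h] at h1
      exact h1.symm
    have hle : locComp q F ≤ IntermediateField.fixedField (Subgroup.zpowers τ) := by
      rw [locComp, adjoin_le_iff]
      intro t ht
      rw [SetLike.mem_coe, IntermediateField.mem_fixedField_iff]
      intro ρ hρ
      obtain ⟨n, rfl⟩ := Subgroup.mem_zpowers_iff.mp hρ
      have hmem : τ ∈ MulAction.stabilizer (PadicAlgCl q ≃ₐ[ℚ_[q]] PadicAlgCl q) t := hfix t ht
      exact Subgroup.zpow_mem _ hmem n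
    intro x hx
    have := hle hx
    rw [IntermediateField.mem_fixedField_iff] at this
    exact this τ (Subgroup.mem_zpowers τ)
  · intro h
    ext x
    apply (padicEmbedding q).injective
    show padicEmbedding q ((resLoc q F τ x : ↥F) : AlgebraicClosure ℚ)
      = padicEmbedding q (x : AlgebraicClosure ℚ)
    rw [padicEmbedding_resLoc]
    exact h _ (padicEmbedding_mem_locComp q F x.2)

section Decomposition

variable [NumberField ↥F] [IsGalois ℚ ↥F]

/-- The decomposition group in `Gal(F/ℚ)` of the prime of `𝓞 F` cut out by `padicPlace q`. -/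
abbrev decompGroup : Subgroup (↥F ≃ₐ[ℚ] ↥F) :=
  MulAction.stabilizer (↥F ≃ₐ[ℚ] ↥F) (primeOf (incl F) (padicPlace q))

/-- The range of `resLoc` is the decomposition group of the prime of `𝓞 F` cut out by
`padicPlace q`. -/
theorem range_resLoc : (resLoc q F).range = decompGroup q F := by
  have hq : q.Prime := Fact.out
  apply le_antisymm
  · rintro _ ⟨τ, rfl⟩
    rw [MulAction.mem_stabilizer_iff]
    refine smul_primeOf_eq_of_mem_decomposition (K := ℚ) (ι := incl F)
      (localGaloisToGlobal_mem_decompositionSubgroup q τ) (resLoc q F τ) (fun y => ?_)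
    exact coe_resLoc q F τ y
  · intro g hg
    rw [MulAction.mem_stabilizer_iff] at hg
    obtain ⟨σ, hσ, hσg⟩ := exists_mem_decomposition_restrict (K := ℚ) (ι := incl F) hq
      (H15.padicPlace_liesOverPrime q) g hg
    rw [← H15.range_localGaloisToGlobal] at hσ
    obtain ⟨τ, rfl⟩ := hσ
    refine ⟨τ, ?_⟩
    ext y
    rw [coe_resLoc]
    exact hσg y

local instance normalPadicAlgCl : Normal ℚ_[q] (PadicAlgCl q) :=
  IsAlgClosure.normal ℚ_[q] (PadicAlgCl q)

/-- Restriction `Gal(PadicAlgCl q/ℚ_q) → Gal(locComp q F/ℚ_q)`. -/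
def resComp : (PadicAlgCl q ≃ₐ[ℚ_[q]] PadicAlgCl q) →*
    (↥(locComp q F) ≃ₐ[ℚ_[q]] ↥(locComp q F)) :=
  AlgEquiv.restrictNormalHom (F := ℚ_[q]) (K₁ := PadicAlgCl q) ↥(locComp q F)

omit [NumberField ↥F] in
theorem resComp_surjective : Function.Surjective (resComp q F) :=
  AlgEquiv.restrictNormalHom_surjective (PadicAlgCl q)

omit [NumberField ↥F] in
theorem ker_resComp : (resComp q F).ker = (locComp q F).fixingSubgroup :=
  IntermediateField.restrictNormalHom_ker (locComp q F)

/-- `Gal(F·ℚ_q / ℚ_q)` is the decomposition group. -/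
def locGalEquiv : (↥(locComp q F) ≃ₐ[ℚ_[q]] ↥(locComp q F)) ≃* ↥(decompGroup q F) :=
  ((QuotientGroup.quotientKerEquivOfSurjective (resComp q F) (resComp_surjective q F)).symm.trans
    (QuotientGroup.quotientMulEquivOfEq ((ker_resComp q F).trans (ker_resLoc q F).symm))).trans
    ((QuotientGroup.quotientKerEquivRange (resLoc q F)).trans
      (MulEquiv.subgroupCongr (range_resLoc q F)))

theorem locGalEquiv_resComp (τ : PadicAlgCl q ≃ₐ[ℚ_[q]] PadicAlgCl q) :
    ((locGalEquiv q F (resComp q F τ) : ↥(decompGroup q F)) : ↥F ≃ₐ[ℚ] ↥F) = resLoc q F τ := by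
  have h1 : (QuotientGroup.quotientKerEquivOfSurjective (resComp q F)
      (resComp_surjective q F)).symm (resComp q F τ) = QuotientGroup.mk τ := by
    rw [MulEquiv.symm_apply_eq]
    rfl
  simp only [locGalEquiv, MulEquiv.trans_apply, h1]
  rfl

/-- Characterisation of `locGalEquiv`: it is compatible with `padicEmbedding`. -/
theorem padicEmbedding_locGalEquiv (ρ : ↥(locComp q F) ≃ₐ[ℚ_[q]] ↥(locComp q F)) (x : ↥F) :
    padicEmbedding q (((locGalEquiv q F ρ : ↥(decompGroup q F)) : ↥F ≃ₐ[ℚ] ↥F) x : ↥F)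
      = ((ρ ⟨padicEmbedding q (x : AlgebraicClosure ℚ), padicEmbedding_mem_locComp q F x.2⟩ :
          ↥(locComp q F)) : PadicAlgCl q) := by
  obtain ⟨τ, rfl⟩ := resComp_surjective q F ρ
  rw [locGalEquiv_resComp, padicEmbedding_resLoc]
  exact (AlgEquiv.restrictNormal_commutes τ ↥(locComp q F)
    ⟨padicEmbedding q (x : AlgebraicClosure ℚ), padicEmbedding_mem_locComp q F x.2⟩).symm

/-- The local degree is the order of the decomposition group. -/
theorem finrank_locComp : Module.finrank ℚ_[q] ↥(locComp q F) = Nat.card ↥(decompGroup q F) := by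
  rw [← IsGalois.card_aut_eq_finrank ℚ_[q] ↥(locComp q F)]
  exact Nat.card_congr (locGalEquiv q F).toEquiv

end Decomposition

section Tensor

open scoped TensorProduct

/-- The evaluation map `F ⊗[ℚ] ℚ_q → PadicAlgCl q`, `x ⊗ a ↦ padicEmbedding x * a`. -/
def evalTensor : ↥F ⊗[ℚ] ℚ_[q] →ₐ[ℚ] PadicAlgCl q :=
  Algebra.TensorProduct.productMap ((padicEmbedding q).comp F.val)
    (IsScalarTower.toAlgHom ℚ ℚ_[q] (PadicAlgCl q))

@[simp] theorem evalTensor_tmul (x : ↥F) (a : ℚ_[q]) :
    evalTensor q F (x ⊗ₜ[ℚ] a)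
      = padicEmbedding q (x : AlgebraicClosure ℚ) * algebraMap ℚ_[q] (PadicAlgCl q) a := by
  rw [evalTensor, Algebra.TensorProduct.productMap_apply_tmul]
  rfl

theorem evalTensor_mem_locComp (t : ↥F ⊗[ℚ] ℚ_[q]) : evalTensor q F t ∈ locComp q F := by
  induction t using TensorProduct.induction_on with
  | zero => rw [map_zero]; exact zero_mem _
  | tmul x a =>
    rw [evalTensor_tmul]
    exact mul_mem (padicEmbedding_mem_locComp q F x.2) ((locComp q F).algebraMap_mem a)
  | add x y hx hy => rw [map_add]; exact add_mem hx hy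

theorem exists_evalTensor_eq_of_mem_adjoin {y : PadicAlgCl q}
    (h1 : y ∈ Algebra.adjoin ℚ_[q] ((padicEmbedding q) '' (F : Set (AlgebraicClosure ℚ)))) :
    ∃ t : ↥F ⊗[ℚ] ℚ_[q], evalTensor q F t = y := by
  induction h1 using Algebra.adjoin_induction with
  | mem x hx =>
    obtain ⟨z, hz, rfl⟩ := hx
    exact ⟨(⟨z, hz⟩ : ↥F) ⊗ₜ[ℚ] (1 : ℚ_[q]), by simp⟩
  | algebraMap a => exact ⟨(1 : ↥F) ⊗ₜ[ℚ] a, by simp⟩
  | add x y _ _ hx hy =>
    obtain ⟨s, rfl⟩ := hx
    obtain ⟨t, rfl⟩ := hy
    exact ⟨s + t, map_add _ _ _⟩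
  | mul x y _ _ hx hy =>
    obtain ⟨s, rfl⟩ := hx
    obtain ⟨t, rfl⟩ := hy
    exact ⟨s * t, map_mul _ _ _⟩

/-- Every element of `F·ℚ_q` is a value of the evaluation map. -/
theorem exists_evalTensor_eq {y : PadicAlgCl q} (hy : y ∈ locComp q F) :
    ∃ t : ↥F ⊗[ℚ] ℚ_[q], evalTensor q F t = y := by
  have halg : ∀ x ∈ (padicEmbedding q) '' (F : Set (AlgebraicClosure ℚ)), IsAlgebraic ℚ_[q] x :=
    fun x _ => Algebra.IsAlgebraic.isAlgebraic x
  have h1 : y ∈ (locComp q F).toSubalgebra := hy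
  rw [locComp, IntermediateField.adjoin_toSubalgebra_of_isAlgebraic halg] at h1
  exact exists_evalTensor_eq_of_mem_adjoin q F h1

theorem range_evalTensor :
    Set.range (evalTensor q F) = (locComp q F : Set (PadicAlgCl q)) := by
  ext y
  constructor
  · rintro ⟨t, rfl⟩
    exact evalTensor_mem_locComp q F t
  · intro hy
    exact exists_evalTensor_eq q F hy

/-- Equivariance of the evaluation map. -/
theorem apply_evalTensor [Normal ℚ F] (τ : PadicAlgCl q ≃ₐ[ℚ_[q]] PadicAlgCl q)
    (t : ↥F ⊗[ℚ] ℚ_[q]) :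
    τ (evalTensor q F t) = evalTensor q F
      (Algebra.TensorProduct.map ((resLoc q F τ : ↥F ≃ₐ[ℚ] ↥F) : ↥F →ₐ[ℚ] ↥F)
        (AlgHom.id ℚ ℚ_[q]) t) := by
  induction t using TensorProduct.induction_on with
  | zero => simp
  | tmul x a =>
    rw [Algebra.TensorProduct.map_tmul, evalTensor_tmul, evalTensor_tmul, map_mul, τ.commutes]
    congr 1
    exact (padicEmbedding_resLoc q F τ x).symm
  | add x y hx hy => rw [map_add, map_add, hx, hy, map_add, map_add]

end Tensor

end Fermat.Agent.CFT.H37
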