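import Mathlib
import Fermat.Prelude.Def_GaloisRep_CompletionBridge
import Fermat.Agent.CFT.H37_LocalComp

/-!
# CFT / C-IND (helper37): the coinduced shape of `(Ω ⊗[ℚ] ℚ_q)ˣ`

For an intermediate field `Ω ⊆ Qbar`, normal over `ℚ`, and a prime `q`, the map
`coindMap q Ω : Ω ⊗[ℚ] ℚ_q → (G_ℚ → PadicAlgCl q)`, `x ⊗ y ↦ (g ↦ ι_q (g x) * y)` is injective,
equivariant for right translation by `G_ℚ`, and its range consists of the functions which are
constant modulo `Gal(Qbar/F)` for some finite `F ⊆ Ω` and satisfy `f (φ_q h * g) = h (f g)` for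
all `h` in the local Galois group (`φ_q = localGaloisToGlobal q`).
-/

set_option autoImplicit false
set_option linter.style.haveILetI false

noncomputable section

namespace Fermat.Agent.CFT.H37

open IntermediateField
open scoped TensorProduct

local notation "Qbar" => AlgebraicClosure ℚ
local notation "GQ" => (AlgebraicClosure ℚ ≃ₐ[ℚ] AlgebraicClosure ℚ)

local instance instTowerQqPadicCoind (q : ℕ) [Fact q.Prime] :
    IsScalarTower ℚ ℚ_[q] (PadicAlgCl q) :=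
  IsScalarTower.of_algebraMap_eq' (Subsingleton.elim _ _)

section General

variable (q : ℕ) [Fact q.Prime] (Ω : IntermediateField ℚ Qbar)

/-- Evaluation at `g`: `x ⊗ y ↦ ι_q (g x) * y`. -/
def coindEval (g : GQ) : ↥Ω ⊗[ℚ] ℚ_[q] →ₐ[ℚ] PadicAlgCl q :=
  Algebra.TensorProduct.productMap
    ((padicEmbedding q).comp ((g : Qbar →ₐ[ℚ] Qbar).comp Ω.val))
    (IsScalarTower.toAlgHom ℚ ℚ_[q] (PadicAlgCl q))

@[simp] theorem coindEval_tmul (g : GQ) (x : ↥Ω) (a : ℚ_[q]) :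
    coindEval q Ω g (x ⊗ₜ[ℚ] a)
      = padicEmbedding q (g (x : Qbar)) * algebraMap ℚ_[q] (PadicAlgCl q) a := by
  rw [coindEval, Algebra.TensorProduct.productMap_apply_tmul]
  rfl

/-- The map `Ω ⊗[ℚ] ℚ_q → (G_ℚ → PadicAlgCl q)`, `x ⊗ y ↦ (g ↦ ι_q (g x) * y)`. -/
def coindMap : ↥Ω ⊗[ℚ] ℚ_[q] →ₐ[ℚ] (GQ → PadicAlgCl q) :=
  AlgHom.pi (coindEval q Ω)

theorem coindMap_apply (t : ↥Ω ⊗[ℚ] ℚ_[q]) (g : GQ) :
    coindMap q Ω t g = coindEval q Ω g t := rfl

@[simp] theorem coindMap_tmul (x : ↥Ω) (a : ℚ_[q]) (g : GQ) :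
    coindMap q Ω (x ⊗ₜ[ℚ] a) g
      = padicEmbedding q (g (x : Qbar)) * algebraMap ℚ_[q] (PadicAlgCl q) a := by
  rw [coindMap_apply, coindEval_tmul]

/-- `ℚ_q`-linearity. -/
theorem coindMap_tmul_mul (a : ℚ_[q]) (t : ↥Ω ⊗[ℚ] ℚ_[q]) (g : GQ) :
    coindMap q Ω ((1 : ↥Ω) ⊗ₜ[ℚ] a * t) g
      = algebraMap ℚ_[q] (PadicAlgCl q) a * coindMap q Ω t g := by
  rw [map_mul, Pi.mul_apply, coindMap_tmul]
  simp

/-- Evaluation at `1` is the evaluation map `x ⊗ y ↦ ι_q x * y`. -/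
theorem coindMap_one (t : ↥Ω ⊗[ℚ] ℚ_[q]) : coindMap q Ω t 1 = evalTensor q Ω t := by
  induction t using TensorProduct.induction_on with
  | zero => simp
  | tmul x a => simp
  | add x y hx hy => rw [map_add, Pi.add_apply, hx, hy, map_add]

/-- Local equivariance: `f (φ_q h * g) = h (f g)`. -/
theorem coindMap_local (t : ↥Ω ⊗[ℚ] ℚ_[q]) (h : PadicAlgCl q ≃ₐ[ℚ_[q]] PadicAlgCl q) (g : GQ) :
    coindMap q Ω t (localGaloisToGlobal q h * g) = h (coindMap q Ω t g) := by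
  induction t using TensorProduct.induction_on with
  | zero => simp
  | tmul x a =>
    rw [coindMap_tmul, coindMap_tmul, map_mul, h.commutes, AlgEquiv.mul_apply,
      padicEmbedding_localGaloisToGlobal]
  | add x y hx hy => rw [map_add, Pi.add_apply, Pi.add_apply, hx, hy, map_add]

/-- Global equivariance: the action of `σ` on the left factor corresponds to right translation
by `σ`. -/
theorem coindMap_smul (σ : GQ) (τ : ↥Ω ≃ₐ[ℚ] ↥Ω) (hτ : ∀ x : ↥Ω, ((τ x : ↥Ω) : Qbar) = σ x)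
    (t : ↥Ω ⊗[ℚ] ℚ_[q]) (g : GQ) :
    coindMap q Ω (Algebra.TensorProduct.map (τ : ↥Ω →ₐ[ℚ] ↥Ω) (AlgHom.id ℚ ℚ_[q]) t) g
      = coindMap q Ω t (g * σ) := by
  induction t using TensorProduct.induction_on with
  | zero => simp
  | tmul x a =>
    rw [Algebra.TensorProduct.map_tmul, coindMap_tmul, coindMap_tmul, AlgEquiv.mul_apply]
    congr 2
    exact congrArg g (hτ x)
  | add x y hx hy => rw [map_add, map_add, map_add, Pi.add_apply, Pi.add_apply, hx, hy]

end General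

section GalMatrix

variable {K L E : Type*} [Field K] [Field L] [Field E] [Algebra K L] [Algebra K E]
  [FiniteDimensional K L] [IsGalois K L] [IsAlgClosed E]

/-- A basis of a finite Galois extension indexed by its Galois group. -/
def galBasis (K L : Type*) [Field K] [Field L] [Algebra K L] [FiniteDimensional K L]
    [IsGalois K L] : Module.Basis (L ≃ₐ[K] L) K L :=
  (Module.finBasis K L).reindex (Fintype.equivOfCardEq (by
    rw [Fintype.card_fin, ← Nat.card_eq_fintype_card, IsGalois.card_aut_eq_finrank]))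

/-- Composition with a fixed embedding identifies the Galois group with the set of embeddings
into an algebraically closed field. -/
def galEmbEquiv (j : L →ₐ[K] E) : (L ≃ₐ[K] L) ≃ (L →ₐ[K] E) :=
  Equiv.ofBijective (fun g => j.comp (g : L →ₐ[K] L)) (by
    rw [Fintype.bijective_iff_injective_and_card]
    constructor
    · intro g g' h
      ext x
      have := DFunLike.congr_fun h x
      exact j.injective this
    · rw [AlgHom.card, ← Nat.card_eq_fintype_card, IsGalois.card_aut_eq_finrank])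

theorem galEmbEquiv_apply (j : L →ₐ[K] E) (g : L ≃ₐ[K] L) (x : L) :
    galEmbEquiv j g x = j (g x) := rfl

theorem det_galMatrix_ne_zero [DecidableEq (L ≃ₐ[K] L)] (j : L →ₐ[K] E)
    (b : Module.Basis (L ≃ₐ[K] L) K L) :
    (Matrix.of fun (i g : L ≃ₐ[K] L) => j (g (b i))).det ≠ 0 := by
  have h1 := Algebra.discr_eq_det_embeddingsMatrixReindex_pow_two K E b (galEmbEquiv j)
  have h2 := Algebra.discr_not_zero_of_basis K b
  have hM : Algebra.embeddingsMatrixReindex K E b (galEmbEquiv j)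
      = Matrix.of fun (i g : L ≃ₐ[K] L) => j (g (b i)) := by
    ext i g
    simp [Algebra.embeddingsMatrixReindex, Algebra.embeddingsMatrix, galEmbEquiv_apply]
  rw [hM] at h1
  intro h0
  rw [h0] at h1
  simp at h1
  exact h2 h1

/-- Uniqueness of solutions of the linear system `∑ i, j (g (b i)) * y i = f g`. -/
theorem eq_zero_of_forall_sum_eq_zero (j : L →ₐ[K] E) (b : Module.Basis (L ≃ₐ[K] L) K L)
    (y : (L ≃ₐ[K] L) → E) (h : ∀ g : L ≃ₐ[K] L, ∑ i, j (g (b i)) * y i = 0) : y = 0 := by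
  classical
  apply Matrix.eq_zero_of_vecMul_eq_zero (det_galMatrix_ne_zero j b)
  ext g
  rw [Matrix.vecMul, dotProduct, Pi.zero_apply, ← h g]
  exact Finset.sum_congr rfl fun i _ => mul_comm _ _

/-- Existence of solutions of the linear system `∑ i, j (g (b i)) * y i = f g`. -/
theorem exists_forall_sum_eq (j : L →ₐ[K] E) (b : Module.Basis (L ≃ₐ[K] L) K L)
    (f : (L ≃ₐ[K] L) → E) : ∃ y : (L ≃ₐ[K] L) → E, ∀ g, ∑ i, j (g (b i)) * y i = f g := by
  classical
  set M : Matrix (L ≃ₐ[K] L) (L ≃ₐ[K] L) E := Matrix.of fun i g => j (g (b i)) with hM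
  have hdet : IsUnit M.det := (det_galMatrix_ne_zero j b).isUnit
  refine ⟨Matrix.vecMul f M⁻¹, fun g => ?_⟩
  have h1 : Matrix.vecMul (Matrix.vecMul f M⁻¹) M = f := by
    rw [Matrix.vecMul_vecMul, Matrix.nonsing_inv_mul M hdet, Matrix.vecMul_one]
  have h2 := congrFun h1 g
  rw [← h2, Matrix.vecMul, dotProduct]
  exact Finset.sum_congr rfl fun i _ => mul_comm _ _

end GalMatrix

section Level

variable (q : ℕ) [Fact q.Prime] (Ω : IntermediateField ℚ Qbar) (F : IntermediateField ℚ Qbar)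

/-- The `ℚ`-span of the pure tensors `x ⊗ a` with `x ∈ F` (the image of `F ⊗ ℚ_q`). -/
def levelSpan : Submodule ℚ (↥Ω ⊗[ℚ] ℚ_[q]) :=
  Submodule.span ℚ {t | ∃ (x : ↥Ω) (a : ℚ_[q]), (x : Qbar) ∈ F ∧ t = x ⊗ₜ[ℚ] a}

variable {F} in
theorem levelSpan_mono {F' : IntermediateField ℚ Qbar} (h : F ≤ F') :
    levelSpan q Ω F ≤ levelSpan q Ω F' := by
  apply Submodule.span_mono
  rintro _ ⟨x, a, hx, rfl⟩
  exact ⟨x, a, h hx, rfl⟩

theorem tmul_mem_levelSpan (x : ↥Ω) (a : ℚ_[q]) (hx : (x : Qbar) ∈ F) :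
    x ⊗ₜ[ℚ] a ∈ levelSpan q Ω F :=
  Submodule.subset_span ⟨x, a, hx, rfl⟩

variable {Ω F} in
/-- Elements of `levelSpan` in coordinates with respect to a basis of `F`. -/
theorem exists_repr_of_mem_levelSpan (hle : F ≤ Ω) {I : Type*} [Fintype I]
    (b : Module.Basis I ℚ ↥F) {t : ↥Ω ⊗[ℚ] ℚ_[q]} (ht : t ∈ levelSpan q Ω F) :
    ∃ y : I → ℚ_[q], t = ∑ i, (⟨(b i : Qbar), hle (b i).2⟩ : ↥Ω) ⊗ₜ[ℚ] y i := by
  induction ht using Submodule.span_induction with
  | mem t ht =>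
    obtain ⟨x, a, hx, rfl⟩ := ht
    refine ⟨fun i => (b.repr ⟨(x : Qbar), hx⟩ i) • a, ?_⟩
    have h1 : x = ∑ i, (b.repr ⟨(x : Qbar), hx⟩ i) • (⟨(b i : Qbar), hle (b i).2⟩ : ↥Ω) := by
      apply Subtype.ext
      have h2 := congrArg (fun z : ↥F => (z : Qbar)) (b.sum_repr ⟨(x : Qbar), hx⟩)
      simp only at h2
      refine h2.symm.trans ?_
      simp [Algebra.smul_def]
    conv_lhs => rw [h1]
    rw [TensorProduct.sum_tmul]
    exact Finset.sum_congr rfl fun i _ => TensorProduct.smul_tmul _ _ _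
  | zero => exact ⟨0, by simp⟩
  | add s t _ _ hs ht =>
    obtain ⟨y, rfl⟩ := hs
    obtain ⟨y', rfl⟩ := ht
    refine ⟨y + y', ?_⟩
    rw [← Finset.sum_add_distrib]
    exact Finset.sum_congr rfl fun i _ => (TensorProduct.tmul_add _ _ _).symm
  | smul c t _ ht =>
    obtain ⟨y, rfl⟩ := ht
    refine ⟨c • y, ?_⟩
    rw [Finset.smul_sum]
    exact Finset.sum_congr rfl fun i _ => by
      rw [Pi.smul_apply, TensorProduct.tmul_smul]

end Level

attribute [local instance] Fermat.Agent.S54.isAlgebraic_Qbar Fermat.Agent.S54.isAlgClosure_Qbar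
  Fermat.Agent.S54.isGalois_Qbar

section Finite

variable (q : ℕ) [Fact q.Prime] (Ω : IntermediateField ℚ Qbar) (F : IntermediateField ℚ Qbar)

local instance normalQbarCoind : Normal ℚ Qbar := IsAlgClosure.normal ℚ Qbar
local instance normalPadicAlgClCoind : Normal ℚ_[q] (PadicAlgCl q) :=
  IsAlgClosure.normal ℚ_[q] (PadicAlgCl q)
local instance isGaloisPadicAlgClCoind : IsGalois ℚ_[q] (PadicAlgCl q) := ⟨⟩

/-- Restriction `G_ℚ → Gal(F/ℚ)`. -/
def resF [Normal ℚ F] : GQ →* (↥F ≃ₐ[ℚ] ↥F) :=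
  AlgEquiv.restrictNormalHom (F := ℚ) (K₁ := Qbar) ↥F

theorem coe_resF [Normal ℚ F] (g : GQ) (x : ↥F) : ((resF F g x : ↥F) : Qbar) = g (x : Qbar) :=
  AlgEquiv.restrictNormal_commutes g ↥F x

theorem resF_surjective [Normal ℚ F] : Function.Surjective (resF F) :=
  AlgEquiv.restrictNormalHom_surjective Qbar

theorem resF_eq_iff [Normal ℚ F] (g g' : GQ) :
    resF F g = resF F g' ↔ g'⁻¹ * g ∈ F.fixingSubgroup := by
  rw [IntermediateField.mem_fixingSubgroup_iff]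
  constructor
  · intro h x hx
    have h1 := coe_resF F g ⟨x, hx⟩
    rw [h, coe_resF] at h1
    rw [AlgEquiv.mul_apply, ← h1]
    exact AlgEquiv.symm_apply_apply g' x
  · intro h
    ext x
    rw [coe_resF, coe_resF]
    have h1 := h x x.2
    rw [AlgEquiv.mul_apply] at h1
    have h2 := congrArg g' h1
    rw [← AlgEquiv.mul_apply, mul_inv_cancel] at h2
    exact h2

/-- The embedding `F → PadicAlgCl q`. -/
def embF : ↥F →ₐ[ℚ] PadicAlgCl q := (padicEmbedding q).comp F.val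

theorem embF_apply (x : ↥F) : embF q F x = padicEmbedding q (x : Qbar) := rfl

variable {Ω F} in
theorem coindMap_sum_tmul [Normal ℚ F] (hle : F ≤ Ω) {I : Type*} [Fintype I]
    (b : I → ↥F) (y : I → ℚ_[q]) (g : GQ) :
    coindMap q Ω (∑ i, (⟨(b i : Qbar), hle (b i).2⟩ : ↥Ω) ⊗ₜ[ℚ] y i) g
      = ∑ i, embF q F (resF F g (b i)) * algebraMap ℚ_[q] (PadicAlgCl q) (y i) := by
  rw [map_sum, Finset.sum_apply]
  refine Finset.sum_congr rfl fun i _ => ?_
  rw [coindMap_tmul, embF_apply, coe_resF]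

variable {Ω F} in
/-- `coindMap` is injective on the image of `F ⊗ ℚ_q` (`F` finite normal). -/
theorem eq_zero_of_coindMap_eq_zero [FiniteDimensional ℚ ↥F] [Normal ℚ F] (hle : F ≤ Ω)
    {t : ↥Ω ⊗[ℚ] ℚ_[q]} (ht : t ∈ levelSpan q Ω F) (h0 : coindMap q Ω t = 0) : t = 0 := by
  classical
  have : IsGalois ℚ ↥F := ⟨⟩
  set b := galBasis ℚ ↥F with hb
  obtain ⟨y, rfl⟩ := exists_repr_of_mem_levelSpan q hle b ht
  have hy : (fun i => algebraMap ℚ_[q] (PadicAlgCl q) (y i)) = 0 := by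
    apply eq_zero_of_forall_sum_eq_zero (embF q F) b
    intro γ
    obtain ⟨g, rfl⟩ := resF_surjective F γ
    rw [← coindMap_sum_tmul q hle (fun i => b i) y g, h0]
    rfl
  have hy0 : ∀ i, y i = 0 := fun i =>
    (algebraMap ℚ_[q] (PadicAlgCl q)).injective (by simpa using congrFun hy i)
  simp [hy0]

variable {Ω F} in
/-- Elements of the image of `F ⊗ ℚ_q` give functions constant modulo `Gal(Qbar/F)`. -/
theorem coindMap_mul_of_mem_levelSpan {t : ↥Ω ⊗[ℚ] ℚ_[q]} (ht : t ∈ levelSpan q Ω F)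
    (g s : GQ) (hs : s ∈ F.fixingSubgroup) : coindMap q Ω t (g * s) = coindMap q Ω t g := by
  rw [IntermediateField.mem_fixingSubgroup_iff] at hs
  induction ht using Submodule.span_induction with
  | mem t ht =>
    obtain ⟨x, a, hx, rfl⟩ := ht
    rw [coindMap_tmul, coindMap_tmul, AlgEquiv.mul_apply, hs _ hx]
  | zero => simp
  | add s t _ _ hs ht => rw [map_add, Pi.add_apply, Pi.add_apply, hs, ht]
  | smul c t _ ht => rw [map_smul, Pi.smul_apply, Pi.smul_apply, ht]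

theorem embF_resF_local [Normal ℚ F] (h : PadicAlgCl q ≃ₐ[ℚ_[q]] PadicAlgCl q) (g : GQ) (x : ↥F) :
    embF q F (resF F (localGaloisToGlobal q h * g) x) = h (embF q F (resF F g x)) := by
  rw [embF_apply, embF_apply, coe_resF, coe_resF, AlgEquiv.mul_apply,
    padicEmbedding_localGaloisToGlobal]

variable {Ω F} in
/-- Every function `G_ℚ → PadicAlgCl q` which is constant modulo `Gal(Qbar/F)` (`F` finite normal)
and locally equivariant comes from `F ⊗ ℚ_q`. -/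
theorem exists_coindMap_eq [FiniteDimensional ℚ ↥F] [Normal ℚ F] (hle : F ≤ Ω)
    (f : GQ → PadicAlgCl q) (hconst : ∀ g s, s ∈ F.fixingSubgroup → f (g * s) = f g)
    (hloc : ∀ (h : PadicAlgCl q ≃ₐ[ℚ_[q]] PadicAlgCl q) g,
      f (localGaloisToGlobal q h * g) = h (f g)) :
    ∃ t ∈ levelSpan q Ω F, coindMap q Ω t = f := by
  classical
  have : IsGalois ℚ ↥F := ⟨⟩
  set b := galBasis ℚ ↥F with hb
  -- `f` factors through `Gal(F/ℚ)`
  have hfac : ∀ g g' : GQ, resF F g = resF F g' → f g = f g' := by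
    intro g g' hgg
    have h1 := (resF_eq_iff F g g').mp hgg
    have h2 := hconst g' _ h1
    rw [mul_inv_cancel_left] at h2
    exact h2
  choose lift hlift using resF_surjective F
  obtain ⟨y, hy⟩ := exists_forall_sum_eq (embF q F) b (fun γ => f (lift γ))
  have hy' : ∀ g : GQ, ∑ i, embF q F (resF F g (b i)) * y i = f g := by
    intro g
    rw [hy (resF F g)]
    exact hfac _ _ (hlift _)
  -- the solution is Galois invariant
  have hinv : ∀ (h : PadicAlgCl q ≃ₐ[ℚ_[q]] PadicAlgCl q) i, h (y i) = y i := by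
    intro h
    have hz : (fun i => h (y i) - y i) = 0 := by
      apply eq_zero_of_forall_sum_eq_zero (embF q F) b
      intro γ
      obtain ⟨g, rfl⟩ := resF_surjective F γ
      simp only [mul_sub, Finset.sum_sub_distrib]
      rw [hy' g, sub_eq_zero]
      -- write `g = φ h * g'`
      set g' := (localGaloisToGlobal q h)⁻¹ * g with hg'
      have hg : g = localGaloisToGlobal q h * g' := by rw [hg', mul_inv_cancel_left]
      rw [hg, hloc, ← hy' g', map_sum]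
      refine Finset.sum_congr rfl fun i _ => ?_
      rw [embF_resF_local, ← map_mul]
    intro i
    exact sub_eq_zero.mp (congrFun hz i)
  have hrange : ∀ i, ∃ y₀ : ℚ_[q], algebraMap ℚ_[q] (PadicAlgCl q) y₀ = y i := fun i =>
    (InfiniteGalois.mem_range_algebraMap_iff_fixed (y i)).mpr (fun h => hinv h i)
  choose y₀ hy₀ using hrange
  refine ⟨∑ i, (⟨(b i : Qbar), hle (b i).2⟩ : ↥Ω) ⊗ₜ[ℚ] y₀ i, ?_, ?_⟩
  · exact Submodule.sum_mem _ fun i _ => tmul_mem_levelSpan q Ω F _ _ (b i).2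
  · funext g
    rw [coindMap_sum_tmul q hle (fun i => b i) y₀ g, ← hy' g]
    exact Finset.sum_congr rfl fun i _ => by rw [hy₀]

end Finite

section Top

variable (q : ℕ) [Fact q.Prime] (Ω : IntermediateField ℚ Qbar)


/-- A finite subextension of a normal extension is contained in a finite normal subextension. -/
theorem exists_finite_normal_le [hΩ : Normal ℚ Ω] (F : IntermediateField ℚ Qbar)
    [FiniteDimensional ℚ ↥F] (hle : F ≤ Ω) :
    ∃ F' : IntermediateField ℚ Qbar, FiniteDimensional ℚ ↥F' ∧ Normal ℚ ↥F' ∧ F ≤ F' ∧ F' ≤ Ω := by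
  have hN : @Normal ℚ ↥Ω _ _ Ω.algebra' := hΩ
  refine ⟨normalClosure ℚ ↥F Qbar, normalClosure.is_finiteDimensional ℚ ↥F Qbar,
    normalClosure.normal ℚ ↥F Qbar, IntermediateField.le_normalClosure F, ?_⟩
  exact (IntermediateField.normalClosure_le_iff_of_normal).mpr hle

/-- Every element of `Ω ⊗ ℚ_q` comes from a finite normal level. -/
theorem exists_mem_levelSpan [Normal ℚ Ω] (t : ↥Ω ⊗[ℚ] ℚ_[q]) :
    ∃ F : IntermediateField ℚ Qbar, FiniteDimensional ℚ ↥F ∧ Normal ℚ ↥F ∧ F ≤ Ω ∧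
      t ∈ levelSpan q Ω F := by
  induction t using TensorProduct.induction_on with
  | zero =>
    obtain ⟨F, h1, h2, -, h3⟩ := exists_finite_normal_le Ω ⊥ bot_le
    exact ⟨F, h1, h2, h3, zero_mem _⟩
  | tmul x a =>
    have hfd : FiniteDimensional ℚ ↥(ℚ⟮(x : Qbar)⟯) :=
      IntermediateField.adjoin.finiteDimensional (Algebra.IsIntegral.isIntegral (x : Qbar))
    have hle : ℚ⟮(x : Qbar)⟯ ≤ Ω := by
      rw [IntermediateField.adjoin_simple_le_iff]
      exact x.2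
    obtain ⟨F, h1, h2, h3, h4⟩ := exists_finite_normal_le Ω ℚ⟮(x : Qbar)⟯ hle
    exact ⟨F, h1, h2, h4, tmul_mem_levelSpan q Ω F x a
      (h3 (IntermediateField.mem_adjoin_simple_self ℚ (x : Qbar)))⟩
  | add s t hs ht =>
    obtain ⟨F, h1, h2, h3, h4⟩ := hs
    obtain ⟨F', h1', h2', h3', h4'⟩ := ht
    refine ⟨F ⊔ F', IntermediateField.finiteDimensional_sup F F', ?_, sup_le h3 h3',
      add_mem (levelSpan_mono q Ω le_sup_left h4) (levelSpan_mono q Ω le_sup_right h4')⟩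
    have hN : @Normal ℚ ↥F _ _ F.algebra' := h2
    have hN' : @Normal ℚ ↥F' _ _ F'.algebra' := h2'
    exact IntermediateField.normal_sup ℚ Qbar F F'

/-- `coindMap` is injective. -/
theorem coindMap_injective [Normal ℚ Ω] : Function.Injective (coindMap q Ω) := by
  rw [injective_iff_map_eq_zero]
  intro t ht
  obtain ⟨F, h1, h2, h3, h4⟩ := exists_mem_levelSpan q Ω t
  exact eq_zero_of_coindMap_eq_zero q h3 h4 ht

/-- **The coinduced shape of `Ω ⊗ ℚ_q`**: the range of `coindMap` consists of the functions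
`G_ℚ → PadicAlgCl q` which are constant modulo `Gal(Qbar/F)` for some finite `F ⊆ Ω` and
equivariant for the local Galois group. -/
theorem mem_range_coindMap_iff [Normal ℚ Ω] (f : GQ → PadicAlgCl q) :
    f ∈ Set.range (coindMap q Ω) ↔
      (∃ F : IntermediateField ℚ Qbar, FiniteDimensional ℚ ↥F ∧ F ≤ Ω ∧
        ∀ g s, s ∈ F.fixingSubgroup → f (g * s) = f g) ∧
      ∀ (h : PadicAlgCl q ≃ₐ[ℚ_[q]] PadicAlgCl q) g, f (localGaloisToGlobal q h * g) = h (f g) := by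
  constructor
  · rintro ⟨t, rfl⟩
    obtain ⟨F, h1, h2, h3, h4⟩ := exists_mem_levelSpan q Ω t
    exact ⟨⟨F, h1, h3, fun g s hs => coindMap_mul_of_mem_levelSpan q h4 g s hs⟩,
      fun h g => coindMap_local q Ω t h g⟩
  · rintro ⟨⟨F, h1, h3, hconst⟩, hloc⟩
    obtain ⟨F', h1', h2', hle, h3'⟩ := exists_finite_normal_le Ω F h3
    obtain ⟨t, -, ht⟩ := exists_coindMap_eq q h3' f
      (fun g s hs => hconst g s (IntermediateField.fixingSubgroup_antitone hle hs)) hloc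
    exact ⟨t, ht⟩

end Top

section Units

variable (q : ℕ) [Fact q.Prime] (Ω : IntermediateField ℚ Qbar)

/-- The unit version of `coindMap`. -/
def coindUnits : (↥Ω ⊗[ℚ] ℚ_[q])ˣ →* (GQ → (PadicAlgCl q)ˣ) :=
  MonoidHom.pi fun g => Units.map ((coindEval q Ω g : ↥Ω ⊗[ℚ] ℚ_[q] →ₐ[ℚ] PadicAlgCl q) :
    ↥Ω ⊗[ℚ] ℚ_[q] →* PadicAlgCl q)

@[simp] theorem coe_coindUnits (u : (↥Ω ⊗[ℚ] ℚ_[q])ˣ) (g : GQ) :
    ((coindUnits q Ω u g : (PadicAlgCl q)ˣ) : PadicAlgCl q) = coindMap q Ω (u : ↥Ω ⊗[ℚ] ℚ_[q]) g :=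
  rfl

theorem coindUnits_injective [Normal ℚ Ω] : Function.Injective (coindUnits q Ω) := by
  intro u v huv
  apply Units.ext
  apply coindMap_injective q Ω
  funext g
  rw [← coe_coindUnits, ← coe_coindUnits, huv]

/-- Local equivariance of `coindUnits`. -/
theorem coindUnits_local (u : (↥Ω ⊗[ℚ] ℚ_[q])ˣ) (h : PadicAlgCl q ≃ₐ[ℚ_[q]] PadicAlgCl q)
    (g : GQ) :
    coindUnits q Ω u (localGaloisToGlobal q h * g)
      = Units.map (h : PadicAlgCl q →* PadicAlgCl q) (coindUnits q Ω u g) := by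
  apply Units.ext
  rw [coe_coindUnits, coindMap_local]
  rfl

/-- Global equivariance of `coindUnits`: the action on the left factor is right translation. -/
theorem coindUnits_smul (σ : GQ) (τ : ↥Ω ≃ₐ[ℚ] ↥Ω) (hτ : ∀ x : ↥Ω, ((τ x : ↥Ω) : Qbar) = σ x)
    (u : (↥Ω ⊗[ℚ] ℚ_[q])ˣ) (g : GQ) :
    coindUnits q Ω (Units.map ((Algebra.TensorProduct.map (τ : ↥Ω →ₐ[ℚ] ↥Ω)
        (AlgHom.id ℚ ℚ_[q]) : ↥Ω ⊗[ℚ] ℚ_[q] →ₐ[ℚ] ↥Ω ⊗[ℚ] ℚ_[q]) :
        ↥Ω ⊗[ℚ] ℚ_[q] →* ↥Ω ⊗[ℚ] ℚ_[q]) u) g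
      = coindUnits q Ω u (g * σ) := by
  apply Units.ext
  rw [coe_coindUnits, coe_coindUnits, ← coindMap_smul q Ω σ τ hτ]
  rfl

/-- **The coinduced shape of `(Ω ⊗ ℚ_q)ˣ`.** -/
theorem mem_range_coindUnits_iff [Normal ℚ Ω] (f : GQ → (PadicAlgCl q)ˣ) :
    f ∈ (coindUnits q Ω).range ↔
      (∃ F : IntermediateField ℚ Qbar, FiniteDimensional ℚ ↥F ∧ F ≤ Ω ∧
        ∀ g s, s ∈ F.fixingSubgroup → f (g * s) = f g) ∧
      ∀ (h : PadicAlgCl q ≃ₐ[ℚ_[q]] PadicAlgCl q) g,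
        ((f (localGaloisToGlobal q h * g) : (PadicAlgCl q)ˣ) : PadicAlgCl q)
          = h ((f g : (PadicAlgCl q)ˣ) : PadicAlgCl q) := by
  constructor
  · rintro ⟨u, rfl⟩
    have h1 := (mem_range_coindMap_iff q Ω
      (coindMap q Ω (u : ↥Ω ⊗[ℚ] ℚ_[q]))).mp ⟨_, rfl⟩
    obtain ⟨⟨F, hF1, hF2, hF3⟩, hloc⟩ := h1
    refine ⟨⟨F, hF1, hF2, fun g s hs => ?_⟩, fun h g => ?_⟩
    · apply Units.ext
      rw [coe_coindUnits, coe_coindUnits]
      exact hF3 g s hs
    · rw [coe_coindUnits, coe_coindUnits]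
      exact hloc h g
  · rintro ⟨⟨F, hF1, hF2, hF3⟩, hloc⟩
    have h1 : (fun g => ((f g : (PadicAlgCl q)ˣ) : PadicAlgCl q)) ∈ Set.range (coindMap q Ω) := by
      rw [mem_range_coindMap_iff]
      exact ⟨⟨F, hF1, hF2, fun g s hs => by rw [hF3 g s hs]⟩, hloc⟩
    have h2 : (fun g => (((f g)⁻¹ : (PadicAlgCl q)ˣ) : PadicAlgCl q))
        ∈ Set.range (coindMap q Ω) := by
      rw [mem_range_coindMap_iff]
      refine ⟨⟨F, hF1, hF2, fun g s hs => by rw [hF3 g s hs]⟩, fun h g => ?_⟩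
      simp only [Units.val_inv_eq_inv_val, map_inv₀]
      rw [hloc h g]
    obtain ⟨t₁, ht₁⟩ := h1
    obtain ⟨t₂, ht₂⟩ := h2
    have h12 : t₁ * t₂ = 1 := by
      apply coindMap_injective q Ω
      rw [map_mul, ht₁, ht₂, map_one]
      funext g
      simp
    refine ⟨⟨t₁, t₂, h12, (mul_comm t₂ t₁).trans h12⟩, ?_⟩
    funext g
    apply Units.ext
    rw [coe_coindUnits]
    exact congrFun ht₁ g

/-- `(Ω ⊗ ℚ_q)ˣ` is isomorphic to the group of level-constant locally equivariant functions. -/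
def coindUnitsEquiv [Normal ℚ Ω] : (↥Ω ⊗[ℚ] ℚ_[q])ˣ ≃* ↥(coindUnits q Ω).range :=
  MonoidHom.ofInjective (coindUnits_injective q Ω)

theorem coe_coindUnitsEquiv [Normal ℚ Ω] (u : (↥Ω ⊗[ℚ] ℚ_[q])ˣ) :
    ((coindUnitsEquiv q Ω u : ↥(coindUnits q Ω).range) : GQ → (PadicAlgCl q)ˣ)
      = coindUnits q Ω u := rfl

end Units

end Fermat.Agent.CFT.H37
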