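import Mathlib
import Fermat.Prelude.Def_GaloisRep_CompletionBridge
import Fermat.Prelude.Def_GroupCohomology_ContinuousUnramified
import Fermat.Agent.CFT.H37_Coind
import Fermat.Agent.CFT.H1_QS

/-!
# CFT / C-IND (helper37): the coinduced shape of `(ℚ_S ⊗[ℚ] ℚ_q)ˣ`

Specialisation of `H37_Coind` to `Ω = ℚ_S = H1.QS S`: the level condition becomes the frozen
predicate `groupCohomology.IsLevelConstantS₁ S`.
-/

set_option autoImplicit false
set_option linter.style.haveILetI false

noncomputable section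

namespace Fermat.Agent.CFT.H37

open IntermediateField
open scoped TensorProduct

local notation "Qbar" => AlgebraicClosure ℚ
local notation "GQ" => (AlgebraicClosure ℚ ≃ₐ[ℚ] AlgebraicClosure ℚ)

attribute [local instance] Fermat.Agent.S54.isAlgebraic_Qbar Fermat.Agent.S54.isAlgClosure_Qbar
  Fermat.Agent.S54.isGalois_Qbar

local instance normalQbarCoindQS : Normal ℚ Qbar := IsAlgClosure.normal ℚ Qbar

variable (S : Finset Nat.Primes)

/-- `ℚ_S` is normal over `ℚ`. -/
instance normal_QS : Normal ℚ ↥(H1.QS S) := by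
  have h : @Normal ℚ ↥(H1.QS S) _ _ (H1.QS S).algebra' := by
    rw [IntermediateField.normal_iff_forall_map_le']
    rintro σ _ ⟨x, hx, rfl⟩
    exact H1.smul_mem_QS σ hx
  exact h

variable {S} in
/-- Finitely many elements of `ℚ_S` lie in a common field unramified outside `S`. -/
theorem exists_isUnramifiedOutside_of_finite {t : Set Qbar} (ht : t.Finite)
    (hsub : t ⊆ (H1.QS S : Set Qbar)) :
    ∃ F : IntermediateField ℚ Qbar, F.IsUnramifiedOutside S ∧ t ⊆ (F : Set Qbar) := by
  induction t, ht using Set.Finite.induction_on with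
  | empty => exact ⟨⊥, IntermediateField.isUnramifiedOutside_bot S, Set.empty_subset _⟩
  | @insert a t _ _ ih =>
    obtain ⟨F, hF, hle⟩ := ih (fun x hx => hsub (Set.mem_insert_of_mem a hx))
    obtain ⟨F', hF', ha⟩ := H1.mem_QS_iff.mp (hsub (Set.mem_insert a t))
    refine ⟨F ⊔ F', hF.sup hF', ?_⟩
    intro x hx
    rcases Set.mem_insert_iff.mp hx with rfl | hx
    · exact (le_sup_right : F' ≤ F ⊔ F') ha
    · exact (le_sup_left : F ≤ F ⊔ F') (hle hx)

variable {S} in
/-- A finite subextension of `ℚ_S` is unramified outside `S`. -/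
theorem isUnramifiedOutside_of_le_QS {F : IntermediateField ℚ Qbar} [FiniteDimensional ℚ ↥F]
    (hle : F ≤ H1.QS S) : F.IsUnramifiedOutside S := by
  have h : F.toSubalgebra.FG := by
    apply Subalgebra.fg_of_fg_toSubmodule
    exact (Submodule.fg_top _).mp (Module.Finite.fg_top (R := ℚ) (M := F))
  obtain ⟨t, htfin, rfl⟩ :=
    IntermediateField.fg_def.mp (IntermediateField.fg_of_fg_toSubalgebra F h)
  obtain ⟨F', hF', hsub⟩ := exists_isUnramifiedOutside_of_finite htfin
    (fun x hx => hle (IntermediateField.subset_adjoin ℚ t hx))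
  exact IntermediateField.IsUnramifiedOutside.of_le (IntermediateField.adjoin_le_iff.mpr hsub) hF'

/-- The level condition for `Ω = ℚ_S` is the frozen predicate `IsLevelConstantS₁ S`. -/
theorem exists_level_QS_iff {X : Type*} (f : GQ → X) :
    (∃ F : IntermediateField ℚ Qbar, FiniteDimensional ℚ ↥F ∧ F ≤ H1.QS S ∧
        ∀ g s, s ∈ F.fixingSubgroup → f (g * s) = f g) ↔
      groupCohomology.IsLevelConstantS₁ S f := by
  constructor
  · rintro ⟨F, h1, h2, h3⟩
    exact ⟨F, isUnramifiedOutside_of_le_QS h2, h3⟩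
  · rintro ⟨F, hF, h3⟩
    exact ⟨F, hF.1, H1.le_QS hF, h3⟩

variable (q : ℕ) [Fact q.Prime]

/-- The coinduced shape of `ℚ_S ⊗ ℚ_q`. -/
theorem mem_range_coindMap_QS_iff (f : GQ → PadicAlgCl q) :
    f ∈ Set.range (coindMap q (H1.QS S)) ↔
      groupCohomology.IsLevelConstantS₁ S f ∧
      ∀ (h : PadicAlgCl q ≃ₐ[ℚ_[q]] PadicAlgCl q) g, f (localGaloisToGlobal q h * g) = h (f g) := by
  rw [mem_range_coindMap_iff, exists_level_QS_iff]

/-- **The coinduced shape of `(ℚ_S ⊗ ℚ_q)ˣ`.** -/
theorem mem_range_coindUnits_QS_iff (f : GQ → (PadicAlgCl q)ˣ) :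
    f ∈ (coindUnits q (H1.QS S)).range ↔
      groupCohomology.IsLevelConstantS₁ S f ∧
      ∀ (h : PadicAlgCl q ≃ₐ[ℚ_[q]] PadicAlgCl q) g,
        ((f (localGaloisToGlobal q h * g) : (PadicAlgCl q)ˣ) : PadicAlgCl q)
          = h ((f g : (PadicAlgCl q)ˣ) : PadicAlgCl q) := by
  rw [mem_range_coindUnits_iff, exists_level_QS_iff]

end Fermat.Agent.CFT.H37
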