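import Mathlib
import Fermat.Agent.CFT.H37_CoindQS
import Fermat.Agent.CFT.H77_TopCS
import Fermat.Agent.CFT.H22_SLShapiro
import Fermat.Agent.CFT.H78_Levels
import Fermat.Agent.CFT.H55_LocalFormation

/-!
# CFT / C-IND (helper37): `(ℚ_S ⊗ ℚ_q)ˣ ≅ coindLC (levelsS S) φ_q (PadicAlgCl q)ˣ` as `Rep ℤ G_ℚ`

The `q`-component of helper77's top-level idele module `H77.repJTop S` is isomorphic, as a
representation of `G_ℚ`, to helper22's level-constant coinduced module of the local units along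
`localGaloisToGlobal q`.  Evaluation at `1` corresponds to `x ⊗ y ↦ ι_q x * y`.
-/

set_option autoImplicit false
set_option linter.style.haveILetI false

noncomputable section

namespace Fermat.Agent.CFT.H37

open scoped TensorProduct
open Fermat.Agent.CFT

local notation "Qbar" => AlgebraicClosure ℚ
local notation "GQ" => (AlgebraicClosure ℚ ≃ₐ[ℚ] AlgebraicClosure ℚ)

variable (S : Finset Nat.Primes) (q : ℕ) [Fact q.Prime]

/-- The action of `G_ℚ` on `(ℚ_S ⊗ ℚ_q)ˣ` (the same term as `H77.locTopUnitsAction`). -/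
local instance locTopUnitsActionNat : MulDistribMulAction GQ (H77.OmegaS S ⊗[ℚ] ℚ_[q])ˣ :=
  Units.mulDistribMulActionRight

/-- The `q`-component of the top-level idele module as a representation of `G_ℚ`. -/
abbrev repLocTop : Rep ℤ GQ := Rep.ofMulDistribMulAction GQ (H77.OmegaS S ⊗[ℚ] ℚ_[q])ˣ

/-- The action of `σ` on `ℚ_S ⊗ ℚ_q` is `toAut σ ⊗ id`. -/
theorem smul_eq_map_toAut (σ : GQ) (t : H77.OmegaS S ⊗[ℚ] ℚ_[q]) :
    σ • t = Algebra.TensorProduct.map ((H77.toAut S σ : H77.OmegaS S ≃ₐ[ℚ] H77.OmegaS S) :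
      H77.OmegaS S →ₐ[ℚ] H77.OmegaS S) (AlgHom.id ℚ ℚ_[q]) t := by
  induction t using TensorProduct.induction_on with
  | zero => simp
  | tmul x a => rfl
  | add x y hx hy => rw [smul_add, hx, hy, map_add]

/-- `coindUnits` for `ℚ_S` on helper77's type. -/
def coindUnitsTop : (H77.OmegaS S ⊗[ℚ] ℚ_[q])ˣ →* (GQ → (PadicAlgCl q)ˣ) :=
  coindUnits q (H1.QS S)

/-- The same unit, with `OmegaS S` unfolded to `↥(H1.QS S)`. -/
def unitsToQS (u : (H77.OmegaS S ⊗[ℚ] ℚ_[q])ˣ) : (↥(H1.QS S) ⊗[ℚ] ℚ_[q])ˣ := u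

theorem coindUnitsTop_apply (u : (H77.OmegaS S ⊗[ℚ] ℚ_[q])ˣ) :
    coindUnitsTop S q u = coindUnits q (H1.QS S) (unitsToQS S q u) := rfl

theorem coindUnitsTop_injective : Function.Injective (coindUnitsTop S q) :=
  fun _ _ h => coindUnits_injective q (H1.QS S) h

theorem coindUnitsTop_smul (σ : GQ) (u : (H77.OmegaS S ⊗[ℚ] ℚ_[q])ˣ) (g : GQ) :
    coindUnitsTop S q (σ • u) g = coindUnitsTop S q u (g * σ) := by
  have h : coindUnitsTop S q (Units.map ((Algebra.TensorProduct.map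
      ((H77.toAut S σ : H77.OmegaS S ≃ₐ[ℚ] H77.OmegaS S) : H77.OmegaS S →ₐ[ℚ] H77.OmegaS S)
      (AlgHom.id ℚ ℚ_[q]) : H77.OmegaS S ⊗[ℚ] ℚ_[q] →ₐ[ℚ] H77.OmegaS S ⊗[ℚ] ℚ_[q]) :
      H77.OmegaS S ⊗[ℚ] ℚ_[q] →* H77.OmegaS S ⊗[ℚ] ℚ_[q]) u) g
      = coindUnitsTop S q u (g * σ) :=
    coindUnits_smul q (H1.QS S) σ (H77.toAut S σ) (fun x => rfl) (unitsToQS S q u) g
  have hu : σ • u = Units.map ((Algebra.TensorProduct.map
      ((H77.toAut S σ : H77.OmegaS S ≃ₐ[ℚ] H77.OmegaS S) : H77.OmegaS S →ₐ[ℚ] H77.OmegaS S)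
      (AlgHom.id ℚ ℚ_[q]) : H77.OmegaS S ⊗[ℚ] ℚ_[q] →ₐ[ℚ] H77.OmegaS S ⊗[ℚ] ℚ_[q]) :
      H77.OmegaS S ⊗[ℚ] ℚ_[q] →* H77.OmegaS S ⊗[ℚ] ℚ_[q]) u :=
    Units.ext (smul_eq_map_toAut S q σ (u : H77.OmegaS S ⊗[ℚ] ℚ_[q]))
  rw [hu, h]

theorem coindUnitsTop_local (u : (H77.OmegaS S ⊗[ℚ] ℚ_[q])ˣ) (h : H78.LocalGal q) (g : GQ) :
    Additive.ofMul (coindUnitsTop S q u (localGaloisToGlobal q h * g))
      = (H78.localUnits q).ρ h (Additive.ofMul (coindUnitsTop S q u g)) :=
  (congrArg Additive.ofMul (coindUnits_local q (H1.QS S) (unitsToQS S q u) h g)).trans rfl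

theorem coindUnitsTop_isLevelConstant (u : (H77.OmegaS S ⊗[ℚ] ℚ_[q])ˣ) :
    groupCohomology.IsLevelConstantS₁ S (coindUnitsTop S q u) :=
  ((mem_range_coindUnits_QS_iff S q (coindUnitsTop S q u)).mp ⟨unitsToQS S q u, rfl⟩).1

theorem coindUnitsTop_isConst (u : (H77.OmegaS S ⊗[ℚ] ℚ_[q])ˣ) :
    (H87.levelsS S).IsConst₁ (fun g => Additive.ofMul (coindUnitsTop S q u g)) := by
  obtain ⟨F, hF, h⟩ := coindUnitsTop_isLevelConstant S q u
  exact ⟨F.fixingSubgroup, ⟨F, hF, rfl⟩, fun g s hs => congrArg Additive.ofMul (h g s hs)⟩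

/-- The additive map underlying the isomorphism. -/
def coindTopAddHom : Additive (H77.OmegaS S ⊗[ℚ] ℚ_[q])ˣ →+
    (H22.coindLC (H87.levelsS S) (localGaloisToGlobal q) (H78.localUnits q)).V where
  toFun u := ⟨fun g => Additive.ofMul (coindUnitsTop S q (Additive.toMul u) g),
    fun h g => coindUnitsTop_local S q _ h g, coindUnitsTop_isConst S q _⟩
  map_zero' := by
    apply Subtype.ext
    funext g
    show Additive.ofMul (coindUnitsTop S q 1 g) = 0
    rw [map_one]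
    rfl
  map_add' u v := by
    apply Subtype.ext
    funext g
    show Additive.ofMul (coindUnitsTop S q (Additive.toMul u * Additive.toMul v) g) = _
    rw [map_mul]
    rfl

/-- The linear map underlying the isomorphism. -/
def coindTopLin : (repLocTop S q).V →ₗ[ℤ]
    (H22.coindLC (H87.levelsS S) (localGaloisToGlobal q) (H78.localUnits q)).V :=
  (coindTopAddHom S q).toIntLinearMap

theorem coindTopLin_apply (u : Additive (H77.OmegaS S ⊗[ℚ] ℚ_[q])ˣ) (g : GQ) :
    ((coindTopLin S q u).1 : GQ → (H78.localUnits q).V) g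
      = Additive.ofMul (coindUnitsTop S q (Additive.toMul u) g) := rfl

theorem coindTopLin_injective : Function.Injective (coindTopLin S q) := by
  intro u v huv
  have h1 : coindUnitsTop S q (Additive.toMul (u : Additive (H77.OmegaS S ⊗[ℚ] ℚ_[q])ˣ))
      = coindUnitsTop S q (Additive.toMul (v : Additive (H77.OmegaS S ⊗[ℚ] ℚ_[q])ˣ)) := by
    funext g
    have := congrFun (congrArg Subtype.val huv) g
    exact Additive.ofMul.injective this
  exact Additive.toMul.injective (coindUnitsTop_injective S q h1)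

theorem coindTopLin_surjective : Function.Surjective (coindTopLin S q) := by
  rintro ⟨f, hloc, N, ⟨F, hF, rfl⟩, hconst⟩
  have hmem : (fun g : GQ => (Additive.toMul (f g) : (PadicAlgCl q)ˣ))
      ∈ (coindUnits q (H1.QS S)).range := by
    refine (mem_range_coindUnits_QS_iff S q _).mpr
      ⟨⟨F, hF, fun g s hs => congrArg Additive.toMul (hconst g s hs)⟩, fun h g => ?_⟩
    have := hloc h g
    show ((Additive.toMul (f (localGaloisToGlobal q h * g)) : (PadicAlgCl q)ˣ) : PadicAlgCl q) = _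
    rw [this]
    rfl
  obtain ⟨u, hu⟩ := hmem
  refine ⟨Additive.ofMul (show (H77.OmegaS S ⊗[ℚ] ℚ_[q])ˣ from u), ?_⟩
  apply Subtype.ext
  funext g
  exact congrArg Additive.ofMul (congrFun hu g)

/-- The linear equivalence underlying the isomorphism. -/
def coindTopEquiv : (repLocTop S q).V ≃ₗ[ℤ]
    (H22.coindLC (H87.levelsS S) (localGaloisToGlobal q) (H78.localUnits q)).V :=
  LinearEquiv.ofBijective (coindTopLin S q)
    ⟨coindTopLin_injective S q, coindTopLin_surjective S q⟩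

/-- **C-IND**: the `q`-component of the top-level idele module is the level-constant coinduced
module of the local units. -/
def coindTopIso : repLocTop S q ≅
    H22.coindLC (H87.levelsS S) (localGaloisToGlobal q) (H78.localUnits q) :=
  Rep.mkIso (Representation.Equiv.mk (coindTopEquiv S q) (fun σ => by
    refine LinearMap.ext fun u => ?_
    apply Subtype.ext
    funext g
    exact congrArg Additive.ofMul (coindUnitsTop_smul S q σ
      (Additive.toMul (u : Additive (H77.OmegaS S ⊗[ℚ] ℚ_[q])ˣ)) g)))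

theorem coindTopIso_hom_apply (u : Additive (H77.OmegaS S ⊗[ℚ] ℚ_[q])ˣ) (g : GQ) :
    (((coindTopIso S q).hom.hom u).1 : GQ → (H78.localUnits q).V) g
      = Additive.ofMul (coindUnitsTop S q (Additive.toMul u) g) := rfl

/-- Evaluation at `1` is `x ⊗ y ↦ ι_q x * y`. -/
theorem coindUnitsTop_one (u : (H77.OmegaS S ⊗[ℚ] ℚ_[q])ˣ) :
    ((coindUnitsTop S q u 1 : (PadicAlgCl q)ˣ) : PadicAlgCl q)
      = evalTensor q (H1.QS S) ((unitsToQS S q u : (↥(H1.QS S) ⊗[ℚ] ℚ_[q])ˣ) :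
          ↥(H1.QS S) ⊗[ℚ] ℚ_[q]) :=
  (coe_coindUnits q (H1.QS S) (unitsToQS S q u) 1).trans (coindMap_one q (H1.QS S) _)

section Prime

open ExtCitation

/-- `Nat.Primes`-indexed version, on the groups of the frozen statement: the `q`-component of
`H77.repJTop S` is `coindLC (levelsS S) (primeLocalToGlobal q) (localUnitsPrime q)`. -/
def coindTopIsoPrime (q : Nat.Primes) :
    Rep.ofMulDistribMulAction GQ (H77.LocTop S q)ˣ ≅
      H22.coindLC (H87.levelsS S) (primeLocalToGlobal q) (localUnitsPrime q) :=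
  letI : Fact (q : ℕ).Prime := ⟨q.2⟩
  coindTopIso S (q : ℕ)

end Prime

end Fermat.Agent.CFT.H37
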