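/-
CFT project, package D3-inst-global-modules-extras (helper1), part 2: the product decomposition
of the top-level idele module `H77.repJTop S` in helper35's `H35.piRep` vocabulary, composed per
factor with helper37's C-IND isomorphism.

* `prq_hinj`, `prq_hsurj` : the inputs of the abstract product lemma of `H35_PiRep` for `pv := prq S`;
* `jTopPiIso S : repJTop S ≅ H35.piRep (repJq S)`;
* `jTopCoindIso S : repJTop S ≅ H35.piRep (fun q => coindLC (levelsS S) (primeLocalToGlobal q) (localUnitsPrime q))`.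
-/
import Fermat.Agent.CFT.H1_GlobalPTExtras
import Fermat.Agent.CFT.H35_PiRep
import Fermat.Agent.CFT.H37_CoindRep

set_option autoImplicit false

namespace Fermat.Agent.CFT.H1

open IntermediateField CategoryTheory ExtCitation
open Fermat.Agent.CFT Fermat.Agent.CFT.H77

local notation "Qbar" => AlgebraicClosure ℚ
local notation "GQ" => (AlgebraicClosure ℚ ≃ₐ[ℚ] AlgebraicClosure ℚ)

noncomputable section

variable (S : Finset Nat.Primes)

/-- The projections `pr_q` are jointly injective. -/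
theorem prq_hinj (m : (repJTop S).V) (h : ∀ q : ↥S, (prq S q).hom m = 0) : m = 0 :=
  repJTop_ext S fun q => by rw [h q, map_zero]

/-- The projections `pr_q` are jointly surjective. -/
theorem prq_hsurj (m : ∀ q : ↥S, (repJq S q).V) :
    ∃ m₀ : (repJTop S).V, ∀ q : ↥S, (prq S q).hom m₀ = m q :=
  ⟨Additive.ofMul (fun q : ↥S => (Additive.toMul (m q) : (LocTop S q.1)ˣ)), fun _ => rfl⟩

/-- `J_S → Π_q J_q`. -/
def jTopPiHom : repJTop S ⟶ H35.piRep (repJq S) := H35.piLift (prq S)

theorem jTopPiHom_apply (j : (repJTop S).V) (q : ↥S) :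
    ((jTopPiHom S).hom j : ∀ q : ↥S, (repJq S q).V) q = (prq S q).hom j := rfl

/-- `Π_q J_q → J_S`, additive map. -/
def jTopPiInvAdd : (∀ q : ↥S, (repJq S q).V) →+ (repJTop S).V where
  toFun x := Additive.ofMul (fun q : ↥S => (Additive.toMul (x q) : (LocTop S q.1)ˣ))
  map_zero' := rfl
  map_add' _ _ := rfl

/-- `Π_q J_q → J_S`. -/
def jTopPiInv : H35.piRep (repJq S) ⟶ repJTop S :=
  Rep.ofHom (ρ := (H35.piRep (repJq S)).ρ) (σ := (repJTop S).ρ)
    ⟨H36.intLinearOfAddHom (jTopPiInvAdd S), fun _ => LinearMap.ext fun _ => rfl⟩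

theorem jTopPiInv_apply (x : ∀ q : ↥S, (repJq S q).V) (q : ↥S) :
    (Additive.toMul ((jTopPiInv S).hom (x : (H35.piRep (repJq S)).V)) : JTop S) q =
      Additive.toMul (x q) := rfl

/-- **The product decomposition** `J_S ≅ Π_{q ∈ S} J_q`. -/
def jTopPiIso : repJTop S ≅ H35.piRep (repJq S) where
  hom := jTopPiHom S
  inv := jTopPiInv S
  hom_inv_id := H35.rep_hom_ext_apply fun _ => rfl
  inv_hom_id := H35.rep_hom_ext_apply fun _ => rfl

@[simp] theorem jTopPiIso_hom : (jTopPiIso S).hom = jTopPiHom S := rfl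
@[simp] theorem jTopPiIso_inv : (jTopPiIso S).inv = jTopPiInv S := rfl

theorem jTopPiIso_hom_proj (q : ↥S) : (jTopPiIso S).hom ≫ H35.piProj (repJq S) q = prq S q :=
  H35.piLift_proj _ q

theorem inq_jTopPiIso_hom_proj_self (q : ↥S) :
    inq S q ≫ (jTopPiIso S).hom ≫ H35.piProj (repJq S) q = 𝟙 _ := by
  rw [jTopPiIso_hom_proj, inq_prq_self]

theorem inq_jTopPiIso_hom_proj_of_ne {q u : ↥S} (h : u ≠ q) :
    inq S q ≫ (jTopPiIso S).hom ≫ H35.piProj (repJq S) u = 0 := by
  rw [jTopPiIso_hom_proj, inq_prq_of_ne S h]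

/-! ### Composition with C-IND (helper37) -/

/-- The local coinduced module at `q`. -/
abbrev coindJq (q : ↥S) : Rep.{0} ℤ GQ :=
  H22.coindLC (H87.levelsS S) (primeLocalToGlobal q.1) (localUnitsPrime q.1)

/-- The isomorphism of a product induced by componentwise isomorphisms. -/
def piMapIso {k G ι : Type} [CommRing k] [Group G] {M M' : ι → Rep.{0} k G}
    (e : ∀ v, M v ≅ M' v) : H35.piRep M ≅ H35.piRep M' where
  hom := H35.piMap fun v => (e v).hom
  inv := H35.piMap fun v => (e v).inv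
  hom_inv_id := H35.rep_hom_ext_apply fun x => funext fun v => by
    show (e v).inv.hom ((e v).hom.hom ((x : ∀ v, (M v).V) v)) = (x : ∀ v, (M v).V) v
    have := congrArg (fun φ : M v ⟶ M v => φ.hom ((x : ∀ v, (M v).V) v)) (e v).hom_inv_id
    exact this
  inv_hom_id := H35.rep_hom_ext_apply fun x => funext fun v => by
    show (e v).hom.hom ((e v).inv.hom ((x : ∀ v, (M' v).V) v)) = (x : ∀ v, (M' v).V) v
    have := congrArg (fun φ : M' v ⟶ M' v => φ.hom ((x : ∀ v, (M' v).V) v)) (e v).inv_hom_id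
    exact this

/-- **C-IND for the whole idele module**: `J_S ≅ Π_{q ∈ S} coindLC (levelsS S) φ_q (Ω_q^×)`. -/
def jTopCoindIso : repJTop S ≅ H35.piRep (coindJq S) :=
  jTopPiIso S ≪≫ piMapIso fun q : ↥S => H37.coindTopIsoPrime S q.1

theorem jTopCoindIso_hom_proj (q : ↥S) :
    (jTopCoindIso S).hom ≫ H35.piProj (coindJq S) q =
      prq S q ≫ (H37.coindTopIsoPrime S q.1).hom := by
  show (jTopPiHom S ≫ H35.piMap fun q : ↥S => (H37.coindTopIsoPrime S q.1).hom) ≫
    H35.piProj (coindJq S) q = _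
  rw [Category.assoc, H35.piMap_proj, ← Category.assoc]
  rw [show jTopPiHom S ≫ H35.piProj (repJq S) q = prq S q from H35.piLift_proj _ q]

end

end Fermat.Agent.CFT.H1
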