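/-
CFT project, layer D, package D4-SL (helper22), slice 2.
Functoriality of the level-constant coinduced module `coindLC 𝓛 φ B`:
`coindLCMap`, left exactness, right exactness under a smooth-lifting hypothesis,
evaluation `coindLCEv`, Frobenius reciprocity `coindLCLift`.
-/
import Fermat.Agent.CFT.H22_SLShapiro
import Fermat.Agent.CFT.H50_LevelRes
set_option autoImplicit false
open CategoryTheory groupCohomology
namespace Fermat.Agent.CFT.H22
open Fermat.Agent.CFT

section Functoriality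

variable {G D : Type} [Group G] [Group D] (𝓛 : LevelStructure G) (φ : D →* G)
  {k : Type} [CommRing k]

/-- The underlying linear map of `coindLCMap`. -/
noncomputable def coindLCMapLin {B B' : Rep.{0} k D} (f : B ⟶ B') :
    (coindLC 𝓛 φ B).V →ₗ[k] (coindLC 𝓛 φ B').V where
  toFun F := ⟨fun g => f.hom (F.1 g), fun d g => by
      show f.hom (F.1 (φ d * g)) = B'.ρ d (f.hom (F.1 g))
      rw [coindLC_equivariant]; exact Rep.hom_comm_apply f d _,
    (coindLC_isConst 𝓛 φ B F).comp _⟩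
  map_add' F F' := by
    apply Subtype.ext; funext g
    show f.hom (F.1 g + F'.1 g) = f.hom (F.1 g) + f.hom (F'.1 g)
    rw [map_add]
  map_smul' c F := by
    apply Subtype.ext; funext g
    show f.hom (c • F.1 g) = c • f.hom (F.1 g)
    rw [map_smul]

/-- Functoriality of `coindLC` in the coefficient module. -/
noncomputable def coindLCMap {B B' : Rep.{0} k D} (f : B ⟶ B') :
    coindLC 𝓛 φ B ⟶ coindLC 𝓛 φ B' :=
  Rep.ofHom (ρ := (coindLC 𝓛 φ B).ρ) (σ := (coindLC 𝓛 φ B').ρ)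
    ⟨coindLCMapLin 𝓛 φ f, fun g => by
      refine LinearMap.ext fun F => ?_
      apply Subtype.ext; funext x
      rfl⟩

lemma coindLCMap_apply {B B' : Rep.{0} k D} (f : B ⟶ B') (F : coindLC 𝓛 φ B) (g : G) :
    ((coindLCMap 𝓛 φ f).hom F : coindLC 𝓛 φ B').1 g = f.hom (F.1 g) := rfl

theorem coindLCMap_injective {B B' : Rep.{0} k D} (f : B ⟶ B')
    (hf : Function.Injective f.hom) : Function.Injective (coindLCMap 𝓛 φ f).hom := by
  intro F F' h
  apply Subtype.ext; funext g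
  have := congrArg (fun E : coindLC 𝓛 φ B' => E.1 g) h
  exact hf this

/-- Left exactness: a coinduced function all of whose values lie in the image of an injective
`ι` comes from a coinduced function. -/
theorem coindLCMap_exact {A B : Rep.{0} k D} (ι : A ⟶ B) (hι : Function.Injective ι.hom)
    (F : coindLC 𝓛 φ B) (hF : ∀ g, ∃ a : A.V, ι.hom a = F.1 g) :
    ∃ F₀ : coindLC 𝓛 φ A, (coindLCMap 𝓛 φ ι).hom F₀ = F := by
  choose a ha using hF
  refine ⟨⟨a, fun d g => hι ?_, ?_⟩, ?_⟩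
  · rw [ha, coindLC_equivariant, Rep.hom_comm_apply, ha]
  · obtain ⟨N, hN, hc⟩ := coindLC_isConst 𝓛 φ B F
    exact ⟨N, hN, fun g s hs => hι (by rw [ha, ha, hc g s hs])⟩
  · apply Subtype.ext; funext g
    exact ha g

/-- Evaluation at `1`, as a `φ`-equivariant map `coindLC 𝓛 φ B → B`. -/
noncomputable def coindLCEvLin (B : Rep.{0} k D) : (coindLC 𝓛 φ B).V →ₗ[k] B.V where
  toFun F := F.1 1
  map_add' _ _ := rfl
  map_smul' _ _ := rfl

@[simp] lemma coindLCEvLin_apply (B : Rep.{0} k D) (F : coindLC 𝓛 φ B) :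
    coindLCEvLin 𝓛 φ B F = F.1 1 := rfl

lemma isEquivariant_coindLCEvLin (B : Rep.{0} k D) :
    H50.IsEquivariant φ (coindLC 𝓛 φ B) B (coindLCEvLin 𝓛 φ B) := by
  intro d F
  show ((coindLC 𝓛 φ B).ρ (φ d) F).1 1 = B.ρ d (F.1 1)
  rw [coindLC_ρ_apply, one_mul, ← mul_one (φ d), coindLC_equivariant]

/-- Evaluation at `1` as a morphism `res φ (coindLC 𝓛 φ B) ⟶ B`. -/
noncomputable def coindLCEv (B : Rep.{0} k D) : Rep.res φ (coindLC 𝓛 φ B) ⟶ B :=
  Rep.ofHom (ρ := (Rep.res φ (coindLC 𝓛 φ B)).ρ) (σ := B.ρ)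
    ⟨coindLCEvLin 𝓛 φ B, fun d => by
      refine LinearMap.ext fun F => ?_
      exact isEquivariant_coindLCEvLin 𝓛 φ B d F⟩

/-- Frobenius reciprocity: a `φ`-equivariant linear map `M → B` from a discrete `G`-module
gives `M ⟶ coindLC 𝓛 φ B`, `m ↦ (g ↦ α (g • m))`. -/
noncomputable def coindLCLiftLin {M : Rep.{0} k G} (hM : 𝓛.IsDiscrete M) {B : Rep.{0} k D}
    (α : M.V →ₗ[k] B.V) (hα : H50.IsEquivariant φ M B α) : M.V →ₗ[k] (coindLC 𝓛 φ B).V where
  toFun m := ⟨fun g => α (M.ρ g m), fun d g => by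
      show α (M.ρ (φ d * g) m) = B.ρ d (α (M.ρ g m))
      rw [map_mul, Module.End.mul_apply, hα], by
      obtain ⟨N, hN, h⟩ := hM m
      refine ⟨N, hN, fun g s hs => ?_⟩
      show α (M.ρ (g * s) m) = α (M.ρ g m)
      rw [map_mul, Module.End.mul_apply, h s hs]⟩
  map_add' m m' := by
    apply Subtype.ext; funext g
    show α (M.ρ g (m + m')) = α (M.ρ g m) + α (M.ρ g m')
    rw [map_add, map_add]
  map_smul' c m := by
    apply Subtype.ext; funext g
    show α (M.ρ g (c • m)) = c • α (M.ρ g m)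
    rw [map_smul, map_smul]

/-- Frobenius reciprocity as a morphism of representations. -/
noncomputable def coindLCLift {M : Rep.{0} k G} (hM : 𝓛.IsDiscrete M) {B : Rep.{0} k D}
    (α : M.V →ₗ[k] B.V) (hα : H50.IsEquivariant φ M B α) : M ⟶ coindLC 𝓛 φ B :=
  Rep.ofHom (ρ := M.ρ) (σ := (coindLC 𝓛 φ B).ρ)
    ⟨coindLCLiftLin 𝓛 φ hM α hα, fun g => by
      refine LinearMap.ext fun m => ?_
      apply Subtype.ext; funext x
      show α (M.ρ x (M.ρ g m)) = α (M.ρ (x * g) m)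
      rw [map_mul, Module.End.mul_apply]⟩

lemma coindLCLift_apply {M : Rep.{0} k G} (hM : 𝓛.IsDiscrete M) {B : Rep.{0} k D}
    (α : M.V →ₗ[k] B.V) (hα : H50.IsEquivariant φ M B α) (m : M.V) (g : G) :
    ((coindLCLift 𝓛 φ hM α hα).hom m : coindLC 𝓛 φ B).1 g = α (M.ρ g m) := rfl

lemma coindLCEvLin_coindLCLift {M : Rep.{0} k G} (hM : 𝓛.IsDiscrete M) {B : Rep.{0} k D}
    (α : M.V →ₗ[k] B.V) (hα : H50.IsEquivariant φ M B α) (m : M.V) :
    coindLCEvLin 𝓛 φ B ((coindLCLift 𝓛 φ hM α hα).hom m) = α m := by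
  show α (M.ρ 1 m) = α m
  rw [map_one, Module.End.one_apply]

end Functoriality

/-! ## Constructing coinduced functions from local data; right exactness -/

section Sections

variable {G D : Type} [Group G] [Group D] (𝓛 : LevelStructure G) (φ : D →* G)
  {k : Type} [CommRing k]

/-- A finite family of levels contains a common level. -/
lemma exists_level_le_of_finite {ι : Type*} [Finite ι] (M : ι → Subgroup G)
    (hM : ∀ i, M i ∈ 𝓛.levels) : ∃ N ∈ 𝓛.levels, ∀ i, N ≤ M i := by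
  classical
  haveI := Fintype.ofFinite ι
  have key : ∀ s : Finset ι, ∃ N ∈ 𝓛.levels, ∀ i ∈ s, N ≤ M i := by
    intro s
    induction s using Finset.induction_on with
    | empty =>
      obtain ⟨N, hN⟩ := 𝓛.nonempty
      exact ⟨N, hN, fun i hi => absurd hi (Finset.notMem_empty i)⟩
    | insert a s _ ih =>
      obtain ⟨N, hN, h⟩ := ih
      obtain ⟨N', hN', hle⟩ := 𝓛.directed N hN (M a) (hM a)
      refine ⟨N', hN', fun i hi => ?_⟩
      rcases Finset.mem_insert.1 hi with rfl | hi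
      · exact fun x hx => (hle hx).2
      · exact fun x hx => h i hi (hle hx).1
  obtain ⟨N, hN, h⟩ := key Finset.univ
  exact ⟨N, hN, fun i => h i (Finset.mem_univ i)⟩

/-- **Gluing lemma.**  Let `N` be a normal level and `P g x` a condition on `(g, x) ∈ G × B`
which is stable under `(g, x) ↦ (φ d * g * n, d • x)` (`n ∈ N`) and which can be solved, for
every `g`, by a vector `x` fixed by `φ⁻¹ N`.  Then there is a level-constant coinduced
function `F` with `P g (F g)` for all `g`. -/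
theorem exists_coindLC_of_local (B : Rep.{0} k D) {N : Subgroup G} (hN : N ∈ 𝓛.levels)
    [hnor : N.Normal] (P : G → B.V → Prop)
    (hP : ∀ g, ∃ x, P g x ∧ ∀ s ∈ N.comap φ, B.ρ s x = x)
    (hPeq : ∀ g x d n, n ∈ N → P g x → P (φ d * g * n) (B.ρ d x)) :
    ∃ F : coindLC 𝓛 φ B, ∀ g, P g (F.1 g) := by
  classical
  let S := dcSetoid (D := D) φ N
  choose X hX1 hX2 using hP
  have hout : ∀ g : G, ∃ d : D, ∃ n ∈ N, g = φ d * (Quotient.mk S g).out * n := fun g =>
    Quotient.mk_out (s := S) g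
  let δ : G → D := fun g => Classical.choose (hout g)
  have hδ : ∀ g, ∃ n ∈ N, g = φ (δ g) * (Quotient.mk S g).out * n := fun g =>
    Classical.choose_spec (hout g)
  let F : G → B.V := fun g => B.ρ (δ g) (X (Quotient.mk S g).out)
  have hinv : ∀ (r : G) (d s : D), s ∈ N.comap φ → B.ρ (d * s) (X r) = B.ρ d (X r) := by
    intro r d s hs
    rw [map_mul, Module.End.mul_apply, hX2 r s hs]
  have hCH : ∀ (g : G) (d : D) (n : G), n ∈ N → g = φ d * (Quotient.mk S g).out * n →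
      F g = B.ρ d (X (Quotient.mk S g).out) := by
    intro g d n hn hg
    obtain ⟨n₀, hn₀, hg₀⟩ := hδ g
    exact cocycle_eq_of_dc (c' := fun d => B.ρ d (X (Quotient.mk S g).out)) (le_refl N)
      (hinv _) hn₀ hn (hg₀.symm.trans hg)
  have hP1 : ∀ d g, F (φ d * g) = B.ρ d (F g) := by
    intro d g
    obtain ⟨n₀, hn₀, hg₀⟩ := hδ g
    have hcls : Quotient.mk S (φ d * g) = Quotient.mk S g :=
      Quotient.sound (s := S) (Setoid.symm (⟨d, 1, N.one_mem, by simp⟩ : S.r g (φ d * g)))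
    have := hCH (φ d * g) (d * δ g) n₀ hn₀ (by
      rw [hcls, map_mul]
      conv_lhs => rw [hg₀]
      simp only [mul_assoc])
    rw [this, hcls, map_mul, Module.End.mul_apply]
  have hP2 : ∀ g n, n ∈ N → F (g * n) = F g := by
    intro g n hn
    obtain ⟨n₀, hn₀, hg₀⟩ := hδ g
    have hcls : Quotient.mk S (g * n) = Quotient.mk S g :=
      Quotient.sound (s := S) (Setoid.symm (⟨1, n, hn, by simp⟩ : S.r g (g * n)))
    have := hCH (g * n) (δ g) (n₀ * n) (N.mul_mem hn₀ hn) (by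
      rw [hcls]
      conv_lhs => rw [hg₀]
      simp only [mul_assoc])
    rw [this, hcls]
  refine ⟨⟨F, hP1, N, hN, hP2⟩, fun g => ?_⟩
  obtain ⟨n₀, hn₀, hg₀⟩ := hδ g
  have := hPeq _ _ (δ g) n₀ hn₀ (hX1 (Quotient.mk S g).out)
  rw [← hg₀] at this
  exact this

/-- Uniformisation: if every value of a coinduced function `f` has a smooth solution `x` of
`Q (f g) x`, then there is a single normal level `N` such that `f` is `N`-constant and every
`f g` has a solution fixed by `φ⁻¹ N`. -/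
theorem exists_uniform_level {B B'' : Rep.{0} k D} (f : coindLC 𝓛 φ B'')
    (Q : B''.V → B.V → Prop)
    (h : ∀ g, ∃ x ∈ smoothSub (𝓛.comap φ) B, Q (f.1 g) x) :
    ∃ N ∈ 𝓛.levels, N.Normal ∧ (∀ g s, s ∈ N → f.1 (g * s) = f.1 g) ∧
      ∀ g, ∃ x, Q (f.1 g) x ∧ ∀ s ∈ N.comap φ, B.ρ s x = x := by
  classical
  obtain ⟨N₀, hN₀, hc⟩ := coindLC_isConst 𝓛 φ B'' f
  obtain ⟨N₁, hN₁, hle₁, hnor₁⟩ := 𝓛.exists_normal N₀ hN₀
  haveI : N₁.FiniteIndex := 𝓛.finiteIndex N₁ hN₁
  haveI : Finite (G ⧸ N₁) := Subgroup.finite_quotient_of_finiteIndex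
  -- solutions at the coset representatives
  have h' : ∀ q : G ⧸ N₁, ∃ x : B.V, ∃ M ∈ 𝓛.levels, Q (f.1 q.out) x ∧
      ∀ s ∈ M.comap φ, B.ρ s x = x := by
    intro q
    obtain ⟨x, ⟨_, ⟨M, hM, rfl⟩, hx⟩, hQ⟩ := h q.out
    exact ⟨x, M, hM, hQ, hx⟩
  choose x M hM hQ hx using h'
  obtain ⟨N₂, hN₂, hle₂⟩ := exists_level_le_of_finite 𝓛 M hM
  obtain ⟨N₃, hN₃, hle₃⟩ := 𝓛.directed N₁ hN₁ N₂ hN₂
  obtain ⟨N, hN, hle, hnor⟩ := 𝓛.exists_normal N₃ hN₃
  refine ⟨N, hN, hnor, fun g s hs => hc g s (hle₁ (hle₃ (hle hs)).1), fun g => ?_⟩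
  refine ⟨x (QuotientGroup.mk g), ?_, fun s hs => hx _ s ?_⟩
  · have hg : (QuotientGroup.mk g : G ⧸ N₁).out⁻¹ * g ∈ N₁ := by
      rw [← QuotientGroup.eq]
      exact Quotient.out_eq' _
    have : f.1 g = f.1 (QuotientGroup.mk g : G ⧸ N₁).out := by
      have := hc (QuotientGroup.mk g : G ⧸ N₁).out _ (hle₁ hg)
      rw [mul_inv_cancel_left] at this
      exact this
    rw [this]
    exact hQ _
  · exact hle₂ _ (hle₃ (hle hs)).2

/-- **Right exactness of `coindLC` on smooth vectors**: if every `𝓛.comap φ`-smooth vector of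
`B''` has a `𝓛.comap φ`-smooth preimage under `π`, then `coindLCMap π` is surjective. -/
theorem coindLCMap_surjective {B B'' : Rep.{0} k D} (π : B ⟶ B'')
    (hlift : ∀ q ∈ smoothSub (𝓛.comap φ) B'', ∃ x ∈ smoothSub (𝓛.comap φ) B, π.hom x = q) :
    Function.Surjective (coindLCMap 𝓛 φ π).hom := by
  intro f
  obtain ⟨N, hN, hnor, hc, hsol⟩ := exists_uniform_level 𝓛 φ f (fun q x => π.hom x = q)
    (fun g => hlift _ (coindLC_apply_mem_smoothSub 𝓛 φ B'' f g))
  obtain ⟨F, hF⟩ := exists_coindLC_of_local 𝓛 φ B hN (fun g x => π.hom x = f.1 g) hsol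
    (fun g x d n hn hx => by
      show π.hom (B.ρ d x) = f.1 (φ d * g * n)
      rw [Rep.hom_comm_apply, hx, hc _ n hn, coindLC_equivariant])
  refine ⟨F, ?_⟩
  apply Subtype.ext; funext g
  exact hF g

/-- **Divisibility of `coindLC`**: if smooth vectors of `B` have smooth `m`-th roots, then
`coindLC 𝓛 φ B` is `m`-divisible. -/
theorem coindLC_divisible (m : ℕ) (B : Rep.{0} k D)
    (hdiv : ∀ x ∈ smoothSub (𝓛.comap φ) B, ∃ y ∈ smoothSub (𝓛.comap φ) B, m • y = x)
    (f : coindLC 𝓛 φ B) : ∃ F : coindLC 𝓛 φ B, m • F = f := by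
  obtain ⟨N, hN, hnor, hc, hsol⟩ := exists_uniform_level 𝓛 φ f (fun q x => m • x = q)
    (fun g => hdiv _ (coindLC_apply_mem_smoothSub 𝓛 φ B f g))
  obtain ⟨F, hF⟩ := exists_coindLC_of_local 𝓛 φ B hN (fun g x => m • x = f.1 g) hsol
    (fun g x d n hn hx => by
      show m • (B.ρ d x) = f.1 (φ d * g * n)
      rw [← map_nsmul, hx, hc _ n hn, coindLC_equivariant])
  refine ⟨F, ?_⟩
  apply Subtype.ext; funext g
  exact hF g

end Sections

end Fermat.Agent.CFT.H22
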