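/-
CFT project, package D3-inst-global-modules-extras (helper1), part 3: the local evaluation maps
`ev_q : J_S → Ω_q^×` and the hypothesis `hJ` of the D4 main theorem (helper22) for `J = H77.repJTop S`:
the Frobenius-reciprocity map `J_S → Π_q coindLC (levelsS S) φ_q (Ω_q^×)`, `j ↦ (g ↦ ev_q (g • j))`,
is the isomorphism `jTopCoindIso S`, hence bijective.
-/
import Fermat.Agent.CFT.H1_GlobalPTPi
import Fermat.Agent.CFT.H22_SLCoind

set_option autoImplicit false

namespace Fermat.Agent.CFT.H1

open IntermediateField CategoryTheory ExtCitation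
open Fermat.Agent.CFT Fermat.Agent.CFT.H77

local notation "Qbar" => AlgebraicClosure ℚ
local notation "GQ" => (AlgebraicClosure ℚ ≃ₐ[ℚ] AlgebraicClosure ℚ)

noncomputable section

variable (S : Finset Nat.Primes)

/-- The local evaluation `ev_q : J_S → Ω_q^×` (`q`-component, C-IND, evaluation at `1`). -/
def evq (q : ↥S) : (repJTop S).V →ₗ[ℤ] (localUnitsPrime q.1).V :=
  (H22.coindLCEvLin (H87.levelsS S) (primeLocalToGlobal q.1) (localUnitsPrime q.1)).comp
    ((H37.coindTopIsoPrime S q.1).hom.hom.toLinearMap.comp (prq S q).hom.toLinearMap)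

theorem evq_apply (q : ↥S) (j : (repJTop S).V) :
    evq S q j = ((H37.coindTopIsoPrime S q.1).hom.hom ((prq S q).hom j) : coindJq S q).1 1 := rfl

/-- `ev_q` is equivariant along `φ_q : G_q → G_ℚ`. -/
theorem isEquivariant_evq (q : ↥S) :
    H50.IsEquivariant (primeLocalToGlobal q.1) (repJTop S) (localUnitsPrime q.1) (evq S q) := by
  intro d j
  have h1 : (prq S q).hom ((repJTop S).ρ (primeLocalToGlobal q.1 d) j) =
      (repJq S q).ρ (primeLocalToGlobal q.1 d) ((prq S q).hom j) :=
    (Rep.hom_comm_apply (prq S q) _ j)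
  have h2 : ∀ x : (repJq S q).V, (H37.coindTopIsoPrime S q.1).hom.hom
      ((repJq S q).ρ (primeLocalToGlobal q.1 d) x) =
      (coindJq S q).ρ (primeLocalToGlobal q.1 d) ((H37.coindTopIsoPrime S q.1).hom.hom x) :=
    fun x => Rep.hom_comm_apply (H37.coindTopIsoPrime S q.1).hom _ x
  show ((H37.coindTopIsoPrime S q.1).hom.hom
      ((prq S q).hom ((repJTop S).ρ (primeLocalToGlobal q.1 d) j)) : coindJq S q).1 1 =
    (localUnitsPrime q.1).ρ d
      (((H37.coindTopIsoPrime S q.1).hom.hom ((prq S q).hom j) : coindJq S q).1 1)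
  rw [h1, h2]
  exact H22.isEquivariant_coindLCEvLin (H87.levelsS S) (primeLocalToGlobal q.1)
    (localUnitsPrime q.1) d
    ((H37.coindTopIsoPrime S q.1).hom.hom ((prq S q).hom j) : coindJq S q)

/-- Frobenius reciprocity applied to `ev_q` recovers `pr_q` followed by C-IND. -/
theorem coindLCLift_evq (q : ↥S) :
    H22.coindLCLift (H87.levelsS S) (primeLocalToGlobal q.1) (isDiscrete_repJTop S) (evq S q)
      (isEquivariant_evq S q) = prq S q ≫ (H37.coindTopIsoPrime S q.1).hom := by
  apply H35.rep_hom_ext_apply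
  intro j
  apply Subtype.ext
  funext g
  show ((H37.coindTopIsoPrime S q.1).hom.hom
      ((prq S q).hom ((repJTop S).ρ g j)) : coindJq S q).1 1 = _
  have h1 : (prq S q).hom ((repJTop S).ρ g j) = (repJq S q).ρ g ((prq S q).hom j) :=
    Rep.hom_comm_apply (prq S q) g j
  have h2 : (H37.coindTopIsoPrime S q.1).hom.hom ((repJq S q).ρ g ((prq S q).hom j)) =
      (coindJq S q).ρ g ((H37.coindTopIsoPrime S q.1).hom.hom ((prq S q).hom j)) :=
    Rep.hom_comm_apply (H37.coindTopIsoPrime S q.1).hom g _
  rw [h1, h2, H22.coindLC_ρ_apply, one_mul]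
  rfl

/-- The family of Frobenius-reciprocity maps is the isomorphism `jTopCoindIso S`. -/
theorem piLift_coindLCLift_evq :
    H35.piLift (fun q : ↥S => H22.coindLCLift (H87.levelsS S) (primeLocalToGlobal q.1)
      (isDiscrete_repJTop S) (evq S q) (isEquivariant_evq S q)) = (jTopCoindIso S).hom := by
  apply H35.rep_hom_ext_apply
  intro j
  funext q
  have h := congrArg (fun φ : repJTop S ⟶ coindJq S q => φ.hom j) (coindLCLift_evq S q)
  have h' := congrArg (fun φ : repJTop S ⟶ coindJq S q => φ.hom j) (jTopCoindIso_hom_proj S q)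
  exact h.trans h'.symm

/-- **`hJ`**: `J_S → Π_q coindLC (levelsS S) φ_q (Ω_q^×)`, `j ↦ (g ↦ ev_q (g • j))`, is bijective. -/
theorem bijective_coindLCLift_evq :
    Function.Bijective (fun (j : (repJTop S).V) (q : ↥S) =>
      (H22.coindLCLift (H87.levelsS S) (primeLocalToGlobal q.1) (isDiscrete_repJTop S) (evq S q)
        (isEquivariant_evq S q)).hom j) := by
  have hiso : Function.Bijective (jTopCoindIso S).hom.hom := by
    constructor
    · intro x y hxy
      have := congrArg (fun z => (jTopCoindIso S).inv.hom z) hxy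
      have h1 : ∀ z, (jTopCoindIso S).inv.hom ((jTopCoindIso S).hom.hom z) = z := fun z =>
        congrArg (fun φ : repJTop S ⟶ repJTop S => φ.hom z) (jTopCoindIso S).hom_inv_id
      simpa only [h1] using this
    · intro y
      exact ⟨(jTopCoindIso S).inv.hom y,
        congrArg (fun φ : H35.piRep (coindJq S) ⟶ H35.piRep (coindJq S) => φ.hom y)
          (jTopCoindIso S).inv_hom_id⟩
  have heq : (fun (j : (repJTop S).V) (q : ↥S) =>
      (H22.coindLCLift (H87.levelsS S) (primeLocalToGlobal q.1) (isDiscrete_repJTop S) (evq S q)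
        (isEquivariant_evq S q)).hom j) = fun j => (jTopCoindIso S).hom.hom j := by
    funext j
    have := congrArg (fun φ : repJTop S ⟶ H35.piRep (coindJq S) => φ.hom j)
      (piLift_coindLCLift_evq S)
    exact this
  rw [heq]
  exact hiso

end

end Fermat.Agent.CFT.H1
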