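import Mathlib
import Fermat.Agent.CFT.H36_Envelope3
import Fermat.Agent.CFT.H91_WModel
import Fermat.Agent.CFT.H50_LevelRes

/-!
# Morphisms of `W`-data and of divisible envelopes; independence of the envelope  (CFT / D4 (a3))

Setting: `φ : D →* H` continuous for level structures `𝓛_D` on `D` and `𝓛` on `H`
(`φ = id` allowed).

* `WMor φ 𝒟 𝒟'` : a morphism of `W`-data over `φ` (equivariant linear maps `a : Vm → Vm'`,
  `b : W → W'` with `b ∘ d = d' ∘ a`).  It induces `T1map`, `T2map`, `T3map` from the `T`-groups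
  of `X` to those of `Rep.res φ X`.
* `WMor.Homotopy Φ Ψ` : `s : W → Vm'` with `b_Φ - b_Ψ = d' ∘ s`.  Homotopic morphisms induce the
  same `T1map`; the same `T2map` under (AC1) for the target; the same `T3map` under (AC2).
* `EnvMor φ E E' ev` : a morphism of divisible envelopes over `ev : N → N'`; it induces a `WMor`,
  and any two envelope morphisms over the same `ev` are homotopic.
* same group: identities, composition, and bijectivity of the `T`-maps for envelopes mapping to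
  each other over mutually inverse maps.
-/

set_option autoImplicit false
set_option linter.unusedSectionVars false

open CategoryTheory groupCohomology

namespace Fermat.Agent.CFT.H5

open Fermat.Agent.CFT

/-! ## `Hom(X, -)` over a group homomorphism -/

section HomPush

variable {k : Type} [CommRing k] {H D : Type} [Group H] [Group D]

/-- Post-composition `Hom(X, W) → Hom(res X, W')` with a linear map `b : W → W'`. -/
noncomputable def homPush (φ : D →* H) (X : Rep.{0} k H) {W : Rep.{0} k H} {W' : Rep.{0} k D}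
    (b : W.V →ₗ[k] W'.V) : (homRep X W).V →ₗ[k] (homRep (Rep.res φ X) W').V :=
  LinearMap.llcomp k X.V W.V W'.V b

lemma homPush_apply (φ : D →* H) (X : Rep.{0} k H) {W : Rep.{0} k H} {W' : Rep.{0} k D}
    (b : W.V →ₗ[k] W'.V) (h : X.V →ₗ[k] W.V) (x : X.V) :
    (show X.V →ₗ[k] W'.V from homPush φ X b h) x = b (h x) := rfl

lemma isEquivariant_homPush (φ : D →* H) (X : Rep.{0} k H) {W : Rep.{0} k H}
    {W' : Rep.{0} k D} {b : W.V →ₗ[k] W'.V} (hb : H50.IsEquivariant φ W W' b) :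
    H50.IsEquivariant φ (homRep X W) (homRep (Rep.res φ X) W') (homPush φ X b) := by
  intro g h
  refine LinearMap.ext fun x => ?_
  show b (W.ρ (φ g) (h (X.ρ (φ g)⁻¹ x))) = W'.ρ g (b (h (X.ρ (φ g⁻¹) x)))
  rw [hb g, map_inv φ g]

end HomPush

/-! ## Morphisms of `W`-data over a group homomorphism -/

section WMor

variable {p : ℕ} [Fact p.Prime] {H D : Type} [Group H] [Group D]
  {𝓛 : LevelStructure H} {𝓛D : LevelStructure D}

/-- A morphism of `W`-data over `φ : D →* H`, from a datum on `H` to a datum on `D`. -/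
structure WMor (φ : D →* H) (𝒟 : WDatum p 𝓛) (𝒟' : WDatum p 𝓛D) where
  a : 𝒟.Vm.V →ₗ[ZMod p] 𝒟'.Vm.V
  b : 𝒟.W.V →ₗ[ZMod p] 𝒟'.W.V
  ha : H50.IsEquivariant φ 𝒟.Vm 𝒟'.Vm a
  hb : H50.IsEquivariant φ 𝒟.W 𝒟'.W b
  comm : ∀ v : 𝒟.Vm.V, b (𝒟.d.hom v) = 𝒟'.d.hom (a v)

namespace WMor

variable {φ : D →* H} {𝒟 : WDatum p 𝓛} {𝒟' : WDatum p 𝓛D} (Φ : WMor φ 𝒟 𝒟')

/-- The induced map on numerators `Hom_H(X, W) → Hom_D(res X, W')`. -/
noncomputable def T1numMap (X : Rep.{0} (ZMod p) H) :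
    𝒟.T1num X →ₗ[ZMod p] 𝒟'.T1num (Rep.res φ X) :=
  H50.mapH0 (isEquivariant_homPush φ X Φ.hb)

lemma T1numMap_apply (X : Rep.{0} (ZMod p) H) (h : 𝒟.T1num X) (x : X.V) :
    (show X.V →ₗ[ZMod p] 𝒟'.W.V from (Φ.T1numMap X h).1) x =
      Φ.b ((show X.V →ₗ[ZMod p] 𝒟.W.V from h.1) x) := rfl

lemma T1den_le_comap (X : Rep.{0} (ZMod p) H) :
    𝒟.T1den X ≤ (𝒟'.T1den (Rep.res φ X)).comap (Φ.T1numMap X) := by
  rintro _ ⟨v, rfl⟩
  refine ⟨H50.mapH0 (isEquivariant_homPush φ X Φ.ha) v, ?_⟩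
  apply Subtype.ext
  refine LinearMap.ext fun x => ?_
  exact (Φ.comm ((show X.V →ₗ[ZMod p] 𝒟.Vm.V from v.1) x)).symm

/-- The induced map `T¹(X) → T¹'(res X)`. -/
noncomputable def T1map (X : Rep.{0} (ZMod p) H) : 𝒟.T1 X →ₗ[ZMod p] 𝒟'.T1 (Rep.res φ X) :=
  Submodule.mapQ _ _ (Φ.T1numMap X) (Φ.T1den_le_comap X)

@[simp] lemma T1map_mk (X : Rep.{0} (ZMod p) H) (h : 𝒟.T1num X) :
    Φ.T1map X (Submodule.Quotient.mk h) = Submodule.Quotient.mk (Φ.T1numMap X h) := rfl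

variable (hφ : H50.IsCont 𝓛D 𝓛 φ)

/-- The induced map `T²(X) → T²'(res X)`. -/
noncomputable def T2map (X : Rep.{0} (ZMod p) H) : 𝒟.T2 X →ₗ[ZMod p] 𝒟'.T2 (Rep.res φ X) :=
  H50.mapH1 𝓛D 𝓛 hφ (isEquivariant_homPush φ X Φ.hb)

/-- The induced map `T³(X) → T³'(res X)`. -/
noncomputable def T3map (X : Rep.{0} (ZMod p) H) : 𝒟.T3 X →ₗ[ZMod p] 𝒟'.T3 (Rep.res φ X) :=
  H50.mapH2 𝓛D 𝓛 hφ (isEquivariant_homPush φ X Φ.hb)

/-- The induced map `H¹(W) → H¹(W')`. -/
noncomputable def H1Wmap : 𝓛.H1 𝒟.W →ₗ[ZMod p] 𝓛D.H1 𝒟'.W :=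
  H50.mapH1 𝓛D 𝓛 hφ Φ.hb

/-- Compatibility of `α²`: for a trace `tr'` on the target, `α²` of the source for the trace
`tr' ∘ H1Wmap` is `α²` of the target composed with `T2map` and restriction of invariants. -/
theorem alpha2_comp (tr' : 𝓛D.H1 𝒟'.W →ₗ[ZMod p] ZMod p) (X : Rep.{0} (ZMod p) H)
    (ξ : 𝒟.T2 X) (x : X.ρ.invariants) :
    𝒟'.alpha2 tr' (Rep.res φ X) (Φ.T2map hφ X ξ) (H50.resH0 φ X x) =
      𝒟.alpha2 (tr' ∘ₗ Φ.H1Wmap hφ) X ξ x := by
  induction ξ using Submodule.Quotient.induction_on with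
  | H c => rfl

/-- Compatibility of `α¹`. -/
theorem alpha1num_comp (tr' : 𝓛D.H1 𝒟'.W →ₗ[ZMod p] ZMod p) (X : Rep.{0} (ZMod p) H)
    (h : 𝒟.T1num X) (ξ : 𝓛.H1 X) :
    𝒟'.alpha1num tr' (Rep.res φ X) (Φ.T1numMap X h) (H50.resH1 𝓛D 𝓛 hφ X ξ) =
      𝒟.alpha1num (tr' ∘ₗ Φ.H1Wmap hφ) X h ξ := by
  induction ξ using Submodule.Quotient.induction_on with
  | H c => rfl

/-! ### Homotopies -/

/-- A homotopy between two morphisms of `W`-data over `φ`: `s : W → Vm'` equivariant with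
`b_Φ - b_Ψ = d' ∘ s`. -/
structure Homotopy (Φ Ψ : WMor φ 𝒟 𝒟') where
  s : 𝒟.W.V →ₗ[ZMod p] 𝒟'.Vm.V
  hs : H50.IsEquivariant φ 𝒟.W 𝒟'.Vm s
  eq : ∀ w : 𝒟.W.V, Φ.b w - Ψ.b w = 𝒟'.d.hom (s w)

variable {Φ} {Ψ : WMor φ 𝒟 𝒟'}

/-- Homotopic morphisms induce the same map on `T¹` (no hypothesis). -/
theorem T1map_eq_of_homotopy (σ : Homotopy Φ Ψ) (X : Rep.{0} (ZMod p) H) :
    Φ.T1map X = Ψ.T1map X := by
  refine LinearMap.ext fun t => ?_
  induction t using Submodule.Quotient.induction_on with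
  | H h =>
    rw [T1map_mk, T1map_mk, Submodule.Quotient.eq]
    refine ⟨H50.mapH0 (isEquivariant_homPush φ X σ.hs) h, ?_⟩
    apply Subtype.ext
    refine LinearMap.ext fun x => ?_
    exact (σ.eq ((show X.V →ₗ[ZMod p] 𝒟.W.V from h.1) x)).symm

/-- Homotopic morphisms induce the same map on `T²`, under (AC1) for the target. -/
theorem T2map_eq_of_homotopy (σ : Homotopy Φ Ψ) (X : Rep.{0} (ZMod p) H)
    (hAC1 : Subsingleton (𝓛D.H1 (homRep (Rep.res φ X) 𝒟'.Vm))) :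
    Φ.T2map hφ X = Ψ.T2map hφ X := by
  have key : ∀ ξ : 𝒟.T2 X, Φ.T2map hφ X ξ - Ψ.T2map hφ X ξ =
      H50.coeffH1 𝓛D (homRepMap (Rep.res φ X) 𝒟'.d)
        (H50.mapH1 𝓛D 𝓛 hφ (isEquivariant_homPush φ X σ.hs) ξ) := by
    intro ξ
    induction ξ using Submodule.Quotient.induction_on with
    | H c =>
      show Submodule.Quotient.mk _ - Submodule.Quotient.mk _ = Submodule.Quotient.mk _
      rw [← Submodule.Quotient.mk_sub]
      congr 1
      apply Subtype.ext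
      funext g
      refine LinearMap.ext fun x => ?_
      exact σ.eq _
  refine LinearMap.ext fun ξ => ?_
  have h0 : H50.mapH1 𝓛D 𝓛 hφ (isEquivariant_homPush φ X σ.hs) ξ = 0 := Subsingleton.elim _ _
  have := key ξ
  rw [h0, map_zero] at this
  exact sub_eq_zero.mp this

/-- Homotopic morphisms induce the same map on `T³`, under (AC2) for the target. -/
theorem T3map_eq_of_homotopy (σ : Homotopy Φ Ψ) (X : Rep.{0} (ZMod p) H)
    (hAC2 : Subsingleton (𝓛D.H2 (homRep (Rep.res φ X) 𝒟'.Vm))) :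
    Φ.T3map hφ X = Ψ.T3map hφ X := by
  have key : ∀ ξ : 𝒟.T3 X, Φ.T3map hφ X ξ - Ψ.T3map hφ X ξ =
      H50.coeffH2 𝓛D (homRepMap (Rep.res φ X) 𝒟'.d)
        (H50.mapH2 𝓛D 𝓛 hφ (isEquivariant_homPush φ X σ.hs) ξ) := by
    intro ξ
    induction ξ using Submodule.Quotient.induction_on with
    | H c =>
      show Submodule.Quotient.mk _ - Submodule.Quotient.mk _ = Submodule.Quotient.mk _
      rw [← Submodule.Quotient.mk_sub]
      congr 1
      apply Subtype.ext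
      funext g
      refine LinearMap.ext fun x => ?_
      exact σ.eq _
  refine LinearMap.ext fun ξ => ?_
  have h0 : H50.mapH2 𝓛D 𝓛 hφ (isEquivariant_homPush φ X σ.hs) ξ = 0 := Subsingleton.elim _ _
  have := key ξ
  rw [h0, map_zero] at this
  exact sub_eq_zero.mp this

end WMor

end WMor

/-! ## Morphisms of divisible envelopes -/

section EnvMor

variable {p : ℕ} [Fact p.Prime] {k : Type} [CommRing k] {H D : Type} [Group H] [Group D]
  {𝓛 : LevelStructure H} {𝓛D : LevelStructure D} {N : Rep.{0} k H} {N' : Rep.{0} k D}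

/-- Restriction of a `k`-linear (or just additive) map to the `p`-torsion, as a `ZMod p`-linear
map. -/
noncomputable def torsionLin (p : ℕ) {M M' : Type} [AddCommGroup M] [AddCommGroup M']
    (f : M →+ M') : H36.torsionSub p M →ₗ[ZMod p] H36.torsionSub p M' :=
  (H36.torsionRestrict p f).toZModLinearMap p

@[simp] lemma torsionLin_coe (p : ℕ) {M M' : Type} [AddCommGroup M] [AddCommGroup M']
    (f : M →+ M') (x : H36.torsionSub p M) : ((torsionLin p f x : H36.torsionSub p M') : M') =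
      f x.1 := rfl

/-- Descent of a linear map on `I` killing `N` to the quotient `Q` of an envelope. -/
noncomputable def descQ (E : H36.DivEnvelope 𝓛 p N) {Y : Type} [AddCommGroup Y] [Module k Y]
    (G : E.I.V →ₗ[k] Y) (hG : ∀ c : N.V, G (E.ι.hom c) = 0) : E.Q.V →ₗ[k] Y :=
  ((LinearMap.ker E.π.hom.toLinearMap).liftQ G (fun x hx => by
      obtain ⟨c, rfl⟩ := (E.exact x).1 hx
      exact hG c)) ∘ₗ
    (E.π.hom.toLinearMap.quotKerEquivOfSurjective E.π_surjective).symm.toLinearMap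

omit [Fact p.Prime] in
lemma descQ_apply (E : H36.DivEnvelope 𝓛 p N) {Y : Type} [AddCommGroup Y] [Module k Y]
    (G : E.I.V →ₗ[k] Y) (hG : ∀ c : N.V, G (E.ι.hom c) = 0) (x : E.I.V) :
    descQ E G hG (E.π.hom x) = G x := by
  have h : (E.π.hom.toLinearMap.quotKerEquivOfSurjective E.π_surjective).symm
      (E.π.hom.toLinearMap x) = Submodule.Quotient.mk x :=
    LinearMap.quotKerEquivOfSurjective_symm_apply (f := E.π.hom.toLinearMap) E.π_surjective x
  unfold descQ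
  rw [LinearMap.comp_apply, LinearEquiv.coe_coe]
  have h2 : (E.π.hom.toLinearMap.quotKerEquivOfSurjective E.π_surjective).symm (E.π.hom x) =
      Submodule.Quotient.mk x := h
  rw [h2]
  rfl

/-- A morphism of divisible envelopes over `φ : D →* H` and over `ev : N → N'`. -/
structure EnvMor (φ : D →* H) (E : H36.DivEnvelope 𝓛 p N) (E' : H36.DivEnvelope 𝓛D p N')
    (ev : N.V →ₗ[k] N'.V) where
  F : E.I.V →ₗ[k] E'.I.V
  hF : H50.IsEquivariant φ E.I E'.I F
  comm : ∀ c : N.V, F (E.ι.hom c) = E'.ι.hom (ev c)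

namespace EnvMor

variable {φ : D →* H} {E : H36.DivEnvelope 𝓛 p N} {E' : H36.DivEnvelope 𝓛D p N'}
  {ev : N.V →ₗ[k] N'.V} (Φ : EnvMor φ E E' ev)

/-- The induced map on the quotients `Q → Q'`. -/
noncomputable def Fbar : E.Q.V →ₗ[k] E'.Q.V :=
  descQ E (E'.π.hom.toLinearMap ∘ₗ Φ.F) (fun c => by
    show E'.π.hom (Φ.F (E.ι.hom c)) = 0
    rw [Φ.comm]
    exact (E'.exact _).2 ⟨_, rfl⟩)

omit [Fact p.Prime] in
lemma Fbar_π (x : E.I.V) : Φ.Fbar (E.π.hom x) = E'.π.hom (Φ.F x) :=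
  descQ_apply E _ _ x

lemma isEquivariant_Fbar : H50.IsEquivariant φ E.Q E'.Q Φ.Fbar := by
  intro g q
  obtain ⟨x, rfl⟩ := E.π_surjective q
  rw [← Rep.hom_comm_apply, Fbar_π, Fbar_π, Φ.hF g x, Rep.hom_comm_apply]

/-- The morphism of `W`-data induced by a morphism of envelopes. -/
noncomputable def toWMor : WMor φ E.wDatum E'.wDatum where
  a := torsionLin p Φ.F.toAddMonoidHom
  b := torsionLin p Φ.Fbar.toAddMonoidHom
  ha := fun g x => Subtype.ext (Φ.hF g (show H36.torsionSub p E.I.V from x).1)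
  hb := fun g x => Subtype.ext (Φ.isEquivariant_Fbar g (show H36.torsionSub p E.Q.V from x).1)
  comm := fun v => Subtype.ext (Φ.Fbar_π (show H36.torsionSub p E.I.V from v).1)

/-- The difference of two envelope morphisms over the same `ev`, descended to `Q → I'`. -/
noncomputable def diffQ (Φ Ψ : EnvMor φ E E' ev) : E.Q.V →ₗ[k] E'.I.V :=
  descQ E (Φ.F - Ψ.F) (fun c => by
    rw [LinearMap.sub_apply, Φ.comm, Ψ.comm, sub_self])

omit [Fact p.Prime] in
lemma diffQ_π (Φ Ψ : EnvMor φ E E' ev) (x : E.I.V) :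
    diffQ Φ Ψ (E.π.hom x) = Φ.F x - Ψ.F x :=
  descQ_apply E _ _ x

lemma isEquivariant_diffQ (Φ Ψ : EnvMor φ E E' ev) :
    H50.IsEquivariant φ E.Q E'.I (diffQ Φ Ψ) := by
  intro g q
  obtain ⟨x, rfl⟩ := E.π_surjective q
  rw [← Rep.hom_comm_apply, diffQ_π, diffQ_π, Φ.hF g x, Ψ.hF g x, map_sub]

lemma π_diffQ (Φ Ψ : EnvMor φ E E' ev) (q : E.Q.V) :
    E'.π.hom (diffQ Φ Ψ q) = Φ.Fbar q - Ψ.Fbar q := by
  obtain ⟨x, rfl⟩ := E.π_surjective q
  rw [diffQ_π, Fbar_π, Fbar_π, map_sub]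

/-- Any two morphisms of envelopes over the same `ev` induce homotopic morphisms of `W`-data. -/
noncomputable def homotopy (Φ Ψ : EnvMor φ E E' ev) : WMor.Homotopy Φ.toWMor Ψ.toWMor where
  s := torsionLin p (diffQ Φ Ψ).toAddMonoidHom
  hs := fun g w => Subtype.ext
    (isEquivariant_diffQ Φ Ψ g (show H36.torsionSub p E.Q.V from w).1)
  eq := fun w => Subtype.ext (π_diffQ Φ Ψ (show H36.torsionSub p E.Q.V from w).1).symm

variable (hφ : H50.IsCont 𝓛D 𝓛 φ)

/-- **Independence of the envelope morphism, `T¹`.** -/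
theorem T1map_eq (Φ Ψ : EnvMor φ E E' ev) (X : Rep.{0} (ZMod p) H) :
    Φ.toWMor.T1map X = Ψ.toWMor.T1map X :=
  WMor.T1map_eq_of_homotopy (Φ.homotopy Ψ) X

/-- **Independence of the envelope morphism, `T²`** (under (AC1) for the target). -/
theorem T2map_eq (Φ Ψ : EnvMor φ E E' ev) (X : Rep.{0} (ZMod p) H)
    (hAC1 : Subsingleton (𝓛D.H1 (homRep (Rep.res φ X) E'.wDatum.Vm))) :
    Φ.toWMor.T2map hφ X = Ψ.toWMor.T2map hφ X :=
  WMor.T2map_eq_of_homotopy hφ (Φ.homotopy Ψ) X hAC1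

/-- **Independence of the envelope morphism, `T³`** (under (AC2) for the target). -/
theorem T3map_eq (Φ Ψ : EnvMor φ E E' ev) (X : Rep.{0} (ZMod p) H)
    (hAC2 : Subsingleton (𝓛D.H2 (homRep (Rep.res φ X) E'.wDatum.Vm))) :
    Φ.toWMor.T3map hφ X = Ψ.toWMor.T3map hφ X :=
  WMor.T3map_eq_of_homotopy hφ (Φ.homotopy Ψ) X hAC2

end EnvMor

end EnvMor

/-! ## Same group: identity, composition, independence of the envelope -/

section SameGroup

variable {p : ℕ} [Fact p.Prime] {k : Type} [CommRing k] {H : Type} [Group H]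
  {𝓛 : LevelStructure H} {N N' N'' : Rep.{0} k H}
  {E : H36.DivEnvelope 𝓛 p N} {E' : H36.DivEnvelope 𝓛 p N'} {E'' : H36.DivEnvelope 𝓛 p N''}

/-- The identity morphism of an envelope. -/
noncomputable def EnvMor.id (E : H36.DivEnvelope 𝓛 p N) :
    EnvMor (MonoidHom.id H) E E LinearMap.id where
  F := LinearMap.id
  hF := fun _ _ => rfl
  comm := fun _ => rfl

/-- Composition of morphisms of envelopes (same group). -/
noncomputable def EnvMor.comp {ev : N.V →ₗ[k] N'.V} {ev' : N'.V →ₗ[k] N''.V}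
    (Φ : EnvMor (MonoidHom.id H) E E' ev) (Ψ : EnvMor (MonoidHom.id H) E' E'' ev') :
    EnvMor (MonoidHom.id H) E E'' (ev' ∘ₗ ev) where
  F := Ψ.F ∘ₗ Φ.F
  hF := fun g x => by
    show Ψ.F (Φ.F (E.I.ρ g x)) = E''.I.ρ g (Ψ.F (Φ.F x))
    have h1 : Φ.F (E.I.ρ g x) = E'.I.ρ g (Φ.F x) := Φ.hF g x
    have h2 : Ψ.F (E'.I.ρ g (Φ.F x)) = E''.I.ρ g (Ψ.F (Φ.F x)) := Ψ.hF g (Φ.F x)
    rw [h1, h2]
  comm := fun c => by
    show Ψ.F (Φ.F (E.ι.hom c)) = E''.ι.hom (ev' (ev c))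
    rw [Φ.comm, Ψ.comm]

/-- A morphism of envelopes over a map which is pointwise the identity. -/
noncomputable def EnvMor.ofEq {ev : N.V →ₗ[k] N.V} (Φ : EnvMor (MonoidHom.id H) E E ev)
    (h : ∀ c, ev c = c) : EnvMor (MonoidHom.id H) E E LinearMap.id where
  F := Φ.F
  hF := Φ.hF
  comm := fun c => by rw [Φ.comm, h c]; rfl

lemma EnvMor.Fbar_id_apply (E : H36.DivEnvelope 𝓛 p N) (q : E.Q.V) :
    (EnvMor.id E).Fbar q = q := by
  obtain ⟨x, rfl⟩ := E.π_surjective q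
  rw [EnvMor.Fbar_π]
  rfl

lemma EnvMor.Fbar_comp_apply {ev : N.V →ₗ[k] N'.V} {ev' : N'.V →ₗ[k] N''.V}
    (Φ : EnvMor (MonoidHom.id H) E E' ev) (Ψ : EnvMor (MonoidHom.id H) E' E'' ev')
    (q : E.Q.V) : (Φ.comp Ψ).Fbar q = Ψ.Fbar (Φ.Fbar q) := by
  obtain ⟨x, rfl⟩ := E.π_surjective q
  rw [EnvMor.Fbar_π, EnvMor.Fbar_π, EnvMor.Fbar_π]
  rfl

theorem EnvMor.T1map_id_apply (E : H36.DivEnvelope 𝓛 p N) (X : Rep.{0} (ZMod p) H)
    (t : E.wDatum.T1 X) : (EnvMor.id E).toWMor.T1map X t = t := by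
  induction t using Submodule.Quotient.induction_on with
  | H h =>
    rw [WMor.T1map_mk]
    congr 1
    apply Subtype.ext
    refine LinearMap.ext fun x => Subtype.ext ?_
    exact EnvMor.Fbar_id_apply E _

theorem EnvMor.T1map_comp_apply {ev : N.V →ₗ[k] N'.V} {ev' : N'.V →ₗ[k] N''.V}
    (Φ : EnvMor (MonoidHom.id H) E E' ev) (Ψ : EnvMor (MonoidHom.id H) E' E'' ev')
    (X : Rep.{0} (ZMod p) H) (t : E.wDatum.T1 X) :
    (Φ.comp Ψ).toWMor.T1map X t = Ψ.toWMor.T1map X (Φ.toWMor.T1map X t) := by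
  induction t using Submodule.Quotient.induction_on with
  | H h =>
    rw [WMor.T1map_mk, WMor.T1map_mk]
    show _ = Submodule.Quotient.mk _
    congr 1
    apply Subtype.ext
    refine LinearMap.ext fun x => Subtype.ext ?_
    exact EnvMor.Fbar_comp_apply Φ Ψ _

theorem EnvMor.T2map_id_apply (E : H36.DivEnvelope 𝓛 p N) (X : Rep.{0} (ZMod p) H)
    (t : E.wDatum.T2 X) : (EnvMor.id E).toWMor.T2map (H50.isCont_id 𝓛) X t = t := by
  induction t using Submodule.Quotient.induction_on with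
  | H c =>
    show Submodule.Quotient.mk _ = Submodule.Quotient.mk _
    congr 1
    apply Subtype.ext
    funext g
    refine LinearMap.ext fun x => Subtype.ext ?_
    exact EnvMor.Fbar_id_apply E _

theorem EnvMor.T2map_comp_apply {ev : N.V →ₗ[k] N'.V} {ev' : N'.V →ₗ[k] N''.V}
    (Φ : EnvMor (MonoidHom.id H) E E' ev) (Ψ : EnvMor (MonoidHom.id H) E' E'' ev')
    (X : Rep.{0} (ZMod p) H) (t : E.wDatum.T2 X) :
    (Φ.comp Ψ).toWMor.T2map (H50.isCont_id 𝓛) X t =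
      Ψ.toWMor.T2map (H50.isCont_id 𝓛) X (Φ.toWMor.T2map (H50.isCont_id 𝓛) X t) := by
  induction t using Submodule.Quotient.induction_on with
  | H c =>
    show Submodule.Quotient.mk _ = Submodule.Quotient.mk _
    congr 1
    apply Subtype.ext
    funext g
    refine LinearMap.ext fun x => Subtype.ext ?_
    exact EnvMor.Fbar_comp_apply Φ Ψ _

/-- **Independence of the envelope, `T¹`.** Envelope morphisms in both directions over mutually
inverse maps induce mutually inverse bijections on `T¹` (no acyclicity needed). -/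
theorem EnvMor.T1map_bijective {f : N.V →ₗ[k] N'.V} {g : N'.V →ₗ[k] N.V}
    (Φ : EnvMor (MonoidHom.id H) E E' f) (Ψ : EnvMor (MonoidHom.id H) E' E g)
    (hgf : ∀ c, g (f c) = c) (hfg : ∀ c, f (g c) = c) (X : Rep.{0} (ZMod p) H) :
    Function.Bijective (Φ.toWMor.T1map X) := by
  have h1 : ∀ t, Ψ.toWMor.T1map X (Φ.toWMor.T1map X t) = t := fun t => by
    rw [← EnvMor.T1map_comp_apply]
    have := EnvMor.T1map_eq ((Φ.comp Ψ).ofEq hgf) (EnvMor.id E) X
    have h2 : (Φ.comp Ψ).toWMor.T1map X t = ((Φ.comp Ψ).ofEq hgf).toWMor.T1map X t := rfl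
    rw [h2, this]
    exact EnvMor.T1map_id_apply E X t
  have h1' : ∀ t, Φ.toWMor.T1map X (Ψ.toWMor.T1map X t) = t := fun t => by
    rw [← EnvMor.T1map_comp_apply]
    have := EnvMor.T1map_eq ((Ψ.comp Φ).ofEq hfg) (EnvMor.id E') X
    have h2 : (Ψ.comp Φ).toWMor.T1map X t = ((Ψ.comp Φ).ofEq hfg).toWMor.T1map X t := rfl
    rw [h2, this]
    exact EnvMor.T1map_id_apply E' X t
  exact ⟨Function.LeftInverse.injective h1, Function.RightInverse.surjective h1'⟩

/-- **Independence of the envelope, `T²`.** Under (AC1) for both envelopes. -/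
theorem EnvMor.T2map_bijective {f : N.V →ₗ[k] N'.V} {g : N'.V →ₗ[k] N.V}
    (Φ : EnvMor (MonoidHom.id H) E E' f) (Ψ : EnvMor (MonoidHom.id H) E' E g)
    (hgf : ∀ c, g (f c) = c) (hfg : ∀ c, f (g c) = c) (X : Rep.{0} (ZMod p) H)
    (hAC : Subsingleton (𝓛.H1 (homRep X E.wDatum.Vm)))
    (hAC' : Subsingleton (𝓛.H1 (homRep X E'.wDatum.Vm))) :
    Function.Bijective (Φ.toWMor.T2map (H50.isCont_id 𝓛) X) := by
  have h1 : ∀ t, Ψ.toWMor.T2map (H50.isCont_id 𝓛) X (Φ.toWMor.T2map (H50.isCont_id 𝓛) X t) = t :=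
    fun t => by
    rw [← EnvMor.T2map_comp_apply]
    have := EnvMor.T2map_eq (H50.isCont_id 𝓛) ((Φ.comp Ψ).ofEq hgf) (EnvMor.id E) X hAC
    have h2 : (Φ.comp Ψ).toWMor.T2map (H50.isCont_id 𝓛) X t =
      ((Φ.comp Ψ).ofEq hgf).toWMor.T2map (H50.isCont_id 𝓛) X t := rfl
    rw [h2, this]
    exact EnvMor.T2map_id_apply E X t
  have h1' : ∀ t, Φ.toWMor.T2map (H50.isCont_id 𝓛) X (Ψ.toWMor.T2map (H50.isCont_id 𝓛) X t) = t :=
    fun t => by
    rw [← EnvMor.T2map_comp_apply]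
    have := EnvMor.T2map_eq (H50.isCont_id 𝓛) ((Ψ.comp Φ).ofEq hfg) (EnvMor.id E') X hAC'
    have h2 : (Ψ.comp Φ).toWMor.T2map (H50.isCont_id 𝓛) X t =
      ((Ψ.comp Φ).ofEq hfg).toWMor.T2map (H50.isCont_id 𝓛) X t := rfl
    rw [h2, this]
    exact EnvMor.T2map_id_apply E' X t
  exact ⟨Function.LeftInverse.injective h1, Function.RightInverse.surjective h1'⟩

end SameGroup

end Fermat.Agent.CFT.H5
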