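/-
CFT project, D3-inst (helper15): the `μ`-comparison at a prime `q ∈ S`.

* `esLocalLin S q : E_S → (PadicAlgCl q)ˣ`, `e ↦ ι_q(e)`, equivariant along
  `localGaloisToGlobal q`, and BIJECTIVE on `p`-torsion (both sides are the `p`-th roots of unity)
  as soon as `p ∈ S`.
* the concrete evaluation `evTop S q : J_S → (PadicAlgCl q)ˣ` (evaluation at `1` of helper37's
  `coindTopIso` on the `q`-th factor), its equivariance, its relation with `coindTopIso`, and
  `evTop ∘ ε = esLocalLin`.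
-/
import Fermat.Agent.CFT.H1_GlobalPT
import Fermat.Agent.CFT.H1_GlobalPTEv
import Fermat.Agent.CFT.H37_CoindRep
import Fermat.Agent.CFT.H5_EnvCompare
import Fermat.Agent.CFT.H55_LocalFormation

set_option autoImplicit false

open CategoryTheory ExtCitation
open scoped TensorProduct

namespace Fermat.Agent.CFT.H15

open Fermat.Agent.CFT

local notation "Qbar" => AlgebraicClosure ℚ
local notation "GQ" => (AlgebraicClosure ℚ ≃ₐ[ℚ] AlgebraicClosure ℚ)

noncomputable section

section Nat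

variable (S : Finset Nat.Primes) (q : ℕ) [Fact q.Prime]

/-- `E_S → (PadicAlgCl q)ˣ`, `e ↦ ι_q(e)`, on groups. -/
def esLocalHom : H1.esSub S →* (PadicAlgCl q)ˣ :=
  (Units.map ((padicEmbedding q : Qbar →ₐ[ℚ] PadicAlgCl q) : Qbar →* PadicAlgCl q)).comp
    ((H1.omegaUnitsVal S).comp (H1.esSub S).subtype)

/-- `E_S → (PadicAlgCl q)ˣ`, `e ↦ ι_q(e)`, as a `ℤ`-linear map of the underlying modules. -/
def esLocalLin : (H1.repES S).V →ₗ[ℤ] (H78.localUnits q).V :=
  (MonoidHom.toAdditive (esLocalHom S q)).toIntLinearMap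

theorem esLocalLin_val (x : (H1.repES S).V) :
    ((Additive.toMul (esLocalLin S q x) : (PadicAlgCl q)ˣ) : PadicAlgCl q)
      = padicEmbedding q (H1.esVal S x) := rfl

theorem isEquivariant_esLocalLin :
    H50.IsEquivariant (localGaloisToGlobal q) (H1.repES S) (H78.localUnits q)
      (esLocalLin S q) := by
  intro h x
  apply Additive.toMul.injective
  apply Units.ext
  show padicEmbedding q (H1.esVal S ((H1.repES S).ρ (localGaloisToGlobal q h) x)) =
    h (padicEmbedding q (H1.esVal S x))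
  rw [H1.esVal_smul, padicEmbedding_localGaloisToGlobal]

theorem esLocalLin_injective : Function.Injective (esLocalLin S q) := by
  intro x y hxy
  have h1 : padicEmbedding q (H1.esVal S x) = padicEmbedding q (H1.esVal S y) := by
    rw [← esLocalLin_val, ← esLocalLin_val, hxy]
  exact H1.esVal_injective S ((padicEmbedding q).injective h1)

theorem esVal_nsmul (n : ℕ) (x : (H1.repES S).V) :
    H1.esVal S (n • x) = (H1.esVal S x) ^ n := by
  induction n with
  | zero => rw [zero_smul, pow_zero]; rfl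
  | succ n ih => rw [succ_nsmul, H1.esVal_add, pow_succ, ih]

variable {S}

/-- The `μ`-comparison: `E_S[p] → (PadicAlgCl q)ˣ[p]` is bijective when `p ∈ S`. -/
theorem bijective_torsionLin_esLocalLin (p : ℕ) [Fact p.Prime]
    (hpS : ∀ ℓ : Nat.Primes, (ℓ : ℕ) = p → ℓ ∈ S) :
    Function.Bijective (H5.torsionLin p (esLocalLin S q).toAddMonoidHom) := by
  have hp : p ≠ 0 := (Fact.out : p.Prime).ne_zero
  constructor
  · intro x y hxy
    apply Subtype.ext
    apply esLocalLin_injective S q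
    exact congrArg Subtype.val hxy
  · intro z
    -- a primitive `p`-th root of unity in `ℚbar`
    have : NeZero (p : Qbar) := ⟨Nat.cast_ne_zero.mpr hp⟩
    obtain ⟨ζ, hζ⟩ := HasEnoughRootsOfUnity.exists_primitiveRoot Qbar p
    have hζ' : IsPrimitiveRoot (padicEmbedding q ζ) p :=
      hζ.map_of_injective (padicEmbedding q).injective
    -- the value of `z`
    set u : (PadicAlgCl q)ˣ := Additive.toMul (z.1 : (H78.localUnits q).V) with hu
    have hz : p • (z.1 : (H78.localUnits q).V) = 0 := z.2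
    have hup : ((u : (PadicAlgCl q)ˣ) : PadicAlgCl q) ^ p = 1 := by
      have h1 : u ^ p = 1 := congrArg Additive.toMul hz
      rw [← Units.val_pow_eq_pow_val, h1, Units.val_one]
    have : NeZero p := ⟨hp⟩
    obtain ⟨i, -, hi⟩ := hζ'.eq_pow_of_pow_eq_one hup
    -- lift `ζ ^ i` to `E_S`
    have hpS' : ∀ ℓ : Nat.Primes, (ℓ : ℕ) ∣ p → ℓ ∈ S := fun ℓ hℓ =>
      hpS ℓ (((Nat.prime_dvd_prime_iff_eq ℓ.2 (Fact.out : p.Prime)).1 hℓ))
    obtain ⟨x, hx⟩ := H1.exists_esVal_eq_of_pow_eq_one (S := S) hp hpS' (ζ ^ i)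
      (by rw [← pow_mul, mul_comm, pow_mul, hζ.pow_eq_one, one_pow])
    have hxp : p • x = 0 := by
      apply H1.esVal_injective S
      rw [esVal_nsmul, hx, H1.esVal_zero, ← pow_mul, mul_comm, pow_mul, hζ.pow_eq_one, one_pow]
    refine ⟨⟨x, hxp⟩, ?_⟩
    apply Subtype.ext
    apply Additive.toMul.injective
    apply Units.ext
    show padicEmbedding q (H1.esVal S x) = ((u : (PadicAlgCl q)ˣ) : PadicAlgCl q)
    rw [hx, map_pow, hi]

/-! ### The concrete evaluation `J_S → (PadicAlgCl q)ˣ` -/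

variable (S)

/-- Evaluation at `1` of helper37's coinduction map: `(ℚ_S ⊗ ℚ_q)ˣ → (PadicAlgCl q)ˣ`,
`x ⊗ y ↦ ι_q x * y`. -/
def evLocHom : (H77.OmegaS S ⊗[ℚ] ℚ_[q])ˣ →* (PadicAlgCl q)ˣ :=
  (Pi.evalMonoidHom (fun _ : GQ => (PadicAlgCl q)ˣ) 1).comp (H37.coindUnitsTop S q)

theorem evLocHom_apply (u : (H77.OmegaS S ⊗[ℚ] ℚ_[q])ˣ) :
    evLocHom S q u = H37.coindUnitsTop S q u 1 := rfl

/-- `ℤ`-linear form of `evLocHom`. -/
def evLocLin : (H37.repLocTop S q).V →ₗ[ℤ] (H78.localUnits q).V :=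
  (MonoidHom.toAdditive (evLocHom S q)).toIntLinearMap

theorem evLocLin_apply (u : (H37.repLocTop S q).V) :
    evLocLin S q u = Additive.ofMul (H37.coindUnitsTop S q (Additive.toMul u) 1) := rfl

/-- `evLocLin (g • u)` is the value at `g` of helper37's isomorphism. -/
theorem evLocLin_smul (g : GQ) (u : (H37.repLocTop S q).V) :
    evLocLin S q ((H37.repLocTop S q).ρ g u)
      = (((H37.coindTopIso S q).hom.hom u).1 : GQ → (H78.localUnits q).V) g := by
  have h1 := H37.coindUnitsTop_smul S q g (Additive.toMul u) 1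
  rw [one_mul] at h1
  exact congrArg Additive.ofMul h1

theorem isEquivariant_evLocLin :
    H50.IsEquivariant (localGaloisToGlobal q) (H37.repLocTop S q) (H78.localUnits q)
      (evLocLin S q) := by
  intro h u
  have h1 := H37.coindUnitsTop_local S q (Additive.toMul u) h 1
  rw [mul_one] at h1
  exact (evLocLin_smul S q (localGaloisToGlobal q h) u).trans h1

/-- On the diagonal image of `ℚ_Sˣ` the evaluation is `ι_q`. -/
theorem evLocHom_toLocUnits (u : (H77.OmegaS S)ˣ) :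
    ((evLocHom S q (Units.map (algebraMap (H77.OmegaS S) (H77.OmegaS S ⊗[ℚ] ℚ_[q]) :
        H77.OmegaS S →* H77.OmegaS S ⊗[ℚ] ℚ_[q]) u) : (PadicAlgCl q)ˣ) : PadicAlgCl q)
      = padicEmbedding q ((u : H77.OmegaS S).val) := by
  rw [evLocHom_apply, H37.coindUnitsTop_one]
  have h1 : ((H37.unitsToQS S q (Units.map (algebraMap (H77.OmegaS S) (H77.OmegaS S ⊗[ℚ] ℚ_[q]) :
      H77.OmegaS S →* H77.OmegaS S ⊗[ℚ] ℚ_[q]) u) : (↥(H1.QS S) ⊗[ℚ] ℚ_[q])ˣ) :
        ↥(H1.QS S) ⊗[ℚ] ℚ_[q]) = (show ↥(H1.QS S) from (u : H77.OmegaS S)) ⊗ₜ[ℚ] (1 : ℚ_[q]) := by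
    show algebraMap (H77.OmegaS S) (H77.OmegaS S ⊗[ℚ] ℚ_[q]) (u : H77.OmegaS S) = _
    rw [Algebra.TensorProduct.algebraMap_apply]
    rfl
  rw [h1, H37.evalTensor_tmul, map_one, mul_one]
  rfl

end Nat

/-! ### `Nat.Primes`-indexed versions (the groups of the frozen statement) -/

section Prime

variable (S : Finset Nat.Primes)

/-- `E_S → (PadicAlgCl q)ˣ` for `q : Nat.Primes`. -/
def esLocalLinPrime (q : Nat.Primes) : (H1.repES S).V →ₗ[ℤ] (localUnitsPrime q).V :=
  esLocalLin S (q : ℕ)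

theorem isEquivariant_esLocalLinPrime (q : Nat.Primes) :
    H50.IsEquivariant (primeLocalToGlobal q) (H1.repES S) (localUnitsPrime q)
      (esLocalLinPrime S q) :=
  isEquivariant_esLocalLin S (q : ℕ)

variable {S} in
theorem bijective_torsionLin_esLocalLinPrime (q : Nat.Primes) (p : ℕ) [Fact p.Prime]
    (hpS : ∀ ℓ : Nat.Primes, (ℓ : ℕ) = p → ℓ ∈ S) :
    Function.Bijective (H5.torsionLin p (esLocalLinPrime S q).toAddMonoidHom) :=
  bijective_torsionLin_esLocalLin (q : ℕ) p hpS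

/-- **The concrete evaluation** `ev_q : J_S → (PadicAlgCl q)ˣ`, `j ↦ (x ⊗ y ↦ ι_q x * y) (j_q)`:
evaluation at `1` of helper37's isomorphism on the `q`-th factor. -/
def evTop (q : ↥S) : (H77.repJTop S).V →ₗ[ℤ] (localUnitsPrime q.1).V :=
  (MonoidHom.toAdditive ((evLocHom S (q.1 : ℕ)).comp
    (Pi.evalMonoidHom (fun q : ↥S => (H77.LocTop S q.1)ˣ) q))).toIntLinearMap

theorem evTop_apply (q : ↥S) (j : (H77.repJTop S).V) :
    evTop S q j = evLocLin S (q.1 : ℕ) (Additive.ofMul ((Additive.toMul j : H77.JTop S) q)) := rfl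

/-- `evTop (g • j)` is the value at `g` of helper37's isomorphism applied to `j_q`: the map
`j ↦ (g ↦ ev_q (g • j))` IS `coindTopIsoPrime` on the `q`-th factor. -/
theorem evTop_smul (q : ↥S) (g : GQ) (j : (H77.repJTop S).V) :
    evTop S q ((H77.repJTop S).ρ g j)
      = (((H37.coindTopIsoPrime S q.1).hom.hom
          (Additive.ofMul ((Additive.toMul j : H77.JTop S) q))).1 :
            GQ → (localUnitsPrime q.1).V) g :=
  evLocLin_smul S (q.1 : ℕ) g (Additive.ofMul ((Additive.toMul j : H77.JTop S) q))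

theorem isEquivariant_evTop (q : ↥S) :
    H50.IsEquivariant (primeLocalToGlobal q.1) (H77.repJTop S) (localUnitsPrime q.1)
      (evTop S q) := fun h j =>
  isEquivariant_evLocLin S (q.1 : ℕ) h (Additive.ofMul ((Additive.toMul j : H77.JTop S) q))

/-- `ev_q ∘ ε = ι_q` on `E_S`. -/
theorem evTop_esToJTopHom (q : ↥S) (x : (H1.repES S).V) :
    evTop S q ((H1.esToJTopHom S).hom x) = esLocalLinPrime S q.1 x := by
  apply Additive.toMul.injective
  apply Units.ext
  exact evLocHom_toLocUnits S (q.1 : ℕ) ((Additive.toMul x : H1.esSub S) : (H77.OmegaS S)ˣ)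

theorem evTop_comp_eps (q : ↥S) :
    evTop S q ∘ₗ (H1.esToJTopHom S).hom.toLinearMap = esLocalLinPrime S q.1 :=
  LinearMap.ext fun x => evTop_esToJTopHom S q x

/-- **(μ)**: `E_S[p] → (PadicAlgCl q)ˣ[p]`, induced by `ev_q ∘ ε`, is bijective (`p ∈ S`). -/
theorem bijective_torsionLin_evTop_eps (q : ↥S) (p : ℕ) [Fact p.Prime]
    (hpS : ∀ ℓ : Nat.Primes, (ℓ : ℕ) = p → ℓ ∈ S) :
    Function.Bijective
      (H5.torsionLin p (evTop S q ∘ₗ (H1.esToJTopHom S).hom.toLinearMap).toAddMonoidHom) := by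
  rw [evTop_comp_eps]
  exact bijective_torsionLin_esLocalLinPrime q.1 p hpS

/-- `evTop` is helper1's `H1.evq` (the evaluation consumed by D4's `hJ`). -/
theorem evTop_eq_evq (q : ↥S) : evTop S q = H1.evq S q :=
  LinearMap.ext fun _ => rfl

/-- **(μ) for helper1's `ev_q` and global module package**: the hypothesis `hμ` of
`H94.exists_shaPairing_of_envelopes` at `v = q`. -/
theorem bijective_torsionLin_evq_eps (q : ↥S) {p : ℕ} [Fact p.Prime] (hp : p.Prime)
    (hpS : ∀ ℓ : Nat.Primes, (ℓ : ℕ) = p → ℓ ∈ S) (hS : S.Nonempty) :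
    Function.Bijective (H5.torsionLin p
      (H1.evq S q ∘ₗ (H1.globalPTModules S hp hpS hS).ε.hom.toLinearMap).toAddMonoidHom) := by
  rw [← evTop_eq_evq]
  exact bijective_torsionLin_evTop_eps S q p hpS

/-- `ev_q ∘ ε = ι_q` for helper1's `ev_q`. -/
theorem evq_esToJTopHom (q : ↥S) (x : (H1.repES S).V) :
    H1.evq S q ((H1.esToJTopHom S).hom x) = esLocalLinPrime S q.1 x := by
  rw [← evTop_eq_evq]
  exact evTop_esToJTopHom S q x

end Prime

end

end Fermat.Agent.CFT.H15
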