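import Mathlib
import Fermat.Agent.CFT.H42_AdeleDefs

/-!
# The profinite integers inside the finite adeles of `ℚ` (CFT layer C, package C-DICT-content)

`Zhat : Subring AQf` is the subring of finite adeles all of whose components are `p`-adic integers.
Elementary facts used by the content map:

* `exists_nat_smul_mem_Zhat` : `AQf = Zhat[1/n]`;
* `exists_eq_intCast_add_nsmul` : `Zhat = ℤ + n Zhat`;
* `exists_int_of_algebraMap_mem_Zhat` : `ℚ ∩ Zhat = ℤ`.
-/

set_option autoImplicit false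

namespace Fermat.Agent.CFT.H18

open Fermat.Agent.CFT.H42
open scoped RestrictedProduct

noncomputable section

/-- The profinite integers as a subring of the finite adeles of `ℚ`. -/
def Zhat : Subring AQf where
  carrier := {a | ∀ p : Nat.Primes, a p ∈ PadicInt.subring p}
  zero_mem' := fun p => (PadicInt.subring p).zero_mem
  one_mem' := fun p => (PadicInt.subring p).one_mem
  add_mem' := fun ha hb p => (PadicInt.subring p).add_mem (ha p) (hb p)
  mul_mem' := fun ha hb p => (PadicInt.subring p).mul_mem (ha p) (hb p)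
  neg_mem' := fun ha p => (PadicInt.subring p).neg_mem (ha p)

theorem mem_Zhat_iff {a : AQf} : a ∈ Zhat ↔ ∀ p : Nat.Primes, ‖a p‖ ≤ 1 := Iff.rfl

theorem natCast_apply (n : ℕ) (p : Nat.Primes) : ((n : AQf)) p = (n : ℚ_[p]) := rfl

theorem intCast_apply (n : ℤ) (p : Nat.Primes) : ((n : AQf)) p = (n : ℚ_[p]) := rfl


theorem nsmul_apply (n : ℕ) (a : AQf) (p : Nat.Primes) : (n • a) p = (n : ℚ_[p]) * a p := by
  rw [nsmul_eq_mul]
  rfl

/-- A power of `p` kills the denominator of a `p`-adic number. -/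
theorem exists_pow_mul_norm_le_one (p : ℕ) [Fact p.Prime] (x : ℚ_[p]) :
    ∃ k : ℕ, ‖((p ^ k : ℕ) : ℚ_[p]) * x‖ ≤ 1 := by
  have hp1 : (1 : ℝ) < p := by exact_mod_cast (Fact.out : p.Prime).one_lt
  obtain ⟨k, hk⟩ := pow_unbounded_of_one_lt ‖x‖ hp1
  refine ⟨k, ?_⟩
  rw [norm_mul, Nat.cast_pow, norm_pow, Padic.norm_p, inv_pow]
  have hpos : (0 : ℝ) < (p : ℝ) ^ k := by positivity
  rw [inv_mul_le_iff₀ hpos, mul_one]
  exact hk.le

private theorem exists_nat_smul_aux (S : Finset Nat.Primes) :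
    ∀ a : AQf, (∀ p ∉ S, ‖a p‖ ≤ 1) → ∃ n : ℕ, n ≠ 0 ∧ n • a ∈ Zhat := by
  induction S using Finset.induction_on with
  | empty =>
    intro a ha
    exact ⟨1, one_ne_zero, by rw [one_smul]; exact fun p => ha p (Finset.notMem_empty p)⟩
  | insert p₀ S hp₀ ih =>
    intro a ha
    obtain ⟨k, hk⟩ := exists_pow_mul_norm_le_one (p₀ : ℕ) (a p₀)
    have hpos : (p₀ : ℕ) ^ k ≠ 0 := pow_ne_zero _ p₀.2.ne_zero
    obtain ⟨n, hn, hmem⟩ := ih (((p₀ : ℕ) ^ k) • a) (by
      intro p hp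
      rw [nsmul_apply]
      by_cases hpp : p = p₀
      · subst hpp
        exact hk
      · rw [norm_mul]
        have h1 : ‖a p‖ ≤ 1 := ha p (by
          rw [Finset.mem_insert, not_or]
          exact ⟨hpp, hp⟩)
        have h2 : ‖(((p₀ : ℕ) ^ k : ℕ) : ℚ_[p])‖ ≤ 1 := by
          have := Padic.norm_int_le_one (p := (p : ℕ)) (((p₀ : ℕ) ^ k : ℕ) : ℤ)
          simpa using this
        exact mul_le_one₀ h2 (norm_nonneg _) h1)
    refine ⟨n * (p₀ : ℕ) ^ k, mul_ne_zero hn hpos, ?_⟩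
    rwa [mul_smul]

/-- `AQf = Zhat[1/n]`: every finite adele of `ℚ` becomes integral after multiplication by a
positive integer. -/
theorem exists_nat_smul_mem_Zhat (a : AQf) : ∃ n : ℕ, n ≠ 0 ∧ n • a ∈ Zhat := by
  have hfin : {p : Nat.Primes | ¬ a p ∈ (PadicInt.subring p : Set ℚ_[p])}.Finite := a.2
  refine exists_nat_smul_aux hfin.toFinset a ?_
  intro p hp
  rw [Set.Finite.mem_toFinset, Set.mem_ofPred_eq, not_not] at hp
  exact hp



theorem intCast_mem_Zhat (m : ℤ) : (m : AQf) ∈ Zhat := intCast_mem Zhat m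

/-- `Zhat = ℤ + p Zhat` for a prime `p`. -/
theorem exists_eq_add_prime_nsmul (p : Nat.Primes) {z : AQf} (hz : z ∈ Zhat) :
    ∃ (m : ℤ) (w : AQf), w ∈ Zhat ∧ z = (m : AQf) + (p : ℕ) • w := by
  set zp : ℤ_[p] := ⟨z p, hz p⟩ with hzp
  set m : ℕ := zp.appr 1 with hm
  obtain ⟨c, hc⟩ := Ideal.mem_span_singleton.mp (PadicInt.appr_spec 1 zp)
  rw [pow_one] at hc
  have hpne : ((p : ℕ) : ℚ) ≠ 0 := by exact_mod_cast p.2.ne_zero
  refine ⟨(m : ℤ), algebraMap ℚ AQf ((p : ℕ) : ℚ)⁻¹ * (z - (m : AQf)), ?_, ?_⟩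
  · intro q
    show ‖(algebraMap ℚ AQf ((p : ℕ) : ℚ)⁻¹ * (z - (m : AQf))) q‖ ≤ 1
    have h1 : (algebraMap ℚ AQf ((p : ℕ) : ℚ)⁻¹ * (z - (m : AQf))) q =
        (((p : ℕ) : ℚ_[q]))⁻¹ * (z q - (m : ℚ_[q])) := by
      show (((((p : ℕ) : ℚ)⁻¹ : ℚ) : ℚ_[q])) * (z q - ((m : AQf)) q) = _
      rw [natCast_apply]
      push_cast
      rfl
    rw [h1]
    by_cases hqp : q = p
    · subst hqp
      have h2 : z q - (m : ℚ_[q]) = ((q : ℕ) : ℚ_[q]) * (c : ℚ_[q]) := by
        have := congrArg (fun x : ℤ_[q] => (x : ℚ_[q])) hc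
        simp only [PadicInt.coe_sub, PadicInt.coe_mul, PadicInt.coe_natCast] at this
        exact this
      have hq0 : ((q : ℕ) : ℚ_[q]) ≠ 0 := by exact_mod_cast q.2.ne_zero
      rw [h2, inv_mul_cancel_left₀ hq0]
      exact c.2
    · rw [norm_mul, norm_inv]
      have hcop : (q : ℕ).Coprime (p : ℕ) := by
        rw [Nat.coprime_primes q.2 p.2]
        exact fun h => hqp (Subtype.ext h)
      rw [(Padic.norm_natCast_eq_one_iff (p := (q : ℕ))).mpr hcop, inv_one, one_mul]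
      have : z q - (m : ℚ_[q]) ∈ PadicInt.subring q :=
        (PadicInt.subring q).sub_mem (hz q) (natCast_mem _ m)
      exact this
  · rw [nsmul_eq_mul, ← mul_assoc]
    have h3 : (((p : ℕ) : ℕ) : AQf) * algebraMap ℚ AQf ((p : ℕ) : ℚ)⁻¹ = 1 := by
      rw [← map_natCast (algebraMap ℚ AQf), ← map_mul, mul_inv_cancel₀ hpne, map_one]
    rw [h3, one_mul]
    push_cast
    ring

/-- `Zhat = ℤ + n Zhat` for every positive integer `n`. -/
theorem exists_eq_intCast_add_nsmul (n : ℕ) (hn : n ≠ 0) {z : AQf} (hz : z ∈ Zhat) :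
    ∃ (m : ℤ) (w : AQf), w ∈ Zhat ∧ z = (m : AQf) + n • w := by
  induction n using Nat.recOnMul generalizing z with
  | zero => exact absurd rfl hn
  | one => exact ⟨0, z, hz, by simp⟩
  | prime p hp => exact exists_eq_add_prime_nsmul ⟨p, hp⟩ hz
  | mul a b iha ihb =>
    have ha : a ≠ 0 := fun h => hn (by rw [h, zero_mul])
    have hb : b ≠ 0 := fun h => hn (by rw [h, mul_zero])
    obtain ⟨m₁, w₁, hw₁, h₁⟩ := iha ha hz
    obtain ⟨m₂, w₂, hw₂, h₂⟩ := ihb hb hw₁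
    refine ⟨m₁ + a * m₂, w₂, hw₂, ?_⟩
    rw [h₁, h₂, mul_smul, smul_add]
    push_cast
    rw [nsmul_eq_mul]
    ring

/-- `ℚ ∩ Zhat = ℤ`. -/
theorem exists_int_of_algebraMap_mem_Zhat {q : ℚ} (hq : algebraMap ℚ AQf q ∈ Zhat) :
    ∃ m : ℤ, q = m := by
  have hden : q.den = 1 := by
    by_contra hne
    obtain ⟨p, hp, hpd⟩ := Nat.exists_prime_and_dvd hne
    have : Fact p.Prime := ⟨hp⟩
    have h1 : ‖(q : ℚ_[p])‖ ≤ 1 := hq ⟨p, hp⟩
    rw [Padic.norm_rat_le_one_iff_padicValuation_le_one, Rat.padicValuation_le_one_iff] at h1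
    exact h1 hpd
  exact ⟨q.num, (Rat.coe_int_num_of_den_eq_one hden).symm⟩

end

end Fermat.Agent.CFT.H18
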