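import Mathlib
import Fermat.Agent.CFT.H18_Zhat

/-!
# The integral finite adeles `Ohat_L` of a number field (CFT layer C, package C-DICT-content)

`adeleFin L = L ⊗[ℚ] AQf` is free over `AQf` on an integral basis of `L`; `coord` are the
coordinates.  `intAdele L : Subring (adeleFin L)` is the set of adeles with coordinates in `Zhat`
(the image of `𝓞 L ⊗ Zhat`).  Facts: `adeleFin L = intAdele L [1/n]`,
`intAdele L = 𝓞 L + n intAdele L`, `L ∩ intAdele L = 𝓞 L`.
-/

set_option autoImplicit false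

namespace Fermat.Agent.CFT.H18

open Fermat.Agent.CFT.H42 NumberField
open scoped TensorProduct

noncomputable section

variable (L : Type*) [Field L] [NumberField L]

/-- Index type of an integral basis. -/
abbrev ιB : Type _ := Module.Free.ChooseBasisIndex ℤ (𝓞 L)

open Classical in
/-- Coordinates of a finite adele of `L` with respect to the integral basis. -/
def coord : adeleFin L ≃ₗ[ℚ] (ιB L →₀ AQf) :=
  (LinearEquiv.rTensor AQf (integralBasis L).repr) ≪≫ₗ
    TensorProduct.finsuppScalarLeft ℚ AQf (ιB L)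

variable {L}

theorem coord_tmul (y : L) (a : AQf) (i : ιB L) :
    coord L (y ⊗ₜ[ℚ] a) i = ((integralBasis L).repr y i) • a := by
  classical
  rw [coord, LinearEquiv.trans_apply, LinearEquiv.rTensor_tmul,
    TensorProduct.finsuppScalarLeft_apply_tmul_apply]

/-- Every finite adele is the combination of the integral basis with its coordinates. -/
theorem eq_sum_coord (x : adeleFin L) :
    x = ∑ i, (integralBasis L i) ⊗ₜ[ℚ] (coord L x i) := by
  classical
  apply (coord L).injective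
  ext j : 1
  rw [map_sum, Finsupp.finsetSum_apply]
  simp only [coord_tmul, Module.Basis.repr_self, Finsupp.single_apply]
  rw [Finset.sum_eq_single j]
  · simp
  · intro i _ hij
    simp [hij]
  · intro h
    exact absurd (Finset.mem_univ j) h

/-- Right multiplication by an adele of `ℚ` multiplies the coordinates. -/
theorem coord_mul_one_tmul (x : adeleFin L) (a : AQf) (i : ιB L) :
    coord L (x * (1 ⊗ₜ[ℚ] a)) i = coord L x i * a := by
  induction x using TensorProduct.induction_on with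
  | zero => simp
  | tmul y a' =>
    rw [Algebra.TensorProduct.tmul_mul_tmul, mul_one, coord_tmul, coord_tmul, smul_mul_assoc]
  | add x y hx hy =>
    rw [add_mul, map_add, map_add, Finsupp.add_apply, Finsupp.add_apply, hx, hy, add_mul]

/-- The coordinates of an algebraic integer are integers. -/
theorem repr_integral (y : 𝓞 L) (i : ιB L) :
    ∃ m : ℤ, (integralBasis L).repr (y : L) i = m :=
  ⟨(RingOfIntegers.basis L).repr y i, by
    rw [show (y : L) = algebraMap (𝓞 L) L y from rfl, integralBasis_repr_apply]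
    rfl⟩

theorem coord_integral_tmul_mem (y : 𝓞 L) {z : AQf} (hz : z ∈ Zhat) (i : ιB L) :
    coord L ((y : L) ⊗ₜ[ℚ] z) i ∈ Zhat := by
  obtain ⟨m, hm⟩ := repr_integral y i
  rw [coord_tmul, hm, Int.cast_smul_eq_zsmul]
  exact Zhat.zsmul_mem hz m

variable (L) in
/-- The integral finite adeles `Ohat_L = 𝓞 L ⊗ Zhat` of a number field `L`. -/
def intAdele : Subring (adeleFin L) where
  carrier := {x | ∀ i, coord L x i ∈ Zhat}
  zero_mem' := fun i => by
    rw [map_zero]
    exact Zhat.zero_mem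
  one_mem' := fun i => by
    rw [Algebra.TensorProduct.one_def]
    exact coord_integral_tmul_mem (1 : 𝓞 L) Zhat.one_mem i
  add_mem' := fun {x y} hx hy i => by
    rw [map_add, Finsupp.add_apply]
    exact Zhat.add_mem (hx i) (hy i)
  neg_mem' := fun {x} hx i => by
    rw [map_neg, Finsupp.neg_apply]
    exact Zhat.neg_mem (hx i)
  mul_mem' := fun {x y} hx hy i => by
    rw [eq_sum_coord x, eq_sum_coord y, Finset.sum_mul_sum, map_sum, Finsupp.finsetSum_apply]
    refine Zhat.sum_mem fun j _ => ?_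
    rw [map_sum, Finsupp.finsetSum_apply]
    refine Zhat.sum_mem fun k _ => ?_
    rw [Algebra.TensorProduct.tmul_mul_tmul, integralBasis_apply, integralBasis_apply,
      ← map_mul]
    exact coord_integral_tmul_mem _ (Zhat.mul_mem (hx j) (hy k)) i

theorem mem_intAdele_iff {x : adeleFin L} : x ∈ intAdele L ↔ ∀ i, coord L x i ∈ Zhat := Iff.rfl

/-- `y ⊗ z` is integral for `y ∈ 𝓞 L`, `z ∈ Zhat`. -/
theorem tmul_mem_intAdele (y : 𝓞 L) {z : AQf} (hz : z ∈ Zhat) :
    (y : L) ⊗ₜ[ℚ] z ∈ intAdele L := fun i => coord_integral_tmul_mem y hz i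

/-- `adeleFin L = Ohat_L[1/n]`. -/
theorem exists_nat_smul_mem_intAdele (x : adeleFin L) :
    ∃ n : ℕ, n ≠ 0 ∧ n • x ∈ intAdele L := by
  choose f hf0 hf using fun i : ιB L => exists_nat_smul_mem_Zhat (coord L x i)
  refine ⟨∏ i, f i, Finset.prod_ne_zero_iff.mpr fun i _ => hf0 i, fun i => ?_⟩
  obtain ⟨k, hk⟩ := Finset.dvd_prod_of_mem f (Finset.mem_univ i)
  rw [map_nsmul, Finsupp.smul_apply, hk, mul_comm, mul_smul]
  exact Zhat.nsmul_mem (hf i) k

/-- `Ohat_L = 𝓞 L + n Ohat_L`. -/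
theorem exists_eq_tmul_one_add_nsmul (n : ℕ) (hn : n ≠ 0) {o : adeleFin L}
    (ho : o ∈ intAdele L) :
    ∃ (y : 𝓞 L) (o' : adeleFin L), o' ∈ intAdele L ∧ o = (y : L) ⊗ₜ[ℚ] (1 : AQf) + n • o' := by
  choose m w hw hmw using fun i : ιB L => exists_eq_intCast_add_nsmul n hn (ho i)
  refine ⟨∑ i, m i • RingOfIntegers.basis L i, ∑ i, (integralBasis L i) ⊗ₜ[ℚ] (w i),
    (intAdele L).sum_mem fun i _ => ?_, ?_⟩
  · rw [integralBasis_apply]
    exact tmul_mem_intAdele _ (hw i)
  · conv_lhs => rw [eq_sum_coord o]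
    rw [Finset.smul_sum, show ((∑ i, m i • RingOfIntegers.basis L i : 𝓞 L) : L) =
      ∑ i, (m i : ℚ) • integralBasis L i by
        rw [show ((∑ i, m i • RingOfIntegers.basis L i : 𝓞 L) : L) =
          algebraMap (𝓞 L) L (∑ i, m i • RingOfIntegers.basis L i) from rfl, map_sum]
        refine Finset.sum_congr rfl fun i _ => ?_
        rw [map_zsmul, integralBasis_apply, Int.cast_smul_eq_zsmul],
      TensorProduct.sum_tmul, ← Finset.sum_add_distrib]
    refine Finset.sum_congr rfl fun i _ => ?_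
    rw [hmw i, TensorProduct.tmul_add, TensorProduct.tmul_smul, TensorProduct.smul_tmul]
    congr 2
    rw [Algebra.smul_def, mul_one]
    simp

/-- `L ∩ Ohat_L = 𝓞 L`. -/
theorem tmul_one_mem_intAdele_iff {y : L} :
    y ⊗ₜ[ℚ] (1 : AQf) ∈ intAdele L ↔ y ∈ (algebraMap (𝓞 L) L).range := by
  constructor
  · intro h
    rw [← mem_span_integralBasis, Module.Basis.mem_span_iff_repr_mem]
    intro i
    have hi := h i
    rw [coord_tmul, Algebra.smul_def, mul_one] at hi
    obtain ⟨m, hm⟩ := exists_int_of_algebraMap_mem_Zhat hi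
    exact ⟨m, by rw [hm]; rfl⟩
  · rintro ⟨y, rfl⟩
    exact tmul_mem_intAdele y Zhat.one_mem

/-- `L ∩ n Ohat_L = n 𝓞 L`. -/
theorem exists_eq_mul_of_tmul_one_eq_nsmul {n : ℕ} (hn : n ≠ 0) {y : L} {o : adeleFin L}
    (ho : o ∈ intAdele L) (h : y ⊗ₜ[ℚ] (1 : AQf) = n • o) :
    ∃ y' : 𝓞 L, y = (n : L) * (y' : L) := by
  have hn' : (n : ℚ) ≠ 0 := by exact_mod_cast hn
  have h1 : o = ((n : ℚ)⁻¹ • y) ⊗ₜ[ℚ] (1 : AQf) := by
    rw [← TensorProduct.smul_tmul', h, ← Nat.cast_smul_eq_nsmul ℚ n o, smul_smul,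
      inv_mul_cancel₀ hn', one_smul]
  rw [h1, tmul_one_mem_intAdele_iff] at ho
  obtain ⟨y', hy'⟩ := ho
  refine ⟨y', ?_⟩
  have : (y' : L) = (n : ℚ)⁻¹ • y := hy'
  rw [this, Algebra.smul_def, ← mul_assoc]
  have hnL : (n : L) * algebraMap ℚ L (n : ℚ)⁻¹ = 1 := by
    rw [map_inv₀, map_natCast]
    exact mul_inv_cancel₀ (by exact_mod_cast hn)
  rw [hnL, one_mul]

end

end Fermat.Agent.CFT.H18
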