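import Mathlib
import Fermat.Agent.CFT.H18_IntAdele

/-!
# The content map from finite ideles to fractional ideals (CFT layer C, package C-DICT-content)

For a finite idele `x` of a number field `L`, `content x = L ∩ x • Ohat_L` is a fractional ideal of
`𝓞 L`, and `content : (adeleFin L)ˣ →* FractionalIdeal (𝓞 L)⁰ L` is a group homomorphism with
kernel the unit ideles `Ohat_Lˣ`, sending a principal idele `a` to the principal ideal `(a)`.
The proof is by global lattices: `x Ohat_L = content x • Ohat_L` and `I = L ∩ I Ohat_L`; no local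
decomposition of `L ⊗ ℚ_p` is used.
-/

set_option autoImplicit false

namespace Fermat.Agent.CFT.H18

open Fermat.Agent.CFT.H42 NumberField
open scoped TensorProduct nonZeroDivisors

noncomputable section

variable {L : Type*} [Field L] [NumberField L]

variable (L) in
/-- The embedding `L → adeleFin L`, `y ↦ y ⊗ 1`. -/
abbrev emb : L →+* adeleFin L := algebraMap L (adeleFin L)

theorem emb_apply (y : L) : emb L y = y ⊗ₜ[ℚ] (1 : AQf) := rfl

theorem emb_mem_intAdele_iff {y : L} : emb L y ∈ intAdele L ↔ y ∈ (algebraMap (𝓞 L) L).range :=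
  tmul_one_mem_intAdele_iff

theorem emb_integer_mem (y : 𝓞 L) : emb L (y : L) ∈ intAdele L :=
  emb_mem_intAdele_iff.mpr ⟨y, rfl⟩

instance nontrivial_AQf : Nontrivial AQf :=
  ⟨⟨0, 1, fun h => by
    have h2 := congrArg (fun a : AQf => a ⟨2, Nat.prime_two⟩) h
    exact zero_ne_one h2⟩⟩

theorem emb_injective : Function.Injective (emb L) :=
  Algebra.TensorProduct.includeLeft_injective (S := L) (A := L) (B := AQf)
    (algebraMap ℚ AQf).injective

/-- `Ohat_L = 𝓞 L + n Ohat_L`, ring form. -/
theorem exists_eq_emb_add_mul (n : ℕ) (hn : n ≠ 0) {o : adeleFin L} (ho : o ∈ intAdele L) :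
    ∃ (y : 𝓞 L) (o' : adeleFin L), o' ∈ intAdele L ∧ o = emb L (y : L) + emb L (n : L) * o' := by
  obtain ⟨y, o', ho', h⟩ := exists_eq_tmul_one_add_nsmul n hn ho
  refine ⟨y, o', ho', ?_⟩
  rw [h, nsmul_eq_mul, map_natCast]
  rfl

/-- `L ∩ n Ohat_L = n 𝓞 L`, ring form. -/
theorem exists_eq_mul_of_emb_eq_mul {n : ℕ} (hn : n ≠ 0) {y : L} {o : adeleFin L}
    (ho : o ∈ intAdele L) (h : emb L y = emb L (n : L) * o) :
    ∃ y' : 𝓞 L, y = (n : L) * (y' : L) := by
  refine exists_eq_mul_of_tmul_one_eq_nsmul hn ho ?_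
  rw [nsmul_eq_mul, ← map_natCast (emb L), ← h]
  rfl

/-- `adeleFin L = Ohat_L[1/n]`, ring form. -/
theorem exists_emb_natCast_mul_mem (x : adeleFin L) :
    ∃ n : ℕ, n ≠ 0 ∧ emb L (n : L) * x ∈ intAdele L := by
  obtain ⟨n, hn, h⟩ := exists_nat_smul_mem_intAdele x
  refine ⟨n, hn, ?_⟩
  rwa [map_natCast, ← nsmul_eq_mul]

/-! ### The lattice `L ∩ x Ohat_L` -/

/-- The `𝓞 L`-submodule `L ∩ x • Ohat_L` of `L`. -/
def contentSubmodule (x : (adeleFin L)ˣ) : Submodule (𝓞 L) L where
  carrier := {y | ∃ o ∈ intAdele L, emb L y = (x : adeleFin L) * o}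
  zero_mem' := ⟨0, (intAdele L).zero_mem, by rw [map_zero, mul_zero]⟩
  add_mem' := by
    rintro y y' ⟨o, ho, h⟩ ⟨o', ho', h'⟩
    exact ⟨o + o', (intAdele L).add_mem ho ho', by rw [map_add, h, h', mul_add]⟩
  smul_mem' := by
    rintro r y ⟨o, ho, h⟩
    refine ⟨emb L (r : L) * o, (intAdele L).mul_mem (emb_integer_mem r) ho, ?_⟩
    rw [Algebra.smul_def, map_mul, h]
    show emb L (r : L) * _ = _
    ring

theorem mem_contentSubmodule_iff {x : (adeleFin L)ˣ} {y : L} :
    y ∈ contentSubmodule x ↔ ∃ o ∈ intAdele L, emb L y = (x : adeleFin L) * o := Iff.rfl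

/-- A positive integer `m` with `m • x ∈ Ohat_L` is a denominator of `L ∩ x Ohat_L`. -/
theorem natCast_mul_mem_of_mem_contentSubmodule {x : (adeleFin L)ˣ} {m : ℕ}
    (hm : emb L (m : L) * (x : adeleFin L) ∈ intAdele L) {y : L} (hy : y ∈ contentSubmodule x) :
    (m : L) * y ∈ (algebraMap (𝓞 L) L).range := by
  obtain ⟨o, ho, h⟩ := hy
  rw [← emb_mem_intAdele_iff, map_mul, h, ← mul_assoc]
  exact (intAdele L).mul_mem hm ho

/-- A positive integer `n` with `n • x⁻¹ ∈ Ohat_L` lies in `L ∩ x Ohat_L`. -/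
theorem natCast_mem_contentSubmodule {x : (adeleFin L)ˣ} {n : ℕ}
    (hn : emb L (n : L) * ((x⁻¹ : (adeleFin L)ˣ) : adeleFin L) ∈ intAdele L) :
    (n : L) ∈ contentSubmodule x :=
  ⟨_, hn, by rw [mul_left_comm, Units.mul_inv, mul_one]⟩

theorem isFractional_contentSubmodule (x : (adeleFin L)ˣ) :
    IsFractional (𝓞 L)⁰ (contentSubmodule x) := by
  obtain ⟨m, hm0, hm⟩ := exists_emb_natCast_mul_mem (x : adeleFin L)
  refine ⟨(m : 𝓞 L), mem_nonZeroDivisors_iff_ne_zero.mpr (by exact_mod_cast hm0), ?_⟩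
  intro y hy
  obtain ⟨z, hz⟩ := natCast_mul_mem_of_mem_contentSubmodule hm hy
  refine ⟨z, ?_⟩
  rw [hz, Algebra.smul_def]
  simp

/-- The content of a finite idele: the fractional ideal `L ∩ x Ohat_L`. -/
def contentIdeal (x : (adeleFin L)ˣ) : FractionalIdeal (𝓞 L)⁰ L :=
  ⟨contentSubmodule x, isFractional_contentSubmodule x⟩

theorem mem_contentIdeal_iff {x : (adeleFin L)ˣ} {y : L} :
    y ∈ contentIdeal x ↔ ∃ o ∈ intAdele L, emb L y = (x : adeleFin L) * o := Iff.rfl

/-! ### Extension of a lattice to the adeles -/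

/-- The additive subgroup `I • Ohat_L` of the finite adeles generated by a lattice `I ⊆ L`. -/
def extLattice (I : Submodule (𝓞 L) L) : AddSubgroup (adeleFin L) :=
  AddSubgroup.closure {t | ∃ a ∈ I, ∃ o ∈ intAdele L, t = emb L a * o}

theorem emb_mul_mem_extLattice {I : Submodule (𝓞 L) L} {a : L} (ha : a ∈ I) {o : adeleFin L}
    (ho : o ∈ intAdele L) : emb L a * o ∈ extLattice I :=
  AddSubgroup.subset_closure ⟨a, ha, o, ho, rfl⟩

/-- **Approximation, first form**: `x Ohat_L ⊆ (L ∩ x Ohat_L) Ohat_L`. -/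
theorem unit_mul_mem_extLattice (x : (adeleFin L)ˣ) {o : adeleFin L} (ho : o ∈ intAdele L) :
    (x : adeleFin L) * o ∈ extLattice (contentSubmodule x) := by
  obtain ⟨m, hm0, hm⟩ := exists_emb_natCast_mul_mem (x : adeleFin L)
  obtain ⟨n, hn0, hn⟩ := exists_emb_natCast_mul_mem ((x⁻¹ : (adeleFin L)ˣ) : adeleFin L)
  have hnc : (n : L) ∈ contentSubmodule x := natCast_mem_contentSubmodule hn
  -- approximate `m • (x * o)` modulo `m * n`
  have hmo : emb L (m : L) * ((x : adeleFin L) * o) ∈ intAdele L := by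
    rw [← mul_assoc]
    exact (intAdele L).mul_mem hm ho
  obtain ⟨y, o', ho', h⟩ := exists_eq_emb_add_mul (m * n) (mul_ne_zero hm0 hn0) hmo
  have hmL : (m : L) ≠ 0 := by exact_mod_cast hm0
  -- divide by `m`
  have h1 : (x : adeleFin L) * o = emb L ((m : L)⁻¹ * (y : L)) + emb L (n : L) * o' := by
    have hunit : emb L ((m : L)⁻¹) * emb L (m : L) = 1 := by
      rw [← map_mul, inv_mul_cancel₀ hmL, map_one]
    calc (x : adeleFin L) * o
        = emb L ((m : L)⁻¹) * (emb L (m : L) * ((x : adeleFin L) * o)) := by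
          rw [← mul_assoc, hunit, one_mul]
      _ = emb L ((m : L)⁻¹) * (emb L (y : L) + emb L ((m * n : ℕ) : L) * o') := by rw [h]
      _ = emb L ((m : L)⁻¹ * (y : L)) + emb L (n : L) * o' := by
          rw [mul_add, ← map_mul, ← mul_assoc, ← map_mul]
          congr 3
          push_cast
          rw [← mul_assoc, inv_mul_cancel₀ hmL, one_mul]
  -- the first summand is in the lattice
  have h2 : (m : L)⁻¹ * (y : L) ∈ contentSubmodule x := by
    refine ⟨o - (emb L (n : L) * ((x⁻¹ : (adeleFin L)ˣ) : adeleFin L)) * o',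
      (intAdele L).sub_mem ho ((intAdele L).mul_mem hn ho'), ?_⟩
    rw [mul_sub, ← mul_assoc, mul_left_comm (x : adeleFin L), Units.mul_inv, mul_one]
    exact eq_sub_of_add_eq h1.symm
  rw [h1]
  refine (extLattice _).add_mem ?_ (emb_mul_mem_extLattice hnc ho')
  have := emb_mul_mem_extLattice h2 (intAdele L).one_mem
  rwa [mul_one] at this

/-- **Approximation, second form**: `L ∩ I Ohat_L = I` for a lattice `I` containing a positive
integer and admitting a positive integer denominator. -/
theorem mem_of_emb_mem_extLattice {I : Submodule (𝓞 L) L} {n : ℕ} (hn0 : n ≠ 0)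
    (hn : (n : L) ∈ I) {m : ℕ} (hm0 : m ≠ 0)
    (hm : ∀ b ∈ I, (m : L) * b ∈ (algebraMap (𝓞 L) L).range) {y : L}
    (hy : emb L y ∈ extLattice I) : y ∈ I := by
  -- every element of `I Ohat` is congruent to an element of `I` modulo `n Ohat`
  have key : ∀ t ∈ extLattice I, ∃ u ∈ I, ∃ o' ∈ intAdele L, t = emb L u + emb L (n : L) * o' := by
    intro t ht
    induction ht using AddSubgroup.closure_induction with
    | mem t ht =>
      obtain ⟨a, ha, o, ho, rfl⟩ := ht
      obtain ⟨r, o'', ho'', h⟩ := exists_eq_emb_add_mul (m * n) (mul_ne_zero hm0 hn0) ho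
      obtain ⟨z, hz⟩ := hm a ha
      refine ⟨r • a, I.smul_mem r ha, emb L (z : L) * o'',
        (intAdele L).mul_mem (emb_integer_mem z) ho'', ?_⟩
      rw [h, mul_add, Algebra.smul_def, map_mul]
      show emb L a * emb L (r : L) + _ = emb L (r : L) * emb L a + _
      rw [mul_comm (emb L a) (emb L (r : L))]
      congr 1
      have hz' : (z : L) = (m : L) * a := hz
      rw [hz', ← mul_assoc, ← mul_assoc, ← map_mul, ← map_mul]
      congr 2
      push_cast
      ring
    | zero =>
      exact ⟨0, I.zero_mem, 0, (intAdele L).zero_mem, by simp⟩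
    | add t t' _ _ ht ht' =>
      obtain ⟨u, hu, o, ho, rfl⟩ := ht
      obtain ⟨u', hu', o', ho', rfl⟩ := ht'
      exact ⟨u + u', I.add_mem hu hu', o + o', (intAdele L).add_mem ho ho', by
        rw [map_add, mul_add]; abel⟩
    | neg t _ ht =>
      obtain ⟨u, hu, o, ho, rfl⟩ := ht
      exact ⟨-u, I.neg_mem hu, -o, (intAdele L).neg_mem ho, by
        rw [map_neg]; ring⟩
  obtain ⟨u, hu, o', ho', h⟩ := key _ hy
  have h1 : emb L (y - u) = emb L (n : L) * o' := by
    rw [map_sub, h, add_sub_cancel_left]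
  obtain ⟨y', hy'⟩ := exists_eq_mul_of_emb_eq_mul hn0 ho' h1
  have h2 : y = u + y' • (n : L) := by
    rw [Algebra.smul_def, mul_comm]
    show y = u + (n : L) * (y' : L)
    rw [← hy']
    ring
  rw [h2]
  exact I.add_mem hu (I.smul_mem y' hn)

/-! ### The content is a group homomorphism -/

/-- Transport of `extLattice` along multiplication by a fixed adele. -/
theorem mul_mem_extLattice_of_forall {P Q : Submodule (𝓞 L) L} (c : adeleFin L)
    (h : ∀ a ∈ P, ∀ o ∈ intAdele L, c * (emb L a * o) ∈ extLattice Q) {s : adeleFin L}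
    (hs : s ∈ extLattice P) : c * s ∈ extLattice Q := by
  induction hs using AddSubgroup.closure_induction with
  | mem t ht =>
    obtain ⟨a, ha, o, ho, rfl⟩ := ht
    exact h a ha o ho
  | zero => rw [mul_zero]; exact (extLattice Q).zero_mem
  | add t t' _ _ ht ht' => rw [mul_add]; exact (extLattice Q).add_mem ht ht'
  | neg t _ ht =>
    have h1 : c * -t = -(c * t) := by ring
    rw [h1]
    exact (extLattice Q).neg_mem ht

theorem contentIdeal_one : contentIdeal (1 : (adeleFin L)ˣ) = 1 := by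
  ext y
  rw [mem_contentIdeal_iff, FractionalIdeal.mem_one_iff]
  constructor
  · rintro ⟨o, ho, h⟩
    rw [Units.val_one, one_mul] at h
    rw [← h] at ho
    exact emb_mem_intAdele_iff.mp ho
  · intro h
    exact ⟨emb L y, emb_mem_intAdele_iff.mpr h, by rw [Units.val_one, one_mul]⟩

theorem contentIdeal_mul (x y : (adeleFin L)ˣ) :
    contentIdeal (x * y) = contentIdeal x * contentIdeal y := by
  apply le_antisymm
  · intro t ht
    obtain ⟨o, ho, h⟩ := ht
    -- integer element and integer denominator of the product ideal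
    obtain ⟨mx, hmx0, hmx⟩ := exists_emb_natCast_mul_mem (x : adeleFin L)
    obtain ⟨my, hmy0, hmy⟩ := exists_emb_natCast_mul_mem (y : adeleFin L)
    obtain ⟨nx, hnx0, hnx⟩ := exists_emb_natCast_mul_mem ((x⁻¹ : (adeleFin L)ˣ) : adeleFin L)
    obtain ⟨ny, hny0, hny⟩ := exists_emb_natCast_mul_mem ((y⁻¹ : (adeleFin L)ˣ) : adeleFin L)
    have hn : ((nx * ny : ℕ) : L) ∈
        ((contentIdeal x * contentIdeal y : FractionalIdeal (𝓞 L)⁰ L) : Submodule (𝓞 L) L) := by
      rw [Nat.cast_mul]
      exact FractionalIdeal.mul_mem_mul (natCast_mem_contentSubmodule hnx)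
        (natCast_mem_contentSubmodule hny)
    have hm : ∀ b ∈ ((contentIdeal x * contentIdeal y : FractionalIdeal (𝓞 L)⁰ L) :
        Submodule (𝓞 L) L), ((mx * my : ℕ) : L) * b ∈ (algebraMap (𝓞 L) L).range := by
      intro b hb
      refine FractionalIdeal.mul_induction_on (I := contentIdeal x) (J := contentIdeal y) hb ?_ ?_
      · intro i hi j hj
        have h1 := natCast_mul_mem_of_mem_contentSubmodule hmx hi
        have h2 := natCast_mul_mem_of_mem_contentSubmodule hmy hj
        have := (algebraMap (𝓞 L) L).range.mul_mem h1 h2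
        convert this using 1
        push_cast
        ring
      · intro b b' hb hb'
        rw [mul_add]
        exact (algebraMap (𝓞 L) L).range.add_mem hb hb'
    refine mem_of_emb_mem_extLattice (mul_ne_zero hnx0 hny0) hn (mul_ne_zero hmx0 hmy0) hm ?_
    -- `emb t = x * (y * o)` lies in the extension of the product
    rw [h, Units.val_mul, mul_assoc]
    refine mul_mem_extLattice_of_forall (P := contentSubmodule y) _ ?_
      (unit_mul_mem_extLattice y ho)
    intro b hb o₁ ho₁
    rw [mul_left_comm]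
    refine mul_mem_extLattice_of_forall (P := contentSubmodule x) _ ?_
      (unit_mul_mem_extLattice x ho₁)
    intro a ha o₂ ho₂
    rw [← mul_assoc, ← map_mul]
    refine emb_mul_mem_extLattice ?_ ho₂
    rw [mul_comm b a]
    exact FractionalIdeal.mul_mem_mul ha hb
  · rw [FractionalIdeal.mul_le]
    rintro a ⟨o, ho, h⟩ b ⟨o', ho', h'⟩
    refine ⟨o * o', (intAdele L).mul_mem ho ho', ?_⟩
    rw [map_mul, h, h', Units.val_mul]
    ring

variable (L) in
/-- **The content map** from the finite ideles of `L` to the fractional ideals of `𝓞 L`. -/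
def content : (adeleFin L)ˣ →* FractionalIdeal (𝓞 L)⁰ L where
  toFun := contentIdeal
  map_one' := contentIdeal_one
  map_mul' := contentIdeal_mul

variable (L) in
/-- The content map, valued in the group of invertible fractional ideals. -/
def contentUnits : (adeleFin L)ˣ →* (FractionalIdeal (𝓞 L)⁰ L)ˣ := (content L).toHomUnits

theorem mem_content_iff {x : (adeleFin L)ˣ} {y : L} :
    y ∈ content L x ↔ ∃ o ∈ intAdele L, emb L y = (x : adeleFin L) * o := Iff.rfl

@[simp] theorem coe_contentUnits (x : (adeleFin L)ˣ) :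
    ((contentUnits L x : (FractionalIdeal (𝓞 L)⁰ L)ˣ) : FractionalIdeal (𝓞 L)⁰ L) = content L x :=
  rfl

/-! ### Kernel, principal ideles, class group -/

/-- The kernel of the content map is the group of unit ideles `Ohat_Lˣ`. -/
theorem content_eq_one_iff {x : (adeleFin L)ˣ} :
    content L x = 1 ↔ (x : adeleFin L) ∈ intAdele L ∧
      ((x⁻¹ : (adeleFin L)ˣ) : adeleFin L) ∈ intAdele L := by
  have key : ∀ z : (adeleFin L)ˣ, content L z = 1 →
      ((z⁻¹ : (adeleFin L)ˣ) : adeleFin L) ∈ intAdele L := by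
    intro z hz
    have h1 : (1 : L) ∈ content L z := by
      rw [hz, FractionalIdeal.mem_one_iff]
      exact ⟨1, map_one _⟩
    obtain ⟨o, ho, h⟩ := mem_content_iff.mp h1
    have h2 : ((z⁻¹ : (adeleFin L)ˣ) : adeleFin L) = o := by
      rw [map_one] at h
      rw [Units.inv_eq_of_mul_eq_one_right h.symm]
    rwa [h2]
  constructor
  · intro h
    refine ⟨?_, key x h⟩
    have h' : content L x⁻¹ = 1 := by rw [map_inv, h, inv_one]
    simpa using key x⁻¹ h'
  · rintro ⟨hx, hx'⟩
    ext y
    rw [mem_content_iff, FractionalIdeal.mem_one_iff]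
    constructor
    · rintro ⟨o, ho, h⟩
      have : emb L y ∈ intAdele L := by
        rw [h]
        exact (intAdele L).mul_mem hx ho
      exact emb_mem_intAdele_iff.mp this
    · intro h
      refine ⟨((x⁻¹ : (adeleFin L)ˣ) : adeleFin L) * emb L y,
        (intAdele L).mul_mem hx' (emb_mem_intAdele_iff.mpr h), ?_⟩
      rw [← mul_assoc, Units.mul_inv, one_mul]

variable (L) in
/-- The principal finite ideles. -/
def principalFin : Lˣ →* (adeleFin L)ˣ := Units.map (emb L).toMonoidHom

@[simp] theorem coe_principalFin (a : Lˣ) :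
    ((principalFin L a : (adeleFin L)ˣ) : adeleFin L) = emb L (a : L) := rfl

/-- The content of a principal idele is the principal fractional ideal. -/
theorem content_principalFin (a : Lˣ) :
    content L (principalFin L a) = FractionalIdeal.spanSingleton (𝓞 L)⁰ (a : L) := by
  ext y
  rw [mem_content_iff, FractionalIdeal.mem_spanSingleton, coe_principalFin]
  have ha : (a : L) ≠ 0 := a.ne_zero
  constructor
  · rintro ⟨o, ho, h⟩
    have h1 : emb L ((a : L)⁻¹ * y) = o := by
      rw [map_mul, h, ← mul_assoc, ← map_mul, inv_mul_cancel₀ ha, map_one, one_mul]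
    rw [← h1] at ho
    obtain ⟨z, hz⟩ := emb_mem_intAdele_iff.mp ho
    refine ⟨z, ?_⟩
    rw [Algebra.smul_def, hz, mul_comm, ← mul_assoc, mul_inv_cancel₀ ha, one_mul]
  · rintro ⟨z, rfl⟩
    refine ⟨emb L (z : L), emb_integer_mem z, ?_⟩
    rw [Algebra.smul_def, map_mul, mul_comm]

theorem contentUnits_principalFin (a : Lˣ) :
    contentUnits L (principalFin L a) = toPrincipalIdeal (𝓞 L) L a := by
  ext1
  rw [coe_contentUnits, content_principalFin, coe_toPrincipalIdeal]

variable (L) in
/-- The class of the content of a finite idele. -/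
def ideleToClassGroup : (adeleFin L)ˣ →* ClassGroup (𝓞 L) :=
  (ClassGroup.mk L).comp (contentUnits L)

theorem ideleToClassGroup_principalFin (a : Lˣ) : ideleToClassGroup L (principalFin L a) = 1 := by
  rw [ideleToClassGroup, MonoidHom.comp_apply, contentUnits_principalFin,
    ClassGroup.mk_eq_one_iff]
  exact ⟨⟨(a : L), by simp⟩⟩

theorem ideleToClassGroup_eq_one_of_mem {x : (adeleFin L)ˣ} (hx : (x : adeleFin L) ∈ intAdele L)
    (hx' : ((x⁻¹ : (adeleFin L)ˣ) : adeleFin L) ∈ intAdele L) : ideleToClassGroup L x = 1 := by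
  have h : contentUnits L x = 1 := by
    ext1
    rw [coe_contentUnits, Units.val_one]
    exact content_eq_one_iff.mpr ⟨hx, hx'⟩
  rw [ideleToClassGroup, MonoidHom.comp_apply, h, map_one]

end

end Fermat.Agent.CFT.H18
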