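/-
CFT layer C, package C-LOC-places-decomp (helper18), part 2: Galois equivariance and
compatibility with restriction of helper54's dictionary places ↔ primes
(`H54.Place F q = MaximalSpectrum (F ⊗[ℚ] ℚ_[q])`, `H54.absAt`, `H54.primeAt`).

* `maxSpecMulAction` : a group acting on a commutative ring by ring automorphisms permutes the
  maximal ideals; `mem_smul_max_iff`, `smul_max_eq_iff` (= the predicate `IsFixedMax`).
* `absAt_of_comap` : functoriality of the absolute values along ring maps `K ⊗ ℚ_q → F ⊗ ℚ_q`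
  (`spectralNorm` only depends on the minimal polynomial).
* `absAt_smul_smul`, `primeAt_smul : primeAt (σ • m) = σ • primeAt m`,
  `isFixedMax_iff_smul_primeAt_eq` (the hypothesis `he_fix` of `H63.hA_of_semilocal`).
* `maxUnder`, `absAt_algebraMap`, `primeAt_maxUnder : primeAt (maxUnder m) = (primeAt m).under`.
-/
import Mathlib
import Fermat.Agent.CFT.H23_CDefs
import Fermat.Agent.CFT.H54_Places
import Fermat.Agent.CFT.H18_LocDecomp

namespace Fermat.Agent.CFT.H18

open scoped TensorProduct NumberField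
open IsDedekindDomain Fermat.Agent.CFT

noncomputable section

section Functoriality

variable {K F : Type} [Field K] [NumberField K] [Field F] [NumberField F] {q : Nat.Primes}

/-- The map of local fields induced by a ring homomorphism `g : K ⊗ ℚ_q → F ⊗ ℚ_q` with
`g⁻¹(m) = u`. -/
def locFieldMap (g : H42.locAlg K q →+* H42.locAlg F q)
    (m : H54.Place F q) (u : H54.Place K q) (hu : u.asIdeal = m.asIdeal.comap g) :
    H54.locField u →+* H54.locField m :=
  Ideal.quotientMap m.asIdeal g (le_of_eq hu)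

theorem locFieldMap_locMk (g : H42.locAlg K q →+* H42.locAlg F q)
    (m : H54.Place F q) (u : H54.Place K q) (hu : u.asIdeal = m.asIdeal.comap g)
    (t : H42.locAlg K q) :
    locFieldMap g m u hu (H54.locMk u t) = H54.locMk m (g t) := rfl

/-- **Functoriality of the absolute values** -/
theorem absAt_of_comap (g : H42.locAlg K q →+* H42.locAlg F q) (ι : K →+* F)
    (hg : ∀ x : K, g (x ⊗ₜ[ℚ] (1 : ℚ_[q])) = ι x ⊗ₜ[ℚ] (1 : ℚ_[q]))
    (hg' : ∀ c : ℚ_[q], g ((1 : K) ⊗ₜ[ℚ] c) = (1 : F) ⊗ₜ[ℚ] c)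
    (m : H54.Place F q) (u : H54.Place K q)
    (hu : u.asIdeal = m.asIdeal.comap g) (x : K) :
    H54.absAt m (ι x) = H54.absAt u x := by
  let φ : H54.locField u →ₐ[ℚ_[q]] H54.locField m :=
    { locFieldMap g m u hu with
      commutes' := fun c => by
        show locFieldMap g m u hu (H54.locMk u ((1 : K) ⊗ₜ[ℚ] c)) = H54.locMk m ((1 : F) ⊗ₜ[ℚ] c)
        rw [locFieldMap_locMk, hg'] }
  have hφ : Function.Injective φ := (φ : H54.locField u →+* H54.locField m).injective
  have h1 : H54.toLocField m (ι x) = φ (H54.toLocField u x) := by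
    rw [H54.toLocField_apply, H54.toLocField_apply, ← hg]
    rfl
  rw [H54.absAt_apply, H54.absAt_apply, h1, Loc.nrm, Loc.nrm, spectralNorm, spectralNorm,
    minpoly.algHom_eq φ hφ]

end Functoriality

section MaxAction

variable {G E : Type*} [Group G] [CommRing E] [MulSemiringAction G E]

/-- A group acting on a commutative ring by ring automorphisms permutes its maximal ideals:
`σ • m = σ(m)`. -/
instance maxSpecMulAction : MulAction G (MaximalSpectrum E) where
  smul σ m := ⟨m.asIdeal.comap (MulSemiringAction.toRingEquiv G E σ⁻¹ : E →+* E),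
    have := m.isMaximal
    Ideal.comap_isMaximal_of_equiv (MulSemiringAction.toRingEquiv G E σ⁻¹)⟩
  one_smul m := by
    apply MaximalSpectrum.ext
    ext x
    show (1 : G)⁻¹ • x ∈ m.asIdeal ↔ x ∈ m.asIdeal
    rw [inv_one, one_smul]
  mul_smul σ τ m := by
    apply MaximalSpectrum.ext
    ext x
    show (σ * τ)⁻¹ • x ∈ m.asIdeal ↔ τ⁻¹ • σ⁻¹ • x ∈ m.asIdeal
    rw [mul_inv_rev, mul_smul]

theorem mem_smul_max_iff (σ : G) (m : MaximalSpectrum E) (x : E) :
    x ∈ (σ • m).asIdeal ↔ σ⁻¹ • x ∈ m.asIdeal := Iff.rfl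

theorem smul_mem_smul_max_iff (σ : G) (m : MaximalSpectrum E) (x : E) :
    σ • x ∈ (σ • m).asIdeal ↔ x ∈ m.asIdeal := by
  rw [mem_smul_max_iff, inv_smul_smul]

/-- `m` is `σ`-stable iff `σ • m = m` (the predicate `IsFixedMax` of C-COH / C-FIRST). -/
theorem smul_max_eq_iff (σ : G) (m : MaximalSpectrum E) :
    σ • m = m ↔ ∀ x, x ∈ m.asIdeal ↔ σ • x ∈ m.asIdeal := by
  constructor
  · intro h x
    conv_rhs => rw [← h]
    exact (smul_mem_smul_max_iff σ m x).symm
  · intro h
    apply MaximalSpectrum.ext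
    ext x
    rw [mem_smul_max_iff, h (σ⁻¹ • x), smul_inv_smul]

end MaxAction

section Equivariance

variable (F : Type) [Field F] [NumberField F] (K : Type*) [Field K] [CharZero K] [Algebra K F]
  (q : Nat.Primes)

/-- **Equivariance of the absolute values**: `|σ x|_{σ m} = |x|_m`. -/
theorem absAt_smul_smul (σ : F ≃ₐ[K] F) (m : H54.Place F q) (x : F) :
    H54.absAt (σ • m) (σ x) = H54.absAt m x := by
  refine absAt_of_comap
    (MulSemiringAction.toRingEquiv (F ≃ₐ[K] F) (H42.locAlg F q) σ : H42.locAlg F q →+* _)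
    (σ : F →+* F) (fun x => ?_) (fun c => ?_) (σ • m) m ?_ x
  · show σ • (x ⊗ₜ[ℚ] (1 : ℚ_[q])) = _
    rw [H42.smul_tmul_left]
    rfl
  · show σ • ((1 : F) ⊗ₜ[ℚ] c) = _
    rw [H42.smul_tmul_left, map_one]
  · ext t
    rw [Ideal.mem_comap]
    exact (smul_mem_smul_max_iff σ m t).symm

theorem absAt_smul (σ : F ≃ₐ[K] F) (m : H54.Place F q) (x : F) :
    H54.absAt (σ • m) x = H54.absAt m (σ⁻¹ x) := by
  rw [← absAt_smul_smul F K q σ m (σ⁻¹ x)]
  have h2 : σ (σ⁻¹ x) = x := by
    show (σ * σ⁻¹) x = x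
    rw [mul_inv_cancel]
    rfl
  rw [h2]

/-- **Equivariance of the dictionary places ↔ primes**: `primeAt (σ • m) = σ • primeAt m` (for
the action `H23.primesMulAction` on the primes of `𝓞 F`). -/
theorem primeAt_smul (σ : F ≃ₐ[K] F) (m : H54.Place F q) :
    H54.primeAt (σ • m) = σ • H54.primeAt m := by
  apply HeightOneSpectrum.ext
  ext x
  rw [H23.mem_smul_prime_iff, H54.mem_primeAt, H54.mem_primeAt, absAt_smul F K q σ m]
  rfl

/-- The fixed-point form (`he_fix` of `H63.hA_of_semilocal`): `m` is `σ`-stable iff its prime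
is. -/
theorem isFixedMax_iff_smul_primeAt_eq (σ : F ≃ₐ[K] F) (m : H54.Place F q) :
    (∀ x, x ∈ m.asIdeal ↔ σ • x ∈ m.asIdeal) ↔ σ • H54.primeAt m = H54.primeAt m := by
  refine (smul_max_eq_iff σ m).symm.trans ⟨fun h => ?_, fun h => ?_⟩
  · have h1 := primeAt_smul F K q σ m
    rw [h] at h1
    exact h1.symm
  · exact H54.primeAt_injective ((primeAt_smul F K q σ m).trans h)

end Equivariance

section Restriction

variable (K F : Type) [Field K] [NumberField K] [Field F] [NumberField F] [Algebra K F]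
  (q : Nat.Primes)

/-- The place of `K` below the place `m` of `F`: the preimage of the maximal ideal `m` in
`K ⊗ ℚ_q` (maximal, as `K ⊗ ℚ_q` is artinian). -/
def maxUnder (m : H54.Place F q) : H54.Place K q :=
  ⟨m.asIdeal.comap (H42.baseIncl (k := ℚ) (K := K) (L := F) (A := ℚ_[q])),
    have := m.isMaximal
    have _hp : (m.asIdeal.comap
      (H42.baseIncl (k := ℚ) (K := K) (L := F) (A := ℚ_[q]))).IsPrime := Ideal.comap_isPrime _ _
    IsArtinianRing.isMaximal_of_isPrime _⟩

theorem mem_maxUnder_iff (m : H54.Place F q) (t : H42.locAlg K q) :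
    t ∈ (maxUnder K F q m).asIdeal ↔
      H42.baseIncl (k := ℚ) (K := K) (L := F) (A := ℚ_[q]) t ∈ m.asIdeal := Iff.rfl

/-- `|x|_m = |x|_u` for `x ∈ K` and `u` the place of `K` below `m`. -/
theorem absAt_algebraMap (m : H54.Place F q) (x : K) :
    H54.absAt m (algebraMap K F x) = H54.absAt (maxUnder K F q m) x :=
  absAt_of_comap
    (H42.baseIncl (k := ℚ) (K := K) (L := F) (A := ℚ_[q]) : H42.locAlg K q →+* H42.locAlg F q)
    (algebraMap K F) (fun _ => rfl)
    (fun c => by
      show H42.baseIncl (k := ℚ) (K := K) (L := F) (A := ℚ_[q]) ((1 : K) ⊗ₜ[ℚ] c) = _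
      rw [H42.baseIncl_tmul, map_one])
    m (maxUnder K F q m) rfl x

/-- **Compatibility with restriction**: the prime of `𝓞 K` at the place below `m` is the prime
below `primeAt m`. -/
theorem primeAt_maxUnder (m : H54.Place F q) :
    H54.primeAt (maxUnder K F q m) = (H54.primeAt m).under (𝓞 K) := by
  apply HeightOneSpectrum.ext
  ext x
  rw [HeightOneSpectrum.under_asIdeal, Ideal.under_def, Ideal.mem_comap, H54.mem_primeAt,
    H54.mem_primeAt, ← absAt_algebraMap K F q m]
  rfl

/-- Restriction commutes with the Galois action (which fixes `K`). -/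
theorem maxUnder_smul (σ : F ≃ₐ[K] F) (m : H54.Place F q) :
    maxUnder K F q (σ • m) = maxUnder K F q m := by
  apply MaximalSpectrum.ext
  ext t
  rw [mem_maxUnder_iff, mem_maxUnder_iff, mem_smul_max_iff, H42.smul_baseIncl]

end Restriction
end
end Fermat.Agent.CFT.H18
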