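/-
CFT layer C, package C-LOC-places-decomp (helper18), part 3: the fibre dictionary.

General (`k ⊆ K ⊆ F` fields, `A` a `k`-algebra, `K ⊗[k] A` reduced artinian):
* `factorIdem u` : the primitive idempotent of `K ⊗[k] A` at `u`;
* `mem_of_tProj_eq_zero` : the kernel of `tProj u : F ⊗[k] A → F ⊗[K] K_u` is generated by `u`;
* `maxUnderGen`, `fibreMax u n`, `fibreEquiv u : MaximalSpectrum (F ⊗[K] K_u) ≃ {m // m over u}`,
  Galois-equivariant (`fibreMax_smul`), with residue field isomorphism `fibreResidueEquiv`.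
Places (`K F : Type` number fields, vocabulary of `H54_Places`):
* `placeFibreEquiv`, `placeResidueEquiv` (+ compatibilities with `locMk`, `toLocField`, `baseIncl`);
* `exists_smul_place_eq` : `Gal(F/K)` is transitive on the places of `F` above a place of `K`;
* `stabilizer_place_eq` : stabiliser of a place = decomposition group of its prime;
* `card_stabilizer_place` : its order is `e_u f_u`.
-/
import Mathlib
import Fermat.Agent.CFT.H18_LocDecomp
import Fermat.Agent.CFT.H18_PlacesGal

namespace Fermat.Agent.CFT.H18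

open scoped TensorProduct NumberField
open IsDedekindDomain Fermat.Agent.CFT

set_option linter.style.haveILetI false
set_option linter.unusedSectionVars false

noncomputable section

section GeneralFibre

variable (k K F A : Type*) [Field k] [Field K] [Field F] [CommRing A]
  [Algebra k K] [Algebra k F] [Algebra K F] [IsScalarTower k K F] [Algebra k A]
  [IsArtinianRing (K ⊗[k] A)] [IsReduced (K ⊗[k] A)]

/-- The primitive idempotent of `K ⊗[k] A` at the maximal ideal `u`. -/
def factorIdem (u : MaximalSpectrum (K ⊗[k] A)) : K ⊗[k] A :=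
  letI : DecidableEq (MaximalSpectrum (K ⊗[k] A)) := Classical.decEq _
  (IsArtinianRing.equivPi (K ⊗[k] A)).symm (Pi.single u 1)

theorem toFactor_factorIdem_self (u : MaximalSpectrum (K ⊗[k] A)) :
    toFactor k K A u (factorIdem k K A u) = 1 := by
  letI : DecidableEq (MaximalSpectrum (K ⊗[k] A)) := Classical.decEq _
  have h := (IsArtinianRing.equivPi (K ⊗[k] A)).apply_symm_apply (Pi.single u 1)
  have h2 := congrFun h u
  rw [IsArtinianRing.equivPi_apply, Pi.single_eq_same] at h2
  exact h2

theorem toFactor_factorIdem_of_ne {u v : MaximalSpectrum (K ⊗[k] A)} (h : v ≠ u) :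
    toFactor k K A v (factorIdem k K A u) = 0 := by
  letI : DecidableEq (MaximalSpectrum (K ⊗[k] A)) := Classical.decEq _
  have h1 := (IsArtinianRing.equivPi (K ⊗[k] A)).apply_symm_apply (Pi.single u 1)
  have h2 := congrFun h1 v
  rw [IsArtinianRing.equivPi_apply, Pi.single_eq_of_ne h] at h2
  exact h2

theorem one_sub_factorIdem_mem (u : MaximalSpectrum (K ⊗[k] A)) :
    1 - factorIdem k K A u ∈ u.asIdeal := by
  rw [← Ideal.Quotient.eq_zero_iff_mem]
  have := toFactor_factorIdem_self k K A u
  show toFactor k K A u (1 - factorIdem k K A u) = 0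
  rw [map_sub, map_one, this, sub_self]

/-- On the `v`-factor, `1 ⊗ ε_u` is `1` for `v = u` and `0` otherwise. -/
theorem tProj_baseIncl_factorIdem_self (u : MaximalSpectrum (K ⊗[k] A)) :
    tProj k K F A u (H42.baseIncl (k := k) (K := K) (L := F) (A := A) (factorIdem k K A u)) = 1 := by
  rw [tProj_baseIncl, toFactor_factorIdem_self]
  rfl

theorem tProj_baseIncl_factorIdem_of_ne {u v : MaximalSpectrum (K ⊗[k] A)} (h : v ≠ u) :
    tProj k K F A v (H42.baseIncl (k := k) (K := K) (L := F) (A := A) (factorIdem k K A u)) = 0 := by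
  rw [tProj_baseIncl, toFactor_factorIdem_of_ne k K A h, TensorProduct.tmul_zero]

/-- The kernel of the projection to the `u`-factor is generated by (the image of) `u`. -/
theorem mem_of_tProj_eq_zero (u : MaximalSpectrum (K ⊗[k] A)) (I : Ideal (F ⊗[k] A))
    (hI : ∀ t ∈ u.asIdeal, H42.baseIncl (k := k) (K := K) (L := F) (A := A) t ∈ I)
    (t : F ⊗[k] A) (ht : tProj k K F A u t = 0) : t ∈ I := by
  set ε := H42.baseIncl (k := k) (K := K) (L := F) (A := A) (factorIdem k K A u) with hε
  have h0 : t * ε = 0 := by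
    apply (tDecomp k K F A).injective
    rw [map_zero]
    funext v
    rw [map_mul, Pi.mul_apply, Pi.zero_apply, ← tProj_apply, ← tProj_apply]
    by_cases hv : v = u
    · subst hv
      rw [ht, zero_mul]
    · rw [hε, tProj_baseIncl_factorIdem_of_ne k K F A hv, mul_zero]
  have h1 : t = t * H42.baseIncl (k := k) (K := K) (L := F) (A := A) (1 - factorIdem k K A u) := by
    rw [map_sub, map_one, mul_sub, mul_one, ← hε, h0, sub_zero]
  rw [h1]
  exact I.mul_mem_left _ (hI _ (one_sub_factorIdem_mem k K A u))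

/-- The place of `K` below a "place" of `F` (general form). -/
def maxUnderGen (m : MaximalSpectrum (F ⊗[k] A)) : MaximalSpectrum (K ⊗[k] A) :=
  ⟨m.asIdeal.comap (H42.baseIncl (k := k) (K := K) (L := F) (A := A)),
    have := m.isMaximal
    have _hp : (m.asIdeal.comap
      (H42.baseIncl (k := k) (K := K) (L := F) (A := A))).IsPrime := Ideal.comap_isPrime _ _
    IsArtinianRing.isMaximal_of_isPrime _⟩

theorem mem_maxUnderGen_iff (m : MaximalSpectrum (F ⊗[k] A)) (t : K ⊗[k] A) :
    t ∈ (maxUnderGen k K F A m).asIdeal ↔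
      H42.baseIncl (k := k) (K := K) (L := F) (A := A) t ∈ m.asIdeal := Iff.rfl

/-- The maximal ideal of `F ⊗[k] A` attached to a maximal ideal of the factor `F ⊗[K] K_u`. -/
def fibreMax (u : MaximalSpectrum (K ⊗[k] A))
    (n : MaximalSpectrum (F ⊗[K] Factor k K A u)) : MaximalSpectrum (F ⊗[k] A) :=
  ⟨n.asIdeal.comap (tProj k K F A u),
    have := n.isMaximal
    Ideal.comap_isMaximal_of_surjective _ (tProj_surjective k K F A u)⟩

theorem mem_fibreMax_iff (u : MaximalSpectrum (K ⊗[k] A))
    (n : MaximalSpectrum (F ⊗[K] Factor k K A u)) (t : F ⊗[k] A) :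
    t ∈ (fibreMax k K F A u n).asIdeal ↔ tProj k K F A u t ∈ n.asIdeal := Iff.rfl

theorem maxUnderGen_fibreMax (u : MaximalSpectrum (K ⊗[k] A))
    (n : MaximalSpectrum (F ⊗[K] Factor k K A u)) :
    maxUnderGen k K F A (fibreMax k K F A u n) = u := by
  have hle : u.asIdeal ≤ (maxUnderGen k K F A (fibreMax k K F A u n)).asIdeal := by
    intro t ht
    rw [mem_maxUnderGen_iff, mem_fibreMax_iff, tProj_baseIncl]
    have h0 : toFactor k K A u t = 0 := Ideal.Quotient.eq_zero_iff_mem.mpr ht
    rw [h0, TensorProduct.tmul_zero]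
    exact n.asIdeal.zero_mem
  have := u.isMaximal.eq_of_le (maxUnderGen k K F A (fibreMax k K F A u n)).isMaximal.ne_top hle
  exact MaximalSpectrum.ext this.symm

theorem fibreMax_injective (u : MaximalSpectrum (K ⊗[k] A)) :
    Function.Injective (fibreMax k K F A u) := by
  intro n n' h
  apply MaximalSpectrum.ext
  have h1 : n.asIdeal.comap (tProj k K F A u) = n'.asIdeal.comap (tProj k K F A u) :=
    congrArg MaximalSpectrum.asIdeal h
  exact Ideal.comap_injective_of_surjective _ (tProj_surjective k K F A u) h1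

theorem exists_fibreMax_eq (u : MaximalSpectrum (K ⊗[k] A)) (m : MaximalSpectrum (F ⊗[k] A))
    (hm : maxUnderGen k K F A m = u) : ∃ n, fibreMax k K F A u n = m := by
  have hker : RingHom.ker (tProj k K F A u) ≤ m.asIdeal := by
    intro t ht
    refine mem_of_tProj_eq_zero k K F A u m.asIdeal (fun s hs => ?_) t ht
    rw [← hm] at hs
    exact hs
  have hmax : (m.asIdeal.map (tProj k K F A u)).IsMaximal :=
    Or.resolve_left (Ideal.map_eq_top_or_isMaximal_of_surjective _
      (tProj_surjective k K F A u) m.isMaximal) (fun h => by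
        have h2 := Ideal.comap_map_of_surjective _ (tProj_surjective k K F A u) m.asIdeal
        rw [h, Ideal.comap_top] at h2
        have h3 : m.asIdeal ⊔ Ideal.comap (tProj k K F A u) ⊥ = m.asIdeal :=
          sup_eq_left.mpr hker
        rw [h3] at h2
        exact m.isMaximal.ne_top h2.symm)
  refine ⟨⟨m.asIdeal.map (tProj k K F A u), hmax⟩, ?_⟩
  apply MaximalSpectrum.ext
  show (m.asIdeal.map (tProj k K F A u)).comap (tProj k K F A u) = m.asIdeal
  rw [Ideal.comap_map_of_surjective _ (tProj_surjective k K F A u)]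
  exact sup_eq_left.mpr hker

/-- **The fibre dictionary**: maximal ideals of `F ⊗[K] K_u` ↔ maximal ideals of `F ⊗[k] A`
above `u`. -/
def fibreEquiv (u : MaximalSpectrum (K ⊗[k] A)) :
    MaximalSpectrum (F ⊗[K] Factor k K A u) ≃
      {m : MaximalSpectrum (F ⊗[k] A) // maxUnderGen k K F A m = u} :=
  Equiv.ofBijective (fun n => ⟨fibreMax k K F A u n, maxUnderGen_fibreMax k K F A u n⟩)
    ⟨fun n n' h => fibreMax_injective k K F A u (congrArg Subtype.val h),
      fun m => by
        obtain ⟨n, hn⟩ := exists_fibreMax_eq k K F A u m.1 m.2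
        exact ⟨n, Subtype.ext hn⟩⟩

@[simp] theorem fibreEquiv_apply_coe (u : MaximalSpectrum (K ⊗[k] A))
    (n : MaximalSpectrum (F ⊗[K] Factor k K A u)) :
    ((fibreEquiv k K F A u n : {m : MaximalSpectrum (F ⊗[k] A) // maxUnderGen k K F A m = u}) :
      MaximalSpectrum (F ⊗[k] A)) = fibreMax k K F A u n := rfl

/-- The fibre dictionary is Galois-equivariant. -/
theorem fibreMax_smul (σ : F ≃ₐ[K] F) (u : MaximalSpectrum (K ⊗[k] A))
    (n : MaximalSpectrum (F ⊗[K] Factor k K A u)) :
    fibreMax k K F A u (σ • n) = σ • fibreMax k K F A u n := by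
  apply MaximalSpectrum.ext
  ext t
  rw [mem_fibreMax_iff, mem_smul_max_iff, mem_smul_max_iff, mem_fibreMax_iff, tProj_smul]

/-- The residue fields agree: `(F ⊗[k] A) ⧸ m ≃ (F ⊗[K] K_u) ⧸ n` for `m = fibreMax u n`. -/
def fibreResidueEquiv (u : MaximalSpectrum (K ⊗[k] A))
    (n : MaximalSpectrum (F ⊗[K] Factor k K A u)) :
    ((F ⊗[k] A) ⧸ (fibreMax k K F A u n).asIdeal) ≃+* ((F ⊗[K] Factor k K A u) ⧸ n.asIdeal) :=
  RingEquiv.ofBijective
    (Ideal.quotientMap n.asIdeal (tProj k K F A u : F ⊗[k] A →+* F ⊗[K] Factor k K A u)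
      (le_refl _))
    ⟨Ideal.quotientMap_injective,
      Ideal.quotientMap_surjective (tProj_surjective k K F A u)⟩

@[simp] theorem fibreResidueEquiv_mk (u : MaximalSpectrum (K ⊗[k] A))
    (n : MaximalSpectrum (F ⊗[K] Factor k K A u)) (t : F ⊗[k] A) :
    fibreResidueEquiv k K F A u n (Ideal.Quotient.mk _ t) =
      Ideal.Quotient.mk n.asIdeal (tProj k K F A u t) := rfl

end GeneralFibre

section PlacesFibre

open scoped Pointwise

variable (K F : Type) [Field K] [NumberField K] [Field F] [NumberField F] [Algebra K F]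
  (q : Nat.Primes)

theorem maxUnder_eq_maxUnderGen (m : H54.Place F q) :
    maxUnder K F q m = maxUnderGen ℚ K F ℚ_[q] m := rfl

/-- **Fibre dictionary for places**: the maximal ideals of `F ⊗[K] K_u` are the places of `F`
above the place `u` of `K`. -/
def placeFibreEquiv (u : H54.Place K q) :
    MaximalSpectrum (F ⊗[K] LocFactor K q u) ≃ {m : H54.Place F q // maxUnder K F q m = u} :=
  fibreEquiv ℚ K F ℚ_[q] u

theorem placeFibreEquiv_apply_coe (u : H54.Place K q)
    (n : MaximalSpectrum (F ⊗[K] LocFactor K q u)) :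
    ((placeFibreEquiv K F q u n : {m : H54.Place F q // maxUnder K F q m = u}) : H54.Place F q) =
      fibreMax ℚ K F ℚ_[q] u n := rfl

/-- The local field of `F` at the place attached to `n` is the residue field of `F ⊗[K] K_u`
at `n`. -/
def placeResidueEquiv (u : H54.Place K q) (n : MaximalSpectrum (F ⊗[K] LocFactor K q u)) :
    H54.locField (fibreMax ℚ K F ℚ_[q] u n) ≃+* ((F ⊗[K] LocFactor K q u) ⧸ n.asIdeal) :=
  fibreResidueEquiv ℚ K F ℚ_[q] u n

theorem placeResidueEquiv_locMk (u : H54.Place K q)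
    (n : MaximalSpectrum (F ⊗[K] LocFactor K q u)) (t : H42.locAlg F q) :
    placeResidueEquiv K F q u n (H54.locMk _ t) =
      Ideal.Quotient.mk n.asIdeal (tProj ℚ K F ℚ_[q] u t) := rfl

theorem placeResidueEquiv_toLocField (u : H54.Place K q)
    (n : MaximalSpectrum (F ⊗[K] LocFactor K q u)) (x : F) :
    placeResidueEquiv K F q u n (H54.toLocField _ x) =
      Ideal.Quotient.mk n.asIdeal (x ⊗ₜ[K] (1 : LocFactor K q u)) := by
  rw [H54.toLocField_apply, placeResidueEquiv_locMk, tProj_tmul, map_one]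

/-- Compatibility with the structure maps from `K_u`. -/
theorem placeResidueEquiv_baseIncl (u : H54.Place K q)
    (n : MaximalSpectrum (F ⊗[K] LocFactor K q u)) (t : H42.locAlg K q) :
    placeResidueEquiv K F q u n
        (H54.locMk _ (H42.baseIncl (k := ℚ) (K := K) (L := F) (A := ℚ_[q]) t)) =
      Ideal.Quotient.mk n.asIdeal ((1 : F) ⊗ₜ[K] toFactor ℚ K ℚ_[q] u t) := by
  rw [placeResidueEquiv_locMk, tProj_baseIncl]

theorem smul_prime_asIdeal (σ : F ≃ₐ[K] F) (v : HeightOneSpectrum (𝓞 F)) :
    (σ • v).asIdeal = σ • v.asIdeal := by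
  ext x
  rw [H23.mem_smul_prime_iff, Ideal.mem_pointwise_smul_iff_inv_smul_mem]

/-- **Transitivity**: for `F/K` Galois, `Gal(F/K)` acts transitively on the places of `F` above
a given place of `K`. -/
theorem exists_smul_place_eq [IsGalois K F] (m m' : H54.Place F q)
    (h : maxUnder K F q m = maxUnder K F q m') : ∃ σ : F ≃ₐ[K] F, σ • m = m' := by
  have hu : (H54.primeAt m).under (𝓞 K) = (H54.primeAt m').under (𝓞 K) := by
    rw [← primeAt_maxUnder, ← primeAt_maxUnder, h]
  have h1 : (H54.primeAt m).asIdeal.LiesOver ((H54.primeAt m).under (𝓞 K)).asIdeal := ⟨rfl⟩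
  have h2 : (H54.primeAt m').asIdeal.LiesOver ((H54.primeAt m).under (𝓞 K)).asIdeal :=
    ⟨by rw [hu]; rfl⟩
  obtain ⟨σ, hσ⟩ := Ideal.exists_smul_eq_of_isGaloisGroup ((H54.primeAt m).under (𝓞 K)).asIdeal
    (H54.primeAt m).asIdeal (H54.primeAt m').asIdeal (F ≃ₐ[K] F)
  refine ⟨σ, H54.primeAt_injective ?_⟩
  rw [primeAt_smul F K q σ m]
  exact HeightOneSpectrum.ext (by rw [smul_prime_asIdeal, hσ])

/-- The stabiliser of a place is the decomposition group of its prime. -/
theorem stabilizer_place_eq (m : H54.Place F q) :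
    MulAction.stabilizer (F ≃ₐ[K] F) m = MulAction.stabilizer (F ≃ₐ[K] F) (H54.primeAt m) := by
  ext σ
  rw [MulAction.mem_stabilizer_iff, MulAction.mem_stabilizer_iff, ← primeAt_smul F K q σ m]
  exact ⟨fun h => by rw [h], fun h => H54.primeAt_injective h⟩

/-- **Local degree**: the decomposition group of a place `m` of `F` above the place `u` of `K`
has order `e_u f_u`. -/
theorem card_stabilizer_place [IsGalois K F] (m : H54.Place F q) :
    Nat.card (MulAction.stabilizer (F ≃ₐ[K] F) m) =
      (H54.primeAt (maxUnder K F q m)).asIdeal.ramificationIdxIn (𝓞 F) *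
        (H54.primeAt (maxUnder K F q m)).asIdeal.inertiaDegIn (𝓞 F) := by
  rw [stabilizer_place_eq, primeAt_maxUnder]
  have h1 : (H54.primeAt m).asIdeal.LiesOver ((H54.primeAt m).under (𝓞 K)).asIdeal := ⟨rfl⟩
  have h2 : MulAction.stabilizer (F ≃ₐ[K] F) (H54.primeAt m) =
      MulAction.stabilizer (F ≃ₐ[K] F) (H54.primeAt m).asIdeal := by
    ext σ
    rw [MulAction.mem_stabilizer_iff, MulAction.mem_stabilizer_iff, ← smul_prime_asIdeal]
    exact ⟨fun h => by rw [h], fun h => HeightOneSpectrum.ext h⟩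
  rw [h2]
  exact Ideal.card_stabilizer_eq (G := F ≃ₐ[K] F) ((H54.primeAt m).under (𝓞 K)).asIdeal
    (H54.primeAt m).asIdeal

end PlacesFibre
end
end Fermat.Agent.CFT.H18
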