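/-
CFT layer C, package C-LOC-induced (helper42), part (P1-Ĥ⁰): invariants and norms for induced
rings.  In the setting of `H42_CoindRing` (`E ≃+* coindRing D F` via `x ↦ (g ↦ π (g • x))`):

* `π` restricts to a bijection `E^G ≃ F^D` (and `(Eˣ)^G ≃ (Fˣ)^D`);
* a `G`-invariant unit `u` of `E` is a `G`-norm iff `π u` is a `D`-norm.

Hence `(Eˣ)^G / N_G Eˣ ≅ (Fˣ)^D / N_D Fˣ` (Shapiro in Tate degree `0`), in elementary form.
Mathlib only (+ H42_CoindRing).
-/
import Mathlib
import Fermat.Agent.CFT.H42_CoindRing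

namespace Fermat.Agent.CFT.H42

open scoped Pointwise

noncomputable section

section Invariants

variable {G : Type*} [Group G] [Finite G] {E : Type*} [CommRing E] [MulSemiringAction G E]
  (D : Subgroup G) {F : Type*} [CommRing F] [MulSemiringAction D F]
  (π : E →+* F) (hD : ∀ (d : D) (x : E), π ((d : G) • x) = d • π x)
  (hπ : Function.Surjective π)
  (hcop : ∀ g : G, g ∉ D → RingHom.ker π ⊔ g • RingHom.ker π = ⊤)
  (hinf : ∀ x : E, (∀ g : G, π (g • x) = 0) → x = 0)

omit [Finite G] in
include hD in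
/-- `π` maps `G`-invariants to `D`-invariants. -/
theorem pi_fixed_of_fixed {x : E} (hx : ∀ g : G, g • x = x) (d : D) : d • π x = π x := by
  rw [← hD, hx]

omit [Finite G] in
include hinf in
/-- `π` is injective on `G`-invariants. -/
theorem eq_of_fixed_of_pi_eq {x y : E} (hx : ∀ g : G, g • x = x) (hy : ∀ g : G, g • y = y)
    (h : π x = π y) : x = y := by
  have : x - y = 0 := by
    apply hinf
    intro g
    rw [smul_sub, hx, hy, map_sub, h, sub_self]
  exact sub_eq_zero.mp this

include hD hπ hcop hinf in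
/-- Every `D`-invariant of `F` is the image of a (unique) `G`-invariant of `E`. -/
theorem exists_fixed_pi_eq {y : F} (hy : ∀ d : D, d • y = y) :
    ∃ x : E, (∀ g : G, g • x = x) ∧ π x = y := by
  let f : coindRing D F := ⟨fun _ => y, fun d _ => (hy d).symm⟩
  obtain ⟨x, hx⟩ := (coindRingEquiv D π hD hπ hcop hinf).surjective f
  have hval : ∀ g : G, π (g • x) = y := fun g => by
    have := congrArg (fun f : coindRing D F => (f : G → F) g) hx
    exact this
  refine ⟨x, fun g => ?_, by simpa using hval 1⟩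
  apply (coindRingEquiv D π hD hπ hcop hinf).injective
  apply Subtype.ext
  funext h
  show π (h • g • x) = π (h • x)
  rw [smul_smul, hval, hval]

include hD hπ hcop hinf in
/-- Every `D`-invariant unit of `F` is the image of a (unique) `G`-invariant unit of `E`. -/
theorem exists_fixed_unit_pi_eq {y : Fˣ} (hy : ∀ d : D, d • (y : F) = y) :
    ∃ x : Eˣ, (∀ g : G, g • (x : E) = x) ∧ π x = y := by
  obtain ⟨x, hx, hxy⟩ := exists_fixed_pi_eq D π hD hπ hcop hinf hy
  have hy' : ∀ d : D, d • ((y⁻¹ : Fˣ) : F) = ((y⁻¹ : Fˣ) : F) := fun d => by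
    have h1 : d • ((y : F) * ((y⁻¹ : Fˣ) : F)) = 1 := by rw [Units.mul_inv, smul_one]
    rw [smul_mul', hy d] at h1
    exact (Units.eq_inv_of_mul_eq_one_right (by rw [mul_comm]; exact h1))
  obtain ⟨x', hx', hxy'⟩ := exists_fixed_pi_eq D π hD hπ hcop hinf hy'
  have hmul : x * x' = 1 := by
    apply eq_of_fixed_of_pi_eq π hinf
    · intro g
      rw [smul_mul', hx, hx']
    · intro g
      exact smul_one g
    · rw [map_mul, hxy, hxy', Units.mul_inv, map_one]
  exact ⟨⟨x, x', hmul, by rw [mul_comm, hmul]⟩, hx, hxy⟩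

end Invariants

section Norms

variable {G : Type*} [Group G] [Fintype G] {E : Type*} [CommRing E] [MulSemiringAction G E]
  (D : Subgroup G) [Fintype D] {F : Type*} [CommRing F] [MulSemiringAction D F]
  (π : E →+* F) (hD : ∀ (d : D) (x : E), π ((d : G) • x) = d • π x)
  (hπ : Function.Surjective π)
  (hcop : ∀ g : G, g ∉ D → RingHom.ker π ⊔ g • RingHom.ker π = ⊤)
  (hinf : ∀ x : E, (∀ g : G, π (g • x) = 0) → x = 0)

include hD in
/-- `π (N_G x)` is a product of `D`-norms, hence a `D`-norm: explicit element. -/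
theorem pi_galNorm_eq (x : E) :
    ∃ w : E, π (∏ g : G, g • x) = ∏ d : D, d • π w := by
  classical
  -- choose a right transversal `T`: `G = ⨆ t ∈ T, D t`
  obtain ⟨T, hT, -⟩ := D.exists_isComplement_right 1
  have hbij : Function.Bijective fun p : D × T => (p.1 : G) * (p.2 : G) := hT
  let _ : Fintype T := Fintype.ofFinite T
  refine ⟨∏ t : T, (t : G) • x, ?_⟩
  have h1 : ∏ g : G, g • x = ∏ p : D × T, ((p.1 : G) * (p.2 : G)) • x :=
    (Fintype.prod_bijective _ hbij _ _ (fun _ => rfl)).symm
  rw [h1, Fintype.prod_prod_type, map_prod]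
  refine Finset.prod_congr rfl fun d _ => ?_
  rw [← hD, Finset.smul_prod']
  congr 1
  refine Finset.prod_congr rfl fun t _ => ?_
  rw [mul_smul]

include hD hπ hcop hinf in
/-- Every `D`-norm of a unit of `F` is `π` of a `G`-norm of a unit of `E`. -/
theorem exists_unit_pi_galNorm_eq (v : Fˣ) :
    ∃ u : Eˣ, π (∏ g : G, g • (u : E)) = ∏ d : D, d • (v : F) := by
  classical
  -- the function supported on `D`: `d ↦ d • v`, `1` outside `D`
  let f : coindRing D F := ⟨fun g => if h : g ∈ D then (⟨g, h⟩ : D) • (v : F) else 1, fun d g => by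
    by_cases h : g ∈ D
    · have h' : (d : G) * g ∈ D := D.mul_mem d.2 h
      simp only [h, h', dif_pos]
      rw [← mul_smul]
      rfl
    · have h' : (d : G) * g ∉ D := fun hh => h (by
        have := D.mul_mem (D.inv_mem d.2) hh
        simpa using this)
      simp only [h, h', dif_neg, not_false_eq_true, smul_one]⟩
  let finv : coindRing D F :=
    ⟨fun g => if h : g ∈ D then (⟨g, h⟩ : D) • ((v⁻¹ : Fˣ) : F) else 1, fun d g => by
    by_cases h : g ∈ D
    · have h' : (d : G) * g ∈ D := D.mul_mem d.2 h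
      simp only [h, h', dif_pos]
      rw [← mul_smul]
      rfl
    · have h' : (d : G) * g ∉ D := fun hh => h (by
        have := D.mul_mem (D.inv_mem d.2) hh
        simpa using this)
      simp only [h, h', dif_neg, not_false_eq_true, smul_one]⟩
  have hmul : f * finv = 1 := by
    apply Subtype.ext
    funext g
    show (if h : g ∈ D then (⟨g, h⟩ : D) • (v : F) else 1) *
      (if h : g ∈ D then (⟨g, h⟩ : D) • ((v⁻¹ : Fˣ) : F) else 1) = 1
    by_cases h : g ∈ D
    · simp only [h, dif_pos]
      rw [← smul_mul', Units.mul_inv, smul_one]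
    · simp only [h, dif_neg, not_false_eq_true, mul_one]
  let e := coindRingEquiv D π hD hπ hcop hinf
  let u : Eˣ := ⟨e.symm f, e.symm finv, by rw [← map_mul, hmul, map_one],
    by rw [← map_mul, mul_comm, hmul, map_one]⟩
  refine ⟨u, ?_⟩
  have hval : ∀ g : G, π (g • (u : E)) = (f : G → F) g := fun g => by
    have : e (u : E) = f := e.apply_symm_apply f
    have := congrArg (fun f : coindRing D F => (f : G → F) g) this
    exact this
  rw [map_prod]
  simp only [hval]
  -- ∏_{g ∈ G} f g = ∏_{d ∈ D} d • v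
  have h2 : ∏ g : G, (f : G → F) g = ∏ g ∈ Finset.univ.filter (fun g : G => g ∈ D),
      (f : G → F) g := by
    rw [Finset.prod_filter]
    refine Finset.prod_congr rfl fun g _ => ?_
    by_cases h : g ∈ D
    · simp [h]
    · simp only [h, if_false]
      show (if h : g ∈ D then (⟨g, h⟩ : D) • (v : F) else 1) = 1
      simp [h]
  rw [h2]
  refine Finset.prod_bij' (fun g hg => (⟨g, (Finset.mem_filter.mp hg).2⟩ : D))
    (fun d _ => (d : G)) (fun _ _ => Finset.mem_univ _)
    (fun d _ => Finset.mem_filter.mpr ⟨Finset.mem_univ _, d.2⟩) (fun _ _ => rfl) (fun _ _ => rfl)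
    (fun g hg => ?_)
  have h : g ∈ D := (Finset.mem_filter.mp hg).2
  show (if h : g ∈ D then (⟨g, h⟩ : D) • (v : F) else 1) = _
  simp [h]

include hD hπ hcop hinf in
/-- **Shapiro in Tate degree 0, elementary form**: a `G`-invariant unit `u` of `E` is a `G`-norm
of a unit iff `π u` is a `D`-norm of a unit of `F`. -/
theorem isGalNorm_iff (u : Eˣ) (hu : ∀ g : G, g • (u : E) = u) :
    (∃ v : Eˣ, ∏ g : G, g • (v : E) = u) ↔ ∃ w : Fˣ, ∏ d : D, d • (w : F) = π u := by
  constructor
  · rintro ⟨v, hv⟩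
    obtain ⟨w, hw⟩ := pi_galNorm_eq D π hD (v : E)
    rw [hv] at hw
    -- `π w` is a unit since the product of its `D`-translates is the unit `π u`
    have hunit : IsUnit (∏ d : D, d • π w) := by
      rw [← hw]
      exact u.isUnit.map π
    have h1 : IsUnit ((1 : D) • π w) := (IsUnit.prod_iff.mp hunit) 1 (Finset.mem_univ _)
    rw [one_smul] at h1
    obtain ⟨w0, hw0⟩ := h1
    exact ⟨w0, by rw [hw0, hw]⟩
  · rintro ⟨w, hw⟩
    obtain ⟨v, hv⟩ := exists_unit_pi_galNorm_eq D π hD hπ hcop hinf w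
    refine ⟨v, ?_⟩
    apply eq_of_fixed_of_pi_eq π hinf _ hu
    · rw [hv, hw]
    · intro g
      rw [Finset.smul_prod']
      exact Fintype.prod_equiv (Equiv.mulLeft g) _ _ (fun h => by simp [mul_smul])

end Norms

end

end Fermat.Agent.CFT.H42
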