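/-
CFT layer C, package C-LOC-induced (helper42), part (P2): the semilocal algebra
`E = F ⊗[K] K₁` (`F/K` finite Galois with group `G`, `K₁/K` any field extension).

* general tower `k ⊆ K ⊆ F`, `A` a nontrivial `k`-algebra:
  `IsGaloisGroup Gal(F/K) (K ⊗[k] A) (F ⊗[k] A)` (Galois descent in Mathlib's vocabulary), hence
  `Gal(F/K)` is transitive on the primes of `F ⊗[k] A` over a given prime of `K ⊗[k] A`;
* the stabiliser of an ideal acts on the quotient ring (`stabilizerQuotientAction`);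
* for `E = F ⊗[K] K₁`: `IsGaloisGroup G K₁ E`; `G` is transitive on the maximal ideals of `E`;
  for a maximal ideal `m` with stabiliser `D` and `π = Ideal.Quotient.mk m` the hypotheses
  `hD, hπ, hcop, hinf` of `H42_CoindRing` / `H42_CoindNorm` hold; `IsGaloisGroup D K₁ (E ⧸ m)`
  (so `E ⧸ m` is finite Galois over `K₁` with group `D`, `[E ⧸ m : K₁] = |D|`);
  Shapiro: `H^n(G, Eˣ) ≅ H^n(D, (E ⧸ m)ˣ)` and the norm-index statement.
-/
import Mathlib
import Fermat.Agent.CFT.H42_TensorUnits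
import Fermat.Agent.CFT.H42_CoindNorm

namespace Fermat.Agent.CFT.H42

open scoped TensorProduct Pointwise

noncomputable section

/-! ### The stabiliser of an ideal acts on the quotient ring -/

section QuotientAction

variable {G : Type*} [Group G] {E : Type*} [CommRing E] [MulSemiringAction G E] (I : Ideal E)

theorem stabilizer_map_eq (d : MulAction.stabilizer G I) :
    I = I.map (MulSemiringAction.toRingEquiv G E (d : G)) := by
  have h := d.2
  rw [MulAction.mem_stabilizer_iff, Ideal.pointwise_smul_def] at h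
  exact h.symm

/-- The ring automorphism of `E ⧸ I` induced by an element of the stabiliser of `I`. -/
def stabQuotEquiv (d : MulAction.stabilizer G I) : (E ⧸ I) ≃+* (E ⧸ I) :=
  Ideal.quotientEquiv I I (MulSemiringAction.toRingEquiv G E (d : G)) (stabilizer_map_eq I d)

theorem stabQuotEquiv_mk (d : MulAction.stabilizer G I) (x : E) :
    stabQuotEquiv I d (Ideal.Quotient.mk I x) = Ideal.Quotient.mk I ((d : G) • x) := rfl

/-- The stabiliser of `I` acts on `E ⧸ I` by ring automorphisms. -/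
def stabQuotHom : MulAction.stabilizer G I →* RingAut (E ⧸ I) where
  toFun := stabQuotEquiv I
  map_one' := by
    ext x
    obtain ⟨x, rfl⟩ := Ideal.Quotient.mk_surjective x
    simp [stabQuotEquiv_mk]
  map_mul' a b := by
    ext x
    obtain ⟨x, rfl⟩ := Ideal.Quotient.mk_surjective x
    simp [stabQuotEquiv_mk, mul_smul]

/-- The stabiliser of an ideal `I` acts on the quotient ring `E ⧸ I`. -/
instance stabilizerQuotientAction : MulSemiringAction (MulAction.stabilizer G I) (E ⧸ I) :=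
  MulSemiringAction.compHom (E ⧸ I) (stabQuotHom I)

theorem stabilizer_smul_mk (d : MulAction.stabilizer G I) (x : E) :
    d • (Ideal.Quotient.mk I x) = Ideal.Quotient.mk I ((d : G) • x) := rfl

/-- The induced action of the stabiliser on the units of the quotient ring. -/
instance stabilizerQuotientUnitsAction :
    MulDistribMulAction (MulAction.stabilizer G I) (E ⧸ I)ˣ :=
  Units.mulDistribMulActionRight

@[simp] theorem coe_stabilizer_smul_units (d : MulAction.stabilizer G I) (u : (E ⧸ I)ˣ) :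
    ((d • u : (E ⧸ I)ˣ) : E ⧸ I) = d • (u : E ⧸ I) := rfl

end QuotientAction

/-! ### A finite group acting transitively on the maximal ideals of a ring with zero Jacobson
radical: the hypotheses of `H42_CoindRing` hold for `D` = stabiliser, `π` = quotient map. -/

section Semilocal

variable {G : Type*} [Group G] {E : Type*} [CommRing E] [MulSemiringAction G E]
  (m : Ideal E) [hm : m.IsMaximal]

omit hm in
/-- `hD` of `H42_CoindRing` for the quotient map. -/
theorem quot_hD (d : MulAction.stabilizer G m) (x : E) :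
    Ideal.Quotient.mk m ((d : G) • x) = d • Ideal.Quotient.mk m x := rfl

theorem isMaximal_smul (g : G) : (g • m).IsMaximal := by
  rw [Ideal.pointwise_smul_def]
  exact Ideal.IsMaximal.map_bijective (f := MulSemiringAction.toRingHom G E g)
    (MulSemiringAction.toRingEquiv G E g).bijective hm

/-- `hcop` of `H42_CoindRing` for the quotient map by a maximal ideal. -/
theorem quot_hcop (g : G) (hg : g ∉ MulAction.stabilizer G m) :
    RingHom.ker (Ideal.Quotient.mk m) ⊔ g • RingHom.ker (Ideal.Quotient.mk m) = ⊤ := by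
  rw [Ideal.mk_ker]
  exact Ideal.IsMaximal.coprime_of_ne hm (isMaximal_smul m g)
    (fun h => hg (MulAction.mem_stabilizer_iff.mpr h.symm))

omit hm in
/-- `hinf` of `H42_CoindRing` for the quotient map: if `G` is transitive on the maximal ideals
and the Jacobson radical vanishes. -/
theorem quot_hinf (htrans : ∀ n : Ideal E, n.IsMaximal → ∃ g : G, n = g • m)
    (hjac : ∀ x : E, (∀ n : Ideal E, n.IsMaximal → x ∈ n) → x = 0)
    (x : E) (hx : ∀ g : G, Ideal.Quotient.mk m (g • x) = 0) : x = 0 := by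
  apply hjac
  intro n hn
  obtain ⟨g, rfl⟩ := htrans n hn
  rw [Ideal.mem_pointwise_smul_iff_inv_smul_mem]
  exact Ideal.Quotient.eq_zero_iff_mem.mp (hx g⁻¹)

end Semilocal

/-! ### Galois descent in the `IsGaloisGroup` vocabulary -/

section GaloisDescent

variable (k K F A : Type*) [Field k] [Field K] [Field F] [CommRing A]
  [Algebra k K] [Algebra k F] [Algebra K F] [IsScalarTower k K F] [Algebra k A]

/-- `F ⊗[k] A` as an algebra over `K ⊗[k] A` (through `baseIncl`; not an instance). -/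
abbrev baseAlgebra : Algebra (K ⊗[k] A) (F ⊗[k] A) :=
  (baseIncl (k := k) (K := K) (L := F) (A := A)).toRingHom.toAlgebra

/-- The action of `Gal(F/K)` on `F ⊗[k] A` is faithful (`A` nontrivial). -/
theorem tensor_faithfulSMul [Nontrivial A] : FaithfulSMul (F ≃ₐ[K] F) (F ⊗[k] A) := by
  refine ⟨fun {σ τ} h => ?_⟩
  apply AlgEquiv.ext
  intro f
  have h1 := h ((f : F) ⊗ₜ[k] (1 : A))
  rw [smul_tmul_left, smul_tmul_left] at h1
  exact algebraMap_tensor_injective k A F
    (by simpa [Algebra.TensorProduct.algebraMap_apply] using h1)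

/-- **Galois descent**: `Gal(F/K)` is a Galois group for `F ⊗[k] A` over `K ⊗[k] A`. -/
theorem isGaloisGroup_tensor [IsGalois K F] [Nontrivial A] :
    letI := baseAlgebra k K F A
    IsGaloisGroup (F ≃ₐ[K] F) (K ⊗[k] A) (F ⊗[k] A) := by
  let _ := baseAlgebra k K F A
  refine ⟨tensor_faithfulSMul k K F A, ⟨fun σ r x => ?_⟩, ⟨fun x hx => ?_⟩⟩
  · rw [Algebra.smul_def, Algebra.smul_def, smul_mul']
    congr 1
    exact smul_baseIncl σ r
  · exact (fixed_iff_mem_range_baseIncl' x).mp hx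

/-- `Gal(F/K)` is transitive on the primes of `F ⊗[k] A` above a given prime of `K ⊗[k] A`. -/
theorem exists_smul_eq_of_comap_eq [FiniteDimensional K F] [IsGalois K F] [Nontrivial A]
    (P Q : Ideal (F ⊗[k] A)) [P.IsPrime] [Q.IsPrime]
    (h : P.comap (baseIncl (k := k) (K := K) (L := F) (A := A)) =
      Q.comap (baseIncl (k := k) (K := K) (L := F) (A := A))) :
    ∃ σ : F ≃ₐ[K] F, Q = σ • P := by
  let _ := baseAlgebra k K F A
  have := isGaloisGroup_tensor k K F A
  exact Algebra.IsInvariant.exists_smul_of_under_eq (K ⊗[k] A) (F ⊗[k] A) (F ≃ₐ[K] F) P Q h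

end GaloisDescent

/-! ### The semilocal algebra `E = F ⊗[K] K₁` -/

section TensorField

variable (K F K₁ : Type*) [Field K] [Field F] [Field K₁] [Algebra K F] [Algebra K K₁]

attribute [local instance] Algebra.TensorProduct.rightAlgebra

theorem includeRight_lid_eq_baseIncl (y : K ⊗[K] K₁) :
    (1 : F) ⊗ₜ[K] (Algebra.TensorProduct.lid K K₁ y) =
      baseIncl (k := K) (K := K) (L := F) (A := K₁) y := by
  induction y using TensorProduct.induction_on with
  | zero => simp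
  | tmul c b =>
    rw [Algebra.TensorProduct.lid_tmul, baseIncl_tmul, TensorProduct.tmul_smul,
      TensorProduct.smul_tmul', Algebra.algebraMap_eq_smul_one]
  | add x y hx hy => rw [map_add, TensorProduct.tmul_add, hx, hy, map_add]

/-- `Gal(F/K)` is a Galois group for `F ⊗[K] K₁` over `K₁` (right algebra structure):
faithful action, commuting with `K₁`, invariants `= K₁`. -/
theorem isGaloisGroup_tensorField [IsGalois K F] :
    IsGaloisGroup (F ≃ₐ[K] F) K₁ (F ⊗[K] K₁) := by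
  refine ⟨tensor_faithfulSMul K K F K₁, ⟨fun σ a x => ?_⟩, ⟨fun x hx => ?_⟩⟩
  · rw [Algebra.smul_def, Algebra.smul_def, Algebra.TensorProduct.right_algebraMap_apply]
    exact smul_includeRight_mul σ a x
  · obtain ⟨y, rfl⟩ := (fixed_iff_mem_range_baseIncl' x).mp hx
    exact ⟨Algebra.TensorProduct.lid K K₁ y, includeRight_lid_eq_baseIncl K F K₁ y⟩

/-- The invariants of `F ⊗[K] K₁` are `K₁`. -/
theorem tensorField_fixed_iff [IsGalois K F] (x : F ⊗[K] K₁) :
    (∀ σ : F ≃ₐ[K] F, σ • x = x) ↔ ∃ a : K₁, (1 : F) ⊗ₜ[K] a = x := by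
  constructor
  · intro hx
    exact (isGaloisGroup_tensorField K F K₁).isInvariant.isInvariant x hx
  · rintro ⟨a, rfl⟩ σ
    rw [smul_tmul_left, map_one]

/-- `F ⊗[K] K₁` is reduced (`F/K` finite separable). -/
theorem isReduced_tensorField [FiniteDimensional K F] [Algebra.IsSeparable K F] :
    IsReduced (F ⊗[K] K₁) := by
  have h1 : Algebra.FormallyUnramified K F := Algebra.FormallyUnramified.of_isSeparable K F
  have h2 : Algebra.FormallyUnramified K₁ (K₁ ⊗[K] F) := inferInstance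
  have h3 : Algebra.EssFiniteType K₁ (K₁ ⊗[K] F) := inferInstance
  have h4 : IsReduced (K₁ ⊗[K] F) := Algebra.FormallyUnramified.isReduced_of_field K₁ (K₁ ⊗[K] F)
  exact isReduced_of_injective (Algebra.TensorProduct.comm K F K₁).toRingEquiv.toRingHom
    (Algebra.TensorProduct.comm K F K₁).injective

/-- `F ⊗[K] K₁` is artinian (`F/K` finite). -/
theorem isArtinianRing_tensorField [FiniteDimensional K F] : IsArtinianRing (F ⊗[K] K₁) := by
  have h1 : Module.Finite K₁ (K₁ ⊗[K] F) := inferInstance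
  have h2 : IsArtinianRing (K₁ ⊗[K] F) := IsArtinianRing.of_finite K₁ _
  exact (Algebra.TensorProduct.comm K F K₁).toRingEquiv.symm.isArtinianRing

/-- The Jacobson radical of `F ⊗[K] K₁` vanishes. -/
theorem tensorField_jacobson [FiniteDimensional K F] [Algebra.IsSeparable K F]
    (x : F ⊗[K] K₁) (hx : ∀ n : Ideal (F ⊗[K] K₁), n.IsMaximal → x ∈ n) : x = 0 := by
  have := isReduced_tensorField K F K₁
  have := isArtinianRing_tensorField K F K₁
  have h : x ∈ nilradical (F ⊗[K] K₁) := by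
    rw [nilradical_eq_sInf, Ideal.mem_sInf]
    intro P hP
    have : P.IsPrime := hP
    exact hx P (IsArtinianRing.isMaximal_of_isPrime P)
  rw [nilradical_eq_zero] at h
  exact h

/-- `Gal(F/K)` acts transitively on the maximal ideals of `F ⊗[K] K₁`. -/
theorem exists_smul_eq_of_isMaximal [FiniteDimensional K F] [IsGalois K F]
    (m n : Ideal (F ⊗[K] K₁)) [hm : m.IsMaximal] [hn : n.IsMaximal] :
    ∃ σ : F ≃ₐ[K] F, n = σ • m := by
  have := isGaloisGroup_tensorField K F K₁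
  have h : ∀ (I : Ideal (F ⊗[K] K₁)), I.IsMaximal → I.under K₁ = ⊥ := fun I hI =>
    (Ideal.eq_bot_or_top _).resolve_right (Ideal.comap_ne_top _ hI.ne_top)
  exact Algebra.IsInvariant.exists_smul_of_under_eq K₁ (F ⊗[K] K₁) (F ≃ₐ[K] F) m n
    ((h m hm).trans (h n hn).symm)

end TensorField

/-! ### Residue fields of `E = F ⊗[K] K₁` and their decomposition groups -/

section Residue

variable (K F K₁ : Type*) [Field K] [Field F] [Field K₁] [Algebra K F] [Algebra K K₁]
  [FiniteDimensional K F] [IsGalois K F]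
  (m : Ideal (F ⊗[K] K₁)) [hm : m.IsMaximal]

attribute [local instance] Algebra.TensorProduct.rightAlgebra

/-- `hinf` of `H42_CoindRing` for `E = F ⊗[K] K₁`, `π = Ideal.Quotient.mk m`. -/
theorem tensorField_hinf (x : F ⊗[K] K₁)
    (hx : ∀ σ : F ≃ₐ[K] F, Ideal.Quotient.mk m (σ • x) = 0) : x = 0 :=
  quot_hinf m (fun n _ => exists_smul_eq_of_isMaximal K F K₁ m n) (tensorField_jacobson K F K₁)
    x hx

omit [FiniteDimensional K F] [IsGalois K F] in
/-- `F → (F ⊗[K] K₁) ⧸ m` is injective. -/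
theorem residue_algebraMap_injective :
    Function.Injective (algebraMap F ((F ⊗[K] K₁) ⧸ m)) := by
  have : Nontrivial ((F ⊗[K] K₁) ⧸ m) := Ideal.Quotient.nontrivial_iff.mpr hm.ne_top
  exact (algebraMap F ((F ⊗[K] K₁) ⧸ m)).injective

/-- **The decomposition group is the Galois group of the residue field**: the stabiliser `D` of
the maximal ideal `m` of `E = F ⊗[K] K₁` acts faithfully on `E ⧸ m`, with invariants `K₁`.
Consequently (Mathlib `IsGaloisGroup` API) `E ⧸ m` is finite Galois over `K₁`, of degree `|D|`,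
and `D ≃* Gal((E ⧸ m)/K₁)` (`IsGaloisGroup.mulEquivAlgEquiv`). -/
theorem isGaloisGroup_residue :
    IsGaloisGroup (MulAction.stabilizer (F ≃ₐ[K] F) m) K₁ ((F ⊗[K] K₁) ⧸ m) := by
  refine ⟨⟨fun {d d'} h => ?_⟩, ⟨fun d a y => ?_⟩, ⟨fun y hy => ?_⟩⟩
  · apply Subtype.ext
    apply AlgEquiv.ext
    intro f
    have h1 := h (Ideal.Quotient.mk m ((f : F) ⊗ₜ[K] (1 : K₁)))
    rw [stabilizer_smul_mk, stabilizer_smul_mk, smul_tmul_left, smul_tmul_left] at h1
    exact residue_algebraMap_injective K F K₁ m h1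
  · obtain ⟨x, rfl⟩ := Ideal.Quotient.mk_surjective y
    have hc := (isGaloisGroup_tensorField K F K₁).commutes.smul_comm (d : F ≃ₐ[K] F) a x
    show d • Ideal.Quotient.mk m (a • x) = a • Ideal.Quotient.mk m ((d : F ≃ₐ[K] F) • x)
    rw [stabilizer_smul_mk, hc]
    rfl
  · obtain ⟨x, hx, rfl⟩ := exists_fixed_pi_eq (MulAction.stabilizer (F ≃ₐ[K] F) m)
      (Ideal.Quotient.mk m) (quot_hD m) Ideal.Quotient.mk_surjective (quot_hcop m)
      (tensorField_hinf K F K₁ m) hy
    obtain ⟨a, rfl⟩ := (tensorField_fixed_iff K F K₁ x).mp hx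
    exact ⟨a, rfl⟩

/-- The residue field `E ⧸ m` is Galois over `K₁`. -/
theorem residue_isGalois :
    letI := Ideal.Quotient.field m
    IsGalois K₁ ((F ⊗[K] K₁) ⧸ m) := by
  let _ := Ideal.Quotient.field m
  have := isGaloisGroup_residue K F K₁ m
  exact IsGaloisGroup.isGalois (MulAction.stabilizer (F ≃ₐ[K] F) m) K₁ ((F ⊗[K] K₁) ⧸ m)

/-- The residue field `E ⧸ m` is finite over `K₁`. -/
theorem residue_finite : Module.Finite K₁ ((F ⊗[K] K₁) ⧸ m) := by
  let _ := Ideal.Quotient.field m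
  have := isGaloisGroup_residue K F K₁ m
  exact IsGaloisGroup.finiteDimensional (MulAction.stabilizer (F ≃ₐ[K] F) m) K₁
    ((F ⊗[K] K₁) ⧸ m)

/-- `|D| = [E ⧸ m : K₁]`. -/
theorem card_stabilizer_eq_finrank :
    Nat.card (MulAction.stabilizer (F ≃ₐ[K] F) m) = Module.finrank K₁ ((F ⊗[K] K₁) ⧸ m) := by
  let _ := Ideal.Quotient.field m
  have := isGaloisGroup_residue K F K₁ m
  exact IsGaloisGroup.card_eq_finrank (MulAction.stabilizer (F ≃ₐ[K] F) m) K₁
    ((F ⊗[K] K₁) ⧸ m)

/-- The decomposition group `D` is the Galois group of the residue field extension. -/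
def residueGalEquiv :
    letI := Ideal.Quotient.field m
    MulAction.stabilizer (F ≃ₐ[K] F) m ≃* (((F ⊗[K] K₁) ⧸ m) ≃ₐ[K₁] ((F ⊗[K] K₁) ⧸ m)) :=
  letI := Ideal.Quotient.field m
  haveI := isGaloisGroup_residue K F K₁ m
  IsGaloisGroup.mulEquivAlgEquiv (MulAction.stabilizer (F ≃ₐ[K] F) m) K₁ ((F ⊗[K] K₁) ⧸ m)

theorem residueGalEquiv_apply (d : MulAction.stabilizer (F ≃ₐ[K] F) m)
    (y : (F ⊗[K] K₁) ⧸ m) : residueGalEquiv K F K₁ m d y = d • y := rfl

/-- **Norm criterion** (Shapiro in Tate degree 0): `a ∈ K₁ˣ` is a `G`-norm from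
`E = F ⊗[K] K₁` iff it is a `D`-norm from the residue field `E ⧸ m`. -/
theorem tensorField_isNorm_iff [Fintype (MulAction.stabilizer (F ≃ₐ[K] F) m)] (a : K₁ˣ) :
    (∃ v : (F ⊗[K] K₁)ˣ, ∏ σ : F ≃ₐ[K] F, σ • (v : F ⊗[K] K₁) = (1 : F) ⊗ₜ[K] (a : K₁)) ↔
      ∃ w : ((F ⊗[K] K₁) ⧸ m)ˣ, ∏ d : MulAction.stabilizer (F ≃ₐ[K] F) m,
        d • (w : (F ⊗[K] K₁) ⧸ m) = algebraMap K₁ ((F ⊗[K] K₁) ⧸ m) a := by
  let u : (F ⊗[K] K₁)ˣ := Units.map (algebraMap K₁ (F ⊗[K] K₁)).toMonoidHom a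
  have hu : ∀ σ : F ≃ₐ[K] F, σ • (u : F ⊗[K] K₁) = u := fun σ => by
    show σ • ((1 : F) ⊗ₜ[K] (a : K₁)) = (1 : F) ⊗ₜ[K] (a : K₁)
    rw [smul_tmul_left, map_one]
  exact isGalNorm_iff (MulAction.stabilizer (F ≃ₐ[K] F) m) (Ideal.Quotient.mk m) (quot_hD m)
    Ideal.Quotient.mk_surjective (quot_hcop m) (tensorField_hinf K F K₁ m) u hu

/-- The maximal ideals of `E = F ⊗[K] K₁` form one `Gal(F/K)`-orbit. -/
theorem orbit_eq_isMaximal :
    MulAction.orbit (F ≃ₐ[K] F) m = {n : Ideal (F ⊗[K] K₁) | n.IsMaximal} := by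
  ext n
  constructor
  · rintro ⟨σ, rfl⟩
    exact isMaximal_smul m σ
  · intro hn
    obtain ⟨σ, h⟩ := exists_smul_eq_of_isMaximal K F K₁ m n (hn := hn)
    exact ⟨σ, h.symm⟩

/-- `#(maximal ideals of E) · |D| = [F : K]`. -/
theorem card_maximalSpectrum_mul_card_stabilizer :
    Nat.card (MaximalSpectrum (F ⊗[K] K₁)) *
      Nat.card (MulAction.stabilizer (F ≃ₐ[K] F) m) = Module.finrank K F := by
  rw [← IsGalois.card_aut_eq_finrank K F,
    ← Subgroup.index_mul_card (MulAction.stabilizer (F ≃ₐ[K] F) m), MulAction.index_stabilizer,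
    orbit_eq_isMaximal]
  congr 1
  rw [← Nat.card_coe_set_eq]
  exact Nat.card_congr (MaximalSpectrum.equivSubtype _)

/-- `#(maximal ideals of E) · [E ⧸ m : K₁] = [F : K]`. -/
theorem card_maximalSpectrum_mul_finrank_residue :
    Nat.card (MaximalSpectrum (F ⊗[K] K₁)) * Module.finrank K₁ ((F ⊗[K] K₁) ⧸ m) =
      Module.finrank K F := by
  rw [← card_stabilizer_eq_finrank, card_maximalSpectrum_mul_card_stabilizer]

end Residue

/-! ### Shapiro for `E = F ⊗[K] K₁` (universe `0`, `Rep ℤ` vocabulary) -/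

section Cohomology

variable (K F K₁ : Type) [Field K] [Field F] [Field K₁] [Algebra K F] [Algebra K K₁]
  [FiniteDimensional K F] [IsGalois K F]
  (m : Ideal (F ⊗[K] K₁)) [hm : m.IsMaximal]

attribute [local instance] Algebra.TensorProduct.rightAlgebra

/-- `(F ⊗[K] K₁)ˣ ≅ Coind_D^G ((F ⊗[K] K₁) ⧸ m)ˣ` in `Rep ℤ Gal(F/K)`, `D` the stabiliser
of the maximal ideal `m`; the map is `u ↦ (σ ↦ (σ • u mod m))`
(`inducedUnitsEquiv_apply`). -/
def tensorFieldUnitsIso :
    Rep.ofMulDistribMulAction (F ≃ₐ[K] F) (F ⊗[K] K₁)ˣ ≅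
      Rep.coind (MulAction.stabilizer (F ≃ₐ[K] F) m).subtype
        (Rep.ofMulDistribMulAction (MulAction.stabilizer (F ≃ₐ[K] F) m) ((F ⊗[K] K₁) ⧸ m)ˣ) :=
  inducedUnitsIso (MulAction.stabilizer (F ≃ₐ[K] F) m) (Ideal.Quotient.mk m) (quot_hD m)
    Ideal.Quotient.mk_surjective (quot_hcop m) (tensorField_hinf K F K₁ m)

/-- **Shapiro**: `Hⁿ(Gal(F/K), (F ⊗[K] K₁)ˣ) ≅ Hⁿ(D, ((F ⊗[K] K₁) ⧸ m)ˣ)`. -/
def tensorFieldCohomologyIso (n : ℕ) :
    groupCohomology (Rep.ofMulDistribMulAction (F ≃ₐ[K] F) (F ⊗[K] K₁)ˣ) n ≅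
      groupCohomology
        (Rep.ofMulDistribMulAction (MulAction.stabilizer (F ≃ₐ[K] F) m) ((F ⊗[K] K₁) ⧸ m)ˣ) n :=
  inducedCohomologyIso (MulAction.stabilizer (F ≃ₐ[K] F) m) (Ideal.Quotient.mk m) (quot_hD m)
    Ideal.Quotient.mk_surjective (quot_hcop m) (tensorField_hinf K F K₁ m) n

/-- Transport along `D ≃* Gal((E ⧸ m)/K₁)`:
`Hⁿ(D, (E ⧸ m)ˣ) ≅ Hⁿ(Gal((E ⧸ m)/K₁), (E ⧸ m)ˣ)`. -/
def residueCohomologyIso (n : ℕ) :
    groupCohomology
      (Rep.ofMulDistribMulAction (MulAction.stabilizer (F ≃ₐ[K] F) m) ((F ⊗[K] K₁) ⧸ m)ˣ) n ≅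
      groupCohomology (Rep.ofAlgebraAutOnUnits K₁ ((F ⊗[K] K₁) ⧸ m)) n :=
  groupCohomology.mapIso (residueGalEquiv K F K₁ m) (LinearEquiv.refl ℤ _) (fun _ => rfl) n

/-- **Local-global for the units of `F ⊗[K] K₁`**:
`Hⁿ(Gal(F/K), (F ⊗[K] K₁)ˣ) ≅ Hⁿ(Gal(L/K₁), Lˣ)`, `L = (F ⊗[K] K₁) ⧸ m`. -/
def tensorFieldResidueCohomologyIso (n : ℕ) :
    groupCohomology (Rep.ofMulDistribMulAction (F ≃ₐ[K] F) (F ⊗[K] K₁)ˣ) n ≅
      groupCohomology (Rep.ofAlgebraAutOnUnits K₁ ((F ⊗[K] K₁) ⧸ m)) n :=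
  tensorFieldCohomologyIso K F K₁ m n ≪≫ residueCohomologyIso K F K₁ m n

end Cohomology

end

end Fermat.Agent.CFT.H42
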