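/-
CFT layer C, package C-LOC-places-decomp (helper18), part 4: the tower of local fields
`K_u ⊆ F_m` and the decomposition group, in the vocabulary of `H54_Places`.

For number fields `K ⊆ F` (`Type`), a place `m` of `F` above `q` and `u = maxUnder m`:
* `locFieldIncl m u hu : K_u →+* F_m`, `locFieldAlgebra` (non-instance `Algebra K_u F_m`),
  `locField_isScalarTower` (over `ℚ_[q]`), `locField_algebraMap_toLocField` (= `hcomp` of
  `H27_FrobBridge`), `locField_finite`;
* `decompGroup m` (stabiliser of the ideal `m`), `decompGroup_eq` (= stabiliser of the place),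
  `decompAction : MulSemiringAction (decompGroup m) F_m`, `decomp_smul_locMk/_toLocField`;
* for `F/K` Galois: `exists_locFieldIncl_eq_of_fixed` (`F_m^{D_m} = K_u`),
  `isGaloisGroup_locField : IsGaloisGroup D_m K_u F_m`, `locField_isGalois`,
  `card_decompGroup_eq_finrank`, `finrank_locField_eq` (`[F_m : K_u] = e_u f_u`),
  `decompEquiv : D_m ≃* Gal(F_m/K_u)` with `decompEquiv_toLocField`.
-/
import Mathlib
import Fermat.Agent.CFT.H18_PlacesFibre
import Fermat.Agent.CFT.H42_TensorField

namespace Fermat.Agent.CFT.H18

open scoped TensorProduct NumberField Pointwise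
open IsDedekindDomain Fermat.Agent.CFT

set_option linter.style.haveILetI false
set_option linter.unusedSectionVars false

noncomputable section

section Tower

variable (K F : Type) [Field K] [NumberField K] [Field F] [NumberField F] [Algebra K F]
  (q : Nat.Primes)

/-- The inclusion of local fields `K_u → F_m` for a place `m` of `F` above the place `u` of
`K`. -/
def locFieldIncl (m : H54.Place F q) (u : H54.Place K q) (hu : maxUnder K F q m = u) :
    H54.locField u →+* H54.locField m :=
  locFieldMap (H42.baseIncl (k := ℚ) (K := K) (L := F) (A := ℚ_[q]) :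
    H42.locAlg K q →+* H42.locAlg F q) m u (by rw [← hu]; rfl)

theorem locFieldIncl_locMk (m : H54.Place F q) (u : H54.Place K q)
    (hu : maxUnder K F q m = u) (t : H42.locAlg K q) :
    locFieldIncl K F q m u hu (H54.locMk u t) =
      H54.locMk m (H42.baseIncl (k := ℚ) (K := K) (L := F) (A := ℚ_[q]) t) := rfl

theorem locFieldIncl_toLocField (m : H54.Place F q) (u : H54.Place K q)
    (hu : maxUnder K F q m = u) (x : K) :
    locFieldIncl K F q m u hu (H54.toLocField u x) = H54.toLocField m (algebraMap K F x) := rfl

theorem locFieldIncl_algebraMap (m : H54.Place F q) (u : H54.Place K q)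
    (hu : maxUnder K F q m = u) (c : ℚ_[q]) :
    locFieldIncl K F q m u hu (algebraMap ℚ_[q] (H54.locField u) c) =
      algebraMap ℚ_[q] (H54.locField m) c := by
  rw [H54.algebraMap_padic_apply, H54.algebraMap_padic_apply, locFieldIncl_locMk,
    H42.baseIncl_tmul, map_one]

/-- The `K_u`-algebra structure of `F_m` (not an instance: use `letI`). -/
abbrev locFieldAlgebra (m : H54.Place F q) (u : H54.Place K q) (hu : maxUnder K F q m = u) :
    Algebra (H54.locField u) (H54.locField m) :=
  (locFieldIncl K F q m u hu).toAlgebra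

theorem locField_isScalarTower (m : H54.Place F q) (u : H54.Place K q)
    (hu : maxUnder K F q m = u) :
    letI := locFieldAlgebra K F q m u hu
    IsScalarTower ℚ_[q] (H54.locField u) (H54.locField m) := by
  letI := locFieldAlgebra K F q m u hu
  exact IsScalarTower.of_algebraMap_eq (fun c => (locFieldIncl_algebraMap K F q m u hu c).symm)

/-- `hcomp` of `H27_FrobBridge`: the embeddings of the global fields are compatible. -/
theorem locField_algebraMap_toLocField (m : H54.Place F q) (u : H54.Place K q)
    (hu : maxUnder K F q m = u) (x : K) :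
    letI := locFieldAlgebra K F q m u hu
    H54.toLocField m (algebraMap K F x) =
      algebraMap (H54.locField u) (H54.locField m) (H54.toLocField u x) := rfl

theorem locField_finite (m : H54.Place F q) (u : H54.Place K q) (hu : maxUnder K F q m = u) :
    letI := locFieldAlgebra K F q m u hu
    Module.Finite (H54.locField u) (H54.locField m) := by
  letI := locFieldAlgebra K F q m u hu
  haveI := locField_isScalarTower K F q m u hu
  exact Module.Finite.of_restrictScalars_finite ℚ_[q] (H54.locField u) (H54.locField m)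

end Tower

section Decomp

variable (K F : Type) [Field K] [NumberField K] [Field F] [NumberField F] [Algebra K F]
  (q : Nat.Primes)

/-- The decomposition group of the place `m`: the stabiliser of the maximal ideal `m` under the
(pointwise) action of `Gal(F/K)` on the ideals of `F ⊗ ℚ_q`. -/
abbrev decompGroup (m : H54.Place F q) : Subgroup (F ≃ₐ[K] F) :=
  MulAction.stabilizer (F ≃ₐ[K] F) m.asIdeal

theorem smul_max_asIdeal (σ : F ≃ₐ[K] F) (m : H54.Place F q) :
    (σ • m).asIdeal = σ • m.asIdeal := by
  ext x
  rw [mem_smul_max_iff, Ideal.mem_pointwise_smul_iff_inv_smul_mem]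

theorem decompGroup_eq (m : H54.Place F q) :
    decompGroup K F q m = MulAction.stabilizer (F ≃ₐ[K] F) m := by
  ext σ
  rw [MulAction.mem_stabilizer_iff, MulAction.mem_stabilizer_iff, ← smul_max_asIdeal]
  exact ⟨fun h => MaximalSpectrum.ext h, fun h => by rw [h]⟩

/-- The decomposition group acts on the local field `F_m`. -/
instance decompAction (m : H54.Place F q) :
    MulSemiringAction (decompGroup K F q m) (H54.locField m) :=
  inferInstanceAs (MulSemiringAction (MulAction.stabilizer (F ≃ₐ[K] F) m.asIdeal)
    (H42.locAlg F q ⧸ m.asIdeal))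

theorem decomp_smul_locMk (m : H54.Place F q) (δ : decompGroup K F q m) (a : H42.locAlg F q) :
    δ • H54.locMk m a = H54.locMk m ((δ : F ≃ₐ[K] F) • a) := rfl

theorem decomp_smul_toLocField (m : H54.Place F q) (δ : decompGroup K F q m) (x : F) :
    δ • H54.toLocField m x = H54.toLocField m ((δ : F ≃ₐ[K] F) x) := by
  rw [H54.toLocField_apply, decomp_smul_locMk, H42.smul_tmul_left, H54.toLocField_apply]

/-- The CRT idempotent at `m` is `1` in `F_m`. -/
theorem locMk_factorIdem_self (m : H54.Place F q) :
    H54.locMk m (factorIdem ℚ F ℚ_[q] m) = 1 :=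
  toFactor_factorIdem_self ℚ F ℚ_[q] m

/-- For `σ` outside the decomposition group, `σ • e_m` vanishes in `F_m`. -/
theorem locMk_smul_factorIdem_of_notMem (m : H54.Place F q) (σ : F ≃ₐ[K] F)
    (hσ : σ ∉ decompGroup K F q m) :
    H54.locMk m (σ • factorIdem ℚ F ℚ_[q] m) = 0 := by
  rw [H54.locMk_eq_zero_iff]
  by_contra hne
  apply hσ
  have hm' : σ⁻¹ • m = m := by
    by_contra hm'
    apply hne
    have h0 : toFactor ℚ F ℚ_[q] (σ⁻¹ • m) (factorIdem ℚ F ℚ_[q] m) = 0 :=
      toFactor_factorIdem_of_ne ℚ F ℚ_[q] hm'
    have h1 : factorIdem ℚ F ℚ_[q] m ∈ (σ⁻¹ • m).asIdeal := Ideal.Quotient.eq_zero_iff_mem.mp h0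
    rw [mem_smul_max_iff, inv_inv] at h1
    exact h1
  rw [decompGroup_eq, MulAction.mem_stabilizer_iff]
  have := congrArg (fun n => σ • n) hm'
  simp only [smul_inv_smul] at this
  exact this.symm

theorem locMk_smul_mul_factorIdem (m : H54.Place F q) (σ : F ≃ₐ[K] F) (a : H42.locAlg F q)
    (hy : ∀ δ : decompGroup K F q m, δ • H54.locMk m a = H54.locMk m a) :
    H54.locMk m (σ • (factorIdem ℚ F ℚ_[q] m * a)) =
      letI := Classical.dec (σ ∈ decompGroup K F q m)
      if σ ∈ decompGroup K F q m then H54.locMk m a else 0 := by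
  letI := Classical.dec (σ ∈ decompGroup K F q m)
  have h0 : H54.locMk m (σ • (factorIdem ℚ F ℚ_[q] m * a)) =
      H54.locMk m (σ • factorIdem ℚ F ℚ_[q] m) * H54.locMk m (σ • a) :=
    (congrArg (H54.locMk m) (smul_mul' σ (factorIdem ℚ F ℚ_[q] m) a)).trans (map_mul _ _ _)
  split_ifs with h
  · have h1 : H54.locMk m (σ • factorIdem ℚ F ℚ_[q] m) = 1 := by
      have := decomp_smul_locMk K F q m ⟨σ, h⟩ (factorIdem ℚ F ℚ_[q] m)
      exact this.symm.trans ((congrArg _ (locMk_factorIdem_self F q m)).trans (smul_one _))
    have h2 : H54.locMk m (σ • a) = H54.locMk m a :=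
      (decomp_smul_locMk K F q m ⟨σ, h⟩ a).symm.trans (hy ⟨σ, h⟩)
    exact h0.trans (by rw [h1, h2, one_mul])
  · exact h0.trans (by rw [locMk_smul_factorIdem_of_notMem K F q m σ h, zero_mul])

/-- **Invariants of the decomposition group**: an element of `F_m` fixed by `D_m` comes from
`K_u`. -/
theorem exists_locFieldIncl_eq_of_fixed [IsGalois K F] (m : H54.Place F q) (u : H54.Place K q)
    (hu : maxUnder K F q m = u) (y : H54.locField m)
    (hy : ∀ δ : decompGroup K F q m, δ • y = y) :
    ∃ a : H54.locField u, locFieldIncl K F q m u hu a = y := by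
  classical
  obtain ⟨a, rfl⟩ := H54.locMk_surjective m y
  set t := factorIdem ℚ F ℚ_[q] m * a with ht
  set z : H42.locAlg F q := ∑ σ : F ≃ₐ[K] F, σ • t with hz
  have hfix : ∀ τ : F ≃ₐ[K] F, τ • z = z := by
    intro τ
    rw [hz, Finset.smul_sum]
    simp only [← mul_smul]
    exact Fintype.sum_bijective (fun σ => τ * σ) (Group.mulLeft_bijective τ) _ _ (fun _ => rfl)
  obtain ⟨z₀, hz₀⟩ := (H42.fixed_iff_mem_range_baseIncl (k := ℚ) (K := K) (L := F)
    (A := ℚ_[q]) z).mp hfix
  have hsum : H54.locMk m z =
      ((Finset.univ.filter (fun σ : F ≃ₐ[K] F => σ ∈ decompGroup K F q m)).card : ℕ) •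
        H54.locMk m a := by
    rw [hz, map_sum]
    have : ∀ σ : F ≃ₐ[K] F, H54.locMk m (σ • t) =
        if σ ∈ decompGroup K F q m then H54.locMk m a else 0 := by
      intro σ
      rw [ht, locMk_smul_mul_factorIdem K F q m σ a hy]
      congr
    simp only [this]
    rw [Finset.sum_ite, Finset.sum_const, Finset.sum_const_zero, add_zero]
  set N := (Finset.univ.filter (fun σ : F ≃ₐ[K] F => σ ∈ decompGroup K F q m)).card with hN
  have hN0 : N ≠ 0 := by
    rw [hN]
    exact Finset.card_ne_zero.mpr ⟨1, by simp⟩
  have hN' : ((N : ℕ) : H54.locField u) ≠ 0 := by exact_mod_cast hN0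
  refine ⟨((N : ℕ) : H54.locField u)⁻¹ * H54.locMk u z₀, ?_⟩
  have hz₀' : locFieldIncl K F q m u hu (H54.locMk u z₀) = (N : ℕ) • H54.locMk m a := by
    rw [locFieldIncl_locMk]
    have : H42.baseIncl (k := ℚ) (K := K) (L := F) (A := ℚ_[q]) z₀ = z := hz₀
    rw [this, hsum]
  rw [map_mul, map_inv₀, map_natCast, hz₀', nsmul_eq_mul]
  have hN'' : ((N : ℕ) : H54.locField m) ≠ 0 := by exact_mod_cast hN0
  field_simp

/-- **The decomposition group is the Galois group of the local extension**: `D_m` acts
faithfully on `F_m` with invariants `K_u`. -/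
theorem isGaloisGroup_locField [IsGalois K F] (m : H54.Place F q) (u : H54.Place K q)
    (hu : maxUnder K F q m = u) :
    letI := locFieldAlgebra K F q m u hu
    IsGaloisGroup (decompGroup K F q m) (H54.locField u) (H54.locField m) := by
  letI := locFieldAlgebra K F q m u hu
  refine ⟨⟨fun {δ δ'} h => ?_⟩, ⟨fun δ a y => ?_⟩, ⟨fun y hy => ?_⟩⟩
  · apply Subtype.ext
    apply AlgEquiv.ext
    intro x
    have h1 := h (H54.toLocField m x)
    rw [decomp_smul_toLocField, decomp_smul_toLocField] at h1
    exact H54.toLocField_injective m h1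
  · show δ • (locFieldIncl K F q m u hu a * y) = locFieldIncl K F q m u hu a * δ • y
    rw [smul_mul']
    congr 1
    obtain ⟨t, rfl⟩ := H54.locMk_surjective u a
    rw [locFieldIncl_locMk, decomp_smul_locMk, H42.smul_baseIncl]
  · exact exists_locFieldIncl_eq_of_fixed K F q m u hu y hy

theorem locField_isGalois [IsGalois K F] (m : H54.Place F q) (u : H54.Place K q)
    (hu : maxUnder K F q m = u) :
    letI := locFieldAlgebra K F q m u hu
    IsGalois (H54.locField u) (H54.locField m) := by
  letI := locFieldAlgebra K F q m u hu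
  have := isGaloisGroup_locField K F q m u hu
  exact IsGaloisGroup.isGalois (decompGroup K F q m) (H54.locField u) (H54.locField m)

/-- `[F_m : K_u] = |D_m|`. -/
theorem card_decompGroup_eq_finrank [IsGalois K F] (m : H54.Place F q) (u : H54.Place K q)
    (hu : maxUnder K F q m = u) :
    letI := locFieldAlgebra K F q m u hu
    Nat.card (decompGroup K F q m) = Module.finrank (H54.locField u) (H54.locField m) := by
  letI := locFieldAlgebra K F q m u hu
  have := isGaloisGroup_locField K F q m u hu
  exact IsGaloisGroup.card_eq_finrank (decompGroup K F q m) (H54.locField u) (H54.locField m)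

/-- **Local degree** `[F_m : K_u] = e_u f_u` in Mathlib's `ramificationIdxIn`/`inertiaDegIn`. -/
theorem finrank_locField_eq [IsGalois K F] (m : H54.Place F q) (u : H54.Place K q)
    (hu : maxUnder K F q m = u) :
    letI := locFieldAlgebra K F q m u hu
    Module.finrank (H54.locField u) (H54.locField m) =
      (H54.primeAt u).asIdeal.ramificationIdxIn (𝓞 F) *
        (H54.primeAt u).asIdeal.inertiaDegIn (𝓞 F) := by
  letI := locFieldAlgebra K F q m u hu
  rw [← card_decompGroup_eq_finrank K F q m u hu, decompGroup_eq, card_stabilizer_place, hu]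

/-- The decomposition group as the Galois group of `F_m / K_u`. -/
def decompEquiv [IsGalois K F] (m : H54.Place F q) (u : H54.Place K q)
    (hu : maxUnder K F q m = u) :
    letI := locFieldAlgebra K F q m u hu
    decompGroup K F q m ≃* (H54.locField m ≃ₐ[H54.locField u] H54.locField m) :=
  letI := locFieldAlgebra K F q m u hu
  haveI := isGaloisGroup_locField K F q m u hu
  IsGaloisGroup.mulEquivAlgEquiv (decompGroup K F q m) (H54.locField u) (H54.locField m)

theorem decompEquiv_apply [IsGalois K F] (m : H54.Place F q) (u : H54.Place K q)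
    (hu : maxUnder K F q m = u) (δ : decompGroup K F q m) (y : H54.locField m) :
    decompEquiv K F q m u hu δ y = δ • y := rfl

theorem decompEquiv_toLocField [IsGalois K F] (m : H54.Place F q) (u : H54.Place K q)
    (hu : maxUnder K F q m = u) (δ : decompGroup K F q m) (x : F) :
    decompEquiv K F q m u hu δ (H54.toLocField m x) = H54.toLocField m ((δ : F ≃ₐ[K] F) x) := by
  rw [decompEquiv_apply, decomp_smul_toLocField]

end Decomp
end
end Fermat.Agent.CFT.H18
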