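/-
CFT layer B, package B-STDCOCYCLE (helper19), part 2:
the Skeleton3 §B-STDCOCYCLE statements VERBATIM, in the landed `Loc.cexp` / `Loc.stdCocycle`
vocabulary of `LocMaps.lean`, deduced from `H19_StdCocycle.lean`.
-/
import Fermat.Agent.CFT.LocMaps
import Fermat.Agent.CFT.H19_StdCocycle

set_option autoImplicit false
set_option linter.unusedVariables false

open groupCohomology

namespace Fermat.Agent.CFT.H19

universe u

/-! ## A general "norm gives coboundary" lemma with an abstract index function -/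

section General

variable {k G : Type u} [CommRing k] [Group G] {A : Rep k G}

lemma rho_pnorm_of_period {g : G} {y : A} {e : ℕ} (h : A.ρ (g ^ e) y = y) :
    A.ρ g (pnorm A g y e) = pnorm A g y e := by
  have h1 := pnorm_add (A := A) g y 1 e
  have h2 := pnorm_succ (A := A) g y e
  rw [add_comm 1 e, h2, h] at h1
  have h3 : pnorm A g y 1 = y := by simp [pnorm]
  rw [h3, pow_one, add_comm] at h1
  exact (add_left_cancel h1).symm

lemma rho_pow_pnorm_of_period {g : G} {y : A} {e : ℕ} (h : A.ρ (g ^ e) y = y) (m : ℕ) :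
    A.ρ (g ^ m) (pnorm A g y e) = pnorm A g y e := by
  induction m with
  | zero => simp
  | succ m ih => rw [pow_succ, map_mul, Module.End.mul_apply, rho_pnorm_of_period h, ih]

lemma pnorm_add_period {g : G} {y : A} {e : ℕ} (h : A.ρ (g ^ e) y = y) (m : ℕ) :
    pnorm A g y (m + e) = pnorm A g y m + pnorm A g y e := by
  rw [pnorm_add, rho_pow_pnorm_of_period h]

/-- General form of "the standard cochain of a norm is a coboundary": `G` any group, `J` an
abstract index function with values in `[0, e)`, additive mod `e`, such that `x` acts on the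
`x₀`-orbit of `y` like `x₀ ^ J x`. -/
theorem ite_pnorm_eq_d₁₂ (x₀ : G) (y : A) {e : ℕ} (J : G → ℕ) (hJlt : ∀ x, J x < e)
    (hJmul : ∀ x x', J (x * x') = (J x + J x') % e)
    (hact : ∀ x m, A.ρ x (A.ρ (x₀ ^ m) y) = A.ρ (x₀ ^ (J x + m)) y)
    (hper : A.ρ (x₀ ^ e) y = y) :
    (fun p : G × G => if e ≤ J p.1 + J p.2 then pnorm A x₀ y e else 0) =
      d₁₂ A (fun x => pnorm A x₀ y (J x)) := by
  have hρ : ∀ x j, A.ρ x (pnorm A x₀ y j) = A.ρ (x₀ ^ J x) (pnorm A x₀ y j) := by
    intro x j
    rw [pnorm, map_sum, map_sum]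
    refine Finset.sum_congr rfl fun m _ => ?_
    rw [hact, pow_add, map_mul, Module.End.mul_apply]
  funext ⟨σ, τ⟩
  rw [d₁₂_hom_apply]
  simp only
  rw [hJmul, hρ]
  have h1 := pnorm_add (A := A) x₀ y (J σ) (J τ)
  have hi := hJlt σ
  have hj := hJlt τ
  split_ifs with h
  · have h2 : (J σ + J τ) % e = J σ + J τ - e := by
      rw [Nat.mod_eq_sub_mod h, Nat.mod_eq_of_lt (by omega)]
    have h3 := pnorm_add_period (A := A) hper (J σ + J τ - e)
    rw [Nat.sub_add_cancel h] at h3
    rw [h2]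
    rw [h3] at h1
    rw [eq_sub_of_add_eq' h1.symm]
    abel
  · have h2 : (J σ + J τ) % e = J σ + J τ := Nat.mod_eq_of_lt (by omega)
    rw [h2, h1]
    abel

end General

/-! ## Bridge to the `Loc` vocabulary -/

section Bridge

variable {G : Type} [Group G] {A : Type} [CommGroup A]

lemma cexp_eq_idx (g x : G) : Loc.cexp g x = idx g x := by
  classical
  unfold Loc.cexp idx
  congr

variable [MulDistribMulAction G A]

lemma locStd_eq (g : G) (a : A) (p : G × G) :
    Loc.stdCocycle g a p = ofRep (stdFun (Rep.ofMulDistribMulAction G A) g (toRep G a) p) := by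
  classical
  obtain ⟨x, y⟩ := p
  rw [Loc.stdCocycle_apply, stdFun_apply, cexp_eq_idx, cexp_eq_idx]
  split_ifs <;> rfl

lemma locStd_eq' (g : G) (a : A) :
    Loc.stdCocycle g a =
      Additive.toMul ∘ (stdFun (Rep.ofMulDistribMulAction G A) g (toRep G a)) := by
  funext p
  exact locStd_eq g a p

lemma smul_eq_of_gen [Finite G] {g : G} (hg : ∀ x, x ∈ Subgroup.zpowers g) {a : A}
    (ha : g • a = a) (x : G) : x • a = a := by
  rw [← pow_idx' hg x]
  induction idx g x with
  | zero => simp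
  | succ i ih => rw [pow_succ, mul_smul, ha, ih]

end Bridge

/-! ### Package B-STDCOCYCLE: the standard 2-cocycle of a finite cyclic group (pure algebra),
statements of Skeleton3 verbatim -/

section LocStd

open Fermat.Agent.CFT.Loc (cexp)

variable {G : Type} [Group G] [Finite G] {A : Type} [CommGroup A] [MulDistribMulAction G A]

theorem cexp_lt_orderOf (g : G) (hg : ∀ x, x ∈ Subgroup.zpowers g) (x : G) :
    cexp g x < orderOf g := by
  rw [cexp_eq_idx]
  exact idx_lt x

theorem pow_cexp_of_generator (g : G) (hg : ∀ x, x ∈ Subgroup.zpowers g) (x : G) :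
    g ^ cexp g x = x := by
  rw [cexp_eq_idx]
  exact pow_idx' hg x

/-- the standard cocycle is a 2-cocycle -/
theorem isMulCocycle₂_stdCocycle (g : G) (hg : ∀ x, x ∈ Subgroup.zpowers g) (a : A)
    (ha : g • a = a) : IsMulCocycle₂ (Loc.stdCocycle g a) := by
  rw [locStd_eq']
  exact isMulCocycle₂_of_mem_cocycles₂ _
    (stdFun_mem_cocycles₂ hg (toRep_invariant (smul_eq_of_gen hg ha)))

/-- the standard cocycle of a norm is a coboundary -/
theorem isMulCoboundary₂_stdCocycle_norm (g : G) (hg : ∀ x, x ∈ Subgroup.zpowers g) (y : A) :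
    IsMulCoboundary₂ (Loc.stdCocycle g (∏ i ∈ Finset.range (orderOf g), g ^ i • y)) := by
  rw [locStd_eq', ← pnorm_toRep]
  exact isMulCoboundary₂_of_mem_coboundaries₂ _ (stdFun_pnorm_mem_coboundaries₂ hg _)

/-- if the `k`-th power of the standard cocycle of `a` is a coboundary then `a ^ k` is a norm -/
theorem exists_norm_eq_of_isMulCoboundary₂ (g : G) (hg : ∀ x, x ∈ Subgroup.zpowers g) (a : A)
    (ha : g • a = a) (k : ℕ) (h : IsMulCoboundary₂ (fun p => Loc.stdCocycle g a p ^ k)) :
    ∃ y : A, a ^ k = ∏ i ∈ Finset.range (orderOf g), g ^ i • y := by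
  have h1 : k • stdFun (Rep.ofMulDistribMulAction G A) g (toRep G a) ∈
      coboundaries₂ (Rep.ofMulDistribMulAction G A) := by
    have h2 := (coboundariesOfIsMulCoboundary₂ h).2
    convert h2 using 1
    funext p
    show k • stdFun (Rep.ofMulDistribMulAction G A) g (toRep G a) p =
      toRep G (Loc.stdCocycle g a p ^ k)
    rw [toRep_pow, locStd_eq, toRep_ofRep]
  obtain ⟨y, hy⟩ := (nsmul_stdFun_mem_coboundaries₂_iff hg k).1 h1
  refine ⟨ofRep y, ?_⟩
  rw [← ofRep_pnorm, ← hy, ofRep_nsmul, ofRep_toRep]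

/-- `orderOf g` kills the standard class -/
theorem isMulCoboundary₂_stdCocycle_pow_orderOf (g : G) (hg : ∀ x, x ∈ Subgroup.zpowers g)
    (a : A) (ha : g • a = a) : IsMulCoboundary₂ (fun p => Loc.stdCocycle g a p ^ orderOf g) := by
  have h1 := orderOf_nsmul_stdFun_mem_coboundaries₂ hg
    (toRep_invariant (G := G) (smul_eq_of_gen hg ha))
  have h2 := isMulCoboundary₂_of_mem_coboundaries₂ _ h1
  convert h2 using 1
  funext p
  show Loc.stdCocycle g a p ^ orderOf g =
    ofRep (orderOf g • stdFun (Rep.ofMulDistribMulAction G A) g (toRep G a) p)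
  rw [ofRep_nsmul, locStd_eq]

/-- INFLATION along a surjection of cyclic groups `g' ↦ g`: the inflated standard cocycle of `a`
is cohomologous to the standard cocycle of `a ^ (n'/n)`. -/
theorem isMulCoboundary₂_stdCocycle_infl {G' : Type} [Group G'] [Finite G'] {A' : Type}
    [CommGroup A'] [MulDistribMulAction G' A'] (g : G) (hg : ∀ x, x ∈ Subgroup.zpowers g)
    (a : A) (ha : g • a = a) (π : G' →* G) (ι : A →* A')
    (hι : ∀ (x : G') (b : A), ι (π x • b) = x • ι b)
    (g' : G') (hg' : ∀ x, x ∈ Subgroup.zpowers g') (hπ : π g' = g) :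
    IsMulCoboundary₂ (fun p : G' × G' =>
      ι (Loc.stdCocycle g a (π p.1, π p.2)) /
        Loc.stdCocycle g' (ι a ^ (orderOf g' / orderOf g)) p) := by
  classical
  have hinv : ∀ x : G', x • ι a = ι a := by
    intro x
    rw [← hι, smul_eq_of_gen hg ha]
  have key := pullback_stdFun_add_d₁₂ (Rep.ofMulDistribMulAction G' A') π
    (isOfFinOrder_of_finite g) hg' (f := 1) (by rw [hπ, pow_one]) (toRep_invariant hinv)
  rw [one_mul] at key
  have hmem : (fun p : G' × G' => if orderOf g ≤ idx g (π p.1) + idx g (π p.2)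
      then toRep G' (ι a) else 0) -
      stdFun (Rep.ofMulDistribMulAction G' A') g' ((orderOf g' / orderOf g) • toRep G' (ι a)) ∈
      coboundaries₂ (Rep.ofMulDistribMulAction G' A') := by
    rw [← key, sub_add_cancel_left]
    exact neg_mem ⟨_, rfl⟩
  have h2 := isMulCoboundary₂_of_mem_coboundaries₂ _ hmem
  convert h2 using 1
  funext p
  show _ = ofRep ((if orderOf g ≤ idx g (π p.1) + idx g (π p.2) then toRep G' (ι a) else 0) -
    stdFun (Rep.ofMulDistribMulAction G' A') g' ((orderOf g' / orderOf g) • toRep G' (ι a)) p)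
  rw [Loc.stdCocycle_apply, cexp_eq_idx, cexp_eq_idx, locStd_eq, toRep_pow]
  split_ifs
  · rfl
  · rw [map_one]
    rfl

/-- PULL-BACK (restriction + inflation at once).  `G'` ANY finite group acting on `A'`,
`π : G' → G` a homomorphism onto `⟨g ^ f⟩`, `f ∣ orderOf g`, `ι : A → A'` equivariant.  If
`ι a` is the "norm" `∏_{i < n/f} x₀^i • y` of an element `y` fixed by `ker π` (`π x₀ = g ^ f`),
then the pulled back standard cocycle is a coboundary. -/
theorem isMulCoboundary₂_stdCocycle_comp {G' : Type} [Group G'] [Finite G'] {A' : Type}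
    [CommGroup A'] [MulDistribMulAction G' A'] (g : G) (hg : ∀ x, x ∈ Subgroup.zpowers g)
    (a : A) (ha : g • a = a) (π : G' →* G) (ι : A →* A')
    (hι : ∀ (x : G') (b : A), ι (π x • b) = x • ι b)
    (f : ℕ) (hf : f ∣ orderOf g) (hf0 : 0 < f) (x₀ : G') (hx₀ : π x₀ = g ^ f)
    (hπ : ∀ x : G', π x ∈ Subgroup.zpowers (g ^ f))
    (y : A') (hy : ∀ x : G', π x = 1 → x • y = y)
    (hN : ι a = ∏ i ∈ Finset.range (orderOf g / f), x₀ ^ i • y) :
    IsMulCoboundary₂ (fun p : G' × G' => ι (Loc.stdCocycle g a (π p.1, π p.2))) := by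
  classical
  obtain ⟨e, he⟩ := hf
  have hn : 0 < orderOf g := orderOf_pos g
  have he0 : 0 < e := by
    rcases Nat.eq_zero_or_pos e with h | h
    · rw [h, mul_zero] at he
      omega
    · exact h
  have hdiv : orderOf g / f = e := by rw [he, Nat.mul_div_cancel_left _ hf0]
  rw [hdiv] at hN
  -- the index function
  have hK : ∀ x : G', ∃ m, m < e ∧ idx g (π x) = f * m := by
    intro x
    have h1 := hπ x
    rw [← mem_powers_iff_mem_zpowers] at h1
    obtain ⟨m', hm'⟩ := h1
    replace hm' : (g ^ f) ^ m' = π x := hm'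
    refine ⟨m' % e, Nat.mod_lt _ he0, ?_⟩
    have h2 : π x = g ^ (f * (m' % e)) := by
      rw [← hm', ← pow_mul, ← pow_mod_orderOf, he, Nat.mul_mod_mul_left]
    rw [h2]
    apply idx_pow_of_lt
    rw [he]
    exact Nat.mul_lt_mul_of_pos_left (Nat.mod_lt _ he0) hf0
  choose J hJlt hJ using hK
  have hπJ : ∀ x : G', π x = g ^ (f * J x) := by
    intro x
    rw [← hJ, pow_idx' hg]
  have hJmul : ∀ x x', J (x * x') = (J x + J x') % e := by
    intro x x'
    have h1 := hJ (x * x')
    rw [map_mul, idx_mul hg, hJ, hJ, he, ← mul_add, Nat.mul_mod_mul_left] at h1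
    exact (Nat.eq_of_mul_eq_mul_left hf0 h1).symm
  have hact : ∀ (x : G') (m : ℕ), x • x₀ ^ m • y = x₀ ^ (J x + m) • y := by
    intro x m
    have hz : π ((x₀ ^ (J x + m))⁻¹ * x * x₀ ^ m) = 1 := by
      rw [map_mul, map_mul, map_inv, map_pow, map_pow, hx₀, hπJ x, ← pow_mul, ← pow_mul, mul_assoc,
        ← pow_add, ← mul_add]
      exact inv_mul_cancel _
    have h1 := hy _ hz
    calc x • x₀ ^ m • y = (x * x₀ ^ m) • y := (mul_smul _ _ _).symm
      _ = (x₀ ^ (J x + m) * ((x₀ ^ (J x + m))⁻¹ * x * x₀ ^ m)) • y := by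
        rw [mul_assoc, mul_inv_cancel_left]
      _ = x₀ ^ (J x + m) • y := by rw [mul_smul, h1]
  have hper : x₀ ^ e • y = y := by
    apply hy
    rw [map_pow, hx₀, ← pow_mul, ← he, pow_orderOf_eq_one]
  have hact' : ∀ (x : G') (m : ℕ), (Rep.ofMulDistribMulAction G' A').ρ x
      ((Rep.ofMulDistribMulAction G' A').ρ (x₀ ^ m) (toRep G' y)) =
      (Rep.ofMulDistribMulAction G' A').ρ (x₀ ^ (J x + m)) (toRep G' y) := by
    intro x m
    rw [rho_toRep, rho_toRep, rho_toRep, hact]
  have hper' : (Rep.ofMulDistribMulAction G' A').ρ (x₀ ^ e) (toRep G' y) = toRep G' y := by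
    rw [rho_toRep, hper]
  have key := ite_pnorm_eq_d₁₂ (A := Rep.ofMulDistribMulAction G' A') x₀ (toRep G' y) J hJlt hJmul
    hact' hper'
  have hmem : (fun p : G' × G' => if e ≤ J p.1 + J p.2 then
      pnorm (Rep.ofMulDistribMulAction G' A') x₀ (toRep G' y) e else 0) ∈
      coboundaries₂ (Rep.ofMulDistribMulAction G' A') := by
    rw [key]
    exact ⟨_, rfl⟩
  have h2 := isMulCoboundary₂_of_mem_coboundaries₂ _ hmem
  convert h2 using 1
  funext p
  show _ = ofRep (if e ≤ J p.1 + J p.2 then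
      pnorm (Rep.ofMulDistribMulAction G' A') x₀ (toRep G' y) e else 0)
  rw [Loc.stdCocycle_apply, cexp_eq_idx, cexp_eq_idx, hJ, hJ, he, ← mul_add]
  have hiff : f * e ≤ f * (J p.1 + J p.2) ↔ e ≤ J p.1 + J p.2 := Nat.mul_le_mul_left_iff hf0
  by_cases hc : e ≤ J p.1 + J p.2
  · rw [if_pos (hiff.2 hc), if_pos hc, hN, ofRep_pnorm, ofRep_toRep]
  · rw [if_neg (fun h => hc (hiff.1 h)), if_neg hc, map_one]
    rfl

end LocStd

end Fermat.Agent.CFT.H19
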