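import Fermat.Agent.CFT.H25_UnramStructure

/-!
# Extensions generated by roots of unity of order prime to the residue characteristic

Norm language.  `K` complete with finite residue field of cardinality `Q`, `L/K` finite.
* `apply_eq_pow_of_norm_sub_pow_lt`: a ring endomorphism `φ` with `φ x ≡ x ^ N` on integers sends a
  root of unity `ζ` of order prime to the residue characteristic to `ζ ^ N`;
* `isCyclotomicExtension_of_adjoin_root`: if `L = K(ζ)`, `ζ ^ m = 1`, `‖m‖ = 1`, then
  `L = K(ζ_{Q^f-1})`, `f = [k_L : k_K]`; in particular `L/K` is unramified;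
* `eq_frobCyc_pow_of_norm_sub_pow_lt`: `φ x ≡ x ^ (Q ^ k)` on integers implies `φ = frob ^ k`.
-/

set_option autoImplicit false
set_option linter.unusedSectionVars false
set_option linter.style.haveILetI false

noncomputable section

namespace Fermat.Agent.CFT.H25

open IsLocalRing Finset IntermediateField

section Apply

variable {E : Type*} [NormedField E] [IsUltrametricDist E]

/-- An endomorphism congruent to `x ↦ x ^ N` on integers maps prime-to-`p` roots of unity `ζ`
to `ζ ^ N`. -/
theorem apply_eq_pow_of_norm_sub_pow_lt {F : Type*} [FunLike F E E] [RingHomClass F E E] (φ : F)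
    {N : ℕ} (hφ : ∀ x : E, ‖x‖ ≤ 1 → ‖φ x - x ^ N‖ < 1) {m : ℕ} (hm : ‖(m : E)‖ = 1) {ζ : E}
    (hζ : ζ ^ m = 1) : φ ζ = ζ ^ N := by
  have hm0 : m ≠ 0 := by
    rintro rfl
    simp at hm
  refine eq_of_pow_eq_one_of_norm_sub_lt hm ?_ ?_
    (hφ ζ (norm_eq_one_of_pow_eq_one' hm0 hζ).le)
  · rw [← map_pow, hζ, map_one]
  · rw [← pow_mul, mul_comm, pow_mul, hζ, one_pow]

end Apply

variable {K L : Type*} [NontriviallyNormedField K] [IsUltrametricDist K] [CompleteSpace K]
  [NormedField L] [IsUltrametricDist L] [NormedAlgebra K L] [Finite (resField K)]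

section Roots

variable [FiniteDimensional K L]

variable (K L) in
theorem finrank_resField_ne_zero : Module.finrank (resField K) (resField L) ≠ 0 :=
  Module.finrank_pos.ne'

variable (K L) in
theorem card_resField_eq_pow :
    Nat.card (resField L) = resCard K ^ Module.finrank (resField K) (resField L) :=
  Module.natCard_eq_pow_finrank

/-- Every root of unity of order prime to the residue characteristic is a `(Q_L - 1)`-th root of
unity. -/
theorem pow_card_sub_one_eq_one_of_pow_eq_one {m : ℕ} (hm : ‖(m : L)‖ = 1) {ζ : L}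
    (hζ : ζ ^ m = 1) : ζ ^ (resCard K ^ Module.finrank (resField K) (resField L) - 1) = 1 := by
  classical
  haveI : Finite (resField L) := Module.finite_of_finite (resField K)
  haveI := Fintype.ofFinite (resField L)
  have hm0 : m ≠ 0 := by
    rintro rfl
    simp at hm
  rw [← card_resField_eq_pow K L]
  set N := Nat.card (resField L) - 1 with hN
  have hζ1 : ‖ζ‖ = 1 := norm_eq_one_of_pow_eq_one' hm0 hζ
  set z : intRing L := mkInt ζ hζ1.le with hz
  have hzne : residue (intRing L) z ≠ 0 := (residue_ne_zero_iff_norm_eq_one z).mpr hζ1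
  have h1 : residue (intRing L) z ^ N = 1 := by
    rw [hN, Nat.card_eq_fintype_card]
    exact FiniteField.pow_card_sub_one_eq_one _ hzne
  rw [← map_pow, ← map_one (residue (intRing L)), residue_eq_iff] at h1
  have h2 : ‖ζ ^ N - 1‖ < 1 := by simpa [hz] using h1
  refine eq_one_of_pow_eq_one_of_norm_sub_lt hm ?_ h2
  rw [← pow_mul, mul_comm, pow_mul, hζ, one_pow]

variable (K L) in
/-- If `L = K(ζ)` for a root of unity `ζ` of order prime to the residue characteristic, then `L` is
the cyclotomic extension for `Q ^ f - 1`, `f` the residue degree. -/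
theorem isCyclotomicExtension_of_adjoin_root {m : ℕ} (hm : ‖(m : L)‖ = 1) {ζ : L}
    (hζ : ζ ^ m = 1) (htop : K⟮ζ⟯ = ⊤) :
    IsCyclotomicExtension {resCard K ^ Module.finrank (resField K) (resField L) - 1} K L := by
  classical
  set f := Module.finrank (resField K) (resField L) with hf
  have hf0 : f ≠ 0 := finrank_resField_ne_zero K L
  haveI : Finite (resField L) := Module.finite_of_finite (resField K)
  haveI : CompleteSpace L := FiniteDimensional.complete K L
  obtain ⟨ξ, hξ⟩ := exists_isPrimitiveRoot_card_sub_one L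
  rw [card_resField_eq_pow K L] at hξ
  haveI : NeZero (resCard K ^ f - 1) := ⟨m_ne_zero (K := K) hf0⟩
  have hζN := pow_card_sub_one_eq_one_of_pow_eq_one (K := K) hm hζ
  obtain ⟨i, -, hi⟩ := hξ.eq_pow_of_pow_eq_one hζN
  have hmem : ζ ∈ K⟮ξ⟯ := by
    rw [← hi]
    exact pow_mem (mem_adjoin_simple_self K ξ) i
  have htop' : K⟮ξ⟯ = ⊤ := by
    rw [eq_top_iff, ← htop]
    exact adjoin_simple_le_iff.mpr hmem
  haveI hM : IsCyclotomicExtension {resCard K ^ f - 1} K K⟮ξ⟯ :=
    hξ.intermediateField_adjoin_isCyclotomicExtension K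
  exact IsCyclotomicExtension.equiv {resCard K ^ f - 1} K K⟮ξ⟯
    ((IntermediateField.equivOfEq htop').trans IntermediateField.topEquiv)

variable (K L) in
/-- If `L = K(ζ)` for a root of unity `ζ` of order prime to the residue characteristic, then `L/K`
has the same value group as `K`. -/
theorem sameValueGroup_of_adjoin_root {m : ℕ} (hm : ‖(m : L)‖ = 1) {ζ : L}
    (hζ : ζ ^ m = 1) (htop : K⟮ζ⟯ = ⊤) : SameValueGroup K L :=
  haveI := isCyclotomicExtension_of_adjoin_root K L hm hζ htop
  sameValueGroup_cyc K L (n := Module.finrank (resField K) (resField L))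
    (finrank_resField_ne_zero K L)

end Roots

section FrobPow

variable {n : ℕ} [hcyc : IsCyclotomicExtension {resCard K ^ n - 1} K L] [FiniteDimensional K L]

theorem resFrob_pow_apply (k : ℕ) (y : resField L) :
    (resFrob K L ^ k) y = y ^ (resCard K ^ k) := by
  induction k with
  | zero => simp
  | succ k ih =>
    rw [pow_succ', AlgEquiv.mul_apply, ih, resFrob_apply, ← pow_mul, ← pow_succ]

/-- `φ x ≡ x ^ (Q ^ k)` on integers implies `φ = frob ^ k`. -/
theorem eq_frobCyc_pow_of_norm_sub_pow_lt (hn : n ≠ 0) (k : ℕ) (φ : L ≃ₐ[K] L)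
    (hφ : ∀ x : L, ‖x‖ ≤ 1 → ‖φ x - x ^ (resCard K ^ k)‖ < 1) : φ = frobCyc K L hn ^ k := by
  apply redHom_injective (n := n) hn
  rw [map_pow, redHom_frobCyc]
  ext y
  obtain ⟨x, rfl⟩ := residue_surjective y
  rw [redHom_apply_residue, resFrob_pow_apply, ← map_pow, residue_eq_iff]
  exact hφ x (norm_le_one x)

end FrobPow

section FrobPowUnr

variable [FiniteDimensional K L]

theorem eq_frobUnr_pow_of_norm_sub_pow_lt (hdisc : IsDiscrete K) (hunr : SameValueGroup K L)
    (k : ℕ) (φ : L ≃ₐ[K] L)
    (hφ : ∀ x : L, ‖x‖ ≤ 1 → ‖φ x - x ^ (resCard K ^ k)‖ < 1) :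
    φ = frobUnr K L hdisc hunr ^ k :=
  haveI := isCyclotomicExtension_of_unramified K L hdisc hunr
  eq_frobCyc_pow_of_norm_sub_pow_lt (n := Module.finrank K L) Module.finrank_pos.ne' k φ hφ

end FrobPowUnr

end Fermat.Agent.CFT.H25
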