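import Fermat.Agent.CFT.H25_LocUnr
import Fermat.Agent.CFT.H25_UnramRoots

/-!
# Frobenius: functoriality (package B-UNR-F)

Field-level (vocabulary `Loc`):
* `nrm_algebraMap_tower`, `isUnramified_of_tower_bot/top`, `isUnramified_trans`;
* `frob_pow_unique`: `σ x ≡ x ^ (Q ^ k)` on integers implies `σ = frob ^ k`;
* `frob_restrict`: for `K ⊆ L ⊆ M`, `M/K` unramified: `frob_{M/K}|_L = frob_{L/K}`;
* `frob_baseChange_of_isUnramified`, `isUnramified_baseChange` and the VERBATIM Skeleton2 statement
  `frob_baseChange`.
-/

set_option autoImplicit false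
set_option linter.unusedSectionVars false
set_option linter.style.haveILetI false

noncomputable section

namespace Fermat.Agent.CFT.H25

open Fermat.Agent.CFT Fermat.Agent.CFT.Loc IsLocalRing

variable (q : ℕ) [Fact q.Prime]
variable (K : Type) [Field K] [Algebra ℚ_[q] K] [FiniteDimensional ℚ_[q] K]
variable (L : Type) [Field L] [Algebra ℚ_[q] L] [FiniteDimensional ℚ_[q] L]
variable [Algebra K L] [IsScalarTower ℚ_[q] K L]

/-- the absolute value of `L` restricts to that of `K` -/
theorem nrm_algebraMap_tower (x : K) : nrm q L (algebraMap K L x) = nrm q K x :=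
  (spectralNorm.eq_of_tower (K := ℚ_[q]) (E := K) (L := L) x).symm

theorem nrm_pow (x : K) (k : ℕ) : nrm q K (x ^ k) = nrm q K x ^ k := by
  letI := nnf q K
  exact norm_pow x k

theorem frob_eq_frobUnr (h : IsUnramified q K L) :
    letI := nnf q K; letI := nnf q L; haveI := ultra q K; haveI := ultra q L
    haveI := complete q K; letI := nalgTower q K L; haveI := finite_resField_loc q K
    haveI := finiteDimensional_tower q K L
    frob q K L = frobUnr K L (isDiscrete_loc q K) h := by
  letI := nnf q K
  letI := nnf q L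
  haveI := ultra q K
  haveI := ultra q L
  haveI := complete q K
  letI := nalgTower q K L
  haveI := finite_resField_loc q K
  haveI := finiteDimensional_tower q K L
  apply eq_frobUnr_of_norm_sub_pow_lt (isDiscrete_loc q K) h
  intro x hx
  rw [← resCard_eq q K]
  exact frob_spec q K L h x hx

/-- `σ x ≡ x ^ (Q ^ k)` on integers implies `σ = frob ^ k`. -/
theorem frob_pow_unique (h : IsUnramified q K L) (k : ℕ) (σ : L ≃ₐ[K] L)
    (hσ : ∀ x : L, nrm q L x ≤ 1 → nrm q L (σ x - x ^ (Loc.resCard q K ^ k)) < 1) :
    σ = frob q K L ^ k := by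
  letI := nnf q K
  letI := nnf q L
  haveI := ultra q K
  haveI := ultra q L
  haveI := complete q K
  letI := nalgTower q K L
  haveI := finite_resField_loc q K
  haveI := finiteDimensional_tower q K L
  rw [frob_eq_frobUnr q K L h]
  apply eq_frobUnr_pow_of_norm_sub_pow_lt (isDiscrete_loc q K) h k σ
  intro x hx
  rw [← resCard_eq q K]
  exact hσ x hx

/-- The Frobenius raises roots of unity of order prime to `q` to the `Q`-th power. -/
theorem frob_pow_apply_of_pow_eq_one (h : IsUnramified q K L) (k : ℕ) {m : ℕ}
    (hm : nrm q L (m : L) = 1) {ζ : L} (hζ : ζ ^ m = 1) :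
    (frob q K L ^ k) ζ = ζ ^ (Loc.resCard q K ^ k) := by
  letI := nnf q L
  haveI := ultra q L
  have h1 : frob q K L ζ = ζ ^ Loc.resCard q K :=
    apply_eq_pow_of_norm_sub_pow_lt (frob q K L) (fun x hx => frob_spec q K L h x hx) hm hζ
  induction k with
  | zero => simp
  | succ k ih =>
    rw [pow_succ', AlgEquiv.mul_apply, ih, map_pow, h1, ← pow_mul, ← pow_succ']

section Tower

variable (M : Type) [Field M] [Algebra ℚ_[q] M] [FiniteDimensional ℚ_[q] M]
  [Algebra K M] [IsScalarTower ℚ_[q] K M] [Algebra L M] [IsScalarTower K L M]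

/-- The tower `ℚ_[q] → L → M` is a scalar tower as soon as `K → L → M` and the towers over
`ℚ_[q]` through `K` are. -/
theorem isScalarTower_base (q : ℕ) [Fact q.Prime] (K L M : Type) [Field K] [Algebra ℚ_[q] K]
    [Field L] [Algebra ℚ_[q] L] [Algebra K L] [IsScalarTower ℚ_[q] K L]
    [Field M] [Algebra ℚ_[q] M] [Algebra K M] [IsScalarTower ℚ_[q] K M] [Algebra L M]
    [IsScalarTower K L M] : IsScalarTower ℚ_[q] L M :=
  IsScalarTower.of_algebraMap_eq (fun x => by
    rw [IsScalarTower.algebraMap_apply ℚ_[q] K M, IsScalarTower.algebraMap_apply K L M,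
      ← IsScalarTower.algebraMap_apply ℚ_[q] K L])

theorem isUnramified_of_tower_bot (h : IsUnramified q K M) : IsUnramified q K L := by
  haveI := isScalarTower_base q K L M
  intro y
  obtain ⟨c, hc⟩ := h (algebraMap L M y)
  exact ⟨c, by rw [← hc, nrm_algebraMap_tower q L M]⟩

theorem isUnramified_of_tower_top (h : IsUnramified q K M) :
    haveI := isScalarTower_base q K L M
    IsUnramified q L M := by
  haveI := isScalarTower_base q K L M
  intro y
  obtain ⟨c, hc⟩ := h y
  exact ⟨algebraMap K L c, by rw [hc, nrm_algebraMap_tower q K L]⟩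

theorem isUnramified_trans (h1 : IsUnramified q K L)
    (h2 : haveI := isScalarTower_base q K L M; IsUnramified q L M) : IsUnramified q K M := by
  haveI := isScalarTower_base q K L M
  intro y
  obtain ⟨c, hc⟩ := h2 y
  obtain ⟨d, hd⟩ := h1 c
  exact ⟨d, by rw [hc, hd]⟩

/-- Restriction of the Frobenius to a subextension: `frob_{M/K}|_L = frob_{L/K}`. -/
theorem frob_restrict (h : IsUnramified q K M) (x : L) :
    frob q K M (algebraMap L M x) = algebraMap L M (frob q K L x) := by
  haveI := isScalarTower_base q K L M
  have hL : IsUnramified q K L := isUnramified_of_tower_bot q K L M h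
  haveI : IsGalois K L := isGalois_of_isUnramified q K L hL
  set σ : L ≃ₐ[K] L := (frob q K M).restrictNormal L with hσ
  have hcomm : ∀ y : L, algebraMap L M (σ y) = frob q K M (algebraMap L M y) :=
    fun y => AlgEquiv.restrictNormal_commutes (frob q K M) L y
  have : σ = frob q K L := by
    apply frob_unique q K L hL
    intro y hy
    rw [← nrm_algebraMap_tower q L M, map_sub, map_pow, hcomm]
    apply frob_spec q K M h
    rw [nrm_algebraMap_tower q L M]
    exact hy
  rw [← this, hcomm]

end Tower

section BaseChange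

variable (K' : Type) [Field K'] [Algebra ℚ_[q] K'] [FiniteDimensional ℚ_[q] K'] [Algebra K K']
  [IsScalarTower ℚ_[q] K K']
  (L' : Type) [Field L'] [Algebra ℚ_[q] L'] [FiniteDimensional ℚ_[q] L'] [Algebra K L']
  [IsScalarTower ℚ_[q] K L'] [Algebra L L'] [IsScalarTower K L L'] [Algebra K' L']
  [IsScalarTower K K' L'] [IsScalarTower ℚ_[q] K' L']

/-- Frobenius and base change, for unramified `L/K` and `L'/K'`. -/
theorem frob_baseChange_of_isUnramified (h : IsUnramified q K L) (h' : IsUnramified q K' L')
    (f : ℕ) (hf : Loc.resCard q K' = Loc.resCard q K ^ f) (x : L) :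
    frob q K' L' (algebraMap L L' x) = algebraMap L L' ((frob q K L ^ f) x) := by
  haveI := isScalarTower_base q K L L'
  haveI : IsGalois K L := isGalois_of_isUnramified q K L h
  set φ' : L' ≃ₐ[K] L' := (frob q K' L').restrictScalars K with hφ'
  set σ : L ≃ₐ[K] L := φ'.restrictNormal L with hσ
  have hcomm : ∀ y : L, algebraMap L L' (σ y) = frob q K' L' (algebraMap L L' y) :=
    fun y => AlgEquiv.restrictNormal_commutes φ' L y
  have : σ = frob q K L ^ f := by
    apply frob_pow_unique q K L h
    intro y hy
    rw [← nrm_algebraMap_tower q L L', map_sub, map_pow, hcomm, ← hf]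
    apply frob_spec q K' L' h'
    rw [nrm_algebraMap_tower q L L']
    exact hy
  rw [← this, hcomm]

/-- Base change of an unramified extension is unramified. -/
theorem isUnramified_baseChange (h : IsUnramified q K L)
    (hgen : IntermediateField.adjoin K' (Set.range (algebraMap L L')) = ⊤) :
    IsUnramified q K' L' := by
  haveI := isScalarTower_base q K L L'
  haveI := finiteDimensional_tower q K L
  have hn : Module.finrank K L ≠ 0 := Module.finrank_pos.ne'
  haveI hcyc := isCyclotomicExtension_of_isUnramified q K L h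
  set m := Loc.resCard q K ^ Module.finrank K L - 1 with hm
  have hm0 : m ≠ 0 := resCard_pow_sub_one_ne_zero q K hn
  haveI : NeZero m := ⟨hm0⟩
  obtain ⟨ζ, hζ⟩ := IsCyclotomicExtension.exists_isPrimitiveRoot K L (Set.mem_singleton m) hm0
  have hadj : Algebra.adjoin K ({ζ} : Set L) = ⊤ :=
    IsCyclotomicExtension.adjoin_primitive_root_eq_top hζ
  set ζ' : L' := algebraMap L L' ζ with hζ'
  have hζ'm : ζ' ^ m = 1 := by rw [hζ', ← map_pow, hζ.pow_eq_one, map_one]
  -- `K'(ζ') = L'`
  have htop : IntermediateField.adjoin K' ({ζ'} : Set L') = ⊤ := by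
    rw [eq_top_iff, ← hgen, IntermediateField.adjoin_le_iff]
    rintro _ ⟨x, rfl⟩
    have hx : x ∈ Algebra.adjoin K ({ζ} : Set L) := by rw [hadj]; trivial
    induction hx using Algebra.adjoin_induction with
    | mem y hy =>
      rw [Set.mem_singleton_iff] at hy
      rw [hy]
      exact IntermediateField.mem_adjoin_simple_self K' ζ'
    | algebraMap c =>
      rw [← IsScalarTower.algebraMap_apply K L L', IsScalarTower.algebraMap_apply K K' L']
      exact IntermediateField.algebraMap_mem _ _
    | add y z _ _ hy hz =>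
      rw [map_add]
      exact add_mem hy hz
    | mul y z _ _ hy hz =>
      rw [map_mul]
      exact mul_mem hy hz
  -- norms
  letI := nnf q K
  letI := nnf q K'
  letI := nnf q L'
  haveI := ultra q K
  haveI := ultra q K'
  haveI := ultra q L'
  haveI := complete q K
  haveI := complete q K'
  letI nKL' := nalgTower q K L'
  letI := nalgTower q K' L'
  haveI := finite_resField_loc q K
  haveI := finite_resField_loc q K'
  haveI := finiteDimensional_tower q K' L'
  have hmnorm : ‖(m : L')‖ = 1 := by
    have h1 : ‖((resCard K ^ Module.finrank K L - 1 : ℕ) : K)‖ = 1 :=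
      norm_natCast_card_pow_sub_one K hn
    rw [← resCard_eq q K] at h1
    rw [← map_natCast (algebraMap K L'), norm_algebraMap_eq K L']
    exact h1
  exact sameValueGroup_of_adjoin_root K' L' hmnorm hζ'm htop

/-- Frobenius and base change: if `L/K` is unramified, `K'/K` finite, `L'` a field containing
both with `L' = L K'`, then `L'/K'` is unramified and `frob(L'/K')|_L = frob(L/K) ^ f`,
where `resCard K' = resCard K ^ f`.  (VERBATIM Skeleton2.) -/
theorem frob_baseChange (h : IsUnramified q K L)
    (hgen : IntermediateField.adjoin K' (Set.range (algebraMap L L')) = ⊤)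
    (f : ℕ) (hf : Loc.resCard q K' = Loc.resCard q K ^ f) :
    IsUnramified q K' L' ∧
      ∀ x : L, frob q K' L' (algebraMap L L' x) = algebraMap L L' ((frob q K L ^ f) x) :=
  ⟨isUnramified_baseChange q K L K' L' h hgen,
    frob_baseChange_of_isUnramified q K L K' L' h (isUnramified_baseChange q K L K' L' h hgen)
      f hf⟩

end BaseChange

end Fermat.Agent.CFT.H25
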