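/-
CFT layer B (helper19): Skeleton4 §B-UNRCLASS for a GENERAL BASE FIELD `K` (finite over `ℚ_q`):
the classes `Loc.unrClassRel q K E a` of the standard cocycles of `a ∈ Kˣ` with respect to the
Frobenius of an unramified extension `E/K`.
-/
import Fermat.Agent.CFT.H19_StdLoc
import Fermat.Agent.CFT.H25_LocBaseChange
import Fermat.Agent.CFT.H97_Bridge

set_option autoImplicit false
set_option linter.unusedVariables false
set_option linter.unusedSectionVars false
set_option linter.style.haveILetI false

open groupCohomology CategoryTheory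

namespace Fermat.Agent.CFT.H19

open Fermat.Agent.CFT.Loc

variable (q : ℕ) [Fact q.Prime]
variable (K : Type) [Field K] [Algebra ℚ_[q] K] [FiniteDimensional ℚ_[q] K]

section General

variable {G M : Type} [Group G] [CommGroup M] [MulDistribMulAction G M]

lemma mul_invariant {m m' : M} (hm : ∀ x : G, x • m = m) (hm' : ∀ x : G, x • m' = m') (x : G) :
    x • (m * m') = m * m' := by rw [smul_mul', hm, hm']

lemma pow_invariant {m : M} (hm : ∀ x : G, x • m = m) (k : ℕ) (x : G) :
    x • (m ^ k) = m ^ k := by rw [smul_pow', hm]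

variable [Finite G]

lemma stdMulCocycle_congr {g : G} (hg : ∀ x : G, x ∈ Subgroup.zpowers g) {m m' : M}
    (hm : ∀ x : G, x • m = m) (hm' : ∀ x : G, x • m' = m') (e : m = m') :
    stdMulCocycle hg hm = stdMulCocycle hg hm' := by
  subst e
  rfl

lemma stdMulCocycle_mul {g : G} (hg : ∀ x : G, x ∈ Subgroup.zpowers g) {m m' : M}
    (hm : ∀ x : G, x • m = m) (hm' : ∀ x : G, x • m' = m') :
    stdMulCocycle hg (mul_invariant hm hm') = stdMulCocycle hg hm + stdMulCocycle hg hm' := by
  apply Subtype.ext
  show stdFun _ g (toRep G (m * m')) = stdFun _ g (toRep G m) + stdFun _ g (toRep G m')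
  rw [← stdFun_add, toRep_mul]

lemma stdMulCocycle_pow {g : G} (hg : ∀ x : G, x ∈ Subgroup.zpowers g) {m : M}
    (hm : ∀ x : G, x • m = m) (k : ℕ) :
    stdMulCocycle hg (pow_invariant hm k) = k • stdMulCocycle hg hm := by
  apply Subtype.ext
  show stdFun _ g (toRep G (m ^ k)) = ⇑(k • stdMulCocycle hg hm)
  rw [coe_nsmul_cocycles₂, toRep_pow, stdFun_nsmul]
  rfl

end General

section UnrClassRel

variable (E : Type) [Field E] [Algebra ℚ_[q] E] [FiniteDimensional ℚ_[q] E]
  [Algebra K E] [IsScalarTower ℚ_[q] K E]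

/-- the image of `a ∈ Kˣ` in `Eˣ` -/
noncomputable abbrev baseUnit (a : Kˣ) : Eˣ := Units.map (algebraMap K E : K →* E) a

lemma smul_baseUnit (σ : E ≃ₐ[K] E) (a : Kˣ) : σ • baseUnit K E a = baseUnit K E a := by
  apply Units.ext
  show σ (algebraMap K E a) = algebraMap K E a
  exact σ.commutes a

include q in
lemma finite_gal : Finite (E ≃ₐ[K] E) := by
  haveI := H25.finiteDimensional_tower q K E
  infer_instance

theorem isMulCocycle₂_unrCocycleRel (h : IsUnramified q K E) (a : Kˣ) :
    IsMulCocycle₂ (unrCocycleRel q K E a) := by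
  haveI := finite_gal q K E
  exact isMulCocycle₂_stdCocycle (frob q K E) (H25.frob_generates q K E h) _
    (smul_baseUnit K E _ a)

/-- `unrClassRel` is the class of the standard cocycle of `H19_StdCocycle`. -/
theorem unrClassRel_eq_std (h : IsUnramified q K E) (a : Kˣ) :
    haveI := finite_gal q K E
    unrClassRel q K E a =
      H2π (Rep.ofAlgebraAutOnUnits K E)
        (stdMulCocycle (H25.frob_generates q K E h) (fun σ => smul_baseUnit K E σ a)) := by
  haveI := finite_gal q K E
  rw [unrClassRel_eq q K E a (isMulCocycle₂_unrCocycleRel q K E h a)]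
  congr 1

/-- multiplicativity in `a` -/
theorem unrClassRel_mul (h : IsUnramified q K E) (a b : Kˣ) :
    unrClassRel q K E (a * b) = unrClassRel q K E a + unrClassRel q K E b := by
  haveI := finite_gal q K E
  rw [unrClassRel_eq_std q K E h, unrClassRel_eq_std q K E h, unrClassRel_eq_std q K E h]
  have key := stdMulCocycle_mul (H25.frob_generates q K E h)
    (fun σ => smul_baseUnit K E σ a) (fun σ => smul_baseUnit K E σ b)
  have e : baseUnit K E (a * b) = baseUnit K E a * baseUnit K E b := map_mul _ a b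
  have key2 : stdMulCocycle (H25.frob_generates q K E h) (fun σ => smul_baseUnit K E σ (a * b)) =
      stdMulCocycle (H25.frob_generates q K E h) (mul_invariant
        (fun σ => smul_baseUnit K E σ a) (fun σ => smul_baseUnit K E σ b)) :=
    stdMulCocycle_congr _ _ _ e
  rw [key2, key]
  exact map_add _ _ _

/-- the norm of a unit of `E` as a product over the powers of Frobenius -/
lemma prod_frob_pow_smul (h : IsUnramified q K E) (y : Eˣ) :
    ((∏ j ∈ Finset.range (orderOf (frob q K E)), frob q K E ^ j • y : Eˣ) : E) =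
      algebraMap K E (Algebra.norm K (y : E)) := by
  haveI := H25.finiteDimensional_tower q K E
  haveI := H25.isGalois_of_isUnramified q K E h
  rw [Algebra.norm_eq_prod_automorphisms, prod_range_orderOf_smul (H25.frob_generates q K E h) y,
    Units.coe_prod]
  rfl

/-- norms (in particular units of `K`, by B-UNR-F `exists_unit_norm_eq`) give the zero class -/
theorem unrClassRel_eq_zero_iff (h : IsUnramified q K E) (a : Kˣ) :
    unrClassRel q K E a = 0 ↔ a ∈ normSubgroup K E := by
  haveI := finite_gal q K E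
  rw [unrClassRel_eq_std q K E h]
  erw [H2π_stdMulCocycle_eq_zero_iff]
  rw [mem_normSubgroup_iff]
  constructor
  · rintro ⟨y, hy⟩
    refine ⟨y, ?_⟩
    apply (algebraMap K E).injective
    rw [← prod_frob_pow_smul q K E h y, ← hy]
    rfl
  · rintro ⟨y, hy⟩
    refine ⟨y, ?_⟩
    apply Units.ext
    rw [prod_frob_pow_smul q K E h y, hy]
    rfl

/-- The B-UNR-F input `N U_E = U_K` (Skeleton2 `exists_unit_norm_eq`) as a hypothesis. -/
def UnitNormSurj : Prop :=
  ∀ u : Kˣ, u ∈ unitGroup q K →
    ∃ w : Eˣ, w ∈ unitGroup q E ∧ Algebra.norm K (w : E) = u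

/-- units of `K` give the zero class (given `N U_E = U_K`) -/
theorem unrClassRel_unit_of (h : IsUnramified q K E) (hN : UnitNormSurj q K E) (u : Kˣ)
    (hu : u ∈ unitGroup q K) : unrClassRel q K E u = 0 := by
  rw [unrClassRel_eq_zero_iff q K E h, mem_normSubgroup_iff]
  obtain ⟨w, -, hw⟩ := hN u hu
  exact ⟨w, hw⟩

theorem unrClassRel_pow (h : IsUnramified q K E) (a : Kˣ) (k : ℕ) :
    unrClassRel q K E (a ^ k) = k • unrClassRel q K E a := by
  induction k with
  | zero =>
    rw [zero_smul, pow_zero]
    have h1 := unrClassRel_mul q K E h 1 1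
    rw [one_mul] at h1
    exact left_eq_add.1 h1
  | succ j ihj => rw [pow_succ, unrClassRel_mul q K E h, ihj, succ_nsmul]

/-- `k • unrClassRel a = 0` iff `a ^ k` is a norm -/
theorem nsmul_unrClassRel_eq_zero_iff (h : IsUnramified q K E) (a : Kˣ) (k : ℕ) :
    k • unrClassRel q K E a = 0 ↔ a ^ k ∈ normSubgroup K E := by
  rw [← unrClassRel_eq_zero_iff q K E h, unrClassRel_pow q K E h]

/-- the class of a uniformizer has order exactly `[E:K]` -/
theorem addOrderOf_unrClassRel (h : IsUnramified q K E) (ϖ : Kˣ)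
    (hϖ : IsUniformizer q K (ϖ : K)) :
    addOrderOf (unrClassRel q K E ϖ) = Module.finrank K E := by
  haveI := finite_gal q K E
  have hϖ' : H97.IsUniformizer q K (ϖ : K) := hϖ
  rw [unrClassRel_eq_std q K E h, ← H25.orderOf_frob q K E h]
  apply addOrderOf_H2π_stdMulCocycle_eq
  rintro k ⟨y, hy⟩
  rw [H25.orderOf_frob q K E h]
  -- `ϖ ^ k = N y`
  have h1 : ((ϖ : K)) ^ k = Algebra.norm K (y : E) := by
    apply (algebraMap K E).injective
    rw [← prod_frob_pow_smul q K E h y, ← hy]
    simp
  have h2 : nrm q K (ϖ : K) ^ k = nrm q E (y : E) ^ Module.finrank K E := by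
    rw [H97.nrm_pow_finrank_eq q K E, ← h1, H97.nrm_pow]
  obtain ⟨x, hx⟩ := h (y : E)
  have hx0 : x ≠ 0 := by
    rintro rfl
    rw [nrm_zero] at hx
    exact y.ne_zero ((nrm_eq_zero_iff q).1 hx)
  obtain ⟨m, hm⟩ := hϖ'.exists_zpow hx0
  rw [hx, hm, ← zpow_natCast, ← zpow_natCast, ← zpow_mul] at h2
  have h3 := hϖ'.zpow_inj h2
  have h4 : (Module.finrank K E : ℤ) ∣ (k : ℤ) := ⟨m, by rw [h3, mul_comm]⟩
  exact Int.natCast_dvd_natCast.1 h4

/-- inflation compatibility -/
theorem infl_unrClassRel (E' : Type) [Field E'] [Algebra ℚ_[q] E'] [FiniteDimensional ℚ_[q] E']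
    [Algebra K E'] [IsScalarTower ℚ_[q] K E'] [Algebra E E'] [IsScalarTower K E E'] [Normal K E]
    (h : IsUnramified q K E) (h' : IsUnramified q K E') (a : Kˣ) :
    (infl K E E' 2).hom (unrClassRel q K E a) = Module.finrank E E' • unrClassRel q K E' a := by
  haveI := finite_gal q K E
  haveI := finite_gal q K E'
  haveI := H25.finiteDimensional_tower q K E
  haveI := H25.finiteDimensional_tower q K E'
  rw [unrClassRel_eq_std q K E h, unrClassRel_eq_std q K E' h']
  -- restriction of Frobenius
  have hres : (AlgEquiv.restrictNormalHom E : (E' ≃ₐ[K] E') →* (E ≃ₐ[K] E)) (frob q K E') =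
      frob q K E := by
    apply AlgEquiv.ext
    intro x
    apply (algebraMap E E').injective
    show algebraMap E E' ((frob q K E').restrictNormal E x) = _
    rw [AlgEquiv.restrictNormal_commutes, H25.frob_restrict q K E E' h']
  have key := map_H2π_stdCocycle_of_map_eq
    (AlgEquiv.restrictNormalHom E : (E' ≃ₐ[K] E') →* (E ≃ₐ[K] E)) (unitsInflHom K E E')
    (H25.frob_generates q K E h) (H25.frob_generates q K E' h')
    (toRep_invariant (fun σ => smul_baseUnit K E σ a)) hres
  have hord : orderOf (frob q K E') / orderOf (frob q K E) = Module.finrank E E' := by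
    rw [H25.orderOf_frob q K E h, H25.orderOf_frob q K E' h',
      ← Module.finrank_mul_finrank K E E', Nat.mul_div_cancel_left _ Module.finrank_pos]
  rw [hord] at key
  refine key.trans ?_
  congr 2
  have e : (unitsInflHom K E E').hom (toRep (E ≃ₐ[K] E) (M := Eˣ) (baseUnit K E a)) =
      toRep (E' ≃ₐ[K] E') (M := E'ˣ) (baseUnit K E' a) := by
    show toRep (E' ≃ₐ[K] E') (M := E'ˣ)
      (Units.map (algebraMap E E' : E →* E') (baseUnit K E a)) = _
    congr 1
    apply Units.ext
    show algebraMap E E' (algebraMap K E a) = algebraMap K E' a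
    rw [← IsScalarTower.algebraMap_apply]
  exact stdCocycle_congr _ _ e

end UnrClassRel

end Fermat.Agent.CFT.H19
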