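/-
CFT layer B (helper19): Skeleton4 §B-UGLY for a GENERAL BASE FIELD:
restriction of (inflated) unramified classes to a finite extension `K'/K`.
-/
import Fermat.Agent.CFT.H19_UnrRel

set_option autoImplicit false
set_option linter.unusedVariables false
set_option linter.unusedSectionVars false
set_option linter.style.haveILetI false

open groupCohomology CategoryTheory

namespace Fermat.Agent.CFT.H19

open Fermat.Agent.CFT.Loc

variable (q : ℕ) [Fact q.Prime]
variable (K : Type) [Field K] [Algebra ℚ_[q] K] [FiniteDimensional ℚ_[q] K]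

section BaseChange

variable (K' : Type) [Field K'] [Algebra ℚ_[q] K'] [FiniteDimensional ℚ_[q] K']
  [Algebra K K'] [IsScalarTower ℚ_[q] K K']
variable (E : Type) [Field E] [Algebra ℚ_[q] E] [FiniteDimensional ℚ_[q] E]
  [Algebra K E] [IsScalarTower ℚ_[q] K E]
variable (E' : Type) [Field E'] [Algebra ℚ_[q] E'] [FiniteDimensional ℚ_[q] E']
  [Algebra K E'] [IsScalarTower ℚ_[q] K E'] [Algebra K' E'] [IsScalarTower K K' E']
  [IsScalarTower ℚ_[q] K' E'] [Algebra E E'] [IsScalarTower K E E']

/-- restriction `Gal(E'/K') → Gal(E/K)` -/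
noncomputable def resGal [Normal K E] : (E' ≃ₐ[K'] E') →* (E ≃ₐ[K] E) :=
  (AlgEquiv.restrictNormalHom E : (E' ≃ₐ[K] E') →* (E ≃ₐ[K] E)).comp
    (AlgEquiv.restrictScalarsHom K : (E' ≃ₐ[K'] E') →* (E' ≃ₐ[K] E'))

lemma resGal_commutes [Normal K E] (σ : E' ≃ₐ[K'] E') (x : E) :
    algebraMap E E' (resGal K K' E E' σ x) = σ (algebraMap E E' x) :=
  AlgEquiv.restrictNormal_commutes (σ.restrictScalars K) E x

/-- `Gal(E'/K') → Gal(E/K)` is injective when `E' = K'E`. -/
lemma resGal_injective [Normal K E]
    (hgen : IntermediateField.adjoin K' (Set.range (algebraMap E E')) = ⊤) :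
    Function.Injective (resGal K K' E E') := by
  rw [injective_iff_map_eq_one]
  intro σ hσ
  have hfix : ∀ x : E, σ (algebraMap E E' x) = algebraMap E E' x := by
    intro x
    rw [← resGal_commutes K K' E E' σ x, hσ]
    rfl
  have hle : IntermediateField.adjoin K' (Set.range (algebraMap E E')) ≤
      IntermediateField.fixedField (Subgroup.zpowers σ) := by
    rw [IntermediateField.adjoin_le_iff]
    rintro _ ⟨x, rfl⟩
    rw [SetLike.mem_coe, IntermediateField.mem_fixedField_iff]
    rintro τ hτ
    obtain ⟨k, rfl⟩ := Subgroup.mem_zpowers_iff.1 hτ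
    clear hτ
    induction k using Int.induction_on with
    | zero => simp
    | succ i ih =>
      rw [zpow_add_one, AlgEquiv.mul_apply, hfix, ih]
    | pred i ih =>
      rw [zpow_sub_one, AlgEquiv.mul_apply]
      have : σ⁻¹ (algebraMap E E' x) = algebraMap E E' x := by
        conv_lhs => rw [← hfix x]
        exact σ.symm_apply_apply _
      rw [this, ih]
  rw [hgen] at hle
  apply AlgEquiv.ext
  intro y
  have hy : y ∈ IntermediateField.fixedField (Subgroup.zpowers σ) := hle trivial
  rw [IntermediateField.mem_fixedField_iff] at hy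
  exact hy σ (Subgroup.mem_zpowers σ)

/-- the inclusion `Eˣ → E'ˣ`, equivariant along `resGal` -/
noncomputable def unitsBaseHom [Normal K E] :
    Rep.res (resGal K K' E E') (Rep.ofAlgebraAutOnUnits K E) ⟶ Rep.ofAlgebraAutOnUnits K' E' :=
  (Rep.resFunctor (AlgEquiv.restrictScalarsHom K : (E' ≃ₐ[K'] E') →* (E' ≃ₐ[K] E'))).map
    (unitsInflHom K E E') ≫ unitsRestHom K K' E'

/-- `rest ∘ infl` as a single `groupCohomology.map` -/
lemma rest_infl_eq_map [Normal K E] (n : ℕ) :
    infl K E E' n ≫ rest K K' E' n =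
      groupCohomology.map (resGal K K' E E') (unitsBaseHom K K' E E') n :=
  (groupCohomology.map_comp _ _ _ _ n).symm

lemma unitsBaseHom_toRep [Normal K E] (u : Eˣ) :
    (unitsBaseHom K K' E E').hom (toRep (E ≃ₐ[K] E) (M := Eˣ) u) =
      toRep (E' ≃ₐ[K'] E') (M := E'ˣ) (Units.map (algebraMap E E' : E →* E') u) := rfl

/-- (★) base change of unramified classes: the class of `a` for `E/K` maps to the class of `a`
for `E'/K'`, `E' = K'E`. -/
theorem map_resGal_unrClassRel [Normal K E] (hE : IsUnramified q K E)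
    (hgen : IntermediateField.adjoin K' (Set.range (algebraMap E E')) = ⊤)
    (f : ℕ) (hf : resCard q K' = resCard q K ^ f) (hfn : f ∣ Module.finrank K E) (a : Kˣ) :
    (groupCohomology.map (resGal K K' E E') (unitsBaseHom K K' E E') 2).hom
        (unrClassRel q K E a) =
      unrClassRel q K' E' (Units.map (algebraMap K K' : K →* K') a) := by
  haveI := finite_gal q K E
  haveI := finite_gal q K' E'
  haveI := H25.finiteDimensional_tower q K E
  have hE' : IsUnramified q K' E' := H25.isUnramified_baseChange q K E K' E' hE hgen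
  rw [unrClassRel_eq_std q K E hE, unrClassRel_eq_std q K' E' hE']
  have hf0 : f ≠ 0 := by
    rintro rfl
    rw [zero_dvd_iff] at hfn
    exact (Module.finrank_pos (R := K) (M := E)).ne' hfn
  have hres : resGal K K' E E' (frob q K' E') = frob q K E ^ f := by
    apply AlgEquiv.ext
    intro x
    apply (algebraMap E E').injective
    rw [resGal_commutes, H25.frob_baseChange_of_isUnramified q K E K' E' hE hE' f hf x]
  have hfe : f * orderOf (frob q K' E') = orderOf (frob q K E) := by
    rw [← orderOf_injective (resGal K K' E E') (resGal_injective K K' E E' hgen), hres,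
      orderOf_pow_of_dvd hf0 (by rw [H25.orderOf_frob q K E hE]; exact hfn)]
    exact Nat.mul_div_cancel' (by rw [H25.orderOf_frob q K E hE]; exact hfn)
  have key := map_H2π_stdCocycle_of_mul_eq (resGal K K' E E') (unitsBaseHom K K' E E')
    (H25.frob_generates q K E hE) (H25.frob_generates q K' E' hE')
    (toRep_invariant (fun σ => smul_baseUnit K E σ a)) hres hfe
  refine key.trans ?_
  congr 2
  have e : (unitsBaseHom K K' E E').hom (toRep (E ≃ₐ[K] E) (M := Eˣ) (baseUnit K E a)) =
      toRep (E' ≃ₐ[K'] E') (M := E'ˣ)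
        (baseUnit K' E' (Units.map (algebraMap K K' : K →* K') a)) := by
    rw [unitsBaseHom_toRep]
    congr 1
    apply Units.ext
    show algebraMap E E' (algebraMap K E a) = algebraMap K' E' (algebraMap K K' a)
    rw [← IsScalarTower.algebraMap_apply, ← IsScalarTower.algebraMap_apply]
  exact e

end BaseChange

section Gen

variable (K' : Type) [Field K'] [Algebra ℚ_[q] K'] [FiniteDimensional ℚ_[q] K']
  [Algebra K K'] [IsScalarTower ℚ_[q] K K']
variable (E : Type) [Field E] [Algebra ℚ_[q] E] [FiniteDimensional ℚ_[q] E]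
  [Algebra K E] [IsScalarTower ℚ_[q] K E]
variable (E' : Type) [Field E'] [Algebra ℚ_[q] E'] [FiniteDimensional ℚ_[q] E']
  [Algebra K E'] [IsScalarTower ℚ_[q] K E'] [Algebra K' E'] [IsScalarTower K K' E']
  [IsScalarTower ℚ_[q] K' E'] [Algebra E E'] [IsScalarTower K E E']
variable (M : Type) [Field M] [Algebra ℚ_[q] M] [FiniteDimensional ℚ_[q] M]
  [Algebra K M] [IsScalarTower ℚ_[q] K M] [Algebra K' M] [IsScalarTower K K' M]
  [IsScalarTower ℚ_[q] K' M] [Algebra E M] [IsScalarTower K E M]
  [Algebra E' M] [IsScalarTower K' E' M] [IsScalarTower E E' M] [IsScalarTower K E' M]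

/-- the two ways of restricting `Gal(M/K') → Gal(E/K)` agree -/
lemma resGal_comp_restrictNormalHom [Normal K E] [Normal K' E'] :
    (AlgEquiv.restrictNormalHom E : (M ≃ₐ[K] M) →* (E ≃ₐ[K] E)).comp
        (AlgEquiv.restrictScalarsHom K : (M ≃ₐ[K'] M) →* (M ≃ₐ[K] M)) =
      (resGal K K' E E').comp
        (AlgEquiv.restrictNormalHom E' : (M ≃ₐ[K'] M) →* (E' ≃ₐ[K'] E')) := by
  apply MonoidHom.ext
  intro σ
  apply AlgEquiv.ext
  intro x
  apply (algebraMap E M).injective
  have h1 : algebraMap E M (((AlgEquiv.restrictNormalHom E : (M ≃ₐ[K] M) →* (E ≃ₐ[K] E)).comp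
      (AlgEquiv.restrictScalarsHom K : (M ≃ₐ[K'] M) →* (M ≃ₐ[K] M))) σ x) =
      σ (algebraMap E M x) :=
    AlgEquiv.restrictNormal_commutes (σ.restrictScalars K) E x
  have h2 : algebraMap E M (((resGal K K' E E').comp
      (AlgEquiv.restrictNormalHom E' : (M ≃ₐ[K'] M) →* (E' ≃ₐ[K'] E'))) σ x) =
      σ (algebraMap E M x) := by
    rw [IsScalarTower.algebraMap_apply E E' M, IsScalarTower.algebraMap_apply E E' M]
    show algebraMap E' M (algebraMap E E' (resGal K K' E E' (σ.restrictNormal E') x)) = _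
    rw [resGal_commutes, AlgEquiv.restrictNormal_commutes]
  rw [h1, h2]

/-- GEN: restriction to `K'` of the inflated unramified class of `E/K` is the inflated
`unrClassRel` of `E' = K'E` over `K'` for the SAME element `a`. (Skeleton4 verbatim.) -/
theorem rest_infl_unrClassRel [IsGalois K E] [IsGalois K M] [Normal K' E']
    (hE : IsUnramified q K E)
    (hgen : IntermediateField.adjoin K' (Set.range (algebraMap E E')) = ⊤)
    (f : ℕ) (hf : resCard q K' = resCard q K ^ f) (hfn : f ∣ Module.finrank K E) (a : Kˣ) :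
    (rest K K' M 2).hom ((infl K E M 2).hom (unrClassRel q K E a)) =
      (infl K' E' M 2).hom (unrClassRel q K' E' (Units.map (algebraMap K K' : K →* K') a)) := by
  rw [← map_resGal_unrClassRel q K K' E E' hE hgen f hf hfn a]
  have h1 : infl K E M 2 ≫ rest K K' M 2 =
      groupCohomology.map
        ((AlgEquiv.restrictNormalHom E : (M ≃ₐ[K] M) →* (E ≃ₐ[K] E)).comp
          (AlgEquiv.restrictScalarsHom K : (M ≃ₐ[K'] M) →* (M ≃ₐ[K] M)))
        ((Rep.resFunctor (AlgEquiv.restrictScalarsHom K : (M ≃ₐ[K'] M) →* (M ≃ₐ[K] M))).map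
          (unitsInflHom K E M) ≫ unitsRestHom K K' M) 2 := by
    unfold infl rest
    exact (groupCohomology.map_comp _ _ _ _ 2).symm
  have h2 : groupCohomology.map (resGal K K' E E') (unitsBaseHom K K' E E') 2 ≫
      infl K' E' M 2 =
      groupCohomology.map
        ((resGal K K' E E').comp
          (AlgEquiv.restrictNormalHom E' : (M ≃ₐ[K'] M) →* (E' ≃ₐ[K'] E')))
        ((Rep.resFunctor
          (AlgEquiv.restrictNormalHom E' : (M ≃ₐ[K'] M) →* (E' ≃ₐ[K'] E'))).map
          (unitsBaseHom K K' E E') ≫ unitsInflHom K' E' M) 2 := by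
    unfold infl
    exact (groupCohomology.map_comp _ _ _ _ 2).symm
  have h3 : groupCohomology.map
        ((AlgEquiv.restrictNormalHom E : (M ≃ₐ[K] M) →* (E ≃ₐ[K] E)).comp
          (AlgEquiv.restrictScalarsHom K : (M ≃ₐ[K'] M) →* (M ≃ₐ[K] M)))
        ((Rep.resFunctor (AlgEquiv.restrictScalarsHom K : (M ≃ₐ[K'] M) →* (M ≃ₐ[K] M))).map
          (unitsInflHom K E M) ≫ unitsRestHom K K' M) 2 =
      groupCohomology.map
        ((resGal K K' E E').comp
          (AlgEquiv.restrictNormalHom E' : (M ≃ₐ[K'] M) →* (E' ≃ₐ[K'] E')))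
        ((Rep.resFunctor
          (AlgEquiv.restrictNormalHom E' : (M ≃ₐ[K'] M) →* (E' ≃ₐ[K'] E'))).map
          (unitsBaseHom K K' E E') ≫ unitsInflHom K' E' M) 2 := by
    refine groupCohomology.map_congr (resGal_comp_restrictNormalHom K K' E E' M) ?_ 2
    apply LinearMap.ext
    intro u
    show toRep (M ≃ₐ[K'] M) (M := Mˣ) (Units.map (algebraMap E M : E →* M)
        (Additive.toMul (show Additive Eˣ from u))) =
      toRep (M ≃ₐ[K'] M) (M := Mˣ) (Units.map (algebraMap E' M : E' →* M)
        (Units.map (algebraMap E E' : E →* E') (Additive.toMul (show Additive Eˣ from u))))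
    congr 1
    apply Units.ext
    show algebraMap E M _ = algebraMap E' M (algebraMap E E' _)
    rw [← IsScalarTower.algebraMap_apply]
  have h4 : infl K E M 2 ≫ rest K K' M 2 =
      groupCohomology.map (resGal K K' E E') (unitsBaseHom K K' E E') 2 ≫ infl K' E' M 2 := by
    rw [h1, h2, h3]
  exact congrArg (fun t => t.hom (unrClassRel q K E a)) h4

end Gen

end Fermat.Agent.CFT.H19
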