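/-
CFT layer B (helper19): Skeleton4 §B-UGLY `rest_infl_unrClassRel_eq_zero` VERBATIM
(general base, hypothesis-free), a wrapper around helper76's `H76.rest_infl_unrClassRel_eq_zero'`
and helper92's relative ramification data; plus `unrClassRel_unit` verbatim.
-/
import Fermat.Agent.CFT.H19_UglyRel
import Fermat.Agent.CFT.H76_UglyFinal
import Fermat.Agent.CFT.H92_RamLoc
import Fermat.Agent.CFT.H39_UnrUnits

set_option autoImplicit false
set_option linter.unusedVariables false
set_option linter.unusedSectionVars false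
set_option linter.style.haveILetI false

open groupCohomology CategoryTheory

namespace Fermat.Agent.CFT.H19

open Fermat.Agent.CFT.Loc

variable (q : ℕ) [Fact q.Prime]
variable (K : Type) [Field K] [Algebra ℚ_[q] K] [FiniteDimensional ℚ_[q] K]

section UnitFinal

variable (E : Type) [Field E] [Algebra ℚ_[q] E] [FiniteDimensional ℚ_[q] E]
  [Algebra K E] [IsScalarTower ℚ_[q] K E]

theorem unitNormSurj (h : IsUnramified q K E) : UnitNormSurj q K E :=
  fun u hu => H39.exists_unit_norm_eq q K E h u hu

/-- Skeleton4 `unrClassRel_unit` verbatim. -/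
theorem unrClassRel_unit (h : IsUnramified q K E) (u : Kˣ) (hu : u ∈ unitGroup q K) :
    unrClassRel q K E u = 0 :=
  unrClassRel_unit_of q K E h (unitNormSurj q K E h) u hu

end UnitFinal

section UglyRel

variable (K' : Type) [Field K'] [Algebra ℚ_[q] K'] [FiniteDimensional ℚ_[q] K']
  [Algebra K K'] [IsScalarTower ℚ_[q] K K']
variable (E : Type) [Field E] [Algebra ℚ_[q] E] [FiniteDimensional ℚ_[q] E]
  [Algebra K E] [IsScalarTower ℚ_[q] K E]
variable (M : Type) [Field M] [Algebra ℚ_[q] M] [FiniteDimensional ℚ_[q] M]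
  [Algebra K M] [IsScalarTower ℚ_[q] K M] [Algebra K' M] [IsScalarTower K K' M]
  [IsScalarTower ℚ_[q] K' M] [Algebra E M] [IsScalarTower K E M]

/-- UGLY (general base): the unramified class of degree `[K':K]` dies over `K'`.
`K'/K` need not be Galois; `M` any finite Galois extension of `K` containing `E` and `K'`.
(Skeleton4 verbatim.) -/
theorem rest_infl_unrClassRel_eq_zero [IsGalois K E] [IsGalois K M]
    (hE : IsUnramified q K E) (hdeg : Module.finrank K E = Module.finrank K K')
    (ϖ : Kˣ) (hϖ : IsUniformizer q K (ϖ : K)) :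
    (rest K K' M 2).hom ((infl K E M 2).hom (unrClassRel q K E ϖ)) = 0 := by
  haveI := H25.isScalarTower_base q K E M
  obtain ⟨e, f, hef, hf, hnrm⟩ := H92.exists_ramification_data_rel q K K'
  obtain ⟨ϖ', hϖ'⟩ := H92.exists_isUniformizer q K'
  exact H76.rest_infl_unrClassRel_eq_zero' q K E K' M hE ϖ e f (by rw [hef, hdeg]) hf
    ⟨ϖ', hnrm ϖ ϖ' hϖ hϖ'⟩

end UglyRel

end Fermat.Agent.CFT.H19
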