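import Fermat.Agent.CFT.H55_Twist
import Fermat.Agent.CFT.H36_Envelope

/-!
# D3-inst (helper55): `E[p]` is the cyclotomic character

If `E` is a `ℤ`-representation of `G_ℚ` whose underlying group embeds equivariantly and
multiplicatively into `ℚbar` (e.g. any Galois-stable group of units of a subfield of `ℚbar`, such
as the `S`-units `E_S` of `ℚ_S`), and the image contains the `p`-th roots of unity, then the
`p`-torsion representation `H36.torsionRep p E` is the mod `p` cyclotomic character:
`isCharRep_torsionRep`.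
-/

set_option autoImplicit false

open CategoryTheory ExtCitation

noncomputable section

namespace Fermat.Agent.CFT

local notation "GQ" => (AlgebraicClosure ℚ ≃ₐ[ℚ] AlgebraicClosure ℚ)
local notation "Qbar" => AlgebraicClosure ℚ

variable {p : ℕ} [Fact p.Prime]

section

variable {E : Rep.{0} ℤ GQ} (e : E.V → Qbar)
  (he_add : ∀ x y, e (x + y) = e x * e y) (he_zero : e 0 = 1)

include he_add he_zero in
lemma map_nsmul_of_mul (n : ℕ) (x : E.V) : e (n • x) = e x ^ n := by
  induction n with
  | zero => simp [he_zero]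
  | succ n ih => rw [succ_nsmul, he_add, ih, pow_succ]

variable (he_inj : Function.Injective e)
  (he_equiv : ∀ (g : GQ) (x : E.V), e (E.ρ g x) = g (e x))
  (he_roots : ∀ ζ : Qbar, ζ ^ p = 1 → ∃ x, e x = ζ)

include he_add he_zero he_inj he_equiv he_roots in
/-- The `p`-torsion of a multiplicative Galois module inside `ℚbar` containing `μ_p` is the mod
`p` cyclotomic character. -/
theorem isCharRep_torsionRep :
    ∃ z : (H36.torsionRep p E).V, IsCharRep (cycloChar p) (H36.torsionRep p E) z := by
  have hp : p.Prime := Fact.out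
  haveI : NeZero p := ⟨hp.ne_zero⟩
  obtain ⟨ζ, hζ⟩ := Fermat.Agent.S14.H67.exists_primitiveRoot p
  obtain ⟨x₀, hx₀⟩ := he_roots ζ hζ.pow_eq_one
  have hpow := map_nsmul_of_mul e he_add he_zero
  have hx₀p : p • x₀ = 0 := by
    apply he_inj
    rw [hpow, hx₀, hζ.pow_eq_one, he_zero]
  let z : H36.torsionSub p E.V := ⟨x₀, (H36.mem_torsionSub p x₀).2 hx₀p⟩
  have hnat : ∀ (n : ℕ) (v : H36.torsionSub p E.V), ((n : ZMod p) • v : H36.torsionSub p E.V) = n • v :=
    fun n v => Nat.cast_smul_eq_nsmul (ZMod p) n v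
  refine ⟨z, ⟨fun g => ?_, fun v => ?_, fun h => ?_⟩⟩
  · -- the action
    have hspec : g ζ = ζ ^ ((cycloChar p g : ZMod p)).val :=
      Fermat.Agent.S14.H67.cycloChar_spec_primitive p g hζ
    have h1 : E.ρ g x₀ = ((cycloChar p g : ZMod p)).val • x₀ := by
      apply he_inj
      rw [he_equiv, hx₀, hspec, hpow, hx₀]
    have h2 : (((cycloChar p g : (ZMod p)ˣ) : ZMod p) • z : H36.torsionSub p E.V) =
        ((cycloChar p g : ZMod p)).val • z := by
      conv_lhs => rw [← ZMod.natCast_zmod_val ((cycloChar p g : (ZMod p)ˣ) : ZMod p)]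
      exact hnat _ _
    refine Eq.trans ?_ h2.symm
    refine Subtype.ext ?_
    show E.ρ g x₀ = _
    rw [h1]
    rfl
  · -- spanning
    obtain ⟨x, hx⟩ : ∃ x : E.V, x = (show H36.torsionSub p E.V from v).1 := ⟨_, rfl⟩
    have hxp : p • x = 0 := by
      rw [hx]
      exact (H36.mem_torsionSub p _).1 (show H36.torsionSub p E.V from v).2
    have h1 : e x ^ p = 1 := by rw [← hpow, hxp, he_zero]
    obtain ⟨i, -, hi⟩ := hζ.eq_pow_of_pow_eq_one h1
    refine ⟨(i : ZMod p), ?_⟩
    have h2 : x = i • x₀ := by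
      apply he_inj
      rw [hpow, hx₀, hi]
    refine Eq.trans ?_ (hnat i z).symm
    refine Subtype.ext ?_
    show (show H36.torsionSub p E.V from v).1 = _
    rw [← hx, h2]
    rfl
  · -- nonvanishing
    have h0 : x₀ = 0 := congrArg Subtype.val h
    have : ζ = 1 := by rw [← hx₀, h0, he_zero]
    exact hζ.ne_one hp.one_lt this

end

end Fermat.Agent.CFT
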