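/-
CFT project, layer C, package C-ES (helper1), part 7: `E_S[p] = μ_p` is the mod `p` cyclotomic
character (instantiation of helper55's `isCharRep_torsionRep` at `E := H1.repES S`).
-/
import Fermat.Agent.CFT.H1_GlobalPT
import Fermat.Agent.CFT.H55_MuChar

set_option autoImplicit false

namespace Fermat.Agent.CFT.H1

open Fermat.Agent.CFT ExtCitation

/-- The `p`-torsion of the `S`-units of `ℚ_S` (`p ∈ S`) is the mod `p` cyclotomic character. -/
theorem isCharRep_torsionRep_repES (S : Finset Nat.Primes) (p : ℕ) [Fact p.Prime]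
    (hpS : ∀ ℓ : Nat.Primes, (ℓ : ℕ) = p → ℓ ∈ S) :
    ∃ z : (H36.torsionRep p (repES S)).V,
      IsCharRep (cycloChar p) (H36.torsionRep p (repES S)) z :=
  isCharRep_torsionRep (esVal S) (esVal_add S) (esVal_zero S) (esVal_injective S) (esVal_smul S)
    (fun ζ hζ => exists_esVal_eq_of_pow_eq_one (Fact.out : p.Prime).ne_zero
      (fun ℓ hℓ => hpS ℓ ((Nat.prime_dvd_prime_iff_eq ℓ.2 Fact.out).mp hℓ)) ζ hζ)

end Fermat.Agent.CFT.H1
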