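import Mathlib
import Fermat.Agent.CFT.H55_LevelDefs
import Fermat.Agent.CFT.H50_LevelRes

/-!
# Coarse versus fine level structures on one group  (CFT / D4b)

`𝓛'` (coarse) and `𝓛` (fine) are two level structures on the same group `H`, every
`𝓛'`-level being `𝓛`-open (`IsCoarser 𝓛' 𝓛`).  Think of `H` = a decomposition group inside
`G_S`, `𝓛'` = the levels induced from `G_S`, `𝓛` = all open subgroups of the local Galois group.

* `smoothPart 𝓛' M` : the subrepresentation of `𝓛'`-smooth vectors of `M`, with `smoothIncl`,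
  `smoothMap`, `smoothLift`.
* `IsSmoothEmbedding 𝓛' f` : `f : M' ⟶ M` is injective and its image contains every
  `𝓛'`-smooth vector of `M`.
* `mapH1_injective` : for a smooth embedding the coarse-to-fine map `𝓛'.H1 M' → 𝓛.H1 M` is
  injective.
* `exists_fixed_lift`, `smoothMap_surjective` : the Hilbert 90 step.
* `mapH2_injective` : degree-2 inflation is injective when the fine `H¹` of the coarse levels
  vanishes.
-/

set_option autoImplicit false

universe u

open CategoryTheory groupCohomology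

namespace Fermat.Agent.CFT.H5

open Fermat.Agent.CFT

variable {H : Type u} [Group H]

/-! ## Coarser level structures -/

/-- `𝓛'` is coarser than `𝓛`: every `𝓛'`-level is `𝓛`-open. -/
def IsCoarser (𝓛' 𝓛 : LevelStructure H) : Prop := ∀ N ∈ 𝓛'.levels, 𝓛.IsOpen N

lemma IsCoarser.refl (𝓛 : LevelStructure H) : IsCoarser 𝓛 𝓛 := fun N hN => ⟨N, hN, le_rfl⟩

lemma IsCoarser.isCont {𝓛' 𝓛 : LevelStructure H} (h : IsCoarser 𝓛' 𝓛) :
    H50.IsCont 𝓛 𝓛' (MonoidHom.id H) := fun N hN => by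
  rw [Subgroup.comap_id]; exact h N hN

lemma IsCoarser.isOpen {𝓛' 𝓛 : LevelStructure H} (h : IsCoarser 𝓛' 𝓛) {U : Subgroup H}
    (hU : 𝓛'.IsOpen U) : 𝓛.IsOpen U := by
  obtain ⟨N, hN, hle⟩ := hU
  exact H50.IsOpen.mono 𝓛 (h N hN) hle

lemma IsCoarser.isConst₁ {𝓛' 𝓛 : LevelStructure H} (h : IsCoarser 𝓛' 𝓛) {X : Type*}
    {f : H → X} (hf : 𝓛'.IsConst₁ f) : 𝓛.IsConst₁ f := by
  obtain ⟨N, hN, hc⟩ := hf
  obtain ⟨N₀, hN₀, hle⟩ := h N hN
  exact ⟨N₀, hN₀, fun g s hs => hc g s (hle hs)⟩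

lemma IsCoarser.restrict {𝓛' 𝓛 : LevelStructure H} (h : IsCoarser 𝓛' 𝓛) (U : Subgroup H) :
    IsCoarser (𝓛'.restrict U) (𝓛.restrict U) := by
  rintro _ ⟨N, hN, rfl⟩
  obtain ⟨N₀, hN₀, hle⟩ := h N hN
  exact ⟨_, ⟨N₀, hN₀, rfl⟩, Subgroup.comap_mono hle⟩

variable {k : Type u} [CommRing k]

lemma IsCoarser.isDiscrete {𝓛' 𝓛 : LevelStructure H} (h : IsCoarser 𝓛' 𝓛) {M : Rep.{u} k H}
    (hM : 𝓛'.IsDiscrete M) : 𝓛.IsDiscrete M := by
  intro a
  obtain ⟨N, hN, hfix⟩ := hM a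
  obtain ⟨N₀, hN₀, hle⟩ := h N hN
  exact ⟨N₀, hN₀, fun n hn => hfix n (hle hn)⟩

/-! ## Smooth vectors -/

/-- A vector is `𝓛'`-smooth when it is fixed by some `𝓛'`-level. -/
def IsSmoothVec (𝓛' : LevelStructure H) (M : Rep.{u} k H) (m : M.V) : Prop :=
  ∃ N ∈ 𝓛'.levels, ∀ n ∈ N, M.ρ n m = m

lemma isDiscrete_iff_forall_isSmoothVec (𝓛' : LevelStructure H) (M : Rep.{u} k H) :
    𝓛'.IsDiscrete M ↔ ∀ m : M.V, IsSmoothVec 𝓛' M m := Iff.rfl

lemma rho_mul_apply' (M : Rep.{u} k H) (g h : H) (m : M.V) :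
    M.ρ (g * h) m = M.ρ g (M.ρ h m) := by
  rw [map_mul]; rfl

lemma rho_one_apply' (M : Rep.{u} k H) (m : M.V) : M.ρ 1 m = m := by
  rw [map_one]; rfl

lemma rho_inv_apply_apply (M : Rep.{u} k H) (g : H) (m : M.V) : M.ρ g⁻¹ (M.ρ g m) = m := by
  rw [← rho_mul_apply', inv_mul_cancel, rho_one_apply']

lemma rho_apply_inv_apply (M : Rep.{u} k H) (g : H) (m : M.V) : M.ρ g (M.ρ g⁻¹ m) = m := by
  rw [← rho_mul_apply', mul_inv_cancel, rho_one_apply']

lemma IsSmoothVec.zero (𝓛' : LevelStructure H) (M : Rep.{u} k H) : IsSmoothVec 𝓛' M 0 := by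
  obtain ⟨N, hN⟩ := 𝓛'.nonempty
  exact ⟨N, hN, fun n _ => map_zero _⟩

lemma IsSmoothVec.add {𝓛' : LevelStructure H} {M : Rep.{u} k H} {m m' : M.V}
    (hm : IsSmoothVec 𝓛' M m) (hm' : IsSmoothVec 𝓛' M m') : IsSmoothVec 𝓛' M (m + m') := by
  obtain ⟨N, hN, h⟩ := hm
  obtain ⟨N', hN', h'⟩ := hm'
  obtain ⟨N'', hN'', hle⟩ := 𝓛'.directed N hN N' hN'
  exact ⟨N'', hN'', fun n hn => by rw [map_add, h n (hle hn).1, h' n (hle hn).2]⟩

lemma IsSmoothVec.smul {𝓛' : LevelStructure H} {M : Rep.{u} k H} {m : M.V}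
    (hm : IsSmoothVec 𝓛' M m) (c : k) : IsSmoothVec 𝓛' M (c • m) := by
  obtain ⟨N, hN, h⟩ := hm
  exact ⟨N, hN, fun n hn => by rw [map_smul, h n hn]⟩

lemma IsSmoothVec.neg {𝓛' : LevelStructure H} {M : Rep.{u} k H} {m : M.V}
    (hm : IsSmoothVec 𝓛' M m) : IsSmoothVec 𝓛' M (-m) := by
  obtain ⟨N, hN, h⟩ := hm
  exact ⟨N, hN, fun n hn => by rw [map_neg, h n hn]⟩

lemma IsSmoothVec.sub {𝓛' : LevelStructure H} {M : Rep.{u} k H} {m m' : M.V}
    (hm : IsSmoothVec 𝓛' M m) (hm' : IsSmoothVec 𝓛' M m') : IsSmoothVec 𝓛' M (m - m') := by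
  rw [sub_eq_add_neg]; exact hm.add hm'.neg

/-- Smooth vectors are stable under the group action (levels are cofinally normal). -/
lemma IsSmoothVec.rho {𝓛' : LevelStructure H} {M : Rep.{u} k H} {m : M.V}
    (hm : IsSmoothVec 𝓛' M m) (g : H) : IsSmoothVec 𝓛' M (M.ρ g m) := by
  obtain ⟨N, hN, h⟩ := hm
  obtain ⟨N', hN', hle, hnor⟩ := 𝓛'.exists_normal N hN
  refine ⟨N', hN', fun n hn => ?_⟩
  have h1 : g⁻¹ * n * g ∈ N' := by
    have := hnor.conj_mem n hn g⁻¹
    simpa using this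
  have h2 : n * g = g * (g⁻¹ * n * g) := by group
  rw [← rho_mul_apply', h2, rho_mul_apply', h _ (hle h1)]

/-- The image of a smooth vector under a morphism is smooth. -/
lemma IsSmoothVec.map {𝓛' : LevelStructure H} {M M' : Rep.{u} k H} {m : M.V}
    (hm : IsSmoothVec 𝓛' M m) (f : M ⟶ M') : IsSmoothVec 𝓛' M' (f.hom m) := by
  obtain ⟨N, hN, h⟩ := hm
  exact ⟨N, hN, fun n hn => by rw [← Rep.hom_comm_apply, h n hn]⟩

/-- A vector fixed by an `𝓛'`-open subgroup is smooth. -/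
lemma isSmoothVec_of_isOpen {𝓛' : LevelStructure H} {M : Rep.{u} k H} {m : M.V}
    {U : Subgroup H} (hU : 𝓛'.IsOpen U) (h : ∀ n ∈ U, M.ρ n m = m) : IsSmoothVec 𝓛' M m := by
  obtain ⟨N, hN, hle⟩ := hU
  exact ⟨N, hN, fun n hn => h n (hle hn)⟩

/-- Two smooth vectors are fixed by a common normal level. -/
lemma IsSmoothVec.exists_common {𝓛' : LevelStructure H} {M M' : Rep.{u} k H} {m : M.V}
    {m' : M'.V} (hm : IsSmoothVec 𝓛' M m) (hm' : IsSmoothVec 𝓛' M' m') :
    ∃ N ∈ 𝓛'.levels, N.Normal ∧ (∀ n ∈ N, M.ρ n m = m) ∧ ∀ n ∈ N, M'.ρ n m' = m' := by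
  obtain ⟨N₁, hN₁, h₁⟩ := hm
  obtain ⟨N₂, hN₂, h₂⟩ := hm'
  obtain ⟨N, hN, hl₁, hl₂, hnor⟩ := H50.exists_normal_level_le_inf 𝓛'
    (H50.isOpen_of_mem_levels 𝓛' hN₁) (H50.isOpen_of_mem_levels 𝓛' hN₂)
  exact ⟨N, hN, hnor, fun n hn => h₁ n (hl₁ hn), fun n hn => h₂ n (hl₂ hn)⟩

/-- The submodule of `𝓛'`-smooth vectors. -/
def smoothSubmodule (𝓛' : LevelStructure H) (M : Rep.{u} k H) : Submodule k M.V where
  carrier := {m | IsSmoothVec 𝓛' M m}
  add_mem' hm hm' := hm.add hm'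
  zero_mem' := IsSmoothVec.zero 𝓛' M
  smul_mem' c _ hm := hm.smul c

lemma mem_smoothSubmodule_iff (𝓛' : LevelStructure H) (M : Rep.{u} k H) (m : M.V) :
    m ∈ smoothSubmodule 𝓛' M ↔ IsSmoothVec 𝓛' M m := Iff.rfl

lemma smoothSubmodule_le_comap (𝓛' : LevelStructure H) (M : Rep.{u} k H) (g : H) :
    smoothSubmodule 𝓛' M ≤ (smoothSubmodule 𝓛' M).comap (M.ρ g) :=
  fun _ hm => IsSmoothVec.rho hm g

/-- The subrepresentation of `𝓛'`-smooth vectors. -/
noncomputable def smoothPart (𝓛' : LevelStructure H) (M : Rep.{u} k H) : Rep.{u} k H :=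
  Rep.subrepresentation M (smoothSubmodule 𝓛' M) (smoothSubmodule_le_comap 𝓛' M)

/-- The inclusion of the smooth part. -/
noncomputable def smoothIncl (𝓛' : LevelStructure H) (M : Rep.{u} k H) : smoothPart 𝓛' M ⟶ M :=
  Rep.subtype M (smoothSubmodule 𝓛' M) (smoothSubmodule_le_comap 𝓛' M)

lemma smoothIncl_injective (𝓛' : LevelStructure H) (M : Rep.{u} k H) :
    Function.Injective (smoothIncl 𝓛' M).hom := fun _ _ h => Subtype.ext h

lemma smoothIncl_isSmoothVec (𝓛' : LevelStructure H) (M : Rep.{u} k H)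
    (x : (smoothPart 𝓛' M).V) : IsSmoothVec 𝓛' M ((smoothIncl 𝓛' M).hom x) :=
  (show smoothSubmodule 𝓛' M from x).2

lemma exists_smoothIncl_eq {𝓛' : LevelStructure H} {M : Rep.{u} k H} {m : M.V}
    (hm : IsSmoothVec 𝓛' M m) : ∃ x : (smoothPart 𝓛' M).V, (smoothIncl 𝓛' M).hom x = m :=
  ⟨(⟨m, hm⟩ : smoothSubmodule 𝓛' M), rfl⟩

theorem isDiscrete_smoothPart (𝓛' : LevelStructure H) (M : Rep.{u} k H) :
    𝓛'.IsDiscrete (smoothPart 𝓛' M) := by
  intro x
  obtain ⟨N, hN, h⟩ := smoothIncl_isSmoothVec 𝓛' M x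
  refine ⟨N, hN, fun n hn => smoothIncl_injective 𝓛' M ?_⟩
  rw [Rep.hom_comm_apply, h n hn]

/-- The universal property: a morphism from an `𝓛'`-discrete representation factors through
the smooth part. -/
noncomputable def smoothLift {𝓛' : LevelStructure H} {X M : Rep.{u} k H}
    (hX : 𝓛'.IsDiscrete X) (f : X ⟶ M) : X ⟶ smoothPart 𝓛' M :=
  Rep.ofHom (ρ := X.ρ) (σ := (smoothPart 𝓛' M).ρ)
    ⟨LinearMap.codRestrict (smoothSubmodule 𝓛' M) f.hom.toLinearMap
      (fun x => IsSmoothVec.map (hX x) f), fun g => by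
      refine LinearMap.ext fun x => Subtype.ext ?_
      exact Rep.hom_comm_apply f g x⟩

lemma smoothLift_incl_apply {𝓛' : LevelStructure H} {X M : Rep.{u} k H}
    (hX : 𝓛'.IsDiscrete X) (f : X ⟶ M) (x : X.V) :
    (smoothIncl 𝓛' M).hom ((smoothLift hX f).hom x) = f.hom x := rfl

lemma smoothLift_comp_incl {𝓛' : LevelStructure H} {X M : Rep.{u} k H}
    (hX : 𝓛'.IsDiscrete X) (f : X ⟶ M) : smoothLift hX f ≫ smoothIncl 𝓛' M = f := by
  apply Rep.hom_ext
  apply Representation.IntertwiningMap.ext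
  exact LinearMap.ext fun x => rfl

/-- Functoriality of the smooth part. -/
noncomputable def smoothMap (𝓛' : LevelStructure H) {M M' : Rep.{u} k H} (f : M ⟶ M') :
    smoothPart 𝓛' M ⟶ smoothPart 𝓛' M' :=
  smoothLift (isDiscrete_smoothPart 𝓛' M) (smoothIncl 𝓛' M ≫ f)

lemma smoothMap_incl_apply (𝓛' : LevelStructure H) {M M' : Rep.{u} k H} (f : M ⟶ M')
    (x : (smoothPart 𝓛' M).V) :
    (smoothIncl 𝓛' M').hom ((smoothMap 𝓛' f).hom x) = f.hom ((smoothIncl 𝓛' M).hom x) := rfl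

lemma smoothMap_comp_incl (𝓛' : LevelStructure H) {M M' : Rep.{u} k H} (f : M ⟶ M') :
    smoothMap 𝓛' f ≫ smoothIncl 𝓛' M' = smoothIncl 𝓛' M ≫ f :=
  smoothLift_comp_incl _ _

/-! ## Smooth embeddings -/

/-- `f : M' ⟶ M` is a *smooth embedding* for `𝓛'`: it is injective and every `𝓛'`-smooth vector
of `M` lies in its image.  (Example: `smoothIncl 𝓛' M`.) -/
structure IsSmoothEmbedding (𝓛' : LevelStructure H) {M' M : Rep.{u} k H} (f : M' ⟶ M) :
    Prop where
  injective : Function.Injective f.hom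
  exists_of_isSmoothVec : ∀ m : M.V, IsSmoothVec 𝓛' M m → ∃ m' : M'.V, f.hom m' = m

theorem isSmoothEmbedding_smoothIncl (𝓛' : LevelStructure H) (M : Rep.{u} k H) :
    IsSmoothEmbedding 𝓛' (smoothIncl 𝓛' M) :=
  ⟨smoothIncl_injective 𝓛' M, fun _ hm => exists_smoothIncl_eq hm⟩

/-- If `M` itself is `𝓛'`-discrete, the identity is a smooth embedding. -/
theorem isSmoothEmbedding_id (𝓛' : LevelStructure H) (M : Rep.{u} k H) :
    IsSmoothEmbedding 𝓛' (𝟙 M) :=
  ⟨fun _ _ h => h, fun m _ => ⟨m, rfl⟩⟩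

/-- A smooth embedding whose source is `𝓛'`-discrete identifies the source with the smooth part:
a vector of `M` is in the image iff it is smooth. -/
lemma IsSmoothEmbedding.range_eq {𝓛' : LevelStructure H} {M' M : Rep.{u} k H} {f : M' ⟶ M}
    (hf : IsSmoothEmbedding 𝓛' f) (hM' : 𝓛'.IsDiscrete M') (m : M.V) :
    (∃ m' : M'.V, f.hom m' = m) ↔ IsSmoothVec 𝓛' M m :=
  ⟨fun ⟨m', h⟩ => h ▸ IsSmoothVec.map (hM' m') f, hf.exists_of_isSmoothVec m⟩

/-- A smooth embedding induces a bijection on invariants. -/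
theorem IsSmoothEmbedding.coeffH0_bijective {𝓛' : LevelStructure H} {M' M : Rep.{u} k H}
    {f : M' ⟶ M} (hf : IsSmoothEmbedding 𝓛' f) : Function.Bijective (H50.coeffH0 f) := by
  constructor
  · intro a b hab
    apply Subtype.ext
    apply hf.injective
    exact congrArg Subtype.val hab
  · intro m
    obtain ⟨N, hN⟩ := 𝓛'.nonempty
    obtain ⟨m', hm'⟩ := hf.exists_of_isSmoothVec m.1 ⟨N, hN, fun n _ => m.2 n⟩
    refine ⟨⟨m', fun g => hf.injective ?_⟩, Subtype.ext hm'⟩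
    rw [Rep.hom_comm_apply, hm', m.2 g]

/-! ## (B1) the coarse-to-fine map on `H¹` is injective -/

lemma cocycle_one_eq_zero {M : Rep.{u} k H} {c : H → M.V} (hc : c ∈ groupCohomology.cocycles₁ M) :
    c 1 = 0 := by
  have h := (groupCohomology.mem_cocycles₁_iff c).1 hc 1 1
  rw [mul_one, rho_one_apply'] at h
  exact left_eq_add.mp h

/-- **(B1)** For a smooth embedding `f : M' ⟶ M`, the map from coarse level cohomology of `M'`
to fine level cohomology of `M` is injective in degree one. -/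
theorem mapH1_injective {𝓛' 𝓛 : LevelStructure H} (h : IsCoarser 𝓛' 𝓛) {M' M : Rep.{u} k H}
    {f : M' ⟶ M} (hf : IsSmoothEmbedding 𝓛' f) :
    Function.Injective (H50.mapH1 𝓛 𝓛' h.isCont (H50.isEquivariant_hom f)) := by
  rw [injective_iff_map_eq_zero]
  intro x hx
  induction x using Submodule.Quotient.induction_on with
  | H c =>
    rw [Submodule.Quotient.mk_eq_zero]
    have hx' : (H50.mapZ1 𝓛 𝓛' h.isCont (H50.isEquivariant_hom f) c).1 ∈
        𝓛.coboundaries₁ M := by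
      have := (Submodule.Quotient.mk_eq_zero _).1 hx
      exact this
    obtain ⟨m, hm⟩ := hx'
    have hm' : ∀ g : H, M.ρ g m - m = f.hom (c.1 g) := fun g => by
      have := congrFun hm g
      simpa using this
    -- `c` is constant on cosets of a coarse level, hence vanishes there
    obtain ⟨N, hN, hconst⟩ := c.2.2
    have hc1 : c.1 1 = 0 := cocycle_one_eq_zero c.2.1
    have hfix : ∀ n ∈ N, M.ρ n m = m := fun n hn => by
      have h1 : c.1 n = 0 := by
        have := hconst 1 n hn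
        rw [one_mul] at this
        rw [this, hc1]
      have h2 := hm' n
      rw [h1, map_zero] at h2
      exact sub_eq_zero.mp h2
    obtain ⟨m', rfl⟩ := hf.exists_of_isSmoothVec m ⟨N, hN, hfix⟩
    refine ⟨m', ?_⟩
    funext g
    apply hf.injective
    have := hm' g
    rw [← Rep.hom_comm_apply, ← map_sub] at this
    simpa using this

/-! ## Vanishing of the fine `H¹` of a subgroup, cochain form -/

/-- Every `1`-cocycle `N → A` which is level-constant for the structure induced by `𝓛` on the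
subgroup `N` is a coboundary.  (Cochain form of `(𝓛.restrict N).H1 (Rep.res N.subtype A) = 0`;
it does not mention the base ring.) -/
def H1Vanishes (𝓛 : LevelStructure H) (N : Subgroup H) (A : Rep.{u} k H) : Prop :=
  ∀ c : N → A.V, (∀ n n' : N, c (n * n') = A.ρ n (c n') + c n) → (𝓛.restrict N).IsConst₁ c →
    ∃ a : A.V, ∀ n : N, c n = A.ρ n a - a

theorem h1Vanishes_of_subsingleton {𝓛 : LevelStructure H} {N : Subgroup H} {A : Rep.{u} k H}
    (hs : Subsingleton ((𝓛.restrict N).H1 (Rep.res N.subtype A))) : H1Vanishes 𝓛 N A := by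
  intro c hc hconst
  have hmem : c ∈ (𝓛.restrict N).cocycles₁ (Rep.res N.subtype A) := by
    refine ⟨?_, hconst⟩
    apply (groupCohomology.mem_cocycles₁_iff (A := Rep.res N.subtype A) c).2
    intro g g'
    exact hc g g'
  have h0 : (𝓛.restrict N).H1π (Rep.res N.subtype A) ⟨c, hmem⟩ = 0 := Subsingleton.elim _ _
  have h1 := (Submodule.Quotient.mk_eq_zero _).1 h0
  obtain ⟨a, ha⟩ := h1
  refine ⟨a, fun n => ?_⟩
  have := congrFun ha n
  exact this.symm

theorem subsingleton_of_h1Vanishes {𝓛 : LevelStructure H} {N : Subgroup H} {A : Rep.{u} k H}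
    (hv : H1Vanishes 𝓛 N A) : Subsingleton ((𝓛.restrict N).H1 (Rep.res N.subtype A)) := by
  refine ⟨fun x y => ?_⟩
  have key : ∀ z : (𝓛.restrict N).H1 (Rep.res N.subtype A), z = 0 := by
    intro z
    induction z using Submodule.Quotient.induction_on with
    | H c =>
      rw [Submodule.Quotient.mk_eq_zero]
      obtain ⟨a, ha⟩ := hv c.1
        (fun n n' => (groupCohomology.mem_cocycles₁_iff c.1).1 c.2.1 n n') c.2.2
      refine ⟨a, ?_⟩
      funext n
      exact (ha n).symm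
  rw [key x, key y]

/-! ## (B4) the Hilbert 90 step -/

/-- **Hilbert 90 step, core form.** Let `0 → A → I → Q` be exact (additive equivariant maps,
possibly over different base rings), `I` discrete for `𝓛`, and suppose that the fine `H¹` of
the subgroup `N` with values in `A` vanishes.  Then every `y : I` whose image in `Q` is fixed by
`N` can be corrected by an element of `A` to an `N`-fixed element. -/
theorem exists_fixed_lift {k₁ k₂ k₃ : Type u} [CommRing k₁] [CommRing k₂] [CommRing k₃]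
    {𝓛 : LevelStructure H} {A : Rep.{u} k₁ H} {I : Rep.{u} k₂ H} {Q : Rep.{u} k₃ H}
    (ι : A.V →+ I.V) (π : I.V →+ Q.V)
    (hι : ∀ g a, ι (A.ρ g a) = I.ρ g (ι a)) (hπ : ∀ g x, π (I.ρ g x) = Q.ρ g (π x))
    (hinj : Function.Injective ι) (hπι : ∀ a, π (ι a) = 0)
    (hex : ∀ x, π x = 0 → ∃ a, ι a = x)
    (hI : 𝓛.IsDiscrete I) (N : Subgroup H) (hvan : H1Vanishes 𝓛 N A)
    (y : I.V) (hy : ∀ n ∈ N, Q.ρ n (π y) = π y) :
    ∃ y' : I.V, π y' = π y ∧ ∀ n ∈ N, I.ρ n y' = y' := by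
  have hker : ∀ n : N, ∃ a : A.V, ι a = I.ρ n y - y := fun n => by
    apply hex
    rw [map_sub, hπ, hy n.1 n.2, sub_self]
  choose c hc using hker
  have hcoc : ∀ n n' : N, c (n * n') = A.ρ n (c n') + c n := fun n n' => by
    apply hinj
    rw [map_add, hι, hc, hc, hc]
    show I.ρ (n.1 * n'.1) y - y = _
    rw [rho_mul_apply', map_sub]
    abel
  have hconst : (𝓛.restrict N).IsConst₁ c := by
    obtain ⟨N₀, hN₀, hfix⟩ := hI y
    refine ⟨N₀.comap N.subtype, ⟨N₀, hN₀, rfl⟩, fun g s hs => ?_⟩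
    apply hinj
    rw [hc, hc]
    show I.ρ (g.1 * s.1) y - y = _
    rw [rho_mul_apply', hfix s.1 hs]
  obtain ⟨a, ha⟩ := hvan c hcoc hconst
  refine ⟨y - ι a, by rw [map_sub, hπι, sub_zero], fun n hn => ?_⟩
  have h1 := hc ⟨n, hn⟩
  rw [ha ⟨n, hn⟩, map_sub, hι] at h1
  rw [map_sub]
  have h2 : I.ρ n (ι a) - ι a = I.ρ n y - y := h1
  have h3 : I.ρ n y - I.ρ n (ι a) = y - ι a := by
    rw [sub_eq_sub_iff_add_eq_add]
    rw [sub_eq_sub_iff_add_eq_add] at h2
    rw [← h2, add_comm]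
  exact h3

/-- **(B4), surjectivity.** If `0 → A → I → Q → 0` is exact, `I` is `𝓛`-discrete and the fine
`H¹(N'; A)` vanishes for a cofinal family of coarse levels `N'`, then
`smoothPart I → smoothPart Q` is surjective. -/
theorem smoothMap_surjective {𝓛' 𝓛 : LevelStructure H} {A I Q : Rep.{u} k H}
    (ι : A ⟶ I) (π : I ⟶ Q) (hinj : Function.Injective ι.hom)
    (hex : ∀ x : I.V, π.hom x = 0 ↔ ∃ a : A.V, ι.hom a = x)
    (hsurj : Function.Surjective π.hom) (hI : 𝓛.IsDiscrete I)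
    (hvan : ∀ N ∈ 𝓛'.levels, ∃ N' ∈ 𝓛'.levels, N' ≤ N ∧ H1Vanishes 𝓛 N' A) :
    Function.Surjective (smoothMap 𝓛' π).hom := by
  intro q
  obtain ⟨N, hN, hfix⟩ := smoothIncl_isSmoothVec 𝓛' Q q
  obtain ⟨N', hN', hle, hv⟩ := hvan N hN
  obtain ⟨y, hy⟩ := hsurj ((smoothIncl 𝓛' Q).hom q)
  obtain ⟨y', hy'1, hy'2⟩ := exists_fixed_lift (𝓛 := 𝓛) (A := A) (I := I) (Q := Q)
    ι.hom.toLinearMap.toAddMonoidHom π.hom.toLinearMap.toAddMonoidHom
    (fun g a => Rep.hom_comm_apply ι g a) (fun g x => Rep.hom_comm_apply π g x)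
    hinj (fun a => (hex _).2 ⟨a, rfl⟩) (fun x hx => (hex x).1 hx) hI N' hv y
    (fun n hn => by
      show Q.ρ n (π.hom y) = π.hom y
      rw [hy]; exact hfix n (hle hn))
  obtain ⟨x, hx⟩ := exists_smoothIncl_eq (𝓛' := 𝓛') (M := I) (m := y') ⟨N', hN', hy'2⟩
  refine ⟨x, smoothIncl_injective 𝓛' Q ?_⟩
  rw [smoothMap_incl_apply, hx, ← hy]
  exact hy'1

/-- The smooth part functor is left exact: injectivity. -/
theorem smoothMap_injective (𝓛' : LevelStructure H) {A I : Rep.{u} k H} (ι : A ⟶ I)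
    (hinj : Function.Injective ι.hom) : Function.Injective (smoothMap 𝓛' ι).hom := by
  intro a b hab
  apply smoothIncl_injective 𝓛' A
  apply hinj
  rw [← smoothMap_incl_apply, ← smoothMap_incl_apply, hab]

/-- The smooth part functor is left exact: exactness in the middle. -/
theorem smoothMap_exact (𝓛' : LevelStructure H) {A I Q : Rep.{u} k H} (ι : A ⟶ I) (π : I ⟶ Q)
    (hinj : Function.Injective ι.hom)
    (hex : ∀ x : I.V, π.hom x = 0 ↔ ∃ a : A.V, ι.hom a = x) (x : (smoothPart 𝓛' I).V) :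
    (smoothMap 𝓛' π).hom x = 0 ↔ ∃ a : (smoothPart 𝓛' A).V, (smoothMap 𝓛' ι).hom a = x := by
  constructor
  · intro hx
    have h1 : π.hom ((smoothIncl 𝓛' I).hom x) = 0 := by
      rw [← smoothMap_incl_apply, hx, map_zero]
    obtain ⟨a, ha⟩ := (hex _).1 h1
    obtain ⟨N, hN, hfix⟩ := smoothIncl_isSmoothVec 𝓛' I x
    have hsm : IsSmoothVec 𝓛' A a := ⟨N, hN, fun n hn => hinj (by
      rw [Rep.hom_comm_apply, ha, hfix n hn])⟩
    obtain ⟨a', ha'⟩ := exists_smoothIncl_eq hsm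
    refine ⟨a', smoothIncl_injective 𝓛' I ?_⟩
    rw [smoothMap_incl_apply, ha', ha]
  · rintro ⟨a, rfl⟩
    apply smoothIncl_injective 𝓛' Q
    rw [smoothMap_incl_apply, smoothMap_incl_apply, map_zero]
    exact (hex _).2 ⟨_, rfl⟩

/-- **(B4), divisibility.** If `I` is `m`-divisible and `𝓛`-discrete, `j : T → I` identifies `T`
with the `m`-torsion of `I`, and the fine `H¹(N'; T)` vanishes for a cofinal family of coarse
levels, then the `𝓛'`-smooth vectors of `I` are `m`-divisible among themselves. -/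
theorem exists_isSmoothVec_nsmul_eq {k₁ : Type u} [CommRing k₁] {𝓛' 𝓛 : LevelStructure H}
    {I : Rep.{u} k H} {T : Rep.{u} k₁ H} (m : ℕ) (j : T.V →+ I.V)
    (hj : ∀ g t, j (T.ρ g t) = I.ρ g (j t)) (hjinj : Function.Injective j)
    (hjm : ∀ t, m • j t = 0) (hjex : ∀ x : I.V, m • x = 0 → ∃ t, j t = x)
    (hdiv : ∀ x : I.V, ∃ y : I.V, m • y = x) (hI : 𝓛.IsDiscrete I)
    (hvan : ∀ N ∈ 𝓛'.levels, ∃ N' ∈ 𝓛'.levels, N' ≤ N ∧ H1Vanishes 𝓛 N' T)
    (x : I.V) (hx : IsSmoothVec 𝓛' I x) : ∃ y : I.V, IsSmoothVec 𝓛' I y ∧ m • y = x := by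
  obtain ⟨N, hN, hfix⟩ := hx
  obtain ⟨N', hN', hle, hv⟩ := hvan N hN
  obtain ⟨y, hy⟩ := hdiv x
  obtain ⟨y', hy'1, hy'2⟩ := exists_fixed_lift (𝓛 := 𝓛) (A := T) (I := I) (Q := I)
    j (nsmulAddMonoidHom m : I.V →+ I.V) hj (fun g x => by
      show m • I.ρ g x = I.ρ g (m • x)
      rw [map_nsmul]) hjinj hjm hjex hI N' hv y (fun n hn => by
      show I.ρ n (m • y) = m • y
      rw [hy]; exact hfix n (hle hn))
  refine ⟨y', ⟨N', hN', hy'2⟩, ?_⟩
  have : m • y' = m • y := hy'1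
  rw [this, hy]

/-! ## Degree-2 inflation is injective when the fine `H¹` of the coarse levels vanishes -/

/-- **Degree-2 inflation.** For a smooth embedding `f : M' ⟶ M` with `M'` discrete for the coarse
structure, if the fine `H¹(N'; M)` vanishes for a cofinal family of normal coarse levels `N'`,
then the coarse-to-fine map `𝓛'.H2 M' → 𝓛.H2 M` is injective. -/
theorem mapH2_injective {𝓛' 𝓛 : LevelStructure H} (h : IsCoarser 𝓛' 𝓛) {M' M : Rep.{u} k H}
    {f : M' ⟶ M} (hf : IsSmoothEmbedding 𝓛' f) (hM' : 𝓛'.IsDiscrete M')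
    (hvan : ∀ N ∈ 𝓛'.levels, ∃ N' ∈ 𝓛'.levels, N' ≤ N ∧ N'.Normal ∧ H1Vanishes 𝓛 N' M) :
    Function.Injective (H50.mapH2 𝓛 𝓛' h.isCont (H50.isEquivariant_hom f)) := by
  rw [injective_iff_map_eq_zero]
  intro x hx
  induction x using Submodule.Quotient.induction_on with
  | H c =>
    rw [Submodule.Quotient.mk_eq_zero]
    have hx' : (H50.mapZ2 𝓛 𝓛' h.isCont (H50.isEquivariant_hom f) c).1 ∈
        𝓛.coboundaries₂ M := by
      have := (Submodule.Quotient.mk_eq_zero _).1 hx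
      exact this
    obtain ⟨b, hbconst, hb⟩ := hx'
    -- the coboundary relation, pointwise
    have hdb : ∀ g g' : H, M.ρ g (b g') - b (g * g') + b g = f.hom (c.1 (g, g')) := fun g g' => by
      have := congrFun hb (g, g')
      simpa using this
    -- the cocycle relation of `c`
    have hcoc := (groupCohomology.mem_cocycles₂_iff c.1).1 c.2.1
    have hc1k : ∀ g : H, c.1 (1, g) = c.1 (1, 1) := fun g => by
      have := (hcoc 1 1 g).symm
      simpa only [map_one, Module.End.one_apply, one_mul, add_right_inj] using this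
    have hcg1 : ∀ g : H, c.1 (g, 1) = M'.ρ g (c.1 (1, 1)) := fun g => by
      have := hcoc g 1 1
      simpa only [mul_one, add_left_inj] using this
    -- choose the coarse level
    obtain ⟨N₁, hN₁, hcconst⟩ := c.2.2
    obtain ⟨N₂, hN₂, hfix0⟩ := hM' (c.1 (1, 1))
    obtain ⟨N₃, hN₃, hle₃⟩ := 𝓛'.directed N₁ hN₁ N₂ hN₂
    obtain ⟨N', hN', hle', hnor, hv⟩ := hvan N₃ hN₃
    have hcN : ∀ g g' s s', s ∈ N' → s' ∈ N' → c.1 (g * s, g' * s') = c.1 (g, g') :=
      fun g g' s s' hs hs' => hcconst g g' s s' (hle₃ (hle' hs)).1 (hle₃ (hle' hs')).1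
    set m₀ : M.V := f.hom (c.1 (1, 1)) with hm₀
    have hm₀fix : ∀ n ∈ N', M.ρ n m₀ = m₀ := fun n hn => by
      rw [hm₀, ← Rep.hom_comm_apply, hfix0 n (hle₃ (hle' hn)).2]
    -- `b - m₀` restricted to `N'` is a fine level cocycle
    have hb1coc : ∀ n n' : N', (b (n * n' : N') - m₀) =
        M.ρ n (b n' - m₀) + (b n - m₀) := fun n n' => by
      have h1 := hdb n.1 n'.1
      have h2 : c.1 (n.1, n'.1) = c.1 (1, 1) := by
        have := hcN 1 1 n.1 n'.1 n.2 n'.2
        rwa [one_mul, one_mul] at this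
      rw [h2, ← hm₀] at h1
      rw [map_sub, hm₀fix n.1 n.2]
      show b (n.1 * n'.1) - m₀ = _
      have h3 : b (n.1 * n'.1) = M.ρ n.1 (b n'.1) + b n.1 - m₀ := by
        rw [← h1]; abel
      rw [h3]; abel
    have hb1const : (𝓛.restrict N').IsConst₁ (fun n : N' => b n - m₀) := by
      obtain ⟨N₀, hN₀, hbc⟩ := hbconst
      refine ⟨N₀.comap N'.subtype, ⟨N₀, hN₀, rfl⟩, fun g s hs => ?_⟩
      show b (g.1 * s.1) - m₀ = b g.1 - m₀
      rw [hbc g.1 s.1 hs]
    obtain ⟨m, hm⟩ := hv (fun n : N' => b n - m₀) hb1coc hb1const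
    -- the corrected cochain
    set b₂ : H → M.V := fun g => b g - m₀ - (M.ρ g m - m) with hb₂
    have hb₂N : ∀ n ∈ N', b₂ n = 0 := fun n hn => by
      have := hm ⟨n, hn⟩
      simp only [hb₂]
      rw [this, sub_self]
    have hdb₂ : ∀ g g' : H, M.ρ g (b₂ g') - b₂ (g * g') + b₂ g =
        f.hom (c.1 (g, g')) - M.ρ g m₀ := fun g g' => by
      rw [← hdb g g']
      simp only [hb₂, map_sub, rho_mul_apply']
      abel
    -- `b₂` is right `N'`-invariant
    have hb₂right : ∀ g n, n ∈ N' → b₂ (g * n) = b₂ g := fun g n hn => by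
      have h1 := hdb₂ g n
      have h2 : c.1 (g, n) = M'.ρ g (c.1 (1, 1)) := by
        have := hcN g 1 1 n (Subgroup.one_mem _) hn
        rw [mul_one, one_mul] at this
        rw [this, hcg1]
      rw [h2, Rep.hom_comm_apply, ← hm₀, sub_self, hb₂N n hn, map_zero, zero_sub] at h1
      have h3 : b₂ g = b₂ (g * n) := by
        rw [neg_add_eq_zero] at h1; exact h1.symm
      exact h3.symm
    -- the values of `b₂` are `N'`-fixed
    have hb₂fix : ∀ g n, n ∈ N' → M.ρ n (b₂ g) = b₂ g := fun g n hn => by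
      have h1 := hdb₂ n g
      have h2 : c.1 (n, g) = c.1 (1, 1) := by
        have := hcN 1 g n 1 hn (Subgroup.one_mem _)
        rw [mul_one, one_mul] at this
        rw [this, hc1k]
      rw [h2, ← hm₀, hm₀fix n hn, sub_self, hb₂N n hn, add_zero] at h1
      have h3 : n * g = g * (g⁻¹ * n * g) := by group
      have h4 : g⁻¹ * n * g ∈ N' := by
        have := hnor.conj_mem n hn g⁻¹
        simpa using this
      rw [h3, hb₂right g _ h4] at h1
      exact sub_eq_zero.mp h1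
    -- descend `b₂` to `M'`
    have hex : ∀ g : H, ∃ m' : M'.V, f.hom m' = b₂ g := fun g =>
      hf.exists_of_isSmoothVec _ ⟨N', hN', fun n hn => hb₂fix g n hn⟩
    choose b' hb' using hex
    refine ⟨fun g => b' g + c.1 (1, 1), ⟨N', hN', fun g s hs => ?_⟩, ?_⟩
    · show b' (g * s) + c.1 (1, 1) = b' g + c.1 (1, 1)
      congr 1
      apply hf.injective
      rw [hb', hb', hb₂right g s hs]
    · funext x
      obtain ⟨g, g'⟩ := x
      apply hf.injective
      rw [groupCohomology.d₁₂_hom_apply]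
      simp only [map_add, map_sub, Rep.hom_comm_apply, hb', ← hm₀]
      have := hdb₂ g g'
      rw [← sub_eq_zero] at this ⊢
      rw [← this]
      abel

/-- Version of `mapH2_injective` with the vanishing hypothesis for all coarse-open subgroups. -/
theorem mapH2_injective' {𝓛' 𝓛 : LevelStructure H} (h : IsCoarser 𝓛' 𝓛) {M' M : Rep.{u} k H}
    {f : M' ⟶ M} (hf : IsSmoothEmbedding 𝓛' f) (hM' : 𝓛'.IsDiscrete M')
    (hvan : ∀ N ∈ 𝓛'.levels, H1Vanishes 𝓛 N M) :
    Function.Injective (H50.mapH2 𝓛 𝓛' h.isCont (H50.isEquivariant_hom f)) :=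
  mapH2_injective h hf hM' fun N hN => by
    obtain ⟨N', hN', hle, hnor⟩ := 𝓛'.exists_normal N hN
    exact ⟨N', hN', hle, hnor, hvan N' hN'⟩

end Fermat.Agent.CFT.H5
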