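/-
CFT project, layer D, package D4-SL (helper22), slice 4.
The coinduced envelope `coindEnvelope` of `coindLC 𝓛 φ A`, the evaluation envelope morphism,
the isomorphisms `(coindLC Q)[p] ≅ coindLC (Q[p])` and `Hom(X, coindLC B) ≅ coindLC Hom(res X, B)`.
-/
import Fermat.Agent.CFT.H22_SLCoind
import Fermat.Agent.CFT.H5_EnvCompare
import Fermat.Agent.CFT.H5_CoarseFine
set_option autoImplicit false
open CategoryTheory groupCohomology
namespace Fermat.Agent.CFT.H22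
open Fermat.Agent.CFT

/-! ## The coinduced envelope -/

section CoindEnvelope

variable {G D : Type} [Group G] [Group D] (𝓛 : LevelStructure G) (φ : D →* G)
  {k : Type} [CommRing k] {𝓛D : LevelStructure D} {m : ℕ} {A : Rep.{0} k D}

/-- The smooth-lifting hypotheses on a local envelope, for the coarse structure `𝓛.comap φ`:
smooth vectors of `Q` lift to smooth vectors of `I`, and smooth vectors of `I` have smooth
`m`-th roots.  (Both follow from Hilbert 90, see `CoarseLift.of_h1Vanishes`.) -/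
structure CoarseLift (E : H36.DivEnvelope 𝓛D m A) : Prop where
  lift : ∀ q ∈ smoothSub (𝓛.comap φ) E.Q, ∃ x ∈ smoothSub (𝓛.comap φ) E.I, E.π.hom x = q
  div : ∀ x ∈ smoothSub (𝓛.comap φ) E.I, ∃ y ∈ smoothSub (𝓛.comap φ) E.I, m • y = x

/-- `CoarseLift` from the vanishing of the fine `H¹` of the coarse levels with values in `A`
and in `I[m]` (Hilbert 90 and (AC) respectively), via helper5's `exists_fixed_lift`. -/
theorem CoarseLift.of_h1Vanishes (E : H36.DivEnvelope 𝓛D m A)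
    (hA : ∀ N ∈ (𝓛.comap φ).levels, ∃ N' ∈ (𝓛.comap φ).levels, N' ≤ N ∧ H5.H1Vanishes 𝓛D N' A)
    (hT : ∀ N ∈ (𝓛.comap φ).levels, ∃ N' ∈ (𝓛.comap φ).levels, N' ≤ N ∧
      H5.H1Vanishes 𝓛D N' (H36.torsionRep m E.I)) : CoarseLift 𝓛 φ E where
  lift := by
    rintro q ⟨N, hN, hfix⟩
    obtain ⟨N', hN', hle, hv⟩ := hA N hN
    obtain ⟨y, rfl⟩ := E.π_surjective q
    obtain ⟨y', hy'1, hy'2⟩ := H5.exists_fixed_lift (𝓛 := 𝓛D) (A := A) (I := E.I) (Q := E.Q)
      E.ι.hom.toLinearMap.toAddMonoidHom E.π.hom.toLinearMap.toAddMonoidHom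
      (fun g a => Rep.hom_comm_apply E.ι g a) (fun g x => Rep.hom_comm_apply E.π g x)
      E.ι_injective (fun a => (E.exact _).2 ⟨a, rfl⟩) (fun x hx => (E.exact x).1 hx)
      E.discrete N' hv y (fun n hn => hfix n (hle hn))
    exact ⟨y', ⟨N', hN', hy'2⟩, hy'1⟩
  div := by
    rintro x ⟨N, hN, hfix⟩
    obtain ⟨y, hy1, hy2⟩ := H5.exists_isSmoothVec_nsmul_eq (𝓛' := 𝓛.comap φ) (𝓛 := 𝓛D)
      (I := E.I) (T := H36.torsionRep m E.I) m (H36.torsionSub m E.I.V).subtype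
      (fun g t => rfl) Subtype.val_injective (fun t => t.2)
      (fun x hx => ⟨⟨x, hx⟩, rfl⟩) E.divisible E.discrete hT x ⟨N, hN, hfix⟩
    exact ⟨y, hy1, hy2⟩

/-- The coinduced envelope of `coindLC 𝓛 φ A`. -/
noncomputable def coindEnvelope (E : H36.DivEnvelope 𝓛D m A) (h : CoarseLift 𝓛 φ E) :
    H36.DivEnvelope 𝓛 m (coindLC 𝓛 φ A) where
  I := coindLC 𝓛 φ E.I
  Q := coindLC 𝓛 φ E.Q
  ι := coindLCMap 𝓛 φ E.ι
  π := coindLCMap 𝓛 φ E.π
  ι_injective := coindLCMap_injective 𝓛 φ E.ι E.ι_injective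
  π_surjective := coindLCMap_surjective 𝓛 φ E.π h.lift
  exact := fun F => by
    constructor
    · intro hF
      refine coindLCMap_exact 𝓛 φ E.ι E.ι_injective F (fun g => (E.exact _).1 ?_)
      exact congrArg (fun F' : coindLC 𝓛 φ E.Q => F'.1 g) hF
    · rintro ⟨F₀, rfl⟩
      apply Subtype.ext; funext g
      exact (E.exact _).2 ⟨_, rfl⟩
  discrete := isDiscrete_coindLC 𝓛 φ E.I
  divisible := coindLC_divisible 𝓛 φ m E.I h.div

/-- Evaluation at `1` as a morphism of envelopes along `φ`. -/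
noncomputable def evEnvMor {p : ℕ} [Fact p.Prime] {A : Rep.{0} k D}
    (E : H36.DivEnvelope 𝓛D p A) (h : CoarseLift 𝓛 φ E) :
    H5.EnvMor φ (coindEnvelope 𝓛 φ E h) E (coindLCEvLin 𝓛 φ A) where
  F := coindLCEvLin 𝓛 φ E.I
  hF := isEquivariant_coindLCEvLin 𝓛 φ E.I
  comm _ := rfl

lemma evEnvMor_Fbar_apply {p : ℕ} [Fact p.Prime] {A : Rep.{0} k D}
    (E : H36.DivEnvelope 𝓛D p A) (h : CoarseLift 𝓛 φ E) (q : coindLC 𝓛 φ E.Q) :
    (evEnvMor 𝓛 φ E h).Fbar q = q.1 1 := by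
  obtain ⟨F, rfl⟩ := (coindEnvelope 𝓛 φ E h).π_surjective q
  exact (evEnvMor 𝓛 φ E h).Fbar_π F

end CoindEnvelope

/-! ## `(coindLC Q)[p] ≅ coindLC (Q[p])` -/

section TorsionCoind

variable {G D : Type} [Group G] [Group D] (𝓛 : LevelStructure G) (φ : D →* G)
  {k : Type} [CommRing k] (p : ℕ) (Q : Rep.{0} k D)

/-- The values of a `p`-torsion coinduced function are `p`-torsion. -/
lemma torsion_apply_mem (w : H36.torsionSub p (coindLC 𝓛 φ Q).V) (g : G) :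
    w.1.1 g ∈ H36.torsionSub p Q.V := by
  have h1 := w.2
  rw [H36.mem_torsionSub] at h1 ⊢
  exact congrArg (fun F : coindLC 𝓛 φ Q => F.1 g) h1

/-- The underlying additive map of `tcoind`. -/
noncomputable def tcoindAdd :
    H36.torsionSub p (coindLC 𝓛 φ Q).V →+ (coindLC 𝓛 φ (H36.torsionRep p Q)).V where
  toFun w := ⟨fun g => (⟨w.1.1 g, torsion_apply_mem 𝓛 φ p Q w g⟩ : H36.torsionSub p Q.V),
    fun d g => Subtype.ext (coindLC_equivariant 𝓛 φ Q w.1 d g), by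
      obtain ⟨N, hN, hc⟩ := coindLC_isConst 𝓛 φ Q w.1
      exact ⟨N, hN, fun g s hs => Subtype.ext (hc g s hs)⟩⟩
  map_zero' := rfl
  map_add' _ _ := rfl

/-- The comparison `(coindLC Q)[p] ⟶ coindLC (Q[p])`. -/
noncomputable def tcoind :
    H36.torsionRep p (coindLC 𝓛 φ Q) ⟶ coindLC 𝓛 φ (H36.torsionRep p Q) :=
  Rep.ofHom (ρ := (H36.torsionRep p (coindLC 𝓛 φ Q)).ρ)
    (σ := (coindLC 𝓛 φ (H36.torsionRep p Q)).ρ)
    ⟨(tcoindAdd 𝓛 φ p Q).toZModLinearMap p, fun g => by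
      refine LinearMap.ext fun w => ?_
      apply Subtype.ext; funext x
      rfl⟩

/-- The underlying vector of an element of `Q[p]`. -/
def tval {Q : Rep.{0} k D} {p : ℕ} (t : (H36.torsionRep p Q).V) : Q.V :=
  (show H36.torsionSub p Q.V from t).1

lemma tval_injective {Q : Rep.{0} k D} {p : ℕ} :
    Function.Injective (tval : (H36.torsionRep p Q).V → Q.V) :=
  fun _ _ h => Subtype.ext h

lemma tval_ρ {Q : Rep.{0} k D} {p : ℕ} (d : D) (t : (H36.torsionRep p Q).V) :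
    tval ((H36.torsionRep p Q).ρ d t) = Q.ρ d (tval t) := rfl

lemma tval_nsmul {Q : Rep.{0} k D} {p : ℕ} (t : (H36.torsionRep p Q).V) : p • tval t = 0 :=
  (show H36.torsionSub p Q.V from t).2

lemma tcoind_apply (w : H36.torsionSub p (coindLC 𝓛 φ Q).V) (g : G) :
    tval (((tcoind 𝓛 φ p Q).hom w : coindLC 𝓛 φ (H36.torsionRep p Q)).1 g) = w.1.1 g := rfl

theorem tcoind_bijective : Function.Bijective (tcoind 𝓛 φ p Q).hom := by
  constructor
  · intro w w' h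
    apply Subtype.ext; apply Subtype.ext; funext g
    have := congrArg (fun F : coindLC 𝓛 φ (H36.torsionRep p Q) => tval (F.1 g)) h
    exact this
  · intro f
    let w₀ : coindLC 𝓛 φ Q := ⟨fun g => tval (f.1 g),
      fun d g => congrArg tval (coindLC_equivariant 𝓛 φ (H36.torsionRep p Q) f d g), by
        obtain ⟨N, hN, hc⟩ := coindLC_isConst 𝓛 φ (H36.torsionRep p Q) f
        exact ⟨N, hN, fun g s hs => congrArg tval (hc g s hs)⟩⟩
    have hw₀ : w₀ ∈ H36.torsionSub p (coindLC 𝓛 φ Q).V := by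
      rw [H36.mem_torsionSub]
      apply Subtype.ext; funext g
      exact tval_nsmul (f.1 g)
    refine ⟨(⟨w₀, hw₀⟩ : H36.torsionSub p (coindLC 𝓛 φ Q).V), ?_⟩
    apply Subtype.ext; funext g
    apply tval_injective
    rfl

end TorsionCoind

/-! ## `Hom(X, coindLC B) ≅ coindLC (Hom(res X, B))` for finite discrete `X` -/

section HomCoind

variable {G D : Type} [Group G] [Group D] (𝓛 : LevelStructure G) (φ : D →* G)
  {k : Type} [CommRing k] (X : Rep.{0} k G) (B : Rep.{0} k D)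

lemma rho_inv_apply_self (X : Rep.{0} k G) (g : G) (x : X.V) : X.ρ g⁻¹ (X.ρ g x) = x := by
  rw [← Module.End.mul_apply, ← map_mul, inv_mul_cancel, map_one, Module.End.one_apply]

lemma rho_apply_inv_self (X : Rep.{0} k G) (g : G) (x : X.V) : X.ρ g (X.ρ g⁻¹ x) = x := by
  rw [← Module.End.mul_apply, ← map_mul, mul_inv_cancel, map_one, Module.End.one_apply]

/-- Evaluation of coinduced functions at `g`. -/
noncomputable def coindLCEvalAt (g : G) : (coindLC 𝓛 φ B).V →ₗ[k] B.V where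
  toFun F := F.1 g
  map_add' _ _ := rfl
  map_smul' _ _ := rfl

/-- The function `g ↦ (x ↦ u (g⁻¹ x) g)`. -/
noncomputable def homCoindFun (u : X.V →ₗ[k] (coindLC 𝓛 φ B).V) (g : G) :
    (homRep (Rep.res φ X) B).V :=
  coindLCEvalAt 𝓛 φ B g ∘ₗ u ∘ₗ X.ρ g⁻¹

lemma homCoindFun_apply (u : X.V →ₗ[k] (coindLC 𝓛 φ B).V) (g : G) (x : X.V) :
    (show X.V →ₗ[k] B.V from homCoindFun 𝓛 φ X B u g) x = (u (X.ρ g⁻¹ x)).1 g := rfl

variable {X} in
lemma homCoindFun_mem [hfin : Finite X.V] (hdisc : 𝓛.IsDiscrete X)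
    (u : X.V →ₗ[k] (coindLC 𝓛 φ B).V) :
    homCoindFun 𝓛 φ X B u ∈ coindLCSub 𝓛 φ (homRep (Rep.res φ X) B) := by
  refine ⟨fun d g => LinearMap.ext fun x => ?_, ?_⟩
  · show (u (X.ρ (φ d * g)⁻¹ x)).1 (φ d * g) = B.ρ d ((u (X.ρ g⁻¹ (X.ρ (φ d⁻¹) x))).1 g)
    rw [coindLC_equivariant, mul_inv_rev, map_mul, Module.End.mul_apply, map_inv φ]
  · have h1 : ∀ y : X.V, ∃ L ∈ 𝓛.levels, (∀ s ∈ L, X.ρ s y = y) ∧
        ∀ g s, s ∈ L → (u y).1 (g * s) = (u y).1 g := by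
      intro y
      obtain ⟨N₁, hN₁, h1⟩ := hdisc y
      obtain ⟨N₂, hN₂, h2⟩ := coindLC_isConst 𝓛 φ B (u y)
      obtain ⟨L, hL, hle⟩ := 𝓛.directed N₁ hN₁ N₂ hN₂
      exact ⟨L, hL, fun s hs => h1 s (hle hs).1, fun g s hs => h2 g s (hle hs).2⟩
    choose L hL hfix hconst using h1
    obtain ⟨N, hN, hle⟩ := exists_level_le_of_finite 𝓛 L hL
    refine ⟨N, hN, fun g s hs => LinearMap.ext fun x => ?_⟩
    show (u (X.ρ (g * s)⁻¹ x)).1 (g * s) = (u (X.ρ g⁻¹ x)).1 g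
    rw [mul_inv_rev, map_mul, Module.End.mul_apply,
      hfix (X.ρ g⁻¹ x) s⁻¹ (hle _ (N.inv_mem hs)), hconst _ g s (hle _ hs)]

/-- The underlying linear map of `homCoind`. -/
noncomputable def homCoindLin [Finite X.V] (hdisc : 𝓛.IsDiscrete X) :
    (homRep X (coindLC 𝓛 φ B)).V →ₗ[k] (coindLC 𝓛 φ (homRep (Rep.res φ X) B)).V where
  toFun u := ⟨homCoindFun 𝓛 φ X B u, homCoindFun_mem 𝓛 φ B hdisc u⟩
  map_add' _ _ := rfl
  map_smul' _ _ := rfl

/-- The comparison `Hom(X, coindLC B) ⟶ coindLC (Hom(res X, B))`. -/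
noncomputable def homCoind [Finite X.V] (hdisc : 𝓛.IsDiscrete X) :
    homRep X (coindLC 𝓛 φ B) ⟶ coindLC 𝓛 φ (homRep (Rep.res φ X) B) :=
  Rep.ofHom (ρ := (homRep X (coindLC 𝓛 φ B)).ρ)
    (σ := (coindLC 𝓛 φ (homRep (Rep.res φ X) B)).ρ)
    ⟨homCoindLin 𝓛 φ X B hdisc, fun h => by
      refine LinearMap.ext fun u => ?_
      apply Subtype.ext; funext g
      refine LinearMap.ext fun x => ?_
      show ((coindLC 𝓛 φ B).ρ h (u (X.ρ h⁻¹ (X.ρ g⁻¹ x)))).1 g = (u (X.ρ (g * h)⁻¹ x)).1 (g * h)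
      rw [coindLC_ρ_apply, mul_inv_rev, map_mul, Module.End.mul_apply]⟩

lemma homCoind_apply [Finite X.V] (hdisc : 𝓛.IsDiscrete X)
    (u : X.V →ₗ[k] (coindLC 𝓛 φ B).V) (g : G) (x : X.V) :
    (show X.V →ₗ[k] B.V from
      ((homCoind 𝓛 φ X B hdisc).hom u : coindLC 𝓛 φ (homRep (Rep.res φ X) B)).1 g) x =
      (u (X.ρ g⁻¹ x)).1 g := rfl

theorem homCoind_bijective [Finite X.V] (hdisc : 𝓛.IsDiscrete X) :
    Function.Bijective (homCoind 𝓛 φ X B hdisc).hom := by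
  constructor
  · intro u u' h
    refine LinearMap.ext fun y => ?_
    apply Subtype.ext; funext g
    have h1 := congrArg (fun F : coindLC 𝓛 φ (homRep (Rep.res φ X) B) =>
      (show X.V →ₗ[k] B.V from F.1 g) (X.ρ g y)) h
    have h2 : (u (X.ρ g⁻¹ (X.ρ g y))).1 g = (u' (X.ρ g⁻¹ (X.ρ g y))).1 g := h1
    rw [rho_inv_apply_self] at h2
    exact h2
  · intro w
    have hmem : ∀ y : X.V, (fun g => (show X.V →ₗ[k] B.V from w.1 g) (X.ρ g y)) ∈
        coindLCSub 𝓛 φ B := by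
      intro y
      refine ⟨fun d g => ?_, ?_⟩
      · show (show X.V →ₗ[k] B.V from w.1 (φ d * g)) (X.ρ (φ d * g) y) =
          B.ρ d ((show X.V →ₗ[k] B.V from w.1 g) (X.ρ g y))
        rw [coindLC_equivariant]
        show B.ρ d ((show X.V →ₗ[k] B.V from w.1 g) (X.ρ (φ d⁻¹) (X.ρ (φ d * g) y))) = _
        rw [map_mul, Module.End.mul_apply, map_inv φ, rho_inv_apply_self]
      · obtain ⟨N₁, hN₁, h1⟩ := hdisc y
        obtain ⟨N₂, hN₂, h2⟩ := coindLC_isConst 𝓛 φ _ w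
        obtain ⟨L, hL, hle⟩ := 𝓛.directed N₁ hN₁ N₂ hN₂
        refine ⟨L, hL, fun g s hs => ?_⟩
        show (show X.V →ₗ[k] B.V from w.1 (g * s)) (X.ρ (g * s) y) =
          (show X.V →ₗ[k] B.V from w.1 g) (X.ρ g y)
        rw [h2 g s (hle hs).2, map_mul, Module.End.mul_apply, h1 s (hle hs).1]
    let u : X.V →ₗ[k] (coindLC 𝓛 φ B).V :=
      { toFun := fun y => ⟨_, hmem y⟩
        map_add' := fun y y' => by
          apply Subtype.ext; funext g
          show (show X.V →ₗ[k] B.V from w.1 g) (X.ρ g (y + y')) =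
            (show X.V →ₗ[k] B.V from w.1 g) (X.ρ g y) +
              (show X.V →ₗ[k] B.V from w.1 g) (X.ρ g y')
          rw [map_add, map_add]
        map_smul' := fun c y => by
          apply Subtype.ext; funext g
          show (show X.V →ₗ[k] B.V from w.1 g) (X.ρ g (c • y)) =
            c • (show X.V →ₗ[k] B.V from w.1 g) (X.ρ g y)
          rw [map_smul, map_smul] }
    refine ⟨u, ?_⟩
    apply Subtype.ext; funext g
    refine LinearMap.ext fun x => ?_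
    show (show X.V →ₗ[k] B.V from w.1 g) (X.ρ g (X.ρ g⁻¹ x)) = _
    rw [rho_apply_inv_self]

end HomCoind

end Fermat.Agent.CFT.H22
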