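/-
CFT project, layer D, package D4-SL (helper22), slice 3.
Morphisms of `W`-data and of divisible envelopes ALONG a continuous homomorphism `φ : D →* G`,
the induced maps on `T¹`, `T²`, homotopy invariance, and the two-way comparison theorem
(= independence of the envelope).
-/
import Fermat.Agent.CFT.H36_Envelope3
import Fermat.Agent.CFT.H50_LevelRes
set_option autoImplicit false
open CategoryTheory groupCohomology
namespace Fermat.Agent.CFT.H22
open Fermat.Agent.CFT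

/-! ## Complements on `H50.mapH0`, `H50.mapH1` -/

section MapH

variable {H H' : Type} [Group H] [Group H'] {k : Type} [CommRing k]
  (𝓛' : LevelStructure H') (𝓛 : LevelStructure H) {φ : H' →* H} (hφ : H50.IsCont 𝓛' 𝓛 φ)
  {A : Rep.{0} k H} {B : Rep.{0} k H'}

lemma mapH1_congr {α β : A.V →ₗ[k] B.V} (hα : H50.IsEquivariant φ A B α)
    (hβ : H50.IsEquivariant φ A B β) (h : α = β) :
    H50.mapH1 𝓛' 𝓛 hφ hα = H50.mapH1 𝓛' 𝓛 hφ hβ := by
  subst h; rfl

omit 𝓛' 𝓛 in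
lemma mapH0_congr {α β : A.V →ₗ[k] B.V} (hα : H50.IsEquivariant φ A B α)
    (hβ : H50.IsEquivariant φ A B β) (h : α = β) :
    H50.mapH0 hα = H50.mapH0 hβ := by
  subst h; rfl

omit 𝓛' 𝓛 in
lemma isEquivariant_add {α β : A.V →ₗ[k] B.V} (hα : H50.IsEquivariant φ A B α)
    (hβ : H50.IsEquivariant φ A B β) : H50.IsEquivariant φ A B (α + β) := by
  intro g a
  rw [LinearMap.add_apply, LinearMap.add_apply, hα g a, hβ g a, map_add]

lemma mapH1_add {α β : A.V →ₗ[k] B.V} (hα : H50.IsEquivariant φ A B α)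
    (hβ : H50.IsEquivariant φ A B β) :
    H50.mapH1 𝓛' 𝓛 hφ (isEquivariant_add hα hβ) =
      H50.mapH1 𝓛' 𝓛 hφ hα + H50.mapH1 𝓛' 𝓛 hφ hβ := by
  refine LinearMap.ext fun x => ?_
  induction x using Submodule.Quotient.induction_on with
  | H f => rfl

/-- A bijective equivariant map (same group, same level structure) induces a bijection on
level `H¹`. -/
theorem coeffH1_bijective {A B : Rep.{0} k H} (f : A ⟶ B) (hf : Function.Bijective f.hom) :
    Function.Bijective (H50.coeffH1 𝓛 f) := by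
  let e : A.V ≃ₗ[k] B.V := LinearEquiv.ofBijective f.hom.toLinearMap hf
  have he : ∀ a, e a = f.hom a := fun a => rfl
  have hinv : H50.IsEquivariant (MonoidHom.id H) B A (e.symm : B.V →ₗ[k] A.V) := by
    intro g b
    obtain ⟨a, rfl⟩ := e.surjective b
    show e.symm (B.ρ g (e a)) = A.ρ g (e.symm (e a))
    rw [e.symm_apply_apply, he, ← Rep.hom_comm_apply f g a, ← he, e.symm_apply_apply]
  have h1 : H50.mapH1 𝓛 𝓛 (H50.isCont_id 𝓛) hinv ∘ₗ H50.coeffH1 𝓛 f = LinearMap.id := by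
    refine LinearMap.ext fun x => ?_
    induction x using Submodule.Quotient.induction_on with
    | H c =>
      show Submodule.Quotient.mk _ = Submodule.Quotient.mk _
      congr 1
      apply Subtype.ext; funext g
      exact e.symm_apply_apply _
  have h2 : H50.coeffH1 𝓛 f ∘ₗ H50.mapH1 𝓛 𝓛 (H50.isCont_id 𝓛) hinv = LinearMap.id := by
    refine LinearMap.ext fun x => ?_
    induction x using Submodule.Quotient.induction_on with
    | H c =>
      show Submodule.Quotient.mk _ = Submodule.Quotient.mk _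
      congr 1
      apply Subtype.ext; funext g
      exact e.apply_symm_apply _
  constructor
  · intro x y hxy
    have := congrArg (H50.mapH1 𝓛 𝓛 (H50.isCont_id 𝓛) hinv) hxy
    rwa [← LinearMap.comp_apply, ← LinearMap.comp_apply, h1] at this
  · intro y
    exact ⟨H50.mapH1 𝓛 𝓛 (H50.isCont_id 𝓛) hinv y, by
      rw [← LinearMap.comp_apply, h2]; rfl⟩

end MapH

/-! ## Post-composition on `Hom(X, -)` along `φ` -/

section HomPost

variable {G D : Type} [Group G] [Group D] {k : Type} [CommRing k] (φ : D →* G)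

/-- Post-composition `Hom(X, W) → Hom(res φ X, W')` with a linear map `b : W → W'`. -/
noncomputable def homPostLin (X : Rep.{0} k G) {W : Rep.{0} k G} {W' : Rep.{0} k D}
    (b : W.V →ₗ[k] W'.V) : (homRep X W).V →ₗ[k] (homRep (Rep.res φ X) W').V :=
  LinearMap.llcomp k X.V W.V W'.V b

@[simp] lemma homPostLin_apply (X : Rep.{0} k G) {W : Rep.{0} k G} {W' : Rep.{0} k D}
    (b : W.V →ₗ[k] W'.V) (u : X.V →ₗ[k] W.V) (x : X.V) :
    (show X.V →ₗ[k] W'.V from homPostLin φ X b u) x = b (u x) := rfl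

lemma isEquivariant_homPostLin (X : Rep.{0} k G) {W : Rep.{0} k G} {W' : Rep.{0} k D}
    {b : W.V →ₗ[k] W'.V} (hb : H50.IsEquivariant φ W W' b) :
    H50.IsEquivariant φ (homRep X W) (homRep (Rep.res φ X) W') (homPostLin φ X b) := by
  intro d u
  refine LinearMap.ext fun x => ?_
  show b (W.ρ (φ d) (u (X.ρ ((φ d)⁻¹) x))) = W'.ρ d (b (u (X.ρ (φ d⁻¹) x)))
  rw [hb, map_inv φ]

end HomPost

/-! ## Morphisms of `W`-data along `φ` -/

section WMor

variable {p : ℕ} [Fact p.Prime] {G D : Type} [Group G] [Group D]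
  {𝓛 : LevelStructure G} {𝓛D : LevelStructure D}

/-- A morphism of `W`-data along `φ : D →* G`: `φ`-equivariant linear maps `a : Vm → Vm'`,
`b : W → W'` commuting with the differentials. -/
structure WMor (φ : D →* G) (𝒟 : WDatum p 𝓛) (𝒟' : WDatum p 𝓛D) where
  a : 𝒟.Vm.V →ₗ[ZMod p] 𝒟'.Vm.V
  b : 𝒟.W.V →ₗ[ZMod p] 𝒟'.W.V
  ha : H50.IsEquivariant φ 𝒟.Vm 𝒟'.Vm a
  hb : H50.IsEquivariant φ 𝒟.W 𝒟'.W b
  comm : ∀ v, b (𝒟.d.hom v) = 𝒟'.d.hom (a v)

variable {φ : D →* G} {𝒟 : WDatum p 𝓛} {𝒟' : WDatum p 𝓛D}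

/-- The induced map on `T²`. -/
noncomputable def WMor.T2map (m : WMor φ 𝒟 𝒟') (hφ : H50.IsCont 𝓛D 𝓛 φ)
    (X : Rep.{0} (ZMod p) G) : 𝒟.T2 X →ₗ[ZMod p] 𝒟'.T2 (Rep.res φ X) :=
  H50.mapH1 𝓛D 𝓛 hφ (isEquivariant_homPostLin φ X m.hb)

/-- The induced map on the numerator of `T¹`. -/
noncomputable def WMor.T1numMap (m : WMor φ 𝒟 𝒟') (X : Rep.{0} (ZMod p) G) :
    𝒟.T1num X →ₗ[ZMod p] 𝒟'.T1num (Rep.res φ X) :=
  H50.mapH0 (isEquivariant_homPostLin φ X m.hb)

/-- The induced map on `Hom_G(X, Vm)`. -/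
noncomputable def WMor.VmMap (m : WMor φ 𝒟 𝒟') (X : Rep.{0} (ZMod p) G) :
    LevelStructure.H0 (homRep X 𝒟.Vm) →ₗ[ZMod p]
      LevelStructure.H0 (homRep (Rep.res φ X) 𝒟'.Vm) :=
  H50.mapH0 (isEquivariant_homPostLin φ X m.ha)

lemma WMor.T1numMap_coeffH0 (m : WMor φ 𝒟 𝒟') (X : Rep.{0} (ZMod p) G)
    (v : LevelStructure.H0 (homRep X 𝒟.Vm)) :
    m.T1numMap X (H50.coeffH0 (homRepMap X 𝒟.d) v) =
      H50.coeffH0 (homRepMap (Rep.res φ X) 𝒟'.d) (m.VmMap X v) := by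
  apply Subtype.ext
  refine LinearMap.ext fun x => ?_
  exact m.comm _

lemma WMor.T1den_le (m : WMor φ 𝒟 𝒟') (X : Rep.{0} (ZMod p) G) :
    𝒟.T1den X ≤ (𝒟'.T1den (Rep.res φ X)).comap (m.T1numMap X) := by
  rintro _ ⟨v, rfl⟩
  exact ⟨m.VmMap X v, (m.T1numMap_coeffH0 X v).symm⟩

/-- The induced map on `T¹`. -/
noncomputable def WMor.T1map (m : WMor φ 𝒟 𝒟') (X : Rep.{0} (ZMod p) G) :
    𝒟.T1 X →ₗ[ZMod p] 𝒟'.T1 (Rep.res φ X) :=
  Submodule.mapQ _ _ (m.T1numMap X) (m.T1den_le X)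

lemma WMor.T1map_mk (m : WMor φ 𝒟 𝒟') (X : Rep.{0} (ZMod p) G) (u : 𝒟.T1num X) :
    m.T1map X (Submodule.Quotient.mk u) = Submodule.Quotient.mk (m.T1numMap X u) := rfl

/-- A homotopy between two morphisms of `W`-data. -/
structure WMor.Homotopy (m m' : WMor φ 𝒟 𝒟') where
  s : 𝒟.W.V →ₗ[ZMod p] 𝒟'.Vm.V
  hs : H50.IsEquivariant φ 𝒟.W 𝒟'.Vm s
  ha : ∀ v, m.a v = m'.a v + s (𝒟.d.hom v)
  hb : ∀ w, m.b w = m'.b w + 𝒟'.d.hom (s w)

/-- Homotopic morphisms induce the same map on `T¹`. -/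
theorem WMor.T1map_eq_of_homotopy {m m' : WMor φ 𝒟 𝒟'} (h : WMor.Homotopy m m')
    (X : Rep.{0} (ZMod p) G) : m.T1map X = m'.T1map X := by
  refine LinearMap.ext fun t => ?_
  induction t using Submodule.Quotient.induction_on with
  | H u =>
    rw [WMor.T1map_mk, WMor.T1map_mk, ← sub_eq_zero, ← Submodule.Quotient.mk_sub,
      Submodule.Quotient.mk_eq_zero]
    refine ⟨H50.mapH0 (isEquivariant_homPostLin φ X h.hs) u, ?_⟩
    apply Subtype.ext
    refine LinearMap.ext fun x => ?_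
    show 𝒟'.d.hom (h.s (u.1 x)) = m.b (u.1 x) - m'.b (u.1 x)
    rw [h.hb]; abel

/-- Homotopic morphisms induce the same map on `T²` when `H¹(Hom(X, Vm')) = 0`. -/
theorem WMor.T2map_eq_of_homotopy {m m' : WMor φ 𝒟 𝒟'} (h : WMor.Homotopy m m')
    (hφ : H50.IsCont 𝓛D 𝓛 φ) (X : Rep.{0} (ZMod p) G)
    (hAC : Subsingleton (𝓛D.H1 (homRep (Rep.res φ X) 𝒟'.Vm))) :
    m.T2map hφ X = m'.T2map hφ X := by
  have hd : H50.IsEquivariant (MonoidHom.id D) 𝒟'.Vm 𝒟'.W 𝒟'.d.hom.toLinearMap :=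
    H50.isEquivariant_hom 𝒟'.d
  have hds : H50.IsEquivariant φ 𝒟.W 𝒟'.W (𝒟'.d.hom.toLinearMap ∘ₗ h.s) := by
    intro g w
    show 𝒟'.d.hom (h.s (𝒟.W.ρ (φ g) w)) = 𝒟'.W.ρ g (𝒟'.d.hom (h.s w))
    rw [h.hs, Rep.hom_comm_apply]
  have e1 : m.b = m'.b + 𝒟'.d.hom.toLinearMap ∘ₗ h.s := LinearMap.ext fun w => h.hb w
  have e2 : homPostLin φ X m.b = homPostLin φ X m'.b +
      homPostLin φ X (𝒟'.d.hom.toLinearMap ∘ₗ h.s) := by
    rw [e1]; exact map_add _ _ _
  have e3 : m.T2map hφ X = m'.T2map hφ X +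
      H50.mapH1 𝓛D 𝓛 hφ (isEquivariant_homPostLin φ X hds) := by
    unfold WMor.T2map
    rw [← mapH1_add]
    exact mapH1_congr 𝓛D 𝓛 hφ _ _ e2
  have e4 : H50.mapH1 𝓛D 𝓛 hφ (isEquivariant_homPostLin φ X hds) = 0 := by
    have hcomp : homPostLin φ X (𝒟'.d.hom.toLinearMap ∘ₗ h.s) =
        (homRepMap (Rep.res φ X) 𝒟'.d).hom.toLinearMap ∘ₗ homPostLin φ X h.s := rfl
    have := H50.mapH1_comp 𝓛D 𝓛D 𝓛 (H50.isCont_id 𝓛D) hφ
      (isEquivariant_homPostLin φ X h.hs)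
      (H50.isEquivariant_hom (homRepMap (Rep.res φ X) 𝒟'.d))
    refine LinearMap.ext fun x => ?_
    have h5 : H50.mapH1 𝓛D 𝓛 hφ (isEquivariant_homPostLin φ X hds) x =
        H50.mapH1 𝓛D 𝓛D (H50.isCont_id 𝓛D)
          (H50.isEquivariant_hom (homRepMap (Rep.res φ X) 𝒟'.d))
          (H50.mapH1 𝓛D 𝓛 hφ (isEquivariant_homPostLin φ X h.hs) x) := by
      rw [← LinearMap.comp_apply, ← this]
      rfl
    rw [h5, Subsingleton.elim (H50.mapH1 𝓛D 𝓛 hφ (isEquivariant_homPostLin φ X h.hs) x) 0,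
      map_zero]
    rfl
  rw [e3, e4, add_zero]

/-- Factorisation of the `T²`-map of a morphism along `φ` through a morphism over `id`. -/
lemma WMor.T2map_eq_comp {𝒟₂ : WDatum p 𝓛} (m : WMor φ 𝒟 𝒟') (m₁ : WMor (MonoidHom.id G) 𝒟 𝒟₂)
    (m₂ : WMor φ 𝒟₂ 𝒟') (hb : ∀ w, m.b w = m₂.b (m₁.b w)) (hφ : H50.IsCont 𝓛D 𝓛 φ)
    (X : Rep.{0} (ZMod p) G) (t : 𝒟.T2 X) :
    m.T2map hφ X t = m₂.T2map hφ X (m₁.T2map (H50.isCont_id 𝓛) X t) := by
  induction t using Submodule.Quotient.induction_on with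
  | H c =>
    show Submodule.Quotient.mk _ = Submodule.Quotient.mk _
    congr 1
    apply Subtype.ext; funext d
    refine LinearMap.ext fun x => ?_
    exact hb _

/-- Factorisation of the `T¹`-map of a morphism along `φ` through a morphism over `id`. -/
lemma WMor.T1map_eq_comp {𝒟₂ : WDatum p 𝓛} (m : WMor φ 𝒟 𝒟') (m₁ : WMor (MonoidHom.id G) 𝒟 𝒟₂)
    (m₂ : WMor φ 𝒟₂ 𝒟') (hb : ∀ w, m.b w = m₂.b (m₁.b w))
    (X : Rep.{0} (ZMod p) G) (t : 𝒟.T1 X) :
    m.T1map X t = m₂.T1map X (m₁.T1map X t) := by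
  induction t using Submodule.Quotient.induction_on with
  | H u =>
    show Submodule.Quotient.mk _ = Submodule.Quotient.mk _
    congr 1
    apply Subtype.ext
    refine LinearMap.ext fun x => ?_
    exact hb _

/-- The identity morphism of a `W`-datum. -/
noncomputable def WMor.id (𝒟 : WDatum p 𝓛) : WMor (MonoidHom.id G) 𝒟 𝒟 where
  a := LinearMap.id
  b := LinearMap.id
  ha := H50.isEquivariant_id _
  hb := H50.isEquivariant_id _
  comm _ := rfl

lemma WMor.id_T2map (𝒟 : WDatum p 𝓛) (X : Rep.{0} (ZMod p) G) (t : 𝒟.T2 X) :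
    (WMor.id 𝒟).T2map (H50.isCont_id 𝓛) X t = t := by
  induction t using Submodule.Quotient.induction_on with
  | H c => rfl

lemma WMor.id_T1map (𝒟 : WDatum p 𝓛) (X : Rep.{0} (ZMod p) G) (t : 𝒟.T1 X) :
    (WMor.id 𝒟).T1map X t = t := by
  induction t using Submodule.Quotient.induction_on with
  | H c => rfl

end WMor

/-! ## Morphisms of envelopes along `φ` -/

section Desc

variable {k : Type} [CommRing k] {A B C : Type} [AddCommGroup A] [AddCommGroup B]
  [AddCommGroup C] [Module k A] [Module k B] [Module k C]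

/-- Descent of a linear map along a surjection. -/
noncomputable def descLin (π : A →ₗ[k] B) (hπ : Function.Surjective π) (g : A →ₗ[k] C)
    (hg : ∀ x, π x = 0 → g x = 0) : B →ₗ[k] C :=
  ((LinearMap.ker π).liftQ g (fun x hx => hg x hx)) ∘ₗ
    (π.quotKerEquivOfSurjective hπ).symm.toLinearMap

lemma descLin_apply (π : A →ₗ[k] B) (hπ : Function.Surjective π) (g : A →ₗ[k] C)
    (hg : ∀ x, π x = 0 → g x = 0) (x : A) : descLin π hπ g hg (π x) = g x := by
  have : (π.quotKerEquivOfSurjective hπ).symm (π x) = Submodule.Quotient.mk x := by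
    rw [LinearEquiv.symm_apply_eq]; rfl
  unfold descLin
  rw [LinearMap.comp_apply]
  show ((LinearMap.ker π).liftQ g (fun x hx => hg x hx))
    ((π.quotKerEquivOfSurjective hπ).symm (π x)) = g x
  rw [this]; rfl

end Desc

section EnvMor

variable {p : ℕ} [Fact p.Prime] {k : Type} [CommRing k] {G D : Type} [Group G] [Group D]
  {𝓛 : LevelStructure G} {𝓛D : LevelStructure D}

/-- Restriction of a linear map to the `p`-torsion, as a `ZMod p`-linear map. -/
noncomputable def torsionLin (p : ℕ) {M M' : Type} [AddCommGroup M] [AddCommGroup M']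
    [Module k M] [Module k M'] (f : M →ₗ[k] M') :
    H36.torsionSub p M →ₗ[ZMod p] H36.torsionSub p M' :=
  (H36.torsionRestrict p f.toAddMonoidHom).toZModLinearMap p

omit [Fact p.Prime] in
@[simp] lemma torsionLin_coe {M M' : Type} [AddCommGroup M] [AddCommGroup M']
    [Module k M] [Module k M'] (f : M →ₗ[k] M') (x : H36.torsionSub p M) :
    (torsionLin p f x : M') = f x.1 := rfl

omit [Fact p.Prime] in
lemma isEquivariant_torsionLin {φ : D →* G} {M : Rep.{0} k G} {M' : Rep.{0} k D}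
    {f : M.V →ₗ[k] M'.V} (hf : H50.IsEquivariant φ M M' f) :
    H50.IsEquivariant φ (H36.torsionRep p M) (H36.torsionRep p M') (torsionLin p f) := by
  intro g x
  apply Subtype.ext
  exact hf g (show H36.torsionSub p M.V from x).1

/-- A morphism of divisible envelopes along `φ : D →* G` over a linear map `f : N → N'`. -/
structure EnvMor (φ : D →* G) {N : Rep.{0} k G} {N' : Rep.{0} k D}
    (E : H36.DivEnvelope 𝓛 p N) (E' : H36.DivEnvelope 𝓛D p N') (f : N.V →ₗ[k] N'.V) where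
  FI : E.I.V →ₗ[k] E'.I.V
  FQ : E.Q.V →ₗ[k] E'.Q.V
  hFI : H50.IsEquivariant φ E.I E'.I FI
  hFQ : H50.IsEquivariant φ E.Q E'.Q FQ
  sqι : ∀ n, FI (E.ι.hom n) = E'.ι.hom (f n)
  sqπ : ∀ x, FQ (E.π.hom x) = E'.π.hom (FI x)

variable {φ : D →* G} {N : Rep.{0} k G} {N' : Rep.{0} k D}
  {E : H36.DivEnvelope 𝓛 p N} {E' : H36.DivEnvelope 𝓛D p N'}

/-- The morphism of `W`-data induced by a morphism of envelopes. -/
noncomputable def EnvMor.wMor {f : N.V →ₗ[k] N'.V} (F : EnvMor φ E E' f) :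
    WMor φ E.wDatum E'.wDatum where
  a := torsionLin p F.FI
  b := torsionLin p F.FQ
  ha := isEquivariant_torsionLin F.hFI
  hb := isEquivariant_torsionLin F.hFQ
  comm v := Subtype.ext (F.sqπ (show H36.torsionSub p E.I.V from v).1)

/-- An envelope morphism is determined by its `I`-component. -/
noncomputable def EnvMor.ofFI {f : N.V →ₗ[k] N'.V} (FI : E.I.V →ₗ[k] E'.I.V)
    (hFI : H50.IsEquivariant φ E.I E'.I FI)
    (sqι : ∀ n, FI (E.ι.hom n) = E'.ι.hom (f n)) : EnvMor φ E E' f where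
  FI := FI
  FQ := descLin E.π.hom.toLinearMap E.π_surjective (E'.π.hom.toLinearMap ∘ₗ FI) (by
    intro x hx
    obtain ⟨n, rfl⟩ := (E.exact x).1 hx
    show E'.π.hom (FI (E.ι.hom n)) = 0
    rw [sqι]
    exact (E'.exact _).2 ⟨_, rfl⟩)
  hFI := hFI
  hFQ := by
    intro g q
    obtain ⟨x, rfl⟩ := E.π_surjective q
    have h1 : E.Q.ρ (φ g) (E.π.hom x) = E.π.hom.toLinearMap (E.I.ρ (φ g) x) :=
      (Rep.hom_comm_apply E.π (φ g) x).symm
    have h2 : E.π.hom x = E.π.hom.toLinearMap x := rfl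
    rw [h1, h2, descLin_apply, descLin_apply]
    show E'.π.hom (FI (E.I.ρ (φ g) x)) = E'.Q.ρ g (E'.π.hom (FI x))
    rw [hFI, Rep.hom_comm_apply]
  sqι := sqι
  sqπ x := descLin_apply _ _ _ _ x

/-- Two envelope morphisms over the same base map are homotopic. -/
noncomputable def EnvMor.homotopy {f f' : N.V →ₗ[k] N'.V} (F : EnvMor φ E E' f)
    (F' : EnvMor φ E E' f') (hff' : ∀ n, f n = f' n) : WMor.Homotopy F.wMor F'.wMor := by
  have hker : ∀ x, E.π.hom.toLinearMap x = 0 → (F.FI - F'.FI) x = 0 := by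
    intro x hx
    obtain ⟨n, rfl⟩ := (E.exact x).1 hx
    rw [LinearMap.sub_apply, F.sqι, F'.sqι, hff', sub_self]
  let h : E.Q.V →ₗ[k] E'.I.V :=
    descLin E.π.hom.toLinearMap E.π_surjective (F.FI - F'.FI) hker
  have hh : ∀ x, h (E.π.hom x) = F.FI x - F'.FI x := fun x => descLin_apply _ _ _ hker x
  have hheq : H50.IsEquivariant φ E.Q E'.I h := by
    intro g q
    obtain ⟨x, rfl⟩ := E.π_surjective q
    rw [← Rep.hom_comm_apply E.π (φ g) x, hh, hh, F.hFI, F'.hFI, map_sub]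
  refine
    { s := torsionLin p h
      hs := isEquivariant_torsionLin hheq
      ha := fun v => Subtype.ext ?_
      hb := fun w => Subtype.ext ?_ }
  · show F.FI (show H36.torsionSub p E.I.V from v).1 =
      F'.FI (show H36.torsionSub p E.I.V from v).1 +
        h (E.π.hom (show H36.torsionSub p E.I.V from v).1)
    rw [hh]; abel
  · obtain ⟨x, hx⟩ := E.π_surjective (show H36.torsionSub p E.Q.V from w).1
    show F.FQ (show H36.torsionSub p E.Q.V from w).1 =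
      F'.FQ (show H36.torsionSub p E.Q.V from w).1 +
        E'.π.hom (h (show H36.torsionSub p E.Q.V from w).1)
    rw [← hx, F.sqπ, F'.sqπ, hh, map_sub]; abel

end EnvMor

/-! ## The two-way comparison theorem (independence of the envelope) -/

section TwoWay

variable {p : ℕ} [Fact p.Prime] {k : Type} [CommRing k] {G : Type} [Group G]
  {𝓛 : LevelStructure G} {N N' N'' : Rep.{0} k G}
  {E : H36.DivEnvelope 𝓛 p N} {E' : H36.DivEnvelope 𝓛 p N'} {E'' : H36.DivEnvelope 𝓛 p N''}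

/-- The identity morphism of an envelope. -/
noncomputable def EnvMor.idMor (E : H36.DivEnvelope 𝓛 p N) :
    EnvMor (MonoidHom.id G) E E LinearMap.id where
  FI := LinearMap.id
  FQ := LinearMap.id
  hFI := H50.isEquivariant_id _
  hFQ := H50.isEquivariant_id _
  sqι _ := rfl
  sqπ _ := rfl

lemma EnvMor.idMor_T2map (E : H36.DivEnvelope 𝓛 p N) (X : Rep.{0} (ZMod p) G)
    (t : E.wDatum.T2 X) : (EnvMor.idMor E).wMor.T2map (H50.isCont_id 𝓛) X t = t := by
  induction t using Submodule.Quotient.induction_on with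
  | H c => rfl

lemma EnvMor.idMor_T1map (E : H36.DivEnvelope 𝓛 p N) (X : Rep.{0} (ZMod p) G)
    (t : E.wDatum.T1 X) : (EnvMor.idMor E).wMor.T1map X t = t := by
  induction t using Submodule.Quotient.induction_on with
  | H c => rfl

/-- Composition of envelope morphisms over the identity of `G`. -/
noncomputable def EnvMor.compAbs {f : N.V →ₗ[k] N'.V} {f' : N'.V →ₗ[k] N''.V}
    (F : EnvMor (MonoidHom.id G) E E' f) (R : EnvMor (MonoidHom.id G) E' E'' f') :
    EnvMor (MonoidHom.id G) E E'' (f' ∘ₗ f) where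
  FI := R.FI ∘ₗ F.FI
  FQ := R.FQ ∘ₗ F.FQ
  hFI := fun g x => by
    have h1 : F.FI (E.I.ρ g x) = E'.I.ρ g (F.FI x) := F.hFI g x
    have h2 : R.FI (E'.I.ρ g (F.FI x)) = E''.I.ρ g (R.FI (F.FI x)) := R.hFI g _
    show R.FI (F.FI (E.I.ρ g x)) = E''.I.ρ g (R.FI (F.FI x))
    rw [h1, h2]
  hFQ := fun g x => by
    have h1 : F.FQ (E.Q.ρ g x) = E'.Q.ρ g (F.FQ x) := F.hFQ g x
    have h2 : R.FQ (E'.Q.ρ g (F.FQ x)) = E''.Q.ρ g (R.FQ (F.FQ x)) := R.hFQ g _
    show R.FQ (F.FQ (E.Q.ρ g x)) = E''.Q.ρ g (R.FQ (F.FQ x))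
    rw [h1, h2]
  sqι n := by
    show R.FI (F.FI (E.ι.hom n)) = E''.ι.hom (f' (f n))
    rw [F.sqι, R.sqι]
  sqπ x := by
    show R.FQ (F.FQ (E.π.hom x)) = E''.π.hom (R.FI (F.FI x))
    rw [F.sqπ, R.sqπ]

variable {f : N.V →ₗ[k] N'.V} {f' : N'.V →ₗ[k] N.V}

/-- `T²(R) ∘ T²(F) = id` when `f' ∘ f = id` and the source envelope satisfies (AC1). -/
theorem EnvMor.T2map_retraction (hff' : ∀ n, f' (f n) = n)
    (F : EnvMor (MonoidHom.id G) E E' f) (R : EnvMor (MonoidHom.id G) E' E f')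
    (X : Rep.{0} (ZMod p) G) (hAC : Subsingleton (𝓛.H1 (homRep X E.wDatum.Vm)))
    (t : E.wDatum.T2 X) :
    R.wMor.T2map (H50.isCont_id 𝓛) X (F.wMor.T2map (H50.isCont_id 𝓛) X t) = t := by
  rw [← WMor.T2map_eq_comp (F.compAbs R).wMor F.wMor R.wMor (fun _ => rfl) (H50.isCont_id 𝓛) X t,
    WMor.T2map_eq_of_homotopy ((F.compAbs R).homotopy (EnvMor.idMor E) hff')
      (H50.isCont_id 𝓛) X hAC]
  exact EnvMor.idMor_T2map E X t

/-- `T¹(R) ∘ T¹(F) = id` when `f' ∘ f = id`. -/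
theorem EnvMor.T1map_retraction (hff' : ∀ n, f' (f n) = n)
    (F : EnvMor (MonoidHom.id G) E E' f) (R : EnvMor (MonoidHom.id G) E' E f')
    (X : Rep.{0} (ZMod p) G) (t : E.wDatum.T1 X) :
    R.wMor.T1map X (F.wMor.T1map X t) = t := by
  rw [← WMor.T1map_eq_comp (F.compAbs R).wMor F.wMor R.wMor (fun _ => rfl) X t,
    WMor.T1map_eq_of_homotopy ((F.compAbs R).homotopy (EnvMor.idMor E) hff') X]
  exact EnvMor.idMor_T1map E X t

/-- **Envelope comparison, degree 2**: `T²(F)` is injective. -/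
theorem EnvMor.T2map_injective (hff' : ∀ n, f' (f n) = n)
    (F : EnvMor (MonoidHom.id G) E E' f) (R : EnvMor (MonoidHom.id G) E' E f')
    (X : Rep.{0} (ZMod p) G) (hAC : Subsingleton (𝓛.H1 (homRep X E.wDatum.Vm))) :
    Function.Injective (F.wMor.T2map (H50.isCont_id 𝓛) X) := by
  intro t t' h
  rw [← EnvMor.T2map_retraction hff' F R X hAC t, ← EnvMor.T2map_retraction hff' F R X hAC t', h]

/-- **Envelope comparison, degree 1**: `T¹(F)` is bijective. -/
theorem EnvMor.T1map_bijective (hff' : ∀ n, f' (f n) = n) (hf'f : ∀ n, f (f' n) = n)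
    (F : EnvMor (MonoidHom.id G) E E' f) (R : EnvMor (MonoidHom.id G) E' E f')
    (X : Rep.{0} (ZMod p) G) : Function.Bijective (F.wMor.T1map X) := by
  constructor
  · intro t t' h
    rw [← EnvMor.T1map_retraction hff' F R X t, ← EnvMor.T1map_retraction hff' F R X t', h]
  · intro t
    exact ⟨R.wMor.T1map X t, EnvMor.T1map_retraction hf'f R F X t⟩

/-- **Envelope comparison, degree 2, both directions**: `T²(F)` is bijective when both
envelopes satisfy (AC1). -/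
theorem EnvMor.T2map_bijective (hff' : ∀ n, f' (f n) = n) (hf'f : ∀ n, f (f' n) = n)
    (F : EnvMor (MonoidHom.id G) E E' f) (R : EnvMor (MonoidHom.id G) E' E f')
    (X : Rep.{0} (ZMod p) G) (hAC : Subsingleton (𝓛.H1 (homRep X E.wDatum.Vm)))
    (hAC' : Subsingleton (𝓛.H1 (homRep X E'.wDatum.Vm))) :
    Function.Bijective (F.wMor.T2map (H50.isCont_id 𝓛) X) :=
  ⟨EnvMor.T2map_injective hff' F R X hAC, fun t =>
    ⟨R.wMor.T2map (H50.isCont_id 𝓛) X t, EnvMor.T2map_retraction hf'f R F X hAC' t⟩⟩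

end TwoWay

end Fermat.Agent.CFT.H22
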