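/-
CFT project, layer D, package D4-SL (helper22), slice 5: the main theorems.
* single place: `T¹`, `T²` of the coinduced envelope versus the local envelope
  (Shapiro in degrees 0, 1 for the coarse structure + coarse → fine);
* finite families and the FINAL D4 theorem: for any envelope `EJ` of `J ≅ Π_v coindLC (A v)`
  and any envelope morphisms `lam v` over the evaluations, `Θ¹` is bijective and `Θ²` injective.
Stated in helper5's vocabulary `H5.WMor`, `H5.EnvMor`.
-/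
import Fermat.Agent.CFT.H22_SLCoindEnv
import Fermat.Agent.CFT.H22_SLEnvMor
import Fermat.Agent.CFT.H35_PiRep
set_option autoImplicit false
open CategoryTheory groupCohomology
namespace Fermat.Agent.CFT.H22
open Fermat.Agent.CFT

/-! ## Complements -/

section Complements

variable {H : Type} [Group H] {k : Type} [CommRing k]

theorem coeffH0_bijective {A B : Rep.{0} k H} (f : A ⟶ B) (hf : Function.Bijective f.hom) :
    Function.Bijective (H50.coeffH0 f) := by
  constructor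
  · intro a b hab
    apply Subtype.ext
    apply hf.1
    exact congrArg Subtype.val hab
  · intro b
    obtain ⟨a, ha⟩ := hf.2 b.1
    refine ⟨⟨a, fun g => hf.1 ?_⟩, Subtype.ext ha⟩
    rw [Rep.hom_comm_apply, ha, b.2 g]

theorem homRepMap_bijective (X : Rep.{0} k H) {V W : Rep.{0} k H} (f : V ⟶ W)
    (hf : Function.Bijective f.hom) : Function.Bijective (homRepMap X f).hom := by
  constructor
  · intro u u' h
    refine LinearMap.ext fun x => hf.1 ?_
    exact LinearMap.congr_fun h x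
  · intro v
    let e : V.V ≃ₗ[k] W.V := LinearEquiv.ofBijective f.hom.toLinearMap hf
    refine ⟨(e.symm : W.V →ₗ[k] V.V) ∘ₗ v, LinearMap.ext fun x => ?_⟩
    show e (e.symm (v x)) = v x
    exact e.apply_symm_apply _

end Complements

/-! ## One place: the coinduced envelope versus the local envelope -/

section OnePlace

variable {G D : Type} [Group G] [Group D] (𝓛 : LevelStructure G) (φ : D →* G)
  {k : Type} [CommRing k] (p : ℕ) [Fact p.Prime] {𝓛D : LevelStructure D}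

/-- `w ↦ w(1)` on `p`-torsion: `(coindLC Q)[p] → Q[p]`. -/
noncomputable def tevLin (Q : Rep.{0} k D) :
    (H36.torsionRep p (coindLC 𝓛 φ Q)).V →ₗ[ZMod p] (H36.torsionRep p Q).V :=
  coindLCEvLin 𝓛 φ (H36.torsionRep p Q) ∘ₗ (tcoind 𝓛 φ p Q).hom.toLinearMap

lemma tval_tevLin (Q : Rep.{0} k D) (w : H36.torsionSub p (coindLC 𝓛 φ Q).V) :
    tval (tevLin 𝓛 φ p Q w) = w.1.1 1 := rfl

lemma isEquivariant_tevLin (Q : Rep.{0} k D) :
    H50.IsEquivariant φ (H36.torsionRep p (coindLC 𝓛 φ Q)) (H36.torsionRep p Q)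
      (tevLin 𝓛 φ p Q) := by
  intro d w
  show coindLCEvLin 𝓛 φ (H36.torsionRep p Q) ((tcoind 𝓛 φ p Q).hom
    ((H36.torsionRep p (coindLC 𝓛 φ Q)).ρ (φ d) w)) = _
  rw [Rep.hom_comm_apply]
  exact isEquivariant_coindLCEvLin 𝓛 φ (H36.torsionRep p Q) d _

variable (X : Rep.{0} (ZMod p) G) [Finite X.V] (hdisc : 𝓛.IsDiscrete X)

include hdisc

/-- `Hom_G(X, (coindLC Q)[p]) → Hom_D(res X, Q[p])` is bijective. -/
theorem mapH0_tevLin_bijective (Q : Rep.{0} k D) :
    Function.Bijective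
      (H50.mapH0 (H5.isEquivariant_homPush φ X (isEquivariant_tevLin 𝓛 φ p Q))) := by
  have h1 := coeffH0_bijective _ (homRepMap_bijective X _ (tcoind_bijective 𝓛 φ p Q))
  have h2 := coeffH0_bijective _
    (homCoind_bijective 𝓛 φ X (H36.torsionRep p Q) hdisc)
  have h3 := shapiroH0_bijective 𝓛 φ (homRep (Rep.res φ X) (H36.torsionRep p Q))
  have key : ∀ u, H50.mapH0 (H5.isEquivariant_homPush φ X (isEquivariant_tevLin 𝓛 φ p Q)) u =
      shapiroH0 𝓛 φ _ (H50.coeffH0 (homCoind 𝓛 φ X (H36.torsionRep p Q) hdisc)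
        (H50.coeffH0 (homRepMap X (tcoind 𝓛 φ p Q)) u)) := by
    intro u
    apply Subtype.ext
    refine LinearMap.ext fun x => ?_
    show tevLin 𝓛 φ p Q ((show X.V →ₗ[ZMod p] _ from u.1) x) =
      coindLCEvLin 𝓛 φ (H36.torsionRep p Q) ((tcoind 𝓛 φ p Q).hom
        ((show X.V →ₗ[ZMod p] _ from u.1) (X.ρ (1 : G)⁻¹ x)))
    rw [inv_one, map_one, Module.End.one_apply]
    rfl
  have : (H50.mapH0 (H5.isEquivariant_homPush φ X (isEquivariant_tevLin 𝓛 φ p Q)) : _ → _) =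
      (shapiroH0 𝓛 φ _) ∘ (H50.coeffH0 (homCoind 𝓛 φ X (H36.torsionRep p Q) hdisc)) ∘
        (H50.coeffH0 (homRepMap X (tcoind 𝓛 φ p Q))) := funext key
  rw [this]
  exact h3.comp (h2.comp h1)

/-- `H¹(G; Hom(X, (coindLC Q)[p])) → H¹(D; Hom(res X, Q[p]))` is injective. -/
theorem mapH1_tevLin_injective (hφ : H50.IsCont 𝓛D 𝓛 φ) (Q : Rep.{0} k D) :
    Function.Injective
      (H50.mapH1 𝓛D 𝓛 hφ (H5.isEquivariant_homPush φ X (isEquivariant_tevLin 𝓛 φ p Q))) := by
  have hco : H5.IsCoarser (𝓛.comap φ) 𝓛D := by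
    rintro _ ⟨N, hN, rfl⟩
    exact hφ N hN
  have h1 := coeffH1_bijective 𝓛 _ (homRepMap_bijective X _ (tcoind_bijective 𝓛 φ p Q))
  have h2 := coeffH1_bijective 𝓛 _
    (homCoind_bijective 𝓛 φ X (H36.torsionRep p Q) hdisc)
  have h3 := shapiroH1_injective 𝓛 φ (homRep (Rep.res φ X) (H36.torsionRep p Q))
  have h4 := H5.mapH1_injective hco
    (H5.isSmoothEmbedding_id (𝓛.comap φ) (homRep (Rep.res φ X) (H36.torsionRep p Q)))
  have key : ∀ t, H50.mapH1 𝓛D 𝓛 hφ
      (H5.isEquivariant_homPush φ X (isEquivariant_tevLin 𝓛 φ p Q)) t =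
      H50.mapH1 𝓛D (𝓛.comap φ) hco.isCont (H50.isEquivariant_hom
        (𝟙 (homRep (Rep.res φ X) (H36.torsionRep p Q))))
      (shapiroH1 𝓛 φ _ (H50.coeffH1 𝓛 (homCoind 𝓛 φ X (H36.torsionRep p Q) hdisc)
        (H50.coeffH1 𝓛 (homRepMap X (tcoind 𝓛 φ p Q)) t))) := by
    intro t
    induction t using Submodule.Quotient.induction_on with
    | H c =>
      show Submodule.Quotient.mk _ = Submodule.Quotient.mk _
      congr 1
      apply Subtype.ext; funext d
      refine LinearMap.ext fun x => ?_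
      show tevLin 𝓛 φ p Q ((show X.V →ₗ[ZMod p] _ from c.1 (φ d)) x) =
        coindLCEvLin 𝓛 φ (H36.torsionRep p Q) ((tcoind 𝓛 φ p Q).hom
          ((show X.V →ₗ[ZMod p] _ from c.1 (φ d)) (X.ρ (1 : G)⁻¹ x)))
      rw [inv_one, map_one, Module.End.one_apply]
      rfl
  have : (H50.mapH1 𝓛D 𝓛 hφ
      (H5.isEquivariant_homPush φ X (isEquivariant_tevLin 𝓛 φ p Q)) : _ → _) =
      (H50.mapH1 𝓛D (𝓛.comap φ) hco.isCont (H50.isEquivariant_hom
        (𝟙 (homRep (Rep.res φ X) (H36.torsionRep p Q))))) ∘ (shapiroH1 𝓛 φ _) ∘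
      (H50.coeffH1 𝓛 (homCoind 𝓛 φ X (H36.torsionRep p Q) hdisc)) ∘
        (H50.coeffH1 𝓛 (homRepMap X (tcoind 𝓛 φ p Q))) := funext key
  rw [this]
  exact h4.comp (h3.comp (h2.1.comp h1.1))

end OnePlace

/-! ## One place, in the vocabulary of `H5.WMor` / `H5.EnvMor` -/

section OnePlaceW

variable {p : ℕ} [Fact p.Prime] {G D : Type} [Group G] [Group D]
  {𝓛 : LevelStructure G} {𝓛D : LevelStructure D}

/-- A morphism of `W`-data along `φ` which is bijective on `Hom_G(X, W)` and surjective on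
`Hom_G(X, Vm)` is bijective on `T¹`. -/
theorem WMor_T1map_bijective {φ : D →* G} {𝒟 : WDatum p 𝓛} {𝒟' : WDatum p 𝓛D}
    (Φ : H5.WMor φ 𝒟 𝒟') (X : Rep.{0} (ZMod p) G)
    (hW : Function.Bijective (Φ.T1numMap X))
    (hV : Function.Surjective (H50.mapH0 (H5.isEquivariant_homPush φ X Φ.ha))) :
    Function.Bijective (Φ.T1map X) := by
  constructor
  · rw [injective_iff_map_eq_zero]
    intro t ht
    induction t using Submodule.Quotient.induction_on with
    | H u =>
      rw [H5.WMor.T1map_mk, Submodule.Quotient.mk_eq_zero] at ht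
      obtain ⟨v', hv'⟩ := ht
      obtain ⟨v, rfl⟩ := hV v'
      rw [Submodule.Quotient.mk_eq_zero]
      refine ⟨v, hW.1 ?_⟩
      rw [← hv']
      apply Subtype.ext
      refine LinearMap.ext fun x => ?_
      exact Φ.comm _
  · intro t
    induction t using Submodule.Quotient.induction_on with
    | H u' =>
      obtain ⟨u, rfl⟩ := hW.2 u'
      exact ⟨Submodule.Quotient.mk u, rfl⟩

variable (𝓛) (φ : D →* G) {k : Type} [CommRing k] {A : Rep.{0} k D}
  (E : H36.DivEnvelope 𝓛D p A) (h : CoarseLift 𝓛 φ E)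

lemma evEnvMor_b : (evEnvMor 𝓛 φ E h).toWMor.b = tevLin 𝓛 φ p E.Q := by
  refine LinearMap.ext fun w => Subtype.ext ?_
  exact evEnvMor_Fbar_apply 𝓛 φ E h _

lemma evEnvMor_a : (evEnvMor 𝓛 φ E h).toWMor.a = tevLin 𝓛 φ p E.I := rfl

variable (X : Rep.{0} (ZMod p) G) [Finite X.V] (hdisc : 𝓛.IsDiscrete X)

include hdisc

/-- **One place, degree 2**: `T²(G; X, coindEnvelope) → T²(D; res X, E)` is injective. -/
theorem evEnvMor_T2map_injective (hφ : H50.IsCont 𝓛D 𝓛 φ) :
    Function.Injective ((evEnvMor 𝓛 φ E h).toWMor.T2map hφ X) := by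
  have h1 : (evEnvMor 𝓛 φ E h).toWMor.T2map hφ X =
      H50.mapH1 𝓛D 𝓛 hφ (H5.isEquivariant_homPush φ X (isEquivariant_tevLin 𝓛 φ p E.Q)) :=
    mapH1_congr 𝓛D 𝓛 hφ _ _ (congrArg (H5.homPush φ X) (evEnvMor_b 𝓛 φ E h))
  rw [h1]
  exact mapH1_tevLin_injective 𝓛 φ p X hdisc hφ E.Q

/-- **One place, degree 1**: `T¹(G; X, coindEnvelope) → T¹(D; res X, E)` is bijective. -/
theorem evEnvMor_T1map_bijective :
    Function.Bijective ((evEnvMor 𝓛 φ E h).toWMor.T1map X) := by
  apply WMor_T1map_bijective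
  · have h1 : (evEnvMor 𝓛 φ E h).toWMor.T1numMap X =
        H50.mapH0 (H5.isEquivariant_homPush φ X (isEquivariant_tevLin 𝓛 φ p E.Q)) :=
      mapH0_congr _ _ (congrArg (H5.homPush φ X) (evEnvMor_b 𝓛 φ E h))
    rw [h1]
    exact mapH0_tevLin_bijective 𝓛 φ p X hdisc E.Q
  · exact (mapH0_tevLin_bijective 𝓛 φ p X hdisc E.I).2

end OnePlaceW

end Fermat.Agent.CFT.H22
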