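/-
CFT project, layer D, package D4-SL (helper22), slice 6: the FINAL D4 theorem.
For a finite family of places `v : ι` with local groups `D v`, continuous `φ v : D v →* G`,
local envelopes `E v` of `A v` satisfying the smooth-lifting hypotheses `CoarseLift`, a global
module `J` with evaluations `ev v : J → A v` such that `J ≅ Π_v coindLC 𝓛 (φ v) (A v)`, ANY
envelope `EJ` of `J` whose `I` is injective among discrete modules, and ANY envelope morphisms
`lam v : EJ → E v` along `φ v` over `ev v`: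
* `theta1_bijective` : `T¹_EJ(X) → Π_v T¹_{E v}(res X)` is bijective;
* `theta2_injective` : `T²_EJ(X) → Π_v T²_{E v}(res X)` is injective (given (AC1) for `EJ`).
-/
import Fermat.Agent.CFT.H22_SLMain
set_option autoImplicit false
open CategoryTheory groupCohomology
namespace Fermat.Agent.CFT.H22
open Fermat.Agent.CFT

section Injective

variable {k : Type} [CommRing k] {G : Type} [Group G]

/-- `I` is injective relative to injections into `𝓛`-discrete representations. -/
def IsDiscInjective (𝓛 : LevelStructure G) (I : Rep.{0} k G) : Prop :=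
  ∀ (M M' : Rep.{0} k G) (i : M ⟶ M'), Function.Injective i.hom → 𝓛.IsDiscrete M' →
    ∀ f : M ⟶ I, ∃ f' : M' ⟶ I, ∀ m : M.V, f'.hom (i.hom m) = f.hom m

/-- The source of an envelope is discrete. -/
lemma isDiscrete_of_envelope {𝓛 : LevelStructure G} {m : ℕ} {N : Rep.{0} k G}
    (E : H36.DivEnvelope 𝓛 m N) : 𝓛.IsDiscrete N := by
  intro c
  obtain ⟨L, hL, h⟩ := E.discrete (E.ι.hom c)
  refine ⟨L, hL, fun n hn => E.ι_injective ?_⟩
  rw [Rep.hom_comm_apply, h n hn]

end Injective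

section Final

variable {p : ℕ} [Fact p.Prime] {k : Type} [CommRing k] {G : Type} [Group G]
  {𝓛 : LevelStructure G} {ι : Type} [Finite ι] {D : ι → Type} [∀ v, Group (D v)]
  {𝓛D : ∀ v, LevelStructure (D v)} (φ : ∀ v, D v →* G)
  {A : ∀ v, Rep.{0} k (D v)} (E : ∀ v, H36.DivEnvelope (𝓛D v) p (A v))
  (hE : ∀ v, CoarseLift 𝓛 (φ v) (E v))
  {J : Rep.{0} k G} (EJ : H36.DivEnvelope 𝓛 p J)
  (ev : ∀ v, J.V →ₗ[k] (A v).V) (hev : ∀ v, H50.IsEquivariant (φ v) J (A v) (ev v))

/-- The comparison map `J ⟶ Π_v coindLC 𝓛 (φ v) (A v)`, `j ↦ (g ↦ ev v (g • j))`. -/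
noncomputable def compMap : J ⟶ H35.piRep (fun v => coindLC 𝓛 (φ v) (A v)) :=
  H35.piLift (fun v => coindLCLift 𝓛 (φ v) (isDiscrete_of_envelope EJ) (ev v) (hev v))

omit [Fact p.Prime] [Finite ι] in
lemma compMap_apply (j : J.V) (v : ι) (g : G) :
    ((show ∀ v, (coindLC 𝓛 (φ v) (A v)).V from (compMap φ EJ ev hev).hom j) v).1 g =
      ev v (J.ρ g j) := rfl

/-- The product of the coinduced envelopes. -/
noncomputable abbrev famEnvelope :
    H36.DivEnvelope 𝓛 p (H35.piRep (fun v => coindLC 𝓛 (φ v) (A v))) :=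
  H35.divEnvelopePi (fun v => coindEnvelope 𝓛 (φ v) (E v) (hE v))

variable (lam : ∀ v, H5.EnvMor (φ v) EJ (E v) (ev v))

/-- The envelope morphism `EJ → Π_v coindEnvelope (E v)` obtained from the `lam v` by
Frobenius reciprocity. -/
noncomputable def famMor :
    H5.EnvMor (MonoidHom.id G) EJ (famEnvelope φ E hE)
      (compMap φ EJ ev hev).hom.toLinearMap where
  F := (H35.piLift (fun v => coindLCLift 𝓛 (φ v) EJ.discrete (lam v).F (lam v).hF)).hom.toLinearMap
  hF := fun g x => Rep.hom_comm_apply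
    (H35.piLift (fun v => coindLCLift 𝓛 (φ v) EJ.discrete (lam v).F (lam v).hF)) g x
  comm := fun j => by
    funext v
    apply Subtype.ext; funext g
    show (lam v).F (EJ.I.ρ g (EJ.ι.hom j)) = (E v).ι.hom (ev v (J.ρ g j))
    rw [← Rep.hom_comm_apply, (lam v).comm]

omit [Fact p.Prime] in
lemma famMor_F_apply (x : EJ.I.V) (v : ι) (g : G) :
    ((show ∀ v, (coindLC 𝓛 (φ v) (E v).I).V from (famMor φ E hE EJ ev hev lam).F x) v).1 g =
      (lam v).F (EJ.I.ρ g x) := rfl

/-- Key identity: `lam v` factors through `famMor` followed by projection and evaluation. -/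
lemma lam_Fbar_eq (v : ι) (q : EJ.Q.V) :
    (lam v).Fbar q = (evEnvMor 𝓛 (φ v) (E v) (hE v)).Fbar
      ((show ∀ v, (coindLC 𝓛 (φ v) (E v).Q).V from
        (famMor φ E hE EJ ev hev lam).Fbar q) v) := by
  obtain ⟨x, rfl⟩ := EJ.π_surjective q
  rw [H5.EnvMor.Fbar_π, H5.EnvMor.Fbar_π]
  show _ = (evEnvMor 𝓛 (φ v) (E v) (hE v)).Fbar
    ((coindEnvelope 𝓛 (φ v) (E v) (hE v)).π.hom
      ((show ∀ v, (coindLC 𝓛 (φ v) (E v).I).V from (famMor φ E hE EJ ev hev lam).F x) v))
  rw [H5.EnvMor.Fbar_π]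
  show (E v).π.hom ((lam v).F x) = (E v).π.hom ((lam v).F (EJ.I.ρ 1 x))
  rw [map_one, Module.End.one_apply]

variable (X : Rep.{0} (ZMod p) G)

/-- Factorisation of `T¹(lam v)`. -/
lemma T1map_lam_eq (v : ι) (t : EJ.wDatum.T1 X) :
    (lam v).toWMor.T1map X t =
      (evEnvMor 𝓛 (φ v) (E v) (hE v)).toWMor.T1map X
        (H35.T1piMap (fun v => coindEnvelope 𝓛 (φ v) (E v) (hE v)) X v
          ((famMor φ E hE EJ ev hev lam).toWMor.T1map X t)) := by
  induction t using Submodule.Quotient.induction_on with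
  | H u =>
    show Submodule.Quotient.mk _ = Submodule.Quotient.mk _
    congr 1
    apply Subtype.ext
    refine LinearMap.ext fun x => Subtype.ext ?_
    exact lam_Fbar_eq φ E hE EJ ev hev lam v _

/-- Factorisation of `T²(lam v)`. -/
lemma T2map_lam_eq (hφ : ∀ v, H50.IsCont (𝓛D v) 𝓛 (φ v)) (v : ι) (t : EJ.wDatum.T2 X) :
    (lam v).toWMor.T2map (hφ v) X t =
      (evEnvMor 𝓛 (φ v) (E v) (hE v)).toWMor.T2map (hφ v) X
        (H50.coeffH1 𝓛 (homRepMap X
            (H35.piW (fun v => coindEnvelope 𝓛 (φ v) (E v) (hE v)) v))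
          ((famMor φ E hE EJ ev hev lam).toWMor.T2map (H50.isCont_id 𝓛) X t)) := by
  induction t using Submodule.Quotient.induction_on with
  | H c =>
    show Submodule.Quotient.mk _ = Submodule.Quotient.mk _
    congr 1
    apply Subtype.ext; funext d
    refine LinearMap.ext fun x => Subtype.ext ?_
    exact lam_Fbar_eq φ E hE EJ ev hev lam v _

omit [Fact p.Prime] in
/-- The retraction `Π_v coindEnvelope (E v) → EJ` provided by injectivity of `EJ.I`. -/
theorem exists_retraction (hJ : Function.Bijective (compMap φ EJ ev hev).hom)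
    (hinj : IsDiscInjective 𝓛 EJ.I) :
    ∃ (g : (H35.piRep (fun v => coindLC 𝓛 (φ v) (A v))).V →ₗ[k] J.V)
      (_ : H5.EnvMor (MonoidHom.id G) (famEnvelope φ E hE) EJ g),
      (∀ j, g ((compMap φ EJ ev hev).hom j) = j) ∧
        (∀ c, (compMap φ EJ ev hev).hom (g c) = c) := by
  let e : J.V ≃ₗ[k] (H35.piRep (fun v => coindLC 𝓛 (φ v) (A v))).V :=
    LinearEquiv.ofBijective (compMap φ EJ ev hev).hom.toLinearMap hJ
  have he : ∀ j, e j = (compMap φ EJ ev hev).hom j := fun j => rfl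
  obtain ⟨R', hR'⟩ := hinj J (famEnvelope φ E hE).I
    (compMap φ EJ ev hev ≫ (famEnvelope φ E hE).ι)
    (by
      intro a b hab
      rw [Rep.comp_apply, Rep.comp_apply] at hab
      exact hJ.1 ((famEnvelope φ E hE).ι_injective hab))
    (famEnvelope φ E hE).discrete EJ.ι
  refine ⟨(e.symm : _ →ₗ[k] J.V),
    ⟨R'.hom.toLinearMap, fun g x => Rep.hom_comm_apply R' g x, fun c => ?_⟩,
    fun j => e.symm_apply_apply j, fun c => e.apply_symm_apply c⟩
  have h1 := hR' (e.symm c)
  rw [Rep.comp_apply, ← he, e.apply_symm_apply] at h1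
  exact h1

variable [Finite X.V] (hdisc : 𝓛.IsDiscrete X)
  (hJ : Function.Bijective (compMap φ EJ ev hev).hom) (hinj : IsDiscInjective 𝓛 EJ.I)

include hE hev hdisc hJ hinj

/-- **D4, degree 1.**  `Θ¹ : T¹_EJ(X) → Π_v T¹_{E v}(res X)` is bijective. -/
theorem theta1_bijective :
    Function.Bijective (fun (t : EJ.wDatum.T1 X) (v : ι) => (lam v).toWMor.T1map X t) := by
  obtain ⟨g, R, hgf, hfg⟩ := exists_retraction φ E hE EJ ev hev hJ hinj
  have h1 := H5.EnvMor.T1map_bijective (famMor φ E hE EJ ev hev lam) R hgf hfg X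
  have h2 := H35.T1_pi_bijective (fun v => coindEnvelope 𝓛 (φ v) (E v) (hE v)) X
  have h3 : ∀ v, Function.Bijective ((evEnvMor 𝓛 (φ v) (E v) (hE v)).toWMor.T1map X) :=
    fun v => evEnvMor_T1map_bijective 𝓛 (φ v) (E v) (hE v) X hdisc
  have heq : (fun (t : EJ.wDatum.T1 X) (v : ι) => (lam v).toWMor.T1map X t) =
      (fun y v => (evEnvMor 𝓛 (φ v) (E v) (hE v)).toWMor.T1map X (y v)) ∘
        (fun t v => H35.T1piMap (fun v => coindEnvelope 𝓛 (φ v) (E v) (hE v)) X v t) ∘
          ((famMor φ E hE EJ ev hev lam).toWMor.T1map X) := by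
    funext t v
    exact T1map_lam_eq φ E hE EJ ev hev lam X v t
  rw [heq]
  refine Function.Bijective.comp ⟨?_, ?_⟩ (h2.comp h1)
  · intro y y' hyy'
    funext v
    exact (h3 v).1 (congrFun hyy' v)
  · intro z
    choose y hy using fun v => (h3 v).2 (z v)
    exact ⟨y, funext hy⟩

/-- **D4, degree 2.**  `Θ² : T²_EJ(X) → Π_v T²_{E v}(res X)` is injective, provided
`H¹(G; Hom(X, EJ.I[p])) = 0`. -/
theorem theta2_injective (hφ : ∀ v, H50.IsCont (𝓛D v) 𝓛 (φ v))
    (hAC : Subsingleton (𝓛.H1 (homRep X EJ.wDatum.Vm))) :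
    Function.Injective
      (fun (t : EJ.wDatum.T2 X) (v : ι) => (lam v).toWMor.T2map (hφ v) X t) := by
  obtain ⟨g, R, hgf, hfg⟩ := exists_retraction φ E hE EJ ev hev hJ hinj
  -- `T²(famMor)` is injective (retraction + (AC1) for `EJ`)
  have h1 : Function.Injective
      ((famMor φ E hE EJ ev hev lam).toWMor.T2map (H50.isCont_id 𝓛) X) := by
    have hret : ∀ t, R.toWMor.T2map (H50.isCont_id 𝓛) X
        ((famMor φ E hE EJ ev hev lam).toWMor.T2map (H50.isCont_id 𝓛) X t) = t := fun t => by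
      rw [← H5.EnvMor.T2map_comp_apply]
      have := H5.EnvMor.T2map_eq (H50.isCont_id 𝓛)
        (((famMor φ E hE EJ ev hev lam).comp R).ofEq hgf) (H5.EnvMor.id EJ) X hAC
      have h2 : ((famMor φ E hE EJ ev hev lam).comp R).toWMor.T2map (H50.isCont_id 𝓛) X t =
        (((famMor φ E hE EJ ev hev lam).comp R).ofEq hgf).toWMor.T2map
          (H50.isCont_id 𝓛) X t := rfl
      rw [h2, this]
      exact H5.EnvMor.T2map_id_apply EJ X t
    exact Function.LeftInverse.injective hret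
  have h2 := H35.T2_pi_bijective (fun v => coindEnvelope 𝓛 (φ v) (E v) (hE v)) X
  have h3 : ∀ v, Function.Injective
      ((evEnvMor 𝓛 (φ v) (E v) (hE v)).toWMor.T2map (hφ v) X) :=
    fun v => evEnvMor_T2map_injective 𝓛 (φ v) (E v) (hE v) X hdisc (hφ v)
  have heq : (fun (t : EJ.wDatum.T2 X) (v : ι) => (lam v).toWMor.T2map (hφ v) X t) =
      (fun y v => (evEnvMor 𝓛 (φ v) (E v) (hE v)).toWMor.T2map (hφ v) X (y v)) ∘
        (fun x v => H50.coeffH1 𝓛 (homRepMap X
          (H35.piW (fun v => coindEnvelope 𝓛 (φ v) (E v) (hE v)) v)) x) ∘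
          ((famMor φ E hE EJ ev hev lam).toWMor.T2map (H50.isCont_id 𝓛) X) := by
    funext t v
    exact T2map_lam_eq φ E hE EJ ev hev lam X hφ v t
  rw [heq]
  refine Function.Injective.comp ?_ (h2.1.comp h1)
  intro y y' hyy'
  funext v
  exact (h3 v) (congrFun hyy' v)

end Final

end Fermat.Agent.CFT.H22
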