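/-
CFT project, layer D, package D4-SL (helper22), slice 7.
Injectivity (relative to injections into discrete modules) of the canonical envelope
`H36.envelope 𝓛 N` and of binary products: discharges the hypothesis `IsDiscInjective 𝓛 EJ.I`
of `H22.theta1_bijective` / `H22.theta2_injective` for `H35.PTModules.canonical'`.
-/
import Fermat.Agent.CFT.H22_SLFinal
import Fermat.Agent.CFT.H35_PTModules
set_option autoImplicit false
open CategoryTheory
namespace Fermat.Agent.CFT.H22
open Fermat.Agent.CFT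

section Injective

variable {H : Type} [Group H] (𝓛 : LevelStructure H)

/-- The canonical envelope `I(N)` is injective relative to injections into discrete modules. -/
theorem isDiscInjective_envelope (N : Rep.{0} ℤ H) :
    IsDiscInjective 𝓛 (H36.envelope 𝓛 N) := by
  intro M M' i hi hM' f
  -- evaluation at `1`
  let f₀ : M.V → H36.Vdiv N.V := fun m =>
    (show H36.levelFun (k := ℤ) 𝓛 (H36.Vdiv N.V) from f.hom m).1 1
  have hf₀add : ∀ a b, f₀ (a + b) = f₀ a + f₀ b := fun a b => by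
    show (show H36.levelFun (k := ℤ) 𝓛 (H36.Vdiv N.V) from f.hom (a + b)).1 1 = _
    rw [map_add]; rfl
  have hf₀zero : f₀ 0 = 0 := by
    show (show H36.levelFun (k := ℤ) 𝓛 (H36.Vdiv N.V) from f.hom 0).1 1 = _
    rw [map_zero]; rfl
  -- the family of characters of `M`
  let χM : CharacterModule N.V → CharacterModule M.V := fun c =>
    (show CharacterModule M.V from
      { toFun := fun m => f₀ m c
        map_zero' := by rw [hf₀zero]; rfl
        map_add' := fun a b => by rw [hf₀add]; rfl })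
  have hext : ∀ c : CharacterModule N.V, ∃ χ' : CharacterModule M'.V,
      ∀ m, χ' (H36.homAdd i m) = χM c m :=
    fun c => H36.exists_char_extension (H36.homAdd i) hi (χM c)
  choose ext hextc using hext
  let f₀' : M'.V →+ H36.Vdiv N.V :=
    { toFun := fun m' => fun c => ext c m'
      map_zero' := by funext c; exact map_zero (ext c)
      map_add' := fun a b => by funext c; exact map_add (ext c) a b }
  refine ⟨H36.orbitMap 𝓛 M' hM' (H36.intLinearOfAddHom f₀'), fun m => ?_⟩
  apply Subtype.ext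
  funext x
  show f₀' (M'.ρ x (i.hom m)) =
    (show H36.levelFun (k := ℤ) 𝓛 (H36.Vdiv N.V) from f.hom m).1 x
  rw [← Rep.hom_comm_apply i x m]
  have h1 : f₀' (i.hom (M.ρ x m)) = f₀ (M.ρ x m) := by
    funext c
    exact hextc c (M.ρ x m)
  rw [h1]
  show (show H36.levelFun (k := ℤ) 𝓛 (H36.Vdiv N.V) from f.hom (M.ρ x m)).1 1 = _
  rw [Rep.hom_comm_apply f x m]
  show (show H36.levelFun (k := ℤ) 𝓛 (H36.Vdiv N.V) from f.hom m).1 (1 * x) = _
  rw [one_mul]

variable {k : Type} [CommRing k]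

/-- A binary product of relatively injective modules is relatively injective. -/
theorem isDiscInjective_prodRep {I₁ I₂ : Rep.{0} k H} (h₁ : IsDiscInjective 𝓛 I₁)
    (h₂ : IsDiscInjective 𝓛 I₂) : IsDiscInjective 𝓛 (H35.prodRep I₁ I₂) := by
  intro M M' i hi hM' f
  obtain ⟨f₁, hf₁⟩ := h₁ M M' i hi hM' (f ≫ H35.prodFst I₁ I₂)
  obtain ⟨f₂, hf₂⟩ := h₂ M M' i hi hM' (f ≫ H35.prodSnd I₁ I₂)
  refine ⟨H35.prodLift f₁ f₂, fun m => ?_⟩
  have e1 : f₁.hom (i.hom m) = ((show I₁.V × I₂.V from f.hom m)).1 := hf₁ m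
  have e2 : f₂.hom (i.hom m) = ((show I₁.V × I₂.V from f.hom m)).2 := hf₂ m
  show ((f₁.hom (i.hom m), f₂.hom (i.hom m)) : I₁.V × I₂.V) = f.hom m
  rw [e1, e2]
  rfl

/-- The `I` of the canonical envelope is relatively injective. -/
theorem isDiscInjective_canonicalEnvelope (m : ℕ) (hm : m ≠ 0) (N : Rep.{0} ℤ H)
    (hN : 𝓛.IsDiscrete N) : IsDiscInjective 𝓛 (H36.canonicalEnvelope 𝓛 m hm N hN).I :=
  isDiscInjective_envelope 𝓛 N

/-- `EJ.I = I(E) × I(C)` of helper35's canonical module package is relatively injective. -/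
theorem isDiscInjective_canonical' (p : ℕ) (hp : p ≠ 0) {E J C : Rep.{0} ℤ H}
    (ε : E ⟶ J) (pr : J ⟶ C) (hε : Function.Injective ε.hom)
    (hex : ∀ x : J.V, pr.hom x = 0 ↔ ∃ e : E.V, ε.hom e = x)
    (hdiv : ∀ c : C.V, ∃ (c' : C.V) (x : J.V), c = p • c' + pr.hom x)
    (htf : ∀ c : C.V, (∃ x : J.V, p • c = pr.hom x) → ∃ x' : J.V, c = pr.hom x')
    (hE : 𝓛.IsDiscrete E) (hJ : 𝓛.IsDiscrete J) (hC : 𝓛.IsDiscrete C) :
    IsDiscInjective 𝓛
      (H35.PTModules.canonical' 𝓛 p hp ε pr hε hex hdiv htf hE hJ hC).EJ.I :=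
  isDiscInjective_prodRep 𝓛 (isDiscInjective_envelope 𝓛 E) (isDiscInjective_envelope 𝓛 C)

end Injective

end Fermat.Agent.CFT.H22
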