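/-
CFT layer C (helper23): the Galois action on the hybrid modules depends only on the underlying
ring automorphism of `F`: if `σ ∈ Gal(F/K)` and `σ' ∈ Gal(F/K')` are the same map then they act
in the same way on `Loc F q`, `JS`, primes, `DivS`, `IdS`, `CS`.  (Used to compare the actions of
`Gal(F/K)` restricted to a subgroup `H` with the action of `Gal(F/F^H)`.)
-/
import Mathlib
import Fermat.Agent.CFT.H23_CDefs

set_option autoImplicit false
set_option linter.unusedSectionVars false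

namespace Fermat.Agent.CFT.H23

open scoped TensorProduct NumberField
open IsDedekindDomain Fermat.Agent.CFT.H42 Fermat.Agent.CFT.H10

noncomputable section

variable (S : Finset Nat.Primes) (F : Type*) [Field F] [NumberField F]
  {K K' : Type*} [Field K] [CharZero K] [Algebra K F] [Field K'] [CharZero K'] [Algebra K' F]

theorem smul_loc_congr (σ : F ≃ₐ[K] F) (σ' : F ≃ₐ[K'] F) (h : ∀ x, σ x = σ' x) (q : Nat.Primes)
    (y : Loc F q) : σ • y = σ' • y := by
  induction y using TensorProduct.induction_on with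
  | zero => simp
  | tmul x a => rw [smul_tmul_left, smul_tmul_left, h]
  | add x y hx hy => rw [smul_add, smul_add, hx, hy]

theorem smul_JS_congr (σ : F ≃ₐ[K] F) (σ' : F ≃ₐ[K'] F) (h : ∀ x, σ x = σ' x) (x : JS S F) :
    σ • x = σ' • x := by
  funext q
  apply Units.ext
  exact smul_loc_congr F σ σ' h q.1 (x q : Loc F q.1)

theorem smul_prime_congr (σ : F ≃ₐ[K] F) (σ' : F ≃ₐ[K'] F) (h : ∀ x, σ x = σ' x)
    (w : HeightOneSpectrum (𝓞 F)) : σ • w = σ' • w := by
  apply HeightOneSpectrum.ext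
  ext x
  rw [mem_smul_prime_iff, mem_smul_prime_iff]
  have hinv : σ⁻¹ • x = σ'⁻¹ • x := by
    apply Subtype.ext
    show σ⁻¹ (x : F) = σ'⁻¹ (x : F)
    apply σ.injective
    rw [h (σ'⁻¹ (x : F))]
    show σ (σ.symm (x : F)) = σ' (σ'.symm (x : F))
    rw [AlgEquiv.apply_symm_apply, AlgEquiv.apply_symm_apply]
  rw [hinv]

theorem smul_primesOutside_congr (σ : F ≃ₐ[K] F) (σ' : F ≃ₐ[K'] F) (h : ∀ x, σ x = σ' x)
    (w : PrimesOutside S F) : σ • w = σ' • w :=
  Subtype.ext (smul_prime_congr F σ σ' h w.1)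

theorem inv_apply_congr (σ : F ≃ₐ[K] F) (σ' : F ≃ₐ[K'] F) (h : ∀ x, σ x = σ' x) (x : F) :
    σ⁻¹ x = σ'⁻¹ x := by
  apply σ.injective
  rw [h (σ'⁻¹ x)]
  show σ (σ.symm x) = σ' (σ'.symm x)
  rw [AlgEquiv.apply_symm_apply, AlgEquiv.apply_symm_apply]

theorem smul_DivS_congr (σ : F ≃ₐ[K] F) (σ' : F ≃ₐ[K'] F) (h : ∀ x, σ x = σ' x)
    (D : DivS S F) : σ • D = σ' • D := by
  ext w
  rw [smul_divS_apply, smul_divS_apply,
    smul_primesOutside_congr S F σ⁻¹ σ'⁻¹ (inv_apply_congr F σ σ' h) w]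

theorem smul_IdS_congr (σ : F ≃ₐ[K] F) (σ' : F ≃ₐ[K'] F) (h : ∀ x, σ x = σ' x)
    (x : IdS S F) : σ • x = σ' • x := by
  refine Prod.ext (smul_JS_congr S F σ σ' h x.1) ?_
  show Multiplicative.ofAdd (σ • Multiplicative.toAdd x.2) =
    Multiplicative.ofAdd (σ' • Multiplicative.toAdd x.2)
  rw [smul_DivS_congr S F σ σ' h]

/-- **The action on `CS S F` depends only on the underlying map.** -/
theorem smul_CS_congr (σ : F ≃ₐ[K] F) (σ' : F ≃ₐ[K'] F) (h : ∀ x, σ x = σ' x)
    (c : CS S F) : σ • c = σ' • c := by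
  induction c using QuotientGroup.induction_on with
  | H x =>
    show toCS S F (σ • x) = toCS S F (σ' • x)
    rw [smul_IdS_congr S F σ σ' h]

end

end Fermat.Agent.CFT.H23
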