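/-
CFT project, layer C (helper23): HEDGE of obligation (O4') of helper24's `H24_CMain`:
the finite-level (Ord) statement at the layers `ℚ_n` of the cyclotomic `ℤ_p`-tower, in the
`GaloisLevel` vocabulary, hence `H24.FiniteOrd p S (H24.towerEltTop p hpS)`.

Inputs: helper81 `H81.pow_dvd_of_baseChange_pow_eq_norm` (explicit symbol kills norms, has order
`p ^ n` on the tower element), helper93 `zpQbar` / `zpSubgroup`, helper45 `H45.divDescent`.
-/
import Mathlib
import Fermat.Agent.CFT.H24_CMain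

set_option autoImplicit false

noncomputable section

namespace Fermat.Agent.CFT.H23

open Fermat.Agent.CFT IntermediateField ExtCitation

local notation "Qbar" => AlgebraicClosure ℚ
local notation "GQ" => (AlgebraicClosure ℚ ≃ₐ[ℚ] AlgebraicClosure ℚ)

variable (p : ℕ) [Fact p.Prime] {S : Finset Nat.Primes}

theorem isUnramifiedOutside_valRat_zpQbar (n : ℕ) (hpS : pPrime p ∈ S) :
    (H24.valRat (H93.zpQbar p n)).fieldRange.IsUnramifiedOutside S := by
  rw [H24.fieldRange_valRat]
  exact H93.isUnramifiedOutside_zpQbar p n hpS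

/-- The `n`-th layer `ℚ_n ⊆ ℚbar` of the cyclotomic `ℤ_p`-tower as a Galois level. -/
def zpGaloisLevel (n : ℕ) (hpS : pPrime p ∈ S) : H24.GaloisLevel S where
  F := ↥(H93.zpQbar p n)
  isGalois := H93.isGalois_zpQbar p n
  ι := H24.valRat (H93.zpQbar p n)
  unram := isUnramifiedOutside_valRat_zpQbar p n hpS
  D := H45.divDescent (isUnramifiedOutside_valRat_zpQbar p n hpS)

theorem zpGaloisLevel_subgroup (n : ℕ) (hpS : pPrime p ∈ S) :
    (zpGaloisLevel p n hpS).subgroup = H93.zpSubgroup p n := by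
  show (H24.valRat (H93.zpQbar p n)).fieldRange.fixingSubgroup = _
  rw [H24.fieldRange_valRat]
  rfl

/-- **(O4') finite-level (Ord) in the `GaloisLevel` vocabulary.** -/
theorem finiteOrd_levels (hp2 : p ≠ 2) (hpS : pPrime p ∈ S) :
    ∀ n : ℕ, ∃ L : H24.GaloisLevel S, L.subgroup = H93.zpSubgroup p n ∧
      ∀ (m : ℕ) (y : H23.CS S L.F),
        (H23.CS.baseChange S ℚ L.F (H81.towerElt p hpS)) ^ m = ∏ᶠ σ : L.F ≃ₐ[ℚ] L.F, σ • y →
          p ^ n ∣ m := by
  intro n
  refine ⟨zpGaloisLevel p n hpS, zpGaloisLevel_subgroup p n hpS, ?_⟩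
  intro m y h
  refine H81.pow_dvd_of_baseChange_pow_eq_norm p n hp2 hpS m y ?_
  rw [map_pow]
  rw [finprod_eq_prod_of_fintype] at h
  exact h

/-- **(O4)**: `FiniteOrd` for the tower element. -/
theorem finiteOrd_towerEltTop (hp2 : p ≠ 2) (hpS : pPrime p ∈ S) :
    H24.FiniteOrd p S (H24.towerEltTop p hpS) :=
  H24.finiteOrd_towerEltTop p hpS (finiteOrd_levels p hp2 hpS)

end Fermat.Agent.CFT.H23
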