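/-
CFT layer C, package C-MAPS (helper23), part 4: TOWER EQUIVARIANCE of base change.
For `K ⊆ M ⊆ F` with `M/K` normal and `σ ∈ Gal(F/K)`, `τ := σ|_M`:
`σ • baseChange_{M → F} x = baseChange_{M → F} (τ • x)` on `JS`, `DivS`, `IdS`, `CS`.
No ramification hypothesis.
-/
import Mathlib
import Fermat.Agent.CFT.H23_CDescent

set_option autoImplicit false
set_option linter.unusedSectionVars false

namespace Fermat.Agent.CFT.H23

open scoped TensorProduct NumberField
open IsDedekindDomain Fermat.Agent.CFT.H42 Fermat.Agent.CFT.H10 Fermat.Agent.CFT.H63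

noncomputable section

variable (S : Finset Nat.Primes) (K M F : Type*) [Field K] [CharZero K]
  [Field M] [NumberField M] [Field F] [NumberField F]
  [Algebra K M] [Algebra K F] [Algebra M F] [IsScalarTower K M F] [Normal K M]

theorem algebraMap_restrictNormalHom (σ : F ≃ₐ[K] F) (x : M) :
    algebraMap M F (AlgEquiv.restrictNormalHom M σ x) = σ (algebraMap M F x) :=
  AlgEquiv.restrictNormal_commutes σ M x

theorem algebraMap_restrictNormalHom_smul (σ : F ≃ₐ[K] F) (x : 𝓞 M) :
    algebraMap (𝓞 M) (𝓞 F) (AlgEquiv.restrictNormalHom M σ • x) =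
      σ • algebraMap (𝓞 M) (𝓞 F) x := by
  apply Subtype.ext
  exact algebraMap_restrictNormalHom K M F σ (x : M)

/-- `(σ w) ∩ M = σ|_M (w ∩ M)`. -/
theorem under_smul_tower (σ : F ≃ₐ[K] F) (w : HeightOneSpectrum (𝓞 F)) :
    (σ • w).under (𝓞 M) = AlgEquiv.restrictNormalHom M σ • w.under (𝓞 M) := by
  apply HeightOneSpectrum.ext
  ext x
  rw [HeightOneSpectrum.under_asIdeal, Ideal.under_def, Ideal.mem_comap, mem_smul_prime_iff,
    mem_smul_prime_iff, HeightOneSpectrum.under_asIdeal, Ideal.under_def, Ideal.mem_comap,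
    ← map_inv, algebraMap_restrictNormalHom_smul]

theorem PrimesOutside.under_smul_tower (σ : F ≃ₐ[K] F) (w : PrimesOutside S F) :
    PrimesOutside.under S M F (σ • w) =
      AlgEquiv.restrictNormalHom M σ • PrimesOutside.under S M F w :=
  Subtype.ext (H23.under_smul_tower K M F σ w.1)

/-- The ramification index over `M` is invariant under `Gal(F/K)`. -/
theorem ramIdx_smul_tower (σ : F ≃ₐ[K] F) (w : HeightOneSpectrum (𝓞 F)) :
    ramIdx M F (σ • w) = ramIdx M F w := by
  obtain ⟨π, hπ⟩ := (w.under (𝓞 M)).valuation_exists_uniformizer M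
  set τ := AlgEquiv.restrictNormalHom M σ with hτ
  have h1 : (σ • w).valuation F (algebraMap M F (τ π)) =
      ((σ • w).under (𝓞 M)).valuation M (τ π) ^ ramIdx M F (σ • w) :=
    valuation_algebraMap_eq (σ • w) (τ π)
  have h2 : w.valuation F (algebraMap M F π) =
      (w.under (𝓞 M)).valuation M π ^ ramIdx M F w := valuation_algebraMap_eq w π
  have h3 : (σ • w).valuation F (algebraMap M F (τ π)) = w.valuation F (algebraMap M F π) := by
    rw [hτ, algebraMap_restrictNormalHom]
    exact valuation_smul_smul F K σ w (algebraMap M F π)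
  have h4 : ((σ • w).under (𝓞 M)).valuation M (τ π) = (w.under (𝓞 M)).valuation M π := by
    rw [under_smul_tower]
    exact valuation_smul_smul M K τ (w.under (𝓞 M)) π
  rw [h4, hπ] at h1
  rw [hπ] at h2
  rw [h1, h2] at h3
  have hlt : (WithZero.exp (-1 : ℤ) : WithZero (Multiplicative ℤ)) < 1 := by
    rw [← WithZero.exp_zero, WithZero.exp_lt_exp]; norm_num
  exact (pow_right_injective₀ (WithZero.exp_pos) hlt.ne) h3

theorem smul_locMap_tower (q : Nat.Primes) (σ : F ≃ₐ[K] F) (y : Loc M q) :
    σ • locMap M F q y = locMap M F q (AlgEquiv.restrictNormalHom M σ • y) := by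
  induction y using TensorProduct.induction_on with
  | zero => simp
  | tmul x a =>
    rw [locMap_tmul, smul_tmul_left, smul_tmul_left, locMap_tmul, algebraMap_restrictNormalHom]
  | add x y hx hy => rw [map_add, smul_add, hx, hy, smul_add, map_add]

theorem smul_JS_baseChange_tower (σ : F ≃ₐ[K] F) (x : JS S M) :
    σ • JS.baseChange S M F x = JS.baseChange S M F (AlgEquiv.restrictNormalHom M σ • x) := by
  funext q
  apply Units.ext
  exact smul_locMap_tower K M F q.1 σ (x q : Loc M q.1)

theorem smul_DivS_baseChange_tower (σ : F ≃ₐ[K] F) (D : DivS S M) :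
    σ • DivS.baseChange S M F D = DivS.baseChange S M F (AlgEquiv.restrictNormalHom M σ • D) := by
  ext w
  rw [smul_divS_apply, DivS.baseChange_apply, DivS.baseChange_apply, smul_divS_apply,
    PrimesOutside.under_smul_tower, coe_smul_primesOutside, ramIdx_smul_tower, map_inv]

theorem smul_IdS_baseChange_tower (σ : F ≃ₐ[K] F) (x : IdS S M) :
    σ • IdS.baseChange S M F x = IdS.baseChange S M F (AlgEquiv.restrictNormalHom M σ • x) := by
  refine Prod.ext (smul_JS_baseChange_tower S K M F σ x.1) ?_
  show Multiplicative.ofAdd (σ • DivS.baseChange S M F (Multiplicative.toAdd x.2)) = _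
  rw [smul_DivS_baseChange_tower]
  rfl

/-- **Tower equivariance**: `σ • baseChange c = baseChange (σ|_M • c)` on `CS`. -/
theorem smul_CS_baseChange_tower (σ : F ≃ₐ[K] F) (c : CS S M) :
    σ • CS.baseChange S M F c = CS.baseChange S M F (AlgEquiv.restrictNormalHom M σ • c) := by
  induction c using QuotientGroup.induction_on with
  | H x => exact congrArg (toCS S F) (smul_IdS_baseChange_tower S K M F σ x)

end

end Fermat.Agent.CFT.H23
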