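/-
CFT layer C (helper23): ramification indices in towers `K ⊆ M ⊆ F` of number fields and the
hereditary behaviour of `UnramOutside` (H23 vocabulary only).
-/
import Mathlib
import Fermat.Agent.CFT.H23_CDescent

set_option autoImplicit false
set_option linter.unusedSectionVars false

namespace Fermat.Agent.CFT.H23

open scoped TensorProduct NumberField
open IsDedekindDomain Fermat.Agent.CFT.H42 Fermat.Agent.CFT.H10 Fermat.Agent.CFT.H63

noncomputable section

variable (S : Finset Nat.Primes) (K M F : Type*) [Field K] [NumberField K]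
  [Field M] [NumberField M] [Field F] [NumberField F]
  [Algebra K M] [Algebra K F] [Algebra M F] [IsScalarTower K M F]

theorem under_under_tower (w : HeightOneSpectrum (𝓞 F)) :
    (w.under (𝓞 M)).under (𝓞 K) = w.under (𝓞 K) := by
  apply HeightOneSpectrum.ext
  rw [HeightOneSpectrum.under_asIdeal, HeightOneSpectrum.under_asIdeal,
    HeightOneSpectrum.under_asIdeal]
  exact Ideal.under_under (A := 𝓞 K) (B := 𝓞 M) w.asIdeal

theorem PrimesOutside.under_under_tower (w : PrimesOutside S F) :
    PrimesOutside.under S K M (PrimesOutside.under S M F w) = PrimesOutside.under S K F w :=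
  Subtype.ext (H23.under_under_tower K M F w.1)

/-- **Multiplicativity of the ramification index in towers.** -/
theorem ramIdx_tower (w : HeightOneSpectrum (𝓞 F)) :
    ramIdx K F w = ramIdx K M (w.under (𝓞 M)) * ramIdx M F w := by
  obtain ⟨π, hπ⟩ := (w.under (𝓞 K)).valuation_exists_uniformizer K
  have h1 : w.valuation F (algebraMap K F π) =
      (w.under (𝓞 K)).valuation K π ^ ramIdx K F w := valuation_algebraMap_eq w π
  have h2 : w.valuation F (algebraMap M F (algebraMap K M π)) =
      (w.under (𝓞 M)).valuation M (algebraMap K M π) ^ ramIdx M F w :=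
    valuation_algebraMap_eq w (algebraMap K M π)
  have h3 : (w.under (𝓞 M)).valuation M (algebraMap K M π) =
      ((w.under (𝓞 M)).under (𝓞 K)).valuation K π ^ ramIdx K M (w.under (𝓞 M)) :=
    valuation_algebraMap_eq (w.under (𝓞 M)) π
  rw [under_under_tower] at h3
  rw [h3, ← IsScalarTower.algebraMap_apply, h1, hπ, ← pow_mul] at h2
  have hlt : (WithZero.exp (-1 : ℤ) : WithZero (Multiplicative ℤ)) < 1 := by
    rw [← WithZero.exp_zero, WithZero.exp_lt_exp]; norm_num
  exact (pow_right_injective₀ (WithZero.exp_pos) hlt.ne) h2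

/-- `F/K` unramified outside `S` ⟹ `F/M` unramified outside `S`. -/
theorem UnramOutside.tower_top (h : UnramOutside S K F) : UnramOutside S M F := by
  intro w
  have h1 := h w
  rw [ramIdx_tower K M F w.1] at h1
  exact Nat.eq_one_of_mul_eq_one_left h1

/-- `F/K` unramified outside `S` ⟹ `M/K` unramified outside `S`. -/
theorem UnramOutside.tower_bot (h : UnramOutside S K F) : UnramOutside S K M := by
  intro v
  obtain ⟨w, hw⟩ := PrimesOutside.exists_under_eq S M F v
  have h1 := h w
  rw [ramIdx_tower K M F w.1] at h1
  have h2 := Nat.eq_one_of_mul_eq_one_right h1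
  have hv : w.1.under (𝓞 M) = v.1 := congrArg Subtype.val hw
  rwa [hv] at h2

/-- `M/K` and `F/M` unramified outside `S` ⟹ `F/K` unramified outside `S`. -/
theorem UnramOutside.trans (h1 : UnramOutside S K M) (h2 : UnramOutside S M F) :
    UnramOutside S K F := by
  intro w
  rw [ramIdx_tower K M F w.1, h2 w]
  have := h1 (PrimesOutside.under S M F w)
  rw [PrimesOutside.under_val] at this
  rw [this]

theorem unramOutside_tower_iff :
    UnramOutside S K F ↔ UnramOutside S K M ∧ UnramOutside S M F :=
  ⟨fun h => ⟨h.tower_bot S K M F, h.tower_top S K M F⟩, fun h => h.1.trans S K M F h.2⟩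

end

end Fermat.Agent.CFT.H23
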