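/-
CFT project, layer C, INTEGRATION (helper24): THE invariant element `a` of the `ℤ_p`-tower system
at the top level, `towerEltTop p hpS : H77.CSTop S` := the image of helper81's
`H81.towerElt p hpS : CS S ℚ` (class of the idele `(1 + p at p, 1 elsewhere)`), its invariance,
and its avatars at every Galois level (base change of `towerElt`), so that the finite-level
obligations (O4) `FiniteOrd` / (O5) `FiniteKey` become statements about
`CS.baseChange S ℚ L.F (towerElt p hpS)` only.
-/
import Mathlib
import Fermat.Agent.CFT.H24_CGlobalX1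
import Fermat.Agent.CFT.H81_ThetaQbar
import Fermat.Agent.CFT.H77_TopTower
import Fermat.Agent.CFT.H45_TopDivDescent

set_option autoImplicit false

open CategoryTheory

noncomputable section

namespace Fermat.Agent.CFT.H24

open Fermat.Agent.CFT IntermediateField ExtCitation

local notation "Qbar" => AlgebraicClosure ℚ
local notation "GQ" => (AlgebraicClosure ℚ ≃ₐ[ℚ] AlgebraicClosure ℚ)

/-- The embedding of `ℚ` in `ℚbar`. -/
def ratEmb : @AlgHom ℚ ℚ Qbar _ _ _ DivisionRing.toRatAlgebra DivisionRing.toRatAlgebra :=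
  @RingHom.toRatAlgHom ℚ Qbar _ _ DivisionRing.toRatAlgebra DivisionRing.toRatAlgebra
    (algebraMap ℚ Qbar)

theorem ratEmb_apply (x : ℚ) : ratEmb x = algebraMap ℚ Qbar x := rfl

theorem fieldRange_ratEmb : ratEmb.fieldRange = ⊥ := by
  ext x
  constructor
  · rintro ⟨y, rfl⟩
    exact IntermediateField.mem_bot.mpr ⟨y, rfl⟩
  · intro hx
    obtain ⟨y, rfl⟩ := IntermediateField.mem_bot.mp hx
    exact ⟨y, rfl⟩

theorem isUnramifiedOutside_ratEmb (S : Finset Nat.Primes) :
    ratEmb.fieldRange.IsUnramifiedOutside S := by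
  rw [fieldRange_ratEmb]
  exact IntermediateField.isUnramifiedOutside_bot S

variable (p : ℕ) [Fact p.Prime] {S : Finset Nat.Primes} (hpS : pPrime p ∈ S)

/-- **The invariant element of the `ℤ_p`-tower system at the top**: the image in `CSTop S` of the
class of the idele `(1 + p at p, 1 elsewhere)` of `ℚ`. -/
def towerEltTop : H77.CSTop S :=
  H77.csIncl (isUnramifiedOutside_ratEmb S) (H45.divDescent (isUnramifiedOutside_ratEmb S))
    (H81.towerElt p hpS)

theorem smul_towerEltTop (γ : GQ) : γ • towerEltTop p hpS = towerEltTop p hpS := by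
  apply H77.smul_csIncl_of_mem_fixer
  rw [IntermediateField.mem_fixingSubgroup_iff]
  rintro _ ⟨y, rfl⟩
  exact γ.commutes y

/-- The avatar of `towerEltTop` at any level `(F, ι)`: the base change of `towerElt`. -/
theorem csIncl_baseChange_towerElt {F : Type} [Field F] [NumberField F] {ι : F →ₐ[ℚ] Qbar}
    (hF : ι.fieldRange.IsUnramifiedOutside S) (D : H77.DivDescent S ι) :
    H77.csIncl hF D (H23.CS.baseChange S ℚ F (H81.towerElt p hpS)) = towerEltTop p hpS :=
  H77.csIncl_baseChange (isUnramifiedOutside_ratEmb S) hF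
    (fun x => ι.commutes x) _ D _

/-- The avatar of `towerEltTop` at a Galois level. -/
theorem GaloisLevel.incl_baseChange_towerElt (L : GaloisLevel S) :
    L.incl (H23.CS.baseChange S ℚ L.F (H81.towerElt p hpS)) = towerEltTop p hpS :=
  csIncl_baseChange_towerElt p hpS L.unram L.D

/-- **(O4), reduced**: (Ord) for `towerEltTop` from the finite-level statement about the base
changes of `towerElt`. -/
theorem finiteOrd_towerEltTop
    (h : ∀ n : ℕ, ∃ L : GaloisLevel S, L.subgroup = H93.zpSubgroup p n ∧
      ∀ (m : ℕ) (y : H23.CS S L.F),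
        (H23.CS.baseChange S ℚ L.F (H81.towerElt p hpS)) ^ m = ∏ᶠ σ : L.F ≃ₐ[ℚ] L.F, σ • y →
          p ^ n ∣ m) :
    FiniteOrd p S (towerEltTop p hpS) := by
  intro n
  obtain ⟨L, hL, hm⟩ := h n
  exact ⟨L, hL, _, L.incl_baseChange_towerElt p hpS, hm⟩

/-- **(O5), reduced**: (Key) for `towerEltTop` from the finite-level statement about the base
changes of `towerElt`. -/
theorem finiteKey_towerEltTop
    (h : ∀ (U : Subgroup GQ) [U.Normal], U ∈ (globalLevels S).levels →
      ∃ L : GaloisLevel S, L.subgroup = U ⊓ H93.zpSubgroup p (U.index.factorization p) ∧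
        ∃ y : H23.CS S L.F, H23.CS.baseChange S ℚ L.F (H81.towerElt p hpS) =
          ∏ᶠ g : U.map (restrictAlong L.ι), g.1 • y) :
    FiniteKey p S (towerEltTop p hpS) := by
  intro U _ hU
  obtain ⟨L, hL, y, hy⟩ := h U hU
  exact ⟨L, hL, _, L.incl_baseChange_towerElt p hpS, y, hy⟩

/-- **(X1) = layer C main theorem, from the three finite-level obligations** (O3), (O4), (O5). -/
theorem nonempty_pClassFormation_main (hp2 : p ≠ 2)
    (hlay : FiniteLevelLayers p S)
    (hord : FiniteOrd p S (towerEltTop p hpS))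
    (hkey : FiniteKey p S (towerEltTop p hpS)) :
    Nonempty (PClassFormation p (globalLevels S) (H77.repCSTop S)) :=
  nonempty_pClassFormation_of_finite hp2 hpS H45.hasDivisors
    (fun _ _ _ _ h => ⟨H45.divDescent h⟩) hlay (smul_towerEltTop p hpS) hord hkey

end Fermat.Agent.CFT.H24
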