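/-
CFT project, layer C, INTEGRATION (helper24): the RELATIVE descent datum of a Galois layer.

For abstract number fields `K ⊆ M` (`[Algebra K M] [IsGalois K M]`) with compatible embeddings
`ιK : K →ₐ[ℚ] ℚbar`, `ιM : M →ₐ[ℚ] ℚbar`, put `N₀ := U_K`, `V := U_M ≤ N₀` (fixing subgroups of the
images).  Restriction gives `N₀ ⧸ V ≃* Gal(M/K)`, and helper77's `csIncl` is a descent datum
`(N₀ ⧸ V, (CSTop S)^V) ≃ (Gal(M/K), CS S M)`.  Consequence: the NORM DICTIONARY
`a₀ ∈ CS S K` becomes a norm from `CS S M` after base change iff its image at the top is a norm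
from `(CSTop S)^V` (in the shape of the body of `HasEXIST`).
-/
import Mathlib
import Fermat.Agent.CFT.H24_GlobalDescent
import Fermat.Agent.CFT.H77_TopTower

set_option autoImplicit false
set_option linter.style.haveILetI false

open CategoryTheory

noncomputable section

namespace Fermat.Agent.CFT.H24

open Fermat.Agent.CFT IntermediateField

local notation "Qbar" => AlgebraicClosure ℚ
local notation "GQ" => (AlgebraicClosure ℚ ≃ₐ[ℚ] AlgebraicClosure ℚ)

local instance isAlgebraicQbar_h24r : Algebra.IsAlgebraic ℚ (AlgebraicClosure ℚ) :=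
  AlgebraicClosure.isAlgebraic ℚ
local instance isAlgClosureQbar_h24r : IsAlgClosure ℚ (AlgebraicClosure ℚ) :=
  ⟨inferInstance, inferInstance⟩
local instance normalQbar_h24r : Normal ℚ (AlgebraicClosure ℚ) :=
  IsAlgClosure.normal ℚ (AlgebraicClosure ℚ)
local instance isGaloisQbar_h24r : IsGalois ℚ (AlgebraicClosure ℚ) := ⟨⟩

section Abstract

variable {k : Type} [CommRing k] {Γ G : Type} [Group Γ] [Group G]
  {C : Rep.{0} k Γ} {U : Subgroup Γ} [U.Normal] {B : Rep.{0} k G}

/-- The norm `Σ_{q ∈ Γ/U} ρ(q.out)` (shape of `HasEXIST`) on the image of a descent datum. -/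
theorem DescentDatum.finsum_out_ι (D : DescentDatum C U B) [Finite (Γ ⧸ U)] (b : B.V) :
    ∑ᶠ q : Γ ⧸ U, C.ρ (Quotient.out q) (D.ι b) = D.ι (∑ᶠ h : G, B.ρ h b) := by
  haveI : Finite G := Finite.of_equiv _ D.e.toEquiv
  have hfin : (Function.support fun h : G => B.ρ h b).Finite := Set.toFinite _
  rw [← LinearMap.toAddMonoidHom_coe, AddMonoidHom.map_finsum _ hfin]
  refine finsum_eq_of_bijective D.e D.e.bijective (fun q => ?_)
  show C.ρ (Quotient.out q) (D.ι b) = D.ι (B.ρ (D.e q) b)
  rw [D.equiv, QuotientGroup.out_eq']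

theorem finsum_additive_ofMul {A ι : Type*} [CommMonoid A] [Fintype ι] (f : ι → A) :
    ∑ᶠ i, Additive.ofMul (f i) = Additive.ofMul (∏ i, f i) := by
  rw [finsum_eq_sum_of_fintype, ofMul_prod]

end Abstract

section RelRestrict

variable {K M : Type} [Field K] [NumberField K] [Field M] [NumberField M] [Algebra K M]
  (ιK : K →ₐ[ℚ] Qbar) (ιM : M →ₐ[ℚ] Qbar) (hι : ∀ x : K, ιM (algebraMap K M x) = ιK x)

include hι in
theorem fixingSubgroup_fieldRange_le :
    ιM.fieldRange.fixingSubgroup ≤ ιK.fieldRange.fixingSubgroup := by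
  intro σ hσ
  rw [IntermediateField.mem_fixingSubgroup_iff] at hσ ⊢
  rintro _ ⟨x, rfl⟩
  have := hσ (ιM (algebraMap K M x)) ⟨_, rfl⟩
  rw [hι] at this
  exact this

theorem mem_fixingSubgroup_fieldRange_iff {F : Type} [Field F] [NumberField F] (ι : F →ₐ[ℚ] Qbar) (σ : GQ) :
    σ ∈ ι.fieldRange.fixingSubgroup ↔ ∀ y : F, σ (ι y) = ι y := by
  rw [IntermediateField.mem_fixingSubgroup_iff]
  constructor
  · intro h y
    exact h (ι y) ⟨y, rfl⟩
  · rintro h _ ⟨y, rfl⟩
    exact h y

include hι in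
/-- An element of `G_ℚ` fixing `K` restricts to a `K`-automorphism of the normal extension `M`. -/
theorem exists_restrictRel [Normal K M] (σ : GQ) (hσ : σ ∈ ιK.fieldRange.fixingSubgroup) :
    ∃ g : M ≃ₐ[K] M, ∀ y : M, ιM (g y) = σ (ιM y) := by
  letI : Algebra M Qbar := ιM.toRingHom.toAlgebra
  letI : Algebra K Qbar := (ιM.toRingHom.comp (algebraMap K M)).toAlgebra
  haveI : IsScalarTower K M Qbar := IsScalarTower.of_algebraMap_eq (fun x => rfl)
  have hσ' : ∀ x : K, σ (ιM (algebraMap K M x)) = ιM (algebraMap K M x) := by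
    intro x
    rw [hι]
    exact (mem_fixingSubgroup_fieldRange_iff ιK σ).mp hσ x
  let σK : Qbar ≃ₐ[K] Qbar := AlgEquiv.ofRingEquiv (f := σ.toRingEquiv) (fun x => hσ' x)
  refine ⟨σK.restrictNormal M, fun y => ?_⟩
  exact σK.restrictNormal_commutes M y

/-- Restriction `U_K → Gal(M/K)` (as a function). -/
def restrictRelFun [Normal K M] (σ : ιK.fieldRange.fixingSubgroup) : M ≃ₐ[K] M :=
  Classical.choose (exists_restrictRel ιK ιM hι σ.1 σ.2)

theorem restrictRelFun_spec [Normal K M] (σ : ιK.fieldRange.fixingSubgroup) (y : M) :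
    ιM (restrictRelFun ιK ιM hι σ y) = σ.1 (ιM y) :=
  Classical.choose_spec (exists_restrictRel ιK ιM hι σ.1 σ.2) y

/-- Restriction `U_K →* Gal(M/K)`. -/
def restrictRel [Normal K M] : ιK.fieldRange.fixingSubgroup →* (M ≃ₐ[K] M) :=
  MonoidHom.mk' (restrictRelFun ιK ιM hι) (fun σ τ => by
    apply AlgEquiv.ext
    intro y
    apply ιM.injective
    show ιM (restrictRelFun ιK ιM hι (σ * τ) y) =
      ιM (restrictRelFun ιK ιM hι σ (restrictRelFun ιK ιM hι τ y))
    rw [restrictRelFun_spec, restrictRelFun_spec, restrictRelFun_spec]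
    rfl)

theorem restrictRel_spec [Normal K M] (σ : ιK.fieldRange.fixingSubgroup) (y : M) :
    σ.1 (ιM y) = ιM (restrictRel ιK ιM hι σ y) :=
  (restrictRelFun_spec ιK ιM hι σ y).symm

theorem restrictRel_surjective [Normal K M] :
    Function.Surjective (restrictRel ιK ιM hι) := by
  intro τ
  letI : Algebra M Qbar := ιM.toRingHom.toAlgebra
  haveI : IsScalarTower ℚ M Qbar := IsScalarTower.of_algebraMap_eq fun q => (ιM.commutes q).symm
  let σ : GQ := (τ.restrictScalars ℚ).liftNormal Qbar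
  have hσ : ∀ y : M, σ (ιM y) = ιM (τ y) := fun y =>
    AlgEquiv.liftNormal_commutes (τ.restrictScalars ℚ) Qbar y
  have hσK : σ ∈ ιK.fieldRange.fixingSubgroup := by
    rw [mem_fixingSubgroup_fieldRange_iff]
    intro x
    rw [← hι, hσ, τ.commutes]
  refine ⟨⟨σ, hσK⟩, ?_⟩
  apply AlgEquiv.ext
  intro y
  apply ιM.injective
  show ιM (restrictRel ιK ιM hι ⟨σ, hσK⟩ y) = ιM (τ y)
  rw [← restrictRel_spec]
  exact hσ y

theorem restrictRel_ker [Normal K M] :
    ιM.fieldRange.fixingSubgroup.subgroupOf ιK.fieldRange.fixingSubgroup =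
      (restrictRel ιK ιM hι).ker := by
  ext σ
  rw [MonoidHom.mem_ker, Subgroup.mem_subgroupOf, mem_fixingSubgroup_fieldRange_iff]
  constructor
  · intro h
    apply AlgEquiv.ext
    intro y
    apply ιM.injective
    show ιM (restrictRel ιK ιM hι σ y) = ιM y
    rw [← restrictRel_spec, h y]
  · intro h y
    rw [restrictRel_spec ιK ιM hι σ y, h]
    rfl

include hι in
theorem subgroupOf_fixingSubgroup_normal [Normal K M] :
    (ιM.fieldRange.fixingSubgroup.subgroupOf ιK.fieldRange.fixingSubgroup).Normal := by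
  rw [restrictRel_ker ιK ιM hι]
  exact MonoidHom.normal_ker _

/-- `U_K ⧸ U_M ≃* Gal(M/K)`. -/
def relQuotEquiv [Normal K M]
    [(ιM.fieldRange.fixingSubgroup.subgroupOf ιK.fieldRange.fixingSubgroup).Normal] :
    ιK.fieldRange.fixingSubgroup ⧸
      (ιM.fieldRange.fixingSubgroup.subgroupOf ιK.fieldRange.fixingSubgroup) ≃* (M ≃ₐ[K] M) :=
  QuotientGroup.liftEquiv _ (restrictRel_surjective ιK ιM hι) (restrictRel_ker ιK ιM hι)

theorem relQuotEquiv_mk [Normal K M]
    [(ιM.fieldRange.fixingSubgroup.subgroupOf ιK.fieldRange.fixingSubgroup).Normal] (σ : ιK.fieldRange.fixingSubgroup) :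
    relQuotEquiv ιK ιM hι (QuotientGroup.mk σ) = restrictRel ιK ιM hι σ := rfl

include hι in
theorem index_subgroupOf_fixingSubgroup [IsGalois K M] [FiniteDimensional K M] :
    (ιM.fieldRange.fixingSubgroup.subgroupOf ιK.fieldRange.fixingSubgroup).index =
      Module.finrank K M := by
  haveI := subgroupOf_fixingSubgroup_normal ιK ιM hι
  rw [Subgroup.index, Nat.card_congr (relQuotEquiv ιK ιM hι).toEquiv,
    IsGalois.card_aut_eq_finrank K M]

end RelRestrict

section ActionCompat

variable (S : Finset Nat.Primes) {K M : Type} [Field K] [NumberField K] [Field M] [NumberField M]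
  [Algebra K M]

/-- The action of `τ ∈ Gal(M/K)` on `CS S M` only depends on the underlying automorphism. -/
theorem restrictScalars_smul_CS (τ : M ≃ₐ[K] M) (c : H23.CS S M) :
    (τ.restrictScalars ℚ) • c = τ • c := by
  obtain ⟨z, rfl⟩ := QuotientGroup.mk_surjective c
  rfl

end ActionCompat

section RelDatum

variable {S : Finset Nat.Primes} {K M : Type} [Field K] [NumberField K] [Field M] [NumberField M]
  [Algebra K M] [IsGalois K M]
  {ιK : K →ₐ[ℚ] Qbar} {ιM : M →ₐ[ℚ] Qbar} (hι : ∀ x : K, ιM (algebraMap K M x) = ιK x)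
  (hM : ιM.fieldRange.IsUnramifiedOutside S) (DM : H77.DivDescent S ιM)

theorem restrictsTo_restrictRel (σ : ιK.fieldRange.fixingSubgroup) :
    H77.RestrictsTo ιM σ.1 ((restrictRel ιK ιM hι σ).restrictScalars ℚ) :=
  fun y => restrictRel_spec ιK ιM hι σ y

/-- **The descent datum of a Galois layer `M/K`** (from helper77's `csIncl`):
`(U_K ⧸ U_M, (CSTop S)^{U_M}) ≃ (Gal(M/K), CS S M)`. -/
def relDescentDatum (hS : S.Nonempty) (hE : H77.HasDivisors S)
    [(ιM.fieldRange.fixingSubgroup.subgroupOf ιK.fieldRange.fixingSubgroup).Normal] :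
    DescentDatum (Rep.res ιK.fieldRange.fixingSubgroup.subtype (H77.repCSTop S))
      (ιM.fieldRange.fixingSubgroup.subgroupOf ιK.fieldRange.fixingSubgroup)
      (H23.repCS S M K) where
  e := relQuotEquiv ιK ιM hι
  ι := (H77.csIncl hM DM).toAdditive.toIntLinearMap
  inj := fun a b h => by
    have h' : H77.csIncl hM DM (Additive.toMul a) = H77.csIncl hM DM (Additive.toMul b) :=
      congrArg Additive.toMul h
    exact congrArg Additive.ofMul (H77.csIncl_injective hM DM hS h')
  surj := fun c hc => by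
    obtain ⟨y, hy⟩ := (H77.mem_range_csIncl_iff hM DM hS hE (Additive.toMul c)).mpr
      (fun σ hσ => congrArg Additive.toMul
        (hc ⟨σ, fixingSubgroup_fieldRange_le ιK ιM hι hσ⟩ hσ))
    exact ⟨Additive.ofMul y, congrArg Additive.ofMul hy⟩
  equiv := fun γ b => by
    have h := H77.csIncl_smul hM DM (restrictsTo_restrictRel hι γ) (Additive.toMul b)
    rw [restrictScalars_smul_CS] at h
    exact congrArg Additive.ofMul h.symm

variable (hK : ιK.fieldRange.IsUnramifiedOutside S) (DK : H77.DivDescent S ιK)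

include hι in
/-- The norm from `(CSTop S)^{U_M}` down to `(CSTop S)^{U_K}` on the image of `csIncl_M`. -/
theorem finsum_out_csIncl (hS : S.Nonempty) (hE : H77.HasDivisors S)
    [(ιM.fieldRange.fixingSubgroup.subgroupOf ιK.fieldRange.fixingSubgroup).Normal]
    (y : H23.CS S M) :
    (∑ᶠ q : ιK.fieldRange.fixingSubgroup ⧸
        (ιM.fieldRange.fixingSubgroup.subgroupOf ιK.fieldRange.fixingSubgroup),
      (H77.repCSTop S).ρ (Quotient.out q : ιK.fieldRange.fixingSubgroup).1
        (Additive.ofMul (H77.csIncl hM DM y))) =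
      Additive.ofMul (H77.csIncl hM DM (∏ τ : M ≃ₐ[K] M, τ • y)) := by
  haveI : Finite (ιK.fieldRange.fixingSubgroup ⧸
      (ιM.fieldRange.fixingSubgroup.subgroupOf ιK.fieldRange.fixingSubgroup)) :=
    Finite.of_equiv _ (relQuotEquiv ιK ιM hι).symm.toEquiv
  have h := (relDescentDatum hι hM DM hS hE).finsum_out_ι (Additive.ofMul y)
  have h2 : (∑ᶠ τ : M ≃ₐ[K] M, (H23.repCS S M K).ρ τ (Additive.ofMul y)) =
      Additive.ofMul (∏ τ : M ≃ₐ[K] M, τ • y) :=
    finsum_additive_ofMul (fun τ : M ≃ₐ[K] M => τ • y)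
  rw [h2] at h
  exact h

include hι hM DM in
/-- **NORM DICTIONARY for a Galois layer `M/K`**: `a₀ ∈ CS S K` becomes a norm from `CS S M` after
base change iff its image in `CSTop S` is a norm from `(CSTop S)^{U_M}` (right-hand side in the
shape of the body of `HasEXIST`). -/
theorem exists_norm_iff (hS : S.Nonempty) (hE : H77.HasDivisors S)
    [(ιM.fieldRange.fixingSubgroup.subgroupOf ιK.fieldRange.fixingSubgroup).Normal]
    (a₀ : H23.CS S K) :
    (∃ y : H23.CS S M, H23.CS.baseChange S K M a₀ = ∏ τ : M ≃ₐ[K] M, τ • y) ↔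
    (∃ b : (H77.repCSTop S).V,
      (∀ v ∈ ιM.fieldRange.fixingSubgroup, (H77.repCSTop S).ρ v b = b) ∧
      (∑ᶠ q : ιK.fieldRange.fixingSubgroup ⧸
          (ιM.fieldRange.fixingSubgroup.subgroupOf ιK.fieldRange.fixingSubgroup),
        (H77.repCSTop S).ρ (Quotient.out q : ιK.fieldRange.fixingSubgroup).1 b) =
        Additive.ofMul (H77.csIncl hK DK a₀)) := by
  have hbc : H77.csIncl hM DM (H23.CS.baseChange S K M a₀) = H77.csIncl hK DK a₀ :=
    H77.csIncl_baseChange hK hM hι DK DM a₀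
  constructor
  · rintro ⟨y, hy⟩
    refine ⟨Additive.ofMul (H77.csIncl hM DM y), fun v hv => ?_, ?_⟩
    · exact congrArg Additive.ofMul (H77.smul_csIncl_of_mem_fixer hM DM v hv y)
    · rw [finsum_out_csIncl hι hM DM hS hE y, ← hy, hbc]
  · rintro ⟨b, hb, hsum⟩
    obtain ⟨y, hy⟩ := (H77.mem_range_csIncl_iff hM DM hS hE (Additive.toMul b)).mpr
      (fun σ hσ => congrArg Additive.toMul (hb σ hσ))
    refine ⟨y, ?_⟩
    apply H77.csIncl_injective hM DM hS
    have hb' : b = Additive.ofMul (H77.csIncl hM DM y) := congrArg Additive.ofMul hy.symm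
    subst hb'
    have h3 := (finsum_out_csIncl hι hM DM hS hE y).symm.trans hsum
    rw [hbc]
    exact (congrArg Additive.toMul h3).symm

end RelDatum

end Fermat.Agent.CFT.H24
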