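/-
CFT layer C, package C-TOP-Div (helper45), slice 6: tower compatibility of the descent maps.

For number fields `K ⊆ F` (`[Algebra K F]`) embedded compatibly in `Qbar` with images unramified
outside `S`: the comparison maps `H23.CS S K → CSTop S` and `H23.CS S F → CSTop S` of
`H77_TopDescent` are compatible with `H23.CS.baseChange S K F`.
-/
import Mathlib
import Fermat.Agent.CFT.H23_CMaps
import Fermat.Agent.CFT.H45_TopDivDescent

set_option autoImplicit false

namespace Fermat.Agent.CFT.H45

open NumberField IsDedekindDomain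
open Fermat.Agent.S54 Fermat.Agent.S14.H37 Fermat.Agent.S14.H54 Fermat.Agent.CFT.H37
open scoped Pointwise TensorProduct

noncomputable section

variable {S : Finset Nat.Primes} {K F : Type} [Field K] [NumberField K] [Field F] [NumberField F]
  [Algebra K F] {ιK : K →ₐ[ℚ] AlgebraicClosure ℚ} {ιF : F →ₐ[ℚ] AlgebraicClosure ℚ}
  (hcomp : ∀ x : K, ιF (algebraMap K F x) = ιK x)

include hcomp in
/-- (T1) The prime of `K` below the prime of `F` cut out by a place is the prime of `K` cut out by
that place. -/
theorem under_primeOut (A : PlacesOutside S) :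
    H23.PrimesOutside.under S K F (primeOut ιF A) = primeOut ιK A := by
  apply Subtype.ext
  apply HeightOneSpectrum.ext
  ext x
  show x ∈ ((primeOut ιF A).1.under (𝓞 K)).asIdeal ↔ x ∈ primeOf ιK A.val
  rw [HeightOneSpectrum.under_asIdeal, Ideal.under_def, Ideal.mem_comap, primeOut_asIdeal,
    mem_primeOf, mem_primeOf]
  have : ιF ((algebraMap (𝓞 K) (𝓞 F) x : 𝓞 F) : F) = ιK (x : K) := hcomp (x : K)
  rw [this]

include hcomp in
/-- (T2) Primes outside `S` are unramified in `F/K` when `F` is unramified outside `S`. -/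
theorem ramIdx_primeOut (hK : ιK.fieldRange.IsUnramifiedOutside S)
    (hF : ιF.fieldRange.IsUnramifiedOutside S) (A : PlacesOutside S) :
    H23.ramIdx K F (primeOut ιF A).1 = 1 := by
  have h1 := H63.valuation_algebraMap_eq (K := K) (primeOut ιF A).1 (((A.prime : ℕ) : ℕ) : K)
  have h2 : (primeOut ιF A).1.under (𝓞 K) = (primeOut ιK A).1 :=
    congrArg Subtype.val (under_primeOut hcomp A)
  rw [h2, map_natCast] at h1
  have h3 := valuation_prime_eq_exp' ιF hF A
  have h4 := valuation_prime_eq_exp' ιK hK A
  change (primeOut ιF A).1.valuation F (((A.prime : ℕ) : ℕ) : F) = _ at h3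
  change (primeOut ιK A).1.valuation K (((A.prime : ℕ) : ℕ) : K) = _ at h4
  rw [h3, h4, ← WithZero.exp_nsmul, WithZero.exp_inj] at h1
  unfold H23.ramIdx
  rw [h2]
  have h5 : ((((primeOut ιK A).1.asIdeal.ramificationIdx' (primeOut ιF A).1.asIdeal : ℕ)) : ℤ) = 1 := by
    have h6 : (-1 : ℤ) = ((primeOut ιK A).1.asIdeal.ramificationIdx' (primeOut ιF A).1.asIdeal) • (-1 : ℤ) :=
      h1
    rw [nsmul_eq_mul] at h6
    linarith
  exact_mod_cast h5

variable (hK : ιK.fieldRange.IsUnramifiedOutside S) (hF : ιF.fieldRange.IsUnramifiedOutside S)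

include hcomp in
/-- (T3) Tower compatibility on divisors. -/
theorem toTopHom_baseChange (D : H23.DivS S K) :
    toTopHom hF (H23.DivS.baseChange S K F D) = toTopHom hK D := by
  apply Subtype.ext
  funext P
  rw [toTopHom_apply, toTopHom_apply, H23.DivS.baseChange_apply, under_primeOut hcomp,
    ramIdx_primeOut hcomp hK hF]
  simp

include hcomp in
theorem inclF_algebraMap (x : K) : H77.inclF hF (algebraMap K F x) = H77.inclF hK x :=
  H77.OmegaS.ext (hcomp x)

include hcomp in
/-- Tower compatibility on the local algebras. -/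
theorem locIncl_locMap (q : Nat.Primes) (y : H23.Loc K q) :
    H77.locIncl hF q (H23.locMap K F q y) = H77.locIncl hK q y := by
  induction y using TensorProduct.induction_on with
  | zero => simp
  | tmul x a =>
    rw [H23.locMap_tmul]
    show H77.inclF hF (algebraMap K F x) ⊗ₜ[ℚ] a = H77.inclF hK x ⊗ₜ[ℚ] a
    rw [inclF_algebraMap hcomp]
  | add x y hx hy => simp only [map_add, hx, hy]

include hcomp in
/-- Tower compatibility on `S`-ideles. -/
theorem jIncl_baseChange (j : H23.JS S K) :
    H77.jIncl hF (H23.JS.baseChange S K F j) = H77.jIncl hK j := by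
  funext q
  apply Units.ext
  exact locIncl_locMap hcomp hK hF q.1 (j q : H23.Loc K q.1)

include hcomp in
/-- Tower compatibility on hybrid ideles. -/
theorem idIncl_baseChange (z : H23.IdS S K) :
    H77.idIncl hF (divDescent hF) (H23.IdS.baseChange S K F z) =
      H77.idIncl hK (divDescent hK) z := by
  refine Prod.ext (jIncl_baseChange hcomp hK hF z.1) ?_
  show Multiplicative.ofAdd (toTopHom hF (H23.DivS.baseChange S K F (Multiplicative.toAdd z.2))) =
    Multiplicative.ofAdd (toTopHom hK (Multiplicative.toAdd z.2))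
  rw [toTopHom_baseChange hcomp hK hF]

include hcomp in
/-- **Tower compatibility** of the comparison maps with base change of idele classes. -/
theorem csIncl_baseChange (c : H23.CS S K) :
    H77.csIncl hF (divDescent hF) (H23.CS.baseChange S K F c) =
      H77.csIncl hK (divDescent hK) c := by
  obtain ⟨z, rfl⟩ := QuotientGroup.mk_surjective c
  show H77.csIncl hF (divDescent hF) (H23.CS.baseChange S K F (H23.toCS S K z)) =
    H77.csIncl hK (divDescent hK) (H23.toCS S K z)
  rw [H23.CS.baseChange_toCS, H77.csIncl_mk, H77.csIncl_mk, idIncl_baseChange hcomp hK hF]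

end

end Fermat.Agent.CFT.H45
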