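/-
CFT layer C (helper45): the dictionary between helper23's finite-level `H23.UnramOutside S K F`
(ramification indices of the primes of `F` outside `S` over `K`) and the frozen predicate
`IntermediateField.IsUnramifiedOutside S` on images in `Qbar`.

For number fields `K ⊆ F` embedded compatibly in `Qbar` (`hcomp`), with `ιK K` unramified outside `S`:
* `unramOutside_of_isUnramifiedOutside` : `ιF F` unramified outside `S` ⇒ `H23.UnramOutside S K F`;
* `isUnramifiedOutside_of_unramOutside` : `F/K` Galois and `H23.UnramOutside S K F` ⇒ `ιF F` is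
  unramified outside `S`.
-/
import Mathlib
import Fermat.Agent.CFT.H23_CDescent
import Fermat.Agent.CFT.H45_TopDivTower

set_option autoImplicit false

namespace Fermat.Agent.CFT.H45

open NumberField IsDedekindDomain
open Fermat.Agent.S54 Fermat.Agent.S14.H37 Fermat.Agent.S14.H54 Fermat.Agent.CFT.H37
open scoped Pointwise

noncomputable section

variable {S : Finset Nat.Primes} {K F : Type} [Field K] [NumberField K] [Field F] [NumberField F]
  [Algebra K F] {ιK : K →ₐ[ℚ] AlgebraicClosure ℚ} {ιF : F →ₐ[ℚ] AlgebraicClosure ℚ}
  (hcomp : ∀ x : K, ιF (algebraMap K F x) = ιK x)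

include hcomp in
/-- Fields unramified outside `S` (frozen sense) are unramified outside `S` over each other. -/
theorem unramOutside_of_isUnramifiedOutside (hK : ιK.fieldRange.IsUnramifiedOutside S)
    (hF : ιF.fieldRange.IsUnramifiedOutside S) : H23.UnramOutside S K F := by
  intro w
  obtain ⟨A, rfl⟩ := primeOut_surjective ιF w
  exact ramIdx_primeOut hcomp hK hF A

theorem finiteDimensional_fieldRange (ι : F →ₐ[ℚ] AlgebraicClosure ℚ) :
    FiniteDimensional ℚ ι.fieldRange := by
  have e : F ≃ₐ[ℚ] ι.fieldRange := AlgEquiv.ofInjectiveField ι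
  exact Module.Finite.equiv e.toLinearEquiv

include hcomp in
/-- A Galois extension `F/K` in which all primes outside `S` are unramified, over a base `K`
unramified outside `S` (frozen sense), is unramified outside `S` (frozen sense). -/
theorem isUnramifiedOutside_of_unramOutside [IsGalois K F]
    (hK : ιK.fieldRange.IsUnramifiedOutside S) (hur : H23.UnramOutside S K F) :
    ιF.fieldRange.IsUnramifiedOutside S := by
  refine ⟨finiteDimensional_fieldRange ιF, fun q hq A hA σ hσ => ?_⟩
  -- `σ` fixes `ιK K`
  have hσK : σ ∈ ιK.fieldRange.fixingSubgroup := hK.2 q hq A hA hσ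
  have hfix : FixesBase (K := K) ιF σ := by
    intro x
    rw [hcomp]
    exact (IntermediateField.mem_fixingSubgroup_iff _ _).mp hσK (ιK x) ⟨x, rfl⟩
  -- the prime of `F` cut out by `A` is unramified over `K`
  let A' : PlacesOutside S := PlacesOutside.mk' A q hq hA
  have h1 : H23.ramIdx K F (primeOut ιF A').1 = 1 := hur (primeOut ιF A')
  have he : (primeOf ιF A).ramificationIdx (𝓞 K) = 1 := by
    unfold H23.ramIdx at h1
    have hlies : (primeOut ιF A').1.asIdeal.LiesOver ((primeOut ιF A').1.under (𝓞 K)).asIdeal := by
      rw [HeightOneSpectrum.under_asIdeal]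
      infer_instance
    rw [Ideal.ramificationIdx'_eq_ramificationIdx ((primeOut ιF A').1.under (𝓞 K)).asIdeal
      (primeOut ιF A').1.asIdeal ((primeOut ιF A').1.under (𝓞 K)).ne_bot] at h1
    exact h1
  have h2 := (forall_fixes_iff_ramificationIdx_eq_one (K := K) (ι := ιF) q.2 hA).mpr he
  rw [IntermediateField.mem_fixingSubgroup_iff]
  rintro _ ⟨y, rfl⟩
  exact h2 σ hσ hfix y

end

end Fermat.Agent.CFT.H45
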