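/-
CFT project, layer C, INTEGRATION (helper24): the seam (U2)/(P3) — `HasEXIST` for the global
formation `(globalLevels S, H77.repCSTop S)` at a level `N₀ = U_K` from the finite-level existence
theorem (helper51's `EXIST_fin`) for the number field `K`.

`K` is an abstract number field with an embedding `ιK : K →ₐ[ℚ] ℚbar` whose image is unramified
outside `S`; an abstract Galois layer `M/K` of degree `p`, unramified outside `S`, is embedded in
`ℚbar` over `ιK` (`IsAlgClosed.lift`), is unramified outside `S` in the frozen sense (helper45's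
dictionary), so `V := U_M` is an open subgroup of `N₀ := U_K`, normal of index `p`, and the norm
dictionary `H24.exists_norm_iff` translates the hypothesis of `HasEXIST` at `V` into the hypothesis
of the finite-level theorem at `M`.
-/
import Mathlib
import Fermat.Agent.CFT.H24_RelDescent
import Fermat.Agent.CFT.H45_UnramOutside
import Fermat.Agent.CFT.H91_D2Defs
import Fermat.Agent.CFT.H55_GalLevels
import Fermat.Agent.CFT.H24_CGlobalAssembly

set_option autoImplicit false
set_option linter.style.haveILetI false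

open CategoryTheory

noncomputable section

namespace Fermat.Agent.CFT.H24

open Fermat.Agent.CFT IntermediateField

local notation "Qbar" => AlgebraicClosure ℚ
local notation "GQ" => (AlgebraicClosure ℚ ≃ₐ[ℚ] AlgebraicClosure ℚ)

section Embed

variable {K M : Type} [Field K] [NumberField K] [Field M] [NumberField M] [Algebra K M]

/-- An abstract finite extension `M/K` embeds in `ℚbar` over a given embedding of `K`. -/
theorem exists_embedding_over (ιK : K →ₐ[ℚ] Qbar) :
    ∃ ιM : M →ₐ[ℚ] Qbar, ∀ x : K, ιM (algebraMap K M x) = ιK x := by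
  letI : Algebra K Qbar := ιK.toRingHom.toAlgebra
  haveI : Algebra.IsAlgebraic K M := Algebra.IsAlgebraic.of_finite K M
  let j : M →ₐ[K] Qbar := IsAlgClosed.lift
  refine ⟨{ toRingHom := j.toRingHom, commutes' := fun r => ?_ }, fun x => j.commutes x⟩
  exact map_ratCast j.toRingHom r

end Embed

section Exist

variable {S : Finset Nat.Primes} {K : Type} [Field K] [NumberField K]
  {ιK : K →ₐ[ℚ] Qbar} (hK : ιK.fieldRange.IsUnramifiedOutside S)

/-- The shape of helper51's finite-level existence theorem `EXIST_fin` at the number field `K`. -/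
def ExistFin (S : Finset Nat.Primes) (p : ℕ) (K : Type) [Field K] [NumberField K] : Prop :=
  ∀ a : H23.CS S K,
    (∀ (M : Type) [Field M] [NumberField M] [Algebra K M] [IsGalois K M],
      Module.finrank K M = p → H23.UnramOutside S K M →
        ∃ y : H23.CS S M, H23.CS.baseChange S K M a = ∏ τ : M ≃ₐ[K] M, τ • y) →
    ∃ b : H23.CS S K, b ^ p = a

include hK in
/-- **(P3)** `HasEXIST` at the level `U_K` of the global formation from the finite-level existence
theorem for `K`. -/
theorem hasEXIST_of_existFin (hS : S.Nonempty) (p : ℕ) (hfin : ExistFin S p K) :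
    HasEXIST (globalLevels S) (H77.repCSTop S) p ιK.fieldRange.fixingSubgroup := by
  intro a ha hnorm
  have hE : H77.HasDivisors S := H45.hasDivisors
  -- `a` comes from `K`
  obtain ⟨a₀, ha₀⟩ := (H77.mem_range_csIncl_iff hK (H45.divDescent hK) hS hE
    (Additive.toMul a)).mpr (fun σ hσ => congrArg Additive.toMul (ha σ hσ))
  have ha₀' : a = Additive.ofMul (H77.csIncl hK (H45.divDescent hK) a₀) :=
    congrArg Additive.ofMul ha₀.symm
  -- apply the finite-level theorem
  obtain ⟨b₀, hb₀⟩ := hfin a₀ (by
    intro M _ _ _ _ hdeg hur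
    obtain ⟨ιM, hι⟩ := exists_embedding_over (M := M) ιK
    have hM : ιM.fieldRange.IsUnramifiedOutside S :=
      H45.isUnramifiedOutside_of_unramOutside hι hK hur
    haveI hnor := subgroupOf_fixingSubgroup_normal ιK ιM hι
    have hopen : (globalLevels S).IsOpen ιM.fieldRange.fixingSubgroup :=
      ⟨_, ⟨ιM.fieldRange, hM, rfl⟩, le_rfl⟩
    have hidx := (index_subgroupOf_fixingSubgroup ιK ιM hι).trans hdeg
    obtain ⟨b, hb, hsum⟩ := hnorm ιM.fieldRange.fixingSubgroup hopen
      (fixingSubgroup_fieldRange_le ιK ιM hι) hnor hidx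
    exact (exists_norm_iff hι hM (H45.divDescent hM) hK (H45.divDescent hK) hS hE a₀).mpr
      ⟨b, hb, hsum.trans ha₀'⟩)
  refine ⟨Additive.ofMul (H77.csIncl hK (H45.divDescent hK) b₀), fun n hn => ?_, ?_⟩
  · exact congrArg Additive.ofMul (H77.smul_csIncl_of_mem_fixer hK (H45.divDescent hK) n hn b₀)
  · rw [ha₀', ← hb₀, map_pow]
    rfl

end Exist

section Global

local instance isAlgebraicQbar_h24e : Algebra.IsAlgebraic ℚ (AlgebraicClosure ℚ) :=
  AlgebraicClosure.isAlgebraic ℚ
local instance isAlgClosureQbar_h24e : IsAlgClosure ℚ (AlgebraicClosure ℚ) :=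
  ⟨inferInstance, inferInstance⟩
local instance normalQbar_h24e : Normal ℚ (AlgebraicClosure ℚ) :=
  IsAlgClosure.normal ℚ (AlgebraicClosure ℚ)
local instance isGaloisQbar_h24e : IsGalois ℚ (AlgebraicClosure ℚ) := ⟨⟩

variable {S : Finset Nat.Primes}

/-- **(EXIST) for the global formation at the good normal levels**, from the finite-level
existence theorem at number fields `K ⊇ μ_p`, Galois over `ℚ`, embedded in `ℚbar` with image
unramified outside `S`.  The hypothesis on `N₀` is (defeq to) `H20.GoodLevel p N₀`. -/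
theorem hasEXIST_global (hS : S.Nonempty) (p : ℕ)
    (hfin : ∀ (K : Type) [Field K] [NumberField K] [IsGalois ℚ K] (ζ : K), IsPrimitiveRoot ζ p →
      ∀ ιK : K →ₐ[ℚ] Qbar, ιK.fieldRange.IsUnramifiedOutside S → ExistFin S p K) :
    ∀ N₀ ∈ (globalLevels S).levels, N₀.Normal →
      (∃ ζ : Qbar, IsPrimitiveRoot ζ p ∧ ∀ σ ∈ N₀, σ ζ = ζ) →
      HasEXIST (globalLevels S) (H77.repCSTop S) p N₀ := by
  rintro _ ⟨F, hF, rfl⟩ hnor ⟨ζ, hζ, hfix⟩
  haveI : FiniteDimensional ℚ F := hF.1
  haveI : NumberField F := ⟨⟩
  have hG0 : IsGalois ℚ F := (InfiniteGalois.normal_iff_isGalois F).mp hnor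
  haveI hG : @IsGalois ℚ _ ↥F _ DivisionRing.toRatAlgebra := by
    convert hG0
  have hFι : (valRat F).fieldRange.IsUnramifiedOutside S := by
    rw [fieldRange_valRat]; exact hF
  -- `ζ ∈ F`
  have hζF : ζ ∈ F := by
    rw [← InfiniteGalois.fixedField_fixingSubgroup F, IntermediateField.mem_fixedField_iff]
    exact hfix
  have hζ' : IsPrimitiveRoot (⟨ζ, hζF⟩ : F) p :=
    IsPrimitiveRoot.of_map_of_injective (f := F.val) hζ F.val.injective
  have h := hasEXIST_of_existFin hFι hS p (hfin F ⟨ζ, hζF⟩ hζ' (valRat F) hFι)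
  rw [fieldRange_valRat] at h
  exact h

end Global

end Fermat.Agent.CFT.H24
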