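import Fermat.Agent.CFT.H74_AxI1Inst

/-!
# CFT / D2c : the carry pairing of a `p`-class formation with values in `ZMod p`

`F : PClassFormation p 𝓛 C`, `(DIV)`, `N₀` an open subgroup.  The carry pairing
`Hom(N₀, 𝔽_p) × C^{N₀} → H²(N₀; C)[p] ≃ ZMod p` as a biadditive form `β` with

* `β χ a = 0` iff `a` is a norm from `C^{ker χ}` (`χ ≠ 0`), in the `IsKerNorm` shape and in the
  shape of the body of `HasEXIST`;
* right non-degeneracy: for `χ ≠ 0` there is `a` with `β χ a ≠ 0` (from the formation alone).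

This is the formation-level half of input (I5) of the layer-C proof of `(EXIST)`.
-/

set_option autoImplicit false
set_option linter.unusedSectionVars false

open CategoryTheory groupCohomology

namespace Fermat.Agent.CFT.H74

open Fermat.Agent.CFT LevelStructure

section Norm

variable {p : ℕ} [hp : Fact p.Prime] {H : Type} [Group H] {C : Rep.{0} ℤ H}

/-- `IsKerNorm` in the shape of the body of `HasEXIST`: for a non-zero character `χ` of `N₀` whose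
kernel is (the trace on `N₀` of) the subgroup `V ≤ N₀`. -/
theorem isKerNorm_iff_finsum (N₀ : Subgroup H) {χ : ↥N₀ → ZMod p} (hχ : IsAddChar χ) (h0 : χ ≠ 0)
    (V : Subgroup H) (hVN : V ≤ N₀) (hV : ∀ κ : ↥N₀, χ κ = 0 ↔ κ.1 ∈ V) (a : C.V) :
    IsKerNorm (C := Rep.res N₀.subtype C) χ a ↔
      ∃ b : C.V, (∀ v ∈ V, C.ρ v b = b) ∧
        (∑ᶠ q : ↥N₀ ⧸ V.subgroupOf N₀, C.ρ (Quotient.out q : ↥N₀).1 b) = a := by
  have hKeq : V.subgroupOf N₀ = charKer χ hχ := by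
    ext g
    rw [Subgroup.mem_subgroupOf, mem_charKer, hV]
  have : (V.subgroupOf N₀).Normal := by
    rw [hKeq]
    exact MonoidHom.normal_ker _
  have hidx : (V.subgroupOf N₀).index = p := by rw [hKeq]; exact index_charKer hχ h0
  have hχeq : ∀ g g' : ↥N₀, χ g = χ g' ↔ g⁻¹ * g' ∈ V.subgroupOf N₀ := by
    intro g g'
    rw [Subgroup.mem_subgroupOf, ← hV, hχ, hχ.map_inv, neg_add_eq_zero]
  obtain ⟨σ, hσ⟩ := exists_char_eq_one hχ h0
  rw [isKerNorm_iff hχ hσ]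
  constructor
  · rintro ⟨b, hb, rfl⟩
    refine ⟨b, fun v hv => hb ⟨v, hVN hv⟩ ((hV _).mpr hv), ?_⟩
    exact H62.finsum_out_eq_pnormσ (Rep.res N₀.subtype C) (V.subgroupOf N₀) hidx hχ hχeq hσ hb
  · rintro ⟨b, hb, rfl⟩
    have hb' : IsKerFixed (C := Rep.res N₀.subtype C) χ b := fun κ hκ => hb κ.1 ((hV κ).mp hκ)
    exact ⟨b, hb', H62.finsum_out_eq_pnormσ (Rep.res N₀.subtype C) (V.subgroupOf N₀) hidx hχ hχeq
      hσ hb'⟩

end Norm

section Form

variable {p : ℕ} [hp : Fact p.Prime] {H : Type} [Group H] {𝓛 : LevelStructure H}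
  {C : Rep.{0} ℤ H} (F : PClassFormation p 𝓛 C)

include F

/-- **Norm criterion in a `p`-class formation** (any subgroup `N₀`, `χ ≠ 0` of order `p`). -/
theorem carryH2_eq_zero_iff_isKerNorm_of_formation (N₀ : Subgroup H)
    (χ : levelChars (𝓛.restrict N₀) p) (h0 : χ.1 ≠ 0)
    (a : ↥(LevelStructure.H0 (Rep.res N₀.subtype C))) :
    carryH2 (𝓛.restrict N₀) (Rep.res N₀.subtype C) p χ a = 0 ↔ IsKerNorm χ.1 a.1 :=
  carryH2_eq_zero_iff_isKerNorm' χ h0 (h1Divisible_of_forall (H52.H1_pDivisible_restrict F N₀))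
    (kerH1TorsionFree_of_forall (charKer χ.1 χ.2.1) (fun u => mem_charKer χ.2.1 u)
      (H52.H1_pTorsionFree_nested F N₀ (charKer χ.1 χ.2.1))) a

/-- **Right non-degeneracy** of the carry pairing at an open subgroup, for an envelope acyclic on
open subgroups. -/
theorem exists_carryH2_ne_zero_of_envelope (E : H36.DivEnvelope 𝓛 p C) (hDIV : HasDIV 𝓛 p)
    (hEac : ∀ U : Subgroup H, 𝓛.IsOpen U →
      Subsingleton ((𝓛.restrict U).H1 (Rep.res U.subtype E.I)) ∧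
      Subsingleton ((𝓛.restrict U).H2 (Rep.res U.subtype E.I)))
    (hVm : ∀ U : Subgroup H, 𝓛.IsOpen U →
      Subsingleton ((𝓛.restrict U).H1 (Rep.res U.subtype (H36.torsionRep p E.I))))
    (N₀ : Subgroup H) (hU : 𝓛.IsOpen N₀) (χ : levelChars (𝓛.restrict N₀) p) (h0 : χ.1 ≠ 0) :
    ∃ a : ↥(LevelStructure.H0 (Rep.res N₀.subtype C)),
      carryH2 (𝓛.restrict N₀) (Rep.res N₀.subtype C) p χ a ≠ 0 := by
  have hKopen : (𝓛.restrict N₀).IsOpen (charKer χ.1 χ.2.1) := isOpen_charKer χ.2.1 χ.2.2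
  have hK : ∀ u : ↥N₀, u ∈ charKer χ.1 χ.2.1 ↔ χ.1 u = 0 := fun u => mem_charKer χ.2.1 u
  obtain ⟨c, hc0, hpc, -⟩ := H62.exists_invEquiv_sub F hDIV N₀ hU
  obtain ⟨σ, hσ⟩ := exists_char_eq_one χ.2.1 h0
  exact exists_carryH2_ne_zero_of_resKerVanishes (H91.isSES (E.resSub N₀)) (E.resSub N₀).discrete
    (E.resSub N₀).divisible (hEac N₀ hU).1 (hEac N₀ hU).2 χ hσ
    (kerH1Vanishes_of_subsingleton (charKer χ.1 χ.2.1) hK
      (h := H52.subsingleton_H1_nested 𝓛 E.I N₀ (charKer χ.1 χ.2.1) hU hKopen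
        (fun W hW => (hEac W hW).1)))
    (kerH1TorsionFree_of_forall (charKer χ.1 χ.2.1) hK
      (H52.H1_pTorsionFree_nested F N₀ (charKer χ.1 χ.2.1)))
    (fun q hq => hQdiv_of_formation F E hVm N₀ hU χ q hq)
    ⟨c, hpc, hc0, resKerVanishes_of_resSubH2 χ.2.2 (charKer χ.1 χ.2.1) hK c
      (H52.resSubH2_eq_zero_of_dvd_index F N₀ (charKer χ.1 χ.2.1) hU hKopen
        (by rw [index_charKer χ.2.1 h0]) c hpc)⟩

/-- **Right non-degeneracy** of the carry pairing at an open subgroup (canonical envelope). -/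
theorem exists_carryH2_ne_zero_of_formation (hDIV : HasDIV 𝓛 p)
    (N₀ : Subgroup H) (hU : 𝓛.IsOpen N₀) (χ : levelChars (𝓛.restrict N₀) p) (h0 : χ.1 ≠ 0) :
    ∃ a : ↥(LevelStructure.H0 (Rep.res N₀.subtype C)),
      carryH2 (𝓛.restrict N₀) (Rep.res N₀.subtype C) p χ a ≠ 0 :=
  exists_carryH2_ne_zero_of_envelope F
    (H36.canonicalEnvelope 𝓛 p hp.out.ne_zero C F.discrete) hDIV
    (fun U hU => H36.canonicalEnvelope_acyclic 𝓛 p hp.out.ne_zero C F.discrete U hU)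
    (fun U hU => ((H36.isCoinduced_canonicalEnvelope 𝓛 p hp.out.ne_zero C
      F.discrete).torsion p).subsingleton_H1_restrict U hU) N₀ hU χ h0

/-- **The carry form**: the carry pairing at an open subgroup `N₀` of a `p`-class formation, with
values in `ZMod p` through `H²(N₀; C)[p] ≃ ZMod p`. -/
theorem exists_carryForm (hDIV : HasDIV 𝓛 p) (N₀ : Subgroup H) (hU : 𝓛.IsOpen N₀) :
    ∃ β : levelChars (𝓛.restrict N₀) p →+
        ↥(LevelStructure.H0 (Rep.res N₀.subtype C)) →+ ZMod p,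
      (∀ χ a, β χ a = 0 ↔ carryH2 (𝓛.restrict N₀) (Rep.res N₀.subtype C) p χ a = 0) ∧
      (∀ χ : levelChars (𝓛.restrict N₀) p, χ.1 ≠ 0 → ∀ a, β χ a = 0 ↔ IsKerNorm χ.1 a.1) ∧
      (∀ χ : levelChars (𝓛.restrict N₀) p, χ.1 ≠ 0 → ∀ V : Subgroup H, V ≤ N₀ →
        (∀ κ : ↥N₀, χ.1 κ = 0 ↔ κ.1 ∈ V) → ∀ a, β χ a = 0 ↔
          ∃ b : C.V, (∀ v ∈ V, C.ρ v b = b) ∧
            (∑ᶠ q : ↥N₀ ⧸ V.subgroupOf N₀, C.ρ (Quotient.out q : ↥N₀).1 b) = a.1) ∧
      (∀ χ : levelChars (𝓛.restrict N₀) p, χ.1 ≠ 0 → ∃ a, β χ a ≠ 0) := by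
  obtain ⟨c, hc0, hpc, e, -⟩ := H62.exists_invEquiv_sub F hDIV N₀ hU
  have hmem : ∀ (χ : levelChars (𝓛.restrict N₀) p)
      (a : ↥(LevelStructure.H0 (Rep.res N₀.subtype C))),
      carryH2 (𝓛.restrict N₀) (Rep.res N₀.subtype C) p χ a ∈
        H62.pTors p ((𝓛.restrict N₀).H2 (Rep.res N₀.subtype C)) := fun χ a => by
    rw [H62.mem_pTors, ← natCast_zsmul]
    exact nsmul_carryH2 χ a
  let β : levelChars (𝓛.restrict N₀) p →+
      ↥(LevelStructure.H0 (Rep.res N₀.subtype C)) →+ ZMod p :=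
    AddMonoidHom.mk' (fun χ => AddMonoidHom.mk' (fun a => e ⟨_, hmem χ a⟩) (fun a a' => by
      rw [← map_add]
      congr 1
      exact Subtype.ext (map_add _ a a'))) (fun χ χ' => by
      ext a
      show e ⟨_, hmem (χ + χ') a⟩ = e ⟨_, hmem χ a⟩ + e ⟨_, hmem χ' a⟩
      rw [← map_add]
      congr 1
      apply Subtype.ext
      show carryH2 (𝓛.restrict N₀) (Rep.res N₀.subtype C) p (χ + χ') a = _
      rw [carryH2_add_char]
      rfl)
  have hβ0 : ∀ χ a, β χ a = 0 ↔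
      carryH2 (𝓛.restrict N₀) (Rep.res N₀.subtype C) p χ a = 0 := fun χ a => by
    show e ⟨_, hmem χ a⟩ = 0 ↔ _
    rw [e.map_eq_zero_iff]
    exact ⟨fun h => congrArg Subtype.val h, fun h => Subtype.ext h⟩
  refine ⟨β, hβ0, fun χ h0 a => ?_, fun χ h0 V hVN hV a => ?_, fun χ h0 => ?_⟩
  · rw [hβ0, carryH2_eq_zero_iff_isKerNorm_of_formation F N₀ χ h0 a]
  · rw [hβ0, carryH2_eq_zero_iff_isKerNorm_of_formation F N₀ χ h0 a,
      isKerNorm_iff_finsum N₀ χ.2.1 h0 V hVN hV a.1]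
  · obtain ⟨a, ha⟩ := exists_carryH2_ne_zero_of_formation F hDIV N₀ hU χ h0
    exact ⟨a, fun h => ha ((hβ0 χ a).mp h)⟩

end Form

end Fermat.Agent.CFT.H74
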