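/-
CFT project, layer C, C-EXIST (I5) (helper24, hedge): the β-INSTANTIATION.

For a `p`-class formation `PF` on `(G_ℚ, globalLevels S, C_S)` and a number field `K ⊇ μ_p` embedded
in `ℚbar` by `ιK` with image unramified outside `S`, the pairing
`B a x := β (χ_x) (csIncl a)`, where `β` is helper74's carry form at `N₀ = U_K`
(`H74.exists_carryForm`) and `χ_x` is helper10's Kummer character of `x ∈ Kˣ`
(`H10.kummerLevelChi`), satisfies the hypotheses (B1)–(B5) of helper3's `H3.existFin_of_beta`.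
-/
import Mathlib
import Fermat.Agent.CFT.H24_GlobalExist
import Fermat.Agent.CFT.H74_CarryForm
import Fermat.Agent.CFT.H10_KummerLevelChar
import Fermat.Agent.CFT.H10_ExistKummerSeq
import Fermat.Agent.CFT.H10_ExistUnram2

set_option autoImplicit false
set_option linter.style.haveILetI false

open CategoryTheory

noncomputable section

namespace Fermat.Agent.CFT.H24

open Fermat.Agent.CFT IntermediateField

local notation "Qbar" => AlgebraicClosure ℚ
local notation "GQ" => (AlgebraicClosure ℚ ≃ₐ[ℚ] AlgebraicClosure ℚ)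

section Radical

variable {K : Type} [Field K] [NumberField K] (ιK : K →ₐ[ℚ] Qbar) (p : ℕ) [Fact p.Prime]

omit [Fact p.Prime] in
theorem emb_injective : Function.Injective (ιK : K → Qbar) := ιK.toRingHom.injective

omit [Fact p.Prime] in
theorem map_mem_fieldRange (y : K) : ιK y ∈ ιK.fieldRange := ⟨y, rfl⟩

/-- A chosen `p`-th root in `ℚbar` of (the image of) `x ∈ Kˣ`. -/
def radical (x : Kˣ) : Qbar :=
  Classical.choose (IsAlgClosed.exists_pow_nat_eq (ιK (x : K)) (Fact.out : p.Prime).pos)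

theorem radical_pow (x : Kˣ) : radical ιK p x ^ p = ιK (x : K) :=
  Classical.choose_spec (IsAlgClosed.exists_pow_nat_eq (ιK (x : K)) (Fact.out : p.Prime).pos)

theorem radical_ne_zero (x : Kˣ) : radical ιK p x ≠ 0 := by
  intro h
  have h1 := radical_pow ιK p x
  rw [h, zero_pow (Fact.out : p.Prime).ne_zero] at h1
  exact x.ne_zero (emb_injective ιK (h1.symm.trans (map_zero ιK).symm))

theorem radical_pow_mem (x : Kˣ) : radical ιK p x ^ p ∈ ιK.fieldRange := by
  rw [radical_pow]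
  exact ⟨_, rfl⟩

variable {p} {ζ : K} (hζ : IsPrimitiveRoot ζ p)

include hζ in
omit [Fact p.Prime] in
theorem isPrimitiveRoot_map : IsPrimitiveRoot (ιK ζ) p :=
  hζ.map_of_injective (emb_injective ιK)

include hζ in
/-- Two `p`-th roots of the same element differ by a power of `ζ`. -/
theorem eq_zeta_pow_mul_of_pow_eq {β γ : Qbar} (hβ0 : β ≠ 0) (h : γ ^ p = β ^ p) :
    ∃ i : ℕ, γ = ιK ζ ^ i * β := by
  haveI : NeZero p := ⟨(Fact.out : p.Prime).ne_zero⟩
  have h1 : (γ / β) ^ p = 1 := by rw [div_pow, h, div_self (pow_ne_zero _ hβ0)]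
  obtain ⟨i, -, hi⟩ := (isPrimitiveRoot_map ιK hζ).eq_pow_of_pow_eq_one h1
  exact ⟨i, by rw [hi, div_mul_cancel₀ _ hβ0]⟩

include hζ in
/-- The radical of a `p`-th power lies in the image of `K`. -/
theorem radical_mem_of_pow (x : Kˣ) (c : K) (hc : c ^ p = (x : K)) :
    radical ιK p x ∈ ιK.fieldRange := by
  have hc0 : ιK c ≠ 0 := by
    intro h
    have h2 : c = 0 := emb_injective ιK (h.trans (map_zero ιK).symm)
    rw [h2, zero_pow (Fact.out : p.Prime).ne_zero] at hc
    exact x.ne_zero hc.symm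
  obtain ⟨i, hi⟩ := eq_zeta_pow_mul_of_pow_eq ιK hζ hc0
    (show radical ιK p x ^ p = (ιK c) ^ p by rw [radical_pow, ← map_pow, hc])
  rw [hi]
  refine ⟨ζ ^ i * c, ?_⟩
  show ιK (ζ ^ i * c) = _
  rw [map_mul, map_pow]

/-- If the radical lies in the image of `K`, then `x` is a `p`-th power. -/
theorem exists_pow_eq_of_radical_mem (x : Kˣ) (h : radical ιK p x ∈ ιK.fieldRange) :
    ∃ c : K, c ^ p = (x : K) := by
  obtain ⟨c, hc⟩ := h
  refine ⟨c, emb_injective ιK ?_⟩
  have hc' : ιK c = radical ιK p x := hc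
  rw [map_pow, hc', radical_pow]

end Radical

section Unram

variable {S : Finset Nat.Primes} {K : Type} [Field K] [NumberField K] {ιK : K →ₐ[ℚ] Qbar}
  (hK : ιK.fieldRange.IsUnramifiedOutside S) {p : ℕ} [hp : Fact p.Prime]
  (hpS : (⟨p, hp.out⟩ : Nat.Primes) ∈ S) {ζ : K} (hζ : IsPrimitiveRoot ζ p)

include hK hpS hζ in
/-- **The Kummer field of a class in `X_S` is unramified outside `S`** (frozen sense). -/
theorem isUnramifiedOutside_sup_adjoin_radical (x : Kˣ) (hx : x ∈ H10.XS S K p) :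
    (ιK.fieldRange ⊔ ℚ⟮radical ιK p x⟯).IsUnramifiedOutside S := by
  by_cases hpow : ∃ c : K, c ^ p = (x : K)
  · obtain ⟨c, hc⟩ := hpow
    have hmem := radical_mem_of_pow ιK hζ x c hc
    have hle : ℚ⟮radical ιK p x⟯ ≤ ιK.fieldRange := by
      rw [IntermediateField.adjoin_simple_le_iff]
      exact hmem
    rw [sup_eq_left.mpr hle]
    exact hK
  · push Not at hpow
    obtain ⟨M, _, _, _, _, -, hur, α, hα, -⟩ :=
      H10.exists_kummer_ext_of_dvd S K hp.out hpS hζ x hx hpow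
    obtain ⟨ιM, hι⟩ := exists_embedding_over (M := M) ιK
    have hM : ιM.fieldRange.IsUnramifiedOutside S :=
      H45.isUnramifiedOutside_of_unramOutside hι hK hur
    refine IntermediateField.IsUnramifiedOutside.of_le ?_ hM
    rw [sup_le_iff]
    constructor
    · rintro _ ⟨y, rfl⟩
      exact ⟨algebraMap K M y, hι y⟩
    · rw [IntermediateField.adjoin_simple_le_iff]
      have hα0 : ιM α ≠ 0 := by
        intro h
        have h2 : α = 0 := emb_injective ιM (h.trans (map_zero ιM).symm)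
        rw [h2, zero_pow hp.out.ne_zero] at hα
        have h3 : algebraMap K M (x : K) ≠ 0 := by
          rw [Ne, map_eq_zero]
          exact x.ne_zero
        exact h3 hα.symm
      obtain ⟨i, hi⟩ := eq_zeta_pow_mul_of_pow_eq ιK hζ hα0
        (show radical ιK p x ^ p = (ιM α) ^ p by rw [radical_pow, ← map_pow, hα, hι])
      rw [hi]
      refine ⟨algebraMap K M (ζ ^ i) * α, ?_⟩
      show ιM (algebraMap K M (ζ ^ i) * α) = _
      rw [map_mul, hι, map_pow]

end Unram

section KummerChar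

variable {S : Finset Nat.Primes} {K : Type} [Field K] [NumberField K] (ιK : K →ₐ[ℚ] Qbar)
  (p : ℕ) [hp : Fact p.Prime] {ζ : K} (hζ : IsPrimitiveRoot ζ p)

local instance neZero_h24b : NeZero p := ⟨hp.out.ne_zero⟩

/-- The Kummer character of `x ∈ Kˣ` on `U_K = Gal(ℚbar/ιK K)`. -/
def kchi (ζ : K) (x : Kˣ) : ↥ιK.fieldRange.fixingSubgroup → ZMod p :=
  H10.kummerLevelChi ιK.fieldRange p (ιK ζ) (radical ιK p x)

variable {p}

include hζ in
theorem kchi_mem_levelChars (hK : ιK.fieldRange.IsUnramifiedOutside S)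
    (hpS : (⟨p, hp.out⟩ : Nat.Primes) ∈ S) (x : Kˣ) (hx : x ∈ H10.XS S K p) :
    kchi ιK p ζ x ∈
      H74.levelChars ((globalLevels S).restrict ιK.fieldRange.fixingSubgroup) p :=
  H10.kummerLevelChi_mem_levelChars S (isPrimitiveRoot_map ιK hζ) (map_mem_fieldRange ιK ζ)
    (radical_ne_zero ιK p x) (radical_pow_mem ιK p x)
    (isUnramifiedOutside_sup_adjoin_radical hK hpS hζ x hx)

include hζ in
theorem kchi_mul (x x' : Kˣ) : kchi ιK p ζ (x * x') = kchi ιK p ζ x + kchi ιK p ζ x' := by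
  unfold kchi
  rw [← H10.kummerLevelChi_mul (isPrimitiveRoot_map ιK hζ) (radical_ne_zero ιK p x)
    (radical_ne_zero ιK p x') (radical_pow_mem ιK p x) (radical_pow_mem ιK p x')]
  refine H10.kummerLevelChi_eq_of_pow_eq (isPrimitiveRoot_map ιK hζ) (map_mem_fieldRange ιK ζ)
    (mul_ne_zero (radical_ne_zero ιK p x) (radical_ne_zero ιK p x')) ?_ ?_
  · rw [mul_pow]
    exact mul_mem (radical_pow_mem ιK p x) (radical_pow_mem ιK p x')
  · rw [mul_pow, radical_pow, radical_pow, radical_pow, Units.val_mul, map_mul]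

include hζ in
theorem kchi_eq_zero_iff (x : Kˣ) : kchi ιK p ζ x = 0 ↔ ∃ c : K, c ^ p = (x : K) := by
  unfold kchi
  rw [H10.kummerLevelChi_eq_zero_iff_mem (isPrimitiveRoot_map ιK hζ) (radical_ne_zero ιK p x)
    (radical_pow_mem ιK p x)]
  constructor
  · exact exists_pow_eq_of_radical_mem ιK x
  · rintro ⟨c, hc⟩
    exact radical_mem_of_pow ιK hζ x c hc

include hζ in
/-- `χ_x(κ) = 0` iff `κ` fixes the chosen radical. -/
theorem kchi_apply_eq_zero_iff (x : Kˣ) (κ : ↥ιK.fieldRange.fixingSubgroup) :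
    kchi ιK p ζ x κ = 0 ↔ (κ : GQ) (radical ιK p x) = radical ιK p x :=
  H10.kummerChi_eq_zero_iff (isPrimitiveRoot_map ιK hζ) (radical_ne_zero ιK p x)
    (H10.map_pow_eq_of_mem (radical_pow_mem ιK p x) κ)

section Kernel

variable {M : Type} [Field M] [NumberField M] [Algebra K M] [IsGalois K M]
  {ιM : M →ₐ[ℚ] Qbar} (hι : ∀ y : K, ιM (algebraMap K M y) = ιK y)

include hζ hι in
/-- **The kernel of the Kummer character is `U_M`** for the Kummer extension `M = K(x^{1/p})`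
(abstract, of degree `p`, embedded compatibly). -/
theorem kchi_apply_eq_zero_iff_mem (hdeg : Module.finrank K M = p) (x : Kˣ)
    (hx : ∀ c : K, c ^ p ≠ (x : K)) (α : M) (hα : α ^ p = algebraMap K M (x : K))
    (κ : ↥ιK.fieldRange.fixingSubgroup) :
    kchi ιK p ζ x κ = 0 ↔ (κ : GQ) ∈ ιM.fieldRange.fixingSubgroup := by
  rw [kchi_apply_eq_zero_iff ιK hζ]
  -- `ιM α = ζ^i β`
  have hβ0 := radical_ne_zero ιK p x
  obtain ⟨i, hi⟩ := eq_zeta_pow_mul_of_pow_eq ιK hζ hβ0
    (show (ιM α) ^ p = radical ιK p x ^ p by rw [radical_pow, ← map_pow, hα, hι])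
  have hκζ : (κ : GQ) (ιK ζ) = ιK ζ :=
    (mem_fixingSubgroup_fieldRange_iff ιK κ.1).mp κ.2 ζ
  have hζ0 : ιK ζ ^ i ≠ 0 :=
    pow_ne_zero _ ((isPrimitiveRoot_map ιK hζ).ne_zero hp.out.ne_zero)
  -- step 1: `κ β = β ↔ κ (ιM α) = ιM α`
  have h1 : (κ : GQ) (radical ιK p x) = radical ιK p x ↔ (κ : GQ) (ιM α) = ιM α := by
    rw [hi, map_mul, map_pow, hκζ]
    constructor
    · intro h; rw [h]
    · intro h; exact mul_left_cancel₀ hζ0 h
  -- step 2: `κ (ιM α) = ιM α ↔ τ α = α`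
  have h2 : (κ : GQ) (ιM α) = ιM α ↔ restrictRel ιK ιM hι κ α = α := by
    rw [restrictRel_spec ιK ιM hι κ α]
    constructor
    · intro h; exact emb_injective ιM h
    · intro h; rw [h]
  -- step 3: `τ α = α ↔ τ = 1`
  have hcard : Nat.card (M ≃ₐ[K] M) = p := by
    rw [IsGalois.card_aut_eq_finrank, hdeg]
  have h3 : restrictRel ιK ιM hι κ α = α ↔ restrictRel ιK ιM hι κ = 1 := by
    constructor
    · intro hfix
      by_contra hne
      have htop := zpowers_eq_top_of_prime_card hcard hne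
      have hall : ∀ f : M ≃ₐ[K] M, f α = α := by
        intro f
        have hf : f ∈ Subgroup.zpowers (restrictRel ιK ιM hι κ) := by
          rw [htop]; exact Subgroup.mem_top f
        have hstab : Subgroup.zpowers (restrictRel ιK ιM hι κ) ≤
            MulAction.stabilizer (M ≃ₐ[K] M) α := by
          rw [Subgroup.zpowers_le]
          exact hfix
        exact hstab hf
      obtain ⟨c, hc⟩ := (InfiniteGalois.mem_range_algebraMap_iff_fixed (k := K) (K := M) α).mpr hall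
      apply hx c
      apply (algebraMap K M).injective
      rw [map_pow, hc, hα]
    · intro h; rw [h]; rfl
  -- step 4: `τ = 1 ↔ κ ∈ U_M`
  have h4 : restrictRel ιK ιM hι κ = 1 ↔ (κ : GQ) ∈ ιM.fieldRange.fixingSubgroup := by
    rw [← MonoidHom.mem_ker, ← restrictRel_ker ιK ιM hι, Subgroup.mem_subgroupOf]
  exact h1.trans (h2.trans (h3.trans h4))

end Kernel

end KummerChar

section Main

variable {S : Finset Nat.Primes} {p : ℕ} [hp : Fact p.Prime]
  {K : Type} [Field K] [NumberField K] {ιK : K →ₐ[ℚ] Qbar}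
  (hK : ιK.fieldRange.IsUnramifiedOutside S)

local instance neZero_h24c : NeZero p := ⟨hp.out.ne_zero⟩

/-- The image of `a ∈ CS S K` at the top, as a `U_K`-invariant of `C_S`. -/
def topInv (a : H23.CS S K) :
    ↥(LevelStructure.H0 (Rep.res ιK.fieldRange.fixingSubgroup.subtype (H77.repCSTop S))) :=
  ⟨Additive.ofMul (H77.csIncl hK (H45.divDescent hK) a), fun g =>
    congrArg Additive.ofMul (H77.smul_csIncl_of_mem_fixer hK (H45.divDescent hK) g.1 g.2 a)⟩

theorem topInv_coe (a : H23.CS S K) :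
    ((topInv hK a : ↥(LevelStructure.H0 (Rep.res ιK.fieldRange.fixingSubgroup.subtype
      (H77.repCSTop S)))) : (H77.repCSTop S).V) =
      Additive.ofMul (H77.csIncl hK (H45.divDescent hK) a) := rfl

theorem topInv_mul (a a' : H23.CS S K) : topInv hK (a * a') = topInv hK a + topInv hK a' := by
  apply Subtype.ext
  show Additive.ofMul (H77.csIncl hK (H45.divDescent hK) (a * a')) = _
  rw [map_mul]
  rfl

theorem exists_topInv_eq (hS : S.Nonempty)
    (t : ↥(LevelStructure.H0 (Rep.res ιK.fieldRange.fixingSubgroup.subtype (H77.repCSTop S)))) :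
    ∃ a : H23.CS S K, topInv hK a = t := by
  obtain ⟨a, ha⟩ := (H77.mem_range_csIncl_iff hK (H45.divDescent hK) hS H45.hasDivisors
    (Additive.toMul t.1)).mpr (fun σ hσ => congrArg Additive.toMul (t.2 ⟨σ, hσ⟩))
  exact ⟨a, Subtype.ext (congrArg Additive.ofMul ha)⟩

/-- abbreviation: the level characters of `U_K`. -/
abbrev KChars (S : Finset Nat.Primes) (p : ℕ) [NeZero p] (ιK : K →ₐ[ℚ] Qbar) :
    AddSubgroup (↥ιK.fieldRange.fixingSubgroup → ZMod p) :=
  H74.levelChars ((globalLevels S).restrict ιK.fieldRange.fixingSubgroup) p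

/-- abbreviation: the `U_K`-invariants of `C_S`. -/
abbrev TopInv (S : Finset Nat.Primes) (ιK : K →ₐ[ℚ] Qbar) : Type :=
  ↥(LevelStructure.H0 (Rep.res ιK.fieldRange.fixingSubgroup.subtype (H77.repCSTop S)))

variable (β : ↥(KChars S p ιK) →+ TopInv S ιK →+ ZMod p) (ζ : K)

open Classical in
/-- The pairing `B a x = β(χ_x)(a)` (junk value `0` when `χ_x` is not a level character). -/
def betaB (a : H23.CS S K) (x : Kˣ) : ZMod p :=
  if h : kchi ιK p ζ x ∈ KChars S p ιK then β ⟨kchi ιK p ζ x, h⟩ (topInv hK a) else 0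

theorem betaB_of_mem (a : H23.CS S K) (x : Kˣ) (h : kchi ιK p ζ x ∈ KChars S p ιK) :
    betaB hK β ζ a x = β ⟨kchi ιK p ζ x, h⟩ (topInv hK a) := dif_pos h

theorem betaB_of_not_mem (a : H23.CS S K) (x : Kˣ) (h : kchi ιK p ζ x ∉ KChars S p ιK) :
    betaB hK β ζ a x = 0 := dif_neg h

theorem betaB_of_eq_zero (a : H23.CS S K) (x : Kˣ) (h0 : kchi ιK p ζ x = 0) :
    betaB hK β ζ a x = 0 := by
  by_cases h : kchi ιK p ζ x ∈ KChars S p ιK
  · rw [betaB_of_mem hK β ζ a x h]
    have h1 : (⟨kchi ιK p ζ x, h⟩ : ↥(KChars S p ιK)) = 0 := Subtype.ext h0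
    rw [h1, map_zero]
    rfl
  · exact betaB_of_not_mem hK β ζ a x h

theorem betaB_mul_left (a a' : H23.CS S K) (x : Kˣ) :
    betaB hK β ζ (a * a') x = betaB hK β ζ a x + betaB hK β ζ a' x := by
  by_cases h : kchi ιK p ζ x ∈ KChars S p ιK
  · rw [betaB_of_mem hK β ζ _ x h, betaB_of_mem hK β ζ _ x h, betaB_of_mem hK β ζ _ x h,
      topInv_mul, map_add]
  · rw [betaB_of_not_mem hK β ζ _ x h, betaB_of_not_mem hK β ζ _ x h,
      betaB_of_not_mem hK β ζ _ x h, add_zero]

theorem betaB_mul_right (hζ : IsPrimitiveRoot ζ p) (a : H23.CS S K) (x x' : Kˣ)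
    (h : kchi ιK p ζ x ∈ KChars S p ιK) (h' : kchi ιK p ζ x' ∈ KChars S p ιK) :
    betaB hK β ζ a (x * x') = betaB hK β ζ a x + betaB hK β ζ a x' := by
  have h'' : kchi ιK p ζ (x * x') ∈ KChars S p ιK := by
    rw [kchi_mul ιK hζ]
    exact add_mem h h'
  rw [betaB_of_mem hK β ζ a _ h, betaB_of_mem hK β ζ a _ h', betaB_of_mem hK β ζ a _ h'']
  have h1 : (⟨kchi ιK p ζ (x * x'), h''⟩ : ↥(KChars S p ιK)) =
      ⟨kchi ιK p ζ x, h⟩ + ⟨kchi ιK p ζ x', h'⟩ := Subtype.ext (kchi_mul ιK hζ x x')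
  rw [h1, map_add]
  rfl

variable (PF : PClassFormation p (globalLevels S) (H77.repCSTop S))
  (hDIV : HasDIV (globalLevels S) p)
  (hpS : (⟨p, hp.out⟩ : Nat.Primes) ∈ S) {ζ} (hζ : IsPrimitiveRoot ζ p)

include PF hDIV hK hpS hζ in
/-- **(I5): the β-instantiation.**  The pairing `B : CS S K → Kˣ → ZMod p` with the properties
(B1)–(B5) consumed by `H3.existFin_of_beta`. -/
theorem exists_beta :
    ∃ B : H23.CS S K → Kˣ → ZMod p,
      (∀ a a' x, B (a * a') x = B a x + B a' x) ∧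
      (∀ a, ∀ x ∈ H10.XS S K p, ∀ x' ∈ H10.XS S K p, B a (x * x') = B a x + B a x') ∧
      (∀ a (c : Kˣ), B a (c ^ p) = 0) ∧
      (∀ a, ∀ x ∈ H10.XS S K p, ∀ (M : Type) [Field M] [NumberField M] [Algebra K M]
        [IsGalois K M], Module.finrank K M = p → H23.UnramOutside S K M →
        (∃ α : M, α ^ p = algebraMap K M (x : K)) →
        (∃ y : H23.CS S M, H23.CS.baseChange S K M a = ∏ τ : M ≃ₐ[K] M, τ • y) → B a x = 0) ∧
      (∀ x ∈ H10.XS S K p, (∀ c : K, c ^ p ≠ (x : K)) → ∃ a : H23.CS S K, B a x ≠ 0) := by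
  have hS : S.Nonempty := ⟨_, hpS⟩
  have hopen : (globalLevels S).IsOpen ιK.fieldRange.fixingSubgroup :=
    ⟨_, ⟨ιK.fieldRange, hK, rfl⟩, le_rfl⟩
  obtain ⟨β, -, -, h3, h4⟩ := H74.exists_carryForm PF hDIV ιK.fieldRange.fixingSubgroup hopen
  refine ⟨betaB hK β ζ, betaB_mul_left hK β ζ, ?_, ?_, ?_, ?_⟩
  · intro a x hx x' hx'
    exact betaB_mul_right hK β ζ hζ a x x' (kchi_mem_levelChars ιK hζ hK hpS x hx)
      (kchi_mem_levelChars ιK hζ hK hpS x' hx')
  · intro a c
    apply betaB_of_eq_zero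
    rw [kchi_eq_zero_iff ιK hζ]
    exact ⟨(c : K), by rw [Units.val_pow_eq_pow_val]⟩
  · intro a x hx M _ _ _ _ hdeg hur hα hnorm
    by_cases h0 : kchi ιK p ζ x = 0
    · exact betaB_of_eq_zero hK β ζ a x h0
    · have hxp : ∀ c : K, c ^ p ≠ (x : K) := fun c hc =>
        h0 ((kchi_eq_zero_iff ιK hζ x).mpr ⟨c, hc⟩)
      obtain ⟨α, hα⟩ := hα
      obtain ⟨ιM, hι⟩ := exists_embedding_over (M := M) ιK
      have hM : ιM.fieldRange.IsUnramifiedOutside S :=
        H45.isUnramifiedOutside_of_unramOutside hι hK hur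
      have h := kchi_mem_levelChars ιK hζ hK hpS x hx
      rw [betaB_of_mem hK β ζ a x h]
      haveI := subgroupOf_fixingSubgroup_normal ιK ιM hι
      refine (h3 ⟨kchi ιK p ζ x, h⟩ h0 ιM.fieldRange.fixingSubgroup
        (fixingSubgroup_fieldRange_le ιK ιM hι)
        (fun κ => kchi_apply_eq_zero_iff_mem ιK hζ hι hdeg x hxp α hα κ) (topInv hK a)).mpr ?_
      exact (exists_norm_iff hι hM (H45.divDescent hM) hK (H45.divDescent hK) hS
        H45.hasDivisors a).mp hnorm
  · intro x hx hxp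
    have h := kchi_mem_levelChars ιK hζ hK hpS x hx
    have h0 : kchi ιK p ζ x ≠ 0 := fun h0 => by
      obtain ⟨c, hc⟩ := (kchi_eq_zero_iff ιK hζ x).mp h0
      exact hxp c hc
    obtain ⟨t, ht⟩ := h4 ⟨kchi ιK p ζ x, h⟩ h0
    obtain ⟨a, rfl⟩ := exists_topInv_eq hK hS t
    exact ⟨a, by rw [betaB_of_mem hK β ζ a x h]; exact ht⟩

end Main

end Fermat.Agent.CFT.H24
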