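/-
CFT layer C, package C-LAYER-GLUE-b (helper42): for number fields `K ⊆ F`, `F/K` Galois,
`N ◁ Gal(F/K)` and `M := fixedField N`, the pair equivalence
  `(Gal(M/K), CS S M) ≃ (Gal(F/K) ⧸ N, (CS S F)^N)`
(`H43.PairEquiv (repCS S M K) ((repCS S F K).quotientToInvariants N)`), from Galois descent for
`F/M` (`H23_CDescent`) and the tower equivariance of `CS.baseChange` (`H23_CTower`).  Also: the action of `Gal(F/K)` on `CS S F` depends only on the
underlying ring automorphism (`smul_CS_congr`).
-/
import Mathlib
import Fermat.Agent.CFT.H23_CNorm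
import Fermat.Agent.CFT.H23_CTower
import Fermat.Agent.CFT.H43_Maps

set_option autoImplicit false

namespace Fermat.Agent.CFT.H42

open scoped TensorProduct NumberField
open IsDedekindDomain Fermat.Agent.CFT.H23

noncomputable section

/-! ### The action depends only on the underlying automorphism -/

section Congr

variable (S : Finset Nat.Primes) (F : Type*) [Field F] [NumberField F]
  (K : Type*) [Field K] [CharZero K] [Algebra K F]
  (K' : Type*) [Field K'] [CharZero K'] [Algebra K' F]

theorem smul_loc_congr (q : Nat.Primes) (σ : F ≃ₐ[K] F) (σ' : F ≃ₐ[K'] F)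
    (h : ∀ x : F, σ x = σ' x) (t : Loc F q) : σ • t = σ' • t := by
  induction t using TensorProduct.induction_on with
  | zero => rw [smul_zero, smul_zero]
  | tmul x a => rw [smul_tmul_left, smul_tmul_left, h]
  | add x y hx hy => rw [smul_add, smul_add, hx, hy]

theorem smul_JS_congr (σ : F ≃ₐ[K] F) (σ' : F ≃ₐ[K'] F)
    (h : ∀ x : F, σ x = σ' x) (j : JS S F) : σ • j = σ' • j := by
  funext q
  apply Units.ext
  show σ • ((j q : (Loc F q.1)ˣ) : Loc F q.1) = σ' • ((j q : (Loc F q.1)ˣ) : Loc F q.1)
  exact smul_loc_congr F K K' q.1 σ σ' h _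

theorem smul_prime_congr (σ : F ≃ₐ[K] F) (σ' : F ≃ₐ[K'] F)
    (h : ∀ x : F, σ x = σ' x) (v : HeightOneSpectrum (𝓞 F)) : σ • v = σ' • v := by
  apply HeightOneSpectrum.ext
  ext x
  rw [mem_smul_prime_iff, mem_smul_prime_iff]
  have hinv : σ⁻¹ • x = σ'⁻¹ • x := by
    apply Subtype.ext
    show σ⁻¹ (x : F) = σ'⁻¹ (x : F)
    apply σ.injective
    rw [h (σ'⁻¹ (x : F))]
    show σ (σ.symm (x : F)) = σ' (σ'.symm (x : F))
    rw [AlgEquiv.apply_symm_apply, AlgEquiv.apply_symm_apply]
  rw [hinv]

theorem smul_DivS_congr (σ : F ≃ₐ[K] F) (σ' : F ≃ₐ[K'] F)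
    (h : ∀ x : F, σ x = σ' x) (D : DivS S F) : σ • D = σ' • D := by
  ext v
  rw [smul_divS_apply, smul_divS_apply]
  congr 1
  apply Subtype.ext
  rw [coe_smul_primesOutside, coe_smul_primesOutside]
  refine smul_prime_congr F K K' σ⁻¹ σ'⁻¹ (fun x => ?_) v.1
  apply σ.injective
  rw [h (σ'⁻¹ x)]
  show σ (σ.symm x) = σ' (σ'.symm x)
  rw [AlgEquiv.apply_symm_apply, AlgEquiv.apply_symm_apply]

theorem smul_IdS_congr (σ : F ≃ₐ[K] F) (σ' : F ≃ₐ[K'] F)
    (h : ∀ x : F, σ x = σ' x) (y : IdS S F) : σ • y = σ' • y := by
  refine Prod.ext (smul_JS_congr S F K K' σ σ' h y.1) ?_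
  show Multiplicative.ofAdd (σ • Multiplicative.toAdd y.2) =
    Multiplicative.ofAdd (σ' • Multiplicative.toAdd y.2)
  rw [smul_DivS_congr S F K K' σ σ' h]

/-- The action of an automorphism on `CS S F` depends only on the underlying map `F → F`. -/
theorem smul_CS_congr (σ : F ≃ₐ[K] F) (σ' : F ≃ₐ[K'] F)
    (h : ∀ x : F, σ x = σ' x) (c : CS S F) : σ • c = σ' • c := by
  induction c using QuotientGroup.induction_on with
  | H y => exact congrArg (toCS S F) (smul_IdS_congr S F K K' σ σ' h y)

end Congr

/-! ### The layer pair equivalence -/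

section Layer

variable (S : Finset Nat.Primes) (K F : Type) [Field K] [NumberField K] [Field F] [NumberField F]
  [Algebra K F] [IsGalois K F] (N : Subgroup (F ≃ₐ[K] F)) [N.Normal]

/-- The intermediate field cut out by `N`. -/
abbrev layerField : IntermediateField K F := IntermediateField.fixedField N

/-- The tower equivariance of `CS.baseChange` (helper23's `H23_CTower`), as a hypothesis. -/
def TowerEquivariance : Prop :=
  ∀ (σ : F ≃ₐ[K] F) (c : CS S ↥(layerField K F N)),
    σ • CS.baseChange S ↥(layerField K F N) F c =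
      CS.baseChange S ↥(layerField K F N) F
        (AlgEquiv.restrictNormalHom ↥(layerField K F N) σ • c)

/-- The tower equivariance holds (helper23's `smul_CS_baseChange_tower`). -/
theorem towerEquivariance : TowerEquivariance S K F N := fun σ c =>
  smul_CS_baseChange_tower S K ↥(layerField K F N) F σ c

omit [IsGalois K F] [N.Normal] in
/-- Elements of `N` fix the image of `CS S M`. -/
theorem smul_baseChange_of_mem (n : F ≃ₐ[K] F) (hn : n ∈ N) (c : CS S ↥(layerField K F N)) :
    n • CS.baseChange S ↥(layerField K F N) F c = CS.baseChange S ↥(layerField K F N) F c := by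
  have hn' : n ∈ (layerField K F N).fixingSubgroup := by
    rw [IntermediateField.fixingSubgroup_fixedField]; exact hn
  let n' : F ≃ₐ[↥(layerField K F N)] F :=
    IntermediateField.fixingSubgroupEquiv (layerField K F N) ⟨n, hn'⟩
  rw [smul_CS_congr S F K ↥(layerField K F N) n n' (fun _ => rfl)]
  exact smul_CS_baseChange S ↥(layerField K F N) F n' c

omit [N.Normal] in
/-- An `N`-invariant class of `F` comes from `M` (Galois descent for `F/M`). -/
theorem exists_baseChange_eq_of_fixed (hS : S.Nonempty)
    (hur : UnramOutside S ↥(layerField K F N) F) (y : CS S F)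
    (hy : ∀ n : F ≃ₐ[K] F, n ∈ N → n • y = y) :
    ∃ c : CS S ↥(layerField K F N), CS.baseChange S ↥(layerField K F N) F c = y := by
  have h := (mem_range_CS_baseChange_iff S ↥(layerField K F N) F hS hur y).mpr ?_
  · exact h
  · intro σ'
    have hmem : σ'.restrictScalars K ∈ N := by
      have : σ'.restrictScalars K ∈ (layerField K F N).fixingSubgroup := fun x => σ'.commutes x
      rwa [IntermediateField.fixingSubgroup_fixedField] at this
    rw [← smul_CS_congr S F K ↥(layerField K F N) (σ'.restrictScalars K) σ' (fun _ => rfl)]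
    exact hy _ hmem

/-- The underlying additive map of the layer pair equivalence. -/
def layerHom :
    Additive (CS S ↥(layerField K F N)) →+
      ↥(Representation.invariants ((repCS S F K).ρ.comp N.subtype)) where
  toFun x := ⟨Additive.ofMul (CS.baseChange S ↥(layerField K F N) F (Additive.toMul x)),
    fun n => by
      show Additive.ofMul ((n : F ≃ₐ[K] F) • CS.baseChange S ↥(layerField K F N) F
        (Additive.toMul x)) = _
      rw [smul_baseChange_of_mem S K F N n n.2]
      rfl⟩
  map_zero' := Subtype.ext (by
    show Additive.ofMul (CS.baseChange S ↥(layerField K F N) F 1) = 0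
    rw [map_one]; rfl)
  map_add' x y := Subtype.ext (by
    show Additive.ofMul (CS.baseChange S ↥(layerField K F N) F
      (Additive.toMul x * Additive.toMul y)) = _
    rw [map_mul]; rfl)

omit [IsGalois K F] [N.Normal] in
theorem coe_layerHom (x : Additive (CS S ↥(layerField K F N))) :
    (layerHom S K F N x).1 =
      Additive.ofMul (CS.baseChange S ↥(layerField K F N) F (Additive.toMul x)) := rfl

omit [N.Normal] in
theorem layerHom_bijective (hS : S.Nonempty) (hur : UnramOutside S ↥(layerField K F N) F) :
    Function.Bijective (layerHom S K F N) := by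
  constructor
  · intro x y hxy
    have h : CS.baseChange S ↥(layerField K F N) F (Additive.toMul x) =
        CS.baseChange S ↥(layerField K F N) F (Additive.toMul y) :=
      congrArg (fun z : ↥(Representation.invariants ((repCS S F K).ρ.comp N.subtype)) =>
        Additive.toMul z.1) hxy
    exact Additive.toMul.injective (CS.baseChange_injective S ↥(layerField K F N) F hS h)
  · rintro ⟨y, hy⟩
    obtain ⟨c, hc⟩ := exists_baseChange_eq_of_fixed S K F N hS hur (Additive.toMul y)
      (fun n hn => by
        have := hy ⟨n, hn⟩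
        exact congrArg Additive.toMul this)
    exact ⟨Additive.ofMul c, Subtype.ext (congrArg Additive.ofMul hc)⟩

/-- Equivariance of `layerHom` (from the tower equivariance of `CS.baseChange`). -/
theorem layerHom_comm (htower : TowerEquivariance S K F N) (σ : F ≃ₐ[K] F)
    (a : Additive (CS S ↥(layerField K F N))) :
    layerHom S K F N (Additive.ofMul
      (AlgEquiv.restrictNormalHom ↥(layerField K F N) σ • Additive.toMul a)) =
      ((repCS S F K).ρ.quotientToInvariants N) (QuotientGroup.mk σ) (layerHom S K F N a) := by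
  apply Subtype.ext
  show Additive.ofMul (CS.baseChange S ↥(layerField K F N) F
      (AlgEquiv.restrictNormalHom ↥(layerField K F N) σ • Additive.toMul a)) =
    Additive.ofMul (σ • CS.baseChange S ↥(layerField K F N) F (Additive.toMul a))
  rw [htower σ]

/-- **The layer pair equivalence** `(Gal(M/K), CS S M) ≃ (Gal(F/K) ⧸ N, (CS S F)^N)`,
`M = fixedField N`. -/
def layerPairEquivOf (hS : S.Nonempty) (hur : UnramOutside S ↥(layerField K F N) F)
    (htower : TowerEquivariance S K F N) :
    H43.PairEquiv (repCS S ↥(layerField K F N) K) ((repCS S F K).quotientToInvariants N) where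
  e := (IsGalois.normalAutEquivQuotient N).symm
  φ := (AddEquiv.ofBijective (layerHom S K F N)
    (layerHom_bijective S K F N hS hur)).toIntLinearEquiv
  comm g a := by
    obtain ⟨σ, hσ⟩ := QuotientGroup.mk_surjective ((IsGalois.normalAutEquivQuotient N).symm g)
    have hg : g = AlgEquiv.restrictNormalHom ↥(layerField K F N) σ := by
      have h1 := congrArg (IsGalois.normalAutEquivQuotient N) hσ
      rw [MulEquiv.apply_symm_apply] at h1
      rw [← h1]
      exact IsGalois.normalAutEquivQuotient_apply N σ
    rw [← hσ, hg]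
    exact layerHom_comm S K F N htower σ a

/-- **The layer pair equivalence**, unconditional form. -/
def layerPairEquiv (hS : S.Nonempty) (hur : UnramOutside S ↥(layerField K F N) F) :
    H43.PairEquiv (repCS S ↥(layerField K F N) K) ((repCS S F K).quotientToInvariants N) :=
  layerPairEquivOf S K F N hS hur (towerEquivariance S K F N)

theorem layerPairEquiv_e (hS : S.Nonempty) (hur : UnramOutside S ↥(layerField K F N) F) :
    (layerPairEquiv S K F N hS hur).e = (IsGalois.normalAutEquivQuotient N).symm := rfl

theorem layerPairEquiv_φ_apply (hS : S.Nonempty) (hur : UnramOutside S ↥(layerField K F N) F)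
    (a : Additive (CS S ↥(layerField K F N))) :
    ((layerPairEquiv S K F N hS hur).φ a).1 =
      Additive.ofMul (CS.baseChange S ↥(layerField K F N) F (Additive.toMul a)) := rfl

/-- helper9's `LayerPairHyp S` (H9_LayerGlue), given `S.Nonempty`. -/
theorem nonempty_layerPairEquiv (hS : S.Nonempty)
    (hur : UnramOutside S ↥(IntermediateField.fixedField N) F) :
    Nonempty (H43.PairEquiv (repCS S ↥(IntermediateField.fixedField N) K)
      ((repCS S F K).quotientToInvariants N)) :=
  ⟨layerPairEquiv S K F N hS hur⟩

end Layer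

end

end Fermat.Agent.CFT.H42
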