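/-
CFT project, layer C, glue (helper9): **`H24.FiniteLevelLayers p S` is unconditional**
(`p` odd, `p ∈ S`): the layers of degree `p` of the finite-level modules `H23.repCS S F ℚ`, for every
finite Galois `F/ℚ` unramified outside `S`.  This is the input `hlay` of helper24's
`H24.nonempty_pClassFormation_global`.

Inputs: `H9.finiteLevelLayers_of` (assembly), helper42's `H42.nonempty_layerPairEquiv` (layer pair
equivalence), helper23's `H23.hcyc_repCS` (cyclic layer theorem = FIRST + SECOND inequality).
-/
import Mathlib
import Fermat.Agent.CFT.H9_LayerGlue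
import Fermat.Agent.CFT.H42_LayerPair
import Fermat.Agent.CFT.H23_CCyclicLayer

set_option autoImplicit false

noncomputable section

namespace Fermat.Agent.CFT.H9

open Fermat.Agent.CFT

/-- helper42's layer pair equivalence, in the hypothesis shape of `finiteLevelLayers_of`. -/
theorem layerPairHyp (S : Finset Nat.Primes) (hS : S.Nonempty) : LayerPairHyp S :=
  fun K F _ _ _ _ _ _ N _ hur => H42.nonempty_layerPairEquiv S K F N hS hur

/-- helper23's cyclic layer theorem, in the hypothesis shape of `finiteLevelLayers_of`. -/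
theorem cyclicLayerHyp (p : ℕ) [hp : Fact p.Prime] (S : Finset Nat.Primes) (hp2 : p ≠ 2)
    (hpS : (⟨p, hp.out⟩ : Nat.Primes) ∈ S) : CyclicLayerHyp p S :=
  H23.hcyc_repCS S p hp2 hpS

/-- **The finite-level layers of degree `p`** (input `hlay` of layer C's export (X1)). -/
theorem finiteLevelLayers (p : ℕ) [hp : Fact p.Prime] (S : Finset Nat.Primes) (hp2 : p ≠ 2)
    (hpS : (⟨p, hp.out⟩ : Nat.Primes) ∈ S) : H24.FiniteLevelLayers p S :=
  finiteLevelLayers_of p S (layerPairHyp S ⟨_, hpS⟩) (cyclicLayerHyp p S hp2 hpS)

end Fermat.Agent.CFT.H9
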