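/-
CFT project, layer C, INTEGRATION (helper24): **(X1) — THE MAIN THEOREM OF LAYER C, UNCONDITIONAL.**

For an odd prime `p` and a finite set `S ∋ p` of primes, `(G_ℚ, globalLevels S, C_S)` with
`C_S = H77.repCSTop S` (the `S`-idele class group of `ℚ_S`, hybrid model) is a `p`-class formation.

Assembly of:
* (O1)/(O2) divisor side of the descent: helper45 (`H45.hasDivisors`, `H45.divDescent`);
* (O3) the layers of degree `p` at finite level: helper9 (`H9.finiteLevelLayers`), from the first
  inequality (helper63/48), the second inequality (helper34/56/79) and the layer glue (helper42);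
* (O4) (Ord): helper81 (`H81.finiteOrd_towerTop`, explicit symbol `thetaRat`);
* (O5) (Key): helper81 (`H81.finiteKey_towerTop`) from helper90's (Z3)
  (`H90.baseChange_mem_normSubgroup_zpComp`) and helper93's compositum models;
* the tower system / top-level transport: helper12, helper93, helper77, helper24.
-/
import Mathlib
import Fermat.Agent.CFT.H81_FiniteKey
import Fermat.Agent.CFT.H90_KeyZp
import Fermat.Agent.CFT.H9_LayerGlueFinal
import Fermat.Agent.CFT.H24_CMain

set_option autoImplicit false

open CategoryTheory

namespace Fermat.Agent.CFT.H24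

open Fermat.Agent.CFT ExtCitation

/-- helper90's (Z3) in helper81's packaging. -/
theorem keyZp (p : ℕ) [Fact p.Prime] (hp2 : p ≠ 2) {S : Finset Nat.Primes}
    (hpS : pPrime p ∈ S) : H81.KeyZp p hpS :=
  fun F _ e he => H90.baseChange_mem_normSubgroup_zpComp p e S F hp2 hpS he (H81.towerElt p hpS)

/-- (O5) for the tower element. -/
theorem finiteKey_towerTop (p : ℕ) [Fact p.Prime] (hp2 : p ≠ 2) {S : Finset Nat.Primes}
    (hpS : pPrime p ∈ S) : FiniteKey p S (H81.towerTop p hpS) :=
  H81.finiteKey_towerTop p hpS (keyZp p hp2 hpS)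

/-- **(X1): the global `p`-class formation**, unconditional. -/
theorem nonempty_pClassFormation (p : ℕ) [Fact p.Prime] (hp2 : p ≠ 2) (S : Finset Nat.Primes)
    (hpS : pPrime p ∈ S) :
    Nonempty (PClassFormation p (globalLevels S) (H77.repCSTop S)) :=
  H81.nonempty_pClassFormation_of_key p hp2 hpS (H9.finiteLevelLayers p S hp2 hpS)
    (finiteKey_towerTop p hp2 hpS)

end Fermat.Agent.CFT.H24
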