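/-
CFT layer C, package C-EXIST (helper51): the linear-algebra core of the existence theorem mod `p`
AT LEVEL `S` (no auxiliary set `T`, no descent).

`V = C_S(K)/p`, `J = J_S(K)/p`, `X = ` Kummer classes `x ∈ Kˣ/Kˣᵖ` with `p ∣ ord_v x` for `v ∉ S`,
`ι : J → V`, `lam : X → J` (localisation), `P : V → X^∨` the norm-residue pairing with the Kummer
extensions `K(x^{1/p})`.  If `ι ∘ lam = 0`, the classes which are locally trivial above `S` are
orthogonal to the image of `J` (split places: everything is a norm), `P` is right-nondegenerate
(norm index `p`) and `dim J + 2 (dim V - dim ι J) ≤ 2 dim X` (local indices, `S`-units, class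
group), then `P` is injective: an idele class which is a norm from every `K(x^{1/p})` is a `p`-th
power.
-/
import Mathlib

set_option autoImplicit false

namespace Fermat.Agent.CFT.H51

open Module

variable {F : Type*} [Field F] {V X J : Type*} [AddCommGroup V] [Module F V]
  [FiniteDimensional F V] [AddCommGroup X] [Module F X] [FiniteDimensional F X]
  [AddCommGroup J] [Module F J] [FiniteDimensional F J]

/-- A right-nondegenerate pairing `P : V → X^∨` with `dim V ≤ dim X` is injective. -/
theorem injective_of_right_nondeg_of_finrank_le (P : V →ₗ[F] Dual F X)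
    (hnd : ∀ x, (∀ v, P v x = 0) → x = 0) (hle : finrank F V ≤ finrank F X) :
    Function.Injective P := by
  -- the transpose is injective
  have hflip : Function.Injective P.flip := by
    rw [← LinearMap.ker_eq_bot, LinearMap.ker_eq_bot']
    intro x hx
    exact hnd x fun v => by
      have := LinearMap.congr_fun hx v
      simpa using this
  have h1 : finrank F X ≤ finrank F (Dual F V) := LinearMap.finrank_le_finrank_of_injective hflip
  rw [Subspace.dual_finrank_eq] at h1
  have heq : finrank F X = finrank F (Dual F V) := by
    rw [Subspace.dual_finrank_eq]; omega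
  have hsurj : Function.Surjective P.flip :=
    (LinearMap.injective_iff_surjective_of_finrank_eq_finrank heq).1 hflip
  rw [← LinearMap.ker_eq_bot, LinearMap.ker_eq_bot']
  intro v hv
  by_contra hv0
  obtain ⟨φ, hφ⟩ : ∃ φ : Dual F V, φ v ≠ 0 := by
    by_contra h
    push Not at h
    exact hv0 ((Module.forall_dual_apply_eq_zero_iff F v).1 h)
  obtain ⟨x, rfl⟩ := hsurj φ
  apply hφ
  have := LinearMap.congr_fun hv x
  simpa using this

/-- **Linear-algebra core of the existence theorem mod `p` at level `S`.** -/
theorem injective_of_count (P : V →ₗ[F] Dual F X) (ι : J →ₗ[F] V) (lam : X →ₗ[F] J)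
    (hιlam : ∀ x, ι (lam x) = 0)
    (hsplit : ∀ x, lam x = 0 → ∀ j, P (ι j) x = 0)
    (hnd : ∀ x, (∀ v, P v x = 0) → x = 0)
    (hcount : finrank F J + 2 * finrank F V ≤
      2 * finrank F X + 2 * finrank F (LinearMap.range ι)) :
    Function.Injective P := by
  refine injective_of_right_nondeg_of_finrank_le P hnd ?_
  -- `ker lam` embeds into the annihilator of `range ι`
  have hk : finrank F (LinearMap.ker lam) + finrank F (LinearMap.range ι) ≤ finrank F V := by
    let Γ : LinearMap.ker lam →ₗ[F] Dual F V := P.flip.comp (LinearMap.ker lam).subtype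
    have hΓ : ∀ (x : LinearMap.ker lam) (v : V), Γ x v = P v (x : X) := fun x v => rfl
    have hΓinj : Function.Injective Γ := by
      rw [← LinearMap.ker_eq_bot, LinearMap.ker_eq_bot']
      intro x hx
      apply Subtype.ext
      refine hnd (x : X) fun v => ?_
      rw [← hΓ, hx]
      rfl
    have hΓr : LinearMap.range Γ ≤ (LinearMap.range ι).dualAnnihilator := by
      rintro _ ⟨x, rfl⟩
      rw [Submodule.mem_dualAnnihilator]
      rintro _ ⟨j, rfl⟩
      rw [hΓ]
      exact hsplit (x : X) (LinearMap.mem_ker.1 x.2) j
    have h1 := Subspace.finrank_add_finrank_dualAnnihilator_eq (LinearMap.range ι)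
    have h2 : finrank F (LinearMap.ker lam) ≤ finrank F (LinearMap.range ι).dualAnnihilator := by
      rw [← LinearMap.finrank_range_of_inj hΓinj]
      exact Submodule.finrank_mono hΓr
    omega
  -- `range lam ≤ ker ι`
  have hr : finrank F (LinearMap.range lam) ≤ finrank F (LinearMap.ker ι) := by
    apply Submodule.finrank_mono
    rintro _ ⟨x, rfl⟩
    exact LinearMap.mem_ker.2 (hιlam x)
  have h3 := LinearMap.finrank_range_add_finrank_ker lam
  have h4 := LinearMap.finrank_range_add_finrank_ker ι
  omega

end Fermat.Agent.CFT.H51
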