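/-
CFT layer C, package C-EXIST (helper3, deputy): the abstract existence theorem mod `p` at level `S`
in GROUP form (helper51's plan v3), on top of `H51.injective_of_count`.

* `injective_of_count_group` : the linear core for commutative groups of exponent `p`
  (no `ZMod p`-module structures in the statement);
* `exists_pow_eq_of_pairing` : for a biadditive `B : C → G → ZMod p` (additive in the second
  variable on a subgroup `X ⊇ Gᵖ` only), `ι : J →* C`, `lam : G →* J` with `ι ∘ lam ⊆ Cᵖ`,
  (hsplit), (hnd) and the count `#(J/p) * [C : ι J · Cᵖ]² ≤ [X : Gᵖ]²`, an element `a : C`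
  orthogonal to `X` is a `p`-th power.
-/
import Mathlib
import Fermat.Agent.CFT.H51_ExistCount
import Fermat.Agent.CFT.H51_ExistDual

set_option autoImplicit false

namespace Fermat.Agent.CFT.H3

open Fermat.Agent.CFT.H51 Module

/-- The `ZMod p`-module structure on `Additive Q` for a commutative group `Q` of exponent `p`. -/
abbrev zmodModuleOfExp {Q : Type*} [CommGroup Q] (p : ℕ) (hQ : ∀ q : Q, q ^ p = 1) :
    Module (ZMod p) (Additive Q) :=
  AddCommGroup.zmodModule (n := p) fun x => congrArg Additive.ofMul (hQ (Additive.toMul x))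

section GroupForm

variable {Vq Xq Jq : Type*} [CommGroup Vq] [CommGroup Xq] [CommGroup Jq]
  [Finite Vq] [Finite Xq] [Finite Jq] (p : ℕ) [Fact p.Prime]

/-- Auxiliary form of `injective_of_count_group` with the module structures as instances. -/
theorem injective_of_count_group_aux [Module (ZMod p) (Additive Vq)]
    [Module (ZMod p) (Additive Xq)] [Module (ZMod p) (Additive Jq)] (P : Vq → Xq → ZMod p)
    (hP1 : ∀ v v' x, P (v * v') x = P v x + P v' x)
    (hP2 : ∀ v x x', P v (x * x') = P v x + P v x')
    (ι : Jq →* Vq) (lam : Xq →* Jq) (hιlam : ∀ x, ι (lam x) = 1)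
    (hsplit : ∀ x, lam x = 1 → ∀ j, P (ι j) x = 0)
    (hnd : ∀ x, (∀ v, P v x = 0) → x = 1)
    (hcount : Nat.card Jq * ι.range.index ^ 2 ≤ Nat.card Xq ^ 2)
    (v : Vq) (hv : ∀ x, P v x = 0) : v = 1 := by
  have hp : p.Prime := Fact.out
  -- the linear maps
  let Pin : Additive Vq → (Additive Xq →ₗ[ZMod p] ZMod p) := fun w =>
    AddMonoidHom.toZModLinearMap p
      (AddMonoidHom.mk' (fun x : Additive Xq => P (Additive.toMul w) (Additive.toMul x))
        (fun x x' => hP2 _ _ _))
  let Pl : Additive Vq →ₗ[ZMod p] Dual (ZMod p) (Additive Xq) :=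
    AddMonoidHom.toZModLinearMap p
      (AddMonoidHom.mk' Pin (fun w w' => by
        apply LinearMap.ext
        intro x
        rw [LinearMap.add_apply]
        exact hP1 (Additive.toMul w) (Additive.toMul w') (Additive.toMul x)))
  have hPl : ∀ (w : Additive Vq) (x : Additive Xq),
      Pl w x = P (Additive.toMul w) (Additive.toMul x) := fun _ _ => rfl
  let ιl : Additive Jq →ₗ[ZMod p] Additive Vq :=
    AddMonoidHom.toZModLinearMap p (MonoidHom.toAdditive ι)
  let laml : Additive Xq →ₗ[ZMod p] Additive Jq :=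
    AddMonoidHom.toZModLinearMap p (MonoidHom.toAdditive lam)
  have hιl : ∀ j : Additive Jq, ιl j = Additive.ofMul (ι (Additive.toMul j)) := fun _ => rfl
  have hlaml : ∀ x : Additive Xq, laml x = Additive.ofMul (lam (Additive.toMul x)) := fun _ => rfl
  -- cardinalities
  have cV : Nat.card Vq = p ^ finrank (ZMod p) (Additive Vq) := by
    have := Module.natCard_eq_pow_finrank (K := ZMod p) (V := Additive Vq)
    rwa [Nat.card_zmod] at this
  have cX : Nat.card Xq = p ^ finrank (ZMod p) (Additive Xq) := by
    have := Module.natCard_eq_pow_finrank (K := ZMod p) (V := Additive Xq)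
    rwa [Nat.card_zmod] at this
  have cJ : Nat.card Jq = p ^ finrank (ZMod p) (Additive Jq) := by
    have := Module.natCard_eq_pow_finrank (K := ZMod p) (V := Additive Jq)
    rwa [Nat.card_zmod] at this
  have cR : Nat.card ι.range = p ^ finrank (ZMod p) (LinearMap.range ιl) := by
    have h1 := Module.natCard_eq_pow_finrank (K := ZMod p) (V := LinearMap.range ιl)
    rw [Nat.card_zmod] at h1
    rw [← h1]
    refine Nat.card_congr ⟨fun y => ⟨Additive.ofMul y.1, ?_⟩, fun y => ⟨Additive.toMul y.1, ?_⟩,
      fun _ => rfl, fun _ => rfl⟩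
    · obtain ⟨j, hj⟩ := y.2
      exact ⟨Additive.ofMul j, by rw [hιl]; exact congrArg Additive.ofMul hj⟩
    · obtain ⟨j, hj⟩ := y.2
      exact ⟨Additive.toMul j, by rw [hιl] at hj; exact congrArg Additive.toMul hj⟩
  have hidx : Nat.card ι.range * ι.range.index = Nat.card Vq := Subgroup.card_mul_index _
  have hcount' : finrank (ZMod p) (Additive Jq) + 2 * finrank (ZMod p) (Additive Vq) ≤
      2 * finrank (ZMod p) (Additive Xq) + 2 * finrank (ZMod p) (LinearMap.range ιl) := by
    rw [← Nat.pow_le_pow_iff_right hp.one_lt]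
    calc p ^ (finrank (ZMod p) (Additive Jq) + 2 * finrank (ZMod p) (Additive Vq))
        = Nat.card Jq * (Nat.card Vq) ^ 2 := by rw [cJ, cV, ← pow_mul, ← pow_add]; ring_nf
      _ = (Nat.card Jq * ι.range.index ^ 2) * (Nat.card ι.range) ^ 2 := by
          rw [← hidx]; ring
      _ ≤ Nat.card Xq ^ 2 * (Nat.card ι.range) ^ 2 := Nat.mul_le_mul_right _ hcount
      _ = p ^ (2 * finrank (ZMod p) (Additive Xq) + 2 * finrank (ZMod p) (LinearMap.range ιl)) := by
          rw [cX, cR, ← pow_mul, ← pow_mul, ← pow_add]; ring_nf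
  have hinj : Function.Injective Pl := by
    refine injective_of_count Pl ιl laml ?_ ?_ ?_ hcount'
    · intro x
      rw [hlaml, hιl]
      exact congrArg Additive.ofMul (hιlam _)
    · intro x hx j
      rw [hPl, hιl]
      refine hsplit _ ?_ _
      rw [hlaml] at hx
      exact congrArg Additive.toMul hx
    · intro x hx
      have := hnd (Additive.toMul x) fun v => by
        have := hx (Additive.ofMul v)
        rwa [hPl] at this
      exact congrArg Additive.ofMul this
  have h0 : Pl (Additive.ofMul v) = Pl 0 := by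
    rw [map_zero]
    apply LinearMap.ext
    intro x
    rw [hPl]
    exact hv _
  exact congrArg Additive.toMul (hinj h0)

/-- **Linear core of the existence theorem, group form.** -/
theorem injective_of_count_group (hV : ∀ v : Vq, v ^ p = 1) (hX : ∀ x : Xq, x ^ p = 1)
    (hJ : ∀ j : Jq, j ^ p = 1) (P : Vq → Xq → ZMod p)
    (hP1 : ∀ v v' x, P (v * v') x = P v x + P v' x)
    (hP2 : ∀ v x x', P v (x * x') = P v x + P v x')
    (ι : Jq →* Vq) (lam : Xq →* Jq) (hιlam : ∀ x, ι (lam x) = 1)
    (hsplit : ∀ x, lam x = 1 → ∀ j, P (ι j) x = 0)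
    (hnd : ∀ x, (∀ v, P v x = 0) → x = 1)
    (hcount : Nat.card Jq * ι.range.index ^ 2 ≤ Nat.card Xq ^ 2)
    (v : Vq) (hv : ∀ x, P v x = 0) : v = 1 :=
  @injective_of_count_group_aux Vq Xq Jq _ _ _ _ _ _ p _ (zmodModuleOfExp p hV)
    (zmodModuleOfExp p hX) (zmodModuleOfExp p hJ) P hP1 hP2 ι lam hιlam hsplit hnd hcount v hv

end GroupForm

section Pairing

variable {C J G : Type*} [CommGroup C] [CommGroup J] [CommGroup G] (X : Subgroup G)
  (p : ℕ) [Fact p.Prime]

/-- **The abstract existence theorem mod `p`** (helper51's plan v3, group form). -/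
theorem exists_pow_eq_of_pairing (hXpow : powSubgroup G p ≤ X)
    [Finite (C ⧸ powSubgroup C p)] [Finite (J ⧸ powSubgroup J p)]
    (hXfin : (powSubgroup G p).relIndex X ≠ 0)
    (ι : J →* C) (lam : G →* J) (B : C → G → ZMod p)
    (hB1 : ∀ a a' x, B (a * a') x = B a x + B a' x)
    (hB2 : ∀ a, ∀ x ∈ X, ∀ x' ∈ X, B a (x * x') = B a x + B a x')
    (hB3 : ∀ a c, B a (c ^ p) = 0)
    (hιlam : ∀ x ∈ X, ∃ c : C, c ^ p = ι (lam x))
    (hsplit : ∀ x ∈ X, (∃ η : J, η ^ p = lam x) → ∀ j, B (ι j) x = 0)
    (hnd : ∀ x ∈ X, (∀ a, B a x = 0) → ∃ c : G, c ^ p = x)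
    (hcount : Nat.card (J ⧸ powSubgroup J p) * (ι.range ⊔ powSubgroup C p).index ^ 2 ≤
      ((powSubgroup G p).relIndex X) ^ 2)
    (a : C) (ha : ∀ x ∈ X, B a x = 0) : ∃ b : C, b ^ p = a := by
  have hp : p.Prime := Fact.out
  -- elementary consequences of biadditivity
  have hBpow : ∀ (c : C) (x : G) (n : ℕ), B (c ^ n) x = n • B c x := by
    intro c x n
    have h1 : B 1 x = 0 := by
      have := hB1 1 1 x
      rw [one_mul] at this
      exact left_eq_add.1 this
    induction n with
    | zero => rw [pow_zero, zero_smul, h1]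
    | succ n ih => rw [pow_succ, hB1, ih, succ_nsmul]
  have hBp : ∀ (c : C) (x : G), B (c ^ p) x = 0 := by
    intro c x
    rw [hBpow, nsmul_eq_mul, ZMod.natCast_self, zero_mul]
  -- the quotients
  set NX : Subgroup X := (powSubgroup G p).subgroupOf X with hNX
  have : Finite (X ⧸ NX) := by
    apply Nat.finite_of_card_ne_zero
    exact hXfin
  have hmemNX : ∀ x : X, x ∈ NX ↔ ∃ c : G, c ^ p = (x : G) := fun x => by
    rw [hNX, Subgroup.mem_subgroupOf]
    rfl
  -- well-definedness of `B` on classes
  have hwdC : ∀ a a' : C, (QuotientGroup.mk a : C ⧸ powSubgroup C p) = QuotientGroup.mk a' →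
      ∀ x, B a x = B a' x := by
    intro a a' h x
    rw [QuotientGroup.eq] at h
    obtain ⟨c, hc⟩ := h
    have h1 : a' = a * c ^ p := by
      simp only [powMonoidHom_apply] at hc
      rw [hc]; group
    rw [h1, hB1, hBp, add_zero]
  have hwdX : ∀ x x' : X, (QuotientGroup.mk x : X ⧸ NX) = QuotientGroup.mk x' →
      ∀ a, B a (x : G) = B a (x' : G) := by
    intro x x' h a
    rw [QuotientGroup.eq, hmemNX] at h
    obtain ⟨c, hc⟩ := h
    have h1 : (x' : G) = (x : G) * c ^ p := by
      rw [hc]
      simp
    rw [h1, hB2 a _ x.2 _ (hXpow (⟨c, rfl⟩ : c ^ p ∈ powSubgroup G p)), hB3, add_zero]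
  -- the pairing on classes
  let P : (C ⧸ powSubgroup C p) → (X ⧸ NX) → ZMod p := fun v x => B v.out ((x.out : X) : G)
  have hPmk : ∀ (a : C) (x : X), P (QuotientGroup.mk a) (QuotientGroup.mk x) = B a (x : G) := by
    intro a x
    show B _ _ = _
    rw [hwdC _ a (QuotientGroup.out_eq' _), hwdX _ x (QuotientGroup.out_eq' _)]
  have hP1 : ∀ v v' x, P (v * v') x = P v x + P v' x := by
    intro v v' x
    induction v using QuotientGroup.induction_on with
    | H a =>
      induction v' using QuotientGroup.induction_on with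
      | H a' =>
        induction x using QuotientGroup.induction_on with
        | H x =>
          rw [← QuotientGroup.mk_mul, hPmk, hPmk, hPmk, hB1]
  have hP2 : ∀ v x x', P v (x * x') = P v x + P v x' := by
    intro v x x'
    induction v using QuotientGroup.induction_on with
    | H a =>
      induction x using QuotientGroup.induction_on with
      | H x =>
        induction x' using QuotientGroup.induction_on with
        | H x' =>
          rw [← QuotientGroup.mk_mul, hPmk, hPmk, hPmk]
          exact hB2 a _ x.2 _ x'.2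
  -- the maps on classes
  let ιq : (J ⧸ powSubgroup J p) →* (C ⧸ powSubgroup C p) := quotPowMap ι p
  let lamq : (X ⧸ NX) →* (J ⧸ powSubgroup J p) :=
    QuotientGroup.map NX (powSubgroup J p) (lam.comp X.subtype) (by
      intro x hx
      obtain ⟨c, hc⟩ := (hmemNX x).1 hx
      exact ⟨lam c, by simp only [powMonoidHom_apply, ← map_pow, hc]; rfl⟩)
  have hlamq : ∀ x : X, lamq (QuotientGroup.mk x) = QuotientGroup.mk (lam (x : G)) := fun _ => rfl
  -- exponent `p`
  have eV : ∀ v : C ⧸ powSubgroup C p, v ^ p = 1 := by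
    intro v
    induction v using QuotientGroup.induction_on with
    | H a =>
      rw [← QuotientGroup.mk_pow, QuotientGroup.eq_one_iff]
      exact ⟨a, rfl⟩
  have eJ : ∀ v : J ⧸ powSubgroup J p, v ^ p = 1 := by
    intro v
    induction v using QuotientGroup.induction_on with
    | H a =>
      rw [← QuotientGroup.mk_pow, QuotientGroup.eq_one_iff]
      exact ⟨a, rfl⟩
  have eX : ∀ v : X ⧸ NX, v ^ p = 1 := by
    intro v
    induction v using QuotientGroup.induction_on with
    | H x =>
      rw [← QuotientGroup.mk_pow, QuotientGroup.eq_one_iff, hmemNX]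
      exact ⟨(x : G), by simp⟩
  -- the index of the range
  have hrange : ιq.range.index = (ι.range ⊔ powSubgroup C p).index := by
    have h1 : (ιq.range).comap (QuotientGroup.mk' (powSubgroup C p)) =
        ι.range ⊔ powSubgroup C p := by
      ext c
      rw [Subgroup.mem_comap, QuotientGroup.mk'_apply, Subgroup.mem_sup]
      constructor
      · rintro ⟨jq, hjq⟩
        induction jq using QuotientGroup.induction_on with
        | H j =>
          rw [show ιq (QuotientGroup.mk j) = QuotientGroup.mk (ι j) from rfl,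
            QuotientGroup.eq] at hjq
          refine ⟨ι j, ⟨j, rfl⟩, (ι j)⁻¹ * c, hjq, by group⟩
      · rintro ⟨y, ⟨j, rfl⟩, z, hz, rfl⟩
        refine ⟨QuotientGroup.mk j, ?_⟩
        rw [show ιq (QuotientGroup.mk j) = QuotientGroup.mk (ι j) from rfl, QuotientGroup.eq]
        simpa using hz
    rw [← h1, Subgroup.index_comap_of_surjective _ (QuotientGroup.mk'_surjective _)]
  have hcardX : Nat.card (X ⧸ NX) = (powSubgroup G p).relIndex X := rfl
  -- apply the group form
  have key := injective_of_count_group p eV eX eJ P hP1 hP2 ιq lamq ?_ ?_ ?_ ?_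
    (QuotientGroup.mk a) ?_
  · obtain ⟨c, hc⟩ := (QuotientGroup.eq_one_iff _).1 key
    exact ⟨c, hc⟩
  · -- ι ∘ lam = 1
    intro x
    induction x using QuotientGroup.induction_on with
    | H x =>
      rw [hlamq, show ιq (QuotientGroup.mk (lam (x : G))) = QuotientGroup.mk (ι (lam (x : G)))
        from rfl, QuotientGroup.eq_one_iff]
      obtain ⟨c, hc⟩ := hιlam (x : G) x.2
      exact ⟨c, hc⟩
  · -- hsplit
    intro x hx j
    induction x using QuotientGroup.induction_on with
    | H x =>
      induction j using QuotientGroup.induction_on with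
      | H j =>
        rw [show ιq (QuotientGroup.mk j) = QuotientGroup.mk (ι j) from rfl, hPmk]
        rw [hlamq, QuotientGroup.eq_one_iff] at hx
        obtain ⟨η, hη⟩ := hx
        exact hsplit (x : G) x.2 ⟨η, hη⟩ j
  · -- hnd
    intro x hx
    induction x using QuotientGroup.induction_on with
    | H x =>
      rw [QuotientGroup.eq_one_iff, hmemNX]
      refine hnd (x : G) x.2 fun a => ?_
      have := hx (QuotientGroup.mk a)
      rwa [hPmk] at this
  · -- count
    rw [hrange, hcardX]
    exact hcount
  · -- orthogonality of `a`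
    intro x
    induction x using QuotientGroup.induction_on with
    | H x =>
      rw [hPmk]
      exact ha (x : G) x.2

end Pairing

end Fermat.Agent.CFT.H3
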