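/-
CFT layer C, package C-EXIST (helper3, deputy): THE FINITE-LEVEL EXISTENCE THEOREM `EXIST_fin`
at level `S` (helper51's plan v3), from a biadditive pairing `B : C_S(K) → Kˣ → ZMod p` with the
norm criterion (B4) and right-nondegeneracy (B5) (helper74's (I5) instantiation).

* `exists_pow_eq_jsToCS_diagJ` (T1) : `ι ∘ lam = 0`;
* `beta_jsToCS_eq_zero` (T2-i, hsplit), `beta_eq_zero_of_forall_norm` (T2-ii),
  `exists_pow_eq_of_forall_beta_eq_zero` (T2-iii, hnd);
* `index_range_sup_pow`, `count_levelS` (T3) : the count, with equality;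
* `existFin_of_beta` : the body of `H24.ExistFin S p K` / `H20.ExistFin`.
-/
import Mathlib
import Fermat.Agent.CFT.H3_ExistAbstract
import Fermat.Agent.CFT.H3_ExistInputs
import Fermat.Agent.CFT.H10_ExistKummerSeq
import Fermat.Agent.CFT.H10_ExistUnram2
import Fermat.Agent.CFT.H10_ExistIneq

set_option autoImplicit false

namespace Fermat.Agent.CFT.H3

open scoped NumberField
open IsDedekindDomain Fermat.Agent.CFT.H23 Fermat.Agent.CFT.H10 Fermat.Agent.CFT.H51

noncomputable section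

/-! ### (T3) generic index lemma -/

theorem count_arith (A I Q T E R : ℕ) (h1 : I = Q) (h2 : Q = T) (h3 : A = E ^ 2)
    (h4 : R = E * T) : A * I ^ 2 = R ^ 2 := by
  rw [h1, h2, h3, h4, mul_pow]

/-- For `J -ι→ C -φ→ Q → 1` exact: `[C : ι J · Cⁿ] = #(Q / Qⁿ)`. -/
theorem index_range_sup_pow {C Q J : Type*} [CommGroup C] [CommGroup Q] [CommGroup J]
    (ι : J →* C) (φ : C →* Q) (hφ : Function.Surjective φ) (hker : φ.ker = ι.range) (n : ℕ) :
    (ι.range ⊔ powSubgroup C n).index = Nat.card (Q ⧸ powSubgroup Q n) := by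
  have h1 : (powSubgroup Q n).comap φ = ι.range ⊔ powSubgroup C n := by
    ext c
    rw [Subgroup.mem_comap, Subgroup.mem_sup]
    constructor
    · rintro ⟨q, hq⟩
      obtain ⟨d, rfl⟩ := hφ q
      have h2 : c * (d ^ n)⁻¹ ∈ φ.ker := by
        rw [MonoidHom.mem_ker, map_mul, map_inv, map_pow]
        simp only [powMonoidHom_apply] at hq
        rw [hq, mul_inv_cancel]
      rw [hker] at h2
      exact ⟨_, h2, d ^ n, ⟨d, rfl⟩, by group⟩
    · rintro ⟨y, hy, z, ⟨d, rfl⟩, rfl⟩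
      rw [← hker] at hy
      refine ⟨φ d, ?_⟩
      simp only [powMonoidHom_apply]
      rw [map_mul, MonoidHom.mem_ker.1 hy, one_mul, map_pow]
  rw [← h1, Subgroup.index_comap_of_surjective _ hφ, Subgroup.index_eq_card]

variable (S : Finset Nat.Primes) (K : Type) [Field K] [NumberField K] (p : ℕ)

/-! ### (T1) `ι ∘ lam = 0` -/

/-- The localisation of a Kummer class unramified outside `S` dies in `C_S / p`. -/
theorem exists_pow_eq_jsToCS_diagJ {x : Kˣ} (hx : x ∈ XS S K p) :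
    ∃ c : CS S K, c ^ p = jsToCS S K (diagJ S K x) := by
  obtain ⟨D, hD⟩ := exists_pow_eq_divS hx
  refine ⟨toCS S K (1, D⁻¹), ?_⟩
  rw [← map_pow, jsToCS_apply]
  show (QuotientGroup.mk ((1, D⁻¹) ^ p) : CS S K) = QuotientGroup.mk (diagJ S K x, 1)
  rw [QuotientGroup.eq]
  refine ⟨x, Prod.ext ?_ ?_⟩
  · show diagJ S K x = ((1 : JS S K) ^ p)⁻¹ * diagJ S K x
    rw [one_pow, inv_one, one_mul]
  · show divS S K x = ((D⁻¹) ^ p)⁻¹ * 1
    rw [inv_pow, inv_inv, mul_one, hD]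

/-! ### (T3) the count at level `S` -/

variable [hpF : Fact p.Prime]

/-- **The count at level `S`** (equality): `#(J_S/p) · [C_S : ι J_S · C_Sᵖ]² = [X_S : Kˣᵖ]²`. -/
theorem count_levelS (hp2 : p ≠ 2) (hpS : (⟨p, hpF.out⟩ : Nat.Primes) ∈ S) {ζ : K}
    (hζ : IsPrimitiveRoot ζ p) :
    Nat.card (JS S K ⧸ powSubgroup (JS S K) p) *
        ((jsToCS S K).range ⊔ powSubgroup (CS S K) p).index ^ 2 =
      ((powSubgroup Kˣ p).relIndex (XS S K p)) ^ 2 := by
  have hp : p.Prime := hpF.out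
  have h1 := index_range_sup_pow (C := CS S K) (Q := ClS S K) (J := JS S K) (jsToCS S K)
    (csToClS S K) (csToClS_surjective S K) (ker_csToClS S K) p
  have h2 := card_ClS_quot_pow S K p
  have h3 := card_JS_quot_pow_eq_sq S K hp hp2 hpS hζ
  have h4 := relIndex_pow_XS S K hp.ne_zero
  exact count_arith _ _ _ _ _ _ h1 h2 h3 h4

theorem relIndex_pow_XS_ne_zero' (hp2 : p ≠ 2) (hpS : (⟨p, hpF.out⟩ : Nat.Primes) ∈ S) {ζ : K}
    (hζ : IsPrimitiveRoot ζ p) : (powSubgroup Kˣ p).relIndex (XS S K p) ≠ 0 := by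
  have hp : p.Prime := hpF.out
  refine relIndex_pow_XS_ne_zero S K hp.ne_zero fun h0 => ?_
  have h1 := card_JS_quot_pow_eq_sq S K hp hp2 hpS hζ
  rw [h0] at h1
  exact card_JS_quot_pow_ne_zero S K hp (by rw [h1]; norm_num)

/-! ### (T2) the pairing on split / norm classes -/

variable {S K p}

omit [NumberField K] in
theorem exists_units_pow_eq_or (x : Kˣ) :
    (∃ c : Kˣ, c ^ p = x) ∨ ∀ c : K, c ^ p ≠ (x : K) := by
  by_cases h : ∃ c : K, c ^ p = (x : K)
  · obtain ⟨c, hc⟩ := h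
    left
    have hc0 : c ≠ 0 := by
      rintro rfl
      rw [zero_pow hpF.out.ne_zero] at hc
      exact x.ne_zero hc.symm
    exact ⟨Units.mk0 c hc0, Units.ext (by simpa using hc)⟩
  · right
    intro c hc
    exact h ⟨c, hc⟩

section T2

variable (B : CS S K → Kˣ → ZMod p) (hB3 : ∀ a c, B a (c ^ p) = 0)
  (hB4 : ∀ a, ∀ x ∈ XS S K p, ∀ (M : Type) [Field M] [NumberField M] [Algebra K M] [IsGalois K M],
    Module.finrank K M = p → UnramOutside S K M → (∃ α : M, α ^ p = algebraMap K M (x : K)) →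
      (∃ y : CS S M, CS.baseChange S K M a = ∏ τ : M ≃ₐ[K] M, τ • y) → B a x = 0)

include hB3 hB4

/-- **(hsplit)** a Kummer class which is locally a `p`-th power above `S` is orthogonal to the
image of `J_S`. -/
theorem beta_jsToCS_eq_zero (hpS : (⟨p, hpF.out⟩ : Nat.Primes) ∈ S) {ζ : K}
    (hζ : IsPrimitiveRoot ζ p) {x : Kˣ} (hx : x ∈ XS S K p) (η : JS S K)
    (hη : η ^ p = diagJ S K x) (j : JS S K) : B (jsToCS S K j) x = 0 := by
  have hp : p.Prime := hpF.out
  rcases exists_units_pow_eq_or (p := p) x with ⟨c, rfl⟩ | hxp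
  · exact hB3 _ c
  · obtain ⟨M, _, _, _, _, hdeg, hur, α, hα, hαK⟩ :=
      exists_kummer_ext_of_dvd S K hp hpS hζ x hx hxp
    have hmem := jsToCS_mem_normSubgroup S hp hdeg hζ x α hα hαK η hη j
    obtain ⟨m, hm⟩ := (mem_normSubgroup_iff S K M _).1 hmem
    exact hB4 _ x hx M hdeg hur ⟨α, hα⟩ ⟨m, by rw [← hm, galNorm_apply]⟩

/-- A class which is a norm from every cyclic layer of degree `p` unramified outside `S` is
orthogonal to all Kummer classes unramified outside `S`. -/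
theorem beta_eq_zero_of_forall_norm (hpS : (⟨p, hpF.out⟩ : Nat.Primes) ∈ S) {ζ : K}
    (hζ : IsPrimitiveRoot ζ p) (a : CS S K)
    (ha : ∀ (M : Type) [Field M] [NumberField M] [Algebra K M] [IsGalois K M],
      Module.finrank K M = p → UnramOutside S K M →
        ∃ y : CS S M, CS.baseChange S K M a = ∏ τ : M ≃ₐ[K] M, τ • y)
    {x : Kˣ} (hx : x ∈ XS S K p) : B a x = 0 := by
  have hp : p.Prime := hpF.out
  rcases exists_units_pow_eq_or (p := p) x with ⟨c, rfl⟩ | hxp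
  · exact hB3 _ c
  · obtain ⟨M, _, _, _, _, hdeg, hur, α, hα, -⟩ :=
      exists_kummer_ext_of_dvd S K hp hpS hζ x hx hxp
    exact hB4 a x hx M hdeg hur ⟨α, hα⟩ (ha M hdeg hur)

end T2

/-- **(hnd)** in the shape of the abstract theorem. -/
theorem exists_pow_eq_of_forall_beta_eq_zero (B : CS S K → Kˣ → ZMod p)
    (hB5 : ∀ x ∈ XS S K p, (∀ c : K, c ^ p ≠ (x : K)) → ∃ a : CS S K, B a x ≠ 0)
    {x : Kˣ} (hx : x ∈ XS S K p) (h : ∀ a, B a x = 0) : ∃ c : Kˣ, c ^ p = x := by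
  rcases exists_units_pow_eq_or (p := p) x with h1 | hxp
  · exact h1
  · obtain ⟨a, ha⟩ := hB5 x hx hxp
    exact absurd (h a) ha

/-! ### (F) the finite-level existence theorem -/

variable (S K p)

/-- **`EXIST_fin` at level `S`** (body of `H24.ExistFin S p K` / `H20.ExistFin`): `p` odd,
`p ∈ S`, `μ_p ⊆ K`, and a biadditive pairing `B` with the norm criterion (B4) and
right-nondegeneracy (B5).  A class of `C_S(K)` which is a norm from every cyclic layer of degree
`p` unramified outside `S` is a `p`-th power. -/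
theorem existFin_of_beta (hp2 : p ≠ 2) (hpS : (⟨p, hpF.out⟩ : Nat.Primes) ∈ S) {ζ : K}
    (hζ : IsPrimitiveRoot ζ p) (B : CS S K → Kˣ → ZMod p)
    (hB1 : ∀ a a' x, B (a * a') x = B a x + B a' x)
    (hB2 : ∀ a, ∀ x ∈ XS S K p, ∀ x' ∈ XS S K p, B a (x * x') = B a x + B a x')
    (hB3 : ∀ a c, B a (c ^ p) = 0)
    (hB4 : ∀ a, ∀ x ∈ XS S K p, ∀ (M : Type) [Field M] [NumberField M] [Algebra K M]
      [IsGalois K M], Module.finrank K M = p → UnramOutside S K M →
        (∃ α : M, α ^ p = algebraMap K M (x : K)) →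
          (∃ y : CS S M, CS.baseChange S K M a = ∏ τ : M ≃ₐ[K] M, τ • y) → B a x = 0)
    (hB5 : ∀ x ∈ XS S K p, (∀ c : K, c ^ p ≠ (x : K)) → ∃ a : CS S K, B a x ≠ 0)
    (a : CS S K)
    (ha : ∀ (M : Type) [Field M] [NumberField M] [Algebra K M] [IsGalois K M],
      Module.finrank K M = p → UnramOutside S K M →
        ∃ y : CS S M, CS.baseChange S K M a = ∏ τ : M ≃ₐ[K] M, τ • y) :
    ∃ b : CS S K, b ^ p = a := by
  have hp : p.Prime := hpF.out
  have hfC : Finite (CS S K ⧸ powSubgroup (CS S K) p) := finite_CS_quot_pow S K hp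
  have hfJ : Finite (JS S K ⧸ powSubgroup (JS S K) p) := finite_JS_quot_pow S K hp
  have h1 : ∀ x ∈ XS S K p, ∃ c : CS S K, c ^ p = jsToCS S K (diagJ S K x) :=
    fun x hx => exists_pow_eq_jsToCS_diagJ S K p hx
  have h2 : ∀ x ∈ XS S K p, (∃ η : JS S K, η ^ p = diagJ S K x) →
      ∀ j, B (jsToCS S K j) x = 0 := by
    rintro x hx ⟨η, hη⟩ j
    exact beta_jsToCS_eq_zero B hB3 hB4 hpS hζ hx η hη j
  have h3 : ∀ x ∈ XS S K p, (∀ a, B a x = 0) → ∃ c : Kˣ, c ^ p = x :=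
    fun x hx h => exists_pow_eq_of_forall_beta_eq_zero B hB5 hx h
  have h4 : ∀ x ∈ XS S K p, B a x = 0 :=
    fun x hx => beta_eq_zero_of_forall_norm B hB3 hB4 hpS hζ a ha hx
  exact @exists_pow_eq_of_pairing (CS S K) (JS S K) Kˣ _ _ _ (XS S K p) p _
    (powSubgroup_le_XS S K p) hfC hfJ (relIndex_pow_XS_ne_zero' S K p hp2 hpS hζ)
    (jsToCS S K) (diagJ S K) B hB1 hB2 hB3 h1 h2 h3 (count_levelS S K p hp2 hpS hζ).le a h4

end

end Fermat.Agent.CFT.H3
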