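/-
CFT project, layer C, INTEGRATION (helper24): **(EXIST) at finite level and at the top, UNCONDITIONAL.**

* `existFin_of_formation` : helper3's `H3.existFin_of_beta` fed with the β-instantiation
  `H24.exists_beta` (I5): `H24.ExistFin S p K` for every number field `K ⊇ μ_p` embedded in `ℚbar`
  with image unramified outside `S` (`p` odd, `p ∈ S`), from a `p`-class formation on `C_S`;
* `existFin` : the same with the formation := (X1) `H24.nonempty_pClassFormation`;
* `existFin_global : H20.ExistFin p S` (helper20's packaging), `hasEXIST_goodLevels` : the `hEX`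
  argument of `H20.global_duality` / `H62.formation_duality_main`.
-/
import Mathlib
import Fermat.Agent.CFT.H24_ExistBeta
import Fermat.Agent.CFT.H24_X1
import Fermat.Agent.CFT.H3_ExistFin
import Fermat.Agent.CFT.H20_GlobalFinExist
import Fermat.Agent.CFT.H69_Div

set_option autoImplicit false

open CategoryTheory

namespace Fermat.Agent.CFT.H24

open Fermat.Agent.CFT ExtCitation

local notation "Qbar" => AlgebraicClosure ℚ

variable {S : Finset Nat.Primes} {p : ℕ} [hp : Fact p.Prime]

/-- **Finite-level (EXIST) from a `p`-class formation on `C_S`**: helper3's assembly of C-EXIST v3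
with the β-instantiation (I5). -/
theorem existFin_of_formation (PF : PClassFormation p (globalLevels S) (H77.repCSTop S))
    (hDIV : HasDIV (globalLevels S) p) (hp2 : p ≠ 2) (hpS : (⟨p, hp.out⟩ : Nat.Primes) ∈ S)
    {K : Type} [Field K] [NumberField K] {ιK : K →ₐ[ℚ] Qbar}
    (hK : ιK.fieldRange.IsUnramifiedOutside S) {ζ : K} (hζ : IsPrimitiveRoot ζ p) :
    ExistFin S p K := by
  intro a ha
  obtain ⟨B, h1, h2, h3, h4, h5⟩ := exists_beta hK PF hDIV hpS hζ
  exact H3.existFin_of_beta S K p hp2 hpS hζ B h1 h2 h3 h4 h5 a ha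

/-- **Finite-level (EXIST), unconditional.** -/
theorem existFin (hp2 : p ≠ 2) (hpS : pPrime p ∈ S)
    {K : Type} [Field K] [NumberField K] {ιK : K →ₐ[ℚ] Qbar}
    (hK : ιK.fieldRange.IsUnramifiedOutside S) {ζ : K} (hζ : IsPrimitiveRoot ζ p) :
    ExistFin S p K := by
  obtain ⟨PF⟩ := nonempty_pClassFormation p hp2 S hpS
  exact existFin_of_formation PF (H69.hasDiv_globalLevels hp2 S hpS) hp2 hpS hK hζ

/-- helper20's packaging of finite-level (EXIST). -/
theorem existFin_global (hp2 : p ≠ 2) (hpS : pPrime p ∈ S) : H20.ExistFin p S := by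
  intro K _ _ ιK hK hζ a ha
  obtain ⟨ζ, hζ⟩ := hζ
  exact existFin hp2 hpS hK hζ a ha

/-- **(EXIST) at the good normal levels of the global formation, unconditional**: the `hEX`
argument of `H20.global_duality`. -/
theorem hasEXIST_goodLevels (hp2 : p ≠ 2) (hpS : pPrime p ∈ S) :
    ∀ N₀ ∈ (globalLevels S).levels, N₀.Normal → H20.GoodLevel p N₀ →
      HasEXIST (globalLevels S) (H77.repCSTop S) p N₀ :=
  H20.hasEXIST_global ⟨_, hpS⟩ (existFin_global hp2 hpS)

end Fermat.Agent.CFT.H24
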