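import Fermat.Agent.CFT.H25_LocBaseChange

/-!
# Unramified extensions: numerical criteria (package B-UNR-F, extras)

* `resCard_padic : Loc.resCard q ℚ_[q] = q`;
* `exists_resCard_eq_pow`: `resCard q L = resCard q K ^ f` with `0 < f ≤ [L:K]`;
* `isUnramified_iff_resCard_eq`: `IsUnramified q K L ↔ resCard q L = resCard q K ^ [L:K]`.
-/

set_option autoImplicit false
set_option linter.unusedSectionVars false
set_option linter.style.haveILetI false

noncomputable section

namespace Fermat.Agent.CFT.H25

open Fermat.Agent.CFT Fermat.Agent.CFT.Loc IsLocalRing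

section NormLanguage

variable {K L : Type*} [NontriviallyNormedField K] [IsUltrametricDist K] [CompleteSpace K]
  [NormedField L] [IsUltrametricDist L] [NormedAlgebra K L] [Finite (resField K)]
  [FiniteDimensional K L]

variable (K L) in
/-- Numerical criterion: same value group iff the residue field of `L` has `Q ^ [L:K]`
elements. -/
theorem sameValueGroup_iff_card (hdisc : IsDiscrete K) :
    SameValueGroup K L ↔ Nat.card (resField L) = resCard K ^ Module.finrank K L := by
  constructor
  · intro h
    rw [card_resField_eq_pow K L, finrank_resField_eq_of_unramified K L hdisc h]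
  · intro h
    rw [card_resField_eq_pow K L] at h
    have := Nat.pow_right_injective (two_le_resCard (K := K)) h
    exact exists_norm_eq_of_finrank_eq K L this

end NormLanguage

variable (q : ℕ) [Fact q.Prime]

theorem O_padic_eq_intRing : Loc.O q ℚ_[q] = intRing ℚ_[q] := by
  ext x
  rw [Loc.mem_O_iff, mem_intRing, Loc.nrm_def]
  have : spectralNorm ℚ_[q] ℚ_[q] x = ‖x‖ := by
    have := spectralNorm_extends (K := ℚ_[q]) (L := ℚ_[q]) x
    simpa using this
  rw [this]

/-- The residue field of `ℚ_[q]` has `q` elements. -/
theorem resCard_padic : Loc.resCard q ℚ_[q] = q := by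
  rw [Loc.resCard, card_residueField_congr (O_padic_eq_intRing q)]
  exact card_resField_padic q

variable (K : Type) [Field K] [Algebra ℚ_[q] K] [FiniteDimensional ℚ_[q] K]
variable (L : Type) [Field L] [Algebra ℚ_[q] L] [FiniteDimensional ℚ_[q] L]
variable [Algebra K L] [IsScalarTower ℚ_[q] K L]

/-- The residue cardinality of `L` is a power `f` of that of `K`, `0 < f ≤ [L:K]`. -/
theorem exists_resCard_eq_pow :
    ∃ f : ℕ, 0 < f ∧ f ≤ Module.finrank K L ∧ Loc.resCard q L = Loc.resCard q K ^ f := by
  letI := nnf q K
  letI := nnf q L
  haveI := ultra q K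
  haveI := ultra q L
  haveI := complete q K
  letI := nalgTower q K L
  haveI := finite_resField_loc q K
  haveI := finiteDimensional_tower q K L
  refine ⟨Module.finrank (resField K) (resField L), Module.finrank_pos,
    finrank_resField_le K L, ?_⟩
  rw [resCard_eq q L, resCard_eq q K]
  exact card_resField_eq_pow K L

/-- `L/K` is unramified iff the residue field of `L` has `Q ^ [L:K]` elements. -/
theorem isUnramified_iff_resCard_eq :
    IsUnramified q K L ↔ Loc.resCard q L = Loc.resCard q K ^ Module.finrank K L := by
  letI := nnf q K
  letI := nnf q L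
  haveI := ultra q K
  haveI := ultra q L
  haveI := complete q K
  letI := nalgTower q K L
  haveI := finite_resField_loc q K
  haveI := finiteDimensional_tower q K L
  rw [resCard_eq q L, resCard_eq q K]
  exact sameValueGroup_iff_card K L (isDiscrete_loc q K)

/-- For unramified `L/K` the residue cardinality is `Q ^ [L:K]`. -/
theorem resCard_eq_pow_finrank_of_isUnramified (h : IsUnramified q K L) :
    Loc.resCard q L = Loc.resCard q K ^ Module.finrank K L :=
  (isUnramified_iff_resCard_eq q K L).mp h

end Fermat.Agent.CFT.H25
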