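import Fermat.Agent.CFT.H78_UnrField

/-!
# Local (DIV): the intrinsic local level structure has sublevels of index divisible by `p ^ n`

Seam (S-5) of the CFT project: for every open subgroup `U` of `Gal(PadicAlgCl q / ℚ_q)` (w.r.t.
`H78.localLevels q`) and every `n` there is a normal level `N' ≤ U` with `p ^ n ∣ [U : N']`.
Input: the unramified levels `H78.unrLevel q d` (normal of index `d` for every `d`) + a pure
group-theoretic lemma.
-/

set_option autoImplicit false

namespace Fermat.Agent.CFT.H25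

/-- Pure group theory: if `N₀ ≤ U` has finite index `g`, `E` is normal of index `m * g` and
`N' ≤ N₀ ⊓ E`, then `m ∣ [U : N']`. -/
theorem dvd_relIndex_of_normal_index {Γ : Type*} [Group Γ] (U N₀ E N' : Subgroup Γ) [E.Normal]
    (hN₀U : N₀ ≤ U) (hN₀ : N₀.index ≠ 0) (m : ℕ) (hE : E.index = m * N₀.index)
    (hN' : N' ≤ N₀ ⊓ E) : m ∣ N'.relIndex U := by
  -- a := [Γ : U ⊔ E] divides g
  have ha : (U ⊔ E).index ∣ N₀.index :=
    (Subgroup.index_dvd_of_le (le_sup_left : U ≤ U ⊔ E)).trans (Subgroup.index_dvd_of_le hN₀U)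
  obtain ⟨c, hc⟩ := ha
  have ha0 : (U ⊔ E).index ≠ 0 := by
    intro h0
    rw [h0, zero_mul] at hc
    exact hN₀ hc
  -- b * a = m * g
  have hb : E.relIndex U * (U ⊔ E).index = m * N₀.index := by
    rw [← Subgroup.relIndex_sup_right (H := U) (K := E),
      Subgroup.relIndex_mul_index (le_sup_right : E ≤ U ⊔ E), hE]
  have hb' : E.relIndex U = m * c := by
    rw [hc] at hb
    have : E.relIndex U * (U ⊔ E).index = (m * c) * (U ⊔ E).index := by
      rw [hb]; ring
    exact Nat.eq_of_mul_eq_mul_right (Nat.pos_of_ne_zero ha0) this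
  have h1 : m ∣ E.relIndex U := ⟨c, hb'⟩
  have h2 : E.relIndex U ∣ N'.relIndex U := by
    rw [← Subgroup.inf_relIndex_right]
    exact Subgroup.relIndex_dvd_of_le_left U
      (le_inf (hN'.trans inf_le_right) ((hN'.trans inf_le_left).trans hN₀U))
  exact h1.trans h2

/-- **Local (DIV)** for the intrinsic level structure of `Gal(PadicAlgCl q / ℚ_q)`. -/
theorem exists_normal_level_le_pow_dvd_relIndex (q : ℕ) [Fact q.Prime] (p : ℕ) (hp : 0 < p)
    (U : Subgroup (H78.LocalGal q)) (hU : (H78.localLevels q).IsOpen U) (n : ℕ) :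
    ∃ N' ∈ (H78.localLevels q).levels, N'.Normal ∧ N' ≤ U ∧ p ^ n ∣ N'.relIndex U := by
  obtain ⟨N₀, hN₀, hN₀U⟩ := hU
  have hfin := (H78.localLevels q).finiteIndex N₀ hN₀
  have hg : N₀.index ≠ 0 := hfin.index_ne_zero
  have hpos : 0 < p ^ n * N₀.index := Nat.mul_pos (pow_pos hp n) (Nat.pos_of_ne_zero hg)
  set d : ℕ+ := ⟨p ^ n * N₀.index, hpos⟩ with hd
  have hE : (H78.unrLevel q d).index = p ^ n * N₀.index := by
    rw [H78.index_unrLevel]; rfl
  obtain ⟨N₃, hN₃, hle₃⟩ := (H78.localLevels q).directed N₀ hN₀ (H78.unrLevel q d)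
    (H78.unrLevel_mem q d)
  obtain ⟨N', hN', hle', hnor⟩ := (H78.localLevels q).exists_normal N₃ hN₃
  refine ⟨N', hN', hnor, (hle'.trans hle₃).trans (inf_le_left.trans hN₀U), ?_⟩
  exact dvd_relIndex_of_normal_index U N₀ (H78.unrLevel q d) N' hN₀U hg (p ^ n) hE
    (hle'.trans hle₃)

/-- Version with `p ∣ [U : N']` only. -/
theorem exists_normal_level_le_dvd_relIndex (q : ℕ) [Fact q.Prime] (p : ℕ) (hp : 0 < p)
    (U : Subgroup (H78.LocalGal q)) (hU : (H78.localLevels q).IsOpen U) :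
    ∃ N' ∈ (H78.localLevels q).levels, N'.Normal ∧ N' ≤ U ∧ p ∣ N'.relIndex U := by
  obtain ⟨N', h1, h2, h3, h4⟩ := exists_normal_level_le_pow_dvd_relIndex q p hp U hU 1
  exact ⟨N', h1, h2, h3, by simpa using h4⟩

end Fermat.Agent.CFT.H25
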