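import Fermat.Agent.CFT.H25_LocalRes

/-!
# Residue degree bound and the reduction of automorphisms

For an isometric finite extension `L/K` of nonarchimedean normed fields:
* `finrank_resField_le : [k_L : k_K] ≤ [L : K]`;
* if `K` is complete, every `σ : L ≃ₐ[K] L` is an isometry (`norm_algEquiv_apply`);
* `resAut σ : resField L ≃ₐ[resField K] resField L` and the group hom `resHom`.
-/

set_option autoImplicit false

noncomputable section

namespace Fermat.Agent.CFT.H25

open scoped NNReal
open IsLocalRing

section Degree

variable {K L : Type*} [NormedField K] [IsUltrametricDist K] [NormedField L]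
  [IsUltrametricDist L] [NormedAlgebra K L]

/-- Lifts of residually independent integers are independent. -/
theorem linearIndependent_of_residue {ι : Type*} [Fintype ι] (x : ι → intRing L)
    (h : LinearIndependent (resField K) (fun i => residue (intRing L) (x i))) :
    LinearIndependent K (fun i => ((x i : intRing L) : L)) := by
  classical
  rw [Fintype.linearIndependent_iff]
  intro a ha
  by_contra hne
  rw [not_forall] at hne
  obtain ⟨i₀, hi₀⟩ := hne
  obtain ⟨j, -, hj⟩ := Finset.exists_max_image Finset.univ (fun i => ‖a i‖)
    ⟨i₀, Finset.mem_univ _⟩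
  have hnj : 0 < ‖a j‖ := lt_of_lt_of_le (norm_pos_iff.mpr hi₀) (hj i₀ (Finset.mem_univ _))
  have haj : a j ≠ 0 := norm_pos_iff.mp hnj
  have hc : ∀ i, ‖a i / a j‖ ≤ 1 := fun i => by
    rw [norm_div]
    exact div_le_one_of_le₀ (hj i (Finset.mem_univ _)) (norm_nonneg _)
  set c : ι → intRing K := fun i => mkInt (a i / a j) (hc i) with hcdef
  have hsum : ∑ i, algebraMap (intRing K) (intRing L) (c i) * x i = 0 := by
    apply Subtype.ext
    rw [AddSubmonoidClass.coe_finset_sum]
    simp only [ZeroMemClass.coe_zero, MulMemClass.coe_mul, algebraMap_intRing_apply, hcdef,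
      coe_mkInt]
    have : ∀ i, algebraMap K L (a i / a j) * ((x i : intRing L) : L)
        = (a j)⁻¹ • (a i • ((x i : intRing L) : L)) := by
      intro i
      rw [Algebra.smul_def, Algebra.smul_def, ← mul_assoc, ← map_mul]
      congr 2
      field_simp
    rw [Finset.sum_congr rfl (fun i _ => this i), ← Finset.smul_sum, ha, smul_zero]
  have hres := congrArg (residue (intRing L)) hsum
  rw [map_sum, map_zero] at hres
  have hres' : ∑ i, residue (intRing K) (c i) • residue (intRing L) (x i) = 0 := by
    rw [← hres]
    refine Finset.sum_congr rfl fun i _ => ?_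
    rw [map_mul, Algebra.smul_def]
    rfl
  have := Fintype.linearIndependent_iff.mp h (fun i => residue (intRing K) (c i)) hres' j
  rw [residue_eq_zero_iff_norm_lt_one] at this
  simp only [hcdef, coe_mkInt, div_self haj, norm_one, lt_self_iff_false] at this

variable (K L)

/-- The residue degree is at most the degree. -/
theorem rank_resField_le [FiniteDimensional K L] :
    Module.rank (resField K) (resField L) ≤ (Module.finrank K L : ℕ) := by
  classical
  apply rank_le
  intro s hs
  -- lift the elements of `s`
  choose lift hlift using fun y : resField L => residue_surjective (R := intRing L) y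
  have hli : LinearIndependent (resField K)
      (fun i : s => residue (intRing L) (lift (i : resField L))) := by
    simpa only [hlift] using hs
  have := (linearIndependent_of_residue (K := K) (fun i : s => lift (i : resField L))
    hli).fintype_card_le_finrank
  simpa using this

instance finite_resField [FiniteDimensional K L] :
    Module.Finite (resField K) (resField L) := by
  rw [← Module.rank_lt_aleph0_iff]
  exact lt_of_le_of_lt (rank_resField_le K L) (Cardinal.natCast_lt_aleph0)

theorem finrank_resField_le [FiniteDimensional K L] :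
    Module.finrank (resField K) (resField L) ≤ Module.finrank K L :=
  Module.finrank_le_of_rank_le (rank_resField_le K L)

end Degree

section Isometry

variable {K L : Type*} [NontriviallyNormedField K] [IsUltrametricDist K] [CompleteSpace K]
  [NormedField L] [IsUltrametricDist L] [NormedAlgebra K L] [Algebra.IsAlgebraic K L]

/-- Over a complete base, the norm of `L` is the spectral norm. -/
theorem norm_eq_spectralNorm (x : L) : ‖x‖ = spectralNorm K L x :=
  spectralNorm_unique_field_norm_ext (K := K) (L := L) (f := NormedField.toAbsoluteValue L)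
    (fun x => norm_algebraMap_eq K L x) x

/-- Over a complete base, automorphisms are isometries. -/
theorem norm_algEquiv_apply (σ : L ≃ₐ[K] L) (x : L) : ‖σ x‖ = ‖x‖ := by
  rw [norm_eq_spectralNorm (K := K) x, norm_eq_spectralNorm (K := K) (σ x)]
  exact (spectralNorm_eq_of_equiv σ x).symm

end Isometry

section ResAut

variable {K L : Type*} [NormedField K] [IsUltrametricDist K] [NormedField L]
  [IsUltrametricDist L] [NormedAlgebra K L]

/-- An isometric automorphism restricted to the rings of integers. -/
def intEquiv (σ : L ≃ₐ[K] L) (hσ : ∀ x, ‖σ x‖ = ‖x‖) : intRing L ≃ₐ[intRing K] intRing L where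
  toFun x := mkInt (σ x) (by rw [hσ]; exact norm_le_one x)
  invFun x := mkInt (σ.symm x) (by
    have := hσ (σ.symm x)
    rw [σ.apply_symm_apply] at this
    rw [← this]; exact norm_le_one x)
  left_inv x := Subtype.ext (σ.symm_apply_apply x)
  right_inv x := Subtype.ext (σ.apply_symm_apply x)
  map_mul' x y := Subtype.ext (map_mul σ (x : L) y)
  map_add' x y := Subtype.ext (map_add σ (x : L) y)
  commutes' r := Subtype.ext (by
    show σ (algebraMap K L r) = algebraMap K L r
    exact σ.commutes r)

@[simp] theorem coe_intEquiv (σ : L ≃ₐ[K] L) (hσ : ∀ x, ‖σ x‖ = ‖x‖) (x : intRing L) :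
    ((intEquiv σ hσ x : intRing L) : L) = σ x := rfl

/-- The automorphism of the residue field induced by an isometric automorphism. -/
def resAut (σ : L ≃ₐ[K] L) (hσ : ∀ x, ‖σ x‖ = ‖x‖) : resField L ≃ₐ[resField K] resField L :=
  ResidueField.mapAlgEquiv' (intEquiv σ hσ)

@[simp] theorem resAut_residue (σ : L ≃ₐ[K] L) (hσ : ∀ x, ‖σ x‖ = ‖x‖) (x : intRing L) :
    resAut σ hσ (residue _ x) = residue _ (intEquiv σ hσ x) := rfl

variable (K L)

/-- The reduction homomorphism `Gal(L/K) → Aut(k_L/k_K)` (all automorphisms isometric). -/
def resHom (hiso : ∀ (σ : L ≃ₐ[K] L) (x : L), ‖σ x‖ = ‖x‖) :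
    (L ≃ₐ[K] L) →* (resField L ≃ₐ[resField K] resField L) where
  toFun σ := resAut σ (hiso σ)
  map_one' := by
    ext y
    obtain ⟨x, rfl⟩ := residue_surjective y
    rfl
  map_mul' σ τ := by
    ext y
    obtain ⟨x, rfl⟩ := residue_surjective y
    rfl

@[simp] theorem resHom_apply_residue (hiso : ∀ (σ : L ≃ₐ[K] L) (x : L), ‖σ x‖ = ‖x‖)
    (σ : L ≃ₐ[K] L) (x : intRing L) :
    resHom K L hiso σ (residue _ x) = residue _ (intEquiv σ (hiso σ) x) := rfl

end ResAut

end Fermat.Agent.CFT.H25
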