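import Mathlib

/-!
# Residue fields of nonarchimedean normed fields (norm language)

Vocabulary-neutral layer for local class field theory: for a normed field `E` with ultrametric
distance, `intRing E` is the closed unit ball (a valuation subring), `resField E` its residue
field.  For an isometric extension `K → L` (`NormedAlgebra K L`) we get
`Algebra (intRing K) (intRing L)`, a local homomorphism, hence `Algebra (resField K) (resField L)`,
the inequality `[k_L : k_K] ≤ [L : K]`, and for isometric `σ : L ≃ₐ[K] L` the induced
automorphism of `resField L` over `resField K`.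
-/

set_option autoImplicit false

noncomputable section

namespace Fermat.Agent.CFT.H25

open scoped NNReal
open IsLocalRing

section Basic

variable (E : Type*) [NormedField E] [IsUltrametricDist E]

/-- The closed unit ball of a nonarchimedean normed field, as a valuation subring. -/
abbrev intRing : ValuationSubring E := (NormedField.valuation (K := E)).valuationSubring

/-- The residue field of a nonarchimedean normed field. -/
abbrev resField : Type _ := ResidueField (intRing E)

variable {E}

theorem mem_intRing {x : E} : x ∈ intRing E ↔ ‖x‖ ≤ 1 := by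
  rw [Valuation.mem_valuationSubring_iff, NormedField.valuation_apply, ← NNReal.coe_le_coe]
  simp

theorem norm_le_one (x : intRing E) : ‖(x : E)‖ ≤ 1 := mem_intRing.mp x.2

theorem isUnit_iff_norm_eq_one (x : intRing E) : IsUnit x ↔ ‖(x : E)‖ = 1 := by
  constructor
  · rintro ⟨u, rfl⟩
    have h1 : ((u : intRing E) : E) * ((u⁻¹ : (intRing E)ˣ) : intRing E) = 1 := by
      have : (u : intRing E) * ((u⁻¹ : (intRing E)ˣ) : intRing E) = 1 := Units.mul_inv u
      exact_mod_cast congrArg (Subtype.val) this
    have h2 := congrArg norm h1
    rw [norm_mul, norm_one] at h2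
    have h3 := norm_le_one (u : intRing E)
    have h4 := norm_le_one ((u⁻¹ : (intRing E)ˣ) : intRing E)
    have h5 : 0 ≤ ‖((u : intRing E) : E)‖ := norm_nonneg _
    have h6 : 0 ≤ ‖(((u⁻¹ : (intRing E)ˣ) : intRing E) : E)‖ := norm_nonneg _
    nlinarith
  · intro h
    have hx0 : (x : E) ≠ 0 := by
      intro h0
      rw [h0, norm_zero] at h
      exact zero_ne_one h
    have hinv : (x : E)⁻¹ ∈ intRing E := by
      rw [mem_intRing, norm_inv, h, inv_one]
    refine IsUnit.of_mul_eq_one ⟨(x : E)⁻¹, hinv⟩ ?_
    apply Subtype.ext
    show (x : E) * (x : E)⁻¹ = 1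
    exact mul_inv_cancel₀ hx0

theorem residue_eq_zero_iff_norm_lt_one (x : intRing E) :
    residue (intRing E) x = 0 ↔ ‖(x : E)‖ < 1 := by
  rw [residue_eq_zero_iff, mem_maximalIdeal, mem_nonunits_iff, isUnit_iff_norm_eq_one]
  have := norm_le_one x
  constructor
  · intro h; exact lt_of_le_of_ne this h
  · intro h; exact h.ne

theorem residue_ne_zero_iff_norm_eq_one (x : intRing E) :
    residue (intRing E) x ≠ 0 ↔ ‖(x : E)‖ = 1 := by
  rw [residue_ne_zero_iff_isUnit, isUnit_iff_norm_eq_one]

/-- Two integers have the same residue iff their difference has norm `< 1`. -/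
theorem residue_eq_iff (x y : intRing E) :
    residue (intRing E) x = residue (intRing E) y ↔ ‖(x : E) - y‖ < 1 := by
  rw [← sub_eq_zero, ← map_sub, residue_eq_zero_iff_norm_lt_one]
  rfl

/-- Constructor for integers. -/
def mkInt (x : E) (hx : ‖x‖ ≤ 1) : intRing E := ⟨x, mem_intRing.mpr hx⟩

@[simp] theorem coe_mkInt (x : E) (hx : ‖x‖ ≤ 1) : ((mkInt x hx : intRing E) : E) = x := rfl

end Basic

section Extension

variable (K L : Type*) [NormedField K] [IsUltrametricDist K] [NormedField L]
  [IsUltrametricDist L] [NormedAlgebra K L]

theorem norm_algebraMap_eq (x : K) : ‖algebraMap K L x‖ = ‖x‖ := norm_algebraMap' L x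

/-- The inclusion of rings of integers. -/
def intMap : intRing K →+* intRing L :=
  (algebraMap K L).restrict (intRing K).toSubring (intRing L).toSubring (fun x hx => by
    show algebraMap K L x ∈ intRing L
    rw [mem_intRing, norm_algebraMap_eq]
    exact mem_intRing.mp hx)

@[simp] theorem coe_intMap (x : intRing K) : ((intMap K L x : intRing L) : L) = algebraMap K L x :=
  rfl

instance instAlgebraIntRing : Algebra (intRing K) (intRing L) := (intMap K L).toAlgebra

theorem algebraMap_intRing_apply (x : intRing K) :
    ((algebraMap (intRing K) (intRing L) x : intRing L) : L) = algebraMap K L x := rfl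

instance instIsScalarTowerIntRing : IsScalarTower (intRing K) (intRing L) L :=
  IsScalarTower.of_algebraMap_eq (fun x => by
    show algebraMap (intRing K) L x = ((algebraMap (intRing K) (intRing L) x : intRing L) : L)
    rw [algebraMap_intRing_apply]
    rfl)

instance instIsLocalHomIntRing : IsLocalHom (algebraMap (intRing K) (intRing L)) where
  map_nonunit x hx := by
    rw [isUnit_iff_norm_eq_one] at hx ⊢
    rw [algebraMap_intRing_apply, norm_algebraMap_eq] at hx
    exact hx

/-- `residue` of the image. -/
theorem algebraMap_resField_residue (x : intRing K) :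
    algebraMap (resField K) (resField L) (residue _ x)
      = residue _ (algebraMap (intRing K) (intRing L) x) := rfl

end Extension

end Fermat.Agent.CFT.H25
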