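import Fermat.Agent.CFT.H25_LocalGalois

/-!
# Roots of unity of order prime to the residue characteristic

In a nonarchimedean normed field `E`, if `‖(m : E)‖ = 1`, then the reduction map is injective on
`m`-th roots of unity: `ξ ^ m = 1`, `‖ξ - 1‖ < 1` imply `ξ = 1`.
-/

set_option autoImplicit false

noncomputable section

namespace Fermat.Agent.CFT.H25

open IsLocalRing Finset

section RootsOfUnity

variable {E : Type*} [NormedField E] [IsUltrametricDist E]

theorem norm_eq_one_of_pow_eq_one' {ξ : E} {m : ℕ} (hm : m ≠ 0) (h : ξ ^ m = 1) : ‖ξ‖ = 1 := by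
  have h1 : ‖ξ‖ ^ m = 1 := by rw [← norm_pow, h, norm_one]
  exact (pow_eq_one_iff_of_nonneg (norm_nonneg _) hm).mp h1

theorem norm_pow_sub_one_lt {ξ : E} (hξ : ‖ξ‖ = 1) (h : ‖ξ - 1‖ < 1) (i : ℕ) :
    ‖ξ ^ i - 1‖ < 1 := by
  induction i with
  | zero => simp
  | succ i ih =>
    have : ξ ^ (i + 1) - 1 = ξ ^ i * (ξ - 1) + (ξ ^ i - 1) := by ring
    rw [this]
    refine lt_of_le_of_lt (IsUltrametricDist.norm_add_le_max _ _) (max_lt ?_ ih)
    rw [norm_mul, norm_pow, hξ, one_pow, one_mul]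
    exact h

theorem norm_natCast_le_one' (n : ℕ) : ‖(n : E)‖ ≤ 1 :=
  IsUltrametricDist.norm_natCast_le_one E n

/-- Reduction is injective on roots of unity of order prime to the residue characteristic. -/
theorem eq_one_of_pow_eq_one_of_norm_sub_lt {ξ : E} {m : ℕ} (hm : ‖(m : E)‖ = 1)
    (h : ξ ^ m = 1) (hlt : ‖ξ - 1‖ < 1) : ξ = 1 := by
  classical
  by_contra hne
  have hm0 : m ≠ 0 := by
    rintro rfl
    simp at hm
  have hξ : ‖ξ‖ = 1 := norm_eq_one_of_pow_eq_one' hm0 h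
  set r := orderOf ξ with hr
  have hrm : r ∣ m := orderOf_dvd_of_pow_eq_one h
  have hr0 : 0 < r := Nat.pos_of_ne_zero (fun h0 => by
    rw [h0, zero_dvd_iff] at hrm; exact hm0 hrm)
  have hgeom : ∑ i ∈ range r, ξ ^ i = 0 := by
    have h1 : (ξ - 1) * ∑ i ∈ range r, ξ ^ i = 0 := by
      rw [mul_geom_sum, hr, pow_orderOf_eq_one, sub_self]
    exact (mul_eq_zero.mp h1).resolve_left (sub_ne_zero.mpr hne)
  have hrsum : (r : E) = ∑ i ∈ range r, (1 - ξ ^ i) := by
    rw [sum_sub_distrib, hgeom, sub_zero, sum_const, card_range, nsmul_eq_mul, mul_one]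
  have hrlt : ‖(r : E)‖ < 1 := by
    rw [hrsum]
    haveI : Nonempty ℕ := ⟨0⟩
    obtain ⟨i, -, hi⟩ := IsUltrametricDist.exists_norm_finsetSum_le (range r)
      (fun i => (1 : E) - ξ ^ i)
    refine lt_of_le_of_lt hi ?_
    rw [norm_sub_rev]
    exact norm_pow_sub_one_lt hξ hlt i
  obtain ⟨s, hs⟩ := hrm
  have : ‖(m : E)‖ < 1 := by
    rw [hs, Nat.cast_mul, norm_mul]
    calc ‖(r : E)‖ * ‖(s : E)‖ ≤ ‖(r : E)‖ * 1 :=
          mul_le_mul_of_nonneg_left (norm_natCast_le_one' s) (norm_nonneg _)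
      _ = ‖(r : E)‖ := mul_one _
      _ < 1 := hrlt
  rw [hm] at this
  exact lt_irrefl _ this

/-- Two `m`-th roots of unity with the same reduction are equal. -/
theorem eq_of_pow_eq_one_of_norm_sub_lt {ξ η : E} {m : ℕ} (hm : ‖(m : E)‖ = 1)
    (hξ : ξ ^ m = 1) (hη : η ^ m = 1) (hlt : ‖ξ - η‖ < 1) : ξ = η := by
  have hm0 : m ≠ 0 := by
    rintro rfl
    simp at hm
  have hη1 : ‖η‖ = 1 := norm_eq_one_of_pow_eq_one' hm0 hη
  have hη0 : η ≠ 0 := by
    intro h0; rw [h0, norm_zero] at hη1; exact zero_ne_one hη1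
  have h1 : (ξ * η⁻¹) ^ m = 1 := by rw [mul_pow, inv_pow, hξ, hη, inv_one, mul_one]
  have h2 : ‖ξ * η⁻¹ - 1‖ < 1 := by
    have : ξ * η⁻¹ - 1 = (ξ - η) * η⁻¹ := by field_simp
    rw [this, norm_mul, norm_inv, hη1, inv_one, mul_one]
    exact hlt
  have := eq_one_of_pow_eq_one_of_norm_sub_lt hm h1 h2
  field_simp at this
  exact this

end RootsOfUnity

section CardRes

variable (K : Type*) [NormedField K] [IsUltrametricDist K] [Finite (resField K)]

/-- `Q ^ n - 1` is a unit in `K`, where `Q` is the cardinality of the residue field. -/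
theorem norm_natCast_card_pow_sub_one {n : ℕ} (hn : n ≠ 0) :
    ‖((Nat.card (resField K) ^ n - 1 : ℕ) : K)‖ = 1 := by
  classical
  haveI := Fintype.ofFinite (resField K)
  set Q := Nat.card (resField K) with hQ
  have hQ' : Q = Fintype.card (resField K) := Nat.card_eq_fintype_card
  have hQpos : 1 ≤ Q ^ n := Nat.one_le_pow _ _ (by rw [hQ']; exact Fintype.card_pos)
  have hres : ((Q ^ n - 1 : ℕ) : resField K) ≠ 0 := by
    rw [Nat.cast_sub hQpos, Nat.cast_pow, hQ', Nat.cast_card_eq_zero, zero_pow hn]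
    simp
  have hmem : ((Q ^ n - 1 : ℕ) : K) ∈ intRing K := mem_intRing.mpr (norm_natCast_le_one' _)
  have : residue (intRing K) ⟨((Q ^ n - 1 : ℕ) : K), hmem⟩ ≠ 0 := by
    have h1 : (⟨((Q ^ n - 1 : ℕ) : K), hmem⟩ : intRing K) = ((Q ^ n - 1 : ℕ) : intRing K) := by
      apply Subtype.ext; simp
    rw [h1, map_natCast]
    exact hres
  exact (residue_ne_zero_iff_norm_eq_one _).mp this

end CardRes

end Fermat.Agent.CFT.H25
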