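import Fermat.Agent.CFT.H25_LocUnrMore

/-!
# Unramified extensions inside a fixed algebraically closed field (package B-UNR-F, Ω-form)

`K` finite over `ℚ_[q]`, `Ω` an algebraically closed algebraic extension of `K`
(e.g. `K = ℚ_[q]`, `Ω = PadicAlgCl q`).  `unrSub q K Ω n : IntermediateField K Ω` is the subfield
generated by the `(Q ^ n - 1)`-th roots of unity, `Q = Loc.resCard q K`.  For `n ≠ 0` it is the unique
unramified extension of degree `n` of `K` inside `Ω`.
-/

set_option autoImplicit false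
set_option linter.unusedSectionVars false
set_option linter.style.haveILetI false

noncomputable section

namespace Fermat.Agent.CFT.H25

open Fermat.Agent.CFT Fermat.Agent.CFT.Loc IsLocalRing IntermediateField

variable (q : ℕ) [Fact q.Prime]
variable (K : Type) [Field K] [Algebra ℚ_[q] K] [FiniteDimensional ℚ_[q] K]
variable (Ω : Type) [Field Ω] [Algebra ℚ_[q] Ω] [Algebra K Ω] [IsScalarTower ℚ_[q] K Ω]

/-- The subfield of `Ω` generated over `K` by the `(Q ^ n - 1)`-th roots of unity. -/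
def unrSub (n : ℕ) : IntermediateField K Ω :=
  IntermediateField.adjoin K {ζ : Ω | ζ ^ (Loc.resCard q K ^ n - 1) = 1}

variable {Ω} in
theorem unrSub_eq_adjoin_simple {n : ℕ} {ζ : Ω}
    (hζ : IsPrimitiveRoot ζ (Loc.resCard q K ^ n - 1)) (hn : n ≠ 0) :
    unrSub q K Ω n = K⟮ζ⟯ := by
  haveI : NeZero (Loc.resCard q K ^ n - 1) := ⟨resCard_pow_sub_one_ne_zero q K hn⟩
  apply le_antisymm
  · rw [unrSub, adjoin_le_iff]
    intro x hx
    obtain ⟨i, -, rfl⟩ := hζ.eq_pow_of_pow_eq_one hx
    exact pow_mem (mem_adjoin_simple_self K ζ) i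
  · rw [adjoin_simple_le_iff]
    exact subset_adjoin K _ hζ.pow_eq_one

theorem dvd_resCard_pow_sub_one {n m : ℕ} (h : n ∣ m) :
    Loc.resCard q K ^ n - 1 ∣ Loc.resCard q K ^ m - 1 := by
  obtain ⟨k, rfl⟩ := h
  rw [pow_mul]
  exact Nat.sub_one_dvd_pow_sub_one (Loc.resCard q K ^ n) k

/-- `unrSub` is monotone for divisibility. -/
theorem unrSub_le_of_dvd {n m : ℕ} (h : n ∣ m) : unrSub q K Ω n ≤ unrSub q K Ω m := by
  rw [unrSub, adjoin_le_iff]
  intro x hx
  apply subset_adjoin K
  obtain ⟨k, hk⟩ := dvd_resCard_pow_sub_one q K h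
  show x ^ (Loc.resCard q K ^ m - 1) = 1
  rw [hk, pow_mul, hx, one_pow]

variable [IsAlgClosed Ω] [Algebra.IsAlgebraic K Ω]

omit [FiniteDimensional ℚ_[q] K] [IsScalarTower ℚ_[q] K Ω] [Algebra.IsAlgebraic K Ω] in
include q in
theorem charZero_omega : CharZero Ω :=
  charZero_of_injective_algebraMap (algebraMap ℚ_[q] Ω).injective

theorem exists_isPrimitiveRoot_omega {n : ℕ} (hn : n ≠ 0) :
    ∃ ζ : Ω, IsPrimitiveRoot ζ (Loc.resCard q K ^ n - 1) := by
  haveI := charZero_omega q Ω
  haveI : NeZero ((Loc.resCard q K ^ n - 1 : ℕ) : Ω) :=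
    ⟨Nat.cast_ne_zero.mpr (resCard_pow_sub_one_ne_zero q K hn)⟩
  exact HasEnoughRootsOfUnity.exists_primitiveRoot Ω (Loc.resCard q K ^ n - 1)

theorem isCyclotomicExtension_unrSub {n : ℕ} (hn : n ≠ 0) :
    IsCyclotomicExtension {Loc.resCard q K ^ n - 1} K ↥(unrSub q K Ω n) := by
  obtain ⟨ζ, hζ⟩ := exists_isPrimitiveRoot_omega q K Ω hn
  haveI : NeZero (Loc.resCard q K ^ n - 1) := ⟨resCard_pow_sub_one_ne_zero q K hn⟩
  rw [unrSub_eq_adjoin_simple q K hζ hn]
  exact hζ.intermediateField_adjoin_isCyclotomicExtension K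

theorem finiteDimensional_unrSub {n : ℕ} (hn : n ≠ 0) :
    FiniteDimensional K ↥(unrSub q K Ω n) :=
  haveI := isCyclotomicExtension_unrSub q K Ω hn
  IsCyclotomicExtension.finiteDimensional {Loc.resCard q K ^ n - 1} K _

theorem finiteDimensional_unrSub_base {n : ℕ} (hn : n ≠ 0) :
    FiniteDimensional ℚ_[q] ↥(unrSub q K Ω n) :=
  haveI := finiteDimensional_unrSub q K Ω hn
  FiniteDimensional.trans ℚ_[q] K _

theorem isGalois_unrSub {n : ℕ} (hn : n ≠ 0) : IsGalois K ↥(unrSub q K Ω n) :=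
  haveI := isCyclotomicExtension_unrSub q K Ω hn
  IsCyclotomicExtension.isGalois {Loc.resCard q K ^ n - 1} K _

/-- `unrSub q K Ω n` has degree `n` over `K` and is unramified. -/
theorem finrank_unrSub_and_isUnramified {n : ℕ} (hn : n ≠ 0) :
    haveI := finiteDimensional_unrSub_base q K Ω hn
    Module.finrank K ↥(unrSub q K Ω n) = n ∧ IsUnramified q K ↥(unrSub q K Ω n) := by
  haveI := finiteDimensional_unrSub_base q K Ω hn
  haveI := isCyclotomicExtension_unrSub q K Ω hn
  exact isUnramified_of_isCyclotomicExtension q K _ n (Nat.pos_of_ne_zero hn)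

theorem finrank_unrSub {n : ℕ} (hn : n ≠ 0) : Module.finrank K ↥(unrSub q K Ω n) = n :=
  (finrank_unrSub_and_isUnramified q K Ω hn).1

theorem isUnramified_unrSub {n : ℕ} (hn : n ≠ 0) :
    haveI := finiteDimensional_unrSub_base q K Ω hn
    IsUnramified q K ↥(unrSub q K Ω n) :=
  (finrank_unrSub_and_isUnramified q K Ω hn).2

/-- Uniqueness: an unramified finite subextension of `Ω/K` of degree `n` is `unrSub q K Ω n`. -/
theorem eq_unrSub_of_isUnramified (F : IntermediateField K Ω) [FiniteDimensional ℚ_[q] ↥F]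
    (h : IsUnramified q K ↥F) : F = unrSub q K Ω (Module.finrank K ↥F) := by
  haveI := finiteDimensional_tower q K ↥F
  have hn : Module.finrank K ↥F ≠ 0 := Module.finrank_pos.ne'
  set m := Loc.resCard q K ^ Module.finrank K ↥F - 1 with hm
  have hm0 : m ≠ 0 := resCard_pow_sub_one_ne_zero q K hn
  haveI : NeZero m := ⟨hm0⟩
  haveI hcyc := isCyclotomicExtension_of_isUnramified q K ↥F h
  obtain ⟨ζ, hζ⟩ := IsCyclotomicExtension.exists_isPrimitiveRoot K ↥F (Set.mem_singleton m) hm0
  have hadj : Algebra.adjoin K ({ζ} : Set ↥F) = ⊤ :=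
    IsCyclotomicExtension.adjoin_primitive_root_eq_top hζ
  have hζΩ : IsPrimitiveRoot (ζ : Ω) m := hζ.map_of_injective (algebraMap ↥F Ω).injective
  rw [unrSub_eq_adjoin_simple q K hζΩ hn]
  apply le_antisymm
  · intro x hx
    have hx' : (⟨x, hx⟩ : ↥F) ∈ Algebra.adjoin K ({ζ} : Set ↥F) := by rw [hadj]; trivial
    have key : ∀ y : ↥F, y ∈ Algebra.adjoin K ({ζ} : Set ↥F) → (y : Ω) ∈ K⟮(ζ : Ω)⟯ := by
      intro y hy
      induction hy using Algebra.adjoin_induction with
      | mem z hz =>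
        rw [Set.mem_singleton_iff] at hz
        rw [hz]
        exact mem_adjoin_simple_self K (ζ : Ω)
      | algebraMap c => exact IntermediateField.algebraMap_mem _ c
      | add y z _ _ hy hz => exact add_mem hy hz
      | mul y z _ _ hy hz => exact mul_mem hy hz
    exact key ⟨x, hx⟩ hx'
  · rw [adjoin_simple_le_iff]
    exact ζ.2

/-- A finite subextension of `Ω/K` is unramified iff it is contained in some `unrSub`. -/
theorem isUnramified_iff_le_unrSub (F : IntermediateField K Ω) [FiniteDimensional ℚ_[q] ↥F] :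
    IsUnramified q K ↥F ↔ ∃ n : ℕ, n ≠ 0 ∧ F ≤ unrSub q K Ω n := by
  constructor
  · intro h
    haveI := finiteDimensional_tower q K ↥F
    exact ⟨Module.finrank K ↥F, Module.finrank_pos.ne', (eq_unrSub_of_isUnramified q K Ω F h).le⟩
  · rintro ⟨n, hn, hle⟩
    haveI := finiteDimensional_unrSub_base q K Ω hn
    letI : Algebra ↥F ↥(unrSub q K Ω n) := (IntermediateField.inclusion hle).toAlgebra
    haveI : IsScalarTower K ↥F ↥(unrSub q K Ω n) := IsScalarTower.of_algebraMap_eq (fun x => rfl)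
    exact isUnramified_of_tower_bot q K ↥F ↥(unrSub q K Ω n) (isUnramified_unrSub q K Ω hn)

/-- Compatibility of the Frobenius elements of the `unrSub`'s. -/
theorem frob_unrSub_inclusion {n m : ℕ} (hn : n ≠ 0) (hm : m ≠ 0) (h : n ∣ m)
    (x : ↥(unrSub q K Ω n)) :
    haveI := finiteDimensional_unrSub_base q K Ω hn
    haveI := finiteDimensional_unrSub_base q K Ω hm
    frob q K ↥(unrSub q K Ω m) (IntermediateField.inclusion (unrSub_le_of_dvd q K Ω h) x) =
      IntermediateField.inclusion (unrSub_le_of_dvd q K Ω h) (frob q K ↥(unrSub q K Ω n) x) := by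
  haveI := finiteDimensional_unrSub_base q K Ω hn
  haveI := finiteDimensional_unrSub_base q K Ω hm
  letI : Algebra ↥(unrSub q K Ω n) ↥(unrSub q K Ω m) :=
    (IntermediateField.inclusion (unrSub_le_of_dvd q K Ω h)).toAlgebra
  haveI : IsScalarTower K ↥(unrSub q K Ω n) ↥(unrSub q K Ω m) :=
    IsScalarTower.of_algebraMap_eq (fun x => rfl)
  exact frob_restrict q K ↥(unrSub q K Ω n) ↥(unrSub q K Ω m) (isUnramified_unrSub q K Ω hm) x

section Padic

/-- For `K = ℚ_[q]`, `Ω = PadicAlgCl q`: `unrSub` is the field generated by the `(q^n-1)`-th roots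
of unity. -/
theorem unrSub_padic_eq (n : ℕ) :
    unrSub q ℚ_[q] (PadicAlgCl q) n =
      IntermediateField.adjoin ℚ_[q] {ζ : PadicAlgCl q | ζ ^ (q ^ n - 1) = 1} := by
  rw [unrSub, resCard_padic]

end Padic

end Fermat.Agent.CFT.H25
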