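import Fermat.Agent.CFT.H25_RootsOfUnity

/-!
# The unramified extension `K(ζ_{Q^n-1})`

`K` complete nonarchimedean with finite residue field of cardinality `Q`; `L/K` a cyclotomic
extension for `m = Q ^ n - 1` carrying a compatible norm.  Then `[L : K] = n = [k_L : k_K]`, the
reduction `Gal(L/K) → Aut(k_L/k_K)` is an isomorphism and there is a Frobenius element.
-/

set_option autoImplicit false
set_option linter.unusedSectionVars false
set_option linter.style.haveILetI false

noncomputable section

namespace Fermat.Agent.CFT.H25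

open IsLocalRing Finset

variable {K L : Type*} [NontriviallyNormedField K] [IsUltrametricDist K] [CompleteSpace K]
  [NormedField L] [IsUltrametricDist L] [NormedAlgebra K L] [Finite (resField K)]

variable (K) in
/-- The cardinality of the residue field. -/
abbrev resCard : ℕ := Nat.card (resField K)

theorem two_le_resCard : 2 ≤ resCard K := by
  haveI := Fintype.ofFinite (resField K)
  rw [resCard, Nat.card_eq_fintype_card]
  exact Fintype.one_lt_card

section Cyclotomic

variable {n : ℕ} [hcyc : IsCyclotomicExtension {resCard K ^ n - 1} K L]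

variable (K L) in
theorem norm_natCast_m (hn : n ≠ 0) : ‖((resCard K ^ n - 1 : ℕ) : L)‖ = 1 := by
  have := norm_natCast_card_pow_sub_one K hn
  rw [← map_natCast (algebraMap K L), norm_algebraMap_eq]
  exact this

omit hcyc in
theorem m_ne_zero (hn : n ≠ 0) : resCard K ^ n - 1 ≠ 0 := by
  have h2 := two_le_resCard (K := K)
  have : 2 ^ n ≤ resCard K ^ n := Nat.pow_le_pow_left h2 n
  have : 2 ≤ 2 ^ n := by
    calc 2 = 2 ^ 1 := (pow_one 2).symm
      _ ≤ 2 ^ n := Nat.pow_le_pow_right (by norm_num) (Nat.one_le_iff_ne_zero.mpr hn)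
  omega

include hcyc in
variable (K L) in
theorem exists_primitiveRoot (hn : n ≠ 0) : ∃ ζ : L, IsPrimitiveRoot ζ (resCard K ^ n - 1) :=
  IsCyclotomicExtension.exists_isPrimitiveRoot K L (Set.mem_singleton _) (m_ne_zero (K := K) hn)

include hcyc in
variable (K L) in
theorem finiteDimensional_cyc : FiniteDimensional K L :=
  IsCyclotomicExtension.finiteDimensional {resCard K ^ n - 1} K L

include hcyc in
variable (K L) in
theorem isGalois_cyc : IsGalois K L :=
  IsCyclotomicExtension.isGalois {resCard K ^ n - 1} K L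

include hcyc in
variable (K L) in
theorem isAlgebraic_cyc : Algebra.IsAlgebraic K L :=
  haveI := finiteDimensional_cyc K L (n := n)
  Algebra.IsAlgebraic.of_finite K L

include hcyc in
/-- An automorphism fixing the residue class of `ζ` fixes `ζ`. -/
theorem apply_eq_of_norm_sub_lt (hn : n ≠ 0) {ζ : L} (hζ : IsPrimitiveRoot ζ (resCard K ^ n - 1))
    (σ : L ≃ₐ[K] L) {k : ℕ} (h : ‖σ ζ - ζ ^ k‖ < 1) : σ ζ = ζ ^ k := by
  have hm := norm_natCast_m K L hn
  refine eq_of_pow_eq_one_of_norm_sub_lt hm ?_ ?_ h
  · rw [← map_pow, hζ.pow_eq_one, map_one]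
  · rw [← pow_mul, mul_comm, pow_mul, hζ.pow_eq_one, one_pow]

include hcyc in
/-- An automorphism is determined by its value at `ζ`. -/
theorem algEquiv_ext_of_apply_eq (hn : n ≠ 0) {ζ : L}
    (hζ : IsPrimitiveRoot ζ (resCard K ^ n - 1)) {σ τ : L ≃ₐ[K] L} (h : σ ζ = τ ζ) : σ = τ := by
  haveI : NeZero (resCard K ^ n - 1) := ⟨m_ne_zero (K := K) hn⟩
  have := (hζ.powerBasis K).algHom_ext (f := (σ : L →ₐ[K] L)) (g := (τ : L →ₐ[K] L))
    (by simpa using h)
  ext x
  exact DFunLike.congr_fun this x

end Cyclotomic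

section Main

variable {n : ℕ} [hcyc : IsCyclotomicExtension {resCard K ^ n - 1} K L]

include hcyc in
variable (K L) in
/-- All automorphisms of a cyclotomic extension of a complete field are isometries. -/
theorem hiso_cyc (σ : L ≃ₐ[K] L) (x : L) : ‖σ x‖ = ‖x‖ :=
  haveI := isAlgebraic_cyc K L (n := n)
  norm_algEquiv_apply σ x

variable (K L n) in
/-- The reduction homomorphism of the cyclotomic extension. -/
def redHom : (L ≃ₐ[K] L) →* (resField L ≃ₐ[resField K] resField L) :=
  resHom K L (hiso_cyc K L (n := n))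

theorem redHom_apply_residue (σ : L ≃ₐ[K] L) (x : intRing L) :
    redHom K L n σ (residue _ x) = residue _ (intEquiv σ (hiso_cyc K L (n := n) σ) x) := rfl

/-- Integer attached to a root of unity. -/
def rootInt {ζ : L} {m : ℕ} (hm : m ≠ 0) (hζ : ζ ^ m = 1) : intRing L :=
  mkInt ζ (norm_eq_one_of_pow_eq_one' hm hζ).le

theorem redHom_injective (hn : n ≠ 0) : Function.Injective (redHom K L n) := by
  rw [injective_iff_map_eq_one]
  intro σ hσ
  obtain ⟨ζ, hζ⟩ := exists_primitiveRoot K L (n := n) hn
  have hm0 := m_ne_zero (K := K) hn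
  set z : intRing L := rootInt hm0 hζ.pow_eq_one with hz
  have h1 : redHom K L n σ (residue _ z) = residue _ z := by rw [hσ]; rfl
  rw [redHom_apply_residue, residue_eq_iff] at h1
  have h2 : ‖σ ζ - ζ ^ 1‖ < 1 := by simpa [hz, rootInt] using h1
  have h3 := apply_eq_of_norm_sub_lt hn hζ σ h2
  apply algEquiv_ext_of_apply_eq hn hζ
  rw [h3, pow_one]; rfl

include hcyc in
variable (K L) in
theorem card_chain (hn : n ≠ 0) :
    Module.finrank (resField K) (resField L) = Module.finrank K L ∧
      Function.Bijective (redHom K L n) := by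
  haveI := finiteDimensional_cyc K L (n := n)
  haveI := isGalois_cyc K L (n := n)
  have h1 : Nat.card (L ≃ₐ[K] L) = Module.finrank K L := IsGalois.card_aut_eq_finrank K L
  have h2 : Nat.card (L ≃ₐ[K] L) ≤ Nat.card (resField L ≃ₐ[resField K] resField L) :=
    Nat.card_le_card_of_injective _ (redHom_injective hn)
  have h3 : Nat.card (resField L ≃ₐ[resField K] resField L)
      ≤ Module.finrank (resField K) (resField L) := by
    rw [Nat.card_eq_fintype_card]
    exact AlgEquiv.card_le
  have h4 := finrank_resField_le K L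
  refine ⟨by omega, (redHom_injective hn).bijective_of_nat_card_le (by omega)⟩

/-- The residue class of a primitive root has exact order `m`. -/
theorem orderOf_residue_rootInt (hn : n ≠ 0) {ζ : L}
    (hζ : IsPrimitiveRoot ζ (resCard K ^ n - 1)) :
    orderOf (residue (intRing L) (rootInt (m_ne_zero (K := K) hn) hζ.pow_eq_one))
      = resCard K ^ n - 1 := by
  have hm0 := m_ne_zero (K := K) hn
  set z : intRing L := rootInt hm0 hζ.pow_eq_one with hz
  have hzm : z ^ (resCard K ^ n - 1) = 1 := by
    apply Subtype.ext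
    show ζ ^ (resCard K ^ n - 1) = 1
    exact hζ.pow_eq_one
  apply Nat.dvd_antisymm
  · apply orderOf_dvd_of_pow_eq_one
    rw [← map_pow, hzm, map_one]
  · apply hζ.dvd_of_pow_eq_one
    have h1 : residue (intRing L) z ^ orderOf (residue (intRing L) z) = 1 := pow_orderOf_eq_one _
    rw [← map_pow, ← map_one (residue (intRing L)), residue_eq_iff] at h1
    have h2 : ‖ζ ^ orderOf (residue (intRing L) z) - 1‖ < 1 := by simpa [hz, rootInt] using h1
    refine eq_one_of_pow_eq_one_of_norm_sub_lt (norm_natCast_m K L hn) ?_ h2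
    rw [← pow_mul, mul_comm, pow_mul, hζ.pow_eq_one, one_pow]

include hcyc in
variable (K L) in
theorem dvd_finrank_resField (hn : n ≠ 0) : n ∣ Module.finrank (resField K) (resField L) := by
  classical
  haveI := finiteDimensional_cyc K L (n := n)
  obtain ⟨ζ, hζ⟩ := exists_primitiveRoot K L (n := n) hn
  have hm0 := m_ne_zero (K := K) hn
  set z : intRing L := rootInt hm0 hζ.pow_eq_one with hz
  have hord := orderOf_residue_rootInt hn hζ
  haveI : Finite (resField L) := Module.finite_of_finite (resField K)
  set f := Module.finrank (resField K) (resField L) with hf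
  have hcard : Nat.card (resField L) = resCard K ^ f := Module.natCard_eq_pow_finrank
  -- the unit
  have hne : residue (intRing L) z ≠ 0 := by
    intro h0
    rw [h0] at hord
    rw [orderOf_eq_zero_iff'.mpr (fun k hk => by simp [hk.ne'])] at hord
    exact hm0 hord.symm
  set u : (resField L)ˣ := Units.mk0 _ hne with hu
  have hu' : orderOf u = resCard K ^ n - 1 := by
    rw [← orderOf_units, hu, Units.val_mk0]
    exact hord
  have hdvd : resCard K ^ n - 1 ∣ resCard K ^ f - 1 := by
    rw [← hu', ← hcard, ← Nat.card_units]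
    exact orderOf_dvd_natCard u
  have hgcd := Nat.pow_sub_one_gcd_pow_sub_one (resCard K) n f
  rw [Nat.gcd_eq_left hdvd] at hgcd
  have h2 := two_le_resCard (K := K)
  have hpos : ∀ k, 1 ≤ resCard K ^ k := fun k => Nat.one_le_pow _ _ (by omega)
  have hpow : resCard K ^ n = resCard K ^ Nat.gcd n f := by
    have := hpos n; have := hpos (Nat.gcd n f); omega
  have := Nat.pow_right_injective h2 hpow
  rw [this]
  exact Nat.gcd_dvd_right n f

end Main

section Frobenius

variable (K L) in
/-- The Frobenius of the residue extension, `y ↦ y ^ Q`. -/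
def resFrob [FiniteDimensional K L] : resField L ≃ₐ[resField K] resField L :=
  letI := Fintype.ofFinite (resField K)
  FiniteField.frobeniusAlgEquivOfAlgebraic (resField K) (resField L)

theorem resFrob_apply [FiniteDimensional K L] (y : resField L) :
    resFrob K L y = y ^ resCard K := by
  letI := Fintype.ofFinite (resField K)
  show FiniteField.frobeniusAlgEquivOfAlgebraic (resField K) (resField L) y = _
  rw [FiniteField.coe_frobeniusAlgEquivOfAlgebraic, resCard, Nat.card_eq_fintype_card]

theorem orderOf_resFrob [FiniteDimensional K L] :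
    orderOf (resFrob K L) = Module.finrank (resField K) (resField L) := by
  letI := Fintype.ofFinite (resField K)
  haveI : Finite (resField L) := Module.finite_of_finite (resField K)
  exact FiniteField.orderOf_frobeniusAlgEquivOfAlgebraic (resField K) (resField L)

theorem exists_resFrob_pow_eq [FiniteDimensional K L]
    (τ : resField L ≃ₐ[resField K] resField L) : ∃ k : ℕ, resFrob K L ^ k = τ := by
  letI := Fintype.ofFinite (resField K)
  haveI : Finite (resField L) := Module.finite_of_finite (resField K)
  obtain ⟨k, hk⟩ :=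
    (FiniteField.bijective_frobeniusAlgEquivOfAlgebraic_pow (resField K) (resField L)).2 τ
  exact ⟨k, hk⟩

variable {n : ℕ} [hcyc : IsCyclotomicExtension {resCard K ^ n - 1} K L] [FiniteDimensional K L]

variable (K L) in
/-- The Frobenius element of the unramified extension `K(ζ_{Q^n-1})/K`. -/
def frobCyc (hn : n ≠ 0) : L ≃ₐ[K] L :=
  (Equiv.ofBijective (redHom K L n) (card_chain K L hn).2).symm (resFrob K L)

theorem redHom_frobCyc (hn : n ≠ 0) : redHom K L n (frobCyc K L hn) = resFrob K L :=
  (Equiv.ofBijective (redHom K L n) (card_chain K L hn).2).apply_symm_apply (resFrob K L)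

/-- `frob x ≡ x ^ Q` modulo the maximal ideal. -/
theorem norm_frobCyc_sub_pow_lt (hn : n ≠ 0) (x : L) (hx : ‖x‖ ≤ 1) :
    ‖frobCyc K L hn x - x ^ resCard K‖ < 1 := by
  have h1 : redHom K L n (frobCyc K L hn) (residue _ (mkInt x hx))
      = residue _ (mkInt x hx) ^ resCard K := by
    rw [redHom_frobCyc, resFrob_apply]
  rw [redHom_apply_residue, ← map_pow, residue_eq_iff] at h1
  simpa using h1

theorem frobCyc_apply_root (hn : n ≠ 0) {ζ : L} (hζ : IsPrimitiveRoot ζ (resCard K ^ n - 1)) :
    frobCyc K L hn ζ = ζ ^ resCard K :=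
  apply_eq_of_norm_sub_lt hn hζ _ (norm_frobCyc_sub_pow_lt hn ζ
    (norm_eq_one_of_pow_eq_one' (m_ne_zero (K := K) hn) hζ.pow_eq_one).le)

theorem frobCyc_pow_apply_root (hn : n ≠ 0) {ζ : L}
    (hζ : IsPrimitiveRoot ζ (resCard K ^ n - 1)) (k : ℕ) :
    (frobCyc K L hn ^ k) ζ = ζ ^ (resCard K ^ k) := by
  induction k with
  | zero => simp
  | succ k ih =>
    rw [pow_succ', AlgEquiv.mul_apply, ih, map_pow, frobCyc_apply_root hn hζ, ← pow_mul,
      ← pow_succ']

theorem frobCyc_pow_n (hn : n ≠ 0) : frobCyc K L hn ^ n = 1 := by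
  obtain ⟨ζ, hζ⟩ := exists_primitiveRoot K L (n := n) hn
  apply algEquiv_ext_of_apply_eq hn hζ
  rw [frobCyc_pow_apply_root hn hζ, AlgEquiv.one_apply]
  have h2 := two_le_resCard (K := K)
  have hpos : 1 ≤ resCard K ^ n := Nat.one_le_pow _ _ (by omega)
  have : resCard K ^ n = (resCard K ^ n - 1) + 1 := by omega
  rw [this, pow_succ, hζ.pow_eq_one, one_mul]

include hcyc in
variable (K L) in
/-- The degree of the unramified cyclotomic extension. -/
theorem finrank_cyc (hn : n ≠ 0) : Module.finrank K L = n := by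
  have h1 := (card_chain K L hn).1
  have h2 := dvd_finrank_resField K L hn
  have h3 : Module.finrank (resField K) (resField L) ∣ n := by
    rw [← orderOf_resFrob, ← redHom_frobCyc hn, orderOf_dvd_iff_pow_eq_one, ← map_pow,
      frobCyc_pow_n hn, map_one]
  rw [← h1]
  exact Nat.dvd_antisymm h3 h2

include hcyc in
variable (K L) in
theorem finrank_resField_cyc (hn : n ≠ 0) : Module.finrank (resField K) (resField L) = n := by
  rw [(card_chain K L hn).1, finrank_cyc K L hn]

theorem orderOf_frobCyc (hn : n ≠ 0) : orderOf (frobCyc K L hn) = n := by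
  have h1 : orderOf (redHom K L n (frobCyc K L hn)) = orderOf (frobCyc K L hn) :=
    orderOf_injective _ (redHom_injective hn) _
  rw [← h1, redHom_frobCyc, orderOf_resFrob, finrank_resField_cyc K L hn]

/-- The Frobenius generates the Galois group. -/
theorem exists_frobCyc_pow_eq (hn : n ≠ 0) (σ : L ≃ₐ[K] L) : ∃ k : ℕ, frobCyc K L hn ^ k = σ := by
  obtain ⟨k, hk⟩ := exists_resFrob_pow_eq (redHom K L n σ)
  refine ⟨k, redHom_injective hn ?_⟩
  rw [map_pow, redHom_frobCyc, hk]

include hcyc in
variable (K L) in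
theorem isCyclic_cyc (hn : n ≠ 0) : IsCyclic (L ≃ₐ[K] L) :=
  ⟨⟨frobCyc K L hn, fun σ => by
    obtain ⟨k, hk⟩ := exists_frobCyc_pow_eq hn σ
    exact ⟨k, by simpa using hk⟩⟩⟩

end Frobenius

end Fermat.Agent.CFT.H25
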