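import Fermat.Agent.CFT.LocMaps
import Fermat.Agent.CFT.H91_Formation
import Fermat.Agent.CFT.H33_GalBridge

/-!
# CFT layer B, package B-FUND (field part): the fundamental class of `F/ℚ_q`

`existsUnique_fund_of` and `isClassModule_of_infl_eq_of` are the two field-level statements of
helper3's Skeleton3, section `Fund`, proved from the other Skeleton3 statements, which enter as
explicit hypotheses in their verbatim Skeleton3 shapes:

* `hinj`, `hex`  : B-INFRES-GAL (`infl_injective`, `exists_infl_eq_of_rest_eq_zero`);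
* `hugly`        : B-UGLY (`rest_infl_unrClass_eq_zero`);
* `hord`         : B-UNRCLASS (`addOrderOf_unrClass`);
* `hfin`, `hcard`: B-SECOND (`finite_H2`, `card_H2_le_finrank`);
* `hcrit`        : B-FUND abstract (`isClassModule_of_addOrderOf`);
* `hcor`         : layer A (`cor ∘ res = index`).
-/

set_option autoImplicit false
set_option linter.unusedSectionVars false

open groupCohomology CategoryTheory IntermediateField

namespace Fermat.Agent.CFT.H26

open Fermat.Agent.CFT Fermat.Agent.CFT.Loc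

variable (q : ℕ) [Fact q.Prime]

section Fund

variable (E F M : Type) [Field E] [Field F] [Field M]
  [Algebra ℚ_[q] E] [Algebra ℚ_[q] F] [Algebra ℚ_[q] M]
  [FiniteDimensional ℚ_[q] E] [FiniteDimensional ℚ_[q] F] [FiniteDimensional ℚ_[q] M]
  [Algebra E M] [Algebra F M] [IsScalarTower ℚ_[q] E M] [IsScalarTower ℚ_[q] F M]

/-- Existence and uniqueness of the fundamental class of `F/ℚ_q` relative to `(E, M)`, from
inflation-restriction for `ℚ_q ⊆ F ⊆ M` and the ugly lemma. -/
theorem existsUnique_fund_of [IsGalois ℚ_[q] E] [IsGalois ℚ_[q] F] [IsGalois ℚ_[q] M]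
    (hinj : Function.Injective (infl ℚ_[q] F M 2).hom)
    (hex : ∀ x : groupCohomology (Rep.ofAlgebraAutOnUnits ℚ_[q] M) 2,
      (rest ℚ_[q] F M 2).hom x = 0 →
      ∃ y : groupCohomology (Rep.ofAlgebraAutOnUnits ℚ_[q] F) 2, (infl ℚ_[q] F M 2).hom y = x)
    (hugly : (rest ℚ_[q] F M 2).hom ((infl ℚ_[q] E M 2).hom (unrClass q E)) = 0) :
    ∃! γ : groupCohomology (Rep.ofAlgebraAutOnUnits ℚ_[q] F) 2,
      (infl ℚ_[q] F M 2).hom γ = (infl ℚ_[q] E M 2).hom (unrClass q E) := by
  obtain ⟨γ, hγ⟩ := hex _ hugly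
  exact ⟨γ, hγ, fun γ' hγ' => hinj (hγ'.trans hγ.symm)⟩

/-- The additive order of the fundamental class is `[F:ℚ_q]`. -/
theorem addOrderOf_fund_of [IsGalois ℚ_[q] E] [IsGalois ℚ_[q] F] [IsGalois ℚ_[q] M]
    (hinjF : Function.Injective (infl ℚ_[q] F M 2).hom)
    (hinjE : Function.Injective (infl ℚ_[q] E M 2).hom)
    (hord : addOrderOf (unrClass q E) = Module.finrank ℚ_[q] E)
    (hdeg : Module.finrank ℚ_[q] E = Module.finrank ℚ_[q] F)
    (γ : groupCohomology (Rep.ofAlgebraAutOnUnits ℚ_[q] F) 2)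
    (hγ : (infl ℚ_[q] F M 2).hom γ = (infl ℚ_[q] E M 2).hom (unrClass q E)) :
    addOrderOf γ = Nat.card (F ≃ₐ[ℚ_[q]] F) := by
  have h1 : addOrderOf ((infl ℚ_[q] F M 2).hom γ) = addOrderOf γ :=
    addOrderOf_injective ((infl ℚ_[q] F M 2).hom : _ →ₗ[ℤ] _).toAddMonoidHom hinjF γ
  have h2 : addOrderOf ((infl ℚ_[q] E M 2).hom (unrClass q E)) = addOrderOf (unrClass q E) :=
    addOrderOf_injective ((infl ℚ_[q] E M 2).hom : _ →ₗ[ℤ] _).toAddMonoidHom hinjE _
  rw [← h1, hγ, h2, hord, hdeg, IsGalois.card_aut_eq_finrank]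

/-- `Fˣ` with the fundamental class is a class module for `Gal(F/ℚ_q)`. -/
theorem isClassModule_of_infl_eq_of [IsGalois ℚ_[q] E] [IsGalois ℚ_[q] F] [IsGalois ℚ_[q] M]
    (hinjF : Function.Injective (infl ℚ_[q] F M 2).hom)
    (hinjE : Function.Injective (infl ℚ_[q] E M 2).hom)
    (hord : addOrderOf (unrClass q E) = Module.finrank ℚ_[q] E)
    (hdeg : Module.finrank ℚ_[q] E = Module.finrank ℚ_[q] F)
    -- B-SECOND
    (hfin : ∀ (K : Type) [Field K] [Algebra ℚ_[q] K] [FiniteDimensional ℚ_[q] K]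
      (L : Type) [Field L] [Algebra ℚ_[q] L] [FiniteDimensional ℚ_[q] L]
      [Algebra K L] [IsScalarTower ℚ_[q] K L] [IsGalois K L],
      Finite (H2 (Rep.ofAlgebraAutOnUnits K L)))
    (hcard : ∀ (K : Type) [Field K] [Algebra ℚ_[q] K] [FiniteDimensional ℚ_[q] K]
      (L : Type) [Field L] [Algebra ℚ_[q] L] [FiniteDimensional ℚ_[q] L]
      [Algebra K L] [IsScalarTower ℚ_[q] K L] [IsGalois K L],
      Nat.card (H2 (Rep.ofAlgebraAutOnUnits K L)) ≤ Module.finrank K L)
    -- B-FUND abstract criterion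
    (hcrit : ∀ {G : Type} [Group G] [Finite G] (C : Rep.{0} ℤ G) (γ : groupCohomology C 2),
      (∀ H : Subgroup G, Subsingleton (groupCohomology (Rep.res H.subtype C) 1)) →
      (∀ H : Subgroup G, Finite (groupCohomology (Rep.res H.subtype C) 2)) →
      (∀ H : Subgroup G, Nat.card (groupCohomology (Rep.res H.subtype C) 2) ≤ Nat.card H) →
      (∀ (H : Subgroup G) (x : groupCohomology C 2),
        (resSub C H 2).hom x = 0 → H.index • x = 0) →
      addOrderOf γ = Nat.card G → IsClassModule C γ)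
    -- layer A: cor ∘ res = index
    (hcor : ∀ (H : Subgroup (F ≃ₐ[ℚ_[q]] F))
      (x : groupCohomology (Rep.ofAlgebraAutOnUnits ℚ_[q] F) 2),
      (resSub (Rep.ofAlgebraAutOnUnits ℚ_[q] F) H 2).hom x = 0 → H.index • x = 0)
    (γ : groupCohomology (Rep.ofAlgebraAutOnUnits ℚ_[q] F) 2)
    (hγ : (infl ℚ_[q] F M 2).hom γ = (infl ℚ_[q] E M 2).hom (unrClass q E)) :
    IsClassModule (Rep.ofAlgebraAutOnUnits ℚ_[q] F) γ := by
  refine hcrit _ γ ?_ ?_ ?_ hcor
    (addOrderOf_fund_of q E F M hinjF hinjE hord hdeg γ hγ)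
  · -- Hilbert 90 for `F / F^H`
    intro H
    have e := (H33.resIso (K := ℚ_[q]) (L := F) H 1).toLinearEquiv
    have : Subsingleton (groupCohomology (Rep.ofAlgebraAutOnUnits (fixedField H) F) 1) :=
      (inferInstance : Subsingleton (H1 (Rep.ofAlgebraAutOnUnits (fixedField H) F)))
    exact e.toEquiv.subsingleton
  · intro H
    have e := (H33.resIso (K := ℚ_[q]) (L := F) H 2).toLinearEquiv
    have : Finite (groupCohomology (Rep.ofAlgebraAutOnUnits (fixedField H) F) 2) :=
      hfin (fixedField H) F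
    exact Finite.of_equiv _ e.symm.toEquiv
  · intro H
    have e := (H33.resIso (K := ℚ_[q]) (L := F) H 2).toLinearEquiv
    rw [Nat.card_congr e.toEquiv, ← IntermediateField.finrank_fixedField_eq_card H]
    exact hcard (fixedField H) F

end Fund

end Fermat.Agent.CFT.H26
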