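import Mathlib
import Fermat.Agent.CFT.H91_Formation

/-!
# CFT layer A (hedge): restriction to a subgroup of finite index, degree 2, elementary proof

For a representation `C` of a group `G`, a subgroup `H ≤ G` of finite index and a class
`x ∈ H²(G, C)` whose restriction to `H` (Mathlib's `groupCohomology.map H.subtype (𝟙 _) 2`,
i.e. `resSub C H 2`) vanishes, we prove `[G : H] • x = 0`, by an explicit cochain computation
(no Shapiro lemma, no corestriction).

* Step A (`exists_cochain_of_res`): if `f|_{H×H} = δ b` then there is `β : G → A` with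
  `(f - δβ)(x, h) = 0` for all `x ∈ G`, `h ∈ H`.
* Step B (`exists_cochain_of_vanish`): a cocycle vanishing on `G × H` is constant on left cosets
  in the second variable; averaging the cocycle identity over `G ⧸ H` gives `[G:H] f = δ c`.
-/

set_option autoImplicit false

open groupCohomology CategoryTheory

namespace Fermat.Agent.CFT.H26

section Pure

variable {k G A : Type*} [CommRing k] [Group G] [AddCommGroup A] [Module k A]
  (ρ : Representation k G A)

/-- The 2-cocycle condition for `f : G × G → A`. -/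
def IsCoc2 (f : G × G → A) : Prop :=
  ∀ g h j : G, f (g * h, j) + f (g, h) = ρ g (f (h, j)) + f (g, h * j)

/-- The coboundary of a 1-cochain. -/
def dOne (β : G → A) : G × G → A := fun p => ρ p.1 (β p.2) - β (p.1 * p.2) + β p.1

lemma dOne_apply (β : G → A) (g h : G) : dOne ρ β (g, h) = ρ g (β h) - β (g * h) + β g := rfl

lemma isCoc2_dOne (β : G → A) : IsCoc2 ρ (dOne ρ β) := by
  intro g h j
  simp only [dOne_apply, map_add, map_sub, map_mul, Module.End.mul_apply, mul_assoc]
  abel

lemma IsCoc2.sub {f f' : G × G → A} (hf : IsCoc2 ρ f) (hf' : IsCoc2 ρ f') :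
    IsCoc2 ρ (f - f') := by
  intro g h j
  have h1 := hf g h j
  have h2 := hf' g h j
  simp only [Pi.sub_apply, map_sub]
  rw [sub_add_sub_comm, h1, h2, sub_add_sub_comm]

variable {ρ}

/-- A cocycle vanishing on `G × H` is constant on left cosets of `H` in the second variable. -/
lemma IsCoc2.const_on_coset {f : G × G → A} (hf : IsCoc2 ρ f) (H : Subgroup G)
    (h0 : ∀ x : G, ∀ h ∈ H, f (x, h) = 0) (g x : G) {h : G} (hh : h ∈ H) :
    f (g, x * h) = f (g, x) := by
  have := hf g x h
  rw [h0 _ _ hh, h0 _ _ hh, map_zero, zero_add, zero_add] at this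
  exact this.symm

/-- **Step B**: averaging over `G ⧸ H`. -/
theorem exists_cochain_of_vanish {f : G × G → A} (hf : IsCoc2 ρ f) (H : Subgroup G)
    [H.FiniteIndex] (h0 : ∀ x : G, ∀ h ∈ H, f (x, h) = 0) :
    ∃ c : G → A, ∀ g h : G, dOne ρ c (g, h) = H.index • f (g, h) := by
  classical
  have : Fintype (G ⧸ H) := Subgroup.fintypeQuotientOfFiniteIndex
  refine ⟨fun g => ∑ y : G ⧸ H, f (g, y.out), fun g h => ?_⟩
  have key : ∀ y : G ⧸ H,
      f (g * h, y.out) + f (g, h) = ρ g (f (h, y.out)) + f (g, h * y.out) :=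
    fun y => hf g h y.out
  have hsum : ∑ y : G ⧸ H, (f (g * h, y.out) + f (g, h)) =
      ∑ y : G ⧸ H, (ρ g (f (h, y.out)) + f (g, h * y.out)) :=
    Finset.sum_congr rfl fun y _ => key y
  rw [Finset.sum_add_distrib, Finset.sum_add_distrib, Finset.sum_const, Finset.card_univ,
    ← map_sum] at hsum
  have hre : ∑ y : G ⧸ H, f (g, h * y.out) = ∑ y : G ⧸ H, f (g, y.out) := by
    rw [← Equiv.sum_comp (MulAction.toPerm h : Equiv.Perm (G ⧸ H)) (fun y => f (g, y.out))]
    refine Finset.sum_congr rfl fun y _ => ?_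
    have hy : (MulAction.toPerm h : Equiv.Perm (G ⧸ H)) y =
        ((h * y.out : G) : G ⧸ H) := by
      rw [MulAction.toPerm_apply]
      conv_lhs => rw [← QuotientGroup.out_eq' y]
      rfl
    obtain ⟨h', hh'⟩ := QuotientGroup.mk_out_eq_mul H (h * y.out)
    rw [hy, hh', hf.const_on_coset H h0 _ _ h'.2]
  rw [hre] at hsum
  rw [dOne_apply, Subgroup.index_eq_card, Nat.card_eq_fintype_card]
  have : Fintype.card (G ⧸ H) • f (g, h) =
      ρ g (∑ y : G ⧸ H, f (h, y.out)) + ∑ y : G ⧸ H, f (g, y.out)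
        - ∑ y : G ⧸ H, f (g * h, y.out) := by
    rw [← hsum]
    abel
  rw [this]
  abel

/-- **Step A**: normalisation on `G × H`. -/
theorem exists_cochain_of_res {f : G × G → A} (hf : IsCoc2 ρ f) (H : Subgroup G)
    (b : G → A)
    (hb : ∀ h ∈ H, ∀ h' ∈ H, f (h, h') = ρ h (b h') - b (h * h') + b h) :
    ∃ β : G → A, ∀ x : G, ∀ h ∈ H, f (x, h) = dOne ρ β (x, h) := by
  classical
  set r : G → G := fun x => ((x : G ⧸ H)).out with hr
  set η : G → G := fun x => (r x)⁻¹ * x with hη
  have F1 : ∀ x, η x ∈ H := fun x =>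
    QuotientGroup.eq.mp (QuotientGroup.out_eq' (x : G ⧸ H))
  have F2 : ∀ x, ∀ h ∈ H, r (x * h) = r x := by
    intro x h hh
    simp only [hr]
    rw [QuotientGroup.mk_mul_of_mem x hh]
  have F3 : ∀ x, r x * η x = x := fun x => mul_inv_cancel_left _ _
  have F4 : r 1 ∈ H := by
    have := F1 1
    simp only [hη, mul_one] at this
    exact (Subgroup.inv_mem_iff H).mp this
  have F5 : ∀ h ∈ H, r h = r 1 := by
    intro h hh
    have := F2 1 h hh
    rwa [one_mul] at this
  set t0 : G := r 1 with ht0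
  set β : G → A := fun x => ρ (r x) (b (η x)) - f (r x, η x) + b t0 with hβ
  have Hβ : ∀ h ∈ H, β h = b h := by
    intro h hh
    have e1 : r h = t0 := F5 h hh
    have e2 : t0 * η h = h := by rw [← e1]; exact F3 h
    have := hb t0 F4 (η h) (F1 h)
    rw [e2] at this
    simp only [hβ]
    rw [e1, this]
    abel
  refine ⟨β, fun x h hh => ?_⟩
  have e1 : r (x * h) = r x := F2 x h hh
  have e2 : η (x * h) = η x * h := by
    simp only [hη]
    rw [e1, mul_assoc]
  have hc := hf (r x) (η x) h
  rw [F3 x] at hc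
  have hbη := hb (η x) (F1 x) h hh
  rw [dOne_apply, Hβ h hh]
  simp only [hβ]
  rw [e1, e2]
  have e3 : ρ (r x) (f (η x, h)) =
      ρ x (b h) - ρ (r x) (b (η x * h)) + ρ (r x) (b (η x)) := by
    rw [hbη, map_add, map_sub, ← Module.End.mul_apply, ← map_mul, F3 x]
  rw [e3] at hc
  have : f (x, h) = ρ x (b h) - ρ (r x) (b (η x * h)) + ρ (r x) (b (η x)) + f (r x, η x * h)
      - f (r x, η x) := by
    rw [← hc]
    abel
  rw [this]
  abel

/-- If the restriction of the 2-cocycle `f` to `H × H` is a coboundary, then `[G:H] • f` is a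
coboundary. -/
theorem exists_cochain_index_smul {f : G × G → A} (hf : IsCoc2 ρ f) (H : Subgroup G)
    [H.FiniteIndex] (b : G → A)
    (hb : ∀ h ∈ H, ∀ h' ∈ H, f (h, h') = ρ h (b h') - b (h * h') + b h) :
    ∃ c : G → A, ∀ g h : G, dOne ρ c (g, h) = H.index • f (g, h) := by
  obtain ⟨β, hβ⟩ := exists_cochain_of_res hf H b hb
  have hf' : IsCoc2 ρ (f - dOne ρ β) := hf.sub ρ (isCoc2_dOne ρ β)
  have h0 : ∀ x : G, ∀ h ∈ H, (f - dOne ρ β) (x, h) = 0 := by
    intro x h hh
    rw [Pi.sub_apply, hβ x h hh, sub_self]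
  obtain ⟨c, hc⟩ := exists_cochain_of_vanish hf' H h0
  refine ⟨c + H.index • β, fun g h => ?_⟩
  have := hc g h
  rw [Pi.sub_apply, nsmul_sub] at this
  rw [dOne_apply] at this ⊢
  simp only [Pi.add_apply, Pi.smul_apply, map_add, map_nsmul]
  rw [dOne_apply] at this
  have e : H.index • f (g, h) =
      ρ g (c h) - c (g * h) + c g + H.index • (ρ g (β h) - β (g * h) + β g) := by
    rw [this]
    abel
  rw [e, nsmul_add, nsmul_sub]
  abel

end Pure

section RepLevel

variable {k G : Type} [CommRing k] [Group G]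

/-- **`res x = 0 ⇒ [G:H] • x = 0` in degree 2** (the `hcor` input of the class-module
criterion), for Mathlib's restriction map `resSub C H 2 = groupCohomology.map H.subtype (𝟙 _) 2`. -/
theorem index_nsmul_eq_zero_of_resSub_eq_zero (C : Rep.{0} k G) (H : Subgroup G) [H.FiniteIndex]
    (x : groupCohomology C 2) (hx : (resSub C H 2).hom x = 0) : H.index • x = 0 := by
  classical
  induction x using H2_induction_on with
  | h f =>
    -- restriction on cocycles
    have h1 : (resSub C H 2).hom (H2π C f) =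
        H2π (Rep.res H.subtype C) (mapCocycles₂ H.subtype (𝟙 (Rep.res H.subtype C)) f) :=
      H2π_comp_map_apply (f := H.subtype) (φ := 𝟙 (Rep.res H.subtype C)) f
    rw [h1, H2π_eq_zero_iff] at hx
    obtain ⟨b, hb⟩ := hx
    have hb' : ∀ h h' : H, C.ρ h (b h') - b (h * h') + b h = f ((h : G), (h' : G)) := by
      intro h h'
      have := congrFun hb (h, h')
      have e : (mapCocycles₂ H.subtype (𝟙 (Rep.res H.subtype C)) f) (h, h') =
          f ((h : G), (h' : G)) := rfl
      rw [e] at this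
      simpa using this
    -- extend `b` by zero
    set b' : G → C.V := fun g => if hg : g ∈ H then b ⟨g, hg⟩ else 0 with hb'def
    have hbb : ∀ h : H, b' (h : G) = b h := by
      intro h
      simp [hb'def]
    have hfc : IsCoc2 C.ρ (f : G × G → C.V) := (mem_cocycles₂_iff (f : G × G → C.V)).1 f.2
    obtain ⟨c, hc⟩ := exists_cochain_index_smul (ρ := C.ρ) hfc H b' (by
      intro h hh h' hh'
      have := hb' ⟨h, hh⟩ ⟨h', hh'⟩
      rw [← hbb ⟨h, hh⟩, ← hbb ⟨h', hh'⟩, ← hbb (⟨h, hh⟩ * ⟨h', hh'⟩)] at this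
      exact this.symm)
    rw [← map_nsmul, H2π_eq_zero_iff]
    refine ⟨c, ?_⟩
    funext p
    obtain ⟨g, h⟩ := p
    have := hc g h
    rw [dOne_apply] at this
    have e2 : ((H.index • f : cocycles₂ C) : G × G → C.V) (g, h) = H.index • f (g, h) := rfl
    rw [e2, ← this]
    simp

end RepLevel

end Fermat.Agent.CFT.H26
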