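import Fermat.Agent.CFT.H26_Fund
import Fermat.Agent.CFT.H26_ResCor2

/-!
# CFT layer B, package B-FUND (field part), with the `hcor` input discharged

Same as `H26.isClassModule_of_infl_eq_of`, but the layer-A input `hcor`
(`res x = 0 ⇒ [G:H] • x = 0` in degree 2) is now a theorem
(`H26.index_nsmul_eq_zero_of_resSub_eq_zero`).  Also a version of the abstract criterion input
with `hcor` removed.
-/

set_option autoImplicit false
set_option linter.unusedSectionVars false

open groupCohomology CategoryTheory IntermediateField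

namespace Fermat.Agent.CFT.H26

open Fermat.Agent.CFT Fermat.Agent.CFT.Loc

/-- `hcor` for a finite group: every subgroup has finite index. -/
theorem hcor_of_finite {k G : Type} [CommRing k] [Group G] [Finite G] (C : Rep.{0} k G)
    (H : Subgroup G) (x : groupCohomology C 2) (hx : (resSub C H 2).hom x = 0) :
    H.index • x = 0 :=
  index_nsmul_eq_zero_of_resSub_eq_zero C H x hx

variable (q : ℕ) [Fact q.Prime]

variable (E F M : Type) [Field E] [Field F] [Field M]
  [Algebra ℚ_[q] E] [Algebra ℚ_[q] F] [Algebra ℚ_[q] M]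
  [FiniteDimensional ℚ_[q] E] [FiniteDimensional ℚ_[q] F] [FiniteDimensional ℚ_[q] M]
  [Algebra E M] [Algebra F M] [IsScalarTower ℚ_[q] E M] [IsScalarTower ℚ_[q] F M]

/-- `Fˣ` with the fundamental class is a class module for `Gal(F/ℚ_q)` (no `hcor` input). -/
theorem isClassModule_of_infl_eq_of' [IsGalois ℚ_[q] E] [IsGalois ℚ_[q] F] [IsGalois ℚ_[q] M]
    (hinjF : Function.Injective (infl ℚ_[q] F M 2).hom)
    (hinjE : Function.Injective (infl ℚ_[q] E M 2).hom)
    (hord : addOrderOf (unrClass q E) = Module.finrank ℚ_[q] E)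
    (hdeg : Module.finrank ℚ_[q] E = Module.finrank ℚ_[q] F)
    (hfin : ∀ (K : Type) [Field K] [Algebra ℚ_[q] K] [FiniteDimensional ℚ_[q] K]
      (L : Type) [Field L] [Algebra ℚ_[q] L] [FiniteDimensional ℚ_[q] L]
      [Algebra K L] [IsScalarTower ℚ_[q] K L] [IsGalois K L],
      Finite (H2 (Rep.ofAlgebraAutOnUnits K L)))
    (hcard : ∀ (K : Type) [Field K] [Algebra ℚ_[q] K] [FiniteDimensional ℚ_[q] K]
      (L : Type) [Field L] [Algebra ℚ_[q] L] [FiniteDimensional ℚ_[q] L]
      [Algebra K L] [IsScalarTower ℚ_[q] K L] [IsGalois K L],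
      Nat.card (H2 (Rep.ofAlgebraAutOnUnits K L)) ≤ Module.finrank K L)
    (hcrit : ∀ {G : Type} [Group G] [Finite G] (C : Rep.{0} ℤ G) (γ : groupCohomology C 2),
      (∀ H : Subgroup G, Subsingleton (groupCohomology (Rep.res H.subtype C) 1)) →
      (∀ H : Subgroup G, Finite (groupCohomology (Rep.res H.subtype C) 2)) →
      (∀ H : Subgroup G, Nat.card (groupCohomology (Rep.res H.subtype C) 2) ≤ Nat.card H) →
      (∀ (H : Subgroup G) (x : groupCohomology C 2),
        (resSub C H 2).hom x = 0 → H.index • x = 0) →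
      addOrderOf γ = Nat.card G → IsClassModule C γ)
    (γ : groupCohomology (Rep.ofAlgebraAutOnUnits ℚ_[q] F) 2)
    (hγ : (infl ℚ_[q] F M 2).hom γ = (infl ℚ_[q] E M 2).hom (unrClass q E)) :
    IsClassModule (Rep.ofAlgebraAutOnUnits ℚ_[q] F) γ :=
  isClassModule_of_infl_eq_of q E F M hinjF hinjE hord hdeg hfin hcard hcrit
    (fun H x hx => hcor_of_finite _ H x hx) γ hγ

end Fermat.Agent.CFT.H26
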