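import Fermat.Agent.CFT.H26_FundLocal

/-!
# CFT layer B, package B-FUND (general base): relative fundamental classes

Skeleton4, section `FundRel`: for `L/K` finite Galois (both finite over `ℚ_q`), `E/K` unramified of
degree `[L:K]`, `M ⊇ E, L` finite Galois over `K` and `ϖ` a uniformizer of `K`, there is a unique
`γ ∈ H²(Gal(L/K), Lˣ)` whose inflation to `M` is the inflation of the Frobenius–uniformizer class
of `E/K`; it has order `[L:K]` and generates `H²(Gal(L/K), Lˣ)`.

Plugged in: B-INFRES-GAL (`H85`), B-SECOND (`H33`), criterion (`H66`).  Explicit hypotheses (in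
Skeleton4 shape): B-HERBRAND `hc`, `hugly` = `rest_infl_unrClassRel_eq_zero`,
`hord` = `addOrderOf_unrClassRel`.
-/

set_option autoImplicit false
set_option linter.unusedSectionVars false

open groupCohomology CategoryTheory IntermediateField

namespace Fermat.Agent.CFT.H26

open Fermat.Agent.CFT Fermat.Agent.CFT.Loc

variable (q : ℕ) [Fact q.Prime]
variable (K : Type) [Field K] [Algebra ℚ_[q] K] [FiniteDimensional ℚ_[q] K]

section FundRel

variable (E L M : Type) [Field E] [Field L] [Field M]
  [Algebra ℚ_[q] E] [Algebra ℚ_[q] L] [Algebra ℚ_[q] M]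
  [FiniteDimensional ℚ_[q] E] [FiniteDimensional ℚ_[q] L] [FiniteDimensional ℚ_[q] M]
  [Algebra K E] [IsScalarTower ℚ_[q] K E] [Algebra K L] [IsScalarTower ℚ_[q] K L]
  [Algebra K M] [IsScalarTower ℚ_[q] K M]
  [Algebra E M] [Algebra L M] [IsScalarTower K E M] [IsScalarTower K L M]

/-- Skeleton4 `existsUnique_fundRel`, with the general-base ugly lemma as explicit hypothesis. -/
theorem existsUnique_fundRel_of [IsGalois K E] [IsGalois K L] [IsGalois K M] (ϖ : Kˣ)
    (hugly : (rest K L M 2).hom ((infl K E M 2).hom (unrClassRel q K E ϖ)) = 0) :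
    ∃! γ : groupCohomology (Rep.ofAlgebraAutOnUnits K L) 2,
      (infl K L M 2).hom γ = (infl K E M 2).hom (unrClassRel q K E ϖ) := by
  have : FiniteDimensional K M := FiniteDimensional.right ℚ_[q] K M
  obtain ⟨γ, hγ⟩ := H85.exists_infl_eq_of_rest_eq_zero K L M _ hugly
  exact ⟨γ, hγ, fun γ' hγ' => H85.infl_injective K L M (hγ'.trans hγ.symm)⟩

/-- A finite additive group of cardinality at most the order of `γ` is generated by `γ`. -/
theorem exists_zsmul_eq_of_card_le {A : Type*} [AddCommGroup A] [Finite A] (γ : A)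
    (h : Nat.card A ≤ addOrderOf γ) (x : A) : ∃ n : ℤ, x = n • γ := by
  have h1 : Nat.card (AddSubgroup.zmultiples γ) = addOrderOf γ := Nat.card_zmultiples γ
  have h2 : Nat.card (AddSubgroup.zmultiples γ) ≤ Nat.card A :=
    Nat.card_le_card_of_injective _ Subtype.val_injective
  have h3 : Nat.card (AddSubgroup.zmultiples γ) = Nat.card A := by omega
  have h4 : AddSubgroup.zmultiples γ = ⊤ := AddSubgroup.card_eq_iff_eq_top _ |>.mp h3
  have hx : x ∈ AddSubgroup.zmultiples γ := h4 ▸ AddSubgroup.mem_top x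
  obtain ⟨n, hn⟩ := AddSubgroup.mem_zmultiples_iff.mp hx
  exact ⟨n, hn.symm⟩

/-- Skeleton4 `fundRel_spec`. -/
theorem fundRel_spec_of [IsGalois K E] [IsGalois K L] [IsGalois K M]
    (hc : H33.PrimeDegreeH2Card q)
    (hdeg : Module.finrank K E = Module.finrank K L) (ϖ : Kˣ)
    (hord : addOrderOf (unrClassRel q K E ϖ) = Module.finrank K E)
    (γ : groupCohomology (Rep.ofAlgebraAutOnUnits K L) 2)
    (hγ : (infl K L M 2).hom γ = (infl K E M 2).hom (unrClassRel q K E ϖ)) :
    addOrderOf γ = Module.finrank K L ∧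
      ∀ x : groupCohomology (Rep.ofAlgebraAutOnUnits K L) 2, ∃ n : ℤ, x = n • γ := by
  have : FiniteDimensional K M := FiniteDimensional.right ℚ_[q] K M
  have h1 : addOrderOf ((infl K L M 2).hom γ) = addOrderOf γ :=
    addOrderOf_injective ((infl K L M 2).hom : _ →ₗ[ℤ] _).toAddMonoidHom
      (H85.infl_injective K L M) γ
  have h2 : addOrderOf ((infl K E M 2).hom (unrClassRel q K E ϖ)) =
      addOrderOf (unrClassRel q K E ϖ) :=
    addOrderOf_injective ((infl K E M 2).hom : _ →ₗ[ℤ] _).toAddMonoidHom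
      (H85.infl_injective K E M) _
  have hordγ : addOrderOf γ = Module.finrank K L := by
    rw [← h1, hγ, h2, hord, hdeg]
  refine ⟨hordγ, ?_⟩
  have : Finite (groupCohomology (Rep.ofAlgebraAutOnUnits K L) 2) := H33.finite_H2 q K L hc
  have hcard := H33.card_H2_le_finrank q K L hc
  exact exists_zsmul_eq_of_card_le γ (by rw [hordγ]; exact hcard)

/-- The relative fundamental class makes `Lˣ` a class module for `Gal(L/K)`. -/
theorem isClassModule_fundRel_of [IsGalois K E] [IsGalois K L] [IsGalois K M]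
    (hc : H33.PrimeDegreeH2Card q)
    (hdeg : Module.finrank K E = Module.finrank K L) (ϖ : Kˣ)
    (hord : addOrderOf (unrClassRel q K E ϖ) = Module.finrank K E)
    (γ : groupCohomology (Rep.ofAlgebraAutOnUnits K L) 2)
    (hγ : (infl K L M 2).hom γ = (infl K E M 2).hom (unrClassRel q K E ϖ)) :
    IsClassModule (Rep.ofAlgebraAutOnUnits K L) γ :=
  isClassModule_local_of_addOrderOf q K L hc γ
    (fundRel_spec_of q K E L M hc hdeg ϖ hord γ hγ).1

end FundRel

end Fermat.Agent.CFT.H26
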