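/-
CFT project, layer B, package B-FUNDCLASS (helper8): items (F2) and (F4) of helper3's ruling (R3),
stated against helper15's shared definition `Loc.IsFundClass` (`H15_FundClassDef`).

* `infl_isFundClass` (F2): for `K ⊆ L ⊆ L'`, `L/K` and `L'/K` Galois, fundamental classes `γ`, `γ'`:
  `infl γ = [L':L] • γ'`.
* `eq_unrClassRel_of_isFundClass` (F4): for `L/K` unramified the fundamental class is
  `unrClassRel q K L ϖ` for every uniformizer `ϖ`.
-/
import Fermat.Agent.CFT.H15_FundClassDef
import Fermat.Agent.CFT.H85_InfResGal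
import Fermat.Agent.CFT.H19_UnrRel
import Fermat.Agent.CFT.H25_UnrOmega
import Fermat.Agent.CFT.H92_RamLoc

set_option autoImplicit false
set_option linter.style.haveILetI false
set_option linter.unusedSectionVars false

namespace Fermat.Agent.CFT.H8

open Fermat.Agent.CFT Fermat.Agent.CFT.Loc

section Tower

variable {K Ω : Type} [Field K] [Field Ω] [Algebra K Ω]

/-- the algebra structure of an inclusion of intermediate fields (not an instance). -/
@[reducible] noncomputable def inclAlg {F M : IntermediateField K Ω} (h : F ≤ M) : Algebra F M :=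
  (IntermediateField.inclusion h).toRingHom.toAlgebra

/-- the ring homomorphism into an intermediate field containing the image. -/
noncomputable def intoSub {L : Type} [Field L] [Algebra L Ω] (M : IntermediateField K Ω)
    (h : ∀ x : L, algebraMap L Ω x ∈ M) : L →+* M :=
  (algebraMap L Ω).codRestrict M h

end Tower

section F2

variable (q : ℕ) [Fact q.Prime]
  (K L L' : Type) [Field K] [Field L] [Field L']
  [Algebra ℚ_[q] K] [Algebra ℚ_[q] L] [Algebra ℚ_[q] L']
  [FiniteDimensional ℚ_[q] K] [FiniteDimensional ℚ_[q] L] [FiniteDimensional ℚ_[q] L']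
  [Algebra K L] [IsScalarTower ℚ_[q] K L] [Algebra K L'] [IsScalarTower ℚ_[q] K L']
  [Algebra L L'] [IsScalarTower K L L'] [IsGalois K L] [IsGalois K L']

/-- (F2) inside a fixed algebraically closed field `Ω` containing `L'`. -/
theorem infl_isFundClass_aux (Ω : Type) [Field Ω] [Algebra ℚ_[q] Ω] [Algebra K Ω]
    [IsScalarTower ℚ_[q] K Ω] [Algebra L' Ω] [IsScalarTower K L' Ω] [IsAlgClosed Ω]
    [Algebra.IsAlgebraic K Ω]
    (γ : groupCohomology (Rep.ofAlgebraAutOnUnits K L) 2) (hγ : IsFundClass q K L γ)
    (γ' : groupCohomology (Rep.ofAlgebraAutOnUnits K L') 2) (hγ' : IsFundClass q K L' γ') :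
    (infl K L L' 2).hom γ = Module.finrank L L' • γ' := by
  haveI : FiniteDimensional K L := FiniteDimensional.right ℚ_[q] K L
  haveI : FiniteDimensional K L' := FiniteDimensional.right ℚ_[q] K L'
  haveI : FiniteDimensional L L' := FiniteDimensional.right K L L'
  obtain ⟨ϖ, hϖ⟩ := H92.exists_isUniformizer q K
  set n := Module.finrank K L with hn_def
  set n' := Module.finrank K L' with hn'_def
  have hn : n ≠ 0 := Module.finrank_pos.ne'
  have hn' : n' ≠ 0 := Module.finrank_pos.ne'
  have hmul : n * Module.finrank L L' = n' := Module.finrank_mul_finrank K L L'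
  have hdvd : n ∣ n' := ⟨_, hmul.symm⟩
  -- the fields inside Ω
  let E : IntermediateField K Ω := H25.unrSub q K Ω n
  let E' : IntermediateField K Ω := H25.unrSub q K Ω n'
  have hEE' : E ≤ E' := H25.unrSub_le_of_dvd q K Ω hdvd
  let φ' : L' →ₐ[K] Ω := IsScalarTower.toAlgHom K L' Ω
  let Λ' : IntermediateField K Ω := φ'.fieldRange
  let M : IntermediateField K Ω := E' ⊔ Λ'
  have hE'M : E' ≤ M := le_sup_left
  have hEM : E ≤ M := hEE'.trans hE'M
  have hΛ'M : ∀ x : L', algebraMap L' Ω x ∈ M := fun x =>
    (le_sup_right : Λ' ≤ M) ⟨x, rfl⟩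
  -- instances
  haveI : FiniteDimensional ℚ_[q] E := H25.finiteDimensional_unrSub_base q K Ω hn
  haveI : FiniteDimensional ℚ_[q] E' := H25.finiteDimensional_unrSub_base q K Ω hn'
  haveI : FiniteDimensional K E := H25.finiteDimensional_unrSub q K Ω hn
  haveI : FiniteDimensional K E' := H25.finiteDimensional_unrSub q K Ω hn'
  haveI : IsGalois K E := H25.isGalois_unrSub q K Ω hn
  haveI : IsGalois K E' := H25.isGalois_unrSub q K Ω hn'
  haveI : FiniteDimensional K Λ' :=
    LinearEquiv.finiteDimensional (AlgEquiv.ofInjectiveField φ').toLinearEquiv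
  haveI : IsGalois K Λ' := IsGalois.of_algEquiv (AlgEquiv.ofInjectiveField φ')
  haveI : FiniteDimensional K M := inferInstance
  haveI : IsGalois K M := inferInstance
  haveI : FiniteDimensional ℚ_[q] M := FiniteDimensional.trans ℚ_[q] K M
  letI aEE' : Algebra E E' := inclAlg hEE'
  letI aEM : Algebra E M := inclAlg hEM
  letI aE'M : Algebra E' M := inclAlg hE'M
  letI aL'M : Algebra L' M := (intoSub M hΛ'M).toAlgebra
  letI aLM : Algebra L M := ((intoSub M hΛ'M).comp (algebraMap L L')).toAlgebra
  haveI : IsScalarTower K E E' := IsScalarTower.of_algebraMap_eq (fun x => rfl)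
  haveI : IsScalarTower K E M := IsScalarTower.of_algebraMap_eq (fun x => rfl)
  haveI : IsScalarTower K E' M := IsScalarTower.of_algebraMap_eq (fun x => rfl)
  haveI : IsScalarTower E E' M := IsScalarTower.of_algebraMap_eq (fun x => rfl)
  haveI : IsScalarTower K L' M := IsScalarTower.of_algebraMap_eq (fun x => by
    apply Subtype.ext
    exact IsScalarTower.algebraMap_apply K L' Ω x)
  haveI : IsScalarTower L L' M := IsScalarTower.of_algebraMap_eq (fun x => rfl)
  haveI : IsScalarTower K L M := IsScalarTower.of_algebraMap_eq (fun x => by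
    apply Subtype.ext
    show algebraMap K Ω x = algebraMap L' Ω (algebraMap L L' (algebraMap K L x))
    rw [← IsScalarTower.algebraMap_apply K L L', ← IsScalarTower.algebraMap_apply K L' Ω])
  have hE : IsUnramified q K E := H25.isUnramified_unrSub q K Ω hn
  have hE' : IsUnramified q K E' := H25.isUnramified_unrSub q K Ω hn'
  have hdE : Module.finrank K E = Module.finrank K L := H25.finrank_unrSub q K Ω hn
  have hdE' : Module.finrank K E' = Module.finrank K L' := H25.finrank_unrSub q K Ω hn'
  have h1 := hγ E M hE hdE ϖ hϖ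
  have h2 := hγ' E' M hE' hdE' ϖ hϖ
  have h3 := H85.infl_comp K L L' M 2 γ
  have h4 := H85.infl_comp K E E' M 2 (unrClassRel q K E ϖ)
  have h5 := H19.infl_unrClassRel q K E E' hE hE' ϖ
  have hdeg : Module.finrank E E' = Module.finrank L L' := by
    have h6 : Module.finrank K E * Module.finrank E E' = Module.finrank K E' :=
      Module.finrank_mul_finrank K E E'
    rw [hdE, hdE'] at h6
    exact Nat.eq_of_mul_eq_mul_left (Nat.pos_of_ne_zero hn) (h6.trans hmul.symm)
  apply H85.infl_injective K L' M
  rw [h3, h1, ← h4, h5, map_nsmul, ← h2, map_nsmul, hdeg]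

/-- **(F2)** inflation of the fundamental class: for `K ⊆ L ⊆ L'` with `L/K`, `L'/K` Galois,
`infl (γ_{L/K}) = [L':L] • γ_{L'/K}`. -/
theorem infl_isFundClass
    (γ : groupCohomology (Rep.ofAlgebraAutOnUnits K L) 2) (hγ : IsFundClass q K L γ)
    (γ' : groupCohomology (Rep.ofAlgebraAutOnUnits K L') 2) (hγ' : IsFundClass q K L' γ') :
    (infl K L L' 2).hom γ = Module.finrank L L' • γ' := by
  haveI : FiniteDimensional K L' := FiniteDimensional.right ℚ_[q] K L'
  haveI : Algebra.IsAlgebraic K (AlgebraicClosure L') :=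
    Algebra.IsAlgebraic.trans K L' (AlgebraicClosure L')
  exact infl_isFundClass_aux q K L L' (AlgebraicClosure L') γ hγ γ' hγ'

end F2

section F4

/-- **(F4)** for an unramified extension, the fundamental class is the unramified class of any
uniformizer. -/
theorem eq_unrClassRel_of_isFundClass (q : ℕ) [Fact q.Prime]
    (K L : Type) [Field K] [Field L] [Algebra ℚ_[q] K] [Algebra ℚ_[q] L]
    [FiniteDimensional ℚ_[q] K] [FiniteDimensional ℚ_[q] L] [Algebra K L] [IsScalarTower ℚ_[q] K L]
    [IsGalois K L] (γ : groupCohomology (Rep.ofAlgebraAutOnUnits K L) 2)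
    (hγ : IsFundClass q K L γ) (hL : IsUnramified q K L) (ϖ : Kˣ)
    (hϖ : IsUniformizer q K (ϖ : K)) : γ = unrClassRel q K L ϖ := by
  have : FiniteDimensional K L := FiniteDimensional.right ℚ_[q] K L
  exact H85.infl_injective K L L (hγ L L hL rfl ϖ hϖ)

end F4

end Fermat.Agent.CFT.H8
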