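import Fermat.Agent.CFT.H26_UnrK
import Fermat.Agent.CFT.H15_FundClassDef
import Fermat.Agent.CFT.H92_RamLoc
import Fermat.Agent.CFT.H25_UnrOmega
import Fermat.Agent.CFT.H8_FundClassInfl

/-!
# CFT layer B, package B-FUNDCLASS (F3): restriction of fundamental classes (general base)

* `nsmul_rest_infl_unrClassRel` (Theorem U): for `K ⊆ K' ⊆ M`, `E/K` unramified inside `M`,
  `L''/K'` unramified inside `M`, `c * [L'':K'] * [K':K] = [E:K]`:
  `c • rest_{K → K'} (infl_{E → M} u_{E/K}(ϖ)) = infl_{L'' → M} u_{L''/K'}(ϖ')`.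
* `rest_isFundClass` (F3): `rest_{K → K'} γ_{L/K} = γ_{L/K'}`.
-/

set_option autoImplicit false
set_option linter.unusedSectionVars false
set_option linter.unusedVariables false
set_option linter.style.haveILetI false

open groupCohomology CategoryTheory

namespace Fermat.Agent.CFT.H26

open Fermat.Agent.CFT.Loc

section CoreRel

variable (q : ℕ) [Fact q.Prime]
variable (K K' L'' E M E' : Type) [Field K] [Field K'] [Field L''] [Field E] [Field M] [Field E']
  [Algebra ℚ_[q] K] [Algebra ℚ_[q] K'] [Algebra ℚ_[q] L''] [Algebra ℚ_[q] E] [Algebra ℚ_[q] M]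
  [Algebra ℚ_[q] E']
  [FiniteDimensional ℚ_[q] K] [FiniteDimensional ℚ_[q] K'] [FiniteDimensional ℚ_[q] L'']
  [FiniteDimensional ℚ_[q] E] [FiniteDimensional ℚ_[q] M] [FiniteDimensional ℚ_[q] E']
  [Algebra K K'] [IsScalarTower ℚ_[q] K K']
  [Algebra K E] [IsScalarTower ℚ_[q] K E]
  [Algebra K' L''] [IsScalarTower ℚ_[q] K' L'']
  [Algebra K M] [Algebra K' M] [IsScalarTower K K' M]
  [Algebra E M] [IsScalarTower K E M]
  [Algebra L'' M] [IsScalarTower K' L'' M]
  [Algebra K' E'] [IsScalarTower ℚ_[q] K' E'] [Algebra E' M] [IsScalarTower K' E' M]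
  [Algebra L'' E'] [IsScalarTower K' L'' E'] [IsScalarTower L'' E' M]

/-- Theorem U, core form (`E'` an unramified extension of `K'` inside `M` containing `L''` for
which GEN holds). -/
theorem nsmul_rest_infl_unrClassRel_core
    [Normal K E] [Normal K' L''] [Normal K' E']
    (hL'' : IsUnramified q K' L'') (hE' : IsUnramified q K' E') (ϖ : Kˣ) (ϖ' : K'ˣ) (e c : ℕ)
    (hq : nrm q K' (algebraMap K K' (ϖ : K)) = nrm q K' (ϖ' : K') ^ e)
    (hdeg : c * e = Module.finrank L'' E')
    (hGEN : (rest K K' M 2).hom ((infl K E M 2).hom (unrClassRel q K E ϖ)) =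
      (infl K' E' M 2).hom (unrClassRel q K' E' (Units.map (algebraMap K K' : K →* K') ϖ))) :
    c • (rest K K' M 2).hom ((infl K E M 2).hom (unrClassRel q K E ϖ)) =
      (infl K' L'' M 2).hom (unrClassRel q K' L'' ϖ') := by
  haveI : FiniteDimensional K' E' := FiniteDimensional.right ℚ_[q] K' E'
  haveI : IsGalois K' E' := H25.isGalois_of_isUnramified q K' E' hE'
  haveI : IsGalois K' L'' := H25.isGalois_of_isUnramified q K' L'' hL''
  have e4 : (infl K' E' M 2).hom ((infl K' L'' E' 2).hom (unrClassRel q K' L'' ϖ')) =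
      (infl K' L'' M 2).hom (unrClassRel q K' L'' ϖ') := H85.infl_comp K' L'' E' M 2 _
  have e5 := H19.infl_unrClassRel q K' L'' E' hL'' hE' ϖ'
  have e6 := unrClassRel_eq_nsmul_of_nrm_eq q K' E' hE'
    (Units.map (algebraMap K K' : K →* K') ϖ) ϖ' e hq
  have e7 : (infl K' E' M 2).hom (e • unrClassRel q K' E' ϖ') =
      e • (infl K' E' M 2).hom (unrClassRel q K' E' ϖ') := map_nsmul _ _ _
  have e8 : (infl K' E' M 2).hom (Module.finrank L'' E' • unrClassRel q K' E' ϖ') =
      Module.finrank L'' E' • (infl K' E' M 2).hom (unrClassRel q K' E' ϖ') := map_nsmul _ _ _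
  rw [hGEN, e6, ← e4, e5, e7, e8, ← mul_nsmul', hdeg]

end CoreRel

section ThmU

open Fermat.Agent.CFT.H76

variable (q : ℕ) [Fact q.Prime]
variable (K K' L'' E M : Type) [Field K] [Field K'] [Field L''] [Field E] [Field M]
  [Algebra ℚ_[q] K] [Algebra ℚ_[q] K'] [Algebra ℚ_[q] L''] [Algebra ℚ_[q] E] [Algebra ℚ_[q] M]
  [FiniteDimensional ℚ_[q] K] [FiniteDimensional ℚ_[q] K'] [FiniteDimensional ℚ_[q] L'']
  [FiniteDimensional ℚ_[q] E] [FiniteDimensional ℚ_[q] M]
  [Algebra K K'] [IsScalarTower ℚ_[q] K K']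
  [Algebra K E] [IsScalarTower ℚ_[q] K E]
  [Algebra K' L''] [IsScalarTower ℚ_[q] K' L'']
  [Algebra K M] [IsScalarTower ℚ_[q] K M] [Algebra K' M] [IsScalarTower K K' M]
  [IsScalarTower ℚ_[q] K' M]
  [Algebra E M] [IsScalarTower K E M]
  [Algebra L'' M] [IsScalarTower K' L'' M]

/-- **Theorem U** (general base): `K ⊆ K' ⊆ M`, `M/K` Galois, `E/K` unramified inside `M`,
`L''/K'` unramified inside `M`, `ϖ`, `ϖ'` uniformizers of `K`, `K'` and
`c * [L'':K'] * [K':K] = [E:K]`.  Then
`c • rest_{K → K'} (infl_{E → M} u_{E/K}(ϖ)) = infl_{L'' → M} u_{L''/K'}(ϖ')`. -/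
theorem nsmul_rest_infl_unrClassRel
    [IsGalois K E] [IsGalois K M] [Normal K' L'']
    (hE : IsUnramified q K E) (hL'' : IsUnramified q K' L'')
    (ϖ : Kˣ) (hϖ : IsUniformizer q K (ϖ : K)) (ϖ' : K'ˣ) (hϖ' : IsUniformizer q K' (ϖ' : K'))
    (c : ℕ) (hc : c * Module.finrank K' L'' * Module.finrank K K' = Module.finrank K E) :
    c • (rest K K' M 2).hom ((infl K E M 2).hom (unrClassRel q K E ϖ)) =
      (infl K' L'' M 2).hom (unrClassRel q K' L'' ϖ') := by
  classical
  haveI := H25.finiteDimensional_tower q K' L''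
  haveI : IsScalarTower ℚ_[q] E M := H25.isScalarTower_base q K E M
  obtain ⟨e, f, hef, hf, hnrm⟩ := H92.exists_ramification_data_rel q K K'
  have hq := hnrm (ϖ : K) (ϖ' : K') hϖ hϖ'
  -- the compositum
  obtain ⟨hunr, -⟩ := baseChange_compFE q K E K' M hE f hf
  have hfin : Module.finrank K' (compFE E K' M) = c * Module.finrank K' L'' * e := by
    apply finrank_compFE q K E K' M hE _ f _ hf
    rw [← hc, ← hef]; ring
  have hdvd : Module.finrank K' L'' ∣ Module.finrank K' (compFE E K' M) :=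
    ⟨c * e, by rw [hfin]; ring⟩
  have hfn : f ∣ Module.finrank K E := ⟨c * Module.finrank K' L'' * e, by rw [← hc, ← hef]; ring⟩
  -- `L'' ⊆ K'·E`
  have hmem : ∀ x : L'', algebraMap L'' M x ∈ compFE E K' M := by
    intro x
    obtain ⟨y, hy⟩ :=
      exists_algebraMap_eq_of_isUnramified q K' L'' (compFE E K' M) M hL'' hunr hdvd x
    rw [← hy]; exact y.2
  letI aLE' : Algebra L'' (compFE E K' M) :=
    ((algebraMap L'' M).codRestrict (compFE E K' M) hmem).toAlgebra
  haveI : IsScalarTower L'' (compFE E K' M) M := IsScalarTower.of_algebraMap_eq fun _ => rfl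
  haveI : IsScalarTower K' L'' (compFE E K' M) := IsScalarTower.of_algebraMap_eq fun x => by
    apply Subtype.ext
    show algebraMap K' M x = algebraMap L'' M (algebraMap K' L'' x)
    rw [← IsScalarTower.algebraMap_apply]
  haveI : IsGalois K' (compFE E K' M) := H25.isGalois_of_isUnramified q K' _ hunr
  have hdegE' : c * e = Module.finrank L'' (compFE E K' M) := by
    have h := Module.finrank_mul_finrank K' L'' (compFE E K' M)
    have hpos : 0 < Module.finrank K' L'' := Module.finrank_pos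
    rw [hfin] at h
    apply Nat.eq_of_mul_eq_mul_left hpos
    rw [h]; ring
  haveI : IsScalarTower K (compFE E K' M) M := IsScalarTower.of_algebraMap_eq fun _ => rfl
  have hGEN := H19.rest_infl_unrClassRel q K K' E (compFE E K' M) M hE
    (adjoin_range_compFE E K' M) f hf hfn ϖ
  exact nsmul_rest_infl_unrClassRel_core q K K' L'' E M (compFE E K' M) hL'' hunr ϖ ϖ' e c hq
    hdegE' hGEN

end ThmU

section F3

open Fermat.Agent.CFT.H8

variable (q : ℕ) [Fact q.Prime]
  (K K' L : Type) [Field K] [Field K'] [Field L]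
  [Algebra ℚ_[q] K] [Algebra ℚ_[q] K'] [Algebra ℚ_[q] L]
  [FiniteDimensional ℚ_[q] K] [FiniteDimensional ℚ_[q] K'] [FiniteDimensional ℚ_[q] L]
  [Algebra K K'] [IsScalarTower ℚ_[q] K K'] [Algebra K L] [IsScalarTower ℚ_[q] K L]
  [Algebra K' L] [IsScalarTower ℚ_[q] K' L] [IsScalarTower K K' L]
  [IsGalois K L] [IsGalois K' L]

/-- (F3) inside a fixed algebraically closed field `Ω` containing `L`. -/
theorem rest_isFundClass_aux (Ω : Type) [Field Ω] [Algebra ℚ_[q] Ω] [Algebra K Ω]
    [IsScalarTower ℚ_[q] K Ω] [Algebra L Ω] [IsScalarTower K L Ω] [IsAlgClosed Ω]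
    [Algebra.IsAlgebraic K Ω]
    (γ : groupCohomology (Rep.ofAlgebraAutOnUnits K L) 2) (hγ : IsFundClass q K L γ)
    (γ' : groupCohomology (Rep.ofAlgebraAutOnUnits K' L) 2) (hγ' : IsFundClass q K' L γ') :
    (rest K K' L 2).hom γ = γ' := by
  haveI : FiniteDimensional K L := FiniteDimensional.right ℚ_[q] K L
  haveI : FiniteDimensional K' L := FiniteDimensional.right ℚ_[q] K' L
  haveI : FiniteDimensional K K' := FiniteDimensional.right ℚ_[q] K K'
  obtain ⟨ϖ, hϖ⟩ := H92.exists_isUniformizer q K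
  obtain ⟨ϖ', hϖ'⟩ := H92.exists_isUniformizer q K'
  obtain ⟨e, f, hef, hf, -⟩ := H92.exists_ramification_data_rel q K K'
  set n := Module.finrank K L with hn_def
  set n' := Module.finrank K' L with hn'_def
  have hn : n ≠ 0 := Module.finrank_pos.ne'
  have hn' : n' ≠ 0 := Module.finrank_pos.ne'
  have hmul : Module.finrank K K' * n' = n := Module.finrank_mul_finrank K K' L
  -- the fields inside Ω
  let E : IntermediateField K Ω := H25.unrSub q K Ω n
  let φ : L →ₐ[K] Ω := IsScalarTower.toAlgHom K L Ω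
  let Λ : IntermediateField K Ω := φ.fieldRange
  let M : IntermediateField K Ω := E ⊔ Λ
  have hEM : E ≤ M := le_sup_left
  have hΛM : ∀ x : L, algebraMap L Ω x ∈ M := fun x => (le_sup_right : Λ ≤ M) ⟨x, rfl⟩
  -- instances
  haveI : FiniteDimensional ℚ_[q] E := H25.finiteDimensional_unrSub_base q K Ω hn
  haveI : FiniteDimensional K E := H25.finiteDimensional_unrSub q K Ω hn
  haveI : IsGalois K E := H25.isGalois_unrSub q K Ω hn
  haveI : FiniteDimensional K Λ :=
    LinearEquiv.finiteDimensional (AlgEquiv.ofInjectiveField φ).toLinearEquiv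
  haveI : IsGalois K Λ := IsGalois.of_algEquiv (AlgEquiv.ofInjectiveField φ)
  haveI : FiniteDimensional K M := inferInstance
  haveI : IsGalois K M := inferInstance
  haveI : FiniteDimensional ℚ_[q] M := FiniteDimensional.trans ℚ_[q] K M
  letI aEM : Algebra E M := inclAlg hEM
  letI aLM : Algebra L M := (intoSub M hΛM).toAlgebra
  letI aK'M : Algebra K' M := ((intoSub M hΛM).comp (algebraMap K' L)).toAlgebra
  haveI : IsScalarTower K E M := IsScalarTower.of_algebraMap_eq (fun x => rfl)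
  haveI : IsScalarTower K L M := IsScalarTower.of_algebraMap_eq (fun x => by
    apply Subtype.ext
    exact IsScalarTower.algebraMap_apply K L Ω x)
  haveI : IsScalarTower K' L M := IsScalarTower.of_algebraMap_eq (fun x => rfl)
  haveI : IsScalarTower K K' M := IsScalarTower.of_algebraMap_eq (fun x => by
    apply Subtype.ext
    show algebraMap K Ω x = algebraMap L Ω (algebraMap K' L (algebraMap K K' x))
    rw [← IsScalarTower.algebraMap_apply K K' L, ← IsScalarTower.algebraMap_apply K L Ω])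
  haveI : IsScalarTower ℚ_[q] K' M := H25.isScalarTower_base q K K' M
  haveI : FiniteDimensional K' M := FiniteDimensional.right ℚ_[q] K' M
  haveI : IsGalois K' M := IsGalois.tower_top_of_isGalois K K' M
  have hE : IsUnramified q K E := H25.isUnramified_unrSub q K Ω hn
  have hdE : Module.finrank K E = n := H25.finrank_unrSub q K Ω hn
  -- the unramified extension of `K'` of degree `n'` inside `M`
  let E'' : IntermediateField K' M := H25.unrSub q K' M n'
  obtain ⟨ζ₀, hζ₀⟩ := H25.exists_isPrimitiveRoot_omega q K Ω hn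
  have hζ₀E : ζ₀ ∈ E := IntermediateField.subset_adjoin K _ hζ₀.pow_eq_one
  have hpow : resCard q K' ^ n' - 1 ∣ resCard q K ^ n - 1 := by
    rw [hf, ← pow_mul]
    apply H25.dvd_resCard_pow_sub_one q K
    refine ⟨e, ?_⟩
    rw [← hmul, ← hef]; ring
  obtain ⟨c, hc⟩ := hpow
  have hm0 : resCard q K ^ n - 1 ≠ 0 := H25.resCard_pow_sub_one_ne_zero q K hn
  have hm0' : resCard q K' ^ n' - 1 ≠ 0 := H25.resCard_pow_sub_one_ne_zero q K' hn'
  haveI : NeZero (resCard q K' ^ n' - 1) := ⟨hm0'⟩
  let ζM : M := ⟨ζ₀, hEM hζ₀E⟩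
  have hζM : IsPrimitiveRoot ζM (resCard q K ^ n - 1) := by
    have h0 : IsPrimitiveRoot ((algebraMap M Ω) ζM) (resCard q K ^ n - 1) := hζ₀
    exact IsPrimitiveRoot.of_map_of_injective h0 (algebraMap M Ω).injective
  have hζ : IsPrimitiveRoot (ζM ^ c) (resCard q K' ^ n' - 1) :=
    hζM.pow (Nat.pos_of_ne_zero hm0) (by rw [hc, mul_comm])
  haveI hcyc : IsCyclotomicExtension {resCard q K' ^ n' - 1} K' E'' := by
    show IsCyclotomicExtension {resCard q K' ^ n' - 1} K' ↥(H25.unrSub q K' M n')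
    rw [H25.unrSub_eq_adjoin_simple q K' hζ hn']
    exact hζ.intermediateField_adjoin_isCyclotomicExtension K'
  haveI : IsScalarTower ℚ_[q] E'' M := IsScalarTower.of_algebraMap_eq (fun x => rfl)
  haveI : FiniteDimensional ℚ_[q] E'' := FiniteDimensional.left ℚ_[q] E'' M
  have hboth := H25.isUnramified_of_isCyclotomicExtension q K' E'' n' (Nat.pos_of_ne_zero hn')
  have hE'' : IsUnramified q K' E'' := hboth.2
  have hdE'' : Module.finrank K' E'' = n' := hboth.1
  haveI : IsGalois K' E'' := H25.isGalois_of_isUnramified q K' E'' hE''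
  have h1 := hγ E M hE hdE ϖ hϖ
  have h2 := hγ' E'' M hE'' hdE'' ϖ' hϖ'
  have hU := nsmul_rest_infl_unrClassRel q K K' E'' E M hE hE'' ϖ hϖ ϖ' hϖ' 1
    (by rw [hdE'', hdE, one_mul, mul_comm]; exact hmul)
  have h3 := infl_rest_comm K K' L M 2 γ
  apply H85.infl_injective K' L M
  rw [h3, h1, h2, ← hU, one_smul]

/-- **(F3)** restriction of the fundamental class: for `K ⊆ K' ⊆ L` with `L/K` Galois,
`rest_{K → K'} (γ_{L/K}) = γ_{L/K'}`. -/
theorem rest_isFundClass
    (γ : groupCohomology (Rep.ofAlgebraAutOnUnits K L) 2) (hγ : IsFundClass q K L γ)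
    (γ' : groupCohomology (Rep.ofAlgebraAutOnUnits K' L) 2) (hγ' : IsFundClass q K' L γ') :
    (rest K K' L 2).hom γ = γ' := by
  haveI : FiniteDimensional K L := FiniteDimensional.right ℚ_[q] K L
  haveI : Algebra.IsAlgebraic K (AlgebraicClosure L) :=
    Algebra.IsAlgebraic.trans K L (AlgebraicClosure L)
  exact rest_isFundClass_aux q K K' L (AlgebraicClosure L) γ hγ γ' hγ'

/-- (F3), predicate form: the restriction of a fundamental class is a fundamental class, as soon as
`L/K'` has a fundamental class at all ((F0)). -/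
theorem isFundClass_rest_of_exists
    (γ : groupCohomology (Rep.ofAlgebraAutOnUnits K L) 2) (hγ : IsFundClass q K L γ)
    (hex : ∃ γ' : groupCohomology (Rep.ofAlgebraAutOnUnits K' L) 2, IsFundClass q K' L γ') :
    IsFundClass q K' L ((rest K K' L 2).hom γ) := by
  obtain ⟨γ', hγ'⟩ := hex
  rw [rest_isFundClass q K K' L γ hγ γ' hγ']
  exact hγ'

end F3

end Fermat.Agent.CFT.H26

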