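import Fermat.Agent.CFT.H3_UglyRel

/-!
# CFT layer B, package B-FUNDCLASS: the canonical local fundamental class over a general base

`K ⊆ L` abstract fields finite over `ℚ_q`, `L/K` Galois.

* `H3.IsLocalFundClass q K L γ` : `γ ∈ H²(Gal(L/K), Lˣ)` inflates, in EVERY finite Galois `M/K`
  containing `L` and an unramified `E/K` of degree `[L:K]`, to the inflation of the
  Frobenius–uniformizer class `unrClassRel q K E ϖ` (every uniformizer `ϖ` of `K`).
* `H3.isLocalFundClass_of_infl_eq` : it suffices to check ONE datum `(E₀, M₀, ϖ₀)`.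
* `H3.existsUnique_isLocalFundClass`, `H3.fundClass q K L`, `H3.isLocalFundClass_fundClass`.
* `H3.IsLocalFundClass.addOrderOf_eq`, `.exists_zsmul_eq`, `.isClassModule`.
* tools: `H3.exists_galois_overfield` (abstract compositum), `H3.infl_unrClassRel_eq`
  (independence of the unramified model and of the uniformizer).
-/

set_option autoImplicit false
set_option linter.unusedSectionVars false
set_option linter.style.haveILetI false

open CategoryTheory groupCohomology IntermediateField

namespace Fermat.Agent.CFT.H3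

open Fermat.Agent.CFT Fermat.Agent.CFT.Loc

/-- two `K`-embeddings of a normal extension `E` into `M` differ by a `K`-endomorphism of `E`. -/
lemma exists_algHom_comp_eq {K E M : Type*} [Field K] [Field E] [Field M] [Algebra K E]
    [Algebra K M] [Normal K E] (j ψ : E →ₐ[K] M) : ∃ τ : E →ₐ[K] E, ∀ x, ψ (τ x) = j x := by
  letI : Algebra E M := ψ.toRingHom.toAlgebra
  haveI : IsScalarTower K E M := IsScalarTower.of_algebraMap_eq fun x => (ψ.commutes x).symm
  exact ⟨j.restrictNormal E, fun x => j.restrictNormal_commutes E x⟩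

variable (q : ℕ) [Fact q.Prime]
variable (K : Type) [Field K] [Algebra ℚ_[q] K] [FiniteDimensional ℚ_[q] K]

variable {q K} in
/-- two uniformizers have the same absolute value -/
lemma nrm_eq_of_isUniformizer {ϖ ϖ₀ : K} (h : IsUniformizer q K ϖ) (h₀ : IsUniformizer q K ϖ₀) :
    nrm q K ϖ = nrm q K ϖ₀ :=
  le_antisymm (h₀.2 ϖ h.1) (h.2 ϖ₀ h₀.1)

/-- **Abstract compositum**: two finite extensions `A`, `B` of `L` (all finite over `ℚ_q`, `L ⊇ K`)
embed over `L` into a common finite Galois extension `M` of `K`. -/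
theorem exists_galois_overfield (L A B : Type) [Field L] [Field A] [Field B]
    [Algebra ℚ_[q] L] [Algebra ℚ_[q] A] [Algebra ℚ_[q] B]
    [FiniteDimensional ℚ_[q] L] [FiniteDimensional ℚ_[q] A] [FiniteDimensional ℚ_[q] B]
    [Algebra K L] [IsScalarTower ℚ_[q] K L] [Algebra K A] [IsScalarTower ℚ_[q] K A]
    [Algebra K B] [IsScalarTower ℚ_[q] K B]
    [Algebra L A] [IsScalarTower K L A] [Algebra L B] [IsScalarTower K L B] :
    ∃ (M : Type) (_ : Field M) (_ : Algebra ℚ_[q] M) (_ : FiniteDimensional ℚ_[q] M)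
      (_ : Algebra K M) (_ : IsScalarTower ℚ_[q] K M) (_ : Algebra L M) (_ : IsScalarTower K L M)
      (_ : Algebra A M) (_ : IsScalarTower K A M) (_ : IsScalarTower L A M)
      (_ : Algebra B M) (_ : IsScalarTower K B M) (_ : IsScalarTower L B M), IsGalois K M := by
  classical
  haveI : CharZero K := charZero_of_injective_algebraMap (algebraMap ℚ_[q] K).injective
  haveI : FiniteDimensional K L := FiniteDimensional.right ℚ_[q] K L
  haveI : FiniteDimensional K A := FiniteDimensional.right ℚ_[q] K A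
  haveI : FiniteDimensional K B := FiniteDimensional.right ℚ_[q] K B
  haveI : IsScalarTower ℚ_[q] L A := H25.isScalarTower_base q K L A
  haveI : IsScalarTower ℚ_[q] L B := H25.isScalarTower_base q K L B
  haveI : FiniteDimensional L A := FiniteDimensional.right ℚ_[q] L A
  haveI : FiniteDimensional L B := FiniteDimensional.right ℚ_[q] L B
  let Ω := AlgebraicClosure L
  haveI : Algebra.IsAlgebraic K Ω := Algebra.IsAlgebraic.trans K L Ω
  haveI : IsAlgClosure K Ω := ⟨inferInstance, inferInstance⟩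
  haveI : Normal K Ω := IsAlgClosure.normal K Ω
  haveI : IsGalois K Ω := ⟨⟩
  let jA : A →ₐ[L] Ω := IsAlgClosed.lift
  let jB : B →ₐ[L] Ω := IsAlgClosed.lift
  let jA' : A →ₐ[K] Ω := jA.restrictScalars K
  let jB' : B →ₐ[K] Ω := jB.restrictScalars K
  let F₀ : IntermediateField K Ω := jA'.fieldRange ⊔ jB'.fieldRange
  haveI : FiniteDimensional K jA'.fieldRange :=
    LinearMap.finiteDimensional_range jA'.toLinearMap
  haveI : FiniteDimensional K jB'.fieldRange :=
    LinearMap.finiteDimensional_range jB'.toLinearMap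
  haveI : FiniteDimensional K F₀ := IntermediateField.finiteDimensional_sup _ _
  let M : IntermediateField K Ω := IntermediateField.normalClosure K F₀ Ω
  haveI : FiniteDimensional K M := normalClosure.is_finiteDimensional K F₀ Ω
  haveI : IsGalois K M := IsGalois.normalClosure K F₀ Ω
  have hF₀M : F₀ ≤ M := IntermediateField.le_normalClosure F₀
  have hA : ∀ a : A, jA a ∈ M := fun a =>
    hF₀M ((le_sup_left : jA'.fieldRange ≤ F₀) ⟨a, rfl⟩)
  have hB : ∀ b : B, jB b ∈ M := fun b =>
    hF₀M ((le_sup_right : jB'.fieldRange ≤ F₀) ⟨b, rfl⟩)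
  have hL : ∀ x : L, algebraMap L Ω x ∈ M := fun x => by
    rw [← jA.commutes x]; exact hA _
  haveI : FiniteDimensional ℚ_[q] M := FiniteDimensional.trans ℚ_[q] K M
  letI algL : Algebra L M := ((algebraMap L Ω).codRestrict M.toSubfield hL).toAlgebra
  letI algA : Algebra A M := ((jA : A →+* Ω).codRestrict M.toSubfield hA).toAlgebra
  letI algB : Algebra B M := ((jB : B →+* Ω).codRestrict M.toSubfield hB).toAlgebra
  refine ⟨M, inferInstance, inferInstance, inferInstance, inferInstance, inferInstance, algL, ?_,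
    algA, ?_, ?_, algB, ?_, ?_, inferInstance⟩
  · exact IsScalarTower.of_algebraMap_eq fun x => Subtype.ext
      (IsScalarTower.algebraMap_apply K L Ω x)
  · exact IsScalarTower.of_algebraMap_eq fun x => Subtype.ext (jA'.commutes x).symm
  · exact IsScalarTower.of_algebraMap_eq fun x => Subtype.ext (jA.commutes x).symm
  · exact IsScalarTower.of_algebraMap_eq fun x => Subtype.ext (jB'.commutes x).symm
  · exact IsScalarTower.of_algebraMap_eq fun x => Subtype.ext (jB.commutes x).symm


/-- **Abstract compositum** over `K`: two finite extensions `A`, `B` of `K` (finite over `ℚ_q`)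
embed into a common finite Galois extension `M` of `K`. -/
theorem exists_galois_overfield' (A B : Type) [Field A] [Field B]
    [Algebra ℚ_[q] A] [Algebra ℚ_[q] B]
    [FiniteDimensional ℚ_[q] A] [FiniteDimensional ℚ_[q] B]
    [Algebra K A] [IsScalarTower ℚ_[q] K A] [Algebra K B] [IsScalarTower ℚ_[q] K B] :
    ∃ (M : Type) (_ : Field M) (_ : Algebra ℚ_[q] M) (_ : FiniteDimensional ℚ_[q] M)
      (_ : Algebra K M) (_ : IsScalarTower ℚ_[q] K M)
      (_ : Algebra A M) (_ : IsScalarTower K A M)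
      (_ : Algebra B M) (_ : IsScalarTower K B M), IsGalois K M := by
  obtain ⟨M, i1, i2, i3, i4, i5, _, _, i8, i9, _, i11, i12, _, i14⟩ :=
    exists_galois_overfield q K K A B
  exact ⟨M, i1, i2, i3, i4, i5, i8, i9, i11, i12, i14⟩

section Indep

variable (E E₀ M : Type) [Field E] [Field E₀] [Field M]
  [Algebra ℚ_[q] E] [Algebra ℚ_[q] E₀] [Algebra ℚ_[q] M]
  [FiniteDimensional ℚ_[q] E] [FiniteDimensional ℚ_[q] E₀] [FiniteDimensional ℚ_[q] M]
  [Algebra K E] [IsScalarTower ℚ_[q] K E] [Algebra K E₀] [IsScalarTower ℚ_[q] K E₀]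
  [Algebra K M] [IsScalarTower ℚ_[q] K M]
  [Algebra E M] [IsScalarTower K E M] [Algebra E₀ M] [IsScalarTower K E₀ M]

/-- the class of a uniformizer does not depend on the uniformizer -/
theorem unrClassRel_uniformizer_eq (hE : IsUnramified q K E) (ϖ ϖ₀ : Kˣ)
    (hϖ : IsUniformizer q K (ϖ : K)) (hϖ₀ : IsUniformizer q K (ϖ₀ : K)) :
    unrClassRel q K E ϖ = unrClassRel q K E ϖ₀ := by
  have hu : ϖ₀⁻¹ * ϖ ∈ unitGroup q K := by
    rw [mem_unitGroup_iff, Units.val_mul, nrm_mul, Units.val_inv_eq_inv_val, nrm_inv,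
      nrm_eq_of_isUniformizer hϖ hϖ₀]
    refine inv_mul_cancel₀ ?_
    intro h0
    exact ϖ₀.ne_zero ((nrm_eq_zero_iff q).1 h0)
  have h1 : ϖ = ϖ₀ * (ϖ₀⁻¹ * ϖ) := by group
  rw [h1, H19.unrClassRel_mul q K E hE,
    H19.unrClassRel_unit_of q K E hE (fun u hu => H39.exists_unit_norm_eq q K E hE u hu) _ hu,
    add_zero]

/-- **Independence of the unramified model**: the inflations to a common finite Galois overfield
of the Frobenius–uniformizer classes of two unramified extensions of the same degree agree. -/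
theorem infl_unrClassRel_eq [IsGalois K E] [IsGalois K E₀] [IsGalois K M]
    (hE : IsUnramified q K E) (hE₀ : IsUnramified q K E₀)
    (hdeg : Module.finrank K E = Module.finrank K E₀) (ϖ ϖ₀ : Kˣ)
    (hϖ : IsUniformizer q K (ϖ : K)) (hϖ₀ : IsUniformizer q K (ϖ₀ : K)) :
    (infl K E M 2).hom (unrClassRel q K E ϖ) = (infl K E₀ M 2).hom (unrClassRel q K E₀ ϖ₀) := by
  haveI : FiniteDimensional K E := FiniteDimensional.right ℚ_[q] K E
  haveI : FiniteDimensional K E₀ := FiniteDimensional.right ℚ_[q] K E₀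
  obtain ⟨e⟩ := H25.nonempty_algEquiv_of_isUnramified q K E E₀ hE hE₀ hdeg
  obtain ⟨τ, hτ⟩ := exists_algHom_comp_eq (IsScalarTower.toAlgHom K E M)
    ((IsScalarTower.toAlgHom K E₀ M).comp e.toAlgHom)
  let f : E →ₐ[K] E₀ := e.toAlgHom.comp τ
  have hf : ∀ x, algebraMap E₀ M (f x) = algebraMap E M x := hτ
  letI : Algebra E E₀ := f.toRingHom.toAlgebra
  haveI : IsScalarTower K E E₀ := IsScalarTower.of_algebraMap_eq fun x => (f.commutes x).symm
  haveI : IsScalarTower E E₀ M := IsScalarTower.of_algebraMap_eq fun x => (hf x).symm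
  have hrank : Module.finrank E E₀ = 1 := by
    have h1 := Module.finrank_mul_finrank K E E₀
    rw [← hdeg] at h1
    have hpos : 0 < Module.finrank K E := Module.finrank_pos
    exact Nat.eq_of_mul_eq_mul_left hpos (by rw [h1, mul_one])
  have h2 := H19.infl_unrClassRel q K E E₀ hE hE₀ ϖ
  rw [hrank, one_smul] at h2
  rw [← H85.infl_comp K E E₀ M 2, h2, unrClassRel_uniformizer_eq q K E₀ hE₀ ϖ ϖ₀ hϖ hϖ₀]

end Indep


section Fund

variable (L : Type) [Field L] [Algebra ℚ_[q] L] [FiniteDimensional ℚ_[q] L]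
  [Algebra K L] [IsScalarTower ℚ_[q] K L]

/-- `γ ∈ H²(Gal(L/K), Lˣ)` is THE local fundamental class of `L/K`: for every unramified `E/K`
of degree `[L:K]`, every finite Galois `M/K` containing `E` and `L`, and every uniformizer `ϖ`
of `K`, the inflation of `γ` to `M` is the inflation of the Frobenius–uniformizer class of
`E/K`. -/
def IsLocalFundClass [IsGalois K L] (γ : groupCohomology (Rep.ofAlgebraAutOnUnits K L) 2) : Prop :=
  ∀ (E M : Type) [Field E] [Field M] [Algebra ℚ_[q] E] [Algebra ℚ_[q] M]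
    [FiniteDimensional ℚ_[q] E] [FiniteDimensional ℚ_[q] M]
    [Algebra K E] [IsScalarTower ℚ_[q] K E] [Algebra K M] [IsScalarTower ℚ_[q] K M]
    [Algebra E M] [Algebra L M] [IsScalarTower K E M] [IsScalarTower K L M]
    [IsGalois K E] [IsGalois K M],
    IsUnramified q K E → Module.finrank K E = Module.finrank K L →
    ∀ ϖ : Kˣ, IsUniformizer q K (ϖ : K) →
      (infl K L M 2).hom γ = (infl K E M 2).hom (unrClassRel q K E ϖ)

/-- It suffices to check the defining property of the fundamental class for ONE datum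
`(E₀, M₀, ϖ₀)`. -/
theorem isLocalFundClass_of_infl_eq [IsGalois K L]
    (E₀ M₀ : Type) [Field E₀] [Field M₀] [Algebra ℚ_[q] E₀] [Algebra ℚ_[q] M₀]
    [FiniteDimensional ℚ_[q] E₀] [FiniteDimensional ℚ_[q] M₀]
    [Algebra K E₀] [IsScalarTower ℚ_[q] K E₀] [Algebra K M₀] [IsScalarTower ℚ_[q] K M₀]
    [Algebra E₀ M₀] [Algebra L M₀] [IsScalarTower K E₀ M₀] [IsScalarTower K L M₀]
    [IsGalois K E₀] [IsGalois K M₀]
    (hE₀ : IsUnramified q K E₀) (hdeg₀ : Module.finrank K E₀ = Module.finrank K L)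
    (ϖ₀ : Kˣ) (hϖ₀ : IsUniformizer q K (ϖ₀ : K))
    (γ : groupCohomology (Rep.ofAlgebraAutOnUnits K L) 2)
    (hγ : (infl K L M₀ 2).hom γ = (infl K E₀ M₀ 2).hom (unrClassRel q K E₀ ϖ₀)) :
    IsLocalFundClass q K L γ := by
  intro E M _ _ _ _ _ _ _ _ _ _ _ _ _ _ _ _ hE hdeg ϖ hϖ
  obtain ⟨M₁, _, _, _, _, _, _, _, _, _, _, _, _, _, _⟩ := exists_galois_overfield q K L M M₀
  haveI : FiniteDimensional K M₁ := FiniteDimensional.right ℚ_[q] K M₁
  haveI : FiniteDimensional K M := FiniteDimensional.right ℚ_[q] K M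
  haveI : FiniteDimensional K M₀ := FiniteDimensional.right ℚ_[q] K M₀
  -- `E → M → M₁` and `E₀ → M₀ → M₁`
  letI : Algebra E M₁ := ((algebraMap M M₁).comp (algebraMap E M)).toAlgebra
  haveI : IsScalarTower E M M₁ := IsScalarTower.of_algebraMap_eq fun _ => rfl
  haveI : IsScalarTower K E M₁ := IsScalarTower.of_algebraMap_eq fun x => by
    show algebraMap K M₁ x = algebraMap M M₁ (algebraMap E M (algebraMap K E x))
    rw [← IsScalarTower.algebraMap_apply K E M, ← IsScalarTower.algebraMap_apply K M M₁]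
  letI : Algebra E₀ M₁ := ((algebraMap M₀ M₁).comp (algebraMap E₀ M₀)).toAlgebra
  haveI : IsScalarTower E₀ M₀ M₁ := IsScalarTower.of_algebraMap_eq fun _ => rfl
  haveI : IsScalarTower K E₀ M₁ := IsScalarTower.of_algebraMap_eq fun x => by
    show algebraMap K M₁ x = algebraMap M₀ M₁ (algebraMap E₀ M₀ (algebraMap K E₀ x))
    rw [← IsScalarTower.algebraMap_apply K E₀ M₀, ← IsScalarTower.algebraMap_apply K M₀ M₁]
  apply H85.infl_injective K M M₁
  rw [H85.infl_comp K L M M₁ 2, H85.infl_comp K E M M₁ 2,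
    ← H85.infl_comp K L M₀ M₁ 2, hγ, H85.infl_comp K E₀ M₀ M₁ 2]
  exact (infl_unrClassRel_eq q K E E₀ M₁ hE hE₀ (hdeg.trans hdeg₀.symm) ϖ ϖ₀ hϖ hϖ₀).symm

/-- existence of the local fundamental class -/
theorem exists_isLocalFundClass [IsGalois K L] :
    ∃ γ : groupCohomology (Rep.ofAlgebraAutOnUnits K L) 2, IsLocalFundClass q K L γ := by
  haveI : FiniteDimensional K L := FiniteDimensional.right ℚ_[q] K L
  obtain ⟨E, _, _, _, _, _, hdeg, hE⟩ :=
    H25.exists_isUnramified q K (Module.finrank K L) Module.finrank_pos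
  obtain ⟨M, _, _, _, _, _, _, _, _, _, _⟩ := exists_galois_overfield' q K E L
  haveI : IsGalois K E := H25.isGalois_of_isUnramified q K E hE
  obtain ⟨ϖ, hϖ⟩ := H92.exists_isUniformizer q K
  obtain ⟨γ, hγ, -⟩ := existsUnique_fundRel q K E L M hE hdeg ϖ hϖ
  exact ⟨γ, isLocalFundClass_of_infl_eq q K L E M hE hdeg ϖ hϖ γ hγ⟩

variable {q K L} in
/-- uniqueness of the local fundamental class -/
theorem IsLocalFundClass.unique [IsGalois K L]
    {γ γ' : groupCohomology (Rep.ofAlgebraAutOnUnits K L) 2}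
    (h : IsLocalFundClass q K L γ) (h' : IsLocalFundClass q K L γ') : γ = γ' := by
  haveI : FiniteDimensional K L := FiniteDimensional.right ℚ_[q] K L
  obtain ⟨E, _, _, _, _, _, hdeg, hE⟩ :=
    H25.exists_isUnramified q K (Module.finrank K L) Module.finrank_pos
  obtain ⟨M, _, _, _, _, _, _, _, _, _, _⟩ := exists_galois_overfield' q K E L
  haveI : IsGalois K E := H25.isGalois_of_isUnramified q K E hE
  haveI : FiniteDimensional K M := FiniteDimensional.right ℚ_[q] K M
  obtain ⟨ϖ, hϖ⟩ := H92.exists_isUniformizer q K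
  apply H85.infl_injective K L M
  rw [h E M hE hdeg ϖ hϖ, h' E M hE hdeg ϖ hϖ]

theorem existsUnique_isLocalFundClass [IsGalois K L] :
    ∃! γ : groupCohomology (Rep.ofAlgebraAutOnUnits K L) 2, IsLocalFundClass q K L γ := by
  obtain ⟨γ, hγ⟩ := exists_isLocalFundClass q K L
  exact ⟨γ, hγ, fun γ' hγ' => hγ'.unique hγ⟩

/-- **The local fundamental class** of a finite Galois extension `L/K` of finite extensions of
`ℚ_q`. -/
noncomputable def fundClass [IsGalois K L] : groupCohomology (Rep.ofAlgebraAutOnUnits K L) 2 :=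
  (exists_isLocalFundClass q K L).choose

theorem isLocalFundClass_fundClass [IsGalois K L] : IsLocalFundClass q K L (fundClass q K L) :=
  (exists_isLocalFundClass q K L).choose_spec

variable {q K L} in
theorem IsLocalFundClass.eq_fundClass [IsGalois K L]
    {γ : groupCohomology (Rep.ofAlgebraAutOnUnits K L) 2} (h : IsLocalFundClass q K L γ) :
    γ = fundClass q K L :=
  h.unique (isLocalFundClass_fundClass q K L)

variable {q K L} in
/-- the fundamental class has order `[L:K]` and generates `H²(Gal(L/K), Lˣ)` -/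
theorem IsLocalFundClass.spec [IsGalois K L]
    {γ : groupCohomology (Rep.ofAlgebraAutOnUnits K L) 2} (h : IsLocalFundClass q K L γ) :
    addOrderOf γ = Module.finrank K L ∧
      ∀ x : groupCohomology (Rep.ofAlgebraAutOnUnits K L) 2, ∃ n : ℤ, x = n • γ := by
  haveI : FiniteDimensional K L := FiniteDimensional.right ℚ_[q] K L
  obtain ⟨E, _, _, _, _, _, hdeg, hE⟩ :=
    H25.exists_isUnramified q K (Module.finrank K L) Module.finrank_pos
  obtain ⟨M, _, _, _, _, _, _, _, _, _, _⟩ := exists_galois_overfield' q K E L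
  haveI : IsGalois K E := H25.isGalois_of_isUnramified q K E hE
  obtain ⟨ϖ, hϖ⟩ := H92.exists_isUniformizer q K
  exact fundRel_spec q K E L M hE hdeg ϖ hϖ γ (h E M hE hdeg ϖ hϖ)

variable {q K L} in
/-- the fundamental class makes `Lˣ` a class module for `Gal(L/K)` -/
theorem IsLocalFundClass.isClassModule [IsGalois K L]
    {γ : groupCohomology (Rep.ofAlgebraAutOnUnits K L) 2} (h : IsLocalFundClass q K L γ) :
    IsClassModule (Rep.ofAlgebraAutOnUnits K L) γ := by
  haveI : FiniteDimensional K L := FiniteDimensional.right ℚ_[q] K L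
  obtain ⟨E, _, _, _, _, _, hdeg, hE⟩ :=
    H25.exists_isUnramified q K (Module.finrank K L) Module.finrank_pos
  obtain ⟨M, _, _, _, _, _, _, _, _, _, _⟩ := exists_galois_overfield' q K E L
  haveI : IsGalois K E := H25.isGalois_of_isUnramified q K E hE
  obtain ⟨ϖ, hϖ⟩ := H92.exists_isUniformizer q K
  exact isClassModule_fundRel q K E L M hE hdeg ϖ hϖ γ (h E M hE hdeg ϖ hϖ)

theorem addOrderOf_fundClass [IsGalois K L] :
    addOrderOf (fundClass q K L) = Module.finrank K L :=
  (isLocalFundClass_fundClass q K L).spec.1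

theorem exists_zsmul_fundClass_eq [IsGalois K L]
    (x : groupCohomology (Rep.ofAlgebraAutOnUnits K L) 2) : ∃ n : ℤ, x = n • fundClass q K L :=
  (isLocalFundClass_fundClass q K L).spec.2 x

theorem isClassModule_fundClass [IsGalois K L] :
    IsClassModule (Rep.ofAlgebraAutOnUnits K L) (fundClass q K L) :=
  (isLocalFundClass_fundClass q K L).isClassModule

/-- unramified case: the Frobenius–uniformizer class IS the fundamental class -/
theorem isLocalFundClass_unrClassRel [IsGalois K L] (hL : IsUnramified q K L) (ϖ : Kˣ)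
    (hϖ : IsUniformizer q K (ϖ : K)) : IsLocalFundClass q K L (unrClassRel q K L ϖ) :=
  isLocalFundClass_of_infl_eq q K L L L hL rfl ϖ hϖ _ rfl

theorem fundClass_eq_unrClassRel [IsGalois K L] (hL : IsUnramified q K L) (ϖ : Kˣ)
    (hϖ : IsUniformizer q K (ϖ : K)) : fundClass q K L = unrClassRel q K L ϖ :=
  ((isLocalFundClass_unrClassRel q K L hL ϖ hϖ).eq_fundClass).symm

end Fund

end Fermat.Agent.CFT.H3
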