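/-
CFT project, layer B, package B-FUNDCLASS (helper8): items (F0) and (F1), stated against
helper15's shared definition `Loc.IsFundClass` (`H15_FundClassDef`).

helper3's `H3_FundClass` proves everything for `H3.IsLocalFundClass`, whose body is the body of
`Loc.IsFundClass` verbatim; this file is the dictionary, plus the (F2)/(F4) statements for the
chosen class `H3.fundClass`.

* `isFundClass_iff_isLocalFundClass` : `Loc.IsFundClass q K L γ ↔ H3.IsLocalFundClass q K L γ`.
* `existsUnique_isFundClass`, `isFundClass_fundClass`, `IsFundClass.eq_fundClass'`.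
* `isClassModule_of_isFundClass`, `addOrderOf_of_isFundClass`, `exists_zsmul_eq_of_isFundClass`.
* `isFundClass_of_infl_eq` : ONE datum `(E₀, M₀, ϖ₀)` suffices.
* `infl_fundClass` (F2) : `infl (fundClass K L) = [L':L] • fundClass K L'`.
-/
import Fermat.Agent.CFT.H3_FundClass
import Fermat.Agent.CFT.H8_FundClassInfl

set_option autoImplicit false
set_option linter.style.haveILetI false
set_option linter.unusedSectionVars false

open CategoryTheory groupCohomology

namespace Fermat.Agent.CFT.H8

open Fermat.Agent.CFT Fermat.Agent.CFT.Loc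

variable (q : ℕ) [Fact q.Prime]
variable (K L : Type) [Field K] [Field L] [Algebra ℚ_[q] K] [Algebra ℚ_[q] L]
  [FiniteDimensional ℚ_[q] K] [FiniteDimensional ℚ_[q] L] [Algebra K L] [IsScalarTower ℚ_[q] K L]

/-- helper15's `Loc.IsFundClass` and helper3's `H3.IsLocalFundClass` are the same predicate. -/
theorem isFundClass_iff_isLocalFundClass [IsGalois K L]
    (γ : groupCohomology (Rep.ofAlgebraAutOnUnits K L) 2) :
    IsFundClass q K L γ ↔ H3.IsLocalFundClass q K L γ := Iff.rfl

/-- **(F0)** existence and uniqueness of the fundamental class. -/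
theorem existsUnique_isFundClass [IsGalois K L] :
    ∃! γ : groupCohomology (Rep.ofAlgebraAutOnUnits K L) 2, IsFundClass q K L γ :=
  H3.existsUnique_isLocalFundClass q K L

/-- the chosen fundamental class `H3.fundClass q K L` is a fundamental class. -/
theorem isFundClass_fundClass [IsGalois K L] : IsFundClass q K L (H3.fundClass q K L) :=
  H3.isLocalFundClass_fundClass q K L

variable {q K L} in
theorem eq_fundClass_of_isFundClass [IsGalois K L]
    {γ : groupCohomology (Rep.ofAlgebraAutOnUnits K L) 2} (h : IsFundClass q K L γ) :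
    γ = H3.fundClass q K L :=
  H3.IsLocalFundClass.eq_fundClass h

variable {q K L} in
theorem isFundClass_unique [IsGalois K L]
    {γ γ' : groupCohomology (Rep.ofAlgebraAutOnUnits K L) 2} (h : IsFundClass q K L γ)
    (h' : IsFundClass q K L γ') : γ = γ' :=
  H3.IsLocalFundClass.unique h h'

/-- **(F1)** a fundamental class makes `Lˣ` a class module for `Gal(L/K)`. -/
theorem isClassModule_of_isFundClass [IsGalois K L]
    (γ : groupCohomology (Rep.ofAlgebraAutOnUnits K L) 2) (hγ : IsFundClass q K L γ) :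
    IsClassModule (Rep.ofAlgebraAutOnUnits K L) γ :=
  H3.IsLocalFundClass.isClassModule hγ

/-- **(F1)** a fundamental class has order `[L:K]`. -/
theorem addOrderOf_of_isFundClass [IsGalois K L]
    (γ : groupCohomology (Rep.ofAlgebraAutOnUnits K L) 2) (hγ : IsFundClass q K L γ) :
    addOrderOf γ = Module.finrank K L :=
  (H3.IsLocalFundClass.spec hγ).1

/-- **(F1)** a fundamental class generates `H²(Gal(L/K), Lˣ)`. -/
theorem exists_zsmul_eq_of_isFundClass [IsGalois K L]
    (γ : groupCohomology (Rep.ofAlgebraAutOnUnits K L) 2) (hγ : IsFundClass q K L γ)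
    (x : groupCohomology (Rep.ofAlgebraAutOnUnits K L) 2) : ∃ n : ℤ, x = n • γ :=
  (H3.IsLocalFundClass.spec hγ).2 x

/-- It suffices to check the defining property of the fundamental class for ONE datum
`(E₀, M₀, ϖ₀)`. -/
theorem isFundClass_of_infl_eq [IsGalois K L]
    (E₀ M₀ : Type) [Field E₀] [Field M₀] [Algebra ℚ_[q] E₀] [Algebra ℚ_[q] M₀]
    [FiniteDimensional ℚ_[q] E₀] [FiniteDimensional ℚ_[q] M₀]
    [Algebra K E₀] [IsScalarTower ℚ_[q] K E₀] [Algebra K M₀] [IsScalarTower ℚ_[q] K M₀]
    [Algebra E₀ M₀] [Algebra L M₀] [IsScalarTower K E₀ M₀] [IsScalarTower K L M₀]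
    [IsGalois K E₀] [IsGalois K M₀]
    (hE₀ : IsUnramified q K E₀) (hdeg₀ : Module.finrank K E₀ = Module.finrank K L)
    (ϖ₀ : Kˣ) (hϖ₀ : IsUniformizer q K (ϖ₀ : K))
    (γ : groupCohomology (Rep.ofAlgebraAutOnUnits K L) 2)
    (hγ : (infl K L M₀ 2).hom γ = (infl K E₀ M₀ 2).hom (unrClassRel q K E₀ ϖ₀)) :
    IsFundClass q K L γ :=
  H3.isLocalFundClass_of_infl_eq q K L E₀ M₀ hE₀ hdeg₀ ϖ₀ hϖ₀ γ hγ

/-- **(F2)** for the chosen classes: `infl (fundClass K L) = [L':L] • fundClass K L'`. -/
theorem infl_fundClass (L' : Type) [Field L'] [Algebra ℚ_[q] L'] [FiniteDimensional ℚ_[q] L']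
    [Algebra K L'] [IsScalarTower ℚ_[q] K L'] [Algebra L L'] [IsScalarTower K L L']
    [IsGalois K L] [IsGalois K L'] :
    (infl K L L' 2).hom (H3.fundClass q K L) = Module.finrank L L' • H3.fundClass q K L' :=
  infl_isFundClass q K L L' _ (isFundClass_fundClass q K L) _ (isFundClass_fundClass q K L')

end Fermat.Agent.CFT.H8
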