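import Fermat.Agent.CFT.H26_RestFund
import Fermat.Agent.CFT.H8_FundClass

/-!
# CFT layer B, package B-FUNDCLASS (F3) for the canonical class `H3.fundClass`

* `rest_fundClass` : `rest_{K → K'} (fundClass K L) = fundClass K' L`.
* `isFundClass_rest` : the restriction of a fundamental class is a fundamental class.
* `finrank_smul_rest_fundClass_eq_infl_unrClassRel` : B-UNRK over a general base,
  `[L:L'] • rest_{K → K'} (fundClass K L) = infl_{L' → L} (unrClassRel q K' L' ϖ')` for an
  unramified layer `L'/K'` inside `L`.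
-/

set_option autoImplicit false
set_option linter.unusedSectionVars false
set_option linter.unusedVariables false
set_option linter.style.haveILetI false

open groupCohomology CategoryTheory

namespace Fermat.Agent.CFT.H26

open Fermat.Agent.CFT.Loc

section F3

variable (q : ℕ) [Fact q.Prime]
  (K K' L : Type) [Field K] [Field K'] [Field L]
  [Algebra ℚ_[q] K] [Algebra ℚ_[q] K'] [Algebra ℚ_[q] L]
  [FiniteDimensional ℚ_[q] K] [FiniteDimensional ℚ_[q] K'] [FiniteDimensional ℚ_[q] L]
  [Algebra K K'] [IsScalarTower ℚ_[q] K K'] [Algebra K L] [IsScalarTower ℚ_[q] K L]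
  [Algebra K' L] [IsScalarTower ℚ_[q] K' L] [IsScalarTower K K' L]
  [IsGalois K L] [IsGalois K' L]

/-- **(F3)**, predicate form, hypothesis-free: the restriction of a fundamental class is a
fundamental class. -/
theorem isFundClass_rest
    (γ : groupCohomology (Rep.ofAlgebraAutOnUnits K L) 2) (hγ : IsFundClass q K L γ) :
    IsFundClass q K' L ((rest K K' L 2).hom γ) :=
  isFundClass_rest_of_exists q K K' L γ hγ ⟨_, H8.isFundClass_fundClass q K' L⟩

/-- **(F3)** for the canonical classes: `rest_{K → K'} (fundClass K L) = fundClass K' L`. -/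
theorem rest_fundClass :
    (rest K K' L 2).hom (H3.fundClass q K L) = H3.fundClass q K' L :=
  rest_isFundClass q K K' L _ (H8.isFundClass_fundClass q K L) _ (H8.isFundClass_fundClass q K' L)

end F3

section UnrK

variable (q : ℕ) [Fact q.Prime]
  (K K' L' L : Type) [Field K] [Field K'] [Field L'] [Field L]
  [Algebra ℚ_[q] K] [Algebra ℚ_[q] K'] [Algebra ℚ_[q] L'] [Algebra ℚ_[q] L]
  [FiniteDimensional ℚ_[q] K] [FiniteDimensional ℚ_[q] K'] [FiniteDimensional ℚ_[q] L']
  [FiniteDimensional ℚ_[q] L]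
  [Algebra K K'] [IsScalarTower ℚ_[q] K K'] [Algebra K L] [IsScalarTower ℚ_[q] K L]
  [Algebra K' L] [IsScalarTower ℚ_[q] K' L] [IsScalarTower K K' L]
  [Algebra K' L'] [IsScalarTower ℚ_[q] K' L'] [Algebra L' L] [IsScalarTower K' L' L]
  [IsGalois K L] [IsGalois K' L] [Normal K' L']

/-- **B-UNRK over a general base**: `K ⊆ K' ⊆ L' ⊆ L`, `L/K` Galois, `L'/K'` unramified, `ϖ'` a
uniformizer of `K'`, `γ` a fundamental class of `L/K`:
`[L:L'] • rest_{K → K'} γ = infl_{L' → L} (unrClassRel q K' L' ϖ')`. -/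
theorem finrank_smul_rest_isFundClass_eq_infl_unrClassRel
    (γ : groupCohomology (Rep.ofAlgebraAutOnUnits K L) 2) (hγ : IsFundClass q K L γ)
    (hL' : IsUnramified q K' L') (ϖ' : K'ˣ) (hϖ' : IsUniformizer q K' (ϖ' : K')) :
    Module.finrank L' L • (rest K K' L 2).hom γ =
      (infl K' L' L 2).hom (unrClassRel q K' L' ϖ') := by
  haveI : IsGalois K' L' := H25.isGalois_of_isUnramified q K' L' hL'
  have h1 := isFundClass_rest q K K' L γ hγ
  have h2 : IsFundClass q K' L' (unrClassRel q K' L' ϖ') :=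
    H3.isLocalFundClass_unrClassRel q K' L' hL' ϖ' hϖ'
  exact (H8.infl_isFundClass q K' L' L _ h2 _ h1).symm

/-- the same for the canonical class `H3.fundClass q K L`. -/
theorem finrank_smul_rest_fundClass_eq_infl_unrClassRel
    (hL' : IsUnramified q K' L') (ϖ' : K'ˣ) (hϖ' : IsUniformizer q K' (ϖ' : K')) :
    Module.finrank L' L • (rest K K' L 2).hom (H3.fundClass q K L) =
      (infl K' L' L 2).hom (unrClassRel q K' L' ϖ') :=
  finrank_smul_rest_isFundClass_eq_infl_unrClassRel q K K' L' L _
    (H8.isFundClass_fundClass q K L) hL' ϖ' hϖ'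

end UnrK

end Fermat.Agent.CFT.H26
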