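import Fermat.Agent.CFT.LocMaps
import Fermat.Agent.CFT.H25_LocUnrMore
import Fermat.Agent.CFT.H97_Ramification
import Fermat.Agent.CFT.H19_StdLoc

/-!
# CFT layer B, package B-UGLY (field part): the unramified class of degree `[F:K]` dies over `F`

Main results (namespace `Fermat.Agent.CFT.H76`):

* `rest_infl_unrClassRel_eq_zero_of` (general base `K`): for `E/K` unramified, `a : Kˣ`,
  `e * f = [E:K]`, `resCard F = resCard K ^ f` and `‖a‖_F = ‖y‖_F ^ e` for some `y : Fˣ`, the class
  `rest_{M/F} (infl_{E → M} (unrClassRel q K E a))` vanishes.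
* `rest_infl_unrClass_eq_zero_of` : Skeleton3 `rest_infl_unrClass_eq_zero` (base `ℚ_q`).

The only input not yet on main is Skeleton2 `exists_unit_norm_eq` (the norm is onto on units for
unramified extensions), taken as the explicit hypothesis `ExistsUnitNormEq q`.
-/

set_option autoImplicit false

open CategoryTheory groupCohomology

namespace Fermat.Agent.CFT.H76

open Fermat.Agent.CFT.Loc

/-- Skeleton2 `exists_unit_norm_eq` (B-UNR-F): the norm is onto on units, unramified case. -/
def ExistsUnitNormEq (q : ℕ) [Fact q.Prime] : Prop :=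
  ∀ (K : Type) [Field K] [Algebra ℚ_[q] K] [FiniteDimensional ℚ_[q] K]
    (L : Type) [Field L] [Algebra ℚ_[q] L] [FiniteDimensional ℚ_[q] L]
    [Algebra K L] [IsScalarTower ℚ_[q] K L], IsUnramified q K L →
    ∀ u : Kˣ, u ∈ unitGroup q K →
      ∃ w : Lˣ, w ∈ unitGroup q L ∧ Algebra.norm K (w : L) = u

section GlueGen

universe u
variable {k : Type u} [CommRing k] {G H : Type u} [Group G] [Group H]
  {A : Rep k H} {B : Rep k G} (f : G →* H) (φ : Rep.res f A ⟶ B)

theorem map_H2π_apply (x : cocycles₂ A) :
    (groupCohomology.map f φ 2).hom ((H2π A).hom x) = (H2π B).hom ((mapCocycles₂ f φ).hom x) := by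
  have h := H2π_comp_map f φ
  exact congrArg (fun m => m.hom x) h

end GlueGen

section Glue

variable (K E F M : Type) [Field K] [Field E] [Field F] [Field M]
  [Algebra K E] [Algebra K F] [Algebra K M] [Algebra E M] [Algebra F M]
  [IsScalarTower K E M] [IsScalarTower K F M] [Normal K E]

/-- restriction of an `F`-automorphism of `M` to `E` -/
noncomputable def resE : (M ≃ₐ[F] M) →* (E ≃ₐ[K] E) :=
  (AlgEquiv.restrictNormalHom E).comp (AlgEquiv.restrictScalarsHom K)

variable {K E F M}

theorem resE_commutes (s : M ≃ₐ[F] M) (x : E) :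
    algebraMap E M (resE K E F M s x) = s (algebraMap E M x) := by
  unfold resE
  simp only [MonoidHom.comp_apply]
  exact AlgEquiv.restrictNormal_commutes _ E x

/-- the pulled-back cocycle -/
noncomputable def pullCocycle (c : (E ≃ₐ[K] E) × (E ≃ₐ[K] E) → Eˣ) :
    (M ≃ₐ[F] M) × (M ≃ₐ[F] M) → Mˣ :=
  fun p => Units.map (algebraMap E M : E →* M) (c (resE K E F M p.1, resE K E F M p.2))

theorem rest_infl_eq_zero_of_isMulCoboundary₂
    (c : (E ≃ₐ[K] E) × (E ≃ₐ[K] E) → Eˣ) (hc : IsMulCocycle₂ c)
    (hb : IsMulCoboundary₂ (pullCocycle (K := K) (F := F) (M := M) c)) :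
    (rest K F M 2).hom ((infl K E M 2).hom
      ((H2π (Rep.ofAlgebraAutOnUnits K E)).hom (cocyclesOfIsMulCocycle₂ hc))) = 0 := by
  unfold rest infl
  erw [map_H2π_apply, map_H2π_apply, H2π_eq_zero_iff]
  obtain ⟨x, hx⟩ := hb
  refine ⟨Additive.ofMul ∘ x, ?_⟩
  funext p
  have := hx p.1 p.2
  have e2 : (((mapCocycles₂ (AlgEquiv.restrictScalarsHom K) (unitsRestHom K F M)).hom
        ((mapCocycles₂ (AlgEquiv.restrictNormalHom E) (unitsInflHom K E M)).hom
          (cocyclesOfIsMulCocycle₂ hc))) : (M ≃ₐ[F] M) × (M ≃ₐ[F] M) → Additive Mˣ) p =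
      Additive.ofMul (pullCocycle (K := K) (F := F) (M := M) c (p.1, p.2)) := by
    rfl
  rw [e2, ← this]
  rfl

end Glue

section Compositum

variable (K E F M : Type) [Field K] [Field E] [Field F] [Field M]
  [Algebra K E] [Algebra K F] [Algebra K M] [Algebra E M] [Algebra F M]
  [IsScalarTower K E M] [IsScalarTower K F M]

/-- the compositum `F·E` inside `M`, as an intermediate field of `M/F` -/
noncomputable def compFE : IntermediateField F M :=
  IntermediateField.adjoin F (Set.range (algebraMap E M))

theorem algebraMap_mem_compFE (x : E) : algebraMap E M x ∈ compFE E F M :=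
  IntermediateField.subset_adjoin F _ ⟨x, rfl⟩

noncomputable instance algebraCompFE : Algebra E (compFE E F M) :=
  ((algebraMap E M).codRestrict (compFE E F M) (algebraMap_mem_compFE E F M)).toAlgebra

theorem coe_algebraMap_compFE (x : E) :
    ((algebraMap E (compFE E F M) x : compFE E F M) : M) = algebraMap E M x := rfl

instance isScalarTower_compFE_top : IsScalarTower E (compFE E F M) M :=
  IsScalarTower.of_algebraMap_eq fun _ => rfl

instance isScalarTower_compFE : IsScalarTower K E (compFE E F M) :=
  IsScalarTower.of_algebraMap_eq fun x => by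
    apply Subtype.ext
    show algebraMap K M x = algebraMap E M (algebraMap K E x)
    rw [← IsScalarTower.algebraMap_apply]

theorem adjoin_range_compFE :
    IntermediateField.adjoin F (Set.range (algebraMap E (compFE E F M))) = ⊤ := by
  apply IntermediateField.map_injective (compFE E F M).val
  rw [IntermediateField.adjoin_map, ← AlgHom.fieldRange_eq_map, IntermediateField.fieldRange_val]
  unfold compFE
  congr 1
  ext y
  simp only [Set.mem_image, Set.mem_range, exists_exists_eq_and]
  rfl

end Compositum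

section Core

variable (q : ℕ) [Fact q.Prime]
variable (K E F M : Type) [Field K] [Field E] [Field F] [Field M]
  [Algebra ℚ_[q] K] [Algebra ℚ_[q] E] [Algebra ℚ_[q] F] [Algebra ℚ_[q] M]
  [FiniteDimensional ℚ_[q] K] [FiniteDimensional ℚ_[q] E] [FiniteDimensional ℚ_[q] F]
  [FiniteDimensional ℚ_[q] M]
  [Algebra K E] [Algebra K F] [Algebra K M] [Algebra E M] [Algebra F M]
  [IsScalarTower ℚ_[q] K E] [IsScalarTower ℚ_[q] K F] [IsScalarTower ℚ_[q] K M]
  [IsScalarTower ℚ_[q] E M] [IsScalarTower ℚ_[q] F M]
  [IsScalarTower K E M] [IsScalarTower K F M]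

instance finiteDimensional_compFE : FiniteDimensional ℚ_[q] (compFE E F M) :=
  Module.Finite.of_injective ((compFE E F M).val.toLinearMap.restrictScalars ℚ_[q])
    (fun _ _ h => Subtype.ext h)

instance isScalarTower_Qq_compFE : IsScalarTower ℚ_[q] K (compFE E F M) :=
  IsScalarTower.of_algebraMap_eq fun x => by
    apply Subtype.ext
    show algebraMap ℚ_[q] M x = algebraMap K M (algebraMap ℚ_[q] K x)
    rw [← IsScalarTower.algebraMap_apply]

example : IsScalarTower ℚ_[q] F (compFE E F M) := inferInstance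
example : IsScalarTower K F (compFE E F M) := inferInstance

theorem baseChange_compFE (hE : IsUnramified q K E) (f : ℕ)
    (hf : resCard q F = resCard q K ^ f) :
    IsUnramified q F (compFE E F M) ∧
      ∀ x : E, frob q F (compFE E F M) (algebraMap E (compFE E F M) x) =
        algebraMap E (compFE E F M) ((frob q K E ^ f) x) :=
  H25.frob_baseChange q K E F (compFE E F M) hE (adjoin_range_compFE E F M) f hf


end Core

section Galois

variable (K E F M : Type) [Field K] [Field E] [Field F] [Field M]
  [Algebra K E] [Algebra K F] [Algebra K M] [Algebra E M] [Algebra F M]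
  [IsScalarTower K E M] [IsScalarTower K F M] [Normal K E]

/-- an `F`-automorphism of `F·E` which is trivial on `E` is trivial -/
theorem eq_one_of_resE_compFE_eq_one (σ : compFE E F M ≃ₐ[F] compFE E F M)
    (h : resE K E F (compFE E F M) σ = 1) : σ = 1 := by
  have hfix : ∀ x : E, σ (algebraMap E (compFE E F M) x) = algebraMap E (compFE E F M) x := by
    intro x
    rw [← resE_commutes (K := K), h]
    rfl
  apply AlgEquiv.ext
  intro x
  have hx : x ∈ IntermediateField.adjoin F (Set.range (algebraMap E (compFE E F M))) := by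
    rw [adjoin_range_compFE]; exact IntermediateField.mem_top
  induction hx using IntermediateField.adjoin_induction with
  | mem y hy =>
    obtain ⟨z, rfl⟩ := hy
    exact hfix z
  | algebraMap y => exact σ.commutes y
  | add y z _ _ hy hz => rw [map_add, hy, hz]; rfl
  | inv y _ hy => rw [map_inv₀, hy]; rfl
  | mul y z _ _ hy hz => rw [map_mul, hy, hz]; rfl

theorem resE_eq_resE_compFE [Normal F (compFE E F M)] (s : M ≃ₐ[F] M) :
    resE K E F M s =
      resE K E F (compFE E F M) (AlgEquiv.restrictNormalHom (compFE E F M) s) := by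
  apply AlgEquiv.ext
  intro x
  apply (algebraMap E M).injective
  rw [resE_commutes]
  have h1 := resE_commutes (K := K) (AlgEquiv.restrictNormalHom (compFE E F M) s) x
  have h2 := AlgEquiv.restrictNormal_commutes s (compFE E F M)
    (algebraMap E (compFE E F M) x)
  have h3 := congrArg (algebraMap (compFE E F M) M) h1
  exact (h3.trans h2).symm

end Galois

section Cyclic

theorem prod_univ_eq_prod_range_pow {G : Type*} [Group G] [Fintype G] {A : Type*} [CommMonoid A]
    {g : G} (hg : ∀ x, x ∈ Subgroup.zpowers g) (Φ : G → A) :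
    ∏ x, Φ x = ∏ i ∈ Finset.range (orderOf g), Φ (g ^ i) := by
  symm
  refine Finset.prod_bij (fun i _ => g ^ i) (fun _ _ => Finset.mem_univ _) ?_ ?_ (fun _ _ => rfl)
  · intro i hi j hj hij
    exact pow_injOn_Iio_orderOf (Finset.mem_range.1 hi) (Finset.mem_range.1 hj) hij
  · intro x _
    have hx := hg x
    rw [← mem_powers_iff_mem_zpowers] at hx
    obtain ⟨n, rfl⟩ := hx
    exact ⟨n % orderOf g, Finset.mem_range.2 (Nat.mod_lt _ (orderOf_pos g)), pow_mod_orderOf g n⟩

end Cyclic

section NormUnr

variable (q : ℕ) [Fact q.Prime]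
variable (K : Type) [Field K] [Algebra ℚ_[q] K] [FiniteDimensional ℚ_[q] K]
variable (L : Type) [Field L] [Algebra ℚ_[q] L] [FiniteDimensional ℚ_[q] L]
variable [Algebra K L] [IsScalarTower ℚ_[q] K L]

/-- the easy half of the norm index of an unramified extension, from `N U_L = U_K`. -/
theorem mem_normSubgroup_of_nrm_eq_pow (HU : ExistsUnitNormEq q) (h : IsUnramified q K L)
    (x : Kˣ) (hx : ∃ y : Kˣ, nrm q K x = nrm q K y ^ Module.finrank K L) :
    x ∈ normSubgroup K L := by
  obtain ⟨y, hy⟩ := hx
  have hu : x / y ^ Module.finrank K L ∈ unitGroup q K := by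
    rw [mem_unitGroup_iff]
    have h1 : ((x / y ^ Module.finrank K L : Kˣ) : K) = (x : K) * ((y : K) ^ Module.finrank K L)⁻¹ := by
      rw [div_eq_mul_inv, Units.val_mul, Units.val_inv_eq_inv_val, Units.val_pow_eq_pow_val]
    rw [h1, nrm_mul, nrm_inv, hy, H25.nrm_pow]
    have hy0 : nrm q K (y : K) ^ Module.finrank K L ≠ 0 :=
      pow_ne_zero _ (nrm_pos q y.ne_zero).ne'
    exact mul_inv_cancel₀ hy0
  obtain ⟨w, -, hw⟩ := HU K L h _ hu
  rw [mem_normSubgroup_iff]
  refine ⟨Units.map (algebraMap K L : K →* L) y * w, ?_⟩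
  rw [Units.val_mul, map_mul, hw]
  show Algebra.norm K (algebraMap K L (y : K)) * _ = _
  rw [Algebra.norm_algebraMap, div_eq_mul_inv, Units.val_mul, Units.val_inv_eq_inv_val,
    Units.val_pow_eq_pow_val]
  field_simp

end NormUnr

section Main

variable (q : ℕ) [Fact q.Prime]
variable (K E F M : Type) [Field K] [Field E] [Field F] [Field M]
  [Algebra ℚ_[q] K] [Algebra ℚ_[q] E] [Algebra ℚ_[q] F] [Algebra ℚ_[q] M]
  [FiniteDimensional ℚ_[q] K] [FiniteDimensional ℚ_[q] E] [FiniteDimensional ℚ_[q] F]
  [FiniteDimensional ℚ_[q] M]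
  [Algebra K E] [Algebra K F] [Algebra K M] [Algebra E M] [Algebra F M]
  [IsScalarTower ℚ_[q] K E] [IsScalarTower ℚ_[q] K F] [IsScalarTower ℚ_[q] K M]
  [IsScalarTower ℚ_[q] E M] [IsScalarTower ℚ_[q] F M]
  [IsScalarTower K E M] [IsScalarTower K F M]

theorem isMulCoboundary₂_pullCocycle_unrCocycleRel
    (HU : ExistsUnitNormEq q)
    [IsGalois K E] [IsGalois K M]
    (hE : IsUnramified q K E) (a : Kˣ) (e f : ℕ) (hef : e * f = Module.finrank K E)
    (hf : resCard q F = resCard q K ^ f)
    (hval : ∃ y : Fˣ, nrm q F (algebraMap K F a) = nrm q F y ^ e) :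
    IsMulCoboundary₂ (pullCocycle (K := K) (F := F) (M := M) (unrCocycleRel q K E a)) := by
  classical
  obtain ⟨hunr, hfrob⟩ := baseChange_compFE q K E F M hE f hf
  have : IsGalois F (compFE E F M) := H25.isGalois_of_isUnramified q F (compFE E F M) hunr
  have : FiniteDimensional K M := FiniteDimensional.right ℚ_[q] K M
  have : FiniteDimensional F M := FiniteDimensional.right ℚ_[q] F M
  have : FiniteDimensional K E := FiniteDimensional.right ℚ_[q] K E
  have : Normal F M := Normal.tower_top_of_normal K F M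
  have hn : orderOf (frob q K E) = Module.finrank K E := H25.orderOf_frob q K E hE
  have hgen : ∀ x, x ∈ Subgroup.zpowers (frob q K E) := H25.frob_generates q K E hE
  have hgen' : ∀ x, x ∈ Subgroup.zpowers (frob q F (compFE E F M)) := H25.frob_generates q F (compFE E F M) hunr
  have hord' : orderOf (frob q F (compFE E F M)) = Module.finrank F (compFE E F M) :=
    H25.orderOf_frob q F (compFE E F M) hunr
  have hres : resE K E F (compFE E F M) (frob q F (compFE E F M)) = frob q K E ^ f := by
    apply AlgEquiv.ext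
    intro x
    apply (algebraMap E (compFE E F M)).injective
    rw [resE_commutes, hfrob]
  have hinj : Function.Injective (resE K E F (compFE E F M)) :=
    (injective_iff_map_eq_one _).2 (eq_one_of_resE_compFE_eq_one K E F M)
  have hpos : 0 < Module.finrank K E := Module.finrank_pos
  have hf0 : 0 < f := by
    rcases Nat.eq_zero_or_pos f with h | h
    · rw [h, mul_zero] at hef; omega
    · exact h
  have he0 : 0 < e := by
    rcases Nat.eq_zero_or_pos e with h | h
    · rw [h, zero_mul] at hef; omega
    · exact h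
  have hordf : orderOf (frob q K E ^ f) = e := by
    rw [orderOf_pow' _ hf0.ne', hn, ← hef, Nat.gcd_mul_left_left, Nat.mul_div_cancel _ hf0]
  have hfin : Module.finrank F (compFE E F M) = e := by
    rw [← hord', ← orderOf_injective _ hinj, hres, hordf]
  -- `a` is a norm from `F·E`
  have hmem : Units.map (algebraMap K F : K →* F) a ∈ normSubgroup F (compFE E F M) := by
    exact mem_normSubgroup_of_nrm_eq_pow q F (compFE E F M) HU hunr _
      (by rw [hfin]; exact hval)
  obtain ⟨y', hy'⟩ := (mem_normSubgroup_iff F (compFE E F M) _).1 hmem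
  -- a lift of the Frobenius of `F·E/F`
  obtain ⟨x₀, hx₀⟩ := AlgEquiv.restrictNormalHom_surjective (F := F) (K₁ := compFE E F M)
    (E := M) (frob q F (compFE E F M))
  have key := H19.isMulCoboundary₂_stdCocycle_comp (G := E ≃ₐ[K] E) (A := Eˣ) (G' := M ≃ₐ[F] M) (A' := Mˣ)
    (frob q K E) hgen (Units.map (algebraMap K E : K →* E) a) ?_
    (resE K E F M) (Units.map (algebraMap E M : E →* M)) ?_ f ?_ hf0 x₀ ?_ ?_
    (Units.map (algebraMap (compFE E F M) M : compFE E F M →* M) y') ?_ ?_
  · exact key
  · -- ha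
    apply Units.ext
    show frob q K E (algebraMap K E a) = algebraMap K E a
    exact (frob q K E).commutes _
  · -- hι
    intro x b
    apply Units.ext
    show algebraMap E M (resE K E F M x (b : E)) = x (algebraMap E M b)
    exact resE_commutes x _
  · -- f ∣ orderOf
    rw [hn, ← hef]; exact dvd_mul_left f e
  · -- hx₀
    rw [resE_eq_resE_compFE, hx₀, hres]
  · -- hπ
    intro x
    rw [resE_eq_resE_compFE, ← hres, ← MonoidHom.map_zpowers]
    exact Subgroup.mem_map_of_mem _ (hgen' _)
  · -- hy
    intro x hx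
    rw [resE_eq_resE_compFE] at hx
    have h1 : AlgEquiv.restrictNormalHom (compFE E F M) x = 1 := hinj (hx.trans (map_one _).symm)
    apply Units.ext
    show x (algebraMap (compFE E F M) M (y' : compFE E F M)) =
      algebraMap (compFE E F M) M (y' : compFE E F M)
    rw [← AlgEquiv.restrictNormal_commutes x (compFE E F M)]
    show algebraMap (compFE E F M) M
      (AlgEquiv.restrictNormalHom (compFE E F M) x (y' : compFE E F M)) = _
    rw [h1]; rfl
  · -- hN
    have hFC : FiniteDimensional F (compFE E F M) := FiniteDimensional.right ℚ_[q] F _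
    have hdiv : orderOf (frob q K E) / f = e := by
      rw [hn, ← hef, Nat.mul_div_cancel _ hf0]
    rw [hdiv]
    apply Units.ext
    rw [Units.coe_prod]
    have hterm : ∀ i : ℕ, ((x₀ ^ i • Units.map (algebraMap (compFE E F M) M :
        compFE E F M →* M) y' : Mˣ) : M) =
        algebraMap (compFE E F M) M ((frob q F (compFE E F M) ^ i) (y' : compFE E F M)) := by
      intro i
      show (x₀ ^ i) (algebraMap (compFE E F M) M (y' : compFE E F M)) = _
      rw [← AlgEquiv.restrictNormal_commutes (x₀ ^ i) (compFE E F M)]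
      show algebraMap (compFE E F M) M
        (AlgEquiv.restrictNormalHom (compFE E F M) (x₀ ^ i) (y' : compFE E F M)) = _
      rw [map_pow, hx₀]
    simp_rw [hterm]
    rw [← map_prod, ← hfin, ← hord', ← prod_univ_eq_prod_range_pow hgen'
      (fun σ => σ (y' : compFE E F M)), ← Algebra.norm_eq_prod_automorphisms, hy']
    show algebraMap E M (algebraMap K E a) = algebraMap (compFE E F M) M
      (algebraMap F (compFE E F M) (algebraMap K F a))
    rw [← IsScalarTower.algebraMap_apply K E M, ← IsScalarTower.algebraMap_apply F (compFE E F M) M,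
      ← IsScalarTower.algebraMap_apply K F M]

/-- **UGLY lemma, general base** (Skeleton4 `rest_infl_unrClassRel_eq_zero` with the relative
ramification data as explicit hypotheses). -/
theorem rest_infl_unrClassRel_eq_zero_of
    (HU : ExistsUnitNormEq q)
    [IsGalois K E] [IsGalois K M]
    (hE : IsUnramified q K E) (a : Kˣ) (e f : ℕ) (hef : e * f = Module.finrank K E)
    (hf : resCard q F = resCard q K ^ f)
    (hval : ∃ y : Fˣ, nrm q F (algebraMap K F a) = nrm q F y ^ e) :
    (rest K F M 2).hom ((infl K E M 2).hom (unrClassRel q K E a)) = 0 := by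
  classical
  by_cases hc : IsMulCocycle₂ (unrCocycleRel q K E a)
  · rw [unrClassRel_eq q K E a hc]
    exact rest_infl_eq_zero_of_isMulCoboundary₂ _ hc
      (isMulCoboundary₂_pullCocycle_unrCocycleRel q K E F M HU hE a e f hef hf hval)
  · unfold unrClassRel
    rw [dif_neg hc, map_zero, map_zero]

end Main

section Skeleton3

variable (q : ℕ) [Fact q.Prime]
variable (E F M : Type) [Field E] [Field F] [Field M]
  [Algebra ℚ_[q] E] [Algebra ℚ_[q] F] [Algebra ℚ_[q] M]
  [FiniteDimensional ℚ_[q] E] [FiniteDimensional ℚ_[q] F] [FiniteDimensional ℚ_[q] M]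
  [Algebra E M] [Algebra F M] [IsScalarTower ℚ_[q] E M] [IsScalarTower ℚ_[q] F M]

/-- **THE UGLY LEMMA** (Skeleton3 `rest_infl_unrClass_eq_zero`, verbatim up to the hypothesis
`HU` = Skeleton2 `exists_unit_norm_eq`). -/
theorem rest_infl_unrClass_eq_zero_of (HU : ExistsUnitNormEq q)
    [IsGalois ℚ_[q] E] [IsGalois ℚ_[q] M]
    (hE : IsUnramified q ℚ_[q] E)
    (hdeg : Module.finrank ℚ_[q] E = Module.finrank ℚ_[q] F) :
    (rest ℚ_[q] F M 2).hom ((infl ℚ_[q] E M 2).hom (unrClass q E)) = 0 := by
  obtain ⟨e, f, ϖ, hef, hres, -, -, hq⟩ := H97.exists_ramification_data q F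
  have hpos : 0 < Module.finrank ℚ_[q] F := Module.finrank_pos
  have he0 : e ≠ 0 := by
    rintro rfl
    rw [zero_mul] at hef
    omega
  have hqne : nrm q F (algebraMap ℚ_[q] F q) ≠ 0 := by
    rw [nrm_algebraMap]
    exact norm_ne_zero_iff.2 (by exact_mod_cast (Fact.out : q.Prime).ne_zero)
  have hϖ0 : ϖ ≠ 0 := by
    rintro rfl
    rw [nrm_zero, zero_pow he0] at hq
    exact hqne hq
  rw [unrClass_eq_rel]
  refine rest_infl_unrClassRel_eq_zero_of q ℚ_[q] E F M HU hE (qUnit q ℚ_[q]) e f
    (by rw [hef, hdeg]) (by rw [H25.resCard_padic, hres]) ⟨Units.mk0 ϖ hϖ0, ?_⟩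
  exact hq

end Skeleton3


end Fermat.Agent.CFT.H76
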