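import Fermat.Agent.CFT.H19_UnrRel
import Fermat.Agent.CFT.H19_UglyRel
import Fermat.Agent.CFT.H76_Ugly
import Fermat.Agent.CFT.H85_InfResGal
import Fermat.Agent.CFT.H97_Ramification
import Fermat.Agent.CFT.H39_UnrUnits

/-!
# CFT layer B, package B-UNRK: unramified layers over a general base inside the formation over `ℚ_q`
-/

set_option autoImplicit false
set_option linter.unusedSectionVars false
set_option linter.unusedVariables false
set_option linter.style.haveILetI false

open groupCohomology CategoryTheory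

namespace Fermat.Agent.CFT.H26

open Fermat.Agent.CFT.Loc

section Square

variable (K₀ K F M : Type) [Field K₀] [Field K] [Field F] [Field M]
  [Algebra K₀ K] [Algebra K₀ F] [Algebra K₀ M] [Algebra K F] [Algebra K M] [Algebra F M]
  [IsScalarTower K₀ K F] [IsScalarTower K₀ K M] [IsScalarTower K₀ F M] [IsScalarTower K F M]

/-- inflation commutes with restriction of the base field -/
theorem infl_rest_comm [Normal K₀ F] [Normal K F] (n : ℕ)
    (x : groupCohomology (Rep.ofAlgebraAutOnUnits K₀ F) n) :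
    (infl K F M n).hom ((rest K₀ K F n).hom x) = (rest K₀ K M n).hom ((infl K₀ F M n).hom x) := by
  have h : rest K₀ K F n ≫ infl K F M n = infl K₀ F M n ≫ rest K₀ K M n := by
    unfold infl rest
    rw [← groupCohomology.map_comp, ← groupCohomology.map_comp]
    refine groupCohomology.map_congr ?_ ?_ n
    · ext σ y
      apply (algebraMap F M).injective
      show algebraMap F M ((AlgEquiv.restrictNormalHom F σ) y) =
        algebraMap F M ((AlgEquiv.restrictNormalHom F (AlgEquiv.restrictScalarsHom K₀ σ)) y)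
      have h1 := AlgEquiv.restrictNormal_commutes σ F y
      have h2 := AlgEquiv.restrictNormal_commutes (AlgEquiv.restrictScalarsHom K₀ σ) F y
      exact h1.trans h2.symm
    · rfl
  exact congrArg (fun f => f.hom x) h

end Square

section Compositum

open Fermat.Agent.CFT.H76

variable (q : ℕ) [Fact q.Prime]
variable (K E F M : Type) [Field K] [Field E] [Field F] [Field M]
  [Algebra ℚ_[q] K] [Algebra ℚ_[q] E] [Algebra ℚ_[q] F] [Algebra ℚ_[q] M]
  [FiniteDimensional ℚ_[q] K] [FiniteDimensional ℚ_[q] E] [FiniteDimensional ℚ_[q] F]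
  [FiniteDimensional ℚ_[q] M]
  [Algebra K E] [Algebra K F] [Algebra K M] [Algebra E M] [Algebra F M]
  [IsScalarTower ℚ_[q] K E] [IsScalarTower ℚ_[q] K F] [IsScalarTower ℚ_[q] K M]
  [IsScalarTower ℚ_[q] E M] [IsScalarTower ℚ_[q] F M]
  [IsScalarTower K E M] [IsScalarTower K F M]

/-- the degree of the compositum `F·E` over `F`, for `E/K` unramified: `[FE:F] = [E:K] / f`. -/
theorem finrank_compFE [IsGalois K E]
    (hE : IsUnramified q K E) (e f : ℕ) (hef : e * f = Module.finrank K E)
    (hf : resCard q F = resCard q K ^ f) :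
    Module.finrank F (compFE E F M) = e := by
  obtain ⟨hunr, hfrob⟩ := baseChange_compFE q K E F M hE f hf
  have : FiniteDimensional K E := FiniteDimensional.right ℚ_[q] K E
  have hn : orderOf (frob q K E) = Module.finrank K E := H25.orderOf_frob q K E hE
  have hord' : orderOf (frob q F (compFE E F M)) = Module.finrank F (compFE E F M) :=
    H25.orderOf_frob q F (compFE E F M) hunr
  have hres : resE K E F (compFE E F M) (frob q F (compFE E F M)) = frob q K E ^ f := by
    apply AlgEquiv.ext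
    intro x
    apply (algebraMap E (compFE E F M)).injective
    rw [resE_commutes, hfrob]
  have hinj : Function.Injective (resE K E F (compFE E F M)) :=
    (injective_iff_map_eq_one _).2 (eq_one_of_resE_compFE_eq_one K E F M)
  have hpos : 0 < Module.finrank K E := Module.finrank_pos
  have hf0 : 0 < f := by
    rcases Nat.eq_zero_or_pos f with h | h
    · rw [h, mul_zero] at hef; omega
    · exact h
  have hordf : orderOf (frob q K E ^ f) = e := by
    rw [orderOf_pow' _ hf0.ne', hn, ← hef, Nat.gcd_mul_left_left, Nat.mul_div_cancel _ hf0]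
  rw [← hord', ← orderOf_injective _ hinj, hres, hordf]

end Compositum

section Contain

variable (q : ℕ) [Fact q.Prime]
variable (K L E' M : Type) [Field K] [Field L] [Field E'] [Field M]
  [Algebra ℚ_[q] K] [Algebra ℚ_[q] L] [Algebra ℚ_[q] E']
  [FiniteDimensional ℚ_[q] K] [FiniteDimensional ℚ_[q] L] [FiniteDimensional ℚ_[q] E']
  [Algebra K L] [IsScalarTower ℚ_[q] K L] [Algebra K E'] [IsScalarTower ℚ_[q] K E']
  [Algebra K M] [Algebra L M] [Algebra E' M] [IsScalarTower K L M] [IsScalarTower K E' M]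

/-- Inside a common overfield `M`, the unramified extension of degree `d` of `K` is contained in
the unramified extension of degree `N`, if `d ∣ N`. -/
theorem exists_algebraMap_eq_of_isUnramified (hL : IsUnramified q K L)
    (hE' : IsUnramified q K E') (hdvd : Module.finrank K L ∣ Module.finrank K E') (x : L) :
    ∃ y : E', algebraMap E' M y = algebraMap L M x := by
  haveI := H25.finiteDimensional_tower q K L
  haveI := H25.finiteDimensional_tower q K E'
  have hd0 : Module.finrank K L ≠ 0 := Module.finrank_pos.ne'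
  have hN0 : Module.finrank K E' ≠ 0 := Module.finrank_pos.ne'
  haveI hcL := H25.isCyclotomicExtension_of_isUnramified q K L hL
  haveI hcE := H25.isCyclotomicExtension_of_isUnramified q K E' hE'
  have hmd0 : resCard q K ^ Module.finrank K L - 1 ≠ 0 := H25.resCard_pow_sub_one_ne_zero q K hd0
  have hmN0 : resCard q K ^ Module.finrank K E' - 1 ≠ 0 :=
    H25.resCard_pow_sub_one_ne_zero q K hN0
  haveI : NeZero (resCard q K ^ Module.finrank K L - 1) := ⟨hmd0⟩
  haveI : NeZero (resCard q K ^ Module.finrank K E' - 1) := ⟨hmN0⟩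
  obtain ⟨ζ, hζ⟩ := IsCyclotomicExtension.exists_isPrimitiveRoot K L (Set.mem_singleton _) hmd0
  obtain ⟨ζ', hζ'⟩ := IsCyclotomicExtension.exists_isPrimitiveRoot K E' (Set.mem_singleton _) hmN0
  have hadj : Algebra.adjoin K ({ζ} : Set L) = ⊤ :=
    IsCyclotomicExtension.adjoin_primitive_root_eq_top hζ
  have hdvd' : resCard q K ^ Module.finrank K L - 1 ∣ resCard q K ^ Module.finrank K E' - 1 :=
    Nat.pow_sub_one_dvd_pow_sub_one _ hdvd
  obtain ⟨c, hc⟩ := hdvd'
  have hη : IsPrimitiveRoot (ζ' ^ c) (resCard q K ^ Module.finrank K L - 1) :=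
    hζ'.pow (Nat.pos_of_ne_zero hmN0) (by rw [hc, mul_comm])
  have h1 : IsPrimitiveRoot (algebraMap L M ζ) (resCard q K ^ Module.finrank K L - 1) :=
    hζ.map_of_injective (algebraMap L M).injective
  have h2 : IsPrimitiveRoot (algebraMap E' M (ζ' ^ c)) (resCard q K ^ Module.finrank K L - 1) :=
    hη.map_of_injective (algebraMap E' M).injective
  obtain ⟨i, -, hi⟩ := h2.eq_pow_of_pow_eq_one h1.pow_eq_one
  have hx : x ∈ Algebra.adjoin K ({ζ} : Set L) := by rw [hadj]; trivial
  induction hx using Algebra.adjoin_induction with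
  | mem y hy =>
    rw [Set.mem_singleton_iff] at hy
    subst hy
    exact ⟨(ζ' ^ c) ^ i, by rw [map_pow, hi]⟩
  | algebraMap c =>
    exact ⟨algebraMap K E' c, by
      rw [← IsScalarTower.algebraMap_apply, ← IsScalarTower.algebraMap_apply]⟩
  | add y z _ _ hy hz =>
    obtain ⟨a, ha⟩ := hy
    obtain ⟨b, hb⟩ := hz
    exact ⟨a + b, by rw [map_add, map_add, ha, hb]⟩
  | mul y z _ _ hy hz =>
    obtain ⟨a, ha⟩ := hy
    obtain ⟨b, hb⟩ := hz
    exact ⟨a * b, by rw [map_mul, map_mul, ha, hb]⟩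

end Contain

section Unit

variable (q : ℕ) [Fact q.Prime]
variable (K : Type) [Field K] [Algebra ℚ_[q] K] [FiniteDimensional ℚ_[q] K]
variable (E' : Type) [Field E'] [Algebra ℚ_[q] E'] [FiniteDimensional ℚ_[q] E']
  [Algebra K E'] [IsScalarTower ℚ_[q] K E']

/-- For `E'/K` unramified the class `unrClassRel q K E' a` only depends on the valuation of `a`:
if `‖a‖ = ‖ϖ‖ ^ e` then it is `e` times the class of `ϖ`. -/
theorem unrClassRel_eq_nsmul_of_nrm_eq (hE' : IsUnramified q K E') (a ϖ : Kˣ) (e : ℕ)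
    (h : nrm q K (a : K) = nrm q K (ϖ : K) ^ e) :
    unrClassRel q K E' a = e • unrClassRel q K E' ϖ := by
  have hu : a / ϖ ^ e ∈ unitGroup q K := by
    rw [mem_unitGroup_iff]
    have h1 : ((a / ϖ ^ e : Kˣ) : K) = (a : K) * ((ϖ : K) ^ e)⁻¹ := by
      rw [div_eq_mul_inv, Units.val_mul, Units.val_inv_eq_inv_val, Units.val_pow_eq_pow_val]
    rw [h1, nrm_mul, nrm_inv, h, H25.nrm_pow]
    have h0 : nrm q K (ϖ : K) ^ e ≠ 0 := pow_ne_zero _ (nrm_pos q ϖ.ne_zero).ne'
    exact mul_inv_cancel₀ h0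
  have h2 : a = ϖ ^ e * (a / ϖ ^ e) := by
    rw [mul_div_cancel]
  have h3 := H19.unrClassRel_unit_of q K E' hE'
    (fun u hu => H39.exists_unit_norm_eq q K E' hE' u hu) _ hu
  conv_lhs => rw [h2]
  rw [H19.unrClassRel_mul q K E' hE', H19.unrClassRel_pow q K E' hE', h3, add_zero]

end Unit

section Core

variable (q : ℕ) [Fact q.Prime]
variable (K L F E M E' : Type) [Field K] [Field L] [Field F] [Field E] [Field M] [Field E']
  [Algebra ℚ_[q] K] [Algebra ℚ_[q] L] [Algebra ℚ_[q] F] [Algebra ℚ_[q] E] [Algebra ℚ_[q] M]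
  [Algebra ℚ_[q] E']
  [FiniteDimensional ℚ_[q] K] [FiniteDimensional ℚ_[q] L] [FiniteDimensional ℚ_[q] F]
  [FiniteDimensional ℚ_[q] E] [FiniteDimensional ℚ_[q] M] [FiniteDimensional ℚ_[q] E']
  [Algebra K L] [IsScalarTower ℚ_[q] K L] [Algebra L F] [IsScalarTower ℚ_[q] L F]
  [Algebra K F] [IsScalarTower ℚ_[q] K F] [IsScalarTower K L F]
  [Algebra F M] [IsScalarTower ℚ_[q] F M]
  [Algebra E M] [IsScalarTower ℚ_[q] E M]
  -- the extra structure
  [Algebra K M] [IsScalarTower ℚ_[q] K M] [IsScalarTower K F M]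
  [Algebra L M] [IsScalarTower K L M] [IsScalarTower L F M]
  [Algebra K E'] [IsScalarTower ℚ_[q] K E'] [Algebra E' M] [IsScalarTower K E' M]
  [Algebra L E'] [IsScalarTower K L E'] [IsScalarTower L E' M]

/-- B-UNRK, core form: `E'` an unramified extension of `K` inside `M` containing `L`, with
`[F:L] * e = [E':L]` where `‖q‖ = ‖ϖ‖ ^ e`, and such that the restriction to `K` of the inflated
unramified class of `E/ℚ_q` is the inflated class of `q` for `E'/K` (GEN). -/
theorem finrank_smul_rest_eq_infl_unrClassRel_core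
    [IsGalois ℚ_[q] F] [IsGalois ℚ_[q] M] [Normal ℚ_[q] E] [Normal K L] [Normal K E']
    (γ : groupCohomology (Rep.ofAlgebraAutOnUnits ℚ_[q] F) 2)
    (hγ : (infl ℚ_[q] F M 2).hom γ = (infl ℚ_[q] E M 2).hom (unrClass q E))
    (hL : IsUnramified q K L) (hE' : IsUnramified q K E') (ϖ : Kˣ) (e : ℕ)
    (hq : nrm q K (algebraMap ℚ_[q] K q) = nrm q K (ϖ : K) ^ e)
    (hdeg : Module.finrank L F * e = Module.finrank L E')
    (hGEN : (rest ℚ_[q] K M 2).hom ((infl ℚ_[q] E M 2).hom (unrClass q E)) =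
      (infl K E' M 2).hom (unrClassRel q K E'
        (Units.map (algebraMap ℚ_[q] K : ℚ_[q] →* K) (qUnit q ℚ_[q])))) :
    Module.finrank L F • (rest ℚ_[q] K F 2).hom γ =
      (infl K L F 2).hom (unrClassRel q K L ϖ) := by
  haveI : FiniteDimensional K M := FiniteDimensional.right ℚ_[q] K M
  haveI : FiniteDimensional K F := FiniteDimensional.right ℚ_[q] K F
  haveI : IsGalois K F := IsGalois.tower_top_of_isGalois ℚ_[q] K F
  haveI : IsGalois K M := IsGalois.tower_top_of_isGalois ℚ_[q] K M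
  haveI : FiniteDimensional K E' := FiniteDimensional.right ℚ_[q] K E'
  haveI : IsGalois K E' := H25.isGalois_of_isUnramified q K E' hE'
  haveI : IsGalois K L := H25.isGalois_of_isUnramified q K L hL
  apply H85.infl_injective K F M
  have e1 : (infl K F M 2).hom (Module.finrank L F • (rest ℚ_[q] K F 2).hom γ) =
      Module.finrank L F • (infl K F M 2).hom ((rest ℚ_[q] K F 2).hom γ) := map_nsmul _ _ _
  have e2 := infl_rest_comm ℚ_[q] K F M 2 γ
  have e3 : (infl K F M 2).hom ((infl K L F 2).hom (unrClassRel q K L ϖ)) =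
      (infl K L M 2).hom (unrClassRel q K L ϖ) := H85.infl_comp K L F M 2 _
  have e4 : (infl K E' M 2).hom ((infl K L E' 2).hom (unrClassRel q K L ϖ)) =
      (infl K L M 2).hom (unrClassRel q K L ϖ) := H85.infl_comp K L E' M 2 _
  have e5 := H19.infl_unrClassRel q K L E' hL hE' ϖ
  have e6 := unrClassRel_eq_nsmul_of_nrm_eq q K E' hE'
    (Units.map (algebraMap ℚ_[q] K : ℚ_[q] →* K) (qUnit q ℚ_[q])) ϖ e hq
  have e7 : (infl K E' M 2).hom (e • unrClassRel q K E' ϖ) =
      e • (infl K E' M 2).hom (unrClassRel q K E' ϖ) := map_nsmul _ _ _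
  have e8 : (infl K E' M 2).hom (Module.finrank L E' • unrClassRel q K E' ϖ) =
      Module.finrank L E' • (infl K E' M 2).hom (unrClassRel q K E' ϖ) := map_nsmul _ _ _
  rw [e1, e2, hγ, hGEN, e6, e3, ← e4, e5, e7, e8, ← mul_nsmul', hdeg]

end Core

section Middle

open Fermat.Agent.CFT.H76

variable (q : ℕ) [Fact q.Prime]
variable (K L F E M : Type) [Field K] [Field L] [Field F] [Field E] [Field M]
  [Algebra ℚ_[q] K] [Algebra ℚ_[q] L] [Algebra ℚ_[q] F] [Algebra ℚ_[q] E] [Algebra ℚ_[q] M]
  [FiniteDimensional ℚ_[q] K] [FiniteDimensional ℚ_[q] L] [FiniteDimensional ℚ_[q] F]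
  [FiniteDimensional ℚ_[q] E] [FiniteDimensional ℚ_[q] M]
  [Algebra K L] [IsScalarTower ℚ_[q] K L] [Algebra L F] [IsScalarTower ℚ_[q] L F]
  [Algebra K F] [IsScalarTower ℚ_[q] K F] [IsScalarTower K L F]
  [Algebra F M] [IsScalarTower ℚ_[q] F M]
  [Algebra E M] [IsScalarTower ℚ_[q] E M]
  -- the extra structure
  [Algebra K M] [IsScalarTower ℚ_[q] K M] [IsScalarTower K F M]
  [Algebra L M] [IsScalarTower K L M] [IsScalarTower L F M]

/-- B-UNRK with `K → M`, `L → M` given as instances and GEN for the compositum `K·E ⊆ M` as a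
hypothesis. -/
theorem finrank_smul_rest_eq_infl_unrClassRel_of_gen
    [IsGalois ℚ_[q] E] [IsGalois ℚ_[q] F] [IsGalois ℚ_[q] M] [Normal K L]
    (hE : IsUnramified q ℚ_[q] E)
    (hdeg : Module.finrank ℚ_[q] E = Module.finrank ℚ_[q] F)
    (γ : groupCohomology (Rep.ofAlgebraAutOnUnits ℚ_[q] F) 2)
    (hγ : (infl ℚ_[q] F M 2).hom γ = (infl ℚ_[q] E M 2).hom (unrClass q E))
    (hL : IsUnramified q K L) (ϖ : Kˣ) (hϖ : IsUniformizer q K (ϖ : K))
    (hGEN : ∀ [Normal K (compFE E K M)],
      (rest ℚ_[q] K M 2).hom ((infl ℚ_[q] E M 2).hom (unrClass q E)) =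
        (infl K (compFE E K M) M 2).hom (unrClassRel q K (compFE E K M)
          (Units.map (algebraMap ℚ_[q] K : ℚ_[q] →* K) (qUnit q ℚ_[q])))) :
    Module.finrank L F • (rest ℚ_[q] K F 2).hom γ =
      (infl K L F 2).hom (unrClassRel q K L ϖ) := by
  classical
  haveI := H25.finiteDimensional_tower q K L
  -- ramification data of `K/ℚ_q`
  obtain ⟨e, f, ϖ₀, hef, hres, hϖ₀1, hϖ₀2, hq₀⟩ := H97.exists_ramification_data q K
  have hnrm : nrm q K (ϖ : K) = nrm q K ϖ₀ := le_antisymm (hϖ₀2 _ hϖ.1) (hϖ.2 _ hϖ₀1)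
  have hq : nrm q K (algebraMap ℚ_[q] K q) = nrm q K (ϖ : K) ^ e := by rw [hnrm]; exact hq₀
  have hresK : resCard q K = resCard q ℚ_[q] ^ f := by rw [H25.resCard_padic, hres]
  -- the compositum
  obtain ⟨hunr, -⟩ := baseChange_compFE q ℚ_[q] E K M hE f hresK
  have hd1 : Module.finrank ℚ_[q] K * Module.finrank K L = Module.finrank ℚ_[q] L :=
    Module.finrank_mul_finrank ℚ_[q] K L
  have hd2 : Module.finrank ℚ_[q] L * Module.finrank L F = Module.finrank ℚ_[q] F :=
    Module.finrank_mul_finrank ℚ_[q] L F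
  have hfin : Module.finrank K (compFE E K M) =
      Module.finrank L F * Module.finrank K L * e := by
    apply finrank_compFE q ℚ_[q] E K M hE _ f _ hresK
    rw [hdeg, ← hd2, ← hd1, ← hef]; ring
  have hdvd : Module.finrank K L ∣ Module.finrank K (compFE E K M) :=
    ⟨Module.finrank L F * e, by rw [hfin]; ring⟩
  -- `L ⊆ K·E`
  have hmem : ∀ x : L, algebraMap L M x ∈ compFE E K M := by
    intro x
    obtain ⟨y, hy⟩ :=
      exists_algebraMap_eq_of_isUnramified q K L (compFE E K M) M hL hunr hdvd x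
    rw [← hy]; exact y.2
  letI aLE' : Algebra L (compFE E K M) :=
    ((algebraMap L M).codRestrict (compFE E K M) hmem).toAlgebra
  haveI : IsScalarTower L (compFE E K M) M := IsScalarTower.of_algebraMap_eq fun _ => rfl
  haveI : IsScalarTower K L (compFE E K M) := IsScalarTower.of_algebraMap_eq fun x => by
    apply Subtype.ext
    show algebraMap K M x = algebraMap L M (algebraMap K L x)
    rw [← IsScalarTower.algebraMap_apply]
  haveI : IsGalois K (compFE E K M) := H25.isGalois_of_isUnramified q K _ hunr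
  have hdegE' : Module.finrank L F * e = Module.finrank L (compFE E K M) := by
    have h := Module.finrank_mul_finrank K L (compFE E K M)
    have hpos : 0 < Module.finrank K L := Module.finrank_pos
    rw [hfin] at h
    apply Nat.eq_of_mul_eq_mul_left hpos
    rw [h]; ring
  exact finrank_smul_rest_eq_infl_unrClassRel_core q K L F E M (compFE E K M) γ hγ hL hunr ϖ e hq
    hdegE' hGEN

end Middle

section Final

open Fermat.Agent.CFT.H76

variable (q : ℕ) [Fact q.Prime]
variable (K L F E M : Type) [Field K] [Field L] [Field F] [Field E] [Field M]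
  [Algebra ℚ_[q] K] [Algebra ℚ_[q] L] [Algebra ℚ_[q] F] [Algebra ℚ_[q] E] [Algebra ℚ_[q] M]
  [FiniteDimensional ℚ_[q] K] [FiniteDimensional ℚ_[q] L] [FiniteDimensional ℚ_[q] F]
  [FiniteDimensional ℚ_[q] E] [FiniteDimensional ℚ_[q] M]
  -- tower ℚ_q ⊆ K ⊆ L ⊆ F ⊆ M
  [Algebra K L] [IsScalarTower ℚ_[q] K L] [Algebra L F] [IsScalarTower ℚ_[q] L F]
  [Algebra K F] [IsScalarTower ℚ_[q] K F] [IsScalarTower K L F]
  [Algebra F M] [IsScalarTower ℚ_[q] F M]
  -- the unramified extension E of ℚ_q of degree [F:ℚ_q] inside M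
  [Algebra E M] [IsScalarTower ℚ_[q] E M]

/-- **B-UNRK** (Skeleton5 `finrank_smul_rest_fund_eq_infl_unrClassRel`, VERBATIM).
`γ` = the fundamental class of `F/ℚ_q` (characterised through `(E, M)` as in
`existsUnique_fund`).  For an unramified layer `L/K` inside `F` and a uniformizer `ϖ` of `K`:
`[F:L] • res_K γ = inf_{L → F} (Frobenius-uniformizer class of L/K)`. -/
theorem finrank_smul_rest_fund_eq_infl_unrClassRel
    [IsGalois ℚ_[q] E] [IsGalois ℚ_[q] F] [IsGalois ℚ_[q] M] [Normal K L]
    (hE : IsUnramified q ℚ_[q] E)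
    (hdeg : Module.finrank ℚ_[q] E = Module.finrank ℚ_[q] F)
    (γ : groupCohomology (Rep.ofAlgebraAutOnUnits ℚ_[q] F) 2)
    (hγ : (infl ℚ_[q] F M 2).hom γ = (infl ℚ_[q] E M 2).hom (unrClass q E))
    (hL : IsUnramified q K L) (ϖ : Kˣ) (hϖ : IsUniformizer q K (ϖ : K)) :
    Module.finrank L F • (rest ℚ_[q] K F 2).hom γ =
      (infl K L F 2).hom (unrClassRel q K L ϖ) := by
  letI aKM : Algebra K M := ((algebraMap F M).comp (algebraMap K F)).toAlgebra
  haveI : IsScalarTower K F M := IsScalarTower.of_algebraMap_eq fun _ => rfl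
  haveI : IsScalarTower ℚ_[q] K M := IsScalarTower.of_algebraMap_eq fun x => by
    show algebraMap ℚ_[q] M x = algebraMap F M (algebraMap K F (algebraMap ℚ_[q] K x))
    rw [← IsScalarTower.algebraMap_apply ℚ_[q] K F, ← IsScalarTower.algebraMap_apply ℚ_[q] F M]
  letI aLM : Algebra L M := ((algebraMap F M).comp (algebraMap L F)).toAlgebra
  haveI : IsScalarTower L F M := IsScalarTower.of_algebraMap_eq fun _ => rfl
  haveI : IsScalarTower K L M := IsScalarTower.of_algebraMap_eq fun x => by
    show algebraMap F M (algebraMap K F x) = algebraMap F M (algebraMap L F (algebraMap K L x))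
    rw [← IsScalarTower.algebraMap_apply K L F]
  refine finrank_smul_rest_eq_infl_unrClassRel_of_gen q K L F E M hE hdeg γ hγ hL ϖ hϖ ?_
  intro hN
  obtain ⟨e, f, ϖ₀, hef, hres, -, -, -⟩ := H97.exists_ramification_data q K
  have hresK : resCard q K = resCard q ℚ_[q] ^ f := by rw [H25.resCard_padic, hres]
  have hfn : f ∣ Module.finrank ℚ_[q] E := by
    rw [hdeg, ← Module.finrank_mul_finrank ℚ_[q] K F, ← hef]
    exact Dvd.dvd.mul_right (Dvd.intro_left e rfl) _
  rw [unrClass_eq_rel]
  haveI : IsScalarTower ℚ_[q] (compFE E K M) M := IsScalarTower.of_algebraMap_eq fun _ => rfl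
  exact H19.rest_infl_unrClassRel q ℚ_[q] K E (compFE E K M) M hE (adjoin_range_compFE E K M) f
    hresK hfn (qUnit q ℚ_[q])

end Final

end Fermat.Agent.CFT.H26
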