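/-
CFT layer C, package C-EXIST v3, piece (T3) (helper27): the COUNT hypothesis `hcount` of
`H3.exists_pow_eq_of_pairing`, for `C := CS S K`, `J := JS S K`, `ι := H51.jsToCS S K`, `G := Kˣ`.

* `index_range_sup_powSubgroup` (generic): for `φ : C →* Cl` surjective with `ker φ = ι.range`,
  `[C : ι J · Cᵖ] = #(Cl / Clᵖ)`;
* `index_jsToCS_range_sup_pow` : `[C_S : J_S · C_Sᵖ] = #(Cl_S / p) = #Cl_S[p]`;
* `hcount_of_relIndex` : `hcount` verbatim for a GENERIC `X : Subgroup Kˣ` whose index over `Kˣᵖ` is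
  `#(E_S / p) · #Cl_S[p]` (helper10's (C5) as a hypothesis);
* `hcount_XS` : `hcount` verbatim for `X := H10.XS S K p`, no hypotheses besides
  `p` odd, `p ∈ S`, `ζ_p ∈ K`;
* `relIndex_XS_ne_zero`, `finite_JS_quot`, `finite_CS_quot` : the finiteness side conditions of
  `H3.exists_pow_eq_of_pairing` in the same setting.
-/
import Mathlib
import Fermat.Agent.CFT.H10_ExistKummerSeq
import Fermat.Agent.CFT.H10_ExistIneq

set_option autoImplicit false

namespace Fermat.Agent.CFT.H27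

open scoped NumberField
open IsDedekindDomain Fermat.Agent.CFT.H23 Fermat.Agent.CFT.H51 Fermat.Agent.CFT.H3
  Fermat.Agent.CFT.H10 Fermat.Agent.CFT.H63

section Generic

variable {J C Cl : Type*} [CommGroup J] [CommGroup C] [CommGroup Cl]

/-- For `φ : C →* Cl` surjective, the preimage of `Clⁿ` is `ker φ · Cⁿ`. -/
theorem comap_powSubgroup_of_surjective (φ : C →* Cl) (hφ : Function.Surjective φ) (n : ℕ) :
    (powSubgroup Cl n).comap φ = φ.ker ⊔ powSubgroup C n := by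
  apply le_antisymm
  · intro c hc
    rw [Subgroup.mem_comap] at hc
    obtain ⟨d, hd⟩ := hc
    obtain ⟨e, rfl⟩ := hφ d
    have hd' : φ e ^ n = φ c := hd
    have h1 : c * (e ^ n)⁻¹ ∈ φ.ker := by
      rw [MonoidHom.mem_ker, map_mul, map_inv, map_pow, hd', mul_inv_cancel]
    have h2 : e ^ n ∈ powSubgroup C n := ⟨e, rfl⟩
    have h3 : c = c * (e ^ n)⁻¹ * e ^ n := by group
    rw [h3]
    exact Subgroup.mul_mem _ (Subgroup.mem_sup_left h1) (Subgroup.mem_sup_right h2)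
  · rw [sup_le_iff]
    constructor
    · intro c hc
      rw [Subgroup.mem_comap, MonoidHom.mem_ker.1 hc]
      exact Subgroup.one_mem _
    · rintro _ ⟨e, rfl⟩
      rw [Subgroup.mem_comap]
      exact ⟨φ e, by simp [powMonoidHom_apply]⟩

/-- **Generic index lemma**: for `φ : C →* Cl` surjective with `ker φ = ι.range`,
`[C : ι(J) · Cⁿ] = #(Cl / Clⁿ)`. -/
theorem index_range_sup_powSubgroup (ι : J →* C) (φ : C →* Cl) (hφ : Function.Surjective φ)
    (hker : φ.ker = ι.range) (n : ℕ) :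
    (ι.range ⊔ powSubgroup C n).index = Nat.card (Cl ⧸ powSubgroup Cl n) := by
  rw [← hker, ← comap_powSubgroup_of_surjective φ hφ n,
    Subgroup.index_comap_of_surjective _ hφ, Subgroup.index_eq_card]

end Generic

section Count

variable (S : Finset Nat.Primes) (K : Type) [Field K] [NumberField K]

/-- `[C_S : J_S · C_Sⁿ] = #(Cl_S / Cl_Sⁿ)`. -/
theorem index_jsToCS_range_sup_pow (n : ℕ) :
    ((jsToCS S K).range ⊔ powSubgroup (CS S K) n).index =
      Nat.card (ClS S K ⧸ powSubgroup (ClS S K) n) := by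
  have h := @index_range_sup_powSubgroup (JS S K) (CS S K) (ClS S K) _ _ _ (jsToCS S K)
    (csToClS S K) (csToClS_surjective S K) (ker_csToClS S K) n
  exact h

/-- `[C_S : J_S · C_Sⁿ] = #Cl_S[n]`. -/
theorem index_jsToCS_range_sup_pow' (n : ℕ) :
    ((jsToCS S K).range ⊔ powSubgroup (CS S K) n).index =
      Nat.card {c : ClS S K // c ^ n = 1} := by
  rw [index_jsToCS_range_sup_pow, card_ClS_quot_pow]

variable {p : ℕ}

/-- **(T3), generic `X`**: the count hypothesis of `H3.exists_pow_eq_of_pairing` (as an equality)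
for any `X : Subgroup Kˣ` with `[X : Kˣᵖ] = #(E_S / p) · #Cl_S[p]` (helper10's (C5)). -/
theorem hcount_eq_of_relIndex (hp : p.Prime) (hp2 : p ≠ 2) (hpS : (⟨p, hp⟩ : Nat.Primes) ∈ S)
    {ζ : K} (hζ : IsPrimitiveRoot ζ p) (X : Subgroup Kˣ)
    (hC5 : (powSubgroup Kˣ p).relIndex X =
      Nat.card (unitsS S K ⧸ powSubgroup (unitsS S K) p) *
        Nat.card {c : ClS S K // c ^ p = 1}) :
    Nat.card (JS S K ⧸ powSubgroup (JS S K) p) *
        ((jsToCS S K).range ⊔ powSubgroup (CS S K) p).index ^ 2 =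
      ((powSubgroup Kˣ p).relIndex X) ^ 2 := by
  rw [hC5, index_jsToCS_range_sup_pow', card_JS_quot_pow_eq_sq S K hp hp2 hpS hζ, mul_pow]

/-- **(T3), generic `X`**, in the `≤` shape of `H3.exists_pow_eq_of_pairing`. -/
theorem hcount_of_relIndex (hp : p.Prime) (hp2 : p ≠ 2) (hpS : (⟨p, hp⟩ : Nat.Primes) ∈ S)
    {ζ : K} (hζ : IsPrimitiveRoot ζ p) (X : Subgroup Kˣ)
    (hC5 : (powSubgroup Kˣ p).relIndex X =
      Nat.card (unitsS S K ⧸ powSubgroup (unitsS S K) p) *
        Nat.card {c : ClS S K // c ^ p = 1}) :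
    Nat.card (JS S K ⧸ powSubgroup (JS S K) p) *
        ((jsToCS S K).range ⊔ powSubgroup (CS S K) p).index ^ 2 ≤
      ((powSubgroup Kˣ p).relIndex X) ^ 2 :=
  (hcount_eq_of_relIndex S K hp hp2 hpS hζ X hC5).le

/-- **(T3) for `X := H10.XS S K p`**: the count hypothesis of `H3.exists_pow_eq_of_pairing`,
no hypotheses left. -/
theorem hcount_XS (hp : p.Prime) (hp2 : p ≠ 2) (hpS : (⟨p, hp⟩ : Nat.Primes) ∈ S)
    {ζ : K} (hζ : IsPrimitiveRoot ζ p) :
    Nat.card (JS S K ⧸ powSubgroup (JS S K) p) *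
        ((jsToCS S K).range ⊔ powSubgroup (CS S K) p).index ^ 2 ≤
      ((powSubgroup Kˣ p).relIndex (XS S K p)) ^ 2 :=
  hcount_of_relIndex S K hp hp2 hpS hζ (XS S K p) (relIndex_pow_XS S K hp.ne_zero)

/-- `#(E_S / p) ≠ 0` when `μ_p ⊆ K`. -/
theorem card_unitsS_quot_pow_ne_zero (hp : p.Prime) {ζ : K} (hζ : IsPrimitiveRoot ζ p) :
    Nat.card (unitsS S K ⧸ powSubgroup (unitsS S K) p) ≠ 0 := by
  classical
  set TK := (primesAboveS_finite S K).toFinset with hTKdef
  have hTK : ∀ u, u ∈ TK ↔ u ∈ primesAboveS S K := fun u => Set.Finite.mem_toFinset _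
  rw [card_unitsS_quot_pow S K hp hζ TK hTK]
  exact pow_ne_zero _ hp.ne_zero

/-- `[X_S : Kˣᵖ] ≠ 0` (the `hXfin` hypothesis of `H3.exists_pow_eq_of_pairing`). -/
theorem relIndex_XS_ne_zero (hp : p.Prime) {ζ : K} (hζ : IsPrimitiveRoot ζ p) :
    (powSubgroup Kˣ p).relIndex (XS S K p) ≠ 0 :=
  relIndex_pow_XS_ne_zero S K hp.ne_zero (card_unitsS_quot_pow_ne_zero S K hp hζ)

/-- generic `X`: `[X : Kˣᵖ] ≠ 0` from (C5). -/
theorem relIndex_ne_zero_of_relIndex (hp : p.Prime) {ζ : K} (hζ : IsPrimitiveRoot ζ p)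
    (X : Subgroup Kˣ)
    (hC5 : (powSubgroup Kˣ p).relIndex X =
      Nat.card (unitsS S K ⧸ powSubgroup (unitsS S K) p) *
        Nat.card {c : ClS S K // c ^ p = 1}) :
    (powSubgroup Kˣ p).relIndex X ≠ 0 := by
  rw [hC5]
  have : Nonempty {c : ClS S K // c ^ p = 1} := ⟨⟨1, one_pow p⟩⟩
  exact mul_ne_zero (card_unitsS_quot_pow_ne_zero S K hp hζ) Nat.card_pos.ne'

/-- The instance `Finite (J_S / p)` needed by `H3.exists_pow_eq_of_pairing`. -/
theorem finite_JS_quot (hp : p.Prime) : Finite (JS S K ⧸ powSubgroup (JS S K) p) :=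
  finite_JS_quot_pow S K hp

/-- The instance `Finite (C_S / p)` needed by `H3.exists_pow_eq_of_pairing`. -/
theorem finite_CS_quot (hp : p.Prime) : Finite (CS S K ⧸ powSubgroup (CS S K) p) :=
  finite_CS_quot_pow S K hp

end Count

end Fermat.Agent.CFT.H27
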