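/-
CFT layer C, package C-ARTIN-frob-bridge (helper27).

The dictionary "LOCAL Frobenius = GLOBAL Frobenius", vocabulary-neutral:
`F` a number field, `K` a local field of layer B (`[Algebra ℚ_[q] K] [FiniteDimensional ℚ_[q] K]`,
absolute value `Loc.nrm q K`), `ι : F →+* K` a ring homomorphism with dense image
(`IsDenseEmb q K ι`).  Then `ι` cuts out a prime `primeOf q K ι` of `𝓞 F`, the residue field of
`K` is `𝓞 F ⧸ P`, and for a tower `F ⊆ F'`, `K ⊆ L` compatible with `ι, ι'`:
`e(P'|P) = 1` implies that `L/K` is unramified, and the automorphism of `L` induced by an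
arithmetic Frobenius at `P'` is the Frobenius `Loc.frob q K L` of layer B.
-/
import Mathlib
import Fermat.Agent.CFT.H54_AbsClass
import Fermat.Agent.CFT.H25_LocUnr
import Fermat.Agent.CFT.H25_LocBaseChange

set_option autoImplicit false
set_option linter.unusedSectionVars false
set_option linter.unusedVariables false
set_option linter.style.haveILetI false

noncomputable section

namespace Fermat.Agent.CFT.H27

open NumberField IsDedekindDomain
open Fermat.Agent.CFT Fermat.Agent.CFT.Loc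

section OneField

variable (q : ℕ) [Fact q.Prime]
variable {F : Type*} [Field F] [NumberField F]
variable (K : Type) [Field K] [Algebra ℚ_[q] K] [FiniteDimensional ℚ_[q] K]
variable (ι : F →+* K)

/-- ultrametric inequality for a difference -/
theorem nrm_sub_le_max (x y : K) : nrm q K (x - y) ≤ max (nrm q K x) (nrm q K y) := by
  have h := nrm_add_le_max q x (-y)
  rwa [nrm_neg, ← sub_eq_add_neg] at h

/-- if `‖x - y‖ < ‖x‖` then `‖y‖ = ‖x‖` -/
theorem nrm_eq_of_sub_lt {x y : K} (h : nrm q K (x - y) < nrm q K x) : nrm q K y = nrm q K x := by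
  apply le_antisymm
  · have h1 : y = x - (x - y) := by ring
    have h2 := nrm_sub_le_max q K x (x - y)
    rw [← h1] at h2
    exact h2.trans (max_le le_rfl h.le)
  · by_contra hlt
    rw [not_le] at hlt
    have h1 : x = (x - y) + y := by ring
    have h2 := nrm_add_le_max q (x - y) y
    rw [← h1] at h2
    have : nrm q K x < nrm q K x := lt_of_le_of_lt h2 (max_lt h hlt)
    exact lt_irrefl _ this

/-- the absolute value `nrm ∘ ι` of `F` -/
def absOf : AbsoluteValue F ℝ where
  toFun x := nrm q K (ι x)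
  map_mul' x y := by rw [map_mul, nrm_mul]
  nonneg' x := nrm_nonneg q _
  eq_zero' x := by
    rw [nrm_eq_zero_iff]
    exact map_eq_zero ι
  add_le' x y := by
    rw [map_add]
    refine (nrm_add_le_max q _ _).trans ?_
    exact max_le (le_add_of_nonneg_right (nrm_nonneg q _)) (le_add_of_nonneg_left (nrm_nonneg q _))

theorem absOf_apply (x : F) : absOf q K ι x = nrm q K (ι x) := rfl

theorem isNonarchimedean_absOf : IsNonarchimedean (absOf q K ι) := by
  intro x y
  show nrm q K (ι (x + y)) ≤ max (nrm q K (ι x)) (nrm q K (ι y))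
  rw [map_add]
  exact nrm_add_le_max q _ _

theorem absOf_natCast_q : absOf q K ι (q : F) = (q : ℝ)⁻¹ := by
  rw [absOf_apply, map_natCast]
  have h : ((q : ℕ) : K) = algebraMap ℚ_[q] K (q : ℚ_[q]) := by rw [map_natCast]
  rw [h, nrm_algebraMap, Padic.norm_p]

theorem exists_absOf_lt_one : ∃ x : 𝓞 F, x ≠ 0 ∧ absOf q K ι (x : F) < 1 := by
  refine ⟨(q : 𝓞 F), ?_, ?_⟩
  · exact Nat.cast_ne_zero.mpr (Fact.out : q.Prime).ne_zero
  · have : ((q : 𝓞 F) : F) = (q : F) := by simp
    rw [this, absOf_natCast_q]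
    exact inv_lt_one_of_one_lt₀ (by exact_mod_cast (Fact.out : q.Prime).one_lt)

/-- the prime of `𝓞 F` cut out by `ι : F →+* K` -/
def primeOf : HeightOneSpectrum (𝓞 F) :=
  H54.primeOfAbv (absOf q K ι) (isNonarchimedean_absOf q K ι) (exists_absOf_lt_one q K ι)

theorem mem_primeOf {x : 𝓞 F} : x ∈ (primeOf q K ι).asIdeal ↔ nrm q K (ι (x : F)) < 1 := Iff.rfl

theorem nrm_integer_le_one (x : 𝓞 F) : nrm q K (ι (x : F)) ≤ 1 :=
  H54.abv_le_one_of_integer (absOf q K ι) (isNonarchimedean_absOf q K ι) x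

theorem natCast_q_mem_primeOf : ((q : ℕ) : 𝓞 F) ∈ (primeOf q K ι).asIdeal := by
  rw [mem_primeOf]
  have : (((q : ℕ) : 𝓞 F) : F) = (q : F) := by simp
  rw [this]
  have h := absOf_natCast_q q K ι
  rw [absOf_apply] at h
  rw [h]
  exact inv_lt_one_of_one_lt₀ (by exact_mod_cast (Fact.out : q.Prime).one_lt)

theorem nrm_le_one_iff {x : F} :
    nrm q K (ι x) ≤ 1 ↔ (primeOf q K ι).valuation F x ≤ 1 :=
  H54.abv_le_one_iff (w := absOf q K ι)

theorem nrm_lt_one_iff {x : F} :
    nrm q K (ι x) < 1 ↔ (primeOf q K ι).valuation F x < 1 :=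
  H54.abv_lt_one_iff (w := absOf q K ι)

theorem nrm_eq_one_iff {x : F} :
    nrm q K (ι x) = 1 ↔ (primeOf q K ι).valuation F x = 1 :=
  H54.abv_eq_one_iff (w := absOf q K ι)

/-- `ι` has dense image. -/
def IsDenseEmb : Prop := ∀ (y : K) (ε : ℝ), 0 < ε → ∃ x : F, nrm q K (y - ι x) < ε

variable {q K ι}

/-- a `P`-integral element of `F` is congruent to an algebraic integer modulo `P` -/
theorem exists_integer_nrm_sub_lt_one_of_le {x₀ : F} (hx₀ : nrm q K (ι x₀) ≤ 1) :
    ∃ x : 𝓞 F, nrm q K (ι (x₀ - (x : F))) < 1 := by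
  set P := primeOf q K ι with hP
  have hv : P.valuation F x₀ ≤ 1 := (nrm_le_one_iff q K ι).mp hx₀
  obtain ⟨n, d, hnd⟩ := P.exists_primeCompl_mul_eq_of_integer x₀ hv
  -- `d` is invertible modulo `P`
  have hmax : P.asIdeal.IsMaximal := P.isMaximal
  have hd : (d : 𝓞 F) ∉ P.asIdeal := d.2
  obtain ⟨t, i, hi, hti⟩ : ∃ t i, i ∈ P.asIdeal ∧ t * (d : 𝓞 F) + i = 1 := by
    obtain ⟨t, i, hi, h⟩ := hmax.exists_inv hd
    exact ⟨t, i, hi, h⟩
  refine ⟨n * t, ?_⟩
  have h1 : x₀ - ((n * t : 𝓞 F) : F) = x₀ * ((i : 𝓞 F) : F) := by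
    have h2 : ((t : 𝓞 F) : F) * ((d : 𝓞 F) : F) + ((i : 𝓞 F) : F) = 1 := by
      have := congrArg (fun z : 𝓞 F => (z : F)) hti
      simpa using this
    have h3 : x₀ * ((d : 𝓞 F) : F) = ((n : 𝓞 F) : F) := hnd
    have h4 : ((n * t : 𝓞 F) : F) = ((n : 𝓞 F) : F) * ((t : 𝓞 F) : F) := by push_cast; rfl
    rw [h4, ← h3]
    linear_combination (-x₀) * h2
  rw [h1, map_mul, nrm_mul]
  have hi' : nrm q K (ι ((i : 𝓞 F) : F)) < 1 := (mem_primeOf q K ι).mp hi
  calc nrm q K (ι x₀) * nrm q K (ι ((i : 𝓞 F) : F))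
      ≤ 1 * nrm q K (ι ((i : 𝓞 F) : F)) := mul_le_mul_of_nonneg_right hx₀ (nrm_nonneg q _)
    _ < 1 := by rwa [one_mul]

/-- every integral element of `K` is congruent to an algebraic integer of `F` -/
theorem exists_integer_nrm_sub_lt_one (hd : IsDenseEmb q K ι) (y : K) (hy : nrm q K y ≤ 1) :
    ∃ x : 𝓞 F, nrm q K (y - ι (x : F)) < 1 := by
  obtain ⟨x₀, hx₀⟩ := hd y 1 one_pos
  have h1 : nrm q K (ι x₀) ≤ 1 := by
    have h2 : ι x₀ = y - (y - ι x₀) := by ring
    rw [h2]
    exact (nrm_sub_le_max q K _ _).trans (max_le hy hx₀.le)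
  obtain ⟨x, hx⟩ := exists_integer_nrm_sub_lt_one_of_le (ι := ι) h1
  refine ⟨x, ?_⟩
  have h3 : y - ι (x : F) = (y - ι x₀) + ι (x₀ - (x : F)) := by
    rw [map_sub]; ring
  rw [h3]
  exact (nrm_add_le_max q _ _).trans_lt (max_lt hx₀ hx)

/-! ### The residue field -/

section Residue

variable (q K ι)

/-- `ι` restricted to the rings of integers -/
def intHom : 𝓞 F →+* (O q K) :=
  (ι.comp (algebraMap (𝓞 F) F)).codRestrict (O q K) (fun x => nrm_integer_le_one q K ι x)

theorem coe_intHom (x : 𝓞 F) : ((intHom q K ι x : O q K) : K) = ι (x : F) := rfl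

/-- membership in the maximal ideal of `O q K` -/
theorem mem_maximalIdeal_O_iff (a : O q K) :
    a ∈ IsLocalRing.maximalIdeal (O q K) ↔ nrm q K (a : K) < 1 := by
  rw [IsLocalRing.mem_maximalIdeal, mem_nonunits_iff]
  have ha : nrm q K (a : K) ≤ 1 := a.2
  constructor
  · intro hnu
    by_contra hlt
    rw [not_lt] at hlt
    have h1 : nrm q K (a : K) = 1 := le_antisymm ha hlt
    apply hnu
    have ha0 : (a : K) ≠ 0 := by
      intro h0
      rw [h0, nrm_zero] at h1
      exact zero_ne_one h1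
    have hinv : (a : K)⁻¹ ∈ O q K := by
      rw [mem_O_iff, nrm_inv, h1, inv_one]
    refine IsUnit.of_mul_eq_one ⟨(a : K)⁻¹, hinv⟩ ?_
    apply Subtype.ext
    show (a : K) * (a : K)⁻¹ = 1
    exact mul_inv_cancel₀ ha0
  · intro hlt hu
    obtain ⟨b, hb⟩ := hu.exists_right_inv
    have hb' : (a : K) * (b : K) = 1 := congrArg Subtype.val hb
    have h1 := congrArg (nrm q K) hb'
    rw [nrm_mul, nrm_one] at h1
    have hb1 : nrm q K (b : K) ≤ 1 := b.2
    have : nrm q K (a : K) * nrm q K (b : K) < 1 := by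
      calc nrm q K (a : K) * nrm q K (b : K) ≤ nrm q K (a : K) * 1 :=
            mul_le_mul_of_nonneg_left hb1 (nrm_nonneg q _)
        _ < 1 := by rwa [mul_one]
    rw [h1] at this
    exact lt_irrefl _ this

/-- the residue map `𝓞 F → k_K` -/
def resHomOf : 𝓞 F →+* IsLocalRing.ResidueField (O q K) :=
  (IsLocalRing.residue (O q K)).comp (intHom q K ι)

theorem ker_resHomOf : RingHom.ker (resHomOf q K ι) = (primeOf q K ι).asIdeal := by
  ext x
  rw [RingHom.mem_ker, mem_primeOf]
  show IsLocalRing.residue (O q K) (intHom q K ι x) = 0 ↔ _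
  rw [IsLocalRing.residue_eq_zero_iff, mem_maximalIdeal_O_iff]
  rfl

variable {q K ι}

theorem resHomOf_surjective (hd : IsDenseEmb q K ι) : Function.Surjective (resHomOf q K ι) := by
  intro r
  obtain ⟨y, rfl⟩ := IsLocalRing.residue_surjective r
  obtain ⟨x, hx⟩ := exists_integer_nrm_sub_lt_one hd (y : K) y.2
  refine ⟨x, ?_⟩
  show IsLocalRing.residue (O q K) (intHom q K ι x) = IsLocalRing.residue (O q K) y
  rw [← sub_eq_zero, ← map_sub, IsLocalRing.residue_eq_zero_iff, mem_maximalIdeal_O_iff]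
  show nrm q K (ι (x : F) - (y : K)) < 1
  rw [← nrm_neg, neg_sub]
  exact hx

/-- the residue field of `K` is the residue field of the prime cut out by `ι` -/
def residueEquiv (hd : IsDenseEmb q K ι) :
    (𝓞 F ⧸ (primeOf q K ι).asIdeal) ≃+* IsLocalRing.ResidueField (O q K) :=
  (Ideal.quotEquivOfEq (ker_resHomOf q K ι).symm).trans
    (RingHom.quotientKerEquivOfSurjective (resHomOf_surjective hd))

/-- **The residue cardinality of `K` is the absolute norm of the prime below.** -/
theorem resCard_eq_absNorm (hd : IsDenseEmb q K ι) :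
    Loc.resCard q K = Ideal.absNorm (primeOf q K ι).asIdeal := by
  rw [Loc.resCard, Ideal.absNorm_apply, Submodule.cardQuot_apply]
  exact (Nat.card_congr (residueEquiv hd).toEquiv).symm

theorem resCard_eq_card_quot (hd : IsDenseEmb q K ι) :
    Loc.resCard q K = Nat.card (𝓞 F ⧸ (primeOf q K ι).asIdeal) :=
  (Nat.card_congr (residueEquiv hd).toEquiv).symm

end Residue

end OneField

/-! ### Towers -/

section Tower

variable (q : ℕ) [Fact q.Prime]
variable {F F' : Type*} [Field F] [NumberField F] [Field F'] [NumberField F'] [Algebra F F']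
variable (K : Type) [Field K] [Algebra ℚ_[q] K] [FiniteDimensional ℚ_[q] K]
variable (L : Type) [Field L] [Algebra ℚ_[q] L] [FiniteDimensional ℚ_[q] L]
variable [Algebra K L] [IsScalarTower ℚ_[q] K L]
variable (ι : F →+* K) (ι' : F' →+* L)

/-- the absolute value is invariant under automorphisms -/
theorem nrm_algEquiv_apply (φ : L ≃ₐ[K] L) (x : L) : nrm q L (φ x) = nrm q L x :=
  (spectralNorm_eq_of_equiv (φ.restrictScalars ℚ_[q]) x).symm

theorem nrm_zpow (x : K) (n : ℤ) : nrm q K (x ^ n) = nrm q K x ^ n := by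
  let _ := H25.nnf q K
  exact norm_zpow x n

variable {q K L ι ι'}

/-- the prime of `F'` cut out by `ι'` lies over the prime of `F` cut out by `ι` -/
theorem under_primeOf (hcomp : ∀ x : F, ι' (algebraMap F F' x) = algebraMap K L (ι x)) :
    (primeOf q L ι').asIdeal.under (𝓞 F) = (primeOf q K ι).asIdeal := by
  ext x
  rw [Ideal.under_def, Ideal.mem_comap, mem_primeOf, mem_primeOf]
  have h1 : ((algebraMap (𝓞 F) (𝓞 F') x : 𝓞 F') : F') = algebraMap F F' (x : F) := rfl
  rw [h1, hcomp, H25.nrm_algebraMap_tower q K L]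

theorem liesOver_primeOf (hcomp : ∀ x : F, ι' (algebraMap F F' x) = algebraMap K L (ι x)) :
    (primeOf q L ι').asIdeal.LiesOver (primeOf q K ι).asIdeal :=
  ⟨(under_primeOf hcomp).symm⟩

theorem under_primeOf' (hcomp : ∀ x : F, ι' (algebraMap F F' x) = algebraMap K L (ι x)) :
    (primeOf q L ι').under (𝓞 F) = primeOf q K ι :=
  HeightOneSpectrum.ext (under_primeOf hcomp)

/-- If a uniformizer of `P` stays a uniformizer at `P'`, then `L/K` is unramified. -/
theorem isUnramified_of_uniformizer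
    (hcomp : ∀ x : F, ι' (algebraMap F F' x) = algebraMap K L (ι x))
    (hd' : IsDenseEmb q L ι') {π : F}
    (hπ : (primeOf q L ι').valuation F' (algebraMap F F' π) = WithZero.exp (-1 : ℤ)) :
    IsUnramified q K L := by
  intro y
  by_cases hy : y = 0
  · exact ⟨0, by rw [hy, nrm_zero, nrm_zero]⟩
  have hypos : 0 < nrm q L y := nrm_pos q hy
  obtain ⟨x', hx'⟩ := hd' y (nrm q L y) hypos
  have hxy : nrm q L (ι' x') = nrm q L y := nrm_eq_of_sub_lt q L hx'
  have hx'0 : x' ≠ 0 := by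
    rintro rfl
    rw [map_zero, nrm_zero] at hxy
    exact hypos.ne hxy
  have key := H54.abv_eq_zpow (w := absOf q L ι') (hw := isNonarchimedean_absOf q L ι')
    (hnt := exists_absOf_lt_one q L ι') hπ hx'0
  rw [absOf_apply, absOf_apply, hcomp, H25.nrm_algebraMap_tower q K L] at key
  refine ⟨ι π ^ (-(WithZero.log ((primeOf q L ι').valuation F' x'))), ?_⟩
  rw [nrm_zpow, ← hxy]
  exact key

/-- **`e(P'|P) = 1` implies that `L/K` is unramified** (in the sense of layer B). -/
theorem isUnramified_of_ramificationIdx_eq_one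
    (hcomp : ∀ x : F, ι' (algebraMap F F' x) = algebraMap K L (ι x))
    (hd' : IsDenseEmb q L ι')
    (he : (primeOf q L ι').asIdeal.ramificationIdx (𝓞 F) = 1) :
    IsUnramified q K L := by
  obtain ⟨π, hπ⟩ := (primeOf q K ι).valuation_exists_uniformizer F
  haveI := liesOver_primeOf (q := q) (K := K) (L := L) (ι := ι) (ι' := ι') hcomp
  have h1 := HeightOneSpectrum.valuation_liesOver F' (primeOf q K ι) (primeOf q L ι') π
  rw [Ideal.ramificationIdx'_eq_ramificationIdx (primeOf q K ι).asIdeal (primeOf q L ι').asIdeal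
    (primeOf q K ι).ne_bot, he, pow_one] at h1
  exact isUnramified_of_uniformizer hcomp hd' (h1.symm.trans hπ)

theorem isUnramified_of_isUnramifiedAt
    (hcomp : ∀ x : F, ι' (algebraMap F F' x) = algebraMap K L (ι x))
    (hd' : IsDenseEmb q L ι')
    (he : Algebra.IsUnramifiedAt (𝓞 F) (primeOf q L ι').asIdeal) :
    IsUnramified q K L :=
  isUnramified_of_ramificationIdx_eq_one hcomp hd' (Ideal.ramificationIdx_eq_one_iff.mpr he)

/-- **Core.**  An automorphism `φ` of `L/K` which is induced by a map `σ` of `F'` with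
`σ x ≡ x ^ N` modulo `P'` on `𝓞 F'`, `N` the residue cardinality of `K`, is the Frobenius. -/
theorem frob_eq_of_forall_nrm_lt (h : IsUnramified q K L) (hd' : IsDenseEmb q L ι')
    (φ : L ≃ₐ[K] L) (σ : F' → F') (hφ : ∀ x : 𝓞 F', φ (ι' (x : F')) = ι' (σ (x : F')))
    (hσ : ∀ x : 𝓞 F', nrm q L (ι' (σ (x : F')) - ι' (x : F') ^ Loc.resCard q K) < 1) :
    φ = Loc.frob q K L := by
  apply H25.frob_unique q K L h φ
  intro y hy
  obtain ⟨x, hx⟩ := exists_integer_nrm_sub_lt_one hd' y hy
  set N := Loc.resCard q K with hN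
  set a : L := ι' (x : F') with ha
  have ha1 : nrm q L a ≤ 1 := nrm_integer_le_one q L ι' x
  have hsplit : φ y - y ^ N = φ (y - a) + ((ι' (σ (x : F')) - a ^ N) +
      (a - y) * ∑ i ∈ Finset.range N, a ^ i * y ^ (N - 1 - i)) := by
    have hg : (∑ i ∈ Finset.range N, a ^ i * y ^ (N - 1 - i)) * (a - y) = a ^ N - y ^ N :=
      (Commute.all a y).geom_sum₂_mul N
    rw [map_sub, hφ x, mul_comm, hg]
    ring
  rw [hsplit]
  have h1 : nrm q L (φ (y - a)) < 1 := by rw [nrm_algEquiv_apply]; exact hx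
  have h2 : nrm q L (ι' (σ (x : F')) - a ^ N) < 1 := hσ x
  have hc : (∑ i ∈ Finset.range N, a ^ i * y ^ (N - 1 - i)) ∈ O q L :=
    sum_mem fun i _ => mul_mem (pow_mem (show a ∈ O q L from ha1) i)
      (pow_mem (show y ∈ O q L from hy) _)
  have h3 : nrm q L ((a - y) * ∑ i ∈ Finset.range N, a ^ i * y ^ (N - 1 - i)) < 1 := by
    rw [nrm_mul]
    have h4 : nrm q L (a - y) < 1 := by rw [← nrm_neg, neg_sub]; exact hx
    calc nrm q L (a - y) * nrm q L (∑ i ∈ Finset.range N, a ^ i * y ^ (N - 1 - i))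
        ≤ nrm q L (a - y) * 1 := mul_le_mul_of_nonneg_left hc (nrm_nonneg q _)
      _ < 1 := by rwa [mul_one]
  exact (nrm_add_le_max q _ _).trans_lt
    (max_lt h1 ((nrm_add_le_max q _ _).trans_lt (max_lt h2 h3)))

/-- **Local Frobenius = global Frobenius.**  If `φ ∈ Gal(L/K)` is induced by `σ ∈ Gal(F'/F)` and
`σ` is an arithmetic Frobenius at the prime `P'` of `F'` cut out by `ι'`, then `φ` is the
Frobenius of the unramified extension `L/K` of local fields. -/
theorem frob_eq_of_isArithFrobAt [IsGalois F F'] (h : IsUnramified q K L) (hd : IsDenseEmb q K ι)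
    (hd' : IsDenseEmb q L ι')
    (hcomp : ∀ x : F, ι' (algebraMap F F' x) = algebraMap K L (ι x))
    (φ : L ≃ₐ[K] L) (σ : Gal(F'/F)) (hφ : ∀ x : F', φ (ι' x) = ι' (σ x))
    (hσ : IsArithFrobAt (𝓞 F) σ (primeOf q L ι').asIdeal) :
    φ = Loc.frob q K L := by
  refine frob_eq_of_forall_nrm_lt h hd' φ σ (fun x => hφ x) fun x => ?_
  have h1 := hσ x
  have hN : Nat.card (𝓞 F ⧸ (primeOf q L ι').asIdeal.under (𝓞 F)) = Loc.resCard q K := by
    rw [resCard_eq_card_quot hd, under_primeOf hcomp]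
  rw [hN] at h1
  have h2 := (mem_primeOf q L ι').mp h1
  have h3 : ((MulSemiringAction.toAlgHom (𝓞 F) (𝓞 F') σ x - x ^ Loc.resCard q K : 𝓞 F') : F') =
      σ (x : F') - (x : F') ^ Loc.resCard q K := by
    push_cast
    rfl
  rw [h3, map_sub, map_pow] at h2
  exact h2

end Tower

end Fermat.Agent.CFT.H27
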