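/-
CFT layer C, package C-ARTIN-frob-bridge (helper27), part 2: the instance of `H27_FrobBridge` on
helper54's places `Place L p = MaximalSpectrum (L ⊗[ℚ] ℚ_[p])`, `locField 𝔪`, `toLocField 𝔪`,
and the statement "local Frobenius = global Frobenius" for the Frobenius elements
`S14.H27.frob` / `S14.H27.frobP` of the global Artin map.
-/
import Mathlib
import Fermat.Agent.CFT.H27_FrobBridge
import Fermat.Agent.CFT.H54_Places
import Fermat.Agent.S14.H27_Artin

set_option autoImplicit false
set_option linter.unusedSectionVars false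
set_option linter.unusedVariables false
set_option linter.style.haveILetI false

noncomputable section

namespace Fermat.Agent.CFT.H27

open NumberField IsDedekindDomain TensorProduct
open Fermat.Agent.CFT Fermat.Agent.CFT.Loc Fermat.Agent.CFT.H54

section Places

variable {L : Type} [Field L] [NumberField L] {p : Nat.Primes}

/-- `L` is dense in each of its completions `locField 𝔪`. -/
theorem isDenseEmb_toLocField (𝔪 : Place L p) : IsDenseEmb p (locField 𝔪) (toLocField 𝔪) := by
  intro y ε hε
  obtain ⟨a, rfl⟩ := locMk_surjective 𝔪 y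
  obtain ⟨x, hx⟩ := exists_locNorm_sub_lt {𝔪} a hε
  refine ⟨x, ?_⟩
  have h := hx 𝔪 (Finset.mem_singleton_self 𝔪)
  rw [locNorm_def, map_sub] at h
  exact h

theorem absOf_toLocField (𝔪 : Place L p) : absOf p (locField 𝔪) (toLocField 𝔪) = absAt 𝔪 := by
  ext x
  rfl

theorem primeOf_toLocField (𝔪 : Place L p) : primeOf p (locField 𝔪) (toLocField 𝔪) = primeAt 𝔪 := by
  apply HeightOneSpectrum.ext
  ext x
  rfl

/-- **The residue field of the completion at `𝔪` has `N(primeAt 𝔪)` elements.** -/
theorem resCard_locField (𝔪 : Place L p) :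
    Loc.resCard p (locField 𝔪) = Ideal.absNorm (primeAt 𝔪).asIdeal := by
  rw [resCard_eq_absNorm (isDenseEmb_toLocField 𝔪), primeOf_toLocField]

/-- the residue field of the completion at `𝔪` is `𝓞 L ⧸ primeAt 𝔪` -/
def residueEquivLocField (𝔪 : Place L p) :
    (𝓞 L ⧸ (primeAt 𝔪).asIdeal) ≃+* IsLocalRing.ResidueField (O p (locField 𝔪)) :=
  (Ideal.quotEquivOfEq (by rw [primeOf_toLocField])).trans
    (residueEquiv (isDenseEmb_toLocField 𝔪))

/-- integral elements of the completion are congruent to algebraic integers -/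
theorem exists_integer_locField (𝔪 : Place L p) (y : locField 𝔪)
    (hy : nrm p (locField 𝔪) y ≤ 1) :
    ∃ x : 𝓞 L, nrm p (locField 𝔪) (y - toLocField 𝔪 (x : L)) < 1 :=
  exists_integer_nrm_sub_lt_one (isDenseEmb_toLocField 𝔪) y hy

end Places

/-! ### Global Frobenius elements -/

section Global

variable (q : ℕ) [Fact q.Prime]
variable {F F' : Type*} [Field F] [NumberField F] [Field F'] [NumberField F'] [Algebra F F']
  [IsGalois F F']
variable {K : Type} [Field K] [Algebra ℚ_[q] K] [FiniteDimensional ℚ_[q] K]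
variable {L : Type} [Field L] [Algebra ℚ_[q] L] [FiniteDimensional ℚ_[q] L]
variable [Algebra K L] [IsScalarTower ℚ_[q] K L]
variable {ι : F →+* K} {ι' : F' →+* L}

/-- **Local Frobenius = global Frobenius** for the Frobenius element `S14.H27.frob` at the prime
cut out by `ι'`. -/
theorem frob_eq_of_frob (h : IsUnramified q K L) (hd : IsDenseEmb q K ι)
    (hd' : IsDenseEmb q L ι')
    (hcomp : ∀ x : F, ι' (algebraMap F F' x) = algebraMap K L (ι x))
    (φ : L ≃ₐ[K] L)
    (hφ : ∀ x : F', φ (ι' x) =
      ι' (S14.H27.frob F (primeOf q L ι').asIdeal (primeOf q L ι').ne_bot x)) :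
    φ = Loc.frob q K L :=
  frob_eq_of_isArithFrobAt h hd hd' hcomp φ _ hφ
    (S14.H27.isArithFrobAt_frob (primeOf q L ι').asIdeal (primeOf q L ι').ne_bot)

/-- **Local Frobenius = global Frobenius**, abelian case: the automorphism of `L/K` induced by
the Artin symbol `frobP F' P` of the prime `P` of `F` cut out by `ι` is the Frobenius. -/
theorem frob_eq_of_frobP [IsMulCommutative Gal(F'/F)] (h : IsUnramified q K L)
    (hd : IsDenseEmb q K ι) (hd' : IsDenseEmb q L ι')
    (hcomp : ∀ x : F, ι' (algebraMap F F' x) = algebraMap K L (ι x))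
    (φ : L ≃ₐ[K] L)
    (hφ : ∀ x : F', φ (ι' x) = ι' (S14.H27.frobP F' (primeOf q K ι).asIdeal x)) :
    φ = Loc.frob q K L := by
  haveI := liesOver_primeOf (q := q) (K := K) (L := L) (ι := ι) (ι' := ι') hcomp
  have e := S14.H27.frobP_eq_frob (L := F') (primeOf q K ι).asIdeal (primeOf q K ι).ne_bot
    (primeOf q L ι').asIdeal (primeOf q L ι').ne_bot
  refine frob_eq_of_frob q h hd hd' hcomp φ fun x => ?_
  rw [hφ x, e]

end Global

end Fermat.Agent.CFT.H27
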