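/-
CFT layer C (helper27): the LOCAL NORM CONGRUENCE used in step (R2) of the explicit reciprocity
symbol over `ℚ`.

For a finite Galois extension `L/ℚ`, a rational prime `q` and `w ∈ (L ⊗[ℚ] ℚ_[q])ˣ` in the
congruence subgroup `1 + N Λ_q` (`Λ_q = H79.intLoc L q`, the image of `𝓞 L ⊗ ℤ_[q]`), the norm
`H90.locNorm ℚ L q w ∈ (ℚ ⊗[ℚ] ℚ_[q])ˣ`, read in `ℚ_[q]` through `TensorProduct.lid`, is a unit of
`ℤ_[q]` which is `≡ 1 mod N ℤ_[q]`.
-/
import Mathlib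
import Fermat.Agent.CFT.H79_SecondBridgeMain
import Fermat.Agent.CFT.H79_SecondBridgeInt
import Fermat.Agent.CFT.H90_GaloisNormIdS

set_option autoImplicit false

namespace Fermat.Agent.CFT.H27

open scoped TensorProduct NumberField
open Fermat.Agent.CFT.H42 Fermat.Agent.CFT.H23 Fermat.Agent.CFT.H79 Fermat.Agent.CFT.H90

noncomputable section

/-! ### Generic: products of elements `≡ 1 mod N Λ` -/

theorem exists_prod_eq_one_add {B ι : Type*} [CommRing B] (Λ : Subring B) (N : ℕ) (s : Finset ι)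
    (f : ι → B) (hf : ∀ i ∈ s, ∃ z ∈ Λ, f i = 1 + (N : B) * z) :
    ∃ t ∈ Λ, ∏ i ∈ s, f i = 1 + (N : B) * t := by
  classical
  induction s using Finset.induction_on with
  | empty => exact ⟨0, Λ.zero_mem, by simp⟩
  | insert a s ha ih =>
    obtain ⟨t, ht, hprod⟩ := ih (fun i hi => hf i (Finset.mem_insert_of_mem hi))
    obtain ⟨z, hz, hfa⟩ := hf a (Finset.mem_insert_self a s)
    refine ⟨z + t + N * z * t, ?_, ?_⟩
    · exact Λ.add_mem (Λ.add_mem hz ht) (Λ.mul_mem (Λ.mul_mem (natCast_mem Λ N) hz) ht)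
    · rw [Finset.prod_insert ha, hprod, hfa]; ring

variable (L : Type*) [Field L] [NumberField L] (q : Nat.Primes)

/-! ### `Λ_q` is Galois stable -/

theorem smul_mem_intLoc {K : Type*} [Field K] [CharZero K] [Algebra K L] (σ : L ≃ₐ[K] L)
    {z : Loc L q} (hz : z ∈ intLoc L q) : σ • z ∈ intLoc L q := by
  refine intLoc_induction L q (P := fun z => σ • z ∈ intLoc L q) ?_ ?_ ?_ ?_ z hz
  · show σ • (0 : Loc L q) ∈ intLoc L q
    rw [smul_zero]; exact (intLoc L q).zero_mem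
  · intro b c
    show σ • ((b : L) ⊗ₜ[ℚ] ((c : ℤ_[q]) : ℚ_[q])) ∈ intLoc L q
    rw [smul_tmul_left]
    have h : σ (b : L) = ((σ • b : 𝓞 L) : L) := rfl
    rw [h]
    exact tmul_mem_intLoc L q _ c
  · intro x y hx hy
    show σ • (x + y) ∈ intLoc L q
    rw [smul_add]; exact (intLoc L q).add_mem hx hy
  · intro x hx
    show σ • (-x) ∈ intLoc L q
    rw [smul_neg]; exact (intLoc L q).neg_mem hx

/-! ### `Λ_q ∩ (1 ⊗ ℚ_q) = 1 ⊗ ℤ_q` -/

theorem includeRight_injective_loc :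
    Function.Injective (fun d : ℚ_[q] => ((1 : L) ⊗ₜ[ℚ] d : Loc L q)) := by
  have h := Algebra.TensorProduct.includeRight_injective (R := ℚ) (A := L) (B := ℚ_[q])
    (FaithfulSMul.algebraMap_injective ℚ L)
  exact h

/-- If `1 ⊗ d ∈ Λ_q` then `d ∈ ℤ_q`. -/
theorem norm_le_one_of_one_tmul_mem_intLoc (d : ℚ_[q]) (hd : ((1 : L) ⊗ₜ[ℚ] d : Loc L q) ∈ intLoc L q) :
    ‖d‖ ≤ 1 := by
  obtain ⟨P, hP, hPd⟩ := isIntegralElem_of_mem_intLoc L q _ hd
  -- transport the integrality relation along the injective map `ℚ_q → L ⊗ ℚ_q`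
  let ι : ℚ_[q] →+* Loc L q :=
    (Algebra.TensorProduct.includeRight (R := ℚ) (A := L) (B := ℚ_[q])).toRingHom
  have hι : ∀ d : ℚ_[q], ι d = (1 : L) ⊗ₜ[ℚ] d := fun _ => rfl
  have hcomp : padicIntToLoc L q = ι.comp (PadicInt.Coe.ringHom (p := q)) := rfl
  have h1 : ι (Polynomial.eval₂ (PadicInt.Coe.ringHom (p := q)) d P) = 0 := by
    rw [Polynomial.hom_eval₂, ← hcomp, hι]
    exact hPd
  have h2 : Polynomial.eval₂ (PadicInt.Coe.ringHom (p := q)) d P = 0 := by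
    apply includeRight_injective_loc L q
    show ι _ = ι 0
    rw [h1, map_zero]
  have hint : IsIntegral ℤ_[q] d := ⟨P, hP, h2⟩
  obtain ⟨y, hy⟩ := IsIntegrallyClosed.isIntegral_iff.mp hint
  rw [← hy]
  exact y.2

/-! ### The norm congruence -/

variable [IsGalois ℚ L]

theorem smul_one_add_natCast_mul (σ : L ≃ₐ[ℚ] L) (N : ℕ) (z : Loc L q) :
    σ • (1 + (N : Loc L q) * z) = 1 + (N : Loc L q) * (σ • z) := by
  rw [smul_eq_tensorAut, smul_eq_tensorAut, map_add, map_one, map_mul, map_natCast]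

/-- **Local norm congruence** (ring form): for `w = 1 + N z`, `z ∈ Λ_q`, the norm of `w` down to
`ℚ ⊗ ℚ_q = ℚ_q` is `1 + N c` with `c ∈ ℤ_q`. -/
theorem exists_padicInt_locNormHom_eq (N : ℕ) (w : Loc L q)
    (hw : ∃ z ∈ intLoc L q, w = 1 + (N : Loc L q) * z) :
    ∃ c : ℤ_[q], Algebra.TensorProduct.lid ℚ ℚ_[q] (locNormHom ℚ L q w) =
      1 + (N : ℚ_[q]) * (c : ℚ_[q]) := by
  classical
  obtain ⟨z, hz, rfl⟩ := hw
  set y : Loc ℚ q := locNormHom ℚ L q (1 + (N : Loc L q) * z) with hy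
  set c0 : ℚ_[q] := Algebra.TensorProduct.lid ℚ ℚ_[q] y with hc0
  have hy1 : y = (1 : ℚ) ⊗ₜ[ℚ] c0 := by
    rw [← Algebra.TensorProduct.lid_symm_apply, hc0, AlgEquiv.symm_apply_apply]
  -- the product of conjugates
  have hprod : locMap ℚ L q y = ∏ σ : L ≃ₐ[ℚ] L, σ • (1 + (N : Loc L q) * z) :=
    locMap_locNormHom_eq_prod ℚ L q _
  obtain ⟨t, ht, hpt⟩ := exists_prod_eq_one_add (intLoc L q) N Finset.univ
    (fun σ : L ≃ₐ[ℚ] L => σ • (1 + (N : Loc L q) * z))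
    (fun σ _ => ⟨σ • z, smul_mem_intLoc L q σ hz, smul_one_add_natCast_mul L q σ N z⟩)
  have h1 : ((1 : L) ⊗ₜ[ℚ] c0 : Loc L q) = 1 + (N : Loc L q) * t := by
    rw [← hpt, ← hprod, hy1, locMap_tmul, map_one]
  by_cases hN : N = 0
  · subst hN
    refine ⟨0, ?_⟩
    have h2 : ((1 : L) ⊗ₜ[ℚ] c0 : Loc L q) = (1 : L) ⊗ₜ[ℚ] (1 : ℚ_[q]) := by
      rw [h1]; simp [Algebra.TensorProduct.one_def]
    have := includeRight_injective_loc L q h2
    simp [this]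
  · have hNq : (N : ℚ_[q]) ≠ 0 := by exact_mod_cast hN
    set d : ℚ_[q] := (c0 - 1) / N with hd
    have hNd : (N : ℚ_[q]) * d = c0 - 1 := by rw [hd]; field_simp
    have hunit : IsUnit (N : Loc L q) := by
      have : (N : Loc L q) = algebraMap ℚ (Loc L q) (N : ℚ) := by simp
      rw [this]
      exact (IsUnit.mk0 (N : ℚ) (by exact_mod_cast hN)).map _
    have h3 : (N : Loc L q) * ((1 : L) ⊗ₜ[ℚ] d) = (N : Loc L q) * t := by
      rw [natCast_mul_tmul, hNd, TensorProduct.tmul_sub, h1, ← Algebra.TensorProduct.one_def]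
      ring
    have h4 : ((1 : L) ⊗ₜ[ℚ] d : Loc L q) = t := hunit.mul_left_cancel h3
    have hd1 : ‖d‖ ≤ 1 := norm_le_one_of_one_tmul_mem_intLoc L q d (h4 ▸ ht)
    refine ⟨⟨d, hd1⟩, ?_⟩
    show c0 = 1 + (N : ℚ_[q]) * d
    rw [hNd]; ring

/-- **Local norm congruence** (unit form): the norm of `w ∈ 1 + N Λ_q` is a unit of `ℤ_q`
congruent to `1` modulo `N`. -/
theorem exists_unit_locNorm_eq (N : ℕ) (w : (Loc L q)ˣ)
    (hw : w ∈ congrSubgroup (intLoc L q) N) :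
    ∃ u : ℤ_[q]ˣ, (∃ c : ℤ_[q], (u : ℤ_[q]) = 1 + (N : ℤ_[q]) * c) ∧
      Algebra.TensorProduct.lid ℚ ℚ_[q] ((locNorm ℚ L q w : (Loc ℚ q)ˣ) : Loc ℚ q) =
        ((u : ℤ_[q]) : ℚ_[q]) := by
  obtain ⟨h1, h2⟩ := hw
  obtain ⟨c, hc⟩ := exists_padicInt_locNormHom_eq L q N (w : Loc L q) h1
  obtain ⟨c', hc'⟩ := exists_padicInt_locNormHom_eq L q N ((w⁻¹ : (Loc L q)ˣ) : Loc L q) h2
  have hmul : ((1 + (N : ℤ_[q]) * c) * (1 + (N : ℤ_[q]) * c') : ℤ_[q]) = 1 := by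
    apply Subtype.ext
    have : ((1 + (N : ℚ_[q]) * (c : ℚ_[q])) * (1 + (N : ℚ_[q]) * (c' : ℚ_[q])) : ℚ_[q]) = 1 := by
      rw [← hc, ← hc', ← map_mul, ← map_mul, Units.mul_inv, map_one, map_one]
    simpa using this
  refine ⟨⟨1 + (N : ℤ_[q]) * c, 1 + (N : ℤ_[q]) * c', hmul, by rw [mul_comm]; exact hmul⟩,
    ⟨c, rfl⟩, ?_⟩
  rw [coe_locNorm, hc]
  simp

/-- **Norm congruence for `S`-ideles**: for `w ∈ W_N = ∏_{q ∈ S} (1 + N Λ_q)ˣ` every component of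
the norm `JS.norm S ℚ L w` is a unit of `ℤ_q` congruent to `1` modulo `N`. -/
theorem exists_unit_JS_norm_eq (S : Finset Nat.Primes) (N : ℕ) (w : JS S L)
    (hw : w ∈ congrJS S L N) (q : S) :
    ∃ u : ℤ_[q.1]ˣ, (∃ c : ℤ_[q.1], (u : ℤ_[q.1]) = 1 + (N : ℤ_[q.1]) * c) ∧
      Algebra.TensorProduct.lid ℚ ℚ_[q.1] ((JS.norm S ℚ L w q : (Loc ℚ q.1)ˣ) : Loc ℚ q.1) =
        ((u : ℤ_[q.1]) : ℚ_[q.1]) := by
  rw [JS.norm_apply]
  exact exists_unit_locNorm_eq L q.1 N (w q) ((mem_congrJS_iff S L).mp hw q)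

end

end Fermat.Agent.CFT.H27
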