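/-
CFT layer C (helper27): ABSTRACT step (R2) of the explicit reciprocity symbol over `ℚ`.

Any homomorphism `Θ : IdS S ℚ →* G` which
* kills the principal ideles (`hdiag`, reciprocity (R1)),
* kills the `S`-ideles whose components are units of `ℤ_q` congruent to `1` modulo a fixed `M ≠ 0`
  (`hcongr`, "the symbol has conductor dividing `M`"),
* kills the norms of the divisors of `L` prime to `S` (`hdiv`; automatic when the divisor part of `Θ`
  is the Artin map of `L/ℚ`),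
kills all norms `IdS.norm S ℚ L y` from a finite Galois extension `L/ℚ`.

Proof: weak approximation `JS S L = Lˣ · W_n` (`H79.weakApprox_JS`) and the local norm congruence
(`H27_NormCongr`).
-/
import Mathlib
import Fermat.Agent.CFT.H27_NormCongr
import Fermat.Agent.CFT.H27_ArtinDiv

set_option autoImplicit false

namespace Fermat.Agent.CFT.H27

open scoped TensorProduct NumberField IsMulCommutative
open Fermat.Agent.CFT.H42 Fermat.Agent.CFT.H23 Fermat.Agent.CFT.H79 Fermat.Agent.CFT.H90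

noncomputable section

variable (S : Finset Nat.Primes)

/-- The `S`-ideles of `ℚ` all of whose components are units of `ℤ_q` congruent to `1` modulo `M`
(components read in `ℚ_q` through `TensorProduct.lid`). -/
def IsCongrRat (M : ℕ) (j : JS S ℚ) : Prop :=
  ∀ q : S, ∃ u : ℤ_[q.1]ˣ, (∃ c : ℤ_[q.1], (u : ℤ_[q.1]) = 1 + (M : ℤ_[q.1]) * c) ∧
    Algebra.TensorProduct.lid ℚ ℚ_[q.1] ((j q : (Loc ℚ q.1)ˣ) : Loc ℚ q.1) =
      ((u : ℤ_[q.1]) : ℚ_[q.1])

variable (L : Type*) [Field L] [NumberField L] [IsGalois ℚ L]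

/-- The norm of a congruence idele of `L` is a congruence idele of `ℚ`. -/
theorem isCongrRat_JS_norm (M : ℕ) (w : JS S L) (hw : w ∈ congrJS S L M) :
    IsCongrRat S M (JS.norm S ℚ L w) :=
  fun q => exists_unit_JS_norm_eq L S M w hw q

theorem prod_primes_ne_zero' : (∏ r ∈ S, (r : ℕ)) ≠ 0 :=
  Finset.prod_ne_zero_iff.mpr fun r _ => r.2.ne_zero

/-- **Abstract (R2).** -/
theorem theta_norm_eq_one {G : Type*} [Group G] (Θ : IdS S ℚ →* G) (M : ℕ) (hM : M ≠ 0)
    (hdiag : ∀ a : ℚˣ, Θ (diag S ℚ a) = 1)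
    (hcongr : ∀ j : JS S ℚ, IsCongrRat S M j → Θ (j, 1) = 1)
    (hdiv : ∀ D : DivS S L, Θ ((1 : JS S ℚ), Multiplicative.ofAdd (normDiv S ℚ D)) = 1)
    (y : IdS S L) : Θ (IdS.norm S ℚ L y) = 1 := by
  classical
  set n : ℕ := M * ∏ r ∈ S, (r : ℕ) with hn
  have hn0 : n ≠ 0 := mul_ne_zero hM (prod_primes_ne_zero' S)
  have hqn : ∀ q ∈ S, ((q : Nat.Primes) : ℕ) ∣ n := fun q hq =>
    Dvd.dvd.mul_left (Finset.dvd_prod_of_mem (fun r : Nat.Primes => (r : ℕ)) hq) M
  obtain ⟨a, w, hw, hyw⟩ := weakApprox_JS S L n hn0 hqn 1 le_rfl y.1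
  rw [pow_one] at hw
  have hwM : w ∈ congrJS S L M := congrJS_antitone S L (Dvd.intro _ rfl) hw
  -- decompose `y`
  set D' : Multiplicative (DivS S L) := y.2 / divS S L a with hD'
  have hy : y = diag S L a * ((w, 1) * ((1 : JS S L), D')) := by
    refine Prod.ext ?_ ?_
    · show y.1 = diagJ S L a * (w * 1)
      rw [mul_one, hyw]
    · show y.2 = divS S L a * (1 * D')
      rw [one_mul, hD', mul_div_cancel]
  have h1 : Θ (IdS.norm S ℚ L (diag S L a)) = 1 := by
    rw [IdS.norm_diag]; exact hdiag _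
  have h2 : Θ (IdS.norm S ℚ L (w, 1)) = 1 := by
    have : IdS.norm S ℚ L (w, 1) = (JS.norm S ℚ L w, 1) := by
      refine Prod.ext rfl ?_
      show Multiplicative.ofAdd (normDiv S ℚ (Multiplicative.toAdd (1 : Multiplicative (DivS S L)))) = 1
      rw [toAdd_one, map_zero]; rfl
    rw [this]
    exact hcongr _ (isCongrRat_JS_norm S L M w hwM)
  have h3 : Θ (IdS.norm S ℚ L ((1 : JS S L), D')) = 1 := by
    have : IdS.norm S ℚ L ((1 : JS S L), D') =
        ((1 : JS S ℚ), Multiplicative.ofAdd (normDiv S ℚ (Multiplicative.toAdd D'))) := by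
      refine Prod.ext ?_ rfl
      show JS.norm S ℚ L 1 = 1
      exact map_one _
    rw [this]
    exact hdiv _
  rw [hy, map_mul, map_mul, map_mul, map_mul, h1, h2, h3, one_mul, one_mul]

/-- **Abstract (R2), Artin form**: if the divisor part of `Θ` is the Artin map of `L/ℚ`. -/
theorem theta_norm_eq_one_of_artinDiv [IsMulCommutative Gal(L/ℚ)] (Θ : IdS S ℚ →* Gal(L/ℚ))
    (M : ℕ) (hM : M ≠ 0) (hL : IsUnramOutside S ℚ L)
    (hdiag : ∀ a : ℚˣ, Θ (diag S ℚ a) = 1)
    (hcongr : ∀ j : JS S ℚ, IsCongrRat S M j → Θ (j, 1) = 1)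
    (hΘdiv : ∀ D : DivS S ℚ, Θ ((1 : JS S ℚ), Multiplicative.ofAdd D) =
      artinDiv S L (Multiplicative.ofAdd D))
    (y : IdS S L) : Θ (IdS.norm S ℚ L y) = 1 :=
  theta_norm_eq_one S L Θ M hM hdiag hcongr
    (fun D => by rw [hΘdiv, artinDiv_normDiv hL]) y

/-- **Abstract (R2) on classes**: a hom on `CS S ℚ` whose pull-back to `IdS S ℚ` satisfies the
hypotheses kills `CS.norm S ℚ L`. -/
theorem theta_CS_norm_eq_one {G : Type*} [Group G] (Θ : CS S ℚ →* G) (M : ℕ) (hM : M ≠ 0)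
    (hcongr : ∀ j : JS S ℚ, IsCongrRat S M j → Θ (toCS S ℚ (j, 1)) = 1)
    (hdiv : ∀ D : DivS S L,
      Θ (toCS S ℚ ((1 : JS S ℚ), Multiplicative.ofAdd (normDiv S ℚ D))) = 1)
    (c : CS S L) : Θ (CS.norm S ℚ L c) = 1 := by
  induction c using QuotientGroup.induction_on with
  | H y =>
    show Θ (CS.norm S ℚ L (toCS S L y)) = 1
    rw [CS.norm_toCS]
    exact theta_norm_eq_one S L (Θ.comp (toCS S ℚ)) M hM
      (fun a => by
        show Θ (toCS S ℚ (diag S ℚ a)) = 1
        have h : toCS S ℚ (diag S ℚ a) = 1 := (QuotientGroup.eq_one_iff _).mpr ⟨a, rfl⟩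
        rw [h, map_one])
      hcongr hdiv y

end

end Fermat.Agent.CFT.H27
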