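/-
CFT layer C, package C-X5-step2-unram-semilocal-norm (helper27).

(1) vocabulary-neutral: for an unramified extension `L/K` of local fields (layer B) which is the
completion of `F'/F` along dense embeddings, `[L : K]` is the inertia degree of the prime of `F'`.
(2) for `L/ℚ` finite Galois, `q` unramified in `L`, `a ∈ ℚ_qˣ` whose valuation is divisible by
the order of the Frobenius at `q`: `1 ⊗ a` is a Galois norm from `(L ⊗[ℚ] ℚ_q)ˣ`
(the semilocal form of "`a` is a local norm from the unramified `L_w/ℚ_q`").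
-/
import Mathlib
import Fermat.Agent.CFT.H27_FrobBridge
import Fermat.Agent.CFT.H25_LocUnrMore
import Fermat.Agent.CFT.H39_UnrUnits
import Fermat.Agent.CFT.H42_TensorField
import Fermat.Agent.S14.H27_Artin

set_option autoImplicit false
set_option linter.unusedSectionVars false
set_option linter.unusedVariables false
set_option linter.style.haveILetI false

noncomputable section

namespace Fermat.Agent.CFT.H27

open NumberField IsDedekindDomain TensorProduct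
open scoped Pointwise
open Fermat.Agent.CFT Fermat.Agent.CFT.Loc

/-! ### Local degree of an unramified completion -/

section Degree

variable (q : ℕ) [Fact q.Prime]
variable {F F' : Type*} [Field F] [NumberField F] [Field F'] [NumberField F'] [Algebra F F']
variable {K : Type} [Field K] [Algebra ℚ_[q] K] [FiniteDimensional ℚ_[q] K]
variable {L : Type} [Field L] [Algebra ℚ_[q] L] [FiniteDimensional ℚ_[q] L]
variable [Algebra K L] [IsScalarTower ℚ_[q] K L]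
variable {ι : F →+* K} {ι' : F' →+* L}

/-- `N(P') = N(P) ^ f(P'|P)` -/
theorem card_quot_eq_pow_inertiaDeg (P : Ideal (𝓞 F)) (P' : Ideal (𝓞 F')) [P.IsMaximal]
    [P'.IsMaximal] [P'.LiesOver P] :
    Nat.card (𝓞 F' ⧸ P') = Nat.card (𝓞 F ⧸ P) ^ P'.inertiaDeg (𝓞 F) := by
  letI := Ideal.Quotient.field P
  letI := Ideal.Quotient.field P'
  rw [Ideal.inertiaDeg_eq_of_isMaximal P P']
  exact Module.natCard_eq_pow_finrank

/-- **The local degree of an unramified completion is the inertia degree.** -/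
theorem finrank_eq_inertiaDeg_of_isUnramified (h : IsUnramified q K L) (hd : IsDenseEmb q K ι)
    (hd' : IsDenseEmb q L ι')
    (hcomp : ∀ x : F, ι' (algebraMap F F' x) = algebraMap K L (ι x)) :
    Module.finrank K L = (primeOf q L ι').asIdeal.inertiaDeg (𝓞 F) := by
  have h1 := H25.resCard_eq_pow_finrank_of_isUnramified q K L h
  haveI := liesOver_primeOf (q := q) (K := K) (L := L) (ι := ι) (ι' := ι') hcomp
  haveI : (primeOf q K ι).asIdeal.IsMaximal := (primeOf q K ι).isMaximal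
  haveI : (primeOf q L ι').asIdeal.IsMaximal := (primeOf q L ι').isMaximal
  have h2 := card_quot_eq_pow_inertiaDeg (primeOf q K ι).asIdeal (primeOf q L ι').asIdeal
  rw [← resCard_eq_card_quot hd, ← resCard_eq_card_quot hd', h1] at h2
  exact Nat.pow_right_injective (H25.two_le_resCard_loc q K) h2

end Degree

/-! ### The prime of `𝓞 ℚ` over `q` -/

section RatPrime

variable (q : ℕ) [hq : Fact q.Prime]

theorem isPrime_span_natCast_rat : (Ideal.span {((q : ℕ) : 𝓞 ℚ)}).IsPrime := by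
  have h1 : Prime ((q : ℤ)) := Nat.prime_iff_prime_int.mp hq.out
  have h2 : Prime ((q : 𝓞 ℚ)) := by
    have := (MulEquiv.prime_iff (Rat.ringOfIntegersEquiv.symm.toMulEquiv) (p := (q : ℤ))).mpr h1
    rwa [RingEquiv.toMulEquiv_eq_coe, RingEquiv.coe_toMulEquiv, map_natCast] at this
  exact (Ideal.span_singleton_prime h2.ne_zero).mpr h2

theorem span_natCast_rat_ne_bot : Ideal.span {((q : ℕ) : 𝓞 ℚ)} ≠ ⊥ := by
  rw [Ne, Ideal.span_singleton_eq_bot]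
  exact_mod_cast hq.out.ne_zero

/-- `ℚ` is dense in `ℚ_q` -/
theorem isDenseEmb_rat : IsDenseEmb q ℚ_[q] (algebraMap ℚ ℚ_[q]) := by
  intro y ε hε
  obtain ⟨r, hr⟩ := Padic.rat_dense q y hε
  refine ⟨r, ?_⟩
  have h1 := nrm_algebraMap q ℚ_[q] (y - (r : ℚ_[q]))
  rw [Algebra.algebraMap_self_apply] at h1
  rw [eq_ratCast, h1]
  exact hr

/-- the prime of `𝓞 ℚ` cut out by `ℚ → ℚ_q` is `(q)` -/
theorem primeOf_rat :
    (primeOf q ℚ_[q] (algebraMap ℚ ℚ_[q])).asIdeal = Ideal.span {((q : ℕ) : 𝓞 ℚ)} := by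
  haveI := isPrime_span_natCast_rat q
  have hmax : (Ideal.span {((q : ℕ) : 𝓞 ℚ)}).IsMaximal :=
    Ideal.IsPrime.isMaximal inferInstance (span_natCast_rat_ne_bot q)
  refine (hmax.eq_of_le (primeOf q ℚ_[q] (algebraMap ℚ ℚ_[q])).isPrime.ne_top ?_).symm
  rw [Ideal.span_singleton_le_iff_mem]
  exact natCast_q_mem_primeOf q ℚ_[q] _

end RatPrime

/-! ### The semilocal algebra `L ⊗[ℚ] ℚ_q` -/

section Semilocal

variable (q : ℕ) [hq : Fact q.Prime] {L : Type} [Field L] [NumberField L] [IsGalois ℚ L]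

attribute [local instance] Algebra.TensorProduct.rightAlgebra
attribute [local instance] Ideal.Quotient.field

variable (m : Ideal (L ⊗[ℚ] ℚ_[q])) [hm : m.IsMaximal]

theorem residue_finiteDimensional : FiniteDimensional ℚ_[q] ((L ⊗[ℚ] ℚ_[q]) ⧸ m) :=
  H42.residue_finite ℚ L ℚ_[q] m

attribute [local instance] residue_finiteDimensional

/-- compatibility of the two embeddings of `ℚ` -/
theorem residue_hcomp (r : ℚ) :
    algebraMap L ((L ⊗[ℚ] ℚ_[q]) ⧸ m) (algebraMap ℚ L r) =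
      algebraMap ℚ_[q] ((L ⊗[ℚ] ℚ_[q]) ⧸ m) (algebraMap ℚ ℚ_[q] r) :=
  RingHom.congr_fun (Subsingleton.elim
    ((algebraMap L ((L ⊗[ℚ] ℚ_[q]) ⧸ m)).comp (algebraMap ℚ L))
    ((algebraMap ℚ_[q] ((L ⊗[ℚ] ℚ_[q]) ⧸ m)).comp (algebraMap ℚ ℚ_[q]))) r

theorem residue_mk_tmul (x : L) (c : ℚ_[q]) :
    (Ideal.Quotient.mk m (x ⊗ₜ[ℚ] c) : (L ⊗[ℚ] ℚ_[q]) ⧸ m) =
      algebraMap L ((L ⊗[ℚ] ℚ_[q]) ⧸ m) x * algebraMap ℚ_[q] ((L ⊗[ℚ] ℚ_[q]) ⧸ m) c := by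
  have h1 : algebraMap L ((L ⊗[ℚ] ℚ_[q]) ⧸ m) x = Ideal.Quotient.mk m (x ⊗ₜ[ℚ] (1 : ℚ_[q])) := rfl
  have h2 : algebraMap ℚ_[q] ((L ⊗[ℚ] ℚ_[q]) ⧸ m) c =
      Ideal.Quotient.mk m ((1 : L) ⊗ₜ[ℚ] c) := rfl
  rw [h1, h2, ← map_mul, Algebra.TensorProduct.tmul_mul_tmul, mul_one, one_mul]

/-- `L` is dense in the residue field of `L ⊗ ℚ_q` at `m`. -/
theorem isDenseEmb_residue :
    IsDenseEmb q ((L ⊗[ℚ] ℚ_[q]) ⧸ m) (algebraMap L ((L ⊗[ℚ] ℚ_[q]) ⧸ m)) := by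
  intro y ε hε
  obtain ⟨e, rfl⟩ := Ideal.Quotient.mk_surjective y
  induction e using TensorProduct.induction_on generalizing ε with
  | zero =>
    refine ⟨0, ?_⟩
    rw [map_zero, map_zero, sub_zero, nrm_zero]
    exact hε
  | tmul x c =>
    set M : ℝ := 1 + nrm q _ (algebraMap L ((L ⊗[ℚ] ℚ_[q]) ⧸ m) x) with hM
    have hMpos : 0 < M := by
      have := nrm_nonneg q (algebraMap L ((L ⊗[ℚ] ℚ_[q]) ⧸ m) x)
      linarith
    obtain ⟨r, hr⟩ := Padic.rat_dense q c (div_pos hε hMpos)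
    refine ⟨algebraMap ℚ L r * x, ?_⟩
    have e1 : Ideal.Quotient.mk m (x ⊗ₜ[ℚ] c) - algebraMap L ((L ⊗[ℚ] ℚ_[q]) ⧸ m)
        (algebraMap ℚ L r * x) = algebraMap L ((L ⊗[ℚ] ℚ_[q]) ⧸ m) x *
          algebraMap ℚ_[q] ((L ⊗[ℚ] ℚ_[q]) ⧸ m) (c - (r : ℚ_[q])) := by
      rw [residue_mk_tmul, map_mul, residue_hcomp, eq_ratCast, map_sub]
      ring
    rw [e1, nrm_mul, nrm_algebraMap]
    have h1 : nrm q _ (algebraMap L ((L ⊗[ℚ] ℚ_[q]) ⧸ m) x) ≤ M := by linarith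
    calc nrm q _ (algebraMap L ((L ⊗[ℚ] ℚ_[q]) ⧸ m) x) * ‖c - (r : ℚ_[q])‖
        ≤ M * ‖c - (r : ℚ_[q])‖ := mul_le_mul_of_nonneg_right h1 (norm_nonneg _)
      _ < M * (ε / M) := mul_lt_mul_of_pos_left hr hMpos
      _ = ε := by field_simp
  | add a b ha hb =>
    obtain ⟨xa, hxa⟩ := ha ε hε
    obtain ⟨xb, hxb⟩ := hb ε hε
    refine ⟨xa + xb, ?_⟩
    have e1 : Ideal.Quotient.mk m (a + b) - algebraMap L ((L ⊗[ℚ] ℚ_[q]) ⧸ m) (xa + xb) =
        (Ideal.Quotient.mk m a - algebraMap L ((L ⊗[ℚ] ℚ_[q]) ⧸ m) xa) +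
          (Ideal.Quotient.mk m b - algebraMap L ((L ⊗[ℚ] ℚ_[q]) ⧸ m) xb) := by
      rw [map_add, map_add]
      ring
    rw [e1]
    exact (nrm_add_le_max q _ _).trans_lt (max_lt hxa hxb)

end Semilocal

/-! ### Norms from the semilocal algebra -/

section Main

variable (q : ℕ) [hq : Fact q.Prime] {L : Type} [Field L] [NumberField L] [IsGalois ℚ L]

attribute [local instance] Algebra.TensorProduct.rightAlgebra
attribute [local instance] Ideal.Quotient.field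
attribute [local instance] residue_finiteDimensional

variable (m : Ideal (L ⊗[ℚ] ℚ_[q])) [hm : m.IsMaximal]

/-- the prime of `𝓞 L` cut out by the maximal ideal `m` of `L ⊗[ℚ] ℚ_q` -/
abbrev primeOfMax : HeightOneSpectrum (𝓞 L) :=
  primeOf q ((L ⊗[ℚ] ℚ_[q]) ⧸ m) (algebraMap L ((L ⊗[ℚ] ℚ_[q]) ⧸ m))

theorem natCast_mem_primeOfMax : ((q : ℕ) : 𝓞 L) ∈ (primeOfMax q m).asIdeal :=
  natCast_q_mem_primeOf q _ _

/-- the residue field of `L ⊗ ℚ_q` at `m` is unramified over `ℚ_q` if the prime of `L` is -/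
theorem isUnramified_residue
    (hur : Algebra.IsUnramifiedAt (𝓞 ℚ) (primeOfMax q m).asIdeal) :
    IsUnramified q ℚ_[q] ((L ⊗[ℚ] ℚ_[q]) ⧸ m) :=
  isUnramified_of_isUnramifiedAt (ι := algebraMap ℚ ℚ_[q])
    (ι' := algebraMap L ((L ⊗[ℚ] ℚ_[q]) ⧸ m)) (residue_hcomp q m) (isDenseEmb_residue q m) hur

theorem finrank_residue (hur : Algebra.IsUnramifiedAt (𝓞 ℚ) (primeOfMax q m).asIdeal) :
    Module.finrank ℚ_[q] ((L ⊗[ℚ] ℚ_[q]) ⧸ m) = (primeOfMax q m).asIdeal.inertiaDeg (𝓞 ℚ) :=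
  finrank_eq_inertiaDeg_of_isUnramified q (isUnramified_residue q m hur) (isDenseEmb_rat q)
    (isDenseEmb_residue q m) (residue_hcomp q m)

theorem liesOver_primeOfMax :
    (primeOfMax q m).asIdeal.LiesOver (Ideal.span {((q : ℕ) : 𝓞 ℚ)}) := by
  rw [← primeOf_rat q]
  exact liesOver_primeOf (residue_hcomp q m)

/-- **local degree = order of the global Frobenius** -/
theorem finrank_residue_eq_orderOf [IsMulCommutative Gal(L/ℚ)]
    (hur : Algebra.IsUnramifiedAt (𝓞 ℚ) (primeOfMax q m).asIdeal) :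
    Module.finrank ℚ_[q] ((L ⊗[ℚ] ℚ_[q]) ⧸ m) =
      orderOf (S14.H27.frobP L (Ideal.span {((q : ℕ) : 𝓞 ℚ)})) := by
  haveI := isPrime_span_natCast_rat q
  haveI := liesOver_primeOfMax q m
  rw [finrank_residue q m hur, ← S14.H27.orderOf_frob _ (primeOfMax q m).ne_bot hur,
    S14.H27.frobP_eq_frob (L := L) _ (span_natCast_rat_ne_bot q) (primeOfMax q m).asIdeal
      (primeOfMax q m).ne_bot]

/-- a norm from the residue field at `m` is a Galois norm from the semilocal algebra -/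
theorem exists_galNorm_of_mem_normSubgroup (a : ℚ_[q]ˣ)
    (ha : a ∈ Loc.normSubgroup ℚ_[q] ((L ⊗[ℚ] ℚ_[q]) ⧸ m)) :
    ∃ v : (L ⊗[ℚ] ℚ_[q])ˣ,
      ∏ σ : L ≃ₐ[ℚ] L, σ • (v : L ⊗[ℚ] ℚ_[q]) = (1 : L) ⊗ₜ[ℚ] (a : ℚ_[q]) := by
  classical
  letI : Fintype (MulAction.stabilizer (L ≃ₐ[ℚ] L) m) := Fintype.ofFinite _
  rw [H42.tensorField_isNorm_iff ℚ L ℚ_[q] m a]
  obtain ⟨y, hy⟩ := (Loc.mem_normSubgroup_iff _ _ a).mp ha
  refine ⟨y, ?_⟩
  haveI := H42.residue_isGalois ℚ L ℚ_[q] m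
  rw [← hy, Algebra.norm_eq_prod_automorphisms]
  exact Fintype.prod_equiv (H42.residueGalEquiv ℚ L ℚ_[q] m).toEquiv _ _ (fun d => rfl)

end Main

section Final

variable (q : ℕ) [hq : Fact q.Prime] {L : Type} [Field L] [NumberField L] [IsGalois ℚ L]

attribute [local instance] Algebra.TensorProduct.rightAlgebra
attribute [local instance] Ideal.Quotient.field
attribute [local instance] residue_finiteDimensional

theorem nrm_padic (x : ℚ_[q]) : nrm q ℚ_[q] x = ‖x‖ := by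
  have h1 := nrm_algebraMap q ℚ_[q] x
  rwa [Algebra.algebraMap_self_apply] at h1

/-- **Unramified semilocal norms.**  `L/ℚ` finite abelian, unramified at `q`, `f` the order of the
Frobenius at `q`; if `|a|_q = q ^ (-(f k))` then `1 ⊗ a` is a Galois norm from `(L ⊗[ℚ] ℚ_q)ˣ`. -/
theorem exists_galNorm_of_unramified [IsMulCommutative Gal(L/ℚ)]
    (hur : ∀ (𝔓 : Ideal (𝓞 L)) [𝔓.IsPrime], ((q : ℕ) : 𝓞 L) ∈ 𝔓 →
      Algebra.IsUnramifiedAt (𝓞 ℚ) 𝔓)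
    (a : ℚ_[q]ˣ) (k : ℤ)
    (ha : ‖(a : ℚ_[q])‖ = (q : ℝ) ^
      (-((orderOf (S14.H27.frobP L (Ideal.span {((q : ℕ) : 𝓞 ℚ)})) : ℤ) * k))) :
    ∃ v : (L ⊗[ℚ] ℚ_[q])ˣ,
      ∏ σ : L ≃ₐ[ℚ] L, σ • (v : L ⊗[ℚ] ℚ_[q]) = (1 : L) ⊗ₜ[ℚ] (a : ℚ_[q]) := by
  obtain ⟨m, hm⟩ := Ideal.exists_maximal (L ⊗[ℚ] ℚ_[q])
  have hur' := hur (primeOfMax q m).asIdeal (natCast_mem_primeOfMax q m)
  have h := isUnramified_residue q m hur'
  apply exists_galNorm_of_mem_normSubgroup q m a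
  rw [H39.mem_normSubgroup_iff_of_isUnramified q ℚ_[q] _ h a]
  have hq0 : ((q : ℕ) : ℚ_[q]) ≠ 0 := Nat.cast_ne_zero.mpr hq.out.ne_zero
  refine ⟨(Units.mk0 ((q : ℕ) : ℚ_[q]) hq0) ^ k, ?_⟩
  rw [finrank_residue_eq_orderOf q m hur', nrm_padic, nrm_padic, ha, Units.val_zpow_eq_zpow_val,
    Units.val_mk0, norm_zpow, Padic.norm_p, inv_zpow', ← zpow_natCast, ← zpow_mul]
  congr 1
  ring

/-- valuation form of `exists_galNorm_of_unramified` -/
theorem exists_galNorm_of_dvd_valuation [IsMulCommutative Gal(L/ℚ)]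
    (hur : ∀ (𝔓 : Ideal (𝓞 L)) [𝔓.IsPrime], ((q : ℕ) : 𝓞 L) ∈ 𝔓 →
      Algebra.IsUnramifiedAt (𝓞 ℚ) 𝔓)
    (a : ℚ_[q]ˣ)
    (ha : (orderOf (S14.H27.frobP L (Ideal.span {((q : ℕ) : 𝓞 ℚ)})) : ℤ) ∣
      (a : ℚ_[q]).valuation) :
    ∃ v : (L ⊗[ℚ] ℚ_[q])ˣ,
      ∏ σ : L ≃ₐ[ℚ] L, σ • (v : L ⊗[ℚ] ℚ_[q]) = (1 : L) ⊗ₜ[ℚ] (a : ℚ_[q]) := by
  obtain ⟨k, hk⟩ := ha
  refine exists_galNorm_of_unramified q hur a k ?_
  rw [Padic.norm_eq_zpow_neg_valuation a.ne_zero, hk]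

/-- **Converse**: a Galois norm from `(L ⊗[ℚ] ℚ_q)ˣ` has valuation divisible by the order of
Frobenius. -/
theorem dvd_valuation_of_exists_galNorm [IsMulCommutative Gal(L/ℚ)]
    (hur : ∀ (𝔓 : Ideal (𝓞 L)) [𝔓.IsPrime], ((q : ℕ) : 𝓞 L) ∈ 𝔓 →
      Algebra.IsUnramifiedAt (𝓞 ℚ) 𝔓)
    (a : ℚ_[q]ˣ)
    (hv : ∃ v : (L ⊗[ℚ] ℚ_[q])ˣ,
      ∏ σ : L ≃ₐ[ℚ] L, σ • (v : L ⊗[ℚ] ℚ_[q]) = (1 : L) ⊗ₜ[ℚ] (a : ℚ_[q])) :
    (orderOf (S14.H27.frobP L (Ideal.span {((q : ℕ) : 𝓞 ℚ)})) : ℤ) ∣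
      (a : ℚ_[q]).valuation := by
  classical
  obtain ⟨m, hm⟩ := Ideal.exists_maximal (L ⊗[ℚ] ℚ_[q])
  have hur' := hur (primeOfMax q m).asIdeal (natCast_mem_primeOfMax q m)
  have h := isUnramified_residue q m hur'
  letI : Fintype (MulAction.stabilizer (L ≃ₐ[ℚ] L) m) := Fintype.ofFinite _
  rw [H42.tensorField_isNorm_iff ℚ L ℚ_[q] m a] at hv
  obtain ⟨w, hw⟩ := hv
  haveI := H42.residue_isGalois ℚ L ℚ_[q] m
  have hmem : a ∈ Loc.normSubgroup ℚ_[q] ((L ⊗[ℚ] ℚ_[q]) ⧸ m) := by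
    rw [Loc.mem_normSubgroup_iff]
    refine ⟨w, ?_⟩
    apply (algebraMap ℚ_[q] ((L ⊗[ℚ] ℚ_[q]) ⧸ m)).injective
    rw [Algebra.norm_eq_prod_automorphisms, ← hw]
    exact (Fintype.prod_equiv (H42.residueGalEquiv ℚ L ℚ_[q] m).toEquiv _ _ (fun d => rfl)).symm
  rw [H39.mem_normSubgroup_iff_of_isUnramified q ℚ_[q] _ h a] at hmem
  obtain ⟨y, hy⟩ := hmem
  rw [finrank_residue_eq_orderOf q m hur', nrm_padic, nrm_padic,
    Padic.norm_eq_zpow_neg_valuation a.ne_zero, Padic.norm_eq_zpow_neg_valuation y.ne_zero,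
    ← zpow_natCast, ← zpow_mul] at hy
  have hq1 : (1 : ℝ) < (q : ℝ) := by exact_mod_cast hq.out.one_lt
  have h2 := zpow_right_injective₀ (by linarith) hq1.ne' hy
  refine ⟨(y : ℚ_[q]).valuation, ?_⟩
  have h3 : -(a : ℚ_[q]).valuation = -(y : ℚ_[q]).valuation *
      (orderOf (S14.H27.frobP L (Ideal.span {((q : ℕ) : 𝓞 ℚ)})) : ℤ) := h2
  linarith

end Final

end Fermat.Agent.CFT.H27
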