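import Mathlib

/-!
# CFT layer B, package B-EXT (helper92)

Ring-level statements: for a complete discrete valuation ring `A` with finite residue field,
fraction field `K` of characteristic zero, a finite extension `L/K` and `B` the integral closure
of `A` in `L`:
`B` is local, a discrete valuation ring, complete, has finite residue field, and `e * f = [L:K]`.
-/

set_option autoImplicit false

open IsLocalRing

namespace Fermat.Agent.CFT.H92

section General

/-- Coordinates (w.r.t. a basis) of elements of `J • ⊤` lie in `J`. -/
theorem basis_repr_mem_of_mem_smul_top {R M ι : Type*} [CommRing R] [AddCommGroup M] [Module R M]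
    (b : Module.Basis ι R M) (J : Ideal R) {x : M} (hx : x ∈ (J • ⊤ : Submodule R M)) (i : ι) :
    b.repr x i ∈ J := by
  induction hx using Submodule.smul_induction_on' with
  | smul r hr y _ =>
    simp only [map_smul, Finsupp.smul_apply, smul_eq_mul]
    exact J.mul_mem_right _ hr
  | add y1 _ y2 _ h1 h2 =>
    simp only [map_add, Finsupp.add_apply]
    exact J.add_mem h1 h2

/-- A finite free module over an `I`-adically complete ring is `I`-adically complete. -/
theorem isAdicComplete_of_basis {R M ι : Type*} [CommRing R] [AddCommGroup M] [Module R M]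
    [Finite ι] (I : Ideal R) [IsAdicComplete I R] (b : Module.Basis ι R M) :
    IsAdicComplete I M := by
  cases nonempty_fintype ι
  have hR : ∀ n : ℕ, (I ^ n • ⊤ : Submodule R R) = I ^ n := fun n => by
    rw [smul_eq_mul, Ideal.mul_top]
  refine { haus' := ?_, prec' := ?_ }
  · intro x hx
    apply b.repr.injective
    ext i
    rw [map_zero, Finsupp.zero_apply]
    apply IsHausdorff.haus (inferInstance : IsHausdorff I R)
    intro n
    rw [SModEq.zero, hR]
    exact basis_repr_mem_of_mem_smul_top b _ (SModEq.zero.mp (hx n)) i
  · intro f hf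
    have hc : ∀ i : ι, ∃ L : R, ∀ n, b.repr (f n) i ≡ L [SMOD (I ^ n • ⊤ : Submodule R R)] := by
      intro i
      apply IsPrecomplete.prec (inferInstance : IsPrecomplete I R)
      intro m n hmn
      rw [SModEq.sub_mem, hR]
      have := basis_repr_mem_of_mem_smul_top b _ (SModEq.sub_mem.mp (hf hmn)) i
      simpa using this
    choose L hL using hc
    refine ⟨∑ i, L i • b i, fun n => ?_⟩
    rw [SModEq.sub_mem]
    have : f n - ∑ i, L i • b i = ∑ i, (b.repr (f n) i - L i) • b i := by
      conv_lhs => rw [← b.sum_repr (f n)]
      rw [← Finset.sum_sub_distrib]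
      exact Finset.sum_congr rfl fun i _ => (sub_smul _ _ _).symm
    rw [this]
    refine Submodule.sum_mem _ fun i _ => Submodule.smul_mem_smul ?_ Submodule.mem_top
    have := hL i n
    rwa [SModEq.sub_mem, hR] at this

/-- If `J ^ e ≤ I ≤ J`, then `I`-adic completeness implies `J`-adic completeness. -/
theorem isAdicComplete_of_le_of_pow_le {R : Type*} [CommRing R] (I J : Ideal R) (hIJ : I ≤ J)
    (e : ℕ) (hJI : J ^ e ≤ I) [IsAdicComplete I R] : IsAdicComplete J R := by
  have hR : ∀ (K : Ideal R) (n : ℕ), (K ^ n • ⊤ : Submodule R R) = K ^ n := fun K n => by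
    rw [smul_eq_mul, Ideal.mul_top]
  have hpow : ∀ k : ℕ, J ^ (e * k) ≤ I ^ k := fun k => by
    rw [pow_mul]; exact Ideal.pow_right_mono hJI k
  refine { haus' := ?_, prec' := ?_ }
  · intro x hx
    apply IsHausdorff.haus (inferInstance : IsHausdorff I R)
    intro n
    rw [SModEq.zero, hR]
    have := hx (e * n)
    rw [SModEq.zero, hR] at this
    exact hpow n this
  · intro f hf
    obtain ⟨L, hL⟩ := IsPrecomplete.prec (inferInstance : IsPrecomplete I R)
      (f := fun k => f (e * k + k)) (by
        intro m n hmn
        rw [SModEq.sub_mem, hR]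
        have h1 : e * m + m ≤ e * n + n := by gcongr
        have := hf h1
        rw [SModEq.sub_mem, hR] at this
        exact hpow m (Ideal.pow_le_pow_right (Nat.le_add_right _ _) this))
    refine ⟨L, fun n => ?_⟩
    have h1 := hf (show n ≤ e * n + n from Nat.le_add_left _ _)
    have h2 := hL n
    rw [SModEq.sub_mem, hR] at h1 h2 ⊢
    have := (J ^ n).add_mem h1 (Ideal.pow_right_mono hIJ n h2)
    simpa using this

/-- In a finite monoid every element has a positive power which is idempotent. -/
theorem exists_pos_pow_isIdempotentElem {M : Type*} [Monoid M] [Finite M] (x : M) :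
    ∃ k, 0 < k ∧ IsIdempotentElem (x ^ k) := by
  obtain ⟨m, n, hmn, h⟩ := Finite.exists_ne_map_eq_of_infinite (fun k : ℕ => x ^ k)
  wlog hlt : m < n generalizing m n
  · exact this n m hmn.symm h.symm (lt_of_le_of_ne (not_lt.mp hlt) hmn.symm)
  obtain ⟨d, rfl⟩ := Nat.exists_eq_add_of_lt hlt
  -- `x ^ m = x ^ (m + d + 1)`
  have hstep : ∀ j : ℕ, x ^ (m + j * (d + 1)) = x ^ m := by
    intro j
    induction j with
    | zero => simp
    | succ j ih =>
      have : m + (j + 1) * (d + 1) = (m + d + 1) + j * (d + 1) := by ring
      rw [this, pow_add, ← h, ← pow_add, ih]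
  have hstep' : ∀ a j : ℕ, x ^ (m + a + j * (d + 1)) = x ^ (m + a) := by
    intro a j
    have : m + a + j * (d + 1) = (m + j * (d + 1)) + a := by ring
    rw [this, pow_add, hstep, ← pow_add]
  refine ⟨(m + 1) * (d + 1), by positivity, ?_⟩
  -- k = (m+1)(d+1) = m + a with a = (m+1)(d+1) - m
  have hk : (m + 1) * (d + 1) = m + (m * d + d + 1) := by ring
  unfold IsIdempotentElem
  rw [← pow_add]
  conv_lhs => rw [show (m + 1) * (d + 1) + (m + 1) * (d + 1)
    = m + (m * d + d + 1) + (m + 1) * (d + 1) by rw [← hk]]
  rw [hstep', ← hk]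

end General

section AKLB

set_option linter.unusedVariables false

theorem aux_finite (A K L : Type) (B : Type)
    [CommRing A] [IsDomain A] [IsDiscreteValuationRing A]
    [IsAdicComplete (maximalIdeal A) A] [Finite (ResidueField A)]
    [Field K] [CharZero K] [Algebra A K] [IsFractionRing A K]
    [CommRing B] [IsDomain B] [Field L] [Algebra B L] [IsFractionRing B L]
    [Algebra A B] [Algebra K L] [Algebra A L] [IsScalarTower A B L] [IsScalarTower A K L]
    [FiniteDimensional K L] [IsIntegralClosure B A L] : Module.Finite A B :=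
  IsIntegralClosure.finite A K L B

theorem aux_free (A K L : Type) (B : Type)
    [CommRing A] [IsDomain A] [IsDiscreteValuationRing A]
    [IsAdicComplete (maximalIdeal A) A] [Finite (ResidueField A)]
    [Field K] [CharZero K] [Algebra A K] [IsFractionRing A K]
    [CommRing B] [IsDomain B] [Field L] [Algebra B L] [IsFractionRing B L]
    [Algebra A B] [Algebra K L] [Algebra A L] [IsScalarTower A B L] [IsScalarTower A K L]
    [FiniteDimensional K L] [IsIntegralClosure B A L] : Module.Free A B := by
  have : FaithfulSMul A L := FaithfulSMul.trans A K L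
  exact IsIntegralClosure.module_free A K L B

theorem aux_dedekind (A K L : Type) (B : Type)
    [CommRing A] [IsDomain A] [IsDiscreteValuationRing A]
    [IsAdicComplete (maximalIdeal A) A] [Finite (ResidueField A)]
    [Field K] [CharZero K] [Algebra A K] [IsFractionRing A K]
    [CommRing B] [IsDomain B] [Field L] [Algebra B L] [IsFractionRing B L]
    [Algebra A B] [Algebra K L] [Algebra A L] [IsScalarTower A B L] [IsScalarTower A K L]
    [FiniteDimensional K L] [IsIntegralClosure B A L] : IsDedekindDomain B :=
  IsIntegralClosure.isDedekindDomain A K L B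

theorem aux_integral (A K L : Type) (B : Type)
    [CommRing A] [IsDomain A] [IsDiscreteValuationRing A]
    [IsAdicComplete (maximalIdeal A) A] [Finite (ResidueField A)]
    [Field K] [CharZero K] [Algebra A K] [IsFractionRing A K]
    [CommRing B] [IsDomain B] [Field L] [Algebra B L] [IsFractionRing B L]
    [Algebra A B] [Algebra K L] [Algebra A L] [IsScalarTower A B L] [IsScalarTower A K L]
    [FiniteDimensional K L] [IsIntegralClosure B A L] : Algebra.IsIntegral A B :=
  IsIntegralClosure.isIntegral_algebra A L

theorem aux_injective (A K L : Type) (B : Type)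
    [CommRing A] [IsDomain A] [IsDiscreteValuationRing A]
    [IsAdicComplete (maximalIdeal A) A] [Finite (ResidueField A)]
    [Field K] [CharZero K] [Algebra A K] [IsFractionRing A K]
    [CommRing B] [IsDomain B] [Field L] [Algebra B L] [IsFractionRing B L]
    [Algebra A B] [Algebra K L] [Algebra A L] [IsScalarTower A B L] [IsScalarTower A K L]
    [FiniteDimensional K L] [IsIntegralClosure B A L] : Function.Injective (algebraMap A B) := by
  have : FaithfulSMul A L := FaithfulSMul.trans A K L
  have h : Function.Injective (algebraMap A L) := FaithfulSMul.algebraMap_injective A L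
  rw [IsScalarTower.algebraMap_eq A B L] at h
  exact Function.Injective.of_comp h

/-- `B` is complete for the `𝔪_A B`-adic topology. -/
theorem aux_complete (A K L : Type) (B : Type)
    [CommRing A] [IsDomain A] [IsDiscreteValuationRing A]
    [IsAdicComplete (maximalIdeal A) A] [Finite (ResidueField A)]
    [Field K] [CharZero K] [Algebra A K] [IsFractionRing A K]
    [CommRing B] [IsDomain B] [Field L] [Algebra B L] [IsFractionRing B L]
    [Algebra A B] [Algebra K L] [Algebra A L] [IsScalarTower A B L] [IsScalarTower A K L]
    [FiniteDimensional K L] [IsIntegralClosure B A L] :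
    IsAdicComplete ((maximalIdeal A).map (algebraMap A B)) B := by
  have := aux_finite A K L B
  have := aux_free A K L B
  rw [IsAdicComplete.map_algebraMap_iff]
  exact isAdicComplete_of_basis (maximalIdeal A) (Module.Free.chooseBasis A B)

/-- Every maximal ideal of `B` contains `𝔪_A B`. -/
theorem aux_map_le (A K L : Type) (B : Type)
    [CommRing A] [IsDomain A] [IsDiscreteValuationRing A]
    [IsAdicComplete (maximalIdeal A) A] [Finite (ResidueField A)]
    [Field K] [CharZero K] [Algebra A K] [IsFractionRing A K]
    [CommRing B] [IsDomain B] [Field L] [Algebra B L] [IsFractionRing B L]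
    [Algebra A B] [Algebra K L] [Algebra A L] [IsScalarTower A B L] [IsScalarTower A K L]
    [FiniteDimensional K L] [IsIntegralClosure B A L] (M : Ideal B) [M.IsMaximal] :
    (maximalIdeal A).map (algebraMap A B) ≤ M := by
  have := aux_integral A K L B
  rw [Ideal.map_le_iff_le_comap]
  have := Ideal.isMaximal_comap_of_isIntegral_of_isMaximal (R := A) M
  exact (IsLocalRing.eq_maximalIdeal this).ge

/-- `B / 𝔪_A B` is finite. -/
theorem aux_finite_quot (A K L : Type) (B : Type)
    [CommRing A] [IsDomain A] [IsDiscreteValuationRing A]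
    [IsAdicComplete (maximalIdeal A) A] [Finite (ResidueField A)]
    [Field K] [CharZero K] [Algebra A K] [IsFractionRing A K]
    [CommRing B] [IsDomain B] [Field L] [Algebra B L] [IsFractionRing B L]
    [Algebra A B] [Algebra K L] [Algebra A L] [IsScalarTower A B L] [IsScalarTower A K L]
    [FiniteDimensional K L] [IsIntegralClosure B A L] : Finite (B ⧸ (maximalIdeal A).map (algebraMap A B)) := by
  have := aux_finite A K L B
  have : Finite (A ⧸ maximalIdeal A) := ‹Finite (ResidueField A)›
  have : Module.Finite (A ⧸ maximalIdeal A) (B ⧸ (maximalIdeal A).map (algebraMap A B)) :=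
    Module.Finite.of_restrictScalars_finite A _ _
  exact Module.finite_of_finite (A ⧸ maximalIdeal A)

/-- Idempotents of `B / 𝔪_A B` are trivial (Hensel + `B` is a domain). -/
theorem aux_idem (A K L : Type) {B : Type}
    [CommRing A] [IsDomain A] [IsDiscreteValuationRing A]
    [IsAdicComplete (maximalIdeal A) A] [Finite (ResidueField A)]
    [Field K] [CharZero K] [Algebra A K] [IsFractionRing A K]
    [CommRing B] [IsDomain B] [Field L] [Algebra B L] [IsFractionRing B L]
    [Algebra A B] [Algebra K L] [Algebra A L] [IsScalarTower A B L] [IsScalarTower A K L]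
    [FiniteDimensional K L] [IsIntegralClosure B A L]
    (e : B ⧸ (maximalIdeal A).map (algebraMap A B)) (he : IsIdempotentElem e) :
    e = 0 ∨ e = 1 := by
  have hcomp := aux_complete A K L B
  have hens : HenselianRing B ((maximalIdeal A).map (algebraMap A B)) :=
    IsAdicComplete.henselianRing B _
  obtain ⟨a₀, rfl⟩ := Ideal.Quotient.mk_surjective e
  have he' : Ideal.Quotient.mk ((maximalIdeal A).map (algebraMap A B)) a₀ *
      Ideal.Quotient.mk ((maximalIdeal A).map (algebraMap A B)) a₀ =
      Ideal.Quotient.mk ((maximalIdeal A).map (algebraMap A B)) a₀ := he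
  have hmonic : (Polynomial.X ^ 2 - Polynomial.X : Polynomial B).Monic :=
    Polynomial.monic_X_pow_sub (by simp)
  have hev : Polynomial.eval a₀ (Polynomial.X ^ 2 - Polynomial.X : Polynomial B) ∈
      (maximalIdeal A).map (algebraMap A B) := by
    rw [← Ideal.Quotient.eq_zero_iff_mem]
    simp only [Polynomial.eval_sub, Polynomial.eval_pow, Polynomial.eval_X, map_sub, map_pow]
    rw [sq, he', sub_self]
  have hder : IsUnit (Ideal.Quotient.mk ((maximalIdeal A).map (algebraMap A B))
      (Polynomial.eval a₀ (Polynomial.derivative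
        (Polynomial.X ^ 2 - Polynomial.X : Polynomial B)))) := by
    apply IsUnit.of_mul_eq_one
      (Ideal.Quotient.mk _ (Polynomial.eval a₀ (Polynomial.derivative
        (Polynomial.X ^ 2 - Polynomial.X : Polynomial B))))
    simp only [Polynomial.derivative_X_pow, Polynomial.derivative_X,
      Polynomial.eval_sub, Polynomial.eval_mul, Polynomial.eval_pow, Polynomial.eval_X,
      Polynomial.eval_one, map_sub, map_mul, map_pow, map_one]
    simp only [Nat.cast_ofNat, Nat.add_one_sub_one, pow_one, Polynomial.eval_C]
    set x := Ideal.Quotient.mk ((maximalIdeal A).map (algebraMap A B)) a₀ with hx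
    have : (Ideal.Quotient.mk ((maximalIdeal A).map (algebraMap A B)) 2 * x - 1) *
        (Ideal.Quotient.mk ((maximalIdeal A).map (algebraMap A B)) 2 * x - 1)
        = (Ideal.Quotient.mk ((maximalIdeal A).map (algebraMap A B)) 2) ^ 2 * (x * x - x)
          + ((Ideal.Quotient.mk ((maximalIdeal A).map (algebraMap A B)) 2) ^ 2
            - 2 * Ideal.Quotient.mk ((maximalIdeal A).map (algebraMap A B)) 2) * x + 1 := by ring
    rw [this, he', sub_self, mul_zero, zero_add]
    simp only [map_ofNat]
    ring
  obtain ⟨a, ha, haa⟩ := hens.is_henselian (Polynomial.X ^ 2 - Polynomial.X) hmonic a₀ hev hder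
  have h2 : a * (a - 1) = 0 := by
    have : a ^ 2 - a = 0 := by simpa [Polynomial.IsRoot] using ha
    rw [← this]; ring
  rcases mul_eq_zero.mp h2 with h | h
  · left
    rw [h, zero_sub, neg_mem_iff] at haa
    exact Ideal.Quotient.eq_zero_iff_mem.mpr haa
  · right
    have h1 : a = 1 := sub_eq_zero.mp h
    rw [h1] at haa
    rw [← map_one (Ideal.Quotient.mk _)]
    exact (Ideal.Quotient.eq.mpr haa).symm

theorem isLocalRing_of_isIntegralClosure (A K L : Type) {B : Type}
    [CommRing A] [IsDomain A] [IsDiscreteValuationRing A]
    [IsAdicComplete (maximalIdeal A) A] [Finite (ResidueField A)]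
    [Field K] [CharZero K] [Algebra A K] [IsFractionRing A K]
    [CommRing B] [IsDomain B] [Field L] [Algebra B L] [IsFractionRing B L]
    [Algebra A B] [Algebra K L] [Algebra A L] [IsScalarTower A B L] [IsScalarTower A K L]
    [FiniteDimensional K L] [IsIntegralClosure B A L] : IsLocalRing B := by
  have hfin := aux_finite_quot A K L B
  obtain ⟨M1, hM1⟩ := Ideal.exists_maximal B
  refine IsLocalRing.of_unique_max_ideal ⟨M1, hM1, fun M2 hM2 => ?_⟩
  by_contra hne
  have hsup : M2 ⊔ M1 = ⊤ := Ideal.IsMaximal.coprime_of_ne hM2 hM1 hne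
  have h1 : (1 : B) ∈ M2 ⊔ M1 := hsup ▸ Submodule.mem_top
  obtain ⟨y, hy, x, hx, hxy⟩ := Submodule.mem_sup.mp h1
  have hle1 := aux_map_le A K L B M1
  have hle2 := aux_map_le A K L B M2
  obtain ⟨k, hk, hidem⟩ := exists_pos_pow_isIdempotentElem
    (Ideal.Quotient.mk ((maximalIdeal A).map (algebraMap A B)) x)
  rcases aux_idem A K L _ hidem with h | h
  · rw [← map_pow, Ideal.Quotient.eq_zero_iff_mem] at h
    have hx2 : x ∈ M2 := hM2.isPrime.mem_of_pow_mem k (hle2 h)
    exact hM2.ne_top ((Ideal.eq_top_iff_one _).mpr (hxy ▸ M2.add_mem hy hx2))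
  · rw [← map_pow, ← map_one (Ideal.Quotient.mk _), Ideal.Quotient.eq] at h
    have hxk : x ^ k ∈ M1 := Ideal.pow_mem_of_mem M1 hx k hk
    have : (1 : B) ∈ M1 := by
      have := M1.sub_mem hxk (hle1 h)
      simpa using this
    exact hM1.ne_top ((Ideal.eq_top_iff_one _).mpr this)

theorem aux_not_isField (A K L : Type) {B : Type}
    [CommRing A] [IsDomain A] [IsDiscreteValuationRing A]
    [IsAdicComplete (maximalIdeal A) A] [Finite (ResidueField A)]
    [Field K] [CharZero K] [Algebra A K] [IsFractionRing A K]
    [CommRing B] [IsDomain B] [Field L] [Algebra B L] [IsFractionRing B L]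
    [Algebra A B] [Algebra K L] [Algebra A L] [IsScalarTower A B L] [IsScalarTower A K L]
    [FiniteDimensional K L] [IsIntegralClosure B A L] : ¬ IsField B := by
  have := aux_integral A K L B
  intro h
  exact IsDiscreteValuationRing.not_isField A
    (isField_of_isIntegral_of_isField (aux_injective A K L B) h)

theorem isDiscreteValuationRing_of_isIntegralClosure (A K L : Type) {B : Type}
    [CommRing A] [IsDomain A] [IsDiscreteValuationRing A]
    [IsAdicComplete (maximalIdeal A) A] [Finite (ResidueField A)]
    [Field K] [CharZero K] [Algebra A K] [IsFractionRing A K]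
    [CommRing B] [IsDomain B] [Field L] [Algebra B L] [IsFractionRing B L]
    [Algebra A B] [Algebra K L] [Algebra A L] [IsScalarTower A B L] [IsScalarTower A K L]
    [FiniteDimensional K L] [IsIntegralClosure B A L] : IsDiscreteValuationRing B := by
  have := isLocalRing_of_isIntegralClosure A K L (B := B)
  have hd := aux_dedekind A K L B
  exact ((IsDiscreteValuationRing.TFAE B (aux_not_isField A K L (B := B))).out 0 2).mpr hd

/-- `𝔪_A B ≠ 0`. -/
theorem aux_map_ne_bot (A K L : Type) {B : Type}
    [CommRing A] [IsDomain A] [IsDiscreteValuationRing A]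
    [IsAdicComplete (maximalIdeal A) A] [Finite (ResidueField A)]
    [Field K] [CharZero K] [Algebra A K] [IsFractionRing A K]
    [CommRing B] [IsDomain B] [Field L] [Algebra B L] [IsFractionRing B L]
    [Algebra A B] [Algebra K L] [Algebra A L] [IsScalarTower A B L] [IsScalarTower A K L]
    [FiniteDimensional K L] [IsIntegralClosure B A L] : (maximalIdeal A).map (algebraMap A B) ≠ ⊥ := by
  rw [Ne, Ideal.map_eq_bot_iff_of_injective (aux_injective A K L B)]
  exact IsDiscreteValuationRing.not_a_field A

theorem isAdicComplete_of_isIntegralClosure (A K L : Type) {B : Type}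
    [CommRing A] [IsDomain A] [IsDiscreteValuationRing A]
    [IsAdicComplete (maximalIdeal A) A] [Finite (ResidueField A)]
    [Field K] [CharZero K] [Algebra A K] [IsFractionRing A K]
    [CommRing B] [IsDomain B] [Field L] [Algebra B L] [IsFractionRing B L]
    [Algebra A B] [Algebra K L] [Algebra A L] [IsScalarTower A B L] [IsScalarTower A K L]
    [FiniteDimensional K L] [IsIntegralClosure B A L] [IsLocalRing B] :
    IsAdicComplete (maximalIdeal B) B := by
  have hd := aux_dedekind A K L B
  have hcomp := aux_complete A K L B
  have htfae : ∀ I : Ideal B, I ≠ ⊥ → ∃ n : ℕ, I = maximalIdeal B ^ n :=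
    ((IsDiscreteValuationRing.TFAE B (aux_not_isField A K L (B := B))).out 2 6).mp hd
  obtain ⟨e, he⟩ := htfae _ (aux_map_ne_bot A K L (B := B))
  exact isAdicComplete_of_le_of_pow_le ((maximalIdeal A).map (algebraMap A B)) (maximalIdeal B)
    (aux_map_le A K L B _) e he.ge

theorem finite_residueField_of_isIntegralClosure (A K L : Type) {B : Type}
    [CommRing A] [IsDomain A] [IsDiscreteValuationRing A]
    [IsAdicComplete (maximalIdeal A) A] [Finite (ResidueField A)]
    [Field K] [CharZero K] [Algebra A K] [IsFractionRing A K]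
    [CommRing B] [IsDomain B] [Field L] [Algebra B L] [IsFractionRing B L]
    [Algebra A B] [Algebra K L] [Algebra A L] [IsScalarTower A B L] [IsScalarTower A K L]
    [FiniteDimensional K L] [IsIntegralClosure B A L] [IsLocalRing B] :
    Finite (ResidueField B) := by
  have hfin := aux_finite_quot A K L B
  exact Finite.of_surjective
    (Ideal.Quotient.factor (aux_map_le A K L B (maximalIdeal B)))
    (Ideal.Quotient.factor_surjective _)

/-- `e * f = n` for complete DVRs. -/
theorem ramificationIdx_mul_inertiaDeg {A K : Type} [CommRing A] [IsDomain A]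
    [IsDiscreteValuationRing A] [IsAdicComplete (maximalIdeal A) A] [Finite (ResidueField A)]
    [Field K] [CharZero K] [Algebra A K] [IsFractionRing A K]
    {B L : Type} [CommRing B] [IsDomain B] [Field L] [Algebra B L] [IsFractionRing B L]
    [Algebra A B] [Algebra K L] [Algebra A L] [IsScalarTower A B L] [IsScalarTower A K L]
    [FiniteDimensional K L] [IsIntegralClosure B A L] [IsDiscreteValuationRing B] :
    (maximalIdeal B).ramificationIdx A * (maximalIdeal B).inertiaDeg A = Module.finrank K L := by
  have hfin := aux_finite A K L B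
  have hfree := aux_free A K L B
  have hint := aux_integral A K L B
  have hfaith : FaithfulSMul A B :=
    (faithfulSMul_iff_algebraMap_injective A B).mpr (aux_injective A K L B)
  have hlies : (maximalIdeal B).LiesOver (maximalIdeal A) :=
    ⟨(IsLocalRing.eq_maximalIdeal
      (Ideal.isMaximal_comap_of_isIntegral_of_isMaximal (R := A) (maximalIdeal B))).symm⟩
  have huniq : ∀ q : (maximalIdeal A).primesOver B,
      q = ⟨maximalIdeal B, inferInstance, hlies⟩ := by
    intro q
    apply Subtype.ext
    have hq : q.1.IsPrime := q.2.1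
    have hne : q.1 ≠ ⊥ :=
      Ideal.ne_bot_of_mem_primesOver (IsDiscreteValuationRing.not_a_field A) q.2
    exact IsLocalRing.eq_maximalIdeal (hq.isMaximal hne)
  let _ : Unique ((maximalIdeal A).primesOver B) :=
    ⟨⟨⟨maximalIdeal B, inferInstance, hlies⟩⟩, huniq⟩
  have key := Ideal.sum_ramification_inertia_eq_finrank (maximalIdeal A) B
  rw [Fintype.sum_unique] at key
  rw [IsFractionRing.finrank_eq A K B L]
  exact key

end AKLB

end Fermat.Agent.CFT.H92
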