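import Mathlib
import Fermat.Agent.CFT.H39_UnitsPow
import Fermat.Agent.CFT.H92_Ext
import Fermat.Agent.CFT.H79_SecondBridgeMain
import Fermat.Agent.CFT.H23_CMaps
import Fermat.Agent.CFT.H23_CDescent

set_option autoImplicit false
set_option linter.unusedSectionVars false

/-!
# `S`-ideles close to `1` are `d`-th powers

For a number field `K`, a rational prime `q ∣ n` and `d ∣ n`, every element of
`congrSubgroup (intLoc K q) (n ^ m)`, `m ≥ 3`, is a `d`-th power in `(K ⊗[ℚ] ℚ_[q])ˣ`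
(Hensel's lemma in the `q`-adically complete ring `ℤ_[q] ⊗[ℤ] 𝓞 K`).  Consequently, for `F / K`
Galois of degree `d`, the base change to `F` of an element of `congrJS S K (n ^ m)` is a norm.
-/

open scoped TensorProduct NumberField
open IsLocalRing

noncomputable section

namespace Fermat.Agent.CFT.H34

open Fermat.Agent.CFT.H42 Fermat.Agent.CFT.H79 Fermat.Agent.CFT.H23

variable (K : Type*) [Field K] [NumberField K] (q : Nat.Primes)

/-- the complete ring `ℤ_[q] ⊗[ℤ] 𝓞 K` -/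
abbrev IntTensor : Type _ := ℤ_[q] ⊗[ℤ] (𝓞 K)

instance : Module.Free ℤ_[q] (IntTensor K q) := inferInstance

instance : Module.Finite ℤ_[q] (IntTensor K q) := inferInstance

theorem isAdicComplete_intTensor :
    IsAdicComplete (Ideal.span {((q : ℕ) : IntTensor K q)}) (IntTensor K q) := by
  have h1 : IsAdicComplete (maximalIdeal ℤ_[q]) (IntTensor K q) :=
    Fermat.Agent.CFT.H92.isAdicComplete_of_basis (maximalIdeal ℤ_[q])
      (Module.Free.chooseBasis ℤ_[q] (IntTensor K q))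
  have h2 : (maximalIdeal ℤ_[q]).map (algebraMap ℤ_[q] (IntTensor K q)) =
      Ideal.span {((q : ℕ) : IntTensor K q)} := by
    rw [PadicInt.maximalIdeal_eq_span_p, Ideal.map_span, Set.image_singleton, map_natCast]
  rw [← h2, IsAdicComplete.map_algebraMap_iff]
  exact h1

/-- `ℤ_[q] → K ⊗[ℚ] ℚ_[q]`, `z ↦ 1 ⊗ z` -/
def padicIntToLocAlg : ℤ_[q] →+* locAlg K q :=
  (Algebra.TensorProduct.includeRight : ℚ_[q] →ₐ[ℚ] locAlg K q).toRingHom.comp
    PadicInt.Coe.ringHom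

/-- `𝓞 K → K ⊗[ℚ] ℚ_[q]`, `b ↦ b ⊗ 1` -/
def integersToLocAlg : 𝓞 K →+* locAlg K q :=
  (algebraMap K (locAlg K q)).comp (algebraMap (𝓞 K) K)

/-- the canonical map `ℤ_[q] ⊗[ℤ] 𝓞 K → K ⊗[ℚ] ℚ_[q]` -/
def intTensorToLocAlg : IntTensor K q →+* locAlg K q :=
  (Algebra.TensorProduct.productMap (padicIntToLocAlg K q).toIntAlgHom
    (integersToLocAlg K q).toIntAlgHom).toRingHom

theorem intTensorToLocAlg_tmul (z : ℤ_[q]) (b : 𝓞 K) :
    intTensorToLocAlg K q (z ⊗ₜ[ℤ] b) = (b : K) ⊗ₜ[ℚ] (z : ℚ_[q]) := by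
  show (Algebra.TensorProduct.productMap (padicIntToLocAlg K q).toIntAlgHom
    (integersToLocAlg K q).toIntAlgHom) (z ⊗ₜ[ℤ] b) = _
  rw [Algebra.TensorProduct.productMap_apply_tmul]
  show ((1 : K) ⊗ₜ[ℚ] (z : ℚ_[q])) * ((b : K) ⊗ₜ[ℚ] (1 : ℚ_[q])) = _
  rw [Algebra.TensorProduct.tmul_mul_tmul, one_mul, mul_one]

/-- `intLoc K q` is contained in the image of `ℤ_[q] ⊗[ℤ] 𝓞 K` -/
theorem exists_intTensorToLocAlg_eq {x : locAlg K q} (hx : x ∈ intLoc K q) :
    ∃ r : IntTensor K q, intTensorToLocAlg K q r = x := by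
  refine intLoc_induction K q (P := fun x => ∃ r : IntTensor K q, intTensorToLocAlg K q r = x)
    ⟨0, map_zero _⟩ (fun b c => ⟨c ⊗ₜ[ℤ] b, intTensorToLocAlg_tmul K q c b⟩) ?_ ?_ x hx
  · rintro x y ⟨r, rfl⟩ ⟨r', rfl⟩
    exact ⟨r + r', map_add _ _ _⟩
  · rintro x ⟨r, rfl⟩
    exact ⟨-r, map_neg _ _⟩

/-- **elements of `Λ_q` close to `1` are `d`-th powers** -/
theorem exists_pow_eq_of_mem_congrSubgroup {n d m : ℕ} (hq : (q : ℕ) ∣ n) (hd : d ∣ n)
    (hn : n ≠ 0) (hm : 3 ≤ m) {w : (locAlg K q)ˣ}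
    (hw : w ∈ congrSubgroup (intLoc K q) (n ^ m)) : ∃ v : (locAlg K q)ˣ, v ^ d = w := by
  have := isAdicComplete_intTensor K q
  obtain ⟨⟨z, hz, hwz⟩, -⟩ := hw
  obtain ⟨r, rfl⟩ := exists_intTensorToLocAlg_eq K q hz
  obtain ⟨n', rfl⟩ := hq
  obtain ⟨e, he⟩ := hd
  have hd0 : d ≠ 0 := by
    rintro rfl
    rw [zero_mul] at he
    exact hn he
  have hx : (((q : ℕ) * n' : ℕ) : IntTensor K q) ∈ Ideal.span {((q : ℕ) : IntTensor K q)} := by
    rw [Nat.cast_mul]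
    exact Ideal.mul_mem_right _ _ (Ideal.mem_span_singleton_self _)
  obtain ⟨s, hs⟩ := Fermat.Agent.CFT.H39.exists_one_add_mul_pow_eq
    (Ideal.span {((q : ℕ) : IntTensor K q)}) d hx
    (((e ^ 2 * ((q : ℕ) * n') ^ (m - 3) : ℕ) : IntTensor K q) * r)
  have hpow : (intTensorToLocAlg K q (1 + (d : IntTensor K q) * (((q : ℕ) * n' : ℕ) :
      IntTensor K q) * s)) ^ d = (w : locAlg K q) := by
    rw [← map_pow, hs, hwz, map_add, map_one, map_mul, map_mul, map_mul, map_pow, map_natCast,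
      map_natCast, map_natCast]
    congr 1
    rw [← mul_assoc]
    congr 1
    obtain ⟨m', rfl⟩ : ∃ m', m = m' + 3 := ⟨m - 3, by omega⟩
    rw [Nat.add_sub_cancel]
    have : ((q : ℕ) * n' : ℕ) = d * e := he
    rw [this]
    push_cast
    ring
  have hunit : IsUnit (intTensorToLocAlg K q (1 + (d : IntTensor K q) *
      (((q : ℕ) * n' : ℕ) : IntTensor K q) * s)) := by
    rw [← isUnit_pow_iff hd0, hpow]
    exact w.isUnit
  obtain ⟨v, hv⟩ := hunit
  refine ⟨v, Units.ext ?_⟩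
  rw [Units.val_pow_eq_pow_val, hv, hpow]

variable (S : Finset Nat.Primes)

/-- **`S`-ideles close to `1` are `d`-th powers** -/
theorem exists_pow_eq_of_mem_congrJS {n d m : ℕ} (hqn : ∀ q ∈ S, ((q : Nat.Primes) : ℕ) ∣ n)
    (hd : d ∣ n) (hn : n ≠ 0) (hm : 3 ≤ m) {w : JS S K} (hw : w ∈ congrJS S K (n ^ m)) :
    ∃ v : JS S K, v ^ d = w := by
  rw [mem_congrJS_iff] at hw
  choose v hv using fun q : S =>
    exists_pow_eq_of_mem_congrSubgroup K q.1 (hqn q.1 q.2) hd hn hm (hw q)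
  exact ⟨v, funext fun q => hv q⟩

variable (F : Type*) [Field F] [NumberField F] [Algebra K F]

/-- **the local input `(hloc)` of the bridge of the second inequality**: for `F / K` Galois of
degree dividing `n`, the base change of an `S`-idele `≡ 1 mod n ^ m`, `m ≥ 3`, is a norm. -/
theorem exists_baseChange_eq_prod_smul [IsGalois K F] {n m : ℕ}
    (hqn : ∀ q ∈ S, ((q : Nat.Primes) : ℕ) ∣ n) (hd : Module.finrank K F ∣ n) (hn : n ≠ 0)
    (hm : 3 ≤ m) {w : JS S K} (hw : w ∈ congrJS S K (n ^ m)) :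
    ∃ y : JS S F, JS.baseChange S K F w = ∏ σ : F ≃ₐ[K] F, σ • y := by
  have := finiteDimensional_of_numberField K F
  obtain ⟨v, hv⟩ := exists_pow_eq_of_mem_congrJS K S hqn hd hn hm hw
  refine ⟨JS.baseChange S K F v, ?_⟩
  rw [Finset.prod_congr rfl (fun σ _ => smul_JS_baseChange S K F σ v), Finset.prod_const,
    Finset.card_univ, ← Nat.card_eq_fintype_card, IsGalois.card_aut_eq_finrank, ← map_pow, hv]

end Fermat.Agent.CFT.H34
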