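import Mathlib
import Fermat.Agent.CFT.H36_Envelope2
import Fermat.Agent.CFT.H5_EnvCompare
import Fermat.Agent.CFT.H35_PTModules
import Fermat.Agent.CFT.H35_PiRep

/-!
# CFT / Layer D4 : the extension lemma for divisible envelopes

* `IsInjDiscrete 𝓛 I` : `I` is injective among `𝓛`-discrete modules
  (maps into `I` extend along injections into discrete modules);
* `isInjDiscrete_coindLevel` : `coindLevel 𝓛 V` is injective among discrete modules whenever
  `V` has the extension property of an injective `k`-module (`HasLinExt`);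
  `isInjDiscrete_envelope` : the canonical envelope `H36.envelope 𝓛 N`;
* stability under binary products (`prodRep`), arbitrary products (`piRep`) and retracts;
* `exists_envMor` : if `E'.I` is injective among discrete modules then every equivariant map
  of the bases (along a continuous `φ`) extends to a morphism of envelopes `H5.EnvMor`.
-/

set_option autoImplicit false

noncomputable section

open CategoryTheory

namespace Fermat.Agent.CFT.H35

open Fermat.Agent.CFT Fermat.Agent.CFT.H36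

section Defs

variable {k : Type} [CommRing k] {H : Type} [Group H]

/-- `I` is **injective among `𝓛`-discrete modules**: a morphism `A ⟶ I` extends along any
injective morphism `A ⟶ M` into a discrete module `M`. -/
def IsInjDiscrete (𝓛 : LevelStructure H) (I : Rep.{0} k H) : Prop :=
  ∀ (A M : Rep.{0} k H) (j : A ⟶ M), Function.Injective j.hom → 𝓛.IsDiscrete M →
    ∀ g : A ⟶ I, ∃ g' : M ⟶ I, j ≫ g' = g

/-- The extension property of injective modules, for a `k`-module `V` (in `Type`). -/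
def HasLinExt (k : Type) [CommRing k] (V : Type) [AddCommGroup V] [Module k V] : Prop :=
  ∀ (X Y : Type) [AddCommGroup X] [AddCommGroup Y] [Module k X] [Module k Y]
    (f : X →ₗ[k] Y), Function.Injective f → ∀ g : X →ₗ[k] V, ∃ h : Y →ₗ[k] V, ∀ x, h (f x) = g x

theorem hasLinExt_of_baer {V : Type} [AddCommGroup V] [Module k V] (hV : Module.Baer k V) :
    HasLinExt k V := by
  intro X Y _ _ _ _ f hf g
  obtain ⟨h, hh⟩ := hV.extension_property f hf g
  exact ⟨h, fun x => DFunLike.congr_fun hh x⟩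

/-- Retracts of injectives are injective. -/
theorem IsInjDiscrete.of_retract {𝓛 : LevelStructure H} {I I' : Rep.{0} k H}
    (h : IsInjDiscrete 𝓛 I) (s : I' ⟶ I) (r : I ⟶ I') (hsr : s ≫ r = 𝟙 I') :
    IsInjDiscrete 𝓛 I' := by
  intro A M j hj hM g
  obtain ⟨g', hg'⟩ := h A M j hj hM (g ≫ s)
  refine ⟨g' ≫ r, ?_⟩
  rw [← Category.assoc, hg', Category.assoc, hsr, Category.comp_id]

/-- Isomorphic modules are injective together. -/
theorem IsInjDiscrete.of_iso {𝓛 : LevelStructure H} {I I' : Rep.{0} k H}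
    (h : IsInjDiscrete 𝓛 I) (e : I ≅ I') : IsInjDiscrete 𝓛 I' :=
  h.of_retract e.inv e.hom e.inv_hom_id

/-- Binary products of injectives are injective. -/
theorem IsInjDiscrete.prod {𝓛 : LevelStructure H} {I₁ I₂ : Rep.{0} k H}
    (h₁ : IsInjDiscrete 𝓛 I₁) (h₂ : IsInjDiscrete 𝓛 I₂) : IsInjDiscrete 𝓛 (prodRep I₁ I₂) := by
  intro A M j hj hM g
  obtain ⟨g₁, hg₁⟩ := h₁ A M j hj hM (g ≫ prodFst I₁ I₂)
  obtain ⟨g₂, hg₂⟩ := h₂ A M j hj hM (g ≫ prodSnd I₁ I₂)
  refine ⟨prodLift g₁ g₂, rep_hom_ext_apply fun a => ?_⟩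
  have e₁ : g₁.hom (j.hom a) = (prodFst I₁ I₂).hom (g.hom a) := by
    rw [← Rep.comp_apply, hg₁, Rep.comp_apply]
  have e₂ : g₂.hom (j.hom a) = (prodSnd I₁ I₂).hom (g.hom a) := by
    rw [← Rep.comp_apply, hg₂, Rep.comp_apply]
  rw [Rep.comp_apply]
  show ((prodLift g₁ g₂).hom (j.hom a) : I₁.V × I₂.V) = (g.hom a : I₁.V × I₂.V)
  rw [prodLift_apply, e₁, e₂]
  rfl

/-- Arbitrary products of injectives are injective. -/
theorem IsInjDiscrete.pi {𝓛 : LevelStructure H} {ι : Type} {I : ι → Rep.{0} k H}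
    (h : ∀ v, IsInjDiscrete 𝓛 (I v)) : IsInjDiscrete 𝓛 (piRep I) := by
  intro A M j hj hM g
  choose g' hg' using fun v => h v A M j hj hM (g ≫ piProj I v)
  refine ⟨piLift g', rep_hom_ext_apply fun a => ?_⟩
  rw [Rep.comp_apply]
  funext v
  show (g' v).hom (j.hom a) = (piProj I v).hom (g.hom a)
  rw [← Rep.comp_apply, hg' v, Rep.comp_apply]

end Defs

section Coind

variable {k : Type} [CommRing k] {H : Type} [Group H] (𝓛 : LevelStructure H)

/-- **Coinduced modules with injective fibre are injective among discrete modules.** -/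
theorem isInjDiscrete_coindLevel (V : Type) [AddCommGroup V] [Module k V] (hV : HasLinExt k V) :
    IsInjDiscrete 𝓛 (coindLevel (k := k) 𝓛 V) := by
  intro A M j hj hM g
  let ev1 : levelFun (k := k) 𝓛 V →ₗ[k] V :=
    (LinearMap.proj (1 : H)) ∘ₗ (levelFun (k := k) 𝓛 V).subtype
  let e : A.V →ₗ[k] V := ev1 ∘ₗ g.hom.toLinearMap
  obtain ⟨e', he'⟩ := hV A.V M.V j.hom.toLinearMap hj e
  refine ⟨orbitMap 𝓛 M hM e', rep_hom_ext_apply fun a => ?_⟩
  rw [Rep.comp_apply]
  apply Subtype.ext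
  funext x
  show e' (M.ρ x (j.hom a)) = (show levelFun (k := k) 𝓛 V from g.hom a).1 x
  rw [← Rep.hom_comm_apply]
  have h1 : e' (j.hom (A.ρ x a)) = e (A.ρ x a) := he' _
  rw [h1]
  show (show levelFun (k := k) 𝓛 V from g.hom (A.ρ x a)).1 1 = _
  rw [Rep.hom_comm_apply]
  show (show levelFun (k := k) 𝓛 V from g.hom a).1 (1 * x) = _
  rw [one_mul]

/-- `V(M) = ∏ ℚ/ℤ` has the extension property. -/
theorem hasLinExt_Vdiv (M : Type) [AddCommGroup M] : HasLinExt ℤ (Vdiv M) := by
  intro X Y _ _ _ _ f hf g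
  have key : ∀ χ : CharacterModule M, ∃ χ' : CharacterModule Y,
      ∀ x, χ' (f x) = g x χ := by
    intro χ
    let gχ : CharacterModule X :=
      { toFun := fun x => g x χ
        map_zero' := by rw [map_zero]; rfl
        map_add' := fun a b => by rw [map_add]; rfl }
    obtain ⟨χ', h⟩ := exists_char_extension f.toAddMonoidHom hf gχ
    exact ⟨χ', fun x => h x⟩
  choose ext hext using key
  let h₀ : Y →+ Vdiv M :=
    { toFun := fun y χ => ext χ y
      map_zero' := by funext χ; exact map_zero _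
      map_add' := fun a b => by funext χ; exact map_add _ a b }
  refine ⟨intLinearOfAddHom h₀, fun x => ?_⟩
  funext χ
  exact hext χ x

/-- The canonical envelope `I(N)` is injective among discrete modules. -/
theorem isInjDiscrete_envelope (N : Rep.{0} ℤ H) : IsInjDiscrete 𝓛 (envelope 𝓛 N) :=
  isInjDiscrete_coindLevel 𝓛 _ (hasLinExt_Vdiv N.V)

theorem isInjDiscrete_canonicalEnvelope (m : ℕ) (hm : m ≠ 0) (N : Rep.{0} ℤ H)
    (hN : 𝓛.IsDiscrete N) : IsInjDiscrete 𝓛 (canonicalEnvelope 𝓛 m hm N hN).I :=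
  isInjDiscrete_envelope 𝓛 N

end Coind

section EnvMorExists

variable {p : ℕ} {k : Type} [CommRing k] {H D : Type} [Group H] [Group D]
  {𝓛 : LevelStructure H} {𝓛D : LevelStructure D} {N : Rep.{0} k H} {N' : Rep.{0} k D}

/-- An equivariant linear map over `φ`, as a morphism of `D`-representations out of the
restriction. -/
def homOfEquivariant {φ : D →* H} {A : Rep.{0} k H} {B : Rep.{0} k D} (α : A.V →ₗ[k] B.V)
    (hα : H50.IsEquivariant φ A B α) : Rep.res φ A ⟶ B :=
  Rep.ofHom (ρ := (Rep.res φ A).ρ) (σ := B.ρ) ⟨α, fun g => LinearMap.ext fun a => hα g a⟩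

lemma homOfEquivariant_apply {φ : D →* H} {A : Rep.{0} k H} {B : Rep.{0} k D}
    (α : A.V →ₗ[k] B.V) (hα : H50.IsEquivariant φ A B α) (a : A.V) :
    (homOfEquivariant α hα).hom a = α a := rfl

/-- **Extension lemma** (existence of envelope morphisms): if the target envelope `E'.I` is
injective among `𝓛D`-discrete modules, every equivariant map `ev : N → N'` over a continuous
`φ : D →* H` extends to a morphism of envelopes `E → E'` over `φ`. -/
theorem exists_envMor {φ : D →* H} (hφ : H50.IsCont 𝓛D 𝓛 φ) (E : H36.DivEnvelope 𝓛 p N)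
    (E' : H36.DivEnvelope 𝓛D p N') (hI : IsInjDiscrete 𝓛D E'.I) (ev : N.V →ₗ[k] N'.V)
    (hev : H50.IsEquivariant φ N N' ev) : Nonempty (H5.EnvMor φ E E' ev) := by
  have hM : 𝓛D.IsDiscrete (Rep.res φ E.I) := H50.isDiscrete_res 𝓛D 𝓛 hφ E.discrete
  obtain ⟨g', hg'⟩ := hI (Rep.res φ N) (Rep.res φ E.I) (Rep.resMap φ E.ι) E.ι_injective hM
    (homOfEquivariant ev hev ≫ E'.ι)
  refine ⟨{ F := g'.hom.toLinearMap
            hF := fun g a => Rep.hom_comm_apply g' g a
            comm := fun c => ?_ }⟩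
  have h1 : (Rep.resMap φ E.ι ≫ g').hom c = (homOfEquivariant ev hev ≫ E'.ι).hom c := by
    rw [hg']
  rw [Rep.comp_apply, Rep.comp_apply] at h1
  exact h1

/-- Same-group version of `exists_envMor`. -/
theorem exists_envMor_id {N₁ N₂ : Rep.{0} k H} (E : H36.DivEnvelope 𝓛 p N₁)
    (E' : H36.DivEnvelope 𝓛 p N₂) (hI : IsInjDiscrete 𝓛 E'.I) (f : N₁ ⟶ N₂) :
    Nonempty (H5.EnvMor (MonoidHom.id H) E E' f.hom.toLinearMap) :=
  exists_envMor (H50.isCont_id 𝓛) E E' hI f.hom.toLinearMap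
    (fun g a => Rep.hom_comm_apply f g a)

/-- Two envelopes of the same module: a comparison morphism over the identity. -/
theorem exists_envMor_same (E E' : H36.DivEnvelope 𝓛 p N) (hI : IsInjDiscrete 𝓛 E'.I) :
    Nonempty (H5.EnvMor (MonoidHom.id H) E E' (LinearMap.id : N.V →ₗ[k] N.V)) :=
  exists_envMor (H50.isCont_id 𝓛) E E' hI LinearMap.id (fun _ _ => rfl)

end EnvMorExists

/-! ### The module packages of `H35_PTModules` -/

section PTInstances

open PTModules

variable {H : Type} [Group H] {𝓛 : LevelStructure H} {p : ℕ} {E J C : Rep.{0} ℤ H}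

/-- The envelope `I_E × I_C` of `J` built by `ofEnvelopes` is injective among discrete modules
if `I_E` and `I_C` are. -/
theorem isInjDiscrete_ofEnvelopes_EJ (ε : E ⟶ J) (pr : J ⟶ C) (EE : DivEnvelope 𝓛 p E)
    (EC : DivEnvelope 𝓛 p C) (f : J ⟶ EE.I)
    (hex : ∀ x : J.V, pr.hom x = 0 ↔ ∃ e : E.V, ε.hom e = x) (hf : ε ≫ f = EE.ι)
    (hdiv : ∀ c : C.V, ∃ (c' : C.V) (x : J.V), c = p • c' + pr.hom x)
    (htf : ∀ c : C.V, (∃ x : J.V, p • c = pr.hom x) → ∃ x' : J.V, c = pr.hom x')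
    (hEE : IsInjDiscrete 𝓛 EE.I) (hEC : IsInjDiscrete 𝓛 EC.I) :
    IsInjDiscrete 𝓛 (ofEnvelopes ε pr EE EC f hex hf hdiv htf).EJ.I :=
  hEE.prod hEC

variable (𝓛) (p) (hp : p ≠ 0) (ε : E ⟶ J) (pr : J ⟶ C) (hε : Function.Injective ε.hom)
  (hex : ∀ x : J.V, pr.hom x = 0 ↔ ∃ e : E.V, ε.hom e = x)
  (hdiv : ∀ c : C.V, ∃ (c' : C.V) (x : J.V), c = p • c' + pr.hom x)
  (htf : ∀ c : C.V, (∃ x : J.V, p • c = pr.hom x) → ∃ x' : J.V, c = pr.hom x')
  (hE : 𝓛.IsDiscrete E) (hJ : 𝓛.IsDiscrete J) (hC : 𝓛.IsDiscrete C)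

/-- All three envelopes of the canonical module package are injective among discrete modules. -/
theorem canonical'_isInjDiscrete :
    IsInjDiscrete 𝓛 (canonical' 𝓛 p hp ε pr hε hex hdiv htf hE hJ hC).EE.I ∧
    IsInjDiscrete 𝓛 (canonical' 𝓛 p hp ε pr hε hex hdiv htf hE hJ hC).EJ.I ∧
    IsInjDiscrete 𝓛 (canonical' 𝓛 p hp ε pr hε hex hdiv htf hE hJ hC).EC.I :=
  ⟨isInjDiscrete_envelope 𝓛 E,
    (isInjDiscrete_envelope 𝓛 E).prod (isInjDiscrete_envelope 𝓛 C),
    isInjDiscrete_envelope 𝓛 C⟩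

end PTInstances

end Fermat.Agent.CFT.H35
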