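/-
CFT project, layer D0, package D0-ENV (helper36), slice 7.

The coinduced envelopes are **injective among discrete modules**:
for `i : A ⟶ B` injective with `B` discrete, every `f : A ⟶ envelope 𝓛 N` extends to `B`.
(Frobenius reciprocity `Hom_H(A, Map_lc(H, V)) = Hom(A, V)` + injectivity of the abelian group
`V(N) = ∏ ℚ/ℤ`.)
-/
import Fermat.Agent.CFT.H36_Envelope2

set_option autoImplicit false

open CategoryTheory

namespace Fermat.Agent.CFT.H36

open Fermat.Agent.CFT

noncomputable section

/-! ## Injective abelian groups -/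

section InjGroup

/-- `V` is an injective abelian group (extension property along injective additive maps). -/
def IsInjAddGroup (V : Type) [AddCommGroup V] : Prop :=
  ∀ (A B : Type) [AddCommGroup A] [AddCommGroup B] (ε : A →+ B), Function.Injective ε →
    ∀ f₀ : A →+ V, ∃ g₀ : B →+ V, ∀ a, g₀ (ε a) = f₀ a

/-- `V(M) = ∏_χ ℚ/ℤ` is an injective abelian group. -/
theorem isInjAddGroup_Vdiv (M : Type) [AddCommGroup M] : IsInjAddGroup (Vdiv M) := by
  intro A B _ _ ε hε f₀
  classical
  -- the `χ`-coordinate of `f₀` is a character of `A`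
  let coord : CharacterModule M → CharacterModule A := fun χ =>
    { toFun := fun a => f₀ a χ
      map_zero' := by rw [map_zero]; rfl
      map_add' := fun a b => by rw [map_add]; rfl }
  choose ext hext using fun χ => exists_char_extension ε hε (coord χ)
  refine ⟨{ toFun := fun b => fun χ => ext χ b
            map_zero' := by funext χ; exact map_zero _
            map_add' := fun a b => by funext χ; exact map_add _ a b }, fun a => ?_⟩
  funext χ
  exact hext χ a

/-- A product of two injective abelian groups is injective. -/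
theorem IsInjAddGroup.prod {V V' : Type} [AddCommGroup V] [AddCommGroup V']
    (h : IsInjAddGroup V) (h' : IsInjAddGroup V') : IsInjAddGroup (V × V') := by
  intro A B _ _ ε hε f₀
  obtain ⟨g, hg⟩ := h A B ε hε ((AddMonoidHom.fst V V').comp f₀)
  obtain ⟨g', hg'⟩ := h' A B ε hε ((AddMonoidHom.snd V V').comp f₀)
  exact ⟨g.prod g', fun a => Prod.ext (hg a) (hg' a)⟩

end InjGroup

/-! ## Frobenius reciprocity -/

section Frobenius

variable {k : Type} [CommRing k] {H : Type} [Group H] (𝓛 : LevelStructure H)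
  {W : Type} [AddCommGroup W] [Module k W]

/-- Evaluation at `1` on level-constant functions. -/
def evOne : levelFun (k := k) 𝓛 W →ₗ[k] W where
  toFun f := f.1 1
  map_add' _ _ := rfl
  map_smul' _ _ := rfl

@[simp] lemma evOne_apply (f : levelFun (k := k) 𝓛 W) : evOne 𝓛 f = f.1 1 := rfl

/-- **Frobenius reciprocity**: a morphism from a discrete module into `coindLevel 𝓛 W` is the
orbit map of its evaluation at `1`. -/
theorem eq_orbitMap (N : Rep.{0} k H) (hN : 𝓛.IsDiscrete N)
    (f : N ⟶ coindLevel (k := k) 𝓛 W) :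
    f = orbitMap 𝓛 N hN ((evOne 𝓛).comp f.hom.toLinearMap) := by
  apply Rep.hom_ext
  apply Representation.IntertwiningMap.ext
  refine LinearMap.ext fun c => ?_
  apply Subtype.ext
  funext g
  show (show levelFun (k := k) 𝓛 W from f.hom c).1 g =
    (show levelFun (k := k) 𝓛 W from f.hom (N.ρ g c)).1 1
  rw [Rep.hom_comm_apply f g c]
  show _ = (show levelFun (k := k) 𝓛 W from f.hom c).1 (1 * g)
  rw [one_mul]

end Frobenius

/-! ## Injectivity among discrete modules -/

section InjDiscrete

variable {k : Type} [CommRing k] {H : Type} [Group H] (𝓛 : LevelStructure H)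

/-- `I` is injective among `𝓛`-discrete modules: morphisms into `I` extend along injective
morphisms with discrete target. -/
def IsInjDiscrete (I : Rep.{0} k H) : Prop :=
  ∀ (A B : Rep.{0} k H), 𝓛.IsDiscrete B → ∀ (i : A ⟶ B), Function.Injective i.hom →
    ∀ f : A ⟶ I, ∃ g : B ⟶ I, i ≫ g = f

variable {𝓛}

/-- A submodule of a discrete module is discrete. -/
lemma isDiscrete_of_injective {A B : Rep.{0} k H} (i : A ⟶ B)
    (hi : Function.Injective i.hom) (hB : 𝓛.IsDiscrete B) : 𝓛.IsDiscrete A := by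
  intro a
  obtain ⟨N, hN, h⟩ := hB (i.hom a)
  refine ⟨N, hN, fun n hn => hi ?_⟩
  rw [Rep.hom_comm_apply, h n hn]

/-- A product of two modules which are injective among discrete modules is so. -/
theorem IsInjDiscrete.prod {I I' : Rep.{0} k H} (h : IsInjDiscrete 𝓛 I)
    (h' : IsInjDiscrete 𝓛 I') : IsInjDiscrete 𝓛 (Rep.of (I.ρ.prod I'.ρ)) := by
  intro A B hB i hi f
  obtain ⟨g, hg⟩ := h A B hB i hi
    (f ≫ Rep.ofHom (Representation.IntertwiningMap.fst k I.ρ I'.ρ))
  obtain ⟨g', hg'⟩ := h' A B hB i hi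
    (f ≫ Rep.ofHom (Representation.IntertwiningMap.snd k I.ρ I'.ρ))
  refine ⟨Rep.ofHom (Representation.IntertwiningMap.prod g.hom g'.hom), ?_⟩
  apply Rep.hom_ext
  apply Representation.IntertwiningMap.ext
  refine LinearMap.ext fun a => ?_
  have h1 : g.hom (i.hom a) = ((f.hom a : I.V × I'.V)).1 := by
    have := congrArg (fun φ => φ.hom a) hg
    exact this
  have h2 : g'.hom (i.hom a) = ((f.hom a : I.V × I'.V)).2 := by
    have := congrArg (fun φ => φ.hom a) hg'
    exact this
  exact Prod.ext h1 h2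

/-- Invariance under isomorphism. -/
theorem IsInjDiscrete.of_iso {I I' : Rep.{0} k H} (h : IsInjDiscrete 𝓛 I) (e : I' ≅ I) :
    IsInjDiscrete 𝓛 I' := by
  intro A B hB i hi f
  obtain ⟨g, hg⟩ := h A B hB i hi (f ≫ e.hom)
  refine ⟨g ≫ e.inv, ?_⟩
  rw [← Category.assoc, hg, Category.assoc, e.hom_inv_id, Category.comp_id]

end InjDiscrete

section InjEnvelope

variable {H : Type} [Group H] (𝓛 : LevelStructure H)

/-- `Map_lc(H, V)` is injective among discrete modules when `V` is an injective abelian group. -/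
theorem isInjDiscrete_coindLevel (V : Type) [AddCommGroup V] {inst : Module ℤ V}
    (hV : IsInjAddGroup V) : IsInjDiscrete 𝓛 (coindLevel (k := ℤ) 𝓛 V) := by
  intro A B hB i hi f
  have hA : 𝓛.IsDiscrete A := isDiscrete_of_injective i hi hB
  let f₀ : A.V →+ V :=
    { toFun := fun a => (show levelFun (k := ℤ) 𝓛 V from f.hom a).1 1
      map_zero' := by rw [map_zero]; rfl
      map_add' := fun a b => by rw [map_add]; rfl }
  obtain ⟨g₀, hg₀⟩ := hV A.V B.V (homAdd i) hi f₀
  refine ⟨orbitMap 𝓛 B hB (intLinearOfAddHom g₀), ?_⟩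
  rw [eq_orbitMap 𝓛 A hA f]
  exact comp_orbitMap 𝓛 i hA hB _ _ (fun a => hg₀ a)

/-- **The canonical envelope is injective among discrete modules.** -/
theorem isInjDiscrete_envelope (N : Rep.{0} ℤ H) : IsInjDiscrete 𝓛 (envelope 𝓛 N) :=
  isInjDiscrete_coindLevel 𝓛 (Vdiv N.V) (isInjAddGroup_Vdiv N.V)

theorem isInjDiscrete_canonicalEnvelope (m : ℕ) (hm : m ≠ 0) (N : Rep.{0} ℤ H)
    (hN : 𝓛.IsDiscrete N) : IsInjDiscrete 𝓛 (canonicalEnvelope 𝓛 m hm N hN).I :=
  isInjDiscrete_envelope 𝓛 N

end InjEnvelope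

end

end Fermat.Agent.CFT.H36
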