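import Mathlib
import Fermat.Agent.CFT.H35_EnvInj
import Fermat.Agent.CFT.H36_EnvelopeInj

/-!
# CFT / Layer D4 : bridge between the two landed notions of "injective among discrete modules"

`H35.IsInjDiscrete` (`H35_EnvInj`) and `H36.IsInjDiscrete` (`H36_EnvelopeInj`) are the same
predicate up to the order of binders.  Consumers of `H35.exists_envMor` may feed either.
-/

set_option autoImplicit false

namespace Fermat.Agent.CFT.H35

open CategoryTheory Fermat.Agent.CFT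

variable {k : Type} [CommRing k] {H : Type} [Group H] {𝓛 : LevelStructure H}

theorem isInjDiscrete_iff_H36 {I : Rep.{0} k H} :
    IsInjDiscrete 𝓛 I ↔ H36.IsInjDiscrete 𝓛 I :=
  ⟨fun h A B hB i hi f => h A B i hi hB f, fun h A M j hj hM g => h A M hM j hj g⟩

theorem IsInjDiscrete.toH36 {I : Rep.{0} k H} (h : IsInjDiscrete 𝓛 I) : H36.IsInjDiscrete 𝓛 I :=
  isInjDiscrete_iff_H36.1 h

theorem IsInjDiscrete.ofH36 {I : Rep.{0} k H} (h : H36.IsInjDiscrete 𝓛 I) : IsInjDiscrete 𝓛 I :=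
  isInjDiscrete_iff_H36.2 h

/-- `H35.exists_envMor` with helper36's predicate. -/
theorem exists_envMor_of_H36 {p : ℕ} {D : Type} [Group D] {𝓛D : LevelStructure D}
    {N : Rep.{0} k H} {N' : Rep.{0} k D} {φ : D →* H} (hφ : H50.IsCont 𝓛D 𝓛 φ)
    (E : H36.DivEnvelope 𝓛 p N) (E' : H36.DivEnvelope 𝓛D p N')
    (hI : H36.IsInjDiscrete 𝓛D E'.I) (ev : N.V →ₗ[k] N'.V)
    (hev : H50.IsEquivariant φ N N' ev) : Nonempty (H5.EnvMor φ E E' ev) :=
  exists_envMor hφ E E' (IsInjDiscrete.ofH36 hI) ev hev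

end Fermat.Agent.CFT.H35
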