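import Fermat.Agent.CFT.H55_FrozenBridge

/-!
# Interface D → E of the CFT project, and the reduction of S55 to it

`PoitouTateStatement p S` is the EXACT statement that layer D (package D3) has to prove; it is
phrased purely in the level-cohomology vocabulary (`H55_LevelDefs`, `H55_LevelRes`,
`H55_GalLevels`, `ShaL₁`, `ShaL₂` of `H55_FrozenBridge`).

`exists_pairing_of_poitouTateStatement` deduces the frozen statement S55 from it.
-/

set_option autoImplicit false

open CategoryTheory Module groupCohomology ExtCitation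

namespace Fermat.Agent.CFT

local notation "GQ" => (AlgebraicClosure ℚ ≃ₐ[ℚ] AlgebraicClosure ℚ)
local notation "Qbar" => AlgebraicClosure ℚ

/-- **Poitou–Tate for level cohomology** (target of layer D).
`X` plays the role of `M' = M^*(1)`: the pairing `b : X × M → 𝔽_p` is perfect and
`b (g x) (g m) = χ_cyc(g) · b x m`.  Local conditions only at the finite primes of `S`, with the
FULL local Galois groups `primeLocalGaloisGroup q` and the levels pulled back from `G_ℚ`. -/
def PoitouTateStatement (p : ℕ) [Fact p.Prime] (S : Finset Nat.Primes) : Prop :=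
  ∀ (M X : Rep (ZMod p) GQ) [FiniteDimensional (ZMod p) M] [FiniteDimensional (ZMod p) X],
    (globalLevels S).IsDiscrete M → (globalLevels S).IsDiscrete X →
    ∀ b : X →ₗ[ZMod p] M →ₗ[ZMod p] ZMod p,
      (∀ (g : GQ) (x : X) (m : M), b (X.ρ g x) (M.ρ g m) = (cycloChar p g : ZMod p) * b x m) →
      (∀ x, (∀ m, b x m = 0) → x = 0) → (∀ m, (∀ x, b x m = 0) → m = 0) →
      ∃ B : ShaL₁ S X →ₗ[ZMod p] ShaL₂ S M →ₗ[ZMod p] ZMod p,
        (∀ y, (∀ x, B y x = 0) → y = 0) ∧ (∀ x, (∀ y, B y x = 0) → x = 0)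

section Discrete

variable {k : Type} [CommRing k] (S : Finset Nat.Primes) (M : Rep k GQ)

/-- The hypotheses `hsm`, `hMur` of S55 say that `M` is a discrete `G_S`-module. -/
theorem isDiscrete_globalLevels [Module.Finite k M]
    (hsm : ∀ m : M, ∃ F : IntermediateField ℚ Qbar, FiniteDimensional ℚ F ∧
      ∀ s ∈ F.fixingSubgroup, M.ρ s m = m)
    (hMur : ∀ q : Nat.Primes, q ∉ S → ∀ A : ValuationSubring Qbar,
      A.LiesOverPrime (q : ℕ) → ∀ g ∈ A.inertiaSubgroupIn ℚ, M.ρ g = 1) :
    (globalLevels S).IsDiscrete M := by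
  obtain ⟨F, hF, -, -, h⟩ := H69.exists_splittingField M S hsm hMur
  intro m
  refine ⟨F.fixingSubgroup, ⟨F, hF, rfl⟩, fun s hs => ?_⟩
  rw [(h s).1 hs]
  rfl

end Discrete

/-- **S55 from the level Poitou–Tate statement.** -/
theorem exists_pairing_of_poitouTateStatement
    {p : ℕ} [Fact p.Prime] (hp2 : p ≠ 2) (S : Finset Nat.Primes) (hpS : pPrime p ∈ S)
    (hPT : PoitouTateStatement p S)
    (M : Rep (ZMod p) GQ) [FiniteDimensional (ZMod p) M]
    (hsm : ∀ m : M, ∃ F : IntermediateField ℚ Qbar, FiniteDimensional ℚ F ∧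
      ∀ s ∈ F.fixingSubgroup, M.ρ s m = m)
    (hMur : ∀ q : Nat.Primes, q ∉ S → ∀ A : ValuationSubring Qbar,
      A.LiesOverPrime (q : ℕ) → ∀ g ∈ A.inertiaSubgroupIn ℚ, M.ρ g = 1) :
    ∃ B : sha₁ S (M.dualTwist (cycloChar p)) →ₗ[ZMod p] sha₂ S M →ₗ[ZMod p] ZMod p,
      (∀ y, (∀ x, B y x = 0) → y = 0) ∧ (∀ x, (∀ y, B y x = 0) → x = 0) := by
  have h2 : IsUnit (2 : ZMod p) := H60.isUnit_two_zmod hp2
  have hM : (globalLevels S).IsDiscrete M := isDiscrete_globalLevels S M hsm hMur
  have hX : (globalLevels S).IsDiscrete (M.dualTwist (cycloChar p)) :=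
    isDiscrete_globalLevels S _ (H69.hsm_dualTwist M hsm) (H69.hMur_dualTwist M S hpS hMur)
  -- the evaluation pairing
  let b : (M.dualTwist (cycloChar p)) →ₗ[ZMod p] M →ₗ[ZMod p] ZMod p :=
    (LinearMap.id : Module.Dual (ZMod p) M →ₗ[ZMod p] Module.Dual (ZMod p) M)
  have hb : ∀ (g : GQ) (x : M.dualTwist (cycloChar p)) (m : M),
      b ((M.dualTwist (cycloChar p)).ρ g x) (M.ρ g m) = (cycloChar p g : ZMod p) * b x m := by
    intro g x m
    rw [Rep.dualTwist_ρ_apply]
    change ((cycloChar p g : ZMod p) • (x ∘ₗ M.ρ g⁻¹)) (M.ρ g m) = _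
    rw [LinearMap.smul_apply, LinearMap.comp_apply, ← Module.End.mul_apply, ← map_mul,
      inv_mul_cancel, map_one, Module.End.one_apply, smul_eq_mul]
    rfl
  have hbl : ∀ x : M.dualTwist (cycloChar p), (∀ m, b x m = 0) → x = 0 :=
    fun x hx => LinearMap.ext hx
  have hbr : ∀ m : M, (∀ x : M.dualTwist (cycloChar p), b x m = 0) → m = 0 :=
    fun m hm => (Module.forall_dual_apply_eq_zero_iff (ZMod p) m).1 hm
  obtain ⟨B', hB1, hB2⟩ := hPT M (M.dualTwist (cycloChar p)) hM hX b hb hbl hbr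
  refine ⟨B'.compl₁₂ (sha₁Equiv S (M.dualTwist (cycloChar p)) h2).symm.toLinearMap
    (sha₂Equiv S M h2).toLinearMap, ?_, ?_⟩
  · intro y hy
    have : (sha₁Equiv S (M.dualTwist (cycloChar p)) h2).symm y = 0 := by
      apply hB1
      intro x
      have := hy ((sha₂Equiv S M h2).symm x)
      simpa [LinearMap.compl₁₂_apply] using this
    exact (LinearEquiv.map_eq_zero_iff _).1 this
  · intro x hx
    have : sha₂Equiv S M h2 x = 0 := by
      apply hB2
      intro y
      have := hx (sha₁Equiv S (M.dualTwist (cycloChar p)) h2 y)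
      simpa [LinearMap.compl₁₂_apply] using this
    exact (LinearEquiv.map_eq_zero_iff _).1 this

end Fermat.Agent.CFT
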