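import Fermat.Agent.CFT.H87_CofinalEquiv
import Fermat.Agent.CFT.H55_Interface

/-!
# CFT glue D3 → E: `PoitouTateStatement` from any `ker (LinearMap.pi res)`-shaped conclusion

helper55's interface `PoitouTateStatement p S` (`H55_Interface`) is phrased with his restriction
maps `LevelStructure.resH1/resH2` (`H55_LevelRes`) and the frozen local levels
`pullLevels (primeLocalToGlobal q)`.  Layer D works with helper50's `H50.resH1/resH2` and (for the
local duality of layer B) with the intrinsic local levels.  This file shows that these agree: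

* `resH1_eq`, `resH2_eq`, `mapH1_eq`, `mapH2_eq`: the two families of maps coincide;
* `resH1_eq_zero_iff_of_cofinal`, `resH2_eq_zero_iff_of_cofinal`: vanishing of a restriction only
  depends on the cofinality class of the local level structure;
* `ShaL₁_eq_ShaL1`, `ShaL₂_eq_ShaL2`: helper55's `ShaL₁ S M`, `ShaL₂ S M` are
  `LinearMap.ker (LinearMap.pi fun q : ↥S => H50.resHn (𝓛loc q) (levelsS S) (hloc q) M)` for every
  family `𝓛loc q` cofinal with the frozen local levels (e.g. `localLevelsPrime q` of layer B);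
* `poitouTateStatement_of_level`: the target of layer D from the corresponding statement for
  `ShaL1`, `ShaL2`.
-/

set_option autoImplicit false

open CategoryTheory Module groupCohomology ExtCitation

noncomputable section

namespace Fermat.Agent.CFT.H87

open Fermat.Agent.CFT

universe u

/-! ### helper55's maps are helper50's maps -/

section Maps

variable {G H : Type u} [Group G] [Group H] {𝓛G : LevelStructure G} {𝓛H : LevelStructure H}
  {k : Type u} [CommRing k]

theorem continuous_iff_isCont (f : G →* H) : 𝓛G.Continuous 𝓛H f ↔ H50.IsCont 𝓛G 𝓛H f := Iff.rfl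

theorem mapH1_eq (f : G →* H) (hf : 𝓛G.Continuous 𝓛H f) {A : Rep k H} {B : Rep k G}
    (φ : A →ₗ[k] B) (hφ : ∀ (g : G) (a : A), φ (A.ρ (f g) a) = B.ρ g (φ a)) :
    LevelStructure.mapH1 f hf φ hφ = H50.mapH1 𝓛G 𝓛H hf (α := φ) hφ := by
  refine LinearMap.ext fun x => ?_
  induction x using Submodule.Quotient.induction_on with
  | H c => rfl

theorem mapH2_eq (f : G →* H) (hf : 𝓛G.Continuous 𝓛H f) {A : Rep k H} {B : Rep k G}
    (φ : A →ₗ[k] B) (hφ : ∀ (g : G) (a : A), φ (A.ρ (f g) a) = B.ρ g (φ a)) :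
    LevelStructure.mapH2 f hf φ hφ = H50.mapH2 𝓛G 𝓛H hf (α := φ) hφ := by
  refine LinearMap.ext fun x => ?_
  induction x using Submodule.Quotient.induction_on with
  | H c => rfl

theorem resH1_eq (f : G →* H) (hf : 𝓛G.Continuous 𝓛H f) (A : Rep k H) :
    LevelStructure.resH1 f hf A = H50.resH1 𝓛G 𝓛H hf A := by
  refine LinearMap.ext fun x => ?_
  induction x using Submodule.Quotient.induction_on with
  | H c => rfl

theorem resH2_eq (f : G →* H) (hf : 𝓛G.Continuous 𝓛H f) (A : Rep k H) :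
    LevelStructure.resH2 f hf A = H50.resH2 𝓛G 𝓛H hf A := by
  refine LinearMap.ext fun x => ?_
  induction x using Submodule.Quotient.induction_on with
  | H c => rfl

/-- helper55's and my comparison with the abstract `H¹` coincide. -/
theorem H1ToAbs_eq (𝓛 : LevelStructure H) (A : Rep k H) :
    LevelStructure.H1ToAbs 𝓛 A = H1ToAbstract A 𝓛 := by
  refine LinearMap.ext fun x => ?_
  induction x using Submodule.Quotient.induction_on with
  | H c => rfl

end Maps

/-! ### Vanishing of restrictions and cofinality -/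

section Vanish

variable {H H' : Type u} [Group H] [Group H'] {k : Type u} [CommRing k]
  {𝓛 : LevelStructure H} {𝓛₁ 𝓛₁' : LevelStructure H'} (h₁ : Cofinal 𝓛₁ 𝓛₁') {φ : H' →* H}
  (hφ : H50.IsCont 𝓛₁ 𝓛 φ) (hφ' : H50.IsCont 𝓛₁' 𝓛 φ) (A : Rep k H)

theorem H1Equiv_resH1 (y : 𝓛.H1 A) :
    h₁.H1Equiv (Rep.res φ A) (H50.resH1 𝓛₁ 𝓛 hφ A y) = H50.resH1 𝓛₁' 𝓛 hφ' A y := by
  induction y using Submodule.Quotient.induction_on with
  | H c => rfl

theorem H2Equiv_resH2 (y : 𝓛.H2 A) :
    h₁.H2Equiv (Rep.res φ A) (H50.resH2 𝓛₁ 𝓛 hφ A y) = H50.resH2 𝓛₁' 𝓛 hφ' A y := by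
  induction y using Submodule.Quotient.induction_on with
  | H c => rfl

include h₁ in
theorem resH1_eq_zero_iff_of_cofinal (y : 𝓛.H1 A) :
    H50.resH1 𝓛₁ 𝓛 hφ A y = 0 ↔ H50.resH1 𝓛₁' 𝓛 hφ' A y = 0 := by
  rw [← H1Equiv_resH1 h₁ hφ hφ' A y, LinearEquiv.map_eq_zero_iff]

include h₁ in
theorem resH2_eq_zero_iff_of_cofinal (y : 𝓛.H2 A) :
    H50.resH2 𝓛₁ 𝓛 hφ A y = 0 ↔ H50.resH2 𝓛₁' 𝓛 hφ' A y = 0 := by
  rw [← H2Equiv_resH2 h₁ hφ hφ' A y, LinearEquiv.map_eq_zero_iff]

end Vanish

/-! ### helper55's `ShaL₁`, `ShaL₂` in `ker (LinearMap.pi res)` shape -/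

section ShaCompare

variable (S : Finset Nat.Primes) {k : Type} [CommRing k] (M : Rep k GQ)
  (𝓛loc : ∀ q : ↥S, LevelStructure (primeLocalGaloisGroup q.1))
  (hloc : ∀ q : ↥S, H50.IsCont (𝓛loc q) (levelsS S) (primeLocalToGlobal q.1))
  (hcof : ∀ q : ↥S, Cofinal (𝓛loc q) (pullLevels (primeLocalToGlobal q.1)))

include hcof in
theorem ShaL₁_eq_ShaL1 : ShaL₁ S M = ShaL1 S M 𝓛loc hloc := by
  ext y
  rw [mem_ShaL₁_iff]
  erw [mem_ShaL1_iff]
  refine forall_congr' fun q => ?_
  rw [resH1_eq]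
  exact (resH1_eq_zero_iff_of_cofinal (hcof q) (hloc q) _ M y).symm

include hcof in
theorem ShaL₂_eq_ShaL2 : ShaL₂ S M = ShaL2 S M 𝓛loc hloc := by
  ext y
  rw [mem_ShaL₂_iff]
  erw [mem_ShaL2_iff]
  refine forall_congr' fun q => ?_
  rw [resH2_eq]
  exact (resH2_eq_zero_iff_of_cofinal (hcof q) (hloc q) _ M y).symm

/-- Continuity towards `levelsS S` is automatic for local level structures cofinal with the
frozen ones. -/
theorem isCont_of_cofinal_pullLevels (q : ↥S) {𝓛' : LevelStructure (primeLocalGaloisGroup q.1)}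
    (h : Cofinal 𝓛' (pullLevels (primeLocalToGlobal q.1))) :
    H50.IsCont 𝓛' (levelsS S) (primeLocalToGlobal q.1) :=
  h.isCont (isCont_levelsAll_comap_levelsS S (primeLocalToGlobal q.1))

end ShaCompare

/-! ### The target of layer D -/

section Target

variable (p : ℕ) [Fact p.Prime] (S : Finset Nat.Primes)
  (𝓛loc : ∀ q : ↥S, LevelStructure (primeLocalGaloisGroup q.1))
  (hloc : ∀ q : ↥S, H50.IsCont (𝓛loc q) (levelsS S) (primeLocalToGlobal q.1))
  (hcof : ∀ q : ↥S, Cofinal (𝓛loc q) (pullLevels (primeLocalToGlobal q.1)))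

include hcof in
/-- **Layer D → layer E.**  To prove helper55's `PoitouTateStatement p S` it suffices to produce,
for every pair of finite discrete `ZMod p`-representations `M`, `X` of `G_ℚ` with a perfect
`χ_cyc`-equivariant pairing `X × M → ZMod p`, a two-sided nondegenerate pairing between
`ker (∏_{q ∈ S} H50.resH1)` on `X` and `ker (∏_{q ∈ S} H50.resH2)` on `M`, for ANY family of local
level structures cofinal with the frozen ones. -/
theorem poitouTateStatement_of_level
    (hD : ∀ (M X : Rep (ZMod p) GQ) [FiniteDimensional (ZMod p) M] [FiniteDimensional (ZMod p) X],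
      (levelsS S).IsDiscrete M → (levelsS S).IsDiscrete X →
      ∀ b : X →ₗ[ZMod p] M →ₗ[ZMod p] ZMod p,
        (∀ (g : GQ) (x : X) (m : M),
          b (X.ρ g x) (M.ρ g m) = (cycloChar p g : ZMod p) * b x m) →
        (∀ x, (∀ m, b x m = 0) → x = 0) → (∀ m, (∀ x, b x m = 0) → m = 0) →
        ∃ B : ShaL1 S X 𝓛loc hloc →ₗ[ZMod p] ShaL2 S M 𝓛loc hloc →ₗ[ZMod p] ZMod p,
          (∀ y, (∀ x, B y x = 0) → y = 0) ∧ (∀ x, (∀ y, B y x = 0) → x = 0)) :
    PoitouTateStatement p S := by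
  intro M X _ _ hM hX b hb hl hr
  obtain ⟨B, hBl, hBr⟩ := hD M X hM hX b hb hl hr
  let e₁ : ShaL₁ S X ≃ₗ[ZMod p] ShaL1 S X 𝓛loc hloc :=
    LinearEquiv.ofEq _ _ (ShaL₁_eq_ShaL1 S X 𝓛loc hloc hcof)
  let e₂ : ShaL₂ S M ≃ₗ[ZMod p] ShaL2 S M 𝓛loc hloc :=
    LinearEquiv.ofEq _ _ (ShaL₂_eq_ShaL2 S M 𝓛loc hloc hcof)
  refine ⟨B.compl₁₂ e₁.toLinearMap e₂.toLinearMap, fun y hy => ?_, fun x hx => ?_⟩
  · have : e₁ y = 0 := hBl _ fun x => by
      have := hy (e₂.symm x)
      simpa using this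
    simpa using this
  · have : e₂ x = 0 := hBr _ fun y => by
      have := hx (e₁.symm y)
      simpa using this
    simpa using this

end Target

end Fermat.Agent.CFT.H87
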