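import Mathlib
import Fermat.Agent.CFT.H95_FinLevSub
import Fermat.Agent.CFT.H52_ClassModule

/-!
# CFT / D0-FINLEV-SUB, corollaries for `p`-class formations

`F : PClassFormation p 𝓛 C` (`C : Rep.{0} ℤ H`), `U : Subgroup H` ARBITRARY (no openness needed).
Level cohomology of `(U, 𝓛.restrict U, Rep.res U.subtype C)`:

* `H1_pTorsionFree_sub`, `H3_pTorsionFree_sub` : no `p`-power torsion (`p ^ m • x = 0 → x = 0`);
* `H1_pTorsionFree_sub'`, `H3_pTorsionFree_sub'` : the `m = 1` forms `p • x = 0 → x = 0`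
  (`H3_pTorsionFree_sub'` is hypothesis (A) of `H52.axI3_of` verbatim);
* `H1_pTorsionFree_top`, `H3_pTorsionFree_top` : the same for `𝓛.H1 C`, `𝓛.H3 C` (the whole group).
-/

set_option autoImplicit false
set_option linter.style.haveILetI false
set_option linter.unusedSectionVars false

noncomputable section

open CategoryTheory groupCohomology

namespace Fermat.Agent.CFT.H95

open Fermat.Agent.CFT

variable {p : ℕ} [Fact p.Prime] {H : Type} [Group H] {𝓛 : LevelStructure H} {C : Rep.{0} ℤ H}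

/-- `H¹(U; C)` has no `p`-power torsion, for every subgroup `U` of a `p`-class formation. -/
theorem H1_pTorsionFree_sub (F : PClassFormation p 𝓛 C) (U : Subgroup H)
    (x : (𝓛.restrict U).H1 (Rep.res U.subtype C)) (m : ℕ) (hx : p ^ m • x = 0) : x = 0 := by
  obtain ⟨N₀, h₀⟩ := 𝓛.nonempty
  refine eq_zero_of_nsmul_eq_zero_sub₁ U F.discrete h₀ (p ^ m) (fun N hN hnor _ y hy => ?_) x hx
  haveI := 𝓛.finiteIndex N hN
  haveI : Finite (H ⧸ N) := Subgroup.finite_quotient_of_finiteIndex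
  exact H52.H1_pTorsionFree_res_of_isPClassModule (C.quotientToInvariants N) (F.fund N hN)
    (F.isClass N hN) (subQ U N) y m hy

/-- `H³(U; C)` has no `p`-power torsion, for every subgroup `U` of a `p`-class formation. -/
theorem H3_pTorsionFree_sub (F : PClassFormation p 𝓛 C) (U : Subgroup H)
    (x : (𝓛.restrict U).H3 (Rep.res U.subtype C)) (m : ℕ) (hx : p ^ m • x = 0) : x = 0 := by
  obtain ⟨N₀, h₀⟩ := 𝓛.nonempty
  refine eq_zero_of_nsmul_eq_zero_sub₃ U F.discrete h₀ (p ^ m) (fun N hN hnor _ y hy => ?_) x hx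
  haveI := 𝓛.finiteIndex N hN
  haveI : Finite (H ⧸ N) := Subgroup.finite_quotient_of_finiteIndex
  exact H52.H3_pTorsionFree_res_of_isPClassModule (C.quotientToInvariants N) (F.fund N hN)
    (F.isClass N hN) (subQ U N) y m hy

/-- `p • x = 0 → x = 0` in `H¹(U; C)`. -/
theorem H1_pTorsionFree_sub' (F : PClassFormation p 𝓛 C) (U : Subgroup H)
    (x : (𝓛.restrict U).H1 (Rep.res U.subtype C)) (hx : p • x = 0) : x = 0 :=
  H1_pTorsionFree_sub F U x 1 (by rwa [pow_one])

/-- `p • x = 0 → x = 0` in `H³(U; C)`: hypothesis (A) of `H52.axI3_of`. -/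
theorem H3_pTorsionFree_sub' (F : PClassFormation p 𝓛 C) (U : Subgroup H)
    (x : (𝓛.restrict U).H3 (Rep.res U.subtype C)) (hx : p • x = 0) : x = 0 :=
  H3_pTorsionFree_sub F U x 1 (by rwa [pow_one])

/-- `H¹(H; C)` (level cohomology of the whole group) has no `p`-power torsion. -/
theorem H1_pTorsionFree_top (F : PClassFormation p 𝓛 C) (x : 𝓛.H1 C) (m : ℕ)
    (hx : p ^ m • x = 0) : x = 0 := by
  obtain ⟨N₀, h₀⟩ := 𝓛.nonempty
  refine eq_zero_of_nsmul_eq_zero₁ F.discrete h₀ (p ^ m) (fun N hN hnor _ y hy => ?_) x hx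
  haveI := 𝓛.finiteIndex N hN
  haveI : Finite (H ⧸ N) := Subgroup.finite_quotient_of_finiteIndex
  exact H52.H1_pTorsionFree_of_isPClassModule (C.quotientToInvariants N) (F.fund N hN)
    (F.isClass N hN) y m hy

/-- `H³(H; C)` (level cohomology of the whole group) has no `p`-power torsion. -/
theorem H3_pTorsionFree_top (F : PClassFormation p 𝓛 C) (x : 𝓛.H3 C) (m : ℕ)
    (hx : p ^ m • x = 0) : x = 0 := by
  obtain ⟨N₀, h₀⟩ := 𝓛.nonempty
  refine eq_zero_of_nsmul_eq_zero₃ F.discrete h₀ (p ^ m) (fun N hN hnor _ y hy => ?_) x hx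
  haveI := 𝓛.finiteIndex N hN
  haveI : Finite (H ⧸ N) := Subgroup.finite_quotient_of_finiteIndex
  exact H52.H3_pTorsionFree_of_isPClassModule (C.quotientToInvariants N) (F.fund N hN)
    (F.isClass N hN) y m hy

end Fermat.Agent.CFT.H95

end
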