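/-
CFT project, layer D, package D4-inst-CoarseLift (helper36).

The concrete instance of helper22's hypothesis `H22.CoarseLift` (file `H22_SLCoindEnv`):

* `subsingleton_H1_sub_of_classFormation` : for a (full) class formation `F : ClassFormation 𝓛 C`
  the level cohomology `H¹(U; C)` vanishes for EVERY subgroup `U` (Hilbert 90 in formation
  vocabulary), with the cochain form `h1Vanishes_of_classFormation`;
* `coarseLift_of_classFormation` : for a continuous `φ : D →* G`, a class formation on
  `(D, 𝓛D, A)` and an envelope `E` of `A` with coinduced `E.I`, `H22.CoarseLift 𝓛 φ E`;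
* `coarseLift_canonicalEnvelope` : the same for the canonical envelope;
* `coarseLift_prime` : the instance for `(H87.levelsS S, primeLocalToGlobal q, localUnitsPrime q)`.
-/
import Fermat.Agent.CFT.H22_SLCoindEnv
import Fermat.Agent.CFT.H36_Envelope3
import Fermat.Agent.CFT.H95_FormationOpen
import Fermat.Agent.CFT.H15_LocalDuality
import Fermat.Agent.CFT.H87_PTBridge

set_option autoImplicit false

open CategoryTheory groupCohomology ExtCitation

namespace Fermat.Agent.CFT.H36

open Fermat.Agent.CFT

section Generic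

variable {H : Type} [Group H] {𝓛 : LevelStructure H} {C : Rep.{0} ℤ H}

/-- **Hilbert 90 in formation vocabulary**: for a class formation, the level cohomology
`H¹(U; C)` vanishes for every subgroup `U`. -/
theorem subsingleton_H1_sub_of_classFormation (F : ClassFormation 𝓛 C) (U : Subgroup H) :
    Subsingleton ((𝓛.restrict U).H1 (Rep.res U.subtype C)) := by
  have key : ∀ x : (𝓛.restrict U).H1 (Rep.res U.subtype C), x = 0 := by
    intro x
    obtain ⟨N₀, h₀⟩ := 𝓛.nonempty
    refine H95.eq_zero_of_nsmul_eq_zero_sub₁ U F.discrete h₀ 0 (fun N hN hnor _ y _ => ?_) x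
      (zero_nsmul x)
    have : N.Normal := hnor
    have := (F.isClass N hN).h1 (H95.subQ U N)
    exact Subsingleton.elim _ _
  exact ⟨fun x y => (key x).trans (key y).symm⟩

/-- Cochain form of `subsingleton_H1_sub_of_classFormation`. -/
theorem h1Vanishes_of_classFormation (F : ClassFormation 𝓛 C) (U : Subgroup H) :
    H5.H1Vanishes 𝓛 U C :=
  H5.h1Vanishes_of_subsingleton (subsingleton_H1_sub_of_classFormation F U)

end Generic

/-! ## `CoarseLift` from a class formation -/

section Coarse

variable {G D : Type} [Group G] [Group D] (𝓛 : LevelStructure G) {φ : D →* G}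
  {𝓛D : LevelStructure D} {m : ℕ} {A : Rep.{0} ℤ D}

/-- The preimage of a level of `𝓛` under a continuous homomorphism is open. -/
lemma isOpen_of_mem_comap_levels (hφ : H50.IsCont 𝓛D 𝓛 φ) {N : Subgroup D}
    (hN : N ∈ (𝓛.comap φ).levels) : 𝓛D.IsOpen N := by
  obtain ⟨N₀, hN₀, rfl⟩ := hN
  exact hφ N₀ hN₀

/-- **`CoarseLift` from a class formation**: if `(D, 𝓛D, A)` is a class formation (Hilbert 90 on
all subgroups) and `E.I[m]` has vanishing `H¹` on the open subgroups of `D`, then the smooth
lifting hypotheses hold for the coarse structure `𝓛.comap φ`, for every continuous `φ`. -/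
theorem coarseLift_of_classFormation' (hφ : H50.IsCont 𝓛D 𝓛 φ) (F : ClassFormation 𝓛D A)
    (E : DivEnvelope 𝓛D m A)
    (hT : ∀ U : Subgroup D, 𝓛D.IsOpen U →
      Subsingleton ((𝓛D.restrict U).H1 (Rep.res U.subtype (torsionRep m E.I)))) :
    H22.CoarseLift 𝓛 φ E :=
  H22.CoarseLift.of_h1Vanishes 𝓛 φ E
    (fun N hN => ⟨N, hN, le_rfl, h1Vanishes_of_classFormation F N⟩)
    (fun N hN => ⟨N, hN, le_rfl,
      H5.h1Vanishes_of_subsingleton (hT N (isOpen_of_mem_comap_levels 𝓛 hφ hN))⟩)

/-- `CoarseLift` for an envelope with coinduced `I`. -/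
theorem coarseLift_of_classFormation (hφ : H50.IsCont 𝓛D 𝓛 φ) (F : ClassFormation 𝓛D A)
    (E : DivEnvelope 𝓛D m A) (hI : IsCoinduced 𝓛D E.I) : H22.CoarseLift 𝓛 φ E :=
  coarseLift_of_classFormation' 𝓛 hφ F E
    (fun U hU => (hI.torsion m).subsingleton_H1_restrict U hU)

/-- `CoarseLift` for the canonical envelope of a class formation module. -/
theorem coarseLift_canonicalEnvelope (hφ : H50.IsCont 𝓛D 𝓛 φ) (F : ClassFormation 𝓛D A)
    (hm : m ≠ 0) :
    H22.CoarseLift 𝓛 φ (canonicalEnvelope 𝓛D m hm A F.discrete) :=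
  coarseLift_of_classFormation 𝓛 hφ F _ (isCoinduced_canonicalEnvelope 𝓛D m hm A F.discrete)

end Coarse

/-! ## The concrete local instance -/

section Concrete

variable (S : Finset Nat.Primes)

/-- Continuity of `primeLocalToGlobal q` from the frozen local levels to `H87.levelsS S`. -/
theorem isCont_primeLocalToGlobal (q : ↥S) :
    H50.IsCont (pullLevels (primeLocalToGlobal q.1)) (H87.levelsS S) (primeLocalToGlobal q.1) :=
  H87.isCont_of_cofinal_pullLevels S q (H87.Cofinal.refl _)

/-- **The `CoarseLift` hypothesis of helper22's D4 theorem** for the local data of the frozen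
statement: `𝓛 = H87.levelsS S`, `φ = primeLocalToGlobal q`, `A = localUnitsPrime q`,
`E` = the canonical envelope. -/
theorem coarseLift_prime (m : ℕ) (hm : m ≠ 0) (q : ↥S) :
    H22.CoarseLift (H87.levelsS S) (primeLocalToGlobal q.1)
      (canonicalEnvelope (pullLevels (primeLocalToGlobal q.1)) m hm (localUnitsPrime q.1)
        (isDiscrete_localUnitsPrime q.1)) :=
  coarseLift_canonicalEnvelope (H87.levelsS S) (isCont_primeLocalToGlobal S q)
    (H15.localCFPrime q.1) hm

end Concrete



end Fermat.Agent.CFT.H36
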