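/-
CFT layer D3-inst: the weighted compatibility (hX5) of the global and the local traces, derived
from the constant-free statement (X5'').  helper55.

* `H55.exists_weights`: the linear-algebra core (Mathlib only).
* `H55.constLin`, `H55.evLin`: `W ≅ Hom(X, W)` for a trivial line `X`; consequences:
  `tr_injective_of_isDual2`, `subsingleton_H1_Vm_of_isAcyclic`.
-/
import Mathlib
import Fermat.Agent.CFT.H5_EnvCompare
import Fermat.Agent.CFT.H91_D2Theta
import Fermat.Agent.CFT.H91_D2Defs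
import Fermat.Agent.CFT.H1_LevelLESRes
import Fermat.Agent.CFT.H36_Envelope3

set_option autoImplicit false

open CategoryTheory

namespace Fermat.Agent.CFT.H55

open Fermat.Agent.CFT

/-! ### The linear-algebra core -/

section Weights

variable {k : Type*} [Field k] {ι : Type*} [Fintype ι] [DecidableEq ι]
  {V : Type*} [AddCommGroup V] [Module k V]
  {L : ι → Type*} [∀ v, AddCommGroup (L v)] [∀ v, Module k (L v)]

/-- **Weights.**  `V` is decomposed by (not necessarily idempotent) operators `P v` with sum the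
identity; the "localisations" `Λ v` are jointly injective and `Λ u` kills the `v`-part for
`u ≠ v`; the local functionals `t v` are injective.  If the global functional `f` is nonzero on
every `v`-part, then `f = ∑ v, c v • (t v ∘ Λ v)` with all `c v ≠ 0`. -/
theorem exists_weights (f : V →ₗ[k] k) (Λ : ∀ v, V →ₗ[k] L v) (t : ∀ v, L v →ₗ[k] k)
    (ht : ∀ v, Function.Injective (t v))
    (P : ι → V →ₗ[k] V) (hsum : ∀ w, ∑ v, P v w = w)
    (horth : ∀ u v, u ≠ v → ∀ w, Λ u (P v w) = 0)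
    (hinj : ∀ w, (∀ v, Λ v w = 0) → w = 0)
    (hne : ∀ v, ∃ w, f (P v w) ≠ 0) :
    ∃ c : ι → k, (∀ v, c v ≠ 0) ∧ ∀ w, f w = ∑ v, c v * t v (Λ v w) := by
  classical
  -- `g v = t v ∘ Λ v` only sees the `v`-part
  have hg : ∀ v w, t v (Λ v w) = t v (Λ v (P v w)) := by
    intro v w
    conv_lhs => rw [← hsum w]
    rw [map_sum, map_sum]
    refine Finset.sum_eq_single v (fun u _ huv => ?_) (fun h => absurd (Finset.mem_univ v) h)
    rw [horth v u (Ne.symm huv) w, map_zero]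
  -- `g v` is injective on the `v`-part
  have hgi : ∀ v w, t v (Λ v (P v w)) = 0 → P v w = 0 := by
    intro v w h
    apply hinj
    intro u
    by_cases huv : u = v
    · subst huv
      exact ht u (by rw [h, map_zero])
    · exact horth u v huv w
  choose w₀ hw₀ using hne
  have ha : ∀ v, t v (Λ v (P v (w₀ v))) ≠ 0 := by
    intro v h
    apply hw₀ v
    rw [hgi v _ h, map_zero]
  refine ⟨fun v => f (P v (w₀ v)) / t v (Λ v (P v (w₀ v))), fun v => div_ne_zero (hw₀ v) (ha v),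
    fun w => ?_⟩
  conv_lhs => rw [← hsum w]
  rw [map_sum]
  refine Finset.sum_congr rfl fun v _ => ?_
  have hav := ha v
  have h1 : P v (w - (t v (Λ v (P v w)) / t v (Λ v (P v (w₀ v)))) • w₀ v) = 0 := by
    apply hgi
    rw [map_sub, map_smul, map_sub, map_smul, map_sub, map_smul, smul_eq_mul,
      div_mul_cancel₀ _ hav, sub_self]
  have h2 : P v w = (t v (Λ v (P v w)) / t v (Λ v (P v (w₀ v)))) • P v (w₀ v) := by
    rw [map_sub, map_smul, sub_eq_zero] at h1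
    exact h1
  rw [hg v w]
  conv_lhs => rw [h2]
  rw [map_smul, smul_eq_mul]
  field_simp

end Weights

/-! ### A trivial line `X`: `W ≅ Hom(X, W)` -/

section TrivialLine

variable {p : ℕ} [Fact p.Prime] {H : Type} [Group H]
  (X : Rep.{0} (ZMod p) H) (e : X.V ≃ₗ[ZMod p] ZMod p) (htriv : ∀ (g : H) (x : X.V), X.ρ g x = x)
  (W : Rep.{0} (ZMod p) H)

/-- `w ↦ (x ↦ e x • w)`. -/
noncomputable def constLin : W.V →ₗ[ZMod p] (homRep X W).V :=
  (LinearMap.lsmul (ZMod p) W.V).flip.compr₂ₛₗ LinearMap.id |>.flip.comp e.toLinearMap |>.flip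

lemma constLin_apply (w : W.V) (x : X.V) :
    (show X.V →ₗ[ZMod p] W.V from constLin X e W w) x = e x • w := rfl

/-- `f ↦ f (e⁻¹ 1)`. -/
noncomputable def evLin : (homRep X W).V →ₗ[ZMod p] W.V :=
  LinearMap.applyₗ (e.symm 1)

lemma evLin_apply (f : X.V →ₗ[ZMod p] W.V) : evLin X e W f = f (e.symm 1) := rfl

lemma evLin_constLin (w : W.V) : evLin X e W (constLin X e W w) = w := by
  rw [evLin_apply, constLin_apply, LinearEquiv.apply_symm_apply, one_smul]

lemma constLin_evLin (f : (homRep X W).V) : constLin X e W (evLin X e W f) = f := by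
  refine LinearMap.ext fun x => ?_
  rw [constLin_apply, evLin_apply]
  have : x = e x • e.symm 1 := by
    apply e.injective
    rw [map_smul, LinearEquiv.apply_symm_apply, smul_eq_mul, mul_one]
  conv_rhs => rw [this]
  exact (map_smul (show X.V →ₗ[ZMod p] W.V from f) _ _).symm

include htriv in
lemma isEquivariant_constLin :
    H50.IsEquivariant (MonoidHom.id H) W (homRep X W) (constLin X e W) := by
  intro g w
  refine LinearMap.ext fun x => ?_
  rw [homRep_ρ_apply, constLin_apply, constLin_apply, htriv, map_smul]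
  rfl

include htriv in
lemma isEquivariant_evLin :
    H50.IsEquivariant (MonoidHom.id H) (homRep X W) W (evLin X e W) := by
  intro g f
  rw [evLin_apply, evLin_apply]
  show ((homRep X W).ρ g f) (e.symm 1) = _
  rw [homRep_ρ_apply, htriv]

variable (𝓛 : LevelStructure H)

include htriv in
/-- `H¹(W) → H¹(Hom(X, W))` is injective for a trivial line `X`. -/
theorem mapH1_constLin_injective :
    Function.Injective (H50.mapH1 𝓛 𝓛 (H50.isCont_id 𝓛) (isEquivariant_constLin X e htriv W)) := by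
  have key : ∀ y, H50.mapH1 𝓛 𝓛 (H50.isCont_id 𝓛) (isEquivariant_evLin X e htriv W)
      (H50.mapH1 𝓛 𝓛 (H50.isCont_id 𝓛) (isEquivariant_constLin X e htriv W) y) = y := by
    intro y
    induction y using Submodule.Quotient.induction_on with
    | H c =>
      show Submodule.Quotient.mk _ = Submodule.Quotient.mk _
      congr 1
      apply Subtype.ext
      funext g
      exact evLin_constLin X e W _
  exact Function.LeftInverse.injective key

include e htriv in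
/-- The trace of a `W`-datum with `α²` injective at a trivial line is injective. -/
theorem tr_injective_of_alpha2 {𝓛} (𝒟 : WDatum p 𝓛) (tr : 𝓛.H1 𝒟.W →ₗ[ZMod p] ZMod p)
    (h : Function.Injective (𝒟.alpha2 tr X)) : Function.Injective tr := by
  rw [injective_iff_map_eq_zero]
  intro y hy
  apply mapH1_constLin_injective X e htriv 𝒟.W 𝓛
  rw [map_zero]
  apply h
  rw [map_zero]
  refine LinearMap.ext fun x => ?_
  rw [LinearMap.zero_apply]
  have key : 𝒟.alpha2 tr X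
      (H50.mapH1 𝓛 𝓛 (H50.isCont_id 𝓛) (isEquivariant_constLin X e htriv 𝒟.W) y) x =
      e x.1 • tr y := by
    induction y using Submodule.Quotient.induction_on with
    | H c =>
      rw [← map_smul]
      show tr (Submodule.Quotient.mk _) = tr _
      congr 1
  rw [key, hy, smul_zero]

include e htriv in
theorem subsingleton_H1_of_homRep (h : Subsingleton (𝓛.H1 (homRep X W))) :
    Subsingleton (𝓛.H1 W) :=
  (mapH1_constLin_injective X e htriv W 𝓛).subsingleton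

end TrivialLine

/-! ### The standard trivial line -/

section Triv

variable {p : ℕ} [Fact p.Prime] {H : Type} [Group H]

/-- The trivial line. -/
noncomputable abbrev trivLine (p : ℕ) [Fact p.Prime] (H : Type) [Group H] : Rep.{0} (ZMod p) H :=
  Rep.trivial (ZMod p) H (ZMod p)

lemma trivLine_ρ (g : H) (x : (trivLine p H).V) : (trivLine p H).ρ g x = x := rfl

lemma isFinDiscrete_trivLine (𝓛 : LevelStructure H) : IsFinDiscrete 𝓛 (trivLine p H) := by
  refine ⟨?_, fun x => ?_⟩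
  · show Finite (ZMod p)
    infer_instance
  · obtain ⟨N, hN⟩ := 𝓛.nonempty
    exact ⟨N, hN, fun n _ => rfl⟩

/-- The trace of a `W`-datum satisfying duality is injective. -/
theorem tr_injective_of_d1Conclusion {𝓛 : LevelStructure H} (𝒟 : WDatum p 𝓛)
    (tr : 𝓛.H1 𝒟.W →ₗ[ZMod p] ZMod p) (h : D1Conclusion 𝓛 𝒟 tr) : Function.Injective tr :=
  tr_injective_of_alpha2 (trivLine p H) (LinearEquiv.refl _ _) trivLine_ρ 𝒟 tr
    (h _ (isFinDiscrete_trivLine 𝓛)).1.1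

theorem subsingleton_H1_Vm_of_isAcyclic {𝓛 : LevelStructure H} (𝒟 : WDatum p 𝓛)
    (h : 𝒟.IsAcyclic) : Subsingleton (𝓛.H1 𝒟.Vm) :=
  subsingleton_H1_of_homRep (trivLine p H) (LinearEquiv.refl _ _) trivLine_ρ 𝒟.Vm 𝓛
    (h _ (isFinDiscrete_trivLine 𝓛)).1

end Triv

/-! ### `H1Wmap`: homotopy invariance, compatibility with `T2map` at a trivial line -/

section H1W

variable {p : ℕ} [Fact p.Prime] {H D : Type} [Group H] [Group D]
  {𝓛 : LevelStructure H} {𝓛D : LevelStructure D} {φ : D →* H} (hφ : H50.IsCont 𝓛D 𝓛 φ)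
  {𝒟 : WDatum p 𝓛} {𝒟' : WDatum p 𝓛D}

/-- Homotopic morphisms of `W`-data induce the same map `H¹(W) → H¹(W')` if `H¹(Vm') = 0`. -/
theorem H1Wmap_eq_of_homotopy {Φ Ψ : H5.WMor φ 𝒟 𝒟'} (σ : H5.WMor.Homotopy Φ Ψ)
    (hAC1 : Subsingleton (𝓛D.H1 𝒟'.Vm)) : Φ.H1Wmap hφ = Ψ.H1Wmap hφ := by
  have key : ∀ ξ : 𝓛.H1 𝒟.W, Φ.H1Wmap hφ ξ - Ψ.H1Wmap hφ ξ =
      H50.coeffH1 𝓛D 𝒟'.d (H50.mapH1 𝓛D 𝓛 hφ σ.hs ξ) := by
    intro ξ
    induction ξ using Submodule.Quotient.induction_on with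
    | H c =>
      show Submodule.Quotient.mk _ - Submodule.Quotient.mk _ = Submodule.Quotient.mk _
      rw [← Submodule.Quotient.mk_sub]
      congr 1
      apply Subtype.ext
      funext g
      exact σ.eq _
  refine LinearMap.ext fun ξ => ?_
  have h0 : H50.mapH1 𝓛D 𝓛 hφ σ.hs ξ = 0 := Subsingleton.elim _ _
  have := key ξ
  rw [h0, map_zero] at this
  exact sub_eq_zero.mp this

variable (X : Rep.{0} (ZMod p) H) (e : X.V ≃ₗ[ZMod p] ZMod p)
  (htriv : ∀ (g : H) (x : X.V), X.ρ g x = x)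

/-- `T2map` at a trivial line is `H1Wmap`. -/
theorem T2map_mapH1_constLin (Φ : H5.WMor φ 𝒟 𝒟') (w : 𝓛.H1 𝒟.W) :
    Φ.T2map hφ X (H50.mapH1 𝓛 𝓛 (H50.isCont_id 𝓛) (isEquivariant_constLin X e htriv 𝒟.W) w) =
      H50.mapH1 𝓛D 𝓛D (H50.isCont_id 𝓛D)
        (isEquivariant_constLin (Rep.res φ X) e (fun g x => htriv (φ g) x) 𝒟'.W)
        (Φ.H1Wmap hφ w) := by
  induction w using Submodule.Quotient.induction_on with
  | H c =>
    show Submodule.Quotient.mk _ = Submodule.Quotient.mk _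
    congr 1
    apply Subtype.ext
    funext g
    refine LinearMap.ext fun x => ?_
    exact map_smul Φ.b (e x) _

include e htriv in
/-- Joint injectivity of the `T2map`s at a trivial line gives joint injectivity of the
`H1Wmap`s. -/
theorem H1Wmap_jointly_injective {ι : Type} {Dv : ι → Type} [∀ v, Group (Dv v)]
    {𝓛v : ∀ v, LevelStructure (Dv v)} {φv : ∀ v, Dv v →* H}
    (hφv : ∀ v, H50.IsCont (𝓛v v) 𝓛 (φv v)) {𝒟v : ∀ v, WDatum p (𝓛v v)}
    (Φ : ∀ v, H5.WMor (φv v) 𝒟 (𝒟v v))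
    (h : ∀ z : 𝒟.T2 X, (∀ v, (Φ v).T2map (hφv v) X z = 0) → z = 0)
    (w : 𝓛.H1 𝒟.W) (hw : ∀ v, (Φ v).H1Wmap (hφv v) w = 0) : w = 0 := by
  apply mapH1_constLin_injective X e htriv 𝒟.W 𝓛
  rw [map_zero]
  apply h
  intro v
  rw [T2map_mapH1_constLin (hφv v) X e htriv (Φ v) w, hw v, map_zero]

end H1W

/-! ### Envelope morphisms: composites over `φ`, zero, sums -/

section Env

variable {p : ℕ} [Fact p.Prime] {k : Type} [CommRing k] {H D : Type} [Group H] [Group D]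
  {𝓛 : LevelStructure H} {𝓛D : LevelStructure D} {φ : D →* H} (hφ : H50.IsCont 𝓛D 𝓛 φ)
  {N : Rep.{0} k H} {N' : Rep.{0} k D}
  {E : H36.DivEnvelope 𝓛 p N} {E' : H36.DivEnvelope 𝓛D p N'}

/-- Change the base map of an envelope morphism to a pointwise equal one. -/
def envMorCongr {ev ev' : N.V →ₗ[k] N'.V} (Λ : H5.EnvMor φ E E' ev) (h : ∀ c, ev c = ev' c) :
    H5.EnvMor φ E E' ev' where
  F := Λ.F
  hF := Λ.hF
  comm := fun c => by rw [Λ.comm, h c]

lemma envMorCongr_H1Wmap {ev ev' : N.V →ₗ[k] N'.V} (Λ : H5.EnvMor φ E E' ev)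
    (h : ∀ c, ev c = ev' c) :
    (envMorCongr Λ h).toWMor.H1Wmap hφ = Λ.toWMor.H1Wmap hφ := rfl

/-- The zero envelope morphism (over the zero map). -/
def envMorZero (φ : D →* H) (E : H36.DivEnvelope 𝓛 p N) (E' : H36.DivEnvelope 𝓛D p N') :
    H5.EnvMor φ E E' (0 : N.V →ₗ[k] N'.V) where
  F := 0
  hF := fun g x => by simp
  comm := fun c => by simp

lemma envMorZero_Fbar (q : E.Q.V) : (envMorZero φ E E').Fbar q = 0 := by
  obtain ⟨x, rfl⟩ := E.π_surjective q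
  rw [H5.EnvMor.Fbar_π]
  show E'.π.hom 0 = 0
  exact map_zero _

lemma envMorZero_H1Wmap : (envMorZero φ E E').toWMor.H1Wmap hφ = 0 := by
  refine LinearMap.ext fun w => ?_
  induction w using Submodule.Quotient.induction_on with
  | H c =>
    show Submodule.Quotient.mk _ = 0
    rw [Submodule.Quotient.mk_eq_zero]
    convert Submodule.zero_mem _
    apply Subtype.ext
    funext g
    apply Subtype.ext
    exact envMorZero_Fbar _

/-- An envelope morphism over a base map which vanishes induces zero on `H¹(W)`. -/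
theorem H1Wmap_eq_zero_of_ev_eq_zero {ev : N.V →ₗ[k] N'.V} (Λ : H5.EnvMor φ E E' ev)
    (hev : ∀ c, ev c = 0) (hAC1 : Subsingleton (𝓛D.H1 E'.wDatum.Vm)) :
    Λ.toWMor.H1Wmap hφ = 0 := by
  rw [← envMorCongr_H1Wmap hφ Λ (ev' := 0) (fun c => by rw [hev c]; rfl),
    H1Wmap_eq_of_homotopy hφ ((envMorCongr Λ _).homotopy (envMorZero φ E E')) hAC1,
    envMorZero_H1Wmap]

/-- Composite of an endomorphism of `E` (same group) with an envelope morphism over `φ`. -/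
def envMorCompOver {e : N.V →ₗ[k] N.V} {ev : N.V →ₗ[k] N'.V}
    (Ψ : H5.EnvMor (MonoidHom.id H) E E e) (Λ : H5.EnvMor φ E E' ev) :
    H5.EnvMor φ E E' (ev ∘ₗ e) where
  F := Λ.F ∘ₗ Ψ.F
  hF := fun g x => by
    show Λ.F (Ψ.F (E.I.ρ (φ g) x)) = E'.I.ρ g (Λ.F (Ψ.F x))
    have h1 : Ψ.F (E.I.ρ (φ g) x) = E.I.ρ (φ g) (Ψ.F x) := Ψ.hF (φ g) x
    rw [h1]
    exact Λ.hF g _
  comm := fun c => by
    show Λ.F (Ψ.F (E.ι.hom c)) = E'.ι.hom (ev (e c))
    rw [Ψ.comm, Λ.comm]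

lemma envMorCompOver_Fbar {e : N.V →ₗ[k] N.V} {ev : N.V →ₗ[k] N'.V}
    (Ψ : H5.EnvMor (MonoidHom.id H) E E e) (Λ : H5.EnvMor φ E E' ev) (q : E.Q.V) :
    (envMorCompOver Ψ Λ).Fbar q = Λ.Fbar (Ψ.Fbar q) := by
  obtain ⟨x, rfl⟩ := E.π_surjective q
  rw [H5.EnvMor.Fbar_π, H5.EnvMor.Fbar_π, H5.EnvMor.Fbar_π]
  rfl

lemma envMorCompOver_H1Wmap {e : N.V →ₗ[k] N.V} {ev : N.V →ₗ[k] N'.V}
    (Ψ : H5.EnvMor (MonoidHom.id H) E E e) (Λ : H5.EnvMor φ E E' ev) (w : 𝓛.H1 E.wDatum.W) :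
    (envMorCompOver Ψ Λ).toWMor.H1Wmap hφ w =
      Λ.toWMor.H1Wmap hφ (Ψ.toWMor.H1Wmap (H50.isCont_id 𝓛) w) := by
  induction w using Submodule.Quotient.induction_on with
  | H c =>
    show Submodule.Quotient.mk _ = Submodule.Quotient.mk _
    congr 1
    apply Subtype.ext
    funext g
    apply Subtype.ext
    exact envMorCompOver_Fbar Ψ Λ _

/-- `Λ_u ∘ ẽ_v` induces zero on `H¹(W)` when `ev_u ∘ e_v = 0`. -/
theorem H1Wmap_comp_eq_zero {e : N.V →ₗ[k] N.V} {ev : N.V →ₗ[k] N'.V}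
    (Ψ : H5.EnvMor (MonoidHom.id H) E E e) (Λ : H5.EnvMor φ E E' ev)
    (h : ∀ c, ev (e c) = 0) (hAC1 : Subsingleton (𝓛D.H1 E'.wDatum.Vm)) (w : 𝓛.H1 E.wDatum.W) :
    Λ.toWMor.H1Wmap hφ (Ψ.toWMor.H1Wmap (H50.isCont_id 𝓛) w) = 0 := by
  rw [← envMorCompOver_H1Wmap hφ Ψ Λ w,
    H1Wmap_eq_zero_of_ev_eq_zero hφ (envMorCompOver Ψ Λ) h hAC1]
  rfl

/-- The sum of a finite family of endomorphisms of an envelope. -/
def envMorSum {ι : Type} [Fintype ι] (e : ι → N.V →ₗ[k] N.V)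
    (Ψ : ∀ v, H5.EnvMor (MonoidHom.id H) E E (e v)) :
    H5.EnvMor (MonoidHom.id H) E E (∑ v, e v) where
  F := ∑ v, (Ψ v).F
  hF := fun g x => by
    simp only [LinearMap.sum_apply, map_sum]
    exact Finset.sum_congr rfl fun v _ => (Ψ v).hF g x
  comm := fun c => by
    simp only [LinearMap.sum_apply, map_sum]
    exact Finset.sum_congr rfl fun v _ => (Ψ v).comm c

lemma envMorSum_Fbar {ι : Type} [Fintype ι] (e : ι → N.V →ₗ[k] N.V)
    (Ψ : ∀ v, H5.EnvMor (MonoidHom.id H) E E (e v)) (q : E.Q.V) :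
    (envMorSum e Ψ).Fbar q = ∑ v, (Ψ v).Fbar q := by
  obtain ⟨x, rfl⟩ := E.π_surjective q
  rw [H5.EnvMor.Fbar_π]
  show E.π.hom ((∑ v, (Ψ v).F) x) = _
  rw [LinearMap.sum_apply, map_sum]
  exact Finset.sum_congr rfl fun v _ => ((Ψ v).Fbar_π x).symm

lemma torsionLin_sum_apply {ι : Type} [Fintype ι] (e : ι → N.V →ₗ[k] N.V)
    (Ψ : ∀ v, H5.EnvMor (MonoidHom.id H) E E (e v)) (x : H36.torsionSub p E.Q.V) :
    H5.torsionLin p (envMorSum e Ψ).Fbar.toAddMonoidHom x =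
      ∑ v, H5.torsionLin p (Ψ v).Fbar.toAddMonoidHom x := by
  apply Subtype.ext
  rw [H5.torsionLin_coe]
  have : ((∑ v, H5.torsionLin p (Ψ v).Fbar.toAddMonoidHom x : H36.torsionSub p E.Q.V) : E.Q.V) =
      ∑ v, ((H5.torsionLin p (Ψ v).Fbar.toAddMonoidHom x : H36.torsionSub p E.Q.V) : E.Q.V) :=
    map_sum (H36.torsionSub p E.Q.V).subtype _ _
  rw [this]
  exact envMorSum_Fbar e Ψ x.1

lemma envMorSum_H1Wmap {ι : Type} [Fintype ι] (e : ι → N.V →ₗ[k] N.V)
    (Ψ : ∀ v, H5.EnvMor (MonoidHom.id H) E E (e v)) (w : 𝓛.H1 E.wDatum.W) :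
    (envMorSum e Ψ).toWMor.H1Wmap (H50.isCont_id 𝓛) w =
      ∑ v, (Ψ v).toWMor.H1Wmap (H50.isCont_id 𝓛) w := by
  classical
  induction w using Submodule.Quotient.induction_on with
  | H c =>
    show 𝓛.H1π _ _ = ∑ v, 𝓛.H1π _ _
    rw [← map_sum]
    congr 1
    apply Subtype.ext
    funext g
    rw [AddSubmonoidClass.coe_finset_sum, Finset.sum_apply]
    exact torsionLin_sum_apply e Ψ _

lemma envMorId_H1Wmap (w : 𝓛.H1 E.wDatum.W) :
    (H5.EnvMor.id E).toWMor.H1Wmap (H50.isCont_id 𝓛) w = w := by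
  induction w using Submodule.Quotient.induction_on with
  | H c =>
    show Submodule.Quotient.mk _ = Submodule.Quotient.mk _
    congr 1
    apply Subtype.ext
    funext g
    apply Subtype.ext
    exact H5.EnvMor.Fbar_id_apply E _

/-- Endomorphisms of an envelope over maps summing to the identity induce maps on `H¹(W)`
summing to the identity (under (AC1)). -/
theorem sum_H1Wmap_eq_self {ι : Type} [Fintype ι] (e : ι → N.V →ₗ[k] N.V)
    (Ψ : ∀ v, H5.EnvMor (MonoidHom.id H) E E (e v)) (hsum : ∀ c, ∑ v, e v c = c)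
    (hAC1 : Subsingleton (𝓛.H1 E.wDatum.Vm)) (w : 𝓛.H1 E.wDatum.W) :
    ∑ v, (Ψ v).toWMor.H1Wmap (H50.isCont_id 𝓛) w = w := by
  rw [← envMorSum_H1Wmap e Ψ w,
    ← envMorCongr_H1Wmap (H50.isCont_id 𝓛) (envMorSum e Ψ) (ev' := LinearMap.id)
      (fun c => by rw [LinearMap.sum_apply, hsum c]; rfl),
    H1Wmap_eq_of_homotopy (H50.isCont_id 𝓛) ((envMorCongr (envMorSum e Ψ) _).homotopy
      (H5.EnvMor.id E)) hAC1]
  exact envMorId_H1Wmap w

end Env

/-! ### Naturality of `H91.theta : H¹(W) → H²(N)` for envelope morphisms (same group) -/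

section Theta

variable {p : ℕ} [Fact p.Prime] {k : Type} [CommRing k] {H : Type} [Group H]
  {𝓛 : LevelStructure H} {N N₂ : Rep.{0} k H}
  {E : H36.DivEnvelope 𝓛 p N} {E₂ : H36.DivEnvelope 𝓛 p N₂}

lemma torsionH1_mapH1 {ev : N.V →ₗ[k] N₂.V} (Ψ : H5.EnvMor (MonoidHom.id H) E E₂ ev)
    (w : 𝓛.H1 E.wDatum.W) :
    H91.torsionH1 p 𝓛 E₂.Q (Ψ.toWMor.H1Wmap (H50.isCont_id 𝓛) w) =
      H50.mapH1 𝓛 𝓛 (H50.isCont_id 𝓛) Ψ.isEquivariant_Fbar (H91.torsionH1 p 𝓛 E.Q w) := by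
  induction w using Submodule.Quotient.induction_on with
  | H c => rfl

/-- **Naturality of `θ`.** -/
theorem theta91_natural {ev : N.V →ₗ[k] N₂.V} (Ψ : H5.EnvMor (MonoidHom.id H) E E₂ ev)
    (hev : H50.IsEquivariant (MonoidHom.id H) N N₂ ev) (w : 𝓛.H1 E.wDatum.W) :
    H91.theta E₂ (Ψ.toWMor.H1Wmap (H50.isCont_id 𝓛) w) =
      H50.mapH2 𝓛 𝓛 (H50.isCont_id 𝓛) hev (H91.theta E w) := by
  rw [H91.theta_apply, H91.theta_apply, torsionH1_mapH1]
  exact (H1.mapH2_δ₁ 𝓛 𝓛 (H50.isCont_id 𝓛) (H91.isSES E) E.discrete (H91.isSES E₂) E₂.discrete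
    hev Ψ.hF Ψ.isEquivariant_Fbar (fun a => (Ψ.comm a).symm) (fun b => (Ψ.Fbar_π b).symm) _).symm

end Theta

/-! ### Envelope morphisms from morphisms of representations -/

section OfHom

variable {p : ℕ} [Fact p.Prime] {k : Type} [CommRing k] {H : Type} [Group H]
  {𝓛 : LevelStructure H} {N N₂ : Rep.{0} k H}
  {E : H36.DivEnvelope 𝓛 p N} {E₂ : H36.DivEnvelope 𝓛 p N₂}

/-- The envelope morphism (same group) given by morphisms of representations. -/
def envMorOfHom (f : N ⟶ N₂) (F : E.I ⟶ E₂.I) (h : ∀ c, F.hom (E.ι.hom c) = E₂.ι.hom (f.hom c)) :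
    H5.EnvMor (MonoidHom.id H) E E₂ f.hom.toLinearMap where
  F := F.hom.toLinearMap
  hF := H50.isEquivariant_hom F
  comm := h

/-- If `Fbar` of an envelope morphism is (pointwise) a given morphism `b : Q ⟶ Q₂`, then its
`H1Wmap` is `H¹` of `torsionMap p b`. -/
theorem H1Wmap_eq_H1map {ev : N.V →ₗ[k] N₂.V} (Ψ : H5.EnvMor (MonoidHom.id H) E E₂ ev)
    (b : E.Q ⟶ E₂.Q) (hb : ∀ q, Ψ.Fbar q = b.hom q) (w : 𝓛.H1 E.wDatum.W) :
    Ψ.toWMor.H1Wmap (H50.isCont_id 𝓛) w = H1.H1map 𝓛 (H36.torsionMap p b) w := by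
  induction w using Submodule.Quotient.induction_on with
  | H c =>
    show Submodule.Quotient.mk _ = Submodule.Quotient.mk _
    congr 1
    apply Subtype.ext
    funext g
    apply Subtype.ext
    exact hb _

end OfHom

/-! ### The weighted compatibility (hX5) -/

section Main

variable {p : ℕ} [Fact p.Prime] {k : Type} [CommRing k] {G : Type} [Group G]
  {𝓛 : LevelStructure G}
  {ι : Type} [Fintype ι] [DecidableEq ι] {D : ι → Type} [∀ v, Group (D v)]
  {𝓛v : ∀ v, LevelStructure (D v)} {φ : ∀ v, D v →* G}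
  (hφ : ∀ v, H50.IsCont (𝓛v v) 𝓛 (φ v))
  {J C : Rep.{0} k G} {A : ∀ v, Rep.{0} k (D v)}
  {EJ : H36.DivEnvelope 𝓛 p J} {EC : H36.DivEnvelope 𝓛 p C}
  {EA : ∀ v, H36.DivEnvelope (𝓛v v) p (A v)}

/-- **(hX5) from (X5'').**  `J` is decomposed by equivariant endomorphisms `e v` with sum the
identity, lifted to the envelope `EJ`; `Λ v` are envelope morphisms over `φ v` and
`ev v : J → A v` with `ev u ∘ e v = 0` for `u ≠ v`, whose `T2map`s at the trivial line are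
jointly injective (D4); the traces are injective (D1 ∘ D2); and for every `v` there is a
`p`-torsion class in `H²(J)`, fixed by `e v`, with nonzero image in `H²(C)`.  Then the global
trace is a weighted sum of the local ones, with all weights nonzero. -/
theorem exists_weights_of_x5
    {pr : J.V →ₗ[k] C.V} (hpr : H50.IsEquivariant (MonoidHom.id G) J C pr)
    (Pr : H5.EnvMor (MonoidHom.id G) EJ EC pr)
    {ev : ∀ v, J.V →ₗ[k] (A v).V} (Λ : ∀ v, H5.EnvMor (φ v) EJ (EA v) (ev v))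
    {e : ι → J.V →ₗ[k] J.V} (he : ∀ v, H50.IsEquivariant (MonoidHom.id G) J J (e v))
    (Ψ : ∀ v, H5.EnvMor (MonoidHom.id G) EJ EJ (e v))
    (hsum : ∀ c, ∑ v, e v c = c) (horth : ∀ u v, u ≠ v → ∀ c, ev u (e v c) = 0)
    (hACJ : Subsingleton (𝓛.H1 EJ.wDatum.Vm))
    (hACv : ∀ v, Subsingleton ((𝓛v v).H1 (EA v).wDatum.Vm))
    (hH1I : Subsingleton (𝓛.H1 EJ.I)) (hH2I : Subsingleton (𝓛.H2 EJ.I))
    (hΘ2 : ∀ z : EJ.wDatum.T2 (trivLine p G),
      (∀ v, (Λ v).toWMor.T2map (hφ v) (trivLine p G) z = 0) → z = 0)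
    (trC : 𝓛.H1 EC.wDatum.W →ₗ[ZMod p] ZMod p) (htrC : Function.Injective trC)
    (trv : ∀ v, (𝓛v v).H1 (EA v).wDatum.W →ₗ[ZMod p] ZMod p)
    (htrv : ∀ v, Function.Injective (trv v))
    (hx5 : ∀ v, ∃ x : 𝓛.H2 J, p • x = 0 ∧
      H50.mapH2 𝓛 𝓛 (H50.isCont_id 𝓛) (he v) x = x ∧
      H50.mapH2 𝓛 𝓛 (H50.isCont_id 𝓛) hpr x ≠ 0) :
    ∃ c : ι → ZMod p, (∀ v, c v ≠ 0) ∧ ∀ w : 𝓛.H1 EJ.wDatum.W,
      trC (Pr.toWMor.H1Wmap (H50.isCont_id 𝓛) w) =
        ∑ v, c v * trv v ((Λ v).toWMor.H1Wmap (hφ v) w) := by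
  refine exists_weights (k := ZMod p) (V := 𝓛.H1 EJ.wDatum.W)
    (L := fun v => (𝓛v v).H1 (EA v).wDatum.W)
    (trC ∘ₗ Pr.toWMor.H1Wmap (H50.isCont_id 𝓛)) (fun v => (Λ v).toWMor.H1Wmap (hφ v)) trv htrv
    (fun v => (Ψ v).toWMor.H1Wmap (H50.isCont_id 𝓛))
    (fun w => sum_H1Wmap_eq_self e Ψ hsum hACJ w)
    (fun u v huv w => H1Wmap_comp_eq_zero (hφ u) (Ψ v) (Λ u) (horth u v huv) (hACv u) w)
    (fun w hw => H1Wmap_jointly_injective (trivLine p G) (LinearEquiv.refl _ _) trivLine_ρ hφ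
      (fun v => (Λ v).toWMor) hΘ2 w hw)
    (fun v => ?_)
  obtain ⟨x, hpx, hex, hprx⟩ := hx5 v
  obtain ⟨w₁, hw₁⟩ := H91.exists_theta_eq EJ hH1I hH2I x hpx
  refine ⟨w₁, fun h0 => hprx ?_⟩
  have h1 : Pr.toWMor.H1Wmap (H50.isCont_id 𝓛)
      ((Ψ v).toWMor.H1Wmap (H50.isCont_id 𝓛) w₁) = 0 :=
    htrC (by rw [map_zero]; exact h0)
  have h2 := theta91_natural Pr hpr ((Ψ v).toWMor.H1Wmap (H50.isCont_id 𝓛) w₁)
  have h3 := theta91_natural (Ψ v) (he v) w₁
  rw [hw₁, hex] at h3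
  rw [h3] at h2
  rw [← h2, h1]
  exact map_zero (H91.theta EC)

end Main

end Fermat.Agent.CFT.H55
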