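import Mathlib
import Fermat.Agent.CFT.H35_EnvInj
import Fermat.Agent.CFT.H35_PTSegment
import Fermat.Agent.CFT.H55_X5
import Fermat.Agent.CFT.H1_GlobalPTExtras
import Fermat.Agent.CFT.H1_GlobalPTEv
import Fermat.Agent.CFT.H36_CoarseLiftInst

/-!
# CFT / D3-inst : `PTModules`-specific facts for the final wiring (helper55 #1450)

For a module package `M : H35.PTModules 𝓛 p E J C`:

* (G1) `M.envPr : H5.EnvMor id M.EJ M.EC M.pr` (`:= H55.envMorOfHom M.pr M.qI _`), with
  `Fbar = M.b` and `H1Wmap = H¹(M.bW)`; likewise `M.envε` for `ε`;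
* (G2) `Subsingleton (𝓛.H1 M.EJ.I)`, `Subsingleton (𝓛.H2 M.EJ.I)` (also for `EE`, `EC`, and on
  open subgroups) for the packages built by `ofEnvelopes` / `canonical'`;
* (G3) envelope endomorphisms of `M.EJ` over any endomorphism of `J` (`IsInjDiscrete M.EJ.I`),
  in particular over `e_q = prq ≫ inq` for `H1.globalPTModules`.
-/

set_option autoImplicit false

noncomputable section

open CategoryTheory

namespace Fermat.Agent.CFT.H35

open Fermat.Agent.CFT Fermat.Agent.CFT.H36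

/-! ### (G1) the structure maps as envelope morphisms -/

section G1

variable {H : Type} [Group H] {k : Type} [CommRing k] {𝓛 : LevelStructure H} {p : ℕ}
  {E J C : Rep.{0} k H} (M : PTModules 𝓛 p E J C)

namespace PTModules

/-- `pr : J ⟶ C` lifted to the envelopes: `qI : I_J ⟶ I_C`. -/
def envPr : H5.EnvMor (MonoidHom.id H) M.EJ M.EC M.pr.hom.toLinearMap :=
  H55.envMorOfHom M.pr M.qI (fun c => by
    have h := congrArg (fun f : J ⟶ M.EC.I => f.hom c) M.sqιC
    simpa [Rep.comp_apply] using h)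

/-- `ε : E ⟶ J` lifted to the envelopes: `iI : I_E ⟶ I_J`. -/
def envε : H5.EnvMor (MonoidHom.id H) M.EE M.EJ M.ε.hom.toLinearMap :=
  H55.envMorOfHom M.ε M.iI (fun c => by
    have h := congrArg (fun f : E ⟶ M.EJ.I => f.hom c) M.sqιE
    simpa [Rep.comp_apply] using h.symm)

@[simp] lemma envPr_F (x : M.EJ.I.V) : M.envPr.F x = M.qI.hom x := rfl

@[simp] lemma envε_F (x : M.EE.I.V) : M.envε.F x = M.iI.hom x := rfl

/-- `Fbar` of `envPr` is `b : Q_J ⟶ Q_C`. -/
theorem envPr_Fbar (q : M.EJ.Q.V) : M.envPr.Fbar q = M.b.hom q := by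
  obtain ⟨x, rfl⟩ := M.EJ.π_surjective q
  rw [H5.EnvMor.Fbar_π]
  have h := congrArg (fun f : M.EJ.I ⟶ M.EC.Q => f.hom x) M.sqC
  simpa [Rep.comp_apply] using h.symm

/-- `Fbar` of `envε` is `a : Q_E ⟶ Q_J`. -/
theorem envε_Fbar (q : M.EE.Q.V) : M.envε.Fbar q = M.a.hom q := by
  obtain ⟨x, rfl⟩ := M.EE.π_surjective q
  rw [H5.EnvMor.Fbar_π]
  have h := congrArg (fun f : M.EE.I ⟶ M.EJ.Q => f.hom x) M.sqE
  simpa [Rep.comp_apply] using h.symm

variable [Fact p.Prime]

/-- The `bW`-term of the trace identity is an `H1Wmap`. -/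
theorem envPr_H1Wmap (w : 𝓛.H1 M.EJ.wDatum.W) :
    M.envPr.toWMor.H1Wmap (H50.isCont_id 𝓛) w = H1.H1map 𝓛 M.bW w :=
  H55.H1Wmap_eq_H1map M.envPr M.b M.envPr_Fbar w

theorem envε_H1Wmap (w : 𝓛.H1 M.EE.wDatum.W) :
    M.envε.toWMor.H1Wmap (H50.isCont_id 𝓛) w = H1.H1map 𝓛 M.aW w :=
  H55.H1Wmap_eq_H1map M.envε M.a M.envε_Fbar w

end PTModules

end G1

/-! ### (G2) acyclicity of the three envelopes of the canonical package -/

section G2

open PTModules

variable {H : Type} [Group H] (𝓛 : LevelStructure H) (p : ℕ) (hp : p ≠ 0) {E J C : Rep.{0} ℤ H}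
  (ε : E ⟶ J) (pr : J ⟶ C) (hε : Function.Injective ε.hom)
  (hex : ∀ x : J.V, pr.hom x = 0 ↔ ∃ e : E.V, ε.hom e = x)
  (hdiv : ∀ c : C.V, ∃ (c' : C.V) (x : J.V), c = p • c' + pr.hom x)
  (htf : ∀ c : C.V, (∃ x : J.V, p • c = pr.hom x) → ∃ x' : J.V, c = pr.hom x')
  (hE : 𝓛.IsDiscrete E) (hJ : 𝓛.IsDiscrete J) (hC : 𝓛.IsDiscrete C)

/-- All three envelopes of the canonical module package are coinduced. -/
theorem canonical'_isCoinduced :
    IsCoinduced 𝓛 (canonical' 𝓛 p hp ε pr hε hex hdiv htf hE hJ hC).EE.I ∧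
    IsCoinduced 𝓛 (canonical' 𝓛 p hp ε pr hε hex hdiv htf hE hJ hC).EJ.I ∧
    IsCoinduced 𝓛 (canonical' 𝓛 p hp ε pr hε hex hdiv htf hE hJ hC).EC.I := by
  have h1 : IsCoinduced 𝓛 (canonicalEnvelope 𝓛 p hp E hE).I :=
    isCoinduced_canonicalEnvelope 𝓛 p hp E hE
  have h2 : IsCoinduced 𝓛 (canonicalEnvelope 𝓛 p hp C hC).I :=
    isCoinduced_canonicalEnvelope 𝓛 p hp C hC
  exact ⟨h1, h1.prod h2, h2⟩

/-- `H¹(H; I_J) = 0 = H²(H; I_J)` for the canonical package. -/
theorem canonical'_subsingleton_EJ :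
    Subsingleton (𝓛.H1 (canonical' 𝓛 p hp ε pr hε hex hdiv htf hE hJ hC).EJ.I) ∧
    Subsingleton (𝓛.H2 (canonical' 𝓛 p hp ε pr hε hex hdiv htf hE hJ hC).EJ.I) :=
  ⟨(canonical'_isCoinduced 𝓛 p hp ε pr hε hex hdiv htf hE hJ hC).2.1.subsingleton_H1,
    (canonical'_isCoinduced 𝓛 p hp ε pr hε hex hdiv htf hE hJ hC).2.1.subsingleton_H2⟩

/-- The hypothesis `hEac` (on every open subgroup) for each of the three envelopes. -/
theorem canonical'_acyclic_restrict (U : Subgroup H) (hU : 𝓛.IsOpen U) :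
    (Subsingleton ((𝓛.restrict U).H1 (Rep.res U.subtype
        (canonical' 𝓛 p hp ε pr hε hex hdiv htf hE hJ hC).EE.I)) ∧
      Subsingleton ((𝓛.restrict U).H2 (Rep.res U.subtype
        (canonical' 𝓛 p hp ε pr hε hex hdiv htf hE hJ hC).EE.I))) ∧
    (Subsingleton ((𝓛.restrict U).H1 (Rep.res U.subtype
        (canonical' 𝓛 p hp ε pr hε hex hdiv htf hE hJ hC).EJ.I)) ∧
      Subsingleton ((𝓛.restrict U).H2 (Rep.res U.subtype
        (canonical' 𝓛 p hp ε pr hε hex hdiv htf hE hJ hC).EJ.I))) ∧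
    (Subsingleton ((𝓛.restrict U).H1 (Rep.res U.subtype
        (canonical' 𝓛 p hp ε pr hε hex hdiv htf hE hJ hC).EC.I)) ∧
      Subsingleton ((𝓛.restrict U).H2 (Rep.res U.subtype
        (canonical' 𝓛 p hp ε pr hε hex hdiv htf hE hJ hC).EC.I))) := by
  obtain ⟨h1, h2, h3⟩ := canonical'_isCoinduced 𝓛 p hp ε pr hε hex hdiv htf hE hJ hC
  exact ⟨⟨h1.subsingleton_H1_restrict U hU, h1.subsingleton_H2_restrict U hU⟩,
    ⟨h2.subsingleton_H1_restrict U hU, h2.subsingleton_H2_restrict U hU⟩,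
    ⟨h3.subsingleton_H1_restrict U hU, h3.subsingleton_H2_restrict U hU⟩⟩

/-- The hypothesis `hVm` of `D2Statement` (on every open subgroup) for the three envelopes. -/
theorem canonical'_hVm_restrict (U : Subgroup H) (hU : 𝓛.IsOpen U) :
    Subsingleton ((𝓛.restrict U).H1 (Rep.res U.subtype (torsionRep p
        (canonical' 𝓛 p hp ε pr hε hex hdiv htf hE hJ hC).EE.I))) ∧
    Subsingleton ((𝓛.restrict U).H1 (Rep.res U.subtype (torsionRep p
        (canonical' 𝓛 p hp ε pr hε hex hdiv htf hE hJ hC).EJ.I))) ∧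
    Subsingleton ((𝓛.restrict U).H1 (Rep.res U.subtype (torsionRep p
        (canonical' 𝓛 p hp ε pr hε hex hdiv htf hE hJ hC).EC.I))) := by
  obtain ⟨h1, h2, h3⟩ := canonical'_isCoinduced 𝓛 p hp ε pr hε hex hdiv htf hE hJ hC
  exact ⟨(h1.torsion p).subsingleton_H1_restrict U hU,
    (h2.torsion p).subsingleton_H1_restrict U hU, (h3.torsion p).subsingleton_H1_restrict U hU⟩

end G2

/-! ### (G3) envelope endomorphisms of `EJ` over endomorphisms of `J` -/

section G3

variable {H : Type} [Group H] {k : Type} [CommRing k] {𝓛 : LevelStructure H} {p : ℕ}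
  {E J C : Rep.{0} k H} (M : PTModules 𝓛 p E J C)

/-- Every endomorphism of `J` lifts to an envelope endomorphism of `M.EJ`, when `I_J` is
injective among discrete modules. -/
theorem PTModules.exists_envMor_EJ (hI : IsInjDiscrete 𝓛 M.EJ.I) (e : J ⟶ J) :
    Nonempty (H5.EnvMor (MonoidHom.id H) M.EJ M.EJ e.hom.toLinearMap) :=
  exists_envMor_id M.EJ M.EJ hI e

end G3

/-! ### The global package `H1.globalPTModules` -/

section Global

open ExtCitation

local notation "GQ" => (AlgebraicClosure ℚ ≃ₐ[ℚ] AlgebraicClosure ℚ)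

variable (S : Finset Nat.Primes) {p : ℕ} (hp : p.Prime)
  (hpS : ∀ ℓ : Nat.Primes, (ℓ : ℕ) = p → ℓ ∈ S) (hS : S.Nonempty)

/-- (G2) for the global package. -/
theorem globalPTModules_subsingleton_EJ :
    Subsingleton ((H87.levelsS S).H1 (H1.globalPTModules S hp hpS hS).EJ.I) ∧
    Subsingleton ((H87.levelsS S).H2 (H1.globalPTModules S hp hpS hS).EJ.I) :=
  canonical'_subsingleton_EJ _ _ _ _ _ _ _ _ _ _ _ _

/-- `I_E`, `I_J`, `I_C` of the global package are injective among discrete modules. -/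
theorem globalPTModules_isInjDiscrete :
    IsInjDiscrete (H87.levelsS S) (H1.globalPTModules S hp hpS hS).EE.I ∧
    IsInjDiscrete (H87.levelsS S) (H1.globalPTModules S hp hpS hS).EJ.I ∧
    IsInjDiscrete (H87.levelsS S) (H1.globalPTModules S hp hpS hS).EC.I :=
  canonical'_isInjDiscrete _ _ _ _ _ _ _ _ _ _ _ _

/-- `hEac` for `M.EC` (input of `H20.global_duality_of_envelope`). -/
theorem globalPTModules_EC_acyclic (U : Subgroup GQ) (hU : (H87.levelsS S).IsOpen U) :
    Subsingleton (((H87.levelsS S).restrict U).H1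
        (Rep.res U.subtype (H1.globalPTModules S hp hpS hS).EC.I)) ∧
    Subsingleton (((H87.levelsS S).restrict U).H2
        (Rep.res U.subtype (H1.globalPTModules S hp hpS hS).EC.I)) :=
  (canonical'_acyclic_restrict _ _ _ _ _ _ _ _ _ _ _ _ U hU).2.2

/-- `hVm` for `M.EC` (input of `H20.global_duality_of_envelope` after the `hVm` fix). -/
theorem globalPTModules_EC_hVm (U : Subgroup GQ) (hU : (H87.levelsS S).IsOpen U) :
    Subsingleton (((H87.levelsS S).restrict U).H1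
        (Rep.res U.subtype (torsionRep p (H1.globalPTModules S hp hpS hS).EC.I))) :=
  (canonical'_hVm_restrict _ _ _ _ _ _ _ _ _ _ _ _ U hU).2.2

/-- (G3) the idempotent `e_q = pr_q ≫ in_q` of `J_S` lifts to `EJ`. -/
theorem globalPTModules_exists_envMor_idem (q : ↥S) :
    Nonempty (H5.EnvMor (MonoidHom.id GQ) (H1.globalPTModules S hp hpS hS).EJ
      (H1.globalPTModules S hp hpS hS).EJ (H1.prq S q ≫ H1.inq S q).hom.toLinearMap) :=
  (H1.globalPTModules S hp hpS hS).exists_envMor_EJ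
    (globalPTModules_isInjDiscrete S hp hpS hS).2.1 _

/-- (G4) D4's `λ_q`: an envelope morphism over `ev_q = H1.evq S q` from `EJ` to the canonical
local envelope at `q`. -/
theorem globalPTModules_exists_lam (q : ↥S) :
    Nonempty (H5.EnvMor (primeLocalToGlobal q.1) (H1.globalPTModules S hp hpS hS).EJ
      (canonicalEnvelope (pullLevels (primeLocalToGlobal q.1)) p hp.ne_zero
        (localUnitsPrime q.1) (isDiscrete_localUnitsPrime q.1)) (H1.evq S q)) :=
  exists_envMor (isCont_primeLocalToGlobal S q) _ _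
    (isInjDiscrete_canonicalEnvelope _ p hp.ne_zero _ _) (H1.evq S q) (H1.isEquivariant_evq S q)

end Global

end Fermat.Agent.CFT.H35
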