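import Mathlib

/-!
# CFT / D3-formal (helper35): the linear algebra of the Poitou–Tate segment

Vocabulary-neutral core of package D3.  From the exact segment

`T1J --α--> T1C --β--> H2M --γ--> L2M`,

a global pairing `G : T1C × H1X → k` which is nondegenerate on both sides, a local pairing
`Lp : T1J × L1X → k` which is onto the dual of `L1X`, and the compatibility
`G (α j) x = Lp j (locX x)`, we construct a pairing between `Sha1 = ker locX` and `Sha2 = ker γ`
which is nondegenerate on both sides (the shape of the conclusion of S55).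
-/

set_option autoImplicit false

namespace Fermat.Agent.CFT.H35

open Module

variable {k : Type*} [Field k]
variable {H1X L1X T1J T1C H2M L2M : Type*}
variable [AddCommGroup H1X] [Module k H1X] [AddCommGroup L1X] [Module k L1X]
variable [AddCommGroup T1J] [Module k T1J] [AddCommGroup T1C] [Module k T1C]
variable [AddCommGroup H2M] [Module k H2M] [AddCommGroup L2M] [Module k L2M]

/-- a functional vanishing on the kernel of `f` factors through `f` -/
theorem exists_factor_of_vanish_on_ker (f : H1X →ₗ[k] L1X) (φ : H1X →ₗ[k] k)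
    (h : ∀ x, f x = 0 → φ x = 0) : ∃ ψ : L1X →ₗ[k] k, ∀ x, ψ (f x) = φ x := by
  have hker : LinearMap.ker f ≤ LinearMap.ker φ := fun x hx => h x hx
  -- functional on the range
  let φ' : LinearMap.range f →ₗ[k] k :=
    ((LinearMap.ker f).liftQ φ hker).comp (f.quotKerEquivRange.symm : _ →ₗ[k] _)
  obtain ⟨ψ, hψ⟩ := LinearMap.exists_extend φ'
  refine ⟨ψ, fun x => ?_⟩
  have h1 : ψ (f x) = φ' ⟨f x, LinearMap.mem_range_self f x⟩ := by
    rw [← hψ]; rfl
  rw [h1]
  simp only [φ', LinearMap.coe_comp, LinearEquiv.coe_coe, Function.comp_apply]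
  have h2 : f.quotKerEquivRange.symm ⟨f x, LinearMap.mem_range_self f x⟩ =
      Submodule.Quotient.mk x := by
    rw [LinearEquiv.symm_apply_eq]
    rfl
  rw [h2, Submodule.liftQ_apply]

/-- **D3-formal.**  The Poitou–Tate segment gives a pairing `Sha1 × Sha2 → k`, nondegenerate on
both sides. -/
theorem exists_pairing_ker_ker
    (locX : H1X →ₗ[k] L1X) (α : T1J →ₗ[k] T1C) (β : T1C →ₗ[k] H2M) (γ : H2M →ₗ[k] L2M)
    (hαβ : Function.Exact α β) (hβγ : Function.Exact β γ)
    (G : T1C →ₗ[k] H1X →ₗ[k] k)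
    (hG_left : ∀ c, (∀ x, G c x = 0) → c = 0)
    (hG_right : ∀ x, (∀ c, G c x = 0) → x = 0)
    (Lp : T1J →ₗ[k] L1X →ₗ[k] k)
    (hLp : ∀ ψ : L1X →ₗ[k] k, ∃ j, ∀ y, Lp j y = ψ y)
    (hcompat : ∀ j x, G (α j) x = Lp j (locX x)) :
    ∃ B : LinearMap.ker locX →ₗ[k] LinearMap.ker γ →ₗ[k] k,
      (∀ y, (∀ x, B y x = 0) → y = 0) ∧ (∀ x, (∀ y, B y x = 0) → x = 0) := by
  -- `Ψ c = (G c) restricted to ker locX`
  let Ψ : T1C →ₗ[k] (LinearMap.ker locX →ₗ[k] k) :=
    (LinearMap.lcomp k k (LinearMap.ker locX).subtype).comp G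
  have hΨ : ∀ c s, Ψ c s = G c (s : H1X) := fun c s => rfl
  -- `Ψ` kills `ker β = range α`
  have hΨker : LinearMap.ker β ≤ LinearMap.ker Ψ := by
    intro c hc
    obtain ⟨j, rfl⟩ := (hαβ c).mp hc
    rw [LinearMap.mem_ker]
    ext s
    rw [hΨ, hcompat, s.2, map_zero]
    rfl
  -- `ker γ = range β ≃ T1C ⧸ ker β`
  have hrange : LinearMap.range β = LinearMap.ker γ := by
    ext t
    rw [LinearMap.mem_ker]
    exact ((hβγ t).symm : _)
  let e : LinearMap.ker γ ≃ₗ[k] (T1C ⧸ LinearMap.ker β) :=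
    (LinearEquiv.ofEq _ _ hrange.symm).trans β.quotKerEquivRange.symm
  let Ψ' : LinearMap.ker γ →ₗ[k] (LinearMap.ker locX →ₗ[k] k) :=
    ((LinearMap.ker β).liftQ Ψ hΨker).comp (e : _ →ₗ[k] _)
  -- the value of `Ψ'` on `β c`
  have hΨ' : ∀ (c : T1C) (hc : β c ∈ LinearMap.ker γ), Ψ' ⟨β c, hc⟩ = Ψ c := by
    intro c hc
    have h2 : e ⟨β c, hc⟩ = Submodule.Quotient.mk c := by
      simp only [e, LinearEquiv.trans_apply]
      rw [LinearEquiv.symm_apply_eq]
      rfl
    simp only [Ψ', LinearMap.coe_comp, LinearEquiv.coe_coe, Function.comp_apply]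
    rw [h2, Submodule.liftQ_apply]
  refine ⟨Ψ'.flip, ?_, ?_⟩
  · -- left nondegeneracy
    intro s hs
    have h0 : (s : H1X) = 0 := by
      apply hG_right
      intro c
      have hc : β c ∈ LinearMap.ker γ := by
        rw [← hrange]; exact LinearMap.mem_range_self β c
      have := hs ⟨β c, hc⟩
      rw [LinearMap.flip_apply, hΨ' c hc, hΨ] at this
      exact this
    exact Subtype.ext h0
  · -- right nondegeneracy
    intro t ht
    obtain ⟨c, hc⟩ : ∃ c, β c = (t : H2M) := by
      have : (t : H2M) ∈ LinearMap.range β := by rw [hrange]; exact t.2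
      exact this
    have hmem : β c ∈ LinearMap.ker γ := by rw [hc]; exact t.2
    have ht' : t = ⟨β c, hmem⟩ := Subtype.ext hc.symm
    -- `G c` vanishes on `ker locX`
    have hvan : ∀ x, locX x = 0 → G c x = 0 := by
      intro x hx
      have := ht ⟨x, hx⟩
      rw [LinearMap.flip_apply, ht', hΨ' c hmem, hΨ] at this
      exact this
    obtain ⟨ψ, hψ⟩ := exists_factor_of_vanish_on_ker locX (G c) hvan
    obtain ⟨j, hj⟩ := hLp ψ
    have hcj : c - α j = 0 := by
      apply hG_left
      intro x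
      rw [map_sub, LinearMap.sub_apply, hcompat, hj, hψ, sub_self]
    have hc' : c = α j := sub_eq_zero.mp hcj
    apply Subtype.ext
    rw [← hc, hc']
    exact (hαβ (α j)).mpr ⟨j, rfl⟩

/-- transport of a two-sided nondegenerate pairing along linear equivalences -/
theorem exists_pairing_of_equiv {A B A' B' : Type*} [AddCommGroup A] [Module k A]
    [AddCommGroup B] [Module k B] [AddCommGroup A'] [Module k A'] [AddCommGroup B'] [Module k B']
    (eA : A' ≃ₗ[k] A) (eB : B' ≃ₗ[k] B)
    (h : ∃ P : A →ₗ[k] B →ₗ[k] k,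
      (∀ y, (∀ x, P y x = 0) → y = 0) ∧ (∀ x, (∀ y, P y x = 0) → x = 0)) :
    ∃ P' : A' →ₗ[k] B' →ₗ[k] k,
      (∀ y, (∀ x, P' y x = 0) → y = 0) ∧ (∀ x, (∀ y, P' y x = 0) → x = 0) := by
  obtain ⟨P, h1, h2⟩ := h
  refine ⟨(LinearMap.lcomp k k (eB : B' →ₗ[k] B)).comp (P.comp (eA : A' →ₗ[k] A)), ?_, ?_⟩
  · intro y hy
    have : eA y = 0 := h1 (eA y) fun x => by
      have := hy (eB.symm x)
      simpa using this
    exact eA.map_eq_zero_iff.mp this
  · intro x hx
    have : eB x = 0 := h2 (eB x) fun y => by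
      have := hx (eA.symm y)
      simpa using this
    exact eB.map_eq_zero_iff.mp this

/-- the kernel of a restricted map is the intersection with the kernel -/
def kerDomRestrictEquiv {V L : Type*} [AddCommGroup V] [Module k V] [AddCommGroup L] [Module k L]
    (f : V →ₗ[k] L) (P : Submodule k V) :
    (P ⊓ LinearMap.ker f : Submodule k V) ≃ₗ[k] LinearMap.ker (f.domRestrict P) where
  toFun x := ⟨⟨x.1, x.2.1⟩, by
    rw [LinearMap.mem_ker, LinearMap.domRestrict_apply]
    exact x.2.2⟩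
  map_add' _ _ := rfl
  map_smul' _ _ := rfl
  invFun y := ⟨y.1.1, y.1.2, by
    have := y.2
    rw [LinearMap.mem_ker, LinearMap.domRestrict_apply] at this
    exact this⟩
  left_inv _ := rfl
  right_inv _ := rfl

/-- **D3-formal**, in the shape of the frozen `sha₁ = P ⊓ ker loc` and `sha₂ = ker γ`. -/
theorem exists_pairing_inf_ker {V : Type*} [AddCommGroup V] [Module k V]
    (P : Submodule k V) (loc : V →ₗ[k] L1X)
    (α : T1J →ₗ[k] T1C) (β : T1C →ₗ[k] H2M) (γ : H2M →ₗ[k] L2M)
    (hαβ : Function.Exact α β) (hβγ : Function.Exact β γ)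
    (G : T1C →ₗ[k] P →ₗ[k] k)
    (hG_left : ∀ c, (∀ x, G c x = 0) → c = 0)
    (hG_right : ∀ x, (∀ c, G c x = 0) → x = 0)
    (Lp : T1J →ₗ[k] L1X →ₗ[k] k)
    (hLp : ∀ ψ : L1X →ₗ[k] k, ∃ j, ∀ y, Lp j y = ψ y)
    (hcompat : ∀ j (x : P), G (α j) x = Lp j (loc x)) :
    ∃ B : (P ⊓ LinearMap.ker loc : Submodule k V) →ₗ[k] LinearMap.ker γ →ₗ[k] k,
      (∀ y, (∀ x, B y x = 0) → y = 0) ∧ (∀ x, (∀ y, B y x = 0) → x = 0) :=
  exists_pairing_of_equiv (kerDomRestrictEquiv loc P) (LinearEquiv.refl k _)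
    (exists_pairing_ker_ker (loc.domRestrict P) α β γ hαβ hβγ G hG_left hG_right Lp hLp
      (fun j x => hcompat j x))

/-- a two-sided nondegenerate pairing of finite dimensional spaces forces equal dimensions -/
theorem finrank_eq_of_pairing {A B : Type*} [AddCommGroup A] [Module k A]
    [AddCommGroup B] [Module k B] [FiniteDimensional k A] [FiniteDimensional k B]
    (P : A →ₗ[k] B →ₗ[k] k)
    (h1 : ∀ y, (∀ x, P y x = 0) → y = 0) (h2 : ∀ x, (∀ y, P y x = 0) → x = 0) :
    finrank k A = finrank k B := by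
  have i1 : Function.Injective P := by
    rw [← LinearMap.ker_eq_bot, LinearMap.ker_eq_bot']
    intro y hy
    exact h1 y fun x => by rw [hy]; rfl
  have i2 : Function.Injective P.flip := by
    rw [← LinearMap.ker_eq_bot, LinearMap.ker_eq_bot']
    intro x hx
    exact h2 x fun y => by
      have := LinearMap.congr_fun hx y
      simpa using this
  have l1 := LinearMap.finrank_le_finrank_of_injective i1
  have l2 := LinearMap.finrank_le_finrank_of_injective i2
  rw [Subspace.dual_finrank_eq] at l1 l2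
  exact le_antisymm l1 l2

end Fermat.Agent.CFT.H35
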