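import Mathlib
import Fermat.Agent.CFT.H35_PTFormal
import Fermat.Agent.CFT.H35_PTSegment

/-!
# CFT / Layer D / D3c : the formal FINAL ASSEMBLY of Poitou–Tate

`exists_pairing_of_segment_data` : from

* the global segment `T¹(X;J) -β→ T¹(X;C) -δ→ H²(H; Hom(X,μ)) -γ→ T²(X;J)` of
  `H35_PTSegment` (for a module package `M : PTModules 𝓛 p E J C`),
* global duality `M.EC.wDatum.IsDual1 trC X`,
* an abstract family of "local" data indexed by a finite type `ι`: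
  localisation maps `res1 v : H¹(X) → L1 v`, `res2 v : H²(Hom(X,μ)) → L2 v`,
  comparison maps `Θ1 v : T¹(X;J) → T1v v` (jointly surjective),
  `Θ2 v : T²(X;J) → T2v v` (jointly injective), local pairings `pv v : T1v v × L1 v → 𝔽_p`
  inducing every functional on `L1 v`, units `c v`,
* the two compatibilities `hcompat` (global pairing of `β j` = sum of local pairings) and
  `hker2` (`res2` and `Θ2 ∘ γ` have the same joint kernel),

we get a two-sided nondegenerate pairing `ker (Π res1) × ker (Π res2) → 𝔽_p`, i.e.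
`Ш¹(X) × Ш²(Hom(X,μ)) → 𝔽_p`.

The statement does not depend on HOW the local comparison maps are produced (D4).
-/

set_option autoImplicit false

noncomputable section

open CategoryTheory

namespace Fermat.Agent.CFT.H35

open Fermat.Agent.CFT Fermat.Agent.CFT.H36 Fermat.Agent.CFT.H1

section Dual1

variable {p : ℕ} [Fact p.Prime] {H : Type} [Group H] {𝓛 : LevelStructure H}
  (𝒟 : WDatum p 𝓛) (tr : 𝓛.H1 𝒟.W →ₗ[ZMod p] ZMod p) (X : Rep.{0} (ZMod p) H)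

/-- The pairing `T¹(X) × H¹(X) → 𝔽_p` induced by `α¹` when `IsDual1` holds. -/
def pairingOfIsDual1 (h : 𝒟.IsDual1 tr X) : 𝒟.T1 X →ₗ[ZMod p] 𝓛.H1 X →ₗ[ZMod p] ZMod p :=
  (𝒟.T1den X).liftQ (𝒟.alpha1num tr X) (le_of_eq h.2.symm)

lemma pairingOfIsDual1_mk (h : 𝒟.IsDual1 tr X) (t : 𝒟.T1num X) (x : 𝓛.H1 X) :
    pairingOfIsDual1 𝒟 tr X h (Submodule.Quotient.mk t) x = 𝒟.alpha1num tr X t x := rfl

theorem pairingOfIsDual1_left (h : 𝒟.IsDual1 tr X) (c : 𝒟.T1 X)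
    (hc : ∀ x, pairingOfIsDual1 𝒟 tr X h c x = 0) : c = 0 := by
  induction c using Submodule.Quotient.induction_on with
  | H t =>
    rw [Submodule.Quotient.mk_eq_zero, ← h.2, LinearMap.mem_ker]
    exact LinearMap.ext hc

theorem pairingOfIsDual1_right (h : 𝒟.IsDual1 tr X) (x : 𝓛.H1 X)
    (hx : ∀ c, pairingOfIsDual1 𝒟 tr X h c x = 0) : x = 0 := by
  rw [← Module.forall_dual_apply_eq_zero_iff (ZMod p)]
  intro ψ
  obtain ⟨t, rfl⟩ := h.1 ψ
  exact hx (Submodule.Quotient.mk t)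

end Dual1

section Assembly

variable {k : Type} [CommRing k] {H : Type} [Group H] {𝓛 : LevelStructure H} {p : ℕ}
  [Fact p.Prime] {E J C : Rep.{0} k H} (M : PTModules 𝓛 p E J C)
  (hE : ∀ e : E.V, ∃ e' : E.V, p • e' = e) (hAC : M.EE.wDatum.IsAcyclic)
  (X : Rep.{0} (ZMod p) H) (hX : IsFinDiscrete 𝓛 X)
  (trC : 𝓛.H1 M.EC.wDatum.W →ₗ[ZMod p] ZMod p) (hdualC : M.EC.wDatum.IsDual1 trC X)
  {ι : Type} [Fintype ι] {L1 L2 T1v T2v : ι → Type}
  [∀ v, AddCommGroup (L1 v)] [∀ v, Module (ZMod p) (L1 v)]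
  [∀ v, AddCommGroup (L2 v)] [∀ v, Module (ZMod p) (L2 v)]
  [∀ v, AddCommGroup (T1v v)] [∀ v, Module (ZMod p) (T1v v)]
  [∀ v, AddCommGroup (T2v v)] [∀ v, Module (ZMod p) (T2v v)]
  (res1 : ∀ v, 𝓛.H1 X →ₗ[ZMod p] L1 v)
  (res2 : ∀ v, 𝓛.H2 (Fermat.Agent.CFT.homRep X (torsionRep p E)) →ₗ[ZMod p] L2 v)
  (Θ1 : ∀ v, M.EJ.wDatum.T1 X →ₗ[ZMod p] T1v v)
  (hΘ1 : Function.Surjective (LinearMap.pi Θ1))
  (Θ2 : ∀ v, M.EJ.wDatum.T2 X →ₗ[ZMod p] T2v v)
  (hΘ2 : ∀ t, (∀ v, Θ2 v t = 0) → t = 0)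
  (pv : ∀ v, T1v v →ₗ[ZMod p] L1 v →ₗ[ZMod p] ZMod p)
  (hpv : ∀ v (ψ : L1 v →ₗ[ZMod p] ZMod p), ∃ t, pv v t = ψ)
  (c : ι → ZMod p) (hc : ∀ v, c v ≠ 0)
  (hcompat : ∀ (h : M.EJ.wDatum.T1num X) (x : 𝓛.H1 X),
    M.EC.wDatum.alpha1num trC X (H50.coeffH0 (homRepMap X M.bW) h) x =
      ∑ v, c v * pv v (Θ1 v (Submodule.Quotient.mk h)) (res1 v x))
  (hker2 : ∀ a : 𝓛.H2 (Fermat.Agent.CFT.homRep X (torsionRep p E)),
    (∀ v, res2 v a = 0) ↔ ∀ v, Θ2 v (M.γ91 X hE hAC hX a) = 0)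

omit [Fintype ι] in
include hΘ2 hker2 in
/-- `range δ = ker (Π res2)`. -/
theorem exact_δ91_res2 : Function.Exact (M.δ91 X hE hAC hX) (LinearMap.pi res2) := by
  intro a
  rw [← (M.exact_δ91_γ91 X hE hAC hX) a]
  constructor
  · intro ha
    apply hΘ2
    rw [← hker2]
    intro v
    exact congrFun ha v
  · intro ha
    funext v
    exact (hker2 a).2 (fun v => by rw [ha, map_zero]) v

include hΘ1 hΘ2 hpv hc hcompat hker2 hdualC in
/-- **Formal final assembly of Poitou–Tate**: a two-sided nondegenerate pairing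
`Ш¹(X) × Ш²(Hom(X,μ)) → 𝔽_p`. -/
theorem exists_pairing_of_segment_data :
    ∃ B : LinearMap.ker (LinearMap.pi res1) →ₗ[ZMod p]
        LinearMap.ker (LinearMap.pi res2) →ₗ[ZMod p] ZMod p,
      (∀ y, (∀ x, B y x = 0) → y = 0) ∧ (∀ x, (∀ y, B y x = 0) → x = 0) := by
  classical
  -- the local pairing on `T¹(X;J) × Π L1 v`
  let Lp : M.EJ.wDatum.T1 X →ₗ[ZMod p] (∀ v, L1 v) →ₗ[ZMod p] ZMod p :=
    ∑ v, (c v) • ((LinearMap.lcomp (ZMod p) (ZMod p) (LinearMap.proj v)).comp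
      ((pv v).comp (Θ1 v)))
  have hLp_apply : ∀ j y, Lp j y = ∑ v, c v * pv v (Θ1 v j) (y v) := by
    intro j y
    simp only [Lp, LinearMap.sum_apply, LinearMap.smul_apply, LinearMap.comp_apply,
      LinearMap.lcomp_apply, LinearMap.proj_apply, smul_eq_mul]
  refine exists_pairing_ker_ker (LinearMap.pi res1) (M.β91 X) (M.δ91 X hE hAC hX)
    (LinearMap.pi res2) (M.exact_β91_δ91 X hE hAC hX)
    (exact_δ91_res2 M hE hAC X hX res2 Θ2 hΘ2 hker2)
    (pairingOfIsDual1 M.EC.wDatum trC X hdualC)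
    (pairingOfIsDual1_left M.EC.wDatum trC X hdualC)
    (pairingOfIsDual1_right M.EC.wDatum trC X hdualC) Lp ?_ ?_
  · -- every functional on `Π L1 v` is `Lp j`
    intro ψ
    choose t ht using fun v => hpv v ((c v)⁻¹ • (ψ.comp (LinearMap.single (ZMod p) L1 v)))
    obtain ⟨j, hj⟩ := hΘ1 t
    refine ⟨j, fun y => ?_⟩
    rw [hLp_apply]
    have hjv : ∀ v, Θ1 v j = t v := fun v => congrFun hj v
    have : ∀ v, c v * pv v (Θ1 v j) (y v) = ψ (Pi.single v (y v)) := by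
      intro v
      rw [hjv, ht, LinearMap.smul_apply, smul_eq_mul, ← mul_assoc, mul_inv_cancel₀ (hc v),
        one_mul]
      rfl
    rw [Finset.sum_congr rfl fun v _ => this v, ← map_sum]
    congr 1
    exact Finset.univ_sum_single y
  · -- compatibility
    intro j x
    induction j using Submodule.Quotient.induction_on with
    | H h =>
      rw [hLp_apply]
      exact hcompat h x

end Assembly

end Fermat.Agent.CFT.H35
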