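/-
CFT project, layer D, package D4-inst-concrete (helper36).

helper22's final D4 theorems `H22.theta1_bijective` / `H22.theta2_injective` instantiated at the
data of the frozen statement:

* `G = G_ℚ`, `𝓛 = H87.levelsS S`, `ι = ↥S`, `D q = primeLocalGaloisGroup q`,
  `𝓛D q = pullLevels (primeLocalToGlobal q)`, `φ q = primeLocalToGlobal q`;
* `A q = localUnitsPrime q`, `E q` = its canonical envelope (`localEnv`);
* `J = H77.repJTop S`, `EJ = (H1.globalPTModules S hp hpS hS).EJ`, `ev q = H1.evq S q`;
* `lam q` = ANY family of envelope morphisms over the `ev q`.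

All hypotheses (`hE` = `CoarseLift`, `hJ`, `hinj`, `hAC`, `hφ`) are discharged.  The outputs
`hTheta1` / `hTheta2` are verbatim the hypotheses `hΘ1` / `hΘ2` of helper94's
`H94.exists_shaPairing_of_envelopes`.
-/
import Fermat.Agent.CFT.H22_SLFinal
import Fermat.Agent.CFT.H22_SLInjective
import Fermat.Agent.CFT.H1_GlobalPTEv
import Fermat.Agent.CFT.H1_GlobalPTExtras
import Fermat.Agent.CFT.H36_CoarseLiftInst

set_option autoImplicit false

open CategoryTheory groupCohomology ExtCitation

namespace Fermat.Agent.CFT.H36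

open Fermat.Agent.CFT

local notation "GQ" => (AlgebraicClosure ℚ ≃ₐ[ℚ] AlgebraicClosure ℚ)

noncomputable section

variable (S : Finset Nat.Primes) {p : ℕ} [Fact p.Prime] (hp : p.Prime)
  (hpS : ∀ ℓ : Nat.Primes, (ℓ : ℕ) = p → ℓ ∈ S) (hS : S.Nonempty)

/-- The canonical local envelope at `q ∈ S` (the envelope of `H15.local_duality`). -/
abbrev localEnv (q : ↥S) :
    DivEnvelope (pullLevels (primeLocalToGlobal q.1)) p (localUnitsPrime q.1) :=
  canonicalEnvelope (pullLevels (primeLocalToGlobal q.1)) p hp.ne_zero (localUnitsPrime q.1)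
    (isDiscrete_localUnitsPrime q.1)

/-- `hE`: the smooth-lifting hypothesis for every local envelope. -/
theorem coarseLift_localEnv (q : ↥S) :
    H22.CoarseLift (H87.levelsS S) (primeLocalToGlobal q.1) (localEnv S hp q) :=
  coarseLift_prime S p hp.ne_zero q

/-- `hJ`: the comparison map `J_S → Π_q coindLC (levelsS S) φ_q (Ω_q^×)` is bijective. -/
theorem bijective_compMap_global :
    Function.Bijective (H22.compMap (𝓛 := H87.levelsS S)
      (fun q : ↥S => primeLocalToGlobal q.1)
      (H1.globalPTModules S hp hpS hS).EJ (fun q : ↥S => H1.evq S q)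
      (fun q : ↥S => H1.isEquivariant_evq S q)).hom :=
  H1.bijective_coindLCLift_evq S

/-- `hinj`: the middle envelope of the global package is injective among discrete modules. -/
theorem isDiscInjective_global :
    H22.IsDiscInjective (H87.levelsS S) (H1.globalPTModules S hp hpS hS).EJ.I :=
  H22.isDiscInjective_canonical' (H87.levelsS S) p hp.ne_zero _ _ _ _ _ _ _ _ _

variable (lam : ∀ q : ↥S, H5.EnvMor (primeLocalToGlobal q.1)
    (H1.globalPTModules S hp hpS hS).EJ (localEnv S hp q) (H1.evq S q))
  (X : Rep.{0} (ZMod p) GQ)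

/-- **D4, degree 1, concrete.** -/
theorem theta1_bijective_global (hX : IsFinDiscrete (H87.levelsS S) X) :
    Function.Bijective (fun (t : (H1.globalPTModules S hp hpS hS).EJ.wDatum.T1 X) (q : ↥S) =>
      (lam q).toWMor.T1map X t) :=
  haveI := hX.finite
  H22.theta1_bijective (fun q : ↥S => primeLocalToGlobal q.1) (fun q => localEnv S hp q)
    (fun q => coarseLift_localEnv S hp q) (H1.globalPTModules S hp hpS hS).EJ
    (fun q => H1.evq S q) (fun q => H1.isEquivariant_evq S q) lam X hX.discrete
    (bijective_compMap_global S hp hpS hS) (isDiscInjective_global S hp hpS hS)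

/-- **D4, degree 2, concrete.** -/
theorem theta2_injective_global (hX : IsFinDiscrete (H87.levelsS S) X) :
    Function.Injective (fun (t : (H1.globalPTModules S hp hpS hS).EJ.wDatum.T2 X) (q : ↥S) =>
      (lam q).toWMor.T2map (isCont_primeLocalToGlobal S q) X t) :=
  haveI := hX.finite
  H22.theta2_injective (fun q : ↥S => primeLocalToGlobal q.1) (fun q => localEnv S hp q)
    (fun q => coarseLift_localEnv S hp q) (H1.globalPTModules S hp hpS hS).EJ
    (fun q => H1.evq S q) (fun q => H1.isEquivariant_evq S q) lam X hX.discrete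
    (bijective_compMap_global S hp hpS hS) (isDiscInjective_global S hp hpS hS)
    (fun q => isCont_primeLocalToGlobal S q)
    ((H1.globalPTModules_isAcyclic S hp hpS hS).2.1 X hX).1

/-- `hΘ1` of `H94.exists_shaPairing_of_envelopes`, verbatim. -/
theorem hTheta1 (hX : IsFinDiscrete (H87.levelsS S) X)
    (ℓ : ∀ q : ↥S, (localEnv S hp q).wDatum.T1 (Rep.res (primeLocalToGlobal q.1) X)) :
    ∃ j : (H1.globalPTModules S hp hpS hS).EJ.wDatum.T1 X,
      ∀ q : ↥S, (lam q).toWMor.T1map X j = ℓ q := by
  obtain ⟨j, hj⟩ := (theta1_bijective_global S hp hpS hS lam X hX).2 ℓ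
  exact ⟨j, fun q => congrFun hj q⟩

/-- `hΘ2` of `H94.exists_shaPairing_of_envelopes`, verbatim. -/
theorem hTheta2 (hX : IsFinDiscrete (H87.levelsS S) X)
    (z : (H1.globalPTModules S hp hpS hS).EJ.wDatum.T2 X)
    (hz : ∀ q : ↥S, (lam q).toWMor.T2map (isCont_primeLocalToGlobal S q) X z = 0) : z = 0 := by
  apply theta2_injective_global S hp hpS hS lam X hX
  funext q
  exact (hz q).trans (map_zero ((lam q).toWMor.T2map (isCont_primeLocalToGlobal S q) X)).symm

end

end Fermat.Agent.CFT.H36
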