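import Mathlib
import Fermat.Agent.CFT.H5_CoarseFine
import Fermat.Agent.CFT.H91_WModel
import Fermat.Agent.CFT.H36_Envelope

/-!
# Coarse versus fine level structures: the `W`-model  (CFT / D4b)

On top of `H5_CoarseFine`: for a morphism of `W`-data `(a, b) : (Vm', W', d') → (Vm, W, d)`
from a datum on the coarse structure `𝓛'` to a datum on the fine structure `𝓛` whose
components are smooth embeddings, and every `𝓛'`-discrete `X`:

* `T¹'(X) → T¹(X)` is bijective (`WHom.T1map_bijective`);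
* `T²'(X) → T²(X)` is injective (`WHom.T2map_injective`);
* the duality maps `α¹`, `α²` are compatible (`WHom.alpha1num_comp`, `WHom.alpha2_comp`);
* acyclicity (AC) descends (`WHom.isAcyclic`).

Instances: `WDatum.smooth` (smooth parts of `Vm`, `W`) and, for helper36's `DivEnvelope`,
`smoothEnvelope` (the Hilbert 90 step: the smooth vectors of a fine divisible envelope of `A`
form a coarse divisible envelope of the smooth vectors of `A`).
-/

set_option autoImplicit false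

open CategoryTheory groupCohomology

namespace Fermat.Agent.CFT.H5

open Fermat.Agent.CFT

section HomRep

variable {k : Type} [CommRing k] {H : Type} [Group H]

lemma homRepMap_apply (X : Rep.{0} k H) {V W : Rep.{0} k H} (d : V ⟶ W)
    (φ : X.V →ₗ[k] V.V) (x : X.V) : ((homRepMap X d).hom φ) x = d.hom (φ x) := rfl

/-- **Smooth embeddings pass to `Hom(X, -)`** for `𝓛'`-discrete `X`. -/
theorem isSmoothEmbedding_homRepMap {𝓛' : LevelStructure H} {X : Rep.{0} k H}
    (hX : 𝓛'.IsDiscrete X) {M' M : Rep.{0} k H} {f : M' ⟶ M} (hf : IsSmoothEmbedding 𝓛' f) :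
    IsSmoothEmbedding 𝓛' (homRepMap X f) := by
  constructor
  · intro φ₁ φ₂ h
    refine LinearMap.ext fun x => hf.injective ?_
    exact LinearMap.congr_fun h x
  · intro φ hφ
    have hval : ∀ x : X.V, IsSmoothVec 𝓛' M ((show X.V →ₗ[k] M.V from φ) x) := by
      intro x
      obtain ⟨N, hN, hnor, h1, h2⟩ := IsSmoothVec.exists_common hφ (hX x)
      refine ⟨N, hN, fun n hn => ?_⟩
      have h3 := LinearMap.congr_fun (h1 n hn) x
      rw [homRep_ρ_apply] at h3
      rw [h2 n⁻¹ (N.inv_mem hn)] at h3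
      exact h3
    have hrange : ∀ x : X.V, (show X.V →ₗ[k] M.V from φ) x ∈
        LinearMap.range f.hom.toLinearMap := fun x =>
      hf.exists_of_isSmoothVec _ (hval x)
    let e := LinearEquiv.ofInjective f.hom.toLinearMap hf.injective
    refine ⟨e.symm.toLinearMap ∘ₗ
      LinearMap.codRestrict _ (show X.V →ₗ[k] M.V from φ) hrange, ?_⟩
    refine LinearMap.ext fun x => ?_
    rw [homRepMap_apply]
    show f.hom (e.symm ⟨_, hrange x⟩) = _
    have := e.apply_symm_apply ⟨_, hrange x⟩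
    exact congrArg Subtype.val this

end HomRep

/-! ## Finite intersections of open subgroups; discreteness of `Hom(X, W)` -/

section Finite

variable {H : Type} [Group H]

/-- Finitely many open subgroups contain a common level. -/
lemma exists_level_le_of_finite (𝓛 : LevelStructure H) {ι : Type*} [Finite ι]
    (U : ι → Subgroup H) (hU : ∀ i, 𝓛.IsOpen (U i)) : ∃ N ∈ 𝓛.levels, ∀ i, N ≤ U i := by
  induction ι using Finite.induction_empty_option with
  | of_equiv e ih =>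
    obtain ⟨N, hN, h⟩ := ih (fun i => U (e i)) (fun i => hU (e i))
    exact ⟨N, hN, fun i => by simpa using h (e.symm i)⟩
  | h_empty =>
    obtain ⟨N, hN⟩ := 𝓛.nonempty
    exact ⟨N, hN, fun i => i.elim⟩
  | h_option ih =>
    obtain ⟨N, hN, h⟩ := ih (fun i => U (some i)) (fun i => hU (some i))
    obtain ⟨N', hN', hle⟩ := H50.isOpen_inf 𝓛 (H50.isOpen_of_mem_levels 𝓛 hN) (hU none)
    refine ⟨N', hN', fun i => ?_⟩
    cases i with
    | none => exact hle.trans inf_le_right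
    | some i => exact (hle.trans inf_le_left).trans (h i)

variable {k : Type} [CommRing k]

/-- `Hom(X, W)` is discrete when `X` is finite and discrete and `W` is discrete. -/
theorem isDiscrete_homRep {𝓛 : LevelStructure H} {X W : Rep.{0} k H} [Finite X.V]
    (hX : 𝓛.IsDiscrete X) (hW : 𝓛.IsDiscrete W) : 𝓛.IsDiscrete (homRep X W) := by
  intro φ
  -- for each `x`, a level fixing `x` and `φ x`
  have hx : ∀ x : X.V, ∃ N ∈ 𝓛.levels, (∀ n ∈ N, X.ρ n x = x) ∧
      ∀ n ∈ N, W.ρ n ((show X.V →ₗ[k] W.V from φ) x) = (show X.V →ₗ[k] W.V from φ) x := by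
    intro x
    obtain ⟨N, hN, -, h1, h2⟩ := IsSmoothVec.exists_common (hX x) (hW ((show X.V →ₗ[k] W.V from φ) x))
    exact ⟨N, hN, h1, h2⟩
  choose Nx hNx h1 h2 using hx
  obtain ⟨N, hN, hle⟩ := exists_level_le_of_finite 𝓛 Nx
    (fun x => H50.isOpen_of_mem_levels 𝓛 (hNx x))
  refine ⟨N, hN, fun n hn => LinearMap.ext fun x => ?_⟩
  rw [homRep_ρ_apply]
  have h3 : X.ρ n⁻¹ x = x := h1 x n⁻¹ (hle x (N.inv_mem hn))
  rw [h3]
  exact h2 x n (hle x hn)

end Finite

/-! ## Morphisms of `W`-data from coarse to fine -/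

section WModel

variable {p : ℕ} [Fact p.Prime] {H : Type} [Group H] {𝓛' 𝓛 : LevelStructure H}

/-- A morphism of `W`-data from a datum on the coarse structure to a datum on the fine structure
(same group), whose two components are smooth embeddings. -/
structure WHom (𝒟' : WDatum p 𝓛') (𝒟 : WDatum p 𝓛) where
  a : 𝒟'.Vm ⟶ 𝒟.Vm
  b : 𝒟'.W ⟶ 𝒟.W
  comm : ∀ v : 𝒟'.Vm.V, b.hom (𝒟'.d.hom v) = 𝒟.d.hom (a.hom v)
  ha : IsSmoothEmbedding 𝓛' a
  hb : IsSmoothEmbedding 𝓛' b

namespace WHom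

variable {𝒟' : WDatum p 𝓛'} {𝒟 : WDatum p 𝓛} (φ : WHom 𝒟' 𝒟)

/-- The map on numerators `Hom_H(X, W') → Hom_H(X, W)`. -/
noncomputable def T1numMap (X : Rep.{0} (ZMod p) H) : 𝒟'.T1num X →ₗ[ZMod p] 𝒟.T1num X :=
  H50.coeffH0 (homRepMap X φ.b)

lemma T1numMap_apply (X : Rep.{0} (ZMod p) H) (h' : 𝒟'.T1num X) (x : X.V) :
    (φ.T1numMap X h').1 x = φ.b.hom (h'.1 x) := rfl

lemma T1numMap_bijective {X : Rep.{0} (ZMod p) H} (hX : 𝓛'.IsDiscrete X) :
    Function.Bijective (φ.T1numMap X) :=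
  (isSmoothEmbedding_homRepMap hX φ.hb).coeffH0_bijective

lemma T1den_le_comap (X : Rep.{0} (ZMod p) H) :
    𝒟'.T1den X ≤ (𝒟.T1den X).comap (φ.T1numMap X) := by
  rintro _ ⟨v, rfl⟩
  refine ⟨H50.coeffH0 (homRepMap X φ.a) v, ?_⟩
  apply Subtype.ext
  refine LinearMap.ext fun x => ?_
  exact (φ.comm (v.1 x)).symm

/-- The map `T¹'(X) → T¹(X)`. -/
noncomputable def T1map (X : Rep.{0} (ZMod p) H) : 𝒟'.T1 X →ₗ[ZMod p] 𝒟.T1 X :=
  Submodule.mapQ _ _ (φ.T1numMap X) (φ.T1den_le_comap X)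

@[simp] lemma T1map_mk (X : Rep.{0} (ZMod p) H) (h' : 𝒟'.T1num X) :
    φ.T1map X (Submodule.Quotient.mk h') = Submodule.Quotient.mk (φ.T1numMap X h') := rfl

/-- **`T¹` agrees for the coarse and the fine datum**, for `𝓛'`-discrete `X`. -/
theorem T1map_bijective {X : Rep.{0} (ZMod p) H} (hX : 𝓛'.IsDiscrete X) :
    Function.Bijective (φ.T1map X) := by
  constructor
  · rw [injective_iff_map_eq_zero]
    intro t ht
    induction t using Submodule.Quotient.induction_on with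
    | H h' =>
      rw [T1map_mk, Submodule.Quotient.mk_eq_zero] at ht
      rw [Submodule.Quotient.mk_eq_zero]
      obtain ⟨v, hv⟩ := ht
      obtain ⟨v', rfl⟩ :=
        (isSmoothEmbedding_homRepMap hX φ.ha).coeffH0_bijective.2 v
      refine ⟨v', ?_⟩
      apply (φ.T1numMap_bijective hX).1
      rw [← hv]
      apply Subtype.ext
      refine LinearMap.ext fun x => ?_
      exact φ.comm (v'.1 x)
  · intro t
    induction t using Submodule.Quotient.induction_on with
    | H h =>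
      obtain ⟨h', rfl⟩ := (φ.T1numMap_bijective hX).2 h
      exact ⟨Submodule.Quotient.mk h', rfl⟩

variable (h : IsCoarser 𝓛' 𝓛)

/-- The map `T²'(X) → T²(X)`. -/
noncomputable def T2map (X : Rep.{0} (ZMod p) H) : 𝒟'.T2 X →ₗ[ZMod p] 𝒟.T2 X :=
  H50.mapH1 𝓛 𝓛' h.isCont (H50.isEquivariant_hom (homRepMap X φ.b))

/-- **`T²` of the coarse datum injects into `T²` of the fine datum**, for `𝓛'`-discrete `X`. -/
theorem T2map_injective {X : Rep.{0} (ZMod p) H} (hX : 𝓛'.IsDiscrete X) :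
    Function.Injective (φ.T2map h X) :=
  mapH1_injective h (isSmoothEmbedding_homRepMap hX φ.hb)

/-- The map `T³'(X) → T³(X)`. -/
noncomputable def T3map (X : Rep.{0} (ZMod p) H) : 𝒟'.T3 X →ₗ[ZMod p] 𝒟.T3 X :=
  H50.mapH2 𝓛 𝓛' h.isCont (H50.isEquivariant_hom (homRepMap X φ.b))

/-- The coarse-to-fine map on `H¹(W)`. -/
noncomputable def H1Wmap : 𝓛'.H1 𝒟'.W →ₗ[ZMod p] 𝓛.H1 𝒟.W :=
  H50.mapH1 𝓛 𝓛' h.isCont (H50.isEquivariant_hom φ.b)

/-- The coarse-to-fine (inflation) map on `H¹(X)`. -/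
noncomputable def inflH1 (X : Rep.{0} (ZMod p) H) : 𝓛'.H1 X →ₗ[ZMod p] 𝓛.H1 X :=
  H50.mapH1 𝓛 𝓛' h.isCont (H50.isEquivariant_id X)

theorem inflH1_injective (X : Rep.{0} (ZMod p) H) :
    Function.Injective (inflH1 h X) := by
  have := mapH1_injective h (isSmoothEmbedding_id 𝓛' X)
  exact this

/-- Compatibility of `α²` with the coarse-to-fine maps: the coarse `α²` for the trace
`tr ∘ H1Wmap` is the fine `α²` composed with `T2map`. -/
theorem alpha2_comp (tr : 𝓛.H1 𝒟.W →ₗ[ZMod p] ZMod p) (X : Rep.{0} (ZMod p) H)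
    (ξ' : 𝒟'.T2 X) :
    𝒟.alpha2 tr X (φ.T2map h X ξ') = 𝒟'.alpha2 (tr ∘ₗ φ.H1Wmap h) X ξ' := by
  induction ξ' using Submodule.Quotient.induction_on with
  | H c => rfl

/-- Compatibility of `α¹` with the coarse-to-fine maps. -/
theorem alpha1num_comp (tr : 𝓛.H1 𝒟.W →ₗ[ZMod p] ZMod p) (X : Rep.{0} (ZMod p) H)
    (h' : 𝒟'.T1num X) (ξ' : 𝓛'.H1 X) :
    𝒟.alpha1num tr X (φ.T1numMap X h') (inflH1 h X ξ') =
      𝒟'.alpha1num (tr ∘ₗ φ.H1Wmap h) X h' ξ' := by
  induction ξ' using Submodule.Quotient.induction_on with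
  | H c => rfl

end WHom

/-! ## The smooth datum -/

/-- The smooth part of a `W`-datum: a `W`-datum for the coarse structure. -/
noncomputable def smoothDatum (𝓛' : LevelStructure H) (𝒟 : WDatum p 𝓛) : WDatum p 𝓛' where
  Vm := smoothPart 𝓛' 𝒟.Vm
  W := smoothPart 𝓛' 𝒟.W
  d := smoothMap 𝓛' 𝒟.d
  discrete_Vm := isDiscrete_smoothPart 𝓛' 𝒟.Vm
  discrete_W := isDiscrete_smoothPart 𝓛' 𝒟.W

/-- The canonical morphism from the smooth datum. -/
noncomputable def smoothDatumHom (𝓛' : LevelStructure H) (𝒟 : WDatum p 𝓛) :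
    WHom (smoothDatum 𝓛' 𝒟) 𝒟 where
  a := smoothIncl 𝓛' 𝒟.Vm
  b := smoothIncl 𝓛' 𝒟.W
  comm _ := rfl
  ha := isSmoothEmbedding_smoothIncl 𝓛' 𝒟.Vm
  hb := isSmoothEmbedding_smoothIncl 𝓛' 𝒟.W

/-- **(AC) descends.** If the fine datum is acyclic, and moreover the fine `H¹(N; Hom(X, Vm))`
vanishes for every coarse level `N` and every finite `𝓛'`-discrete `X`, then the coarse datum is
acyclic. -/
theorem WHom.isAcyclic {𝒟' : WDatum p 𝓛'} {𝒟 : WDatum p 𝓛} (φ : WHom 𝒟' 𝒟)
    (h : IsCoarser 𝓛' 𝓛) (hAC : 𝒟.IsAcyclic)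
    (hres : ∀ X : Rep.{0} (ZMod p) H, IsFinDiscrete 𝓛' X → ∀ N ∈ 𝓛'.levels,
      H1Vanishes 𝓛 N (homRep X 𝒟.Vm)) : 𝒟'.IsAcyclic := by
  intro X hX
  have hXfine : IsFinDiscrete 𝓛 X := ⟨hX.finite, h.isDiscrete hX.discrete⟩
  obtain ⟨h1, h2⟩ := hAC X hXfine
  have hemb := isSmoothEmbedding_homRepMap hX.discrete φ.ha
  constructor
  · exact (mapH1_injective h hemb).subsingleton
  · have := hX.finite
    exact (mapH2_injective' h hemb (isDiscrete_homRep hX.discrete 𝒟'.discrete_Vm)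
      (hres X hX)).subsingleton

end WModel

/-! ## The Hilbert 90 step for divisible envelopes -/

section Envelope

variable {k : Type} [CommRing k] {H : Type} [Group H]

/-- The `m`-torsion functor preserves smooth embeddings. -/
theorem isSmoothEmbedding_torsionMap {𝓛' : LevelStructure H} (m : ℕ) {M' M : Rep.{0} k H}
    {f : M' ⟶ M} (hf : IsSmoothEmbedding 𝓛' f) :
    IsSmoothEmbedding 𝓛' (H36.torsionMap m f) := by
  constructor
  · exact H36.torsionMap_injective m f hf.injective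
  · intro x hx
    obtain ⟨N, hN, hfix⟩ := hx
    have hx1 : IsSmoothVec 𝓛' M (show H36.torsionSub m M.V from x).1 :=
      ⟨N, hN, fun n hn => congrArg Subtype.val (hfix n hn)⟩
    obtain ⟨m', hm'⟩ := hf.exists_of_isSmoothVec _ hx1
    have htor : m' ∈ H36.torsionSub m M'.V := by
      rw [H36.mem_torsionSub]
      apply hf.injective
      rw [map_nsmul, hm', map_zero]
      exact (show H36.torsionSub m M.V from x).2
    exact ⟨(⟨m', htor⟩ : H36.torsionSub m M'.V), Subtype.ext hm'⟩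

variable {𝓛' 𝓛 : LevelStructure H} {m : ℕ} {A : Rep.{0} k H}

/-- **Hilbert 90 step.** Let `E` be an `m`-divisible envelope of `A` for the fine structure.
If the fine `H¹(N'; A)` and the fine `H¹(N'; I[m])` vanish for a cofinal family of coarse levels
`N'`, then the smooth vectors of `E` form an `m`-divisible envelope of the smooth vectors of `A`
for the coarse structure. -/
noncomputable def smoothEnvelope (E : H36.DivEnvelope 𝓛 m A)
    (h90 : ∀ N ∈ 𝓛'.levels, ∃ N' ∈ 𝓛'.levels, N' ≤ N ∧ H1Vanishes 𝓛 N' A)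
    (hAC : ∀ N ∈ 𝓛'.levels, ∃ N' ∈ 𝓛'.levels, N' ≤ N ∧
      H1Vanishes 𝓛 N' (H36.torsionRep m E.I)) :
    H36.DivEnvelope 𝓛' m (smoothPart 𝓛' A) where
  I := smoothPart 𝓛' E.I
  Q := smoothPart 𝓛' E.Q
  ι := smoothMap 𝓛' E.ι
  π := smoothMap 𝓛' E.π
  ι_injective := smoothMap_injective 𝓛' E.ι E.ι_injective
  π_surjective := smoothMap_surjective E.ι E.π E.ι_injective E.exact E.π_surjective E.discrete h90
  exact := smoothMap_exact 𝓛' E.ι E.π E.ι_injective E.exact
  discrete := isDiscrete_smoothPart 𝓛' E.I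
  divisible := by
    intro x
    obtain ⟨y, hy, hxy⟩ := exists_isSmoothVec_nsmul_eq (𝓛' := 𝓛') (𝓛 := 𝓛) (I := E.I)
      (T := H36.torsionRep m E.I) m (H36.torsionSub m E.I.V).subtype
      (fun g t => rfl) Subtype.val_injective (fun t => t.2) (fun x hx => ⟨⟨x, hx⟩, rfl⟩)
      E.divisible E.discrete hAC ((smoothIncl 𝓛' E.I).hom x) (smoothIncl_isSmoothVec 𝓛' E.I x)
    obtain ⟨y', rfl⟩ := exists_smoothIncl_eq hy
    refine ⟨y', smoothIncl_injective 𝓛' E.I ?_⟩
    rw [map_nsmul, hxy]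

end Envelope

section EnvelopeDatum

variable {p : ℕ} [Fact p.Prime] {k : Type} [CommRing k] {H : Type} [Group H]
  {𝓛' 𝓛 : LevelStructure H} {A : Rep.{0} k H}

/-- The `W`-datum `[I[p] → Q[p]]` of a `p`-divisible envelope. -/
noncomputable def wDatumOfEnvelope (E : H36.DivEnvelope 𝓛 p A) : WDatum p 𝓛 where
  Vm := H36.torsionRep p E.I
  W := H36.torsionRep p E.Q
  d := E.dComplex
  discrete_Vm := E.isDiscrete_dComplex_source
  discrete_W := E.isDiscrete_dComplex_target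

/-- The `W`-datum of the smooth envelope maps to the `W`-datum of the envelope by smooth
embeddings; hence `T¹` agrees and `T²` injects (`WHom.T1map_bijective`,
`WHom.T2map_injective`). -/
noncomputable def smoothEnvelopeHom (E : H36.DivEnvelope 𝓛 p A)
    (h90 : ∀ N ∈ 𝓛'.levels, ∃ N' ∈ 𝓛'.levels, N' ≤ N ∧ H1Vanishes 𝓛 N' A)
    (hAC : ∀ N ∈ 𝓛'.levels, ∃ N' ∈ 𝓛'.levels, N' ≤ N ∧
      H1Vanishes 𝓛 N' (H36.torsionRep p E.I)) :
    WHom (wDatumOfEnvelope (smoothEnvelope (𝓛' := 𝓛') E h90 hAC)) (wDatumOfEnvelope E) where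
  a := H36.torsionMap p (smoothIncl 𝓛' E.I)
  b := H36.torsionMap p (smoothIncl 𝓛' E.Q)
  comm _ := rfl
  ha := isSmoothEmbedding_torsionMap p (isSmoothEmbedding_smoothIncl 𝓛' E.I)
  hb := isSmoothEmbedding_torsionMap p (isSmoothEmbedding_smoothIncl 𝓛' E.Q)

end EnvelopeDatum

end Fermat.Agent.CFT.H5
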