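import Mathlib
import Fermat.Agent.CFT.H5_EnvCompare
import Fermat.Agent.CFT.H5_CoarseFineW
import Fermat.Agent.CFT.H46_WModel
import Fermat.Agent.CFT.H1_LevelLESRes

/-!
# The `p`-divisible case: `T²(X; N) ≅ H²(H; Hom(X, N[p]))`, naturally  (CFT / D4 (c))

For a `p`-divisible envelope `E` of a `p`-divisible module `N`, the sequence
`0 → N[p] → Vm → W → 0` is exact, hence so is `0 → Hom(X,N[p]) → Hom(X,Vm) → Hom(X,W) → 0`, and
the connecting map of level cohomology

  `theta E hN X hX : T²(X) = 𝓛.H1 (Hom(X, W)) → 𝓛.H2 (Hom(X, N[p]))`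

is injective under (AC1) and surjective under (AC2).  It is natural for morphisms of envelopes
over a continuous group homomorphism (`theta_natural`), so that the comparison maps `T2map` of
`H5_EnvCompare` become the maps `H50.mapH2` (restriction along `φ` + push-forward along
`N[p] → N'[p]`) under `theta`.
-/

set_option autoImplicit false
set_option linter.unusedSectionVars false

open CategoryTheory groupCohomology

namespace Fermat.Agent.CFT.H5

open Fermat.Agent.CFT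

section Theta

variable {k : Type} [CommRing k] {H : Type} [Group H] {𝓛 : LevelStructure H} {p : ℕ}
  [Fact p.Prime] {N : Rep.{0} k H}

/-- For `p`-divisible `N`, `d : Vm → W` is surjective. -/
theorem dComplex_surjective (E : H36.DivEnvelope 𝓛 p N) (hN : ∀ n : N.V, ∃ n' : N.V, p • n' = n) :
    Function.Surjective E.dComplex.hom :=
  H36.torsionMap_surjective_of_divisible p E.ι E.π E.exact E.π_surjective hN

/-- `0 → N[p] → Vm → W → 0` for `p`-divisible `N`. -/
theorem isSES_dKer (E : H36.DivEnvelope 𝓛 p N) (hN : ∀ n : N.V, ∃ n' : N.V, p • n' = n) :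
    H1.IsSES E.dKer E.dComplex where
  inj := E.dKer_injective
  surj := dComplex_surjective E hN
  exact := fun y => by
    constructor
    · intro hy
      obtain ⟨x, hx⟩ := (E.dComplex_eq_zero_iff y).1 hy
      exact ⟨x, hx⟩
    · rintro ⟨x, rfl⟩
      exact (E.dComplex_eq_zero_iff _).2 ⟨x, rfl⟩

/-- `0 → Hom(X,N[p]) → Hom(X,Vm) → Hom(X,W) → 0` for `p`-divisible `N`. -/
theorem isSES_hom_dKer (E : H36.DivEnvelope 𝓛 p N) (hN : ∀ n : N.V, ∃ n' : N.V, p • n' = n)
    (X : Rep.{0} (ZMod p) H) : H1.IsSES (homRepMap X E.dKer) (homRepMap X E.dComplex) :=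
  H46.isSES_postHom X (isSES_dKer E hN)

lemma isDiscrete_homRep_Vm (E : H36.DivEnvelope 𝓛 p N) {X : Rep.{0} (ZMod p) H}
    (hX : IsFinDiscrete 𝓛 X) : 𝓛.IsDiscrete (homRep X E.wDatum.Vm) :=
  haveI := hX.finite
  isDiscrete_homRep hX.discrete E.wDatum.discrete_Vm

/-- The connecting map `θ : T²(X) = H¹(H; Hom(X,W)) → H²(H; Hom(X,N[p]))`. -/
noncomputable def theta (E : H36.DivEnvelope 𝓛 p N) (hN : ∀ n : N.V, ∃ n' : N.V, p • n' = n)
    (X : Rep.{0} (ZMod p) H) (hX : IsFinDiscrete 𝓛 X) :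
    E.wDatum.T2 X →ₗ[ZMod p] 𝓛.H2 (homRep X (H36.torsionRep p N)) :=
  H1.δ₁ 𝓛 (isSES_hom_dKer E hN X) (isDiscrete_homRep_Vm E hX)

theorem theta_injective (E : H36.DivEnvelope 𝓛 p N) (hN : ∀ n : N.V, ∃ n' : N.V, p • n' = n)
    (X : Rep.{0} (ZMod p) H) (hX : IsFinDiscrete 𝓛 X)
    (h1 : Subsingleton (𝓛.H1 (homRep X E.wDatum.Vm))) :
    Function.Injective (theta E hN X hX) := by
  rw [injective_iff_map_eq_zero]
  intro y hy
  obtain ⟨z, rfl⟩ := ((H1.exact_H1map_δ₁ 𝓛 (isSES_hom_dKer E hN X)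
    (isDiscrete_homRep_Vm E hX)) y).1 hy
  rw [@Subsingleton.elim _ h1 z 0]
  exact map_zero _

theorem theta_surjective (E : H36.DivEnvelope 𝓛 p N) (hN : ∀ n : N.V, ∃ n' : N.V, p • n' = n)
    (X : Rep.{0} (ZMod p) H) (hX : IsFinDiscrete 𝓛 X)
    (h2 : Subsingleton (𝓛.H2 (homRep X E.wDatum.Vm))) :
    Function.Surjective (theta E hN X hX) := by
  intro a
  exact ((H1.exact_δ₁_H2map 𝓛 (isSES_hom_dKer E hN X)
    (isDiscrete_homRep_Vm E hX)) a).1 (@Subsingleton.elim _ h2 _ _)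

theorem theta_bijective (E : H36.DivEnvelope 𝓛 p N) (hN : ∀ n : N.V, ∃ n' : N.V, p • n' = n)
    (hAC : E.wDatum.IsAcyclic) (X : Rep.{0} (ZMod p) H) (hX : IsFinDiscrete 𝓛 X) :
    Function.Bijective (theta E hN X hX) :=
  ⟨theta_injective E hN X hX (hAC X hX).1, theta_surjective E hN X hX (hAC X hX).2⟩

end Theta

section Natural

variable {k : Type} [CommRing k] {H D : Type} [Group H] [Group D]
  {𝓛 : LevelStructure H} {𝓛D : LevelStructure D} {p : ℕ} [Fact p.Prime]
  {N : Rep.{0} k H} {N' : Rep.{0} k D}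

/-- The restriction of a finite discrete representation along a continuous homomorphism is
finite discrete. -/
theorem isFinDiscrete_res {φ : D →* H} (hφ : H50.IsCont 𝓛D 𝓛 φ) {X : Rep.{0} (ZMod p) H}
    (hX : IsFinDiscrete 𝓛 X) : IsFinDiscrete 𝓛D (Rep.res φ X) :=
  ⟨hX.finite, H50.isDiscrete_res 𝓛D 𝓛 hφ hX.discrete⟩

/-- Equivariance of the restriction to `p`-torsion of an equivariant map. -/
lemma isEquivariant_torsionLin {φ : D →* H} {ev : N.V →ₗ[k] N'.V}
    (hev : H50.IsEquivariant φ N N' ev) :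
    H50.IsEquivariant φ (H36.torsionRep p N) (H36.torsionRep p N')
      (torsionLin p ev.toAddMonoidHom) :=
  fun g x => Subtype.ext (hev g (show H36.torsionSub p N.V from x).1)

/-- **Naturality of `θ`** for a morphism of envelopes over `φ` and `ev`. -/
theorem theta_natural {φ : D →* H} (hφ : H50.IsCont 𝓛D 𝓛 φ)
    {E : H36.DivEnvelope 𝓛 p N} {E' : H36.DivEnvelope 𝓛D p N'} {ev : N.V →ₗ[k] N'.V}
    (Φ : EnvMor φ E E' ev) (hev : H50.IsEquivariant φ N N' ev)
    (hN : ∀ n : N.V, ∃ n' : N.V, p • n' = n) (hN' : ∀ n : N'.V, ∃ n' : N'.V, p • n' = n)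
    (X : Rep.{0} (ZMod p) H) (hX : IsFinDiscrete 𝓛 X) (ξ : E.wDatum.T2 X) :
    theta E' hN' (Rep.res φ X) (isFinDiscrete_res hφ hX) (Φ.toWMor.T2map hφ X ξ) =
      H50.mapH2 𝓛D 𝓛 hφ (isEquivariant_homPush φ X (isEquivariant_torsionLin (p := p) hev))
        (theta E hN X hX ξ) := by
  symm
  exact H1.mapH2_δ₁ 𝓛D 𝓛 hφ (isSES_hom_dKer E hN X) (isDiscrete_homRep_Vm E hX)
    (isSES_hom_dKer E' hN' (Rep.res φ X)) (isDiscrete_homRep_Vm E' (isFinDiscrete_res hφ hX))
    (isEquivariant_homPush φ X (isEquivariant_torsionLin (p := p) hev))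
    (isEquivariant_homPush φ X Φ.toWMor.ha) (isEquivariant_homPush φ X Φ.toWMor.hb)
    (fun f => LinearMap.ext fun x => Subtype.ext
      (Φ.comm ((show H36.torsionSub p N.V from
        (show X.V →ₗ[ZMod p] (H36.torsionRep p N).V from f) x).1)).symm)
    (fun f => LinearMap.ext fun x =>
      (Φ.toWMor.comm ((show X.V →ₗ[ZMod p] E.wDatum.Vm.V from f) x)).symm) ξ

end Natural

end Fermat.Agent.CFT.H5
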