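import Fermat.Agent.CFT.H94_PTLocal
import Fermat.Agent.CFT.H35_PTModules
import Fermat.Agent.CFT.H5_Theta

/-!
# Poitou–Tate from a module package and local envelopes (layer D3, final abstract form)

`exists_shaPairing_of_envelopes` is `H94.exists_shaPairing_of_local` specialised to

* the global module package `M : H35.PTModules 𝓛 p E J C` (helper35), with `E` `p`-divisible and
  (AC) for `M.EE`;
* local divisible envelopes `EA v` of `p`-divisible modules `A v` with (AC), and morphisms of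
  envelopes `Λ v : H5.EnvMor (φ v) M.EJ (EA v) (ev v)` (helper5) over equivariant maps
  `ev v : J → A v`, such that `E[p] → A_v[p]` is bijective;
* local duality in degree one for `(EA v).wDatum`, global duality in degree one for
  `M.EC.wDatum`, D4's two comparison facts, and the trace identity with nonzero weights.

All structural hypotheses of `exists_shaPairing_of_local` are discharged here.
-/

set_option autoImplicit false

open CategoryTheory

namespace Fermat.Agent.CFT.H94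

open Fermat.Agent.CFT

section Main

variable {p : ℕ} [Fact p.Prime] {k : Type} [CommRing k] {G : Type} [Group G]
  (𝓛 : LevelStructure G)
variable {ι : Type} [Fintype ι] {D : ι → Type} [∀ v, Group (D v)]
  (𝓛v : ∀ v, LevelStructure (D v)) (φ : ∀ v, D v →* G)
  (hφ : ∀ v, (𝓛v v).Continuous 𝓛 (φ v))

/-- **Poitou–Tate, final abstract form.** -/
theorem exists_shaPairing_of_envelopes
    {E J C : Rep.{0} k G} (M : H35.PTModules 𝓛 p E J C)
    (hE : ∀ e : E.V, ∃ e' : E.V, p • e' = e) (hAC : M.EE.wDatum.IsAcyclic)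
    (X : Rep.{0} (ZMod p) G) (hX : IsFinDiscrete 𝓛 X)
    -- global duality for `C`
    (trC : 𝓛.H1 M.EC.wDatum.W →ₗ[ZMod p] ZMod p) (hdual : M.EC.wDatum.IsDual1 trC X)
    -- local modules and envelopes
    {A : ∀ v, Rep.{0} k (D v)} (EA : ∀ v, H36.DivEnvelope (𝓛v v) p (A v))
    (hA : ∀ v (a : (A v).V), ∃ a' : (A v).V, p • a' = a)
    (hACv : ∀ v, (EA v).wDatum.IsAcyclic)
    -- evaluation maps and envelope morphisms over them (D4's `λ_v`)
    (ev : ∀ v, J.V →ₗ[k] (A v).V) (hev : ∀ v, H50.IsEquivariant (φ v) J (A v) (ev v))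
    (Λ : ∀ v, H5.EnvMor (φ v) M.EJ (EA v) (ev v))
    -- `E[p] → A_v[p]` bijective
    (hμ : ∀ v, Function.Bijective
      (H5.torsionLin p ((ev v) ∘ₗ M.ε.hom.toLinearMap).toAddMonoidHom))
    -- D4: comparison of `T¹` (onto) and `T²` (jointly injective)
    (hΘ1 : ∀ ℓ : ∀ v, (EA v).wDatum.T1 (Rep.res (φ v) X),
      ∃ j : M.EJ.wDatum.T1 X, ∀ v, (Λ v).toWMor.T1map X j = ℓ v)
    (hΘ2 : ∀ z : M.EJ.wDatum.T2 X, (∀ v, (Λ v).toWMor.T2map (hφ v) X z = 0) → z = 0)
    -- local duality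
    (trv : ∀ v, (𝓛v v).H1 (EA v).wDatum.W →ₗ[ZMod p] ZMod p)
    (hdualv : ∀ v, (EA v).wDatum.IsDual1 (trv v) (Rep.res (φ v) X))
    -- the trace identity
    (hX5 : ∃ c : ι → ZMod p, (∀ v, c v ≠ 0) ∧ ∀ w : 𝓛.H1 M.EJ.wDatum.W,
      trC (H1.H1map 𝓛 M.bW w) = ∑ v, c v * trv v ((Λ v).toWMor.H1Wmap (hφ v) w)) :
    ∃ B : ShaL1 𝓛 𝓛v φ hφ X →ₗ[ZMod p]
        ShaL2 𝓛 𝓛v φ hφ (homRep X (H36.torsionRep p E)) →ₗ[ZMod p] ZMod p,
      (∀ y, (∀ x, B y x = 0) → y = 0) ∧ (∀ x, (∀ y, B y x = 0) → x = 0) := by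
  classical
  obtain ⟨c, hc, hX5⟩ := hX5
  -- the exact sequence `0 → W_E → W_J → W_C → 0`
  have hW : H1.IsSES M.aW M.bW := by
    refine ⟨M.a_injective, M.b_surjective, fun y => ?_⟩
    exact M.ab_exact y
  -- `Hom_G(X, Vm_J) → Hom_G(X, Vm_C)` is onto (splitting `sV`)
  have hpV : Function.Surjective (H1.H0map (homRepMap X M.qV)) := by
    intro h
    refine ⟨H1.H0map (homRepMap X M.sV) h, ?_⟩
    apply Subtype.ext
    refine LinearMap.ext fun x => ?_
    show M.qV.hom (M.sV.hom ((show X.V →ₗ[ZMod p] M.VmC.V from h.1) x)) = _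
    have := congrArg (fun f => f.hom ((show X.V →ₗ[ZMod p] M.VmC.V from h.1) x)) M.sV_qV
    exact this
  have hsq : ∀ x, M.bW.hom (M.EJ.wDatum.d.hom x) = M.EC.wDatum.d.hom (M.qV.hom x) := by
    intro x
    have := congrArg (fun f => f.hom x) M.d_sqC
    exact this
  have hsqE : ∀ x, M.aW.hom (M.EE.wDatum.d.hom x) = M.EJ.wDatum.d.hom (M.iV.hom x) := by
    intro x
    have := congrArg (fun f => f.hom x) M.d_sqE
    exact this
  -- the identification `μ ≃ μ_v`
  have hevε : ∀ v, H50.IsEquivariant (φ v) E (A v) ((ev v) ∘ₗ M.ε.hom.toLinearMap) := by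
    intro v g a
    show ev v (M.ε.hom (E.ρ (φ v g) a)) = (A v).ρ g (ev v (M.ε.hom a))
    rw [Rep.hom_comm_apply]
    exact hev v g _
  let ν : ∀ v, (H36.torsionRep p E).V ≃ₗ[ZMod p] (H36.torsionRep p (A v)).V := fun v =>
    LinearEquiv.ofBijective (H5.torsionLin p ((ev v) ∘ₗ M.ε.hom.toLinearMap).toAddMonoidHom)
      (hμ v)
  have hν : ∀ v, H50.IsEquivariant (φ v) (H36.torsionRep p E) (H36.torsionRep p (A v))
      (ν v).toLinearMap := fun v => H5.isEquivariant_torsionLin (p := p) (hevε v)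
  have hνκ : ∀ v (m : (H36.torsionRep p E).V),
      (Λ v).toWMor.a (M.iV.hom (M.EE.dKer.hom m)) = (EA v).dKer.hom (ν v m) := by
    intro v m
    apply Subtype.ext
    show (Λ v).F (M.iI.hom (M.EE.ι.hom (show H36.torsionSub p E.V from m).1)) =
      (EA v).ι.hom (ev v (M.ε.hom (show H36.torsionSub p E.V from m).1))
    have h1 : M.iI.hom (M.EE.ι.hom (show H36.torsionSub p E.V from m).1) =
        M.EJ.ι.hom (M.ε.hom (show H36.torsionSub p E.V from m).1) := by
      have := congrArg (fun f => f.hom (show H36.torsionSub p E.V from m).1) M.sqιE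
      exact this.symm
    rw [h1, (Λ v).comm]
  exact exists_shaPairing_of_local 𝓛 𝓛v φ hφ X hX (H36.torsionRep p E)
    M.EE.wDatum M.EJ.wDatum M.EC.wDatum M.EE.dKer (H5.isSES_dKer M.EE hE) (hAC X hX)
    M.aW M.bW hW M.qV hsq hpV trC hdual M.iV hsqE
    (fun v => (EA v).wDatum) (fun v => (Λ v).toWMor) hΘ1 hΘ2
    (fun v => H36.torsionRep p (A v)) (fun v => (EA v).dKer)
    (fun v => H5.isSES_dKer (EA v) (hA v))
    (fun v => hACv v (Rep.res (φ v) X) (H5.isFinDiscrete_res (hφ v) hX))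
    ν hν hνκ trv hdualv c hc hX5

end Main

end Fermat.Agent.CFT.H94
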