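/-
CFT layer D3-inst (concrete): the final wiring.  `PoitouTateStatement p S` (p odd, p ∈ S) from

* `D1Statement p`, `D2Statement p` (layer D1, D2);
* the global `p`-class formation on `C_S` with (FIN), (EXIST) (layer C);
* the comparison theorem D4 for the family of evaluations `ev_q : J_S → Ω_q^×`;
* the constant-free reciprocity statement (X5'') at every `q ∈ S`;
* the `μ`-comparison `E_S[p] ≅ Ω_q^×[p]`.

helper55.
-/
import Fermat.Agent.CFT.H55_X5
import Fermat.Agent.CFT.H55_Twist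
import Fermat.Agent.CFT.H94_PTLocalEnv
import Fermat.Agent.CFT.H1_GlobalPTEv
import Fermat.Agent.CFT.H1_GlobalMu
import Fermat.Agent.CFT.H15_LocalDuality
import Fermat.Agent.CFT.H20_GlobalDuality
import Fermat.Agent.CFT.H35_EnvInj
import Fermat.Agent.CFT.H87_PTBridge

set_option autoImplicit false

open CategoryTheory ExtCitation

namespace Fermat.Agent.CFT.H55

open Fermat.Agent.CFT

local notation "GQ" => (AlgebraicClosure ℚ ≃ₐ[ℚ] AlgebraicClosure ℚ)

section Setup

variable (p : ℕ) [Fact p.Prime] (S : Finset Nat.Primes)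

/-- The local level structures used in the final wiring: the pulled-back levels. -/
noncomputable abbrev locLevels (q : ↥S) : LevelStructure (primeLocalGaloisGroup q.1) :=
  pullLevels (primeLocalToGlobal q.1)

theorem hcof_locLevels (q : ↥S) :
    H87.Cofinal (locLevels S q) (pullLevels (primeLocalToGlobal q.1)) :=
  H87.Cofinal.refl _

theorem isCont_locLevels (q : ↥S) :
    H50.IsCont (locLevels S q) (H87.levelsS S) (primeLocalToGlobal q.1) :=
  H87.isCont_of_cofinal_pullLevels S q (hcof_locLevels S q)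

/-- The local envelopes: canonical envelopes of `Ω_q^×`. -/
noncomputable abbrev locEnvelope (q : ↥S) :
    H36.DivEnvelope (locLevels S q) p (localUnitsPrime q.1) :=
  H36.canonicalEnvelope (locLevels S q) p (Fact.out : p.Prime).ne_zero (localUnitsPrime q.1)
    (isDiscrete_localUnitsPrime q.1)

end Setup

section Final

variable (p : ℕ) [Fact p.Prime] (S : Finset Nat.Primes)

/-- The hypothesis `hpS` in helper1's shape. -/
theorem hpS_of_mem (hpS : pPrime p ∈ S) : ∀ ℓ : Nat.Primes, (ℓ : ℕ) = p → ℓ ∈ S := by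
  intro ℓ hℓ
  have : ℓ = pPrime p := Subtype.ext hℓ
  rw [this]; exact hpS

/-- The global module package. -/
noncomputable abbrev gM (hpS : pPrime p ∈ S) :
    H35.PTModules (H87.levelsS S) p (H1.repES S) (H77.repJTop S) (H77.repCSTop S) :=
  H1.globalPTModules S (Fact.out : p.Prime) (hpS_of_mem p S hpS) ⟨pPrime p, hpS⟩

/-- **D4 for the concrete family**, as a statement. -/
def D4Concrete (hpS : pPrime p ∈ S) : Prop :=
  ∀ (X : Rep.{0} (ZMod p) GQ), IsFinDiscrete (H87.levelsS S) X →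
    ∀ lam : ∀ q : ↥S, H5.EnvMor (primeLocalToGlobal q.1) (gM p S hpS).EJ (locEnvelope p S q)
      (H1.evq S q),
      Function.Bijective (fun (t : (gM p S hpS).EJ.wDatum.T1 X) (q : ↥S) =>
        (lam q).toWMor.T1map X t) ∧
      Function.Injective (fun (t : (gM p S hpS).EJ.wDatum.T2 X) (q : ↥S) =>
        (lam q).toWMor.T2map (isCont_locLevels S q) X t)

/-- **(X5'')** for the concrete modules, as a statement. -/
def X5Concrete : Prop :=
  ∀ q : ↥S, ∃ x₀ : (H87.levelsS S).H2 (H1.repJq S q), p • x₀ = 0 ∧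
    H50.coeffH2 (H87.levelsS S) (H1.inq S q ≫ H77.jToCSTopHom S) x₀ ≠ 0

/-- **The `μ`-comparison**, as a statement. -/
def MuConcrete : Prop :=
  ∀ q : ↥S, Function.Bijective
    (H5.torsionLin p ((H1.evq S q) ∘ₗ (H1.esToJTopHom S).hom.toLinearMap).toAddMonoidHom)

/-- The orthogonal idempotents `e_q = pr_q ≫ in_q` of `J_S`. -/
noncomputable abbrev eq' (q : ↥S) : H77.repJTop S ⟶ H77.repJTop S := H1.prq S q ≫ H1.inq S q

lemma eq'_apply (q : ↥S) (j : (H77.repJTop S).V) :
    (eq' S q).hom j = (H1.inq S q).hom ((H1.prq S q).hom j) := rfl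

lemma prq_inq_apply (q : ↥S) (x : (H1.repJq S q).V) :
    (H1.prq S q).hom ((H1.inq S q).hom x) = x :=
  congrArg (fun φ : H1.repJq S q ⟶ H1.repJq S q => φ.hom x) (H1.inq_prq_self S q)

lemma prq_inq_apply_of_ne {q u : ↥S} (h : u ≠ q) (x : (H1.repJq S q).V) :
    (H1.prq S u).hom ((H1.inq S q).hom x) = 0 :=
  congrArg (fun φ : H1.repJq S q ⟶ H1.repJq S u => φ.hom x) (H1.inq_prq_of_ne S h)

lemma evq_eq'_of_ne {u v : ↥S} (h : u ≠ v) (c : (H77.repJTop S).V) :
    H1.evq S u ((eq' S v).hom c) = 0 := by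
  rw [H1.evq_apply, eq'_apply, prq_inq_apply_of_ne S h, map_zero]
  rfl

/-- **(hX5) for the concrete data.** -/
theorem exists_weights_concrete (hpS : pPrime p ∈ S)
    (Λ : ∀ q : ↥S, H5.EnvMor (primeLocalToGlobal q.1) (gM p S hpS).EJ (locEnvelope p S q)
      (H1.evq S q))
    (hΘ2 : ∀ z : (gM p S hpS).EJ.wDatum.T2 (trivLine p GQ),
      (∀ q, (Λ q).toWMor.T2map (isCont_locLevels S q) (trivLine p GQ) z = 0) → z = 0)
    (trC : (H87.levelsS S).H1 (gM p S hpS).EC.wDatum.W →ₗ[ZMod p] ZMod p)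
    (htrC : Function.Injective trC)
    (trv : ∀ q : ↥S, (locLevels S q).H1 (locEnvelope p S q).wDatum.W →ₗ[ZMod p] ZMod p)
    (htrv : ∀ q, Function.Injective (trv q))
    (hX5 : X5Concrete p S) :
    ∃ c : ↥S → ZMod p, (∀ q, c q ≠ 0) ∧ ∀ w : (H87.levelsS S).H1 (gM p S hpS).EJ.wDatum.W,
      trC (H1.H1map (H87.levelsS S) (gM p S hpS).bW w) =
        ∑ q, c q * trv q ((Λ q).toWMor.H1Wmap (isCont_locLevels S q) w) := by
  classical
  have hp : p.Prime := Fact.out
  obtain ⟨-, hACJ, -⟩ := H1.globalPTModules_isAcyclic S hp (hpS_of_mem p S hpS) ⟨pPrime p, hpS⟩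
  -- injectivity of `I_J`
  have hInj : H35.IsInjDiscrete (H87.levelsS S) (gM p S hpS).EJ.I :=
    (H35.canonical'_isInjDiscrete (H87.levelsS S) p hp.ne_zero (H1.esToJTopHom S)
      (H77.jToCSTopHom S) (H1.esToJTopHom_injective ⟨pPrime p, hpS⟩) H1.jToCSTopHom_eq_zero_iff
      (H1.jToCSTopHom_hdiv hp (hpS_of_mem p S hpS)) (H1.jToCSTopHom_htf hp (hpS_of_mem p S hpS))
      (H1.isDiscrete_repES S) (H77.isDiscrete_repJTop S) (H77.isDiscrete_repCSTop S)).2.1
  -- `H¹(I_J) = H²(I_J) = 0`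
  have hCo : H36.IsCoinduced (H87.levelsS S) (gM p S hpS).EJ.I :=
    (H36.isCoinduced_canonicalEnvelope (H87.levelsS S) p hp.ne_zero (H1.repES S)
      (H1.isDiscrete_repES S)).prod
    (H36.isCoinduced_canonicalEnvelope (H87.levelsS S) p hp.ne_zero (H77.repCSTop S)
      (H77.isDiscrete_repCSTop S))
  -- the envelope morphism over `pr`
  let Pr : H5.EnvMor (MonoidHom.id GQ) (gM p S hpS).EJ (gM p S hpS).EC
      (gM p S hpS).pr.hom.toLinearMap :=
    envMorOfHom (gM p S hpS).pr (gM p S hpS).qI (fun c =>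
      congrArg (fun φ : H77.repJTop S ⟶ (gM p S hpS).EC.I => φ.hom c) (gM p S hpS).sqιC)
  have hPr : ∀ x, Pr.Fbar x = (gM p S hpS).b.hom x := by
    intro x
    obtain ⟨y, rfl⟩ := (gM p S hpS).EJ.π_surjective x
    rw [H5.EnvMor.Fbar_π]
    exact (congrArg (fun φ : (gM p S hpS).EJ.I ⟶ (gM p S hpS).EC.Q => φ.hom y)
      (gM p S hpS).sqC).symm
  -- the idempotents
  have hΨ := fun q : ↥S => H35.exists_envMor_id (gM p S hpS).EJ (gM p S hpS).EJ hInj (eq' S q)
  obtain ⟨c, hc, hw⟩ := exists_weights_of_x5 (isCont_locLevels S)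
    (H50.isEquivariant_hom (gM p S hpS).pr) Pr Λ
    (fun q => H50.isEquivariant_hom (eq' S q)) (fun q => Classical.choice (hΨ q))
    (fun c => H1.sum_inq_prq S c)
    (fun u v huv c => evq_eq'_of_ne S huv c)
    (subsingleton_H1_Vm_of_isAcyclic _ hACJ)
    (fun q => subsingleton_H1_Vm_of_isAcyclic _
      (H36.canonicalEnvelope_isAcyclic (locLevels S q) p hp.ne_zero (localUnitsPrime q.1)
        (isDiscrete_localUnitsPrime q.1)))
    hCo.subsingleton_H1 hCo.subsingleton_H2 hΘ2 trC htrC trv htrv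
    (fun q => by
      obtain ⟨x₀, hpx₀, hne⟩ := hX5 q
      refine ⟨H50.coeffH2 (H87.levelsS S) (H1.inq S q) x₀, ?_, ?_, ?_⟩
      · rw [← map_nsmul, hpx₀, map_zero]
      · show H50.coeffH2 (H87.levelsS S) (eq' S q) _ = _
        rw [H1.coeffH2_eq, H1.coeffH2_eq, ← LinearMap.comp_apply, ← H1.H2map_comp]
        congr 2
        show H1.inq S q ≫ H1.prq S q ≫ H1.inq S q = H1.inq S q
        rw [← Category.assoc, H1.inq_prq_self, Category.id_comp]
      · show H50.coeffH2 (H87.levelsS S) (gM p S hpS).pr _ ≠ 0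
        rw [H1.coeffH2_eq, H1.coeffH2_eq, ← LinearMap.comp_apply, ← H1.H2map_comp,
          ← H1.coeffH2_eq]
        exact hne)
  refine ⟨c, hc, fun w => ?_⟩
  rw [← hw w, H1Wmap_eq_H1map Pr (gM p S hpS).b hPr w]

/-- **Poitou–Tate for `(X, Hom(X, μ))`**, `μ = E_S[p]`, from the named inputs. -/
theorem exists_shaPairing_concrete (hp2 : p ≠ 2) (hpS : pPrime p ∈ S)
    (hD1 : D1Statement p) (hD2 : D2Statement p)
    (hCmain : Nonempty (PClassFormation p (globalLevels S) (H77.repCSTop S)))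
    (hFIN : HasFIN (globalLevels S) (H77.repCSTop S) p)
    (hEX : ∀ N₀ ∈ (globalLevels S).levels, N₀.Normal → H20.GoodLevel p N₀ →
      HasEXIST (globalLevels S) (H77.repCSTop S) p N₀)
    (hD4 : D4Concrete p S hpS) (hX5 : X5Concrete p S) (hμ : MuConcrete p S)
    (X : Rep.{0} (ZMod p) GQ) (hX : IsFinDiscrete (H87.levelsS S) X) :
    ∃ B : H94.ShaL1 (H87.levelsS S) (locLevels S) (fun q : ↥S => primeLocalToGlobal q.1)
          (isCont_locLevels S) X →ₗ[ZMod p]
        H94.ShaL2 (H87.levelsS S) (locLevels S) (fun q : ↥S => primeLocalToGlobal q.1)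
          (isCont_locLevels S) (homRep X (H36.torsionRep p (H1.repES S))) →ₗ[ZMod p] ZMod p,
      (∀ y, (∀ x, B y x = 0) → y = 0) ∧ (∀ x, (∀ y, B y x = 0) → x = 0) := by
  classical
  have hp : p.Prime := Fact.out
  obtain ⟨hACE, -, -⟩ := H1.globalPTModules_isAcyclic S hp (hpS_of_mem p S hpS) ⟨pPrime p, hpS⟩
  -- global duality
  obtain ⟨trC, hdC⟩ : ∃ tr : (H87.levelsS S).H1 (gM p S hpS).EC.wDatum.W →ₗ[ZMod p] ZMod p,
      D1Conclusion (H87.levelsS S) (gM p S hpS).EC.wDatum tr :=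
    H20.global_duality hp2 hD1 hD2 S hpS hCmain hFIN hEX
  -- local duality
  have hloc := fun q : ↥S => H15.local_duality q.1 p hD1 hD2 hp2
  choose trv hdv using hloc
  -- the envelope morphisms `λ_q`
  have hΛ := fun q : ↥S => H35.exists_envMor (isCont_locLevels S q) (gM p S hpS).EJ
    (locEnvelope p S q)
    (H35.isInjDiscrete_canonicalEnvelope (locLevels S q) p hp.ne_zero (localUnitsPrime q.1)
      (isDiscrete_localUnitsPrime q.1))
    (H1.evq S q) (H1.isEquivariant_evq S q)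
  let Λ : ∀ q : ↥S, H5.EnvMor (primeLocalToGlobal q.1) (gM p S hpS).EJ (locEnvelope p S q)
      (H1.evq S q) := fun q => Classical.choice (hΛ q)
  -- D4
  obtain ⟨hΘ1, hΘ2⟩ := hD4 X hX Λ
  obtain ⟨-, hΘ2t⟩ := hD4 (trivLine p GQ) (isFinDiscrete_trivLine _) Λ
  -- the weights
  have hW := exists_weights_concrete p S hpS Λ
    (fun z hz => hΘ2t (funext fun q => (hz q).trans (map_zero _).symm))
    trC (tr_injective_of_d1Conclusion _ trC hdC) trv
    (fun q => tr_injective_of_d1Conclusion _ (trv q) (hdv q)) hX5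
  exact H94.exists_shaPairing_of_envelopes (H87.levelsS S) (locLevels S)
    (fun q : ↥S => primeLocalToGlobal q.1) (isCont_locLevels S) (gM p S hpS)
    (H1.repES_divisible_prime hp (hpS_of_mem p S hpS)) hACE X hX trC (hdC X hX).2
    (locEnvelope p S)
    (fun q a => H15.localUnitsPrime_divisible q.1 p hp.ne_zero a)
    (fun q => H36.canonicalEnvelope_isAcyclic (locLevels S q) p hp.ne_zero (localUnitsPrime q.1)
      (isDiscrete_localUnitsPrime q.1))
    (H1.evq S) (H1.isEquivariant_evq S) Λ hμ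
    (fun ℓ => let ⟨j, hj⟩ := hΘ1.2 ℓ; ⟨j, fun v => congrFun hj v⟩)
    (fun z hz => hΘ2 (funext fun q => (hz q).trans (map_zero _).symm))
    trv
    (fun q => (hdv q _ (H5.isFinDiscrete_res (isCont_locLevels S q) hX)).2)
    hW

/-- The two shapes of the level `Ш¹` agree. -/
theorem shaL1_eq (X : Rep.{0} (ZMod p) GQ) :
    H94.ShaL1 (H87.levelsS S) (locLevels S) (fun q : ↥S => primeLocalToGlobal q.1)
      (isCont_locLevels S) X = H87.ShaL1 S X (locLevels S) (isCont_locLevels S) := by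
  ext y
  rw [H87.mem_ShaL1_iff]
  unfold H94.ShaL1
  rw [Submodule.mem_iInf]
  refine forall_congr' fun q => ?_
  rw [LinearMap.mem_ker, H94.levelResH1_eq]

/-- The two shapes of the level `Ш²` agree. -/
theorem shaL2_eq (M : Rep.{0} (ZMod p) GQ) :
    H94.ShaL2 (H87.levelsS S) (locLevels S) (fun q : ↥S => primeLocalToGlobal q.1)
      (isCont_locLevels S) M = H87.ShaL2 S M (locLevels S) (isCont_locLevels S) := by
  ext y
  rw [H87.mem_ShaL2_iff]
  unfold H94.ShaL2
  rw [Submodule.mem_iInf]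
  refine forall_congr' fun q => ?_
  rw [LinearMap.mem_ker, H94.levelResH2_eq]

/-- **D3-inst: the Poitou–Tate statement from the named inputs of layers C, D1, D2, D4.** -/
theorem poitouTateStatement_of_inputs (hp2 : p ≠ 2) (hpS : pPrime p ∈ S)
    (hD1 : D1Statement p) (hD2 : D2Statement p)
    (hCmain : Nonempty (PClassFormation p (globalLevels S) (H77.repCSTop S)))
    (hFIN : HasFIN (globalLevels S) (H77.repCSTop S) p)
    (hEX : ∀ N₀ ∈ (globalLevels S).levels, N₀.Normal → H20.GoodLevel p N₀ →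
      HasEXIST (globalLevels S) (H77.repCSTop S) p N₀)
    (hD4 : D4Concrete p S hpS) (hX5 : X5Concrete p S) (hμ : MuConcrete p S) :
    PoitouTateStatement p S := by
  obtain ⟨z, hz⟩ := H1.isCharRep_torsionRep_repES S p (hpS_of_mem p S hpS)
  refine poitouTateStatement_of_homRep p S (locLevels S) (isCont_locLevels S) (hcof_locLevels S)
    (H36.torsionRep p (H1.repES S)) z hz ?_
  intro X _ hXd
  have hX : IsFinDiscrete (H87.levelsS S) X :=
    ⟨Module.finite_of_finite (ZMod p), hXd⟩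
  obtain ⟨B, hB1, hB2⟩ := exists_shaPairing_concrete p S hp2 hpS hD1 hD2 hCmain hFIN hEX hD4 hX5
    hμ X hX
  let e₁ := LinearEquiv.ofEq _ _ (shaL1_eq p S X)
  let e₂ := LinearEquiv.ofEq _ _ (shaL2_eq p S (homRep X (H36.torsionRep p (H1.repES S))))
  refine ⟨B.compl₁₂ e₁.symm.toLinearMap e₂.symm.toLinearMap, fun y hy => ?_, fun x hx => ?_⟩
  · have : e₁.symm y = 0 := hB1 _ fun x => by
      have := hy (e₂ x)
      simpa using this
    simpa using this
  · have : e₂.symm x = 0 := hB2 _ fun y => by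
      have := hx (e₁ y)
      simpa using this
    simpa using this

end Final

end Fermat.Agent.CFT.H55
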