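/-
CFT project, layer D (helper36): `H55.D4Concrete p S hpS`, the D4 input of helper55's final
wiring `H55.poitouTateStatement_of_inputs`, as a hypothesis-free theorem
(`H36_D4Concrete` in the binder shape of `H55_PTFinal`), and helper15's `μ`-comparison in the
shape `H55.MuConcrete p S`.
-/
import Fermat.Agent.CFT.H36_D4Concrete
import Fermat.Agent.CFT.H55_PTFinal
import Fermat.Agent.CFT.H15_MuLocal

set_option autoImplicit false

open CategoryTheory groupCohomology ExtCitation

namespace Fermat.Agent.CFT.H36

open Fermat.Agent.CFT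

/-- **D4 for the concrete family** (input `hD4` of `H55.poitouTateStatement_of_inputs`). -/
theorem d4Concrete (p : ℕ) [Fact p.Prime] (S : Finset Nat.Primes) (hpS : pPrime p ∈ S) :
    H55.D4Concrete p S hpS := by
  intro X hX lam
  exact ⟨theta1_bijective_global S (Fact.out : p.Prime) (H55.hpS_of_mem p S hpS)
      ⟨pPrime p, hpS⟩ lam X hX,
    theta2_injective_global S (Fact.out : p.Prime) (H55.hpS_of_mem p S hpS)
      ⟨pPrime p, hpS⟩ lam X hX⟩

/-- **The `μ`-comparison** (input `hμ` of `H55.poitouTateStatement_of_inputs`): helper15's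
`H15.bijective_torsionLin_evq_eps` in the binder shape of `H55_PTFinal`. -/
theorem muConcrete (p : ℕ) [Fact p.Prime] (S : Finset Nat.Primes) (hpS : pPrime p ∈ S) :
    H55.MuConcrete p S := fun q =>
  H15.bijective_torsionLin_evq_eps S q (Fact.out : p.Prime) (H55.hpS_of_mem p S hpS)
    ⟨pPrime p, hpS⟩

end Fermat.Agent.CFT.H36
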