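/-
CFT project, layer D0, package D0-ENV (helper36), slice 6.

Invariants of coinduced modules: if `B` is coinduced and `m`-divisible, then `B^U` is
`m`-divisible for EVERY subgroup `U` (hypothesis (hI) of `H91.invariants_Q_divisible`).
-/
import Fermat.Agent.CFT.H36_EnvelopeRes

set_option autoImplicit false

open CategoryTheory

namespace Fermat.Agent.CFT.H36

open Fermat.Agent.CFT

noncomputable section

section Inv

variable {k : Type} [CommRing k] {H : Type} [Group H] {𝓛 : LevelStructure H}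

/-- If a coinduced module `B` (from `V`) is `m`-divisible then so is `V`. -/
theorem coindStr_divisible_values {B : Rep.{0} k H} {V : Type} [AddCommGroup V] [Module k V]
    (S : H58.CoindStr 𝓛 B V) (m : ℕ) (hdiv : ∀ b : B.V, ∃ b' : B.V, m • b' = b) (v : V) :
    ∃ w : V, m • w = v := by
  obtain ⟨b, hb⟩ := S.ev_surj (fun _ => v) (𝓛.isConst₁_const v)
  obtain ⟨b', hb'⟩ := hdiv b
  refine ⟨S.ev b' 1, ?_⟩
  have h1 : S.ev (m • b') 1 = m • S.ev b' 1 := by rw [map_nsmul]; rfl
  rw [← h1, hb', hb]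

/-- **Invariants of a divisible coinduced module are divisible**, for an arbitrary subset of
group elements (e.g. a subgroup). -/
theorem coindStr_invariants_divisible {B : Rep.{0} k H} {V : Type} [AddCommGroup V] [Module k V]
    (S : H58.CoindStr 𝓛 B V) (m : ℕ) (hdiv : ∀ b : B.V, ∃ b' : B.V, m • b' = b)
    (T : Set H) (b : B.V) (hb : ∀ u ∈ T, B.ρ u b = b) :
    ∃ b' : B.V, (∀ u ∈ T, B.ρ u b' = b') ∧ m • b' = b := by
  classical
  choose σ hσ using coindStr_divisible_values S m hdiv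
  have hconst : 𝓛.IsConst₁ (fun y => σ (S.ev b y)) := (S.ev_const b).comp σ
  obtain ⟨b', hb'⟩ := S.ev_surj _ hconst
  refine ⟨b', fun u hu => ?_, ?_⟩
  · apply S.ev_injective
    funext y
    rw [S.ev_ρ, hb']
    show σ (S.ev b (y * u)) = σ (S.ev b y)
    rw [← S.ev_ρ, hb u hu]
  · apply S.ev_injective
    funext y
    have h1 : S.ev (m • b') y = m • S.ev b' y := by rw [map_nsmul]; rfl
    rw [h1, hb']
    exact hσ _

theorem IsCoinduced.invariants_divisible {B : Rep.{0} k H} (h : IsCoinduced 𝓛 B) (m : ℕ)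
    (hdiv : ∀ b : B.V, ∃ b' : B.V, m • b' = b) (T : Set H) (b : B.V)
    (hb : ∀ u ∈ T, B.ρ u b = b) : ∃ b' : B.V, (∀ u ∈ T, B.ρ u b' = b') ∧ m • b' = b := by
  obtain ⟨V, _, _, ⟨S⟩⟩ := h
  exact coindStr_invariants_divisible S m hdiv T b hb

variable {m : ℕ} {N : Rep.{0} k H}

/-- `I^H` is `m`-divisible for an envelope with coinduced `I`
(hypothesis `hI` of `H91.invariants_Q_divisible E`). -/
theorem DivEnvelope.invariants_I_divisible (E : DivEnvelope 𝓛 m N) (h : IsCoinduced 𝓛 E.I)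
    (i : E.I.V) (hi : ∀ g, E.I.ρ g i = i) :
    ∃ i' : E.I.V, (∀ g, E.I.ρ g i' = i') ∧ m • i' = i := by
  obtain ⟨i', h1, h2⟩ := h.invariants_divisible m E.divisible Set.univ i (fun g _ => hi g)
  exact ⟨i', fun g => h1 g (Set.mem_univ g), h2⟩

/-- `I^U` is `m`-divisible for an envelope with coinduced `I` and ANY subgroup `U`
(hypothesis `hI` of `H91.invariants_Q_divisible (E.resSub U)`). -/
theorem DivEnvelope.invariants_I_divisible_resSub (E : DivEnvelope 𝓛 m N)
    (h : IsCoinduced 𝓛 E.I) (U : Subgroup H) (i : (E.resSub U).I.V)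
    (hi : ∀ g : U, (E.resSub U).I.ρ g i = i) :
    ∃ i' : (E.resSub U).I.V, (∀ g : U, (E.resSub U).I.ρ g i' = i') ∧ m • i' = i := by
  obtain ⟨i', h1, h2⟩ := h.invariants_divisible m E.divisible (U : Set H) i
    (fun u hu => hi ⟨u, hu⟩)
  exact ⟨i', fun g => h1 g.1 g.2, h2⟩

end Inv

end

end Fermat.Agent.CFT.H36
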