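/-
CFT project, layer D0, package D0-ENV (helper36), slice 4.

Coefficient bookkeeping between `ZMod p`-representations and `k`-representations (`k = ℤ`):

* additive equivariant maps `e : A.V →+ A'.V` between representations over DIFFERENT rings induce
  additive maps on level cohomology (`addH0 … addH3`), equivalences for bijective `e`;
* `torsionToHn : 𝓛.Hn (torsionRep p M) →+ 𝓛.Hn M`;
* `torsionRepK p M : Rep k H` (the `p`-torsion as a subrepresentation over `k`), the short exact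
  sequence `0 → M[p] → M → M → 0` for `p`-divisible `M`, in the shape of helper1's LES;
* the resulting **Kummer sequence** in mixed vocabulary.
-/
import Fermat.Agent.CFT.H36_Envelope
import Fermat.Agent.CFT.H1_LevelLES

set_option autoImplicit false

open CategoryTheory groupCohomology

namespace Fermat.Agent.CFT.H36

open Fermat.Agent.CFT

noncomputable section

/-! ## Additive equivariant maps across coefficient rings -/

section AddMaps

variable {k k' : Type} [CommRing k] [CommRing k'] {H : Type} [Group H]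
  {A : Rep.{0} k H} {A' : Rep.{0} k' H}

/-- An additive map between the underlying groups of two representations (possibly over
different rings) which commutes with the group actions. -/
def IsAddEquivariant (A : Rep.{0} k H) (A' : Rep.{0} k' H) (e : A.V →+ A'.V) : Prop :=
  ∀ (g : H) (a : A.V), e (A.ρ g a) = A'.ρ g (e a)

variable (𝓛 : LevelStructure H) {e : A.V →+ A'.V} (he : IsAddEquivariant A A' e)
include he

lemma IsAddEquivariant.d₀₁ (a : A.V) :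
    (fun g => e ((d₀₁ A).hom a g)) = (d₀₁ A').hom (e a) := by
  funext g
  show e (A.ρ g a - a) = A'.ρ g (e a) - e a
  rw [map_sub, he]

lemma IsAddEquivariant.d₁₂ (f : H → A.V) :
    (fun x => e ((d₁₂ A).hom f x)) = (d₁₂ A').hom (fun g => e (f g)) := by
  funext x
  show e (A.ρ x.1 (f x.2) - f (x.1 * x.2) + f x.1) =
    A'.ρ x.1 (e (f x.2)) - e (f (x.1 * x.2)) + e (f x.1)
  rw [map_add, map_sub, he]

lemma IsAddEquivariant.d₂₃ (f : H × H → A.V) :
    (fun x => e ((d₂₃ A).hom f x)) = (d₂₃ A').hom (fun y => e (f y)) := by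
  funext x
  show e (A.ρ x.1 (f (x.2.1, x.2.2)) - f (x.1 * x.2.1, x.2.2) + f (x.1, x.2.1 * x.2.2)
      - f (x.1, x.2.1)) =
    A'.ρ x.1 (e (f (x.2.1, x.2.2))) - e (f (x.1 * x.2.1, x.2.2)) + e (f (x.1, x.2.1 * x.2.2))
      - e (f (x.1, x.2.1))
  rw [map_sub, map_add, map_sub, he]

lemma IsAddEquivariant.d₃₄ (f : H × H × H → A.V) :
    (fun x => e (LevelStructure.d₃₄ A f x)) = LevelStructure.d₃₄ A' (fun y => e (f y)) := by
  funext x
  show e (A.ρ x.1 (f (x.2.1, x.2.2.1, x.2.2.2)) - f (x.1 * x.2.1, x.2.2.1, x.2.2.2)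
    + f (x.1, x.2.1 * x.2.2.1, x.2.2.2) - f (x.1, x.2.1, x.2.2.1 * x.2.2.2)
    + f (x.1, x.2.1, x.2.2.1)) =
    A'.ρ x.1 (e (f (x.2.1, x.2.2.1, x.2.2.2))) - e (f (x.1 * x.2.1, x.2.2.1, x.2.2.2))
    + e (f (x.1, x.2.1 * x.2.2.1, x.2.2.2)) - e (f (x.1, x.2.1, x.2.2.1 * x.2.2.2))
    + e (f (x.1, x.2.1, x.2.2.1))
  rw [map_add, map_sub, map_add, map_sub, he]

lemma IsAddEquivariant.mem_cocycles₁ {f : H → A.V} (hf : f ∈ 𝓛.cocycles₁ A) :
    (fun g => e (f g)) ∈ 𝓛.cocycles₁ A' := by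
  rw [H1.mem_cocycles₁_iff'] at hf ⊢
  refine ⟨LevelStructure.IsConst₁.comp hf.1 e, ?_⟩
  rw [← he.d₁₂, hf.2]
  funext x
  exact map_zero e

lemma IsAddEquivariant.mem_cocycles₂ {f : H × H → A.V} (hf : f ∈ 𝓛.cocycles₂ A) :
    (fun x => e (f x)) ∈ 𝓛.cocycles₂ A' := by
  rw [H1.mem_cocycles₂_iff'] at hf ⊢
  refine ⟨LevelStructure.IsConst₂.comp hf.1 e, ?_⟩
  rw [← he.d₂₃, hf.2]
  funext x
  exact map_zero e

lemma IsAddEquivariant.mem_cocycles₃ {f : H × H × H → A.V} (hf : f ∈ 𝓛.cocycles₃ A) :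
    (fun x => e (f x)) ∈ 𝓛.cocycles₃ A' := by
  rw [H1.mem_cocycles₃_iff'] at hf ⊢
  refine ⟨LevelStructure.IsConst₃.comp hf.1 e, ?_⟩
  rw [← he.d₃₄, hf.2]
  funext x
  exact map_zero e

lemma IsAddEquivariant.mem_coboundaries₁ {f : H → A.V} (hf : f ∈ 𝓛.coboundaries₁ A) :
    (fun g => e (f g)) ∈ 𝓛.coboundaries₁ A' := by
  rw [H1.mem_coboundaries₁_iff] at hf ⊢
  obtain ⟨a, rfl⟩ := hf
  exact ⟨e a, (he.d₀₁ a).symm⟩

lemma IsAddEquivariant.mem_coboundaries₂ {f : H × H → A.V} (hf : f ∈ 𝓛.coboundaries₂ A) :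
    (fun x => e (f x)) ∈ 𝓛.coboundaries₂ A' := by
  rw [H1.mem_coboundaries₂_iff] at hf ⊢
  obtain ⟨b, hb, rfl⟩ := hf
  exact ⟨fun g => e (b g), LevelStructure.IsConst₁.comp hb e, (he.d₁₂ b).symm⟩

lemma IsAddEquivariant.mem_coboundaries₃ {f : H × H × H → A.V} (hf : f ∈ 𝓛.coboundaries₃ A) :
    (fun x => e (f x)) ∈ 𝓛.coboundaries₃ A' := by
  rw [H1.mem_coboundaries₃_iff] at hf ⊢
  obtain ⟨b, hb, rfl⟩ := hf
  exact ⟨fun g => e (b g), LevelStructure.IsConst₂.comp hb e, (he.d₂₃ b).symm⟩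

/-- The induced map on invariants. -/
def addH0 : LevelStructure.H0 A →+ LevelStructure.H0 A' where
  toFun x := ⟨e x.1, fun g => by rw [← he g x.1, x.2 g]⟩
  map_zero' := Subtype.ext (map_zero e)
  map_add' x y := Subtype.ext (map_add e x.1 y.1)

@[simp] lemma addH0_coe (x : LevelStructure.H0 A) : ((addH0 he x : LevelStructure.H0 A') : A'.V) = e x.1 :=
  rfl

/-- The induced map on level `1`-cocycles. -/
def addZ1 : ↥(𝓛.cocycles₁ A) →+ ↥(𝓛.cocycles₁ A') where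
  toFun c := ⟨fun g => e (c.1 g), he.mem_cocycles₁ 𝓛 c.2⟩
  map_zero' := Subtype.ext (funext fun _ => map_zero e)
  map_add' _ _ := Subtype.ext (funext fun _ => map_add e _ _)

/-- The induced map on level `2`-cocycles. -/
def addZ2 : ↥(𝓛.cocycles₂ A) →+ ↥(𝓛.cocycles₂ A') where
  toFun c := ⟨fun x => e (c.1 x), he.mem_cocycles₂ 𝓛 c.2⟩
  map_zero' := Subtype.ext (funext fun _ => map_zero e)
  map_add' _ _ := Subtype.ext (funext fun _ => map_add e _ _)

/-- The induced map on level `3`-cocycles. -/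
def addZ3 : ↥(𝓛.cocycles₃ A) →+ ↥(𝓛.cocycles₃ A') where
  toFun c := ⟨fun x => e (c.1 x), he.mem_cocycles₃ 𝓛 c.2⟩
  map_zero' := Subtype.ext (funext fun _ => map_zero e)
  map_add' _ _ := Subtype.ext (funext fun _ => map_add e _ _)

/-- The induced map on level `H¹`. -/
def addH1 : 𝓛.H1 A →+ 𝓛.H1 A' :=
  QuotientAddGroup.map
    ((𝓛.coboundaries₁ A).comap (𝓛.cocycles₁ A).subtype).toAddSubgroup
    ((𝓛.coboundaries₁ A').comap (𝓛.cocycles₁ A').subtype).toAddSubgroup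
    (addZ1 𝓛 he) (fun _ hc => he.mem_coboundaries₁ 𝓛 hc)

/-- The induced map on level `H²`. -/
def addH2 : 𝓛.H2 A →+ 𝓛.H2 A' :=
  QuotientAddGroup.map
    ((𝓛.coboundaries₂ A).comap (𝓛.cocycles₂ A).subtype).toAddSubgroup
    ((𝓛.coboundaries₂ A').comap (𝓛.cocycles₂ A').subtype).toAddSubgroup
    (addZ2 𝓛 he) (fun _ hc => he.mem_coboundaries₂ 𝓛 hc)

/-- The induced map on level `H³`. -/
def addH3 : 𝓛.H3 A →+ 𝓛.H3 A' :=
  QuotientAddGroup.map
    ((𝓛.coboundaries₃ A).comap (𝓛.cocycles₃ A).subtype).toAddSubgroup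
    ((𝓛.coboundaries₃ A').comap (𝓛.cocycles₃ A').subtype).toAddSubgroup
    (addZ3 𝓛 he) (fun _ hc => he.mem_coboundaries₃ 𝓛 hc)

lemma addH1_mk (c : ↥(𝓛.cocycles₁ A)) :
    addH1 𝓛 he (𝓛.H1π A c) = 𝓛.H1π A' (addZ1 𝓛 he c) := rfl

lemma addH2_mk (c : ↥(𝓛.cocycles₂ A)) :
    addH2 𝓛 he (𝓛.H2π A c) = 𝓛.H2π A' (addZ2 𝓛 he c) := rfl

lemma addH3_mk (c : ↥(𝓛.cocycles₃ A)) :
    addH3 𝓛 he (𝓛.H3π A c) = 𝓛.H3π A' (addZ3 𝓛 he c) := rfl

omit he in
lemma isAddEquivariant_id : IsAddEquivariant A A (AddMonoidHom.id A.V) := fun _ _ => rfl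

omit he in
lemma IsAddEquivariant.comp {k'' : Type} [CommRing k''] {A'' : Rep.{0} k'' H}
    {e' : A'.V →+ A''.V} (he : IsAddEquivariant A A' e) (he' : IsAddEquivariant A' A'' e') :
    IsAddEquivariant A A'' (e'.comp e) := fun g a => by
  show e' (e (A.ρ g a)) = A''.ρ g (e' (e a))
  rw [he, he']

omit he in
lemma addH1_id (x : 𝓛.H1 A) : addH1 𝓛 (isAddEquivariant_id (A := A)) x = x := by
  obtain ⟨c, rfl⟩ := Submodule.mkQ_surjective _ x
  rfl

omit he in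
lemma addH2_id (x : 𝓛.H2 A) : addH2 𝓛 (isAddEquivariant_id (A := A)) x = x := by
  obtain ⟨c, rfl⟩ := Submodule.mkQ_surjective _ x
  rfl

omit he in
lemma addH3_id (x : 𝓛.H3 A) : addH3 𝓛 (isAddEquivariant_id (A := A)) x = x := by
  obtain ⟨c, rfl⟩ := Submodule.mkQ_surjective _ x
  rfl

lemma addH0_comp {k'' : Type} [CommRing k''] {A'' : Rep.{0} k'' H}
    {e' : A'.V →+ A''.V} (he' : IsAddEquivariant A' A'' e') (x : LevelStructure.H0 A) :
    addH0 (he.comp he') x = addH0 he' (addH0 he x) := rfl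

lemma addH1_comp {k'' : Type} [CommRing k''] {A'' : Rep.{0} k'' H}
    {e' : A'.V →+ A''.V} (he' : IsAddEquivariant A' A'' e') (x : 𝓛.H1 A) :
    addH1 𝓛 (he.comp he') x = addH1 𝓛 he' (addH1 𝓛 he x) := by
  obtain ⟨c, rfl⟩ := Submodule.mkQ_surjective _ x
  rfl

lemma addH2_comp {k'' : Type} [CommRing k''] {A'' : Rep.{0} k'' H}
    {e' : A'.V →+ A''.V} (he' : IsAddEquivariant A' A'' e') (x : 𝓛.H2 A) :
    addH2 𝓛 (he.comp he') x = addH2 𝓛 he' (addH2 𝓛 he x) := by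
  obtain ⟨c, rfl⟩ := Submodule.mkQ_surjective _ x
  rfl

lemma addH3_comp {k'' : Type} [CommRing k''] {A'' : Rep.{0} k'' H}
    {e' : A'.V →+ A''.V} (he' : IsAddEquivariant A' A'' e') (x : 𝓛.H3 A) :
    addH3 𝓛 (he.comp he') x = addH3 𝓛 he' (addH3 𝓛 he x) := by
  obtain ⟨c, rfl⟩ := Submodule.mkQ_surjective _ x
  rfl

/-- Two additive equivariant maps with the same underlying function induce the same maps. -/
lemma addH1_congr {e' : A.V →+ A'.V} (he' : IsAddEquivariant A A' e') (h : ∀ a, e a = e' a)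
    (x : 𝓛.H1 A) : addH1 𝓛 he x = addH1 𝓛 he' x := by
  obtain rfl : e = e' := AddMonoidHom.ext h
  rfl

lemma addH2_congr {e' : A.V →+ A'.V} (he' : IsAddEquivariant A A' e') (h : ∀ a, e a = e' a)
    (x : 𝓛.H2 A) : addH2 𝓛 he x = addH2 𝓛 he' x := by
  obtain rfl : e = e' := AddMonoidHom.ext h
  rfl

lemma addH3_congr {e' : A.V →+ A'.V} (he' : IsAddEquivariant A A' e') (h : ∀ a, e a = e' a)
    (x : 𝓛.H3 A) : addH3 𝓛 he x = addH3 𝓛 he' x := by
  obtain rfl : e = e' := AddMonoidHom.ext h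
  rfl

end AddMaps

section AddEquivs

variable {k k' : Type} [CommRing k] [CommRing k'] {H : Type} [Group H]
  {A : Rep.{0} k H} {A' : Rep.{0} k' H} (𝓛 : LevelStructure H)
  {e : A.V ≃+ A'.V} (he : IsAddEquivariant A A' e.toAddMonoidHom)
include he

lemma IsAddEquivariant.symm : IsAddEquivariant A' A e.symm.toAddMonoidHom := fun g a => by
  apply e.injective
  show e (e.symm (A'.ρ g a)) = e (A.ρ g (e.symm a))
  have h := he g (e.symm a)
  have h' : e (A.ρ g (e.symm a)) = A'.ρ g (e (e.symm a)) := h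
  rw [h', e.apply_symm_apply, e.apply_symm_apply]

/-- A bijective additive equivariant map induces an isomorphism on invariants. -/
def addH0Equiv : LevelStructure.H0 A ≃+ LevelStructure.H0 A' :=
  { addH0 he with
    invFun := addH0 he.symm
    left_inv := fun x => Subtype.ext (e.symm_apply_apply x.1)
    right_inv := fun x => Subtype.ext (e.apply_symm_apply x.1) }

/-- A bijective additive equivariant map induces an isomorphism on level `H¹`. -/
def addH1Equiv : 𝓛.H1 A ≃+ 𝓛.H1 A' :=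
  { addH1 𝓛 he with
    invFun := addH1 𝓛 he.symm
    left_inv := fun x => by
      obtain ⟨c, rfl⟩ := Submodule.mkQ_surjective _ x
      show addH1 𝓛 he.symm (addH1 𝓛 he (𝓛.H1π A c)) = _
      rw [addH1_mk, addH1_mk]
      congr 1
      exact Subtype.ext (funext fun g => e.symm_apply_apply _)
    right_inv := fun x => by
      obtain ⟨c, rfl⟩ := Submodule.mkQ_surjective _ x
      show addH1 𝓛 he (addH1 𝓛 he.symm (𝓛.H1π A' c)) = _
      rw [addH1_mk, addH1_mk]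
      congr 1
      exact Subtype.ext (funext fun g => e.apply_symm_apply _) }

/-- A bijective additive equivariant map induces an isomorphism on level `H²`. -/
def addH2Equiv : 𝓛.H2 A ≃+ 𝓛.H2 A' :=
  { addH2 𝓛 he with
    invFun := addH2 𝓛 he.symm
    left_inv := fun x => by
      obtain ⟨c, rfl⟩ := Submodule.mkQ_surjective _ x
      show addH2 𝓛 he.symm (addH2 𝓛 he (𝓛.H2π A c)) = _
      rw [addH2_mk, addH2_mk]
      congr 1
      exact Subtype.ext (funext fun g => e.symm_apply_apply _)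
    right_inv := fun x => by
      obtain ⟨c, rfl⟩ := Submodule.mkQ_surjective _ x
      show addH2 𝓛 he (addH2 𝓛 he.symm (𝓛.H2π A' c)) = _
      rw [addH2_mk, addH2_mk]
      congr 1
      exact Subtype.ext (funext fun g => e.apply_symm_apply _) }

/-- A bijective additive equivariant map induces an isomorphism on level `H³`. -/
def addH3Equiv : 𝓛.H3 A ≃+ 𝓛.H3 A' :=
  { addH3 𝓛 he with
    invFun := addH3 𝓛 he.symm
    left_inv := fun x => by
      obtain ⟨c, rfl⟩ := Submodule.mkQ_surjective _ x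
      show addH3 𝓛 he.symm (addH3 𝓛 he (𝓛.H3π A c)) = _
      rw [addH3_mk, addH3_mk]
      congr 1
      exact Subtype.ext (funext fun g => e.symm_apply_apply _)
    right_inv := fun x => by
      obtain ⟨c, rfl⟩ := Submodule.mkQ_surjective _ x
      show addH3 𝓛 he (addH3 𝓛 he.symm (𝓛.H3π A' c)) = _
      rw [addH3_mk, addH3_mk]
      congr 1
      exact Subtype.ext (funext fun g => e.apply_symm_apply _) }

@[simp] lemma addH1Equiv_apply (x : 𝓛.H1 A) : addH1Equiv 𝓛 he x = addH1 𝓛 he x := rfl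
@[simp] lemma addH2Equiv_apply (x : 𝓛.H2 A) : addH2Equiv 𝓛 he x = addH2 𝓛 he x := rfl
@[simp] lemma addH3Equiv_apply (x : 𝓛.H3 A) : addH3Equiv 𝓛 he x = addH3 𝓛 he x := rfl
@[simp] lemma addH1Equiv_symm_apply (x : 𝓛.H1 A') :
    (addH1Equiv 𝓛 he).symm x = addH1 𝓛 he.symm x := rfl
@[simp] lemma addH2Equiv_symm_apply (x : 𝓛.H2 A') :
    (addH2Equiv 𝓛 he).symm x = addH2 𝓛 he.symm x := rfl
@[simp] lemma addH3Equiv_symm_apply (x : 𝓛.H3 A') :
    (addH3Equiv 𝓛 he).symm x = addH3 𝓛 he.symm x := rfl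

end AddEquivs

section SameRing

variable {k : Type} [CommRing k] {H : Type} [Group H] {A B : Rep.{0} k H} (𝓛 : LevelStructure H)

/-- A morphism of representations is additive equivariant. -/
lemma isAddEquivariant_hom (φ : A ⟶ B) : IsAddEquivariant A B (homAdd φ) :=
  fun g a => Rep.hom_comm_apply φ g a

lemma addH0_hom (φ : A ⟶ B) (x : LevelStructure.H0 A) :
    addH0 (isAddEquivariant_hom φ) x = H1.H0map φ x := rfl

lemma addH1_hom (φ : A ⟶ B) (x : 𝓛.H1 A) :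
    addH1 𝓛 (isAddEquivariant_hom φ) x = H1.H1map 𝓛 φ x := by
  obtain ⟨c, rfl⟩ := Submodule.mkQ_surjective _ x
  rfl

lemma addH2_hom (φ : A ⟶ B) (x : 𝓛.H2 A) :
    addH2 𝓛 (isAddEquivariant_hom φ) x = H1.H2map 𝓛 φ x := by
  obtain ⟨c, rfl⟩ := Submodule.mkQ_surjective _ x
  rfl

lemma addH3_hom (φ : A ⟶ B) (x : 𝓛.H3 A) :
    addH3 𝓛 (isAddEquivariant_hom φ) x = H1.H3map 𝓛 φ x := by
  obtain ⟨c, rfl⟩ := Submodule.mkQ_surjective _ x
  rfl

end SameRing

/-! ## The inclusion `M[p] ⊆ M` on cohomology -/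

section TorsionTo

variable {k : Type} [CommRing k] {H : Type} [Group H] (𝓛 : LevelStructure H) (p : ℕ)
  (M : Rep.{0} k H)

/-- The inclusion `M[p] → M` is additive equivariant (`ZMod p`-rep to `k`-rep). -/
lemma isAddEquivariant_torsionIncl :
    IsAddEquivariant (torsionRep p M) M (torsionSub p M.V).subtype := fun _ _ => rfl

/-- `H⁰(M[p]) → H⁰(M)`. -/
def torsionToH0 : LevelStructure.H0 (torsionRep p M) →+ LevelStructure.H0 M :=
  addH0 (isAddEquivariant_torsionIncl p M)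

/-- `H¹(M[p]) → H¹(M)` induced by the inclusion. -/
def torsionToH1 : 𝓛.H1 (torsionRep p M) →+ 𝓛.H1 M := addH1 𝓛 (isAddEquivariant_torsionIncl p M)

/-- `H²(M[p]) → H²(M)` induced by the inclusion. -/
def torsionToH2 : 𝓛.H2 (torsionRep p M) →+ 𝓛.H2 M := addH2 𝓛 (isAddEquivariant_torsionIncl p M)

/-- `H³(M[p]) → H³(M)` induced by the inclusion. -/
def torsionToH3 : 𝓛.H3 (torsionRep p M) →+ 𝓛.H3 M := addH3 𝓛 (isAddEquivariant_torsionIncl p M)

lemma torsionToH0_coe (x : LevelStructure.H0 (torsionRep p M)) :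
    (torsionToH0 p M x : M.V) = ((x : (torsionRep p M).V) : torsionSub p M.V).1 := rfl

lemma torsionToH1_mk (c : ↥(𝓛.cocycles₁ (torsionRep p M))) :
    torsionToH1 𝓛 p M (𝓛.H1π _ c) =
      𝓛.H1π M ⟨fun g => ((show torsionSub p M.V from c.1 g) : M.V),
        (isAddEquivariant_torsionIncl p M).mem_cocycles₁ 𝓛 c.2⟩ := rfl

lemma torsionToH2_mk (c : ↥(𝓛.cocycles₂ (torsionRep p M))) :
    torsionToH2 𝓛 p M (𝓛.H2π _ c) =
      𝓛.H2π M ⟨fun x => ((show torsionSub p M.V from c.1 x) : M.V),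
        (isAddEquivariant_torsionIncl p M).mem_cocycles₂ 𝓛 c.2⟩ := rfl

lemma torsionToH3_mk (c : ↥(𝓛.cocycles₃ (torsionRep p M))) :
    torsionToH3 𝓛 p M (𝓛.H3π _ c) =
      𝓛.H3π M ⟨fun x => ((show torsionSub p M.V from c.1 x) : M.V),
        (isAddEquivariant_torsionIncl p M).mem_cocycles₃ 𝓛 c.2⟩ := rfl

/-- Restriction commutes with the torsion functor (definitionally). -/
lemma res_torsionRep {H' : Type} [Group H'] (φ : H' →* H) :
    Rep.res φ (torsionRep p M) = torsionRep p (Rep.res φ M) := rfl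

end TorsionTo

/-! ## The `p`-torsion as a subrepresentation over `k` and the sequence `0 → M[p] → M → M → 0` -/

section TorsionK

variable {k : Type} [CommRing k] {H : Type} [Group H] (𝓛 : LevelStructure H) (p : ℕ)

/-- The `p`-torsion submodule. -/
def torsionSubmod (M : Type) [AddCommGroup M] [Module k M] : Submodule k M where
  carrier := {x | p • x = 0}
  zero_mem' := smul_zero p
  add_mem' := fun {a b} ha hb => by
    show p • (a + b) = 0
    rw [smul_add, show p • a = 0 from ha, show p • b = 0 from hb, add_zero]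
  smul_mem' := fun c x hx => by
    show p • (c • x) = 0
    rw [smul_comm, show p • x = 0 from hx, smul_zero]

lemma mem_torsionSubmod {M : Type} [AddCommGroup M] [Module k M] (x : M) :
    x ∈ torsionSubmod (k := k) p M ↔ p • x = 0 := Iff.rfl

/-- The `p`-torsion of a representation, as a subrepresentation over the same ring. -/
def torsionRepK (M : Rep.{0} k H) : Rep.{0} k H :=
  Rep.subrepresentation M (torsionSubmod (k := k) p M.V) (fun g x hx => by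
    show p • M.ρ g x = 0
    rw [← map_nsmul, show p • x = 0 from hx, map_zero])

/-- The inclusion `M[p] ⟶ M`. -/
def torsionKι (M : Rep.{0} k H) : torsionRepK p M ⟶ M := Rep.subtype M _ _

lemma torsionKι_apply (M : Rep.{0} k H) (x : torsionSubmod (k := k) p M.V) :
    (torsionKι p M).hom x = x.1 := rfl

/-- Multiplication by `p` as an endomorphism of a representation. -/
def pMul (M : Rep.{0} k H) : M ⟶ M :=
  Rep.ofHom (ρ := M.ρ) (σ := M.ρ) ⟨p • LinearMap.id, fun g => by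
    refine LinearMap.ext fun x => ?_
    show p • M.ρ g x = M.ρ g (p • x)
    rw [map_nsmul]⟩

lemma pMul_apply (M : Rep.{0} k H) (x : M.V) : (pMul p M).hom x = p • x := rfl

/-- `0 → M[p] → M → M → 0` is short exact when `M` is `p`-divisible. -/
theorem isSES_torsionK (M : Rep.{0} k H) (hdiv : ∀ x : M.V, ∃ y : M.V, p • y = x) :
    H1.IsSES (torsionKι p M) (pMul p M) where
  inj := fun x y h => Subtype.ext h
  surj := hdiv
  exact := fun x => by
    constructor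
    · intro hx
      exact ⟨⟨x, hx⟩, rfl⟩
    · rintro ⟨y, rfl⟩
      exact y.2

/-- The identity on underlying elements `M[p] (over ZMod p) ≃ M[p] (over k)`. -/
def torsionKEquiv (M : Rep.{0} k H) : (torsionRep p M).V ≃+ (torsionRepK p M).V where
  toFun x := (⟨(x : torsionSub p M.V).1, (x : torsionSub p M.V).2⟩ : torsionSubmod (k := k) p M.V)
  invFun y := (⟨(y : torsionSubmod (k := k) p M.V).1, (y : torsionSubmod (k := k) p M.V).2⟩ :
    torsionSub p M.V)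
  left_inv _ := rfl
  right_inv _ := rfl
  map_add' _ _ := rfl

lemma isAddEquivariant_torsionKEquiv (M : Rep.{0} k H) :
    IsAddEquivariant (torsionRep p M) (torsionRepK p M) (torsionKEquiv p M).toAddMonoidHom :=
  fun _ _ => rfl

lemma H0map_pMul (M : Rep.{0} k H) (x : LevelStructure.H0 M) : H1.H0map (pMul p M) x = p • x :=
  Subtype.ext rfl

lemma H1map_pMul (M : Rep.{0} k H) (x : 𝓛.H1 M) : H1.H1map 𝓛 (pMul p M) x = p • x := by
  obtain ⟨c, rfl⟩ := Submodule.mkQ_surjective _ x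
  rfl

lemma H2map_pMul (M : Rep.{0} k H) (x : 𝓛.H2 M) : H1.H2map 𝓛 (pMul p M) x = p • x := by
  obtain ⟨c, rfl⟩ := Submodule.mkQ_surjective _ x
  rfl

lemma H3map_pMul (M : Rep.{0} k H) (x : 𝓛.H3 M) : H1.H3map 𝓛 (pMul p M) x = p • x := by
  obtain ⟨c, rfl⟩ := Submodule.mkQ_surjective _ x
  rfl

lemma torsionToH1_eq (M : Rep.{0} k H) (y : 𝓛.H1 (torsionRep p M)) :
    torsionToH1 𝓛 p M y =
      H1.H1map 𝓛 (torsionKι p M) (addH1 𝓛 (isAddEquivariant_torsionKEquiv p M) y) := by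
  obtain ⟨c, rfl⟩ := Submodule.mkQ_surjective _ y
  rfl

lemma torsionToH2_eq (M : Rep.{0} k H) (y : 𝓛.H2 (torsionRep p M)) :
    torsionToH2 𝓛 p M y =
      H1.H2map 𝓛 (torsionKι p M) (addH2 𝓛 (isAddEquivariant_torsionKEquiv p M) y) := by
  obtain ⟨c, rfl⟩ := Submodule.mkQ_surjective _ y
  rfl

lemma torsionToH3_eq (M : Rep.{0} k H) (y : 𝓛.H3 (torsionRep p M)) :
    torsionToH3 𝓛 p M y =
      H1.H3map 𝓛 (torsionKι p M) (addH3 𝓛 (isAddEquivariant_torsionKEquiv p M) y) := by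
  obtain ⟨c, rfl⟩ := Submodule.mkQ_surjective _ y
  rfl

end TorsionK

/-! ## The Kummer sequence -/

section Kummer

variable {k : Type} [CommRing k] {H : Type} [Group H] (𝓛 : LevelStructure H) (p : ℕ)
  (M : Rep.{0} k H) (hM : 𝓛.IsDiscrete M) (hdiv : ∀ x : M.V, ∃ y : M.V, p • y = x)

/-- The Kummer connecting map `H⁰(M) → H¹(M[p])` of `0 → M[p] → M → M → 0`. -/
def kummerδ₀ : LevelStructure.H0 M →+ 𝓛.H1 (torsionRep p M) :=
  (addH1Equiv 𝓛 (isAddEquivariant_torsionKEquiv p M)).symm.toAddMonoidHom.comp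
    (H1.δ₀ 𝓛 (isSES_torsionK p M hdiv) hM).toAddMonoidHom

/-- The Kummer connecting map `H¹(M) → H²(M[p])`. -/
def kummerδ₁ : 𝓛.H1 M →+ 𝓛.H2 (torsionRep p M) :=
  (addH2Equiv 𝓛 (isAddEquivariant_torsionKEquiv p M)).symm.toAddMonoidHom.comp
    (H1.δ₁ 𝓛 (isSES_torsionK p M hdiv) hM).toAddMonoidHom

/-- The Kummer connecting map `H²(M) → H³(M[p])`. -/
def kummerδ₂ : 𝓛.H2 M →+ 𝓛.H3 (torsionRep p M) :=
  (addH3Equiv 𝓛 (isAddEquivariant_torsionKEquiv p M)).symm.toAddMonoidHom.comp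
    (H1.δ₂ 𝓛 (isSES_torsionK p M hdiv) hM).toAddMonoidHom

lemma kummerδ₀_def (x : LevelStructure.H0 M) :
    kummerδ₀ 𝓛 p M hM hdiv x = (addH1Equiv 𝓛 (isAddEquivariant_torsionKEquiv p M)).symm
      (H1.δ₀ 𝓛 (isSES_torsionK p M hdiv) hM x) := rfl

lemma kummerδ₁_def (x : 𝓛.H1 M) :
    kummerδ₁ 𝓛 p M hM hdiv x = (addH2Equiv 𝓛 (isAddEquivariant_torsionKEquiv p M)).symm
      (H1.δ₁ 𝓛 (isSES_torsionK p M hdiv) hM x) := rfl

lemma kummerδ₂_def (x : 𝓛.H2 M) :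
    kummerδ₂ 𝓛 p M hM hdiv x = (addH3Equiv 𝓛 (isAddEquivariant_torsionKEquiv p M)).symm
      (H1.δ₂ 𝓛 (isSES_torsionK p M hdiv) hM x) := rfl

/-- Explicit description of `kummerδ₀`: for `x ∈ M^H` and `b` with `p • b = x`, the class of the
`M[p]`-valued cocycle `g ↦ g • b - b`. -/
lemma kummerδ₀_apply (x : LevelStructure.H0 M) (b : M.V) (hb : p • b = x.1)
    (a : H → (torsionRep p M).V) (ha : a ∈ 𝓛.cocycles₁ (torsionRep p M))
    (hia : ∀ g, ((show torsionSub p M.V from a g) : M.V) = M.ρ g b - b) :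
    kummerδ₀ 𝓛 p M hM hdiv x = 𝓛.H1π _ ⟨a, ha⟩ := by
  rw [kummerδ₀_def, H1.δ₀_apply 𝓛 (isSES_torsionK p M hdiv) hM x b hb
    (fun g => torsionKEquiv p M (a g))
    ((isAddEquivariant_torsionKEquiv p M).mem_cocycles₁ 𝓛 ha) (funext fun g => hia g)]
  rfl

/-- Explicit description of `kummerδ₁`: for a level cocycle `c` and a level cochain `b` with
`p • b = c`, the class of the `M[p]`-valued cocycle `d b`. -/
lemma kummerδ₁_mk (c : H → M.V) (hc : c ∈ 𝓛.cocycles₁ M) (b : H → M.V)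
    (hb : b ∈ 𝓛.cochains₁ M) (hpb : ∀ g, p • b g = c g)
    (a : H × H → (torsionRep p M).V) (ha : a ∈ 𝓛.cocycles₂ (torsionRep p M))
    (hia : ∀ x, ((show torsionSub p M.V from a x) : M.V) = (d₁₂ M).hom b x) :
    kummerδ₁ 𝓛 p M hM hdiv (𝓛.H1π M ⟨c, hc⟩) = 𝓛.H2π _ ⟨a, ha⟩ := by
  rw [kummerδ₁_def]
  erw [H1.δ₁_mk 𝓛 (isSES_torsionK p M hdiv) hM c hc b hb (funext fun g => hpb g)
    (fun x => torsionKEquiv p M (a x))
    ((isAddEquivariant_torsionKEquiv p M).mem_cocycles₂ 𝓛 ha) (funext fun x => hia x)]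
  rfl

/-- Explicit description of `kummerδ₂`. -/
lemma kummerδ₂_mk (c : H × H → M.V) (hc : c ∈ 𝓛.cocycles₂ M) (b : H × H → M.V)
    (hb : b ∈ 𝓛.cochains₂ M) (hpb : ∀ x, p • b x = c x)
    (a : H × H × H → (torsionRep p M).V) (ha : a ∈ 𝓛.cocycles₃ (torsionRep p M))
    (hia : ∀ x, ((show torsionSub p M.V from a x) : M.V) = (d₂₃ M).hom b x) :
    kummerδ₂ 𝓛 p M hM hdiv (𝓛.H2π M ⟨c, hc⟩) = 𝓛.H3π _ ⟨a, ha⟩ := by
  rw [kummerδ₂_def]
  erw [H1.δ₂_mk 𝓛 (isSES_torsionK p M hdiv) hM c hc b hb (funext fun x => hpb x)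
    (fun x => torsionKEquiv p M (a x))
    ((isAddEquivariant_torsionKEquiv p M).mem_cocycles₃ 𝓛 ha) (funext fun x => hia x)]
  rfl

/-! ### degree 0 -/

omit hdiv in
theorem torsionToH0_injective : Function.Injective (torsionToH0 p M) := by
  intro x y h
  have h1 : ((torsionToH0 p M x : LevelStructure.H0 M) : M.V) = (torsionToH0 p M y : M.V) :=
    congrArg Subtype.val h
  exact Subtype.ext (Subtype.ext h1)

omit hdiv in
theorem nsmul_eq_zero_iff_H0 (x : LevelStructure.H0 M) :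
    p • x = 0 ↔ ∃ y, torsionToH0 p M y = x := by
  constructor
  · intro hx
    have hx' : p • (x : M.V) = 0 := congrArg Subtype.val hx
    refine ⟨⟨(⟨x.1, (mem_torsionSub p x.1).2 hx'⟩ : torsionSub p M.V), fun g => ?_⟩, ?_⟩
    · exact Subtype.ext (x.2 g)
    · exact Subtype.ext rfl
  · rintro ⟨y, rfl⟩
    apply Subtype.ext
    exact (mem_torsionSub p _).1 ((y : (torsionRep p M).V) : torsionSub p M.V).2

/-! ### degree 1 -/

/-- `H⁰(M) -p→ H⁰(M) -δ→ H¹(M[p])` is exact. -/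
theorem kummerδ₀_eq_zero_iff (x : LevelStructure.H0 M) :
    kummerδ₀ 𝓛 p M hM hdiv x = 0 ↔ ∃ x' : LevelStructure.H0 M, p • x' = x := by
  rw [kummerδ₀_def, AddEquiv.map_eq_zero_iff,
    (H1.exact_H0map_δ₀ 𝓛 (isSES_torsionK p M hdiv) hM) x]
  constructor
  · rintro ⟨x', hx'⟩
    exact ⟨x', by rw [← hx', H0map_pMul]⟩
  · rintro ⟨x', hx'⟩
    exact ⟨x', by rw [← hx', H0map_pMul]⟩

/-- `H⁰(M) -δ→ H¹(M[p]) → H¹(M)` is exact. -/
theorem torsionToH1_eq_zero_iff (y : 𝓛.H1 (torsionRep p M)) :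
    torsionToH1 𝓛 p M y = 0 ↔ ∃ x, kummerδ₀ 𝓛 p M hM hdiv x = y := by
  rw [torsionToH1_eq, (H1.exact_δ₀_H1map 𝓛 (isSES_torsionK p M hdiv) hM) _]
  constructor
  · rintro ⟨x, hx⟩
    refine ⟨x, ?_⟩
    rw [kummerδ₀_def, hx]
    exact (addH1Equiv 𝓛 (isAddEquivariant_torsionKEquiv p M)).symm_apply_apply y
  · rintro ⟨x, rfl⟩
    refine ⟨x, ?_⟩
    rw [kummerδ₀_def]
    exact ((addH1Equiv 𝓛 (isAddEquivariant_torsionKEquiv p M)).apply_symm_apply _).symm

include hM hdiv in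
/-- `H¹(M[p]) → H¹(M) -p→ H¹(M)` is exact. -/
theorem nsmul_eq_zero_iff_H1 (x : 𝓛.H1 M) :
    p • x = 0 ↔ ∃ y, torsionToH1 𝓛 p M y = x := by
  rw [← H1map_pMul, (H1.exact_H1map_H1map 𝓛 (isSES_torsionK p M hdiv) hM) x]
  constructor
  · rintro ⟨z, rfl⟩
    refine ⟨(addH1Equiv 𝓛 (isAddEquivariant_torsionKEquiv p M)).symm z, ?_⟩
    rw [torsionToH1_eq]
    congr 1
    exact (addH1Equiv 𝓛 (isAddEquivariant_torsionKEquiv p M)).apply_symm_apply z
  · rintro ⟨y, rfl⟩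
    exact ⟨_, (torsionToH1_eq 𝓛 p M y).symm⟩

/-! ### degree 2 -/

/-- `H¹(M) -p→ H¹(M) -δ→ H²(M[p])` is exact. -/
theorem kummerδ₁_eq_zero_iff (x : 𝓛.H1 M) :
    kummerδ₁ 𝓛 p M hM hdiv x = 0 ↔ ∃ x' : 𝓛.H1 M, p • x' = x := by
  rw [kummerδ₁_def, AddEquiv.map_eq_zero_iff,
    (H1.exact_H1map_δ₁ 𝓛 (isSES_torsionK p M hdiv) hM) x]
  constructor
  · rintro ⟨x', hx'⟩
    exact ⟨x', by rw [← hx', H1map_pMul]⟩
  · rintro ⟨x', hx'⟩
    exact ⟨x', by rw [← hx', H1map_pMul]⟩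

/-- `H¹(M) -δ→ H²(M[p]) → H²(M)` is exact. -/
theorem torsionToH2_eq_zero_iff (y : 𝓛.H2 (torsionRep p M)) :
    torsionToH2 𝓛 p M y = 0 ↔ ∃ x, kummerδ₁ 𝓛 p M hM hdiv x = y := by
  rw [torsionToH2_eq, (H1.exact_δ₁_H2map 𝓛 (isSES_torsionK p M hdiv) hM) _]
  constructor
  · rintro ⟨x, hx⟩
    refine ⟨x, ?_⟩
    rw [kummerδ₁_def, hx]
    exact (addH2Equiv 𝓛 (isAddEquivariant_torsionKEquiv p M)).symm_apply_apply y
  · rintro ⟨x, rfl⟩
    refine ⟨x, ?_⟩
    rw [kummerδ₁_def]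
    exact ((addH2Equiv 𝓛 (isAddEquivariant_torsionKEquiv p M)).apply_symm_apply _).symm

include hM hdiv in
/-- `H²(M[p]) → H²(M) -p→ H²(M)` is exact. -/
theorem nsmul_eq_zero_iff_H2 (x : 𝓛.H2 M) :
    p • x = 0 ↔ ∃ y, torsionToH2 𝓛 p M y = x := by
  rw [← H2map_pMul, (H1.exact_H2map_H2map 𝓛 (isSES_torsionK p M hdiv) hM) x]
  constructor
  · rintro ⟨z, rfl⟩
    refine ⟨(addH2Equiv 𝓛 (isAddEquivariant_torsionKEquiv p M)).symm z, ?_⟩
    rw [torsionToH2_eq]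
    congr 1
    exact (addH2Equiv 𝓛 (isAddEquivariant_torsionKEquiv p M)).apply_symm_apply z
  · rintro ⟨y, rfl⟩
    exact ⟨_, (torsionToH2_eq 𝓛 p M y).symm⟩

/-! ### degree 3 -/

/-- `H²(M) -p→ H²(M) -δ→ H³(M[p])` is exact. -/
theorem kummerδ₂_eq_zero_iff (x : 𝓛.H2 M) :
    kummerδ₂ 𝓛 p M hM hdiv x = 0 ↔ ∃ x' : 𝓛.H2 M, p • x' = x := by
  rw [kummerδ₂_def, AddEquiv.map_eq_zero_iff,
    (H1.exact_H2map_δ₂ 𝓛 (isSES_torsionK p M hdiv) hM) x]
  constructor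
  · rintro ⟨x', hx'⟩
    exact ⟨x', by rw [← hx', H2map_pMul]⟩
  · rintro ⟨x', hx'⟩
    exact ⟨x', by rw [← hx', H2map_pMul]⟩

/-- `H²(M) -δ→ H³(M[p]) → H³(M)` is exact. -/
theorem torsionToH3_eq_zero_iff (y : 𝓛.H3 (torsionRep p M)) :
    torsionToH3 𝓛 p M y = 0 ↔ ∃ x, kummerδ₂ 𝓛 p M hM hdiv x = y := by
  rw [torsionToH3_eq, (H1.exact_δ₂_H3map 𝓛 (isSES_torsionK p M hdiv) hM) _]
  constructor
  · rintro ⟨x, hx⟩
    refine ⟨x, ?_⟩
    rw [kummerδ₂_def, hx]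
    exact (addH3Equiv 𝓛 (isAddEquivariant_torsionKEquiv p M)).symm_apply_apply y
  · rintro ⟨x, rfl⟩
    refine ⟨x, ?_⟩
    rw [kummerδ₂_def]
    exact ((addH3Equiv 𝓛 (isAddEquivariant_torsionKEquiv p M)).apply_symm_apply _).symm

include hM hdiv in
/-- `H³(M[p]) → H³(M) -p→ H³(M)` is exact. -/
theorem nsmul_eq_zero_iff_H3 (x : 𝓛.H3 M) :
    p • x = 0 ↔ ∃ y, torsionToH3 𝓛 p M y = x := by
  rw [← H3map_pMul, (H1.exact_H3map_H3map 𝓛 (isSES_torsionK p M hdiv) hM) x]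
  constructor
  · rintro ⟨z, rfl⟩
    refine ⟨(addH3Equiv 𝓛 (isAddEquivariant_torsionKEquiv p M)).symm z, ?_⟩
    rw [torsionToH3_eq]
    congr 1
    exact (addH3Equiv 𝓛 (isAddEquivariant_torsionKEquiv p M)).apply_symm_apply z
  · rintro ⟨y, rfl⟩
    exact ⟨_, (torsionToH3_eq 𝓛 p M y).symm⟩

/-! ### consequences -/

include hM hdiv in
/-- `H¹(M[p]) = 0` iff `H⁰(M)` is `p`-divisible and `H¹(M)` has no `p`-torsion. -/
theorem subsingleton_H1_torsion_iff :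
    Subsingleton (𝓛.H1 (torsionRep p M)) ↔
      (∀ x : LevelStructure.H0 M, ∃ x' : LevelStructure.H0 M, p • x' = x) ∧
        ∀ x : 𝓛.H1 M, p • x = 0 → x = 0 := by
  constructor
  · intro h
    refine ⟨fun x => (kummerδ₀_eq_zero_iff 𝓛 p M hM hdiv x).1 (Subsingleton.elim _ _), ?_⟩
    intro x hx
    obtain ⟨y, rfl⟩ := (nsmul_eq_zero_iff_H1 𝓛 p M hM hdiv x).1 hx
    rw [Subsingleton.elim y 0, map_zero]
  · rintro ⟨h0, h1⟩
    refine ⟨fun y y' => ?_⟩
    have key : ∀ z : 𝓛.H1 (torsionRep p M), z = 0 := by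
      intro z
      have hz : torsionToH1 𝓛 p M z = 0 :=
        h1 _ ((nsmul_eq_zero_iff_H1 𝓛 p M hM hdiv _).2 ⟨z, rfl⟩)
      obtain ⟨x, rfl⟩ := (torsionToH1_eq_zero_iff 𝓛 p M hM hdiv z).1 hz
      exact (kummerδ₀_eq_zero_iff 𝓛 p M hM hdiv x).2 (h0 x)
    rw [key y, key y']

include hM hdiv in
/-- `H²(M[p]) = 0` iff `H¹(M)` is `p`-divisible and `H²(M)` has no `p`-torsion. -/
theorem subsingleton_H2_torsion_iff :
    Subsingleton (𝓛.H2 (torsionRep p M)) ↔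
      (∀ x : 𝓛.H1 M, ∃ x' : 𝓛.H1 M, p • x' = x) ∧ ∀ x : 𝓛.H2 M, p • x = 0 → x = 0 := by
  constructor
  · intro h
    refine ⟨fun x => (kummerδ₁_eq_zero_iff 𝓛 p M hM hdiv x).1 (Subsingleton.elim _ _), ?_⟩
    intro x hx
    obtain ⟨y, rfl⟩ := (nsmul_eq_zero_iff_H2 𝓛 p M hM hdiv x).1 hx
    rw [Subsingleton.elim y 0, map_zero]
  · rintro ⟨h0, h1⟩
    refine ⟨fun y y' => ?_⟩
    have key : ∀ z : 𝓛.H2 (torsionRep p M), z = 0 := by
      intro z
      have hz : torsionToH2 𝓛 p M z = 0 :=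
        h1 _ ((nsmul_eq_zero_iff_H2 𝓛 p M hM hdiv _).2 ⟨z, rfl⟩)
      obtain ⟨x, rfl⟩ := (torsionToH2_eq_zero_iff 𝓛 p M hM hdiv z).1 hz
      exact (kummerδ₁_eq_zero_iff 𝓛 p M hM hdiv x).2 (h0 x)
    rw [key y, key y']

include hM hdiv in
/-- `torsionToH1` is injective iff `H⁰(M)` is `p`-divisible. -/
theorem torsionToH1_injective_iff :
    Function.Injective (torsionToH1 𝓛 p M) ↔
      ∀ x : LevelStructure.H0 M, ∃ x' : LevelStructure.H0 M, p • x' = x := by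
  rw [injective_iff_map_eq_zero]
  constructor
  · intro h x
    refine (kummerδ₀_eq_zero_iff 𝓛 p M hM hdiv x).1 (h _ ?_)
    exact (torsionToH1_eq_zero_iff 𝓛 p M hM hdiv _).2 ⟨x, rfl⟩
  · intro h y hy
    obtain ⟨x, rfl⟩ := (torsionToH1_eq_zero_iff 𝓛 p M hM hdiv y).1 hy
    exact (kummerδ₀_eq_zero_iff 𝓛 p M hM hdiv x).2 (h x)

include hM hdiv in
/-- `torsionToH2` is injective iff `H¹(M)` is `p`-divisible. -/
theorem torsionToH2_injective_iff :
    Function.Injective (torsionToH2 𝓛 p M) ↔ ∀ x : 𝓛.H1 M, ∃ x' : 𝓛.H1 M, p • x' = x := by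
  rw [injective_iff_map_eq_zero]
  constructor
  · intro h x
    refine (kummerδ₁_eq_zero_iff 𝓛 p M hM hdiv x).1 (h _ ?_)
    exact (torsionToH2_eq_zero_iff 𝓛 p M hM hdiv _).2 ⟨x, rfl⟩
  · intro h y hy
    obtain ⟨x, rfl⟩ := (torsionToH2_eq_zero_iff 𝓛 p M hM hdiv y).1 hy
    exact (kummerδ₁_eq_zero_iff 𝓛 p M hM hdiv x).2 (h x)

end Kummer

end

end Fermat.Agent.CFT.H36
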