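/-
CFT project, layer D2b (helper36, routed by helper91): inputs for `θ_U : H¹(U; W) ≃ H²(U; C)[p]`.

* `torsionH1_eq_torsionToH1` : helper91's comparison map is the one of `H36_Kummer`;
* `resSubHn_top_injective` : restriction to `⊤` is injective (so statements for
  `(⊤, 𝓛.restrict ⊤)` transfer to `(H, 𝓛)`);
* `H1_coprime_torsion_restrict` : for a `p`-class formation every class of `H¹(U; C)` is killed by
  an integer prime to `p`;
* `Q^U` is `p`-divisible;
* `thetaSub E U := H91.theta (E.resSub U)` is injective with image `H²(U; C)[p]`.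
-/
import Fermat.Agent.CFT.H91_D2Theta
import Fermat.Agent.CFT.H36_EnvelopeInv
import Fermat.Agent.CFT.H52_AxI3Final
import Fermat.Agent.CFT.H95_FinLevSub

set_option autoImplicit false

open CategoryTheory groupCohomology

namespace Fermat.Agent.CFT.H36

open Fermat.Agent.CFT

noncomputable section

/-! ## The two comparison maps agree -/

section Compare

variable {k : Type} [CommRing k] {H : Type} [Group H] (𝓛 : LevelStructure H) (p : ℕ)

lemma torsionH1_eq_torsionToH1 (M : Rep.{0} k H) (x : 𝓛.H1 (torsionRep p M)) :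
    H91.torsionH1 p 𝓛 M x = torsionToH1 𝓛 p M x := by
  obtain ⟨c, rfl⟩ := Submodule.mkQ_surjective _ x
  rfl

lemma theta_eq {C : Rep.{0} k H} (E : DivEnvelope 𝓛 p C) (x : 𝓛.H1 (torsionRep p E.Q)) :
    H91.theta E x = H1.δ₁ 𝓛 E.isSES E.discrete (torsionToH1 𝓛 p E.Q x) := by
  rw [H91.theta_apply, torsionH1_eq_torsionToH1]

end Compare

/-! ## Restriction to `⊤` is injective -/

section Top

variable {k : Type} [CommRing k] {H : Type} [Group H] (𝓛 : LevelStructure H) (A : Rep.{0} k H)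

lemma isOpen_top : 𝓛.IsOpen (⊤ : Subgroup H) := by
  obtain ⟨N, hN⟩ := 𝓛.nonempty
  exact ⟨N, hN, le_top⟩

theorem resSubH1_top_injective : Function.Injective (H50.resSubH1 𝓛 A ⊤) := by
  intro x y h
  have hx := H50.cor1_resSubH1 𝓛 ⊤ (isOpen_top 𝓛) A x
  have hy := H50.cor1_resSubH1 𝓛 ⊤ (isOpen_top 𝓛) A y
  rw [Subgroup.index_top, one_smul] at hx hy
  rw [← hx, ← hy, h]

theorem resSubH2_top_injective : Function.Injective (H50.resSubH2 𝓛 A ⊤) := by
  intro x y h
  have hx := H50.cor2_resSubH2 𝓛 ⊤ (isOpen_top 𝓛) A x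
  have hy := H50.cor2_resSubH2 𝓛 ⊤ (isOpen_top 𝓛) A y
  rw [Subgroup.index_top, one_smul] at hx hy
  rw [← hx, ← hy, h]

theorem resSubH3_top_injective : Function.Injective (H50.resSubH3 𝓛 A ⊤) := by
  intro x y h
  have hx := H50.cor3_resSubH3 𝓛 ⊤ (isOpen_top 𝓛) A x
  have hy := H50.cor3_resSubH3 𝓛 ⊤ (isOpen_top 𝓛) A y
  rw [Subgroup.index_top, one_smul] at hx hy
  rw [← hx, ← hy, h]

theorem subsingleton_H1_of_restrict_top
    (h : Subsingleton ((𝓛.restrict ⊤).H1 (Rep.res (⊤ : Subgroup H).subtype A))) :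
    Subsingleton (𝓛.H1 A) :=
  ⟨fun _ _ => resSubH1_top_injective 𝓛 A (Subsingleton.elim _ _)⟩

theorem subsingleton_H2_of_restrict_top
    (h : Subsingleton ((𝓛.restrict ⊤).H2 (Rep.res (⊤ : Subgroup H).subtype A))) :
    Subsingleton (𝓛.H2 A) :=
  ⟨fun _ _ => resSubH2_top_injective 𝓛 A (Subsingleton.elim _ _)⟩

theorem subsingleton_H3_of_restrict_top
    (h : Subsingleton ((𝓛.restrict ⊤).H3 (Rep.res (⊤ : Subgroup H).subtype A))) :
    Subsingleton (𝓛.H3 A) :=
  ⟨fun _ _ => resSubH3_top_injective 𝓛 A (Subsingleton.elim _ _)⟩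

end Top

/-! ## `H¹(U; C)` of a `p`-class formation is torsion of order prime to `p` -/

section Formation

variable {p : ℕ} [Fact p.Prime] {H : Type} [Group H] {𝓛 : LevelStructure H}
  {C : Rep.{0} ℤ H}

/-- No `p`-power torsion in `H¹(U; C)`. -/
lemma H1_pPowTorsionFree_restrict (F : PClassFormation p 𝓛 C) (U : Subgroup H) (a : ℕ)
    (z : (𝓛.restrict U).H1 (Rep.res U.subtype C)) (hz : p ^ a • z = 0) : z = 0 := by
  induction a with
  | zero => simpa using hz
  | succ a ih =>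
    apply ih
    apply H52.H1_pTorsionFree_restrict F U
    rw [smul_smul, ← pow_succ']
    exact hz

/-- **Every class of `H¹(U; C)` is killed by an integer prime to `p`** (hypothesis `hH1` of
`H91.invariants_Q_divisible (E.resSub U)`). -/
theorem H1_coprime_torsion_restrict (F : PClassFormation p 𝓛 C) (U : Subgroup H)
    (x : (𝓛.restrict U).H1 (Rep.res U.subtype C)) : ∃ m : ℕ, Nat.Coprime m p ∧ m • x = 0 := by
  obtain ⟨N₀, h₀⟩ := 𝓛.nonempty
  obtain ⟨N, hN, hnor, -, y, rfl⟩ := H95.exists_infLevSub₁_eq U F.discrete x h₀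
  have := hnor
  have := 𝓛.finiteIndex N hN
  have : Finite (H ⧸ N) := Subgroup.finite_quotient_of_finiteIndex
  have hcard : Nat.card (H95.subQ U N) • y = 0 :=
    H33.card_nsmul_eq_zero (H95.subRep C U N) 0 y
  have hp : p.Prime := Fact.out
  obtain ⟨a, m, hm, hn⟩ :=
    Nat.exists_eq_pow_mul_and_not_dvd (Nat.card_pos (α := H95.subQ U N)).ne' p hp.ne_one
  refine ⟨m, ((Nat.Prime.coprime_iff_not_dvd hp).2 hm).symm, ?_⟩
  apply H1_pPowTorsionFree_restrict F U a
  rw [smul_smul, ← hn, ← map_nsmul, hcard, map_zero]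

/-- The same for `U = H` without restriction. -/
theorem H1_coprime_torsion (F : PClassFormation p 𝓛 C) (x : 𝓛.H1 C) :
    ∃ m : ℕ, Nat.Coprime m p ∧ m • x = 0 := by
  obtain ⟨m, hm, h⟩ := H1_coprime_torsion_restrict F ⊤ (H50.resSubH1 𝓛 C ⊤ x)
  refine ⟨m, hm, resSubH1_top_injective 𝓛 C ?_⟩
  rw [map_nsmul, h, map_zero]

end Formation

/-! ## `I^U` and `Q^U` are `p`-divisible -/

section Divisible

variable {p : ℕ} {H : Type} [Group H] {𝓛 : LevelStructure H}
  {k : Type} [CommRing k] {C : Rep.{0} k H}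

/-- `H¹(U; I[p]) = 0` forces `I^U` to be `p`-divisible (Kummer sequence). -/
theorem DivEnvelope.invariants_I_divisible_of_hVm (E : DivEnvelope 𝓛 p C) (U : Subgroup H)
    (hVm : Subsingleton ((𝓛.restrict U).H1 (Rep.res U.subtype (torsionRep p E.I))))
    (i : (E.resSub U).I.V) (hi : ∀ g : U, (E.resSub U).I.ρ g i = i) :
    ∃ i' : (E.resSub U).I.V, (∀ g : U, (E.resSub U).I.ρ g i' = i') ∧ p • i' = i := by
  have h := (subsingleton_H1_torsion_iff (𝓛.restrict U) p (E.resSub U).I (E.resSub U).discrete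
    (E.resSub U).divisible).1 hVm
  obtain ⟨x', hx'⟩ := h.1 ⟨i, hi⟩
  exact ⟨x'.1, x'.2, congrArg Subtype.val hx'⟩

/-- The same for `U = H` without restriction. -/
theorem DivEnvelope.invariants_I_divisible_of_hVm_top (E : DivEnvelope 𝓛 p C)
    (hVm : Subsingleton (𝓛.H1 (torsionRep p E.I)))
    (i : E.I.V) (hi : ∀ g, E.I.ρ g i = i) :
    ∃ i' : E.I.V, (∀ g, E.I.ρ g i' = i') ∧ p • i' = i := by
  have h := (subsingleton_H1_torsion_iff 𝓛 p E.I E.discrete E.divisible).1 hVm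
  obtain ⟨x', hx'⟩ := h.1 ⟨i, hi⟩
  exact ⟨x'.1, x'.2, congrArg Subtype.val hx'⟩

end Divisible

/-! ## `θ_U` -/

section Theta

variable {p : ℕ} [Fact p.Prime] {H : Type} [Group H] {𝓛 : LevelStructure H}
  {C : Rep.{0} ℤ H}

/-- `θ_U : H¹(U; W) → H²(U; C)` for the restricted envelope. -/
def thetaSub (E : DivEnvelope 𝓛 p C) (U : Subgroup H) :
    (𝓛.restrict U).H1 (Rep.res U.subtype (torsionRep p E.Q)) →+
      (𝓛.restrict U).H2 (Rep.res U.subtype C) :=
  H91.theta (E.resSub U)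

lemma thetaSub_def (E : DivEnvelope 𝓛 p C) (U : Subgroup H)
    (x : (𝓛.restrict U).H1 (Rep.res U.subtype (torsionRep p E.Q))) :
    thetaSub E U x = H91.theta (E.resSub U) x := rfl

lemma thetaSub_eq (E : DivEnvelope 𝓛 p C) (U : Subgroup H)
    (x : (𝓛.restrict U).H1 (Rep.res U.subtype (torsionRep p E.Q))) :
    thetaSub E U x = H1.δ₁ (𝓛.restrict U) (E.resSub U).isSES (E.resSub U).discrete
      (torsionToH1 (𝓛.restrict U) p (E.resSub U).Q x) :=
  theta_eq (𝓛.restrict U) p (E.resSub U) x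

lemma nsmul_thetaSub (E : DivEnvelope 𝓛 p C) (U : Subgroup H)
    (x : (𝓛.restrict U).H1 (Rep.res U.subtype (torsionRep p E.Q))) :
    p • thetaSub E U x = 0 :=
  H91.nsmul_theta (E.resSub U) x

/-- `Q^U` is `p`-divisible, for a `p`-class formation and an envelope with `I^U` `p`-divisible. -/
theorem invariants_Q_divisible_resSub (F : PClassFormation p 𝓛 C) (E : DivEnvelope 𝓛 p C)
    (U : Subgroup H)
    (hI : ∀ i : (E.resSub U).I.V, (∀ g : U, (E.resSub U).I.ρ g i = i) →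
      ∃ i' : (E.resSub U).I.V, (∀ g : U, (E.resSub U).I.ρ g i' = i') ∧ p • i' = i)
    (q : (E.resSub U).Q.V) (hq : ∀ g : U, (E.resSub U).Q.ρ g q = q) :
    ∃ q' : (E.resSub U).Q.V, (∀ g : U, (E.resSub U).Q.ρ g q' = q') ∧ p • q' = q :=
  H91.invariants_Q_divisible (E.resSub U) (Fact.out : p.Prime).one_lt hI
    (H1_coprime_torsion_restrict F U) q hq

/-- `Q^H` is `p`-divisible (unrestricted form). -/
theorem invariants_Q_divisible_top (F : PClassFormation p 𝓛 C) (E : DivEnvelope 𝓛 p C)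
    (hI : ∀ i : E.I.V, (∀ g, E.I.ρ g i = i) → ∃ i' : E.I.V, (∀ g, E.I.ρ g i' = i') ∧ p • i' = i)
    (q : E.Q.V) (hq : ∀ g, E.Q.ρ g q = q) :
    ∃ q' : E.Q.V, (∀ g, E.Q.ρ g q' = q') ∧ p • q' = q :=
  H91.invariants_Q_divisible E (Fact.out : p.Prime).one_lt hI (H1_coprime_torsion F) q hq

/-- **`θ_U` is injective.** -/
theorem thetaSub_injective (F : PClassFormation p 𝓛 C) (E : DivEnvelope 𝓛 p C) (U : Subgroup H)
    (hI : ∀ i : (E.resSub U).I.V, (∀ g : U, (E.resSub U).I.ρ g i = i) →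
      ∃ i' : (E.resSub U).I.V, (∀ g : U, (E.resSub U).I.ρ g i' = i') ∧ p • i' = i)
    (hH1I : Subsingleton ((𝓛.restrict U).H1 (Rep.res U.subtype E.I))) :
    Function.Injective (thetaSub E U) :=
  H91.theta_injective (E.resSub U) (invariants_Q_divisible_resSub F E U hI) hH1I

/-- **The image of `θ_U` is `H²(U; C)[p]`.** -/
theorem exists_thetaSub_eq (E : DivEnvelope 𝓛 p C) (U : Subgroup H)
    (hH1I : Subsingleton ((𝓛.restrict U).H1 (Rep.res U.subtype E.I)))
    (hH2I : Subsingleton ((𝓛.restrict U).H2 (Rep.res U.subtype E.I)))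
    (x : (𝓛.restrict U).H2 (Rep.res U.subtype C)) (hx : p • x = 0) :
    ∃ y, thetaSub E U y = x :=
  H91.exists_theta_eq (E.resSub U) hH1I hH2I x hx

/-! ### In the hypotheses of `D2Statement` -/

/-- `θ_U` is injective under the hypotheses `hEac`, `hVm` of `D2Statement`. -/
theorem thetaSub_injective_of_D2 (F : PClassFormation p 𝓛 C) (E : DivEnvelope 𝓛 p C)
    (hEac : ∀ U : Subgroup H, 𝓛.IsOpen U →
      Subsingleton ((𝓛.restrict U).H1 (Rep.res U.subtype E.I)) ∧
      Subsingleton ((𝓛.restrict U).H2 (Rep.res U.subtype E.I)))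
    (hVm : ∀ U : Subgroup H, 𝓛.IsOpen U →
      Subsingleton ((𝓛.restrict U).H1 (Rep.res U.subtype (torsionRep p E.I))))
    (U : Subgroup H) (hU : 𝓛.IsOpen U) : Function.Injective (thetaSub E U) :=
  thetaSub_injective F E U (E.invariants_I_divisible_of_hVm U (hVm U hU)) (hEac U hU).1

/-- The image of `θ_U` is `H²(U; C)[p]` under the hypothesis `hEac` of `D2Statement`. -/
theorem exists_thetaSub_eq_of_D2 (E : DivEnvelope 𝓛 p C)
    (hEac : ∀ U : Subgroup H, 𝓛.IsOpen U →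
      Subsingleton ((𝓛.restrict U).H1 (Rep.res U.subtype E.I)) ∧
      Subsingleton ((𝓛.restrict U).H2 (Rep.res U.subtype E.I)))
    (U : Subgroup H) (hU : 𝓛.IsOpen U)
    (x : (𝓛.restrict U).H2 (Rep.res U.subtype C)) (hx : p • x = 0) :
    ∃ y, thetaSub E U y = x :=
  exists_thetaSub_eq E U (hEac U hU).1 (hEac U hU).2 x hx

/-- `θ = θ_H` (unrestricted) is injective under the hypotheses of `D2Statement`. -/
theorem theta_injective_of_D2 (F : PClassFormation p 𝓛 C) (E : DivEnvelope 𝓛 p C)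
    (hEac : ∀ U : Subgroup H, 𝓛.IsOpen U →
      Subsingleton ((𝓛.restrict U).H1 (Rep.res U.subtype E.I)) ∧
      Subsingleton ((𝓛.restrict U).H2 (Rep.res U.subtype E.I)))
    (hVm : ∀ U : Subgroup H, 𝓛.IsOpen U →
      Subsingleton ((𝓛.restrict U).H1 (Rep.res U.subtype (torsionRep p E.I)))) :
    Function.Injective (H91.theta E) := by
  have hV : Subsingleton (𝓛.H1 (torsionRep p E.I)) :=
    subsingleton_H1_of_restrict_top 𝓛 _ (hVm ⊤ (isOpen_top 𝓛))
  have hI1 : Subsingleton (𝓛.H1 E.I) :=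
    subsingleton_H1_of_restrict_top 𝓛 _ (hEac ⊤ (isOpen_top 𝓛)).1
  exact H91.theta_injective E
    (invariants_Q_divisible_top F E (E.invariants_I_divisible_of_hVm_top hV)) hI1

omit [Fact p.Prime] in
/-- The image of `θ = θ_H` is `H²(H; C)[p]` under the hypothesis `hEac` of `D2Statement`. -/
theorem exists_theta_eq_of_D2 (E : DivEnvelope 𝓛 p C)
    (hEac : ∀ U : Subgroup H, 𝓛.IsOpen U →
      Subsingleton ((𝓛.restrict U).H1 (Rep.res U.subtype E.I)) ∧
      Subsingleton ((𝓛.restrict U).H2 (Rep.res U.subtype E.I)))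
    (x : 𝓛.H2 C) (hx : p • x = 0) : ∃ y, H91.theta E y = x :=
  H91.exists_theta_eq E
    (subsingleton_H1_of_restrict_top 𝓛 _ (hEac ⊤ (isOpen_top 𝓛)).1)
    (subsingleton_H2_of_restrict_top 𝓛 _ (hEac ⊤ (isOpen_top 𝓛)).2) x hx

end Theta

end

end Fermat.Agent.CFT.H36
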