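import Fermat.Agent.CFT.H74_Carry
import Fermat.Agent.CFT.H50_LevelRes

/-!
# Seam (S-1)/(X5'): a `p`-torsion class of `H²(J)` which survives in `H²(C)`, from a carry class

`j : J ⟶ C` a morphism of `H`-modules, `χ : H → ZMod n` a level character, `b ∈ J^H`.
The carry class `x_b := b ∪ δχ ∈ H²(H; J)` is natural in the coefficients, is killed by `m` as soon
as the carry class of `m • b` vanishes (e.g. `m • b` is a norm from `J^(ker χ)`), and its image in
`H²(H; C)` is the carry class of `j b`, which is non-zero as soon as `j b` is not a norm from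
`C^(ker χ)` (norm criterion `H74.carryH2_eq_zero_iff`).

Consequence (`x5prime_of_injective_functional`): if moreover the `p`-torsion of `H²(H; J)` embeds
into `ZMod p` (local invariant), then `H²(H; J)[p] → H²(H; C)` is injective - this is (X5').
-/

set_option autoImplicit false
set_option linter.unusedSectionVars false

universe u

open CategoryTheory

namespace Fermat.Agent.CFT.H73

open Fermat.Agent.CFT LevelStructure H74

section Natural

variable {k : Type u} [CommRing k] {H : Type u} [Group H] (𝓛 : LevelStructure H)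
variable {n : ℕ} [NeZero n]

/-- the carry cochain is natural in the coefficients -/
lemma carryCochain_map {J C : Rep.{u} k H} (f : J ⟶ C) (χ : H → ZMod n) (a : J) (x : H × H) :
    f.hom (carryCochain J χ a x) = carryCochain C χ (f.hom a) x := by
  simp only [carryCochain]
  exact map_zsmul f.hom _ _

/-- **naturality of the carry class** `a ∪ δχ` in the coefficient module -/
theorem coeffH2_carryH2 {J C : Rep.{u} k H} (f : J ⟶ C) (χ : levelChars 𝓛 n)
    (a : ↥(LevelStructure.H0 J)) :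
    H50.coeffH2 𝓛 f (carryH2 𝓛 J n χ a) = carryH2 𝓛 C n χ (H50.coeffH0 f a) := by
  rw [carryH2_apply, carryH2_apply]
  unfold H50.coeffH2
  rw [H50.mapH2_mk]
  congr 1
  apply Subtype.ext
  funext x
  exact carryCochain_map f χ.1 a.1 x

end Natural

section Main

variable {k : Type u} [CommRing k] {H : Type u} [Group H] (𝓛 : LevelStructure H)
variable {n : ℕ} [NeZero n] {J C : Rep.{u} k H}

/-- **(X5'') from carry classes, class form.** -/
theorem exists_torsion_class_ne_zero (j : J ⟶ C) (χ : levelChars 𝓛 n) (m : ℕ)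
    (b : ↥(LevelStructure.H0 J)) (hJ : carryH2 𝓛 J n χ (m • b) = 0)
    (hC : carryH2 𝓛 C n χ (H50.coeffH0 j b) ≠ 0) :
    ∃ x : 𝓛.H2 J, m • x = 0 ∧ H50.coeffH2 𝓛 j x ≠ 0 := by
  refine ⟨carryH2 𝓛 J n χ b, ?_, ?_⟩
  · rw [← map_nsmul]; exact hJ
  · rw [coeffH2_carryH2]; exact hC

/-- **(X5'') from carry classes, norm form.**  `χ σ = 1`; `m • b` is a norm from `J^(ker χ)`,
`j b` is not a norm from `C^(ker χ)`, and `H¹(ker χ; C) = 0` (in the primitive form of `H74`). -/
theorem exists_torsion_class_ne_zero_of_norm (j : J ⟶ C) (χ : levelChars 𝓛 n) (h1 : 1 < n)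
    {σ : H} (hσ : χ.1 σ = 1) (m : ℕ) (b : ↥(LevelStructure.H0 J))
    (hJ : ∃ c : J, IsKerFixed χ.1 c ∧ (m • b : ↥(LevelStructure.H0 J)).1 = pnormσ σ c n)
    (hH1 : KerH1Vanishes 𝓛 C χ.1)
    (hC : ¬ ∃ c : C, IsKerFixed χ.1 c ∧ j.hom b.1 = pnormσ σ c n) :
    ∃ x : 𝓛.H2 J, m • x = 0 ∧ H50.coeffH2 𝓛 j x ≠ 0 := by
  refine exists_torsion_class_ne_zero 𝓛 j χ m b ?_ ?_
  · rw [carryH2_eq_zero_iff_mem]
    obtain ⟨c, hc, hcb⟩ := hJ
    rw [hcb]
    exact carryCochain_norm_mem_coboundaries₂ χ.2.1 χ.2.2 hσ hc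
  · intro h
    exact hC ((carryH2_eq_zero_iff χ h1 hσ hH1 _).1 h)

end Main

section Prime

variable {A B : Type*} [AddCommGroup A] [AddCommGroup B]

/-- **prime-order argument.**  If the `p`-torsion of `A` embeds into `ZMod p` (via `g`) and some
`p`-torsion element `x₀` has non-zero image under `f`, then `f` is injective on the `p`-torsion. -/
theorem eq_zero_of_injective_functional {p : ℕ} [Fact p.Prime] (f : A →+ B) (g : A →+ ZMod p)
    (hg : ∀ x : A, p • x = 0 → g x = 0 → x = 0) {x₀ : A} (hx₀ : p • x₀ = 0) (hfx₀ : f x₀ ≠ 0)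
    {x : A} (hx : p • x = 0) (hfx : f x = 0) : x = 0 := by
  have hgx₀ : g x₀ ≠ 0 := fun h => hfx₀ (by rw [hg x₀ hx₀ h, map_zero])
  -- write `g x = t * g x₀`
  set t : ZMod p := g x * (g x₀)⁻¹ with ht
  have htg : g x = t * g x₀ := by
    rw [ht, mul_assoc, inv_mul_cancel₀ hgx₀, mul_one]
  have hx' : x = t.val • x₀ := by
    have h0 : x - t.val • x₀ = 0 := by
      apply hg
      · rw [smul_sub, hx, smul_comm, hx₀, smul_zero, sub_zero]
      · rw [map_sub, map_nsmul, htg, nsmul_eq_mul, ZMod.natCast_val, ZMod.cast_id', id_eq,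
          sub_self]
    exact sub_eq_zero.1 h0
  by_cases ht0 : t = 0
  · rw [hx', ht0, ZMod.val_zero, zero_smul]
  · exfalso
    -- `t.val` is prime to `p`, so `t.val • f x₀ = 0` and `p • f x₀ = 0` give `f x₀ = 0`
    have hcop : Nat.Coprime t.val p := by
      rw [Nat.coprime_comm]
      refine (Nat.Prime.coprime_iff_not_dvd Fact.out).2 fun hd => ht0 ?_
      have := (ZMod.natCast_eq_zero_iff t.val p).2 hd
      rwa [ZMod.natCast_val, ZMod.cast_id', id_eq] at this
    have h1 : t.val • f x₀ = 0 := by rw [← map_nsmul, ← hx', hfx]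
    have h2 : p • f x₀ = 0 := by rw [← map_nsmul, hx₀, map_zero]
    have hb := Nat.Coprime.gcd_eq_one hcop
    have hbez : ((Nat.gcd t.val p : ℕ) : ℤ) • f x₀ = 0 := by
      rw [Nat.gcd_eq_gcd_ab, add_smul, mul_smul, mul_smul, natCast_zsmul, natCast_zsmul,
        smul_comm, h1, smul_zero, smul_comm, h2, smul_zero, add_zero]
    rw [hb, Nat.cast_one, one_smul] at hbez
    exact hfx₀ hbez

end Prime

section X5

variable {k : Type u} [CommRing k] {H : Type u} [Group H] (𝓛 : LevelStructure H)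
variable {n : ℕ} [NeZero n] {J C : Rep.{u} k H}

/-- **(X5') from (X5'') + a local invariant.**  If the `p`-torsion of `H²(H; J)` embeds into
`ZMod p` and some carry class `b ∪ δχ` is `p`-torsion with non-zero image in `H²(H; C)`, then
`H²(H; J)[p] → H²(H; C)` is injective. -/
theorem x5prime_of_injective_functional {p : ℕ} [Fact p.Prime] (j : J ⟶ C)
    (g : 𝓛.H2 J →+ ZMod p) (hg : ∀ x : 𝓛.H2 J, p • x = 0 → g x = 0 → x = 0)
    (χ : levelChars 𝓛 n) (b : ↥(LevelStructure.H0 J)) (hJ : carryH2 𝓛 J n χ (p • b) = 0)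
    (hC : carryH2 𝓛 C n χ (H50.coeffH0 j b) ≠ 0)
    (x : 𝓛.H2 J) (hx : p • x = 0) (hjx : H50.coeffH2 𝓛 j x = 0) : x = 0 := by
  obtain ⟨x₀, hx₀, hfx₀⟩ := exists_torsion_class_ne_zero 𝓛 j χ p b hJ hC
  exact eq_zero_of_injective_functional (H50.coeffH2 𝓛 j).toAddMonoidHom g hg hx₀ hfx₀ hx hjx

end X5

end Fermat.Agent.CFT.H73
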