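/-
CFT project, seam (S-1)/(X5'') (helper52): the formation-level core in helper73's carry-class
form.  For a `p`-class formation `(H, 𝓛, C)`, a level character `χ : H → ZMod (p ^ e)` with
`χ σ = 1` and `a ∈ C^H`: the carry class `a ∪ δχ ∈ H²(H; C)` vanishes iff `a` is a norm from
`C^(ker χ)` (norm criterion of helper74 with the `p`-primary hypotheses discharged by the
formation).  Consequence: for `j : J ⟶ C`, `b ∈ J^H` with `p • b` a norm from `J^(ker χ)` and
`j b` NOT a norm from `C^(ker χ)`, the class `x₀ := b ∪ δχ ∈ H²(H; J)` satisfies `p • x₀ = 0` and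
`H²(j) x₀ ≠ 0`  (= (X5'')).
-/
import Fermat.Agent.CFT.H73_X5Carry
import Fermat.Agent.CFT.H74_CarryNormP
import Fermat.Agent.CFT.H52_Nested
import Fermat.Agent.CFT.H62_D2bTop

set_option autoImplicit false
set_option linter.style.haveILetI false
set_option linter.unusedSectionVars false

open CategoryTheory

namespace Fermat.Agent.CFT.H52

open Fermat.Agent.CFT LevelStructure H74

section KerSubgroup

variable {H : Type} [Group H] {n : ℕ} [NeZero n]

/-- The kernel of an additive character `χ : H → ZMod n`, as a subgroup. -/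
def charKer (χ : H → ZMod n) (hχ : IsAddChar χ) : Subgroup H where
  carrier := {u | χ u = 0}
  mul_mem' {u v} hu hv := by
    show χ (u * v) = 0
    rw [hχ u v, show χ u = 0 from hu, show χ v = 0 from hv, add_zero]
  one_mem' := hχ.map_one
  inv_mem' {u} hu := by
    show χ u⁻¹ = 0
    rw [hχ.map_inv, show χ u = 0 from hu, neg_zero]

lemma mem_charKer {χ : H → ZMod n} (hχ : IsAddChar χ) (u : H) :
    u ∈ charKer χ hχ ↔ χ u = 0 := Iff.rfl

end KerSubgroup

section Formation

variable {p : ℕ} [Fact p.Prime] {H : Type} [Group H] {𝓛 : LevelStructure H}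
  {C : Rep.{0} ℤ H} (F : PClassFormation p 𝓛 C)

include F

/-- `H¹(H; C)` is `p ^ e`-divisible. -/
theorem H1_powDivisible_top (e : ℕ) (x : 𝓛.H1 C) : ∃ x' : 𝓛.H1 C, p ^ e • x' = x := by
  induction e generalizing x with
  | zero => exact ⟨x, by rw [pow_zero, one_smul]⟩
  | succ e ih =>
    obtain ⟨y, hy⟩ := ih x
    obtain ⟨z, hz⟩ := H62.H1_p_divisible_of_formation F y
    exact ⟨z, by rw [pow_succ, mul_smul, hz, hy]⟩

/-- `H¹(U; C)` has no `p ^ e`-torsion, for every subgroup `U`. -/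
theorem H1_powTorsionFree_restrict (U : Subgroup H) (e : ℕ)
    (x : (𝓛.restrict U).H1 (Rep.res U.subtype C)) (hx : p ^ e • x = 0) : x = 0 := by
  induction e with
  | zero => rwa [pow_zero, one_smul] at hx
  | succ e ih =>
    apply ih
    apply H1_pTorsionFree_restrict F U
    rw [← mul_smul, ← pow_succ']
    exact hx

/-- **Norm criterion in a `p`-class formation**: for a level character `χ : H → ZMod (p ^ e)`
with `χ σ = 1` and `a ∈ C^H`, the carry class `a ∪ δχ` vanishes iff `a` is a norm from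
`C^(ker χ)`. -/
theorem carryH2_eq_zero_iff_of_formation (e : ℕ) (he : e ≠ 0) [NeZero (p ^ e)]
    (χ : levelChars 𝓛 (p ^ e)) {σ : H} (hσ : χ.1 σ = 1) (a : ↥(LevelStructure.H0 C)) :
    carryH2 𝓛 C (p ^ e) χ a = 0 ↔ ∃ c : C, IsKerFixed χ.1 c ∧ a.1 = pnormσ σ c (p ^ e) := by
  have hp : p.Prime := Fact.out
  rw [carryH2_eq_zero_iff_mem]
  refine carryCochain_mem_coboundaries₂_iff' χ.2.1 χ.2.2 (Nat.one_lt_pow he hp.one_lt) hσ a.2
    (h1Divisible_of_forall (H1_powDivisible_top F e)) ?_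
  exact kerH1TorsionFree_of_forall (charKer χ.1 χ.2.1) (mem_charKer χ.2.1)
    (H1_powTorsionFree_restrict F _ e)

/-- **(X5'') in a `p`-class formation** (helper73's carry-class form, `p`-primary hypotheses
discharged): `j : J ⟶ C`, `χ : H → ZMod (p ^ e)` a level character with `χ σ = 1`, `b ∈ J^H` such
that `p • b` is a norm from `J^(ker χ)` and `j b` is not a norm from `C^(ker χ)`.  Then there is a
class of `H²(H; J)` killed by `p` with non-zero image in `H²(H; C)`. -/
theorem exists_torsion_class_ne_zero_of_formation {J : Rep.{0} ℤ H} (j : J ⟶ C) (e : ℕ)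
    (he : e ≠ 0) [NeZero (p ^ e)] (χ : levelChars 𝓛 (p ^ e)) {σ : H} (hσ : χ.1 σ = 1)
    (b : ↥(LevelStructure.H0 J))
    (hJ : ∃ c : J, IsKerFixed χ.1 c ∧ (p • b : ↥(LevelStructure.H0 J)).1 = pnormσ σ c (p ^ e))
    (hC : ¬ ∃ c : C, IsKerFixed χ.1 c ∧ j.hom b.1 = pnormσ σ c (p ^ e)) :
    ∃ x : 𝓛.H2 J, p • x = 0 ∧ H50.coeffH2 𝓛 j x ≠ 0 := by
  refine H73.exists_torsion_class_ne_zero 𝓛 j χ p b ?_ ?_
  · rw [carryH2_eq_zero_iff_mem]
    obtain ⟨c, hc, hcb⟩ := hJ
    rw [hcb]
    exact carryCochain_norm_mem_coboundaries₂ χ.2.1 χ.2.2 hσ hc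
  · intro h
    exact hC ((carryH2_eq_zero_iff_of_formation F e he χ hσ _).1 h)

end Formation

end Fermat.Agent.CFT.H52
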