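import Mathlib
import Fermat.Agent.CFT.H77_TopFinal

/-!
# CFT, layer C, package C-TOP: the level maps on the `S`-idele part

Compatibilities between `jIncl : JS S F → JTop S`, `csIncl : CS S F → CSTop S`, the maps
`JS → CS` at finite level and `jToCSTop : JTop S → CSTop S` at the top, and the inclusion of a
single local factor.
-/

set_option autoImplicit false

open scoped TensorProduct

namespace Fermat.Agent.CFT.H77

open IntermediateField Pointwise Fermat.Agent.CFT

local notation "Qbar" => AlgebraicClosure ℚ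
local notation "GQ" => (AlgebraicClosure ℚ ≃ₐ[ℚ] AlgebraicClosure ℚ)

noncomputable section

variable {S : Finset Nat.Primes} {F : Type} [Field F] [NumberField F] {ι : F →ₐ[ℚ] Qbar}
  (hF : ι.fieldRange.IsUnramifiedOutside S) (D : DivDescent S ι)

/-- The finite-level map `JS S F → CS S F`, `j ↦ [(j, 0)]`. -/
def jToCS : H23.JS S F →* H23.CS S F := (H23.toCS S F).comp (MonoidHom.inl _ _)

@[simp] theorem jToCS_apply (j : H23.JS S F) : jToCS (S := S) j = H23.toCS S F (j, 1) := rfl

theorem idIncl_inl (j : H23.JS S F) : idIncl hF D (j, 1) = jToIdTop S (jIncl hF j) := by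
  refine Prod.ext rfl ?_
  show Multiplicative.ofAdd (D.toTop (Multiplicative.toAdd (1 : Multiplicative (H23.DivS S F)))) = 1
  rw [toAdd_one, map_zero]
  rfl

/-- The level maps are compatible with `JS → CS` and `JTop → CSTop`. -/
theorem csIncl_jToCS (j : H23.JS S F) :
    csIncl hF D (jToCS (S := S) j) = jToCSTop S (jIncl hF j) := by
  show toCSTop S (idIncl hF D (j, 1)) = toCSTop S (jToIdTop S (jIncl hF j))
  rw [idIncl_inl]

/-- The level maps on a single local factor. -/
theorem jIncl_mulSingle [DecidableEq S] (q : S) (u : (H23.Loc F q.1)ˣ) :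
    jIncl hF (Pi.mulSingle q u) = Pi.mulSingle q (locUnitsIncl hF q.1 u) := by
  funext r
  by_cases h : r = q
  · subst h
    simp
  · rw [jIncl_apply, Pi.mulSingle_eq_of_ne h, Pi.mulSingle_eq_of_ne h, map_one]

theorem locUnitsIncl_smul (q : Nat.Primes) {σ : GQ} {g : F ≃ₐ[ℚ] F} (h : RestrictsTo ι σ g)
    (u : (H23.Loc F q)ˣ) : locUnitsIncl hF q (g • u) = σ • locUnitsIncl hF q u := by
  apply Units.ext
  exact locIncl_smul hF q h (u : H23.Loc F q)

/-- `1 ⊗ a` at finite level goes to `1 ⊗ a` at the top. -/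
theorem locIncl_one_tmul (q : Nat.Primes) (a : ℚ_[q]) :
    locIncl hF q ((1 : F) ⊗ₜ[ℚ] a) = (1 : OmegaS S) ⊗ₜ[ℚ] a := by
  show inclF hF 1 ⊗ₜ[ℚ] a = (1 : OmegaS S) ⊗ₜ[ℚ] a
  rw [map_one]

end

end Fermat.Agent.CFT.H77
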