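/-
CFT project, seam (S-1)/(X5''): the TOP-LEVEL TRANSPORT (helper37).

From the finite-level arithmetic statement at a cyclic level `F` of `p`-power degree,
unramified outside `S` (helper87's `(i)` + `(ii)` in `H23` vocabulary), and the global `p`-class
formation `(G_ℚ, levelsS S, CSTop S)`, produce the class

  `x₀ ∈ H²(levelsS S; J_q)` with `p • x₀ = 0` and `H²(J_q → J_S → C_S) x₀ ≠ 0`

consumed by helper68's `H68.exists_witness` / helper55's `H55_X5` (shape (X5'')).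
Route: helper52's `H52.exists_torsion_class_ne_zero_of_formation` (carry class `b ∪ δχ`,
helper73/helper74), with the character `χ` of the cyclic level (`cycChar`), `b := 1 ⊗ a`, and
helper77's descent `locUnitsIncl` / `csIncl` (injective, equivariant, image = invariants).

Main statements:
* `exists_class_of_cyclic_level`  : abstract level `(F, ι)` with a restriction hom `r`;
* `exists_class_of_cyclic_levelE` : level given as an intermediate field `E ⊆ ℚbar`, input (ii) as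
  non-membership in `H23.normSubgroup S ℚ ↥E`;
* `exists_class_of_zpQbar`, `exists_class_of_zpQbar_of_unit` : `E = H93.zpQbar p k` (`k ≥ 1`).
-/
import Mathlib
import Fermat.Agent.CFT.H52_X5Formation
import Fermat.Agent.CFT.H77_TopJ
import Fermat.Agent.CFT.H77_TopTower
import Fermat.Agent.CFT.H1_GlobalPTExtras
import Fermat.Agent.CFT.H23_CNorm
import Fermat.Agent.CFT.H93_ZpGen

set_option autoImplicit false
set_option linter.unusedSectionVars false

open scoped TensorProduct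
open CategoryTheory

namespace Fermat.Agent.CFT.H37

open Fermat.Agent.CFT

section Cyclic

variable {H G : Type} [Group H] [Group G] (r : H →* G) {σ₀ : H}
  (hgen : ∀ τ : G, τ ∈ Subgroup.zpowers (r σ₀)) {n : ℕ} [NeZero n] (hn : Nat.card G = n)

/-- The additive character `H → ZMod n` attached to a surjection `r : H → G` onto a cyclic group
of order `n` generated by `r σ₀`: `χ σ = k` iff `r σ = (r σ₀) ^ k`. -/
noncomputable def cycChar : H → ZMod n := fun σ =>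
  Multiplicative.toAdd ((zmodMulEquivOfGenerator hgen hn).symm (r σ))

lemma isAddChar_cycChar : H74.IsAddChar (cycChar r hgen hn) := fun u v => by
  unfold cycChar
  rw [map_mul, map_mul, toAdd_mul]

lemma cycChar_gen : cycChar r hgen hn σ₀ = 1 := by
  unfold cycChar
  rw [zmodMulEquivOfGenerator_symm_apply_generator]
  rfl

lemma cycChar_eq_zero_iff (σ : H) : cycChar r hgen hn σ = 0 ↔ r σ = 1 := by
  unfold cycChar
  constructor
  · intro h
    have h1 : (zmodMulEquivOfGenerator hgen hn).symm (r σ) = 1 := h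
    exact (MulEquiv.map_eq_one_iff _).mp h1
  · intro h
    rw [h, map_one]
    rfl

end Cyclic

section Transport

variable {H G : Type} [Group H] [Group G] [Fintype G]

lemma prod_univ_eq_prod_range_pow {M : Type*} [CommMonoid M] {g : G}
    (hg : ∀ τ, τ ∈ Subgroup.zpowers g) (f : G → M) :
    ∏ τ, f τ = ∏ j ∈ Finset.range (Nat.card G), f (g ^ j) := by
  classical
  have ho : orderOf g = Nat.card G := orderOf_eq_card_of_forall_mem_zpowers hg
  rw [← ho, ← IsCyclic.image_range_orderOf hg, Finset.prod_image]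
  intro i hi j hj hij
  exact pow_injOn_Iio_orderOf (by simpa using hi) (by simpa using hj) hij

lemma prod_range_smul_incl (r : H →* G) {σ₀ : H}
    (hgen : ∀ τ : G, τ ∈ Subgroup.zpowers (r σ₀)) {MF M : Type*} [CommGroup MF] [CommGroup M]
    [MulDistribMulAction G MF] [MulDistribMulAction H M]
    {n : ℕ} (hn : Nat.card G = n)
    (incl : MF →* M) (hincl : ∀ σ y, incl (r σ • y) = σ • incl y) (y : MF) :
    ∏ j ∈ Finset.range n, (σ₀ ^ j) • incl y = incl (∏ τ : G, τ • y) := by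
  subst hn
  rw [prod_univ_eq_prod_range_pow hgen, map_prod]
  refine Finset.prod_congr rfl fun j _ => ?_
  rw [← hincl, map_pow]

lemma pnormσ_ofMul {M : Type} [CommGroup M] [MulDistribMulAction H M] (σ : H) (m : M) (n : ℕ) :
    H74.pnormσ (C := Rep.ofMulDistribMulAction H M) σ (Additive.ofMul m) n =
      Additive.ofMul (∏ j ∈ Finset.range n, (σ ^ j) • m) := by
  unfold H74.pnormσ
  rw [ofMul_prod]
  rfl

end Transport

section Main

local notation "Qbar" => AlgebraicClosure ℚ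
local notation "GQ" => (AlgebraicClosure ℚ ≃ₐ[ℚ] AlgebraicClosure ℚ)

variable {S : Finset Nat.Primes}
  {F : Type} [Field F] [NumberField F] {ι : F →ₐ[ℚ] Qbar}
  (hF : ι.fieldRange.IsUnramifiedOutside S) (D : H77.DivDescent S ι)
  (r : GQ →* (F ≃ₐ[ℚ] F)) (hr : ∀ σ, H77.RestrictsTo ι σ (r σ))

include hr in
lemma restrict_eq_one_iff (σ : GQ) : r σ = 1 ↔ σ ∈ ι.fieldRange.fixingSubgroup := by
  rw [IntermediateField.mem_fixingSubgroup_iff]
  constructor
  · intro h x hx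
    obtain ⟨y, rfl⟩ := hx
    have := hr σ y
    rw [h] at this
    exact this
  · intro h
    ext y
    apply ι.injective
    exact ((hr σ y).symm.trans (h _ ⟨y, rfl⟩) : ι (r σ y) = ι y)

variable {σ₀ : GQ} (hgen : ∀ τ : F ≃ₐ[ℚ] F, τ ∈ Subgroup.zpowers (r σ₀))
  {n : ℕ} [NeZero n] (hn : Nat.card (F ≃ₐ[ℚ] F) = n)

include hF hr in
/-- The character of the cyclic level `F`, as a level character of `levelsS S`. -/
lemma cycChar_mem_levelChars :
    cycChar r hgen hn ∈ H74.levelChars (H87.levelsS S) n := by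
  refine ⟨isAddChar_cycChar r hgen hn, ι.fieldRange.fixingSubgroup, ⟨ι.fieldRange, hF, rfl⟩, ?_⟩
  intro g s hs
  rw [isAddChar_cycChar r hgen hn g s,
    (cycChar_eq_zero_iff r hgen hn s).mpr ((restrict_eq_one_iff r hr s).mpr hs), add_zero]

include hF D hr hgen in
/-- **(X5'') top-level transport, abstract cyclic level.** -/
theorem exists_class_of_cyclic_level {p : ℕ} [Fact p.Prime] (hS : S.Nonempty)
    (PF : PClassFormation p (H87.levelsS S) (H77.repCSTop S))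
    {e : ℕ} (he : e ≠ 0) (hcard : Nat.card (F ≃ₐ[ℚ] F) = p ^ e)
    (q : ↥S) (u v : (H23.Loc F q.1)ˣ) (hu : ∀ g : F ≃ₐ[ℚ] F, g • u = u)
    (hi : ∏ τ : F ≃ₐ[ℚ] F, τ • v = u ^ p)
    (hii : ¬ ∃ y : H23.CS S F, ∏ τ : F ≃ₐ[ℚ] F, τ • y = H23.toCS S F (Pi.mulSingle q u, 1)) :
    ∃ x₀ : (H87.levelsS S).H2 (H1.repJq S q), p • x₀ = 0 ∧
      H50.coeffH2 (H87.levelsS S) (H1.inq S q ≫ H77.jToCSTopHom S) x₀ ≠ 0 := by
  have : NeZero (p ^ e) := ⟨pow_ne_zero e (Fact.out : p.Prime).ne_zero⟩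
  set χ : H74.levelChars (H87.levelsS S) (p ^ e) :=
    ⟨cycChar r hgen hcard, cycChar_mem_levelChars hF r hr hgen hcard⟩ with hχ
  have hσ₀ : χ.1 σ₀ = 1 := cycChar_gen r hgen hcard
  have hker : ∀ κ, χ.1 κ = 0 → r κ = 1 := fun κ h => (cycChar_eq_zero_iff r hgen hcard κ).mp h
  -- the invariant `b`
  have hb : Additive.ofMul (H77.locUnitsIncl hF q.1 u) ∈ LevelStructure.H0 (H1.repJq S q) := by
    intro σ
    show Additive.ofMul (σ • H77.locUnitsIncl hF q.1 u) = _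
    rw [← H77.locUnitsIncl_smul hF q.1 (hr σ), hu]
  refine H52.exists_torsion_class_ne_zero_of_formation PF (H1.inq S q ≫ H77.jToCSTopHom S) e he χ
    hσ₀ ⟨_, hb⟩ ?_ ?_
  · -- hJ
    refine ⟨Additive.ofMul (H77.locUnitsIncl hF q.1 v), ?_, ?_⟩
    · intro κ hκ
      show Additive.ofMul (κ • H77.locUnitsIncl hF q.1 v) = _
      rw [← H77.locUnitsIncl_smul hF q.1 (hr κ), hker κ hκ, one_smul]
      rfl
    · rw [pnormσ_ofMul, prod_range_smul_incl r hgen hcard (H77.locUnitsIncl hF q.1)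
        (fun σ y => H77.locUnitsIncl_smul hF q.1 (hr σ) y), hi, map_pow]
      rfl
  · -- hC
    rintro ⟨c, hc, hcn⟩
    -- `c` is fixed by `U_F`, hence comes from the level `F`
    have hcfix : ∀ σ ∈ ι.fieldRange.fixingSubgroup,
        σ • (Additive.toMul c : H77.CSTop S) = Additive.toMul c := by
      intro σ hσ
      have h0 : χ.1 σ = 0 :=
        (cycChar_eq_zero_iff r hgen hcard σ).mpr ((restrict_eq_one_iff r hr σ).mpr hσ)
      exact congrArg Additive.toMul (hc σ h0)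
    obtain ⟨y, hy⟩ := (H77.mem_range_csIncl_iff hF D hS (H77.hasDivisors S) _).mpr hcfix
    apply hii
    refine ⟨y, ?_⟩
    apply H77.csIncl_injective hF D hS
    have hc' : c = Additive.ofMul (H77.csIncl hF D y) := by rw [hy]; rfl
    rw [hc'] at hcn
    have h2 := pnormσ_ofMul (H := GQ) (M := H77.CSTop S) σ₀ (H77.csIncl hF D y) (p ^ e)
    rw [prod_range_smul_incl (MF := H23.CS S F) (M := H77.CSTop S) r hgen hcard
        (H77.csIncl hF D) (fun σ y => H77.csIncl_smul hF D (hr σ) y)] at h2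
    replace hcn := hcn.trans h2
    have h1 : H77.jToCSTop S (H1.inqMul S q (H77.locUnitsIncl hF q.1 u)) =
        H77.csIncl hF D (∏ τ : F ≃ₐ[ℚ] F, τ • y) := congrArg Additive.toMul hcn
    rw [← h1]
    show _ = H77.csIncl hF D (H77.jToCS (S := S) (Pi.mulSingle q u))
    rw [H77.csIncl_jToCS, H77.jIncl_mulSingle]
    rfl

end Main

section LevelE

local notation "Qbar" => AlgebraicClosure ℚ
local notation "GQ" => (AlgebraicClosure ℚ ≃ₐ[ℚ] AlgebraicClosure ℚ)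

variable {S : Finset Nat.Primes}

/-- Base change of the class of an idele concentrated at `q`. -/
lemma baseChange_toCS_mulSingle (K F : Type) [Field K] [NumberField K] [Field F] [NumberField F]
    [Algebra K F] (q : ↥S) (u₀ : (H23.Loc K q.1)ˣ) :
    H23.CS.baseChange S K F (H23.toCS S K (Pi.mulSingle q u₀, 1)) =
      H23.toCS S F (Pi.mulSingle q
        (Units.map (H23.locMap K F q.1 : H23.Loc K q.1 →* H23.Loc F q.1) u₀), 1) := by
  rw [H23.CS.baseChange_toCS]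
  congr 1
  refine Prod.ext ?_ (map_one (H23.DivS.baseChange S K F).toMultiplicative)
  show H23.JS.baseChange S K F (Pi.mulSingle q u₀) = Pi.mulSingle q _
  funext t
  apply Units.ext
  rw [H23.JS.baseChange_apply]
  by_cases h : t = q
  · subst h
    rw [Pi.mulSingle_eq_same, Pi.mulSingle_eq_same]
    rfl
  · rw [Pi.mulSingle_eq_of_ne h, Pi.mulSingle_eq_of_ne h, Units.val_one, map_one]
    rfl

/-- Shortcut instance: the generic search is very slow when the field is the coercion of an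
intermediate field. -/
noncomputable local instance locUnitsSMulE_h37 (E : IntermediateField ℚ Qbar) [NumberField ↥E]
    (q : Nat.Primes) :
    SMul (↥E ≃ₐ[ℚ] ↥E) (H23.Loc ↥E q)ˣ :=
  (H42.tensorUnitsAction (k := ℚ) (K := ℚ) (L := ↥E) (A := ℚ_[q])).toSMul

/-- Shortcut instance (see `H77_TopPair`). -/
noncomputable local instance csSMulE_h37 (E : IntermediateField ℚ Qbar) [NumberField ↥E] :
    SMul (↥E ≃ₐ[ℚ] ↥E) (H23.CS S ↥E) := (H23.csAction S ↥E ℚ).toSMul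

/-- **(X5'') top-level transport**, for a cyclic level `E ⊆ ℚbar` of `p`-power degree given as an
intermediate field, with the finite-level input in `H23` vocabulary (norm subgroup). -/
theorem exists_class_of_cyclic_levelE {p : ℕ} [Fact p.Prime] (hS : S.Nonempty)
    (PF : PClassFormation p (H87.levelsS S) (H77.repCSTop S))
    (E : IntermediateField ℚ Qbar) [NumberField ↥E] [Normal ℚ ↥E] (hE : E.IsUnramifiedOutside S)
    {σ₀ : GQ} (hgen : ∀ τ : ↥E ≃ₐ[ℚ] ↥E, τ ∈ Subgroup.zpowers (AlgEquiv.restrictNormalHom ↥E σ₀))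
    {e : ℕ} (he : e ≠ 0) (hcard : Nat.card (↥E ≃ₐ[ℚ] ↥E) = p ^ e)
    (q : ↥S) (u₀ : (H23.Loc ℚ q.1)ˣ) (v : (H23.Loc ↥E q.1)ˣ)
    (hi : ∏ τ : ↥E ≃ₐ[ℚ] ↥E, τ • v =
      (Units.map (H23.locMap ℚ ↥E q.1 : H23.Loc ℚ q.1 →* H23.Loc ↥E q.1) u₀) ^ p)
    (hii : H23.toCS S ℚ (Pi.mulSingle q u₀, 1) ∉ H23.normSubgroup S ℚ ↥E) :
    ∃ x₀ : (H87.levelsS S).H2 (H1.repJq S q), p • x₀ = 0 ∧
      H50.coeffH2 (H87.levelsS S) (H1.inq S q ≫ H77.jToCSTopHom S) x₀ ≠ 0 := by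
  refine exists_class_of_cyclic_level (H77.isUnramifiedOutside_fieldRange_val E hE)
    (H77.levelDivDescent E hE) (AlgEquiv.restrictNormalHom ↥E)
    (H77.restrictsTo_restrictNormalHom E) hgen hS PF he hcard q
    (Units.map (H23.locMap ℚ ↥E q.1 : H23.Loc ℚ q.1 →* H23.Loc ↥E q.1) u₀) v ?_ hi ?_
  · intro g
    apply Units.ext
    exact H23.smul_locMap ℚ ↥E q.1 g (u₀ : H23.Loc ℚ q.1)
  · rintro ⟨y, hy⟩
    apply hii
    rw [H23.mem_normSubgroup_iff]
    refine ⟨y, ?_⟩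
    rw [baseChange_toCS_mulSingle, ← hy]
    rfl

/-- The restriction of `zpSigma p k` generates `Gal(ℚ_k/ℚ)`. -/
lemma mem_zpowers_restrict_zpSigma (p : ℕ) [Fact p.Prime] (hp2 : p ≠ 2) (k : ℕ)
    (τ : ↥(H93.zpQbar p k) ≃ₐ[ℚ] ↥(H93.zpQbar p k)) :
    τ ∈ Subgroup.zpowers (AlgEquiv.restrictNormalHom ↥(H93.zpQbar p k) (H93.zpSigma p k)) := by
  obtain ⟨n, hn⟩ := Subgroup.mem_zpowers_iff.mp
    (H93.mem_zpowers_zpGen p k hp2 ((H93.zpQuotEquiv p k).symm τ))
  refine Subgroup.mem_zpowers_iff.mpr ⟨n, ?_⟩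
  have h1 := congrArg (H93.zpQuotEquiv p k) hn
  rw [MulEquiv.apply_symm_apply, map_zpow] at h1
  exact h1

lemma card_gal_zpQbar (p : ℕ) [Fact p.Prime] (hp2 : p ≠ 2) (k : ℕ) :
    Nat.card (↥(H93.zpQbar p k) ≃ₐ[ℚ] ↥(H93.zpQbar p k)) = p ^ k := by
  rw [IsGalois.card_aut_eq_finrank, H93.finrank_zpQbar p k hp2]

/-- **(X5'') top-level transport at the `k`-th layer of the cyclotomic `ℤ_p`-extension.**
Inputs: the global `p`-class formation (X1) and helper87's arithmetic statement at the layer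
`L = ℚ_k` (`k ≥ 1`): `u₀ ∈ (ℚ ⊗ ℚ_q)ˣ` with (i) `u₀ ^ p` a Galois norm from `(L ⊗ ℚ_q)ˣ` and
(ii) the class of the idele `u₀` at `q` is not in the norm subgroup of `L`. -/
theorem exists_class_of_zpQbar {p : ℕ} [Fact p.Prime] (hp2 : p ≠ 2) (hpS : ExtCitation.pPrime p ∈ S)
    (PF : PClassFormation p (H87.levelsS S) (H77.repCSTop S))
    (k : ℕ) (hk : k ≠ 0) (q : ↥S) (u₀ : (H23.Loc ℚ q.1)ˣ) (v : (H23.Loc ↥(H93.zpQbar p k) q.1)ˣ)
    (hi : ∏ τ : ↥(H93.zpQbar p k) ≃ₐ[ℚ] ↥(H93.zpQbar p k), τ • v =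
      (Units.map (H23.locMap ℚ ↥(H93.zpQbar p k) q.1 :
        H23.Loc ℚ q.1 →* H23.Loc ↥(H93.zpQbar p k) q.1) u₀) ^ p)
    (hii : H23.toCS S ℚ (Pi.mulSingle q u₀, 1) ∉ H23.normSubgroup S ℚ ↥(H93.zpQbar p k)) :
    ∃ x₀ : (H87.levelsS S).H2 (H1.repJq S q), p • x₀ = 0 ∧
      H50.coeffH2 (H87.levelsS S) (H1.inq S q ≫ H77.jToCSTopHom S) x₀ ≠ 0 :=
  exists_class_of_cyclic_levelE ⟨_, hpS⟩ PF (H93.zpQbar p k)
    (H93.isUnramifiedOutside_zpQbar p k hpS) (mem_zpowers_restrict_zpSigma p hp2 k) hk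
    (card_gal_zpQbar p hp2 k) q u₀ v hi hii

/-- `a ↦ 1 ⊗ a`, as a map `ℚ_qˣ → (R ⊗ ℚ_q)ˣ`. -/
noncomputable def oneTmul (R : Type) [CommRing R] [Algebra ℚ R] (q : Nat.Primes) :
    ℚ_[q]ˣ →* (R ⊗[ℚ] ℚ_[q])ˣ :=
  Units.map ((Algebra.TensorProduct.includeRight : ℚ_[q] →ₐ[ℚ] R ⊗[ℚ] ℚ_[q]) :
    ℚ_[q] →* R ⊗[ℚ] ℚ_[q])

@[simp] lemma coe_oneTmul (R : Type) [CommRing R] [Algebra ℚ R] (q : Nat.Primes) (a : ℚ_[q]ˣ) :
    ((oneTmul R q a : (R ⊗[ℚ] ℚ_[q])ˣ) : R ⊗[ℚ] ℚ_[q]) = (1 : R) ⊗ₜ[ℚ] (a : ℚ_[q]) := rfl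

lemma map_locMap_oneTmul (F : Type) [Field F] [NumberField F] (q : Nat.Primes) (a : ℚ_[q]ˣ) :
    Units.map (H23.locMap ℚ F q : H23.Loc ℚ q →* H23.Loc F q) (oneTmul ℚ q a) = oneTmul F q a := by
  apply Units.ext
  show H23.locMap ℚ F q ((1 : ℚ) ⊗ₜ[ℚ] (a : ℚ_[q])) = (1 : F) ⊗ₜ[ℚ] (a : ℚ_[q])
  rw [H23.locMap_tmul, map_one]

/-- **(X5'') top-level transport**, helper87's shape: `a ∈ ℚ_qˣ` with (i) `(1 ⊗ a) ^ p` a Galois
norm from `(ℚ_k ⊗ ℚ_q)ˣ`, (ii) the class of the idele `1 ⊗ a` at `q` not a norm from `ℚ_k`. -/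
theorem exists_class_of_zpQbar_of_unit {p : ℕ} [Fact p.Prime] (hp2 : p ≠ 2)
    (hpS : ExtCitation.pPrime p ∈ S)
    (PF : PClassFormation p (H87.levelsS S) (H77.repCSTop S))
    (k : ℕ) (hk : k ≠ 0) (q : ↥S) (a : ℚ_[q.1]ˣ) (v : (H23.Loc ↥(H93.zpQbar p k) q.1)ˣ)
    (hi : ∏ τ : ↥(H93.zpQbar p k) ≃ₐ[ℚ] ↥(H93.zpQbar p k), τ • v =
      oneTmul ↥(H93.zpQbar p k) q.1 a ^ p)
    (hii : H23.toCS S ℚ (Pi.mulSingle q (oneTmul ℚ q.1 a), 1) ∉
      H23.normSubgroup S ℚ ↥(H93.zpQbar p k)) :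
    ∃ x₀ : (H87.levelsS S).H2 (H1.repJq S q), p • x₀ = 0 ∧
      H50.coeffH2 (H87.levelsS S) (H1.inq S q ≫ H77.jToCSTopHom S) x₀ ≠ 0 := by
  refine exists_class_of_zpQbar hp2 hpS PF k hk q (oneTmul ℚ q.1 a) v ?_ hii
  rw [map_locMap_oneTmul]
  exact hi

end LevelE

end Fermat.Agent.CFT.H37
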