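import Fermat.Agent.CFT.H87_ShaDict
import Fermat.Agent.CFT.H78_Levels
import Fermat.Agent.CFT.H55_GalLevels

/-!
# CFT seam (S-3): mutually cofinal level structures have the same cohomology

* generic: for `h : Cofinal 𝓛 𝓛'` on one group, `h.H1Equiv A`, `h.H2Equiv A`, `h.H3Equiv A` are the
  maps `H50.mapHn` along `id` (both ways), with `_mk` lemmas and naturality with respect to every
  `H50.mapHn`; `h.isDiscrete_iff`.
* the three local level structures on `Gal(PadicAlgCl q / ℚ_[q])`: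
  `H78.localLevels q` (finite Galois `K`, layer B), `H87.levelsLocal q` (finite `K`),
  `pullLevels (localGaloisToGlobal q)` (frozen side, `= levelsAll.comap _` by `rfl`)
  are mutually cofinal; same for the `Nat.Primes`-indexed frozen groups.
* the global ones: `H78.globalLevelsAll`, `levelsAll = allLevels`.
-/

set_option autoImplicit false

open CategoryTheory groupCohomology ExtCitation IntermediateField

noncomputable section

namespace Fermat.Agent.CFT.H87

open Fermat.Agent.CFT

universe u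

section Generic

variable {H : Type u} [Group H] {k : Type u} [CommRing k] {𝓛 𝓛' : LevelStructure H}

/-- The identity is continuous from the finer to the coarser of two cofinal structures (both
ways, using `h.symm`). -/
theorem Cofinal.isCont_id (h : Cofinal 𝓛 𝓛') : H50.IsCont 𝓛' 𝓛 (MonoidHom.id H) := by
  intro N hN
  obtain ⟨N', hN', hle⟩ := h.1 N hN
  exact ⟨N', hN', by rwa [Subgroup.comap_id]⟩

theorem Cofinal.isDiscrete_iff (h : Cofinal 𝓛 𝓛') (A : Rep k H) :
    𝓛.IsDiscrete A ↔ 𝓛'.IsDiscrete A := by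
  constructor
  · intro hA a
    obtain ⟨N, hN, ha⟩ := hA a
    obtain ⟨N', hN', hle⟩ := h.1 N hN
    exact ⟨N', hN', fun n hn => ha n (hle hn)⟩
  · intro hA a
    obtain ⟨N', hN', ha⟩ := hA a
    obtain ⟨N, hN, hle⟩ := h.2 N' hN'
    exact ⟨N, hN, fun n hn => ha n (hle hn)⟩

theorem Cofinal.isOpen_iff (h : Cofinal 𝓛 𝓛') (U : Subgroup H) : 𝓛.IsOpen U ↔ 𝓛'.IsOpen U := by
  constructor
  · rintro ⟨N, hN, hle⟩
    obtain ⟨N', hN', hle'⟩ := h.1 N hN
    exact ⟨N', hN', hle'.trans hle⟩
  · rintro ⟨N', hN', hle⟩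
    obtain ⟨N, hN, hle'⟩ := h.2 N' hN'
    exact ⟨N, hN, hle'.trans hle⟩

variable (h : Cofinal 𝓛 𝓛') (A : Rep k H)

/-- `H¹` of mutually cofinal level structures (the maps are `H50.mapH1` along `id`). -/
def Cofinal.H1Equiv : 𝓛.H1 A ≃ₗ[k] 𝓛'.H1 A :=
  LinearEquiv.ofLinearMap (H50.mapH1 𝓛' 𝓛 h.isCont_id (H50.isEquivariant_id A))
    (H50.mapH1 𝓛 𝓛' h.symm.isCont_id (H50.isEquivariant_id A))
    (by
      refine LinearMap.ext fun x => ?_
      induction x using Submodule.Quotient.induction_on with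
      | H f => rfl)
    (by
      refine LinearMap.ext fun x => ?_
      induction x using Submodule.Quotient.induction_on with
      | H f => rfl)

/-- `H²` of mutually cofinal level structures (the maps are `H50.mapH2` along `id`). -/
def Cofinal.H2Equiv : 𝓛.H2 A ≃ₗ[k] 𝓛'.H2 A :=
  LinearEquiv.ofLinearMap (H50.mapH2 𝓛' 𝓛 h.isCont_id (H50.isEquivariant_id A))
    (H50.mapH2 𝓛 𝓛' h.symm.isCont_id (H50.isEquivariant_id A))
    (by
      refine LinearMap.ext fun x => ?_
      induction x using Submodule.Quotient.induction_on with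
      | H f => rfl)
    (by
      refine LinearMap.ext fun x => ?_
      induction x using Submodule.Quotient.induction_on with
      | H f => rfl)

/-- `H³` of mutually cofinal level structures (the maps are `H50.mapH3` along `id`). -/
def Cofinal.H3Equiv : 𝓛.H3 A ≃ₗ[k] 𝓛'.H3 A :=
  LinearEquiv.ofLinearMap (H50.mapH3 𝓛' 𝓛 h.isCont_id (H50.isEquivariant_id A))
    (H50.mapH3 𝓛 𝓛' h.symm.isCont_id (H50.isEquivariant_id A))
    (by
      refine LinearMap.ext fun x => ?_
      induction x using Submodule.Quotient.induction_on with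
      | H f => rfl)
    (by
      refine LinearMap.ext fun x => ?_
      induction x using Submodule.Quotient.induction_on with
      | H f => rfl)

theorem Cofinal.H1Equiv_toLinearMap :
    (h.H1Equiv A).toLinearMap = H50.mapH1 𝓛' 𝓛 h.isCont_id (H50.isEquivariant_id A) := rfl

theorem Cofinal.H2Equiv_toLinearMap :
    (h.H2Equiv A).toLinearMap = H50.mapH2 𝓛' 𝓛 h.isCont_id (H50.isEquivariant_id A) := rfl

theorem Cofinal.H3Equiv_toLinearMap :
    (h.H3Equiv A).toLinearMap = H50.mapH3 𝓛' 𝓛 h.isCont_id (H50.isEquivariant_id A) := rfl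

theorem Cofinal.H1Equiv_symm : (h.H1Equiv A).symm = h.symm.H1Equiv A := rfl

theorem Cofinal.H2Equiv_symm : (h.H2Equiv A).symm = h.symm.H2Equiv A := rfl

theorem Cofinal.H3Equiv_symm : (h.H3Equiv A).symm = h.symm.H3Equiv A := rfl

include h in
theorem Cofinal.cocycles₁_eq : 𝓛.cocycles₁ A = 𝓛'.cocycles₁ A := by
  unfold LevelStructure.cocycles₁
  rw [cochains₁_eq_of_iff A (fun f => h.isConst₁_iff f)]

include h in
theorem Cofinal.cocycles₂_eq : 𝓛.cocycles₂ A = 𝓛'.cocycles₂ A := by
  unfold LevelStructure.cocycles₂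
  rw [cochains₂_eq_of_iff A (fun f => h.isConst₂_iff f)]

include h in
theorem Cofinal.cocycles₃_eq : 𝓛.cocycles₃ A = 𝓛'.cocycles₃ A := by
  unfold LevelStructure.cocycles₃
  congr 1
  exact Submodule.ext fun f => h.isConst₃_iff f

/-- On representatives the comparison is the identity. -/
@[simp]
theorem Cofinal.H1Equiv_mk (c : 𝓛.cocycles₁ A) :
    h.H1Equiv A (𝓛.H1π A c) = 𝓛'.H1π A ⟨c.1, h.cocycles₁_eq A ▸ c.2⟩ := rfl

@[simp]
theorem Cofinal.H2Equiv_mk (c : 𝓛.cocycles₂ A) :
    h.H2Equiv A (𝓛.H2π A c) = 𝓛'.H2π A ⟨c.1, h.cocycles₂_eq A ▸ c.2⟩ := rfl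

@[simp]
theorem Cofinal.H3Equiv_mk (c : 𝓛.cocycles₃ A) :
    h.H3Equiv A (𝓛.H3π A c) = 𝓛'.H3π A ⟨c.1, h.cocycles₃_eq A ▸ c.2⟩ := rfl

/-- The comparison commutes with the comparison to the abstract `H¹`. -/
theorem Cofinal.H1ToAbstract_H1Equiv (x : 𝓛.H1 A) :
    H1ToAbstract A 𝓛' (h.H1Equiv A x) = H1ToAbstract A 𝓛 x := by
  induction x using Submodule.Quotient.induction_on with
  | H f => rfl

end Generic

/-! ### Naturality of the comparison -/

section Naturality

variable {H H' : Type u} [Group H] [Group H'] {k : Type u} [CommRing k]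
  {𝓛 𝓛₀ : LevelStructure H} {𝓛₁ 𝓛₁' : LevelStructure H'}
  (h : Cofinal 𝓛 𝓛₀) (h₁ : Cofinal 𝓛₁ 𝓛₁') {φ : H' →* H}
  (hφ : H50.IsCont 𝓛₁ 𝓛 φ) (hφ' : H50.IsCont 𝓛₁' 𝓛₀ φ)
  {A : Rep k H} {B : Rep k H'} {α : A.V →ₗ[k] B.V} (hα : H50.IsEquivariant φ A B α)

theorem Cofinal.H1Equiv_mapH1 (x : 𝓛.H1 A) :
    h₁.H1Equiv B (H50.mapH1 𝓛₁ 𝓛 hφ hα x) = H50.mapH1 𝓛₁' 𝓛₀ hφ' hα (h.H1Equiv A x) := by
  induction x using Submodule.Quotient.induction_on with
  | H f => rfl

theorem Cofinal.H2Equiv_mapH2 (x : 𝓛.H2 A) :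
    h₁.H2Equiv B (H50.mapH2 𝓛₁ 𝓛 hφ hα x) = H50.mapH2 𝓛₁' 𝓛₀ hφ' hα (h.H2Equiv A x) := by
  induction x using Submodule.Quotient.induction_on with
  | H f => rfl

theorem Cofinal.H3Equiv_mapH3 (x : 𝓛.H3 A) :
    h₁.H3Equiv B (H50.mapH3 𝓛₁ 𝓛 hφ hα x) = H50.mapH3 𝓛₁' 𝓛₀ hφ' hα (h.H3Equiv A x) := by
  induction x using Submodule.Quotient.induction_on with
  | H f => rfl

end Naturality

/-! ### The three local level structures -/

section Local

variable (q : ℕ) [Fact q.Prime]

/-- Layer B's Galois levels and all finite levels of `Gal(PadicAlgCl q / ℚ_[q])`. -/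
theorem cofinal_localLevels_levelsLocal : Cofinal (H78.localLevels q) (levelsLocal q) := by
  constructor
  · rintro _ ⟨F, hfd, -, rfl⟩
    exact ⟨_, ⟨F, hfd, rfl⟩, le_rfl⟩
  · rintro _ ⟨K, hK, rfl⟩
    obtain ⟨K', hle, hfd, hgal⟩ := exists_galois_ge K
    exact ⟨_, ⟨K', hfd, hgal, rfl⟩, IntermediateField.fixingSubgroup_antitone hle⟩

/-- The honest local levels and the frozen ones (`pullLevels r = allLevels.comap r`). -/
theorem cofinal_levelsLocal_pullLevels :
    Cofinal (levelsLocal q) (pullLevels (localGaloisToGlobal q)) :=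
  cofinal_levelsLocal q

/-- Layer B's local levels and the frozen ones. -/
theorem cofinal_localLevels_pullLevels :
    Cofinal (H78.localLevels q) (pullLevels (localGaloisToGlobal q)) :=
  (cofinal_localLevels_levelsLocal q).trans (cofinal_levelsLocal_pullLevels q)

end Local

section PrimeLocal

variable (q : Nat.Primes)

/-- Layer B's local levels on the frozen `primeLocalGaloisGroup q`. -/
def localLevelsPrime : LevelStructure (primeLocalGaloisGroup q) :=
  letI : Fact (q : ℕ).Prime := ⟨q.2⟩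
  H78.localLevels (q : ℕ)

theorem cofinal_localLevelsPrime_levelsPrime : Cofinal (localLevelsPrime q) (levelsPrime q) :=
  letI : Fact (q : ℕ).Prime := ⟨q.2⟩
  cofinal_localLevels_levelsLocal (q : ℕ)

theorem cofinal_levelsPrime_pullLevels :
    Cofinal (levelsPrime q) (pullLevels (primeLocalToGlobal q)) :=
  cofinal_levelsPrime q

theorem cofinal_localLevelsPrime_pullLevels :
    Cofinal (localLevelsPrime q) (pullLevels (primeLocalToGlobal q)) :=
  (cofinal_localLevelsPrime_levelsPrime q).trans (cofinal_levelsPrime_pullLevels q)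

end PrimeLocal

/-! ### The global level structures -/

section Global

theorem allLevels_eq_levelsAll : allLevels = levelsAll := rfl

theorem globalLevels_eq_levelsS (S : Finset Nat.Primes) : globalLevels S = levelsS S := rfl

/-- Finite Galois levels and all finite levels of `G_ℚ`. -/
theorem cofinal_globalLevelsAll_levelsAll : Cofinal H78.globalLevelsAll levelsAll := by
  constructor
  · rintro _ ⟨F, hfd, -, rfl⟩
    exact ⟨_, ⟨F, hfd, rfl⟩, le_rfl⟩
  · rintro _ ⟨F, hF, rfl⟩
    have hn := normal_galClosure F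
    refine ⟨_, ⟨galClosure F, finiteDimensional_galClosure F, isGalois_galClosure F, rfl⟩,
      IntermediateField.fixingSubgroup_antitone (le_galClosure F)⟩

end Global

end Fermat.Agent.CFT.H87
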