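import Fermat.Agent.CFT.H93_ZpGen

/-!
# The exact order of Frobenius elements in the layers of the cyclotomic `ℤ_p`-tower

Author: helper93 (project CFT, package C-CYCLO-Zp-tower, item (Z10)).

For a prime `t ≠ p` (more generally `t ≥ 2` prime to `p`) with `v = v_p(t^(p-1) - 1)`, the class of
`t` in `Gal(ℚ_k/ℚ) = (ℤ/p^(k+1))ˣ/μ_(p-1)` has exact order `p^(k+1-v)`.
-/

set_option autoImplicit false

namespace Fermat.Agent.CFT.H93

open NumberField IsCyclotomicExtension IntermediateField Ideal Fermat.Agent.S14 ExtCitation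

local notation "GQ" => (AlgebraicClosure ℚ ≃ₐ[ℚ] AlgebraicClosure ℚ)
local notation "Qbar" => AlgebraicClosure ℚ

local instance isAlgebraicQf : Algebra.IsAlgebraic ℚ (AlgebraicClosure ℚ) :=
  AlgebraicClosure.isAlgebraic ℚ
local instance isAlgClosureQf : IsAlgClosure ℚ (AlgebraicClosure ℚ) :=
  ⟨inferInstance, inferInstance⟩
local instance isGaloisQf : IsGalois ℚ (AlgebraicClosure ℚ) := IsSepClosure.isGalois

section ZModOrder

variable (p : ℕ) [hp : Fact p.Prime]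

/-- Exact lifting-the-exponent: the order of `t^(p-1)` modulo `p^(k+1)`. -/
theorem orderOf_pow_pred_zmod (hp2 : p ≠ 2) (t : ℕ) (ht : 2 ≤ t) (htp : ¬ p ∣ t) (k : ℕ) :
    orderOf ((t : ZMod (p ^ (k + 1))) ^ (p - 1)) =
      p ^ (k + 1 - padicValNat p (t ^ (p - 1) - 1)) := by
  have hodd : Odd p := hp.out.odd_of_ne_two hp2
  set y := t ^ (p - 1) with hy
  set v := padicValNat p (y - 1) with hv
  have hp1 : 0 < p - 1 := Nat.sub_pos_of_lt hp.out.one_lt
  have hy1 : 1 < y := Nat.one_lt_pow hp1.ne' ht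
  have hpy : p ∣ y - 1 := by
    have h := ZMod.pow_card_sub_one_eq_one (p := p) (a := (t : ZMod p))
      (by rwa [Ne, ZMod.natCast_eq_zero_iff])
    rw [← Nat.cast_pow, ← Nat.cast_one (R := ZMod p), ZMod.natCast_eq_natCast_iff] at h
    exact (Nat.modEq_iff_dvd' hy1.le).mp h.symm
  have hpy' : ¬ p ∣ y := fun h => htp (hp.out.dvd_of_dvd_pow h)
  have hlte : ∀ n : ℕ, n ≠ 0 → padicValNat p (y ^ n - 1 ^ n) = v + padicValNat p n :=
    fun n hn => padicValNat.pow_sub_pow (p := p) hodd hy1 (by simpa using hpy) hpy' hn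
  have hcast : ((t : ZMod (p ^ (k + 1))) ^ (p - 1)) = ((y : ℕ) : ZMod (p ^ (k + 1))) := by
    rw [hy]; push_cast; rfl
  rw [hcast]
  -- criterion for `y ^ n = 1`
  have hcrit : ∀ n : ℕ, n ≠ 0 →
      (((y : ℕ) : ZMod (p ^ (k + 1))) ^ n = 1 ↔ k + 1 ≤ v + padicValNat p n) := by
    intro n hn
    have hne : y ^ n - 1 ^ n ≠ 0 := by
      rw [one_pow]
      have : 1 < y ^ n := Nat.one_lt_pow hn hy1
      omega
    rw [← hlte n hn, ← padicValNat_dvd_iff_le hne, one_pow]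
    rw [← Nat.cast_pow, ← Nat.cast_one (R := ZMod (p ^ (k + 1))), ZMod.natCast_eq_natCast_iff]
    constructor
    · intro h
      exact (Nat.modEq_iff_dvd' (Nat.one_le_pow _ _ (by omega))).mp h.symm
    · intro h
      exact ((Nat.modEq_iff_dvd' (Nat.one_le_pow _ _ (by omega))).mpr h).symm
  set j := k + 1 - v with hj
  apply Nat.dvd_antisymm
  · apply orderOf_dvd_of_pow_eq_one
    rw [hcrit (p ^ j) (pow_pos hp.out.pos j).ne', padicValNat.prime_pow]
    omega
  · set o := orderOf ((y : ℕ) : ZMod (p ^ (k + 1))) with ho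
    have ho0 : o ≠ 0 := by
      have hcop : Nat.Coprime y (p ^ (k + 1)) :=
        Nat.Coprime.pow_right _ ((Nat.Prime.coprime_iff_not_dvd hp.out).mpr hpy').symm
      have hfin : IsOfFinOrder (ZMod.unitOfCoprime y hcop) := isOfFinOrder_of_finite _
      have := (orderOf_pos_iff.mpr hfin).ne'
      rwa [← orderOf_injective (Units.coeHom (ZMod (p ^ (k + 1)))) Units.coeHom_injective,
        Units.coeHom_apply, ZMod.coe_unitOfCoprime] at this
    have h1 := (hcrit o ho0).mp (pow_orderOf_eq_one _)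
    refine dvd_trans (pow_dvd_pow p ?_) (pow_padicValNat_dvd (p := p) (n := o))
    omega

end ZModOrder

section LayerOrder

variable (p : ℕ) [hp : Fact p.Prime] (k : ℕ) (F : Type*) [Field F] [NumberField F]
  [hF : IsCyclotomicExtension {p ^ (k + 1)} ℚ F]

/-- The order of the image of `a` in `Gal(ℚ_k/ℚ)` is the order of `a ^ (p - 1)`. -/
theorem orderOf_zpArtinHom (a : (ZMod (p ^ (k + 1)))ˣ) :
    orderOf (zpArtinHom p k F a) = orderOf (a ^ (p - 1)) := by
  apply Nat.dvd_antisymm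
  · apply orderOf_dvd_of_pow_eq_one
    rw [← map_pow, zpArtinHom_eq_one_iff, ← pow_mul, mul_comm, pow_mul, pow_orderOf_eq_one]
  · apply orderOf_dvd_of_pow_eq_one
    rw [← pow_mul, mul_comm, pow_mul, ← zpArtinHom_eq_one_iff p k F, map_pow, pow_orderOf_eq_one]

/-- **(Z10)** exact order of the class of `t` in `Gal(ℚ_k/ℚ)`. -/
theorem orderOf_zpArtinHom_natCast (hp2 : p ≠ 2) (t : ℕ) (ht : 2 ≤ t) (htp : t.Coprime p) :
    orderOf (zpArtinHom p k F (ZMod.unitOfCoprime t (htp.pow_right (k + 1)))) =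
      p ^ (k + 1 - padicValNat p (t ^ (p - 1) - 1)) := by
  have hnd : ¬ p ∣ t := fun h => by
    have := Nat.Coprime.eq_one_of_dvd htp.symm h
    exact hp.out.one_lt.ne' this
  rw [orderOf_zpArtinHom,
    ← orderOf_injective (Units.coeHom (ZMod (p ^ (k + 1)))) Units.coeHom_injective,
    Units.coeHom_apply, Units.val_pow_eq_pow_val, ZMod.coe_unitOfCoprime]
  exact orderOf_pow_pred_zmod p hp2 t ht hnd k

/-- **(Z10)** exact order of the Frobenius of a prime `t ≠ p` on `ℚ_k`. -/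
theorem orderOf_frobP_zpLayer (hp2 : p ≠ 2) (t : ℕ) (ht : t.Prime) (htp : t ≠ p) :
    orderOf (H27.frobP (zpLayer p k F) (Ideal.span {(t : 𝓞 ℚ)})) =
      p ^ (k + 1 - padicValNat p (t ^ (p - 1) - 1)) := by
  rw [frobP_zpLayer_eq p k F hp2 t ht htp]
  exact orderOf_zpArtinHom_natCast p k F hp2 t ht.two_le ((Nat.coprime_primes ht hp.out).mpr htp)

end LayerOrder

section QbarOrder

variable (p : ℕ) [hp : Fact p.Prime] (k : ℕ)

/-- The order of the class of `σ` in `G_ℚ / Gal(ℚ̄/ℚ_k)`. -/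
theorem orderOf_mk_zpSubgroup (σ : GQ) :
    orderOf (QuotientGroup.mk σ : GQ ⧸ zpSubgroup p k) =
      orderOf ((H69.chiM (p ^ (k + 1)) σ) ^ (p - 1)) := by
  apply Nat.dvd_antisymm
  · apply orderOf_dvd_of_pow_eq_one
    rw [← QuotientGroup.mk_pow, QuotientGroup.eq_one_iff, mem_zpSubgroup_iff, map_pow, ← pow_mul,
      mul_comm, pow_mul, pow_orderOf_eq_one]
  · apply orderOf_dvd_of_pow_eq_one
    rw [← pow_mul, mul_comm, pow_mul, ← map_pow, ← mem_zpSubgroup_iff, ← QuotientGroup.eq_one_iff,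
      QuotientGroup.mk_pow, pow_orderOf_eq_one]

/-- **(Z10)** in `G_ℚ`: if the cyclotomic character of `σ` modulo `p^(k+1)` is `t`, then the class
of `σ` modulo `Gal(ℚ̄/ℚ_k)` has exact order `p^(k+1-v_p(t^(p-1)-1))`. -/
theorem orderOf_mk_zpSubgroup_of_chiM (hp2 : p ≠ 2) (t : ℕ) (ht : 2 ≤ t) (htp : ¬ p ∣ t)
    (σ : GQ)
    (hσ : ((H69.chiM (p ^ (k + 1)) σ : (ZMod (p ^ (k + 1)))ˣ) : ZMod (p ^ (k + 1))) = t) :
    orderOf (QuotientGroup.mk σ : GQ ⧸ zpSubgroup p k) =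
      p ^ (k + 1 - padicValNat p (t ^ (p - 1) - 1)) := by
  rw [orderOf_mk_zpSubgroup,
    ← orderOf_injective (Units.coeHom (ZMod (p ^ (k + 1)))) Units.coeHom_injective,
    Units.coeHom_apply, Units.val_pow_eq_pow_val, hσ]
  exact orderOf_pow_pred_zmod p hp2 t ht htp k

/-- **(Z10)** exact order of the Frobenius of a prime `t ≠ p` on `ℚ_k ⊆ ℚ̄`. -/
theorem orderOf_frobP_zpQbar (hp2 : p ≠ 2) (t : ℕ) (ht : t.Prime) (htp : t ≠ p) :
    orderOf (H27.frobP (zpQbar p k) (Ideal.span {(t : 𝓞 ℚ)})) =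
      p ^ (k + 1 - padicValNat p (t ^ (p - 1) - 1)) := by
  have hcop : t.Coprime p := (Nat.coprime_primes ht hp.out).mpr htp
  obtain ⟨σ, hσ⟩ := chiM_surjective p k (ZMod.unitOfCoprime t (hcop.pow_right (k + 1)))
  have hσ' : ((H69.chiM (p ^ (k + 1)) σ : (ZMod (p ^ (k + 1)))ˣ) : ZMod (p ^ (k + 1))) = t := by
    rw [hσ, ZMod.coe_unitOfCoprime]
  have hnd : ¬ p ∣ t := fun h => htp ((Nat.prime_dvd_prime_iff_eq hp.out ht).mp h).symm
  rw [frobP_zpQbar_eq p k t ht htp σ hσ', ← zpQuotEquiv_mk, MulEquiv.orderOf_eq]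
  exact orderOf_mk_zpSubgroup_of_chiM p k hp2 t ht.two_le hnd σ hσ'

/-- The layer in which the Frobenius of `t ≠ p` has order exactly `p`. -/
theorem orderOf_frobP_zpQbar_eq_prime (hp2 : p ≠ 2) (t : ℕ) (ht : t.Prime) (htp : t ≠ p) :
    orderOf (H27.frobP (zpQbar p (padicValNat p (t ^ (p - 1) - 1)))
      (Ideal.span {(t : 𝓞 ℚ)})) = p := by
  rw [orderOf_frobP_zpQbar p _ hp2 t ht htp, Nat.add_sub_cancel_left, pow_one]

/-- For every `N`, the Frobenius of `t ≠ p` has order divisible by `p ^ N` in all sufficiently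
high layers: explicit threshold. -/
theorem pow_dvd_orderOf_frobP_zpQbar (hp2 : p ≠ 2) (t : ℕ) (ht : t.Prime) (htp : t ≠ p) (N : ℕ)
    (hk : N + padicValNat p (t ^ (p - 1) - 1) ≤ k + 1) :
    p ^ N ∣ orderOf (H27.frobP (zpQbar p k) (Ideal.span {(t : 𝓞 ℚ)})) := by
  rw [orderOf_frobP_zpQbar p k hp2 t ht htp]
  exact pow_dvd_pow p (by omega)

end QbarOrder

end Fermat.Agent.CFT.H93
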