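/-
CFT seam (S-1)/(X5''), ARITHMETIC half (helper87; routed by helper91 #1333 (2)).

For every `q ∈ S` (`p ∈ S`, `p` odd) a layer `L = ℚ_k ⊆ ℚ̄` of the cyclotomic `ℤ_p`-extension
(helper93's `zpQbar p k`, `k ≥ 1`) and `a ∈ ℚ_qˣ` such that

* (i)  `1 ⊗ a^p` is a Galois norm from `(L ⊗ ℚ_q)ˣ`;
* (ii) the class of the idele `(a at q, 1 elsewhere)` is NOT in `H23.normSubgroup S ℚ L`.

`q = p`: `k = 1`, `a = 1 + p` (helper81's `towerElt`).  `q ≠ p`: `k = v_p(q^(p-1) - 1)`, `a = q`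
(`Frob_q` has order exactly `p` on `ℚ_k`: helper93; (i) by helper27's unramified semilocal norm
lemma; (ii) by helper81's explicit global symbol `thetaQbar`).

Also: the additive character `zpChar p k : G_ℚ → ℤ/p^k` of the layer `ℚ_k` (kernel
`zpSubgroup p k`, value `1` at helper93's `zpSigma p k`), as an element of
`H74.levelChars (levelsS S) (p ^ k)`, for the carry class of helper73/helper52.
-/
import Mathlib
import Fermat.Agent.CFT.H81_ThetaQbar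
import Fermat.Agent.CFT.H23_CNorm
import Fermat.Agent.CFT.H93_ZpFrobOrder
import Fermat.Agent.CFT.H27_UnramSemilocalNorm
import Fermat.Agent.CFT.H74_Carry
import Fermat.Agent.CFT.H87_CofinalEquiv

set_option autoImplicit false
set_option linter.unusedSectionVars false

namespace Fermat.Agent.CFT.H87

open scoped TensorProduct NumberField IsMulCommutative
open Fermat.Agent.CFT Fermat.Agent.CFT.H23 Fermat.Agent.CFT.H93 Fermat.Agent.CFT.H81
  Fermat.Agent.CFT.H27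

local notation "GQ" => (AlgebraicClosure ℚ ≃ₐ[ℚ] AlgebraicClosure ℚ)
local notation "Qbar" => AlgebraicClosure ℚ

noncomputable section

/-! ### Ideles of `ℚ` concentrated at one prime of `S` -/

section IdeleAt

variable {S : Finset Nat.Primes}

/-- The `S`-idele of `ℚ` with component `x : ℚ_qˣ` (i.e. `1 ⊗ x`) at `q ∈ S` and `1` elsewhere.
(`H81.ideleAtP p hpS = ideleAt (pPrime p) hpS` by `rfl`.) -/
def ideleAt (q : Nat.Primes) (hq : q ∈ S) : ℚ_[q]ˣ →* IdS S ℚ :=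
  (MonoidHom.inl (JS S ℚ) (Multiplicative (DivS S ℚ))).comp
    ((MonoidHom.mulSingle (fun q : S => (Loc ℚ q.1)ˣ) ⟨q, hq⟩).comp
      (locRatUnits q).symm.toMonoidHom)

theorem ideleAt_eq (q : Nat.Primes) (hq : q ∈ S) (x : ℚ_[q]ˣ) :
    ideleAt q hq x =
      (Pi.mulSingle (M := fun q : S => (Loc ℚ q.1)ˣ) (⟨q, hq⟩ : S) ((locRatUnits q).symm x), 1) :=
  rfl

theorem coe_locRatUnits_symm (q : Nat.Primes) (x : ℚ_[q]ˣ) :
    (((locRatUnits q).symm x : (Loc ℚ q)ˣ) : Loc ℚ q) = (1 : ℚ) ⊗ₜ[ℚ] (x : ℚ_[q]) := rfl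

theorem ideleAt_fst_self (q : Nat.Primes) (hq : q ∈ S) (x : ℚ_[q]ˣ) :
    (ideleAt q hq x).1 ⟨q, hq⟩ = (locRatUnits q).symm x := by
  show Pi.mulSingle (M := fun q : S => (Loc ℚ q.1)ˣ) (⟨q, hq⟩ : S)
    ((locRatUnits q).symm x) ⟨q, hq⟩ = _
  rw [Pi.mulSingle_eq_same]

theorem ideleAt_fst_of_ne (q : Nat.Primes) (hq : q ∈ S) (x : ℚ_[q]ˣ) (q' : S)
    (hq' : q' ≠ ⟨q, hq⟩) : (ideleAt q hq x).1 q' = 1 := by
  show Pi.mulSingle (M := fun q : S => (Loc ℚ q.1)ˣ) (⟨q, hq⟩ : S)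
    ((locRatUnits q).symm x) q' = _
  rw [Pi.mulSingle_eq_of_ne hq']

theorem ideleAt_snd (q : Nat.Primes) (hq : q ∈ S) (x : ℚ_[q]ˣ) : (ideleAt q hq x).2 = 1 := rfl

theorem ideleAtP_eq_ideleAt (p : ℕ) [hp : Fact p.Prime] (hpS : H81.pPrime p ∈ S) (x : ℚ_[p]ˣ) :
    ideleAtP p hpS x = ideleAt (H81.pPrime p) hpS x := rfl

variable (p : ℕ) [hp : Fact p.Prime]
  {L : Type*} [Field L] [NumberField L] [IsGalois ℚ L] [IsMulCommutative Gal(L/ℚ)]
  (art : ℤ_[p]ˣ →* Gal(L/ℚ))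

/-- The symbol of an idele concentrated at `q ≠ p` is the unramified local symbol at `q`. -/
theorem thetaRat_ideleAt_of_ne (hpS : H81.pPrime p ∈ S) (q : Nat.Primes) (hq : q ∈ S)
    (hqp : (q : ℕ) ≠ p) (x : ℚ_[q]ˣ) :
    thetaRat p art hpS (ideleAt q hq x) = thetaAway p art q x := by
  rw [thetaRat_apply, ideleAt_snd, map_one, mul_one]
  have hne : (⟨H81.pPrime p, hpS⟩ : S) ≠ ⟨q, hq⟩ := by
    intro h
    exact hqp (congrArg (fun z : S => ((z : Nat.Primes) : ℕ)) h).symm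
  have h1 : compP p hpS (ideleAt q hq x).1 = 1 := by
    show locRatUnits (H81.pPrime p) ((ideleAt q hq x).1 ⟨H81.pPrime p, hpS⟩) = 1
    rw [ideleAt_fst_of_ne q hq x _ hne, map_one]
  have h2 : thetaAwayProd p art (ideleAt q hq x).1 = thetaAway p art q x := by
    rw [thetaAwayProd_apply]
    rw [Finset.prod_eq_single (⟨q, hq⟩ : S)]
    · rw [ideleAt_fst_self, MulEquiv.apply_symm_apply]
    · intro q' _ hq'
      rw [ideleAt_fst_of_ne q hq x q' hq', map_one, map_one]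
    · intro h
      exact absurd (Finset.mem_univ _) h
  rw [h1, h2, map_one, one_mul]

end IdeleAt

/-! ### (i): `1 ⊗ a^p` is a semilocal Galois norm -/

section NormPart

variable (L : Type) [Field L] [NumberField L]

/-- For `a ∈ ℚ_q`, `1 ⊗ a^[L:ℚ]` is the Galois norm of `1 ⊗ a`. -/
theorem prod_smul_one_tmul [IsGalois ℚ L] (q : Nat.Primes) (a : ℚ_[q]) :
    ∏ σ : L ≃ₐ[ℚ] L, σ • ((1 : L) ⊗ₜ[ℚ] a : Loc L q) =
      (1 : L) ⊗ₜ[ℚ] (a ^ Module.finrank ℚ L) := by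
  have h1 : ∀ σ : L ≃ₐ[ℚ] L, σ • ((1 : L) ⊗ₜ[ℚ] a : Loc L q) = (1 : L) ⊗ₜ[ℚ] a := by
    intro σ
    have := smul_locMap ℚ L q σ ((1 : ℚ) ⊗ₜ[ℚ] a)
    rwa [locMap_tmul, map_one] at this
  simp only [h1]
  rw [Finset.prod_const, Finset.card_univ, ← Nat.card_eq_fintype_card,
    IsGalois.card_aut_eq_finrank, Algebra.TensorProduct.tmul_pow, one_pow]

/-- `1 ⊗ a` as a unit of `L ⊗ ℚ_q`. -/
def oneTmulUnit (q : Nat.Primes) : ℚ_[q]ˣ →* (Loc L q)ˣ :=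
  Units.map ((Algebra.TensorProduct.includeRight : ℚ_[q] →ₐ[ℚ] Loc L q) : ℚ_[q] →* Loc L q)

theorem coe_oneTmulUnit (q : Nat.Primes) (a : ℚ_[q]ˣ) :
    ((oneTmulUnit L q a : (Loc L q)ˣ) : Loc L q) = (1 : L) ⊗ₜ[ℚ] (a : ℚ_[q]) := rfl

/-- `1 ⊗ a ∈ (L ⊗ ℚ_q)ˣ` is the base change of `1 ⊗ a ∈ (ℚ ⊗ ℚ_q)ˣ`. -/
theorem map_locMap_locRatUnits_symm (q : Nat.Primes) (a : ℚ_[q]ˣ) :
    Units.map (locMap ℚ L q : Loc ℚ q →* Loc L q) ((locRatUnits q).symm a) = oneTmulUnit L q a := by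
  apply Units.ext
  show locMap ℚ L q ((1 : ℚ) ⊗ₜ[ℚ] (a : ℚ_[q])) = (1 : L) ⊗ₜ[ℚ] (a : ℚ_[q])
  rw [locMap_tmul, map_one]

end NormPart

variable (p : ℕ) [hp : Fact p.Prime]

/-- the prime `q` as a unit of `ℚ_q` -/
def primeUnit (q : Nat.Primes) : ℚ_[q]ˣ :=
  Units.mk0 ((q : ℕ) : ℚ_[q]) (Nat.cast_ne_zero.mpr q.2.ne_zero)

theorem coe_primeUnit (q : Nat.Primes) : ((primeUnit q : ℚ_[q]ˣ) : ℚ_[q]) = ((q : ℕ) : ℚ_[q]) :=
  rfl

/-- `1 + p` as a unit of `ℚ_p`. -/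
def onePlusPPadic : ℚ_[p]ˣ := intToPadicUnits p (onePlusPUnit p)

theorem hur_zpQbar (k : ℕ) (q : Nat.Primes) (hqp : (q : ℕ) ≠ p) :
    ∀ (𝔓 : Ideal (𝓞 (zpQbar p k))) [𝔓.IsPrime], (((q : ℕ) : ℕ) : 𝓞 (zpQbar p k)) ∈ 𝔓 →
      Algebra.IsUnramifiedAt (𝓞 ℚ) 𝔓 := by
  intro 𝔓 h𝔓 hq
  have hq0 : (((q : ℕ) : ℕ) : 𝓞 (zpQbar p k)) ≠ 0 := Nat.cast_ne_zero.mpr q.2.ne_zero
  refine isUnramifiedAt_zpQbar p k 𝔓 (fun h => hq0 ?_) ?_
  · rw [h] at hq
    exact hq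
  · intro hpP
    have hcop : Nat.Coprime (q : ℕ) p := (Nat.coprime_primes q.2 hp.out).mpr hqp
    have h1 : (1 : 𝓞 (zpQbar p k)) ∈ 𝔓 := by
      have hb := Nat.Coprime.isCoprime hcop
      obtain ⟨u, v, huv⟩ := hb
      have : ((u : ℤ) : 𝓞 (zpQbar p k)) * (((q : ℕ) : ℕ) : 𝓞 (zpQbar p k)) +
          ((v : ℤ) : 𝓞 (zpQbar p k)) * ((p : ℕ) : 𝓞 (zpQbar p k)) = 1 := by
        have := congrArg (fun z : ℤ => (z : 𝓞 (zpQbar p k))) huv
        simpa using this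
      rw [← this]
      exact 𝔓.add_mem (𝔓.mul_mem_left _ hq) (𝔓.mul_mem_left _ hpP)
    exact h𝔓.ne_top ((Ideal.eq_top_iff_one _).2 h1)

/-- The layer of the `ℤ_p`-tower on which `Frob_q` (`q ≠ p`) has order exactly `p`. -/
def frobLayer (q : Nat.Primes) : ℕ := padicValNat p ((q : ℕ) ^ (p - 1) - 1)

theorem one_le_frobLayer (q : Nat.Primes) (hqp : (q : ℕ) ≠ p) : 1 ≤ frobLayer p q := by
  have hp1 : 0 < p - 1 := Nat.sub_pos_of_lt hp.out.one_lt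
  have hy1 : 1 < (q : ℕ) ^ (p - 1) := Nat.one_lt_pow hp1.ne' q.2.one_lt
  have hnd : ¬ p ∣ (q : ℕ) := fun h => hqp ((Nat.prime_dvd_prime_iff_eq hp.out q.2).mp h).symm
  have hpy : p ∣ (q : ℕ) ^ (p - 1) - 1 := by
    have h := ZMod.pow_card_sub_one_eq_one (p := p) (a := ((q : ℕ) : ZMod p))
      (by rwa [Ne, ZMod.natCast_eq_zero_iff])
    rw [← Nat.cast_pow, ← Nat.cast_one (R := ZMod p), ZMod.natCast_eq_natCast_iff] at h
    exact (Nat.modEq_iff_dvd' hy1.le).mp h.symm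
  exact one_le_padicValNat_of_dvd (by omega) hpy

set_option synthInstance.maxHeartbeats 400000 in
set_option maxHeartbeats 1000000 in
/-- **(i), `q ≠ p`**: on the layer `k = v_p(q^(p-1) - 1)` (where `Frob_q` has order `p`),
`1 ⊗ q^p` is a Galois norm from `(ℚ_k ⊗ ℚ_q)ˣ`. -/
theorem exists_galNorm_prime_pow (hp2 : p ≠ 2) (q : Nat.Primes) (hqp : (q : ℕ) ≠ p) :
    ∃ v : (Loc (zpQbar p (frobLayer p q)) q)ˣ,
      ∏ σ : (zpQbar p (frobLayer p q)) ≃ₐ[ℚ] (zpQbar p (frobLayer p q)),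
        σ • (v : Loc (zpQbar p (frobLayer p q)) q) =
      (1 : zpQbar p (frobLayer p q)) ⊗ₜ[ℚ] (((primeUnit q : ℚ_[q]ˣ) : ℚ_[q]) ^ p) := by
  have h := H27.exists_galNorm_of_dvd_valuation (q : ℕ) (L := zpQbar p (frobLayer p q))
    (hur_zpQbar p (frobLayer p q) q hqp) ((primeUnit q) ^ p) ?_
  · obtain ⟨v, hv⟩ := h
    refine ⟨v, ?_⟩
    rw [hv, Units.val_pow_eq_pow_val]
  · rw [frobLayer, orderOf_frobP_zpQbar_eq_prime p hp2 (q : ℕ) q.2 hqp, Units.val_pow_eq_pow_val]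
    show (p : ℤ) ∣ ((((q : ℕ) : ℚ_[q]) ^ p).valuation)
    rw [Padic.valuation_pow, Padic.valuation_p]
    simp

set_option synthInstance.maxHeartbeats 400000 in
set_option maxHeartbeats 1000000 in
/-- **(i), any `q`, first layer** (degree `p`): `1 ⊗ a^p` is the Galois norm of `1 ⊗ a`. -/
theorem exists_galNorm_pow_self (hp2 : p ≠ 2) (q : Nat.Primes) (a : ℚ_[q]ˣ) :
    ∃ v : (Loc (zpQbar p 1) q)ˣ,
      ∏ σ : (zpQbar p 1) ≃ₐ[ℚ] (zpQbar p 1), σ • (v : Loc (zpQbar p 1) q) =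
        (1 : zpQbar p 1) ⊗ₜ[ℚ] ((a : ℚ_[q]) ^ p) := by
  refine ⟨oneTmulUnit (zpQbar p 1) q a, ?_⟩
  rw [coe_oneTmulUnit, prod_smul_one_tmul, finrank_zpQbar p 1 hp2, pow_one]

/-! ### (ii): the class of the idele is not a norm -/

variable {S : Finset Nat.Primes}

set_option synthInstance.maxHeartbeats 400000 in
set_option maxHeartbeats 1000000 in
/-- A class on which the explicit symbol of `ℚ_k/ℚ` is non-trivial is not a norm from
`CS S ℚ_k`. -/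
theorem not_mem_normSubgroup_of_thetaQbar_ne_one (k : ℕ) (hp2 : p ≠ 2) (hpS : H81.pPrime p ∈ S)
    (c : CS S ℚ) (hc : thetaQbar p k hp2 hpS c ≠ 1) :
    c ∉ normSubgroup S ℚ (zpQbar p k) := by
  intro h
  rw [mem_normSubgroup_iff] at h
  obtain ⟨m, hm⟩ := h
  exact hc (thetaQbar_eq_one_of_baseChange_eq p k hp2 hpS c m hm.symm)

/-- The symbol of the idele `(q at q, 1 elsewhere)`, `q ≠ p`, is the Frobenius of `q`. -/
theorem thetaQbar_ideleAt_prime (k : ℕ) (hp2 : p ≠ 2) (hpS : H81.pPrime p ∈ S)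
    (q : Nat.Primes) (hq : q ∈ S) (hqp : (q : ℕ) ≠ p) :
    thetaQbar p k hp2 hpS (toCS S ℚ (ideleAt q hq (primeUnit q))) =
      Fermat.Agent.S14.H27.frobP (zpQbar p k) (Ideal.span {(((q : ℕ) : ℕ) : 𝓞 ℚ)}) := by
  have hcop : (q : ℕ).Coprime p := (Nat.coprime_primes q.2 hp.out).mpr hqp
  rw [thetaQbar_toCS, thetaRat_ideleAt_of_ne p _ hpS q hq hqp,
    thetaAway_of_coprime p _ q hcop, coe_primeUnit, Padic.valuation_p, zpow_one]
  obtain ⟨σ, hσ⟩ := chiM_surjective p k (redUnits p (k + 1) (natUnit hcop))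
  rw [artQbar_eq_restrict p k _ σ hσ]
  refine (frobP_zpQbar_eq p k (q : ℕ) q.2 hqp σ ?_).symm
  rw [hσ, coe_redUnits, coe_natUnit, map_natCast]

/-- **(ii), `q ≠ p`.** -/
theorem ideleAt_prime_not_mem_normSubgroup (hp2 : p ≠ 2) (hpS : H81.pPrime p ∈ S)
    (q : Nat.Primes) (hq : q ∈ S) (hqp : (q : ℕ) ≠ p) :
    toCS S ℚ (ideleAt q hq (primeUnit q)) ∉ normSubgroup S ℚ (zpQbar p (frobLayer p q)) := by
  apply not_mem_normSubgroup_of_thetaQbar_ne_one p _ hp2 hpS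
  rw [thetaQbar_ideleAt_prime p _ hp2 hpS q hq hqp]
  intro h1
  have hord := orderOf_frobP_zpQbar_eq_prime p hp2 (q : ℕ) q.2 hqp
  rw [← frobLayer, h1, orderOf_one] at hord
  exact hp.out.one_lt.ne hord

/-- **(ii), `q = p`**: the class of `(1 + p at p, 1 elsewhere)` is not a norm from the first
layer. -/
theorem ideleAt_onePlusP_not_mem_normSubgroup (hp2 : p ≠ 2) (hpS : H81.pPrime p ∈ S) :
    toCS S ℚ (ideleAt (H81.pPrime p) hpS (onePlusPPadic p)) ∉ normSubgroup S ℚ (zpQbar p 1) := by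
  apply not_mem_normSubgroup_of_thetaQbar_ne_one p 1 hp2 hpS
  intro h1
  have hord := orderOf_thetaQbar_towerElt p 1 hp2 hpS (S := S)
  have h2 : towerElt p hpS = toCS S ℚ (ideleAt (H81.pPrime p) hpS (onePlusPPadic p)) := rfl
  rw [h2, h1, orderOf_one, pow_one] at hord
  exact hp.out.one_lt.ne hord


/-! ### (X5'')-ARITH, packaged -/

set_option synthInstance.maxHeartbeats 400000 in
set_option maxHeartbeats 1000000 in
/-- From the ring-level norm relation to the unit-level one. -/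
theorem units_prod_smul_eq (k : ℕ) (q : Nat.Primes) (v : (Loc (zpQbar p k) q)ˣ) (a : ℚ_[q]ˣ)
    (h : ∏ σ : (zpQbar p k) ≃ₐ[ℚ] (zpQbar p k), σ • (v : Loc (zpQbar p k) q) =
      (1 : zpQbar p k) ⊗ₜ[ℚ] (a : ℚ_[q])) :
    ∏ σ : (zpQbar p k) ≃ₐ[ℚ] (zpQbar p k), σ • v = oneTmulUnit (zpQbar p k) q a := by
  apply Units.ext
  rw [Units.coe_prod, coe_oneTmulUnit, ← h]
  rfl

set_option synthInstance.maxHeartbeats 400000 in
set_option maxHeartbeats 1000000 in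
/-- **(X5'')-ARITH** (ring-level form of (i)).  For every `q ∈ S` there are a layer `ℚ_k ⊆ ℚ̄`
(`k ≥ 1`) of the cyclotomic `ℤ_p`-extension and `a ∈ ℚ_qˣ` such that `1 ⊗ a^p` is a Galois norm
from `(ℚ_k ⊗ ℚ_q)ˣ`, while the class of the idele `(a at q, 1 elsewhere)` is not a norm from
`CS S ℚ_k`. -/
theorem exists_layer_nonnorm' (hp2 : p ≠ 2) (hpS : H81.pPrime p ∈ S) (q : Nat.Primes)
    (hq : q ∈ S) :
    ∃ k : ℕ, 1 ≤ k ∧ ∃ a : ℚ_[q]ˣ,
      (∃ v : (Loc (zpQbar p k) q)ˣ,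
        ∏ σ : (zpQbar p k) ≃ₐ[ℚ] (zpQbar p k), σ • (v : Loc (zpQbar p k) q) =
          (1 : zpQbar p k) ⊗ₜ[ℚ] ((a : ℚ_[q]) ^ p)) ∧
      toCS S ℚ (ideleAt q hq a) ∉ normSubgroup S ℚ (zpQbar p k) := by
  by_cases hqp : (q : ℕ) = p
  · have hq' : q = H81.pPrime p := Subtype.ext hqp
    subst hq'
    exact ⟨1, le_rfl, onePlusPPadic p, exists_galNorm_pow_self p hp2 _ _,
      ideleAt_onePlusP_not_mem_normSubgroup p hp2 hpS⟩
  · exact ⟨frobLayer p q, one_le_frobLayer p q hqp, primeUnit q,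
      exists_galNorm_prime_pow p hp2 q hqp,
      ideleAt_prime_not_mem_normSubgroup p hp2 hpS q hq hqp⟩

set_option synthInstance.maxHeartbeats 400000 in
set_option maxHeartbeats 1000000 in
/-- **(X5'')-ARITH** (unit-level form of (i)): `(1 ⊗ a)^p = ∏ σ, σ • v` in `(ℚ_k ⊗ ℚ_q)ˣ`, where
`1 ⊗ a = oneTmulUnit ℚ_k q a` is the base change of the `q`-component of `ideleAt q hq a`
(`map_locMap_locRatUnits_symm`). -/
theorem exists_layer_nonnorm (hp2 : p ≠ 2) (hpS : H81.pPrime p ∈ S) (q : Nat.Primes)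
    (hq : q ∈ S) :
    ∃ k : ℕ, 1 ≤ k ∧ ∃ a : ℚ_[q]ˣ,
      (∃ v : (Loc (zpQbar p k) q)ˣ,
        ∏ σ : (zpQbar p k) ≃ₐ[ℚ] (zpQbar p k), σ • v = oneTmulUnit (zpQbar p k) q a ^ p) ∧
      toCS S ℚ (ideleAt q hq a) ∉ normSubgroup S ℚ (zpQbar p k) := by
  obtain ⟨k, hk, a, ⟨v, hv⟩, h2⟩ := exists_layer_nonnorm' p hp2 hpS q hq
  refine ⟨k, hk, a, ⟨v, ?_⟩, h2⟩
  rw [← map_pow]
  apply units_prod_smul_eq p k q v (a ^ p)
  rw [hv, Units.val_pow_eq_pow_val]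

/-! ### The additive character of a cyclic quotient with a marked generator -/

section CyclicChar

variable {H : Type*} [Group H] (N : Subgroup H) [N.Normal] (σ₀ : H) (n : ℕ) [NeZero n]

/-- `ℤ/n → H/N`, `i ↦ (σ₀ N)^i`. -/
def quotPowHom (h : (QuotientGroup.mk σ₀ : H ⧸ N) ^ n = 1) : ZMod n →+ Additive (H ⧸ N) :=
  ZMod.lift n ⟨zmultiplesHom (Additive (H ⧸ N)) (Additive.ofMul (QuotientGroup.mk σ₀)), by
    simp only [zmultiplesHom_apply, natCast_zsmul]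
    rw [← ofMul_pow, h, ofMul_one]⟩

omit [NeZero n] in
theorem quotPowHom_intCast (h : (QuotientGroup.mk σ₀ : H ⧸ N) ^ n = 1) (m : ℤ) :
    quotPowHom N σ₀ n h (m : ZMod n) = Additive.ofMul ((QuotientGroup.mk σ₀ : H ⧸ N) ^ m) := by
  simp [quotPowHom, ofMul_zpow]

theorem quotPowHom_bijective (hord : orderOf (QuotientGroup.mk σ₀ : H ⧸ N) = n)
    (hgen : ∀ x : H ⧸ N, x ∈ Subgroup.zpowers (QuotientGroup.mk σ₀ : H ⧸ N)) :
    Function.Bijective (quotPowHom N σ₀ n (by rw [← hord]; exact pow_orderOf_eq_one _)) := by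
  constructor
  · rw [quotPowHom, ZMod.lift_injective]
    intro m hm
    simp only [zmultiplesHom_apply] at hm
    rw [ZMod.intCast_zmod_eq_zero_iff_dvd, ← hord]
    rw [← ofMul_zpow] at hm
    exact orderOf_dvd_iff_zpow_eq_one.2 hm
  · intro x
    obtain ⟨m, hm⟩ := Subgroup.mem_zpowers_iff.1 (hgen (Additive.toMul x))
    exact ⟨(m : ZMod n), by rw [quotPowHom_intCast, hm]; rfl⟩

/-- The additive character `H → ℤ/n` with kernel `N` and `χ σ₀ = 1`, for `H/N` cyclic of order `n`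
generated by the class of `σ₀`. -/
def cyclicChar (hord : orderOf (QuotientGroup.mk σ₀ : H ⧸ N) = n)
    (hgen : ∀ x : H ⧸ N, x ∈ Subgroup.zpowers (QuotientGroup.mk σ₀ : H ⧸ N)) : H → ZMod n :=
  fun h => (AddEquiv.ofBijective _ (quotPowHom_bijective N σ₀ n hord hgen)).symm
    (Additive.ofMul (QuotientGroup.mk h))

variable {N σ₀ n}
variable (hord : orderOf (QuotientGroup.mk σ₀ : H ⧸ N) = n)
  (hgen : ∀ x : H ⧸ N, x ∈ Subgroup.zpowers (QuotientGroup.mk σ₀ : H ⧸ N))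

theorem cyclicChar_isAddChar : H74.IsAddChar (cyclicChar N σ₀ n hord hgen) := by
  intro u v
  unfold cyclicChar
  rw [QuotientGroup.mk_mul, ofMul_mul, map_add]

theorem cyclicChar_eq_iff (h : H) (i : ZMod n) :
    cyclicChar N σ₀ n hord hgen h = i ↔
      Additive.ofMul (QuotientGroup.mk h : H ⧸ N) =
        quotPowHom N σ₀ n (by rw [← hord]; exact pow_orderOf_eq_one _) i := by
  unfold cyclicChar
  rw [AddEquiv.symm_apply_eq]
  rfl

theorem cyclicChar_self : cyclicChar N σ₀ n hord hgen σ₀ = 1 := by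
  rw [cyclicChar_eq_iff]
  have := quotPowHom_intCast N σ₀ n (by rw [← hord]; exact pow_orderOf_eq_one _) 1
  simpa using this.symm

theorem cyclicChar_eq_zero_iff (h : H) : cyclicChar N σ₀ n hord hgen h = 0 ↔ h ∈ N := by
  rw [cyclicChar_eq_iff, map_zero]
  constructor
  · intro h0
    exact (QuotientGroup.eq_one_iff h).1 (Additive.ofMul.injective h0)
  · intro hN
    exact congrArg Additive.ofMul ((QuotientGroup.eq_one_iff h).2 hN)

theorem cyclicChar_mul_of_mem (g s : H) (hs : s ∈ N) :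
    cyclicChar N σ₀ n hord hgen (g * s) = cyclicChar N σ₀ n hord hgen g := by
  rw [cyclicChar_isAddChar hord hgen g s, (cyclicChar_eq_zero_iff hord hgen s).2 hs, add_zero]

theorem cyclicChar_pow (m : ℕ) : cyclicChar N σ₀ n hord hgen (σ₀ ^ m) = (m : ZMod n) := by
  rw [(cyclicChar_isAddChar hord hgen).map_pow, cyclicChar_self, nsmul_eq_mul, mul_one]

end CyclicChar

/-! ### The character of the layer `ℚ_k` -/

section ZpChar

variable (k : ℕ)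

/-- The additive character `G_ℚ → ℤ/p^k` of the layer `ℚ_k`: kernel `zpSubgroup p k`, value `1` at
helper93's `zpSigma p k` (whose cyclotomic character mod `p^(k+1)` is `1 + p`). -/
def zpChar (hp2 : p ≠ 2) : GQ → ZMod (p ^ k) :=
  cyclicChar (zpSubgroup p k) (zpSigma p k) (p ^ k) (orderOf_zpGen p k hp2)
    (mem_zpowers_zpGen p k hp2)

theorem zpChar_isAddChar (hp2 : p ≠ 2) : H74.IsAddChar (zpChar p k hp2) :=
  cyclicChar_isAddChar _ _

theorem zpChar_zpSigma (hp2 : p ≠ 2) : zpChar p k hp2 (zpSigma p k) = 1 :=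
  cyclicChar_self _ _

theorem zpChar_eq_zero_iff (hp2 : p ≠ 2) (σ : GQ) :
    zpChar p k hp2 σ = 0 ↔ σ ∈ zpSubgroup p k :=
  cyclicChar_eq_zero_iff _ _ σ

theorem zpChar_pow (hp2 : p ≠ 2) (m : ℕ) : zpChar p k hp2 (zpSigma p k ^ m) = (m : ZMod (p ^ k)) :=
  cyclicChar_pow _ _ m

theorem zpChar_isConst (hp2 : p ≠ 2) (hpS : H81.pPrime p ∈ S) :
    (levelsS S).IsConst₁ (zpChar p k hp2) :=
  ⟨zpSubgroup p k, zpSubgroup_mem_globalLevels p k hpS,
    fun g s hs => cyclicChar_mul_of_mem _ _ g s hs⟩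

/-- `zpChar` as a level character of `(G_ℚ, levelsS S)` (`p ∈ S`). -/
def zpLevelChar (hp2 : p ≠ 2) (hpS : H81.pPrime p ∈ S) : H74.levelChars (levelsS S) (p ^ k) :=
  ⟨zpChar p k hp2, zpChar_isAddChar p k hp2, zpChar_isConst p k hp2 hpS⟩

theorem zpLevelChar_val (hp2 : p ≠ 2) (hpS : H81.pPrime p ∈ S) :
    (zpLevelChar p k hp2 hpS (S := S)).1 = zpChar p k hp2 := rfl

end ZpChar

end

end Fermat.Agent.CFT.H87
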