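/-
CFT project, glue (helper36): `H55.X5Concrete p S`, the (X5'') input of helper55's final wiring
`H55.poitouTateStatement_of_inputs`, from helper87's arithmetic half `H87.exists_layer_nonnorm`
and helper37's top-level transport `H37.exists_class_of_zpQbar_of_unit`, given the global
`p`-class formation.
-/
import Fermat.Agent.CFT.H87_X5Arith
import Fermat.Agent.CFT.H37_X5Top
import Fermat.Agent.CFT.H55_PTFinal

set_option autoImplicit false

open CategoryTheory groupCohomology ExtCitation TensorProduct

namespace Fermat.Agent.CFT.H36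

open Fermat.Agent.CFT

set_option synthInstance.maxHeartbeats 400000 in
set_option maxHeartbeats 1000000 in
/-- **(X5'') for the concrete modules**, from the global `p`-class formation on `levelsS S`. -/
theorem x5Concrete_of_formation {p : ℕ} [Fact p.Prime] {S : Finset Nat.Primes} (hp2 : p ≠ 2)
    (hpS : pPrime p ∈ S) (PF : PClassFormation p (H87.levelsS S) (H77.repCSTop S)) :
    H55.X5Concrete p S := by
  intro q
  obtain ⟨k, hk, a, ⟨v, hv⟩, hii⟩ := H87.exists_layer_nonnorm p hp2 hpS q.1 q.2
  refine H37.exists_class_of_zpQbar_of_unit hp2 hpS PF k (Nat.one_le_iff_ne_zero.mp hk) q a v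
    ?_ ?_
  · exact hv
  · exact hii

/-- **(X5'')**, from `hCmain` of `H55.poitouTateStatement_of_inputs` (`globalLevels S` is
`H87.levelsS S` by `rfl`). -/
theorem x5Concrete {p : ℕ} [Fact p.Prime] {S : Finset Nat.Primes} (hp2 : p ≠ 2)
    (hpS : pPrime p ∈ S)
    (hCmain : Nonempty (PClassFormation p (globalLevels S) (H77.repCSTop S))) :
    H55.X5Concrete p S :=
  x5Concrete_of_formation hp2 hpS hCmain.some

end Fermat.Agent.CFT.H36
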