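import Mathlib
import Fermat.Agent.CFT.H9_CupCyclic
import Fermat.Agent.CFT.H95_FinLev
import Fermat.Agent.CFT.H50_LevelRes

/-!
# CFT / seam (S-1) = (X5'), abstract part (helper37)

* `cupClass` : for a finite cyclic group `G` with generator `g` and `a ∈ A^G`, the class
  `[a ∪ δχ_g] ∈ H²(G, A)`; it vanishes iff `a` is a norm, it is natural in `A`.
* `exists_H2_of_cyclic_level` : for a level structure `𝓛` on `H`, a morphism `j : J ⟶ C` of
  `H`-modules and a normal level `N` with cyclic quotient: an invariant `a` of `J^N` with `p • a`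
  a norm from `J^N` and `j a` NOT a norm from `C^N` gives a class `x₀ ∈ 𝓛.H2 J` with `p • x₀ = 0`
  and `j_* x₀ ≠ 0`, provided inflation from `N` is injective on `p`-torsion for `C`.
* `eq_zero_of_coeffH2_eq_zero` : (X5'') + `|𝓛.H2 J [p]| ≤ p` ⇒ (X5').
-/

set_option autoImplicit false
set_option linter.unusedSectionVars false
set_option linter.style.haveILetI false

noncomputable section

open groupCohomology CategoryTheory

namespace Fermat.Agent.CFT.H37

open Fermat.Agent.CFT

section Cyclic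

variable {k : Type} [CommRing k] {G : Type} [Group G] [Fintype G] {A B : Rep.{0} k G}
  {g : G} (hg : ∀ x, x ∈ Subgroup.zpowers g) {n : ℕ} [NeZero n] (hn : Nat.card G = n)

/-- The class `[a ∪ δχ_g] ∈ H²(G, A)` of an invariant `a`, `G` cyclic with generator `g`. -/
def cupClass (a : A.ρ.invariants) : groupCohomology A 2 :=
  H2π A (H9.cup a (H9.bock k (H9.genChar hg hn)))

theorem cupClass_eq_zero_iff (h1 : n ≠ 1) (a : A.ρ.invariants) :
    cupClass hg hn a = 0 ↔ ∃ b : A.V, A.ρ.norm b = a.1 :=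
  H9.H2π_cup_bock_eq_zero_iff_norm a (H9.genChar hg hn) g
    (H9.nakN_genChar_generator hg hn h1)

theorem cupClass_add (a a' : A.ρ.invariants) :
    cupClass hg hn (a + a') = cupClass hg hn a + cupClass hg hn a' := by
  rw [cupClass, cupClass, cupClass, H9.cup_add_left, map_add]

theorem cupClass_nsmul (m : ℕ) (a : A.ρ.invariants) :
    cupClass hg hn (m • a) = m • cupClass hg hn a := by
  induction m with
  | zero =>
    rw [zero_smul, zero_smul]
    have h := cupClass_add hg hn (0 : A.ρ.invariants) 0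
    rw [add_zero] at h
    exact left_eq_add.mp h
  | succ m ih => rw [succ_nsmul, succ_nsmul, cupClass_add, ih]

/-- If `p • a` is a norm then `p • [a ∪ δχ] = 0`. -/
theorem nsmul_cupClass_eq_zero (h1 : n ≠ 1) (p : ℕ) (a : A.ρ.invariants)
    (hp : ∃ b : A.V, A.ρ.norm b = p • a.1) : p • cupClass hg hn a = 0 := by
  rw [← cupClass_nsmul, cupClass_eq_zero_iff hg hn h1]
  exact hp

/-- Naturality of `cupClass` in the module. -/
theorem map_cupClass (j : A ⟶ B) (a : A.ρ.invariants) :
    (groupCohomology.map (MonoidHom.id G) j 2).hom (cupClass hg hn a)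
      = cupClass hg hn (H9.invMap (MonoidHom.id G) j a) := by
  rw [cupClass, cupClass]
  exact H9.map_H2π_cup_bock (MonoidHom.id G) j a (H9.genChar hg hn)

end Cyclic

section NormNat

variable {k : Type} [CommRing k] {G : Type} [Group G] [Fintype G] {A B : Rep.{0} k G}

/-- Morphisms of representations commute with the norm. -/
theorem hom_norm (f : A ⟶ B) (b : A.V) : f.hom (A.ρ.norm b) = B.ρ.norm (f.hom b) := by
  rw [Representation.norm, Representation.norm, LinearMap.sum_apply, LinearMap.sum_apply, map_sum]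
  exact Finset.sum_congr rfl fun g _ => Rep.hom_comm_apply f g b

end NormNat

section Level

variable {k : Type} [CommRing k] {H : Type} [Group H] (𝓛 : LevelStructure H)
  {J C : Rep.{0} k H} (j : J ⟶ C) (N : Subgroup H) [N.Normal] (hN : N ∈ 𝓛.levels)

/-- The map induced by `j` on `N`-invariants, as a morphism of `H ⧸ N`-modules. -/
abbrev invHom : J.quotientToInvariants N ⟶ C.quotientToInvariants N :=
  (Rep.quotientToInvariantsFunctor k N).map j

theorem invHom_coe (x : (J.quotientToInvariants N).V) :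
    (((invHom j N).hom x : (C.quotientToInvariants N).V) : C.V) = j.hom x.1 := rfl

/-- The image of an invariant under `invHom`. -/
def invHomInv (a : (J.quotientToInvariants N).ρ.invariants) :
    (C.quotientToInvariants N).ρ.invariants :=
  ⟨(invHom j N).hom a.1, fun g => by
    have h1 := Rep.hom_comm_apply (invHom j N) g a.1
    rw [a.2 g] at h1
    exact h1.symm⟩

theorem invHomInv_coe (a : (J.quotientToInvariants N).ρ.invariants) :
    (invHomInv j N a).1 = (invHom j N).hom a.1 := rfl

variable [Fintype (H ⧸ N)] {g : H ⧸ N} (hg : ∀ x, x ∈ Subgroup.zpowers g) {n : ℕ} [NeZero n]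
  (hn : Nat.card (H ⧸ N) = n)

/-- Inflation of `cupClass` is natural in the coefficient module. -/
theorem coeffH2_infLev₂_cupClass (a : (J.quotientToInvariants N).ρ.invariants)
    (a' : (C.quotientToInvariants N).ρ.invariants)
    (haa' : ((a'.1 : (C.quotientToInvariants N).V) : C.V)
      = j.hom ((a.1 : (J.quotientToInvariants N).V) : J.V)) :
    H50.coeffH2 𝓛 j (H95.infLev₂ 𝓛 J N hN (cupClass hg hn a))
      = H95.infLev₂ 𝓛 C N hN (cupClass hg hn a') := by
  have e1 : H95.infLev₂ 𝓛 J N hN (cupClass hg hn a)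
      = 𝓛.H2π J (H95.inflCocycles₂ 𝓛 J N hN (H9.cup a (H9.bock k (H9.genChar hg hn)))) :=
    H95.infLev₂_H2π 𝓛 J N hN _
  have e2 : H95.infLev₂ 𝓛 C N hN (cupClass hg hn a')
      = 𝓛.H2π C (H95.inflCocycles₂ 𝓛 C N hN (H9.cup a' (H9.bock k (H9.genChar hg hn)))) :=
    H95.infLev₂_H2π 𝓛 C N hN _
  rw [e1, e2, H50.coeffH2, H50.mapH2_mk]
  congr 1
  apply Subtype.ext
  funext ⟨x, y⟩
  show j.hom ((H9.cup a (H9.bock k (H9.genChar hg hn)) ((x : H ⧸ N), (y : H ⧸ N))).1)
    = ((H9.cup a' (H9.bock k (H9.genChar hg hn)) ((x : H ⧸ N), (y : H ⧸ N))).1 : C.V)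
  show j.hom (((H9.bock k (H9.genChar hg hn)) ((x : H ⧸ N), (y : H ⧸ N)) • a.1 :
      (J.quotientToInvariants N).V) : J.V)
    = (((H9.bock k (H9.genChar hg hn)) ((x : H ⧸ N), (y : H ⧸ N)) • a'.1 :
      (C.quotientToInvariants N).V) : C.V)
  rw [Submodule.coe_smul, Submodule.coe_smul, map_smul, haa']


/-- **(X5''), abstract form.**  Let `N` be a normal level with cyclic quotient of order `n ≠ 1`,
`a ∈ (J^N)^{H/N}` with `p • a` a norm from `J^N` and `j a` not a norm from `C^N`.  If inflation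
from `N` is injective on the `p`-torsion of `H²(H/N, C^N)`, then `x₀ := inf [a ∪ δχ]` satisfies
`p • x₀ = 0` and `j_* x₀ ≠ 0` in level cohomology. -/
theorem exists_H2_of_cyclic_level (hg : ∀ x, x ∈ Subgroup.zpowers g) (hn : Nat.card (H ⧸ N) = n)
    (h1 : n ≠ 1) (p : ℕ)
    (a : (J.quotientToInvariants N).ρ.invariants)
    (hp : ∃ b : (J.quotientToInvariants N).V, (J.quotientToInvariants N).ρ.norm b = p • a.1)
    (hrec : ¬ ∃ c : (C.quotientToInvariants N).V,
      (C.quotientToInvariants N).ρ.norm c = (invHom j N).hom a.1)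
    (hinf : ∀ z : groupCohomology (C.quotientToInvariants N) 2, p • z = 0 →
      H95.infLev₂ 𝓛 C N hN z = 0 → z = 0) :
    ∃ x₀ : 𝓛.H2 J, p • x₀ = 0 ∧ H50.coeffH2 𝓛 j x₀ ≠ 0 := by
  refine ⟨H95.infLev₂ 𝓛 J N hN (cupClass hg hn a), ?_, ?_⟩
  · rw [← map_nsmul, nsmul_cupClass_eq_zero hg hn h1 p a hp, map_zero]
  · intro h0
    rw [coeffH2_infLev₂_cupClass 𝓛 j N hN hg hn a (invHomInv j N a) rfl] at h0
    have hz : p • cupClass hg hn (invHomInv j N a) = 0 := by
      apply nsmul_cupClass_eq_zero hg hn h1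
      obtain ⟨b, hb⟩ := hp
      refine ⟨(invHom j N).hom b, ?_⟩
      rw [← hom_norm, hb, map_nsmul]
      rfl
    have h2 := hinf _ hz h0
    rw [cupClass_eq_zero_iff hg hn h1] at h2
    exact hrec h2

end Level

section Card

variable {M M' : Type*} [AddCommGroup M] [AddCommGroup M']

/-- (X5'') together with `|M[p]| ≤ p` gives (X5'): a homomorphism which does not kill some
`p`-torsion element is injective on the `p`-torsion, when the `p`-torsion has at most `p`
elements. -/
theorem eq_zero_of_map_eq_zero_of_card_le {p : ℕ} (hp : p.Prime) (f : M →+ M')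
    (hcard : Nat.card {x : M // p • x = 0} ≤ p) (hfin : Finite {x : M // p • x = 0})
    {x₀ : M} (hx₀ : p • x₀ = 0) (hfx₀ : f x₀ ≠ 0) {x : M} (hx : p • x = 0) (hfx : f x = 0) :
    x = 0 := by
  classical
  -- the p-torsion subgroup
  let T : AddSubgroup M := (nsmulAddMonoidHom (α := M) p).ker
  have hT : ∀ y : M, y ∈ T ↔ p • y = 0 := fun y => Iff.rfl
  have hx₀0 : x₀ ≠ 0 := fun h => hfx₀ (by rw [h, map_zero])
  -- the order of x₀ is p
  have hord : addOrderOf x₀ = p := by
    have hdvd : addOrderOf x₀ ∣ p := addOrderOf_dvd_of_nsmul_eq_zero hx₀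
    rcases (Nat.dvd_prime hp).mp hdvd with h | h
    · exact absurd (AddMonoid.addOrderOf_eq_one_iff.mp h) hx₀0
    · exact h
  -- the multiples of x₀ exhaust the p-torsion
  have hfinT : Finite T := hfin
  have hcardT : Nat.card T ≤ p := hcard
  have hzm : Nat.card (AddSubgroup.zmultiples x₀) = p := by
    rw [Nat.card_zmultiples, hord]
  have hle : AddSubgroup.zmultiples x₀ ≤ T := by
    rw [AddSubgroup.zmultiples_le]
    exact hx₀
  have heq : AddSubgroup.zmultiples x₀ = T := by
    apply AddSubgroup.eq_of_le_of_card_ge hle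
    rw [hzm]
    exact hcardT
  have hxT : x ∈ AddSubgroup.zmultiples x₀ := by
    rw [heq]
    exact hx
  obtain ⟨m, rfl⟩ := AddSubgroup.mem_zmultiples_iff.mp hxT
  rw [map_zsmul] at hfx
  -- the order of f x₀ is p
  have hordf : addOrderOf (f x₀) = p := by
    have hdvd : addOrderOf (f x₀) ∣ p := by
      apply addOrderOf_dvd_of_nsmul_eq_zero
      rw [← map_nsmul, hx₀, map_zero]
    rcases (Nat.dvd_prime hp).mp hdvd with h | h
    · exact absurd (AddMonoid.addOrderOf_eq_one_iff.mp h) hfx₀
    · exact h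
  have h1 : (addOrderOf (f x₀) : ℤ) ∣ m := (addOrderOf_dvd_iff_zsmul_eq_zero).mpr hfx
  rw [hordf, ← hord] at h1
  exact (addOrderOf_dvd_iff_zsmul_eq_zero).mp h1

end Card

end Fermat.Agent.CFT.H37
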