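/-
CFT project, seam (S-1)/(X5''): FINAL statement `H55.X5Concrete p S` from the global `p`-class
formation (X1) alone (helper37).  Glue of helper87's hypothesis-free arithmetic statement
`H87.exists_layer_nonnorm` with the top-level transport `H37.exists_class_of_zpQbar_of_unit`.
-/
import Mathlib
import Fermat.Agent.CFT.H37_X5Top
import Fermat.Agent.CFT.H87_X5Arith
import Fermat.Agent.CFT.H55_PTFinal

set_option autoImplicit false

open scoped TensorProduct
open CategoryTheory

namespace Fermat.Agent.CFT.H37

open Fermat.Agent.CFT

set_option synthInstance.maxHeartbeats 400000 in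
set_option maxHeartbeats 1000000 in
/-- **(X5'') for the concrete modules**, from the global `p`-class formation (X1) alone:
helper87's arithmetic statement (`H87.exists_layer_nonnorm`) transported to the top level
(`exists_class_of_zpQbar_of_unit`). -/
theorem x5Concrete (p : ℕ) [Fact p.Prime] (S : Finset Nat.Primes) (hp2 : p ≠ 2)
    (hpS : ExtCitation.pPrime p ∈ S)
    (PF : PClassFormation p (H87.levelsS S) (H77.repCSTop S)) : H55.X5Concrete p S := by
  intro q
  obtain ⟨k, hk, a, ⟨v, hi⟩, hii⟩ := H87.exists_layer_nonnorm p hp2 hpS q.1 q.2
  refine exists_class_of_zpQbar_of_unit hp2 hpS PF k (by omega) q a v ?_ ?_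
  · exact hi
  · exact hii

end Fermat.Agent.CFT.H37
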