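/-
CFT layer C, package C-EXIST (helper3, deputy): the last glue of `H20.ExistFin p S`.

`HasBeta p S` is the exact output expected from the (I5) beta-instantiation (helper74 / helper24):
at every level `K ⊇ μ_p` (embedded in `ℚbar`, image unramified outside `S`) a biadditive pairing
`B : C_S(K) → Kˣ → ZMod p` with the norm criterion (B4) and right-nondegeneracy (B5) on the Kummer
classes `H10.XS S K p`.  `existFin_of_hasBeta : HasBeta p S → H20.ExistFin p S`.
-/
import Mathlib
import Fermat.Agent.CFT.H3_ExistFin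
import Fermat.Agent.CFT.H20_GlobalFinExist

set_option autoImplicit false

namespace Fermat.Agent.CFT.H3

open Fermat.Agent.CFT.H23 Fermat.Agent.CFT.H10 ExtCitation

local notation "Qbar" => AlgebraicClosure ℚ

/-- The properties (B1)-(B5) of the pairing of the (I5) beta-instantiation at the level `K`. -/
def IsBeta (S : Finset Nat.Primes) (K : Type) [Field K] [NumberField K] (p : ℕ)
    (B : CS S K → Kˣ → ZMod p) : Prop :=
  (∀ a a' x, B (a * a') x = B a x + B a' x) ∧
  (∀ a, ∀ x ∈ XS S K p, ∀ x' ∈ XS S K p, B a (x * x') = B a x + B a x') ∧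
  (∀ a c, B a (c ^ p) = 0) ∧
  (∀ a, ∀ x ∈ XS S K p, ∀ (M : Type) [Field M] [NumberField M] [Algebra K M] [IsGalois K M],
    Module.finrank K M = p → UnramOutside S K M →
      (∃ α : M, α ^ p = algebraMap K M (x : K)) →
        (∃ y : CS S M, CS.baseChange S K M a = ∏ τ : M ≃ₐ[K] M, τ • y) → B a x = 0) ∧
  (∀ x ∈ XS S K p, (∀ c : K, c ^ p ≠ (x : K)) → ∃ a : CS S K, B a x ≠ 0)

/-- The output of (I5): a pairing with (B1)-(B5) at every level containing `μ_p`. -/
def HasBeta (p : ℕ) (S : Finset Nat.Primes) : Prop :=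
  ∀ (K : Type) [Field K] [NumberField K] (ιK : K →ₐ[ℚ] Qbar),
    ιK.fieldRange.IsUnramifiedOutside S → ∀ ζ : K, IsPrimitiveRoot ζ p →
      ∃ B : CS S K → Kˣ → ZMod p, IsBeta S K p B

/-- **`H20.ExistFin p S` from the pairings of (I5).** -/
theorem existFin_of_hasBeta (p : ℕ) [Fact p.Prime] (hp2 : p ≠ 2) (S : Finset Nat.Primes)
    (hpS : pPrime p ∈ S) (h : HasBeta p S) : H20.ExistFin p S := by
  intro K _ _ ιK hK hζ a ha
  obtain ⟨ζ, hζ⟩ := hζ
  obtain ⟨B, hB1, hB2, hB3, hB4, hB5⟩ := h K ιK hK ζ hζ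
  exact existFin_of_beta S K p hp2 hpS hζ B hB1 hB2 hB3 hB4 hB5 a ha

end Fermat.Agent.CFT.H3
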