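import Fermat.Agent.CFT.H3_FundClass
import Fermat.Agent.CFT.H15_FundClassDef
import Fermat.Agent.CFT.H8_FundClassInfl

/-!
# CFT layer B, package B-FUNDCLASS: the canonical local fundamental class in the shared vocabulary

`Loc.IsFundClass q K L γ` (helper15's shared definition `H15_FundClassDef`) is definitionally
`H3.IsLocalFundClass q K L γ`.  This file restates (F0) existence/uniqueness, (F1) order,
generation, `IsClassModule`, (F2) inflation and (F4) the unramified case for
`H3.fundClass q K L` against `Loc.IsFundClass`.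
-/

set_option autoImplicit false
set_option linter.unusedSectionVars false

open CategoryTheory groupCohomology

namespace Fermat.Agent.CFT.H3

open Fermat.Agent.CFT Fermat.Agent.CFT.Loc

variable (q : ℕ) [Fact q.Prime]
variable (K : Type) [Field K] [Algebra ℚ_[q] K] [FiniteDimensional ℚ_[q] K]
variable (L : Type) [Field L] [Algebra ℚ_[q] L] [FiniteDimensional ℚ_[q] L]
  [Algebra K L] [IsScalarTower ℚ_[q] K L]

theorem isFundClass_iff [IsGalois K L] (γ : groupCohomology (Rep.ofAlgebraAutOnUnits K L) 2) :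
    Loc.IsFundClass q K L γ ↔ IsLocalFundClass q K L γ := Iff.rfl

/-- (F0) the canonical fundamental class exists and is unique. -/
theorem existsUnique_isFundClass [IsGalois K L] :
    ∃! γ : groupCohomology (Rep.ofAlgebraAutOnUnits K L) 2, Loc.IsFundClass q K L γ :=
  existsUnique_isLocalFundClass q K L

theorem isFundClass_fundClass [IsGalois K L] : Loc.IsFundClass q K L (fundClass q K L) :=
  isLocalFundClass_fundClass q K L

variable {q K L} in
theorem eq_fundClass_of_isFundClass [IsGalois K L]
    {γ : groupCohomology (Rep.ofAlgebraAutOnUnits K L) 2} (h : Loc.IsFundClass q K L γ) :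
    γ = fundClass q K L :=
  IsLocalFundClass.eq_fundClass h

variable {q K L} in
/-- It suffices to check ONE datum `(E₀, M₀, ϖ₀)`. -/
theorem isFundClass_of_infl_eq [IsGalois K L]
    (E₀ M₀ : Type) [Field E₀] [Field M₀] [Algebra ℚ_[q] E₀] [Algebra ℚ_[q] M₀]
    [FiniteDimensional ℚ_[q] E₀] [FiniteDimensional ℚ_[q] M₀]
    [Algebra K E₀] [IsScalarTower ℚ_[q] K E₀] [Algebra K M₀] [IsScalarTower ℚ_[q] K M₀]
    [Algebra E₀ M₀] [Algebra L M₀] [IsScalarTower K E₀ M₀] [IsScalarTower K L M₀]
    [IsGalois K E₀] [IsGalois K M₀]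
    (hE₀ : IsUnramified q K E₀) (hdeg₀ : Module.finrank K E₀ = Module.finrank K L)
    (ϖ₀ : Kˣ) (hϖ₀ : IsUniformizer q K (ϖ₀ : K))
    (γ : groupCohomology (Rep.ofAlgebraAutOnUnits K L) 2)
    (hγ : (infl K L M₀ 2).hom γ = (infl K E₀ M₀ 2).hom (unrClassRel q K E₀ ϖ₀)) :
    Loc.IsFundClass q K L γ :=
  isLocalFundClass_of_infl_eq q K L E₀ M₀ hE₀ hdeg₀ ϖ₀ hϖ₀ γ hγ

variable {q K L} in
/-- (F1) a fundamental class has order `[L:K]`, generates `H²`, and makes `Lˣ` a class module. -/
theorem isClassModule_of_isFundClass [IsGalois K L]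
    {γ : groupCohomology (Rep.ofAlgebraAutOnUnits K L) 2} (h : Loc.IsFundClass q K L γ) :
    IsClassModule (Rep.ofAlgebraAutOnUnits K L) γ :=
  IsLocalFundClass.isClassModule h

variable {q K L} in
theorem addOrderOf_of_isFundClass [IsGalois K L]
    {γ : groupCohomology (Rep.ofAlgebraAutOnUnits K L) 2} (h : Loc.IsFundClass q K L γ) :
    addOrderOf γ = Module.finrank K L :=
  (IsLocalFundClass.spec h).1

variable {q K L} in
theorem exists_zsmul_eq_of_isFundClass [IsGalois K L]
    {γ : groupCohomology (Rep.ofAlgebraAutOnUnits K L) 2} (h : Loc.IsFundClass q K L γ)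
    (x : groupCohomology (Rep.ofAlgebraAutOnUnits K L) 2) : ∃ n : ℤ, x = n • γ :=
  (IsLocalFundClass.spec h).2 x

/-- (F2) inflation of canonical fundamental classes (helper8's `H8.infl_isFundClass`). -/
theorem infl_fundClass (L' : Type) [Field L'] [Algebra ℚ_[q] L'] [FiniteDimensional ℚ_[q] L']
    [Algebra K L'] [IsScalarTower ℚ_[q] K L'] [Algebra L L'] [IsScalarTower K L L']
    [IsGalois K L] [IsGalois K L'] :
    (infl K L L' 2).hom (fundClass q K L) = Module.finrank L L' • fundClass q K L' :=
  H8.infl_isFundClass q K L L' _ (isFundClass_fundClass q K L) _ (isFundClass_fundClass q K L')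

end Fermat.Agent.CFT.H3
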