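/-
CFT layer C, package C-EXIST-I4 (helper3), part 1: the order of a local unit idele at a place.

For a number field `K : Type`, a rational prime `q` and a place `𝔪 : H54.Place K q` (a maximal
ideal of `K ⊗[ℚ] ℚ_[q]`):
* `exists_units_absAt_eq u` : every unit `u` of `K ⊗ ℚ_q` is approximated by some `x ∈ Kˣ` with
  `|x|_𝔪 = |u|_𝔪` at all places `𝔪 ∣ q` simultaneously;
* `ordLoc 𝔪 : (Loc K q)ˣ →* Multiplicative ℤ`, the order at `𝔪`, normalised as `H23.ordAt`
  (`ordLoc 𝔪 (toLocUnits x) = ordAt K (primeAt 𝔪) x`);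
* `ordLoc_eq_one_iff : ordLoc 𝔪 u = 1 ↔ locNorm 𝔪 u = 1`.
-/
import Mathlib
import Fermat.Agent.CFT.H23_CMaps
import Fermat.Agent.CFT.H54_PlacesGal

set_option autoImplicit false

namespace Fermat.Agent.CFT.H3

open scoped TensorProduct NumberField
open IsDedekindDomain Fermat.Agent.CFT.H54 Fermat.Agent.CFT.H23 Fermat.Agent.CFT.H10

noncomputable section

variable {K : Type} [Field K] [NumberField K] {q : Nat.Primes}

/-! ### Ultrametric bookkeeping for `locNorm` -/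

theorem locNorm_units_pos (𝔪 : Place K q) (u : (Loc K q)ˣ) : 0 < locNorm 𝔪 (u : Loc K q) := by
  have h : locNorm 𝔪 (u : Loc K q) * locNorm 𝔪 ((u⁻¹ : (Loc K q)ˣ) : Loc K q) = 1 := by
    rw [← locNorm_mul, Units.mul_inv, locNorm_one]
  rcases (locNorm_nonneg 𝔪 (u : Loc K q)).eq_or_lt with h0 | h0
  · rw [← h0, zero_mul] at h
    exact absurd h zero_ne_one
  · exact h0

theorem locNorm_eq_of_sub_lt (𝔪 : Place K q) {a b : Loc K q}
    (h : locNorm 𝔪 (a - b) < locNorm 𝔪 a) : locNorm 𝔪 b = locNorm 𝔪 a := by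
  apply le_antisymm
  · have h1 : locNorm 𝔪 (a - (a - b)) ≤ max (locNorm 𝔪 a) (locNorm 𝔪 (a - b)) :=
      locNorm_sub_le_max 𝔪 a (a - b)
    rw [sub_sub_cancel] at h1
    exact h1.trans (max_le le_rfl h.le)
  · have h1 : locNorm 𝔪 (b + (a - b)) ≤ max (locNorm 𝔪 b) (locNorm 𝔪 (a - b)) :=
      locNorm_add_le_max 𝔪 b (a - b)
    rw [add_sub_cancel] at h1
    rcases le_max_iff.1 h1 with h2 | h2
    · exact h2
    · exact absurd h2 (not_le.2 h)

/-- Simultaneous approximation of a local unit idele by a global element, with the same absolute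
value at every place above `q`. -/
theorem exists_units_absAt_eq (u : (Loc K q)ˣ) :
    ∃ x : Kˣ, ∀ 𝔪 : Place K q, absAt 𝔪 (x : K) = locNorm 𝔪 (u : Loc K q) := by
  classical
  haveI : Fintype (Place K q) := Fintype.ofFinite _
  rcases isEmpty_or_nonempty (Place K q) with hE | hN
  · exact ⟨1, fun 𝔪 => (hE.false 𝔪).elim⟩
  obtain ⟨𝔪₀, -, h𝔪₀⟩ := Finset.exists_min_image (Finset.univ : Finset (Place K q))
    (fun 𝔪 => locNorm 𝔪 (u : Loc K q)) Finset.univ_nonempty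
  obtain ⟨y, hy⟩ := exists_locNorm_sub_lt (Finset.univ : Finset (Place K q)) (u : Loc K q)
    (locNorm_units_pos 𝔪₀ u)
  have key : ∀ 𝔪 : Place K q, absAt 𝔪 y = locNorm 𝔪 (u : Loc K q) := by
    intro 𝔪
    rw [absAt_eq_locNorm]
    apply locNorm_eq_of_sub_lt
    exact (hy 𝔪 (Finset.mem_univ _)).trans_le (h𝔪₀ 𝔪 (Finset.mem_univ _))
  have hy0 : y ≠ 0 := by
    intro h0
    have := key 𝔪₀
    rw [h0, map_zero] at this
    exact absurd this (locNorm_units_pos 𝔪₀ u).ne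
  exact ⟨Units.mk0 y hy0, key⟩

/-- A chosen global approximation of a local unit idele. -/
def approx (u : (Loc K q)ˣ) : Kˣ := Classical.choose (exists_units_absAt_eq u)

theorem absAt_approx (u : (Loc K q)ˣ) (𝔪 : Place K q) :
    absAt 𝔪 ((approx u : Kˣ) : K) = locNorm 𝔪 (u : Loc K q) :=
  Classical.choose_spec (exists_units_absAt_eq u) 𝔪

/-! ### The order at a place -/

theorem ordAt_eq_of_absAt_eq (𝔪 : Place K q) {x y : Kˣ}
    (h : absAt 𝔪 (x : K) = absAt 𝔪 (y : K)) :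
    ordAt K (primeAt 𝔪) x = ordAt K (primeAt 𝔪) y := by
  have hy : absAt 𝔪 (y : K) ≠ 0 := (absAt 𝔪).ne_zero y.ne_zero
  have h1 : absAt 𝔪 (((x / y : Kˣ) : Kˣ) : K) = 1 := by
    rw [Units.val_div_eq_div_val, map_div₀, h, div_self hy]
  have h2 : ordHom K (primeAt 𝔪) (x / y) = 1 :=
    (ordHom_eq_one_iff K (primeAt 𝔪) (x / y)).2 ((absAt_eq_one_iff 𝔪).1 h1)
  rw [map_div, div_eq_one] at h2
  rw [ordAt_apply, ordAt_apply, h2]

/-- The order of a local unit idele at the place `𝔪` (normalised as `H23.ordAt`). -/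
def ordLoc (𝔪 : Place K q) : (Loc K q)ˣ →* Multiplicative ℤ where
  toFun u := ordAt K (primeAt 𝔪) (approx u)
  map_one' := by
    rw [← map_one (ordAt K (primeAt 𝔪))]
    apply ordAt_eq_of_absAt_eq
    rw [absAt_approx, Units.val_one, locNorm_one, Units.val_one, map_one]
  map_mul' u v := by
    rw [← map_mul (ordAt K (primeAt 𝔪))]
    apply ordAt_eq_of_absAt_eq
    rw [absAt_approx, Units.val_mul, locNorm_mul, Units.val_mul, map_mul, absAt_approx,
      absAt_approx]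

theorem ordLoc_eq (𝔪 : Place K q) (u : (Loc K q)ˣ) (x : Kˣ)
    (h : absAt 𝔪 (x : K) = locNorm 𝔪 (u : Loc K q)) :
    ordLoc 𝔪 u = ordAt K (primeAt 𝔪) x := by
  show ordAt K (primeAt 𝔪) (approx u) = _
  apply ordAt_eq_of_absAt_eq
  rw [absAt_approx, h]

theorem coe_toLocUnits (x : Kˣ) :
    ((toLocUnits K q x : (Loc K q)ˣ) : Loc K q) = (x : K) ⊗ₜ[ℚ] (1 : ℚ_[q]) := rfl

/-- `ordLoc` extends `ordAt` on global elements. -/
theorem ordLoc_toLocUnits (𝔪 : Place K q) (x : Kˣ) :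
    ordLoc 𝔪 (toLocUnits K q x) = ordAt K (primeAt 𝔪) x :=
  ordLoc_eq 𝔪 _ x (by rw [coe_toLocUnits, absAt_eq_locNorm])

theorem ordLoc_eq_one_iff (𝔪 : Place K q) (u : (Loc K q)ˣ) :
    ordLoc 𝔪 u = 1 ↔ locNorm 𝔪 (u : Loc K q) = 1 := by
  show ordAt K (primeAt 𝔪) (approx u) = 1 ↔ _
  rw [ordAt_apply, inv_eq_one, ordHom_eq_one_iff, ← absAt_eq_one_iff, absAt_approx]

/-- Two unit ideles with the same norm at `𝔪` have the same order. -/
theorem ordLoc_eq_of_locNorm_eq (𝔪 : Place K q) {u v : (Loc K q)ˣ}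
    (h : locNorm 𝔪 (u : Loc K q) = locNorm 𝔪 (v : Loc K q)) : ordLoc 𝔪 u = ordLoc 𝔪 v :=
  ordLoc_eq 𝔪 u (approx v) (by rw [absAt_approx, h])

end

end Fermat.Agent.CFT.H3
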