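/-
CFT layer C, package C-EXIST-I4 (helper3), part 2: the LEVEL DROP `CS T K →* CS S K` for `S ⊆ T`.

The idele component at `q ∈ T \ S` is replaced by its divisor `Σ_𝔪 ord_𝔪 · primeAt 𝔪`.
* `inclOut`, `primeOut`, `exists_eq_inclOut_or_primeOut` : the primes outside `S` are the primes
  outside `T` together with the primes `primeAt 𝔪`, `𝔪` a place above some `q ∈ T \ S`;
* `dropId hST : IdS T K →* IdS S K`, `dropId_diag`, `levelDrop hST : CS T K →* CS S K`;
* evaluation lemmas `dropId_snd_inclOut`, `dropId_snd_primeOut`, `dropId_fst`;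
* `levelDrop_eq_one_iff` : the kernel is the image of the unit ideles at `T \ S`.
-/
import Mathlib
import Fermat.Agent.CFT.H3_OrdLoc

set_option autoImplicit false

namespace Fermat.Agent.CFT.H3

open scoped TensorProduct NumberField
open IsDedekindDomain Fermat.Agent.CFT.H54 Fermat.Agent.CFT.H23 Fermat.Agent.CFT.H10

noncomputable section

variable (K : Type) [Field K] [NumberField K]

/-- A prime of `𝓞 K` contains at most one rational prime. -/
theorem natPrimes_eq_of_mem {q q' : Nat.Primes} (P : HeightOneSpectrum (𝓞 K))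
    (h : ((q : ℕ) : 𝓞 K) ∈ P.asIdeal) (h' : ((q' : ℕ) : 𝓞 K) ∈ P.asIdeal) : q = q' := by
  by_contra hne
  have hcop : Nat.Coprime (q : ℕ) (q' : ℕ) :=
    (Nat.coprime_primes q.2 q'.2).2 fun h => hne (Subtype.ext h)
  obtain ⟨a, b, hab⟩ := Nat.isCoprime_iff_coprime.2 hcop
  have h1 : (1 : 𝓞 K) ∈ P.asIdeal := by
    have h2 : ((a : ℤ) : 𝓞 K) * ((q : ℕ) : 𝓞 K) + ((b : ℤ) : 𝓞 K) * ((q' : ℕ) : 𝓞 K) = 1 := by
      have := congrArg (Int.cast : ℤ → 𝓞 K) hab
      push_cast at this
      exact this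
    rw [← h2]
    exact P.asIdeal.add_mem (P.asIdeal.mul_mem_left _ h) (P.asIdeal.mul_mem_left _ h')
  exact P.isPrime.ne_top ((Ideal.eq_top_iff_one _).2 h1)

variable {S T : Finset Nat.Primes}

/-! ### The primes outside `S` versus the primes outside `T` -/

/-- A prime outside `T` is a prime outside `S ⊆ T`. -/
def inclOut (hST : S ⊆ T) (v : PrimesOutside T K) : PrimesOutside S K :=
  ⟨v.1, fun q hq => v.2 q (hST hq)⟩

@[simp] theorem inclOut_val (hST : S ⊆ T) (v : PrimesOutside T K) : (inclOut K hST v).1 = v.1 := rfl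

theorem inclOut_injective (hST : S ⊆ T) : Function.Injective (inclOut K hST) := by
  intro v w h
  have h1 : (inclOut K hST v).1 = (inclOut K hST w).1 := congrArg Subtype.val h
  exact Subtype.ext h1

variable {K}

variable (S) in
/-- The prime of a place above `q ∉ S`, as a prime outside `S`. -/
def primeOut {q : Nat.Primes} (hq : q ∉ S) (𝔪 : Place K q) : PrimesOutside S K :=
  ⟨primeAt 𝔪, fun q' hq' h => hq (by
    rw [natPrimes_eq_of_mem K (primeAt 𝔪) (natCast_mem_primeAt 𝔪) h]; exact hq')⟩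

@[simp] theorem primeOut_val {q : Nat.Primes} (hq : q ∉ S) (𝔪 : Place K q) :
    (primeOut S hq 𝔪).1 = primeAt 𝔪 := rfl

theorem primeOut_injective {q : Nat.Primes} (hq : q ∉ S) :
    Function.Injective (primeOut (K := K) S hq) := by
  intro 𝔪 𝔪' h
  exact primeAt_injective (congrArg Subtype.val h)

theorem primeOut_ne_inclOut (hST : S ⊆ T) {q : Nat.Primes} (hqT : q ∈ T) (hq : q ∉ S)
    (𝔪 : Place K q) (v : PrimesOutside T K) : primeOut S hq 𝔪 ≠ inclOut K hST v := by
  intro h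
  have h1 : primeAt 𝔪 = v.1 := congrArg Subtype.val h
  exact v.2 q hqT (h1 ▸ natCast_mem_primeAt 𝔪)

theorem eq_of_primeOut_eq {q q' : Nat.Primes} (hq : q ∉ S) (hq' : q' ∉ S) (𝔪 : Place K q)
    (𝔪' : Place K q') (h : primeOut S hq 𝔪 = primeOut S hq' 𝔪') : q = q' := by
  have h1 : primeAt 𝔪 = primeAt 𝔪' := congrArg Subtype.val h
  exact natPrimes_eq_of_mem K (primeAt 𝔪) (natCast_mem_primeAt 𝔪) (h1 ▸ natCast_mem_primeAt 𝔪')

/-- Every prime outside `S` is a prime outside `T` or the prime of a place above `T \ S`. -/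
theorem exists_eq_inclOut_or_primeOut (hST : S ⊆ T) (v : PrimesOutside S K) :
    (∃ v' : PrimesOutside T K, v = inclOut K hST v') ∨
      ∃ (q : Nat.Primes) (_ : q ∈ T) (hq : q ∉ S) (𝔪 : Place K q), v = primeOut S hq 𝔪 := by
  by_cases h : ∀ q ∈ T, ((q : ℕ) : 𝓞 K) ∉ v.1.asIdeal
  · exact Or.inl ⟨⟨v.1, h⟩, rfl⟩
  · simp only [not_forall, not_not] at h
    obtain ⟨q, hqT, hqv⟩ := h
    have hq : q ∉ S := fun hqS => v.2 q hqS hqv
    obtain ⟨𝔪, h𝔪⟩ := exists_primeAt_eq v.1 hqv
    exact Or.inr ⟨q, hqT, hq, 𝔪, Subtype.ext h𝔪.symm⟩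

/-! ### The divisor of a local unit idele -/

/-- A `Fintype` structure on the places above `q` (local instance). -/
abbrev placeFintype (K : Type) [Field K] [NumberField K] (q : Nat.Primes) : Fintype (Place K q) :=
  Fintype.ofFinite _

attribute [local instance] placeFintype

variable (S) in
/-- The divisor `Σ_𝔪 ord_𝔪(u) · primeAt 𝔪` of a local unit idele above `q ∉ S`. -/
def ordDiv {q : Nat.Primes} (hq : q ∉ S) (u : (Loc K q)ˣ) : DivS S K :=
  ∑ 𝔪 : Place K q, Finsupp.single (primeOut S hq 𝔪) (Multiplicative.toAdd (ordLoc 𝔪 u))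

theorem ordDiv_one {q : Nat.Primes} (hq : q ∉ S) : ordDiv (K := K) S hq 1 = 0 := by
  simp [ordDiv]

theorem ordDiv_mul {q : Nat.Primes} (hq : q ∉ S) (u v : (Loc K q)ˣ) :
    ordDiv S hq (u * v) = ordDiv S hq u + ordDiv S hq v := by
  simp only [ordDiv, map_mul, toAdd_mul, Finsupp.single_add, Finset.sum_add_distrib]

theorem ordDiv_primeOut {q : Nat.Primes} (hq : q ∉ S) (u : (Loc K q)ˣ) (𝔪 : Place K q) :
    ordDiv S hq u (primeOut S hq 𝔪) = Multiplicative.toAdd (ordLoc 𝔪 u) := by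
  classical
  rw [ordDiv, Finsupp.finsetSum_apply, Finset.sum_eq_single 𝔪]
  · rw [Finsupp.single_eq_same]
  · intro 𝔪' _ hne
    rw [Finsupp.single_apply, if_neg]
    exact fun h => hne (primeOut_injective hq h)
  · intro h
    exact absurd (Finset.mem_univ _) h

theorem ordDiv_apply_of_ne {q : Nat.Primes} (hq : q ∉ S) (u : (Loc K q)ˣ) (v : PrimesOutside S K)
    (hv : ∀ 𝔪 : Place K q, primeOut S hq 𝔪 ≠ v) : ordDiv S hq u v = 0 := by
  classical
  rw [ordDiv, Finsupp.finsetSum_apply]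
  refine Finset.sum_eq_zero fun 𝔪 _ => ?_
  rw [Finsupp.single_apply, if_neg (hv 𝔪)]

/-! ### The level drop on hybrid ideles -/

open scoped Classical in
/-- The divisor part of the level drop. -/
def dropDiv (hST : S ⊆ T) (x : IdS T K) : DivS S K :=
  Finsupp.mapDomain (inclOut K hST) (Multiplicative.toAdd x.2) +
    ∑ q : {q : T // q.1 ∉ S}, ordDiv S q.2 (x.1 q.1)

theorem dropDiv_one (hST : S ⊆ T) : dropDiv hST (1 : IdS T K) = 0 := by
  simp [dropDiv, ordDiv_one]

theorem dropDiv_mul (hST : S ⊆ T) (x y : IdS T K) :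
    dropDiv hST (x * y) = dropDiv hST x + dropDiv hST y := by
  simp only [dropDiv, Prod.snd_mul, Prod.fst_mul, toAdd_mul, Finsupp.mapDomain_add, Pi.mul_apply,
    ordDiv_mul, Finset.sum_add_distrib]
  abel

theorem dropDiv_inclOut (hST : S ⊆ T) (x : IdS T K) (v : PrimesOutside T K) :
    dropDiv hST x (inclOut K hST v) = Multiplicative.toAdd x.2 v := by
  classical
  rw [dropDiv, Finsupp.add_apply, Finsupp.mapDomain_apply (inclOut_injective K hST),
    Finsupp.finsetSum_apply, Finset.sum_eq_zero, add_zero]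
  intro q _
  exact ordDiv_apply_of_ne q.2 _ _ (fun 𝔪 => primeOut_ne_inclOut hST q.1.2 q.2 𝔪 v)

theorem dropDiv_primeOut (hST : S ⊆ T) (x : IdS T K) {q : Nat.Primes} (hqT : q ∈ T) (hq : q ∉ S)
    (𝔪 : Place K q) :
    dropDiv hST x (primeOut S hq 𝔪) = Multiplicative.toAdd (ordLoc 𝔪 (x.1 ⟨q, hqT⟩)) := by
  classical
  rw [dropDiv, Finsupp.add_apply, Finsupp.mapDomain_of_notMem_range, zero_add,
    Finsupp.finsetSum_apply, Finset.sum_eq_single (⟨⟨q, hqT⟩, hq⟩ : {q : T // q.1 ∉ S})]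
  · exact ordDiv_primeOut hq _ 𝔪
  · intro q' _ hne
    refine ordDiv_apply_of_ne q'.2 _ _ (fun 𝔪' h => hne ?_)
    have := eq_of_primeOut_eq q'.2 hq 𝔪' 𝔪 h
    exact Subtype.ext (Subtype.ext this)
  · intro h
    exact absurd (Finset.mem_univ _) h
  · rintro ⟨v, hv⟩
    exact primeOut_ne_inclOut hST hqT hq 𝔪 v hv.symm

/-- The level drop on hybrid ideles: forget the components at `T \ S`, keeping their divisor. -/
def dropId (hST : S ⊆ T) : IdS T K →* IdS S K where
  toFun x := (fun q : S => x.1 ⟨q.1, hST q.2⟩, Multiplicative.ofAdd (dropDiv hST x))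
  map_one' := by
    refine Prod.ext rfl ?_
    show Multiplicative.ofAdd (dropDiv hST (1 : IdS T K)) = 1
    rw [dropDiv_one]; rfl
  map_mul' x y := by
    refine Prod.ext rfl ?_
    show Multiplicative.ofAdd (dropDiv hST (x * y)) =
      Multiplicative.ofAdd (dropDiv hST x) * Multiplicative.ofAdd (dropDiv hST y)
    rw [dropDiv_mul]; rfl

theorem dropId_fst (hST : S ⊆ T) (x : IdS T K) (q : S) :
    (dropId hST x).1 q = x.1 ⟨q.1, hST q.2⟩ := rfl

theorem dropId_snd_inclOut (hST : S ⊆ T) (x : IdS T K) (v : PrimesOutside T K) :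
    Multiplicative.toAdd (dropId hST x).2 (inclOut K hST v) = Multiplicative.toAdd x.2 v :=
  dropDiv_inclOut hST x v

theorem dropId_snd_primeOut (hST : S ⊆ T) (x : IdS T K) {q : Nat.Primes} (hqT : q ∈ T)
    (hq : q ∉ S) (𝔪 : Place K q) :
    Multiplicative.toAdd (dropId hST x).2 (primeOut S hq 𝔪) =
      Multiplicative.toAdd (ordLoc 𝔪 (x.1 ⟨q, hqT⟩)) :=
  dropDiv_primeOut hST x hqT hq 𝔪

/-- Extensionality for divisors outside `S` along the decomposition of `PrimesOutside S K`. -/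
theorem divS_ext (hST : S ⊆ T) {D D' : DivS S K}
    (h1 : ∀ v : PrimesOutside T K, D (inclOut K hST v) = D' (inclOut K hST v))
    (h2 : ∀ (q : Nat.Primes) (_ : q ∈ T) (hq : q ∉ S) (𝔪 : Place K q),
      D (primeOut S hq 𝔪) = D' (primeOut S hq 𝔪)) : D = D' := by
  ext v
  rcases exists_eq_inclOut_or_primeOut hST v with ⟨v', rfl⟩ | ⟨q, hqT, hq, 𝔪, rfl⟩
  · exact h1 v'
  · exact h2 q hqT hq 𝔪

/-- The level drop is compatible with the diagonal embeddings. -/
theorem dropId_diag (hST : S ⊆ T) (x : Kˣ) : dropId hST (diag T K x) = diag S K x := by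
  refine Prod.ext rfl ?_
  apply congrArg Multiplicative.ofAdd
  show dropDiv hST (diag T K x) = Multiplicative.toAdd (divS S K x)
  apply divS_ext hST
  · intro v
    rw [dropDiv_inclOut, divS_apply, inclOut_val]
    rfl
  · intro q hqT hq 𝔪
    rw [dropDiv_primeOut hST _ hqT hq 𝔪, divS_apply, primeOut_val]
    show Multiplicative.toAdd (ordLoc 𝔪 (toLocUnits K q x)) = _
    rw [ordLoc_toLocUnits]

/-- **The level drop** `CS T K →* CS S K` for `S ⊆ T`. -/
def levelDrop (hST : S ⊆ T) : CS T K →* CS S K :=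
  QuotientGroup.map _ _ (dropId hST) <| by
    rintro _ ⟨x, rfl⟩
    exact ⟨x, (dropId_diag hST x).symm⟩

theorem levelDrop_toCS (hST : S ⊆ T) (x : IdS T K) :
    levelDrop hST (toCS T K x) = toCS S K (dropId hST x) := rfl

end

end Fermat.Agent.CFT.H3
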