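import Fermat.Agent.CFT.H78_UnrField

/-!
# (DIV) for the local level structure `H78.localLevels q`

Seam (S-5) of the CFT project: every open subgroup `U` of `Gal(PadicAlgCl q / ℚ_q)` contains a
normal level `N'` with `m ∣ [U : N']`, for every `m ≥ 1` (in particular `m = p ^ n`).  Proof: the
unramified level of index `[Γ : N] * m` (helper78's `H78.unrLevel`), intersected with a level
`N ≤ U`.
-/

set_option autoImplicit false

namespace Fermat.Agent.CFT.H3

open Fermat.Agent.CFT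

/-- Pure group theory: if `W` is normal of index `[Γ:N] * m` then `m` divides `[N : N ⊓ W]`. -/
theorem dvd_relIndex_inf_of_index_eq {Γ : Type*} [Group Γ] (N W : Subgroup Γ) [W.Normal]
    (hN : N.index ≠ 0) (m : ℕ) (hW : W.index = N.index * m) :
    m ∣ (N ⊓ W).relIndex N := by
  have h1 : (N ⊓ W).relIndex N = W.relIndex N := Subgroup.inf_relIndex_left N W
  have h2 : W.relIndex (N ⊔ W) = W.relIndex N := Subgroup.relIndex_sup_right N W
  have h3 : W.relIndex (N ⊔ W) * (N ⊔ W).index = W.index :=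
    Subgroup.relIndex_mul_index le_sup_right
  have h4 : (N ⊔ W).index ∣ N.index := Subgroup.index_dvd_of_le le_sup_left
  obtain ⟨c, hc⟩ := h4
  have ha : (N ⊔ W).index ≠ 0 := fun h => hN (by rw [hc, h, zero_mul])
  rw [h1, ← h2]
  refine ⟨c, ?_⟩
  have : W.relIndex (N ⊔ W) * (N ⊔ W).index = (c * m) * (N ⊔ W).index := by
    rw [h3, hW, hc]; ring
  have := Nat.eq_of_mul_eq_mul_right (Nat.pos_of_ne_zero ha) this
  rw [this, mul_comm]

/-- Abstract (DIV): a level structure all of whose levels are normal and which contains, for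
every `n ≥ 1`, a normal level of index exactly `n`, satisfies (DIV) for every modulus `m ≥ 1`. -/
theorem exists_normal_level_le_dvd_relIndex_of_index {Γ : Type} [Group Γ] (𝓛 : LevelStructure Γ)
    (E : ℕ+ → Subgroup Γ) (hEn : ∀ n, (E n).Normal) (hEmem : ∀ n, E n ∈ 𝓛.levels)
    (hEidx : ∀ n : ℕ+, (E n).index = n)
    (U : Subgroup Γ) (hU : 𝓛.IsOpen U) (m : ℕ) (hm : 0 < m) :
    ∃ N' ∈ 𝓛.levels, N'.Normal ∧ N' ≤ U ∧ m ∣ N'.relIndex U := by
  obtain ⟨N, hN, hNU⟩ := hU
  have := 𝓛.finiteIndex N hN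
  have hN0 : N.index ≠ 0 := Subgroup.FiniteIndex.index_ne_zero
  let k : ℕ+ := ⟨N.index * m, Nat.mul_pos (Nat.pos_of_ne_zero hN0) hm⟩
  have := hEn k
  have hidx : (E k).index = N.index * m := by rw [hEidx k]; rfl
  have hdvd : m ∣ (N ⊓ E k).relIndex N := dvd_relIndex_inf_of_index_eq N (E k) hN0 m hidx
  obtain ⟨N₁, hN₁, hN₁le⟩ := 𝓛.directed N hN (E k) (hEmem k)
  obtain ⟨N₂, hN₂, hN₂le, hnor⟩ := 𝓛.exists_normal N₁ hN₁
  refine ⟨N₂, hN₂, hnor, (hN₂le.trans hN₁le).trans (inf_le_left.trans hNU), ?_⟩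
  have hle : N₂ ≤ N ⊓ E k := hN₂le.trans hN₁le
  have e1 : N₂.relIndex (N ⊓ E k) * (N ⊓ E k).relIndex N = N₂.relIndex N :=
    Subgroup.relIndex_mul_relIndex N₂ (N ⊓ E k) N hle inf_le_left
  have e2 : N₂.relIndex N * N.relIndex U = N₂.relIndex U :=
    Subgroup.relIndex_mul_relIndex N₂ N U (hle.trans inf_le_left) hNU
  rw [← e2, ← e1]
  exact Dvd.dvd.mul_right (Dvd.dvd.mul_left hdvd _) _

variable (q : ℕ) [Fact q.Prime]

/-- **(DIV), local.** Every open subgroup `U` of the local Galois group (for helper78's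
`H78.localLevels q`) contains a normal level `N'` with `m ∣ [U : N']`. -/
theorem exists_normal_localLevel_le_dvd_relIndex (U : Subgroup (H78.LocalGal q))
    (hU : (H78.localLevels q).IsOpen U) (m : ℕ) (hm : 0 < m) :
    ∃ N' ∈ (H78.localLevels q).levels, N'.Normal ∧ N' ≤ U ∧ m ∣ N'.relIndex U :=
  exists_normal_level_le_dvd_relIndex_of_index (H78.localLevels q) (H78.unrLevel q)
    (fun n => H78.normal_unrLevel q n) (H78.unrLevel_mem q) (H78.index_unrLevel q) U hU m hm

/-- **(DIV), local, prime-power form** (the shape of `H69.exists_normal_level_le_pow_dvd_relIndex`).-/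
theorem exists_normal_localLevel_le_pow_dvd_relIndex (p : ℕ) [Fact p.Prime]
    (U : Subgroup (H78.LocalGal q)) (hU : (H78.localLevels q).IsOpen U) (n : ℕ) :
    ∃ N' ∈ (H78.localLevels q).levels, N'.Normal ∧ N' ≤ U ∧ p ^ n ∣ N'.relIndex U :=
  exists_normal_localLevel_le_dvd_relIndex q U hU (p ^ n)
    (pow_pos (Fact.out : p.Prime).pos n)

/-- level form -/
theorem exists_localLevel_le_pow_dvd_relIndex (p : ℕ) [Fact p.Prime]
    (N : Subgroup (H78.LocalGal q)) (hN : N ∈ (H78.localLevels q).levels) (n : ℕ) :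
    ∃ N' ∈ (H78.localLevels q).levels, N'.Normal ∧ N' ≤ N ∧ p ^ n ∣ N'.relIndex N :=
  exists_normal_localLevel_le_pow_dvd_relIndex q p N ⟨N, hN, le_rfl⟩ n

end Fermat.Agent.CFT.H3
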