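import Fermat.Agent.CFT.H76_UglyFinal
import Fermat.Agent.CFT.H92_RamLoc
import Fermat.Agent.CFT.H19_UnrRel
import Fermat.Agent.CFT.H26_FundRel
import Fermat.Agent.CFT.H8_PrimeDegreeH2Card

/-!
# CFT layer B: the UGLY lemma over a general base, hypothesis-free, and its consequences

* `H3.rest_infl_unrClassRel_eq_zero` = Skeleton4 `rest_infl_unrClassRel_eq_zero` verbatim:
  for `K ⊆ K'` finite over `ℚ_q`, `E/K` unramified of degree `[K':K]`, `M/K` finite Galois
  containing `E` and `K'`, and `ϖ` a uniformizer of `K`, the Frobenius-uniformizer class of `E/K`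
  dies in `H²(Gal(M/K'), Mˣ)`.
  (wrapper of helper76's `H76.rest_infl_unrClassRel_eq_zero'` and helper92's relative
  ramification data `H92.exists_ramification_data_rel`.)
* `H3.existsUnique_fundRel`, `H3.fundRel_spec`, `H3.isClassModule_fundRel` = Skeleton4 §FundRel,
  hypothesis-free (helper26's `H26_FundRel` with B-HERBRAND `H8.primeDegreeH2Card`,
  `H19.addOrderOf_unrClassRel` and the ugly lemma plugged in).
-/

set_option autoImplicit false
set_option linter.unusedSectionVars false

open CategoryTheory groupCohomology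

namespace Fermat.Agent.CFT.H3

open Fermat.Agent.CFT Fermat.Agent.CFT.Loc

variable (q : ℕ) [Fact q.Prime]
variable (K : Type) [Field K] [Algebra ℚ_[q] K] [FiniteDimensional ℚ_[q] K]

/-- the tower `ℚ_q ⊆ E ⊆ M` is a scalar tower as soon as `ℚ_q ⊆ K ⊆ E`, `K ⊆ E ⊆ M` and
`ℚ_q ⊆ K ⊆ M` are. -/
theorem isScalarTower_base (E M : Type) [Field E] [Field M] [Algebra ℚ_[q] E] [Algebra ℚ_[q] M]
    [Algebra K E] [IsScalarTower ℚ_[q] K E] [Algebra K M] [IsScalarTower ℚ_[q] K M]
    [Algebra E M] [IsScalarTower K E M] : IsScalarTower ℚ_[q] E M :=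
  IsScalarTower.of_algebraMap_eq fun x => by
    rw [IsScalarTower.algebraMap_apply ℚ_[q] K E, ← IsScalarTower.algebraMap_apply K E M,
      ← IsScalarTower.algebraMap_apply ℚ_[q] K M]

section UglyRel

variable (K' : Type) [Field K'] [Algebra ℚ_[q] K'] [FiniteDimensional ℚ_[q] K']
  [Algebra K K'] [IsScalarTower ℚ_[q] K K']
variable (E : Type) [Field E] [Algebra ℚ_[q] E] [FiniteDimensional ℚ_[q] E]
  [Algebra K E] [IsScalarTower ℚ_[q] K E]
variable (M : Type) [Field M] [Algebra ℚ_[q] M] [FiniteDimensional ℚ_[q] M]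
  [Algebra K M] [IsScalarTower ℚ_[q] K M] [Algebra K' M] [IsScalarTower K K' M]
  [IsScalarTower ℚ_[q] K' M] [Algebra E M] [IsScalarTower K E M]

/-- **UGLY lemma over a general base** (Skeleton4 `rest_infl_unrClassRel_eq_zero`):
the unramified class of degree `[K':K]` dies over `K'`.  `K'/K` need not be Galois; `M` is any
finite Galois extension of `K` containing `E` and `K'`. -/
theorem rest_infl_unrClassRel_eq_zero [IsGalois K E] [IsGalois K M]
    (hE : IsUnramified q K E) (hdeg : Module.finrank K E = Module.finrank K K')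
    (ϖ : Kˣ) (hϖ : IsUniformizer q K (ϖ : K)) :
    (rest K K' M 2).hom ((infl K E M 2).hom (unrClassRel q K E ϖ)) = 0 := by
  haveI : IsScalarTower ℚ_[q] E M := isScalarTower_base q K E M
  obtain ⟨e, f, hef, hres, hram⟩ := H92.exists_ramification_data_rel q K K'
  obtain ⟨ϖ', hϖ'⟩ := H92.exists_isUniformizer q K'
  exact H76.rest_infl_unrClassRel_eq_zero' q K E K' M hE ϖ e f (hef.trans hdeg.symm) hres
    ⟨ϖ', hram (ϖ : K) (ϖ' : K') hϖ hϖ'⟩

end UglyRel

section FundRel

variable (E L M : Type) [Field E] [Field L] [Field M]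
  [Algebra ℚ_[q] E] [Algebra ℚ_[q] L] [Algebra ℚ_[q] M]
  [FiniteDimensional ℚ_[q] E] [FiniteDimensional ℚ_[q] L] [FiniteDimensional ℚ_[q] M]
  [Algebra K E] [IsScalarTower ℚ_[q] K E] [Algebra K L] [IsScalarTower ℚ_[q] K L]
  [Algebra K M] [IsScalarTower ℚ_[q] K M]
  [Algebra E M] [Algebra L M] [IsScalarTower K E M] [IsScalarTower K L M]

/-- Skeleton4 `existsUnique_fundRel`, hypothesis-free: the relative fundamental class of `L/K`,
characterised through `(E, M, ϖ)`. -/
theorem existsUnique_fundRel [IsGalois K E] [IsGalois K L] [IsGalois K M]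
    (hE : IsUnramified q K E) (hdeg : Module.finrank K E = Module.finrank K L)
    (ϖ : Kˣ) (hϖ : IsUniformizer q K (ϖ : K)) :
    ∃! γ : groupCohomology (Rep.ofAlgebraAutOnUnits K L) 2,
      (infl K L M 2).hom γ = (infl K E M 2).hom (unrClassRel q K E ϖ) := by
  haveI : IsScalarTower ℚ_[q] L M := isScalarTower_base q K L M
  exact H26.existsUnique_fundRel_of q K E L M ϖ
    (rest_infl_unrClassRel_eq_zero q K L E M hE hdeg ϖ hϖ)

/-- Skeleton4 `fundRel_spec`, hypothesis-free: the relative fundamental class has order `[L:K]`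
and generates `H²(Gal(L/K), Lˣ)`. -/
theorem fundRel_spec [IsGalois K E] [IsGalois K L] [IsGalois K M]
    (hE : IsUnramified q K E) (hdeg : Module.finrank K E = Module.finrank K L)
    (ϖ : Kˣ) (hϖ : IsUniformizer q K (ϖ : K))
    (γ : groupCohomology (Rep.ofAlgebraAutOnUnits K L) 2)
    (hγ : (infl K L M 2).hom γ = (infl K E M 2).hom (unrClassRel q K E ϖ)) :
    addOrderOf γ = Module.finrank K L ∧
      ∀ x : groupCohomology (Rep.ofAlgebraAutOnUnits K L) 2, ∃ n : ℤ, x = n • γ :=
  H26.fundRel_spec_of q K E L M (H8.primeDegreeH2Card q) hdeg ϖ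
    (H19.addOrderOf_unrClassRel q K E hE ϖ hϖ) γ hγ

/-- The relative fundamental class makes `Lˣ` a class module for `Gal(L/K)`, hypothesis-free. -/
theorem isClassModule_fundRel [IsGalois K E] [IsGalois K L] [IsGalois K M]
    (hE : IsUnramified q K E) (hdeg : Module.finrank K E = Module.finrank K L)
    (ϖ : Kˣ) (hϖ : IsUniformizer q K (ϖ : K))
    (γ : groupCohomology (Rep.ofAlgebraAutOnUnits K L) 2)
    (hγ : (infl K L M 2).hom γ = (infl K E M 2).hom (unrClassRel q K E ϖ)) :
    IsClassModule (Rep.ofAlgebraAutOnUnits K L) γ :=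
  H26.isClassModule_fundRel_of q K E L M (H8.primeDegreeH2Card q) hdeg ϖ
    (H19.addOrderOf_unrClassRel q K E hE ϖ hϖ) γ hγ

end FundRel

end Fermat.Agent.CFT.H3
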