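import Mathlib
import Fermat.Agent.CFT.H6_HerbrandRep

/-!
# CFT / C-H1H2 (helper40): cyclic layers — from FIRST + SECOND to `H¹ = 0`, `#H² ∣ p`

For a finite cyclic group `G` with generator `g` and `A : Rep k G`, in helper6's vocabulary
(`h0Card = |A^G / N A|`, `hm1Card = |ker N / (g-1) A|`, Herbrand quotient `h0Card / hm1Card`):

* FIRST inequality:  `h0Card = p * hm1Card` (i.e. Herbrand quotient `= p`), `hm1Card ≠ 0`;
* SECOND inequality: `h0Card ≤ p`;

imply `H¹(G, A) = 0` and `#H²(G, A) = p`.  This is exactly the per-layer input of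
`H40.PrimeLayers` / `H40.LevelPrimeLayers`.  No commutativity instance on `G` is required.
-/

set_option autoImplicit false

noncomputable section

open CategoryTheory

namespace Fermat.Agent.CFT.H40

universe u

variable {k G : Type u} [CommRing k] [Group G] [Fintype G] (A : Rep k G) (g : G)

/-- `#H²(G, A) = |A^G / N A|` for a finite cyclic group (no `CommGroup` instance needed). -/
theorem card_H2_eq_h0Card (hg : ∀ x, x ∈ Subgroup.zpowers g) :
    Nat.card (groupCohomology A 2) = H6.h0Card A.ρ g := by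
  let _ : CommGroup G :=
    { ‹Group G› with
      mul_comm := fun a b => by
        obtain ⟨m, rfl⟩ := Subgroup.mem_zpowers_iff.1 (hg a)
        obtain ⟨n, rfl⟩ := Subgroup.mem_zpowers_iff.1 (hg b)
        exact zpow_mul_comm g m n }
  exact H6.card_groupCohomology_even A g hg 2 (by decide)

/-- `#H¹(G, A) = |ker N / (g - 1) A|` for a finite cyclic group. -/
theorem card_H1_eq_hm1Card (hg : ∀ x, x ∈ Subgroup.zpowers g) :
    Nat.card (groupCohomology A 1) = H6.hm1Card A.ρ g := by
  let _ : CommGroup G :=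
    { ‹Group G› with
      mul_comm := fun a b => by
        obtain ⟨m, rfl⟩ := Subgroup.mem_zpowers_iff.1 (hg a)
        obtain ⟨n, rfl⟩ := Subgroup.mem_zpowers_iff.1 (hg b)
        exact zpow_mul_comm g m n }
  exact H6.card_groupCohomology_odd A g hg 1 (by decide)

/-- Arithmetic of the two inequalities. -/
theorem eq_one_and_eq_of_first_second {a b p : ℕ} (hp : 0 < p) (hfirst : a = p * b)
    (hb : b ≠ 0) (hsecond : a ≤ p) : b = 1 ∧ a = p := by
  have hb1 : b ≤ 1 := by
    by_contra h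
    have h' : 2 ≤ b := by omega
    have : p * 2 ≤ p * b := Nat.mul_le_mul_left p h'
    omega
  have : b = 1 := by omega
  exact ⟨this, by rw [hfirst, this, mul_one]⟩

/-- **Cyclic layer**: FIRST + SECOND ⟹ `H¹ = 0` and `#H² = p`. -/
theorem cyclic_layer (hg : ∀ x, x ∈ Subgroup.zpowers g) {p : ℕ} (hp : 0 < p)
    (hfirst : H6.h0Card A.ρ g = p * H6.hm1Card A.ρ g) (hdef : H6.hm1Card A.ρ g ≠ 0)
    (hsecond : H6.h0Card A.ρ g ≤ p) :
    Subsingleton (groupCohomology A 1) ∧ Nat.card (groupCohomology A 2) = p := by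
  obtain ⟨h1, h2⟩ := eq_one_and_eq_of_first_second hp hfirst hdef hsecond
  refine ⟨?_, by rw [card_H2_eq_h0Card A g hg, h2]⟩
  have hc : Nat.card (groupCohomology A 1) = 1 := by rw [card_H1_eq_hm1Card A g hg, h1]
  exact (Nat.card_eq_one_iff_unique.1 hc).1

/-- The same with the Herbrand quotient as a rational number. -/
theorem cyclic_layer_of_herbrand (hg : ∀ x, x ∈ Subgroup.zpowers g) {p : ℕ} (hp : 0 < p)
    (hdef : H6.HerbrandDefinedRepn A.ρ g) (hh : H6.herbrandRepn A.ρ g = p)
    (hsecond : H6.h0Card A.ρ g ≤ p) :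
    Subsingleton (groupCohomology A 1) ∧ Nat.card (groupCohomology A 2) = p := by
  have hb : H6.hm1Card A.ρ g ≠ 0 := hdef.2
  refine cyclic_layer A g hg hp ?_ hb hsecond
  rw [H6.herbrandRepn_eq, div_eq_iff (by exact_mod_cast hb)] at hh
  exact_mod_cast hh

/-- The form consumed by `PrimeLayers`: `#H² ∣ p`. -/
theorem cyclic_layer_dvd (hg : ∀ x, x ∈ Subgroup.zpowers g) {p : ℕ} (hp : 0 < p)
    (hfirst : H6.h0Card A.ρ g = p * H6.hm1Card A.ρ g) (hdef : H6.hm1Card A.ρ g ≠ 0)
    (hsecond : H6.h0Card A.ρ g ≤ p) :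
    Subsingleton (groupCohomology A 1) ∧ Nat.card (groupCohomology A 2) ∣ p := by
  obtain ⟨h1, h2⟩ := cyclic_layer A g hg hp hfirst hdef hsecond
  exact ⟨h1, h2 ▸ dvd_rfl⟩

end Fermat.Agent.CFT.H40
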