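import Mathlib
import Fermat.Prelude.Def_GroupCohomology_ContinuousUnramified
import Fermat.Agent.S05.H38_Gal

/-!
# Kummer extensions by `S`-units stay unramified outside `S` (frozen vocabulary)

Everything is stated with the frozen predicates `IntermediateField.IsUnramifiedOutside`,
`ValuationSubring.LiesOverPrime`, `ValuationSubring.inertiaSubgroupIn`.
-/

set_option autoImplicit false

namespace Fermat.Agent.CFT.H41

open Fermat.Agent.S05

local notation "Qbar" => AlgebraicClosure ℚ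

section General

variable {K : Type*} {L : Type*} [Field K] [Field L] [Algebra K L]

/-- **`n`-th roots of `σ`-fixed units are fixed by inertia when `n` is a unit of `A`.** -/
theorem apply_eq_self_of_pow_eq {A : ValuationSubring L} {σ : L ≃ₐ[K] L}
    (hσ : σ ∈ A.inertiaSubgroupIn K) {n : ℕ} (hn : A.valuation (n : L) = 1)
    {w u : L} (hwu : w ^ n = u) (hu : σ u = u) (hu1 : A.valuation u = 1) : σ w = w := by
  have hn0 : n ≠ 0 := by
    rintro rfl
    simp at hn
  have hw1 : A.valuation w = 1 := by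
    have : A.valuation w ^ n = 1 := by rw [← map_pow, hwu, hu1]
    exact (pow_eq_one_iff_of_nonneg zero_le hn0).1 this
  have hwA : w ∈ A := (A.valuation_le_one_iff _).1 hw1.le
  have huA : u ∈ A := (A.valuation_le_one_iff _).1 hu1.le
  -- the polynomial `X ^ n - u` over `A`
  let f : Polynomial A := Polynomial.X ^ n - Polynomial.C ⟨u, huA⟩
  have hcoeff : ∀ i, σ ((f.coeff i : A) : L) = ((f.coeff i : A) : L) := by
    intro i
    simp only [f, Polynomial.coeff_sub, Polynomial.coeff_X_pow, Polynomial.coeff_C]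
    by_cases h1 : i = n
    · subst h1
      simp [hn0]
    · by_cases h2 : i = 0
      · subst h2
        simp [Ne.symm hn0, hu]
      · simp [h1, h2]
  have hroot : f.eval (⟨w, hwA⟩ : A) = 0 := by
    apply Subtype.ext
    simp only [f, Polynomial.eval_sub, Polynomial.eval_pow, Polynomial.eval_X, Polynomial.eval_C]
    simp [hwu]
  have hder : ((f.derivative.eval (⟨w, hwA⟩ : A) : A) : L) ∉ A.nonunits := by
    have : ((f.derivative.eval (⟨w, hwA⟩ : A) : A) : L) = (n : L) * w ^ (n - 1) := by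
      simp only [f, Polynomial.derivative_sub, Polynomial.derivative_X_pow,
        Polynomial.derivative_C, sub_zero, Polynomial.eval_mul, Polynomial.eval_pow,
        Polynomial.eval_X, Polynomial.eval_C]
      simp
    rw [this, ValuationSubring.mem_nonunits_iff, map_mul, map_pow, hn, hw1]
    simp
  exact H38.apply_eq_self_of_simple_root hσ f hcoeff ⟨w, hwA⟩ hroot hder

end General

section Global

/-- If `σ` fixes `β` then `σ` fixes `ℚ⟮β⟯`. -/
theorem mem_fixingSubgroup_adjoin_simple {σ : Qbar ≃ₐ[ℚ] Qbar} {β : Qbar} (h : σ β = β) :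
    σ ∈ (IntermediateField.adjoin ℚ {β}).fixingSubgroup := by
  have hle : Subgroup.zpowers σ ≤ (IntermediateField.adjoin ℚ {β}).fixingSubgroup := by
    rw [← IntermediateField.le_iff_le, IntermediateField.adjoin_simple_le_iff]
    rintro ⟨τ, hτ⟩
    obtain ⟨k, rfl⟩ := Subgroup.mem_zpowers_iff.1 hτ
    change (σ ^ k) β = β
    have hfix : σ ∈ MulAction.stabilizer (Qbar ≃ₐ[ℚ] Qbar) β := h
    exact (MulAction.stabilizer (Qbar ≃ₐ[ℚ] Qbar) β).zpow_mem hfix k
  exact hle (Subgroup.mem_zpowers σ)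

/-- **Kummer extensions stay unramified outside `S`.** Let `F` be unramified outside `S`, let
`n` be a positive integer all of whose prime divisors are in `S`, and let `β ^ n = α ∈ F` where,
at every valuation subring `A` of `Qbar` over a prime `q ∉ S`, `α` is a unit times an `n`-th power
of an element of `F`. Then `F(β)` is unramified outside `S`. -/
theorem isUnramifiedOutside_sup_adjoin_of_pow_eq {S : Finset Nat.Primes} {n : ℕ}
    (hn : ∀ q : Nat.Primes, q ∉ S → ¬ (q : ℕ) ∣ n)
    {F : IntermediateField ℚ Qbar} (hF : F.IsUnramifiedOutside S) {α β : Qbar} (hα : α ∈ F)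
    (hβ : β ^ n = α)
    (hloc : ∀ q : Nat.Primes, q ∉ S → ∀ A : ValuationSubring Qbar, A.LiesOverPrime (q : ℕ) →
      ∃ γ ∈ F, γ ≠ 0 ∧ A.valuation (α / γ ^ n) = 1) :
    (F ⊔ IntermediateField.adjoin ℚ {β}).IsUnramifiedOutside S := by
  have := hF.1
  have halg : Algebra.IsAlgebraic ℚ Qbar := (AlgebraicClosure.instIsAlgClosure ℚ).isAlgebraic
  have hβalg : IsIntegral ℚ β := (Algebra.IsAlgebraic.isAlgebraic β).isIntegral
  have : FiniteDimensional ℚ (IntermediateField.adjoin ℚ {β}) :=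
    IntermediateField.adjoin.finiteDimensional hβalg
  refine ⟨IntermediateField.finiteDimensional_sup F _, fun q hq A hA σ hσ => ?_⟩
  rw [IntermediateField.fixingSubgroup_sup]
  have hσF : σ ∈ F.fixingSubgroup := hF.2 q hq A hA hσ
  refine ⟨hσF, mem_fixingSubgroup_adjoin_simple ?_⟩
  obtain ⟨γ, hγF, hγ0, hu1⟩ := hloc q hq A hA
  have hfixF : ∀ x ∈ F, σ x = x := fun x hx =>
    (IntermediateField.mem_fixingSubgroup_iff F σ).1 hσF x hx
  have hnval : A.valuation ((n : ℕ) : Qbar) = 1 := by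
    have h := H38.valuation_intCast_eq_one (A := A) q.2 hA (n := (n : ℤ))
      (by exact_mod_cast hn q hq)
    simpa using h
  -- `w := β / γ` satisfies `w ^ n = α / γ ^ n`
  have hw : (β / γ) ^ n = α / γ ^ n := by rw [div_pow, hβ]
  have hu : σ (α / γ ^ n) = α / γ ^ n := by
    rw [map_div₀, map_pow, hfixF α hα, hfixF γ hγF]
  have hσw : σ (β / γ) = β / γ := apply_eq_self_of_pow_eq hσ hnval hw hu hu1
  rw [map_div₀, hfixF γ hγF] at hσw
  have := congrArg (· * γ) hσw
  simpa [div_mul_cancel₀ _ hγ0] using this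

/-- Special case: `α` is a unit at every place outside `S`. -/
theorem isUnramifiedOutside_sup_adjoin_of_pow_eq_unit {S : Finset Nat.Primes} {n : ℕ}
    (hn : ∀ q : Nat.Primes, q ∉ S → ¬ (q : ℕ) ∣ n)
    {F : IntermediateField ℚ Qbar} (hF : F.IsUnramifiedOutside S) {α β : Qbar} (hα : α ∈ F)
    (hβ : β ^ n = α)
    (hunit : ∀ q : Nat.Primes, q ∉ S → ∀ A : ValuationSubring Qbar, A.LiesOverPrime (q : ℕ) →
      A.valuation α = 1) :
    (F ⊔ IntermediateField.adjoin ℚ {β}).IsUnramifiedOutside S :=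
  isUnramifiedOutside_sup_adjoin_of_pow_eq hn hF hα hβ fun q hq A hA =>
    ⟨1, F.one_mem, one_ne_zero, by simpa using hunit q hq A hA⟩

/-- Roots of unity of order `n` generate extensions unramified outside `S` as soon as all prime
divisors of `n` are in `S`. -/
theorem isUnramifiedOutside_adjoin_of_pow_eq_one {S : Finset Nat.Primes} {n : ℕ}
    (hn : ∀ q : Nat.Primes, q ∉ S → ¬ (q : ℕ) ∣ n) {ζ : Qbar} (hζ : ζ ^ n = 1) :
    (IntermediateField.adjoin ℚ {ζ}).IsUnramifiedOutside S := by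
  have h := isUnramifiedOutside_sup_adjoin_of_pow_eq_unit hn
    (IntermediateField.isUnramifiedOutside_bot S) (α := 1) (β := ζ)
    (⊥ : IntermediateField ℚ Qbar).one_mem hζ (fun _ _ A _ => A.valuation.map_one)
  simpa using h

/-! ### The maximal extension unramified outside `S` and its `S`-units -/

theorem adjoin_simple_le_of_mem {F : IntermediateField ℚ Qbar} {x : Qbar} (hx : x ∈ F) :
    IntermediateField.adjoin ℚ {x} ≤ F :=
  IntermediateField.adjoin_simple_le_iff.2 hx

/-- `ℚ_S`: the elements of `Qbar` generating an extension unramified outside `S`. -/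
def QS (S : Finset Nat.Primes) : IntermediateField ℚ Qbar where
  carrier := {x | (IntermediateField.adjoin ℚ {x}).IsUnramifiedOutside S}
  mul_mem' := by
    intro x y hx hy
    refine IntermediateField.IsUnramifiedOutside.of_le ?_ (hx.sup hy)
    refine IntermediateField.adjoin_simple_le_iff.2 (mul_mem ?_ ?_)
    · exact (le_sup_left : IntermediateField.adjoin ℚ {x} ≤ _)
        (IntermediateField.mem_adjoin_simple_self ℚ x)
    · exact (le_sup_right : IntermediateField.adjoin ℚ {y} ≤ _)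
        (IntermediateField.mem_adjoin_simple_self ℚ y)
  add_mem' := by
    intro x y hx hy
    refine IntermediateField.IsUnramifiedOutside.of_le ?_ (hx.sup hy)
    refine IntermediateField.adjoin_simple_le_iff.2 (add_mem ?_ ?_)
    · exact (le_sup_left : IntermediateField.adjoin ℚ {x} ≤ _)
        (IntermediateField.mem_adjoin_simple_self ℚ x)
    · exact (le_sup_right : IntermediateField.adjoin ℚ {y} ≤ _)
        (IntermediateField.mem_adjoin_simple_self ℚ y)
  algebraMap_mem' := by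
    intro r
    refine IntermediateField.IsUnramifiedOutside.of_le ?_
      (IntermediateField.isUnramifiedOutside_bot S)
    exact IntermediateField.adjoin_simple_le_iff.2
      ((⊥ : IntermediateField ℚ Qbar).algebraMap_mem r)
  inv_mem' := by
    intro x hx
    refine IntermediateField.IsUnramifiedOutside.of_le ?_ hx
    exact IntermediateField.adjoin_simple_le_iff.2
      (inv_mem (IntermediateField.mem_adjoin_simple_self ℚ x))

theorem mem_QS_iff {S : Finset Nat.Primes} {x : Qbar} :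
    x ∈ QS S ↔ (IntermediateField.adjoin ℚ {x}).IsUnramifiedOutside S := Iff.rfl

theorem mem_QS_iff_exists {S : Finset Nat.Primes} {x : Qbar} :
    x ∈ QS S ↔ ∃ F : IntermediateField ℚ Qbar, F.IsUnramifiedOutside S ∧ x ∈ F :=
  ⟨fun h => ⟨_, h, IntermediateField.mem_adjoin_simple_self ℚ x⟩,
    fun ⟨_, hF, hx⟩ => hF.of_le (adjoin_simple_le_of_mem hx)⟩

theorem le_QS_of_isUnramifiedOutside {S : Finset Nat.Primes} {F : IntermediateField ℚ Qbar}
    (hF : F.IsUnramifiedOutside S) : F ≤ QS S :=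
  fun _ hx => mem_QS_iff_exists.2 ⟨F, hF, hx⟩

/-- The `S`-units of `ℚ_S`, as a subgroup of `Qbarˣ`. -/
def ES (S : Finset Nat.Primes) : Subgroup Qbarˣ where
  carrier := {u | (u : Qbar) ∈ QS S ∧ ∀ q : Nat.Primes, q ∉ S → ∀ A : ValuationSubring Qbar,
    A.LiesOverPrime (q : ℕ) → A.valuation (u : Qbar) = 1}
  mul_mem' := by
    rintro u v ⟨hu, hu'⟩ ⟨hv, hv'⟩
    refine ⟨by simpa using mul_mem hu hv, fun q hq A hA => ?_⟩
    rw [Units.val_mul, map_mul, hu' q hq A hA, hv' q hq A hA, one_mul]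
  one_mem' := ⟨by simp, fun _ _ A _ => by simp⟩
  inv_mem' := by
    rintro u ⟨hu, hu'⟩
    refine ⟨by simpa using inv_mem hu, fun q hq A hA => ?_⟩
    rw [Units.val_inv_eq_inv_val, map_inv₀, hu' q hq A hA, inv_one]

theorem mem_ES_iff {S : Finset Nat.Primes} {u : Qbarˣ} :
    u ∈ ES S ↔ (u : Qbar) ∈ QS S ∧ ∀ q : Nat.Primes, q ∉ S → ∀ A : ValuationSubring Qbar,
      A.LiesOverPrime (q : ℕ) → A.valuation (u : Qbar) = 1 := Iff.rfl

/-- **`E_S` is closed under extraction of `n`-th roots** (all prime divisors of `n` in `S`):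
every `n`-th root in `Qbar` of an `S`-unit of `ℚ_S` is again an `S`-unit of `ℚ_S`. -/
theorem mem_ES_of_pow_mem {S : Finset Nat.Primes} {n : ℕ} (hn0 : n ≠ 0)
    (hn : ∀ q : Nat.Primes, q ∉ S → ¬ (q : ℕ) ∣ n) {w : Qbarˣ} (hw : w ^ n ∈ ES S) :
    w ∈ ES S := by
  obtain ⟨hQS, hval⟩ := hw
  have hval' : ∀ q : Nat.Primes, q ∉ S → ∀ A : ValuationSubring Qbar,
      A.LiesOverPrime (q : ℕ) → A.valuation (w : Qbar) = 1 := by
    intro q hq A hA
    have h := hval q hq A hA
    rw [Units.val_pow_eq_pow_val, map_pow] at h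
    exact (pow_eq_one_iff_of_nonneg zero_le hn0).1 h
  refine ⟨?_, hval'⟩
  have h := isUnramifiedOutside_sup_adjoin_of_pow_eq_unit hn (mem_QS_iff.1 hQS)
    (α := ((w ^ n : Qbarˣ) : Qbar)) (β := (w : Qbar))
    (IntermediateField.mem_adjoin_simple_self ℚ _) (by simp) hval
  exact mem_QS_iff_exists.2 ⟨_, h, (le_sup_right : IntermediateField.adjoin ℚ {(w : Qbar)} ≤ _)
    (IntermediateField.mem_adjoin_simple_self ℚ _)⟩

/-- **`E_S` is `n`-divisible** (all prime divisors of `n` in `S`). -/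
theorem exists_pow_eq_of_mem_ES {S : Finset Nat.Primes} {n : ℕ} (hn0 : n ≠ 0)
    (hn : ∀ q : Nat.Primes, q ∉ S → ¬ (q : ℕ) ∣ n) {u : Qbarˣ} (hu : u ∈ ES S) :
    ∃ w ∈ ES S, w ^ n = u := by
  obtain ⟨z, hz⟩ := IsAlgClosed.exists_pow_nat_eq (u : Qbar) (Nat.pos_of_ne_zero hn0)
  have hz0 : z ≠ 0 := by
    rintro rfl
    rw [zero_pow hn0] at hz
    exact u.ne_zero hz.symm
  refine ⟨Units.mk0 z hz0, ?_, ?_⟩
  · apply mem_ES_of_pow_mem hn0 hn
    have : (Units.mk0 z hz0) ^ n = u := by
      apply Units.ext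
      simp [hz]
    rw [this]
    exact hu
  · apply Units.ext
    simp [hz]

/-- **`E_S[n] = μ_n`**: all `n`-th roots of unity lie in `E_S`. -/
theorem mem_ES_of_pow_eq_one {S : Finset Nat.Primes} {n : ℕ} (hn0 : n ≠ 0)
    (hn : ∀ q : Nat.Primes, q ∉ S → ¬ (q : ℕ) ∣ n) {ζ : Qbarˣ} (hζ : ζ ^ n = 1) : ζ ∈ ES S :=
  mem_ES_of_pow_mem hn0 hn (hζ ▸ (ES S).one_mem)

/-- The hypothesis on `n` for a prime `p ∈ S` (shape of `S55`). -/
theorem not_dvd_of_pPrime_mem {p : ℕ} [Fact p.Prime] {S : Finset Nat.Primes}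
    (hpS : ExtCitation.pPrime p ∈ S) : ∀ q : Nat.Primes, q ∉ S → ¬ (q : ℕ) ∣ p := by
  intro q hq hdvd
  have hp : p.Prime := Fact.out
  have : (q : ℕ) = p := (Nat.prime_dvd_prime_iff_eq q.2 hp).1 hdvd
  apply hq
  have hqp : q = ExtCitation.pPrime p := Subtype.ext this
  rw [hqp]
  exact hpS

end Global

end Fermat.Agent.CFT.H41
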