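import Mathlib
import Fermat.Agent.CFT.H41_KummerUnram
import Fermat.Agent.CFT.H69_SplittingField

/-!
# Galois stability of `ℚ_S` and of its `S`-units `E_S`
-/

set_option autoImplicit false

namespace Fermat.Agent.CFT.H41

open scoped Pointwise

local notation "GQ" => (AlgebraicClosure ℚ ≃ₐ[ℚ] AlgebraicClosure ℚ)
local notation "Qbar" => AlgebraicClosure ℚ

/-- `ℚ_S` is stable under `Gal(Qbar/ℚ)`. -/
theorem apply_mem_QS {S : Finset Nat.Primes} (τ : GQ) {x : Qbar} (hx : x ∈ QS S) :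
    τ x ∈ QS S := by
  have hN := H69.IsUnramifiedOutside.normalClosure (mem_QS_iff.1 hx)
  refine mem_QS_iff_exists.2 ⟨_, hN, ?_⟩
  let f : (IntermediateField.adjoin ℚ {x}) →ₐ[ℚ] Qbar :=
    (τ : Qbar →ₐ[ℚ] Qbar).comp (IntermediateField.adjoin ℚ {x}).val
  refine f.fieldRange_le_normalClosure ?_
  exact ⟨⟨x, IntermediateField.mem_adjoin_simple_self ℚ x⟩, rfl⟩

theorem apply_mem_QS_iff {S : Finset Nat.Primes} (τ : GQ) {x : Qbar} :
    τ x ∈ QS S ↔ x ∈ QS S := by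
  refine ⟨fun h => ?_, apply_mem_QS τ⟩
  have := apply_mem_QS τ⁻¹ h
  have h2 : τ⁻¹ (τ x) = x := by
    change (τ⁻¹ * τ) x = x
    rw [inv_mul_cancel]; rfl
  rwa [h2] at this

/-- valuation one in terms of membership -/
theorem valuation_eq_one_iff_mem (A : ValuationSubring Qbar) {x : Qbar} (hx : x ≠ 0) :
    A.valuation x = 1 ↔ x ∈ A ∧ x⁻¹ ∈ A := by
  rw [← A.valuation_le_one_iff, ← A.valuation_le_one_iff, map_inv₀]
  have h0 : A.valuation x ≠ 0 := (A.valuation.ne_zero_iff).2 hx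
  constructor
  · intro h
    rw [h]; simp
  · rintro ⟨h1, h2⟩
    refine le_antisymm h1 ?_
    rwa [inv_le_one₀ (zero_lt_iff.2 h0)] at h2

theorem valuation_apply_eq_one_iff (τ : GQ) (A : ValuationSubring Qbar) {x : Qbar} :
    A.valuation (τ x) = 1 ↔ (τ⁻¹ • A).valuation x = 1 := by
  by_cases hx : x = 0
  · subst hx
    simp
  · have hτx : τ x ≠ 0 := (map_ne_zero τ).2 hx
    rw [valuation_eq_one_iff_mem _ hτx, valuation_eq_one_iff_mem _ hx, H69.mem_smul_iff,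
      H69.mem_smul_iff, inv_inv, map_inv₀]

/-- `E_S` is stable under `Gal(Qbar/ℚ)`. -/
theorem map_mem_ES {S : Finset Nat.Primes} (τ : GQ) {u : Qbarˣ} (hu : u ∈ ES S) :
    Units.map (τ : Qbar →* Qbar) u ∈ ES S := by
  obtain ⟨h1, h2⟩ := hu
  refine ⟨apply_mem_QS τ h1, fun q hq A hA => ?_⟩
  change A.valuation (τ (u : Qbar)) = 1
  rw [valuation_apply_eq_one_iff]
  exact h2 q hq _ (H69.liesOverPrime_smul τ⁻¹ hA)

end Fermat.Agent.CFT.H41

namespace Fermat.Agent.CFT.H41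

local notation "GQ" => (AlgebraicClosure ℚ ≃ₐ[ℚ] AlgebraicClosure ℚ)
local notation "Qbar" => AlgebraicClosure ℚ

/-- stability for the Mathlib action of `Gal(Qbar/ℚ)` on `Qbarˣ` (the one used by
`Rep.ofAlgebraAutOnUnits`). -/
theorem smul_mem_ES {S : Finset Nat.Primes} (τ : GQ) {u : Qbarˣ} (hu : u ∈ ES S) :
    τ • u ∈ ES S := by
  have h : τ • u = Units.map (τ : Qbar →* Qbar) u := by
    apply Units.ext
    rfl
  rw [h]
  exact map_mem_ES τ hu

theorem smul_mem_ES_iff {S : Finset Nat.Primes} (τ : GQ) {u : Qbarˣ} :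
    τ • u ∈ ES S ↔ u ∈ ES S := by
  refine ⟨fun h => ?_, smul_mem_ES τ⟩
  have := smul_mem_ES τ⁻¹ h
  rwa [inv_smul_smul] at this

/-- `E_S` as a `Gal(Qbar/ℚ)`-module (multiplicative notation). -/
noncomputable instance esMulDistribMulAction (S : Finset Nat.Primes) :
    MulDistribMulAction GQ (ES S) where
  smul τ u := ⟨τ • (u : Qbarˣ), smul_mem_ES τ u.2⟩
  one_smul u := Subtype.ext (one_smul GQ (u : Qbarˣ))
  mul_smul σ τ u := Subtype.ext (mul_smul σ τ (u : Qbarˣ))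
  smul_mul τ u v := Subtype.ext (smul_mul' τ (u : Qbarˣ) (v : Qbarˣ))
  smul_one τ := Subtype.ext (smul_one τ)

@[simp]
theorem coe_smul_ES {S : Finset Nat.Primes} (τ : GQ) (u : ES S) :
    ((τ • u : ES S) : Qbarˣ) = τ • (u : Qbarˣ) := rfl

end Fermat.Agent.CFT.H41
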