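/-
CFT layer C, package C-LOC-induced (helper42), part (P1): the abstract "induced ring" theorem.

`G` a finite group acting on a commutative ring `E` by ring automorphisms, `D ≤ G` a subgroup,
`π : E → F` a surjective `D`-equivariant ring homomorphism with kernel `I` such that the
translates `g • I` for `g ∉ D` are coprime to `I` and `⨅ g, g • I = ⊥`.  Then

  `E ≃+* coindRing D F = {f : G → F | f (d * g) = d • f g}`,  `x ↦ (g ↦ π (g • x))`,

`G`-equivariantly (`G` acts on the right-hand side by right translation), hence
`Eˣ ≅ Coind_D^G Fˣ` as `G`-modules and `Hⁿ(G, Eˣ) ≅ Hⁿ(D, Fˣ)` (Shapiro).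
Mathlib only.
-/
import Mathlib

namespace Fermat.Agent.CFT.H42

open scoped Pointwise

noncomputable section

/-! ### The coinduced ring -/

section CoindRing

variable {G : Type*} [Group G] (D : Subgroup G) (F : Type*) [CommRing F] [MulSemiringAction D F]

/-- The ring of `D`-equivariant functions `G → F` (the coinduced ring). -/
def coindRing : Subring (G → F) where
  carrier := {f | ∀ (d : D) (g : G), f ((d : G) * g) = d • f g}
  mul_mem' {a b} ha hb d g := by simp only [Pi.mul_apply, ha d g, hb d g, smul_mul']
  one_mem' d g := by simp only [Pi.one_apply, smul_one]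
  add_mem' {a b} ha hb d g := by simp only [Pi.add_apply, ha d g, hb d g, smul_add]
  zero_mem' d g := by simp only [Pi.zero_apply, smul_zero]
  neg_mem' {a} ha d g := by simp only [Pi.neg_apply, ha d g, smul_neg]

variable {D F}

theorem mem_coindRing_iff (f : G → F) :
    f ∈ coindRing D F ↔ ∀ (d : D) (g : G), f ((d : G) * g) = d • f g := Iff.rfl

theorem coindRing_apply_mul (f : coindRing D F) (d : D) (g : G) :
    (f : G → F) ((d : G) * g) = d • (f : G → F) g := f.2 d g

/-- Right translation of an equivariant function. -/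
def coindTranslate (g : G) (f : coindRing D F) : coindRing D F :=
  ⟨fun h => (f : G → F) (h * g), fun d h => by
    show (f : G → F) ((d : G) * h * g) = d • (f : G → F) (h * g)
    rw [mul_assoc]; exact f.2 d (h * g)⟩

@[simp] theorem coindTranslate_apply (g : G) (f : coindRing D F) (h : G) :
    (coindTranslate g f : G → F) h = (f : G → F) (h * g) := rfl

/-- `G` acts on the coinduced ring by right translation: `(g • f) h = f (h * g)`. -/
instance coindRingAction : MulSemiringAction G (coindRing D F) where
  smul g f := coindTranslate g f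
  one_smul f := Subtype.ext (funext fun h => by
    show (f : G → F) (h * 1) = _; rw [mul_one])
  mul_smul g g' f := Subtype.ext (funext fun h => by
    show (f : G → F) (h * (g * g')) = (f : G → F) (h * g * g'); rw [mul_assoc])
  smul_zero g := rfl
  smul_add g f f' := rfl
  smul_one g := rfl
  smul_mul g f f' := rfl

@[simp] theorem coindRing_smul_apply (g : G) (f : coindRing D F) (h : G) :
    ((g • f : coindRing D F) : G → F) h = (f : G → F) (h * g) := rfl

/-- Evaluation at `1 : G`, a `D`-equivariant ring homomorphism `coindRing D F → F`. -/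
def coindEvalOne : coindRing D F →+* F where
  toFun f := (f : G → F) 1
  map_one' := rfl
  map_mul' _ _ := rfl
  map_zero' := rfl
  map_add' _ _ := rfl

@[simp] theorem coindEvalOne_apply (f : coindRing D F) : coindEvalOne f = (f : G → F) 1 := rfl

theorem coindEvalOne_smul (d : D) (f : coindRing D F) :
    coindEvalOne ((d : G) • f) = d • coindEvalOne f := by
  show (f : G → F) (1 * (d : G)) = d • (f : G → F) 1
  rw [one_mul, ← f.2 d 1, mul_one]

end CoindRing

/-! ### The comparison map `E → coindRing D F` -/

section Compare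

variable {G : Type*} [Group G] {E : Type*} [CommRing E] [MulSemiringAction G E]
  (D : Subgroup G) {F : Type*} [CommRing F] [MulSemiringAction D F]
  (π : E →+* F) (hD : ∀ (d : D) (x : E), π ((d : G) • x) = d • π x)

/-- The comparison map `x ↦ (g ↦ π (g • x))`. -/
def toCoind : E →+* coindRing D F where
  toFun x := ⟨fun g => π (g • x), fun d g => by
    show π (((d : G) * g) • x) = d • π (g • x)
    rw [mul_smul, hD]⟩
  map_one' := Subtype.ext (funext fun g => by
    show π (g • (1 : E)) = 1; rw [smul_one, map_one])
  map_mul' x y := Subtype.ext (funext fun g => by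
    show π (g • (x * y)) = π (g • x) * π (g • y); rw [smul_mul', map_mul])
  map_zero' := Subtype.ext (funext fun g => by
    show π (g • (0 : E)) = 0; rw [smul_zero, map_zero])
  map_add' x y := Subtype.ext (funext fun g => by
    show π (g • (x + y)) = π (g • x) + π (g • y); rw [smul_add, map_add])

@[simp] theorem toCoind_apply (x : E) (g : G) :
    (toCoind D π hD x : G → F) g = π (g • x) := rfl

/-- The comparison map is `G`-equivariant. -/
theorem toCoind_smul (g : G) (x : E) : toCoind D π hD (g • x) = g • toCoind D π hD x :=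
  Subtype.ext (funext fun h => by
    show π (h • g • x) = π ((h * g) • x); rw [mul_smul])

theorem coindEvalOne_toCoind (x : E) : coindEvalOne (toCoind D π hD x) = π x := by
  show π ((1 : G) • x) = π x; rw [one_smul]

/-- Injectivity: the intersection of the translates of the kernel is zero. -/
theorem toCoind_injective (hinf : ∀ x : E, (∀ g : G, π (g • x) = 0) → x = 0) :
    Function.Injective (toCoind D π hD) := by
  rw [injective_iff_map_eq_zero]
  intro x hx
  apply hinf
  intro g
  have := congrArg (fun f : coindRing D F => (f : G → F) g) hx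
  exact this

variable [Finite G]

/-- Surjectivity (Chinese remainder theorem): the translates `g • ker π`, `g ∉ D`, are coprime to
`ker π`. -/
theorem toCoind_surjective (hπ : Function.Surjective π)
    (hcop : ∀ g : G, g ∉ D → RingHom.ker π ⊔ g • RingHom.ker π = ⊤) :
    Function.Surjective (toCoind D π hD) := by
  classical
  cases nonempty_fintype G
  intro f
  set I : Ideal E := RingHom.ker π with hI
  -- step 1: an element `e ≡ 1 mod I`, `e ∈ g • I` for all `g ∉ D`
  have h1 : I ⊔ ⨅ g ∈ (Finset.univ.filter (fun g : G => g ∉ D)), g • I = ⊤ :=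
    Ideal.sup_iInf_eq_top (fun g hg => hcop g (by simpa using hg))
  have h1' : (1 : E) ∈ I ⊔ ⨅ g ∈ (Finset.univ.filter (fun g : G => g ∉ D)), g • I := by
    rw [h1]; exact Submodule.mem_top
  obtain ⟨u, hu, e, he, hue⟩ := Submodule.mem_sup.mp h1'
  have hπu : π u = 0 := hu
  have hπe : π e = 1 := by
    have := congrArg π hue
    rw [map_add, hπu, zero_add, map_one] at this
    exact this
  have hevan : ∀ h : G, h ∉ D → ∀ y : E, π (h • (y * e)) = 0 := by
    intro h hh y
    have hmem : e ∈ h⁻¹ • I := by
      simp only [Submodule.mem_iInf] at he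
      exact he h⁻¹ (by simpa using hh)
    rw [Ideal.mem_inv_pointwise_smul_iff] at hmem
    have h0 : π (h • e) = 0 := hmem
    rw [smul_mul', map_mul, h0, mul_zero]
  -- step 2: a right transversal of `D`
  obtain ⟨T, hT, -⟩ := D.exists_isComplement_right 1
  rw [Subgroup.isComplement_iff_existsUnique_mul_inv_mem] at hT
  choose y hy using fun g : G => hπ ((f : G → F) g)
  refine ⟨∑ t ∈ T.toFinset, t⁻¹ • (y t * e), Subtype.ext (funext fun g => ?_)⟩
  show π (g • ∑ t ∈ T.toFinset, t⁻¹ • (y t * e)) = (f : G → F) g
  rw [Finset.smul_sum, map_sum]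
  obtain ⟨t₀, ht₀, huniq⟩ := hT g
  rw [Finset.sum_eq_single (t₀ : G)]
  · rw [smul_smul]
    have hmem : g * (t₀ : G)⁻¹ ∈ D := ht₀
    have h2 := hD ⟨g * (t₀ : G)⁻¹, hmem⟩ (y t₀ * e)
    simp only at h2
    rw [h2, map_mul, hπe, mul_one, hy, ← f.2]
    simp
  · intro t ht hne
    rw [smul_smul]
    apply hevan
    intro hmem
    have ht' : t ∈ T := by simpa using ht
    exact hne (congrArg Subtype.val (huniq ⟨t, ht'⟩ hmem))
  · intro h
    exact absurd (by simp) h

/-- **The induced-ring theorem**: `E ≃+* coindRing D F`. -/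
def coindRingEquiv (hπ : Function.Surjective π)
    (hcop : ∀ g : G, g ∉ D → RingHom.ker π ⊔ g • RingHom.ker π = ⊤)
    (hinf : ∀ x : E, (∀ g : G, π (g • x) = 0) → x = 0) : E ≃+* coindRing D F :=
  RingEquiv.ofBijective (toCoind D π hD)
    ⟨toCoind_injective D π hD hinf, toCoind_surjective D π hD hπ hcop⟩

@[simp] theorem coindRingEquiv_apply (hπ : Function.Surjective π)
    (hcop : ∀ g : G, g ∉ D → RingHom.ker π ⊔ g • RingHom.ker π = ⊤)
    (hinf : ∀ x : E, (∀ g : G, π (g • x) = 0) → x = 0) (x : E) (g : G) :
    ((coindRingEquiv D π hD hπ hcop hinf x : coindRing D F) : G → F) g = π (g • x) := rfl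

theorem coindRingEquiv_smul (hπ : Function.Surjective π)
    (hcop : ∀ g : G, g ∉ D → RingHom.ker π ⊔ g • RingHom.ker π = ⊤)
    (hinf : ∀ x : E, (∀ g : G, π (g • x) = 0) → x = 0) (g : G) (x : E) :
    coindRingEquiv D π hD hπ hcop hinf (g • x) =
      g • coindRingEquiv D π hD hπ hcop hinf x :=
  toCoind_smul D π hD g x

end Compare

/-! ### Units: `(coindRing D F)ˣ` is the coinduced module of `Fˣ`, Shapiro -/

section Units

attribute [local instance] Units.mulDistribMulActionRight

variable {G : Type} [Group G] (D : Subgroup G) (F : Type) [CommRing F] [MulSemiringAction D F]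

/-- Evaluation at `g : G` as a ring homomorphism `coindRing D F → F`. -/
def coindEval (g : G) : coindRing D F →+* F :=
  (Pi.evalRingHom (fun _ : G => F) g).comp (coindRing D F).subtype

@[simp] theorem coindEval_apply (g : G) (f : coindRing D F) :
    coindEval D F g f = (f : G → F) g := rfl

/-- The unit of `coindRing D F` attached to an equivariant function `G → Fˣ`. -/
def coindUnitOfFun (f : G → Fˣ) (hf : ∀ (d : D) (g : G), f ((d : G) * g) = d • f g) :
    (coindRing D F)ˣ where
  val := ⟨fun g => (f g : F), fun d g => by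
    show ((f ((d : G) * g) : Fˣ) : F) = d • ((f g : Fˣ) : F)
    rw [hf d g]; rfl⟩
  inv := ⟨fun g => ((f g)⁻¹ : Fˣ), fun d g => by
    show (((f ((d : G) * g))⁻¹ : Fˣ) : F) = d • (((f g)⁻¹ : Fˣ) : F)
    rw [hf d g, ← smul_inv']; rfl⟩
  val_inv := Subtype.ext (funext fun g => by
    show (f g : F) * ((f g)⁻¹ : Fˣ) = 1; exact Units.mul_inv _)
  inv_val := Subtype.ext (funext fun g => by
    show (((f g)⁻¹ : Fˣ) : F) * (f g : F) = 1; exact Units.inv_mul _)

/-- The underlying linear equivalence
`Additive (coindRing D F)ˣ ≃ₗ[ℤ] coindV D.subtype (ofMulDistribMulAction D Fˣ)`. -/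
def coindUnitsLinearEquiv :
    Additive (coindRing D F)ˣ ≃ₗ[ℤ]
      Representation.coindV D.subtype (Representation.ofMulDistribMulAction D Fˣ) where
  toFun u := ⟨fun g => Additive.ofMul (Units.map (coindEval D F g).toMonoidHom u.toMul),
    fun d g => by
      show Additive.ofMul _ = Additive.ofMul _
      congr 1
      ext
      exact (u.toMul : coindRing D F).2 d g⟩
  map_add' u v := Subtype.ext (funext fun g => by
    show Additive.ofMul (Units.map (coindEval D F g).toMonoidHom (u.toMul * v.toMul)) = _
    rw [map_mul]; rfl)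
  map_smul' n u := Subtype.ext (funext fun g => by
    show Additive.ofMul (Units.map (coindEval D F g).toMonoidHom ((n • u).toMul)) =
      n • Additive.ofMul (Units.map (coindEval D F g).toMonoidHom u.toMul)
    rw [toMul_zsmul, map_zpow]; rfl)
  invFun f := Additive.ofMul (coindUnitOfFun D F (fun g => ((f : G → Additive Fˣ) g).toMul)
    (fun d g => by
      have := f.2 d g
      exact congrArg Additive.toMul this))
  left_inv u := by
    apply Additive.toMul.injective
    ext g
    rfl
  right_inv f := Subtype.ext (funext fun g => by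
    apply Additive.toMul.injective
    ext
    rfl)

/-- `(coindRing D F)ˣ ≅ Coind_D^G Fˣ` as representations of `G`. -/
def coindUnitsEquiv :
    (Representation.ofMulDistribMulAction G (coindRing D F)ˣ).Equiv
      (Representation.coind D.subtype (Representation.ofMulDistribMulAction D Fˣ)) :=
  Representation.Equiv.mk (coindUnitsLinearEquiv D F) (fun g => by
    ext u
    rfl)

/-- `(coindRing D F)ˣ ≅ Coind_D^G Fˣ` in `Rep ℤ G`. -/
def coindUnitsIso :
    Rep.ofMulDistribMulAction G (coindRing D F)ˣ ≅
      Rep.coind D.subtype (Rep.ofMulDistribMulAction D Fˣ) :=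
  Rep.mkIso (coindUnitsEquiv D F)

/-- Shapiro for the coinduced ring: `Hⁿ(G, (coindRing D F)ˣ) ≅ Hⁿ(D, Fˣ)`. -/
def coindUnitsCohomologyIso (n : ℕ) :
    groupCohomology (Rep.ofMulDistribMulAction G (coindRing D F)ˣ) n ≅
      groupCohomology (Rep.ofMulDistribMulAction D Fˣ) n :=
  (groupCohomology.functor ℤ G n).mapIso (coindUnitsIso D F) ≪≫
    groupCohomology.coindIso (Rep.ofMulDistribMulAction D Fˣ) n

end Units

/-! ### The main theorem for units and cohomology -/

section Main

attribute [local instance] Units.mulDistribMulActionRight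

variable {G : Type} [Group G]

/-- A `G`-equivariant ring isomorphism induces an equivalence of the unit representations. -/
def unitsRepEquivOfRingEquiv {E E' : Type} [CommRing E] [CommRing E'] [MulSemiringAction G E]
    [MulSemiringAction G E'] (e : E ≃+* E') (he : ∀ (g : G) (x : E), e (g • x) = g • e x) :
    (Representation.ofMulDistribMulAction G Eˣ).Equiv
      (Representation.ofMulDistribMulAction G E'ˣ) :=
  Representation.Equiv.mk
    ((MulEquiv.toAdditive (Units.mapEquiv e.toMulEquiv)).toIntLinearEquiv)
    (fun g => by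
      ext u
      exact he g _)

theorem unitsRepEquivOfRingEquiv_apply {E E' : Type} [CommRing E] [CommRing E']
    [MulSemiringAction G E] [MulSemiringAction G E'] (e : E ≃+* E')
    (he : ∀ (g : G) (x : E), e (g • x) = g • e x) (u : Additive Eˣ) :
    ((unitsRepEquivOfRingEquiv e he) u).toMul = Units.map e.toRingHom.toMonoidHom u.toMul := rfl

variable [Finite G] {E : Type} [CommRing E] [MulSemiringAction G E]
  (D : Subgroup G) {F : Type} [CommRing F] [MulSemiringAction D F]
  (π : E →+* F) (hD : ∀ (d : D) (x : E), π ((d : G) • x) = d • π x)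
  (hπ : Function.Surjective π)
  (hcop : ∀ g : G, g ∉ D → RingHom.ker π ⊔ g • RingHom.ker π = ⊤)
  (hinf : ∀ x : E, (∀ g : G, π (g • x) = 0) → x = 0)

/-- **Induced structure of the units**: `Eˣ ≅ Coind_D^G Fˣ` as representations of `G`. -/
def inducedUnitsEquiv :
    (Representation.ofMulDistribMulAction G Eˣ).Equiv
      (Representation.coind D.subtype (Representation.ofMulDistribMulAction D Fˣ)) :=
  (unitsRepEquivOfRingEquiv (coindRingEquiv D π hD hπ hcop hinf)
    (coindRingEquiv_smul D π hD hπ hcop hinf)).trans (coindUnitsEquiv D F)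

/-- The value of the induced-structure equivalence: `u ↦ (g ↦ π (g • u))`. -/
theorem inducedUnitsEquiv_apply (u : Additive Eˣ) (g : G) :
    ((((inducedUnitsEquiv D π hD hπ hcop hinf) u :
      Representation.coindV D.subtype (Representation.ofMulDistribMulAction D Fˣ)) :
        G → Additive Fˣ) g).toMul = Units.map π.toMonoidHom (g • u.toMul) := by
  ext
  rfl

/-- `Eˣ ≅ Coind_D^G Fˣ` in `Rep ℤ G`. -/
def inducedUnitsIso :
    Rep.ofMulDistribMulAction G Eˣ ≅ Rep.coind D.subtype (Rep.ofMulDistribMulAction D Fˣ) :=
  Rep.mkIso (inducedUnitsEquiv D π hD hπ hcop hinf)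

/-- **Shapiro for induced rings**: `Hⁿ(G, Eˣ) ≅ Hⁿ(D, Fˣ)`. -/
def inducedCohomologyIso (n : ℕ) :
    groupCohomology (Rep.ofMulDistribMulAction G Eˣ) n ≅
      groupCohomology (Rep.ofMulDistribMulAction D Fˣ) n :=
  (groupCohomology.functor ℤ G n).mapIso (inducedUnitsIso D π hD hπ hcop hinf) ≪≫
    groupCohomology.coindIso (Rep.ofMulDistribMulAction D Fˣ) n

end Main

end

end Fermat.Agent.CFT.H42
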