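/-
CFT layer C, package C-DEF (helper42): generic "idele-like" groups `(L ⊗[k] A)ˣ`
(`k` a field, `A` a commutative `k`-algebra, `L` a field extension of `k`):
principal elements, class group, Galois action, base change, Galois descent of invariants
(finite or infinite Galois, and for arbitrary subgroups), norm map.

Specialisations: `A := AQf` (finite ideles), `A := AQ` (ideles), `A := ℚ_[p]` (local algebra).
Mathlib only.
-/
import Mathlib
import Fermat.Agent.CFT.H42_TensorAction

namespace Fermat.Agent.CFT.H42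

open scoped TensorProduct

noncomputable section

/-! ### Descent for arbitrary subgroups and infinite Galois extensions -/

section Descent2

variable {k K L A : Type*} [Field k] [Field K] [Field L] [CommRing A]
  [Algebra k K] [Algebra k L] [Algebra K L] [IsScalarTower k K L] [Algebra k A]

/-- The inclusion `F ⊗[k] A → L ⊗[k] A` for an intermediate field `F` of `L/K`. -/
def interIncl (F : IntermediateField K L) : F ⊗[k] A →ₐ[k] L ⊗[k] A :=
  Algebra.TensorProduct.map (F.val.restrictScalars k) (AlgHom.id k A)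

@[simp] theorem interIncl_tmul (F : IntermediateField K L) (x : F) (a : A) :
    interIncl (k := k) F (x ⊗ₜ[k] a) = (x : L) ⊗ₜ[k] a := rfl

theorem interIncl_injective (F : IntermediateField K L) :
    Function.Injective (interIncl (k := k) (A := A) F) := by
  have : Function.Injective
      (LinearMap.rTensor A (F.val.restrictScalars k).toLinearMap) :=
    Module.Flat.rTensor_preserves_injective_linearMap _ F.val.injective
  intro x y hxy
  apply this
  have h : ∀ z : F ⊗[k] A, LinearMap.rTensor A (F.val.restrictScalars k).toLinearMap z =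
      interIncl (k := k) F z := by
    intro z
    induction z using TensorProduct.induction_on with
    | zero => simp
    | tmul x a => rfl
    | add x y hx hy => simp only [map_add, hx, hy]
  rw [h, h, hxy]

/-- Coordinates of `σ • x` with respect to an `L`-basis `1 ⊗ b_i` of `L ⊗[k] A`. -/
theorem repr_smul_tensorBasis {ι : Type*} (b : Module.Basis ι k A) (σ : L ≃ₐ[K] L)
    (y : L ⊗[k] A) (i : ι) :
    (Algebra.TensorProduct.basis L b).repr (σ • y) i =
      σ ((Algebra.TensorProduct.basis L b).repr y i) := by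
  induction y using TensorProduct.induction_on with
  | zero => simp
  | tmul l a =>
    simp only [smul_tmul_left, Algebra.TensorProduct.basis_repr_tmul, Finsupp.smul_apply,
      Finsupp.mapRange_apply, smul_eq_mul, map_mul]
    congr 1
    rw [IsScalarTower.algebraMap_apply k K L, AlgEquiv.commutes]
  | add y z hy hz => simp only [smul_add, map_add, Finsupp.add_apply, hy, hz]

/-- If all coordinates of `x` lie in `F`, then `x` comes from `F ⊗[k] A`. -/
theorem mem_range_interIncl_of_repr_mem {ι : Type*} (b : Module.Basis ι k A)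
    (F : IntermediateField K L) (x : L ⊗[k] A)
    (hx : ∀ i, (Algebra.TensorProduct.basis L b).repr x i ∈ F) :
    x ∈ (interIncl (k := k) (A := A) F).range := by
  classical
  set B := Algebra.TensorProduct.basis L b with hB
  refine ⟨∑ i ∈ (B.repr x).support, (⟨B.repr x i, hx i⟩ : F) ⊗ₜ[k] b i, ?_⟩
  show interIncl (k := k) (A := A) F _ = x
  rw [map_sum]
  conv_rhs => rw [← B.linearCombination_repr x, Finsupp.linearCombination_apply, Finsupp.sum]
  refine Finset.sum_congr rfl fun i _ => ?_
  have hBi : B i = (1 : L) ⊗ₜ[k] b i := by rw [hB, Algebra.TensorProduct.basis_apply]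
  rw [interIncl_tmul, hBi, TensorProduct.smul_tmul', smul_eq_mul, mul_one]

/-- **Descent for a subgroup**: an element of `L ⊗[k] A` fixed by a subgroup `H` of
`Gal(L/K)` comes from `(fixedField H) ⊗[k] A`.  No Galois or finiteness hypothesis. -/
theorem mem_range_interIncl_fixedField (H : Subgroup (L ≃ₐ[K] L)) (x : L ⊗[k] A)
    (hx : ∀ σ ∈ H, σ • x = x) :
    x ∈ (interIncl (k := k) (A := A) (IntermediateField.fixedField H)).range := by
  let b := Module.Free.chooseBasis k A
  refine mem_range_interIncl_of_repr_mem b _ x fun i => ?_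
  rw [IntermediateField.mem_fixedField_iff]
  intro σ hσ
  rw [← repr_smul_tensorBasis, hx σ hσ]

theorem smul_interIncl_of_mem_fixingSubgroup (F : IntermediateField K L) (σ : L ≃ₐ[K] L)
    (hσ : σ ∈ F.fixingSubgroup) (y : F ⊗[k] A) :
    σ • interIncl (k := k) (A := A) F y = interIncl (k := k) (A := A) F y := by
  induction y using TensorProduct.induction_on with
  | zero => simp
  | tmul x a =>
    rw [interIncl_tmul, smul_tmul_left]
    congr 1
    exact (IntermediateField.mem_fixingSubgroup_iff F σ).mp hσ x x.2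
  | add x y hx hy => simp only [smul_add, map_add, hx, hy]

/-- Invariants of `L ⊗[k] A` under the fixing subgroup of `F`, when `F` is the fixed field of
its fixing subgroup (e.g. `L/K` Galois and `F` finite over `K`, or `F` closed). -/
theorem fixed_fixingSubgroup_iff (F : IntermediateField K L)
    (hF : IntermediateField.fixedField F.fixingSubgroup = F) (x : L ⊗[k] A) :
    (∀ σ ∈ F.fixingSubgroup, σ • x = x) ↔ x ∈ (interIncl (k := k) (A := A) F).range := by
  constructor
  · intro h
    have := mem_range_interIncl_fixedField (k := k) (A := A) F.fixingSubgroup x h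
    rwa [hF] at this
  · rintro ⟨y, rfl⟩ σ hσ
    exact smul_interIncl_of_mem_fixingSubgroup F σ hσ y

/-- **Galois descent, possibly infinite**: for `L/K` Galois (algebraic, not necessarily finite),
the `Gal(L/K)`-invariants of `L ⊗[k] A` are `K ⊗[k] A`. -/
theorem fixed_iff_mem_range_baseIncl' [IsGalois K L] (x : L ⊗[k] A) :
    (∀ σ : L ≃ₐ[K] L, σ • x = x) ↔ x ∈ (baseIncl (k := k) (K := K) (L := L) (A := A)).range := by
  constructor
  · intro h
    let b := Module.Free.chooseBasis k A
    have hmem : ∀ i, (Algebra.TensorProduct.basis L b).repr x i ∈ (⊥ : IntermediateField K L) := by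
      intro i
      rw [InfiniteGalois.mem_bot_iff_fixed]
      intro σ
      rw [← repr_smul_tensorBasis, h σ]
    obtain ⟨y, hy⟩ := mem_range_interIncl_of_repr_mem (k := k) b ⊥ x hmem
    -- transport along `K ≃ ⊥`
    let e : (⊥ : IntermediateField K L) →ₐ[k] K :=
      ((IntermediateField.botEquiv K L).restrictScalars k).toAlgHom
    have key : ∀ y : (⊥ : IntermediateField K L) ⊗[k] A,
        baseIncl (k := k) (K := K) (L := L) (A := A)
          (Algebra.TensorProduct.map e (AlgHom.id k A) y) =
        interIncl (k := k) (A := A) (⊥ : IntermediateField K L) y := by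
      intro y
      induction y using TensorProduct.induction_on with
      | zero => simp
      | tmul z a =>
        simp only [Algebra.TensorProduct.map_tmul, baseIncl_tmul, interIncl_tmul, AlgHom.coe_id,
          id]
        congr 1
        obtain ⟨z, hz⟩ := z
        obtain ⟨c, rfl⟩ := IntermediateField.mem_bot.mp hz
        show algebraMap K L (IntermediateField.botEquiv K L _) = _
        have : (⟨algebraMap K L c, hz⟩ : (⊥ : IntermediateField K L)) =
            algebraMap K (⊥ : IntermediateField K L) c := rfl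
        rw [this, IntermediateField.botEquiv_def]
        rfl
      | add y z hy hz => simp only [map_add, hy, hz]
    exact ⟨Algebra.TensorProduct.map e (AlgHom.id k A) y, (key y).trans hy⟩
  · rintro ⟨y, rfl⟩ σ
    exact smul_baseIncl σ y

end Descent2

/-! ### Units of `L ⊗[k] A`: principal elements, class group -/

section Units

variable (k A : Type*) [CommRing k] [CommRing A] [Algebra k A]

/-- The principal elements: `Lˣ → (L ⊗[k] A)ˣ`. -/
def tPrincipal (L : Type*) [CommRing L] [Algebra k L] : Lˣ →* (L ⊗[k] A)ˣ :=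
  Units.map (algebraMap L (L ⊗[k] A)).toMonoidHom

@[simp] theorem coe_tPrincipal (L : Type*) [CommRing L] [Algebra k L] (x : Lˣ) :
    ((tPrincipal k A L x : (L ⊗[k] A)ˣ) : L ⊗[k] A) = (x : L) ⊗ₜ[k] (1 : A) := rfl

/-- The class group `(L ⊗[k] A)ˣ / Lˣ`. -/
abbrev tClass (L : Type*) [CommRing L] [Algebra k L] : Type _ :=
  (L ⊗[k] A)ˣ ⧸ (tPrincipal k A L).range

variable {k A}

section Galois

variable {K L : Type*} [CommRing K] [CommRing L] [Algebra k K] [Algebra k L] [Algebra K L]
  [IsScalarTower k K L]

/-- The principal elements are stable under the Galois action, equivariantly. -/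
theorem smul_tPrincipal (σ : L ≃ₐ[K] L) (x : Lˣ) :
    σ • tPrincipal k A L x = tPrincipal k A L (σ • x) := by
  ext
  show σ • ((x : L) ⊗ₜ[k] (1 : A)) = _
  rw [smul_tmul_left]
  rfl

/-- The action of `σ ∈ Gal(L/K)` on the class group. -/
def tClassMap (σ : L ≃ₐ[K] L) : tClass k A L →* tClass k A L :=
  QuotientGroup.map _ _ (MulDistribMulAction.toMonoidHom ((L ⊗[k] A)ˣ) σ) (by
    rintro _ ⟨x, rfl⟩
    exact ⟨σ • x, (smul_tPrincipal σ x).symm⟩)

@[simp] theorem tClassMap_mk (σ : L ≃ₐ[K] L) (x : (L ⊗[k] A)ˣ) :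
    tClassMap σ (QuotientGroup.mk x : tClass k A L) = QuotientGroup.mk (σ • x) := rfl

/-- `Gal(L/K)` acts on the class group `(L ⊗[k] A)ˣ / Lˣ`. -/
instance tClassAction : MulDistribMulAction (L ≃ₐ[K] L) (tClass k A L) where
  smul σ c := tClassMap σ c
  one_smul c := by
    induction c using QuotientGroup.induction_on with
    | H x => show tClassMap (1 : L ≃ₐ[K] L) (QuotientGroup.mk x) = _; simp
  mul_smul σ τ c := by
    induction c using QuotientGroup.induction_on with
    | H x =>
      show tClassMap (σ * τ) (QuotientGroup.mk x) =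
        tClassMap σ (tClassMap τ (QuotientGroup.mk x))
      simp [mul_smul]
  smul_mul σ c d := map_mul (tClassMap σ) c d
  smul_one σ := map_one (tClassMap σ)

@[simp] theorem smul_tClass_mk (σ : L ≃ₐ[K] L) (x : (L ⊗[k] A)ˣ) :
    σ • (QuotientGroup.mk x : tClass k A L) = QuotientGroup.mk (σ • x) := rfl

end Galois

/-! ### Base change along `K → L` -/

section BaseChange

variable (k A)
variable (K L : Type*) [CommRing K] [CommRing L] [Algebra k K] [Algebra k L] [Algebra K L]
  [IsScalarTower k K L]

/-- The natural map `K ⊗[k] A → L ⊗[k] A` (commutative rings). -/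
def tRingMap : K ⊗[k] A →ₐ[k] L ⊗[k] A :=
  Algebra.TensorProduct.map (IsScalarTower.toAlgHom k K L) (AlgHom.id k A)

@[simp] theorem tRingMap_tmul (x : K) (a : A) :
    tRingMap k A K L (x ⊗ₜ[k] a) = algebraMap K L x ⊗ₜ[k] a := rfl

/-- The natural map `(K ⊗[k] A)ˣ → (L ⊗[k] A)ˣ`. -/
def tMap : (K ⊗[k] A)ˣ →* (L ⊗[k] A)ˣ := Units.map (tRingMap k A K L).toRingHom.toMonoidHom

@[simp] theorem coe_tMap (x : (K ⊗[k] A)ˣ) :
    ((tMap k A K L x : (L ⊗[k] A)ˣ) : L ⊗[k] A) = tRingMap k A K L (x : K ⊗[k] A) := rfl

theorem tMap_tPrincipal (x : Kˣ) :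
    tMap k A K L (tPrincipal k A K x) =
      tPrincipal k A L (Units.map (algebraMap K L).toMonoidHom x) := by
  ext
  rfl

/-- The induced map on class groups. -/
def tClassBase : tClass k A K →* tClass k A L :=
  QuotientGroup.map _ _ (tMap k A K L) (by
    rintro _ ⟨x, rfl⟩
    exact ⟨_, (tMap_tPrincipal k A K L x).symm⟩)

@[simp] theorem tClassBase_mk (x : (K ⊗[k] A)ˣ) :
    tClassBase k A K L (QuotientGroup.mk x) = QuotientGroup.mk (tMap k A K L x) := rfl

end BaseChange

end Units

/-! ### Fields: injectivity, descent, norm -/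

section Fields

variable (k A : Type*) [Field k] [CommRing A] [Algebra k A]
variable (K L : Type*) [Field K] [Field L] [Algebra k K] [Algebra k L] [Algebra K L]
  [IsScalarTower k K L]

theorem tRingMap_eq_baseIncl :
    tRingMap k A K L = baseIncl (k := k) (K := K) (L := L) (A := A) := rfl

theorem tRingMap_injective : Function.Injective (tRingMap k A K L) :=
  baseIncl_injective

theorem tMap_injective : Function.Injective (tMap k A K L) :=
  Units.map_injective (tRingMap_injective k A K L)

/-- `L → L ⊗[k] A` is injective when `A` is nontrivial. -/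
theorem algebraMap_tensor_injective [Nontrivial A] :
    Function.Injective (algebraMap L (L ⊗[k] A)) :=
  Algebra.TensorProduct.includeLeft_injective (S := L) (A := L) (B := A)
    (algebraMap k A).injective

theorem tPrincipal_injective [Nontrivial A] : Function.Injective (tPrincipal k A L) :=
  Units.map_injective (algebraMap_tensor_injective k A L)

/-- `Gal(L/K)` fixes the image of `K ⊗[k] A`. -/
theorem smul_tRingMap (σ : L ≃ₐ[K] L) (x : K ⊗[k] A) :
    σ • tRingMap k A K L x = tRingMap k A K L x :=
  smul_baseIncl σ x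

theorem smul_tMap (σ : L ≃ₐ[K] L) (x : (K ⊗[k] A)ˣ) : σ • tMap k A K L x = tMap k A K L x := by
  ext
  exact smul_tRingMap k A K L σ x

/-- **Galois descent** (finite or infinite Galois): `(L ⊗[k] A)^{Gal(L/K)} = K ⊗[k] A`. -/
theorem tensor_fixed_iff [IsGalois K L] (x : L ⊗[k] A) :
    (∀ σ : L ≃ₐ[K] L, σ • x = x) ↔ x ∈ (tRingMap k A K L).range :=
  fixed_iff_mem_range_baseIncl' x

/-- **Galois descent for units**: `((L ⊗[k] A)ˣ)^{Gal(L/K)} = (K ⊗[k] A)ˣ`. -/
theorem units_fixed_iff [IsGalois K L] (x : (L ⊗[k] A)ˣ) :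
    (∀ σ : L ≃ₐ[K] L, σ • x = x) ↔ x ∈ (tMap k A K L).range := by
  constructor
  · intro h
    have h1 : ∀ σ : L ≃ₐ[K] L, σ • (x : L ⊗[k] A) = x := fun σ => by
      have := congrArg Units.val (h σ); simpa using this
    have h2 : ∀ σ : L ≃ₐ[K] L,
        σ • ((x⁻¹ : (L ⊗[k] A)ˣ) : L ⊗[k] A) = (x⁻¹ : (L ⊗[k] A)ˣ) := fun σ => by
      have := congrArg (fun u : (L ⊗[k] A)ˣ => ((u⁻¹ : (L ⊗[k] A)ˣ) : L ⊗[k] A)) (h σ)
      simpa using this
    obtain ⟨y, hy⟩ := (tensor_fixed_iff k A K L _).mp h1
    obtain ⟨z, hz⟩ := (tensor_fixed_iff k A K L _).mp h2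
    have hy' : tRingMap k A K L y = x := hy
    have hz' : tRingMap k A K L z = (x⁻¹ : (L ⊗[k] A)ˣ) := hz
    have hyz : y * z = 1 := by
      apply tRingMap_injective k A K L
      rw [map_mul, map_one, hy', hz', Units.mul_inv]
    refine ⟨⟨y, z, hyz, by rw [mul_comm]; exact hyz⟩, ?_⟩
    ext
    exact hy
  · rintro ⟨y, rfl⟩ σ
    exact smul_tMap k A K L σ y

/-- The Galois norm element `∏ σ, σ • x`. -/
def tGalNormElt [FiniteDimensional K L] (x : (L ⊗[k] A)ˣ) : (L ⊗[k] A)ˣ :=
  ∏ σ : L ≃ₐ[K] L, σ • x

theorem smul_tGalNormElt [FiniteDimensional K L] (τ : L ≃ₐ[K] L) (x : (L ⊗[k] A)ˣ) :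
    τ • tGalNormElt k A K L x = tGalNormElt k A K L x := by
  unfold tGalNormElt
  rw [Finset.smul_prod']
  exact Fintype.prod_equiv (Equiv.mulLeft τ) _ _ (fun σ => by simp [mul_smul])

theorem exists_tMap_eq_tGalNormElt [FiniteDimensional K L] [IsGalois K L] (x : (L ⊗[k] A)ˣ) :
    ∃ y : (K ⊗[k] A)ˣ, tMap k A K L y = tGalNormElt k A K L x :=
  (units_fixed_iff k A K L _).mp (fun τ => smul_tGalNormElt k A K L τ x)

/-- The norm `N_{L/K} : (L ⊗[k] A)ˣ → (K ⊗[k] A)ˣ` for a finite Galois extension, defined by
`tMap (N x) = ∏ σ, σ • x`. -/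
def tNorm [FiniteDimensional K L] [IsGalois K L] : (L ⊗[k] A)ˣ →* (K ⊗[k] A)ˣ where
  toFun x := (exists_tMap_eq_tGalNormElt k A K L x).choose
  map_one' := by
    apply tMap_injective k A K L
    rw [(exists_tMap_eq_tGalNormElt k A K L 1).choose_spec, map_one]
    simp [tGalNormElt]
  map_mul' x y := by
    apply tMap_injective k A K L
    rw [(exists_tMap_eq_tGalNormElt k A K L (x * y)).choose_spec, map_mul,
      (exists_tMap_eq_tGalNormElt k A K L x).choose_spec,
      (exists_tMap_eq_tGalNormElt k A K L y).choose_spec]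
    simp [tGalNormElt, smul_mul', Finset.prod_mul_distrib]

theorem tMap_tNorm [FiniteDimensional K L] [IsGalois K L] (x : (L ⊗[k] A)ˣ) :
    tMap k A K L (tNorm k A K L x) = ∏ σ : L ≃ₐ[K] L, σ • x :=
  (exists_tMap_eq_tGalNormElt k A K L x).choose_spec

/-- The norm of a principal element is the principal element of the field norm. -/
theorem tNorm_tPrincipal [FiniteDimensional K L] [IsGalois K L] (x : Lˣ) :
    tNorm k A K L (tPrincipal k A L x) =
      tPrincipal k A K (Units.map (Algebra.norm K : L →* K) x) := by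
  apply tMap_injective k A K L
  rw [tMap_tNorm, tMap_tPrincipal]
  simp only [smul_tPrincipal]
  rw [← map_prod]
  congr 1
  ext
  simp only [Units.coe_prod, Units.coe_map, MonoidHom.coe_coe, RingHom.toMonoidHom_eq_coe,
    Algebra.norm_eq_prod_automorphisms]
  rfl

/-- The norm of an element coming from `K` is its `[L:K]`-th power. -/
theorem tNorm_tMap [FiniteDimensional K L] [IsGalois K L] (y : (K ⊗[k] A)ˣ) :
    tNorm k A K L (tMap k A K L y) = y ^ Module.finrank K L := by
  apply tMap_injective k A K L
  rw [tMap_tNorm, map_pow]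
  simp only [smul_tMap, Finset.prod_const, Finset.card_univ]
  rw [← Nat.card_eq_fintype_card, IsGalois.card_aut_eq_finrank]

/-- The norm is Galois invariant. -/
theorem tNorm_smul [FiniteDimensional K L] [IsGalois K L] (τ : L ≃ₐ[K] L) (x : (L ⊗[k] A)ˣ) :
    tNorm k A K L (τ • x) = tNorm k A K L x := by
  apply tMap_injective k A K L
  rw [tMap_tNorm, tMap_tNorm]
  exact Fintype.prod_equiv (Equiv.mulRight τ) _ _ (fun σ => by simp [mul_smul])

end Fields

end

end Fermat.Agent.CFT.H42
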