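/-
CFT layer C, package C-DEF (helper42): the global Galois modules of the finite-idele
class formation (ruling #731: finite ideles only).

* `ideleFin L := (L ⊗[ℚ] AQf)ˣ`, `ideleClassFin L := ideleFin L / Lˣ` for any `ℚ`-algebra `L`;
* `Jbar := ideleFin Qbar`, `Ebar ≤ Jbar` the principal ideles, `Cbar := Jbar / Ebar`,
  with `G_ℚ`-action; the `Rep ℤ G_ℚ`'s `JRep`, `ERep`, `CRep`;
* `levelIdeles F ≤ Jbar` = image of `ideleFin F` = invariants of `F.fixingSubgroup`;
* local components `locAt q`, local integral units `locUnits L q`, unit ideles outside `S`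
  `unitIdeles L S`;
* `JS S := levelIdeles (QS S)`, `CSgroup S := JS S / ((Ebar ⊔ U_S) ∩ JS S)` with `G_ℚ`-action and
  `CSRep S : Rep ℤ G_ℚ`.
-/
import Mathlib
import Fermat.Agent.CFT.H42_AdeleDefs
import Fermat.Agent.CFT.H42_TensorUnits
import Fermat.Agent.CFT.H1_QS

namespace Fermat.Agent.CFT.H42

open scoped TensorProduct

noncomputable section

local notation "Qbar" => AlgebraicClosure ℚ
local notation "GQ" => (AlgebraicClosure ℚ ≃ₐ[ℚ] AlgebraicClosure ℚ)

/-! `Qbar/ℚ` is Galois (for the `ℚ`-algebra structure `DivisionRing.toRatAlgebra` that instance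
search finds on `AlgebraicClosure ℚ`, which is the one used by the frozen statements). -/

instance isAlgebraicQbar : Algebra.IsAlgebraic ℚ (AlgebraicClosure ℚ) :=
  AlgebraicClosure.isAlgebraic ℚ

instance isAlgClosureQbar : IsAlgClosure ℚ (AlgebraicClosure ℚ) :=
  ⟨inferInstance, inferInstance⟩

instance isGaloisQbar : IsGalois ℚ (AlgebraicClosure ℚ) := IsSepClosure.isGalois

/-! ### Finite ideles of a `ℚ`-algebra -/

/-- The finite ideles of a `ℚ`-algebra `L`. -/
abbrev ideleFin (L : Type*) [CommRing L] [Algebra ℚ L] : Type _ := (L ⊗[ℚ] AQf)ˣ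

/-- The principal finite ideles. -/
abbrev principalFin (L : Type*) [CommRing L] [Algebra ℚ L] : Lˣ →* ideleFin L :=
  tPrincipal ℚ AQf L

/-- The finite idele class group `ideleFin L / Lˣ`. -/
abbrev ideleClassFin (L : Type*) [CommRing L] [Algebra ℚ L] : Type _ := tClass ℚ AQf L

instance instNontrivialAQf : Nontrivial AQf :=
  ⟨⟨0, 1, fun h => by
    have := congrArg (AQf.proj ⟨2, Nat.prime_two⟩) h
    rw [map_zero, map_one] at this
    exact zero_ne_one this⟩⟩

/-- Instance shortcut: Lean's instance-level unifier fails to find this through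
`CommMagma.to_isCommutative` for the concrete coefficient ring `AQf`. -/
instance ideleFin_isMulCommutative (L : Type*) [CommRing L] [Algebra ℚ L] :
    IsMulCommutative (L ⊗[ℚ] AQf)ˣ :=
  ⟨⟨fun a b => mul_comm a b⟩⟩

instance locAlg_units_isMulCommutative (L : Type*) [CommRing L] [Algebra ℚ L] (q : Nat.Primes) :
    IsMulCommutative (L ⊗[ℚ] ℚ_[q])ˣ :=
  ⟨⟨fun a b => mul_comm a b⟩⟩

instance idele_isMulCommutative (L : Type*) [CommRing L] [Algebra ℚ L] :
    IsMulCommutative (L ⊗[ℚ] AQ)ˣ :=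
  ⟨⟨fun a b => mul_comm a b⟩⟩

/-- Local component of a finite idele at `q`. -/
def locAt (L : Type*) [CommRing L] [Algebra ℚ L] (q : Nat.Primes) :
    ideleFin L →* (L ⊗[ℚ] ℚ_[q])ˣ :=
  Units.map (adeleFin.toLoc (L := L) q).toRingHom.toMonoidHom

@[simp] theorem coe_locAt (L : Type*) [CommRing L] [Algebra ℚ L] (q : Nat.Primes)
    (x : ideleFin L) :
    ((locAt L q x : (L ⊗[ℚ] ℚ_[q])ˣ) : L ⊗[ℚ] ℚ_[q]) = adeleFin.toLoc q (x : L ⊗[ℚ] AQf) := rfl

section GaloisLoc

variable {K L : Type*} [CommRing K] [CommRing L] [Algebra ℚ K] [Algebra ℚ L] [Algebra K L]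
  [IsScalarTower ℚ K L]

theorem locAt_smul (q : Nat.Primes) (σ : L ≃ₐ[K] L) (x : ideleFin L) :
    locAt L q (σ • x) = σ • locAt L q x := by
  ext
  exact adeleFin.toLoc_smul q σ (x : L ⊗[ℚ] AQf)

end GaloisLoc

/-! ### Local integral units -/

section LocUnits

variable (L : Type*) [CommRing L] [Algebra ℚ L] (q : Nat.Primes)

/-- The structure map `ℤ_[q] → L ⊗[ℚ] ℚ_[q]`. -/
def padicIntToLoc : ℤ_[q] →+* L ⊗[ℚ] ℚ_[q] :=
  (Algebra.TensorProduct.includeRight (R := ℚ) (A := L) (B := ℚ_[q])).toRingHom.comp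
    PadicInt.Coe.ringHom

@[simp] theorem padicIntToLoc_apply (a : ℤ_[q]) :
    padicIntToLoc L q a = (1 : L) ⊗ₜ[ℚ] (a : ℚ_[q]) := rfl

/-- The subring of `L ⊗[ℚ] ℚ_[q]` of elements integral over `ℤ_[q]`. -/
def locIntegers : Subring (L ⊗[ℚ] ℚ_[q]) where
  carrier := {y | (padicIntToLoc L q).IsIntegralElem y}
  mul_mem' ha hb := RingHom.IsIntegralElem.mul _ ha hb
  one_mem' := RingHom.isIntegralElem_one _
  add_mem' ha hb := RingHom.IsIntegralElem.add _ ha hb
  zero_mem' := RingHom.isIntegralElem_zero _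
  neg_mem' ha := RingHom.IsIntegralElem.neg _ ha

theorem mem_locIntegers_iff (y : L ⊗[ℚ] ℚ_[q]) :
    y ∈ locIntegers L q ↔ (padicIntToLoc L q).IsIntegralElem y := Iff.rfl

/-- The local integral units: units `u` of `L ⊗[ℚ] ℚ_[q]` with `u` and `u⁻¹` integral over
`ℤ_[q]`. -/
def locUnits : Subgroup (L ⊗[ℚ] ℚ_[q])ˣ where
  carrier := {u | (u : L ⊗[ℚ] ℚ_[q]) ∈ locIntegers L q ∧
    ((u⁻¹ : (L ⊗[ℚ] ℚ_[q])ˣ) : L ⊗[ℚ] ℚ_[q]) ∈ locIntegers L q}
  mul_mem' {a b} ha hb := by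
    refine ⟨?_, ?_⟩
    · rw [Units.val_mul]; exact (locIntegers L q).mul_mem ha.1 hb.1
    · rw [mul_inv, Units.val_mul]; exact (locIntegers L q).mul_mem ha.2 hb.2
  one_mem' := by
    refine ⟨?_, ?_⟩
    · rw [Units.val_one]; exact (locIntegers L q).one_mem
    · rw [inv_one, Units.val_one]; exact (locIntegers L q).one_mem
  inv_mem' {a} ha := by
    refine ⟨ha.2, ?_⟩
    rw [inv_inv]; exact ha.1

theorem mem_locUnits_iff (u : (L ⊗[ℚ] ℚ_[q])ˣ) :
    u ∈ locUnits L q ↔ (u : L ⊗[ℚ] ℚ_[q]) ∈ locIntegers L q ∧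
      ((u⁻¹ : (L ⊗[ℚ] ℚ_[q])ˣ) : L ⊗[ℚ] ℚ_[q]) ∈ locIntegers L q := Iff.rfl

end LocUnits

section LocUnitsGalois

variable {K L : Type*} [CommRing K] [CommRing L] [Algebra ℚ K] [Algebra ℚ L] [Algebra K L]
  [IsScalarTower ℚ K L] (q : Nat.Primes)

theorem smul_padicIntToLoc (σ : L ≃ₐ[K] L) (a : ℤ_[q]) :
    σ • padicIntToLoc L q a = padicIntToLoc L q a := by
  rw [padicIntToLoc_apply, smul_tmul_left, map_one]

theorem smul_mem_locIntegers (σ : L ≃ₐ[K] L) {y : L ⊗[ℚ] ℚ_[q]} (hy : y ∈ locIntegers L q) :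
    σ • y ∈ locIntegers L q := by
  obtain ⟨P, hP, hPy⟩ := (mem_locIntegers_iff L q y).mp hy
  refine (mem_locIntegers_iff L q _).mpr ⟨P, hP, ?_⟩
  -- apply the ring automorphism `σ` to the integrality equation
  let f : (L ⊗[ℚ] ℚ_[q]) →+* (L ⊗[ℚ] ℚ_[q]) :=
    MulSemiringAction.toRingHom (L ≃ₐ[K] L) (L ⊗[ℚ] ℚ_[q]) σ
  have hf : f.comp (padicIntToLoc L q) = padicIntToLoc L q := by
    ext a
    exact smul_padicIntToLoc q σ a
  have := congrArg f hPy
  rw [map_zero, Polynomial.hom_eval₂, hf] at this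
  exact this

theorem smul_mem_locUnits (σ : L ≃ₐ[K] L) {u : (L ⊗[ℚ] ℚ_[q])ˣ} (hu : u ∈ locUnits L q) :
    σ • u ∈ locUnits L q := by
  refine ⟨smul_mem_locIntegers q σ hu.1, ?_⟩
  have : ((σ • u)⁻¹ : (L ⊗[ℚ] ℚ_[q])ˣ) = σ • u⁻¹ := (smul_inv' σ u).symm
  rw [this]
  exact smul_mem_locIntegers q σ hu.2

end LocUnitsGalois

/-! ### Unit ideles outside `S` -/

/-- `U_{L,S}`: finite ideles of `L` with component `1` at every `q ∈ S` and an integral unit
component at every `q ∉ S`. -/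
def unitIdeles (L : Type*) [CommRing L] [Algebra ℚ L] (S : Finset Nat.Primes) :
    Subgroup (ideleFin L) where
  carrier := {x | (∀ q ∈ S, locAt L q x = 1) ∧ ∀ q ∉ S, locAt L q x ∈ locUnits L q}
  mul_mem' {a b} ha hb :=
    ⟨fun q hq => by rw [map_mul, ha.1 q hq, hb.1 q hq, one_mul],
     fun q hq => by rw [map_mul]; exact (locUnits L q).mul_mem (ha.2 q hq) (hb.2 q hq)⟩
  one_mem' := ⟨fun q _ => map_one _, fun q _ => by rw [map_one]; exact (locUnits L q).one_mem⟩
  inv_mem' {a} ha :=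
    ⟨fun q hq => by rw [map_inv, ha.1 q hq, inv_one],
     fun q hq => by rw [map_inv]; exact (locUnits L q).inv_mem (ha.2 q hq)⟩

theorem mem_unitIdeles_iff {L : Type*} [CommRing L] [Algebra ℚ L] {S : Finset Nat.Primes}
    {x : ideleFin L} :
    x ∈ unitIdeles L S ↔
      (∀ q ∈ S, locAt L q x = 1) ∧ ∀ q ∉ S, locAt L q x ∈ locUnits L q := Iff.rfl

theorem smul_mem_unitIdeles {K L : Type*} [CommRing K] [CommRing L] [Algebra ℚ K] [Algebra ℚ L]
    [Algebra K L] [IsScalarTower ℚ K L] {S : Finset Nat.Primes} (σ : L ≃ₐ[K] L)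
    {x : ideleFin L} (hx : x ∈ unitIdeles L S) : σ • x ∈ unitIdeles L S := by
  refine ⟨fun q hq => ?_, fun q hq => ?_⟩
  · rw [locAt_smul, hx.1 q hq, smul_one]
  · rw [locAt_smul]; exact smul_mem_locUnits q σ (hx.2 q hq)

/-! ### The global modules over `Qbar` -/

/-- `J := (Qbar ⊗[ℚ] AQf)ˣ`, the finite ideles of `Qbar`. -/
abbrev Jbar : Type := ideleFin Qbar

/-- The principal ideles `Qbarˣ ≤ J`. -/
def Ebar : Subgroup Jbar := (principalFin Qbar).range

/-- `C := J / Qbarˣ`, the finite idele class group of `Qbar`. -/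
abbrev Cbar : Type := ideleClassFin Qbar

/-- `J` as a `G_ℚ`-module. -/
def JRep : Rep.{0} ℤ GQ := Rep.ofMulDistribMulAction GQ Jbar

/-- `Qbarˣ` as a `G_ℚ`-module. -/
def ERep : Rep.{0} ℤ GQ := Rep.ofMulDistribMulAction GQ Qbarˣ

/-- `C = J / Qbarˣ` as a `G_ℚ`-module. -/
def CRep : Rep.{0} ℤ GQ := Rep.ofMulDistribMulAction GQ Cbar

theorem smul_mem_Ebar (σ : GQ) {x : Jbar} (hx : x ∈ Ebar) : σ • x ∈ Ebar := by
  obtain ⟨y, rfl⟩ := hx
  exact ⟨σ • y, (smul_tPrincipal σ y).symm⟩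

/-- The ideles of level `F`: the image of `ideleFin F` in `J`. -/
def levelIdeles (F : IntermediateField ℚ Qbar) : Subgroup Jbar :=
  (tMap ℚ AQf F Qbar).range

/-- `ideleFin F ≃ levelIdeles F`. -/
def levelIdelesEquiv (F : IntermediateField ℚ Qbar) : ideleFin F ≃* levelIdeles F :=
  MonoidHom.ofInjective (tMap_injective ℚ AQf F Qbar)

theorem tRingMap_eq_interIncl (F : IntermediateField ℚ Qbar) :
    tRingMap ℚ AQf F Qbar = interIncl (k := ℚ) (A := AQf) F := rfl

/-- The ideles of level `F` are the invariants of the fixing subgroup of `F` (any `F`). -/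
theorem mem_levelIdeles_iff (F : IntermediateField ℚ Qbar) (x : Jbar) :
    x ∈ levelIdeles F ↔ ∀ σ ∈ F.fixingSubgroup, σ • x = x := by
  have hF : IntermediateField.fixedField F.fixingSubgroup = F :=
    InfiniteGalois.fixedField_fixingSubgroup F
  constructor
  · rintro ⟨y, rfl⟩ σ hσ
    ext
    exact smul_interIncl_of_mem_fixingSubgroup F σ hσ (y : F ⊗[ℚ] AQf)
  · intro h
    have h1 : ∀ σ ∈ F.fixingSubgroup, σ • (x : Qbar ⊗[ℚ] AQf) = x := fun σ hσ => by
      have := congrArg Units.val (h σ hσ); simpa using this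
    have h2 : ∀ σ ∈ F.fixingSubgroup,
        σ • ((x⁻¹ : Jbar) : Qbar ⊗[ℚ] AQf) = (x⁻¹ : Jbar) := fun σ hσ => by
      have := congrArg (fun u : Jbar => ((u⁻¹ : Jbar) : Qbar ⊗[ℚ] AQf)) (h σ hσ)
      simpa using this
    obtain ⟨y, hy⟩ := (fixed_fixingSubgroup_iff (k := ℚ) (A := AQf) F hF _).mp h1
    obtain ⟨z, hz⟩ := (fixed_fixingSubgroup_iff (k := ℚ) (A := AQf) F hF _).mp h2
    have hy' : interIncl (k := ℚ) (A := AQf) F y = x := hy
    have hz' : interIncl (k := ℚ) (A := AQf) F z = (x⁻¹ : Jbar) := hz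
    have hyz : y * z = 1 := by
      apply interIncl_injective (k := ℚ) (A := AQf) F
      rw [map_mul, map_one, hy', hz', Units.mul_inv]
    refine ⟨⟨y, z, hyz, by rw [mul_comm]; exact hyz⟩, ?_⟩
    ext
    exact hy

theorem levelIdeles_mono {F F' : IntermediateField ℚ Qbar} (h : F ≤ F') :
    levelIdeles F ≤ levelIdeles F' := by
  intro x hx
  rw [mem_levelIdeles_iff] at hx ⊢
  exact fun σ hσ => hx σ (IntermediateField.fixingSubgroup_antitone h hσ)

/-- Galois translates of level ideles. -/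
theorem smul_mem_levelIdeles (F : IntermediateField ℚ Qbar) (σ : GQ) {x : Jbar}
    (hx : x ∈ levelIdeles F) : σ • x ∈ levelIdeles (F.map (σ : Qbar →ₐ[ℚ] Qbar)) := by
  rw [mem_levelIdeles_iff] at hx ⊢
  intro τ hτ
  have hconj : σ⁻¹ * τ * σ ∈ F.fixingSubgroup := by
    rw [IntermediateField.mem_fixingSubgroup_iff] at hτ ⊢
    intro y hy
    have := hτ (σ y) ⟨y, hy, rfl⟩
    show σ⁻¹ (τ (σ y)) = y
    rw [this]
    exact σ.symm_apply_apply y
  have := hx _ hconj
  rw [mul_smul, mul_smul] at this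
  have h2 := congrArg (fun z => σ • z) this
  simpa using h2

/-! ### The `S`-idele class module `C_S` -/

/-- `J(Q_S)`: the ideles of level `Q_S`. -/
def JS (S : Finset Nat.Primes) : Subgroup Jbar := levelIdeles (H1.QS S)

theorem smul_mem_JS {S : Finset Nat.Primes} (σ : GQ) {x : Jbar} (hx : x ∈ JS S) :
    σ • x ∈ JS S := by
  have h := smul_mem_levelIdeles (H1.QS S) σ hx
  have hle : (H1.QS S).map (σ : Qbar →ₐ[ℚ] Qbar) ≤ H1.QS S := by
    rintro _ ⟨y, hy, rfl⟩
    exact H1.smul_mem_QS σ hy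
  exact levelIdeles_mono hle h

/-- The subgroup `Qbarˣ · U_S` of `J` by which `J(Q_S)` is divided. -/
def CSden (S : Finset Nat.Primes) : Subgroup Jbar where
  carrier := {x | ∃ e ∈ Ebar, ∃ u ∈ unitIdeles Qbar S, e * u = x}
  mul_mem' := by
    rintro _ _ ⟨e, he, u, hu, rfl⟩ ⟨e', he', u', hu', rfl⟩
    exact ⟨e * e', Ebar.mul_mem he he', u * u', (unitIdeles Qbar S).mul_mem hu hu',
      mul_mul_mul_comm e e' u u'⟩
  one_mem' := ⟨1, Ebar.one_mem, 1, (unitIdeles Qbar S).one_mem, mul_one 1⟩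
  inv_mem' := by
    rintro _ ⟨e, he, u, hu, rfl⟩
    exact ⟨e⁻¹, Ebar.inv_mem he, u⁻¹, (unitIdeles Qbar S).inv_mem hu, (mul_inv e u).symm⟩

theorem mem_CSden_iff {S : Finset Nat.Primes} {x : Jbar} :
    x ∈ CSden S ↔ ∃ e ∈ Ebar, ∃ u ∈ unitIdeles Qbar S, e * u = x := Iff.rfl

theorem smul_mem_CSden {S : Finset Nat.Primes} (σ : GQ) {x : Jbar} (hx : x ∈ CSden S) :
    σ • x ∈ CSden S := by
  obtain ⟨e, he, u, hu, rfl⟩ := hx
  exact ⟨σ • e, smul_mem_Ebar σ he, σ • u, smul_mem_unitIdeles σ hu, (smul_mul' σ e u).symm⟩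

/-- The group `C_S = J(Q_S) / (J(Q_S) ∩ Qbarˣ · U_S)`. -/
abbrev CSgroup (S : Finset Nat.Primes) : Type := ↥(JS S) ⧸ (CSden S).subgroupOf (JS S)

instance CSgroup_commGroup (S : Finset Nat.Primes) : CommGroup (CSgroup S) :=
  { (inferInstance : Group (CSgroup S)) with
    mul_comm := by
      intro a b
      induction a using QuotientGroup.induction_on with
      | H a =>
        induction b using QuotientGroup.induction_on with
        | H b =>
          show (QuotientGroup.mk (a * b) : CSgroup S) = QuotientGroup.mk (b * a)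
          rw [mul_comm a b] }

/-- The action of `σ ∈ G_ℚ` on `J(Q_S)`. -/
def JSmap (S : Finset Nat.Primes) (σ : GQ) : ↥(JS S) →* ↥(JS S) where
  toFun x := ⟨σ • (x : Jbar), smul_mem_JS σ x.2⟩
  map_one' := Subtype.ext (smul_one σ)
  map_mul' x y := Subtype.ext (smul_mul' σ (x : Jbar) y)

instance JSaction (S : Finset Nat.Primes) : MulDistribMulAction GQ ↥(JS S) where
  smul σ x := JSmap S σ x
  one_smul x := Subtype.ext (one_smul GQ (x : Jbar))
  mul_smul σ τ x := Subtype.ext (mul_smul σ τ (x : Jbar))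
  smul_mul σ x y := map_mul (JSmap S σ) x y
  smul_one σ := map_one (JSmap S σ)

@[simp] theorem coe_smul_JS (S : Finset Nat.Primes) (σ : GQ) (x : ↥(JS S)) :
    ((σ • x : ↥(JS S)) : Jbar) = σ • (x : Jbar) := rfl

/-- The action of `σ ∈ G_ℚ` on `C_S`. -/
def CSmap (S : Finset Nat.Primes) (σ : GQ) : CSgroup S →* CSgroup S :=
  QuotientGroup.map _ _ (JSmap S σ) (by
    intro x hx
    rw [Subgroup.mem_comap, Subgroup.mem_subgroupOf] at *
    exact smul_mem_CSden σ hx)

@[simp] theorem CSmap_mk (S : Finset Nat.Primes) (σ : GQ) (x : ↥(JS S)) :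
    CSmap S σ (QuotientGroup.mk x) = QuotientGroup.mk (σ • x) := rfl

instance CSaction (S : Finset Nat.Primes) : MulDistribMulAction GQ (CSgroup S) where
  smul σ c := CSmap S σ c
  one_smul c := by
    induction c using QuotientGroup.induction_on with
    | H x => show CSmap S (1 : GQ) (QuotientGroup.mk x) = _; simp
  mul_smul σ τ c := by
    induction c using QuotientGroup.induction_on with
    | H x =>
      show CSmap S (σ * τ) (QuotientGroup.mk x) = CSmap S σ (CSmap S τ (QuotientGroup.mk x))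
      simp [mul_smul]
  smul_mul σ c d := map_mul (CSmap S σ) c d
  smul_one σ := map_one (CSmap S σ)

@[simp] theorem smul_CS_mk (S : Finset Nat.Primes) (σ : GQ) (x : ↥(JS S)) :
    σ • (QuotientGroup.mk x : CSgroup S) = QuotientGroup.mk (σ • x) := rfl

/-- `J(Q_S)` as a `G_ℚ`-module. -/
def JSRep (S : Finset Nat.Primes) : Rep.{0} ℤ GQ := Rep.ofMulDistribMulAction GQ ↥(JS S)

/-- The `S`-idele class module `C_S` as a `G_ℚ`-module. -/
def CSRep (S : Finset Nat.Primes) : Rep.{0} ℤ GQ := Rep.ofMulDistribMulAction GQ (CSgroup S)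

/-- The fixing subgroup of `Q_S` acts trivially on `J(Q_S)`. -/
theorem smul_JS_of_mem_fixingSubgroup {S : Finset Nat.Primes} (σ : GQ)
    (hσ : σ ∈ (H1.QS S).fixingSubgroup) (x : ↥(JS S)) : σ • x = x :=
  Subtype.ext ((mem_levelIdeles_iff (H1.QS S) x).mp x.2 σ hσ)

/-- The fixing subgroup of `Q_S` acts trivially on `C_S`. -/
theorem smul_CS_of_mem_fixingSubgroup {S : Finset Nat.Primes} (σ : GQ)
    (hσ : σ ∈ (H1.QS S).fixingSubgroup) (c : CSgroup S) : σ • c = c := by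
  induction c using QuotientGroup.induction_on with
  | H x => rw [smul_CS_mk, smul_JS_of_mem_fixingSubgroup σ hσ]

end

end Fermat.Agent.CFT.H42
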