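/-
CFT layer C, package C-LOC-induced (helper42), complement to (P2): "kernel form" of the hypotheses
of `H42_CoindRing` / `H42_CoindNorm` for `E = F ⊗[K] K₁` and an arbitrary ring homomorphism
`π : E →+* L` into a domain (e.g. an evaluation map into an algebraic closure of `K₁`), instead of
the quotient map `E → E ⧸ m`.
-/
import Mathlib
import Fermat.Agent.CFT.H42_TensorField

namespace Fermat.Agent.CFT.H42

open scoped TensorProduct Pointwise

noncomputable section

section KernelForm

variable (K F K₁ : Type*) [Field K] [Field F] [Field K₁] [Algebra K F] [Algebra K K₁]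
  [FiniteDimensional K F] [IsGalois K F]
  {L : Type*} [CommRing L] [IsDomain L] (π : F ⊗[K] K₁ →+* L)

omit [IsGalois K F] in
/-- The kernel of a ring hom from `F ⊗[K] K₁` to a domain is a maximal ideal. -/
theorem ker_isMaximal_of_isDomain : (RingHom.ker π).IsMaximal := by
  have := isArtinianRing_tensorField K F K₁
  have : (RingHom.ker π).IsPrime := RingHom.ker_isPrime π
  exact IsArtinianRing.isMaximal_of_isPrime _

/-- `hinf` for an arbitrary ring hom `π` into a domain. -/
theorem hinf_of_isDomain (x : F ⊗[K] K₁) (hx : ∀ σ : F ≃ₐ[K] F, π (σ • x) = 0) : x = 0 := by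
  have := ker_isMaximal_of_isDomain K F K₁ π
  apply tensorField_hinf K F K₁ (RingHom.ker π) x
  intro σ
  exact Ideal.Quotient.eq_zero_iff_mem.mpr (RingHom.mem_ker.mpr (hx σ))

omit [FiniteDimensional K F] [IsGalois K F] [IsDomain L] in
/-- Membership in the stabiliser of `ker π`, elementwise. -/
theorem mem_stabilizer_ker_iff (g : F ≃ₐ[K] F) :
    g ∈ MulAction.stabilizer (F ≃ₐ[K] F) (RingHom.ker π) ↔
      ∀ x : F ⊗[K] K₁, π (g • x) = 0 ↔ π x = 0 := by
  rw [MulAction.mem_stabilizer_iff]
  constructor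
  · intro h x
    rw [← RingHom.mem_ker, ← RingHom.mem_ker]
    conv_lhs => rw [← h]
    exact Ideal.smul_mem_pointwise_smul_iff
  · intro h
    ext x
    rw [Ideal.mem_pointwise_smul_iff_inv_smul_mem, RingHom.mem_ker, RingHom.mem_ker]
    have := h (g⁻¹ • x)
    rw [smul_inv_smul] at this
    exact this.symm

omit [IsGalois K F] in
/-- `hcop` for an arbitrary ring hom `π` into a domain and any subgroup `D` containing the
stabiliser of `ker π`. -/
theorem hcop_of_isDomain (D : Subgroup (F ≃ₐ[K] F))
    (hD : MulAction.stabilizer (F ≃ₐ[K] F) (RingHom.ker π) ≤ D) (g : F ≃ₐ[K] F) (hg : g ∉ D) :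
    RingHom.ker π ⊔ g • RingHom.ker π = ⊤ := by
  have := ker_isMaximal_of_isDomain K F K₁ π
  have h := quot_hcop (G := F ≃ₐ[K] F) (RingHom.ker π) g (fun h => hg (hD h))
  rwa [Ideal.mk_ker] at h

attribute [local instance] Algebra.TensorProduct.rightAlgebra

/-- For a surjective `K₁`-algebra hom `π : F ⊗[K] K₁ → L` onto a field: the stabiliser of
`ker π` has `[L : K₁]` elements. -/
theorem card_stabilizer_ker_eq_finrank {L : Type*} [Field L] [Algebra K₁ L]
    (π : F ⊗[K] K₁ →ₐ[K₁] L) (hπ : Function.Surjective π) :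
    Nat.card (MulAction.stabilizer (F ≃ₐ[K] F) (RingHom.ker π.toRingHom)) =
      Module.finrank K₁ L := by
  have := ker_isMaximal_of_isDomain K F K₁ π.toRingHom
  rw [card_stabilizer_eq_finrank K F K₁ (RingHom.ker π.toRingHom)]
  exact LinearEquiv.finrank_eq (Ideal.quotientKerAlgEquivOfSurjective hπ).toLinearEquiv

/-- A subgroup contained in the stabiliser of `ker π` with `[L : K₁]` elements is the
stabiliser. -/
theorem eq_stabilizer_ker_of_card {L : Type*} [Field L] [Algebra K₁ L]
    (π : F ⊗[K] K₁ →ₐ[K₁] L) (hπ : Function.Surjective π) (D : Subgroup (F ≃ₐ[K] F))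
    (hD : D ≤ MulAction.stabilizer (F ≃ₐ[K] F) (RingHom.ker π.toRingHom))
    (hcard : Nat.card D = Module.finrank K₁ L) :
    D = MulAction.stabilizer (F ≃ₐ[K] F) (RingHom.ker π.toRingHom) := by
  apply Subgroup.eq_of_le_of_card_ge hD
  rw [hcard, card_stabilizer_ker_eq_finrank K F K₁ π hπ]

end KernelForm

end

end Fermat.Agent.CFT.H42
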