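/-
CFT project, layer B, package B-MAPS (helper43), tower part: for a tower `K ⊆ F ⊆ M` of abstract
fields the maps `Loc.infl` / `Loc.rest` of `LocMaps.lean` are the abstract `infTop` / `resSub`
(for the subgroup `kerSub K F M = ker(Gal(M/K) → Gal(F/K))`) up to the transport isomorphisms of
`H43_Maps`.
-/
import Mathlib
import Fermat.Agent.CFT.LocMaps
import Fermat.Agent.CFT.H91_Formation
import Fermat.Agent.CFT.H43_Maps

set_option autoImplicit false

open CategoryTheory groupCohomology

namespace Fermat.Agent.CFT.H43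

open Fermat.Agent.CFT.Loc

section Tower

variable (K F M : Type) [Field K] [Field F] [Field M] [Algebra K F] [Algebra K M] [Algebra F M]
  [IsScalarTower K F M]

/-- The kernel of the restriction `Gal(M/K) → Gal(F/K)`. -/
noncomputable abbrev kerSub [Normal K F] : Subgroup (M ≃ₐ[K] M) :=
  (AlgEquiv.restrictNormalHom F : (M ≃ₐ[K] M) →* (F ≃ₐ[K] F)).ker

lemma mem_kerSub_iff [Normal K F] (σ : M ≃ₐ[K] M) :
    σ ∈ kerSub K F M ↔ ∀ y : F, σ (algebraMap F M y) = algebraMap F M y := by
  rw [MonoidHom.mem_ker]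
  constructor
  · intro h y
    rw [← AlgEquiv.restrictNormal_commutes σ F y]
    have : AlgEquiv.restrictNormal σ F = 1 := h
    rw [this]; rfl
  · intro h
    apply AlgEquiv.ext
    intro y
    apply (algebraMap F M).injective
    have := AlgEquiv.restrictNormal_commutes σ F y
    rw [h] at this
    exact this

/-- `Gal(M/F) ≃* ker(Gal(M/K) → Gal(F/K))`. -/
noncomputable def galKerEquiv [Normal K F] : (M ≃ₐ[F] M) ≃* kerSub K F M where
  toFun τ := ⟨τ.restrictScalars K, (mem_kerSub_iff K F M _).2 fun y => τ.commutes y⟩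
  invFun σ := { (σ : M ≃ₐ[K] M) with commutes' := fun y => (mem_kerSub_iff K F M _).1 σ.2 y }
  left_inv τ := by ext; rfl
  right_inv σ := by ext; rfl
  map_mul' a b := by ext; rfl

lemma galKerEquiv_coe [Normal K F] (τ : M ≃ₐ[F] M) :
    ((galKerEquiv K F M τ : kerSub K F M) : M ≃ₐ[K] M) = AlgEquiv.restrictScalarsHom K τ := rfl

/-- (T3) for a tower: the restriction of `Mˣ` to `ker(Gal(M/K) → Gal(F/K))` is the
`Gal(M/F)`-module `Mˣ`. -/
noncomputable def kerPairEquiv [Normal K F] :
    PairEquiv (Rep.res (kerSub K F M).subtype (Rep.ofAlgebraAutOnUnits K M))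
      (Rep.ofAlgebraAutOnUnits F M) where
  e := (galKerEquiv K F M).symm
  φ := LinearEquiv.refl ℤ _
  comm _ _ := rfl

/-- `Loc.rest` is restriction to the kernel subgroup followed by the transport isomorphism. -/
lemma rest_eq [Normal K F] (n : ℕ) :
    rest K F M n = resSub (Rep.ofAlgebraAutOnUnits K M) (kerSub K F M) n ≫
      ((kerPairEquiv K F M).cohIso n).hom := by
  rw [PairEquiv.cohIso_hom]
  unfold rest resSub
  rw [← groupCohomology.map_comp]
  refine groupCohomology.map_congr ?_ ?_ n
  · ext τ x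
    rfl
  · rfl

/-- units of `F` inside the units of `M` -/
noncomputable def unitsMap : Fˣ →* Mˣ := Units.map (algebraMap F M : F →* M)

lemma unitsMap_injective : Function.Injective (unitsMap F M) := by
  intro a b h
  ext
  exact (algebraMap F M).injective (congrArg (fun x : Mˣ => (x : M)) h)

/-- A unit of `M` fixed by `ker(Gal(M/K) → Gal(F/K))` comes from `F`. -/
lemma exists_unitsMap_eq [Normal K F] [IsGalois K M] (x : Mˣ)
    (hx : ∀ σ : M ≃ₐ[K] M, σ ∈ kerSub K F M → σ (x : M) = (x : M)) :
    ∃ u : Fˣ, unitsMap F M u = x := by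
  set E : IntermediateField K M := (IsScalarTower.toAlgHom K F M).fieldRange with hE
  have hmem : (x : M) ∈ E := by
    rw [← InfiniteGalois.fixedField_fixingSubgroup E, IntermediateField.mem_fixedField_iff]
    intro σ hσ
    apply hx σ
    rw [mem_kerSub_iff]
    intro y
    exact (IntermediateField.mem_fixingSubgroup_iff _ _).1 hσ _ ⟨y, rfl⟩
  obtain ⟨y, hy⟩ := hmem
  have hy' : algebraMap F M y = (x : M) := hy
  have hy0 : y ≠ 0 := by
    rintro rfl
    rw [map_zero] at hy'
    exact x.ne_zero hy'.symm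
  exact ⟨Units.mk0 y hy0, Units.ext hy'⟩

/-- the units of `F` inside the invariants of `Mˣ` under the kernel subgroup -/
noncomputable def unitsToKerInv [Normal K F] :
    Additive Fˣ →+
      ((Rep.ofAlgebraAutOnUnits K M).quotientToInvariants (kerSub K F M)).V where
  toFun u := ⟨Additive.ofMul (unitsMap F M u.toMul), fun σ => by
    apply Additive.toMul.injective
    apply Units.ext
    exact (mem_kerSub_iff K F M σ.1).1 σ.2 _⟩
  map_zero' := by
    apply Subtype.ext
    change Additive.ofMul (unitsMap F M 1) = 0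
    rw [map_one]; rfl
  map_add' a b := by
    apply Subtype.ext
    change Additive.ofMul (unitsMap F M (a.toMul * b.toMul)) = _
    rw [map_mul]; rfl

lemma unitsToKerInv_bijective [Normal K F] [IsGalois K M] :
    Function.Bijective (unitsToKerInv K F M) := by
  constructor
  · intro a b h
    have h1 : Additive.ofMul (unitsMap F M a.toMul) = Additive.ofMul (unitsMap F M b.toMul) :=
      congrArg Subtype.val h
    exact Additive.toMul.injective (unitsMap_injective F M (Additive.ofMul.injective h1))
  · rintro ⟨x, hx⟩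
    obtain ⟨u, hu⟩ := exists_unitsMap_eq K F M (Additive.toMul x) (fun σ hσ => by
      have := hx ⟨σ, hσ⟩
      exact congrArg (fun z : Additive Mˣ => ((Additive.toMul z : Mˣ) : M)) this)
    refine ⟨Additive.ofMul u, Subtype.ext ?_⟩
    change Additive.ofMul (unitsMap F M u) = x
    rw [hu]; rfl

/-- `Additive Fˣ ≃ₗ[ℤ] (Mˣ)^{Gal(M/F)}` -/
noncomputable def unitsKerInvEquiv [Normal K F] [IsGalois K M] :
    (Rep.ofAlgebraAutOnUnits K F).V ≃ₗ[ℤ]
      ((Rep.ofAlgebraAutOnUnits K M).quotientToInvariants (kerSub K F M)).V :=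
  LinearEquiv.ofBijective
    { toFun := unitsToKerInv K F M
      map_add' := (unitsToKerInv K F M).map_add
      map_smul' := fun n x => by
        simp only [eq_intCast, Int.cast_id]
        exact map_zsmul (unitsToKerInv K F M) n x }
    (unitsToKerInv_bijective K F M)

/-- `Gal(M/K) ⧸ ker ≃* Gal(F/K)`. -/
noncomputable def quotKerEquiv [Normal K F] [Normal K M] :
    (M ≃ₐ[K] M) ⧸ kerSub K F M ≃* (F ≃ₐ[K] F) :=
  QuotientGroup.quotientKerEquivOfSurjective _ (AlgEquiv.restrictNormalHom_surjective M)

lemma quotKerEquiv_mk [Normal K F] [Normal K M] (σ : M ≃ₐ[K] M) :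
    quotKerEquiv K F M (QuotientGroup.mk σ) = AlgEquiv.restrictNormalHom F σ := rfl

/-- (T1) for a tower: `(Gal(F/K), Fˣ) ≃ (Gal(M/K) ⧸ Gal(M/F), (Mˣ)^{Gal(M/F)})`. -/
noncomputable def towerPairEquiv [Normal K F] [IsGalois K M] :
    PairEquiv (Rep.ofAlgebraAutOnUnits K F)
      ((Rep.ofAlgebraAutOnUnits K M).quotientToInvariants (kerSub K F M)) where
  e := (quotKerEquiv K F M).symm
  φ := unitsKerInvEquiv K F M
  comm g a := by
    obtain ⟨σ, rfl⟩ := AlgEquiv.restrictNormalHom_surjective M g
    have h1 : (quotKerEquiv K F M).symm (AlgEquiv.restrictNormalHom F σ) =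
        QuotientGroup.mk σ := by
      rw [MulEquiv.symm_apply_eq]; rfl
    rw [h1]
    apply Subtype.ext
    apply Additive.toMul.injective
    apply Units.ext
    change algebraMap F M ((AlgEquiv.restrictNormalHom F σ)
        ((Additive.toMul (a : Additive Fˣ) : Fˣ) : F)) =
      σ (algebraMap F M ((Additive.toMul (a : Additive Fˣ) : Fˣ) : F))
    exact AlgEquiv.restrictNormal_commutes σ F _

/-- `Loc.infl` is the transport isomorphism followed by the abstract inflation `infTop`. -/
lemma infl_eq [Normal K F] [IsGalois K M] (n : ℕ) :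
    infl K F M n = ((towerPairEquiv K F M).cohIso n).hom ≫
      infTop (Rep.ofAlgebraAutOnUnits K M) (kerSub K F M) n := by
  rw [PairEquiv.cohIso_hom]
  unfold infl infTop
  rw [← groupCohomology.map_comp]
  refine groupCohomology.map_congr ?_ ?_ n
  · ext σ x
    rfl
  · rfl

end Tower

end Fermat.Agent.CFT.H43
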