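/-
CFT project, layer B, package B-MAPS / Ω3 (helper43): naturality of the transport isomorphisms
`τ_E = (unitsPairEquiv E).cohIso n : Hⁿ(Gal(E/K), Eˣ) ≅ Hⁿ(Γ/U_E, (Ωˣ)^{U_E})`
(`Γ = Gal(Ω/K)`, `U_E = E.fixingSubgroup`, `Ω/K` Galois, possibly infinite):

* `cohIso_comp_infLevel` : `τ_F ≫ infLevel C U_F U_M = Loc.infl K F M ≫ τ_M`;
* `cohIso_comp_infTop`   : `τ_F ≫ infTop C U_F = Loc.infl K F Ω`;
* `cohIso_comp_resSub`   : `τ_M ≫ resSub (C^{U_M}) (U_F/U_M) ≫ (iso) = Loc.rest K F M`.
-/
import Mathlib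
import Fermat.Agent.CFT.LocMaps
import Fermat.Agent.CFT.H91_Formation
import Fermat.Agent.CFT.H15_InfLevel
import Fermat.Agent.CFT.H43_Maps
import Fermat.Agent.CFT.H43_MapsGalois
import Fermat.Agent.CFT.H43_Tower

set_option autoImplicit false

open CategoryTheory groupCohomology

namespace Fermat.Agent.CFT.H43

open Fermat.Agent.CFT.Loc

section PairLemmas

variable {k : Type} [CommRing k] {G G' G'' : Type} [Group G] [Group G'] [Group G'']
variable {A : Rep.{0} k G} {A' : Rep.{0} k G'} {A'' : Rep.{0} k G''}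

lemma PairEquiv.cohIso_trans_hom (E : PairEquiv A A') (E' : PairEquiv A' A'') (n : ℕ) :
    ((E.trans E').cohIso n).hom = (E.cohIso n).hom ≫ (E'.cohIso n).hom := by
  rw [PairEquiv.cohIso_hom, PairEquiv.cohIso_hom, PairEquiv.cohIso_hom,
    ← groupCohomology.map_comp]
  refine groupCohomology.map_congr ?_ ?_ n
  · ext g
    rfl
  · rfl

lemma PairEquiv.cohIso_hom_comp_symm (E : PairEquiv A A') (n : ℕ) :
    (E.cohIso n).hom ≫ (E.symm.cohIso n).hom = 𝟙 _ := by
  rw [PairEquiv.cohIso_hom, PairEquiv.cohIso_hom, ← groupCohomology.map_comp,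
    ← groupCohomology.map_id]
  refine groupCohomology.map_congr ?_ ?_ n
  · ext g
    exact E.e.symm_apply_apply g
  · ext x
    exact E.φ.symm_apply_apply x

lemma PairEquiv.cohIso_symm_hom (E : PairEquiv A A') (n : ℕ) :
    (E.symm.cohIso n).hom = (E.cohIso n).inv := by
  rw [← cancel_epi (E.cohIso n).hom, PairEquiv.cohIso_hom_comp_symm, Iso.hom_inv_id]

end PairLemmas

section LE

variable {K Ω : Type} [Field K] [Field Ω] [Algebra K Ω]

/-- The algebra structure `F → M` for intermediate fields `F ≤ M` (not an instance). -/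
@[reducible] noncomputable def algOfLE {F M : IntermediateField K Ω} (h : F ≤ M) : Algebra F M :=
  (IntermediateField.inclusion h).toRingHom.toAlgebra

lemma isScalarTower_ofLE_left {F M : IntermediateField K Ω} (h : F ≤ M) :
    letI := algOfLE h
    IsScalarTower K F M := by
  let _ := algOfLE h
  exact IsScalarTower.of_algebraMap_eq (fun x => rfl)

lemma isScalarTower_ofLE_right {F M : IntermediateField K Ω} (h : F ≤ M) :
    letI := algOfLE h
    IsScalarTower F M Ω := by
  let _ := algOfLE h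
  exact IsScalarTower.of_algebraMap_eq (fun x => rfl)

end LE

section Nat

variable {K Ω : Type} [Field K] [Field Ω] [Algebra K Ω] [IsGalois K Ω]
variable (F M : IntermediateField K Ω) [Normal K F] [Normal K M]
variable [F.fixingSubgroup.Normal] [M.fixingSubgroup.Normal]
variable [Algebra F M] [IsScalarTower K F M] [IsScalarTower F M Ω]

omit [IsGalois K Ω] [Normal K F] [Normal K M] [F.fixingSubgroup.Normal] [M.fixingSubgroup.Normal]
  [IsScalarTower K F M] in
lemma le_of_isScalarTower : F ≤ M := by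
  intro x hx
  have h1 : algebraMap F Ω ⟨x, hx⟩ = algebraMap M Ω (algebraMap F M ⟨x, hx⟩) :=
    IsScalarTower.algebraMap_apply F M Ω _
  have h2 : x = ((algebraMap F M ⟨x, hx⟩ : M) : Ω) := h1
  rw [h2]
  exact (algebraMap F M ⟨x, hx⟩).2

omit [IsGalois K Ω] [Normal K F] [Normal K M] [F.fixingSubgroup.Normal] [M.fixingSubgroup.Normal]
  [IsScalarTower K F M] in
lemma fixingSubgroup_le_of_isScalarTower : M.fixingSubgroup ≤ F.fixingSubgroup :=
  IntermediateField.fixingSubgroup_le (le_of_isScalarTower F M)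

/-- (Ω3 b) `τ_F ≫ infLevel = Loc.infl ≫ τ_M`. -/
theorem cohIso_comp_infLevel (n : ℕ) :
    ((unitsPairEquiv F).cohIso n).hom ≫
        infLevel (Rep.ofAlgebraAutOnUnits K Ω) F.fixingSubgroup M.fixingSubgroup
          (fixingSubgroup_le_of_isScalarTower F M) n =
      infl K F M n ≫ ((unitsPairEquiv M).cohIso n).hom := by
  rw [PairEquiv.cohIso_hom, PairEquiv.cohIso_hom]
  unfold infl infLevel
  rw [← groupCohomology.map_comp, ← groupCohomology.map_comp]
  refine groupCohomology.map_congr ?_ ?_ n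
  · ext σ x
    change (((AlgEquiv.restrictNormalHom F σ) x : F) : Ω) =
      ((AlgEquiv.restrictNormalHom F (AlgEquiv.restrictNormalHom M σ)) x : F)
    rw [← IsScalarTower.AlgEquiv.restrictNormalHom_comp_apply F M σ]
  · ext x
    apply Additive.toMul.injective
    apply Units.ext
    change (((Additive.toMul (x : Additive Fˣ) : Fˣ) : F) : Ω) =
      ((algebraMap F M ((Additive.toMul (x : Additive Fˣ) : Fˣ) : F) : M) : Ω)
    exact IsScalarTower.algebraMap_apply F M Ω _

/-- (Ω3 b), element form. -/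
theorem infLevel_cohIso_apply (n : ℕ) (y : groupCohomology (Rep.ofAlgebraAutOnUnits K F) n) :
    (infLevel (Rep.ofAlgebraAutOnUnits K Ω) F.fixingSubgroup M.fixingSubgroup
        (fixingSubgroup_le_of_isScalarTower F M) n).hom
        (((unitsPairEquiv F).cohIso n).hom.hom y) =
      ((unitsPairEquiv M).cohIso n).hom.hom ((infl K F M n).hom y) := by
  have h := congrArg (fun f => f.hom y) (cohIso_comp_infLevel F M n)
  simpa only [ModuleCat.hom_comp, LinearMap.comp_apply] using h

/-- `τ_F ≫ infTop = Loc.infl K F Ω` (abstract cohomology of the possibly infinite group). -/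
theorem cohIso_comp_infTop (n : ℕ) :
    ((unitsPairEquiv F).cohIso n).hom ≫
        infTop (Rep.ofAlgebraAutOnUnits K Ω) F.fixingSubgroup n = infl K F Ω n := by
  rw [PairEquiv.cohIso_hom]
  unfold infl infTop
  rw [← groupCohomology.map_comp]
  refine groupCohomology.map_congr ?_ ?_ n
  · ext σ x
    rfl
  · ext x
    rfl

end Nat

section FixSub

variable (K F M : Type) [Field K] [Field F] [Field M] [Algebra K F] [Algebra K M] [Algebra F M]
  [IsScalarTower K F M]

/-- `Gal(M/F)` as a subgroup of `Gal(M/K)` (no normality assumption on `F/K`). -/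
noncomputable abbrev fixSub : Subgroup (M ≃ₐ[K] M) :=
  (AlgEquiv.restrictScalarsHom K : (M ≃ₐ[F] M) →* (M ≃ₐ[K] M)).range

lemma mem_fixSub_iff (σ : M ≃ₐ[K] M) :
    σ ∈ fixSub K F M ↔ ∀ y : F, σ (algebraMap F M y) = algebraMap F M y := by
  constructor
  · rintro ⟨τ, rfl⟩ y
    exact τ.commutes y
  · intro h
    exact ⟨{ σ with commutes' := h }, by ext; rfl⟩

/-- `Gal(M/F) ≃* fixSub K F M`. -/
noncomputable def galFixEquiv : (M ≃ₐ[F] M) ≃* fixSub K F M where
  toFun τ := ⟨τ.restrictScalars K, ⟨τ, rfl⟩⟩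
  invFun σ := { (σ : M ≃ₐ[K] M) with commutes' := fun y => (mem_fixSub_iff K F M _).1 σ.2 y }
  left_inv τ := by ext; rfl
  right_inv σ := by ext; rfl
  map_mul' a b := by ext; rfl

/-- (T3) for a tower, no normality: the restriction of `Mˣ` to `Gal(M/F) ≤ Gal(M/K)` is the
`Gal(M/F)`-module `Mˣ`. -/
noncomputable def fixPairEquiv :
    PairEquiv (Rep.res (fixSub K F M).subtype (Rep.ofAlgebraAutOnUnits K M))
      (Rep.ofAlgebraAutOnUnits F M) where
  e := (galFixEquiv K F M).symm
  φ := LinearEquiv.refl ℤ _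
  comm _ _ := rfl

/-- `Loc.rest` is restriction to the subgroup `Gal(M/F)` followed by the transport iso. -/
lemma rest_eq_fixSub (n : ℕ) :
    rest K F M n = resSub (Rep.ofAlgebraAutOnUnits K M) (fixSub K F M) n ≫
      ((fixPairEquiv K F M).cohIso n).hom := by
  rw [PairEquiv.cohIso_hom]
  unfold rest resSub
  rw [← groupCohomology.map_comp]
  refine groupCohomology.map_congr ?_ ?_ n
  · ext τ x
    rfl
  · rfl

end FixSub

section Res

variable {K Ω : Type} [Field K] [Field Ω] [Algebra K Ω] [IsGalois K Ω]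
variable (F M : IntermediateField K Ω) [Normal K M] [M.fixingSubgroup.Normal]
variable [Algebra F M] [IsScalarTower K F M] [IsScalarTower F M Ω]

/-- Under `Gal(M/K) ≃ Γ/U_M` the subgroup `Gal(M/F)` corresponds to `U_F/U_M`. -/
lemma fixSub_eq_pullSub :
    fixSub K F M =
      (unitsPairEquiv M).pullSub (H15.quotSub F.fixingSubgroup M.fixingSubgroup) := by
  ext σ
  obtain ⟨σ', rfl⟩ := AlgEquiv.restrictNormalHom_surjective Ω σ
  have h1 : (unitsPairEquiv M).e (AlgEquiv.restrictNormalHom M σ') = QuotientGroup.mk σ' := by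
    change (quotEquiv (Ω := Ω) M).symm (AlgEquiv.restrictNormalHom M σ') = QuotientGroup.mk σ'
    rw [MulEquiv.symm_apply_eq]; rfl
  change _ ↔ (unitsPairEquiv M).e (AlgEquiv.restrictNormalHom M σ') ∈
    H15.quotSub F.fixingSubgroup M.fixingSubgroup
  rw [h1, mem_fixSub_iff]
  have key : ∀ y : F, ((AlgEquiv.restrictNormalHom M σ' (algebraMap F M y) : M) : Ω) =
      σ' ((y : F) : Ω) := by
    intro y
    have h2 := AlgEquiv.restrictNormal_commutes σ' M (algebraMap F M y)
    have h3 : algebraMap M Ω (algebraMap F M y) = ((y : F) : Ω) :=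
      (IsScalarTower.algebraMap_apply F M Ω y).symm
    rw [h3] at h2
    exact h2
  have key2 : ∀ y : F, ((algebraMap F M y : M) : Ω) = ((y : F) : Ω) := fun y =>
    (IsScalarTower.algebraMap_apply F M Ω y).symm
  constructor
  · intro h
    refine ⟨σ', ?_, rfl⟩
    change σ' ∈ F.fixingSubgroup
    rw [IntermediateField.mem_fixingSubgroup_iff]
    intro x hx
    have := congrArg (fun z : M => (z : Ω)) (h ⟨x, hx⟩)
    simp only [key, key2] at this
    exact this
  · rintro ⟨u, hu, hmk⟩ y
    have hu' : u⁻¹ * σ' ∈ M.fixingSubgroup := QuotientGroup.eq.1 hmk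
    have hσ' : σ' ∈ F.fixingSubgroup := by
      have : σ' = u * (u⁻¹ * σ') := by group
      rw [this]
      exact mul_mem hu (fixingSubgroup_le_of_isScalarTower F M hu')
    apply Subtype.ext
    rw [key, key2]
    exact (IntermediateField.mem_fixingSubgroup_iff _ _).1 hσ' _ y.2

/-- `Gal(M/F) ≃* U_F/U_M` as subgroups of `Gal(M/K) ≃* Γ/U_M`. -/
noncomputable def fixSubEquiv :
    fixSub K F M ≃* H15.quotSub F.fixingSubgroup M.fixingSubgroup :=
  (MulEquiv.subgroupCongr (fixSub_eq_pullSub F M)).trans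
    ((unitsPairEquiv M).pullSubEquiv (H15.quotSub F.fixingSubgroup M.fixingSubgroup))

lemma fixSubEquiv_coe (h : fixSub K F M) :
    ((fixSubEquiv F M h : H15.quotSub F.fixingSubgroup M.fixingSubgroup) :
      (Ω ≃ₐ[K] Ω) ⧸ M.fixingSubgroup) = (unitsPairEquiv M).e h := rfl

/-- The pair equivalence `(U_F/U_M, (Ωˣ)^{U_M}) ≃ (Gal(M/F), Mˣ)`. -/
noncomputable def resPairEquiv :
    PairEquiv
      (Rep.res (H15.quotSub F.fixingSubgroup M.fixingSubgroup).subtype
        ((Rep.ofAlgebraAutOnUnits K Ω).quotientToInvariants M.fixingSubgroup))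
      (Rep.ofAlgebraAutOnUnits F M) :=
  (((unitsPairEquiv M).restrict (fixSub K F M)
      (H15.quotSub F.fixingSubgroup M.fixingSubgroup) (fixSubEquiv F M)
      (fixSubEquiv_coe F M)).symm).trans (fixPairEquiv K F M)

/-- (Ω3 c) `τ_M ≫ resSub (C^{U_M}) (U_F/U_M) ≫ (transport) = Loc.rest K F M`. -/
theorem cohIso_comp_resSub (n : ℕ) :
    ((unitsPairEquiv M).cohIso n).hom ≫
        resSub ((Rep.ofAlgebraAutOnUnits K Ω).quotientToInvariants M.fixingSubgroup)
          (H15.quotSub F.fixingSubgroup M.fixingSubgroup) n ≫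
        ((resPairEquiv F M).cohIso n).hom = rest K F M n := by
  rw [← Category.assoc, PairEquiv.cohIso_resSub _ (fixSub K F M)
    (H15.quotSub F.fixingSubgroup M.fixingSubgroup) (fixSubEquiv F M) (fixSubEquiv_coe F M) n,
    rest_eq_fixSub, Category.assoc]
  congr 1
  unfold resPairEquiv
  rw [PairEquiv.cohIso_trans_hom, ← Category.assoc, PairEquiv.cohIso_hom_comp_symm,
    Category.id_comp]

/-- (Ω3 c), element form: the restriction to `U_F/U_M` of `τ_M y` vanishes iff `Loc.rest y`
does. -/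
theorem resSub_cohIso_eq_zero_iff (n : ℕ)
    (y : groupCohomology (Rep.ofAlgebraAutOnUnits K M) n) :
    (resSub ((Rep.ofAlgebraAutOnUnits K Ω).quotientToInvariants M.fixingSubgroup)
        (H15.quotSub F.fixingSubgroup M.fixingSubgroup) n).hom
        (((unitsPairEquiv M).cohIso n).hom.hom y) = 0 ↔ (rest K F M n).hom y = 0 := by
  have h := congrArg (fun f => f.hom y) (cohIso_comp_resSub F M n)
  simp only [ModuleCat.hom_comp, LinearMap.comp_apply] at h
  rw [← h]
  constructor
  · intro h0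
    rw [h0, map_zero]
  · intro h0
    have hinj : Function.Injective ((resPairEquiv F M).cohIso n).hom.hom :=
      (ModuleCat.mono_iff_injective _).1 inferInstance
    exact hinj (by rw [h0, map_zero])

end Res

end Fermat.Agent.CFT.H43
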