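/-
CFT layer C, package C-RESTR (helper45): the finite adeles `L ⊗[ℚ] AQf` of a number field `L`
are the restricted product of the local algebras `L ⊗[ℚ] ℚ_[p]` with respect to the integral
subrings `intLoc L p` (image of `𝓞 L ⊗ ℤ_[p]`); units; ideles.  Mathlib + H42_AdeleDefs.
-/
import Mathlib
import Fermat.Agent.CFT.H42_AdeleDefs

set_option autoImplicit false
set_option linter.unusedSectionVars false
set_option linter.unusedSimpArgs false

namespace Fermat.Agent.CFT.H45

open scoped TensorProduct RestrictedProduct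
open Fermat.Agent.CFT.H42

noncomputable section

/-! ### Coordinates of `L ⊗[ℚ] A` with respect to a `ℚ`-basis of `L` -/

section Coord

variable {L : Type*} [CommRing L] [Algebra ℚ L] {ι : Type*} [Fintype ι] [DecidableEq ι]
  (b : Module.Basis ι ℚ L)

/-- The `i`-th coordinate of `x : L ⊗[ℚ] A` with respect to the basis `b` of `L`:
`x = ∑ i, b i ⊗ coord b A x i`. -/
def coord (A : Type*) [CommRing A] [Algebra ℚ A] (x : L ⊗[ℚ] A) (i : ι) : A :=
  TensorProduct.equivFinsuppOfBasisLeft b x i

variable {A : Type*} [CommRing A] [Algebra ℚ A]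

@[simp] theorem coord_zero (i : ι) : coord b A 0 i = 0 := by simp [coord]

theorem coord_add (x y : L ⊗[ℚ] A) (i : ι) :
    coord b A (x + y) i = coord b A x i + coord b A y i := by simp [coord]

theorem coord_sub (x y : L ⊗[ℚ] A) (i : ι) :
    coord b A (x - y) i = coord b A x i - coord b A y i := by simp [coord]

theorem coord_sum {κ : Type*} (s : Finset κ) (f : κ → L ⊗[ℚ] A) (i : ι) :
    coord b A (∑ k ∈ s, f k) i = ∑ k ∈ s, coord b A (f k) i := by
  simp [coord]

theorem coord_tmul (l : L) (a : A) (i : ι) : coord b A (l ⊗ₜ[ℚ] a) i = b.repr l i • a := by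
  simp [coord, TensorProduct.equivFinsuppOfBasisLeft_apply_tmul_apply]

theorem coord_basis_tmul (j : ι) (a : A) (i : ι) :
    coord b A (b j ⊗ₜ[ℚ] a) i = if i = j then a else 0 := by
  rw [coord_tmul, Module.Basis.repr_self, Finsupp.single_apply]
  split_ifs with h1 h2 h2
  · simp
  · exact absurd h1.symm h2
  · exact absurd h2.symm h1
  · simp

theorem eq_sum_coord (x : L ⊗[ℚ] A) : x = ∑ i, b i ⊗ₜ[ℚ] coord b A x i := by
  have h := (TensorProduct.equivFinsuppOfBasisLeft (N := A) b).symm_apply_apply x
  rw [TensorProduct.equivFinsuppOfBasisLeft_symm_apply, Finsupp.sum_fintype _ _ (by simp)] at h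
  exact h.symm

theorem coord_sum_basis_tmul (c : ι → A) (i : ι) :
    coord b A (∑ j, b j ⊗ₜ[ℚ] c j) i = c i := by
  rw [coord_sum]
  simp [coord_basis_tmul]

theorem ext_coord {x y : L ⊗[ℚ] A} (h : ∀ i, coord b A x i = coord b A y i) : x = y := by
  rw [eq_sum_coord b x, eq_sum_coord b y]
  exact Finset.sum_congr rfl fun i _ => by rw [h i]

/-- Coordinates are natural in the coefficient algebra. -/
theorem coord_map {B : Type*} [CommRing B] [Algebra ℚ B] (f : A →ₐ[ℚ] B) (x : L ⊗[ℚ] A)
    (i : ι) :
    coord b B (Algebra.TensorProduct.map (AlgHom.id ℚ L) f x) i = f (coord b A x i) := by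
  induction x using TensorProduct.induction_on with
  | zero => simp
  | tmul l a => simp [coord_tmul]
  | add x y hx hy => rw [map_add, coord_add, coord_add, map_add, hx, hy]

end Coord

/-! ### The integral subring of the local algebra -/

section IntLoc

open NumberField

variable (L : Type*) [Field L] [NumberField L]

/-- The integral subring of the local algebra `L ⊗[ℚ] ℚ_[p]`: the subring generated by
`𝓞 L ⊗ 1` and `1 ⊗ ℤ_[p]`, i.e. the image of `𝓞 L ⊗ ℤ_[p]`. -/
def intLoc (p : Nat.Primes) : Subring (locAlg L p) :=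
  Subring.closure
    (Set.range (fun x : 𝓞 L => ((x : L) ⊗ₜ[ℚ] (1 : ℚ_[p]) : locAlg L p)) ∪
      Set.range (fun z : ℤ_[p] => ((1 : L) ⊗ₜ[ℚ] (z : ℚ_[p]) : locAlg L p)))

theorem ringOfIntegers_tmul_mem_intLoc (p : Nat.Primes) (x : 𝓞 L) :
    ((x : L) ⊗ₜ[ℚ] (1 : ℚ_[p]) : locAlg L p) ∈ intLoc L p :=
  Subring.subset_closure (Or.inl ⟨x, rfl⟩)

theorem one_tmul_mem_intLoc (p : Nat.Primes) (z : ℤ_[p]) :
    ((1 : L) ⊗ₜ[ℚ] (z : ℚ_[p]) : locAlg L p) ∈ intLoc L p :=
  Subring.subset_closure (Or.inr ⟨z, rfl⟩)

theorem intCast_rat_mem (p : Nat.Primes) (n : ℤ) :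
    (((n : ℚ) : ℚ_[p])) ∈ PadicInt.subring p := by
  have : ‖((n : ℚ) : ℚ_[p])‖ ≤ 1 := by simpa using Padic.norm_int_le_one n
  exact this

/-- The coordinates of an algebraic integer with respect to the integral basis are integers. -/
theorem repr_integer (x : 𝓞 L) (i : Module.Free.ChooseBasisIndex ℤ (𝓞 L)) :
    ∃ n : ℤ, (integralBasis L).repr (x : L) i = (n : ℚ) :=
  ⟨(RingOfIntegers.basis L).repr x i, by
    exact integralBasis_repr_apply L x i⟩

theorem coord_mem_of_mem_intLoc (p : Nat.Primes) {x : locAlg L p} (hx : x ∈ intLoc L p)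
    (i : Module.Free.ChooseBasisIndex ℤ (𝓞 L)) :
    coord (integralBasis L) ℚ_[p] x i ∈ PadicInt.subring p := by
  classical
  revert i
  induction hx using Subring.closure_induction with
  | mem x hx =>
    intro i
    rcases hx with ⟨y, rfl⟩ | ⟨z, rfl⟩
    · obtain ⟨n, hn⟩ := repr_integer L y i
      simp only [coord_tmul, hn]
      rw [Algebra.smul_def, mul_one]
      exact intCast_rat_mem p n
    · obtain ⟨n, hn⟩ := repr_integer L (1 : 𝓞 L) i
      have h1 : ((1 : 𝓞 L) : L) = 1 := rfl
      rw [h1] at hn
      simp only [coord_tmul, hn]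
      rw [Algebra.smul_def]
      exact (PadicInt.subring p).mul_mem (intCast_rat_mem p n) z.2
  | zero => intro i; simp
  | one =>
    intro i
    obtain ⟨n, hn⟩ := repr_integer L (1 : 𝓞 L) i
    have h1 : ((1 : 𝓞 L) : L) = 1 := rfl
    rw [h1] at hn
    have : (1 : locAlg L p) = (1 : L) ⊗ₜ[ℚ] (1 : ℚ_[p]) := rfl
    rw [this, coord_tmul, hn, Algebra.smul_def, mul_one]
    exact intCast_rat_mem p n
  | add x y _ _ hx hy => intro i; rw [coord_add]; exact (PadicInt.subring p).add_mem (hx i) (hy i)
  | neg x _ hx =>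
    intro i
    have : coord (integralBasis L) ℚ_[p] (-x) i = - coord (integralBasis L) ℚ_[p] x i := by
      simp [coord]
    rw [this]; exact (PadicInt.subring p).neg_mem (hx i)
  | mul x y _ _ hx hy =>
    intro i
    rw [eq_sum_coord (integralBasis L) x, eq_sum_coord (integralBasis L) y, Finset.sum_mul_sum,
      coord_sum]
    refine (PadicInt.subring p).sum_mem fun j _ => ?_
    rw [coord_sum]
    refine (PadicInt.subring p).sum_mem fun k _ => ?_
    rw [Algebra.TensorProduct.tmul_mul_tmul, coord_tmul]
    have hjk : (integralBasis L j * integralBasis L k) =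
        ((RingOfIntegers.basis L j * RingOfIntegers.basis L k : 𝓞 L) : L) := by
      rw [integralBasis_apply, integralBasis_apply]; rfl
    obtain ⟨n, hn⟩ := repr_integer L (RingOfIntegers.basis L j * RingOfIntegers.basis L k) i
    rw [hjk, hn, Algebra.smul_def]
    exact (PadicInt.subring p).mul_mem (intCast_rat_mem p n)
      ((PadicInt.subring p).mul_mem (hx j) (hy k))

theorem mem_intLoc_of_coord_mem (p : Nat.Primes) {x : locAlg L p}
    (hx : ∀ i, coord (integralBasis L) ℚ_[p] x i ∈ PadicInt.subring p) : x ∈ intLoc L p := by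
  classical
  rw [eq_sum_coord (integralBasis L) x]
  refine (intLoc L p).sum_mem fun i _ => ?_
  have h : (integralBasis L i ⊗ₜ[ℚ] coord (integralBasis L) ℚ_[p] x i : locAlg L p) =
      ((RingOfIntegers.basis L i : L) ⊗ₜ[ℚ] (1 : ℚ_[p])) *
        ((1 : L) ⊗ₜ[ℚ] coord (integralBasis L) ℚ_[p] x i) := by
    rw [Algebra.TensorProduct.tmul_mul_tmul, mul_one, one_mul, integralBasis_apply]
  rw [h]
  exact (intLoc L p).mul_mem (ringOfIntegers_tmul_mem_intLoc L p _)
    (one_tmul_mem_intLoc L p ⟨_, hx i⟩)

/-- `x ∈ intLoc L p` iff all coordinates of `x` with respect to the integral basis of `L` are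
`p`-adic integers. -/
theorem mem_intLoc_iff (p : Nat.Primes) (x : locAlg L p) :
    x ∈ intLoc L p ↔ ∀ i, coord (integralBasis L) ℚ_[p] x i ∈ PadicInt.subring p :=
  ⟨fun h i => coord_mem_of_mem_intLoc L p h i, mem_intLoc_of_coord_mem L p⟩

end IntLoc

/-! ### Finite adeles as a restricted product -/

section Restr

open NumberField

variable (L : Type*) [Field L] [NumberField L]

/-- Coordinates commute with the projection to the local algebra. -/
theorem coord_toLoc {ι : Type*} [Fintype ι] [DecidableEq ι] (b : Module.Basis ι ℚ L)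
    (p : Nat.Primes) (x : adeleFin L) (i : ι) :
    coord b ℚ_[p] (adeleFin.toLoc p x) i = (coord b AQf x i) p := by
  induction x using TensorProduct.induction_on with
  | zero => simp
  | tmul l a =>
    rw [adeleFin.toLoc_tmul, coord_tmul, coord_tmul]
    rw [Algebra.smul_def, Algebra.smul_def]
    rfl
  | add x y hx hy =>
    rw [map_add, coord_add, coord_add, hx, hy]
    rfl

/-- The family of local components of a finite adele. -/
def toLocAll : adeleFin L →+* ((p : Nat.Primes) → locAlg L p) :=
  RingHom.pi fun p => (adeleFin.toLoc (L := L) p : adeleFin L →+* locAlg L p)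

@[simp] theorem toLocAll_apply (x : adeleFin L) (p : Nat.Primes) :
    toLocAll L x p = adeleFin.toLoc p x := rfl

/-- A finite adele is determined by its local components. -/
theorem toLocAll_injective : Function.Injective (toLocAll L) := by
  classical
  intro x y hxy
  apply ext_coord (integralBasis L)
  intro i
  apply RestrictedProduct.ext
  intro p
  rw [← coord_toLoc, ← coord_toLoc]
  have := congrFun hxy p
  simp only [toLocAll_apply] at this
  rw [this]

/-- Almost all local components of a finite adele are integral. -/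
theorem eventually_toLoc_mem_intLoc (x : adeleFin L) :
    ∀ᶠ p : Nat.Primes in Filter.cofinite, adeleFin.toLoc p x ∈ intLoc L p := by
  classical
  have h : ∀ i, ∀ᶠ p : Nat.Primes in Filter.cofinite,
      coord (integralBasis L) ℚ_[p] (adeleFin.toLoc p x) i ∈ PadicInt.subring p := by
    intro i
    have := (coord (integralBasis L) AQf x i).2
    filter_upwards [this] with p hp
    rw [coord_toLoc]
    exact hp
  filter_upwards [Filter.eventually_all.mpr h] with p hp
  exact (mem_intLoc_iff L p _).mpr hp

/-- Every family of local elements which is almost everywhere integral comes from a (unique)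
finite adele. -/
theorem exists_toLoc_eq (y : (p : Nat.Primes) → locAlg L p)
    (hy : ∀ᶠ p : Nat.Primes in Filter.cofinite, y p ∈ intLoc L p) :
    ∃ x : adeleFin L, ∀ p, adeleFin.toLoc p x = y p := by
  classical
  have h : ∀ i, ∀ᶠ p : Nat.Primes in Filter.cofinite,
      coord (integralBasis L) ℚ_[p] (y p) i ∈ PadicInt.subring p := by
    intro i
    filter_upwards [hy] with p hp
    exact (mem_intLoc_iff L p _).mp hp i
  let a : Module.Free.ChooseBasisIndex ℤ (𝓞 L) → AQf := fun i =>
    ⟨fun p => coord (integralBasis L) ℚ_[p] (y p) i, h i⟩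
  refine ⟨∑ i, integralBasis L i ⊗ₜ[ℚ] a i, fun p => ?_⟩
  apply ext_coord (integralBasis L)
  intro i
  rw [coord_toLoc, coord_sum_basis_tmul]
  rfl

theorem mem_range_toLocAll_iff (y : (p : Nat.Primes) → locAlg L p) :
    y ∈ Set.range (toLocAll L) ↔
      ∀ᶠ p : Nat.Primes in Filter.cofinite, y p ∈ intLoc L p := by
  constructor
  · rintro ⟨x, rfl⟩
    exact eventually_toLoc_mem_intLoc L x
  · intro hy
    obtain ⟨x, hx⟩ := exists_toLoc_eq L y hy
    exact ⟨x, funext hx⟩

/-- **C-RESTR**: the finite adeles of a number field `L` are the restricted product of the local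
algebras `L ⊗[ℚ] ℚ_[p]` with respect to the integral subrings `intLoc L p`. -/
def restrEquiv : adeleFin L ≃+* Πʳ p : Nat.Primes, [locAlg L p, intLoc L p] :=
  RingEquiv.ofBijective
    ({ toFun := fun x => ⟨fun p => adeleFin.toLoc p x, eventually_toLoc_mem_intLoc L x⟩
       map_one' := by ext p; simp
       map_mul' := fun x y => by ext p; simp
       map_zero' := by ext p; simp
       map_add' := fun x y => by ext p; simp } :
      adeleFin L →+* Πʳ p : Nat.Primes, [locAlg L p, intLoc L p])
    ⟨fun x y hxy => toLocAll_injective L (funext fun p => by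
        have := congrArg (fun z : Πʳ p : Nat.Primes, [locAlg L p, intLoc L p] => z p) hxy
        exact this),
     fun y => by
      obtain ⟨x, hx⟩ := exists_toLoc_eq L (fun p => y p) y.2
      exact ⟨x, DFunLike.ext _ _ (fun p => hx p)⟩⟩

@[simp] theorem restrEquiv_apply (x : adeleFin L) (p : Nat.Primes) :
    restrEquiv L x p = adeleFin.toLoc p x := rfl

end Restr

/-! ### Units: finite ideles as a restricted product -/

section Units

open NumberField

variable (L : Type*) [Field L] [NumberField L]

/-- The local unit group `(𝓞 L ⊗ ℤ_[p])ˣ`, as a subgroup of `(L ⊗[ℚ] ℚ_[p])ˣ`. -/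
def intLocUnits (p : Nat.Primes) : Subgroup (locAlg L p)ˣ :=
  (Submonoid.ofClass (intLoc L p)).units

theorem mem_intLocUnits_iff (p : Nat.Primes) (u : (locAlg L p)ˣ) :
    u ∈ intLocUnits L p ↔
      (u : locAlg L p) ∈ intLoc L p ∧ ((u⁻¹ : (locAlg L p)ˣ) : locAlg L p) ∈ intLoc L p :=
  Submonoid.mem_units_iff _ _

/-- The finite ideles of `L`. -/
abbrev finIdele : Type _ := (adeleFin L)ˣ

/-- The local component at `p` of a finite idele. -/
def finIdele.toLoc (p : Nat.Primes) : finIdele L →* (locAlg L p)ˣ :=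
  Units.map (adeleFin.toLoc (L := L) p : adeleFin L →* locAlg L p)

@[simp] theorem finIdele.coe_toLoc (p : Nat.Primes) (x : finIdele L) :
    ((finIdele.toLoc L p x : (locAlg L p)ˣ) : locAlg L p) = adeleFin.toLoc p (x : adeleFin L) :=
  rfl

/-- **C-RESTR for units**: the finite ideles of `L` are the restricted product of the
`(L ⊗[ℚ] ℚ_[p])ˣ` with respect to the local unit groups `intLocUnits L p`. -/
def finIdeleEquiv : finIdele L ≃* Πʳ p : Nat.Primes, [(locAlg L p)ˣ, intLocUnits L p] :=
  (Units.mapEquiv (restrEquiv L).toMulEquiv).trans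
    (RestrictedProduct.unitsEquiv (fun p : Nat.Primes => locAlg L p))

@[simp] theorem finIdeleEquiv_apply (x : finIdele L) (p : Nat.Primes) :
    finIdeleEquiv L x p = finIdele.toLoc L p x := by
  ext
  rfl

/-- Almost all components of a finite idele are local units. -/
theorem eventually_toLoc_mem_intLocUnits (x : finIdele L) :
    ∀ᶠ p : Nat.Primes in Filter.cofinite, finIdele.toLoc L p x ∈ intLocUnits L p := by
  have := (finIdeleEquiv L x).2
  filter_upwards [this] with p hp
  rw [← finIdeleEquiv_apply]
  exact hp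

/-- A finite idele is determined by its local components. -/
theorem finIdele.ext {x y : finIdele L} (h : ∀ p, finIdele.toLoc L p x = finIdele.toLoc L p y) :
    x = y := by
  apply (finIdeleEquiv L).injective
  apply DFunLike.ext
  intro p
  rw [finIdeleEquiv_apply, finIdeleEquiv_apply, h p]

/-- Every family of local units which is almost everywhere integral comes from a finite idele. -/
theorem exists_finIdele (y : (p : Nat.Primes) → (locAlg L p)ˣ)
    (hy : ∀ᶠ p : Nat.Primes in Filter.cofinite, y p ∈ intLocUnits L p) :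
    ∃ x : finIdele L, ∀ p, finIdele.toLoc L p x = y p := by
  refine ⟨(finIdeleEquiv L).symm ⟨y, hy⟩, fun p => ?_⟩
  rw [← finIdeleEquiv_apply, MulEquiv.apply_symm_apply]
  rfl

/-- Unit criterion for finite adeles. -/
theorem isUnit_adeleFin_iff (x : adeleFin L) :
    IsUnit x ↔ (∀ p, IsUnit (adeleFin.toLoc p x)) ∧
      ∀ᶠ p : Nat.Primes in Filter.cofinite,
        ∃ u : (locAlg L p)ˣ, (u : locAlg L p) = adeleFin.toLoc p x ∧ u ∈ intLocUnits L p := by
  constructor
  · intro hx
    obtain ⟨u, rfl⟩ := hx
    refine ⟨fun p => ⟨finIdele.toLoc L p u, rfl⟩, ?_⟩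
    filter_upwards [eventually_toLoc_mem_intLocUnits L u] with p hp
    exact ⟨finIdele.toLoc L p u, rfl, hp⟩
  · rintro ⟨h1, h2⟩
    have hy : ∀ᶠ p : Nat.Primes in Filter.cofinite, (h1 p).unit ∈ intLocUnits L p := by
      filter_upwards [h2] with p hp
      obtain ⟨u, hu, hu'⟩ := hp
      have : (h1 p).unit = u := Units.ext (by rw [IsUnit.unit_spec, hu])
      rw [this]; exact hu'
    obtain ⟨z, hz⟩ := exists_finIdele L (fun p => (h1 p).unit) hy
    have : (z : adeleFin L) = x := by
      apply toLocAll_injective L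
      funext p
      have := congrArg (fun u : (locAlg L p)ˣ => (u : locAlg L p)) (hz p)
      simpa using this
    rw [← this]
    exact z.isUnit

/-- The ideles of `L` are the product of the archimedean units and the finite ideles. -/
def ideleEquivProd : idele L ≃* (realAlg L)ˣ × finIdele L :=
  (Units.mapEquiv (adele.prodEquiv L).toMulEquiv).trans MulEquiv.prodUnits

/-- The finite part of an idele. -/
def idele.toFin : idele L →* finIdele L :=
  Units.map (adele.toFin (L := L) : adele L →* adeleFin L)

/-- The archimedean part of an idele. -/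
def idele.toReal : idele L →* (realAlg L)ˣ :=
  Units.map (adele.toReal (L := L) : adele L →* realAlg L)

theorem ideleEquivProd_apply (x : idele L) :
    ideleEquivProd L x = (idele.toReal L x, idele.toFin L x) := by
  apply Prod.ext
  · ext
    exact adele.prodEquiv_fst (x : adele L)
  · ext
    exact adele.prodEquiv_snd (x : adele L)

/-! ### The groups `J_{L,T}` -/

/-- The finite `T`-ideles: finite ideles which are local units outside the finite set `T`. -/
def finIdeleT (T : Finset Nat.Primes) : Subgroup (finIdele L) where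
  carrier := {x | ∀ p, p ∉ T → finIdele.toLoc L p x ∈ intLocUnits L p}
  one_mem' := fun p _ => by rw [map_one]; exact (intLocUnits L p).one_mem
  mul_mem' := fun hx hy p hp => by
    rw [map_mul]; exact (intLocUnits L p).mul_mem (hx p hp) (hy p hp)
  inv_mem' := fun hx p hp => by
    rw [map_inv]; exact (intLocUnits L p).inv_mem (hx p hp)

theorem mem_finIdeleT_iff (T : Finset Nat.Primes) (x : finIdele L) :
    x ∈ finIdeleT L T ↔ ∀ p, p ∉ T → finIdele.toLoc L p x ∈ intLocUnits L p := Iff.rfl

theorem finIdeleT_mono {T T' : Finset Nat.Primes} (h : T ⊆ T') :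
    finIdeleT L T ≤ finIdeleT L T' :=
  fun _ hx p hp => hx p (fun hpT => hp (h hpT))

/-- Every finite idele lies in some `J_{L,T}`. -/
theorem exists_mem_finIdeleT (x : finIdele L) : ∃ T : Finset Nat.Primes, x ∈ finIdeleT L T := by
  have h := eventually_toLoc_mem_intLocUnits L x
  rw [Filter.eventually_cofinite] at h
  refine ⟨h.toFinset, fun p hp => ?_⟩
  by_contra hcon
  exact hp (h.mem_toFinset.mpr hcon)

/-- The `T`-ideles `J_{L,T}` (all components outside `T` are local units; no condition at the
archimedean component). -/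
def ideleT (T : Finset Nat.Primes) : Subgroup (idele L) :=
  (finIdeleT L T).comap (idele.toFin L)

theorem mem_ideleT_iff (T : Finset Nat.Primes) (x : idele L) :
    x ∈ ideleT L T ↔ ∀ p, p ∉ T → finIdele.toLoc L p (idele.toFin L x) ∈ intLocUnits L p :=
  Iff.rfl

theorem ideleT_mono {T T' : Finset Nat.Primes} (h : T ⊆ T') : ideleT L T ≤ ideleT L T' :=
  Subgroup.comap_mono (finIdeleT_mono L h)

theorem exists_mem_ideleT (x : idele L) : ∃ T : Finset Nat.Primes, x ∈ ideleT L T :=
  exists_mem_finIdeleT L (idele.toFin L x)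

end Units

/-! ### Galois equivariance -/

section Galois

open NumberField

variable {K : Type*} (L : Type*) [Field K] [Field L] [NumberField L] [Algebra ℚ K] [Algebra K L]
  [IsScalarTower ℚ K L]

/-- The integral subring is stable under the Galois action. -/
theorem smul_mem_intLoc (p : Nat.Primes) (σ : L ≃ₐ[K] L) {x : locAlg L p}
    (hx : x ∈ intLoc L p) : σ • x ∈ intLoc L p := by
  induction hx using Subring.closure_induction with
  | mem x hx =>
    rcases hx with ⟨y, rfl⟩ | ⟨z, rfl⟩
    · have h : σ • ((y : L) ⊗ₜ[ℚ] (1 : ℚ_[p]) : locAlg L p) =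
          ((RingOfIntegers.mapRingEquiv (σ : L ≃+* L) y : 𝓞 L) : L) ⊗ₜ[ℚ] (1 : ℚ_[p]) := by
        rw [smul_tmul_left]; rfl
      rw [h]
      exact ringOfIntegers_tmul_mem_intLoc L p _
    · have h : σ • ((1 : L) ⊗ₜ[ℚ] (z : ℚ_[p]) : locAlg L p) = (1 : L) ⊗ₜ[ℚ] (z : ℚ_[p]) := by
        rw [smul_tmul_left, map_one]
      rw [h]
      exact one_tmul_mem_intLoc L p z
  | zero => rw [smul_zero]; exact (intLoc L p).zero_mem
  | one => rw [smul_one]; exact (intLoc L p).one_mem
  | add x y _ _ hx hy => rw [smul_add]; exact (intLoc L p).add_mem hx hy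
  | neg x _ hx => rw [smul_neg]; exact (intLoc L p).neg_mem hx
  | mul x y _ _ hx hy => rw [smul_mul']; exact (intLoc L p).mul_mem hx hy

theorem smul_mem_intLoc_iff (p : Nat.Primes) (σ : L ≃ₐ[K] L) {x : locAlg L p} :
    σ • x ∈ intLoc L p ↔ x ∈ intLoc L p := by
  refine ⟨fun h => ?_, smul_mem_intLoc L p σ⟩
  have := smul_mem_intLoc L p σ⁻¹ h
  rwa [inv_smul_smul] at this

/-- The local unit group is stable under the Galois action. -/
theorem smul_mem_intLocUnits (p : Nat.Primes) (σ : L ≃ₐ[K] L) {u : (locAlg L p)ˣ}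
    (hu : u ∈ intLocUnits L p) : σ • u ∈ intLocUnits L p := by
  rw [mem_intLocUnits_iff] at hu ⊢
  refine ⟨smul_mem_intLoc L p σ hu.1, ?_⟩
  have : ((σ • u)⁻¹ : (locAlg L p)ˣ) = σ • u⁻¹ := (smul_inv' σ u).symm
  rw [this]
  exact smul_mem_intLoc L p σ hu.2

/-- The local components of finite ideles are Galois equivariant. -/
theorem finIdele.toLoc_smul (p : Nat.Primes) (σ : L ≃ₐ[K] L) (x : finIdele L) :
    finIdele.toLoc L p (σ • x) = σ • finIdele.toLoc L p x := by
  ext
  exact adeleFin.toLoc_smul p σ (x : adeleFin L)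

/-- The restricted product decomposition of the finite adeles is Galois equivariant. -/
theorem restrEquiv_smul (σ : L ≃ₐ[K] L) (x : adeleFin L) (p : Nat.Primes) :
    restrEquiv L (σ • x) p = σ • restrEquiv L x p :=
  adeleFin.toLoc_smul p σ x

/-- `J_{L,T}` (finite part) is stable under the Galois action. -/
theorem smul_mem_finIdeleT (T : Finset Nat.Primes) (σ : L ≃ₐ[K] L) {x : finIdele L}
    (hx : x ∈ finIdeleT L T) : σ • x ∈ finIdeleT L T := by
  intro p hp
  rw [finIdele.toLoc_smul]
  exact smul_mem_intLocUnits L p σ (hx p hp)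

/-- The finite part of an idele is Galois equivariant. -/
theorem idele.toFin_smul (σ : L ≃ₐ[K] L) (x : idele L) :
    idele.toFin L (σ • x) = σ • idele.toFin L x := by
  ext
  exact adele.toFin_smul σ (x : adele L)

/-- `J_{L,T}` is stable under the Galois action. -/
theorem smul_mem_ideleT (T : Finset Nat.Primes) (σ : L ≃ₐ[K] L) {x : idele L}
    (hx : x ∈ ideleT L T) : σ • x ∈ ideleT L T := by
  show idele.toFin L (σ • x) ∈ finIdeleT L T
  rw [idele.toFin_smul]
  exact smul_mem_finIdeleT L T σ hx

end Galois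

end

end Fermat.Agent.CFT.H45
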