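/-
CFT layer C, package C-TOP-Div (helper45), slice 5: the divisor-side hypotheses of helper24's
export (X1) `H24.nonempty_pClassFormation_global` are discharged.
-/
import Mathlib
import Fermat.Agent.CFT.H24_CGlobalAssembly
import Fermat.Agent.CFT.H45_TopDivDescent

set_option autoImplicit false

namespace Fermat.Agent.CFT.H45

open Fermat.Agent.CFT

/-- The divisor-side descent data exist at every level (hypothesis `hD` of
`H24.nonempty_pClassFormation_global`). -/
theorem hasDivDescent (S : Finset Nat.Primes) : H24.HasDivDescent S :=
  fun _ _ _ _ hF => ⟨divDescent hF⟩

/-- **Export (X1) of layer C** with the divisor side discharged: only the tower system `T` and the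
finite-level layers remain. -/
theorem nonempty_pClassFormation_global (p : ℕ) [Fact p.Prime] (S : Finset Nat.Primes)
    (hS : S.Nonempty) (T : H12.PTowerSystem p (globalLevels S) (H77.repCSTop S))
    (hlay : H24.FiniteLevelLayers p S) :
    Nonempty (PClassFormation p (globalLevels S) (H77.repCSTop S)) :=
  H24.nonempty_pClassFormation_global p S hS T hasDivisors (hasDivDescent S) hlay

end Fermat.Agent.CFT.H45
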