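import Mathlib

/-!
# The abstract chase of Tate's duality theorem (Milne, ADT I.1.8) — layer D1 of project CFT

Vocabulary-neutral core: objects `X` (finite discrete modules) with a functorial embedding
`X → X_* → X_1` (`star`, `one`), two "cohomological" rows

```
T1(X_1) → T1(X_*) → T1(X) → T2(X_1) → T2(X_*) → T2(X) → 0
   |α1       |α1       |α1      |α2        |α2       |α2
E1(X_1) → E1(X_*) → E1(X) → E0(X_1) → E0(X_*) → E0(X) → 0
```

(`T^r(X) = HH^r(H; Hom(X, D))`, `E1(X) = H^1(H; X)^*`, `E0(X) = H^0(H; X)^*`), exact rows,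
commuting squares, and `α1`, `α2` bijective on every induced object `X_*`.
Then `α2` and `α1` are bijective on every object.
-/

set_option autoImplicit false

namespace Fermat.Agent.CFT.H46

universe u v

variable {Obj : Type u} (star one : Obj → Obj)
variable (T1 T2 E1 E0 : Obj → Type v)
variable [∀ X, AddCommGroup (T1 X)] [∀ X, AddCommGroup (T2 X)]
variable [∀ X, AddCommGroup (E1 X)] [∀ X, AddCommGroup (E0 X)]
variable (α1 : ∀ X, T1 X →+ E1 X) (α2 : ∀ X, T2 X →+ E0 X)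
variable (a1 : ∀ X, T1 (one X) →+ T1 (star X)) (a2 : ∀ X, T1 (star X) →+ T1 X)
  (a3 : ∀ X, T1 X →+ T2 (one X)) (a4 : ∀ X, T2 (one X) →+ T2 (star X))
  (a5 : ∀ X, T2 (star X) →+ T2 X)
variable (b1 : ∀ X, E1 (one X) →+ E1 (star X)) (b2 : ∀ X, E1 (star X) →+ E1 X)
  (b3 : ∀ X, E1 X →+ E0 (one X)) (b4 : ∀ X, E0 (one X) →+ E0 (star X))
  (b5 : ∀ X, E0 (star X) →+ E0 X)

/-- The hypotheses of the chase, bundled. -/
structure ChaseHyp : Prop where
  exact_a12 : ∀ X, Function.Exact (a1 X) (a2 X)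
  exact_a23 : ∀ X, Function.Exact (a2 X) (a3 X)
  exact_a34 : ∀ X, Function.Exact (a3 X) (a4 X)
  exact_a45 : ∀ X, Function.Exact (a4 X) (a5 X)
  surj_a5 : ∀ X, Function.Surjective (a5 X)
  exact_b12 : ∀ X, Function.Exact (b1 X) (b2 X)
  exact_b23 : ∀ X, Function.Exact (b2 X) (b3 X)
  exact_b34 : ∀ X, Function.Exact (b3 X) (b4 X)
  exact_b45 : ∀ X, Function.Exact (b4 X) (b5 X)
  surj_b5 : ∀ X, Function.Surjective (b5 X)
  comm1 : ∀ X, (b1 X).comp (α1 (one X)) = (α1 (star X)).comp (a1 X)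
  comm2 : ∀ X, (b2 X).comp (α1 (star X)) = (α1 X).comp (a2 X)
  comm3 : ∀ X, (b3 X).comp (α1 X) = (α2 (one X)).comp (a3 X)
  comm4 : ∀ X, (b4 X).comp (α2 (one X)) = (α2 (star X)).comp (a4 X)
  comm5 : ∀ X, (b5 X).comp (α2 (star X)) = (α2 X).comp (a5 X)
  bij_star1 : ∀ X, Function.Bijective (α1 (star X))
  bij_star2 : ∀ X, Function.Bijective (α2 (star X))

variable {star one T1 T2 E1 E0 α1 α2 a1 a2 a3 a4 a5 b1 b2 b3 b4 b5}

namespace ChaseHyp

variable (h : ChaseHyp star one T1 T2 E1 E0 α1 α2 a1 a2 a3 a4 a5 b1 b2 b3 b4 b5)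
include h

/-- Step 1: `α²` is surjective on every object. -/
theorem surjective_α2 (X : Obj) : Function.Surjective (α2 X) := by
  intro y
  obtain ⟨z, rfl⟩ := h.surj_b5 X y
  obtain ⟨w, rfl⟩ := (h.bij_star2 X).2 z
  exact ⟨a5 X w, (DFunLike.congr_fun (h.comm5 X) w).symm⟩

/-- Step 2: `α²` is injective on every object. -/
theorem injective_α2 (X : Obj) : Function.Injective (α2 X) :=
  AddMonoidHom.injective_of_surjective_of_injective_of_right_exact (a4 X) (a5 X) (b4 X) (b5 X)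
    (α2 (one X)) (α2 (star X)) (α2 X) (h.comm4 X) (h.comm5 X) (h.exact_a45 X) (h.exact_b45 X)
    (h.surjective_α2 (one X)) (h.bij_star2 X).1 (h.surj_a5 X)

theorem bijective_α2 (X : Obj) : Function.Bijective (α2 X) :=
  ⟨h.injective_α2 X, h.surjective_α2 X⟩

/-- Step 3: `α¹` is surjective on every object. -/
theorem surjective_α1 (X : Obj) : Function.Surjective (α1 X) :=
  AddMonoidHom.surjective_of_surjective_of_surjective_of_injective (a2 X) (a3 X) (a4 X)
    (b2 X) (b3 X) (b4 X) (α1 (star X)) (α1 X) (α2 (one X)) (α2 (star X))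
    (h.comm2 X) (h.comm3 X) (h.comm4 X) (h.exact_a34 X) (h.exact_b23 X) (h.exact_b34 X)
    (h.bij_star1 X).2 (h.surjective_α2 (one X)) (h.bij_star2 X).1

/-- Step 4: `α¹` is injective on every object. -/
theorem injective_α1 (X : Obj) : Function.Injective (α1 X) :=
  AddMonoidHom.injective_of_surjective_of_injective_of_injective (a1 X) (a2 X) (a3 X)
    (b1 X) (b2 X) (b3 X) (α1 (one X)) (α1 (star X)) (α1 X) (α2 (one X))
    (h.comm1 X) (h.comm2 X) (h.comm3 X) (h.exact_a12 X) (h.exact_a23 X) (h.exact_b12 X)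
    (h.surjective_α1 (one X)) (h.bij_star1 X).1 (h.injective_α2 (one X))

theorem bijective_α1 (X : Obj) : Function.Bijective (α1 X) :=
  ⟨h.injective_α1 X, h.surjective_α1 X⟩

end ChaseHyp

end Fermat.Agent.CFT.H46
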