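import Mathlib

/-!
# Unipotent induction for `𝔽_p`-representations acted on through a `p`-group
(layer D1-T3 of project CFT; vocabulary neutral, Mathlib only)

* `ActsThroughPGroup p X` : every `h : H` has a `p`-power acting trivially on `X`.
* `exists_fixed_ne_zero` : a nonzero finite such `X` has a nonzero `H`-fixed vector.
* `pgroup_induction` : a predicate on `Rep (ZMod p) H` which holds for zero objects and trivial
  lines and is closed under extensions holds for every finite `X` acted on through a `p`-group.
* `pgroup_induction_shortExact` : same, with extension-closedness phrased via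
  `ShortComplex.ShortExact`.
-/

set_option autoImplicit false

namespace Fermat.Agent.CFT.H46

open CategoryTheory

universe w v

variable {p : ℕ} [Fact p.Prime] {H : Type v} [Group H]

/-- `H` acts on `X` through a `p`-group: every element has a `p`-power acting trivially. -/
def ActsThroughPGroup (p : ℕ) {H : Type v} [Group H] (X : Rep.{w} (ZMod p) H) : Prop :=
  ∀ h : H, ∃ n : ℕ, ∀ x : X, X.ρ (h ^ p ^ n) x = x

/-- The permutation representation underlying a representation of a group. -/
noncomputable def permHom (X : Rep.{w} (ZMod p) H) : H →* Equiv.Perm X where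
  toFun h :=
    { toFun := X.ρ h
      invFun := X.ρ h⁻¹
      left_inv := fun x => by
        rw [← Module.End.mul_apply, ← map_mul, inv_mul_cancel, map_one, Module.End.one_apply]
      right_inv := fun x => by
        rw [← Module.End.mul_apply, ← map_mul, mul_inv_cancel, map_one, Module.End.one_apply] }
  map_one' := by ext x; simp
  map_mul' a b := by ext x; simp

@[simp] lemma permHom_apply (X : Rep.{w} (ZMod p) H) (h : H) (x : X) :
    permHom X h x = X.ρ h x := rfl

lemma isPGroup_range_permHom {X : Rep.{w} (ZMod p) H} (hX : ActsThroughPGroup p X) :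
    IsPGroup p (permHom X).range := by
  rintro ⟨g, h, rfl⟩
  obtain ⟨n, hn⟩ := hX h
  refine ⟨n, ?_⟩
  apply Subtype.ext
  rw [SubgroupClass.coe_pow, Subgroup.coe_one, ← map_pow]
  ext x
  exact hn x

/-- A nonzero finite `𝔽_p`-representation acted on through a `p`-group has a nonzero fixed
vector. -/
theorem exists_fixed_ne_zero (X : Rep.{w} (ZMod p) H) [Finite X] [Nontrivial X]
    (hX : ActsThroughPGroup p X) : ∃ x : X, x ≠ 0 ∧ ∀ h : H, X.ρ h x = x := by
  have hp : p.Prime := Fact.out
  have hdvd : p ∣ Nat.card X := by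
    obtain ⟨x, hx⟩ := exists_ne (0 : X)
    have h1 : addOrderOf x = p := by
      apply addOrderOf_eq_prime _ hx
      rw [← Nat.cast_smul_eq_nsmul (ZMod p), ZMod.natCast_self, zero_smul]
    have h2 := addOrderOf_dvd_natCard x
    rwa [h1] at h2
  have h0 : (0 : X) ∈ MulAction.fixedPoints (permHom X).range X := by
    rintro ⟨g, h, rfl⟩
    change permHom X h 0 = 0
    simp
  obtain ⟨b, hb, hne⟩ :=
    (isPGroup_range_permHom hX).exists_fixed_point_of_prime_dvd_card_of_fixed_point X hdvd h0
  refine ⟨b, hne.symm, fun h => ?_⟩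
  exact hb ⟨permHom X h, h, rfl⟩

/-- A quotient of a representation acted on through a `p`-group is acted on through a
`p`-group. -/
lemma ActsThroughPGroup.quotient {X : Rep.{w} (ZMod p) H} (hX : ActsThroughPGroup p X)
    (W : Submodule (ZMod p) X) (hW : ∀ g, W ≤ W.comap (X.ρ g)) :
    ActsThroughPGroup p (X.quotient W hW) := by
  intro h
  obtain ⟨n, hn⟩ := hX h
  refine ⟨n, fun y => ?_⟩
  induction y using Submodule.Quotient.induction_on with
  | H z => exact congrArg (Submodule.Quotient.mk (p := W)) (hn z)

/-- A subrepresentation of a representation acted on through a `p`-group is acted on through a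
`p`-group. -/
lemma ActsThroughPGroup.subrepresentation {X : Rep.{w} (ZMod p) H} (hX : ActsThroughPGroup p X)
    (W : Submodule (ZMod p) X) (hW : ∀ g, W ≤ W.comap (X.ρ g)) :
    ActsThroughPGroup p (X.subrepresentation W hW) := by
  intro h
  obtain ⟨n, hn⟩ := hX h
  exact ⟨n, fun y => Subtype.ext (hn y.1)⟩

/-- **Unipotent induction.** A predicate on `Rep (ZMod p) H` which holds for zero objects and for
trivial lines, and is closed under extensions, holds for every finite representation on which `H`
acts through a `p`-group. -/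
theorem pgroup_induction (P : Rep.{w} (ZMod p) H → Prop)
    (h0 : ∀ X : Rep.{w} (ZMod p) H, Subsingleton X → P X)
    (h1 : ∀ X : Rep.{w} (ZMod p) H, (∀ h x, X.ρ h x = x) → Module.finrank (ZMod p) X = 1 → P X)
    (hext : ∀ (X' X X'' : Rep.{w} (ZMod p) H) (i : X' ⟶ X) (q : X ⟶ X''),
      Function.Injective i.hom → Function.Surjective q.hom → Function.Exact i.hom q.hom →
      P X' → P X'' → P X)
    (X : Rep.{w} (ZMod p) H) [Finite X] (hX : ActsThroughPGroup p X) : P X := by
  induction hn : Nat.card X using Nat.strong_induction_on generalizing X with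
  | _ n ih =>
    subst hn
    rcases subsingleton_or_nontrivial X with hs | hnt
    · exact h0 X hs
    obtain ⟨x, hx0, hx⟩ := exists_fixed_ne_zero X hX
    let W : Submodule (ZMod p) X := Submodule.span (ZMod p) {x}
    have hfix : ∀ g, ∀ y ∈ W, X.ρ g y = y := by
      intro g y hy
      obtain ⟨c, rfl⟩ := Submodule.mem_span_singleton.1 hy
      rw [map_smul, hx]
    have hW : ∀ g, W ≤ W.comap (X.ρ g) := by
      intro g y hy
      rw [Submodule.mem_comap, hfix g y hy]
      exact hy
    refine hext (X.subrepresentation W hW) X (X.quotient W hW) (X.subtype W hW) (X.mkQ W hW)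
      W.injective_subtype W.mkQ_surjective (LinearMap.exact_subtype_mkQ W) ?_ ?_
    · refine h1 _ (fun h y => Subtype.ext (hfix h y.1 y.2)) ?_
      exact finrank_span_singleton hx0
    · have hfin' : Finite (X ⧸ W) := Finite.of_surjective W.mkQ W.mkQ_surjective
      have hfin : Finite (X.quotient W hW) := hfin'
      refine ih _ ?_ (X.quotient W hW) (hX.quotient W hW) rfl
      have hcard := Submodule.card_eq_card_quotient_mul_card W
      have hW2 : 1 < Nat.card W := by
        rw [Finite.one_lt_card_iff_nontrivial]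
        exact ⟨⟨0, ⟨x, Submodule.mem_span_singleton_self x⟩, fun h => hx0 (congrArg Subtype.val h).symm⟩⟩
      have hq : 0 < Nat.card (X ⧸ W) := Nat.card_pos
      change Nat.card (X ⧸ W) < Nat.card X
      rw [hcard]
      nlinarith

/-- Three maps of representations that are injective / exact / surjective on underlying
functions form a short exact sequence in `Rep`. -/
theorem shortExact_of_function_exact {k : Type*} [CommRing k] {X' X X'' : Rep.{w} k H}
    (i : X' ⟶ X) (q : X ⟶ X'') (hi : Function.Injective i.hom) (hq : Function.Surjective q.hom)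
    (hex : Function.Exact i.hom q.hom) :
    ∃ hzero : i ≫ q = 0, (ShortComplex.mk i q hzero).ShortExact := by
  have hzero : i ≫ q = 0 := by
    ext x
    exact (hex (i.hom x)).2 ⟨x, rfl⟩
  refine ⟨hzero, ?_⟩
  have hmono : Mono i := (Rep.mono_iff_injective i).2 hi
  have hepi : Epi q := (Rep.epi_iff_surjective q).2 hq
  refine { exact := ?_, mono_f := hmono, epi_g := hepi }
  rw [← ShortComplex.exact_map_iff_of_faithful _ (forget₂ (Rep.{w} k H) (ModuleCat.{w} k))]
  rw [ShortComplex.moduleCat_exact_iff]
  intro x₂ hx₂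
  obtain ⟨x₁, hx₁⟩ := (hex x₂).1 hx₂
  exact ⟨x₁, hx₁⟩

/-- `pgroup_induction` with extension-closedness phrased via `ShortComplex.ShortExact`. -/
theorem pgroup_induction_shortExact (P : Rep.{w} (ZMod p) H → Prop)
    (h0 : ∀ X : Rep.{w} (ZMod p) H, Subsingleton X → P X)
    (h1 : ∀ X : Rep.{w} (ZMod p) H, (∀ h x, X.ρ h x = x) → Module.finrank (ZMod p) X = 1 → P X)
    (hext : ∀ S : ShortComplex (Rep.{w} (ZMod p) H), S.ShortExact → P S.X₁ → P S.X₃ → P S.X₂)
    (X : Rep.{w} (ZMod p) H) [Finite X] (hX : ActsThroughPGroup p X) : P X := by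
  refine pgroup_induction P h0 h1 ?_ X hX
  intro X' X X'' i q hi hq hex h' h''
  obtain ⟨hzero, hS⟩ := shortExact_of_function_exact i q hi hq hex
  exact hext _ hS h' h''

/-- The preimage `U` of a Sylow `p`-subgroup of `H ⧸ N`: it contains `N`, has index prime to `p`,
and every element of `U` has a `p`-power in `N`. -/
theorem exists_sylow_preimage (p : ℕ) [Fact p.Prime] (N : Subgroup H) [N.Normal]
    [N.FiniteIndex] :
    ∃ U : Subgroup H, N ≤ U ∧ ¬ p ∣ U.index ∧ ∀ u ∈ U, ∃ n : ℕ, u ^ p ^ n ∈ N := by
  have hfin : Finite (H ⧸ N) := Subgroup.finite_quotient_of_finiteIndex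
  let Q : Sylow p (H ⧸ N) := default
  refine ⟨(Q : Subgroup (H ⧸ N)).comap (QuotientGroup.mk' N), ?_, ?_, ?_⟩
  · intro x hx
    rw [Subgroup.mem_comap, QuotientGroup.mk'_apply, (QuotientGroup.eq_one_iff x).2 hx]
    exact one_mem _
  · rw [Subgroup.index_comap_of_surjective _ (QuotientGroup.mk'_surjective N)]
    exact Q.not_dvd_index
  · intro u hu
    obtain ⟨n, hn⟩ := Q.2 ⟨QuotientGroup.mk' N u, hu⟩
    refine ⟨n, ?_⟩
    have h2 : (QuotientGroup.mk' N u) ^ p ^ n = 1 := congrArg Subtype.val hn
    rw [← map_pow, QuotientGroup.mk'_apply, QuotientGroup.eq_one_iff] at h2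
    exact h2

/-- If `N` acts trivially on `X` and every element of `U` has a `p`-power in `N`, then `U` acts on
`X` through a `p`-group. -/
theorem actsThroughPGroup_res {X : Rep.{w} (ZMod p) H} (N U : Subgroup H)
    (hN : ∀ n ∈ N, ∀ x : X, X.ρ n x = x) (hU : ∀ u ∈ U, ∃ n : ℕ, u ^ p ^ n ∈ N) :
    ActsThroughPGroup p (Rep.res U.subtype X) := by
  intro u
  obtain ⟨n, hn⟩ := hU u.1 u.2
  exact ⟨n, fun x => hN _ hn x⟩

end Fermat.Agent.CFT.H46
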