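import Fermat.Agent.CFT.H46_WModel
import Fermat.Agent.CFT.H46_DualityChase

/-!
# The two rows of the duality chase in the W-model (layer D1 of project CFT)

For a short exact sequence `0 → X → Xs → X1 → 0` (`H1.IsSES i p`) of finite discrete
representations over a field and a W-model `M`:

* the T-row `T¹(X1) → T¹(Xs) → T¹(X) → T²(X1) → T²(Xs) → T²(X)` and its exactness
  (under `(AC1)`: `H¹(H; Hom(X1,Vm)) = 0`), surjectivity of the last map when `T³(X1) = 0`;
* the E-row `H¹(X1)^* → H¹(Xs)^* → H¹(X)^* → H⁰(X1)^* → H⁰(Xs)^* → H⁰(X)^* → 0`;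
* the five squares with `α¹`, `α²` (the connecting square commutes up to the sign `-1`, which is
  absorbed in the definition of `rowδ`).
-/

set_option autoImplicit false

noncomputable section

universe u

open CategoryTheory groupCohomology

namespace Fermat.Agent.CFT.H46

open Fermat.Agent.CFT Fermat.Agent.CFT.H1 LevelStructure

variable {H : Type u} [Group H] {K : Type u} [Field K] {𝓛 : LevelStructure H}

/-! ### Generalities on exactness -/

lemma exact_neg_right {A B C : Type*} [AddCommGroup A] [AddCommGroup B] [AddCommGroup C]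
    {f : A → B} {g : B →+ C} (h : Function.Exact f g) : Function.Exact f (-g) := by
  intro b
  rw [← h b]
  simp

lemma exact_neg_left {A B C : Type*} [AddCommGroup A] [AddCommGroup B] [AddCommGroup C]
    {f : A →+ B} {g : B → C} (h : Function.Exact f g) : Function.Exact (-f) g := by
  intro b
  rw [h b]
  constructor
  · rintro ⟨a, rfl⟩
    exact ⟨-a, by simp⟩
  · rintro ⟨a, rfl⟩
    exact ⟨-a, by simp⟩

lemma surjective_of_exact_of_subsingleton {A B C : Type*} [AddCommGroup C] [Subsingleton C]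
    {f : A → B} {g : B → C} (h : Function.Exact f g) : Function.Surjective f := by
  intro b
  exact (h b).1 (Subsingleton.elim _ _)

/-! ### The cochain identity behind the connecting square -/

/-- Let `i : X ⟶ Xs` be a morphism, `h' : X ⟶ W` equivariant, `h : Xs → W` a linear extension
of `h'`, `b ∈ Xs` and `a g ∈ X` with `i (a g) = g b - b`.  Then
`(g • h - h)(b) + h' (a g) = g (h b) - h b`. -/
lemma pairing_delta_pointwise {X Xs W : Rep.{u} K H} (i : X ⟶ Xs) (h' : X ⟶ W)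
    (h : Xs →ₗ[K] W) (hh : ∀ x, h (i.hom x) = h'.hom x) (b : Xs) (a : H → X)
    (ha : ∀ g, i.hom (a g) = Xs.ρ g b - b) (g : H) :
    (W.ρ g (h (Xs.ρ g⁻¹ b)) - h b) + h'.hom (a g) = W.ρ g (h b) - h b := by
  have h1 : Xs.ρ g⁻¹ b = b + i.hom (a g⁻¹) := by rw [ha]; abel
  have hgg : Xs.ρ g (Xs.ρ g⁻¹ b) = b := by
    rw [← Module.End.mul_apply, ← map_mul, mul_inv_cancel, map_one, Module.End.one_apply]
  have h3 : W.ρ g (h'.hom (a g⁻¹)) = - h'.hom (a g) := by
    rw [← Rep.hom_comm_apply, ← hh, ← hh, Rep.hom_comm_apply i, ha, ha, map_sub, hgg,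
      map_sub, map_sub]
    abel
  rw [h1, map_add, map_add, hh, h3]
  abel

/-! ### The rows attached to a short exact sequence -/

namespace WModel

variable (M : WModel 𝓛 K) {X Xs X1 : Rep.{u} K H} {i : X ⟶ Xs} {p : Xs ⟶ X1}
  (h : IsSES i p) [Module.Finite K Xs] (hXs : 𝓛.IsDiscrete Xs)

include hXs in
/-- The short exact sequence `0 → Hom(X1,W) → Hom(Xs,W) → Hom(X,W) → 0` has discrete middle
term. -/
lemma discrete_homW : 𝓛.IsDiscrete (homRep Xs M.W) := isDiscrete_homRep 𝓛 hXs M.discrete_W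

include hXs in
lemma discrete_homVm : 𝓛.IsDiscrete (homRep Xs M.Vm) := isDiscrete_homRep 𝓛 hXs M.discrete_Vm

/-- The connecting map `Hom_H(X,W) → H¹(Hom(X1,W))`. -/
def δW : LevelStructure.H0 (homRep X M.W) →ₗ[K] M.T2 X1 :=
  δ₀ 𝓛 (isSES_preHom h M.W) (M.discrete_homW hXs)

/-- The connecting map `Hom_H(X,Vm) → H¹(Hom(X1,Vm))`. -/
def δV : LevelStructure.H0 (homRep X M.Vm) →ₗ[K] 𝓛.H1 (homRep X1 M.Vm) :=
  δ₀ 𝓛 (isSES_preHom h M.Vm) (M.discrete_homVm hXs)

lemma δW_dHom (v : LevelStructure.H0 (homRep X M.Vm)) :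
    M.δW h hXs (M.dHom X v) = H1map 𝓛 (postHom X1 M.d) (M.δV h hXs v) :=
  (δ₀_natural 𝓛 (isSES_preHom h M.Vm) (M.discrete_homVm hXs) (isSES_preHom h M.W)
    (M.discrete_homW hXs) (postHom X1 M.d) (postHom Xs M.d) (postHom X M.d)
    (fun _ => rfl) (fun _ => rfl) v).symm

/-- `(AC1)` for `X1`: `δW` kills `d ∘ Hom_H(X,Vm)`. -/
lemma δW_comp_dHom (hAC : Subsingleton (𝓛.H1 (homRep X1 M.Vm))) :
    M.δW h hXs ∘ₗ M.dHom X = 0 := by
  ext v
  rw [LinearMap.comp_apply, δW_dHom, Subsingleton.elim (M.δV h hXs v) 0, map_zero]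
  rfl

/-- The connecting map of the T-row, `T¹(X) → T²(X1)`, with the sign `-1` that makes the
connecting square commute. -/
def rowδ (hAC : Subsingleton (𝓛.H1 (homRep X1 M.Vm))) : M.T1 X →ₗ[K] M.T2 X1 :=
  - cokerDesc (M.dHom X) (M.δW h hXs) (M.δW_comp_dHom h hXs hAC)

include h hXs in
/-- Exactness of the T-row at `T¹(Xs)`. -/
theorem exact_T1map_T1map (hAC : Subsingleton (𝓛.H1 (homRep X1 M.Vm))) :
    Function.Exact (M.T1map p) (M.T1map i) := by
  refine exact_cokerMap_cokerMap _ _ _ _ _ _ _ _ _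
    (exact_H0map_H0map (isSES_preHom h M.W)) ?_
  exact surjective_of_exact_of_subsingleton
    (exact_H0map_δ₀ 𝓛 (isSES_preHom h M.Vm) (M.discrete_homVm hXs))

/-- Exactness of the T-row at `T¹(X)`. -/
theorem exact_T1map_rowδ (hAC : Subsingleton (𝓛.H1 (homRep X1 M.Vm))) :
    Function.Exact (M.T1map i) (M.rowδ h hXs hAC) := by
  have := exact_cokerMap_cokerDesc (M.dHom Xs) (M.dHom X) (H0map (preHom i M.Vm))
    (H0map (preHom i M.W)) (M.δW h hXs) (by ext v; rfl) (M.δW_comp_dHom h hXs hAC)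
    (exact_H0map_δ₀ 𝓛 (isSES_preHom h M.W) (M.discrete_homW hXs))
  exact exact_neg_right (g := (cokerDesc (M.dHom X) (M.δW h hXs)
    (M.δW_comp_dHom h hXs hAC)).toAddMonoidHom) this

/-- Exactness of the T-row at `T²(X1)`. -/
theorem exact_rowδ_T2map (hAC : Subsingleton (𝓛.H1 (homRep X1 M.Vm))) :
    Function.Exact (M.rowδ h hXs hAC) (M.T2map p) := by
  have := exact_cokerDesc (M.dHom X) (M.δW h hXs) (M.T2map p) (M.δW_comp_dHom h hXs hAC)
    (exact_δ₀_H1map 𝓛 (isSES_preHom h M.W) (M.discrete_homW hXs))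
  exact exact_neg_left (f := (cokerDesc (M.dHom X) (M.δW h hXs)
    (M.δW_comp_dHom h hXs hAC)).toAddMonoidHom) this

include h hXs in
/-- Exactness of the T-row at `T²(Xs)`. -/
theorem exact_T2map_T2map : Function.Exact (M.T2map p) (M.T2map i) :=
  exact_H1map_H1map 𝓛 (isSES_preHom h M.W) (M.discrete_homW hXs)

include h hXs in
/-- The T-row ends with a surjection when `T³(X1) = 0`. -/
theorem surjective_T2map (hT3 : Subsingleton (M.T3 X1)) : Function.Surjective (M.T2map i) :=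
  surjective_of_exact_of_subsingleton
    (exact_H1map_δ₁ 𝓛 (isSES_preHom h M.W) (M.discrete_homW hXs))

/-! ### The connecting square -/

/-- **The connecting square, sign `-1`.**  `⟨δ h, x''⟩ + ⟨h, δ x''⟩ = 0` in `H¹(H;W)`. -/
theorem pair2_δW_add_pair1pre_δ₀ (hh : LevelStructure.H0 (homRep X M.W))
    (x'' : LevelStructure.H0 X1) :
    M.pair2 X1 (M.δW h hXs hh) x'' + M.pair1pre X hh (δ₀ 𝓛 h hXs x'') = 0 := by
  -- the connecting map on the `X`-side
  obtain ⟨b, hb⟩ := h.surj x''.1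
  have hdb : (d₀₁ Xs).hom b ∈ 𝓛.cocycles₁ Xs :=
    coboundaries₁_le hXs ((mem_coboundaries₁_iff _).2 ⟨b, rfl⟩)
  have hpdb : compL p H ((d₀₁ Xs).hom b) = 0 := by
    rw [compL_d₀₁, hb]
    funext g
    change X1.ρ g x''.1 - x''.1 = 0
    rw [x''.2 g, sub_self]
  obtain ⟨a, ha, hia⟩ := h.exact_cocycles₁ _ hdb hpdb
  have hδx : δ₀ 𝓛 h hXs x'' = Submodule.Quotient.mk ⟨a, ha⟩ := δ₀_apply 𝓛 h hXs x'' b hb a ha hia
  -- the connecting map on the `Hom`-side
  have hW := isSES_preHom h M.W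
  have hdW := M.discrete_homW hXs
  obtain ⟨ht, hht⟩ := hW.surj hh.1
  have hdt : (d₀₁.{u,u} (homRep Xs M.W)).hom ht ∈ 𝓛.cocycles₁ (homRep Xs M.W) :=
    coboundaries₁_le hdW ((mem_coboundaries₁_iff (𝓛 := 𝓛) (A := homRep Xs M.W) _).2 ⟨ht, rfl⟩)
  have hpdt : compL (preHom i M.W) H ((d₀₁.{u,u} (homRep Xs M.W)).hom ht) = 0 := by
    rw [compL_d₀₁, hht]
    funext g
    change (homRep X M.W).ρ g hh.1 - hh.1 = 0
    rw [hh.2 g, sub_self]
  obtain ⟨c, hc, hpc⟩ := hW.exact_cocycles₁ _ hdt hpdt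
  have hδh : M.δW h hXs hh = Submodule.Quotient.mk ⟨c, hc⟩ :=
    δ₀_apply 𝓛 hW hdW hh ht hht c hc hpc
  -- compute
  rw [hδx, hδh, pair2_apply, pair1pre_apply, H1map_mk, H1map_mk, ← Submodule.Quotient.mk_add,
    Submodule.Quotient.mk_eq_zero]
  change _ ∈ 𝓛.coboundaries₁ M.W
  rw [mem_coboundaries₁_iff]
  refine ⟨asLin ht b, ?_⟩
  funext g
  have key := pairing_delta_pointwise i (toHom hh) (asLin ht)
    (fun x => LinearMap.congr_fun (show asLin ((preHom i M.W).hom ht) = asLin hh.1 from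
      congrArg asLin hht) x) b a (fun g => congrFun hia g) g
  have hcg : asLin (c g) x''.1 = M.W.ρ g (asLin ht (Xs.ρ g⁻¹ b)) - asLin ht b := by
    rw [← hb]
    exact LinearMap.congr_fun (show asLin ((preHom p M.W).hom (c g)) =
      asLin ((d₀₁.{u,u} (homRep Xs M.W)).hom ht g) from congrArg asLin (congrFun hpc g)) b
  change M.W.ρ g (asLin ht b) - asLin ht b = asLin (c g) x''.1 + (toHom hh).hom (a g)
  rw [hcg, key]

/-- The connecting square: `(δ₀)^* ∘ α¹(X) = α²(X1) ∘ rowδ`. -/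
theorem α_rowδ (tr : 𝓛.H1 M.W →ₗ[K] K) (hVm : Subsingleton (𝓛.H1 M.Vm))
    (hAC : Subsingleton (𝓛.H1 (homRep X1 M.Vm))) :
    (δ₀ 𝓛 h hXs).dualMap ∘ₗ M.α1 tr hVm X = M.α2 tr X1 ∘ₗ M.rowδ h hXs hAC := by
  refine LinearMap.ext fun t => LinearMap.ext fun x'' => ?_
  induction t using Submodule.Quotient.induction_on with
  | H hh =>
    change tr (M.pair1pre X hh (δ₀ 𝓛 h hXs x'')) = tr (M.pair2 X1 (-(M.δW h hXs hh)) x'')
    rw [map_neg, LinearMap.neg_apply]
    congr 1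
    exact (neg_eq_of_add_eq_zero_right (M.pair2_δW_add_pair1pre_δ₀ h hXs hh x'')).symm

end WModel

/-! ### The E-row -/

section ERow

variable {X Xs X1 : Rep.{u} K H} {i : X ⟶ Xs} {p : Xs ⟶ X1} (h : IsSES i p)
  (hXs : 𝓛.IsDiscrete Xs)

include h hXs in
theorem exact_E1_E1 : Function.Exact (H1map 𝓛 p).dualMap (H1map 𝓛 i).dualMap :=
  exact_dualMap _ _ (exact_H1map_H1map 𝓛 h hXs)

theorem exact_E1_δ : Function.Exact (H1map 𝓛 i).dualMap (δ₀ 𝓛 h hXs).dualMap :=
  exact_dualMap _ _ (exact_δ₀_H1map 𝓛 h hXs)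

theorem exact_δ_E0 : Function.Exact (δ₀ 𝓛 h hXs).dualMap (H0map p).dualMap :=
  exact_dualMap _ _ (exact_H0map_δ₀ 𝓛 h hXs)

include h in
theorem exact_E0_E0 : Function.Exact (H0map p).dualMap (H0map i).dualMap :=
  exact_dualMap _ _ (exact_H0map_H0map h)

include h in
theorem surjective_E0 : Function.Surjective (H0map i).dualMap :=
  surjective_dualMap _ (H0map_injective h)

end ERow

end Fermat.Agent.CFT.H46
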