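import Mathlib

/-!
# Element-level calculus for the cohomology of `ℕ`-indexed cochain complexes of modules

For `K : CochainComplex (ModuleCat k) ℕ` we provide

* `cocycleMk K n x hx : K.cycles n` for `x : K.X n` with `K.d n (n+1) x = 0`,
* `cls K n x hx : K.homology n`, the cohomology class of a cocycle,

and prove that every class is a `cls`, that `cls` is additive / linear in the cocycle, that
`cls K (n+1) x hx = 0` iff `x` is a coboundary, that `cls K 0 x hx = 0` iff `x = 0`, and the
formula `homologyMap φ n (cls K n x hx) = cls L n (φ.f n x) _`.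

Everything is generic (Mathlib only) and is used by `H47_Cone` (hypercohomology of a two term
complex, package CFT/D0-HYP).
-/

set_option autoImplicit false

universe v u

open CategoryTheory CategoryTheory.Limits

namespace Fermat.Agent.CFT.H47

variable {k : Type u} [Ring k]

lemma comp_apply_eq {A B C : ModuleCat.{v} k} {f : A ⟶ B} {g : B ⟶ C} {e : A ⟶ C}
    (h : f ≫ g = e) (x : A) : g (f x) = e x := by
  rw [← h]; rfl

lemma comp_apply_eq_zero {A B C : ModuleCat.{v} k} {f : A ⟶ B} {g : B ⟶ C}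
    (h : f ≫ g = 0) (x : A) : g (f x) = 0 := by
  rw [comp_apply_eq h]; rfl

section Basic

variable (K : CochainComplex (ModuleCat.{v} k) ℕ)

lemma d_d_apply (i j l : ℕ) (x : K.X i) : K.d j l (K.d i j x) = 0 :=
  comp_apply_eq_zero (K.d_comp_d i j l) x

lemma iCycles_injective (n : ℕ) : Function.Injective (K.iCycles n) :=
  (ModuleCat.mono_iff_injective (K.iCycles n)).1 inferInstance

lemma homologyπ_surjective (n : ℕ) : Function.Surjective (K.homologyπ n) :=
  (ModuleCat.epi_iff_surjective (K.homologyπ n)).1 inferInstance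

lemma d_iCycles_apply (n m : ℕ) (z : K.cycles n) : K.d n m (K.iCycles n z) = 0 :=
  comp_apply_eq_zero (K.iCycles_d n m) z

/-- The kernel short complex `Zⁿ → Kⁿ → Kⁿ⁺¹` is exact. -/
lemma exists_iCycles_eq (n : ℕ) (x : K.X n) (hx : K.d n (n + 1) x = 0) :
    ∃ z : K.cycles n, K.iCycles n z = x := by
  have hex : (ShortComplex.mk (K.iCycles n) (K.d n (n + 1)) (K.iCycles_d n (n + 1))).Exact :=
    ShortComplex.exact_of_f_is_kernel _ (K.cyclesIsKernel n (n + 1) (by simp))
  exact (ShortComplex.moduleCat_exact_iff _).1 hex x hx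

/-- The cocycle of `K.cycles n` attached to an element killed by the differential. -/
noncomputable def cocycleMk (n : ℕ) (x : K.X n) (hx : K.d n (n + 1) x = 0) : K.cycles n :=
  (exists_iCycles_eq K n x hx).choose

@[simp]
lemma iCycles_cocycleMk (n : ℕ) (x : K.X n) (hx : K.d n (n + 1) x = 0) :
    K.iCycles n (cocycleMk K n x hx) = x :=
  (exists_iCycles_eq K n x hx).choose_spec

lemma cocycleMk_iCycles (n : ℕ) (z : K.cycles n) :
    cocycleMk K n (K.iCycles n z) (d_iCycles_apply K n (n + 1) z) = z :=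
  iCycles_injective K n (iCycles_cocycleMk K n _ _)

lemma cocycleMk_add (n : ℕ) (x y : K.X n) (hx : K.d n (n + 1) x = 0)
    (hy : K.d n (n + 1) y = 0) :
    cocycleMk K n (x + y) (by rw [map_add, hx, hy, add_zero]) =
      cocycleMk K n x hx + cocycleMk K n y hy :=
  iCycles_injective K n (by simp only [map_add, iCycles_cocycleMk])

lemma cocycleMk_smul (n : ℕ) (c : k) (x : K.X n) (hx : K.d n (n + 1) x = 0) :
    cocycleMk K n (c • x) (by rw [map_smul, hx, smul_zero]) = c • cocycleMk K n x hx :=
  iCycles_injective K n (by simp only [map_smul, iCycles_cocycleMk])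

/-- The cohomology class of a cocycle. -/
noncomputable def cls (n : ℕ) (x : K.X n) (hx : K.d n (n + 1) x = 0) : K.homology n :=
  K.homologyπ n (cocycleMk K n x hx)

lemma cls_congr (n : ℕ) {x y : K.X n} (h : x = y) (hx : K.d n (n + 1) x = 0) :
    cls K n x hx = cls K n y (h ▸ hx) := by
  subst h; rfl

lemma homologyπ_eq_cls (n : ℕ) (z : K.cycles n) :
    K.homologyπ n z = cls K n (K.iCycles n z) (d_iCycles_apply K n (n + 1) z) := by
  unfold cls
  rw [cocycleMk_iCycles]

/-- Every cohomology class is the class of a cocycle. -/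
lemma exists_cls_eq (n : ℕ) (h : K.homology n) :
    ∃ (x : K.X n) (hx : K.d n (n + 1) x = 0), cls K n x hx = h := by
  obtain ⟨z, rfl⟩ := homologyπ_surjective K n h
  exact ⟨K.iCycles n z, d_iCycles_apply K n (n + 1) z, (homologyπ_eq_cls K n z).symm⟩

lemma cls_add (n : ℕ) (x y : K.X n) (hx : K.d n (n + 1) x = 0) (hy : K.d n (n + 1) y = 0) :
    cls K n (x + y) (by rw [map_add, hx, hy, add_zero]) = cls K n x hx + cls K n y hy := by
  unfold cls
  rw [cocycleMk_add K n x y hx hy, map_add]

lemma cls_smul (n : ℕ) (c : k) (x : K.X n) (hx : K.d n (n + 1) x = 0) :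
    cls K n (c • x) (by rw [map_smul, hx, smul_zero]) = c • cls K n x hx := by
  unfold cls
  rw [cocycleMk_smul K n c x hx, map_smul]

lemma cocycleMk_zero (n : ℕ) : cocycleMk K n 0 (map_zero _) = 0 :=
  iCycles_injective K n (by rw [iCycles_cocycleMk, map_zero])

lemma cls_zero (n : ℕ) : cls K n 0 (map_zero _) = 0 := by
  unfold cls
  rw [cocycleMk_zero, map_zero]

lemma cls_neg (n : ℕ) (x : K.X n) (hx : K.d n (n + 1) x = 0) :
    cls K n (-x) (by rw [map_neg, hx, neg_zero]) = -cls K n x hx := by
  have h := cls_add K n x (-x) hx (by rw [map_neg, hx, neg_zero])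
  rw [cls_congr K n (add_neg_cancel x), cls_zero] at h
  exact (neg_eq_of_add_eq_zero_right h.symm).symm

lemma cls_sub (n : ℕ) (x y : K.X n) (hx : K.d n (n + 1) x = 0) (hy : K.d n (n + 1) y = 0) :
    cls K n (x - y) (by rw [map_sub, hx, hy, sub_zero]) = cls K n x hx - cls K n y hy := by
  rw [cls_congr K n (sub_eq_add_neg x y), cls_add K n x (-y) hx (by rw [map_neg, hy, neg_zero]),
    cls_neg K n y hy, sub_eq_add_neg]

/-- The cokernel short complex `Kⁿ → Zⁿ⁺¹ → Hⁿ⁺¹` is exact. -/
lemma homologyπ_eq_zero_iff (n : ℕ) (z : K.cycles (n + 1)) :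
    K.homologyπ (n + 1) z = 0 ↔ ∃ y : K.X n, K.d n (n + 1) y = K.iCycles (n + 1) z := by
  have hex : (ShortComplex.mk (K.toCycles n (n + 1)) (K.homologyπ (n + 1))
      (K.toCycles_comp_homologyπ n (n + 1))).Exact :=
    ShortComplex.exact_of_g_is_cokernel _ (K.homologyIsCokernel n (n + 1) (by simp))
  have hti : ∀ y : K.X n, K.iCycles (n + 1) (K.toCycles n (n + 1) y) = K.d n (n + 1) y :=
    fun y => comp_apply_eq (K.toCycles_i n (n + 1)) y
  constructor
  · intro hz
    obtain ⟨y, hy⟩ := (ShortComplex.moduleCat_exact_iff _).1 hex z hz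
    exact ⟨y, by rw [← hti y]; exact congrArg _ hy⟩
  · rintro ⟨y, hy⟩
    have hz : z = K.toCycles n (n + 1) y := iCycles_injective K (n + 1) (by rw [hti y, hy])
    rw [hz]
    exact comp_apply_eq_zero (K.toCycles_comp_homologyπ n (n + 1)) y

/-- A class in positive degree vanishes iff the cocycle is a coboundary. -/
lemma cls_eq_zero_iff (n : ℕ) (x : K.X (n + 1)) (hx : K.d (n + 1) (n + 2) x = 0) :
    cls K (n + 1) x hx = 0 ↔ ∃ y : K.X n, K.d n (n + 1) y = x := by
  unfold cls
  rw [homologyπ_eq_zero_iff, iCycles_cocycleMk]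

/-- The class of a coboundary vanishes (whatever the degrees). -/
lemma cls_d (i n : ℕ) (c : K.X i) : cls K n (K.d i n c) (d_d_apply K i n (n + 1) c) = 0 := by
  by_cases h : i + 1 = n
  · subst h
    exact (cls_eq_zero_iff K i _ _).2 ⟨c, rfl⟩
  · have h0 : K.d i n c = 0 := by rw [K.shape i n h]; rfl
    rw [cls_congr K n h0, cls_zero]

/-- Classes of cocycles differing by a coboundary agree. -/
lemma cls_eq_of_sub_eq_d (i n : ℕ) (x y : K.X n) (hx : K.d n (n + 1) x = 0)
    (hy : K.d n (n + 1) y = 0) (c : K.X i) (h : x - y = K.d i n c) :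
    cls K n x hx = cls K n y hy := by
  rw [← sub_eq_zero, ← cls_sub K n x y hx hy, cls_congr K n h, cls_d]

/-- In degree `0` the projection to cohomology is injective. -/
lemma homologyπ_zero_injective : Function.Injective (K.homologyπ 0) := by
  have : IsIso (K.homologyπ 0) := inferInstance
  exact (ModuleCat.mono_iff_injective (K.homologyπ 0)).1 inferInstance

/-- A class in degree `0` vanishes iff the cocycle is zero. -/
lemma cls_zero_eq_zero_iff (x : K.X 0) (hx : K.d 0 1 x = 0) :
    cls K 0 x hx = 0 ↔ x = 0 := by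
  constructor
  · intro h
    have h0 : cocycleMk K 0 x hx = 0 := homologyπ_zero_injective K (by rw [map_zero]; exact h)
    have := congrArg (K.iCycles 0) h0
    rwa [iCycles_cocycleMk, map_zero] at this
  · intro h
    subst h
    exact cls_zero K 0

/-- Two classes in positive degree agree iff the cocycles differ by a coboundary. -/
lemma cls_eq_cls_iff (n : ℕ) (x y : K.X (n + 1)) (hx : K.d (n + 1) (n + 2) x = 0)
    (hy : K.d (n + 1) (n + 2) y = 0) :
    cls K (n + 1) x hx = cls K (n + 1) y hy ↔ ∃ w : K.X n, K.d n (n + 1) w = x - y := by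
  rw [← sub_eq_zero, ← cls_sub K (n + 1) x y hx hy, cls_eq_zero_iff]

/-- Two classes in degree `0` agree iff the cocycles agree. -/
lemma cls_zero_eq_cls_iff (x y : K.X 0) (hx : K.d 0 1 x = 0) (hy : K.d 0 1 y = 0) :
    cls K 0 x hx = cls K 0 y hy ↔ x = y := by
  rw [← sub_eq_zero, ← cls_sub K 0 x y hx hy, cls_zero_eq_zero_iff, sub_eq_zero]

end Basic

section Map

variable {K L : CochainComplex (ModuleCat.{v} k) ℕ} (φ : K ⟶ L)

lemma comm_apply (i j : ℕ) (x : K.X i) : φ.f j (K.d i j x) = L.d i j (φ.f i x) := by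
  rw [comp_apply_eq (φ.comm i j).symm x]; rfl

lemma d_map_eq_zero (n : ℕ) (x : K.X n) (hx : K.d n (n + 1) x = 0) :
    L.d n (n + 1) (φ.f n x) = 0 := by
  rw [← comm_apply, hx, map_zero]

lemma cyclesMap_cocycleMk (n : ℕ) (x : K.X n) (hx : K.d n (n + 1) x = 0) :
    HomologicalComplex.cyclesMap φ n (cocycleMk K n x hx) =
      cocycleMk L n (φ.f n x) (d_map_eq_zero φ n x hx) := by
  apply iCycles_injective L n
  rw [iCycles_cocycleMk, comp_apply_eq (HomologicalComplex.cyclesMap_i φ n) (cocycleMk K n x hx)]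
  exact congrArg _ (iCycles_cocycleMk K n x hx)

/-- The map induced on cohomology, on representatives. -/
lemma homologyMap_cls (n : ℕ) (x : K.X n) (hx : K.d n (n + 1) x = 0) :
    HomologicalComplex.homologyMap φ n (cls K n x hx) =
      cls L n (φ.f n x) (d_map_eq_zero φ n x hx) := by
  unfold cls
  rw [← cyclesMap_cocycleMk]
  rw [comp_apply_eq (HomologicalComplex.homologyπ_naturality φ n) (cocycleMk K n x hx)]
  rfl

end Map

end Fermat.Agent.CFT.H47
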