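import Fermat.Agent.CFT.H47_CochainElem

/-!
# The fibre (shifted cone) of a morphism of `ℕ`-indexed cochain complexes of modules

For `φ : K ⟶ L` in `CochainComplex (ModuleCat k) ℕ` we construct the complex `fib φ` with
`(fib φ).X 0 = K.X 0`, `(fib φ).X (n+1) = K.X (n+1) × L.X n` and differential
`d (a, b) = (d a, φ a - d b)` (in degree `0`: `d a = (d a, φ a)`), together with the long exact
sequence

`0 → H⁰(fib φ) → H⁰(K) → H⁰(L) → H¹(fib φ) → H¹(K) → H¹(L) → H²(fib φ) → ⋯`.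

This is the generic part of package CFT/D0-HYP (hypercohomology of a two term complex).
-/

set_option autoImplicit false

universe v u

open CategoryTheory CategoryTheory.Limits

namespace Fermat.Agent.CFT.H47

variable {k : Type u} [Ring k]

section Def

variable {K L : CochainComplex (ModuleCat.{v} k) ℕ} (φ : K ⟶ L)

/-- The objects of the fibre complex. -/
def fibX (K L : CochainComplex (ModuleCat.{v} k) ℕ) : ℕ → ModuleCat.{v} k
  | 0 => K.X 0
  | (n + 1) => ModuleCat.of k (K.X (n + 1) × L.X n)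

/-- The differential of the fibre complex in degree `0`, as a linear map. -/
def fibD₀ : K.X 0 →ₗ[k] K.X 1 × L.X 0 :=
  LinearMap.prod (K.d 0 1).hom (φ.f 0).hom

/-- The differential of the fibre complex in positive degree, as a linear map. -/
def fibDS (n : ℕ) : K.X (n + 1) × L.X n →ₗ[k] K.X (n + 2) × L.X (n + 1) :=
  LinearMap.prod ((K.d (n + 1) (n + 2)).hom ∘ₗ LinearMap.fst k _ _)
    ((φ.f (n + 1)).hom ∘ₗ LinearMap.fst k _ _ - (L.d n (n + 1)).hom ∘ₗ LinearMap.snd k _ _)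

@[simp]
lemma fibD₀_apply (a : K.X 0) : fibD₀ φ a = (K.d 0 1 a, φ.f 0 a) := rfl

@[simp]
lemma fibDS_apply (n : ℕ) (x : K.X (n + 1) × L.X n) :
    fibDS φ n x = (K.d (n + 1) (n + 2) x.1, φ.f (n + 1) x.1 - L.d n (n + 1) x.2) := rfl

/-- The differential of the fibre complex. -/
def fibD : ∀ n, fibX K L n ⟶ fibX K L (n + 1)
  | 0 => ModuleCat.ofHom (fibD₀ φ)
  | (n + 1) => ModuleCat.ofHom (fibDS φ n)

lemma fibD_comp_fibD (n : ℕ) : fibD φ n ≫ fibD φ (n + 1) = 0 := by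
  cases n with
  | zero =>
    apply ModuleCat.hom_ext
    apply LinearMap.ext
    intro a
    show fibDS φ 0 (fibD₀ φ a) = 0
    rw [fibD₀_apply, fibDS_apply]
    simp only [d_d_apply, comm_apply, sub_self]
    rfl
  | succ n =>
    apply ModuleCat.hom_ext
    apply LinearMap.ext
    intro x
    show fibDS φ (n + 1) (fibDS φ n x) = 0
    rw [fibDS_apply, fibDS_apply]
    simp only [d_d_apply, comm_apply, map_sub, sub_zero, sub_self]
    rfl

/-- The fibre complex of `φ : K ⟶ L`:  `Kⁿ × Lⁿ⁻¹` with `d (a, b) = (d a, φ a - d b)`. -/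
noncomputable def fib : CochainComplex (ModuleCat.{v} k) ℕ :=
  CochainComplex.of (fibX K L) (fibD φ) (fibD_comp_fibD φ)

@[simp]
lemma fib_d_zero_apply (a : K.X 0) :
    (fib φ).d 0 1 a = ((K.d 0 1 a, φ.f 0 a) : K.X 1 × L.X 0) := by
  have h : (fib φ).d 0 1 = fibD φ 0 := CochainComplex.of_d (fibX K L) (fibD φ) 0
  rw [h]
  rfl

@[simp]
lemma fib_d_succ_apply (n : ℕ) (x : K.X (n + 1) × L.X n) :
    (fib φ).d (n + 1) (n + 2) x =
      ((K.d (n + 1) (n + 2) x.1, φ.f (n + 1) x.1 - L.d n (n + 1) x.2) :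
        K.X (n + 2) × L.X (n + 1)) := by
  have h : (fib φ).d (n + 1) (n + 2) = fibD φ (n + 1) :=
    CochainComplex.of_d (fibX K L) (fibD φ) (n + 1)
  rw [h]
  rfl

/-- The projection `fib φ ⟶ K`, `(a, b) ↦ a`. -/
noncomputable def fibFst : fib φ ⟶ K :=
  CochainComplex.ofHom (fun n => match n with
    | 0 => 𝟙 (K.X 0)
    | (n + 1) => ModuleCat.ofHom (LinearMap.fst k (K.X (n + 1)) (L.X n))) (by
    intro i
    cases i with
    | zero =>
      apply ModuleCat.hom_ext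
      apply LinearMap.ext
      intro a
      show K.d 0 1 a = ((fib φ).d 0 1 a : K.X 1 × L.X 0).1
      rw [fib_d_zero_apply]
    | succ n =>
      apply ModuleCat.hom_ext
      apply LinearMap.ext
      intro x
      show K.d (n + 1) (n + 2) (x : K.X (n + 1) × L.X n).1 =
        ((fib φ).d (n + 1) (n + 2) x : K.X (n + 2) × L.X (n + 1)).1
      rw [fib_d_succ_apply])

@[simp]
lemma fibFst_f_zero_apply (a : K.X 0) : (fibFst φ).f 0 a = a := rfl

@[simp]
lemma fibFst_f_succ_apply (n : ℕ) (x : K.X (n + 1) × L.X n) :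
    (fibFst φ).f (n + 1) x = x.1 := rfl

/-- The degree-raising inclusion `Lⁿ → (fib φ)ⁿ⁺¹`, `b ↦ (0, b)`. -/
noncomputable def fibInr (n : ℕ) : L.X n ⟶ (fib φ).X (n + 1) :=
  ModuleCat.ofHom (LinearMap.inr k (K.X (n + 1)) (L.X n))

@[simp]
lemma fibInr_apply (n : ℕ) (b : L.X n) :
    fibInr φ n b = ((0, b) : K.X (n + 1) × L.X n) := rfl

lemma fib_d_inr (n : ℕ) (b : L.X n) :
    (fib φ).d (n + 1) (n + 2) ((0, b) : K.X (n + 1) × L.X n) =
      ((0, - L.d n (n + 1) b) : K.X (n + 2) × L.X (n + 1)) := by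
  rw [fib_d_succ_apply]
  simp only [map_zero, zero_sub]

lemma fib_d_inr_eq_zero (n : ℕ) (b : L.X n) (hb : L.d n (n + 1) b = 0) :
    (fib φ).d (n + 1) (n + 2) ((0, b) : K.X (n + 1) × L.X n) = 0 := by
  rw [fib_d_inr, hb, neg_zero]
  rfl

/-- Every `(0, d x)` is a coboundary of the fibre complex (whatever the degree of `x`). -/
lemma exists_fib_d_eq_inr_d (i n : ℕ) (x : L.X i) :
    ∃ y : (fib φ).X n, (fib φ).d n (n + 1) y = ((0, L.d i n x) : K.X (n + 1) × L.X n) := by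
  by_cases h : i + 1 = n
  · subst h
    refine ⟨((0, -x) : K.X (i + 1) × L.X i), ?_⟩
    rw [fib_d_inr, map_neg, neg_neg]
  · refine ⟨0, ?_⟩
    rw [map_zero, L.shape i n h]
    rfl

/-- The map induced by `b ↦ (0, b)` on cocycles. -/
noncomputable def fibBdryCycles (n : ℕ) : L.cycles n ⟶ (fib φ).cycles (n + 1) :=
  (fib φ).liftCycles (L.iCycles n ≫ fibInr φ n) (n + 2) (by simp) (by
    apply ModuleCat.hom_ext
    apply LinearMap.ext
    intro z
    show (fib φ).d (n + 1) (n + 2) ((0, L.iCycles n z) : K.X (n + 1) × L.X n) = 0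
    exact fib_d_inr_eq_zero φ n _ (d_iCycles_apply L n (n + 1) z))

lemma iCycles_fibBdryCycles (n : ℕ) (z : L.cycles n) :
    (fib φ).iCycles (n + 1) (fibBdryCycles φ n z) =
      ((0, L.iCycles n z) : K.X (n + 1) × L.X n) :=
  comp_apply_eq ((fib φ).liftCycles_i _ _ _ _) z

lemma toCycles_fibBdryCycles_homologyπ (n i : ℕ) :
    L.toCycles i n ≫ fibBdryCycles φ n ≫ (fib φ).homologyπ (n + 1) = 0 := by
  apply ModuleCat.hom_ext
  apply LinearMap.ext
  intro x
  show (fib φ).homologyπ (n + 1) (fibBdryCycles φ n (L.toCycles i n x)) = 0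
  rw [homologyπ_eq_zero_iff, iCycles_fibBdryCycles, comp_apply_eq (L.toCycles_i i n) x]
  exact exists_fib_d_eq_inr_d φ i n x

/-- The connecting map `Hⁿ(L) → Hⁿ⁺¹(fib φ)`, `[b] ↦ [(0, b)]`. -/
noncomputable def fibBdry (n : ℕ) : L.homology n ⟶ (fib φ).homology (n + 1) :=
  (L.homologyIsCokernel ((ComplexShape.up ℕ).prev n) n rfl).desc
    (CokernelCofork.ofπ (fibBdryCycles φ n ≫ (fib φ).homologyπ (n + 1))
      (toCycles_fibBdryCycles_homologyπ φ n _))

lemma homologyπ_fibBdry (n : ℕ) :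
    L.homologyπ n ≫ fibBdry φ n = fibBdryCycles φ n ≫ (fib φ).homologyπ (n + 1) :=
  (L.homologyIsCokernel ((ComplexShape.up ℕ).prev n) n rfl).fac _ WalkingParallelPair.one

/-- The connecting map on representatives. -/
lemma fibBdry_cls (n : ℕ) (b : L.X n) (hb : L.d n (n + 1) b = 0) :
    fibBdry φ n (cls L n b hb) =
      cls (fib φ) (n + 1) ((0, b) : K.X (n + 1) × L.X n) (fib_d_inr_eq_zero φ n b hb) := by
  unfold cls
  rw [comp_apply_eq (homologyπ_fibBdry φ n) (cocycleMk L n b hb)]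
  show (fib φ).homologyπ (n + 1) (fibBdryCycles φ n (cocycleMk L n b hb)) = _
  congr 1
  apply iCycles_injective (fib φ) (n + 1)
  rw [iCycles_fibBdryCycles, iCycles_cocycleMk, iCycles_cocycleMk]

end Def

section LES

variable {K L : CochainComplex (ModuleCat.{v} k) ℕ} (φ : K ⟶ L)

lemma fib_d_zero_eq_zero_iff (a : K.X 0) :
    (fib φ).d 0 1 a = 0 ↔ K.d 0 1 a = 0 ∧ φ.f 0 a = 0 := by
  constructor
  · intro h
    have h' : ((K.d 0 1 a, φ.f 0 a) : K.X 1 × L.X 0) = 0 :=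
      (fib_d_zero_apply φ a).symm.trans h
    exact ⟨congrArg Prod.fst h', congrArg Prod.snd h'⟩
  · rintro ⟨h1, h2⟩
    rw [fib_d_zero_apply, h1, h2]
    rfl

lemma fib_d_succ_eq_zero_iff (n : ℕ) (x : K.X (n + 1) × L.X n) :
    (fib φ).d (n + 1) (n + 2) x = 0 ↔
      K.d (n + 1) (n + 2) x.1 = 0 ∧ φ.f (n + 1) x.1 = L.d n (n + 1) x.2 := by
  constructor
  · intro h
    have h' : ((K.d (n + 1) (n + 2) x.1, φ.f (n + 1) x.1 - L.d n (n + 1) x.2) :
        K.X (n + 2) × L.X (n + 1)) = 0 := (fib_d_succ_apply φ n x).symm.trans h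
    exact ⟨congrArg Prod.fst h', sub_eq_zero.1 (congrArg Prod.snd h')⟩
  · rintro ⟨h1, h2⟩
    rw [fib_d_succ_apply, h1, h2, sub_self]
    rfl

/-- `(d a, φ a)` is a coboundary of the fibre complex. -/
lemma exists_fib_d_eq (n : ℕ) (a : K.X n) :
    ∃ w : (fib φ).X n,
      (fib φ).d n (n + 1) w = ((K.d n (n + 1) a, φ.f n a) : K.X (n + 1) × L.X n) := by
  cases n with
  | zero => exact ⟨a, fib_d_zero_apply φ a⟩
  | succ m =>
    refine ⟨((a, 0) : K.X (m + 1) × L.X m), ?_⟩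
    rw [fib_d_succ_apply, map_zero, sub_zero]

/-- Shape of the coboundaries of the fibre complex. -/
lemma exists_of_fib_d_eq (n : ℕ) (w : (fib φ).X n) (a : K.X (n + 1)) (b : L.X n)
    (h : (fib φ).d n (n + 1) w = ((a, b) : K.X (n + 1) × L.X n)) :
    ∃ a' : K.X n, K.d n (n + 1) a' = a ∧
      ∃ (i : ℕ) (c : L.X i), b = φ.f n a' - L.d i n c := by
  cases n with
  | zero =>
    have h' := Prod.mk.inj ((fib_d_zero_apply φ w).symm.trans h)
    exact ⟨w, h'.1, 0, 0, by rw [map_zero, sub_zero]; exact h'.2.symm⟩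
  | succ m =>
    have h' := Prod.mk.inj ((fib_d_succ_apply φ m w).symm.trans h)
    exact ⟨(w : K.X (m + 1) × L.X m).1, h'.1, m, (w : K.X (m + 1) × L.X m).2, h'.2.symm⟩

/-- `H⁰(fib φ) → H⁰(K)` is injective. -/
theorem homologyMap_fibFst_zero_injective :
    Function.Injective (HomologicalComplex.homologyMap (fibFst φ) 0) := by
  rw [injective_iff_map_eq_zero]
  intro x hx
  obtain ⟨a, ha, rfl⟩ := exists_cls_eq (fib φ) 0 x
  rw [homologyMap_cls, cls_zero_eq_zero_iff] at hx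
  rw [cls_zero_eq_zero_iff]
  exact hx

/-- Exactness at `Hⁿ(K)`. -/
theorem exact_fibFst_map (n : ℕ) :
    Function.Exact (HomologicalComplex.homologyMap (fibFst φ) n)
      (HomologicalComplex.homologyMap φ n) := by
  intro y
  obtain ⟨a, ha, rfl⟩ := exists_cls_eq K n y
  rw [homologyMap_cls]
  cases n with
  | zero =>
    rw [cls_zero_eq_zero_iff]
    constructor
    · intro h
      refine ⟨cls (fib φ) 0 a ((fib_d_zero_eq_zero_iff φ a).2 ⟨ha, h⟩), ?_⟩
      rw [homologyMap_cls]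
      rfl
    · rintro ⟨x, hx⟩
      obtain ⟨a', ha', rfl⟩ := exists_cls_eq (fib φ) 0 x
      rw [homologyMap_cls] at hx
      have hx' : (fibFst φ).f 0 a' = a := (cls_zero_eq_cls_iff K _ _ _ _).1 hx
      have := ((fib_d_zero_eq_zero_iff φ a').1 ha').2
      rw [← hx']
      exact this
  | succ m =>
    rw [cls_eq_zero_iff]
    constructor
    · rintro ⟨b, hb⟩
      refine ⟨cls (fib φ) (m + 1) ((a, b) : K.X (m + 1) × L.X m)
        ((fib_d_succ_eq_zero_iff φ m _).2 ⟨ha, hb.symm⟩), ?_⟩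
      rw [homologyMap_cls]
      rfl
    · rintro ⟨x, hx⟩
      obtain ⟨w, hw, rfl⟩ := exists_cls_eq (fib φ) (m + 1) x
      rw [homologyMap_cls] at hx
      obtain ⟨hw1, hw2⟩ := (fib_d_succ_eq_zero_iff φ m w).1 hw
      obtain ⟨c, hc⟩ := (cls_eq_cls_iff K m _ _ _ _).1 hx
      have hc' : K.d m (m + 1) c = (w : K.X (m + 1) × L.X m).1 - a := hc
      refine ⟨(w : K.X (m + 1) × L.X m).2 - φ.f m c, ?_⟩
      rw [map_sub, ← comm_apply, hc', map_sub, ← hw2]
      abel

/-- Exactness at `Hⁿ(L)`. -/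
theorem exact_map_fibBdry (n : ℕ) :
    Function.Exact (HomologicalComplex.homologyMap φ n) (fibBdry φ n) := by
  intro y
  obtain ⟨b, hb, rfl⟩ := exists_cls_eq L n y
  rw [fibBdry_cls, cls_eq_zero_iff]
  constructor
  · rintro ⟨w, hw⟩
    obtain ⟨a', ha', i, c, hc⟩ := exists_of_fib_d_eq φ n w 0 b hw
    refine ⟨cls K n a' ha', ?_⟩
    rw [homologyMap_cls]
    refine cls_eq_of_sub_eq_d L i n _ _ _ _ c ?_
    rw [hc]
    abel
  · rintro ⟨x, hx⟩
    obtain ⟨a, ha, rfl⟩ := exists_cls_eq K n x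
    rw [homologyMap_cls] at hx
    -- `φ a` and `b` differ by a coboundary
    have key : ∃ (i : ℕ) (c : L.X i), φ.f n a - b = L.d i n c := by
      cases n with
      | zero => exact ⟨0, 0, by
          rw [map_zero, sub_eq_zero]; exact (cls_zero_eq_cls_iff L _ _ _ _).1 hx⟩
      | succ m =>
        obtain ⟨c, hc⟩ := (cls_eq_cls_iff L m _ _ _ _).1 hx
        exact ⟨m, c, hc.symm⟩
    obtain ⟨i, c, hc⟩ := key
    obtain ⟨w, hw⟩ := exists_fib_d_eq φ n a
    obtain ⟨w', hw'⟩ := exists_fib_d_eq_inr_d φ i n c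
    refine ⟨w - w', ?_⟩
    rw [map_sub, hw, hw', ha, ← hc]
    show ((0 - 0, φ.f n a - (φ.f n a - b)) : K.X (n + 1) × L.X n) = (0, b)
    rw [sub_zero, sub_sub_cancel]

lemma pair_sub_aux {A B : Type*} [AddCommGroup A] [AddCommGroup B] (w : A × B)
    (a : A) (b : B) (h : a = w.1) : w - (0, w.2 - b) = (a, b) := by
  ext
  · simp [h]
  · simp

/-- Exactness at `Hⁿ⁺¹(fib φ)`. -/
theorem exact_fibBdry_fibFst (n : ℕ) :
    Function.Exact (fibBdry φ n) (HomologicalComplex.homologyMap (fibFst φ) (n + 1)) := by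
  intro x
  obtain ⟨w, hw, rfl⟩ := exists_cls_eq (fib φ) (n + 1) x
  obtain ⟨hw1, hw2⟩ := (fib_d_succ_eq_zero_iff φ n w).1 hw
  rw [homologyMap_cls, cls_eq_zero_iff]
  constructor
  · rintro ⟨a', ha'⟩
    have ha'' : K.d n (n + 1) a' = (w : K.X (n + 1) × L.X n).1 := ha'
    have hb : L.d n (n + 1) ((w : K.X (n + 1) × L.X n).2 - φ.f n a') = 0 := by
      rw [map_sub, ← comm_apply, ha'', hw2, sub_self]
    refine ⟨cls L n _ hb, ?_⟩
    rw [fibBdry_cls]
    obtain ⟨v, hv⟩ := exists_fib_d_eq φ n a'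
    symm
    refine cls_eq_of_sub_eq_d (fib φ) n (n + 1) _ _ _ _ v ?_
    rw [hv]
    exact pair_sub_aux (w : K.X (n + 1) × L.X n) _ _ ha''
  · rintro ⟨y, hy⟩
    obtain ⟨b, hb, rfl⟩ := exists_cls_eq L n y
    rw [fibBdry_cls] at hy
    -- `(0, b)` and `w` differ by a coboundary `d v`
    obtain ⟨v, hv⟩ := (cls_eq_cls_iff (fib φ) n _ _ _ _).1 hy
    obtain ⟨a', ha', -⟩ := exists_of_fib_d_eq φ n v
      (0 - (w : K.X (n + 1) × L.X n).1) (b - (w : K.X (n + 1) × L.X n).2) hv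
    refine ⟨-a', ?_⟩
    rw [map_neg, ha']
    show -(0 - (w : K.X (n + 1) × L.X n).1) = (w : K.X (n + 1) × L.X n).1
    abel

end LES

end Fermat.Agent.CFT.H47
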