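import Mathlib
import Fermat.Agent.CFT.H48_CohProd

/-!
# CFT / layer C : cohomology of a restricted product

`G` finite, `R : Rep k G` a restricted product of `A v : Rep k G` with respect to subrepresentations
`B v ↪ A v` (`IsRestrictedProduct`).  If `Hⁿ(G, B v) = 0` for almost all `v` then
`Hⁿ(G, R) = ⨁ᵥ Hⁿ(G, A v)`: the map `prodMap : Hⁿ(G, R) → Π v, Hⁿ(G, A v)` is injective and its
image consists of the finitely supported families.
-/

set_option autoImplicit false

namespace Fermat.Agent.CFT.H48

open CategoryTheory groupCohomology Rep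

universe u

variable {k G : Type u} [CommRing k] [Group G]

/-- `R` is the restricted product of the `A v` with respect to the `B v ↪ A v`, via the
projections `pr v : R ⟶ A v`. -/
structure IsRestrictedProduct {I : Type*} (R : Rep.{u} k G) (A B : I → Rep.{u} k G)
    (incl : ∀ v, B v ⟶ A v) (pr : ∀ v, R ⟶ A v) : Prop where
  incl_inj : ∀ v, Function.Injective (incl v).hom
  ext : ∀ x y : R.V, (∀ v, (pr v).hom x = (pr v).hom y) → x = y
  mem : ∀ x : R.V, {v | (pr v).hom x ∉ Set.range (incl v).hom}.Finite
  exists_of : ∀ a : (∀ v, (A v).V), {v | a v ∉ Set.range (incl v).hom}.Finite →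
    ∃ x : R.V, ∀ v, (pr v).hom x = a v

namespace IsRestrictedProduct

variable {I : Type*} {R : Rep.{u} k G} {A B : I → Rep.{u} k G}
  {incl : ∀ v, B v ⟶ A v} {pr : ∀ v, R ⟶ A v} (hR : IsRestrictedProduct R A B incl pr)

include hR

theorem ext_zero (x : R.V) (hx : ∀ v, (pr v).hom x = 0) : x = 0 :=
  hR.ext x 0 fun v => by rw [hx v, map_zero]

/-- a cochain with values in `A v` all of whose values lie in `B v` lifts to `B v` -/
theorem exists_lift_cochain {X : Type*} (v : I) (f : X → (A v).V)
    (hf : ∀ x, f x ∈ Set.range (incl v).hom) :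
    ∃ f' : X → (B v).V, ∀ x, (incl v).hom (f' x) = f x := by
  choose f' hf' using hf
  exact ⟨f', hf'⟩

variable [Finite G]

/-- the finite set of indices where some value of a cochain is not in `B v` -/
theorem finite_bad {n : ℕ} (f : (Fin n → G) → R.V) :
    {v | ∃ g, (pr v).hom (f g) ∉ Set.range (incl v).hom}.Finite := by
  have : {v | ∃ g, (pr v).hom (f g) ∉ Set.range (incl v).hom} =
      ⋃ g, {v | (pr v).hom (f g) ∉ Set.range (incl v).hom} := by
    ext v
    simp
  rw [this]
  exact Set.finite_iUnion fun g => hR.mem (f g)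

/-- the components of a class are almost all zero -/
theorem finite_support (n : ℕ)
    (hB : {v | ¬ Subsingleton (groupCohomology (B v) n)}.Finite) (x : groupCohomology R n) :
    {v | prodMap R A pr n x v ≠ 0}.Finite := by
  obtain ⟨f, hf, rfl⟩ := exists_cls R n x
  refine ((hR.finite_bad f).union hB).subset ?_
  intro v hv
  by_contra hnot
  rw [Set.mem_union, not_or] at hnot
  obtain ⟨h1, h2⟩ := hnot
  simp only [Set.mem_ofPred_eq, not_exists, not_not] at h1 h2
  apply hv
  obtain ⟨f', hf'⟩ := hR.exists_lift_cochain v (fun g => (pr v).hom (f g)) h1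
  have hcomp : (fun g => (incl v).hom (f' g)) = fun g => (pr v).hom (f g) := funext hf'
  have hcoc : IsCocycle (B v) n f' := by
    unfold IsCocycle
    funext g
    apply hR.incl_inj v
    have e1 := congrFun (d_comp_hom (incl v) n f') g
    rw [← e1, hcomp, Pi.zero_apply, map_zero]
    exact congrFun (isCocycle_comp (pr v) n hf) g
  unfold prodMap
  rw [map_cls]
  have e2 : cls (A v) n (fun g => (pr v).hom (f g)) (isCocycle_comp (pr v) n hf) =
      groupCohomology.map (MonoidHom.id G) (incl v) n (cls (B v) n f' hcoc) := by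
    rw [map_cls]
    exact cls_congr _ hcomp.symm
  rw [e2, Subsingleton.elim (cls (B v) n f' hcoc) 0, map_zero]

/-- `Hⁿ(G, R) → Π v, Hⁿ(G, A v)` is injective -/
theorem prodMap_injective (n : ℕ)
    (hB : {v | ¬ Subsingleton (groupCohomology (B v) n)}.Finite) :
    Function.Injective (prodMap R A pr n) := by
  intro x y hxy
  rw [← sub_eq_zero]
  have h0 : ∀ v, groupCohomology.map (MonoidHom.id G) (pr v) n (x - y) = 0 := fun v => by
    rw [map_sub, sub_eq_zero]
    exact congrFun hxy v
  generalize x - y = z at h0
  obtain ⟨f, hf, rfl⟩ := exists_cls R n z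
  simp only [map_cls] at h0
  cases n with
  | zero =>
    have hf0 : f = 0 := by
      funext g
      apply hR.ext_zero
      intro v
      have := (cls_eq_zero_iff_zero (A v) _ _).1 (h0 v)
      exact congrFun this g
    rw [cls_congr hf hf0]
    exact cls_zero
  | succ n =>
    classical
    -- for every `v` a primitive of the `v`-component, with values in `B v` for almost all `v`
    have hex : ∀ v, ∃ h : (Fin n → G) → (A v).V,
        inhomogeneousCochains.d (A v) n h = (fun g => (pr v).hom (f g)) ∧
        ((¬ ∃ g, (pr v).hom (f g) ∉ Set.range (incl v).hom) →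
          Subsingleton (groupCohomology (B v) (n + 1)) →
          ∀ g, h g ∈ Set.range (incl v).hom) := by
      intro v
      by_cases hv : (¬ ∃ g, (pr v).hom (f g) ∉ Set.range (incl v).hom) ∧
          Subsingleton (groupCohomology (B v) (n + 1))
      · obtain ⟨h1, h2⟩ := hv
        simp only [not_exists, not_not] at h1
        obtain ⟨f', hf'⟩ := hR.exists_lift_cochain v (fun g => (pr v).hom (f g)) h1
        have hcomp : (fun g => (incl v).hom (f' g)) = fun g => (pr v).hom (f g) := funext hf'
        have hcoc : IsCocycle (B v) (n + 1) f' := by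
          unfold IsCocycle
          funext g
          apply hR.incl_inj v
          have e1 := congrFun (d_comp_hom (incl v) (n + 1) f') g
          rw [← e1, hcomp, Pi.zero_apply, map_zero]
          exact congrFun (isCocycle_comp (pr v) (n + 1) hf) g
        have hz : cls (B v) (n + 1) f' hcoc = 0 := Subsingleton.elim _ _
        obtain ⟨h', hh'⟩ := (cls_eq_zero_iff_succ (B v) n _ _).1 hz
        refine ⟨fun g => (incl v).hom (h' g), ?_, fun _ _ g => ⟨h' g, rfl⟩⟩
        rw [d_comp_hom, hh', hcomp]
      · obtain ⟨h, hh⟩ := (cls_eq_zero_iff_succ (A v) n _ _).1 (h0 v)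
        refine ⟨h, hh, fun h1 h2 => absurd ⟨h1, h2⟩ hv⟩
    choose h hh hmem using hex
    have hfin : ∀ g : Fin n → G, {v | h v g ∉ Set.range (incl v).hom}.Finite := by
      intro g
      refine ((hR.finite_bad f).union hB).subset ?_
      intro v hv
      by_contra hnot
      rw [Set.mem_union, not_or] at hnot
      obtain ⟨h1, h2⟩ := hnot
      simp only [Set.mem_ofPred_eq, not_not] at h2
      exact hv (hmem v h1 h2 g)
    choose H hH using fun g : Fin n → G => hR.exists_of (fun v => h v g) (hfin g)
    rw [cls_eq_zero_iff_succ]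
    refine ⟨H, ?_⟩
    funext g
    apply hR.ext
    intro v
    have e1 := congrFun (d_comp_hom (pr v) n H) g
    rw [← e1]
    have e2 : (fun g => (pr v).hom (H g)) = h v := funext fun g => hH g v
    rw [e2, hh v]

omit [Finite G] in
/-- every finitely supported family of classes comes from `Hⁿ(G, R)` -/
theorem exists_prodMap_eq (n : ℕ) (y : ∀ v, groupCohomology (A v) n)
    (hy : {v | y v ≠ 0}.Finite) : ∃ x : groupCohomology R n, prodMap R A pr n x = y := by
  classical
  have hex : ∀ v, ∃ (f : (Fin n → G) → (A v).V) (hf : IsCocycle (A v) n f),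
      y v = cls (A v) n f hf ∧ (y v = 0 → f = 0) := by
    intro v
    by_cases hv : y v = 0
    · exact ⟨0, isCocycle_zero (A v) n, by rw [hv, cls_zero], fun _ => rfl⟩
    · obtain ⟨f, hf, hfy⟩ := exists_cls (A v) n (y v)
      exact ⟨f, hf, hfy, fun h => absurd h hv⟩
  choose f hf hfy hf0 using hex
  have hfin : ∀ g : Fin n → G, {v | f v g ∉ Set.range (incl v).hom}.Finite := by
    intro g
    refine hy.subset ?_
    intro v hv hyv
    apply hv
    rw [hf0 v hyv]
    exact ⟨0, map_zero _⟩
  choose F hF using fun g : Fin n → G => hR.exists_of (fun v => f v g) (hfin g)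
  have hFv : ∀ v, (fun g => (pr v).hom (F g)) = f v := fun v => funext fun g => hF g v
  have hcoc : IsCocycle R n F := by
    unfold IsCocycle
    funext g
    apply hR.ext_zero
    intro v
    have e1 := congrFun (d_comp_hom (pr v) n F) g
    rw [← e1, hFv v]
    exact congrFun (hf v) g
  refine ⟨cls R n F hcoc, ?_⟩
  funext v
  unfold prodMap
  rw [map_cls, hfy v]
  exact cls_congr _ (hFv v)

/-- if moreover all `Hⁿ(G, A v)` vanish then `Hⁿ(G, R) = 0` -/
theorem subsingleton (n : ℕ)
    (hB : {v | ¬ Subsingleton (groupCohomology (B v) n)}.Finite)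
    (hA : ∀ v, Subsingleton (groupCohomology (A v) n)) :
    Subsingleton (groupCohomology R n) :=
  ⟨fun _ _ => hR.prodMap_injective n hB (funext fun _ => Subsingleton.elim _ _)⟩

end IsRestrictedProduct

end Fermat.Agent.CFT.H48
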