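import Mathlib
import Fermat.Agent.CFT.H48_CohProd

/-!
# CFT / layer C : cohomology of a finite group commutes with directed unions

`A : Rep k G`, `G` finite, `B i ⟶ A` a directed system of subrepresentations (`DirectedCover`)
exhausting `A`.  Then every class of `Hⁿ(G, A)` comes from some `B i`, and a class of `B i` dying
in `A` already dies in some `B i'`, `i ≤ i'`.
-/

set_option autoImplicit false

namespace Fermat.Agent.CFT.H48

open CategoryTheory groupCohomology Rep

universe u

variable {k G : Type u} [CommRing k] [Group G]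

/-- a directed system of subrepresentations `B i ↪ A` exhausting `A` -/
structure DirectedCover (A : Rep.{u} k G) (ι : Type*) [Preorder ι] where
  /-- the members of the cover -/
  B : ι → Rep.{u} k G
  /-- the inclusions -/
  j : ∀ i, B i ⟶ A
  /-- the transition maps -/
  t : ∀ {i i' : ι}, i ≤ i' → (B i ⟶ B i')
  t_j : ∀ {i i' : ι} (h : i ≤ i') (b : (B i).V), (j i').hom ((t h).hom b) = (j i).hom b
  j_inj : ∀ i, Function.Injective (j i).hom
  cover : ∀ a : A.V, ∃ i, ∃ b : (B i).V, (j i).hom b = a

namespace DirectedCover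

variable {A : Rep.{u} k G} {ι : Type*} [Preorder ι] [IsDirected ι (· ≤ ·)] [Nonempty ι]
  (C : DirectedCover A ι)

/-- finitely many elements of `A` lie in a common member of the cover (above a given index) -/
theorem exists_lift {X : Type*} [Finite X] (f : X → A.V) (i₀ : ι) :
    ∃ i, i₀ ≤ i ∧ ∃ f' : X → (C.B i).V, ∀ x, (C.j i).hom (f' x) = f x := by
  choose ix b hb using fun x => C.cover (f x)
  obtain ⟨i₁, hi₁⟩ := Finite.exists_le ix
  obtain ⟨i, h0, h1⟩ := exists_ge_ge i₀ i₁
  refine ⟨i, h0, fun x => (C.t ((hi₁ x).trans h1)).hom (b x), fun x => ?_⟩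
  rw [C.t_j, hb]

variable [Finite G]

/-- every cohomology class of `A` comes from a member of the cover -/
theorem exists_map_eq (n : ℕ) (x : groupCohomology A n) (i₀ : ι) :
    ∃ i, i₀ ≤ i ∧ ∃ y : groupCohomology (C.B i) n,
      groupCohomology.map (MonoidHom.id G) (C.j i) n y = x := by
  obtain ⟨f, hf, rfl⟩ := exists_cls A n x
  obtain ⟨i, hi, f', hf'⟩ := C.exists_lift f i₀
  have hcomp : (fun g => (C.j i).hom (f' g)) = f := funext hf'
  have hcoc : IsCocycle (C.B i) n f' := by
    unfold IsCocycle
    funext g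
    apply C.j_inj i
    have h1 := congrFun (d_comp_hom (C.j i) n f') g
    rw [← h1, hcomp, Pi.zero_apply, map_zero]
    exact congrFun hf g
  refine ⟨i, hi, cls (C.B i) n f' hcoc, ?_⟩
  rw [map_cls]
  exact cls_congr _ hcomp

/-- a class of a member of the cover which dies in `A` dies in a larger member -/
theorem exists_map_eq_zero (n : ℕ) (i : ι) (y : groupCohomology (C.B i) n)
    (hy : groupCohomology.map (MonoidHom.id G) (C.j i) n y = 0) :
    ∃ i', ∃ h : i ≤ i', groupCohomology.map (MonoidHom.id G) (C.t h) n y = 0 := by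
  obtain ⟨f, hf, rfl⟩ := exists_cls (C.B i) n y
  rw [map_cls] at hy
  cases n with
  | zero =>
    refine ⟨i, le_refl i, ?_⟩
    have h0 := (cls_eq_zero_iff_zero A _ _).1 hy
    have hf0 : f = 0 := by
      funext g
      apply C.j_inj i
      rw [Pi.zero_apply, map_zero]
      exact congrFun h0 g
    rw [cls_congr hf hf0, cls_zero, map_zero]
  | succ n =>
    obtain ⟨h, hh⟩ := (cls_eq_zero_iff_succ A n _ _).1 hy
    obtain ⟨i', hi', h', hh'⟩ := C.exists_lift h i
    refine ⟨i', hi', ?_⟩
    rw [map_cls, cls_eq_zero_iff_succ]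
    refine ⟨h', ?_⟩
    funext g
    apply C.j_inj i'
    have h1 := congrFun (d_comp_hom (C.j i') n h') g
    rw [← h1, C.t_j]
    have h2 : (fun g => (C.j i').hom (h' g)) = h := funext hh'
    rw [h2, hh]

/-- if cofinally many members of the cover have vanishing `Hⁿ`, so has `A` -/
theorem subsingleton_of_cofinal (n : ℕ)
    (h : ∀ i, ∃ i', i ≤ i' ∧ Subsingleton (groupCohomology (C.B i') n)) :
    Subsingleton (groupCohomology A n) := by
  refine ⟨fun x y => ?_⟩
  rw [← sub_eq_zero]
  generalize x - y = z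
  obtain ⟨i⟩ := ‹Nonempty ι›
  obtain ⟨i₁, -, y₁, rfl⟩ := C.exists_map_eq n z i
  obtain ⟨i₂, h12, hs⟩ := h i₁
  have hfac : groupCohomology.map (MonoidHom.id G) (C.j i₁) n y₁ =
      groupCohomology.map (MonoidHom.id G) (C.j i₂) n
        (groupCohomology.map (MonoidHom.id G) (C.t h12) n y₁) := by
    have hcomp : C.t h12 ≫ C.j i₂ = C.j i₁ := by
      ext b
      exact C.t_j h12 b
    rw [← hcomp, groupCohomology.map_id_comp]
    rfl
  rw [hfac, Subsingleton.elim (groupCohomology.map (MonoidHom.id G) (C.t h12) n y₁) 0, map_zero]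

end DirectedCover

end Fermat.Agent.CFT.H48
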