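/-
CFT layer C, package C-COH (helper48): the `Ĥ⁰`-index of a product `∏ᵢ Mᵢ` with factorwise
endomorphism, and the cyclic-cocycle lemma (`H¹ = 0 ⇒ N x = 1 → x = σ y / y`).
-/
import Mathlib
import Fermat.Agent.CFT.H48_H0Index

set_option autoImplicit false

namespace Fermat.Agent.CFT.H48

open groupCohomology

noncomputable section

section IndexPi

variable {ι : Type*} [Fintype ι] {β : ι → Type*} [∀ i, Group (β i)]

/-- Dependent version of `Subgroup.index_pi`. -/
theorem index_pi' (H : ∀ i, Subgroup (β i)) :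
    (Subgroup.pi Set.univ H).index = ∏ i, (H i).index := by
  simp_rw [Subgroup.index, ← Nat.card_pi]
  refine Nat.card_congr
    ((Quotient.congrRight (fun x y ↦ ?_)).trans (Setoid.piQuotientEquiv _).symm)
  rw [QuotientGroup.leftRel_pi]

/-- `relIndex` of product subgroups. -/
theorem relIndex_pi' (H K : ∀ i, Subgroup (β i)) :
    (Subgroup.pi Set.univ H).relIndex (Subgroup.pi Set.univ K) =
      ∏ i, (H i).relIndex (K i) := by
  let φ : ↥(Subgroup.pi Set.univ K) →* ∀ i, ↥(K i) :=
    { toFun := fun x i => ⟨x.1 i, x.2 i (Set.mem_univ i)⟩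
      map_one' := rfl
      map_mul' := fun _ _ => rfl }
  have hφ : Function.Surjective φ := by
    intro y
    exact ⟨⟨fun i => (y i).1, fun i _ => (y i).2⟩, rfl⟩
  have hcomap : (Subgroup.pi Set.univ fun i => (H i).subgroupOf (K i)).comap φ =
      (Subgroup.pi Set.univ H).subgroupOf (Subgroup.pi Set.univ K) := by
    ext x
    simp only [Subgroup.mem_comap, Subgroup.mem_pi, Set.mem_univ, forall_true_left,
      Subgroup.mem_subgroupOf]
    rfl
  unfold Subgroup.relIndex
  rw [← hcomap, Subgroup.index_comap_of_surjective _ hφ, index_pi']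

end IndexPi

section PiHom

variable {ι : Type*} {M : ι → Type*} [∀ i, CommGroup (M i)]

/-- The factorwise endomorphism of a product. -/
def piHom (τ : ∀ i, M i →* M i) : (∀ i, M i) →* (∀ i, M i) where
  toFun x i := τ i (x i)
  map_one' := by funext i; simp
  map_mul' x y := by funext i; simp

@[simp] theorem piHom_apply (τ : ∀ i, M i →* M i) (x : ∀ i, M i) (i : ι) :
    piHom τ x i = τ i (x i) := rfl

theorem piHom_iterate_apply (τ : ∀ i, M i →* M i) (k : ℕ) (x : ∀ i, M i) (i : ι) :
    (⇑(piHom τ))^[k] x i = (⇑(τ i))^[k] (x i) := by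
  induction k generalizing x with
  | zero => rfl
  | succ k ih => rw [Function.iterate_succ_apply, ih, Function.iterate_succ_apply, piHom_apply]

theorem normHom_piHom_apply (τ : ∀ i, M i →* M i) (p : ℕ) (x : ∀ i, M i) (i : ι) :
    normHom (piHom τ) p x i = normHom (τ i) p (x i) := by
  rw [normHom_apply, normHom_apply, Finset.prod_apply]
  exact Finset.prod_congr rfl fun k _ => piHom_iterate_apply τ k x i

theorem fixSub_piHom (τ : ∀ i, M i →* M i) :
    fixSub (piHom τ) = Subgroup.pi Set.univ fun i => fixSub (τ i) := by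
  ext x
  simp only [mem_fixSub, Subgroup.mem_pi, Set.mem_univ, forall_true_left]
  constructor
  · intro h i
    exact congrFun h i
  · intro h
    funext i
    exact h i

theorem range_normHom_piHom (τ : ∀ i, M i →* M i) (p : ℕ) :
    (normHom (piHom τ) p).range = Subgroup.pi Set.univ fun i => (normHom (τ i) p).range := by
  ext x
  simp only [MonoidHom.mem_range, Subgroup.mem_pi, Set.mem_univ, forall_true_left]
  constructor
  · rintro ⟨y, rfl⟩ i
    exact ⟨y i, (normHom_piHom_apply τ p y i).symm⟩
  · intro h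
    choose y hy using h
    refine ⟨y, ?_⟩
    funext i
    rw [normHom_piHom_apply, hy i]

/-- **Product formula** for the `Ĥ⁰`-index. -/
theorem h0Index_piHom [Fintype ι] (τ : ∀ i, M i →* M i) (p : ℕ) :
    h0Index (piHom τ) p = ∏ i, h0Index (τ i) p := by
  unfold h0Index
  rw [fixSub_piHom, range_normHom_piHom, relIndex_pi']

end PiHom

section Cyclic

variable {G M : Type*} [Group G] [CommGroup M] [MulDistribMulAction G M]

/-- **Cyclic Hilbert 90 from `H¹ = 0`**: if `G` is generated by `σ` of order `n ≠ 0`, every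
1-cocycle `G → M` is a coboundary, and `∏_{j<n} σ^j • x = 1`, then `x = σ • y / y`. -/
theorem exists_smul_div_eq_of_prod_eq_one (σ : G) (hgen : ∀ g : G, g ∈ Subgroup.zpowers σ)
    {n : ℕ} (hn : orderOf σ = n) (hn0 : n ≠ 0)
    (H : ∀ c : G → M, IsMulCocycle₁ c → IsMulCoboundary₁ c)
    (x : M) (hx : ∏ j ∈ Finset.range n, σ ^ j • x = 1) : ∃ y : M, σ • y / y = x := by
  classical
  let c' : ℕ → M := fun i => ∏ j ∈ Finset.range i, σ ^ j • x
  have hadd : ∀ i j, c' (i + j) = σ ^ i • c' j * c' i := by
    intro i j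
    show ∏ k ∈ Finset.range (i + j), σ ^ k • x =
      σ ^ i • (∏ k ∈ Finset.range j, σ ^ k • x) * ∏ k ∈ Finset.range i, σ ^ k • x
    rw [Finset.prod_range_add, mul_comm, Finset.smul_prod']
    congr 1
    refine Finset.prod_congr rfl fun k _ => ?_
    rw [pow_add, mul_smul]
  have hper : ∀ i, c' (i + n) = c' i := by
    intro i
    rw [hadd, show c' n = 1 from hx, smul_one, one_mul]
  have hmod : ∀ i, c' (i % n) = c' i := by
    intro i
    induction i using Nat.strong_induction_on with
    | _ i ih =>
      by_cases hi : i < n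
      · rw [Nat.mod_eq_of_lt hi]
      · push Not at hi
        have h1 : i = (i - n) + n := (Nat.sub_add_cancel hi).symm
        have h2 : i - n < i := Nat.sub_lt (lt_of_lt_of_le (Nat.pos_of_ne_zero hn0) hi)
          (Nat.pos_of_ne_zero hn0)
        rw [h1, Nat.add_mod_right, ih _ h2, hper]
  have hwd : ∀ i j, σ ^ i = σ ^ j → c' i = c' j := by
    intro i j hij
    have : i % n = j % n := by
      rw [← hn]
      exact (pow_eq_pow_iff_modEq.1 hij)
    rw [← hmod i, ← hmod j, this]
  have hex : ∀ g : G, ∃ i : ℕ, σ ^ i = g := by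
    intro g
    have hfin : IsOfFinOrder σ := orderOf_pos_iff.1 (by rw [hn]; exact Nat.pos_of_ne_zero hn0)
    have := (hfin.mem_powers_iff_mem_zpowers).2 (hgen g)
    exact (Submonoid.mem_powers_iff _ _).1 this
  choose e he using hex
  let c : G → M := fun g => c' (e g)
  have hc : IsMulCocycle₁ c := by
    intro g h
    show c' (e (g * h)) = g • c' (e h) * c' (e g)
    have h1 : c' (e (g * h)) = c' (e g + e h) := by
      apply hwd
      rw [he, pow_add, he, he]
    rw [h1, hadd, he]
  obtain ⟨y, hy⟩ := H c hc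
  refine ⟨y, ?_⟩
  rw [hy σ]
  show c' (e σ) = x
  have h1 : c' (e σ) = c' 1 := hwd _ _ (by rw [he, pow_one])
  rw [h1]
  show ∏ j ∈ Finset.range 1, σ ^ j • x = x
  simp

end Cyclic

end

end Fermat.Agent.CFT.H48
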