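/-
CFT layer C, package C-COH (helper48): the Herbrand indices of the `S`-ideles
`JS S F = ∏_{q ∈ S} (F ⊗ ℚ_q)ˣ` for a cyclic extension `F/K` of prime degree `p` with generator
`σ`, in helper63's vocabulary (`sigA S σ`, helper6's `hIndex`, `endF`, `endN`):

* `hIndex (endN p (sigA S σ)) (endF (sigA S σ)) = 1`   (Hilbert 90 for étale algebras),
* `hIndex (endF (sigA S σ)) (endN p (sigA S σ)) = p ^ #{σ-stable maximal ideals of the F ⊗ ℚ_q}`
  provided the local norm index at every `σ`-stable maximal ideal is `p` (layer B).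

This is exactly the hypothesis `h48` of helper63's `hA_of_semilocal`.
-/
import Mathlib
import Fermat.Agent.CFT.H18_LocDecomp
import Fermat.Agent.CFT.H63_FirstIneqLocal
import Fermat.Agent.CFT.H48_IdSH1
import Fermat.Agent.CFT.H48_SemilocalH0
import Fermat.Agent.CFT.H48_H0Pi

set_option autoImplicit false

namespace Fermat.Agent.CFT.H48

open IsDedekindDomain NumberField Module
open Fermat.Agent.Kummer.H63 Fermat.Agent.S14.H63
open Fermat.Agent.CFT.H23 Fermat.Agent.CFT.H6 Fermat.Agent.CFT.H63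

noncomputable section

/-- In a reduced artinian ring, an element of all maximal ideals is zero. -/
theorem eq_zero_of_forall_mem_maximal {E : Type*} [CommRing E] [IsArtinianRing E] [IsReduced E]
    (x : E) (h : ∀ m : MaximalSpectrum E, x ∈ m.asIdeal) : x = 0 := by
  have h1 : x ∈ Ideal.jacobson (⊥ : Ideal E) := by
    rw [Ideal.jacobson, Ideal.mem_sInf]
    rintro J ⟨_, hJ⟩
    exact h ⟨J, hJ⟩
  rw [IsArtinianRing.jacobson_eq_radical] at h1
  have h2 : x ∈ nilradical E := h1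
  rw [nilradical_eq_zero] at h2
  exact h2

variable (S : Finset Nat.Primes) {K F : Type*} [Field K] [NumberField K] [Field F]
  [NumberField F] [Algebra K F] {p : ℕ}

/-- `σ` as a ring automorphism of the local algebra `F ⊗ ℚ_q`. -/
abbrev locAut (q : Nat.Primes) (σ : F ≃ₐ[K] F) : Loc F q ≃+* Loc F q :=
  MulSemiringAction.toRingAut (F ≃ₐ[K] F) (Loc F q) σ

theorem locAut_apply (q : Nat.Primes) (σ : F ≃ₐ[K] F) (x : Loc F q) :
    locAut q σ x = σ • x := rfl

theorem locAut_pow (q : Nat.Primes) (σ : F ≃ₐ[K] F) (hσ : σ ^ p = 1) :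
    (locAut (K := K) (F := F) q σ) ^ p = 1 := by
  show (MulSemiringAction.toRingAut (F ≃ₐ[K] F) (Loc F q) σ) ^ p = 1
  rw [← map_pow, hσ, map_one]

/-- `σ` on the `S`-ideles is the factorwise endomorphism. -/
theorem sigA_eq_addEnd (σ : F ≃ₐ[K] F) :
    sigA S σ = addEnd (piHom fun q : S => uAut (locAut (K := K) (F := F) q.1 σ)) :=
  LinearMap.ext fun _ => rfl

theorem piHom_locAut_apply (σ : F ≃ₐ[K] F) (y : JS S F) :
    piHom (fun q : S => uAut (locAut (K := K) (F := F) q.1 σ)) y = σ • y := rfl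

theorem piHom_locAut_iterate (σ : F ≃ₐ[K] F) (k : ℕ) (y : JS S F) :
    (⇑(piHom fun q : S => uAut (locAut (K := K) (F := F) q.1 σ)))^[k] y = σ ^ k • y := by
  induction k generalizing y with
  | zero => exact (one_smul (F ≃ₐ[K] F) y).symm
  | succ k ih =>
    calc (⇑(piHom fun q : S => uAut (locAut (K := K) (F := F) q.1 σ)))^[k + 1] y
        = (⇑(piHom fun q : S => uAut (locAut (K := K) (F := F) q.1 σ)))^[k] (σ • y) :=
          Function.iterate_succ_apply _ k y
      _ = σ ^ k • (σ • y) := ih (σ • y)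
      _ = (σ ^ k * σ) • y := (mul_smul (σ ^ k) σ y).symm
      _ = σ ^ (k + 1) • y := congrArg (· • y) (pow_succ σ k).symm

/-- The `σ`-stable maximal ideals in helper63's form. -/
theorem card_fixMax_eq (q : Nat.Primes) (σ : F ≃ₐ[K] F) :
    Nat.card (FixMax (locAut (K := K) (F := F) q σ)) =
      Nat.card {m : MaximalSpectrum (Loc F q) // ∀ x, x ∈ m.asIdeal ↔ σ • x ∈ m.asIdeal} := by
  refine Nat.card_congr (Equiv.subtypeEquivRight fun m => ?_)
  constructor
  · intro h x
    have : x ∈ (cmap (locAut (K := K) (F := F) q σ) m).asIdeal ↔ σ • x ∈ m.asIdeal := Iff.rfl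
    rw [h] at this
    exact this
  · intro h
    apply MaximalSpectrum.ext
    ext x
    exact (h x).symm

variable [IsGalois K F] [hp : Fact p.Prime]

omit hp in
theorem orderOf_eq_of_generator (hKF : Module.finrank K F = p) (σ : F ≃ₐ[K] F)
    (hσ : ∀ τ : F ≃ₐ[K] F, τ ∈ Subgroup.zpowers σ) : orderOf σ = p := by
  rw [orderOf_eq_card_of_forall_mem_zpowers hσ, IsGalois.card_aut_eq_finrank, hKF]

/-- **`H¹`-side**: `hIndex N (σ - 1) = 1` on the `S`-ideles. -/
theorem hIndex_endN_endF_sigA (hKF : Module.finrank K F = p) (σ : F ≃ₐ[K] F)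
    (hσ : ∀ τ : F ≃ₐ[K] F, τ ∈ Subgroup.zpowers σ) :
    hIndex (endN p (sigA S σ)) (endF (sigA S σ)) = 1 := by
  rw [sigA_eq_addEnd, hIndex_endN_endF_addEnd]
  apply h1Index_eq_one_of_forall
  intro x hx
  have hord := orderOf_eq_of_generator hKF σ hσ
  have hx' : ∏ j ∈ Finset.range p, σ ^ j • x = 1 := by
    rw [normHom_apply] at hx
    rw [← hx]
    exact Finset.prod_congr rfl fun k _ => (piHom_locAut_iterate S σ k x).symm
  obtain ⟨y, hy⟩ := exists_smul_div_eq_of_prod_eq_one σ hσ hord hp.out.ne_zero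
    (isMulCoboundary₁_JS S F K) x hx'
  exact ⟨y, hy⟩

/-- **`Ĥ⁰`-side**: `hIndex (σ - 1) N = p ^ #{σ-stable maximal ideals}` on the `S`-ideles, given
the local norm index `p` at every `σ`-stable maximal ideal (hypothesis `hL`, from layer B). -/
theorem hIndex_endF_endN_sigA (hKF : Module.finrank K F = p) (σ : F ≃ₐ[K] F)
    (hσ : ∀ τ : F ≃ₐ[K] F, τ ∈ Subgroup.zpowers σ)
    (hL : ∀ (q : S) (m : MaximalSpectrum (Loc F q.1))
      (h : cmap (locAut (K := K) (F := F) q.1 σ) m = m),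
      h0Index (qAut (locAut (K := K) (F := F) q.1 σ) m h) p = p) :
    hIndex (endF (sigA S σ)) (endN p (sigA S σ)) =
      p ^ (∑ q : S, Nat.card {m : MaximalSpectrum (Loc F q.1) //
        ∀ x, x ∈ m.asIdeal ↔ σ • x ∈ m.asIdeal}) := by
  have hσp : σ ^ p = 1 := by
    rw [← orderOf_eq_of_generator hKF σ hσ]
    exact pow_orderOf_eq_one σ
  rw [sigA_eq_addEnd, hIndex_endF_endN_addEnd, h0Index_piHom, ← Finset.prod_pow_eq_pow_sum]
  refine Finset.prod_congr rfl fun q _ => ?_
  rw [← card_fixMax_eq]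
  exact h0Index_uAut_eq_pow (locAut q.1 σ) p (locAut_pow q.1 σ hσp)
    (eq_zero_of_forall_mem_maximal) p (fun m => hL q m.1 m.2)

/-- **helper63's `h48`** (hypothesis of `H63.hA_of_semilocal`) from the local norm index. -/
theorem h48_of_local (hKF : Module.finrank K F = p) (σ : F ≃ₐ[K] F)
    (hσ : ∀ τ : F ≃ₐ[K] F, τ ∈ Subgroup.zpowers σ)
    (hL : ∀ (q : S) (m : MaximalSpectrum (Loc F q.1))
      (h : cmap (locAut (K := K) (F := F) q.1 σ) m = m),
      h0Index (qAut (locAut (K := K) (F := F) q.1 σ) m h) p = p) :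
    hIndex (endF (sigA S σ)) (endN p (sigA S σ)) =
        p ^ (∑ q : S, Nat.card {m : MaximalSpectrum (Loc F q.1) //
          ∀ x, x ∈ m.asIdeal ↔ σ • x ∈ m.asIdeal}) ∧
      hIndex (endN p (sigA S σ)) (endF (sigA S σ)) = 1 :=
  ⟨hIndex_endF_endN_sigA S hKF σ hσ hL, hIndex_endN_endF_sigA S hKF σ hσ⟩

end

end Fermat.Agent.CFT.H48
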