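import Mathlib
import Fermat.Agent.CFT.H48_JSHerbrand
import Fermat.Agent.CFT.H63_LocalL
import Fermat.Agent.CFT.H63_FirstIneqExport
import Fermat.Agent.CFT.H63_FirstIneqTate
import Fermat.Agent.CFT.H54_PlacesGal

set_option autoImplicit false
set_option linter.unusedSectionVars false

/-!
# CFT / C-FIRST: the first inequality, unconditionally (helper48, assembly)

Assembly of helper63's conditional first inequality (`H63.herbrand_CS_of_local`,
`H63.herbrandRepn_repCS`, `H63.card_H0hat_repCS`, `H63.exists_invariant_not_norm`,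
`H63.exists_invariant_not_galNorm`, all conditional on `hA`) with

* `H48.h48_of_local` (Herbrand quotient of the `S`-ideles from the local norm index),
* `H63.h0Index_qAut_loc` (the local norm index `(L)`),
* helper54's place dictionary `H54.primeAt` (`(Eq)`),

through `H63.hA_of_semilocal`.  Everything here is hypothesis-free: `F/K` a cyclic extension of
number fields (as `Type`s) of odd prime degree `p` with generator `σ`, `S` a nonempty finite set of
rational primes.
-/

namespace Fermat.Agent.CFT.H48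

open IsDedekindDomain NumberField Module
open Fermat.Agent.CFT.H23 Fermat.Agent.CFT.H6

variable (S : Finset Nat.Primes) {K F : Type} [Field K] [NumberField K] [Field F]
  [NumberField F] [Algebra K F] [IsGalois K F] {p : ℕ} [hp : Fact p.Prime]

/-- A generator of a cyclic Galois group of prime order `p` is not the identity. -/
theorem generator_ne_one (hKF : Module.finrank K F = p) (σ : F ≃ₐ[K] F)
    (hσ : ∀ τ : F ≃ₐ[K] F, τ ∈ Subgroup.zpowers σ) : σ ≠ 1 := by
  intro h1
  have hord : orderOf σ = p := orderOf_eq_of_generator hKF σ hσ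
  rw [h1, orderOf_one] at hord
  exact hp.out.one_lt.ne hord

/-- A generator of a cyclic Galois group of order `p` has `p`-th power one. -/
theorem generator_pow_eq_one (hKF : Module.finrank K F = p) (σ : F ≃ₐ[K] F)
    (hσ : ∀ τ : F ≃ₐ[K] F, τ ∈ Subgroup.zpowers σ) : σ ^ p = 1 := by
  have hord : orderOf σ = p := orderOf_eq_of_generator hKF σ hσ
  rw [← hord]
  exact pow_orderOf_eq_one σ

/-- **The hypothesis `hA` of helper63's first inequality, unconditionally**: the Herbrand quotient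
of the `S`-ideles of `F` is the product of the local degrees above `S`. -/
theorem hA_uncond (hKF : Module.finrank K F = p) (σ : F ≃ₐ[K] F)
    (hσ : ∀ τ : F ≃ₐ[K] F, τ ∈ Subgroup.zpowers σ) :
    ∀ SK : Finset (HeightOneSpectrum (𝓞 K)), (∀ u, u ∈ SK ↔ u ∈ H63.primesAboveS S K) →
      HerbrandDefined (endF (H63.sigA S σ)) (endN p (H63.sigA S σ)) ∧
      herbrand (endF (H63.sigA S σ)) (endN p (H63.sigA S σ)) =
        ((∏ u ∈ SK, (u.asIdeal.ramificationIdxIn (𝓞 F) * u.asIdeal.inertiaDegIn (𝓞 F)) : ℕ) :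
          ℚ) :=
  H63.hA_of_semilocal S hKF σ hσ
    (h48_of_local S hKF σ hσ (fun _ m h =>
      H63.h0Index_qAut_loc hp.out σ (generator_ne_one hKF σ hσ) (generator_pow_eq_one hKF σ hσ)
        m h))
    (fun _ => H54.primeAt) (fun _ => H54.primeAt_injective)
    (fun _ w => H54.exists_primeAt_eq_iff w) (fun _ m => H54.primeAt_fixed_iff σ m)

/-- **First inequality in the hybrid model, unconditional** (`hIndex` vocabulary). -/
theorem herbrand_CS (hp2 : p ≠ 2) (hKF : Module.finrank K F = p) (σ : F ≃ₐ[K] F)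
    (hσ : ∀ τ : F ≃ₐ[K] F, τ ∈ Subgroup.zpowers σ) (hS : S.Nonempty) :
    HerbrandDefined (endF (H63.sigC S σ)) (endN p (H63.sigC S σ)) ∧
      herbrand (endF (H63.sigC S σ)) (endN p (H63.sigC S σ)) = p ∧
      hIndex (endF (H63.sigC S σ)) (endN p (H63.sigC S σ)) =
        p * hIndex (endN p (H63.sigC S σ)) (endF (H63.sigC S σ)) :=
  H63.herbrand_CS_of_local S hp2 hKF σ hσ hS (hA_uncond S hKF σ hσ)

/-- **First inequality, unconditional**, in helper6's `Rep` vocabulary for `repCS S F K`. -/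
theorem herbrandRepn_repCS (hp2 : p ≠ 2) (hKF : Module.finrank K F = p) (σ : F ≃ₐ[K] F)
    (hσ : ∀ τ : F ≃ₐ[K] F, τ ∈ Subgroup.zpowers σ) (hS : S.Nonempty) :
    HerbrandDefinedRepn (repCS S F K).ρ σ ∧ herbrandRepn (repCS S F K).ρ σ = p ∧
      h0Card (repCS S F K).ρ σ = p * hm1Card (repCS S F K).ρ σ :=
  H63.herbrandRepn_repCS S hp2 hKF σ hσ hS (hA_uncond S hKF σ hσ)

/-- **First inequality, unconditional**, in the `A_Defs` Tate models: `|Ĥ⁰| = p · |Ĥ⁻¹|`. -/
theorem card_H0hat_repCS (hp2 : p ≠ 2) (hKF : Module.finrank K F = p) (σ : F ≃ₐ[K] F)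
    (hσ : ∀ τ : F ≃ₐ[K] F, τ ∈ Subgroup.zpowers σ) (hS : S.Nonempty) :
    Nat.card (Fermat.Agent.CFT.A.H0hat (repCS S F K)) ≠ 0 ∧
      Nat.card (Fermat.Agent.CFT.A.Hm1hat (repCS S F K)) ≠ 0 ∧
      Nat.card (Fermat.Agent.CFT.A.H0hat (repCS S F K)) =
        p * Nat.card (Fermat.Agent.CFT.A.Hm1hat (repCS S F K)) :=
  H63.card_H0hat_repCS S hp2 hKF σ hσ hS (hA_uncond S hKF σ hσ)

/-- **First inequality, element form, unconditional**: there is a `σ`-invariant class of `CS S F`
which is not a norm `∏_{i<p} σ^i • y`. -/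
theorem exists_invariant_not_norm (hp2 : p ≠ 2) (hKF : Module.finrank K F = p) (σ : F ≃ₐ[K] F)
    (hσ : ∀ τ : F ≃ₐ[K] F, τ ∈ Subgroup.zpowers σ) (hS : S.Nonempty) :
    ∃ c : CS S F, σ • c = c ∧ ∀ y : CS S F, c ≠ ∏ i ∈ Finset.range p, σ ^ i • y :=
  H63.exists_invariant_not_norm S hp2 hKF σ hσ hS (hA_uncond S hKF σ hσ)

/-- Same with the norm written as a product over the Galois group. -/
theorem exists_invariant_not_galNorm [Fintype (F ≃ₐ[K] F)] (hp2 : p ≠ 2)
    (hKF : Module.finrank K F = p) (σ : F ≃ₐ[K] F)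
    (hσ : ∀ τ : F ≃ₐ[K] F, τ ∈ Subgroup.zpowers σ) (hS : S.Nonempty) :
    ∃ c : CS S F, (∀ τ : F ≃ₐ[K] F, τ • c = c) ∧
      ∀ y : CS S F, c ≠ ∏ τ : F ≃ₐ[K] F, τ • y :=
  H63.exists_invariant_not_galNorm S hp2 hKF σ hσ hS (hA_uncond S hKF σ hσ)

end Fermat.Agent.CFT.H48
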