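import Mathlib

/-!
# CFT / C-RECIP (tame route), packages R1 and R2: auxiliary primes

Elementary number theory used in the proof of the global reciprocity law on the `p`-primary part
of the Brauer group without explicit wild local symbols (board post 790).

* `exists_prime_orderOf_eq_pow` (R1): for an odd prime `p`, an integer `q ≥ 2` and a bound `B`
  there is a prime `l > B`, `l ≠ p`, `l ∤ q`, such that `q` has order exactly `p ^ (k + 1)` in
  `(ZMod l)ˣ`, with `k ≥ B`.  (Any prime divisor `≠ p` of `Φ_{p^(k+1)}(q)` works; no Zsigmondy,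
  no Dirichlet.)  Consequently `l ≡ 1 mod p ^ (k + 1)` and the Frobenius of `q` in the `p`-part
  subfield of `ℚ(ζ_l)` has order `p ^ (k + 1)`.
* `exists_pow_dvd_orderOf_pow_pred` (R2): for primes `l ≠ p`, the order of `l ^ (p - 1)` in
  `ZMod (p ^ (r + 1))` is divisible by `p ^ k` for `r` large: the local degree at `l` of the
  `r`-th layer of the cyclotomic `ℤ_p`-extension of `ℚ` tends to infinity.
-/

set_option autoImplicit false

namespace Fermat.Agent.CFT.H4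

open Finset

/-- The value `Φ_p(X) = 1 + X + ⋯ + X^(p-1)` is bigger than `p` for `X ≥ 2`. -/
theorem lt_geom_sum {p X : ℕ} (hp : 2 ≤ p) (hX : 2 ≤ X) : p < ∑ i ∈ range p, X ^ i := by
  obtain ⟨n, rfl⟩ : ∃ n, p = n + 2 := ⟨p - 2, by omega⟩
  rw [sum_range_succ]
  have h1 : n + 1 ≤ ∑ i ∈ range (n + 1), X ^ i := by
    calc n + 1 = ∑ _i ∈ range (n + 1), 1 := by simp
      _ ≤ ∑ i ∈ range (n + 1), X ^ i :=
        sum_le_sum fun i _ => Nat.one_le_pow _ _ (by omega)
  have h2 : n + 1 < X ^ (n + 1) :=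
    lt_of_lt_of_le (Nat.lt_two_pow_self) (Nat.pow_le_pow_left hX _)
  omega

/-- `p ^ 2` does not divide `1 + X + ⋯ + X^(p-1)` for an odd prime `p`. -/
theorem not_sq_dvd_geom_sum {p : ℕ} [hp : Fact p.Prime] (hodd : Odd p) {X : ℕ} (hX : 2 ≤ X) :
    ¬ p ^ 2 ∣ ∑ i ∈ range p, X ^ i := by
  obtain ⟨Y, rfl⟩ : ∃ Y, X = Y + 1 := ⟨X - 1, by omega⟩
  have hY : 1 ≤ Y := by omega
  set N := ∑ i ∈ range p, (Y + 1) ^ i with hN
  have hgeom : N * Y + 1 = (Y + 1) ^ p := geom_sum_mul_add Y p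
  have hNpos : 0 < N := by
    have := lt_geom_sum hp.out.two_le hX
    omega
  intro hdvd
  have hpN : p ∣ N := dvd_trans (dvd_pow_self p two_ne_zero) hdvd
  -- `p ∣ Y`
  have hpY : p ∣ Y := by
    have h1 : ((Y + 1 : ℕ) : ZMod p) ^ p = ((Y + 1 : ℕ) : ZMod p) := ZMod.pow_card _
    have h2 : (((Y + 1) ^ p : ℕ) : ZMod p) = 1 := by
      rw [← hgeom]
      have : (N : ZMod p) = 0 := (ZMod.natCast_eq_zero_iff N p).mpr hpN
      push_cast
      rw [this]; simp
    have h3 : ((Y + 1 : ℕ) : ZMod p) = 1 := by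
      rw [← h1]; exact_mod_cast h2
    have h4 : (Y : ZMod p) = 0 := by
      have : ((Y + 1 : ℕ) : ZMod p) = (Y : ZMod p) + 1 := by push_cast; ring
      rw [this] at h3
      simpa using h3
    exact (ZMod.natCast_eq_zero_iff Y p).mp h4
  have hpX : ¬ p ∣ Y + 1 := fun h => by
    have : p ∣ 1 := (Nat.dvd_add_right hpY).mp h
    exact hp.out.one_lt.ne' (Nat.dvd_one.mp this)
  have hlte := padicValNat.pow_sub_pow (p := p) hodd (x := Y + 1) (y := 1) (by omega)
    (by simpa using hpY) hpX (n := p) hp.out.ne_zero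
  rw [one_pow, ← hgeom, Nat.add_sub_cancel, Nat.add_sub_cancel, padicValNat_self,
    padicValNat.mul hNpos.ne' (by omega)] at hlte
  have hvN : padicValNat p N = 1 := by omega
  have := (padicValNat_dvd_iff_le (p := p) hNpos.ne').mp hdvd
  omega

/-- **R1.** Auxiliary primes: `q` has exact order `p ^ (k + 1)` modulo a large prime `l ≠ p`. -/
theorem exists_prime_orderOf_eq_pow (p : ℕ) [hp : Fact p.Prime] (hodd : Odd p) (q : ℕ)
    (hq : 2 ≤ q) (B : ℕ) :
    ∃ l k : ℕ, l.Prime ∧ B < l ∧ l ≠ p ∧ ¬ l ∣ q ∧ B ≤ k ∧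
      orderOf (q : ZMod l) = p ^ (k + 1) ∧ p ^ (k + 1) ∣ l - 1 := by
  set X := q ^ p ^ B with hX
  have hX2 : 2 ≤ X := le_trans hq (Nat.le_self_pow (pow_ne_zero _ hp.out.ne_zero) q)
  set N := ∑ i ∈ range p, X ^ i with hN
  have hNgt : p < N := lt_geom_sum hp.out.two_le hX2
  have hNsq : ¬ p ^ 2 ∣ N := not_sq_dvd_geom_sum hodd hX2
  -- a prime divisor different from `p`
  obtain ⟨l, hl, hlN, hlp⟩ : ∃ l, l.Prime ∧ l ∣ N ∧ l ≠ p := by
    by_contra hcon
    push Not at hcon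
    have hpow : N = p ^ N.primeFactorsList.length :=
      Nat.eq_prime_pow_of_unique_prime_dvd (by omega) fun {d} hd hdN => hcon d hd hdN
    set j := N.primeFactorsList.length
    have hj : 2 ≤ j := by
      by_contra hj
      have hj' : j ≤ 1 := by omega
      have : N ≤ p ^ 1 := hpow ▸ Nat.pow_le_pow_right hp.out.pos hj'
      simp at this
      omega
    exact hNsq (hpow ▸ pow_dvd_pow p hj)
  have : Fact l.Prime := ⟨hl⟩
  set x : ZMod l := (q : ZMod l) with hx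
  set y : ZMod l := x ^ p ^ B with hy
  have hyX : y = (X : ZMod l) := by simp [hy, hx, hX]
  have hsum : ∑ i ∈ range p, y ^ i = 0 := by
    have : ((N : ℕ) : ZMod l) = 0 := (ZMod.natCast_eq_zero_iff N l).mpr hlN
    rw [hN] at this
    push_cast at this
    rw [hyX]; exact this
  have hyp : y ^ p = 1 := by
    have := geom_sum_mul y p
    rw [hsum, zero_mul] at this
    exact (sub_eq_zero.mp this.symm)
  have hy1 : y ≠ 1 := by
    intro h1
    rw [h1] at hsum
    simp only [one_pow, sum_const, card_range, nsmul_eq_mul, mul_one] at hsum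
    have : l ∣ p := (ZMod.natCast_eq_zero_iff p l).mp hsum
    exact hlp ((Nat.prime_dvd_prime_iff_eq hl hp.out).mp this)
  have hord : orderOf x = p ^ (B + 1) := by
    refine orderOf_eq_prime_pow (p := p) (n := B) hy1 ?_
    rw [pow_succ, pow_mul]; exact hyp
  have hx0 : x ≠ 0 := by
    intro h0
    have : x ^ p ^ (B + 1) = 1 := by rw [← hord]; exact pow_orderOf_eq_one x
    rw [h0, zero_pow (pow_ne_zero _ hp.out.ne_zero)] at this
    exact zero_ne_one this
  have hlq : ¬ l ∣ q := fun h => hx0 ((ZMod.natCast_eq_zero_iff q l).mpr h)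
  have hdvd : p ^ (B + 1) ∣ l - 1 := hord ▸ ZMod.orderOf_dvd_card_sub_one hx0
  have hBl : B < l := by
    have h1 : p ^ (B + 1) ≤ l - 1 := Nat.le_of_dvd (by have := hl.two_le; omega) hdvd
    have h2 : B + 1 < 2 ^ (B + 1) := Nat.lt_two_pow_self
    have h3 : 2 ^ (B + 1) ≤ p ^ (B + 1) := Nat.pow_le_pow_left hp.out.two_le _
    omega
  exact ⟨l, B, hl, hBl, hlp, hlq, le_rfl, hord, hdvd⟩

/-- **R2.** For primes `l ≠ p`, the order of `l ^ (p - 1)` modulo `p ^ (r + 1)` is divisible by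
`p ^ k` as soon as `r` is large. -/
theorem exists_pow_dvd_orderOf_pow_pred (p l : ℕ) [hp : Fact p.Prime] (hl : l.Prime)
    (hlp : l ≠ p) (k : ℕ) :
    ∃ r : ℕ, ∀ r' : ℕ, r ≤ r' →
      p ^ k ∣ orderOf ((l : ZMod (p ^ (r' + 1))) ^ (p - 1)) := by
  set m := l ^ (p - 1) with hm
  have hm2 : 2 ≤ m := by
    have h1 : 1 ≤ p - 1 := by have := hp.out.two_le; omega
    calc 2 ≤ l := hl.two_le
      _ = l ^ 1 := (pow_one l).symm
      _ ≤ l ^ (p - 1) := Nat.pow_le_pow_right hl.pos h1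
  refine ⟨m ^ p ^ k, fun r hr => ?_⟩
  have hbig : m ^ p ^ k < p ^ (r + 1) := by
    have h1 : r + 1 < 2 ^ (r + 1) := Nat.lt_two_pow_self
    have h2 : 2 ^ (r + 1) ≤ p ^ (r + 1) := Nat.pow_le_pow_left hp.out.two_le _
    omega
  have : NeZero (p ^ (r + 1)) := ⟨pow_ne_zero _ hp.out.ne_zero⟩
  set u : ZMod (p ^ (r + 1)) := (l : ZMod (p ^ (r + 1))) ^ (p - 1) with hu
  have hum : u = (m : ZMod (p ^ (r + 1))) := by simp [hu, hm]
  have hcop : Nat.Coprime l (p ^ (r + 1)) :=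
    Nat.Coprime.pow_right _ ((Nat.coprime_primes hl hp.out).mpr hlp)
  have hupow : u ^ p ^ r = 1 := by
    have h1 := ZMod.pow_totient (ZMod.unitOfCoprime l hcop)
    rw [Nat.totient_prime_pow_succ hp.out] at h1
    have h2 : ((ZMod.unitOfCoprime l hcop : (ZMod (p ^ (r + 1)))ˣ) : ZMod (p ^ (r + 1))) ^
        (p ^ r * (p - 1)) = 1 := by
      rw [← Units.val_pow_eq_pow_val, h1, Units.val_one]
    rw [ZMod.coe_unitOfCoprime] at h2
    rw [hu, ← pow_mul, mul_comm]; exact h2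
  obtain ⟨j, hjr, hj⟩ := (Nat.dvd_prime_pow hp.out).mp (orderOf_dvd_of_pow_eq_one hupow)
  rw [hj]
  refine pow_dvd_pow p ?_
  by_contra hjk
  have hjk' : j ≤ k := by omega
  have h1 : u ^ p ^ j = 1 := by rw [← hj]; exact pow_orderOf_eq_one u
  have h2 : ((m ^ p ^ j : ℕ) : ZMod (p ^ (r + 1))) = ((1 : ℕ) : ZMod (p ^ (r + 1))) := by
    push_cast; rw [← hum]; exact h1
  have h3 : m ^ p ^ j ≡ 1 [MOD p ^ (r + 1)] := (ZMod.natCast_eq_natCast_iff _ _ _).mp h2
  have h4 : 1 < m ^ p ^ j :=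
    Nat.one_lt_pow (pow_ne_zero _ hp.out.ne_zero) (by omega)
  have h5 : m ^ p ^ j ≤ m ^ p ^ k :=
    Nat.pow_le_pow_right (by omega) (Nat.pow_le_pow_right hp.out.pos hjk')
  have h6 : p ^ (r + 1) ∣ m ^ p ^ j - 1 := (Nat.modEq_iff_dvd' h4.le).mp h3.symm
  have h7 := Nat.le_of_dvd (by omega) h6
  omega

end Fermat.Agent.CFT.H4
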