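/-
CFT layer C, package C-ARTIN (helper4), part 1: the norm residue symbol of a finite cyclic
group with a fundamental class.

`G` finite cyclic, `A : Rep k G`, `γ ∈ H²(G, A)` generating `H²(G, A)` and of order `|G|`
(`IsFundClass A γ`; this is what a class module gives for `G` itself).  For a `G`-invariant
`a ∈ A` the symbol `symb hγ a ∈ G` is characterised by
`[std g a] = m • γ  ⇒  symb hγ a = g ^ m` for every generator `g`
(`std g a` = helper19's standard cocycle = `a ∪ δχ_g`).
-/
import Mathlib
import Fermat.Agent.CFT.H19_StdCocycle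
import Fermat.Agent.CFT.H9_Cup

set_option autoImplicit false
set_option linter.unusedSectionVars false

open groupCohomology CategoryTheory

namespace Fermat.Agent.CFT.H4

/-! ## Cyclic additive groups with a marked generator -/

section Log

variable {M : Type*} [AddCommGroup M] {n : ℕ}

/-- The homomorphism `ℤ/n → M`, `1 ↦ γ`, for `γ` of order dividing `n`. -/
noncomputable def expHom (γ : M) (h : n • γ = 0) : ZMod n →+ M :=
  ZMod.lift n ⟨zmultiplesHom M γ, by simpa using h⟩

@[simp] lemma expHom_intCast (γ : M) (h : n • γ = 0) (m : ℤ) :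
    expHom γ h (m : ZMod n) = m • γ := by
  simp [expHom]

lemma expHom_bijective (γ : M) (hgen : ∀ x : M, ∃ m : ℤ, x = m • γ)
    (hord : addOrderOf γ = n) :
    Function.Bijective (expHom γ (n := n) (by rw [← hord]; exact addOrderOf_nsmul_eq_zero γ)) := by
  constructor
  · rw [expHom, ZMod.lift_injective]
    intro m hm
    simp only [zmultiplesHom_apply] at hm
    rw [ZMod.intCast_zmod_eq_zero_iff_dvd, ← hord]
    exact addOrderOf_dvd_iff_zsmul_eq_zero.2 hm
  · intro x
    obtain ⟨m, rfl⟩ := hgen x
    exact ⟨(m : ZMod n), expHom_intCast _ _ _⟩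

/-- The logarithm `M ≃ ℤ/n`, `γ ↦ 1`, of a cyclic group `M` of order `n` with generator `γ`. -/
noncomputable def logEquiv (γ : M) (hgen : ∀ x : M, ∃ m : ℤ, x = m • γ)
    (hord : addOrderOf γ = n) : M ≃+ ZMod n :=
  (AddEquiv.ofBijective _ (expHom_bijective γ hgen hord)).symm

lemma logEquiv_zsmul (γ : M) (hgen : ∀ x : M, ∃ m : ℤ, x = m • γ)
    (hord : addOrderOf γ = n) (m : ℤ) :
    logEquiv γ hgen hord (m • γ) = (m : ZMod n) := by
  rw [logEquiv, AddEquiv.symm_apply_eq]
  simp

lemma logEquiv_self (γ : M) (hgen : ∀ x : M, ∃ m : ℤ, x = m • γ)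
    (hord : addOrderOf γ = n) : logEquiv γ hgen hord γ = 1 := by
  have := logEquiv_zsmul γ hgen hord 1
  simpa using this

end Log

/-! ## Powers of a group element indexed by `ℤ/n` -/

section Pow

variable {G : Type*} [Group G] {n : ℕ}

/-- `m ↦ g ^ m` as a homomorphism `ℤ/n → G` (additive notation on `G`), for `g ^ n = 1`. -/
noncomputable def powHom (g : G) (h : g ^ n = 1) : ZMod n →+ Additive G :=
  ZMod.lift n ⟨zmultiplesHom (Additive G) (Additive.ofMul g), by
    simp only [zmultiplesHom_apply, natCast_zsmul]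
    rw [← ofMul_pow, h, ofMul_one]⟩

@[simp] lemma powHom_intCast (g : G) (h : g ^ n = 1) (m : ℤ) :
    powHom g h (m : ZMod n) = Additive.ofMul (g ^ m) := by
  simp [powHom, ofMul_zpow]

lemma powHom_one (g : G) (h : g ^ n = 1) : powHom g h 1 = Additive.ofMul g := by
  have := powHom_intCast g h 1
  simpa using this

lemma powHom_injective (g : G) (h : g ^ n = 1) (hn : orderOf g = n) :
    Function.Injective (powHom g h) := by
  rw [powHom, ZMod.lift_injective]
  intro m hm
  simp only [zmultiplesHom_apply] at hm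
  rw [ZMod.intCast_zmod_eq_zero_iff_dvd, ← hn]
  rw [← ofMul_zpow] at hm
  exact orderOf_dvd_iff_zpow_eq_one.2 hm

lemma powHom_surjective (g : G) (h : g ^ n = 1) (hg : ∀ x : G, x ∈ Subgroup.zpowers g) :
    Function.Surjective (powHom g h) := by
  intro x
  obtain ⟨m, hm⟩ := Subgroup.mem_zpowers_iff.1 (hg (Additive.toMul x))
  exact ⟨(m : ZMod n), by rw [powHom_intCast, hm]; rfl⟩

end Pow

/-! ## The symbol -/

section Symbol

variable {k : Type} [CommRing k] {G : Type} [Group G] [Finite G]

/-- `γ` is a fundamental class of the `G`-module `A` (for the group `G` itself): `H²(G, A)` is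
cyclic of order `|G|`, generated by `γ`. -/
structure IsFundClass (A : Rep.{0} k G) (γ : H2 A) : Prop where
  gen : ∀ x : H2 A, ∃ m : ℤ, x = m • γ
  order : addOrderOf γ = Nat.card G

variable {A : Rep.{0} k G} {γ : H2 A}

/-- The invariant map `H²(G, A) ≃ ℤ/|G|`, `γ ↦ 1`. -/
noncomputable def IsFundClass.inv (hγ : IsFundClass A γ) : H2 A ≃+ ZMod (Nat.card G) :=
  logEquiv γ hγ.gen hγ.order

lemma IsFundClass.inv_zsmul (hγ : IsFundClass A γ) (m : ℤ) :
    hγ.inv (m • γ) = (m : ZMod (Nat.card G)) :=
  logEquiv_zsmul γ hγ.gen hγ.order m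

lemma IsFundClass.inv_self (hγ : IsFundClass A γ) : hγ.inv γ = 1 :=
  logEquiv_self γ hγ.gen hγ.order

lemma invariants_apply (a : A.ρ.invariants) (x : G) : A.ρ x (a : A) = a :=
  (Representation.mem_invariants A.ρ a.1).1 a.2 x

/-- The standard class `a ↦ [std g a] = a ∪ δχ_g`, additive in the invariant `a`. -/
noncomputable def stdClassHom (A : Rep.{0} k G) {g : G} (hg : ∀ x : G, x ∈ Subgroup.zpowers g) :
    A.ρ.invariants →+ H2 A where
  toFun a := H2π A (H19.stdCocycle hg (invariants_apply a))
  map_zero' := by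
    have : H19.stdCocycle hg (A := A) (invariants_apply (0 : A.ρ.invariants)) = 0 :=
      Subtype.ext (H19.stdFun_zero g)
    rw [this, map_zero]
  map_add' a b := by
    have : H19.stdCocycle hg (invariants_apply (a + b)) = H19.stdCocycle hg (invariants_apply a) + H19.stdCocycle hg (invariants_apply b) :=
      Subtype.ext (H19.stdFun_add g a.1 b.1)
    rw [this, map_add]

lemma stdClassHom_apply {g : G} (hg : ∀ x : G, x ∈ Subgroup.zpowers g) (a : A.ρ.invariants) :
    stdClassHom A hg a = H2π A (H19.stdCocycle hg (invariants_apply a)) := rfl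

/-- The norm residue symbol attached to the fundamental class `γ` and the generator `g`
(it does not depend on `g`, see `symbHom_eq`). -/
noncomputable def symbHom (hγ : IsFundClass A γ) {g : G} (hg : ∀ x : G, x ∈ Subgroup.zpowers g) :
    A.ρ.invariants →+ Additive G :=
  (powHom g (pow_card_eq_one' (x := g))).comp
    ((hγ.inv : H2 A →+ ZMod (Nat.card G)).comp (stdClassHom A hg))

lemma symbHom_apply (hγ : IsFundClass A γ) {g : G} (hg : ∀ x : G, x ∈ Subgroup.zpowers g)
    (a : A.ρ.invariants) :
    symbHom hγ hg a = powHom g (pow_card_eq_one' (x := g)) (hγ.inv (stdClassHom A hg a)) := rfl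

/-- Characterisation: if `[std g a] = m • γ` then the symbol of `a` is `g ^ m`. -/
theorem symbHom_spec (hγ : IsFundClass A γ) {g : G} (hg : ∀ x : G, x ∈ Subgroup.zpowers g)
    (a : A.ρ.invariants) (m : ℤ) (h : stdClassHom A hg a = m • γ) :
    symbHom hγ hg a = Additive.ofMul (g ^ m) := by
  rw [symbHom_apply, h, hγ.inv_zsmul, powHom_intCast]

lemma orderOf_eq_card_of_generator {g : G} (hg : ∀ x : G, x ∈ Subgroup.zpowers g) :
    orderOf g = Nat.card G :=
  orderOf_eq_card_of_forall_mem_zpowers hg

/-- The kernel of the symbol consists exactly of the norms. -/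
theorem symbHom_eq_zero_iff (hγ : IsFundClass A γ) {g : G}
    (hg : ∀ x : G, x ∈ Subgroup.zpowers g) (a : A.ρ.invariants) :
    symbHom hγ hg a = 0 ↔ ∃ y : A, (a : A) = H19.pnorm A g y (orderOf g) := by
  rw [symbHom_apply, ← map_zero (powHom g (pow_card_eq_one' (x := g))),
    (powHom_injective g _ (orderOf_eq_card_of_generator hg)).eq_iff,
    AddEquiv.map_eq_zero_iff, stdClassHom_apply]
  exact H19.H2π_stdCocycle_eq_zero_iff hg (invariants_apply a)

end Symbol

/-! ## Surjectivity: every class is a standard class -/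

section Surj

variable {k : Type} [CommRing k] {G : Type} [Group G] [Fintype G] {A : Rep.{0} k G}

/-- The character `χ_g : G → ℤ/n`, `g ^ i ↦ i`, of a cyclic group with generator `g` of
order `n`. -/
noncomputable def genChar {g : G} (hg : ∀ x : G, x ∈ Subgroup.zpowers g) :
    G →* Multiplicative (ZMod (orderOf g)) where
  toFun x := Multiplicative.ofAdd ((H19.idx g x : ℕ) : ZMod (orderOf g))
  map_one' := by simp [H19.idx_one]
  map_mul' x y := by
    rw [H19.idx_mul hg, ← ofAdd_add, ZMod.natCast_mod, Nat.cast_add]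

lemma neZero_orderOf (g : G) : NeZero (orderOf g) := ⟨(orderOf_pos g).ne'⟩

attribute [local instance] neZero_orderOf

lemma lift_genChar {g : G} (hg : ∀ x : G, x ∈ Subgroup.zpowers g) (x : G) :
    H9.lift (genChar hg) x = H19.idx g x := by
  show (((H19.idx g x : ℕ) : ZMod (orderOf g))).val = H19.idx g x
  rw [ZMod.val_natCast, Nat.mod_eq_of_lt (H19.idx_lt x)]

lemma bockN_genChar {g : G} (hg : ∀ x : G, x ∈ Subgroup.zpowers g) (x y : G) :
    H9.bockN (genChar hg) (x, y) = H19.carry (orderOf g) (H19.idx g x) (H19.idx g y) := by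
  have hx := H19.idx_lt (g := g) x
  have hy := H19.idx_lt (g := g) y
  have hn := orderOf_pos g
  show (H9.lift (genChar hg) x + H9.lift (genChar hg) y) / orderOf g = _
  rw [lift_genChar, lift_genChar, H19.carry]
  split_ifs with h
  · rw [Nat.div_eq_iff hn]; constructor <;> omega
  · exact Nat.div_eq_of_lt (by omega)

/-- The standard cocycle of `(g, a)` is the cup product of `a` with the Bockstein of `χ_g`. -/
theorem cup_bock_genChar {g : G} (hg : ∀ x : G, x ∈ Subgroup.zpowers g) (a : A.ρ.invariants) :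
    H9.cup a (H9.bock k (genChar hg)) = H19.stdCocycle hg (invariants_apply a) := by
  apply Subtype.ext
  funext ⟨x, y⟩
  show (H9.bock k (genChar hg) (x, y)) • (a : A) = H19.stdFun A g a (x, y)
  rw [H9.bock_apply, bockN_genChar, H19.stdFun_eq_carry_smul, Nat.cast_smul_eq_nsmul]

/-- Every class in `H²(G, A)`, `G = ⟨g⟩` cyclic, is a standard class. -/
theorem stdClassHom_surjective {g : G} (hg : ∀ x : G, x ∈ Subgroup.zpowers g) :
    Function.Surjective (stdClassHom A hg) := by
  intro x
  induction x using H2_induction_on with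
  | h u =>
    rcases Nat.lt_or_ge 1 (orderOf g) with h1 | h1
    · refine ⟨H9.nakInv u g, ?_⟩
      rw [stdClassHom_apply, ← cup_bock_genChar, H9.H2π_cup_bock]
      have hspec := H9.nakN_spec (genChar hg) g
      rw [lift_genChar, H19.idx_self h1, mul_one, ← Nat.card_eq_fintype_card,
        ← orderOf_eq_card_of_generator hg] at hspec
      have : H9.nakN (genChar hg) g = 1 := by
        have hn := orderOf_pos g
        exact Nat.eq_of_mul_eq_mul_left hn (by rw [hspec, mul_one])
      rw [this, Nat.cast_one, one_smul]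
    · have hone : orderOf g = 1 := by have := orderOf_pos g; omega
      have hsub : ∀ x : G, x = 1 := by
        intro x
        obtain ⟨i, hi⟩ := H19.exists_pow_eq hg x
        rw [← hi, orderOf_eq_one_iff.1 hone, one_pow]
      refine ⟨0, ?_⟩
      rw [map_zero]
      symm
      rw [H2π_eq_zero_iff]
      refine ⟨fun _ => u (1, 1), ?_⟩
      funext ⟨x, y⟩
      rw [d₁₂_hom_apply, hsub x, hsub y]
      simp

end Surj

/-! ## Functoriality -/

section Functoriality

variable {k : Type} [CommRing k] {G H : Type} [Group G] [Finite G] [Group H] [Finite H]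
  {A : Rep.{0} k G} {γ : H2 A} {B : Rep.{0} k H} {γH : H2 B}

/-- **Functoriality of the symbol.**  Let `(ι, φ) : (G, A) → (H, B)` be a compatible pair
(`ι : H →* G`, `φ : res ι A ⟶ B`), both groups cyclic with fundamental classes `γ`, `γH`, and
suppose `(ι, φ)^* γ = d • γH` with `D * |H| = d * |G|`.  Then `ι (symb_H (φ a)) = symb_G (a) ^ D`.

* restriction to a subgroup (`ι` injective, `d = 1`): `D = [G : H]`;
* inflation from a quotient (`ι` surjective, `d = |H| / |G|`): `D = 1`;
* base change `K ⊆ K'`, `L' = L K'` for fields (`d = [L' : L]`): `D = [K' : K]`. -/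
theorem map_symbHom (hγ : IsFundClass A γ) (hγH : IsFundClass B γH)
    (ι : H →* G) (φ : Rep.res ι A ⟶ B)
    {g : G} (hg : ∀ x : G, x ∈ Subgroup.zpowers g) {h : H} (hh : ∀ x : H, x ∈ Subgroup.zpowers h)
    {d D : ℕ} (hD : D * Nat.card H = d * Nat.card G)
    (hmap : groupCohomology.map ι φ 2 γ = d • γH)
    (a : A.ρ.invariants) (b : B.ρ.invariants) (hab : (b : B) = φ.hom (a : A)) :
    Additive.ofMul (ι (Additive.toMul (symbHom hγH hh b))) = D • symbHom hγ hg a := by
  obtain ⟨f, hf⟩ := H19.exists_pow_eq hg (ι h)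
  obtain ⟨m, hm⟩ := hγ.gen (stdClassHom A hg a)
  obtain ⟨m', hm'⟩ := hγH.gen (stdClassHom B hh b)
  rw [symbHom_spec hγ hg a m hm, symbHom_spec hγH hh b m' hm']
  -- the functoriality of the standard class
  have hGc : orderOf g = Nat.card G := orderOf_eq_card_of_generator hg
  have hHc : orderOf h = Nat.card H := orderOf_eq_card_of_generator hh
  have hdvd : orderOf g ∣ f * orderOf h := by
    apply orderOf_dvd_of_pow_eq_one
    rw [pow_mul, hf, ← map_pow, pow_orderOf_eq_one, map_one]
  set e := f * orderOf h / orderOf g with he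
  have hefg : e * Nat.card G = f * Nat.card H := by
    rw [he, ← hGc, ← hHc]
    exact Nat.div_mul_cancel hdvd
  have key := H19.map_H2π_stdCocycle ι φ hg hh (invariants_apply a) hf.symm
  have hb' : H19.stdCocycle hh (H19.nsmul_invariant (H19.hom_invariant ι φ (invariants_apply a)) e) =
      e • H19.stdCocycle hh (invariants_apply b) := by
    have h0 := H19.nsmul_stdCocycle hh (invariants_apply b) e
    rw [h0]
    apply Subtype.ext
    show H19.stdFun B h (e • φ.hom (a : A)) = H19.stdFun B h (e • (b : B))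
    rw [hab]
  have h1 : (groupCohomology.map ι φ 2) (stdClassHom A hg a) = e • stdClassHom B hh b := by
    rw [stdClassHom_apply, stdClassHom_apply, key, ← he, hb', map_nsmul]
  rw [hm, hm', map_zsmul, hmap] at h1
  -- arithmetic
  have h2 : ((m * d - e * m' : ℤ)) • γH = 0 := by
    rw [sub_smul, mul_smul, mul_smul, natCast_zsmul, natCast_zsmul, h1, sub_self]
  have h3 : (Nat.card H : ℤ) ∣ m * d - e * m' := by
    rw [← hγH.order]
    exact addOrderOf_dvd_iff_zsmul_eq_zero.2 h2
  obtain ⟨t, ht⟩ := h3
  have hHpos : (0 : ℤ) < Nat.card H := by exact_mod_cast Nat.card_pos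
  have h4 : (f * m' : ℤ) = m * D - Nat.card G * t := by
    have hD' : (D : ℤ) * Nat.card H = d * Nat.card G := by exact_mod_cast hD
    have he' : (e : ℤ) * Nat.card G = f * Nat.card H := by exact_mod_cast hefg
    apply mul_right_cancel₀ hHpos.ne'
    linear_combination (-(m' : ℤ)) * he' - m * hD' - (Nat.card G : ℤ) * ht
  simp only [toMul_ofMul]
  rw [← ofMul_pow, map_zpow, ← hf, ← zpow_natCast, ← zpow_mul, ← zpow_natCast, ← zpow_mul, h4,
    zpow_sub, zpow_mul _ (Nat.card G : ℤ), zpow_natCast, pow_card_eq_one', one_zpow, inv_one, mul_one]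

/-- The symbol does not depend on the generator. -/
theorem symbHom_eq (hγ : IsFundClass A γ) {g g' : G} (hg : ∀ x : G, x ∈ Subgroup.zpowers g)
    (hg' : ∀ x : G, x ∈ Subgroup.zpowers g') : symbHom hγ hg' = symbHom hγ hg := by
  refine AddMonoidHom.ext fun a => ?_
  have h := map_symbHom hγ hγ (MonoidHom.id G) (𝟙 A : Rep.res (MonoidHom.id G) A ⟶ A) hg hg'
    (d := 1) (D := 1) rfl (by rw [groupCohomology.map_id, one_nsmul]; rfl) a a rfl
  rw [one_nsmul] at h
  exact h

/-- The symbol is onto `G`. -/
theorem symbHom_surjective (hγ : IsFundClass A γ) {g : G}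
    (hg : ∀ x : G, x ∈ Subgroup.zpowers g) : Function.Surjective (symbHom hγ hg) := by
  have := Fintype.ofFinite G
  intro x
  obtain ⟨z, hz⟩ := powHom_surjective g (pow_card_eq_one' (x := g)) hg x
  obtain ⟨a, ha⟩ := stdClassHom_surjective (A := A) hg (hγ.inv.symm z)
  exact ⟨a, by rw [symbHom_apply, ha, AddEquiv.apply_symm_apply, hz]⟩

end Functoriality

/-! ## The canonical symbol of a cyclic group -/

section Canonical

variable {k : Type} [CommRing k] {G H : Type} [Group G] [Finite G] [IsCyclic G]
  [Group H] [Finite H] [IsCyclic H]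
  {A : Rep.{0} k G} {γ : H2 A} {B : Rep.{0} k H} {γH : H2 B}

/-- A chosen generator of a cyclic group. -/
noncomputable def genOf (G : Type) [Group G] [IsCyclic G] : G :=
  Classical.choose (IsCyclic.exists_generator (α := G))

lemma genOf_spec (G : Type) [Group G] [IsCyclic G] : ∀ x : G, x ∈ Subgroup.zpowers (genOf G) :=
  Classical.choose_spec (IsCyclic.exists_generator (α := G))

/-- **The norm residue symbol** `A^G → G` of a finite cyclic group `G` acting on `A` with
fundamental class `γ` (written additively on `G`). -/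
noncomputable def symb (hγ : IsFundClass A γ) : A.ρ.invariants →+ Additive G :=
  symbHom hγ (genOf_spec G)

theorem symb_eq_symbHom (hγ : IsFundClass A γ) {g : G} (hg : ∀ x : G, x ∈ Subgroup.zpowers g) :
    symb hγ = symbHom hγ hg :=
  symbHom_eq hγ hg (genOf_spec G)

/-- Characterisation of the symbol: for ANY generator `g`, if `[std g a] = a ∪ δχ_g = m • γ`
then `symb a = g ^ m`. -/
theorem symb_spec (hγ : IsFundClass A γ) {g : G} (hg : ∀ x : G, x ∈ Subgroup.zpowers g)
    (a : A.ρ.invariants) (m : ℤ) (h : H2π A (H19.stdCocycle hg (invariants_apply a)) = m • γ) :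
    symb hγ a = Additive.ofMul (g ^ m) := by
  rw [symb_eq_symbHom hγ hg]
  exact symbHom_spec hγ hg a m h

/-- The kernel of the symbol is the group of norms. -/
theorem symb_eq_zero_iff [Fintype G] (hγ : IsFundClass A γ) (a : A.ρ.invariants) :
    symb hγ a = 0 ↔ ∃ y : A, (a : A) = A.ρ.norm y := by
  rw [symb, symbHom_eq_zero_iff]
  constructor
  · rintro ⟨y, hy⟩
    exact ⟨y, by rw [hy, H19.pnorm_orderOf_eq_norm (genOf_spec G)]⟩
  · rintro ⟨y, hy⟩
    exact ⟨y, by rw [hy, H19.pnorm_orderOf_eq_norm (genOf_spec G)]⟩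

theorem symb_surjective (hγ : IsFundClass A γ) : Function.Surjective (symb hγ) :=
  symbHom_surjective hγ (genOf_spec G)

/-- **Functoriality of the symbol**, see `map_symbHom`. -/
theorem map_symb (hγ : IsFundClass A γ) (hγH : IsFundClass B γH)
    (ι : H →* G) (φ : Rep.res ι A ⟶ B) {d D : ℕ} (hD : D * Nat.card H = d * Nat.card G)
    (hmap : groupCohomology.map ι φ 2 γ = d • γH)
    (a : A.ρ.invariants) (b : B.ρ.invariants) (hab : (b : B) = φ.hom (a : A)) :
    Additive.ofMul (ι (Additive.toMul (symb hγH b))) = D • symb hγ a :=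
  map_symbHom hγ hγH ι φ (genOf_spec G) (genOf_spec H) hD hmap a b hab

end Canonical

/-! ## Multiplicative wrappers (`Rep.ofMulDistribMulAction`, e.g. `Rep.ofAlgebraAutOnUnits`) -/

section Mul

variable {G : Type} [Group G] [Finite G] [IsCyclic G] {M : Type} [CommGroup M]
  [MulDistribMulAction G M] {γ : H2 (Rep.ofMulDistribMulAction G M)}

/-- A fixed element of `M` as an invariant of `Rep.ofMulDistribMulAction G M`. -/
def fixedToInv (m : M) (hm : ∀ x : G, x • m = m) :
    (Rep.ofMulDistribMulAction G M).ρ.invariants :=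
  ⟨H19.toRep G m, (Representation.mem_invariants _ _).2 (H19.toRep_invariant hm)⟩

lemma fixedToInv_mul (m m' : M) (hm : ∀ x : G, x • m = m) (hm' : ∀ x : G, x • m' = m') :
    fixedToInv (m * m') (fun x => by rw [smul_mul', hm, hm']) =
      fixedToInv m hm + fixedToInv m' hm' := rfl

/-- The norm residue symbol `M^G → G` (multiplicative form). -/
noncomputable def symbMul (hγ : IsFundClass (Rep.ofMulDistribMulAction G M) γ) (m : M)
    (hm : ∀ x : G, x • m = m) : G :=
  Additive.toMul (symb hγ (fixedToInv m hm))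

theorem symbMul_mul (hγ : IsFundClass (Rep.ofMulDistribMulAction G M) γ) (m m' : M)
    (hm : ∀ x : G, x • m = m) (hm' : ∀ x : G, x • m' = m') :
    symbMul hγ (m * m') (fun x => by rw [smul_mul', hm, hm']) =
      symbMul hγ m hm * symbMul hγ m' hm' := by
  rw [symbMul, fixedToInv_mul m m' hm hm', map_add]
  rfl

theorem symbMul_one (hγ : IsFundClass (Rep.ofMulDistribMulAction G M) γ) :
    symbMul hγ (1 : M) (fun x => smul_one x) = 1 := by
  have h : fixedToInv (1 : M) (fun x : G => smul_one x) = 0 := rfl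
  rw [symbMul, h, map_zero]
  rfl

/-- The kernel of the symbol is the group of norms `∏ x : G, x • y`. -/
theorem symbMul_eq_one_iff [Fintype G] (hγ : IsFundClass (Rep.ofMulDistribMulAction G M) γ)
    (m : M) (hm : ∀ x : G, x • m = m) :
    symbMul hγ m hm = 1 ↔ ∃ y : M, m = ∏ x : G, x • y := by
  have h1 : symbMul hγ m hm = 1 ↔ symb hγ (fixedToInv m hm) = 0 := Iff.rfl
  rw [h1, symb, symbHom_eq_zero_iff]
  constructor
  · rintro ⟨y, hy⟩
    refine ⟨H19.ofRep y, ?_⟩
    rw [← H19.prod_range_orderOf_smul (genOf_spec G), ← H19.ofRep_pnorm, ← hy]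
    rfl
  · rintro ⟨y, hy⟩
    refine ⟨H19.toRep G y, ?_⟩
    rw [H19.pnorm_toRep, H19.prod_range_orderOf_smul (genOf_spec G), ← hy]
    rfl

theorem symbMul_surjective (hγ : IsFundClass (Rep.ofMulDistribMulAction G M) γ) (x : G) :
    ∃ (m : M) (hm : ∀ x : G, x • m = m), symbMul hγ m hm = x := by
  obtain ⟨a, ha⟩ := symb_surjective hγ (Additive.ofMul x)
  have hfix : ∀ y : G, y • H19.ofRep (a : Rep.ofMulDistribMulAction G M) =
      H19.ofRep (a : Rep.ofMulDistribMulAction G M) := by
    intro y
    have := invariants_apply a y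
    rw [← H19.ofRep_rho, this]
  refine ⟨H19.ofRep (a : Rep.ofMulDistribMulAction G M), hfix, ?_⟩
  have : fixedToInv (H19.ofRep (a : Rep.ofMulDistribMulAction G M)) hfix = a := Subtype.ext rfl
  rw [symbMul, this, ha]
  rfl

/-- Characterisation of the symbol: for ANY generator `g`, if the class of the multiplicative
standard cocycle `(g^i, g^j) ↦ m ^ [i + j ≥ n]` is `j • γ` then `symbMul m = g ^ j`. -/
theorem symbMul_spec (hγ : IsFundClass (Rep.ofMulDistribMulAction G M) γ) {g : G}
    (hg : ∀ x : G, x ∈ Subgroup.zpowers g) (m : M) (hm : ∀ x : G, x • m = m) (j : ℤ)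
    (h : H2π (Rep.ofMulDistribMulAction G M) (H19.stdMulCocycle hg hm) = j • γ) :
    symbMul hγ m hm = g ^ j := by
  have := symb_spec hγ hg (fixedToInv m hm) j h
  rw [symbMul, this]
  rfl

end Mul

section MulFunctoriality

variable {G H : Type} [Group G] [Finite G] [IsCyclic G] [Group H] [Finite H] [IsCyclic H]
  {M N : Type} [CommGroup M] [MulDistribMulAction G M] [CommGroup N] [MulDistribMulAction H N]
  {γ : H2 (Rep.ofMulDistribMulAction G M)} {γH : H2 (Rep.ofMulDistribMulAction H N)}

/-- **Functoriality of the multiplicative symbol**, see `map_symbHom`. -/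
theorem map_symbMul (hγ : IsFundClass (Rep.ofMulDistribMulAction G M) γ)
    (hγH : IsFundClass (Rep.ofMulDistribMulAction H N) γH)
    (ι : H →* G) (φ : Rep.res ι (Rep.ofMulDistribMulAction G M) ⟶ Rep.ofMulDistribMulAction H N)
    {d D : ℕ} (hD : D * Nat.card H = d * Nat.card G)
    (hmap : groupCohomology.map ι φ 2 γ = d • γH)
    (m : M) (hm : ∀ x : G, x • m = m) (n : N) (hn : ∀ x : H, x • n = n)
    (hmn : H19.toRep H n = φ.hom (H19.toRep (M := M) G m)) :
    ι (symbMul hγH n hn) = symbMul hγ m hm ^ D := by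
  have := map_symb hγ hγH ι φ hD hmap (fixedToInv m hm) (fixedToInv n hn) hmn
  exact this

end MulFunctoriality

end Fermat.Agent.CFT.H4
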