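/-
CFT project, layer C (helper4): the norm residue symbol of a class formation on a normal level
with cyclic quotient.

* `isFundClass_of_isClassModule` : helper91's `IsClassModule` gives `H4.IsFundClass`.
* `ClassFormation.symbU` : the symbol `C^Γ → Γ/U` (written additively) of a normal level `U` with
  cyclic quotient; it is onto, its kernel consists of the norms from `C^U`, and it is compatible
  with the projections `Γ/V → Γ/U` for `V ≤ U`.
-/
import Mathlib
import Fermat.Agent.CFT.H4_CyclicSymbol
import Fermat.Agent.CFT.H43_Maps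

set_option autoImplicit false

open groupCohomology CategoryTheory

namespace Fermat.Agent.CFT.H4

/-! ## From class modules to fundamental classes -/

section ClassModule

variable {k : Type} [CommRing k] {G : Type} [Group G]

/-- the identity of `A`, seen as a map `res (top ≃ G) (res top.subtype A) ⟶ A`. -/
noncomputable def topHom (A : Rep.{0} k G) :
    Rep.res ((Subgroup.topEquiv (G := G)).symm : G →* (⊤ : Subgroup G))
      (Rep.res (⊤ : Subgroup G).subtype A) ⟶ A :=
  Rep.ofHom ⟨LinearMap.id, fun _ => rfl⟩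

lemma resSub_top_comp (A : Rep.{0} k G) (n : ℕ) :
    resSub A ⊤ n ≫ groupCohomology.map
      ((Subgroup.topEquiv (G := G)).symm : G →* (⊤ : Subgroup G)) (topHom A) n = 𝟙 _ := by
  unfold resSub
  rw [← groupCohomology.map_comp]
  rw [← groupCohomology.map_id]
  exact groupCohomology.map_congr rfl rfl n

theorem isFundClass_of_isClassModule {A : Rep.{0} k G} {γ : H2 A} (h : IsClassModule A γ) :
    IsFundClass A γ := by
  have hinj : Function.Injective (resSub A ⊤ 2).hom := by
    intro x y hxy
    have hx := congrArg (fun f => f.hom x) (resSub_top_comp A 2)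
    have hy := congrArg (fun f => f.hom y) (resSub_top_comp A 2)
    simp only [ModuleCat.hom_comp, LinearMap.comp_apply, ModuleCat.hom_id, LinearMap.id_apply]
      at hx hy
    rw [← hx, ← hy, hxy]
  refine ⟨fun x => ?_, ?_⟩
  · obtain ⟨m, hm⟩ := h.h2_gen ⊤ ((resSub A ⊤ 2).hom x)
    refine ⟨m, hinj ?_⟩
    rw [hm, map_zsmul]
  · have h1 := h.h2_order ⊤
    rw [Nat.card_congr (Subgroup.topEquiv (G := G)).toEquiv] at h1
    rw [← h1]
    exact (addOrderOf_injective (resSub A ⊤ 2).hom.toAddMonoidHom hinj γ).symm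

end ClassModule

/-! ## The symbol of a normal level with cyclic quotient -/

section Formation

variable {k : Type} [CommRing k] {Γ : Type} [Group Γ] {𝓛 : LevelStructure Γ} {C : Rep.{0} k Γ}

/-- an element of `C` fixed by all of `Γ`, as an invariant of `Γ/U` acting on `C^U`. -/
def fixedInv (C : Rep.{0} k Γ) (U : Subgroup Γ) [U.Normal] :
    C.ρ.invariants →+ (C.quotientToInvariants U).ρ.invariants where
  toFun a := ⟨⟨(a : C), fun u => a.2 u⟩, fun g => by
    induction g using QuotientGroup.induction_on with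
    | H g => exact Subtype.ext (a.2 g)⟩
  map_zero' := rfl
  map_add' _ _ := rfl

@[simp] lemma fixedInv_coe (U : Subgroup Γ) [U.Normal] (a : C.ρ.invariants) :
    (((fixedInv C U a : (C.quotientToInvariants U).ρ.invariants) :
      (C.quotientToInvariants U)) : C) = (a : C) := rfl

variable (F : ClassFormation 𝓛 C)

/-- The norm residue symbol `C^Γ → Γ/U` (written additively) attached to a normal level `U`
with cyclic quotient. -/
noncomputable def symbU (U : Subgroup Γ) (hU : U ∈ 𝓛.levels) [U.Normal]
    [Finite (Γ ⧸ U)] [IsCyclic (Γ ⧸ U)] : C.ρ.invariants →+ Additive (Γ ⧸ U) :=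
  (symb (isFundClass_of_isClassModule (F.isClass U hU))).comp (fixedInv C U)

/-- every `Γ/U`-invariant of `C^U` comes from a `Γ`-invariant of `C`. -/
lemma fixedInv_surjective (U : Subgroup Γ) [U.Normal]
    (b : (C.quotientToInvariants U).ρ.invariants) : ∃ a : C.ρ.invariants, fixedInv C U a = b := by
  refine ⟨⟨((b : (C.quotientToInvariants U)) : C), fun g => ?_⟩, ?_⟩
  · have := b.2 (QuotientGroup.mk g)
    exact congrArg Subtype.val this
  · exact Subtype.ext (Subtype.ext rfl)

/-- the symbol is onto. -/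
theorem symbU_surjective (U : Subgroup Γ) (hU : U ∈ 𝓛.levels) [U.Normal]
    [Finite (Γ ⧸ U)] [IsCyclic (Γ ⧸ U)] : Function.Surjective (symbU F U hU) := by
  intro x
  obtain ⟨b, hb⟩ := symb_surjective (isFundClass_of_isClassModule (F.isClass U hU)) x
  obtain ⟨a, rfl⟩ := fixedInv_surjective U b
  exact ⟨a, hb⟩

/-- the kernel of the symbol: norms from `C^U`. -/
theorem symbU_eq_zero_iff (U : Subgroup Γ) (hU : U ∈ 𝓛.levels) [U.Normal]
    [Fintype (Γ ⧸ U)] [IsCyclic (Γ ⧸ U)] (a : C.ρ.invariants) :
    symbU F U hU a = 0 ↔ ∃ y : C, (∀ u ∈ U, C.ρ u y = y) ∧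
      (a : C) = ∑ g : Γ ⧸ U, C.ρ g.out y := by
  unfold symbU
  rw [AddMonoidHom.comp_apply, symb_eq_zero_iff]
  constructor
  · rintro ⟨y, hy⟩
    refine ⟨(y : C), fun u hu => y.2 ⟨u, hu⟩, ?_⟩
    have h1 : (a : C) =
        (((C.quotientToInvariants U).ρ.norm y : (C.quotientToInvariants U)) : C) :=
      congrArg (fun z : (C.quotientToInvariants U) => (z : C)) hy
    rw [h1, Representation.norm, LinearMap.sum_apply]
    simp only [AddSubmonoidClass.coe_finsetSum]
    refine Finset.sum_congr rfl fun g _ => ?_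
    conv_lhs => rw [← QuotientGroup.out_eq' g]
    rfl
  · rintro ⟨y, hyU, hy⟩
    refine ⟨⟨y, fun u => hyU u.1 u.2⟩, ?_⟩
    apply Subtype.ext
    rw [fixedInv_coe, hy, Representation.norm, LinearMap.sum_apply]
    simp only [AddSubmonoidClass.coe_finsetSum]
    refine Finset.sum_congr rfl fun g _ => ?_
    conv_rhs => rw [← QuotientGroup.out_eq' g]
    rfl

/-- compatibility of the symbols of two levels `V ≤ U`. -/
theorem map_symbU (U V : Subgroup Γ) (hU : U ∈ 𝓛.levels) (hV : V ∈ 𝓛.levels) [U.Normal]
    [V.Normal] [Finite (Γ ⧸ U)] [IsCyclic (Γ ⧸ U)] [Finite (Γ ⧸ V)] [IsCyclic (Γ ⧸ V)]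
    (h : V ≤ U) (a : C.ρ.invariants) :
    QuotientGroup.map V U (MonoidHom.id Γ) h (Additive.toMul (symbU F V hV a)) =
      Additive.toMul (symbU F U hU a) := by
  have hD : 1 * Nat.card (Γ ⧸ V) = V.relIndex U * Nat.card (Γ ⧸ U) := by
    rw [one_mul, ← Subgroup.index_eq_card, ← Subgroup.index_eq_card,
      Subgroup.relIndex_mul_index h]
  have key := map_symb (isFundClass_of_isClassModule (F.isClass U hU))
    (isFundClass_of_isClassModule (F.isClass V hV))
    (QuotientGroup.map V U (MonoidHom.id Γ) h) (invIncl C U V h) hD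
    (F.inf_fund U V hU hV h) (fixedInv C U a) (fixedInv C V a) rfl
  rw [one_nsmul] at key
  exact congrArg Additive.toMul key

end Formation

end Fermat.Agent.CFT.H4
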