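/-
CFT layer C, package C-ARTIN (helper4), part 2: the symbol of a cyclic group `G` acting on a
module `M` (e.g. `M = (F' ⊗[ℚ] ℚ_q)ˣ`, `G = Gal(F'/F)`) computed at one "place": a subgroup
`D ≤ G` (decomposition group), a `D`-module `N` (e.g. `N = ((F' ⊗ ℚ_q)/m)ˣ`), a `D`-equivariant
projection `π : M →* N` and a fundamental class `γ` of `(D, N)`.

`locSymb hγ π hπ x hx ∈ G` for `x ∈ M^G`.  It is multiplicative, kills Galois norms
`∏ g : G, g • y`, and is functorial.
-/
import Mathlib
import Fermat.Agent.CFT.H4_CyclicSymbol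

set_option autoImplicit false
set_option linter.unusedSectionVars false

open groupCohomology CategoryTheory

namespace Fermat.Agent.CFT.H4

/-! ## A product over a group is a norm from a subgroup -/

section NormSub

variable {G : Type*} [Group G] [Fintype G] (D : Subgroup G) [Fintype D]
  {N : Type*} [CommGroup N] [MulDistribMulAction D N]

/-- If `f (d * g) = d • f g` for `d ∈ D`, then `∏ g, f g` is a `D`-norm. -/
theorem exists_prod_eq_prod_smul (f : G → N) (hf : ∀ (d : D) (g : G), f (d * g) = d • f g) :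
    ∃ z : N, ∏ g : G, f g = ∏ d : D, d • z := by
  classical
  obtain ⟨T, hT, -⟩ := Subgroup.exists_isComplement_right D (1 : G)
  have : Fintype T := Fintype.ofFinite T
  refine ⟨∏ t : T, f t, ?_⟩
  have hbij : Function.Bijective fun x : D × T => (x.1 : G) * (x.2 : G) := hT
  rw [← Fintype.prod_bijective _ hbij (fun x => f ((x.1 : G) * (x.2 : G))) f (fun _ => rfl),
    Fintype.prod_prod_type]
  refine Finset.prod_congr rfl fun d _ => ?_
  rw [Finset.smul_prod']
  exact Finset.prod_congr rfl fun t _ => hf d t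

end NormSub

/-! ## The local symbol at one place -/

section LocSymb

variable {G : Type} [Group G] [Finite G] [IsCyclic G]
  {M : Type} [CommGroup M] [MulDistribMulAction G M]
  {D : Subgroup G} {N : Type} [CommGroup N] [MulDistribMulAction D N]
  {γ : H2 (Rep.ofMulDistribMulAction D N)}

theorem symbMul_congr {G : Type} [Group G] [Finite G] [IsCyclic G] {M : Type} [CommGroup M]
    [MulDistribMulAction G M] {γ : H2 (Rep.ofMulDistribMulAction G M)}
    (hγ : IsFundClass (Rep.ofMulDistribMulAction G M) γ) {m m' : M} (h : m = m')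
    (hm : ∀ x : G, x • m = m) (hm' : ∀ x : G, x • m' = m') :
    symbMul hγ m hm = symbMul hγ m' hm' := by
  subst h
  rfl

/-- The symbol of `x ∈ M^G` at the place `(D, N, π)`, with values in `D ≤ G`. -/
noncomputable def locSymb (hγ : IsFundClass (Rep.ofMulDistribMulAction D N) γ) (π : M →* N)
    (hπ : ∀ (d : D) (m : M), π ((d : G) • m) = d • π m) (x : M) (hx : ∀ g : G, g • x = x) : G :=
  (symbMul hγ (π x) (fun d => by rw [← hπ, hx]) : D)

theorem locSymb_mem (hγ : IsFundClass (Rep.ofMulDistribMulAction D N) γ) (π : M →* N)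
    (hπ : ∀ (d : D) (m : M), π ((d : G) • m) = d • π m) (x : M) (hx : ∀ g : G, g • x = x) :
    locSymb hγ π hπ x hx ∈ D :=
  SetLike.coe_mem _

theorem locSymb_mul (hγ : IsFundClass (Rep.ofMulDistribMulAction D N) γ) (π : M →* N)
    (hπ : ∀ (d : D) (m : M), π ((d : G) • m) = d • π m) (x y : M) (hx : ∀ g : G, g • x = x)
    (hy : ∀ g : G, g • y = y) :
    locSymb hγ π hπ (x * y) (fun g => by rw [smul_mul', hx, hy]) =
      locSymb hγ π hπ x hx * locSymb hγ π hπ y hy := by
  unfold locSymb
  rw [← Subgroup.coe_mul, ← symbMul_mul]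
  exact congrArg _ (symbMul_congr hγ (map_mul π x y) _ _)

theorem locSymb_one (hγ : IsFundClass (Rep.ofMulDistribMulAction D N) γ) (π : M →* N)
    (hπ : ∀ (d : D) (m : M), π ((d : G) • m) = d • π m) :
    locSymb hγ π hπ 1 (fun g => smul_one g) = 1 := by
  unfold locSymb
  have h := symbMul_congr hγ (map_one π) (fun d => by rw [← hπ, smul_one])
    (fun x => smul_one x)
  rw [h, symbMul_one]
  rfl

/-- The local symbol kills Galois norms. -/
theorem locSymb_norm [Fintype G] (hγ : IsFundClass (Rep.ofMulDistribMulAction D N) γ)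
    (π : M →* N) (hπ : ∀ (d : D) (m : M), π ((d : G) • m) = d • π m) (y : M) :
    locSymb hγ π hπ (∏ g : G, g • y) (fun g => by
      rw [Finset.smul_prod']
      exact Fintype.prod_equiv (Equiv.mulLeft g) _ _ (fun h => by simp [mul_smul])) = 1 := by
  classical
  have : Fintype D := Fintype.ofFinite D
  unfold locSymb
  rw [← Subgroup.coe_one, Subtype.coe_inj, symbMul_eq_one_iff]
  rw [map_prod]
  exact exists_prod_eq_prod_smul D (fun g => π (g • y)) (fun d g => by rw [mul_smul, hπ])

end LocSymb

/-! ## Functoriality -/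

section RepHom

variable {G H : Type} [Group G] [Group H] {M N : Type} [CommGroup M] [MulDistribMulAction G M]
  [CommGroup N] [MulDistribMulAction H N]

/-- The morphism of representations attached to a multiplicative map `ψ : M →* N` which is
equivariant along `ι : H →* G`. -/
def repHomOfEquivariant (ι : H →* G) (ψ : M →* N) (hψ : ∀ (h : H) (m : M), ψ (ι h • m) = h • ψ m) :
    Rep.res ι (Rep.ofMulDistribMulAction G M) ⟶ Rep.ofMulDistribMulAction H N :=
  Rep.ofHom ⟨(MonoidHom.toAdditive ψ).toIntLinearMap, fun h => by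
    ext x
    exact hψ h (Additive.toMul x)⟩

theorem repHomOfEquivariant_toRep (ι : H →* G) (ψ : M →* N)
    (hψ : ∀ (h : H) (m : M), ψ (ι h • m) = h • ψ m) (m : M) :
    (repHomOfEquivariant ι ψ hψ).hom (H19.toRep (M := M) G m) = H19.toRep H (ψ m) := rfl

end RepHom

section LocFunct

variable {G G' : Type} [Group G] [Finite G] [IsCyclic G] [Group G'] [Finite G'] [IsCyclic G']
  {M M' : Type} [CommGroup M] [MulDistribMulAction G M] [CommGroup M'] [MulDistribMulAction G' M']
  {D : Subgroup G} {N : Type} [CommGroup N] [MulDistribMulAction D N]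
  {D' : Subgroup G'} {N' : Type} [CommGroup N'] [MulDistribMulAction D' N']
  {γ : H2 (Rep.ofMulDistribMulAction D N)} {γ' : H2 (Rep.ofMulDistribMulAction D' N')}

/-- **Functoriality of the local symbol.**  `(G', M', D', N', π')` lies over `(G, M, D, N, π)`
via `ι : G' →* G` (mapping `D'` into `D`), `φ : M →* M'`, `ψ : N →* N'` (equivariant, commuting
with the projections).  If `(ι, ψ)^* γ = d • γ'` and `D_ * |D'| = d * |D|` then
`ι (locSymb' (φ x)) = locSymb x ^ D_`. -/
theorem map_locSymb (hγ : IsFundClass (Rep.ofMulDistribMulAction D N) γ)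
    (hγ' : IsFundClass (Rep.ofMulDistribMulAction D' N') γ')
    (π : M →* N) (hπ : ∀ (d : D) (m : M), π ((d : G) • m) = d • π m)
    (π' : M' →* N') (hπ' : ∀ (d : D') (m : M'), π' ((d : G') • m) = d • π' m)
    (ι : G' →* G) (hι : ∀ d' : D', ι (d' : G') ∈ D) (φ : M →* M') (ψ : N →* N')
    (hψ : ∀ (d' : D') (n : N),
      ψ (((ι.comp D'.subtype).codRestrict D hι d') • n) = d' • ψ n)
    (hsq : ∀ m : M, ψ (π m) = π' (φ m))
    {d D_ : ℕ} (hD : D_ * Nat.card D' = d * Nat.card D)
    (hmap : groupCohomology.map ((ι.comp D'.subtype).codRestrict D hι)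
      (repHomOfEquivariant _ ψ hψ) 2 γ = d • γ')
    (x : M) (hx : ∀ g : G, g • x = x) (hx' : ∀ g : G', g • φ x = φ x) :
    ι (locSymb hγ' π' hπ' (φ x) hx') = locSymb hγ π hπ x hx ^ D_ := by
  unfold locSymb
  have key := map_symbMul hγ hγ' ((ι.comp D'.subtype).codRestrict D hι)
    (repHomOfEquivariant _ ψ hψ) hD hmap (π x) (fun d => by rw [← hπ, hx]) (ψ (π x))
    (fun d' => by rw [hsq, ← hπ', hx']) (repHomOfEquivariant_toRep _ ψ hψ (π x)).symm
  have h2 := congrArg (Subtype.val : D → G) key
  rw [Subgroup.coe_pow] at h2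
  rw [← h2]
  have h3 := symbMul_congr hγ' (hsq x) (fun d' => by rw [hsq, ← hπ', hx'])
    (fun d' => by rw [← hπ', hx'])
  rw [← h3]
  rfl

end LocFunct

end Fermat.Agent.CFT.H4
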