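/-
CFT project, layer C (helper4): the local cyclotomic character of `Gal(ℚ̄_p/ℚ_p)` and the local
norm residue symbol of the cyclotomic layers `ℚ_p(ζ_{p^(k+1)})/ℚ_p`, built from the landed local
class formation `H15.localCF p`.
-/
import Mathlib
import Fermat.Agent.CFT.H4_FormationSymbol
import Fermat.Agent.CFT.H15_BMain
import Fermat.Agent.CFT.H69_Deg

set_option autoImplicit false

open IntermediateField

namespace Fermat.Agent.CFT.H4

/-! ## The local cyclotomic character -/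

section Chi

variable (p : ℕ) [hp : Fact p.Prime]

theorem card_rootsOfUnity_padic (m : ℕ) [NeZero m] :
    Nat.card (rootsOfUnity m (PadicAlgCl p)) = m :=
  IsAlgClosed.card_rootsOfUnity_eq (PadicAlgCl p) m

/-- the cyclotomic character modulo `m` of the local Galois group. -/
noncomputable def chiLoc (m : ℕ) [NeZero m] : H78.LocalGal p →* (ZMod m)ˣ :=
  MonoidHom.mk'
    (fun σ => modularCyclotomicCharacter (PadicAlgCl p) (card_rootsOfUnity_padic p m)
      (σ : PadicAlgCl p ≃+* PadicAlgCl p))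
    (fun a b => by rw [← map_mul]; congr 1)

variable {p} {m : ℕ} [NeZero m]

theorem chiLoc_spec (σ : H78.LocalGal p) {ζ : PadicAlgCl p} (hζ : ζ ^ m = 1) :
    σ ζ = ζ ^ ((chiLoc p m σ : ZMod m)).val := by
  have hu : IsUnit ζ := IsUnit.of_pow_eq_one hζ (NeZero.ne m)
  obtain ⟨t, rfl⟩ := hu
  have ht : t ∈ rootsOfUnity m (PadicAlgCl p) := by
    rw [mem_rootsOfUnity]
    exact Units.ext (by simpa using hζ)
  have h := modularCyclotomicCharacter.spec (PadicAlgCl p) (card_rootsOfUnity_padic p m)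
    (σ : PadicAlgCl p ≃+* PadicAlgCl p) ht
  simpa [chiLoc] using h

theorem chiLoc_eq_of_apply {σ : H78.LocalGal p} {ζ : PadicAlgCl p} (hζ : IsPrimitiveRoot ζ m)
    {t : ℕ} (h : σ ζ = ζ ^ t) : (chiLoc p m σ : ZMod m) = (t : ZMod m) := by
  have h1 := chiLoc_spec σ hζ.pow_eq_one
  rw [h, (hζ.isOfFinOrder (NeZero.ne _)).pow_inj_mod, ← hζ.eq_orderOf] at h1
  have h2 := (ZMod.natCast_eq_natCast_iff' _ _ _).mpr h1
  rw [ZMod.natCast_zmod_val] at h2
  exact h2.symm

theorem chiLoc_eq_one_iff {σ : H78.LocalGal p} {ζ : PadicAlgCl p} (hζ : IsPrimitiveRoot ζ m) :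
    chiLoc p m σ = 1 ↔ σ ζ = ζ := by
  constructor
  · intro h
    have h1 := chiLoc_spec σ hζ.pow_eq_one
    rw [h, Units.val_one] at h1
    rcases Nat.lt_or_ge 1 m with hm | hm
    · have : Fact (1 < m) := ⟨hm⟩
      rw [ZMod.val_one, pow_one] at h1
      exact h1
    · have hm1 : m = 1 := le_antisymm hm (Nat.pos_of_ne_zero (NeZero.ne m))
      subst hm1
      have hζ1 : ζ = 1 := by simpa using hζ.pow_eq_one
      rw [hζ1, map_one]
  · intro h
    have h1 : (chiLoc p m σ : ZMod m) = ((1 : ℕ) : ZMod m) :=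
      chiLoc_eq_of_apply hζ (by rw [pow_one]; exact h)
    rw [Nat.cast_one] at h1
    exact Units.ext h1

theorem exists_primitiveRoot_padic (p : ℕ) [Fact p.Prime] (m : ℕ) [NeZero m] :
    ∃ ζ : PadicAlgCl p, IsPrimitiveRoot ζ m := by
  have : NeZero (m : PadicAlgCl p) := ⟨Nat.cast_ne_zero.mpr (NeZero.ne m)⟩
  exact HasEnoughRootsOfUnity.exists_primitiveRoot (PadicAlgCl p) m

/-- compatibility of the characters modulo `m ∣ m'`. -/
theorem unitsMap_chiLoc {m' : ℕ} [NeZero m'] (h : m ∣ m') (σ : H78.LocalGal p) :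
    ZMod.unitsMap h (chiLoc p m' σ) = chiLoc p m σ := by
  obtain ⟨ζ, hζ⟩ := exists_primitiveRoot_padic p m
  have h1 : ζ ^ m' = 1 := by
    obtain ⟨c, rfl⟩ := h
    rw [pow_mul, hζ.pow_eq_one, one_pow]
  have h2 := chiLoc_eq_of_apply hζ (chiLoc_spec (m := m') σ h1)
  apply Units.ext
  rw [h2, ZMod.unitsMap_def, Units.coe_map, MonoidHom.coe_coe, ZMod.castHom_apply,
    ZMod.natCast_val]

end Chi

/-! ## Generalities on Galois levels -/

section GaloisLevels

variable {K Ω : Type} [Field K] [Field Ω] [Algebra K Ω]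

/-- `g` fixes `K(ζ)` iff it fixes `ζ`. -/
theorem mem_fixingSubgroup_adjoin_simple_iff' (ζ : Ω) (g : Ω ≃ₐ[K] Ω) :
    g ∈ (K⟮ζ⟯).fixingSubgroup ↔ g ζ = ζ := by
  rw [IntermediateField.mem_fixingSubgroup_iff]
  constructor
  · intro h
    exact h ζ (mem_adjoin_simple_self K ζ)
  · intro h x hx
    have hle : K⟮ζ⟯ ≤ fixedField (Subgroup.zpowers g) := by
      rw [adjoin_simple_le_iff, mem_fixedField_iff]
      intro f hf
      have h1 : Subgroup.zpowers g ≤ MulAction.stabilizer (Ω ≃ₐ[K] Ω) ζ := by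
        rw [Subgroup.zpowers_le]
        exact h
      exact h1 hf
    exact (mem_fixedField_iff _ _).1 (hle hx) g (Subgroup.mem_zpowers g)

/-- a normal subgroup containing a Galois level is a Galois level. -/
theorem mem_galoisLevels_of_le [IsGalois K Ω] {U W : Subgroup (Ω ≃ₐ[K] Ω)}
    (hU : U ∈ (H78.galoisLevels K Ω).levels) (hW : W.Normal) (hUW : U ≤ W) :
    W ∈ (H78.galoisLevels K Ω).levels := by
  obtain ⟨F, hfd, hgal, rfl⟩ := hU
  have hopen : IsOpen (W : Set (Ω ≃ₐ[K] Ω)) :=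
    Subgroup.isOpen_mono hUW (IntermediateField.fixingSubgroup_isOpen F)
  have hclosed : IsClosed (W : Set (Ω ≃ₐ[K] Ω)) := Subgroup.isClosed_of_isOpen W hopen
  have hfix : (fixedField W).fixingSubgroup = W :=
    InfiniteGalois.fixingSubgroup_fixedField ⟨W, hclosed⟩
  have h2 := (InfiniteGalois.isOpen_and_normal_iff_finite_and_isGalois (fixedField W)).1
    ⟨by rw [hfix]; exact hopen, by rw [hfix]; exact hW⟩
  exact ⟨fixedField W, h2.1, h2.2, hfix.symm⟩

end GaloisLevels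

/-! ## The cyclotomic levels of the local Galois group -/

section Layer

variable (p : ℕ) [hp : Fact p.Prime] (k : ℕ)

local instance neZeroPowSucc : NeZero (p ^ (k + 1)) := ⟨(pow_pos hp.out.pos _).ne'⟩

theorem isGalois_padicAlgCl : IsGalois ℚ_[p] (PadicAlgCl p) := by
  have h2 : IsAlgClosure ℚ_[p] (PadicAlgCl p) := ⟨inferInstance, inferInstance⟩
  exact IsAlgClosure.isGalois ℚ_[p] (PadicAlgCl p)

theorem chiLoc_surjective : Function.Surjective (chiLoc p (p ^ (k + 1))) := by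
  intro u
  obtain ⟨ξ, hξ⟩ := exists_primitiveRoot_padic p (p ^ (k + 1))
  have ha : ((u : ZMod (p ^ (k + 1))).val).Coprime p :=
    (Nat.coprime_pow_right_iff (Nat.succ_pos k) _ _).1 (ZMod.val_coe_unit_coprime u)
  obtain ⟨τ, hτ⟩ := H69.exists_algEquiv_padic_pow p k hξ ha
  refine ⟨τ, Units.ext ?_⟩
  rw [chiLoc_eq_of_apply hξ hτ, ZMod.natCast_zmod_val]

/-- the level of the cyclotomic layer `ℚ_p(ζ_{p^(k+1)})`. -/
noncomputable abbrev cycLevel : Subgroup (H78.LocalGal p) := (chiLoc p (p ^ (k + 1))).ker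

theorem cycLevel_eq_fixingSubgroup {ξ : PadicAlgCl p} (hξ : IsPrimitiveRoot ξ (p ^ (k + 1))) :
    cycLevel p k = (ℚ_[p]⟮ξ⟯).fixingSubgroup := by
  ext σ
  rw [MonoidHom.mem_ker, chiLoc_eq_one_iff hξ, mem_fixingSubgroup_adjoin_simple_iff']

theorem cycLevel_mem : cycLevel p k ∈ (H78.localLevels p).levels := by
  obtain ⟨ξ, hξ⟩ := exists_primitiveRoot_padic p (p ^ (k + 1))
  have h1 : IsCyclotomicExtension {p ^ (k + 1)} ℚ_[p] ℚ_[p]⟮ξ⟯ :=
    hξ.intermediateField_adjoin_isCyclotomicExtension ℚ_[p]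
  have h2 : FiniteDimensional ℚ_[p] ℚ_[p]⟮ξ⟯ :=
    IntermediateField.adjoin.finiteDimensional (Algebra.IsIntegral.isIntegral _)
  have h3 : IsGalois ℚ_[p] ℚ_[p]⟮ξ⟯ := IsCyclotomicExtension.isGalois {p ^ (k + 1)} ℚ_[p] _
  exact ⟨ℚ_[p]⟮ξ⟯, h2, h3, cycLevel_eq_fixingSubgroup p k hξ⟩

/-- `Gal(ℚ_p(ζ_{p^(k+1)})/ℚ_p) = (ℤ/p^(k+1))ˣ`. -/
noncomputable def cycQuotEquiv : H78.LocalGal p ⧸ cycLevel p k ≃* (ZMod (p ^ (k + 1)))ˣ :=
  QuotientGroup.quotientKerEquivOfSurjective (chiLoc p (p ^ (k + 1))) (chiLoc_surjective p k)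

@[simp] lemma cycQuotEquiv_mk (σ : H78.LocalGal p) :
    cycQuotEquiv p k (QuotientGroup.mk σ) = chiLoc p (p ^ (k + 1)) σ := rfl

theorem finite_cycQuot : Finite (H78.LocalGal p ⧸ cycLevel p k) :=
  Finite.of_equiv _ (cycQuotEquiv p k).symm.toEquiv

theorem isCyclic_cycQuot (hp2 : p ≠ 2) : IsCyclic (H78.LocalGal p ⧸ cycLevel p k) := by
  have := ZMod.isCyclic_units_of_prime_pow p hp.out hp2 (k + 1)
  exact isCyclic_of_surjective (cycQuotEquiv p k).symm (cycQuotEquiv p k).symm.surjective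

end Layer

/-! ## The local symbol -/

section Theta

/-- units of the base field as Galois invariants of the units of the top field. -/
def baseInv (K Ω : Type) [Field K] [Field Ω] [Algebra K Ω] :
    Additive Kˣ →+ (Rep.ofAlgebraAutOnUnits K Ω).ρ.invariants where
  toFun x := ⟨Additive.ofMul (Units.map (algebraMap K Ω : K →* Ω) (Additive.toMul x)), fun σ => by
    change Additive.ofMul (σ • Units.map (algebraMap K Ω : K →* Ω) (Additive.toMul x)) = _
    congr 1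
    apply Units.ext
    change σ (algebraMap K Ω _) = algebraMap K Ω _
    exact σ.commutes _⟩
  map_zero' := by
    apply Subtype.ext
    change Additive.ofMul (Units.map (algebraMap K Ω : K →* Ω) 1) = 0
    rw [map_one]; rfl
  map_add' x y := by
    apply Subtype.ext
    change Additive.ofMul (Units.map (algebraMap K Ω : K →* Ω)
      (Additive.toMul x * Additive.toMul y)) = _
    rw [map_mul]; rfl

lemma baseInv_coe (K Ω : Type) [Field K] [Field Ω] [Algebra K Ω] (x : Additive Kˣ) :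
    ((baseInv K Ω x : (Rep.ofAlgebraAutOnUnits K Ω).ρ.invariants) :
      Rep.ofAlgebraAutOnUnits K Ω) =
      Additive.ofMul (Units.map (algebraMap K Ω : K →* Ω) (Additive.toMul x)) := rfl

/-- every Galois invariant unit comes from the base field. -/
lemma baseInv_surjective (K Ω : Type) [Field K] [Field Ω] [Algebra K Ω] [IsGalois K Ω] :
    Function.Surjective (baseInv K Ω) := by
  intro a
  have h1 : ∀ σ : Ω ≃ₐ[K] Ω, σ ((Additive.toMul (a : Rep.ofAlgebraAutOnUnits K Ω) : Ωˣ) : Ω) =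
      ((Additive.toMul (a : Rep.ofAlgebraAutOnUnits K Ω) : Ωˣ) : Ω) := by
    intro σ
    have h2 := a.2 σ
    exact congrArg (fun z : Additive Ωˣ => ((Additive.toMul z : Ωˣ) : Ω)) h2
  obtain ⟨x, hx⟩ := (InfiniteGalois.mem_range_algebraMap_iff_fixed _).2 h1
  have hx0 : x ≠ 0 := by
    rintro rfl
    rw [map_zero] at hx
    exact (Additive.toMul (a : Rep.ofAlgebraAutOnUnits K Ω) : Ωˣ).ne_zero hx.symm
  refine ⟨Additive.ofMul (Units.mk0 x hx0), Subtype.ext ?_⟩
  rw [baseInv_coe]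
  change Additive.ofMul _ = Additive.ofMul (Additive.toMul (a : Rep.ofAlgebraAutOnUnits K Ω))
  congr 1
  exact Units.ext hx

variable (p : ℕ) [hp : Fact p.Prime] (hp2 : p ≠ 2) (k : ℕ)

local instance neZeroPowSucc' : NeZero (p ^ (k + 1)) := ⟨(pow_pos hp.out.pos _).ne'⟩

/-- the additive form of `thetaLoc`. -/
noncomputable def thetaLocAdd : Additive ℚ_[p]ˣ →+ Additive (ZMod (p ^ (k + 1)))ˣ :=
  haveI := finite_cycQuot p k
  haveI := isCyclic_cycQuot p k hp2
  (MonoidHom.toAdditive (cycQuotEquiv p k).toMonoidHom).comp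
    ((symbU (H15.localCF p) (cycLevel p k) (cycLevel_mem p k)).comp
      (baseInv ℚ_[p] (PadicAlgCl p)))

/-- **The local norm residue symbol of `ℚ_p(ζ_{p^(k+1)})/ℚ_p`**, read through the cyclotomic
character: `ℚ_pˣ → (ℤ/p^(k+1))ˣ`. -/
noncomputable def thetaLoc : ℚ_[p]ˣ →* (ZMod (p ^ (k + 1)))ˣ :=
  MonoidHom.toAdditive.symm (thetaLocAdd p hp2 k)

lemma thetaLoc_apply (x : ℚ_[p]ˣ) :
    thetaLoc p hp2 k x = Additive.toMul (thetaLocAdd p hp2 k (Additive.ofMul x)) := rfl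

/-- (T1) the local symbol is onto. -/
theorem thetaLoc_surjective : Function.Surjective (thetaLoc p hp2 k) := by
  haveI := finite_cycQuot p k
  haveI := isCyclic_cycQuot p k hp2
  haveI := isGalois_padicAlgCl p
  intro u
  obtain ⟨a, ha⟩ := symbU_surjective (H15.localCF p) (cycLevel p k) (cycLevel_mem p k)
    (Additive.ofMul ((cycQuotEquiv p k).symm u))
  obtain ⟨x, rfl⟩ := baseInv_surjective ℚ_[p] (PadicAlgCl p) a
  refine ⟨Additive.toMul x, ?_⟩
  rw [thetaLoc_apply]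
  unfold thetaLocAdd
  simp only [AddMonoidHom.comp_apply, ofMul_toMul]
  rw [ha]
  simp

/-- the class in `Γ/U_k` of the symbol. -/
lemma exists_mk_eq_symbU (x : ℚ_[p]ˣ) :
    haveI := finite_cycQuot p k
    haveI := isCyclic_cycQuot p k hp2
    ∃ σ₀ : H78.LocalGal p, Additive.toMul (symbU (H15.localCF p) (cycLevel p k) (cycLevel_mem p k)
      (baseInv ℚ_[p] (PadicAlgCl p) (Additive.ofMul x))) = QuotientGroup.mk σ₀ ∧
      thetaLoc p hp2 k x = chiLoc p (p ^ (k + 1)) σ₀ := by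
  haveI := finite_cycQuot p k
  haveI := isCyclic_cycQuot p k hp2
  obtain ⟨σ₀, hσ₀⟩ := QuotientGroup.mk_surjective (Additive.toMul (symbU (H15.localCF p)
    (cycLevel p k) (cycLevel_mem p k) (baseInv ℚ_[p] (PadicAlgCl p) (Additive.ofMul x))))
  refine ⟨σ₀, hσ₀.symm, ?_⟩
  rw [thetaLoc_apply]
  unfold thetaLocAdd
  simp only [AddMonoidHom.comp_apply]
  change cycQuotEquiv p k (Additive.toMul _) = _
  rw [← hσ₀]
  rfl

/-- (T5) **norm criterion for intermediate levels**: for a normal subgroup `W` containing the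
level of `ℚ_p(ζ_{p^(k+1)})`, `x ∈ ℚ_pˣ` is a norm from the fixed field of `W` iff the symbol
`thetaLoc x` is the cyclotomic character of an element of `W`. -/
theorem exists_chiLoc_eq_thetaLoc_iff (W : Subgroup (H78.LocalGal p)) [hWn : W.Normal]
    [Fintype (H78.LocalGal p ⧸ W)] (hW : cycLevel p k ≤ W) (x : ℚ_[p]ˣ) :
    (∃ σ ∈ W, chiLoc p (p ^ (k + 1)) σ = thetaLoc p hp2 k x) ↔
      ∃ y : (PadicAlgCl p)ˣ, (∀ σ ∈ W, σ • y = y) ∧
        Units.map (algebraMap ℚ_[p] (PadicAlgCl p) : ℚ_[p] →* PadicAlgCl p) x =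
          ∏ g : H78.LocalGal p ⧸ W, g.out • y := by
  haveI := finite_cycQuot p k
  haveI := isCyclic_cycQuot p k hp2
  haveI := isGalois_padicAlgCl p
  have hWlev : W ∈ (H78.localLevels p).levels :=
    mem_galoisLevels_of_le (cycLevel_mem p k) hWn hW
  have hsurj : Function.Surjective (QuotientGroup.map (cycLevel p k) W
      (MonoidHom.id (H78.LocalGal p)) hW) := by
    intro g
    obtain ⟨σ, rfl⟩ := QuotientGroup.mk_surjective g
    exact ⟨QuotientGroup.mk σ, rfl⟩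
  haveI : IsCyclic (H78.LocalGal p ⧸ W) := isCyclic_of_surjective _ hsurj
  set a := baseInv ℚ_[p] (PadicAlgCl p) (Additive.ofMul x) with ha
  have key := map_symbU (H15.localCF p) W (cycLevel p k) hWlev (cycLevel_mem p k) hW a
  obtain ⟨σ₀, hσ₀, hθ⟩ := exists_mk_eq_symbU p hp2 k x
  rw [← ha] at hσ₀
  rw [hσ₀] at key
  -- the right hand side is the vanishing of the symbol of `W`
  have hR : symbU (H15.localCF p) W hWlev a = 0 ↔
      ∃ y : (PadicAlgCl p)ˣ, (∀ σ ∈ W, σ • y = y) ∧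
        Units.map (algebraMap ℚ_[p] (PadicAlgCl p) : ℚ_[p] →* PadicAlgCl p) x =
          ∏ g : H78.LocalGal p ⧸ W, g.out • y := by
    rw [symbU_eq_zero_iff]
    constructor
    · rintro ⟨y, hyW, hy⟩
      set y' : (PadicAlgCl p)ˣ := Additive.toMul (y : Additive (PadicAlgCl p)ˣ) with hy'
      refine ⟨y', fun σ hσ => ?_, ?_⟩
      · exact congrArg (fun z : Additive (PadicAlgCl p)ˣ => Additive.toMul z) (hyW σ hσ)
      · have h1 : ((a : H78.localUnits p) : Additive (PadicAlgCl p)ˣ) =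
            Additive.ofMul (∏ g : H78.LocalGal p ⧸ W, g.out • y') := by
          rw [hy, ofMul_prod]
          rfl
        exact congrArg (fun z : Additive (PadicAlgCl p)ˣ => Additive.toMul z) h1
    · rintro ⟨y, hyW, hy⟩
      refine ⟨Additive.ofMul y, fun σ hσ => ?_, ?_⟩
      · exact congrArg Additive.ofMul (hyW σ hσ)
      · have h1 : ((a : H78.localUnits p) : Additive (PadicAlgCl p)ˣ) =
            Additive.ofMul (∏ g : H78.LocalGal p ⧸ W, g.out • y) :=
          congrArg Additive.ofMul hy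
        refine h1.trans ?_
        rw [ofMul_prod]
        rfl
  rw [← hR]
  constructor
  · rintro ⟨σ, hσW, hσ⟩
    have h1 : σ⁻¹ * σ₀ ∈ cycLevel p k := by
      rw [MonoidHom.mem_ker, map_mul, map_inv, hσ, hθ, inv_mul_cancel]
    have h2 : σ₀ ∈ W := by
      have := W.mul_mem hσW (hW h1)
      rwa [mul_inv_cancel_left] at this
    have h3 : Additive.toMul (symbU (H15.localCF p) W hWlev a) = 1 := by
      rw [← key]
      exact (QuotientGroup.eq_one_iff σ₀).2 h2
    exact h3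
  · intro h0
    refine ⟨σ₀, ?_, hθ.symm⟩
    have h3 : (QuotientGroup.mk σ₀ : H78.LocalGal p ⧸ W) = 1 := by
      have : QuotientGroup.map (cycLevel p k) W (MonoidHom.id (H78.LocalGal p)) hW
          (QuotientGroup.mk σ₀) = 1 := by
        rw [key, h0]; rfl
      exact this
    exact (QuotientGroup.eq_one_iff σ₀).1 h3

instance finiteCycQuot : Finite (H78.LocalGal p ⧸ cycLevel p k) := finite_cycQuot p k

noncomputable instance fintypeCycQuot : Fintype (H78.LocalGal p ⧸ cycLevel p k) :=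
  Fintype.ofFinite _

/-- (T2) the kernel of the local symbol: norms from `ℚ_p(ζ_{p^(k+1)})`. -/
theorem thetaLoc_eq_one_iff (x : ℚ_[p]ˣ) :
    thetaLoc p hp2 k x = 1 ↔ ∃ y : (PadicAlgCl p)ˣ, (∀ σ ∈ cycLevel p k, σ • y = y) ∧
      Units.map (algebraMap ℚ_[p] (PadicAlgCl p) : ℚ_[p] →* PadicAlgCl p) x =
        ∏ g : H78.LocalGal p ⧸ cycLevel p k, g.out • y := by
  rw [← exists_chiLoc_eq_thetaLoc_iff p hp2 k (cycLevel p k) le_rfl x]
  constructor
  · intro h
    exact ⟨1, one_mem _, by rw [map_one, h]⟩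
  · rintro ⟨σ, hσ, h⟩
    rw [← h]
    exact hσ

theorem prod_units_one_sub_pow {Ω : Type*} [Field Ω] {n : ℕ} [NeZero n] {ξ : Ω}
    (hξ : IsPrimitiveRoot ξ n) :
    ∏ u : (ZMod n)ˣ, (1 - ξ ^ (u : ZMod n).val) = (Polynomial.cyclotomic n Ω).eval 1 := by
  rw [Polynomial.cyclotomic_eq_prod_X_sub_primitiveRoots hξ, Polynomial.eval_prod]
  simp only [Polynomial.eval_sub, Polynomial.eval_X, Polynomial.eval_C]
  refine Finset.prod_bij (fun u _ => ξ ^ (u : ZMod n).val) (fun u _ => ?_) (fun u _ v _ h => ?_)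
    (fun μ hμ => ?_) (fun u _ => rfl)
  · exact (mem_primitiveRoots (NeZero.pos n)).2
      (hξ.pow_of_coprime _ (ZMod.val_coe_unit_coprime u))
  · have h1 := hξ.pow_inj (ZMod.val_lt _) (ZMod.val_lt _) h
    exact Units.ext (ZMod.val_injective n h1)
  · have hμ' := (mem_primitiveRoots (NeZero.pos n)).1 hμ
    obtain ⟨i, hi, rfl⟩ := hξ.eq_pow_of_pow_eq_one hμ'.pow_eq_one
    have hcop : i.Coprime n := (hξ.pow_iff_coprime (NeZero.pos n) i).1 hμ'
    refine ⟨ZMod.unitOfCoprime i hcop, Finset.mem_univ _, ?_⟩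
    rw [ZMod.coe_unitOfCoprime, ZMod.val_natCast, Nat.mod_eq_of_lt hi]

/-- (T3) `p` is a norm from `ℚ_p(ζ_{p^(k+1)})`: `p = ∏ (1 - ζ^a)`. -/
theorem thetaLoc_p (x : ℚ_[p]ˣ) (hx : (x : ℚ_[p]) = p) : thetaLoc p hp2 k x = 1 := by
  rw [thetaLoc_eq_one_iff]
  obtain ⟨ξ, hξ⟩ := exists_primitiveRoot_padic p (p ^ (k + 1))
  have hone : 1 < p ^ (k + 1) := Nat.one_lt_pow (Nat.succ_ne_zero k) hp.out.one_lt
  have hξ1 : (1 : PadicAlgCl p) - ξ ≠ 0 := sub_ne_zero.2 (hξ.ne_one hone).symm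
  refine ⟨Units.mk0 (1 - ξ) hξ1, fun σ hσ => ?_, ?_⟩
  · apply Units.ext
    change σ (1 - ξ) = 1 - ξ
    rw [map_sub, map_one, (chiLoc_eq_one_iff hξ).1 hσ]
  · apply Units.ext
    rw [Units.coe_map, Units.coe_prod]
    have h1 : ∀ g : H78.LocalGal p ⧸ cycLevel p k,
        ((g.out • Units.mk0 (1 - ξ) hξ1 : (PadicAlgCl p)ˣ) : PadicAlgCl p) =
          1 - ξ ^ ((cycQuotEquiv p k g : (ZMod (p ^ (k + 1)))ˣ) : ZMod (p ^ (k + 1))).val := by
      intro g
      change g.out (1 - ξ) = _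
      rw [map_sub, map_one, chiLoc_spec g.out hξ.pow_eq_one]
      conv_rhs => rw [← QuotientGroup.out_eq' g]
      rfl
    simp_rw [h1]
    have h2 := Equiv.prod_comp (cycQuotEquiv p k).toEquiv
      (fun u : (ZMod (p ^ (k + 1)))ˣ => 1 - ξ ^ (u : ZMod (p ^ (k + 1))).val)
    simp only [MulEquiv.toEquiv_eq_coe, EquivLike.coe_coe] at h2
    rw [h2, prod_units_one_sub_pow hξ, Polynomial.eval_one_cyclotomic_prime_pow]
    simp [hx]

theorem cycLevel_anti {k m : ℕ} (hkm : k ≤ m) : cycLevel p m ≤ cycLevel p k := by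
  intro σ hσ
  rw [MonoidHom.mem_ker] at hσ ⊢
  rw [← unitsMap_chiLoc (pow_dvd_pow p (Nat.succ_le_succ hkm)) σ, hσ, map_one]

/-- (T4) compatibility of the local symbols in the cyclotomic tower. -/
theorem unitsMap_thetaLoc {k m : ℕ} (hkm : k ≤ m) (x : ℚ_[p]ˣ) :
    ZMod.unitsMap (pow_dvd_pow p (Nat.succ_le_succ hkm)) (thetaLoc p hp2 m x) =
      thetaLoc p hp2 k x := by
  haveI := isCyclic_cycQuot p k hp2
  haveI := isCyclic_cycQuot p m hp2
  obtain ⟨σ₀, hσ₀, hθ⟩ := exists_mk_eq_symbU p hp2 m x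
  have key := map_symbU (H15.localCF p) (cycLevel p k) (cycLevel p m) (cycLevel_mem p k)
    (cycLevel_mem p m) (cycLevel_anti p hkm) (baseInv ℚ_[p] (PadicAlgCl p) (Additive.ofMul x))
  rw [hσ₀] at key
  rw [hθ, unitsMap_chiLoc]
  have h1 : thetaLoc p hp2 k x = cycQuotEquiv p k (Additive.toMul (symbU (H15.localCF p)
      (cycLevel p k) (cycLevel_mem p k) (baseInv ℚ_[p] (PadicAlgCl p) (Additive.ofMul x)))) := rfl
  rw [h1, ← key]
  rfl

/-- the level of the `k`-th layer of the cyclotomic `ℤ_p`-extension of `ℚ_p`: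
`{σ | χ(σ)^(p-1) = 1}`. -/
noncomputable def zpLevel : Subgroup (H78.LocalGal p) :=
  ((powMonoidHom (p - 1) : (ZMod (p ^ (k + 1)))ˣ →* (ZMod (p ^ (k + 1)))ˣ).comp
    (chiLoc p (p ^ (k + 1)))).ker

instance zpLevel_normal : (zpLevel p k).Normal := MonoidHom.normal_ker _

lemma mem_zpLevel (σ : H78.LocalGal p) :
    σ ∈ zpLevel p k ↔ chiLoc p (p ^ (k + 1)) σ ^ (p - 1) = 1 := by
  unfold zpLevel
  rw [MonoidHom.mem_ker, MonoidHom.comp_apply, powMonoidHom_apply]

lemma cycLevel_le_zpLevel : cycLevel p k ≤ zpLevel p k := by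
  intro σ hσ
  rw [MonoidHom.mem_ker] at hσ
  rw [mem_zpLevel, hσ, one_pow]

/-- (T5') `thetaLoc x` is killed by `p - 1` iff `x` is a norm from the `k`-th layer of the
cyclotomic `ℤ_p`-extension of `ℚ_p`. -/
theorem thetaLoc_pow_eq_one_iff [Fintype (H78.LocalGal p ⧸ zpLevel p k)] (x : ℚ_[p]ˣ) :
    thetaLoc p hp2 k x ^ (p - 1) = 1 ↔
      ∃ y : (PadicAlgCl p)ˣ, (∀ σ ∈ zpLevel p k, σ • y = y) ∧
        Units.map (algebraMap ℚ_[p] (PadicAlgCl p) : ℚ_[p] →* PadicAlgCl p) x =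
          ∏ g : H78.LocalGal p ⧸ zpLevel p k, g.out • y := by
  rw [← exists_chiLoc_eq_thetaLoc_iff p hp2 k (zpLevel p k) (cycLevel_le_zpLevel p k) x]
  constructor
  · intro h
    obtain ⟨σ, hσ⟩ := chiLoc_surjective p k (thetaLoc p hp2 k x)
    exact ⟨σ, by rw [mem_zpLevel, hσ, h], hσ⟩
  · rintro ⟨σ, hσ, h⟩
    rw [← h]
    exact (mem_zpLevel p k σ).1 hσ

end Theta

end Fermat.Agent.CFT.H4
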