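import Mathlib

/-!
# CFT / C-RECIP (tame route), package R3: the abstract tame symbol

Let `K` be a field containing a primitive `n`-th root of unity, `E / K` an algebraic field
extension and `θ : Kˣ →* (E ≃ₐ[K] E)` a homomorphism which kills norms:
if `x` is a norm from an intermediate field `F` then `θ x` fixes `F` pointwise
(this is what a local reciprocity map `Kˣ → Gal(E/K)` does).  Then

* `theta_neg_apply_root` : `θ (-a)` fixes every `n`-th root of `a`  (the relation `(a, -a) = 1`);
* `tame_symbol` : if `β ^ n = b`, `γ ^ n = c` and `θ c β = η * β` then `θ b γ = η⁻¹ * γ`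
  (skew symmetry `(b, c) (c, b) = 1` of the Hilbert symbol).

In the application `K = ℚ_l`, `n = p ^ a ∣ l - 1`, `b` is a unit (so `K(β)/K` is unramified and
`θ c β` is given by the Frobenius) and `c = -l`, `K(γ)` is the degree `n` subfield of `ℚ_l(ζ_l)`;
this determines the reciprocity map on the tamely ramified cyclotomic extension without any
Lubin-Tate theory.
-/

set_option autoImplicit false

namespace Fermat.Agent.CFT.H4

open Polynomial IntermediateField

variable {K E : Type*} [Field K] [Field E] [Algebra K E] [Algebra.IsAlgebraic K E]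

/-- The constant coefficient of a monic irreducible polynomial over `K` is a norm from the
simple extension generated by any of its roots. -/
theorem exists_norm_eq_coeff_zero {m : K[X]} (hm : Irreducible m) (hmon : m.Monic) {r : E}
    (hr : aeval r m = 0) :
    ∃ z : K⟮r⟯, Algebra.norm K z = m.coeff 0 := by
  have hint : IsIntegral K r := Algebra.IsIntegral.isIntegral r
  have hmin : m = minpoly K r := minpoly.eq_of_irreducible_of_monic hm hr hmon
  have : FiniteDimensional K K⟮r⟯ := adjoin.finiteDimensional hint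
  refine ⟨algebraMap K K⟮r⟯ (-1) * (adjoin.powerBasis hint).gen, ?_⟩
  rw [map_mul, Algebra.norm_algebraMap, Algebra.PowerBasis.norm_gen_eq_coeff_zero_minpoly,
    adjoin.powerBasis_dim, adjoin.powerBasis_gen, minpoly_gen, adjoin.finrank hint, ← hmin,
    ← mul_assoc, ← mul_pow]
  simp

variable {n : ℕ} {ζ : K}

omit [Algebra.IsAlgebraic K E] in
/-- Roots of `X ^ n - a` differ by `n`-th roots of unity of `K`. -/
theorem exists_pow_mul_eq_of_pow_eq (hζ : IsPrimitiveRoot ζ n) (hn : 0 < n) {α r : E}
    (hα : α ≠ 0) (h : r ^ n = α ^ n) : ∃ i : ℕ, r = algebraMap K E (ζ ^ i) * α := by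
  have hζE : IsPrimitiveRoot (algebraMap K E ζ) n :=
    hζ.map_of_injective (algebraMap K E).injective
  have h1 : (r / α) ^ n = 1 := by rw [div_pow, h, div_self (pow_ne_zero _ hα)]
  have : NeZero n := ⟨hn.ne'⟩
  obtain ⟨i, -, hi⟩ := hζE.eq_pow_of_pow_eq_one h1
  refine ⟨i, ?_⟩
  rw [map_pow, hi, div_mul_cancel₀ _ hα]

/-- **`(a, -a) = 1`.** A homomorphism killing norms sends `-a` to an automorphism fixing every
`n`-th root of `a`. -/
theorem theta_neg_apply_root (hζ : IsPrimitiveRoot ζ n) (hn : 0 < n)
    (θ : Kˣ →* (E ≃ₐ[K] E))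
    (hθ : ∀ (F : IntermediateField K E) (x : Kˣ), (∃ z : F, Algebra.norm K z = (x : K)) →
      ∀ y ∈ F, θ x y = y)
    (a : Kˣ) {α : E} (hα : α ^ n = algebraMap K E a) : θ (-a) α = α := by
  have hα0 : α ≠ 0 := by
    intro h0
    rw [h0, zero_pow hn.ne'] at hα
    exact a.ne_zero ((map_eq_zero (algebraMap K E)).mp hα.symm)
  set p : K[X] := X ^ n - C (a : K) with hp
  have hpmon : p.Monic := monic_X_pow_sub_C _ hn.ne'
  have hp0 : p.coeff 0 = -(a : K) := by
    simp [hp, coeff_X_pow, hn.ne]
  have hζE : IsPrimitiveRoot (algebraMap K E ζ) n :=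
    hζ.map_of_injective (algebraMap K E).injective
  have hsplit : (p.map (algebraMap K E)).Splits := by
    rw [hp, Polynomial.map_sub, Polynomial.map_pow, map_X, map_C]
    exact X_pow_sub_C_splits_of_isPrimitiveRoot hζE hα
  -- the claim for monic divisors of `p`, by strong induction on the degree
  have key : ∀ d : ℕ, ∀ g : K[X], g.natDegree = d → g.Monic → g ∣ p →
      ∀ u : Kˣ, (u : K) = g.coeff 0 → θ u α = α := by
    intro d
    induction d using Nat.strong_induction_on with
    | _ d ih =>
      intro g hgd hgmon hgp u hu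
      by_cases hg1 : g = 1
      · have : u = 1 := Units.ext (by rw [hu, hg1]; simp)
        rw [this, map_one]; rfl
      · have hgunit : ¬ IsUnit g := fun h => hg1 (hgmon.eq_one_of_isUnit h)
        obtain ⟨m, hmmon, hmirr, hmg⟩ := exists_monic_irreducible_factor g hgunit
        obtain ⟨g', rfl⟩ := hmg
        have hg'mon : g'.Monic := hmmon.of_mul_monic_left hgmon
        -- a root of `m` in `E`
        have hmsplit : (m.map (algebraMap K E)).Splits :=
          hsplit.of_dvd (map_monic_ne_zero hpmon)
            (Polynomial.map_dvd _ (dvd_trans (dvd_mul_right m g') hgp))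
        have hmdeg : (m.map (algebraMap K E)).degree ≠ 0 := by
          rw [degree_map]
          exact (degree_pos_of_irreducible hmirr).ne'
        obtain ⟨r, hr⟩ := hmsplit.exists_eval_eq_zero hmdeg
        have hr' : aeval r m = 0 := by rwa [eval_map_algebraMap] at hr
        have hrp : aeval r p = 0 := by
          obtain ⟨q, hq⟩ := dvd_trans (dvd_mul_right m g') hgp
          rw [hq, map_mul, hr', zero_mul]
        have hrn : r ^ n = α ^ n := by
          have : r ^ n - algebraMap K E a = 0 := by simpa [hp] using hrp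
          rw [hα]; exact sub_eq_zero.mp this
        obtain ⟨i, hi⟩ := exists_pow_mul_eq_of_pow_eq hζ hn hα0 hrn
        -- constant coefficients
        have hm0 : m.coeff 0 ≠ 0 := by
          intro h0
          have : (m * g').coeff 0 = 0 := by rw [mul_coeff_zero, h0, zero_mul]
          obtain ⟨q, hq⟩ := hgp
          have hpc : p.coeff 0 = 0 := by rw [hq, mul_coeff_zero, this, zero_mul]
          rw [hp0] at hpc
          exact a.ne_zero (neg_eq_zero.mp hpc)
        have hg'0 : g'.coeff 0 ≠ 0 := by
          intro h0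
          have : (m * g').coeff 0 = 0 := by rw [mul_coeff_zero, h0, mul_zero]
          obtain ⟨q, hq⟩ := hgp
          have hpc : p.coeff 0 = 0 := by rw [hq, mul_coeff_zero, this, zero_mul]
          rw [hp0] at hpc
          exact a.ne_zero (neg_eq_zero.mp hpc)
        have hu' : u = Units.mk0 _ hm0 * Units.mk0 _ hg'0 :=
          Units.ext (by rw [hu, mul_coeff_zero]; rfl)
        -- the irreducible factor
        have h1 : θ (Units.mk0 _ hm0) α = α := by
          have hfix := hθ K⟮r⟯ (Units.mk0 _ hm0)
            (by simpa using exists_norm_eq_coeff_zero hmirr hmmon hr') r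
            (mem_adjoin_simple_self K r)
          rw [hi, map_mul, AlgEquiv.commutes] at hfix
          have hz : algebraMap K E (ζ ^ i) ≠ 0 := by
            rw [Ne, map_eq_zero]
            exact pow_ne_zero _ (hζ.ne_zero hn.ne')
          exact mul_left_cancel₀ hz hfix
        -- the cofactor, by induction
        have h2 : θ (Units.mk0 _ hg'0) α = α := by
          refine ih g'.natDegree ?_ g' rfl hg'mon (dvd_trans (dvd_mul_left g' m) hgp) _ rfl
          rw [← hgd, hmmon.natDegree_mul hg'mon]
          have := hmirr.natDegree_pos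
          omega
        rw [hu', map_mul, AlgEquiv.mul_apply, h2, h1]
  have hu : ((-a : Kˣ) : K) = p.coeff 0 := by rw [hp0]; simp
  exact key _ p rfl hpmon dvd_rfl (-a) hu

/-- **Skew symmetry of the Hilbert symbol / the tame symbol.** -/
theorem tame_symbol (hζ : IsPrimitiveRoot ζ n) (hn : 0 < n)
    (θ : Kˣ →* (E ≃ₐ[K] E))
    (hθ : ∀ (F : IntermediateField K E) (x : Kˣ), (∃ z : F, Algebra.norm K z = (x : K)) →
      ∀ y ∈ F, θ x y = y)
    (b c : Kˣ) {β γ η : E} (hβ : β ^ n = algebraMap K E b) (hγ : γ ^ n = algebraMap K E c)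
    (hη : θ c β = η * β) : θ b γ = η⁻¹ * γ := by
  have hβ0 : β ≠ 0 := by
    intro h0
    rw [h0, zero_pow hn.ne'] at hβ
    exact b.ne_zero ((map_eq_zero (algebraMap K E)).mp hβ.symm)
  have hη0 : η ≠ 0 := by
    intro h0
    rw [h0, zero_mul] at hη
    exact hβ0 ((map_eq_zero_iff _ (θ c).injective).mp hη)
  have h1 : θ (-b) β = β := theta_neg_apply_root hζ hn θ hθ b hβ
  have h2 : θ (-c) γ = γ := theta_neg_apply_root hζ hn θ hθ c hγ
  have h3 : θ (-(b * c)) (β * γ) = β * γ := by
    refine theta_neg_apply_root hζ hn θ hθ (b * c) ?_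
    rw [mul_pow, hβ, hγ, Units.val_mul, map_mul]
  have e1 : θ (-(b * c)) β = η * β := by
    have : -(b * c) = c * -b := by rw [mul_neg, mul_comm]
    rw [this, map_mul, AlgEquiv.mul_apply, h1, hη]
  have e2 : θ (-(b * c)) γ = θ b γ := by
    have : -(b * c) = b * -c := by rw [mul_neg]
    rw [this, map_mul, AlgEquiv.mul_apply, h2]
  rw [map_mul, e1, e2] at h3
  have h4 : η * β * θ b γ = η * β * (η⁻¹ * γ) := by
    rw [h3]; field_simp
  exact mul_left_cancel₀ (mul_ne_zero hη0 hβ0) h4

end Fermat.Agent.CFT.H4
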