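/-
CFT layer C, package C-EXIST (helper51): `G / Gᵖ` as a `ZMod p`-vector space.

For a commutative group `G` and a prime `p`, `ModP G p := Additive (G ⧸ Gᵖ)` with its
`ZMod p`-module structure, functoriality, and the dictionary card ↔ finrank.
-/
import Mathlib
import Fermat.Agent.CFT.H51_ExistCount

set_option autoImplicit false

namespace Fermat.Agent.CFT.H51

open Module

section Defs

variable (G : Type*) [CommGroup G] (p : ℕ)

/-- `G / Gᵖ`, written additively. -/
def ModP : Type _ := Additive (G ⧸ powSubgroup G p)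

instance : AddCommGroup (ModP G p) :=
  inferInstanceAs (AddCommGroup (Additive (G ⧸ powSubgroup G p)))

variable {G p}

/-- The class of `g` in `G / Gᵖ`. -/
def ModP.mk (g : G) : ModP G p := Additive.ofMul (QuotientGroup.mk g : G ⧸ powSubgroup G p)

theorem ModP.mk_mul (a b : G) : (ModP.mk (a * b) : ModP G p) = ModP.mk a + ModP.mk b := rfl

theorem ModP.mk_one : (ModP.mk (1 : G) : ModP G p) = 0 := rfl

theorem ModP.mk_inv (a : G) : (ModP.mk a⁻¹ : ModP G p) = -ModP.mk a := rfl

theorem ModP.mk_div (a b : G) : (ModP.mk (a / b) : ModP G p) = ModP.mk a - ModP.mk b := by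
  rw [div_eq_mul_inv, ModP.mk_mul, ModP.mk_inv, sub_eq_add_neg]

theorem ModP.mk_pow (a : G) (n : ℕ) : (ModP.mk (a ^ n) : ModP G p) = n • ModP.mk a := rfl

theorem ModP.mk_prod {ι : Type*} (s : Finset ι) (f : ι → G) :
    (ModP.mk (∏ i ∈ s, f i) : ModP G p) = ∑ i ∈ s, ModP.mk (f i) := by
  classical
  induction s using Finset.induction_on with
  | empty => simp [ModP.mk_one]
  | insert i s hi ih => rw [Finset.prod_insert hi, Finset.sum_insert hi, ModP.mk_mul, ih]

theorem ModP.mk_surjective : Function.Surjective (ModP.mk : G → ModP G p) := by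
  intro x
  obtain ⟨g, hg⟩ := QuotientGroup.mk_surjective (Additive.toMul x)
  exact ⟨g, congrArg Additive.ofMul hg⟩

theorem ModP.mk_eq_zero_iff {g : G} : (ModP.mk g : ModP G p) = 0 ↔ g ∈ powSubgroup G p := by
  constructor
  · intro h
    have h1 : (QuotientGroup.mk g : G ⧸ powSubgroup G p) = 1 := congrArg Additive.toMul h
    exact (QuotientGroup.eq_one_iff _).1 h1
  · intro h
    exact congrArg Additive.ofMul ((QuotientGroup.eq_one_iff _).2 h)

theorem ModP.mk_eq_zero_iff' {g : G} : (ModP.mk g : ModP G p) = 0 ↔ ∃ y : G, y ^ p = g :=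
  ModP.mk_eq_zero_iff

theorem ModP.nsmul_eq_zero (x : ModP G p) : p • x = 0 := by
  obtain ⟨g, rfl⟩ := ModP.mk_surjective x
  rw [← ModP.mk_pow, ModP.mk_eq_zero_iff]
  exact ⟨g, rfl⟩

theorem ModP.induction_on {C : ModP G p → Prop} (x : ModP G p) (h : ∀ g, C (ModP.mk g)) : C x := by
  obtain ⟨g, rfl⟩ := ModP.mk_surjective x
  exact h g

instance ModP.instModule : Module (ZMod p) (ModP G p) :=
  AddCommGroup.zmodModule ModP.nsmul_eq_zero

instance ModP.instFinite [Finite (G ⧸ powSubgroup G p)] : Finite (ModP G p) :=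
  inferInstanceAs (Finite (Additive (G ⧸ powSubgroup G p)))

theorem ModP.natCard_eq : Nat.card (ModP G p) = Nat.card (G ⧸ powSubgroup G p) := rfl

/-- `#(G/Gᵖ) = p ^ dim`. -/
theorem ModP.natCard_eq_pow_finrank [Fact p.Prime] [Finite (G ⧸ powSubgroup G p)] :
    Nat.card (G ⧸ powSubgroup G p) = p ^ finrank (ZMod p) (ModP G p) := by
  rw [← ModP.natCard_eq, Module.natCard_eq_pow_finrank (K := ZMod p), Nat.card_zmod]

end Defs

section Map

variable {G H K : Type*} [CommGroup G] [CommGroup H] [CommGroup K] {p : ℕ}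

/-- Functoriality of `G ↦ G / Gᵖ`. -/
def ModP.map (f : G →* H) : ModP G p →ₗ[ZMod p] ModP H p :=
  AddMonoidHom.toZModLinearMap p (MonoidHom.toAdditive (quotPowMap f p))

@[simp] theorem ModP.map_mk (f : G →* H) (g : G) :
    ModP.map f (ModP.mk g : ModP G p) = ModP.mk (f g) := rfl

theorem ModP.map_comp (f : G →* H) (g : H →* K) (x : ModP G p) :
    ModP.map (g.comp f) x = ModP.map g (ModP.map f x) := by
  induction x using ModP.induction_on with
  | h a => rfl

theorem ModP.map_surjective (f : G →* H) (hf : Function.Surjective f) :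
    Function.Surjective (ModP.map f : ModP G p →ₗ[ZMod p] ModP H p) := by
  intro y
  induction y using ModP.induction_on with
  | h b =>
    obtain ⟨a, rfl⟩ := hf b
    exact ⟨ModP.mk a, rfl⟩

/-- Elementwise description of the kernel of `ModP.map f`. -/
theorem ModP.map_mk_eq_zero_iff (f : G →* H) (g : G) :
    ModP.map f (ModP.mk g : ModP G p) = 0 ↔ ∃ y : H, y ^ p = f g := by
  rw [ModP.map_mk, ModP.mk_eq_zero_iff']

/-- Right exactness: if `E -d-> J -φ->> C` is exact then `range (map d) = ker (map φ)`. -/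
theorem ModP.range_map_eq_ker {E J C : Type*} [CommGroup E] [CommGroup J] [CommGroup C]
    (d : E →* J) (φ : J →* C) (hφ : Function.Surjective φ) (hker : φ.ker = d.range) :
    LinearMap.range (ModP.map d : ModP E p →ₗ[ZMod p] ModP J p) =
      LinearMap.ker (ModP.map φ : ModP J p →ₗ[ZMod p] ModP C p) := by
  ext x
  induction x using ModP.induction_on with
  | h j =>
    rw [LinearMap.mem_ker, ModP.map_mk_eq_zero_iff]
    constructor
    · rintro ⟨y, hy⟩
      induction y using ModP.induction_on with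
      | h e =>
        rw [ModP.map_mk] at hy
        have h1 : (ModP.mk (d e / j) : ModP J p) = 0 := by rw [ModP.mk_div, hy, sub_self]
        obtain ⟨z, hz⟩ := ModP.mk_eq_zero_iff'.1 h1
        refine ⟨(φ z)⁻¹, ?_⟩
        have h2 : φ (d e) = 1 := by
          have : d e ∈ φ.ker := by rw [hker]; exact ⟨e, rfl⟩
          exact this
        rw [inv_pow, ← map_pow, hz, map_div, h2, one_div, inv_inv]
    · rintro ⟨c, hc⟩
      obtain ⟨j', rfl⟩ := hφ c
      have h1 : j / j' ^ p ∈ φ.ker := by
        rw [MonoidHom.mem_ker, map_div, map_pow, hc, div_self']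
      rw [hker] at h1
      obtain ⟨e, he⟩ := h1
      refine ⟨ModP.mk e, ?_⟩
      rw [ModP.map_mk, he, ModP.mk_div, ModP.mk_pow, ModP.nsmul_eq_zero, sub_zero]

end Map

end Fermat.Agent.CFT.H51
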