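/-
CFT layer C, package C-EXIST (helper51): the `S`-class group in the hybrid model and the exact
sequence `J_S → C_S → Cl_S → 1`; the Kummer group `X_S` of classes unramified outside `S`.
-/
import Fermat.Agent.CFT.H51_ExistHybrid
import Fermat.Agent.CFT.H51_ModP

set_option autoImplicit false

namespace Fermat.Agent.CFT.H51

open scoped TensorProduct NumberField
open IsDedekindDomain Fermat.Agent.CFT.H23 Fermat.Agent.CFT.H42 Fermat.Agent.CFT.H10 Module

noncomputable section

variable (S : Finset Nat.Primes) (K : Type*) [Field K] [NumberField K]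

/-- The `S`-class group: divisors prime to `S` modulo principal divisors. -/
abbrev ClS : Type _ := Multiplicative (DivS S K) ⧸ (divS S K).range

/-- `C_S → Cl_S`, `[(j, D)] ↦ [D]`. -/
def csToClS : CS S K →* ClS S K :=
  QuotientGroup.map _ _ (MonoidHom.snd (JS S K) (Multiplicative (DivS S K))) (by
    rintro _ ⟨x, rfl⟩
    exact ⟨x, rfl⟩)

theorem csToClS_toCS (x : IdS S K) :
    csToClS S K (toCS S K x) = (QuotientGroup.mk x.2 : ClS S K) := rfl

theorem csToClS_surjective : Function.Surjective (csToClS S K) := by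
  intro c
  induction c using QuotientGroup.induction_on with
  | H D => exact ⟨toCS S K (1, D), rfl⟩

/-- Exactness of `J_S → C_S → Cl_S`. -/
theorem ker_csToClS : (csToClS S K).ker = (jsToCS S K).range := by
  ext c
  induction c using QuotientGroup.induction_on with
  | H x =>
    obtain ⟨j, D⟩ := x
    rw [MonoidHom.mem_ker]
    show (QuotientGroup.mk D : ClS S K) = 1 ↔ _
    rw [QuotientGroup.eq_one_iff]
    constructor
    · rintro ⟨y, hy⟩
      refine ⟨j / diagJ S K y, ?_⟩
      rw [jsToCS_apply]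
      show (QuotientGroup.mk (j / diagJ S K y, 1) : CS S K) = QuotientGroup.mk (j, D)
      rw [QuotientGroup.eq]
      refine ⟨y, Prod.ext ?_ ?_⟩
      · show diagJ S K y = (j / diagJ S K y)⁻¹ * j
        rw [inv_div, div_mul_cancel]
      · show divS S K y = (1 : Multiplicative (DivS S K))⁻¹ * D
        rw [hy, inv_one, one_mul]
    · rintro ⟨j', hj'⟩
      rw [jsToCS_apply] at hj'
      have h1 : (QuotientGroup.mk (j', 1) : CS S K) = QuotientGroup.mk (j, D) := hj'
      rw [QuotientGroup.eq] at h1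
      obtain ⟨y, hy⟩ := h1
      refine ⟨y, ?_⟩
      have h2 : (diag S K y).2 = ((j', (1 : Multiplicative (DivS S K))) : IdS S K)⁻¹.2 * D :=
        congrArg Prod.snd hy
      have h3 : (diag S K y).2 = divS S K y := rfl
      rw [h3] at h2
      rw [h2]
      show (1 : Multiplicative (DivS S K))⁻¹ * D = D
      rw [inv_one, one_mul]

/-! ### The Kummer group -/

/-- `x ∈ Kˣ` whose divisor outside `S` is a `p`-th power: `K(x^{1/p})/K` is unramified outside `S`
(when `p ∈ S`). -/
def kummerS (p : ℕ) : Subgroup Kˣ :=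
  (powSubgroup (Multiplicative (DivS S K)) p).comap (divS S K)

theorem mem_kummerS_iff {p : ℕ} {x : Kˣ} :
    x ∈ kummerS S K p ↔ ∃ D : Multiplicative (DivS S K), D ^ p = divS S K x := Iff.rfl

theorem unitsS_le_kummerS (p : ℕ) : unitsS S K ≤ kummerS S K p := by
  intro x hx
  rw [mem_kummerS_iff]
  exact ⟨1, by rw [one_pow, (mem_unitsS_iff S K).1 hx]⟩

theorem pow_mem_kummerS (p : ℕ) (y : Kˣ) : y ^ p ∈ kummerS S K p := by
  rw [mem_kummerS_iff]
  exact ⟨divS S K y, by rw [map_pow]⟩

/-- The localisation of a Kummer class dies in `C_S / p`: `[(x, 1)] = [(1, D)]⁻ᵖ`. -/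
theorem jsToCS_diagJ_mem_pow {p : ℕ} {x : Kˣ} (hx : x ∈ kummerS S K p) :
    jsToCS S K (diagJ S K x) ∈ powSubgroup (CS S K) p := by
  obtain ⟨D, hD⟩ := (mem_kummerS_iff S K).1 hx
  refine ⟨toCS S K (1, D⁻¹), ?_⟩
  rw [powMonoidHom_apply, ← map_pow, jsToCS_apply]
  show (QuotientGroup.mk ((1, D⁻¹) ^ p) : CS S K) = QuotientGroup.mk (diagJ S K x, 1)
  rw [QuotientGroup.eq]
  refine ⟨x, Prod.ext ?_ ?_⟩
  · show diagJ S K x = ((1 : JS S K) ^ p)⁻¹ * diagJ S K x
    rw [one_pow, inv_one, one_mul]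
  · show divS S K x = ((D⁻¹) ^ p)⁻¹ * 1
    rw [inv_pow, inv_inv, mul_one, hD]

end

end Fermat.Agent.CFT.H51
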