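/-
CFT layer C, package C-EXIST (helper51): the first inequality (helper63) in the form consumed by
the existence theorem: for `F/K` cyclic of odd prime degree there is a Galois-invariant class of
`CS S F` which is not a norm.
-/
import Fermat.Agent.CFT.H63_FirstIneqFinal

set_option autoImplicit false

namespace Fermat.Agent.CFT.H51

open IsDedekindDomain NumberField Module
open Fermat.Agent.CFT.H23 Fermat.Agent.CFT.H6 Fermat.Agent.CFT.H63

noncomputable section

variable (S : Finset Nat.Primes) {K F : Type*} [Field K] [NumberField K] [Field F]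
  [NumberField F] [Algebra K F] {p : ℕ}

/-- The local input of the first inequality: the Herbrand quotient of the `S`-ideles of `F` is the
product of the local degrees above `S`. -/
def LocalHerbrand (p : ℕ) (σ : F ≃ₐ[K] F) : Prop :=
  ∀ SK : Finset (HeightOneSpectrum (𝓞 K)), (∀ u, u ∈ SK ↔ u ∈ primesAboveS S K) →
    HerbrandDefined (endF (sigA S σ)) (endN p (sigA S σ)) ∧
    herbrand (endF (sigA S σ)) (endN p (sigA S σ)) =
      ((∏ u ∈ SK, (u.asIdeal.ramificationIdxIn (𝓞 F) * u.asIdeal.inertiaDegIn (𝓞 F)) : ℕ) : ℚ)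

theorem repCS_ρ_apply (σ : F ≃ₐ[K] F) (x : Additive (CS S F)) :
    (repCS S F K).ρ σ x = Additive.ofMul (σ • Additive.toMul x) := rfl

theorem repCS_norm_apply (x : Additive (CS S F)) :
    (repCS S F K).ρ.norm x = Additive.ofMul (∏ τ : F ≃ₐ[K] F, τ • Additive.toMul x) := by
  have h1 : (repCS S F K).ρ.norm x = ∑ τ : F ≃ₐ[K] F, (repCS S F K).ρ τ x := by
    simp only [Representation.norm, LinearMap.sum_apply]
  refine h1.trans ?_
  exact (ofMul_prod Finset.univ fun τ : F ≃ₐ[K] F => τ • Additive.toMul x).symm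

variable [IsGalois K F] [hp : Fact p.Prime]

/-- **First inequality, consumer form**: not every Galois-invariant class of `CS S F` is a norm
(`F/K` cyclic of odd prime degree `p`). -/
theorem not_forall_fixed_mem_range_norm (hp2 : p ≠ 2) (hKF : Module.finrank K F = p)
    (σ : F ≃ₐ[K] F) (hσ : ∀ τ : F ≃ₐ[K] F, τ ∈ Subgroup.zpowers σ) (hS : S.Nonempty)
    (hA : LocalHerbrand S p σ) :
    ¬ ∀ c : CS S F, (∀ τ : F ≃ₐ[K] F, τ • c = c) →
      ∃ y : CS S F, c = ∏ τ : F ≃ₐ[K] F, τ • y := by
  intro hall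
  obtain ⟨-, -, h0⟩ := herbrandRepn_repCS S hp2 hKF σ hσ hS hA
  have h1 : h0Card (repCS S F K).ρ σ = 1 := by
    rw [h0Card_eq _ σ hσ, AddSubgroup.relIndex_eq_one]
    intro (x : Additive (CS S F)) hx
    have hx' : ∀ τ : F ≃ₐ[K] F, τ • Additive.toMul x = Additive.toMul x := by
      intro τ
      have h3 : (repCS S F K).ρ τ x = x := hx τ
      exact congrArg Additive.toMul h3
    obtain ⟨y, hy⟩ := hall (Additive.toMul x) hx'
    refine ⟨Additive.ofMul y, ?_⟩
    have h4 := repCS_norm_apply S (K := K) (Additive.ofMul y)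
    refine h4.trans ?_
    show Additive.ofMul (∏ τ : F ≃ₐ[K] F, τ • y) = x
    exact (congrArg Additive.ofMul hy).symm
  rw [h1] at h0
  have h2 := hp.out.two_le
  rcases Nat.eq_zero_or_pos (hm1Card (repCS S F K).ρ σ) with h | h
  · rw [h, mul_zero] at h0
    exact one_ne_zero h0
  · have : 2 * 1 ≤ p * hm1Card (repCS S F K).ρ σ := Nat.mul_le_mul h2 h
    omega

/-- There is a Galois-invariant class which is not a norm. -/
theorem exists_fixed_not_norm (hp2 : p ≠ 2) (hKF : Module.finrank K F = p)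
    (σ : F ≃ₐ[K] F) (hσ : ∀ τ : F ≃ₐ[K] F, τ ∈ Subgroup.zpowers σ) (hS : S.Nonempty)
    (hA : LocalHerbrand S p σ) :
    ∃ c : CS S F, (∀ τ : F ≃ₐ[K] F, τ • c = c) ∧
      ¬ ∃ y : CS S F, c = ∏ τ : F ≃ₐ[K] F, τ • y := by
  by_contra h
  push Not at h
  exact not_forall_fixed_mem_range_norm S hp2 hKF σ hσ hS hA fun c hc => h c hc

end

end Fermat.Agent.CFT.H51
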