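/-
CFT layer C, package C-EXIST (helper51): the existence theorem mod `p` at level `S`, assembled
from an arbitrary biadditive norm-residue pairing `β : CS S K → kummerS S K p → ZMod p`.

Inputs: `β` kills the split classes on the image of the `S`-ideles (`hsplit`), is
right-nondegenerate (`hnd`), and the two counts `dim J_S/p ≤ 2e`, `e + dim Cl_S/p ≤ dim X_S`.
Output: the left kernel of `β` consists of `p`-th powers.
-/
import Fermat.Agent.CFT.H51_ExistClS
import Fermat.Agent.CFT.H51_ExistDual

set_option autoImplicit false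

namespace Fermat.Agent.CFT.H51

open scoped TensorProduct NumberField
open IsDedekindDomain Fermat.Agent.CFT.H23 Fermat.Agent.CFT.H42 Fermat.Agent.CFT.H10 Module

noncomputable section

/-- Additive homs out of `G / Gᵖ` from multiplicative maps killing `p`-th powers. -/
def ModP.liftAdd {G : Type*} [CommGroup G] {p : ℕ} {A : Type*} [AddCommGroup A]
    (f : G →* Multiplicative A) (hf : ∀ g : G, f (g ^ p) = 1) : ModP G p →+ A :=
  MonoidHom.toAdditiveLeft (QuotientGroup.lift (powSubgroup G p) f (by
    rintro _ ⟨c, rfl⟩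
    exact hf c))

theorem ModP.liftAdd_mk {G : Type*} [CommGroup G] {p : ℕ} {A : Type*} [AddCommGroup A]
    (f : G →* Multiplicative A) (hf : ∀ g : G, f (g ^ p) = 1) (g : G) :
    ModP.liftAdd f hf (ModP.mk g) = Multiplicative.toAdd (f g) := rfl

variable (S : Finset Nat.Primes) (K : Type*) [Field K] [NumberField K] (p : ℕ)

/-! ### The Kummer space `X_S = kummerS / Kˣᵖ` -/

/-- The `p`-th powers of `Kˣ`, as a subgroup of `kummerS`. -/
def kummerPow : Subgroup (kummerS S K p) := (powSubgroup Kˣ p).subgroupOf (kummerS S K p)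

theorem mem_kummerPow_iff {x : kummerS S K p} :
    x ∈ kummerPow S K p ↔ ∃ y : Kˣ, y ^ p = (x : Kˣ) := Iff.rfl

/-- `X_S := kummerS / Kˣᵖ`, additively. -/
def KX : Type _ := Additive (kummerS S K p ⧸ kummerPow S K p)

instance : AddCommGroup (KX S K p) :=
  inferInstanceAs (AddCommGroup (Additive (kummerS S K p ⧸ kummerPow S K p)))

variable {S K p}

/-- The class of a Kummer element. -/
def KX.mk (x : kummerS S K p) : KX S K p :=
  Additive.ofMul (QuotientGroup.mk x : kummerS S K p ⧸ kummerPow S K p)

theorem KX.mk_mul (x y : kummerS S K p) : KX.mk (x * y) = KX.mk x + KX.mk y := rfl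

theorem KX.mk_surjective : Function.Surjective (KX.mk : kummerS S K p → KX S K p) := by
  intro x
  obtain ⟨g, hg⟩ := QuotientGroup.mk_surjective (Additive.toMul x)
  exact ⟨g, congrArg Additive.ofMul hg⟩

theorem KX.mk_eq_zero_iff {x : kummerS S K p} :
    KX.mk x = 0 ↔ ∃ y : Kˣ, y ^ p = (x : Kˣ) := by
  constructor
  · intro h
    have h1 : (QuotientGroup.mk x : kummerS S K p ⧸ kummerPow S K p) = 1 :=
      congrArg Additive.toMul h
    exact (QuotientGroup.eq_one_iff _).1 h1
  · intro h
    exact congrArg Additive.ofMul ((QuotientGroup.eq_one_iff _).2 h)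

theorem KX.nsmul_eq_zero (x : KX S K p) : p • x = 0 := by
  obtain ⟨g, rfl⟩ := KX.mk_surjective x
  have : p • KX.mk g = KX.mk (g ^ p) := rfl
  rw [this, KX.mk_eq_zero_iff]
  exact ⟨(g : Kˣ), rfl⟩

instance KX.instModule : Module (ZMod p) (KX S K p) :=
  AddCommGroup.zmodModule KX.nsmul_eq_zero

variable (S K p)

/-- The localisation map `X_S → J_S / p`. -/
def lamMap : KX S K p →ₗ[ZMod p] ModP (JS S K) p :=
  AddMonoidHom.toZModLinearMap p <| MonoidHom.toAdditive <|
    QuotientGroup.map (kummerPow S K p) (powSubgroup (JS S K) p)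
      ((diagJ S K).comp (kummerS S K p).subtype) (by
        rintro x ⟨y, hy⟩
        exact ⟨diagJ S K y, by
          rw [powMonoidHom_apply, ← map_pow]
          exact congrArg (diagJ S K) hy⟩)

theorem lamMap_mk (x : kummerS S K p) :
    lamMap S K p (KX.mk x) = ModP.mk (diagJ S K (x : Kˣ)) := rfl

/-- `ι : J_S / p → C_S / p`. -/
def iotaMap : ModP (JS S K) p →ₗ[ZMod p] ModP (CS S K) p := ModP.map (jsToCS S K)

/-- `C_S / p → Cl_S / p`. -/
def piMap : ModP (CS S K) p →ₗ[ZMod p] ModP (ClS S K) p := ModP.map (csToClS S K)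

theorem iotaMap_lamMap (x : KX S K p) : iotaMap S K p (lamMap S K p x) = 0 := by
  obtain ⟨g, rfl⟩ := KX.mk_surjective x
  rw [lamMap_mk, iotaMap, ModP.map_mk, ModP.mk_eq_zero_iff]
  exact jsToCS_diagJ_mem_pow S K g.2

theorem range_iotaMap : LinearMap.range (iotaMap S K p) = LinearMap.ker (piMap S K p) := by
  have h := @ModP.range_map_eq_ker p (JS S K) (CS S K) (ClS S K) _ _ _ (jsToCS S K) (csToClS S K)
    (csToClS_surjective S K) (ker_csToClS S K)
  exact h

theorem piMap_surjective : Function.Surjective (piMap S K p) :=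
  ModP.map_surjective _ (csToClS_surjective S K)

variable [Fact p.Prime]

/-- `C_S / p` is finite dimensional as soon as `J_S / p` and `Cl_S / p` are. -/
theorem finite_modP_CS [Module.Finite (ZMod p) (ModP (JS S K) p)]
    [Module.Finite (ZMod p) (ModP (ClS S K) p)] : Module.Finite (ZMod p) (ModP (CS S K) p) := by
  have h1 : Module.Finite (ZMod p) (LinearMap.ker (piMap S K p)) := by
    rw [← range_iotaMap]
    exact Module.Finite.range _
  have h2 : Module.Finite (ZMod p) (ModP (CS S K) p ⧸ LinearMap.ker (piMap S K p)) :=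
    Module.Finite.equiv ((piMap S K p).quotKerEquivOfSurjective (piMap_surjective S K p)).symm
  exact Module.Finite.of_submodule_quotient (LinearMap.ker (piMap S K p))

/-- `dim C_S/p = dim ι(J_S/p) + dim Cl_S/p`. -/
theorem finrank_modP_CS [Module.Finite (ZMod p) (ModP (JS S K) p)]
    [Module.Finite (ZMod p) (ModP (ClS S K) p)] :
    finrank (ZMod p) (ModP (CS S K) p) =
      finrank (ZMod p) (LinearMap.range (iotaMap S K p)) +
        finrank (ZMod p) (ModP (ClS S K) p) := by
  have := finite_modP_CS S K p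
  have h1 := LinearMap.finrank_range_add_finrank_ker (piMap S K p)
  rw [LinearMap.range_eq_top.2 (piMap_surjective S K p), finrank_top, ← range_iotaMap] at h1
  omega

/-- **Existence theorem mod `p` at level `S`, from a norm-residue pairing.**  `β` is any biadditive
pairing between `C_S` and the Kummer group, trivial on `p`-th powers of `Kˣ`, which kills the
image of the `S`-ideles against the classes that are locally `p`-th powers above `S` (`hsplit`)
and is right-nondegenerate (`hnd`).  With the two counts `hJ`, `hX` the left kernel of `β` is the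
group of `p`-th powers. -/
theorem exist_of_pairing [Module.Finite (ZMod p) (ModP (JS S K) p)]
    [Module.Finite (ZMod p) (ModP (ClS S K) p)] [Module.Finite (ZMod p) (KX S K p)]
    (β : CS S K → kummerS S K p → ZMod p)
    (hβl : ∀ a b x, β (a * b) x = β a x + β b x)
    (hβr : ∀ a x y, β a (x * y) = β a x + β a y)
    (hβp : ∀ (a : CS S K) (x : kummerS S K p), (∃ y : Kˣ, y ^ p = (x : Kˣ)) → β a x = 0)
    (hsplit : ∀ x : kummerS S K p, diagJ S K (x : Kˣ) ∈ powSubgroup (JS S K) p →
      ∀ j : JS S K, β (jsToCS S K j) x = 0)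
    (hnd : ∀ x : kummerS S K p, (∀ a, β a x = 0) → ∃ y : Kˣ, y ^ p = (x : Kˣ))
    (e : ℕ) (hJ : finrank (ZMod p) (ModP (JS S K) p) ≤ 2 * e)
    (hX : e + finrank (ZMod p) (ModP (ClS S K) p) ≤ finrank (ZMod p) (KX S K p))
    (a : CS S K) (ha : ∀ x, β a x = 0) : ∃ b : CS S K, b ^ p = a := by
  classical
  have hfin := finite_modP_CS S K p
  -- basic properties of `β`
  have hβ1 : ∀ x, β 1 x = 0 := fun x => by
    have h0 := hβl 1 1 x
    have h1 : (1 : CS S K) * 1 = 1 := mul_one (1 : CS S K)
    have h : β 1 x = β 1 x + β 1 x := (congrArg (fun c => β c x) h1).symm.trans h0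
    exact add_eq_left.1 h.symm
  have hβx1 : ∀ a, β a 1 = 0 := fun a => hβp a 1 ⟨1, by simp⟩
  have hβpow : ∀ (c : CS S K) x, β (c ^ p) x = 0 := by
    intro c x
    have h : ∀ n : ℕ, β (c ^ n) x = n • β c x := by
      intro n
      induction n with
      | zero => rw [pow_zero, hβ1, zero_smul]
      | succ n ih => rw [pow_succ, hβl, ih, succ_nsmul]
    rw [h, nsmul_eq_mul, ZMod.natCast_self, zero_mul]
  -- the pairing as a bilinear map on `KX`, for fixed `a`
  let φ : CS S K → (KX S K p →+ ZMod p) := fun c =>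
    MonoidHom.toAdditiveLeft <| QuotientGroup.lift (kummerPow S K p)
      ({ toFun := fun x => Multiplicative.ofAdd (β c x)
         map_one' := by rw [hβx1]; rfl
         map_mul' := fun x y => by rw [hβr]; rfl } : kummerS S K p →* Multiplicative (ZMod p))
      (fun x hx => by
        show Multiplicative.ofAdd (β c x) = 1
        rw [hβp c x hx]; rfl)
  have hφ : ∀ c x, φ c (KX.mk x) = β c x := fun c x => rfl
  -- the pairing as a linear map `C_S/p → X_S^∨`
  let P0 : CS S K →* Multiplicative (Dual (ZMod p) (KX S K p)) :=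
    { toFun := fun c => Multiplicative.ofAdd (AddMonoidHom.toZModLinearMap p (φ c))
      map_one' := by
        apply congrArg Multiplicative.ofAdd
        ext x
        obtain ⟨g, rfl⟩ := KX.mk_surjective x
        show φ 1 (KX.mk g) = 0
        rw [hφ, hβ1]
      map_mul' := fun c c' => by
        rw [← ofAdd_add]
        apply congrArg Multiplicative.ofAdd
        ext x
        obtain ⟨g, rfl⟩ := KX.mk_surjective x
        show φ (c * c') (KX.mk g) = φ c (KX.mk g) + φ c' (KX.mk g)
        rw [hφ, hφ, hφ, hβl] }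
  have hP0 : ∀ c x, (Multiplicative.toAdd (P0 c)) (KX.mk x) = β c x := fun c x => rfl
  let P : ModP (CS S K) p →ₗ[ZMod p] Dual (ZMod p) (KX S K p) :=
    AddMonoidHom.toZModLinearMap p <| @ModP.liftAdd (CS S K) _ p _ _ P0 (by
        intro c
        apply congrArg Multiplicative.ofAdd
        ext x
        obtain ⟨g, rfl⟩ := KX.mk_surjective x
        show φ (c ^ p) (KX.mk g) = 0
        rw [hφ, hβpow])
  have hP : ∀ c x, P (ModP.mk c) (KX.mk x) = β c x := fun c x => rfl
  -- apply the linear-algebra core
  have hinj : Function.Injective P := by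
    refine injective_of_count P (iotaMap S K p) (lamMap S K p) (iotaMap_lamMap S K p) ?_ ?_ ?_
    · intro x hx j
      obtain ⟨g, rfl⟩ := KX.mk_surjective x
      induction j using ModP.induction_on with
      | h j0 =>
        rw [iotaMap, ModP.map_mk, hP]
        refine hsplit g ?_ j0
        rw [lamMap_mk] at hx
        exact ModP.mk_eq_zero_iff.1 hx
    · intro x hx
      obtain ⟨g, rfl⟩ := KX.mk_surjective x
      rw [KX.mk_eq_zero_iff]
      refine hnd g fun c => ?_
      rw [← hP]
      exact hx (ModP.mk c)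
    · have h1 := finrank_modP_CS S K p
      omega
  have hPa : P (ModP.mk a) = 0 := by
    ext x
    obtain ⟨g, rfl⟩ := KX.mk_surjective x
    rw [hP, ha]
    rfl
  have h0 : (ModP.mk a : ModP (CS S K) p) = 0 := hinj (by rw [hPa, map_zero])
  obtain ⟨b, hb⟩ := ModP.mk_eq_zero_iff'.1 h0
  exact ⟨b, hb⟩

end

end Fermat.Agent.CFT.H51
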