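/-
CFT layer C, package C-EXIST (helper51): the linear-algebra core of the descent `T → S` of the
existence theorem.

`𝕁 = 𝕁_S × 𝕁_R` (ideles mod `p`-th powers above `S` resp. above `R = T \ S`), `𝔼` (the `T`-units
mod `p`), `d = (dS, dR) : 𝔼 → 𝕁` the diagonal map, `U ≤ 𝕁_R` the local units, and a pairing
`β : 𝕁 × 𝔼 → F` (the norm residue pairing with the Kummer extensions `K(e^{1/p})`).  If `β` kills
the principal ideles, is right-nondegenerate, `dim 𝕁 ≤ 2 dim 𝔼`, `dim 𝕁_R ≤ 2 dim U`, the units are
orthogonal to the unramified Kummer classes and `𝕁_S` is orthogonal to the classes which are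
locally trivial above `S`, then every idele orthogonal to all unramified Kummer classes
`𝕏 = dR⁻¹(U)` is a principal idele times a unit idele.
-/
import Mathlib

set_option autoImplicit false

namespace Fermat.Agent.CFT.H51

open Module

section LinAlg

variable {F : Type*} [Field F] {V E : Type*} [AddCommGroup V] [Module F V]
  [AddCommGroup E] [Module F E]

/-- `dim f⁻¹(U) + dim (range f + U) = dim E + dim U`. -/
theorem finrank_comap_add_finrank_sup [FiniteDimensional F V] [FiniteDimensional F E]
    (f : E →ₗ[F] V) (U : Submodule F V) :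
    finrank F (U.comap f) + finrank F ↥(LinearMap.range f ⊔ U) = finrank F E + finrank F U := by
  -- `f` restricted to `comap f U` has range `range f ⊓ U` and kernel `ker f`
  have h1 : finrank F (U.comap f) = finrank F (LinearMap.ker f) + finrank F ↥(LinearMap.range f ⊓ U) := by
    let g : ↥(U.comap f) →ₗ[F] V := f.comp (U.comap f).subtype
    have hr : LinearMap.range g = LinearMap.range f ⊓ U := by
      ext v
      constructor
      · rintro ⟨⟨e, he⟩, rfl⟩
        exact ⟨⟨e, rfl⟩, he⟩
      · rintro ⟨⟨e, rfl⟩, hu⟩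
        exact ⟨⟨e, hu⟩, rfl⟩
    have hk : finrank F (LinearMap.ker g) = finrank F (LinearMap.ker f) := by
      have hle : LinearMap.ker f ≤ U.comap f := fun e he => by
        rw [Submodule.mem_comap, LinearMap.mem_ker.1 he]
        exact U.zero_mem
      have : LinearMap.ker g = (LinearMap.ker f).comap (U.comap f).subtype := by
        ext x
        simp [g]
      rw [this]
      exact (Submodule.comapSubtypeEquivOfLe hle).finrank_eq
    have := LinearMap.finrank_range_add_finrank_ker g
    rw [hr, hk] at this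
    omega
  have h2 := Submodule.finrank_sup_add_finrank_inf_eq (LinearMap.range f) U
  have h3 := LinearMap.finrank_range_add_finrank_ker f
  omega

end LinAlg

section Descent

variable {F : Type*} [Field F] {JS JR E : Type*} [AddCommGroup JS] [Module F JS]
  [FiniteDimensional F JS] [AddCommGroup JR] [Module F JR] [FiniteDimensional F JR]
  [AddCommGroup E] [Module F E] [FiniteDimensional F E]

/-- **Linear-algebra core of the descent `T → S`.** -/
theorem descent_core (dS : E →ₗ[F] JS) (dR : E →ₗ[F] JR) (U : Submodule F JR)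
    (β : (JS × JR) →ₗ[F] E →ₗ[F] F)
    (h1 : ∀ e' e, β (dS e', dR e') e = 0)
    (h2 : ∀ e, (∀ j, β j e = 0) → e = 0)
    (h3 : finrank F JS + finrank F JR ≤ 2 * finrank F E)
    (h4 : ∀ e, dS e = 0 → dR e = 0 → e = 0)
    (h5 : finrank F JR ≤ 2 * finrank F U)
    (h6 : ∀ u ∈ U, ∀ e, dR e ∈ U → β (0, u) e = 0)
    (h7 : ∀ j e, dS e = 0 → dR e ∈ U → β (j, 0) e = 0)
    (j : JS × JR) (hj : ∀ e, dR e ∈ U → β j e = 0) :
    ∃ e' : E, ∃ u ∈ U, j = (dS e', dR e' + u) := by
  classical
  -- the diagonal map
  let d : E →ₗ[F] JS × JR := dS.prod dR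
  have hd_apply : ∀ e, d e = (dS e, dR e) := fun e => rfl
  have hd : Function.Injective d := by
    rw [← LinearMap.ker_eq_bot, LinearMap.ker_eq_bot']
    intro e he
    rw [hd_apply] at he
    have h := Prod.ext_iff.1 he
    exact h4 e h.1 h.2
  -- the transposed pairing
  let Ψ : E →ₗ[F] Dual F (JS × JR) := β.flip
  have hΨ : Function.Injective Ψ := by
    rw [← LinearMap.ker_eq_bot, LinearMap.ker_eq_bot']
    intro e he
    refine h2 e fun j => ?_
    have := LinearMap.congr_fun he j
    simpa [Ψ] using this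
  let X : Submodule F E := U.comap dR
  let Z : Submodule F E := X ⊓ LinearMap.ker dS
  let Uin : Submodule F (JS × JR) := U.map (LinearMap.inr F JS JR)
  let W : Submodule F (JS × JR) := LinearMap.range d ⊔ Uin
  let W' : Submodule F (JS × JR) := (X.map Ψ).dualCoannihilator
  -- `j ∈ W'`
  have hjW' : j ∈ W' := by
    rw [Submodule.mem_dualCoannihilator]
    rintro φ ⟨e, he, rfl⟩
    exact hj e he
  -- `W ≤ W'`
  have hWW' : W ≤ W' := by
    refine sup_le ?_ ?_
    · rintro _ ⟨e', rfl⟩
      rw [Submodule.mem_dualCoannihilator]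
      rintro φ ⟨e, -, rfl⟩
      exact h1 e' e
    · rintro _ ⟨u, hu, rfl⟩
      rw [Submodule.mem_dualCoannihilator]
      rintro φ ⟨e, he, rfl⟩
      exact h6 u hu e he
  -- dimension counts
  have ha : finrank F X + finrank F W' = finrank F JS + finrank F JR := by
    have h := Subspace.finrank_add_finrank_dualCoannihilator_eq (X.map Ψ)
    rw [← (Submodule.equivMapOfInjective Ψ hΨ X).finrank_eq, Module.finrank_prod] at h
    exact h
  have hinf : LinearMap.range d ⊓ Uin = Z.map d := by
    ext x
    constructor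
    · rintro ⟨⟨e, rfl⟩, u, hu, hue⟩
      rw [hd_apply, LinearMap.inr_apply] at hue
      have h := Prod.ext_iff.1 hue
      refine ⟨e, ⟨?_, ?_⟩, rfl⟩
      · show dR e ∈ U
        have h2' : u = dR e := h.2
        rw [← h2']; exact hu
      · exact LinearMap.mem_ker.2 h.1.symm
    · rintro ⟨e, ⟨he1, he2⟩, rfl⟩
      refine ⟨⟨e, rfl⟩, dR e, he1, ?_⟩
      rw [hd_apply, LinearMap.inr_apply, LinearMap.mem_ker.1 he2]
  have hb : finrank F W + finrank F Z = finrank F E + finrank F U := by
    have h := Submodule.finrank_sup_add_finrank_inf_eq (LinearMap.range d) Uin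
    rw [hinf, ← (Submodule.equivMapOfInjective d hd Z).finrank_eq,
      LinearMap.finrank_range_of_inj hd,
      ← (Submodule.equivMapOfInjective (LinearMap.inr F JS JR) LinearMap.inr_injective U).finrank_eq]
      at h
    exact h
  have hc : finrank F X + finrank F ↥(LinearMap.range dR ⊔ U) = finrank F E + finrank F U :=
    finrank_comap_add_finrank_sup dR U
  -- `Z` embeds into the annihilator of `range dR ⊔ U`
  have hdd : finrank F Z + finrank F ↥(LinearMap.range dR ⊔ U) ≤ finrank F JR := by
    let Γ : Z →ₗ[F] Dual F JR :=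
      ((LinearMap.inr F JS JR).dualMap.comp Ψ).comp Z.subtype
    have hΓ_apply : ∀ (e : Z) (y : JR), Γ e y = β (0, y) (e : E) := fun e y => rfl
    have hΓinj : Function.Injective Γ := by
      rw [← LinearMap.ker_eq_bot, LinearMap.ker_eq_bot']
      intro e he
      apply Subtype.ext
      refine h2 (e : E) fun j => ?_
      have hsplit : j = (j.1, 0) + (0, j.2) := by
        ext <;> simp
      rw [hsplit, map_add, LinearMap.add_apply, h7 j.1 (e : E) (LinearMap.mem_ker.1 e.2.2) e.2.1,
        zero_add, ← hΓ_apply, he]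
      rfl
    have hΓrange : LinearMap.range Γ ≤ (LinearMap.range dR ⊔ U).dualAnnihilator := by
      rintro _ ⟨e, rfl⟩
      rw [Submodule.mem_dualAnnihilator]
      intro y hy
      obtain ⟨y1, ⟨e', rfl⟩, u, hu, rfl⟩ := Submodule.mem_sup.1 hy
      rw [map_add, hΓ_apply, hΓ_apply, h6 u hu (e : E) e.2.1, add_zero]
      have h8 : β (0, dR e') (e : E) = β (dS e', dR e') (e : E) - β (dS e', 0) (e : E) := by
        rw [← LinearMap.sub_apply, ← map_sub]
        congr 2
        ext <;> simp
      rw [h8, h1, h7 (dS e') (e : E) (LinearMap.mem_ker.1 e.2.2) e.2.1, sub_zero]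
    have h9 := Subspace.finrank_add_finrank_dualAnnihilator_eq (LinearMap.range dR ⊔ U)
    have h10 : finrank F Z ≤ finrank F ↥(LinearMap.range dR ⊔ U).dualAnnihilator := by
      rw [← LinearMap.finrank_range_of_inj hΓinj]
      exact Submodule.finrank_mono hΓrange
    omega
  -- conclusion: `W = W'`
  have hfin : finrank F W' ≤ finrank F W := by omega
  have hW : W = W' := Submodule.eq_of_le_of_finrank_le hWW' hfin
  rw [← hW] at hjW'
  obtain ⟨y1, ⟨e', rfl⟩, y2, ⟨u, hu, rfl⟩, hy⟩ := Submodule.mem_sup.1 hjW'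
  refine ⟨e', u, hu, ?_⟩
  rw [← hy, hd_apply, LinearMap.inr_apply]
  ext <;> simp

end Descent

end Fermat.Agent.CFT.H51
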