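/-
CFT layer C, package C-EXIST (helper51), part (NG): "the norm group is everything".

`L/K` Galois, unramified outside `T`, `Cl_T(K) = 0`.  If every `T`-idele of `K` is, modulo a
`T`-unit, a norm from the `T`-ideles of `L`, then every Galois-invariant class of `CS T L` is a
norm.  Together with the first inequality (helper63) this is the engine of the KEY lemma of the
existence theorem and of the descent `T → S`.
-/
import Fermat.Agent.CFT.H23_CDescent
import Fermat.Agent.CFT.H51_ExistHybrid

set_option autoImplicit false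

namespace Fermat.Agent.CFT.H51

open scoped TensorProduct NumberField
open IsDedekindDomain Fermat.Agent.CFT.H23 Fermat.Agent.CFT.H42 Fermat.Agent.CFT.H10

noncomputable section

variable (T : Finset Nat.Primes) (K L : Type*) [Field K] [NumberField K] [Field L] [NumberField L]
  [Algebra K L]

/-- `jsToCS` kills the `T`-units. -/
theorem jsToCS_diagJ_of_mem {e : Kˣ} (he : e ∈ unitsS T K) : jsToCS T K (diagJ T K e) = 1 := by
  have : diagJ T K e ∈ (jsToCS T K).ker := by
    rw [ker_jsToCS]
    exact ⟨⟨e, he⟩, rfl⟩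
  exact this

theorem CS_baseChange_jsToCS (j : JS T K) :
    CS.baseChange T K L (jsToCS T K j) = jsToCS T L (JS.baseChange T K L j) := by
  rw [jsToCS_apply, jsToCS_apply, CS.baseChange_toCS]
  congr 1
  refine Prod.ext rfl ?_
  show Multiplicative.ofAdd (DivS.baseChange T K L (Multiplicative.toAdd (1 : Multiplicative (DivS T K)))) = 1
  rw [toAdd_one, map_zero]
  rfl

variable [FiniteDimensional K L]

/-- `jsToCS` is Galois equivariant. -/
theorem smul_jsToCS (τ : L ≃ₐ[K] L) (y : JS T L) : τ • jsToCS T L y = jsToCS T L (τ • y) := by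
  rw [jsToCS_apply, jsToCS_apply, smul_toCS]
  congr 1

theorem jsToCS_prod_smul (y : JS T L) :
    jsToCS T L (∏ τ : L ≃ₐ[K] L, τ • y) = ∏ τ : L ≃ₐ[K] L, τ • jsToCS T L y := by
  rw [map_prod]
  exact Finset.prod_congr rfl fun τ _ => (smul_jsToCS T K L τ y).symm

/-- **(NG)** If `L/K` is Galois and unramified outside `T`, `Cl_T(K) = 0`, and every `T`-idele
of `K` is a norm from `L` up to a `T`-unit of `K`, then every Galois-invariant class of `CS T L`
is a norm. -/
theorem fixed_mem_range_norm [IsGalois K L] (hT : T.Nonempty) (hur : UnramOutside T K L)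
    (hCl : ClassTrivial T K)
    (hloc : ∀ j : JS T K, ∃ e ∈ unitsS T K, ∃ y : JS T L,
      JS.baseChange T K L (j / diagJ T K e) = ∏ τ : L ≃ₐ[K] L, τ • y)
    (c : CS T L) (hc : ∀ τ : L ≃ₐ[K] L, τ • c = c) :
    ∃ y : CS T L, c = ∏ τ : L ≃ₐ[K] L, τ • y := by
  obtain ⟨cK, rfl⟩ := (mem_range_CS_baseChange_iff T K L hT hur c).2 hc
  obtain ⟨j, rfl⟩ := jsToCS_surjective T K hCl cK
  obtain ⟨e, he, y, hy⟩ := hloc j
  refine ⟨jsToCS T L y, ?_⟩
  rw [← jsToCS_prod_smul, ← hy, ← CS_baseChange_jsToCS, map_div, jsToCS_diagJ_of_mem T K he,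
    div_one]

end

end Fermat.Agent.CFT.H51
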