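/-
CFT layer C, package C-EXIST (helper51): first inequality + (NG) = there is NO cyclic extension
`L/K` of odd prime degree, unramified outside `T` (`Cl_T(K) = 0`), such that every `T`-idele of
`K` is a norm from `L` up to a `T`-unit.  This is the form in which the first inequality enters
the KEY lemma and the descent `T → S` of the existence theorem.
-/
import Fermat.Agent.CFT.H51_ExistNormAll
import Fermat.Agent.CFT.H51_ExistFirst

set_option autoImplicit false

namespace Fermat.Agent.CFT.H51

open IsDedekindDomain NumberField Module
open Fermat.Agent.CFT.H23 Fermat.Agent.CFT.H6 Fermat.Agent.CFT.H63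

noncomputable section

variable (T : Finset Nat.Primes) {K L : Type*} [Field K] [NumberField K] [Field L]
  [NumberField L] [Algebra K L] [IsGalois K L] {p : ℕ} [hp : Fact p.Prime]

/-- **No full norm group**: for `L/K` cyclic of odd prime degree `p`, unramified outside `T`,
with `Cl_T(K) = 0`, it is impossible that every `T`-idele of `K` is a norm from `L` modulo the
`T`-units of `K`. -/
theorem false_of_forall_norm (hT : T.Nonempty) (hCl : ClassTrivial T K) (hp2 : p ≠ 2)
    (hKL : Module.finrank K L = p) (σ : L ≃ₐ[K] L)
    (hσ : ∀ τ : L ≃ₐ[K] L, τ ∈ Subgroup.zpowers σ) (hur : UnramOutside T K L)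
    (hA : LocalHerbrand T p σ)
    (hloc : ∀ j : JS T K, ∃ e ∈ unitsS T K, ∃ y : JS T L,
      JS.baseChange T K L (j / diagJ T K e) = ∏ τ : L ≃ₐ[K] L, τ • y) : False := by
  have := finiteDimensional_of_numberField K L
  exact not_forall_fixed_mem_range_norm T hp2 hKL σ hσ hT hA
    (fun c hc => fixed_mem_range_norm T K L hT hur hCl hloc c hc)

end

end Fermat.Agent.CFT.H51
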