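/-
CFT / C-CYCLO-tame, part A (helper51): primes `l` for which a given integer `q` has exact
order `ℓ ^ K` modulo `l` (prime divisors of the cyclotomic value `Φ_{ℓ^K}(q)` other than `ℓ`).
Pure elementary number theory, Mathlib only.
-/
import Mathlib

set_option autoImplicit false

namespace Fermat.Agent.CFT.H51

open Finset

/-- `Φ = 1 + s + ⋯ + s^(ℓ-1)` is never divisible by `ℓ ^ 2` (for `ℓ = 2` assuming `4 ∣ s - 1`). -/
lemma not_sq_dvd_geomSum {ℓ : ℕ} (hℓ : ℓ.Prime) {s : ℕ} (hs : 2 ≤ s)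
    (h4 : ℓ = 2 → 4 ∣ s - 1) : ¬ ℓ ^ 2 ∣ ∑ i ∈ range ℓ, s ^ i := by
  intro hdvd
  have : Fact ℓ.Prime := ⟨hℓ⟩
  have hmul : (∑ i ∈ range ℓ, s ^ i) * (s - 1) = s ^ ℓ - 1 :=
    geom_sum_mul_of_one_le (by omega) ℓ
  have hΦpos : 0 < ∑ i ∈ range ℓ, s ^ i := by
    have : s ^ 0 ≤ ∑ i ∈ range ℓ, s ^ i :=
      Finset.single_le_sum (f := fun i => s ^ i) (fun i _ => Nat.zero_le _)
        (Finset.mem_range.mpr hℓ.pos)
    exact Nat.lt_of_lt_of_le Nat.one_pos (by simpa using this)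
  rcases hℓ.eq_two_or_odd' with h2 | hodd
  · subst h2
    have h4' := h4 rfl
    simp [Finset.sum_range_succ] at hdvd
    omega
  · -- `ℓ ∣ s - 1`
    have hℓΦ : ℓ ∣ ∑ i ∈ range ℓ, s ^ i := dvd_trans (dvd_pow_self ℓ two_ne_zero) hdvd
    have h1 : ℓ ∣ s ^ ℓ - 1 := hmul ▸ Dvd.dvd.mul_right hℓΦ _
    have hs1 : ℓ ∣ s - 1 := by
      have hz : ((s ^ ℓ - 1 : ℕ) : ZMod ℓ) = 0 := (ZMod.natCast_eq_zero_iff _ _).mpr h1
      have hpow : 1 ≤ s ^ ℓ := Nat.one_le_pow _ _ (by omega)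
      rw [Nat.cast_sub hpow, Nat.cast_pow, ZMod.pow_card, Nat.cast_one] at hz
      rw [← ZMod.natCast_eq_zero_iff, Nat.cast_sub (by omega), Nat.cast_one]
      exact hz
    have hns : ¬ ℓ ∣ s := by
      intro h
      have : ℓ ∣ 1 := by
        have := (Nat.dvd_sub h hs1)
        have h' : s - (s - 1) = 1 := by omega
        rwa [h'] at this
      exact hℓ.one_lt.ne' (Nat.dvd_one.mp this)
    have hlte := padicValNat.pow_sub_pow (p := ℓ) hodd (x := s) (y := 1) (by omega)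
      (by simpa using hs1) hns hℓ.ne_zero
    rw [one_pow, ← hmul, padicValNat.mul hΦpos.ne' (by omega), padicValNat_self] at hlte
    have hv : padicValNat ℓ (∑ i ∈ range ℓ, s ^ i) = 1 := by omega
    have := (padicValNat_dvd_iff_le (p := ℓ) hΦpos.ne').mp hdvd
    omega

/-- a prime divisor `l ≠ ℓ` of `Φ = 1 + s + ⋯ + s^(ℓ-1)` -/
lemma exists_prime_ne_dvd_geomSum {ℓ : ℕ} (hℓ : ℓ.Prime) {s : ℕ} (hs : 2 ≤ s) (hsℓ : ℓ ≤ s)
    (h4 : ℓ = 2 → Odd s → 4 ∣ s - 1) :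
    ∃ l : ℕ, l.Prime ∧ l ≠ ℓ ∧ l ∣ ∑ i ∈ range ℓ, s ^ i := by
  obtain ⟨Φ, hΦdef⟩ : ∃ Φ, Φ = ∑ i ∈ range ℓ, s ^ i := ⟨_, rfl⟩
  rw [← hΦdef]
  have hΦgt : ℓ < Φ := by
    have h1 : s ^ 0 + s ^ 1 ≤ Φ := by
      rw [hΦdef]
      have hsub : ({0, 1} : Finset ℕ) ⊆ range ℓ := by
        intro i hi
        have := hℓ.two_le
        simp only [Finset.mem_insert, Finset.mem_singleton] at hi
        rw [Finset.mem_range]
        omega
      calc s ^ 0 + s ^ 1 = ∑ i ∈ ({0, 1} : Finset ℕ), s ^ i := by simp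
        _ ≤ ∑ i ∈ range ℓ, s ^ i :=
          Finset.sum_le_sum_of_subset_of_nonneg hsub (fun i _ _ => Nat.zero_le _)
    simp only [pow_zero, pow_one] at h1
    omega
  by_cases hdiv : ℓ ∣ Φ
  · -- `Φ = ℓ * c`, `ℓ ∤ c`, `1 < c`
    obtain ⟨c, hc⟩ := hdiv
    have h4' : ℓ = 2 → 4 ∣ s - 1 := by
      intro h2
      refine h4 h2 ?_
      subst h2
      rw [hΦdef] at hc
      simp [Finset.sum_range_succ] at hc
      rw [Nat.odd_iff]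
      omega
    have hnsq : ¬ ℓ ^ 2 ∣ Φ := hΦdef ▸ not_sq_dvd_geomSum hℓ hs h4'
    have hc1 : c ≠ 1 := by
      rintro rfl
      omega
    have hcℓ : ¬ ℓ ∣ c := by
      rintro ⟨d, rfl⟩
      exact hnsq ⟨d, by rw [hc]; ring⟩
    obtain ⟨l, hl, hlc⟩ := Nat.exists_prime_and_dvd hc1
    refine ⟨l, hl, ?_, hc ▸ Dvd.dvd.mul_left hlc ℓ⟩
    rintro rfl
    exact hcℓ hlc
  · have hℓpos := hℓ.pos
    obtain ⟨l, hl, hlΦ⟩ := Nat.exists_prime_and_dvd (by omega : Φ ≠ 1)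
    refine ⟨l, hl, ?_, hlΦ⟩
    rintro rfl
    exact hdiv hlΦ

/-- For a prime `ℓ`, `K ≥ 2` and an integer `q ≥ 2` there is a prime `l ≠ ℓ`, `l ∤ q`, such that
`q` has exact multiplicative order `ℓ ^ K` modulo `l`. -/
theorem exists_prime_orderOf_eq_prime_pow {ℓ : ℕ} (hℓ : ℓ.Prime) {K : ℕ} (hK : 2 ≤ K)
    {q : ℕ} (hq : 2 ≤ q) :
    ∃ l : ℕ, l.Prime ∧ l ≠ ℓ ∧ ¬ l ∣ q ∧ orderOf (q : ZMod l) = ℓ ^ K ∧ ℓ ^ K < l := by
  obtain ⟨K', rfl⟩ : ∃ K', K = K' + 1 := ⟨K - 1, by omega⟩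
  have hK' : 1 ≤ K' := by omega
  obtain ⟨s, hsdef⟩ : ∃ s, s = q ^ ℓ ^ K' := ⟨_, rfl⟩
  have hℓK : ℓ ≤ ℓ ^ K' := by
    calc ℓ = ℓ ^ 1 := (pow_one ℓ).symm
      _ ≤ ℓ ^ K' := Nat.pow_le_pow_right hℓ.pos hK'
  have hs2 : 2 ^ ℓ ≤ s := by
    rw [hsdef]
    calc 2 ^ ℓ ≤ q ^ ℓ := Nat.pow_le_pow_left hq ℓ
      _ ≤ q ^ ℓ ^ K' := Nat.pow_le_pow_right (by omega) hℓK
  have hℓlt : ℓ < 2 ^ ℓ := Nat.lt_two_pow_self
  have hs : 2 ≤ s := by
    have := hℓ.two_le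
    omega
  have h4 : ℓ = 2 → Odd s → 4 ∣ s - 1 := by
    intro h2 hodd
    subst h2
    -- `s = (q ^ 2 ^ (K'-1)) ^ 2` is an odd square
    obtain ⟨K'', rfl⟩ : ∃ K'', K' = K'' + 1 := ⟨K' - 1, by omega⟩
    have hsq : s = (q ^ 2 ^ K'') ^ 2 := by rw [hsdef, ← pow_mul, pow_succ]
    obtain ⟨r, hr⟩ : ∃ r, r = q ^ 2 ^ K'' := ⟨_, rfl⟩
    rw [← hr] at hsq
    have hrodd : Odd r := by
      rcases Nat.even_or_odd r with he | ho
      · exfalso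
        have : Even s := by rw [hsq]; exact Nat.even_pow.mpr ⟨he, by norm_num⟩
        exact (Nat.not_even_iff_odd.mpr hodd) this
      · exact ho
    obtain ⟨m, hm⟩ := hrodd
    rw [hsq, hm]
    refine ⟨m * m + m, ?_⟩
    have : (2 * m + 1) ^ 2 = 4 * (m * m + m) + 1 := by ring
    omega
  obtain ⟨l, hl, hlℓ, hlΦ⟩ := exists_prime_ne_dvd_geomSum hℓ hs (by omega) h4
  have : Fact l.Prime := ⟨hl⟩
  have hsum : ∑ i ∈ range ℓ, (s : ZMod l) ^ i = 0 := by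
    have := (ZMod.natCast_eq_zero_iff _ _).mpr hlΦ
    simpa using this
  have hs1 : (s : ZMod l) ≠ 1 := by
    intro h1
    rw [h1] at hsum
    simp only [one_pow, Finset.sum_const, Finset.card_range, nsmul_eq_mul, mul_one] at hsum
    rw [ZMod.natCast_eq_zero_iff] at hsum
    exact hlℓ ((Nat.prime_dvd_prime_iff_eq hl hℓ).mp hsum)
  have hsℓ : (s : ZMod l) ^ ℓ = 1 := by
    have := geom_sum_mul (s : ZMod l) ℓ
    rw [hsum, zero_mul] at this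
    exact (sub_eq_zero.mp this.symm)
  have hq0 : ¬ l ∣ q := by
    intro h
    have hq' : (q : ZMod l) = 0 := (ZMod.natCast_eq_zero_iff _ _).mpr h
    have : (s : ZMod l) = 0 := by
      rw [hsdef, Nat.cast_pow, hq', zero_pow (pow_ne_zero _ hℓ.ne_zero)]
    rw [this, zero_pow hℓ.ne_zero] at hsℓ
    exact zero_ne_one hsℓ
  have : Fact ℓ.Prime := ⟨hℓ⟩
  have hord : orderOf (q : ZMod l) = ℓ ^ (K' + 1) := by
    apply orderOf_eq_prime_pow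
    · rw [← Nat.cast_pow, ← hsdef]
      exact hs1
    · rw [pow_succ, pow_mul, ← Nat.cast_pow, ← hsdef]
      exact hsℓ
  refine ⟨l, hl, hlℓ, hq0, hord, ?_⟩
  have hq' : (q : ZMod l) ≠ 0 := fun h => hq0 ((ZMod.natCast_eq_zero_iff _ _).mp h)
  have hdvd := ZMod.orderOf_dvd_card_sub_one hq'
  rw [hord] at hdvd
  have hl2 := hl.two_le
  have := Nat.le_of_dvd (by omega) hdvd
  omega

end Fermat.Agent.CFT.H51
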