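/-
CFT / C-CYCLO-tame, part B (helper51): characters of a finite abelian group taking values of large
`ℓ`-power order on finitely many prescribed elements (counting in the dual group).
Mathlib only.
-/
import Mathlib

set_option autoImplicit false

namespace Fermat.Agent.CFT.H51

open Finset

/-- A finite group is not covered by finitely many subgroups whose cardinalities sum to less
than the order of the group. -/
lemma exists_forall_not_mem_subgroup {G : Type*} [Group G] [Finite G] {ι : Type*} (t : Finset ι)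
    (H : ι → Subgroup G) (h : ∑ j ∈ t, Nat.card (H j) < Nat.card G) :
    ∃ g : G, ∀ j ∈ t, g ∉ H j := by
  classical
  by_contra hcon
  push Not at hcon
  have : Fintype G := Fintype.ofFinite G
  have hcover : (Finset.univ : Finset G) ⊆ t.biUnion (fun j => (Finset.univ.filter (· ∈ H j))) := by
    intro g _
    obtain ⟨j, hj, hg⟩ := hcon g
    exact Finset.mem_biUnion.mpr ⟨j, hj, by simpa using hg⟩
  have h1 : Fintype.card G ≤ ∑ j ∈ t, (Finset.univ.filter (· ∈ H j)).card :=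
    (Finset.card_le_card hcover).trans Finset.card_biUnion_le
  have h2 : ∀ j, (Finset.univ.filter (· ∈ H j)).card = Nat.card (H j) := by
    intro j
    rw [Nat.card_eq_fintype_card, Fintype.card_subtype]
  simp only [h2] at h1
  rw [Nat.card_eq_fintype_card] at h
  omega

variable {A : Type*} [CommGroup A] [Finite A]

/-- the characters killing `h` form a subgroup of the dual of index `orderOf h` -/
lemma card_ker_eval_mul_orderOf (h : A) :
    Nat.card (MonoidHom.domRestrictHom (Subgroup.zpowers h) ℂˣ).ker * orderOf h = Nat.card A := by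
  rw [CommGroup.card_domRestrictHom_ker (M := ℂ) (Subgroup.zpowers h), ← Nat.card_zpowers h]
  exact (Subgroup.card_eq_card_quotient_mul_card_subgroup _).symm

omit [Finite A] in
lemma mem_ker_domRestrictHom_zpowers_iff (h : A) (χ : A →* ℂˣ) :
    χ ∈ (MonoidHom.domRestrictHom (Subgroup.zpowers h) ℂˣ).ker ↔ χ h = 1 := by
  rw [MonoidHom.mem_ker]
  constructor
  · intro hχ
    have := DFunLike.congr_fun hχ ⟨h, Subgroup.mem_zpowers h⟩
    simpa using this
  · intro hχ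
    ext ⟨x, hx⟩
    obtain ⟨n, rfl⟩ := Subgroup.mem_zpowers_iff.mp hx
    simp [map_zpow, hχ]

/-- **Avoiding finitely many kernels**: if `∑ |A| / ord(h_j) < |A|` there is a character `χ` of
`A` with `χ (h j) ≠ 1` for all `j`. -/
theorem exists_char_forall_ne_one {ι : Type*} (t : Finset ι) (h : ι → A)
    (hsum : ∑ j ∈ t, Nat.card A / orderOf (h j) < Nat.card A) :
    ∃ χ : A →* ℂˣ, ∀ j ∈ t, χ (h j) ≠ 1 := by
  have : Finite (A →* ℂˣ) := inferInstance
  have hcard : Nat.card (A →* ℂˣ) = Nat.card A :=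
    CommGroup.card_monoidHom_of_hasEnoughRootsOfUnity A ℂ
  obtain ⟨χ, hχ⟩ := exists_forall_not_mem_subgroup t
    (fun j => (MonoidHom.domRestrictHom (Subgroup.zpowers (h j)) ℂˣ).ker) (by
      rw [hcard]
      refine lt_of_le_of_lt (Finset.sum_le_sum fun j _ => ?_) hsum
      have := card_ker_eval_mul_orderOf (h j)
      rw [← this, Nat.mul_div_cancel _ (orderOf_pos _)])
  exact ⟨χ, fun j hj hχj => hχ j hj ((mem_ker_domRestrictHom_zpowers_iff _ _).mpr hχj)⟩

/-- the auxiliary element `g ^ (ℓ^(k-1) * m)` (`m` the prime-to-`ℓ` part of the order of `g`):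
a character that does not kill it takes a value of order divisible by `ℓ ^ k` at `g`. -/
lemma pow_dvd_orderOf_of_ne_one {ℓ : ℕ} (hℓ : ℓ.Prime) {k : ℕ} (hk : 1 ≤ k) {B : Type*} [Monoid B]
    (χ : A →* B) (g : A)
    (hχ : χ (g ^ (ℓ ^ (k - 1) * (orderOf g / ℓ ^ (orderOf g).factorization ℓ))) ≠ 1) :
    ℓ ^ k ∣ orderOf (χ g) := by
  obtain ⟨o, ho⟩ : ∃ o, o = orderOf g := ⟨_, rfl⟩
  obtain ⟨d, hd⟩ : ∃ d, d = orderOf (χ g) := ⟨_, rfl⟩
  rw [← ho] at hχ
  rw [← hd]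
  have ho0 : o ≠ 0 := ho ▸ (orderOf_pos g).ne'
  have hdo : d ∣ o := by
    rw [hd, ho]
    exact orderOf_map_dvd χ g
  have hd0 : d ≠ 0 := fun h => ho0 (Nat.eq_zero_of_zero_dvd (h ▸ hdo))
  by_contra hnd
  apply hχ
  rw [map_pow]
  rw [← orderOf_dvd_iff_pow_eq_one, ← hd]
  -- `d = ℓ^v * d'`
  have hv : d.factorization ℓ < k := by
    by_contra hge
    push Not at hge
    exact hnd ((hℓ.pow_dvd_iff_le_factorization hd0).mpr hge)
  have hdsplit : d = ℓ ^ d.factorization ℓ * (d / ℓ ^ d.factorization ℓ) :=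
    (Nat.ordProj_mul_ordCompl_eq_self d ℓ).symm
  rw [hdsplit]
  refine Nat.mul_dvd_mul (pow_dvd_pow ℓ (by omega)) ?_
  exact Nat.ordCompl_dvd_ordCompl_of_dvd hdo ℓ

/-- the order of the auxiliary element -/
lemma orderOf_aux_pow {ℓ : ℕ} (hℓ : ℓ.Prime) {k : ℕ} (hk : 1 ≤ k) (g : A)
    (hkg : k ≤ (orderOf g).factorization ℓ) :
    orderOf (g ^ (ℓ ^ (k - 1) * (orderOf g / ℓ ^ (orderOf g).factorization ℓ))) =
      ℓ ^ ((orderOf g).factorization ℓ + 1 - k) := by
  obtain ⟨o, ho⟩ : ∃ o, o = orderOf g := ⟨_, rfl⟩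
  rw [← ho] at hkg ⊢
  have ho0 : o ≠ 0 := ho ▸ (orderOf_pos g).ne'
  obtain ⟨a, ha⟩ : ∃ a, a = o.factorization ℓ := ⟨_, rfl⟩
  rw [← ha] at hkg ⊢
  have hsplit : ℓ ^ a * (o / ℓ ^ a) = o := ha ▸ Nat.ordProj_mul_ordCompl_eq_self o ℓ
  have hm0 : o / ℓ ^ a ≠ 0 := by
    intro h
    rw [h, mul_zero] at hsplit
    exact ho0 hsplit.symm
  have hn0 : ℓ ^ (k - 1) * (o / ℓ ^ a) ≠ 0 := mul_ne_zero (pow_ne_zero _ hℓ.ne_zero) hm0
  have hdvd : ℓ ^ (k - 1) * (o / ℓ ^ a) ∣ orderOf g := by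
    rw [← ho]
    conv_rhs => rw [← hsplit]
    exact Nat.mul_dvd_mul (pow_dvd_pow ℓ (by omega)) dvd_rfl
  rw [orderOf_pow_of_dvd hn0 hdvd, ← ho]
  have hpow : ℓ ^ a = ℓ ^ (a + 1 - k) * ℓ ^ (k - 1) := by
    rw [← pow_add]
    congr 1
    omega
  refine Nat.div_eq_of_eq_mul_left (Nat.pos_of_ne_zero hn0) ?_
  rw [← mul_assoc, ← hpow, hsplit]

/-- **Counting lemma**: finitely many requirements `ℓ_i ^ k_i ∣ ord χ(g_i)` can be met by a single
character `χ` as soon as `∑ |A| / ℓ_i ^ (a_i + 1 - k_i) < |A|`, `a_i = v_{ℓ_i}(ord g_i) ≥ k_i`. -/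
theorem exists_char_forall_pow_dvd_orderOf {ι : Type*} (s : Finset ι) (g : ι → A) (ℓ k : ι → ℕ)
    (hℓ : ∀ i ∈ s, (ℓ i).Prime) (hk : ∀ i ∈ s, 1 ≤ k i)
    (hka : ∀ i ∈ s, k i ≤ (orderOf (g i)).factorization (ℓ i))
    (hsum : ∑ i ∈ s, Nat.card A / (ℓ i) ^ ((orderOf (g i)).factorization (ℓ i) + 1 - k i)
      < Nat.card A) :
    ∃ χ : A →* ℂˣ, ∀ i ∈ s, (ℓ i) ^ (k i) ∣ orderOf (χ (g i)) := by
  obtain ⟨χ, hχ⟩ := exists_char_forall_ne_one s
    (fun i => g i ^ ((ℓ i) ^ (k i - 1) *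
      (orderOf (g i) / (ℓ i) ^ (orderOf (g i)).factorization (ℓ i)))) (by
      refine lt_of_le_of_lt (le_of_eq (Finset.sum_congr rfl fun i hi => ?_)) hsum
      rw [orderOf_aux_pow (hℓ i hi) (hk i hi) (g i) (hka i hi)])
  exact ⟨χ, fun i hi => pow_dvd_orderOf_of_ne_one (hℓ i hi) (hk i hi) χ (g i) (hχ i hi)⟩

end Fermat.Agent.CFT.H51
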