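/-
CFT / C-CYCLO-tame, part C (helper51): for every `n ≥ 1` and every finite set `Q` of primes there
is a SQUAREFREE modulus `N` prime to `Q` and a character `χ` of `(ℤ/N)ˣ` with `χ(-1) ≠ 1` and
`n ∣ ord χ(q)` for all `q ∈ Q`.  The fixed field of `ker χ` in `ℚ(ζ_N)` is a cyclic cyclotomic
extension of `ℚ`, only TAMELY ramified, totally complex, in which every `q ∈ Q` has local degree
divisible by `n`.
-/
import Fermat.Agent.CFT.H51_TameCycloA
import Fermat.Agent.CFT.H51_TameCycloB

set_option autoImplicit false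

namespace Fermat.Agent.CFT.H51

open Finset

/-- order of the class of `q` in `(ℤ/N)ˣ` is divisible by its order in `(ℤ/l)ˣ`, `l ∣ N`. -/
lemma orderOf_dvd_orderOf_unit {N l q : ℕ} (hlN : l ∣ N) (u : (ZMod N)ˣ)
    (hu : (u : ZMod N) = (q : ZMod N)) : orderOf (q : ZMod l) ∣ orderOf u := by
  have h1 : ((ZMod.unitsMap hlN u : (ZMod l)ˣ) : ZMod l) = (q : ZMod l) := by
    rw [ZMod.unitsMap_def, Units.coe_map, MonoidHom.coe_coe, hu, map_natCast]
  rw [← h1, orderOf_units]
  exact orderOf_map_dvd _ u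

/-- the final arithmetic inequality of the union bound -/
lemma union_bound_arith {a M x y : ℕ} (ha : 0 < a) (hx : 2 ^ (2 * M + 1) * x ≤ a)
    (hy : y ≤ M * x) : a / 2 + y < a := by
  have h2 : 2 * M + 1 < 2 ^ (2 * M + 1) := Nat.lt_two_pow_self
  have h3 : (2 * M + 1) * x ≤ a := le_trans (Nat.mul_le_mul_right x h2.le) hx
  have h4 : 2 * (M * x) + x ≤ a := by
    have : (2 * M + 1) * x = 2 * (M * x) + x := by ring
    omega
  rcases Nat.eq_zero_or_pos x with h0 | hpos
  · subst h0
    simp only [mul_zero, nonpos_iff_eq_zero] at hy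
    omega
  · omega

theorem exists_dirichlet_char_orderOf {n : ℕ} (hn : 0 < n) (Q : Finset ℕ)
    (hQ : ∀ q ∈ Q, q.Prime) :
    ∃ N : ℕ, 2 < N ∧ Squarefree N ∧ (∀ q ∈ Q, q.Coprime N) ∧
      ∃ χ : (ZMod N)ˣ →* ℂˣ, χ (-1) ≠ 1 ∧
        ∀ q ∈ Q, ∀ u : (ZMod N)ˣ, (u : ZMod N) = (q : ZMod N) → n ∣ orderOf (χ u) := by
  classical
  obtain ⟨pairs, hpairs⟩ : ∃ pairs : Finset (ℕ × ℕ), pairs = Q ×ˢ n.primeFactors := ⟨_, rfl⟩
  obtain ⟨M, hM⟩ : ∃ M, M = pairs.card := ⟨_, rfl⟩
  obtain ⟨B, hB⟩ : ∃ B, B = Q.sup id := ⟨_, rfl⟩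
  obtain ⟨K, hKdef⟩ : ∃ K, K = n + 2 * M + 2 + B := ⟨_, rfl⟩
  have hmem : ∀ x ∈ pairs, x.1.Prime ∧ x.2.Prime ∧ x.2 ∣ n := by
    intro x hx
    rw [hpairs, Finset.mem_product] at hx
    exact ⟨hQ _ hx.1, Nat.prime_of_mem_primeFactors hx.2, Nat.dvd_of_mem_primeFactors hx.2⟩
  have hex : ∀ x ∈ pairs, ∃ l : ℕ, l.Prime ∧ l ≠ x.2 ∧ ¬ l ∣ x.1 ∧
      orderOf (x.1 : ZMod l) = x.2 ^ K ∧ x.2 ^ K < l := by
    intro x hx
    exact exists_prime_orderOf_eq_prime_pow (hmem x hx).2.1 (by omega) (hmem x hx).1.two_le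
  choose! l hl using hex
  -- an auxiliary odd prime `l0`, larger than all `q ∈ Q`
  obtain ⟨l0, hl0B, hl0⟩ := Nat.exists_infinite_primes (B + 3)
  obtain ⟨S, hS⟩ : ∃ S : Finset ℕ, S = insert l0 (pairs.image l) := ⟨_, rfl⟩
  have hSprime : ∀ p ∈ S, p.Prime := by
    intro p hp
    rw [hS, Finset.mem_insert, Finset.mem_image] at hp
    rcases hp with rfl | ⟨x, hx, rfl⟩
    · exact hl0
    · exact (hl x hx).1
  have hSbig : ∀ p ∈ S, B < p := by
    intro p hp
    rw [hS, Finset.mem_insert, Finset.mem_image] at hp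
    rcases hp with rfl | ⟨x, hx, rfl⟩
    · omega
    · have h1 := (hl x hx).2.2.2.2
      have h2 : K < 2 ^ K := Nat.lt_two_pow_self
      have h3 : 2 ^ K ≤ x.2 ^ K := Nat.pow_le_pow_left (hmem x hx).2.1.two_le K
      omega
  obtain ⟨N, hN⟩ : ∃ N, N = ∏ p ∈ S, p := ⟨_, rfl⟩
  have hSdvd : ∀ p ∈ S, p ∣ N := fun p hp => hN ▸ Finset.dvd_prod_of_mem _ hp
  have hNsq : Squarefree N := by
    rw [hN]
    refine Finset.squarefree_prod_of_pairwise_isCoprime (fun p hp p' hp' hpp' => ?_)
      (fun p hp => (hSprime p hp).squarefree)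
    simp only [Function.onFun, ← Nat.coprime_iff_isRelPrime]
    exact (Nat.coprime_primes (hSprime p hp) (hSprime p' hp')).mpr hpp'
  have hNpos : 0 < N := Nat.pos_of_ne_zero hNsq.ne_zero
  have hN2 : 2 < N := by
    have h1 : l0 ∣ N := hSdvd l0 (by rw [hS]; exact Finset.mem_insert_self _ _)
    have := Nat.le_of_dvd hNpos h1
    omega
  have hQcop : ∀ q ∈ Q, q.Coprime N := by
    intro q hq
    rw [hN]
    refine Nat.Coprime.prod_right fun p hp => ?_
    rw [Nat.coprime_primes (hQ q hq) (hSprime p hp)]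
    have h1 : q ≤ B := by
      rw [hB]
      exact Finset.le_sup (f := id) hq
    have h2 := hSbig p hp
    omega
  refine ⟨N, hN2, hNsq, hQcop, ?_⟩
  have : NeZero N := ⟨hNpos.ne'⟩
  have : Fact (2 < N) := ⟨hN2⟩
  -- the elements `g q`
  obtain ⟨g, hg⟩ : ∃ g : ℕ → (ZMod N)ˣ, ∀ q ∈ Q, ((g q : (ZMod N)ˣ) : ZMod N) = (q : ZMod N) := by
    refine ⟨fun q => if h : q.Coprime N then ZMod.unitOfCoprime q h else 1, fun q hq => ?_⟩
    simp only [dif_pos (hQcop q hq), ZMod.coe_unitOfCoprime]
  -- `-1` has order `2`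
  have hneg : orderOf (-1 : (ZMod N)ˣ) = 2 := by
    have : Fact (Nat.Prime 2) := ⟨Nat.prime_two⟩
    refine orderOf_eq_prime (by simp) ?_
    intro h
    have h' := congrArg (fun u : (ZMod N)ˣ => (u : ZMod N)) h
    simp only [Units.val_neg, Units.val_one] at h'
    exact ZMod.neg_one_ne_one h'
  -- orders of the `g q`
  have hord : ∀ x ∈ pairs, x.2 ^ K ∣ orderOf (g x.1) := by
    intro x hx
    have hlS : l x ∈ S := by
      rw [hS]
      exact Finset.mem_insert_of_mem (Finset.mem_image_of_mem l hx)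
    have hxQ : x.1 ∈ Q := by
      rw [hpairs, Finset.mem_product] at hx
      exact hx.1
    have := orderOf_dvd_orderOf_unit (hSdvd _ hlS) (g x.1) (hg x.1 hxQ)
    rwa [(hl x hx).2.2.2.1] at this
  have hfac : ∀ x ∈ pairs, K ≤ (orderOf (g x.1)).factorization x.2 := by
    intro x hx
    exact ((hmem x hx).2.1.pow_dvd_iff_le_factorization (orderOf_pos _).ne').mp (hord x hx)
  have hkn : ∀ x ∈ pairs, 1 ≤ n.factorization x.2 ∧ n.factorization x.2 ≤ n := by
    intro x hx
    exact ⟨(hmem x hx).2.1.factorization_pos_of_dvd hn.ne' (hmem x hx).2.2,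
      (Nat.factorization_lt x.2 hn.ne').le⟩
  -- apply the counting lemma
  obtain ⟨χ, hχ⟩ := exists_char_forall_pow_dvd_orderOf (A := (ZMod N)ˣ)
    (Finset.insertNone pairs)
    (fun o => o.elim (-1) (fun x => g x.1))
    (fun o => o.elim 2 (fun x => x.2))
    (fun o => o.elim 1 (fun x => n.factorization x.2))
    (by
      intro o ho
      cases o with
      | none => exact Nat.prime_two
      | some x => exact (hmem x (Finset.some_mem_insertNone.mp ho)).2.1)
    (by
      intro o ho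
      cases o with
      | none => exact le_rfl
      | some x => exact (hkn x (Finset.some_mem_insertNone.mp ho)).1)
    (by
      intro o ho
      cases o with
      | none =>
        simp only [Option.elim_none, hneg]
        simp [Nat.Prime.factorization_self Nat.prime_two]
      | some x =>
        have hx := Finset.some_mem_insertNone.mp ho
        simp only [Option.elim_some]
        have := hfac x hx
        have := (hkn x hx).2
        omega)
    (by
      rw [Finset.sum_insertNone]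
      simp only [Option.elim_none, Option.elim_some, hneg,
        Nat.Prime.factorization_self Nat.prime_two]
      obtain ⟨a, ha⟩ : ∃ a, a = Nat.card (ZMod N)ˣ := ⟨_, rfl⟩
      rw [← ha]
      have hapos : 0 < a := ha ▸ Nat.card_pos
      have hterm : ∀ x ∈ pairs,
          a / x.2 ^ ((orderOf (g x.1)).factorization x.2 + 1 - n.factorization x.2) ≤
            a / 2 ^ (2 * M + 1) := by
        intro x hx
        refine Nat.div_le_div_left ?_ (by positivity)
        have h1 := hfac x hx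
        have h2 := (hkn x hx).2
        calc 2 ^ (2 * M + 1) ≤ x.2 ^ (2 * M + 1) :=
              Nat.pow_le_pow_left (hmem x hx).2.1.two_le _
          _ ≤ x.2 ^ ((orderOf (g x.1)).factorization x.2 + 1 - n.factorization x.2) :=
              Nat.pow_le_pow_right (hmem x hx).2.1.pos (by omega)
      have hsum := Finset.sum_le_sum hterm
      rw [Finset.sum_const, smul_eq_mul, ← hM] at hsum
      have h2 : a / 2 ^ (1 + 1 - 1) = a / 2 := by norm_num
      rw [h2]
      exact union_bound_arith hapos (Nat.mul_div_le a _) hsum)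
  refine ⟨χ, ?_, ?_⟩
  · have h := hχ none (Finset.none_mem_insertNone)
    simp only [Option.elim_none, pow_one] at h
    intro h1
    rw [h1, orderOf_one] at h
    exact absurd h (by norm_num)
  · intro q hq u hu
    have hug : u = g q := by
      apply Units.ext
      rw [hu, hg q hq]
    rw [hug, Nat.dvd_iff_prime_pow_dvd_dvd]
    intro p k hp hpk
    rcases Nat.eq_zero_or_pos k with rfl | hkpos
    · simp
    have hpn : p ∣ n := dvd_trans (dvd_pow_self p hkpos.ne') hpk
    have hx : (q, p) ∈ pairs := by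
      rw [hpairs, Finset.mem_product]
      exact ⟨hq, Nat.mem_primeFactors.mpr ⟨hp, hpn, hn.ne'⟩⟩
    have h := hχ (some (q, p)) (Finset.some_mem_insertNone.mpr hx)
    simp only [Option.elim_some] at h
    exact dvd_trans (pow_dvd_pow p ((hp.pow_dvd_iff_le_factorization hn.ne').mp hpk)) h

end Fermat.Agent.CFT.H51
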