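import Fermat.Agent.CFT.H74_CarryNormP
import Fermat.Agent.CFT.H1_LevelLES
import Fermat.Agent.CFT.H50_LevelRes

/-!
# Classes killed by restriction to `ker χ` are carry classes  (CFT layer D, D2c)

Level-cohomology form of "inflation–restriction for a cyclic quotient", with `p`-primary
hypotheses only.  For a short exact sequence `0 → C → I → Q → 0` with `I` discrete, `n`-divisible
and level-acyclic in degrees `1, 2`, a level character `χ : H → ZMod n` with `χ σ = 1`, and an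
`n`-torsion class `x ∈ H²(H; C)` whose restriction to `ker χ` vanishes: `x = [ε_χ • a]` for some
`a ∈ C^H`.  Consequently the carry pairing is right-nondegenerate as soon as `H²(H; C)[n] ≠ 0` and
restriction to `ker χ` kills it.
-/

set_option autoImplicit false
set_option linter.unusedSectionVars false

universe u

open CategoryTheory groupCohomology

namespace Fermat.Agent.CFT.H74

open Fermat.Agent.CFT LevelStructure

variable {k : Type u} [CommRing k] {H : Type u} [Group H] {𝓛 : LevelStructure H}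
variable {n : ℕ} [NeZero n]

/-! ### `1`-cocycles vanishing on `ker χ` -/

section Factor

variable {A : Rep.{u} k H}

/-- A `1`-cocycle vanishing on `ker χ` has `ker χ`-fixed values, factors through `χ`, and is
given by the partial norms of its value at `σ`. -/
theorem cocycle_eq_pnormσ {χ : H → ZMod n} (hχ : IsAddChar χ) {σ : H} (hσ : χ σ = 1)
    (g : H → A) (hg : ∀ u v, g (u * v) = A.ρ u (g v) + g u) (hgK : ∀ κ, χ κ = 0 → g κ = 0) :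
    (∀ u, IsKerFixed χ (g u)) ∧ (∀ u, g u = pnormσ σ (g σ) (χ u).val) ∧
      pnormσ σ (g σ) n = 0 := by
  have hright : ∀ u κ, χ κ = 0 → g (u * κ) = g u := fun u κ hκ => by
    rw [hg, hgK κ hκ, map_zero, zero_add]
  have hfix : ∀ u, IsKerFixed χ (g u) := fun u κ hκ => by
    have h0 : χ (u⁻¹ * κ * u) = 0 := by rw [hχ, hχ, hχ.map_inv, hκ]; ring
    have e : κ * u = u * (u⁻¹ * κ * u) := by group
    have h1 := hg κ u
    rw [hgK κ hκ, add_zero, e, hright u _ h0] at h1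
    exact h1.symm
  have hpow : ∀ m : ℕ, g (σ ^ m) = pnormσ σ (g σ) m := by
    intro m
    induction m with
    | zero => rw [pow_zero, pnormσ_zero, hgK 1 hχ.map_one]
    | succ m ih => rw [pow_succ, hg, ih, pnormσ_succ, add_comm]
  refine ⟨hfix, fun u => ?_, ?_⟩
  · have h0 : χ ((σ ^ (χ u).val)⁻¹ * u) = 0 := by
      rw [hχ, hχ.map_inv, char_pow_of_eq_one hχ hσ, ZMod.natCast_zmod_val]; ring
    have e : u = σ ^ (χ u).val * ((σ ^ (χ u).val)⁻¹ * u) := by group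
    conv_lhs => rw [e]
    rw [hright _ _ h0, hpow]
  · rw [← hpow]
    exact hgK _ (by rw [char_pow_of_eq_one hχ hσ, ZMod.natCast_self])

end Factor

/-! ### Lifting `ker χ`-fixed torsion elements along `I → Q` -/

section Lift

variable {C I Q : Rep.{u} k H} {ι : C ⟶ I} {π : I ⟶ Q}

/-- A `ker χ`-fixed element of `Q` killed by `n` lifts to a `ker χ`-fixed element of `I`, if
`H¹(ker χ; C)` has no `n`-torsion. -/
theorem exists_kerFixed_lift (h : H1.IsSES ι π) (hI : 𝓛.IsDiscrete I) {χ : H → ZMod n}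
    (hχ : IsAddChar χ) (hc : 𝓛.IsConst₁ χ) (hKC : KerH1TorsionFree 𝓛 C χ) (q : Q)
    (hq : IsKerFixed χ q) (hnq : n • q = 0) : ∃ i : I, IsKerFixed χ i ∧ π.hom i = q := by
  classical
  obtain ⟨i₁, hi₁⟩ := h.surj q
  have hex : ∀ u, χ u = 0 → ∃ c : C, ι.hom c = I.ρ u i₁ - i₁ := fun u hu =>
    (h.exact _).1 (by rw [map_sub, Rep.hom_comm_apply, hi₁, hq u hu, sub_self])
  let fc : H → C := fun u => if hu : χ u = 0 then Classical.choose (hex u hu) else 0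
  have hfc : ∀ u, χ u = 0 → ι.hom (fc u) = I.ρ u i₁ - i₁ := fun u hu => by
    simp only [fc, dif_pos hu]
    exact Classical.choose_spec (hex u hu)
  -- level-constancy
  have hfcc : 𝓛.IsConst₁ fc := by
    obtain ⟨N₁, hN₁, hc₁⟩ := hc
    obtain ⟨N₂, hN₂, hfix⟩ := hI i₁
    obtain ⟨N, hN, hle⟩ := 𝓛.directed N₁ hN₁ N₂ hN₂
    refine ⟨N, hN, fun g s hs => ?_⟩
    have hχs : χ (g * s) = χ g := hc₁ g s (hle hs).1
    by_cases hg : χ g = 0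
    · apply h.inj
      rw [hfc _ (hχs.trans hg), hfc _ hg, map_mul, Module.End.mul_apply, hfix s (hle hs).2]
    · have hgs : ¬ χ (g * s) = 0 := fun h' => hg (hχs ▸ h')
      simp only [fc, dif_neg hg, dif_neg hgs]
  -- cocycle on the kernel
  have hcoc : ∀ κ κ', χ κ = 0 → χ κ' = 0 → fc (κ * κ') = C.ρ κ (fc κ') + fc κ := by
    intro κ κ' hκ hκ'
    have hκκ' : χ (κ * κ') = 0 := by rw [hχ, hκ, hκ', add_zero]
    apply h.inj
    rw [map_add, Rep.hom_comm_apply, hfc _ hκκ', hfc _ hκ, hfc _ hκ', map_mul,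
      Module.End.mul_apply, map_sub]
    abel
  -- `n • fc` is a coboundary on the kernel
  obtain ⟨a₁, ha₁⟩ := (h.exact (n • i₁)).1 (by rw [map_nsmul, hi₁, hnq])
  have hn : ∃ c : C, ∀ κ, χ κ = 0 → n • fc κ = C.ρ κ c - c := by
    refine ⟨a₁, fun κ hκ => h.inj ?_⟩
    rw [map_nsmul, hfc κ hκ, map_sub, Rep.hom_comm_apply, ha₁, map_nsmul, smul_sub]
  obtain ⟨c₁, hc₁⟩ := hKC fc hfcc hcoc hn
  refine ⟨i₁ - ι.hom c₁, fun κ hκ => ?_, ?_⟩
  · have e1 : I.ρ κ i₁ = i₁ + ι.hom (fc κ) := by rw [hfc κ hκ]; abel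
    rw [map_sub, ← Rep.hom_comm_apply, e1, hc₁ κ hκ, map_sub]
    abel
  · rw [map_sub, hi₁, h.zero, sub_zero]

end Lift


/-! ### The main theorem -/

section Main

variable {C I Q : Rep.{u} k H} {ι : C ⟶ I} {π : I ⟶ Q}

lemma hom_pnormσ (φ : I ⟶ Q) (σ : H) (i : I) (m : ℕ) :
    φ.hom (pnormσ σ i m) = pnormσ σ (φ.hom i) m := by
  unfold pnormσ
  rw [map_sum]
  exact Finset.sum_congr rfl fun j _ => Rep.hom_comm_apply φ _ _

lemma IsKerFixed.hom {χ : H → ZMod n} (φ : I ⟶ Q) {i : I} (hi : IsKerFixed χ i) :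
    IsKerFixed χ (φ.hom i) := fun κ hκ => by
  rw [← Rep.hom_comm_apply, hi κ hκ]

/-- Core: a level `2`-cocycle `f` of `C`, whose class is killed by `n`, and which vanishes on
`ker χ × ker χ`, is cohomologous to a carry cocycle. -/
theorem exists_sub_carryCochain_mem_coboundaries₂ (h : H1.IsSES ι π) (hI : 𝓛.IsDiscrete I)
    (hIdiv : ∀ i : I, ∃ i' : I, n • i' = i)
    (hI1 : Subsingleton (𝓛.H1 I)) (hI2 : Subsingleton (𝓛.H2 I))
    (χ : levelChars 𝓛 n) {σ : H} (hσ : χ.1 σ = 1)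
    (hKI : KerH1Vanishes 𝓛 I χ.1) (hKC : KerH1TorsionFree 𝓛 C χ.1)
    (hQdiv : ∀ q : Q, IsKerFixed χ.1 q → ∃ q₁ : Q, IsKerFixed χ.1 q₁ ∧ n • q₁ = q)
    (f : H × H → C) (hf : f ∈ 𝓛.cocycles₂ C) (hfn : n • f ∈ 𝓛.coboundaries₂ C)
    (hres : ∀ κ κ', χ.1 κ = 0 → χ.1 κ' = 0 → f (κ, κ') = 0) :
    ∃ a : ↥(LevelStructure.H0 C), f - carryCochain C χ.1 a.1 ∈ 𝓛.coboundaries₂ C := by
  have hχ := χ.2.1
  have hc := χ.2.2
  -- Step B: `ι ∘ f = d b`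
  have hιf : H1.compL ι (H × H) f ∈ 𝓛.cocycles₂ I := H1.compL_mem_cocycles₂ ι hf
  have hB : H1.compL ι (H × H) f ∈ 𝓛.coboundaries₂ I := by
    have : 𝓛.H2π I ⟨_, hιf⟩ = 0 := Subsingleton.elim _ _
    have h' := (Submodule.Quotient.mk_eq_zero _).mp this
    exact h'
  obtain ⟨b, hb, hdb⟩ := hB
  -- Step C: make `π ∘ b` torsion
  obtain ⟨β₂, hβ₂, hdβ₂⟩ := hfn
  have hz : n • b - H1.compL ι H β₂ ∈ 𝓛.cocycles₁ I := by
    rw [H1.mem_cocycles₁_iff']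
    refine ⟨(𝓛.cochains₁ I).sub_mem ((𝓛.cochains₁ I).smul_of_tower_mem n hb)
      (H1.compL_mem_cochains₁ ι hβ₂), ?_⟩
    rw [map_sub, map_nsmul, hdb, ← H1.compL_d₁₂, hdβ₂, map_nsmul, sub_self]
  have hzB : n • b - H1.compL ι H β₂ ∈ 𝓛.coboundaries₁ I := by
    have : 𝓛.H1π I ⟨_, hz⟩ = 0 := Subsingleton.elim _ _
    have h' := (Submodule.Quotient.mk_eq_zero _).mp this
    exact h'
  obtain ⟨i₁, hi₁⟩ := hzB
  obtain ⟨i₂, hi₂⟩ := hIdiv i₁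
  obtain ⟨b', hb'def⟩ : ∃ b' : H → I, b' = b - (d₀₁ I).hom i₂ := ⟨_, rfl⟩
  have hb' : b' ∈ 𝓛.cochains₁ I := by
    rw [hb'def]
    exact (𝓛.cochains₁ I).sub_mem hb (H1.d₀₁_mem_cochains₁ hI i₂)
  have hdb' : (d₁₂ I).hom b' = H1.compL ι (H × H) f := by
    rw [hb'def, map_sub, H1.d₁₂_d₀₁, sub_zero, hdb]
  have hnb' : n • b' = H1.compL ι H β₂ := by
    rw [hb'def, smul_sub, ← map_nsmul, hi₂, hi₁]
    abel
  -- Step D: `b'` is a coboundary on the kernel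
  have hb'K : ∀ κ κ', χ.1 κ = 0 → χ.1 κ' = 0 → b' (κ * κ') = I.ρ κ (b' κ') + b' κ := by
    intro κ κ' hκ hκ'
    have e := congrFun hdb' (κ, κ')
    rw [d₁₂_hom_apply, H1.compL_apply, hres κ κ' hκ hκ', map_zero] at e
    have e' : I.ρ κ (b' κ') + b' κ - b' (κ * κ') = 0 := by rw [← e]; abel
    exact (sub_eq_zero.mp e').symm
  obtain ⟨i₀, hi₀⟩ := hKI b' hb' hb'K
  have hq₀ : IsKerFixed χ.1 (n • π.hom i₀) := fun κ hκ => by
    have e : n • b' κ = ι.hom (β₂ κ) := congrFun hnb' κ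
    have e2 : π.hom (n • b' κ) = 0 := by rw [e]; exact h.zero _
    rw [hi₀ κ hκ, map_nsmul, map_sub, Rep.hom_comm_apply, smul_sub, sub_eq_zero] at e2
    rw [map_nsmul]
    exact e2
  obtain ⟨q₁, hq₁, hnq₁⟩ := hQdiv _ hq₀
  obtain ⟨i₃, hi₃⟩ := h.surj q₁
  obtain ⟨b'', hb''def⟩ : ∃ b'' : H → I, b'' = b' - (d₀₁ I).hom (i₀ - i₃) := ⟨_, rfl⟩
  have hb'' : b'' ∈ 𝓛.cochains₁ I := by
    rw [hb''def]
    exact (𝓛.cochains₁ I).sub_mem hb' (H1.d₀₁_mem_cochains₁ hI _)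
  have hdb'' : (d₁₂ I).hom b'' = H1.compL ι (H × H) f := by
    rw [hb''def, map_sub, H1.d₁₂_d₀₁, sub_zero, hdb']
  -- the cocycle `g₁ = π ∘ b''`
  obtain ⟨g₁, hg₁def⟩ : ∃ g₁ : H → Q, g₁ = H1.compL π H b'' := ⟨_, rfl⟩
  have hg₁d : (d₁₂ Q).hom g₁ = 0 := by
    rw [hg₁def, ← H1.compL_d₁₂, hdb'', h.compL_zero]
  have hg₁coc : ∀ u v, g₁ (u * v) = Q.ρ u (g₁ v) + g₁ u := by
    intro u v
    have e := congrFun hg₁d (u, v)
    rw [d₁₂_hom_apply] at e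
    have e' : Q.ρ u (g₁ v) + g₁ u - g₁ (u * v) = 0 := by
      rw [← show (Q.ρ u (g₁ v) - g₁ (u * v) + g₁ u) = (0 : Q) from e]; abel
    exact (sub_eq_zero.mp e').symm
  have hg₁K : ∀ κ, χ.1 κ = 0 → g₁ κ = 0 := by
    intro κ hκ
    have e : b'' κ = I.ρ κ i₃ - i₃ := by
      rw [hb''def, Pi.sub_apply, hi₀ κ hκ, d₀₁_hom_apply, map_sub]
      abel
    rw [hg₁def, H1.compL_apply, e, map_sub, Rep.hom_comm_apply, hi₃, hq₁ κ hκ, sub_self]
  have hng₁ : ∀ u, n • g₁ u = 0 := by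
    intro u
    have e : n • b'' u = ι.hom (β₂ u) - (I.ρ u (n • (i₀ - i₃)) - n • (i₀ - i₃)) := by
      have e1 : n • b' u = ι.hom (β₂ u) := congrFun hnb' u
      rw [hb''def, Pi.sub_apply, smul_sub, d₀₁_hom_apply, map_nsmul, e1, smul_sub]
    have e0 : π.hom (n • (i₀ - i₃)) = 0 := by
      rw [map_nsmul, map_sub, hi₃, smul_sub, hnq₁, sub_self]
    rw [hg₁def, H1.compL_apply, ← map_nsmul, e, map_sub, h.zero, map_sub, Rep.hom_comm_apply,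
      e0, map_zero, sub_self, sub_zero]
  -- Step E: factor through `χ`
  obtain ⟨hfix, hfac, hN⟩ := cocycle_eq_pnormσ hχ hσ g₁ hg₁coc hg₁K
  -- Step F: lift `q = g₁ σ`
  obtain ⟨i, hiK, hπi⟩ := exists_kerFixed_lift h hI hχ hc hKC (g₁ σ) (hfix σ) (hng₁ σ)
  -- Step G: the norm of `i` comes from `C^H`
  have hNi : pnormσ σ i n ∈ LevelStructure.H0 I := pnormσ_period_mem_H0 hχ hσ hiK
  obtain ⟨a, ha⟩ := (h.exact (pnormσ σ i n)).1 (by rw [hom_pnormσ, hπi, hN])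
  have haH0 : a ∈ LevelStructure.H0 C := fun g => h.inj (by
    rw [Rep.hom_comm_apply, ha, hNi g])
  refine ⟨⟨a, haH0⟩, ?_⟩
  have hb₂ : normCochain χ.1 σ i ∈ 𝓛.cochains₁ I := isConst₁_normCochain hc σ i
  have hdb₂ : (d₁₂ I).hom (normCochain χ.1 σ i) =
      H1.compL ι (H × H) (carryCochain C χ.1 a) := by
    rw [d₁₂_normCochain hχ hσ hiK, ← ha]
    ext x
    rw [H1.compL_apply, carryCochain, carryCochain]
    change _ = ι.hom.toLinearMap (zcarry (χ.1 x.1) (χ.1 x.2) • a)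
    rw [map_zsmul]
    rfl
  have hπb₂ : H1.compL π H (b'' - normCochain χ.1 σ i) = 0 := by
    ext u
    rw [map_sub, Pi.sub_apply, ← hg₁def, hfac u, H1.compL_apply, normCochain, hom_pnormσ, hπi,
      sub_self]
    rfl
  obtain ⟨β₅, hβ₅, hιβ₅⟩ := h.exact_cochains₁ (b'' - normCochain χ.1 σ i)
    ((𝓛.cochains₁ I).sub_mem hb'' hb₂) hπb₂
  refine ⟨β₅, hβ₅, h.compL_injective _ ?_⟩
  rw [H1.compL_d₁₂, hιβ₅, map_sub, hdb'', hdb₂, map_sub]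


/-- Primitive form of "the restriction of `x` to `ker χ` vanishes": some representing cocycle
agrees on `ker χ × ker χ` with the differential of a level `1`-cochain. -/
def ResKerVanishes (𝓛 : LevelStructure H) (C : Rep.{u} k H) (χ : H → ZMod n) (x : 𝓛.H2 C) : Prop :=
  ∃ (f : H × H → C) (hf : f ∈ 𝓛.cocycles₂ C), 𝓛.H2π C ⟨f, hf⟩ = x ∧
    ∃ β₀ ∈ 𝓛.cochains₁ C, ∀ κ κ', χ κ = 0 → χ κ' = 0 → f (κ, κ') = (d₁₂ C).hom β₀ (κ, κ')

/-- **Classes killed by restriction to `ker χ` are carry classes.** -/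
theorem exists_carryH2_eq_of_resKerVanishes (h : H1.IsSES ι π) (hI : 𝓛.IsDiscrete I)
    (hIdiv : ∀ i : I, ∃ i' : I, n • i' = i)
    (hI1 : Subsingleton (𝓛.H1 I)) (hI2 : Subsingleton (𝓛.H2 I))
    (χ : levelChars 𝓛 n) {σ : H} (hσ : χ.1 σ = 1)
    (hKI : KerH1Vanishes 𝓛 I χ.1) (hKC : KerH1TorsionFree 𝓛 C χ.1)
    (hQdiv : ∀ q : Q, IsKerFixed χ.1 q → ∃ q₁ : Q, IsKerFixed χ.1 q₁ ∧ n • q₁ = q)
    (x : 𝓛.H2 C) (hx : n • x = 0) (hres : ResKerVanishes 𝓛 C χ.1 x) :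
    ∃ a : ↥(LevelStructure.H0 C), x = carryH2 𝓛 C n χ a := by
  obtain ⟨f, hf, rfl, β₀, hβ₀, hfβ₀⟩ := hres
  have hC : 𝓛.IsDiscrete C := h.discrete_left hI
  have hdβ₀ : (d₁₂ C).hom β₀ ∈ 𝓛.coboundaries₂ C := ⟨β₀, hβ₀, rfl⟩
  have hdβ₀Z : (d₁₂ C).hom β₀ ∈ 𝓛.cocycles₂ C := H1.coboundaries₂_le hC hdβ₀
  have hf₁ : f - (d₁₂ C).hom β₀ ∈ 𝓛.cocycles₂ C := (𝓛.cocycles₂ C).sub_mem hf hdβ₀Z
  have hnf : n • f ∈ 𝓛.coboundaries₂ C := by
    have h0 : 𝓛.H2π C (n • ⟨f, hf⟩) = 0 := by rw [map_nsmul]; exact hx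
    have h' := (Submodule.Quotient.mk_eq_zero _).mp h0
    exact h'
  have hnf₁ : n • (f - (d₁₂ C).hom β₀) ∈ 𝓛.coboundaries₂ C := by
    rw [smul_sub]
    exact (𝓛.coboundaries₂ C).sub_mem hnf ((𝓛.coboundaries₂ C).smul_of_tower_mem n hdβ₀)
  obtain ⟨a, ha⟩ := exists_sub_carryCochain_mem_coboundaries₂ h hI hIdiv hI1 hI2 χ hσ hKI hKC
    hQdiv (f - (d₁₂ C).hom β₀) hf₁ hnf₁ (fun κ κ' hκ hκ' => by
      rw [Pi.sub_apply, hfβ₀ κ κ' hκ hκ', sub_self])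
  refine ⟨a, ?_⟩
  rw [carryH2_apply]
  refine (Submodule.Quotient.eq _).mpr ?_
  change f - carryCochain C χ.1 a.1 ∈ 𝓛.coboundaries₂ C
  have : f - carryCochain C χ.1 a.1 =
      (f - (d₁₂ C).hom β₀ - carryCochain C χ.1 a.1) + (d₁₂ C).hom β₀ := by abel
  rw [this]
  exact (𝓛.coboundaries₂ C).add_mem ha hdβ₀

/-- **Right-nondegeneracy of the carry pairing** from a nonzero `n`-torsion class killed by
restriction to `ker χ`. -/
theorem exists_carryH2_ne_zero_of_resKerVanishes (h : H1.IsSES ι π) (hI : 𝓛.IsDiscrete I)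
    (hIdiv : ∀ i : I, ∃ i' : I, n • i' = i)
    (hI1 : Subsingleton (𝓛.H1 I)) (hI2 : Subsingleton (𝓛.H2 I))
    (χ : levelChars 𝓛 n) {σ : H} (hσ : χ.1 σ = 1)
    (hKI : KerH1Vanishes 𝓛 I χ.1) (hKC : KerH1TorsionFree 𝓛 C χ.1)
    (hQdiv : ∀ q : Q, IsKerFixed χ.1 q → ∃ q₁ : Q, IsKerFixed χ.1 q₁ ∧ n • q₁ = q)
    (hne : ∃ x : 𝓛.H2 C, n • x = 0 ∧ x ≠ 0 ∧ ResKerVanishes 𝓛 C χ.1 x) :
    ∃ a : ↥(LevelStructure.H0 C), carryH2 𝓛 C n χ a ≠ 0 := by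
  obtain ⟨x, hx, hx0, hres⟩ := hne
  obtain ⟨a, rfl⟩ := exists_carryH2_eq_of_resKerVanishes h hI hIdiv hI1 hI2 χ hσ hKI hKC hQdiv
    x hx hres
  exact ⟨a, hx0⟩

/-- `ResKerVanishes` from the `H50` restriction map, for a subgroup `K` with underlying set
`ker χ` (`χ` level-constant). -/
theorem resKerVanishes_of_resSubH2 {χ : H → ZMod n} (hc : 𝓛.IsConst₁ χ) (K : Subgroup H)
    (hK : ∀ u, u ∈ K ↔ χ u = 0) (x : 𝓛.H2 C) (hx : H50.resSubH2 𝓛 C K x = 0) :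
    ResKerVanishes 𝓛 C χ x := by
  classical
  obtain ⟨⟨f, hf⟩, rfl⟩ := Submodule.Quotient.mk_surjective _ x
  refine ⟨f, hf, rfl, ?_⟩
  have h0 : (𝓛.restrict K).H2π (Rep.res K.subtype C)
      (H50.mapZ2 (𝓛.restrict K) 𝓛 (H50.isCont_subtype 𝓛 K)
        (H50.isEquivariant_res K.subtype C) ⟨f, hf⟩) = 0 := hx
  have h1 := (Submodule.Quotient.mk_eq_zero _).mp h0
  obtain ⟨βK, hβK, hdβK⟩ := h1
  -- extend `βK` by zero
  let β₀ : H → C := fun u => if hu : u ∈ K then βK ⟨u, hu⟩ else 0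
  have hβ₀K : ∀ (u : H) (hu : u ∈ K), β₀ u = βK ⟨u, hu⟩ := fun u hu => by
    simp only [β₀, dif_pos hu]
  refine ⟨β₀, ?_, fun κ κ' hκ hκ' => ?_⟩
  · obtain ⟨N₁, hN₁, hc₁⟩ := hc
    obtain ⟨_, ⟨N₂, hN₂, rfl⟩, hc₂⟩ := hβK
    obtain ⟨N, hN, hle⟩ := 𝓛.directed N₁ hN₁ N₂ hN₂
    refine ⟨N, hN, fun g s hs => ?_⟩
    have hsK : s ∈ K := by
      rw [hK]
      have := hc₁ 1 s (hle hs).1
      rw [one_mul] at this
      rw [this]
      exact (hK 1).mp K.one_mem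
    by_cases hg : g ∈ K
    · have hgs : g * s ∈ K := K.mul_mem hg hsK
      rw [hβ₀K _ hgs, hβ₀K _ hg]
      exact hc₂ ⟨g, hg⟩ ⟨s, hsK⟩ (hle hs).2
    · have hgs : g * s ∉ K := fun h' => hg (by
        have := K.mul_mem h' (K.inv_mem hsK)
        rwa [mul_inv_cancel_right] at this)
      simp only [β₀, dif_neg hg, dif_neg hgs]
  · have hκK : κ ∈ K := (hK κ).mpr hκ
    have hκ'K : κ' ∈ K := (hK κ').mpr hκ'
    have e := congrFun hdβK (⟨κ, hκK⟩, ⟨κ', hκ'K⟩)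
    rw [d₁₂_hom_apply] at e
    rw [d₁₂_hom_apply, hβ₀K κ hκK, hβ₀K κ' hκ'K, hβ₀K (κ * κ') (K.mul_mem hκK hκ'K)]
    exact e.symm

end Main

end Fermat.Agent.CFT.H74
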