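/-
CFT project, layer D (helper52): the formation-side inputs of helper74's intrinsic (I1') theorem
at the group `(U, 𝓛.restrict U, Rep.res U.subtype C)` (`U = N₀` an open subgroup), in the
PRIMITIVE shapes of `H74_Carry`, `H74_CarryNormP`, `H74_CarryInfRes`:
`H1Divisible`, `KerH1TorsionFree`, `KerH1Vanishes`, `ResKerVanishes`, for a level character
`χ : U → ZMod p` of the open subgroup.
-/
import Fermat.Agent.CFT.H52_X5Formation
import Fermat.Agent.CFT.H74_CarryInfRes
import Fermat.Agent.CFT.H74_CarryPairing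

set_option autoImplicit false
set_option linter.style.haveILetI false
set_option linter.unusedSectionVars false

open CategoryTheory

namespace Fermat.Agent.CFT.H52

open Fermat.Agent.CFT LevelStructure H74

/-! ## The kernel of a level character -/

section CharKer

variable {H : Type} [Group H] {𝓛 : LevelStructure H}

/-- The kernel of a level character is open. -/
lemma isOpen_of_char {n : ℕ} [NeZero n] {χ : H → ZMod n} (hχ : IsAddChar χ)
    (hc : 𝓛.IsConst₁ χ) (K : Subgroup H) (hK : ∀ u, u ∈ K ↔ χ u = 0) : 𝓛.IsOpen K := by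
  obtain ⟨N, hN, h⟩ := hc
  refine ⟨N, hN, fun s hs => (hK s).2 ?_⟩
  have := h 1 s hs
  rwa [one_mul, hχ.map_one] at this

/-- The kernel of a nonzero character with values in `ZMod p` has index `p`. -/
lemma index_of_char {p : ℕ} [Fact p.Prime] {χ : H → ZMod p} (hχ : IsAddChar χ) (h0 : χ ≠ 0)
    (K : Subgroup H) (hK : ∀ u, u ∈ K ↔ χ u = 0) : K.index = p := by
  obtain ⟨σ, hσ⟩ := exists_char_eq_one hχ h0
  let f : H →* Multiplicative (ZMod p) :=
    { toFun := fun u => Multiplicative.ofAdd (χ u)
      map_one' := by rw [hχ.map_one]; rfl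
      map_mul' := fun u v => by rw [hχ u v]; rfl }
  have hker : f.ker = K := by
    ext u
    rw [MonoidHom.mem_ker, hK]
    exact Iff.rfl
  have hsurj : Function.Surjective f := by
    intro y
    refine ⟨σ ^ (Multiplicative.toAdd y).val, ?_⟩
    show Multiplicative.ofAdd (χ (σ ^ (Multiplicative.toAdd y).val)) = y
    rw [char_pow_of_eq_one hχ hσ, ZMod.natCast_zmod_val]
    rfl
  rw [← hker, Subgroup.index_ker, MonoidHom.range_eq_top.2 hsurj]
  rw [Nat.card_congr (Subgroup.topEquiv (G := Multiplicative (ZMod p))).toEquiv]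
  rw [Nat.card_congr Multiplicative.toAdd, Nat.card_zmod]

end CharKer

/-! ## Inputs of the (I1') theorem from a `p`-class formation -/

section Inputs

variable {p : ℕ} [Fact p.Prime] {H : Type} [Group H] {𝓛 : LevelStructure H}
  {C : Rep.{0} ℤ H} (F : PClassFormation p 𝓛 C) (U : Subgroup H)

include F

/-- `H¹(U; C)` is `p`-divisible, primitive form. -/
theorem h1Divisible_of_formation :
    H1Divisible (𝓛.restrict U) (Rep.res U.subtype C) p :=
  h1Divisible_of_forall (H1_pDivisible_restrict F U)

/-- `H¹(ker χ; C)` has no `p`-torsion for a level character `χ` of the subgroup `U`,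
primitive form. -/
theorem kerH1TorsionFree_of_formation (χ : levelChars (𝓛.restrict U) p) :
    KerH1TorsionFree (𝓛.restrict U) (Rep.res U.subtype C) χ.1 :=
  kerH1TorsionFree_of_forall (charKer χ.1 χ.2.1) (mem_charKer χ.2.1)
    (H1_pTorsionFree_nested F U _)

/-- Every `p`-torsion class of `H²(U; C)` dies on the kernel of a nonzero level character
`χ : U → ZMod p` (`U` open), primitive form. -/
theorem resKerVanishes_of_formation (hU : 𝓛.IsOpen U) (χ : levelChars (𝓛.restrict U) p)
    (h0 : χ.1 ≠ 0) (x : (𝓛.restrict U).H2 (Rep.res U.subtype C)) (hx : p • x = 0) :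
    ResKerVanishes (𝓛.restrict U) (Rep.res U.subtype C) χ.1 x :=
  resKerVanishes_of_resSubH2 χ.2.2 (charKer χ.1 χ.2.1) (mem_charKer χ.2.1) x
    (resSubH2_eq_zero_of_dvd_index F U _ hU
      (isOpen_of_char χ.2.1 χ.2.2 _ (mem_charKer χ.2.1))
      (by rw [index_of_char χ.2.1 h0 _ (mem_charKer χ.2.1)]) x hx)

omit F

end Inputs

section Acyclic

variable {p : ℕ} [Fact p.Prime] {k : Type} [CommRing k] {H : Type} [Group H]
  (𝓛 : LevelStructure H) (A : Rep.{0} k H) (U : Subgroup H)

/-- `H¹(ker χ; A) = 0` for a level character `χ` of the open subgroup `U`, when `A` is acyclic on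
all open subgroups; primitive form. -/
theorem kerH1Vanishes_of_acyclic (hU : 𝓛.IsOpen U) {n : ℕ} [NeZero n]
    (χ : levelChars (𝓛.restrict U) n)
    (hA : ∀ W : Subgroup H, 𝓛.IsOpen W → Subsingleton ((𝓛.restrict W).H1 (Rep.res W.subtype A))) :
    KerH1Vanishes (𝓛.restrict U) (Rep.res U.subtype A) χ.1 :=
  haveI := subsingleton_H1_nested 𝓛 A U (charKer χ.1 χ.2.1) hU
    (isOpen_of_char χ.2.1 χ.2.2 _ (mem_charKer χ.2.1)) hA
  kerH1Vanishes_of_subsingleton (charKer χ.1 χ.2.1) (mem_charKer χ.2.1)

end Acyclic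

end Fermat.Agent.CFT.H52
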