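/-
CFT project, layer D (helper52): the last formation-side input of helper74's intrinsic (I1')
theorem: `Q^(ker χ)` is `p`-divisible, in the `IsKerFixed` shape, for a level character `χ` of an
open subgroup `U` (from helper62's `invariants_Q_divisible_sub` at `(ker χ).map U.subtype`).
-/
import Fermat.Agent.CFT.H52_AxI1Inputs
import Fermat.Agent.CFT.H62_D2Key

set_option autoImplicit false
set_option linter.style.haveILetI false
set_option linter.unusedSectionVars false

open CategoryTheory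

namespace Fermat.Agent.CFT.H52

open Fermat.Agent.CFT LevelStructure H74

variable {p : ℕ} [Fact p.Prime] {H : Type} [Group H] {𝓛 : LevelStructure H}
  {C : Rep.{0} ℤ H} (F : PClassFormation p 𝓛 C) (E : H36.DivEnvelope 𝓛 p C) (U : Subgroup H)

include F in
/-- **hQdiv**: `Q^(ker χ)` is `p`-divisible (`IsKerFixed` form), for a level character `χ` of the
open subgroup `U`, when `H¹(W; I[p]) = 0` on open subgroups `W`. -/
theorem kerFixed_Q_divisible (hU : 𝓛.IsOpen U) {n : ℕ} [NeZero n]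
    (χ : levelChars (𝓛.restrict U) n)
    (hVm : ∀ W : Subgroup H, 𝓛.IsOpen W →
      Subsingleton ((𝓛.restrict W).H1 (Rep.res W.subtype (H36.torsionRep p E.I))))
    (q : (Rep.res U.subtype E.Q).V) (hq : IsKerFixed χ.1 q) :
    ∃ q₁ : (Rep.res U.subtype E.Q).V, IsKerFixed χ.1 q₁ ∧ p • q₁ = q := by
  have hopen : 𝓛.IsOpen ((charKer χ.1 χ.2.1).map U.subtype) :=
    isOpen_map_subtype U _ 𝓛 hU (isOpen_of_char χ.2.1 χ.2.2 _ (mem_charKer χ.2.1))
  obtain ⟨q', hq', hpq'⟩ := H62.invariants_Q_divisible_sub F E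
    ((charKer χ.1 χ.2.1).map U.subtype) (hVm _ hopen) q (fun g => by
      obtain ⟨κ, hκ, hκg⟩ := Subgroup.mem_map.1 g.2
      have := hq κ ((mem_charKer χ.2.1 κ).1 hκ)
      rw [← hκg]
      exact this)
  refine ⟨q', fun κ hκ => ?_, hpq'⟩
  exact hq' ⟨κ.1, Subgroup.mem_map.2 ⟨κ, (mem_charKer χ.2.1 κ).2 hκ, rfl⟩⟩

end Fermat.Agent.CFT.H52
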