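/-
CFT project, layer D, package D2b-I3 (helper52): axiom (I3') in the vocabulary of the landed
definitions `H91_D2Defs` (`AxI3`, `HasDIV`, `E.wDatum`): the last clause of `D2Conclusion`.
-/
import Fermat.Agent.CFT.H52_AxI3Final
import Fermat.Agent.CFT.H91_D2Defs

set_option autoImplicit false

open CategoryTheory groupCohomology

namespace Fermat.Agent.CFT.H52

open Fermat.Agent.CFT LevelStructure

variable {p : ℕ} [Fact p.Prime] {H : Type} [Group H] {𝓛 : LevelStructure H}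

/-- **(I3')** for the `W`-datum of an envelope of a `p`-class formation, in the vocabulary of
`H91_D2Defs`: the last clause of `D2Conclusion`. -/
theorem axI3_wDatum {C : Rep.{0} ℤ H} (F : PClassFormation p 𝓛 C) (E : H36.DivEnvelope 𝓛 p C)
    (hEac : ∀ U : Subgroup H, 𝓛.IsOpen U →
      Subsingleton ((𝓛.restrict U).H1 (Rep.res U.subtype E.I)) ∧
      Subsingleton ((𝓛.restrict U).H2 (Rep.res U.subtype E.I)))
    (hDIV : HasDIV 𝓛 p) (U : Subgroup H) (hU : 𝓛.IsOpen U) : AxI3 E.wDatum U :=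
  axI3 F E hEac hDIV U hU

/-- `D2Conclusion` from its first clause (a trace satisfying (I1'), (I2') at the good normal
levels): the (I3') clause is automatic for a `p`-class formation with (DIV). -/
theorem d2Conclusion_of_axI1_axI2 {C : Rep.{0} ℤ H} (F : PClassFormation p 𝓛 C)
    (E : H36.DivEnvelope 𝓛 p C)
    (hEac : ∀ U : Subgroup H, 𝓛.IsOpen U →
      Subsingleton ((𝓛.restrict U).H1 (Rep.res U.subtype E.I)) ∧
      Subsingleton ((𝓛.restrict U).H2 (Rep.res U.subtype E.I)))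
    (hDIV : HasDIV 𝓛 p) (good : Subgroup H → Prop)
    (tr : 𝓛.H1 E.wDatum.W →ₗ[ZMod p] ZMod p)
    (h12 : ∀ (N₀ : Subgroup H) (hN : N₀ ∈ 𝓛.levels), N₀.Normal → good N₀ →
      AxI1 E.wDatum tr N₀ ⟨N₀, hN, le_rfl⟩ ∧ AxI2 E.wDatum tr N₀ ⟨N₀, hN, le_rfl⟩) :
    D2Conclusion 𝓛 C E good :=
  ⟨tr, h12, axI3_wDatum F E hEac hDIV⟩

end Fermat.Agent.CFT.H52
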