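import Mathlib
import Fermat.Agent.CFT.H81_ZpTwist
import Fermat.Agent.CFT.H23_CDefs

set_option autoImplicit false

/-!
# Local ingredients of the explicit global symbol over `ℚ`

(CFT / layer C / hedge of `C-RECIP-tower`, helper52.)

* `ordQ q : ℚ_[q]ˣ →* Multiplicative ℤ` (the `q`-adic valuation),
* `unitPart q : ℚ_[q]ˣ →* ℤ_[q]ˣ` (`x ↦ x * q ^ (-v(x))`),
* `lidU q : (ℚ ⊗[ℚ] ℚ_[q])ˣ →* ℚ_[q]ˣ` (the identification `Loc ℚ q ≃ ℚ_q`),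
with their evaluations on integers units, rational numbers and the uniformiser.
-/

namespace Fermat.Agent.CFT.H52

open Fermat.Agent.CFT.H81 Fermat.Agent.CFT.H23
open scoped TensorProduct

noncomputable section

variable (q : ℕ) [hq : Fact q.Prime]

/-- The `q`-adic valuation as a homomorphism `ℚ_[q]ˣ →* Multiplicative ℤ`. -/
def ordQ : ℚ_[q]ˣ →* Multiplicative ℤ where
  toFun x := Multiplicative.ofAdd ((x : ℚ_[q]).valuation)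
  map_one' := by
    show Multiplicative.ofAdd ((1 : ℚ_[q]).valuation) = 1
    rw [Padic.valuation_one]; rfl
  map_mul' x y := by
    show Multiplicative.ofAdd (((x : ℚ_[q]) * (y : ℚ_[q])).valuation) = _
    rw [Padic.valuation_mul x.ne_zero y.ne_zero]; rfl

theorem toAdd_ordQ (x : ℚ_[q]ˣ) : Multiplicative.toAdd (ordQ q x) = (x : ℚ_[q]).valuation := rfl

theorem norm_unitPart_aux (x : ℚ_[q]ˣ) :
    ‖(x : ℚ_[q]) * (q : ℚ_[q]) ^ (-(x : ℚ_[q]).valuation)‖ = 1 := by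
  have hpr : (q : ℝ) ≠ 0 := by exact_mod_cast hq.out.ne_zero
  rw [norm_mul, Padic.norm_eq_zpow_neg_valuation x.ne_zero, Padic.norm_p_zpow, neg_neg,
    ← zpow_add₀ hpr, neg_add_cancel, zpow_zero]

/-- The unit part `x ↦ x * q ^ (-v(x))` as a homomorphism `ℚ_[q]ˣ →* ℤ_[q]ˣ`. -/
def unitPart : ℚ_[q]ˣ →* ℤ_[q]ˣ where
  toFun x := PadicInt.mkUnits (norm_unitPart_aux q x)
  map_one' := by
    apply Units.ext
    apply Subtype.ext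
    show ((1 : ℚ_[q]ˣ) : ℚ_[q]) * (q : ℚ_[q]) ^ (-((1 : ℚ_[q]ˣ) : ℚ_[q]).valuation) = 1
    rw [Units.val_one, Padic.valuation_one, neg_zero, zpow_zero, mul_one]
  map_mul' x y := by
    apply Units.ext
    apply Subtype.ext
    have hq0 : (q : ℚ_[q]) ≠ 0 := by exact_mod_cast hq.out.ne_zero
    show ((x * y : ℚ_[q]ˣ) : ℚ_[q]) * (q : ℚ_[q]) ^ (-((x * y : ℚ_[q]ˣ) : ℚ_[q]).valuation) =
      ((x : ℚ_[q]) * (q : ℚ_[q]) ^ (-(x : ℚ_[q]).valuation)) *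
        ((y : ℚ_[q]) * (q : ℚ_[q]) ^ (-(y : ℚ_[q]).valuation))
    rw [Units.val_mul, Padic.valuation_mul x.ne_zero y.ne_zero, neg_add, zpow_add₀ hq0]
    ring

theorem coe_unitPart (x : ℚ_[q]ˣ) :
    (((unitPart q x : ℤ_[q]ˣ) : ℤ_[q]) : ℚ_[q]) =
      (x : ℚ_[q]) * (q : ℚ_[q]) ^ (-(x : ℚ_[q]).valuation) := rfl

/-- `x = q ^ v(x) * unitPart x`. -/
theorem coe_eq_zpow_mul_unitPart (x : ℚ_[q]ˣ) :
    (x : ℚ_[q]) = (q : ℚ_[q]) ^ ((x : ℚ_[q]).valuation) *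
      (((unitPart q x : ℤ_[q]ˣ) : ℤ_[q]) : ℚ_[q]) := by
  have hq0 : (q : ℚ_[q]) ≠ 0 := by exact_mod_cast hq.out.ne_zero
  rw [coe_unitPart, mul_comm (x : ℚ_[q]), ← mul_assoc, ← zpow_add₀ hq0, add_neg_cancel, zpow_zero,
    one_mul]

/-- Characterisation: if `x = q ^ n * u` with `u` a unit of `ℤ_q` then `v(x) = n`,
`unitPart x = u`. -/
theorem valuation_eq_of_eq_zpow_mul (x : ℚ_[q]ˣ) (n : ℤ) (u : ℤ_[q]ˣ)
    (h : (x : ℚ_[q]) = (q : ℚ_[q]) ^ n * ((u : ℤ_[q]) : ℚ_[q])) :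
    (x : ℚ_[q]).valuation = n := by
  have hq0 : (q : ℚ_[q]) ≠ 0 := by exact_mod_cast hq.out.ne_zero
  have hu0 : ((u : ℤ_[q]) : ℚ_[q]) ≠ 0 := by
    intro h0
    have : (u : ℤ_[q]) = 0 := Subtype.ext h0
    exact u.ne_zero this
  rw [h, Padic.valuation_mul (zpow_ne_zero _ hq0) hu0, Padic.valuation_zpow, Padic.valuation_p,
    mul_one, PadicInt.valuation_coe]
  have : (u : ℤ_[q]).valuation = 0 := by
    have h1 := PadicInt.norm_eq_zpow_neg_valuation (x := (u : ℤ_[q])) u.ne_zero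
    rw [PadicInt.isUnit_iff.1 u.isUnit] at h1
    have hq1 : (1 : ℝ) < q := by exact_mod_cast hq.out.one_lt
    have h2 : (q : ℝ) ^ (-((u : ℤ_[q]).valuation : ℤ)) = (q : ℝ) ^ (0 : ℤ) := by
      rw [zpow_zero]; exact h1.symm
    have h3 := zpow_right_injective₀ (by positivity) hq1.ne' h2
    simpa using h3
  rw [this]
  simp

theorem unitPart_eq_of_eq_zpow_mul (x : ℚ_[q]ˣ) (n : ℤ) (u : ℤ_[q]ˣ)
    (h : (x : ℚ_[q]) = (q : ℚ_[q]) ^ n * ((u : ℤ_[q]) : ℚ_[q])) :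
    unitPart q x = u := by
  have hq0 : (q : ℚ_[q]) ≠ 0 := by exact_mod_cast hq.out.ne_zero
  have hv := valuation_eq_of_eq_zpow_mul q x n u h
  apply Units.ext
  apply Subtype.ext
  rw [coe_unitPart, hv, h, mul_comm, ← mul_assoc, ← zpow_add₀ hq0, neg_add_cancel, zpow_zero,
    one_mul]

theorem ordQ_eq_of_eq_zpow_mul (x : ℚ_[q]ˣ) (n : ℤ) (u : ℤ_[q]ˣ)
    (h : (x : ℚ_[q]) = (q : ℚ_[q]) ^ n * ((u : ℤ_[q]) : ℚ_[q])) :
    ordQ q x = Multiplicative.ofAdd n := by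
  show Multiplicative.ofAdd ((x : ℚ_[q]).valuation) = _
  rw [valuation_eq_of_eq_zpow_mul q x n u h]

/-- On `ℤ_qˣ`: valuation `0`, unit part the identity. -/
theorem ordQ_of_unit (x : ℚ_[q]ˣ) (u : ℤ_[q]ˣ) (h : (x : ℚ_[q]) = ((u : ℤ_[q]) : ℚ_[q])) :
    ordQ q x = 1 :=
  ordQ_eq_of_eq_zpow_mul q x 0 u (by rw [zpow_zero, one_mul, h])

theorem unitPart_of_unit (x : ℚ_[q]ˣ) (u : ℤ_[q]ˣ) (h : (x : ℚ_[q]) = ((u : ℤ_[q]) : ℚ_[q])) :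
    unitPart q x = u :=
  unitPart_eq_of_eq_zpow_mul q x 0 u (by rw [zpow_zero, one_mul, h])

theorem ordQ_intToPadicUnits (u : ℤ_[q]ˣ) : ordQ q (intToPadicUnits q u) = 1 :=
  ordQ_of_unit q _ u rfl

theorem unitPart_intToPadicUnits (u : ℤ_[q]ˣ) : unitPart q (intToPadicUnits q u) = u :=
  unitPart_of_unit q _ u rfl

/-- On the uniformiser: valuation `1`, unit part `1`. -/
theorem ordQ_of_eq_prime (x : ℚ_[q]ˣ) (h : (x : ℚ_[q]) = q) :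
    ordQ q x = Multiplicative.ofAdd 1 :=
  ordQ_eq_of_eq_zpow_mul q x 1 1 (by rw [zpow_one, h]; simp)

theorem unitPart_of_eq_prime (x : ℚ_[q]ˣ) (h : (x : ℚ_[q]) = q) : unitPart q x = 1 :=
  unitPart_eq_of_eq_zpow_mul q x 1 1 (by rw [zpow_one, h]; simp)

/-- A natural number prime to `q` has valuation `0` in `ℚ_q`. -/
theorem ordQ_of_eq_natCast_coprime (x : ℚ_[q]ˣ) (n : ℕ) (hn : n.Coprime q)
    (h : (x : ℚ_[q]) = n) : ordQ q x = 1 :=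
  ordQ_of_unit q x (natUnit hn) (by rw [h]; simp)

theorem unitPart_of_eq_natCast_coprime (x : ℚ_[q]ˣ) (n : ℕ) (hn : n.Coprime q)
    (h : (x : ℚ_[q]) = n) : unitPart q x = natUnit hn :=
  unitPart_of_unit q x (natUnit hn) (by rw [h]; simp)

theorem ordQ_neg_one : ordQ q (-1) = 1 :=
  ordQ_of_unit q (-1) (-1) (by simp)

/-! ### The identification `Loc ℚ q ≃ ℚ_q` -/

/-- `(ℚ ⊗[ℚ] ℚ_[q])ˣ →* ℚ_[q]ˣ`. -/
def lidU : (ℚ ⊗[ℚ] ℚ_[q])ˣ →* ℚ_[q]ˣ :=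
  Units.map ((Algebra.TensorProduct.lid ℚ ℚ_[q] : ℚ ⊗[ℚ] ℚ_[q] ≃ₐ[ℚ] ℚ_[q]) :
    ℚ ⊗[ℚ] ℚ_[q] →* ℚ_[q])

theorem coe_lidU (y : (ℚ ⊗[ℚ] ℚ_[q])ˣ) :
    ((lidU q y : ℚ_[q]ˣ) : ℚ_[q]) = Algebra.TensorProduct.lid ℚ ℚ_[q] (y : ℚ ⊗[ℚ] ℚ_[q]) := rfl

theorem lidU_injective : Function.Injective (lidU q) := by
  intro a b h
  apply Units.ext
  apply (Algebra.TensorProduct.lid ℚ ℚ_[q]).injective
  rw [← coe_lidU, ← coe_lidU, h]

theorem lidU_algebraMap (a : ℚˣ) :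
    lidU q (Units.map (algebraMap ℚ (ℚ ⊗[ℚ] ℚ_[q]) : ℚ →* ℚ ⊗[ℚ] ℚ_[q]) a) =
      ratToPadicUnits q a := by
  apply Units.ext
  rw [coe_lidU, coe_ratToPadicUnits]
  show Algebra.TensorProduct.lid ℚ ℚ_[q] (algebraMap ℚ (ℚ ⊗[ℚ] ℚ_[q]) (a : ℚ)) = _
  rw [AlgEquiv.commutes]
  rfl

end

end Fermat.Agent.CFT.H52
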