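import Mathlib
import Fermat.Agent.CFT.H52_ThetaLocal
import Fermat.Agent.CFT.H27_ArtinDivNat

set_option autoImplicit false

/-!
# The explicit global symbol over `ℚ` for an abelian `p`-extension ramified only at `p`

(CFT / layer C / hedge of `C-RECIP-tower` = helper81's `thetaRat`, helper52.)

ABSTRACT SETTING: `L/ℚ` abelian (number field type), `art : ℤ_[p]ˣ →* Gal(L/ℚ)` a homomorphism
("cyclotomic character") with `(hart)`: for every prime `t` outside `S` the Artin symbol of the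
principal divisor `(t)` is `art t`.  For `L = ℚ_k` (the `k`-th layer of the cyclotomic
`ℤ_p`-extension, either `H93.zpLayer p k F` or `H93.zpQbar p k`) this is helper81's `zpArt`.

* `thetaIdS p S L art hpS : IdS S ℚ →* Gal(L/ℚ)`,
  `(j, D) ↦ art(unitPart j_p)⁻¹ · ∏_{q ∈ S, q ≠ p} art(q)^{v_q(j_q)} · artinDiv S L D`;
* `thetaIdS_diag` (R1): it kills the principal ideles (product formula);
* `thetaRat : CS S ℚ →* Gal(L/ℚ)`, `thetaRat_toCS`, `thetaRat_div` (R3);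
* evaluation lemmas on `Pi.mulSingle`, and triviality on unit ideles.
-/

namespace Fermat.Agent.CFT.H52

open NumberField Fermat.Agent.CFT.H81 Fermat.Agent.CFT.H27 Fermat.Agent.CFT.H23
open scoped IsMulCommutative TensorProduct

noncomputable section

variable (p : ℕ) [hp : Fact p.Prime] (S : Finset Nat.Primes)
  (L : Type*) [Field L] [NumberField L] [Algebra ℚ L] [IsGalois ℚ L] [IsMulCommutative Gal(L/ℚ)]
  (art : ℤ_[p]ˣ →* Gal(L/ℚ))

/-- The local symbol at `p`: `x ↦ art (unitPart x)⁻¹`. -/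
def thetaP : ℚ_[p]ˣ →* Gal(L/ℚ) := (art.comp (unitPart p))⁻¹

theorem thetaP_apply (x : ℚ_[p]ˣ) : thetaP p L art x = (art (unitPart p x))⁻¹ := rfl

/-- The Frobenius element of a prime `q`: `art q` for `q ≠ p`, and `1` for `q = p`. -/
def frobQ (q : ℕ) [hq : Fact q.Prime] : Gal(L/ℚ) :=
  if h : q = p then 1 else art (natUnit ((Nat.coprime_primes hq.out hp.out).2 h))

theorem frobQ_self : frobQ p L art p = 1 := dif_pos rfl

theorem frobQ_of_eq (q : ℕ) [hq : Fact q.Prime] (h : q = p) : frobQ p L art q = 1 := dif_pos h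

theorem frobQ_of_ne (q : ℕ) [hq : Fact q.Prime] (h : q ≠ p) (u : ℤ_[p]ˣ)
    (hu : (u : ℤ_[p]) = q) : frobQ p L art q = art u := by
  rw [frobQ, dif_neg h]
  congr 1
  apply Units.ext
  rw [coe_natUnit, hu]

/-- The local symbol at a prime `q`, unramified part: `x ↦ frobQ q ^ v_q(x)`. -/
def frobPow (q : ℕ) [Fact q.Prime] : ℚ_[q]ˣ →* Gal(L/ℚ) :=
  (zpowersHom Gal(L/ℚ) (frobQ p L art q)).comp (ordQ q)

theorem frobPow_apply (q : ℕ) [Fact q.Prime] (x : ℚ_[q]ˣ) :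
    frobPow p L art q x = frobQ p L art q ^ (x : ℚ_[q]).valuation := rfl

theorem valuation_ratToPadicUnits (q : ℕ) [Fact q.Prime] (a : ℚˣ) :
    ((ratToPadicUnits q a : ℚ_[q]ˣ) : ℚ_[q]).valuation = padicValRat q (a : ℚ) := by
  rw [coe_ratToPadicUnits, Padic.valuation_ratCast]

theorem frobPow_ratToPadicUnits (q : ℕ) [Fact q.Prime] (a : ℚˣ) :
    frobPow p L art q (ratToPadicUnits q a) = frobQ p L art q ^ padicValRat q (a : ℚ) := by
  rw [frobPow_apply, valuation_ratToPadicUnits]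

/-- The product of the unramified local symbols at the places of `S` on principal ideles. -/
def psiS : ℚˣ →* Gal(L/ℚ) :=
  ∏ q : S, (frobPow p L art (q.1 : ℕ)).comp (ratToPadicUnits (q.1 : ℕ))

theorem psiS_apply (a : ℚˣ) :
    psiS p S L art a = ∏ q : S, frobQ p L art (q.1 : ℕ) ^ padicValRat (q.1 : ℕ) (a : ℚ) := by
  rw [psiS, MonoidHom.finsetProd_apply]
  refine Finset.prod_congr rfl fun q _ => ?_
  rw [MonoidHom.comp_apply, frobPow_ratToPadicUnits]

theorem psiS_neg_one : psiS p S L art (-1) = 1 := by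
  rw [psiS_apply]
  refine Finset.prod_eq_one fun q _ => ?_
  have : padicValRat (q.1 : ℕ) ((-1 : ℚˣ) : ℚ) = 0 := by
    rw [Units.val_neg, Units.val_one, padicValRat.neg, padicValRat.one]
  rw [this, zpow_zero]

theorem psiS_prime_of_mem (q₀ : S) (x : ℚˣ) (hx : (x : ℚ) = ((q₀.1 : ℕ) : ℚ)) :
    psiS p S L art x = frobQ p L art (q₀.1 : ℕ) := by
  rw [psiS_apply, Fintype.prod_eq_single q₀]
  · rw [hx, padicValRat.of_nat, padicValNat_self, Nat.cast_one, zpow_one]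
  · intro q hq
    have hne : (q.1 : ℕ) ≠ (q₀.1 : ℕ) := fun h => hq (Subtype.ext (Subtype.ext h))
    rw [hx, padicValRat.of_nat, padicValNat_primes hne, Nat.cast_zero, zpow_zero]

theorem psiS_prime_of_not_mem (t : ℕ) (ht : t.Prime) (htS : ∀ q ∈ S, (q : ℕ) ≠ t) (x : ℚˣ)
    (hx : (x : ℚ) = t) : psiS p S L art x = 1 := by
  have : Fact t.Prime := ⟨ht⟩
  rw [psiS_apply]
  refine Finset.prod_eq_one fun q _ => ?_
  rw [hx, padicValRat.of_nat, padicValNat_primes (htS q.1 q.2), Nat.cast_zero, zpow_zero]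

variable (hpS : (⟨p, hp.out⟩ : Nat.Primes) ∈ S)

/-- The `S`-idele part of the symbol. -/
def thetaJ : JS S ℚ →* Gal(L/ℚ) :=
  ((thetaP p L art).comp ((lidU p).comp
      (Pi.evalMonoidHom (fun q : S => (Loc ℚ q.1)ˣ) ⟨⟨p, hp.out⟩, hpS⟩))) *
    ∏ q : S, (frobPow p L art (q.1 : ℕ)).comp ((lidU (q.1 : ℕ)).comp
      (Pi.evalMonoidHom (fun q : S => (Loc ℚ q.1)ˣ) q))

theorem thetaJ_apply (j : JS S ℚ) :
    thetaJ p S L art hpS j = thetaP p L art (lidU p (j ⟨⟨p, hp.out⟩, hpS⟩)) *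
      ∏ q : S, frobPow p L art (q.1 : ℕ) (lidU (q.1 : ℕ) (j q)) := by
  rw [thetaJ, MonoidHom.mul_apply, MonoidHom.finsetProd_apply]
  rfl

/-- **The explicit global symbol on the hybrid ideles of `ℚ`.** -/
def thetaIdS : IdS S ℚ →* Gal(L/ℚ) :=
  ((thetaJ p S L art hpS).comp (MonoidHom.fst _ _)) * ((artinDiv S L).comp (MonoidHom.snd _ _))

theorem thetaIdS_apply (x : IdS S ℚ) :
    thetaIdS p S L art hpS x = thetaJ p S L art hpS x.1 * artinDiv S L x.2 := rfl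

theorem thetaIdS_mk (j : JS S ℚ) (D : Multiplicative (DivS S ℚ)) :
    thetaIdS p S L art hpS (j, D) = thetaJ p S L art hpS j * artinDiv S L D := rfl


theorem thetaIdS_diag_eq (a : ℚˣ) :
    thetaIdS p S L art hpS (diag S ℚ a) =
      thetaP p L art (ratToPadicUnits p a) * (psiS p S L art a * artinPrincipal S L a) := by
  have h1 : diag S ℚ a = (diagJ S ℚ a, divS S ℚ a) := rfl
  rw [h1, thetaIdS_mk, thetaJ_apply, artinPrincipal_apply, psiS_apply, mul_assoc]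
  congr 1
  · congr 1
    exact lidU_algebraMap p a
  · congr 1
    refine Finset.prod_congr rfl fun q _ => ?_
    rw [← frobPow_ratToPadicUnits]
    congr 1
    exact lidU_algebraMap (q.1 : ℕ) a

/-- **(R1)** The explicit symbol kills the principal ideles (product formula over `ℚ`). -/
theorem thetaIdS_diag (hp2 : p ≠ 2) (k : ℕ) (hG : ∀ g : Gal(L/ℚ), g ^ p ^ k = 1)
    (hart : ∀ t : ℕ, t.Prime → (∀ q ∈ S, (q : ℕ) ≠ t) → ∀ (x : ℚˣ) (u : ℤ_[p]ˣ),
      (x : ℚ) = t → (u : ℤ_[p]) = t → artinPrincipal S L x = art u)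
    (a : ℚˣ) : thetaIdS p S L art hpS (diag S ℚ a) = 1 := by
  rw [thetaIdS_diag_eq]
  have key := reciprocity_of_twist' (p := p) hp2 k hG (thetaP p L art) art
    (psiS p S L art * artinPrincipal S L)
    (fun x hx => by rw [thetaP_apply, unitPart_of_eq_prime p x hx, map_one, inv_one])
    (by rw [MonoidHom.mul_apply, psiS_neg_one, artinPrincipal_neg_one, one_mul])
    (fun x hx => by
      rw [MonoidHom.mul_apply, psiS_prime_of_mem p S L art ⟨⟨p, hp.out⟩, hpS⟩ x hx,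
        frobQ_of_eq p L art _ rfl,
        artinPrincipal_prime_of_mem S L ⟨p, hp.out⟩ hpS x hx, one_mul])
    (fun t ht htp x u hx hu => by
      rw [MonoidHom.mul_apply]
      by_cases htS : ∃ q ∈ S, (q : ℕ) = t
      · obtain ⟨q, hq, hqt⟩ := htS
        subst hqt
        rw [psiS_prime_of_mem p S L art ⟨q, hq⟩ x hx, frobQ_of_ne p L art _ htp u hu,
          artinPrincipal_prime_of_mem S L q hq x hx, mul_one]
      · have htS' : ∀ q ∈ S, (q : ℕ) ≠ t := fun q hq h => htS ⟨q, hq, h⟩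
        rw [psiS_prime_of_not_mem p S L art t ht htS' x hx, one_mul,
          hart t ht htS' x u hx hu])
    1 (fun u => by
      rw [pow_one, thetaP_apply, unitPart_intToPadicUnits, inv_mul_cancel]) a
  rw [pow_one] at key
  exact key


/-! ### The symbol on the idele class group -/

/-- **The explicit global symbol on `CS S ℚ`**, given that `thetaIdS` kills the principal ideles
(`thetaIdS_diag`). -/
def thetaRat (hdiag : ∀ a : ℚˣ, thetaIdS p S L art hpS (diag S ℚ a) = 1) :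
    CS S ℚ →* Gal(L/ℚ) :=
  QuotientGroup.lift (diag S ℚ).range (thetaIdS p S L art hpS) (by
    rintro _ ⟨a, rfl⟩
    exact hdiag a)

variable (hdiag : ∀ a : ℚˣ, thetaIdS p S L art hpS (diag S ℚ a) = 1)

theorem thetaRat_toCS (x : IdS S ℚ) :
    thetaRat p S L art hpS hdiag (toCS S ℚ x) = thetaIdS p S L art hpS x := rfl

/-- **(R3)** On the divisor part the symbol is the Artin map (helper90's `hΘdiv` shape). -/
theorem thetaRat_div (D : DivS S ℚ) :
    thetaRat p S L art hpS hdiag (toCS S ℚ ((1 : JS S ℚ), Multiplicative.ofAdd D)) =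
      artinDiv S L (Multiplicative.ofAdd D) := by
  rw [thetaRat_toCS, thetaIdS_mk, map_one, one_mul]

/-! ### Evaluations -/

theorem frobPow_self : frobPow p L art p = 1 := by
  ext x
  rw [frobPow_apply, frobQ_self, one_zpow, MonoidHom.one_apply]

/-- The symbol of an idele concentrated at `p`. -/
theorem thetaJ_mulSingle_self (y : (Loc ℚ (⟨p, hp.out⟩ : Nat.Primes))ˣ) :
    thetaJ p S L art hpS (Pi.mulSingle (⟨⟨p, hp.out⟩, hpS⟩ : S) y) =
      thetaP p L art (lidU p y) := by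
  rw [thetaJ_apply, Pi.mulSingle_eq_same, Fintype.prod_eq_single (⟨⟨p, hp.out⟩, hpS⟩ : S)]
  · rw [Pi.mulSingle_eq_same]
    have h := frobPow_self p L art
    have h2 : frobPow p L art p (lidU p y) = 1 := by rw [h, MonoidHom.one_apply]
    rw [h2, mul_one]
  · intro q hq
    rw [Pi.mulSingle_eq_of_ne hq, map_one, map_one]

/-- The symbol of an idele concentrated at `q ∈ S`, `q ≠ p`. -/
theorem thetaJ_mulSingle_of_ne (q₀ : S) (hq₀ : (q₀.1 : ℕ) ≠ p) (y : (Loc ℚ q₀.1)ˣ) :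
    thetaJ p S L art hpS (Pi.mulSingle q₀ y) =
      frobPow p L art (q₀.1 : ℕ) (lidU (q₀.1 : ℕ) y) := by
  have hne : (⟨⟨p, hp.out⟩, hpS⟩ : S) ≠ q₀ := by
    intro h
    apply hq₀
    rw [← h]
  rw [thetaJ_apply, Pi.mulSingle_eq_of_ne hne, map_one, map_one, one_mul,
    Fintype.prod_eq_single q₀]
  · rw [Pi.mulSingle_eq_same]
  · intro q hq
    rw [Pi.mulSingle_eq_of_ne hq, map_one, map_one]

/-- Unit ideles at `p`: the symbol is `(art u)⁻¹`. -/
theorem thetaJ_mulSingle_self_of_unit (y : (Loc ℚ (⟨p, hp.out⟩ : Nat.Primes))ˣ) (u : ℤ_[p]ˣ)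
    (hy : Algebra.TensorProduct.lid ℚ ℚ_[p] (y : ℚ ⊗[ℚ] ℚ_[p]) = ((u : ℤ_[p]) : ℚ_[p])) :
    thetaJ p S L art hpS (Pi.mulSingle (⟨⟨p, hp.out⟩, hpS⟩ : S) y) = (art u)⁻¹ := by
  rw [thetaJ_mulSingle_self, thetaP_apply, unitPart_of_unit p (lidU p y) u hy]

/-- Ideles at `q ≠ p`: the symbol is `art(q) ^ v_q`. -/
theorem thetaJ_mulSingle_of_ne_of_eq (q₀ : S) (hq₀ : (q₀.1 : ℕ) ≠ p) (y : (Loc ℚ q₀.1)ˣ)
    (x : ℚ_[(q₀.1 : ℕ)]) (uq : ℤ_[p]ˣ) (huq : (uq : ℤ_[p]) = ((q₀.1 : ℕ) : ℤ_[p]))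
    (hy : Algebra.TensorProduct.lid ℚ ℚ_[(q₀.1 : ℕ)] (y : ℚ ⊗[ℚ] ℚ_[(q₀.1 : ℕ)]) = x) :
    thetaJ p S L art hpS (Pi.mulSingle q₀ y) = art uq ^ x.valuation := by
  rw [thetaJ_mulSingle_of_ne p S L art hpS q₀ hq₀, frobPow_apply, coe_lidU, hy,
    frobQ_of_ne p L art _ hq₀ uq huq]

/-- **Triviality on unit ideles**: if every component of `j` is a unit of `ℤ_q`, and the
`p`-component is killed by `art`, then the symbol of `j` is trivial. -/
theorem thetaJ_eq_one_of_units (j : JS S ℚ)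
    (hjp : ∃ u : ℤ_[p]ˣ, Algebra.TensorProduct.lid ℚ ℚ_[p]
      ((j ⟨⟨p, hp.out⟩, hpS⟩ : (Loc ℚ (⟨p, hp.out⟩ : Nat.Primes))ˣ) : ℚ ⊗[ℚ] ℚ_[p]) =
        ((u : ℤ_[p]) : ℚ_[p]) ∧ art u = 1)
    (hj : ∀ q : S, ∃ u : ℤ_[(q.1 : ℕ)]ˣ, Algebra.TensorProduct.lid ℚ ℚ_[(q.1 : ℕ)]
      ((j q : (Loc ℚ q.1)ˣ) : ℚ ⊗[ℚ] ℚ_[(q.1 : ℕ)]) = ((u : ℤ_[(q.1 : ℕ)]) : ℚ_[(q.1 : ℕ)])) :
    thetaJ p S L art hpS j = 1 := by
  rw [thetaJ_apply]
  obtain ⟨u, hu, hu1⟩ := hjp
  rw [thetaP_apply, unitPart_of_unit p _ u hu, hu1, inv_one, one_mul]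
  refine Finset.prod_eq_one fun q _ => ?_
  obtain ⟨v, hv⟩ := hj q
  have h1 : ordQ (q.1 : ℕ) (lidU (q.1 : ℕ) (j q)) = 1 := ordQ_of_unit _ _ v hv
  show (zpowersHom Gal(L/ℚ) (frobQ p L art (q.1 : ℕ))) (ordQ (q.1 : ℕ) (lidU (q.1 : ℕ) (j q))) = 1
  rw [h1, map_one]

end

end Fermat.Agent.CFT.H52
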