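import Fermat.Agent.CFT.H50_LevelRes

/-!
# CFT / layer D0 : the internal Hom `Hom_k(X, W)` of representations on a level structure

Package `D0-HOM` (helper53).  For `X W : Rep k H`:

* `homRep X W` : the representation on `X →ₗ[k] W`, `(g • f) = W.ρ g ∘ f ∘ X.ρ g⁻¹`
  (it is `(Rep.ihom X).obj W`);
* `isDiscrete_homRep` : discrete when `X` is finite and `X`, `W` are discrete;
* `homPost`, `homPre` : functoriality in both variables; exactness in both variables;
* `invariants_homRep_iff`, `homEquiv` : the invariants are the equivariant maps;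
* evaluation at an invariant vector `evRep`, and the two evaluation pairings of the
  duality theory at the level of `𝓛.H0`, `𝓛.H1`:
  `pairT2H0 : 𝓛.H1 (homRep X W) →ₗ 𝓛.H0 X →ₗ 𝓛.H1 W`, `(φ, x) ↦ [g ↦ φ g x]`,
  `pairT1H1 : 𝓛.H0 (homRep X W) →ₗ 𝓛.H1 X →ₗ 𝓛.H1 W`, `(h, ξ) ↦ [g ↦ h (ξ g)]`.
-/

set_option autoImplicit false

universe u

open CategoryTheory groupCohomology

namespace Fermat.Agent.CFT.H53

open Fermat.Agent.CFT Fermat.Agent.CFT.H50

variable {k H : Type u} [CommRing k] [Group H]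

/-! ## The representation `Hom_k(X, W)` -/

/-- The internal Hom `Hom_k(X, W)` with `(g • f) = W.ρ g ∘ f ∘ X.ρ g⁻¹`. -/
noncomputable abbrev homRep (X W : Rep.{u} k H) : Rep.{u} k H :=
  Rep.of (Representation.linHom X.ρ W.ρ)

lemma homRep_eq_ihom (X W : Rep.{u} k H) : homRep X W = (Rep.ihom X).obj W := rfl

lemma homRep_ρ_apply (X W : Rep.{u} k H) (g : H) (f : X.V →ₗ[k] W.V) (x : X.V) :
    ((homRep X W).ρ g f : X.V →ₗ[k] W.V) x = W.ρ g (f (X.ρ g⁻¹ x)) := rfl

lemma homRep_ρ_eq (X W : Rep.{u} k H) (g : H) (f : X.V →ₗ[k] W.V) :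
    ((homRep X W).ρ g f : X.V →ₗ[k] W.V) = W.ρ g ∘ₗ f ∘ₗ X.ρ g⁻¹ := rfl

lemma ρ_inv_ρ (X : Rep.{u} k H) (g : H) (x : X.V) : X.ρ g⁻¹ (X.ρ g x) = x := by
  rw [← Module.End.mul_apply, ← map_mul, inv_mul_cancel, map_one, Module.End.one_apply]

lemma ρ_ρ_inv (X : Rep.{u} k H) (g : H) (x : X.V) : X.ρ g (X.ρ g⁻¹ x) = x := by
  rw [← Module.End.mul_apply, ← map_mul, mul_inv_cancel, map_one, Module.End.one_apply]

/-- A linear map is fixed by `g` iff it commutes with `g`. -/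
lemma homRep_ρ_eq_self_iff (X W : Rep.{u} k H) (g : H) (f : X.V →ₗ[k] W.V) :
    ((homRep X W).ρ g f : X.V →ₗ[k] W.V) = f ↔ ∀ x, f (X.ρ g x) = W.ρ g (f x) := by
  constructor
  · intro h x
    have h2 : ((homRep X W).ρ g f : X.V →ₗ[k] W.V) (X.ρ g x) = f (X.ρ g x) := by rw [h]
    rw [homRep_ρ_apply, ρ_inv_ρ] at h2
    exact h2.symm
  · intro h
    ext x
    rw [homRep_ρ_apply, ← h, ρ_ρ_inv]

/-- The invariants of `Hom_k(X, W)` are the equivariant maps. -/
lemma mem_invariants_homRep_iff (X W : Rep.{u} k H) (f : X.V →ₗ[k] W.V) :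
    f ∈ (homRep X W).ρ.invariants ↔ ∀ g x, f (X.ρ g x) = W.ρ g (f x) := by
  rw [Representation.mem_invariants]
  exact forall_congr' fun g => homRep_ρ_eq_self_iff X W g f

/-! ## Discreteness -/

section Discrete

variable (𝓛 : LevelStructure H)

/-- Finitely many vectors of a discrete module are fixed by a common level. -/
lemma exists_level_fixing_finset {A : Rep.{u} k H} (hA : 𝓛.IsDiscrete A) (s : Finset A.V) :
    ∃ N ∈ 𝓛.levels, ∀ a ∈ s, ∀ n ∈ N, A.ρ n a = a := by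
  classical
  induction s using Finset.induction_on with
  | empty =>
    obtain ⟨N, hN⟩ := 𝓛.nonempty
    exact ⟨N, hN, by simp⟩
  | insert a s _ ih =>
    obtain ⟨N₁, hN₁, h₁⟩ := ih
    obtain ⟨N₂, hN₂, h₂⟩ := hA a
    obtain ⟨N₃, hN₃, hle⟩ := 𝓛.directed N₁ hN₁ N₂ hN₂
    refine ⟨N₃, hN₃, fun b hb n hn => ?_⟩
    rcases Finset.mem_insert.1 hb with rfl | hb
    · exact h₂ n (hle hn).2
    · exact h₁ b hb n (hle hn).1

/-- `Hom_k(X, W)` is discrete if `X` is finite and discrete and `W` is discrete. -/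
theorem isDiscrete_homRep {X W : Rep.{u} k H} [Module.Finite k X.V] (hX : 𝓛.IsDiscrete X)
    (hW : 𝓛.IsDiscrete W) : 𝓛.IsDiscrete (homRep X W) := by
  classical
  intro f
  obtain ⟨s, hs⟩ := (Module.finite_def (R := k) (M := X.V)).1 inferInstance
  obtain ⟨N₁, hN₁, h₁⟩ := exists_level_fixing_finset 𝓛 hX s
  obtain ⟨N₂, hN₂, h₂⟩ := exists_level_fixing_finset 𝓛 hW (s.image (f : X.V →ₗ[k] W.V))
  obtain ⟨N, hN, hle⟩ := 𝓛.directed N₁ hN₁ N₂ hN₂
  refine ⟨N, hN, fun n hn => ?_⟩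
  show ((homRep X W).ρ n f : X.V →ₗ[k] W.V) = f
  apply LinearMap.ext_on hs
  intro x hx
  rw [homRep_ρ_apply, h₁ x hx n⁻¹ (N₁.inv_mem (hle hn).1)]
  exact h₂ _ (Finset.mem_image_of_mem _ hx) n (hle hn).2

end Discrete

/-! ## Functoriality -/

section Functoriality

/-- Covariant functoriality `Hom(X, W) ⟶ Hom(X, W')`. -/
noncomputable def homPost (X : Rep.{u} k H) {W W' : Rep.{u} k H} (f : W ⟶ W') :
    homRep X W ⟶ homRep X W' :=
  (Rep.ihom X).map f

/-- Contravariant functoriality `Hom(X, W) ⟶ Hom(X', W)` for `u : X' ⟶ X`. -/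
noncomputable def homPre {X X' : Rep.{u} k H} (u : X' ⟶ X) (W : Rep.{u} k H) :
    homRep X W ⟶ homRep X' W :=
  Rep.ofHom ⟨LinearMap.lcomp k W.V u.hom.toLinearMap, fun g => by
    ext f x
    show W.ρ g (f (X.ρ g⁻¹ (u.hom x))) = W.ρ g (f (u.hom (X'.ρ g⁻¹ x)))
    rw [Rep.hom_comm_apply]⟩

@[simp] lemma homPost_apply (X : Rep.{u} k H) {W W' : Rep.{u} k H} (f : W ⟶ W')
    (φ : X.V →ₗ[k] W.V) (x : X.V) :
    ((homPost X f).hom φ : X.V →ₗ[k] W'.V) x = f.hom (φ x) := rfl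

@[simp] lemma homPre_apply {X X' : Rep.{u} k H} (u : X' ⟶ X) (W : Rep.{u} k H)
    (φ : X.V →ₗ[k] W.V) (x : X'.V) :
    ((homPre u W).hom φ : X'.V →ₗ[k] W.V) x = φ (u.hom x) := rfl

lemma homPost_id (X W : Rep.{u} k H) : homPost X (𝟙 W) = 𝟙 (homRep X W) :=
  (Rep.ihom X).map_id W

lemma homPost_comp (X : Rep.{u} k H) {W W' W'' : Rep.{u} k H} (f : W ⟶ W') (f' : W' ⟶ W'') :
    homPost X (f ≫ f') = homPost X f ≫ homPost X f' :=
  (Rep.ihom X).map_comp f f'

lemma homPre_id (X W : Rep.{u} k H) : homPre (𝟙 X) W = 𝟙 (homRep X W) := by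
  ext φ x; rfl

lemma homPre_comp {X X' X'' : Rep.{u} k H} (u : X' ⟶ X) (u' : X'' ⟶ X') (W : Rep.{u} k H) :
    homPre (u' ≫ u) W = homPre u W ≫ homPre u' W := by
  ext φ x; rfl

lemma homPre_homPost {X X' : Rep.{u} k H} (u : X' ⟶ X) {W W' : Rep.{u} k H} (f : W ⟶ W') :
    homPre u W ≫ homPost X' f = homPost X f ≫ homPre u W' := by
  ext φ x; rfl

end Functoriality

/-! ## Exactness -/

section Exact

variable {X X' X'' W W' W'' : Rep.{u} k H}

lemma homPre_injective (u : X' ⟶ X) (W : Rep.{u} k H) (hu : Function.Surjective u.hom) :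
    Function.Injective (homPre u W).hom := by
  intro φ ψ h
  have h' : ∀ x, ((homPre u W).hom φ : X'.V →ₗ[k] W.V) x = ((homPre u W).hom ψ : X'.V →ₗ[k] W.V) x :=
    fun x => by rw [h]
  apply LinearMap.ext (f := (φ : X.V →ₗ[k] W.V)) (g := (ψ : X.V →ₗ[k] W.V))
  intro x
  obtain ⟨y, rfl⟩ := hu x
  exact h' y

lemma homPre_exact (u' : X' ⟶ X) (u'' : X ⟶ X'') (W : Rep.{u} k H)
    (hex : Function.Exact u'.hom u''.hom) (hs : Function.Surjective u''.hom) :
    Function.Exact (homPre u'' W).hom (homPre u' W).hom := by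
  intro φ
  constructor
  · intro h
    have h0 : ∀ x, (φ : X.V →ₗ[k] W.V) (u'.hom x) = 0 := fun x => by
      have := congrArg (fun F : X'.V →ₗ[k] W.V => F x) h
      exact this
    have hker : LinearMap.ker u''.hom.toLinearMap ≤ LinearMap.ker (φ : X.V →ₗ[k] W.V) := by
      intro x hx
      obtain ⟨y, rfl⟩ := (hex x).1 hx
      exact h0 y
    let e := LinearMap.quotKerEquivOfSurjective u''.hom.toLinearMap hs
    refine ⟨((LinearMap.ker u''.hom.toLinearMap).liftQ (φ : X.V →ₗ[k] W.V) hker).comp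
      e.symm.toLinearMap, ?_⟩
    apply LinearMap.ext (f := ((homPre u'' W).hom _ : X.V →ₗ[k] W.V)) (g := (φ : X.V →ₗ[k] W.V))
    intro x
    rw [homPre_apply]
    have : e.symm (u''.hom x) = Submodule.Quotient.mk x := by
      rw [LinearEquiv.symm_apply_eq]; rfl
    simp only [LinearMap.comp_apply, LinearEquiv.coe_coe, this]
    rfl
  · rintro ⟨ψ, rfl⟩
    apply LinearMap.ext (f := ((homPre u' W).hom _ : X'.V →ₗ[k] W.V)) (g := (0 : X'.V →ₗ[k] W.V))
    intro x
    rw [homPre_apply, homPre_apply]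
    have : u''.hom (u'.hom x) = 0 := (hex _).2 ⟨x, rfl⟩
    rw [this, map_zero]
    rfl

lemma homPost_injective (X : Rep.{u} k H) (f : W ⟶ W') (hf : Function.Injective f.hom) :
    Function.Injective (homPost X f).hom := by
  intro φ ψ h
  apply LinearMap.ext (f := (φ : X.V →ₗ[k] W.V)) (g := (ψ : X.V →ₗ[k] W.V))
  intro x
  apply hf
  have := congrArg (fun F : X.V →ₗ[k] W'.V => F x) h
  exact this

lemma homPost_exact (X : Rep.{u} k H) (f' : W' ⟶ W) (f'' : W ⟶ W'')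
    (hi : Function.Injective f'.hom) (hex : Function.Exact f'.hom f''.hom) :
    Function.Exact (homPost X f').hom (homPost X f'').hom := by
  intro φ
  constructor
  · intro h
    have h0 : ∀ x, f''.hom ((φ : X.V →ₗ[k] W.V) x) = 0 := fun x => by
      have := congrArg (fun F : X.V →ₗ[k] W''.V => F x) h
      exact this
    have hmem : ∀ x, (φ : X.V →ₗ[k] W.V) x ∈ LinearMap.range f'.hom.toLinearMap := fun x =>
      (hex _).1 (h0 x)
    let e := LinearEquiv.ofInjective f'.hom.toLinearMap hi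
    refine ⟨e.symm.toLinearMap.comp ((φ : X.V →ₗ[k] W.V).codRestrict _ hmem), ?_⟩
    apply LinearMap.ext (f := ((homPost X f').hom _ : X.V →ₗ[k] W.V)) (g := (φ : X.V →ₗ[k] W.V))
    intro x
    rw [homPost_apply]
    simp only [LinearMap.comp_apply, LinearEquiv.coe_coe]
    have := LinearEquiv.apply_symm_apply e ((φ : X.V →ₗ[k] W.V).codRestrict _ hmem x)
    exact congrArg Subtype.val this
  · rintro ⟨ψ, rfl⟩
    apply LinearMap.ext (f := ((homPost X f'').hom _ : X.V →ₗ[k] W''.V))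
      (g := (0 : X.V →ₗ[k] W''.V))
    intro x
    rw [homPost_apply, homPost_apply]
    exact (hex _).2 ⟨_, rfl⟩

end Exact

section ExactField

variable {K : Type u} [Field K] {X X' W W'' : Rep.{u} K H}

lemma homPre_surjective (u' : X' ⟶ X) (W : Rep.{u} K H) (hu : Function.Injective u'.hom) :
    Function.Surjective (homPre u' W).hom := by
  intro ψ
  obtain ⟨r, hr⟩ := LinearMap.exists_leftInverse_of_injective u'.hom.toLinearMap
    (LinearMap.ker_eq_bot.2 hu)
  refine ⟨(ψ : X'.V →ₗ[K] W.V).comp r, ?_⟩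
  apply LinearMap.ext (f := ((homPre u' W).hom _ : X'.V →ₗ[K] W.V)) (g := (ψ : X'.V →ₗ[K] W.V))
  intro x
  rw [homPre_apply]
  have : r (u'.hom x) = x := congrArg (fun F : X'.V →ₗ[K] X'.V => F x) hr
  simp only [LinearMap.comp_apply, this]

lemma homPost_surjective (X : Rep.{u} K H) (f'' : W ⟶ W'') (hf : Function.Surjective f''.hom) :
    Function.Surjective (homPost X f'').hom := by
  intro ψ
  obtain ⟨s, hs⟩ := LinearMap.exists_rightInverse_of_surjective f''.hom.toLinearMap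
    (LinearMap.range_eq_top.2 hf)
  refine ⟨s.comp (ψ : X.V →ₗ[K] W''.V), ?_⟩
  apply LinearMap.ext (f := ((homPost X f'').hom _ : X.V →ₗ[K] W''.V))
    (g := (ψ : X.V →ₗ[K] W''.V))
  intro x
  rw [homPost_apply]
  exact congrArg (fun F : W''.V →ₗ[K] W''.V => F ((ψ : X.V →ₗ[K] W''.V) x)) hs

end ExactField

/-! ## Invariants of `Hom_k(X, W)` = equivariant maps -/

section Invariants

variable (X W : Rep.{u} k H)

/-- The morphism of representations attached to an invariant of `Hom_k(X, W)`. -/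
noncomputable def homOfInv (h : LevelStructure.H0 (homRep X W)) : X ⟶ W :=
  Rep.ofHom (ρ := X.ρ) (σ := W.ρ) ⟨(h.1 : X.V →ₗ[k] W.V), fun g => by
    ext x
    exact (mem_invariants_homRep_iff X W h.1).1 h.2 g x⟩

@[simp] lemma homOfInv_apply (h : LevelStructure.H0 (homRep X W)) (x : X.V) :
    (homOfInv X W h).hom x = (h.1 : X.V →ₗ[k] W.V) x := rfl

/-- The invariant of `Hom_k(X, W)` attached to a morphism of representations. -/
noncomputable def invOfHom (f : X ⟶ W) : LevelStructure.H0 (homRep X W) :=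
  ⟨f.hom.toLinearMap, (mem_invariants_homRep_iff X W _).2 fun g x => Rep.hom_comm_apply f g x⟩

@[simp] lemma invOfHom_coe_apply (f : X ⟶ W) (x : X.V) :
    ((invOfHom X W f).1 : X.V →ₗ[k] W.V) x = f.hom x := rfl

/-- `Hom_k(X, W)^H ≃ Hom_H(X, W)`. -/
noncomputable def homEquiv : LevelStructure.H0 (homRep X W) ≃ (X ⟶ W) where
  toFun := homOfInv X W
  invFun := invOfHom X W
  left_inv h := by
    apply Subtype.ext
    apply LinearMap.ext (f := ((invOfHom X W (homOfInv X W h)).1 : X.V →ₗ[k] W.V))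
      (g := (h.1 : X.V →ₗ[k] W.V))
    intro x
    rfl
  right_inv f := by
    ext x
    rfl

lemma homOfInv_add (h h' : LevelStructure.H0 (homRep X W)) (x : X.V) :
    (homOfInv X W (h + h')).hom x = (homOfInv X W h).hom x + (homOfInv X W h').hom x := rfl

lemma homOfInv_smul (c : k) (h : LevelStructure.H0 (homRep X W)) (x : X.V) :
    (homOfInv X W (c • h)).hom x = c • (homOfInv X W h).hom x := rfl

/-- Functoriality of `homOfInv` in `W`. -/
lemma homOfInv_coeffH0_homPost {W' : Rep.{u} k H} (f : W ⟶ W')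
    (h : LevelStructure.H0 (homRep X W)) :
    homOfInv X W' (coeffH0 (homPost X f) h) = homOfInv X W h ≫ f := by
  ext x
  rfl

/-- Functoriality of `homOfInv` in `X`. -/
lemma homOfInv_coeffH0_homPre {X' : Rep.{u} k H} (u : X' ⟶ X)
    (h : LevelStructure.H0 (homRep X W)) :
    homOfInv X' W (coeffH0 (homPre u W) h) = u ≫ homOfInv X W h := by
  ext x
  rfl

end Invariants

/-! ## Evaluation at an invariant vector -/

section Eval

variable (X W : Rep.{u} k H)

/-- Evaluation at an invariant vector `x ∈ X^H` is a morphism `Hom_k(X, W) ⟶ W`. -/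
noncomputable def evRep (x : LevelStructure.H0 X) : homRep X W ⟶ W :=
  Rep.ofHom (ρ := (homRep X W).ρ) (σ := W.ρ)
    ⟨LinearMap.applyₗ (x.1 : X.V), fun g => by
      ext f
      show W.ρ g ((f : X.V →ₗ[k] W.V) (X.ρ g⁻¹ x.1)) = W.ρ g ((f : X.V →ₗ[k] W.V) x.1)
      rw [x.2 g⁻¹]⟩

@[simp] lemma evRep_apply (x : LevelStructure.H0 X) (f : X.V →ₗ[k] W.V) :
    (evRep X W x).hom f = f x.1 := rfl

lemma evRep_add (x y : LevelStructure.H0 X) (f : X.V →ₗ[k] W.V) :
    (evRep X W (x + y)).hom f = (evRep X W x).hom f + (evRep X W y).hom f := by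
  rw [evRep_apply, evRep_apply, evRep_apply]
  exact map_add f x.1 y.1

lemma evRep_smul (c : k) (x : LevelStructure.H0 X) (f : X.V →ₗ[k] W.V) :
    (evRep X W (c • x)).hom f = c • (evRep X W x).hom f := by
  rw [evRep_apply, evRep_apply]
  exact map_smul f c x.1

/-- Naturality of evaluation in `W`. -/
lemma homPost_evRep {W' : Rep.{u} k H} (f : W ⟶ W') (x : LevelStructure.H0 X) :
    homPost X f ≫ evRep X W' x = evRep X W x ≫ f := by
  ext φ
  rfl

/-- Naturality of evaluation in `X`. -/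
lemma homPre_evRep {X' : Rep.{u} k H} (u : X' ⟶ X) (x' : LevelStructure.H0 X') :
    homPre u W ≫ evRep X' W x' = evRep X W (coeffH0 u x') := by
  ext φ
  rfl

end Eval

/-! ## The two evaluation pairings of the duality theory -/

noncomputable section Pairings

variable (𝓛 : LevelStructure H) (X W : Rep.{u} k H)

/-- `x ↦ (H¹(Hom(X, W)) → H¹(W))`, evaluation of a cocycle at the invariant vector `x`. -/
def evH1 : LevelStructure.H0 X →ₗ[k] 𝓛.H1 (homRep X W) →ₗ[k] 𝓛.H1 W where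
  toFun x := coeffH1 𝓛 (evRep X W x)
  map_add' x y := by
    apply LinearMap.ext
    intro c
    induction c using Submodule.Quotient.induction_on with
    | _ c =>
      show 𝓛.H1π W (mapZ1 𝓛 𝓛 (isCont_id 𝓛) (isEquivariant_hom (evRep X W (x + y))) c) =
        𝓛.H1π W (mapZ1 𝓛 𝓛 (isCont_id 𝓛) (isEquivariant_hom (evRep X W x)) c) +
          𝓛.H1π W (mapZ1 𝓛 𝓛 (isCont_id 𝓛) (isEquivariant_hom (evRep X W y)) c)
      rw [← map_add]
      congr 1
      apply Subtype.ext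
      funext g
      exact evRep_add X W x y _
  map_smul' r x := by
    apply LinearMap.ext
    intro c
    induction c using Submodule.Quotient.induction_on with
    | _ c =>
      show 𝓛.H1π W (mapZ1 𝓛 𝓛 (isCont_id 𝓛) (isEquivariant_hom (evRep X W (r • x))) c) =
        r • 𝓛.H1π W (mapZ1 𝓛 𝓛 (isCont_id 𝓛) (isEquivariant_hom (evRep X W x)) c)
      rw [← map_smul]
      congr 1
      apply Subtype.ext
      funext g
      exact evRep_smul X W r x _

/-- The pairing `H¹(H; Hom(X, W)) × H⁰(H; X) → H¹(H; W)`, `(φ, x) ↦ [g ↦ φ g x]`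
(`α²` of the duality theory in the `W`-model). -/
def pairT2H0 : 𝓛.H1 (homRep X W) →ₗ[k] LevelStructure.H0 X →ₗ[k] 𝓛.H1 W :=
  (evH1 𝓛 X W).flip

lemma pairT2H0_apply (φ : 𝓛.H1 (homRep X W)) (x : LevelStructure.H0 X) :
    pairT2H0 𝓛 X W φ x = coeffH1 𝓛 (evRep X W x) φ := rfl

lemma pairT2H0_mk (φ : 𝓛.cocycles₁ (homRep X W)) (x : LevelStructure.H0 X) :
    pairT2H0 𝓛 X W (𝓛.H1π _ φ) x =
      𝓛.H1π W (mapZ1 𝓛 𝓛 (isCont_id 𝓛) (isEquivariant_hom (evRep X W x)) φ) := rfl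

lemma mapZ1_evRep_apply (φ : 𝓛.cocycles₁ (homRep X W)) (x : LevelStructure.H0 X) (g : H) :
    ((mapZ1 𝓛 𝓛 (isCont_id 𝓛) (isEquivariant_hom (evRep X W x)) φ : 𝓛.cocycles₁ W) : H → W.V) g
      = (φ.1 g : X.V →ₗ[k] W.V) x.1 := rfl

/-- `h ↦ (H¹(X) → H¹(W))`, push-forward along the equivariant map `h`. -/
def pairT1H1 : LevelStructure.H0 (homRep X W) →ₗ[k] 𝓛.H1 X →ₗ[k] 𝓛.H1 W where
  toFun h := coeffH1 𝓛 (homOfInv X W h)
  map_add' h h' := by
    apply LinearMap.ext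
    intro c
    induction c using Submodule.Quotient.induction_on with
    | _ c =>
      show 𝓛.H1π W (mapZ1 𝓛 𝓛 (isCont_id 𝓛) (isEquivariant_hom (homOfInv X W (h + h'))) c) =
        𝓛.H1π W (mapZ1 𝓛 𝓛 (isCont_id 𝓛) (isEquivariant_hom (homOfInv X W h)) c) +
          𝓛.H1π W (mapZ1 𝓛 𝓛 (isCont_id 𝓛) (isEquivariant_hom (homOfInv X W h')) c)
      rw [← map_add]
      congr 1
  map_smul' r h := by
    apply LinearMap.ext
    intro c
    induction c using Submodule.Quotient.induction_on with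
    | _ c =>
      show 𝓛.H1π W (mapZ1 𝓛 𝓛 (isCont_id 𝓛) (isEquivariant_hom (homOfInv X W (r • h))) c) =
        r • 𝓛.H1π W (mapZ1 𝓛 𝓛 (isCont_id 𝓛) (isEquivariant_hom (homOfInv X W h)) c)
      rw [← map_smul]
      congr 1

lemma pairT1H1_apply (h : LevelStructure.H0 (homRep X W)) (ξ : 𝓛.H1 X) :
    pairT1H1 𝓛 X W h ξ = coeffH1 𝓛 (homOfInv X W h) ξ := rfl

lemma pairT1H1_mk (h : LevelStructure.H0 (homRep X W)) (ξ : 𝓛.cocycles₁ X) :
    pairT1H1 𝓛 X W h (𝓛.H1π _ ξ) =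
      𝓛.H1π W (mapZ1 𝓛 𝓛 (isCont_id 𝓛) (isEquivariant_hom (homOfInv X W h)) ξ) := rfl

lemma mapZ1_homOfInv_apply (h : LevelStructure.H0 (homRep X W)) (ξ : 𝓛.cocycles₁ X) (g : H) :
    ((mapZ1 𝓛 𝓛 (isCont_id 𝓛) (isEquivariant_hom (homOfInv X W h)) ξ : 𝓛.cocycles₁ W) : H → W.V) g
      = (h.1 : X.V →ₗ[k] W.V) (ξ.1 g) := rfl

/-! ### Naturality of the pairings -/

variable {X W}

/-- `pairT2H0` is natural in `W`. -/
lemma coeffH1_pairT2H0 {W' : Rep.{u} k H} (f : W ⟶ W') (φ : 𝓛.H1 (homRep X W))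
    (x : LevelStructure.H0 X) :
    coeffH1 𝓛 f (pairT2H0 𝓛 X W φ x) = pairT2H0 𝓛 X W' (coeffH1 𝓛 (homPost X f) φ) x := by
  induction φ using Submodule.Quotient.induction_on with
  | _ c => rfl

/-- `pairT2H0` is natural in `X`. -/
lemma pairT2H0_homPre {X' : Rep.{u} k H} (u : X' ⟶ X) (φ : 𝓛.H1 (homRep X W))
    (x' : LevelStructure.H0 X') :
    pairT2H0 𝓛 X' W (coeffH1 𝓛 (homPre u W) φ) x' = pairT2H0 𝓛 X W φ (coeffH0 u x') := by
  induction φ using Submodule.Quotient.induction_on with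
  | _ c => rfl

/-- `pairT1H1` is natural in `W`. -/
lemma coeffH1_pairT1H1 {W' : Rep.{u} k H} (f : W ⟶ W') (h : LevelStructure.H0 (homRep X W))
    (ξ : 𝓛.H1 X) :
    coeffH1 𝓛 f (pairT1H1 𝓛 X W h ξ) = pairT1H1 𝓛 X W' (coeffH0 (homPost X f) h) ξ := by
  induction ξ using Submodule.Quotient.induction_on with
  | _ c => rfl

/-- `pairT1H1` is natural in `X`. -/
lemma pairT1H1_homPre {X' : Rep.{u} k H} (u : X' ⟶ X) (h : LevelStructure.H0 (homRep X W))
    (ξ' : 𝓛.H1 X') :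
    pairT1H1 𝓛 X' W (coeffH0 (homPre u W) h) ξ' = pairT1H1 𝓛 X W h (coeffH1 𝓛 u ξ') := by
  induction ξ' using Submodule.Quotient.induction_on with
  | _ c => rfl

end Pairings

/-! ## The compatibility of the pairings with connecting maps, at cochain level -/

section Delta

variable {X' X W : Rep.{u} k H}

/-- **(Y2), the sign `-1`.**  Let `u' : X' ⟶ X` be a sub-representation, `h' : X' ⟶ W`
equivariant, `h : X → W` a *linear* extension of `h'`, `x ∈ X` and `ξ g ∈ X'` with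
`u' (ξ g) = g x - x` (i.e. `x` is invariant modulo `X'`).  Then
`(g • h - h)(x) + h' (ξ g) = g (h x) - h x`: the two ways of pairing the connecting maps add up
to the coboundary of `h x`. -/
theorem pairing_delta_cochain (u' : X' ⟶ X) (h' : X' ⟶ W) (h : X.V →ₗ[k] W.V)
    (hh : ∀ x', h (u'.hom x') = h'.hom x') (x : X.V) (ξ : H → X'.V)
    (hξ : ∀ g, u'.hom (ξ g) = X.ρ g x - x) (g : H) :
    (((homRep X W).ρ g h : X.V →ₗ[k] W.V) x - h x) + h'.hom (ξ g) = W.ρ g (h x) - h x := by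
  rw [homRep_ρ_apply]
  have h1 : X.ρ g⁻¹ x - x = u'.hom (ξ g⁻¹) := (hξ g⁻¹).symm
  have h2 : h (X.ρ g⁻¹ x) = h x + h'.hom (ξ g⁻¹) := by
    rw [← hh, ← h1, map_sub]; abel
  have h3 : W.ρ g (h'.hom (ξ g⁻¹)) = - h'.hom (ξ g) := by
    rw [← Rep.hom_comm_apply, ← hh, ← hh, Rep.hom_comm_apply u', hξ, hξ, map_sub, ρ_ρ_inv,
      map_sub, map_sub]
    abel
  rw [h2, map_add, h3]
  abel

end Delta

/-! ## `Hom_k(k, W) ≅ W` and restriction -/

section Triv

variable {H' : Type u} [Group H']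

/-- The identity is equivariant from `res φ (Hom(X, W))` to `Hom(res φ X, res φ W)`. -/
lemma isEquivariant_homRep_res (φ : H' →* H) (X W : Rep.{u} k H) :
    IsEquivariant φ (homRep X W) (homRep (Rep.res φ X) (Rep.res φ W)) LinearMap.id := by
  intro g f
  apply LinearMap.ext (f := ((homRep X W).ρ (φ g) f : X.V →ₗ[k] W.V))
    (g := ((homRep (Rep.res φ X) (Rep.res φ W)).ρ g f : X.V →ₗ[k] W.V))
  intro x
  show W.ρ (φ g) ((f : X.V →ₗ[k] W.V) (X.ρ (φ g)⁻¹ x)) =
    W.ρ (φ g) ((f : X.V →ₗ[k] W.V) (X.ρ (φ g⁻¹) x))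
  rw [map_inv φ g]

/-- Evaluation at `1 : k` : `Hom_k(k, W) ⟶ W` for the trivial representation on `k`. -/
noncomputable def homTrivEval (W : Rep.{u} k H) : homRep (Rep.trivial k H k) W ⟶ W :=
  Rep.ofHom (ρ := (homRep (Rep.trivial k H k) W).ρ) (σ := W.ρ)
    ⟨LinearMap.applyₗ (1 : k), fun g => by
      ext f
      rfl⟩

@[simp] lemma homTrivEval_apply (W : Rep.{u} k H) (f : k →ₗ[k] W.V) :
    (homTrivEval W).hom f = f 1 := rfl

lemma homTrivEval_bijective (W : Rep.{u} k H) : Function.Bijective (homTrivEval W).hom := by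
  constructor
  · intro f f' hff
    apply LinearMap.ext (f := (f : k →ₗ[k] W.V)) (g := (f' : k →ₗ[k] W.V))
    intro c
    have h1 : (f : k →ₗ[k] W.V) 1 = (f' : k →ₗ[k] W.V) 1 := hff
    have : c = c • (1 : k) := by simp
    rw [this, map_smul, map_smul, h1]
  · intro w
    refine ⟨LinearMap.toSpanSingleton k W.V w, ?_⟩
    show (LinearMap.toSpanSingleton k W.V w) 1 = w
    simp

end Triv

end Fermat.Agent.CFT.H53
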