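/-
CFT layer C, package C-EXIST, input (I5) (hedge by helper54): the arithmetic bookkeeping for the
Kummer characters `χ_x`, `x ∈ XS S K p`, of a level `K` of the global formation.

`K` an abstract number field with an embedding `ιK : K → Qbar`, `E := ιK.fieldRange`,
`β ∈ Qbar` a `p`-th root of `ιK x`.
* `fieldRange_eq_sup_adjoin`: for an abstract extension `M = K(α)` embedded over `ιK`,
  `ιM.fieldRange = E ⊔ ℚ(ιM α)`;
* `sup_adjoin_eq_of_pow_eq`: `E ⊔ ℚ(β)` only depends on `β ^ p` (when `μ_p ⊆ E`);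
* `isUnramifiedOutside_sup_adjoin_root`: `E ⊔ ℚ(β)` is unramified outside `S` for `x ∈ XS S K p`,
  hence `kummerLevelChi_mem_levelChars'`;
* `kummerLevelChi_eq_zero_iff_mem_fixingSubgroup`: the kernel of `χ_x` is `Gal(Qbar/ιM M)` for a
  Kummer extension `M = K(x^{1/p})`;
* `kummerLevelChi_eq_zero_iff_exists_pow`: `χ_x = 0` iff `x` is a `p`-th power in `K`.
-/
import Fermat.Agent.CFT.H10_KummerLevelChar
import Fermat.Agent.CFT.H10_ExistKummerSeq
import Fermat.Agent.CFT.H10_ExistUnram2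
import Fermat.Agent.CFT.H10_ExistSplitNorm
import Fermat.Agent.CFT.H24_GlobalExist
import Fermat.Agent.CFT.H54_LUnr

set_option autoImplicit false

namespace Fermat.Agent.CFT.H54

open IntermediateField Fermat.Agent.CFT Fermat.Agent.CFT.H10 Fermat.Agent.CFT.H23
  Fermat.Agent.CFT.H74

local notation "GQ" => (AlgebraicClosure ℚ ≃ₐ[ℚ] AlgebraicClosure ℚ)
local notation "Qbar" => AlgebraicClosure ℚ

section Fields

variable {K M : Type} [Field K] [Field M] [CharZero K] [CharZero M] [Algebra K M]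
  {ιK : K →ₐ[ℚ] Qbar} {ιM : M →ₐ[ℚ] Qbar}

theorem emb_injective (ι : K →ₐ[ℚ] Qbar) : Function.Injective ι := ι.toRingHom.injective

theorem mem_fieldRange_self (ι : K →ₐ[ℚ] Qbar) (x : K) : ι x ∈ ι.fieldRange :=
  AlgHom.mem_fieldRange.2 ⟨x, rfl⟩

/-- a `p`-th root of the image of a unit is non-zero -/
theorem root_ne_zero (ι : K →ₐ[ℚ] Qbar) {p : ℕ} (hp : p ≠ 0) {x : Kˣ} {β : Qbar}
    (hβ : β ^ p = ι (x : K)) : β ≠ 0 := by
  rintro rfl
  rw [zero_pow hp] at hβ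
  exact x.ne_zero ((map_eq_zero ι).1 hβ.symm)

/-- `ιK K ⊆ ιM M`. -/
theorem fieldRange_le_fieldRange (hι : ∀ x : K, ιM (algebraMap K M x) = ιK x) :
    ιK.fieldRange ≤ ιM.fieldRange := by
  intro y hy
  obtain ⟨x, rfl⟩ := AlgHom.mem_fieldRange.1 hy
  exact (AlgHom.mem_fieldRange (f := ιM)).2 ⟨algebraMap K M x, hι x⟩

/-- If `M = K(α)` then `ιM M = ιK K ⊔ ℚ(ιM α)`. -/
theorem fieldRange_eq_sup_adjoin (hι : ∀ x : K, ιM (algebraMap K M x) = ιK x) (α : M)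
    (hα : IntermediateField.adjoin K {α} = ⊤) :
    ιM.fieldRange = ιK.fieldRange ⊔ ℚ⟮ιM α⟯ := by
  apply le_antisymm
  · intro z hz
    obtain ⟨y, rfl⟩ := AlgHom.mem_fieldRange.1 hz
    have hy : y ∈ (IntermediateField.adjoin K {α}).toSubfield := by
      rw [hα]
      exact (IntermediateField.mem_top (F := K) (E := M) (x := y))
    rw [IntermediateField.adjoin_toSubfield] at hy
    have hle : Subfield.closure (Set.range (algebraMap K M) ∪ {α}) ≤
        (ιK.fieldRange ⊔ ℚ⟮ιM α⟯).toSubfield.comap ιM.toRingHom := by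
      rw [Subfield.closure_le]
      rintro z (⟨x, rfl⟩ | hz)
      · show ιM (algebraMap K M x) ∈ ιK.fieldRange ⊔ ℚ⟮ιM α⟯
        rw [hι]
        exact (le_sup_left : ιK.fieldRange ≤ _) (mem_fieldRange_self ιK x)
      · rw [Set.mem_singleton_iff] at hz
        subst hz
        exact (le_sup_right : ℚ⟮ιM z⟯ ≤ _) (IntermediateField.mem_adjoin_simple_self ℚ _)
    exact hle hy
  · rw [sup_le_iff]
    refine ⟨fieldRange_le_fieldRange hι, ?_⟩
    rw [IntermediateField.adjoin_simple_le_iff]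
    exact mem_fieldRange_self ιM α

end Fields

section Roots

variable {p : ℕ} [NeZero p]

/-- `E ⊔ ℚ(β)` only depends on `β ^ p` when `μ_p ⊆ E`. -/
theorem sup_adjoin_le_of_pow_eq (E : IntermediateField ℚ Qbar) {ζ β β' : Qbar}
    (hζ : IsPrimitiveRoot ζ p) (hζE : ζ ∈ E) (hβ0 : β ≠ 0) (h : β' ^ p = β ^ p) :
    E ⊔ ℚ⟮β'⟯ ≤ E ⊔ ℚ⟮β⟯ := by
  rw [sup_le_iff]
  refine ⟨le_sup_left, ?_⟩
  rw [IntermediateField.adjoin_simple_le_iff]
  have h1 : (β' / β) ^ p = 1 := by rw [div_pow, h, div_self (pow_ne_zero _ hβ0)]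
  obtain ⟨i, -, hi⟩ := hζ.eq_pow_of_pow_eq_one h1
  have h2 : β' = ζ ^ i * β := by rw [hi, div_mul_cancel₀ _ hβ0]
  rw [h2]
  exact mul_mem (pow_mem ((le_sup_left : E ≤ E ⊔ ℚ⟮β⟯) hζE) i)
    ((le_sup_right : ℚ⟮β⟯ ≤ E ⊔ ℚ⟮β⟯) (IntermediateField.mem_adjoin_simple_self ℚ β))

theorem sup_adjoin_eq_of_pow_eq (E : IntermediateField ℚ Qbar) {ζ β β' : Qbar}
    (hζ : IsPrimitiveRoot ζ p) (hζE : ζ ∈ E) (hβ0 : β ≠ 0) (h : β' ^ p = β ^ p) :
    E ⊔ ℚ⟮β'⟯ = E ⊔ ℚ⟮β⟯ := by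
  have hβ'0 : β' ≠ 0 := by
    rintro rfl
    rw [zero_pow (NeZero.ne p)] at h
    exact pow_ne_zero _ hβ0 h.symm
  exact le_antisymm (sup_adjoin_le_of_pow_eq E hζ hζE hβ0 h)
    (sup_adjoin_le_of_pow_eq E hζ hζE hβ'0 h.symm)

/-- A `p`-th root of an element `c ^ p`, `c ∈ E`, lies in `E` (when `μ_p ⊆ E`). -/
theorem mem_of_pow_eq_pow (E : IntermediateField ℚ Qbar) {ζ β c : Qbar}
    (hζ : IsPrimitiveRoot ζ p) (hζE : ζ ∈ E) (hc : c ∈ E) (h : β ^ p = c ^ p) : β ∈ E := by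
  by_cases hc0 : c = 0
  · subst hc0
    rw [zero_pow (NeZero.ne p)] at h
    rw [pow_eq_zero_iff (NeZero.ne p)] at h
    rw [h]
    exact zero_mem E
  · have h1 : (β / c) ^ p = 1 := by rw [div_pow, h, div_self (pow_ne_zero _ hc0)]
    obtain ⟨i, -, hi⟩ := hζ.eq_pow_of_pow_eq_one h1
    have h2 : β = ζ ^ i * c := by rw [hi, div_mul_cancel₀ _ hc0]
    rw [h2]
    exact mul_mem (pow_mem hζE i) hc

end Roots

section Arith

variable (S : Finset Nat.Primes) {K : Type} [Field K] [NumberField K] {p : ℕ} [hp : Fact p.Prime]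
  {ιK : K →ₐ[ℚ] Qbar}

/-- For `x ∈ XS S K p` and `β ^ p = ιK x`, the field `ιK K ⊔ ℚ(β)` is unramified outside `S`
(`μ_p ⊆ K`, `p ∈ S`). -/
theorem isUnramifiedOutside_sup_adjoin_root (hK : ιK.fieldRange.IsUnramifiedOutside S)
    (hpS : (⟨p, hp.out⟩ : Nat.Primes) ∈ S) {ζ : K} (hζ : IsPrimitiveRoot ζ p) {x : Kˣ}
    (hx : x ∈ XS S K p) {β : Qbar} (hβ : β ^ p = ιK (x : K)) :
    (ιK.fieldRange ⊔ ℚ⟮β⟯).IsUnramifiedOutside S := by
  have hζ' : IsPrimitiveRoot (ιK ζ) p := hζ.map_of_injective (emb_injective ιK)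
  have hζE : ιK ζ ∈ ιK.fieldRange := mem_fieldRange_self ιK ζ
  by_cases hpow : ∃ c : K, c ^ p = (x : K)
  · obtain ⟨c, hc⟩ := hpow
    have hβE : β ∈ ιK.fieldRange := by
      refine mem_of_pow_eq_pow ιK.fieldRange hζ' hζE (mem_fieldRange_self ιK c) ?_
      rw [hβ, ← hc, map_pow]
    have : ιK.fieldRange ⊔ ℚ⟮β⟯ = ιK.fieldRange := by
      rw [sup_eq_left, IntermediateField.adjoin_simple_le_iff]
      exact hβE
    rw [this]
    exact hK
  · push Not at hpow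
    obtain ⟨M, _, _, _, _, hdeg, hur, α, hα, hαK⟩ :=
      exists_kummer_ext_of_dvd S K hp.out hpS hζ x hx hpow
    obtain ⟨ιM, hι⟩ := H24.exists_embedding_over (M := M) ιK
    have hM : ιM.fieldRange.IsUnramifiedOutside S :=
      isUnramifiedOutside_fieldRange_of_unramOutside S hι hK hur
    have htop := adjoin_radical_eq_top hp.out hdeg α hαK
    have hx0 : ιM α ≠ 0 :=
      root_ne_zero ιK hp.out.ne_zero (by rw [← map_pow, hα, hι])
    have heq : ιK.fieldRange ⊔ ℚ⟮β⟯ = ιK.fieldRange ⊔ ℚ⟮ιM α⟯ := by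
      refine sup_adjoin_eq_of_pow_eq _ hζ' hζE hx0 ?_
      rw [hβ, ← map_pow, hα, hι]
    rw [heq, ← fieldRange_eq_sup_adjoin hι α htop]
    exact hM

/-- The Kummer character of `x ∈ XS S K p` is a level character of the global formation restricted
to `Gal(Qbar / ιK K)`. -/
theorem kummerLevelChi_mem_levelChars' (hK : ιK.fieldRange.IsUnramifiedOutside S)
    (hpS : (⟨p, hp.out⟩ : Nat.Primes) ∈ S) {ζ : K} (hζ : IsPrimitiveRoot ζ p) {x : Kˣ}
    (hx : x ∈ XS S K p) {β : Qbar} (hβ : β ^ p = ιK (x : K)) :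
    kummerLevelChi ιK.fieldRange p (ιK ζ) β ∈
      levelChars ((globalLevels S).restrict ιK.fieldRange.fixingSubgroup) p := by
  have hβ0 : β ≠ 0 := root_ne_zero ιK hp.out.ne_zero hβ
  have hζ' : IsPrimitiveRoot (ιK ζ) p := hζ.map_of_injective (emb_injective ιK)
  exact kummerLevelChi_mem_levelChars S hζ' (mem_fieldRange_self ιK ζ) hβ0
    (by rw [hβ]; exact mem_fieldRange_self ιK (x : K))
    (isUnramifiedOutside_sup_adjoin_root S hK hpS hζ hx hβ)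

variable {M : Type} [Field M] [NumberField M] [Algebra K M] {ιM : M →ₐ[ℚ] Qbar}

/-- The kernel of the Kummer character `χ_x` on `Gal(Qbar / ιK K)` is `Gal(Qbar / ιM M)` for a
Kummer extension `M = K(x^{1/p})` embedded over `ιK`. -/
theorem kummerLevelChi_eq_zero_iff_mem_fixingSubgroup
    (hι : ∀ x : K, ιM (algebraMap K M x) = ιK x) (hdeg : Module.finrank K M = p) {ζ : K}
    (hζ : IsPrimitiveRoot ζ p) {x : Kˣ} (α : M) (hα : α ^ p = algebraMap K M (x : K))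
    (hαK : ∀ c : K, algebraMap K M c ≠ α) {β : Qbar} (hβ : β ^ p = ιK (x : K))
    (κ : ↥ιK.fieldRange.fixingSubgroup) :
    kummerLevelChi ιK.fieldRange p (ιK ζ) β κ = 0 ↔ (κ : GQ) ∈ ιM.fieldRange.fixingSubgroup := by
  have hζ' : IsPrimitiveRoot (ιK ζ) p := hζ.map_of_injective (emb_injective ιK)
  have hζE : ιK ζ ∈ ιK.fieldRange := mem_fieldRange_self ιK ζ
  have hβ0 : β ≠ 0 := root_ne_zero ιK hp.out.ne_zero hβ
  have hx0 : ιM α ≠ 0 :=
    root_ne_zero ιK hp.out.ne_zero (by rw [← map_pow, hα, hι])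
  have htop := adjoin_radical_eq_top hp.out hdeg α hαK
  have heq : ιK.fieldRange ⊔ ℚ⟮β⟯ = ιM.fieldRange := by
    rw [fieldRange_eq_sup_adjoin hι α htop]
    refine sup_adjoin_eq_of_pow_eq _ hζ' hζE hx0 ?_
    rw [hβ, ← map_pow, hα, hι]
  rw [kummerLevelChi_eq_zero_iff hζ' hβ0 (by rw [hβ]; exact mem_fieldRange_self ιK (x : K)) κ, heq]

/-- `χ_x = 0` iff `x` is a `p`-th power in `K`. -/
theorem kummerLevelChi_eq_zero_iff_exists_pow {ζ : K} (hζ : IsPrimitiveRoot ζ p) {x : Kˣ}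
    {β : Qbar} (hβ : β ^ p = ιK (x : K)) :
    kummerLevelChi ιK.fieldRange p (ιK ζ) β = 0 ↔ ∃ c : K, c ^ p = (x : K) := by
  have hζ' : IsPrimitiveRoot (ιK ζ) p := hζ.map_of_injective (emb_injective ιK)
  have hζE : ιK ζ ∈ ιK.fieldRange := mem_fieldRange_self ιK ζ
  have hβ0 : β ≠ 0 := root_ne_zero ιK hp.out.ne_zero hβ
  rw [kummerLevelChi_eq_zero_iff_mem hζ' hβ0 (by rw [hβ]; exact mem_fieldRange_self ιK (x : K))]
  constructor
  · intro h
    obtain ⟨c, hc⟩ := AlgHom.mem_fieldRange.1 h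
    refine ⟨c, emb_injective ιK ?_⟩
    rw [map_pow, hc, hβ]
  · rintro ⟨c, hc⟩
    refine mem_of_pow_eq_pow ιK.fieldRange hζ' hζE (mem_fieldRange_self ιK c) ?_
    rw [hβ, ← hc, map_pow]

end Arith

end Fermat.Agent.CFT.H54
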