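/-
CFT layer C, package C-EXIST, input (I5) (hedge by helper54): the beta-instantiation.

From a `p`-class formation structure on `(globalLevels S, repCSTop S)` and `(DIV)` we produce, at
every level `K ⊇ μ_p` (abstract number field embedded in `Qbar`, image unramified outside `S`),
a pairing `B : C_S(K) → Kˣ → ZMod p` with the properties (B1)-(B5) of `H3.IsBeta`:
`B a x := β (χ_x) (csIncl a)` for `x ∈ XS S K p`, where `β` is helper74's carry form at the open
subgroup `Gal(Qbar / ιK K)` and `χ_x` the Kummer character of a chosen `p`-th root of `ιK x`.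
-/
import Fermat.Agent.CFT.H54_ExistBetaAux
import Fermat.Agent.CFT.H74_CarryForm
import Fermat.Agent.CFT.H24_GlobalExist
import Fermat.Agent.CFT.H3_ExistGlobal

set_option autoImplicit false

namespace Fermat.Agent.CFT.H54

open IntermediateField Fermat.Agent.CFT Fermat.Agent.CFT.H10 Fermat.Agent.CFT.H23
  Fermat.Agent.CFT.H74 ExtCitation

local notation "GQ" => (AlgebraicClosure ℚ ≃ₐ[ℚ] AlgebraicClosure ℚ)
local notation "Qbar" => AlgebraicClosure ℚ

section Beta

variable {S : Finset Nat.Primes} {p : ℕ} [hp : Fact p.Prime]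

/-- **(I5)**: the pairings `B` with (B1)-(B5) at every level containing `μ_p`, from the
`p`-class formation structure of the global formation and `(DIV)`. -/
theorem hasBeta (hpS : pPrime p ∈ S)
    (PF : PClassFormation p (globalLevels S) (H77.repCSTop S))
    (hDIV : HasDIV (globalLevels S) p) : H3.HasBeta p S := by
  classical
  intro K _ _ ιK hK ζ hζ
  have hS : S.Nonempty := ⟨_, hpS⟩
  have hpS' : (⟨p, hp.out⟩ : Nat.Primes) ∈ S := hpS
  have hE : H77.HasDivisors S := H45.hasDivisors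
  have hU : (globalLevels S).IsOpen ιK.fieldRange.fixingSubgroup :=
    ⟨_, ⟨ιK.fieldRange, hK, rfl⟩, le_rfl⟩
  obtain ⟨β, -, -, hβ3, hβ4⟩ := exists_carryForm PF hDIV ιK.fieldRange.fixingSubgroup hU
  -- the invariant attached to a class
  let inv : CS S K → ↥(LevelStructure.H0
      (Rep.res ιK.fieldRange.fixingSubgroup.subtype (H77.repCSTop S))) := fun a =>
    ⟨Additive.ofMul (H77.csIncl hK (H45.divDescent hK) a), fun g =>
      congrArg Additive.ofMul
        (H77.smul_csIncl_of_mem_fixer hK (H45.divDescent hK) g.1 g.2 a)⟩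
  have hinv_mul : ∀ a a', inv (a * a') = inv a + inv a' := fun a a' =>
    Subtype.ext (by
      show Additive.ofMul (H77.csIncl hK (H45.divDescent hK) (a * a')) = _
      rw [map_mul]
      rfl)
  -- chosen roots
  have hroot : ∀ x : Kˣ, ∃ r : Qbar, r ^ p = ιK (x : K) := fun x =>
    IsAlgClosed.exists_pow_nat_eq _ hp.out.pos
  choose r hr using hroot
  have hr0 : ∀ x, r x ≠ 0 := fun x => root_ne_zero ιK hp.out.ne_zero (hr x)
  have hζ' : IsPrimitiveRoot (ιK ζ) p := hζ.map_of_injective (emb_injective ιK)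
  have hζE : ιK ζ ∈ ιK.fieldRange := mem_fieldRange_self ιK ζ
  have hrE : ∀ x, r x ^ p ∈ ιK.fieldRange := fun x => by
    rw [hr]
    exact mem_fieldRange_self ιK (x : K)
  -- the characters
  let χ : Kˣ → (↥ιK.fieldRange.fixingSubgroup → ZMod p) := fun x =>
    kummerLevelChi ιK.fieldRange p (ιK ζ) (r x)
  have hχmem : ∀ x, x ∈ XS S K p →
      χ x ∈ levelChars ((globalLevels S).restrict ιK.fieldRange.fixingSubgroup) p := fun x hx =>
    kummerLevelChi_mem_levelChars' S hK hpS' hζ hx (hr x)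
  have hχmul : ∀ x x', χ (x * x') = χ x + χ x' := fun x x' => by
    have h1 : kummerLevelChi ιK.fieldRange p (ιK ζ) (r (x * x')) =
        kummerLevelChi ιK.fieldRange p (ιK ζ) (r x * r x') := by
      refine kummerLevelChi_eq_of_pow_eq hζ' hζE (mul_ne_zero (hr0 x) (hr0 x')) ?_ ?_
      · rw [mul_pow]
        exact mul_mem (hrE x) (hrE x')
      · rw [hr, mul_pow, hr, hr, Units.val_mul, map_mul]
    show kummerLevelChi ιK.fieldRange p (ιK ζ) (r (x * x')) = _
    rw [h1, kummerLevelChi_mul hζ' (hr0 x) (hr0 x') (hrE x) (hrE x')]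
  have hχzero : ∀ x, χ x = 0 ↔ ∃ c : K, c ^ p = (x : K) := fun x =>
    kummerLevelChi_eq_zero_iff_exists_pow hζ (hr x)
  -- the pairing
  let B : CS S K → Kˣ → ZMod p := fun a x =>
    if hx : x ∈ XS S K p then β ⟨χ x, hχmem x hx⟩ (inv a) else 0
  have hB : ∀ a x (hx : x ∈ XS S K p), B a x = β ⟨χ x, hχmem x hx⟩ (inv a) := fun a x hx =>
    dif_pos hx
  have hBzero : ∀ a x, x ∈ XS S K p → (∃ c : K, c ^ p = (x : K)) → B a x = 0 := by
    intro a x hx hc
    have h0 : (⟨χ x, hχmem x hx⟩ :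
        levelChars ((globalLevels S).restrict ιK.fieldRange.fixingSubgroup) p) = 0 :=
      Subtype.ext ((hχzero x).2 hc)
    rw [hB a x hx, h0, map_zero]
    rfl
  refine ⟨B, ?_, ?_, ?_, ?_, ?_⟩
  · -- (B1)
    intro a a' x
    by_cases hx : x ∈ XS S K p
    · rw [hB _ x hx, hB _ x hx, hB _ x hx, hinv_mul, map_add]
    · show (if hx : x ∈ XS S K p then _ else 0) = (if hx : x ∈ XS S K p then _ else 0) +
        (if hx : x ∈ XS S K p then _ else 0)
      rw [dif_neg hx, dif_neg hx, dif_neg hx, add_zero]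
  · -- (B2)
    intro a x hx x' hx'
    have hxx' : x * x' ∈ XS S K p := mul_mem hx hx'
    have h1 : (⟨χ (x * x'), hχmem _ hxx'⟩ :
        levelChars ((globalLevels S).restrict ιK.fieldRange.fixingSubgroup) p) =
        ⟨χ x, hχmem x hx⟩ + ⟨χ x', hχmem x' hx'⟩ := Subtype.ext (hχmul x x')
    rw [hB a _ hxx', hB a x hx, hB a x' hx', h1, map_add]
    rfl
  · -- (B3)
    intro a c
    refine hBzero a (c ^ p) (powSubgroup_le_XS S K p ⟨c, rfl⟩) ⟨(c : K), ?_⟩
    rw [Units.val_pow_eq_pow_val]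
  · -- (B4)
    intro a x hx M _ _ _ _ hdeg hur hα hy
    obtain ⟨α, hα⟩ := hα
    by_cases hpow : ∃ c : K, c ^ p = (x : K)
    · exact hBzero a x hx hpow
    · have hαK : ∀ c : K, algebraMap K M c ≠ α := by
        intro c hc
        apply hpow
        refine ⟨c, (algebraMap K M).injective ?_⟩
        rw [map_pow, hc, hα]
      obtain ⟨ιM, hι⟩ := H24.exists_embedding_over (M := M) ιK
      have hM : ιM.fieldRange.IsUnramifiedOutside S :=
        H45.isUnramifiedOutside_of_unramOutside hι hK hur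
      have hnor := H24.subgroupOf_fixingSubgroup_normal ιK ιM hι
      have hχ0 : χ x ≠ 0 := fun h => hpow ((hχzero x).1 h)
      rw [hB a x hx]
      refine (hβ3 ⟨χ x, hχmem x hx⟩ hχ0 ιM.fieldRange.fixingSubgroup
        (H24.fixingSubgroup_fieldRange_le ιK ιM hι) ?_ (inv a)).2 ?_
      · intro κ
        exact kummerLevelChi_eq_zero_iff_mem_fixingSubgroup hι hdeg hζ α hα hαK (hr x) κ
      · exact (H24.exists_norm_iff hι hM (H45.divDescent hM) hK (H45.divDescent hK) hS hE a).1 hy
  · -- (B5)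
    intro x hx hpow
    have hχ0 : χ x ≠ 0 := fun h => by
      obtain ⟨c, hc⟩ := (hχzero x).1 h
      exact hpow c hc
    obtain ⟨a', ha'⟩ := hβ4 ⟨χ x, hχmem x hx⟩ hχ0
    obtain ⟨a₀, ha₀⟩ := (H77.mem_range_csIncl_iff hK (H45.divDescent hK) hS hE
      (Additive.toMul a'.1)).mpr
      (fun σ hσ => congrArg Additive.toMul (a'.2 ⟨σ, hσ⟩))
    refine ⟨a₀, ?_⟩
    have h1 : inv a₀ = a' := Subtype.ext (congrArg Additive.ofMul ha₀)
    rw [hB a₀ x hx, h1]
    exact ha'

end Beta

end Fermat.Agent.CFT.H54
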