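/-
CFT layer C, package C-EXIST (hedge by helper54 of helper51's plan v3 assembly), part A:
the "mod `p` bridge".

`H51.injective_of_count` is a statement about finite-dimensional vector spaces.  Here it is
transported to
* additive groups killed by `p` with cardinalities instead of dimensions
  (`injective_of_count_add`), and
* commutative groups modulo `p`-th powers with a biadditive pairing `B : C → X → ZMod p`
  (`exists_pow_eq_of_count`): the form in which the arithmetic inputs are available
  (`Nat.card (G ⧸ powSubgroup G p)`).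

Two group theoretic counting lemmas used to verify the count are included:
`card_quot_pow_eq_card_range_mul` and `card_quot_pow_eq_card_torsion`.
-/
import Mathlib
import Fermat.Agent.CFT.H51_ExistDual
import Fermat.Agent.CFT.H51_ExistCount

set_option autoImplicit false

namespace Fermat.Agent.CFT.H54

open Fermat.Agent.CFT.H51 Module

section Additive

variable (p : ℕ) [Fact p.Prime] {V X J : Type*} [AddCommGroup V] [AddCommGroup X]
  [AddCommGroup J] [Finite V] [Finite X] [Finite J]

/-- `H51.injective_of_count` for finite abelian groups killed by `p`, with cardinalities. -/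
theorem injective_of_count_add
    (hV : ∀ v : V, p • v = 0) (hX : ∀ x : X, p • x = 0) (hJ : ∀ j : J, p • j = 0)
    (P : V →+ X →+ ZMod p) (ι : J →+ V) (lam : X →+ J)
    (hιlam : ∀ x, ι (lam x) = 0)
    (hsplit : ∀ x, lam x = 0 → ∀ j, P (ι j) x = 0)
    (hnd : ∀ x, (∀ v, P v x = 0) → x = 0)
    (hcount : Nat.card J * Nat.card V ^ 2 ≤ Nat.card X ^ 2 * Nat.card ι.range ^ 2) :
    Function.Injective P := by
  have : Module (ZMod p) V := AddCommGroup.zmodModule hV
  have : Module (ZMod p) X := AddCommGroup.zmodModule hX
  have : Module (ZMod p) J := AddCommGroup.zmodModule hJ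
  let P₀ : V →+ Dual (ZMod p) X :=
    AddMonoidHom.mk' (fun v => (P v).toZModLinearMap p) (fun v w => by
      refine LinearMap.ext fun x => ?_
      show P (v + w) x = P v x + P w x
      rw [map_add]
      rfl)
  let P' : V →ₗ[ZMod p] Dual (ZMod p) X := P₀.toZModLinearMap p
  have hP' : ∀ v x, P' v x = P v x := fun v x => rfl
  let ι' : J →ₗ[ZMod p] V := ι.toZModLinearMap p
  let lam' : X →ₗ[ZMod p] J := lam.toZModLinearMap p
  have hp1 : 1 < p := (Fact.out : p.Prime).one_lt
  have hrange : Nat.card (LinearMap.range ι') = Nat.card ι.range :=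
    Nat.card_congr (Equiv.setCongr (by ext v; simp [ι']))
  have hinj : Function.Injective P' := by
    refine injective_of_count P' ι' lam' hιlam hsplit hnd ?_
    rw [← FiniteField.pow_finrank_eq_natCard p V, ← FiniteField.pow_finrank_eq_natCard p X, ← FiniteField.pow_finrank_eq_natCard p J,
      ← hrange, ← FiniteField.pow_finrank_eq_natCard p (LinearMap.range ι'), ← pow_mul, ← pow_mul,
      ← pow_mul, ← pow_add, ← pow_add] at hcount
    have := (Nat.pow_le_pow_iff_right hp1).1 hcount
    omega
  intro v w hvw
  apply hinj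
  ext x
  rw [hP', hP', hvw]

end Additive

section Multiplicative

variable {C J X : Type*} [CommGroup C] [CommGroup J] [CommGroup X]

/-- **The mod `p` bridge.**  `C`, `J`, `X` commutative groups, `X₀ ≤ X` a subgroup containing the
`p`-th powers, `ι : J → C`, `lam : X → J`, `B : C → X → ZMod p` biadditive and trivial on `X₀`.
If `ι ∘ lam` is trivial mod `p`-th powers, classes `x` with `lam x` a `p`-th power are orthogonal
to `ι J`, `B` is right-nondegenerate modulo `X₀`, and the count
`#(J/p) · #(C/p)² ≤ #(X/X₀)² · #(im (J/p → C/p))²` holds, then `B` is left-nondegenerate modulo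
`p`-th powers. -/
theorem exists_pow_eq_of_count (p : ℕ) [Fact p.Prime] (X₀ : Subgroup X)
    (ι : J →* C) (lam : X →* J) (B : C → X → ZMod p)
    (hB1 : ∀ a a' x, B (a * a') x = B a x + B a' x)
    (hB2 : ∀ a x x', B a (x * x') = B a x + B a x')
    (hB0 : ∀ a, ∀ x ∈ X₀, B a x = 0)
    (hXp : ∀ x : X, x ^ p ∈ X₀)
    (hιlam : ∀ x, ι (lam x) ∈ powSubgroup C p)
    (hlam0 : ∀ x ∈ X₀, lam x ∈ powSubgroup J p)
    (hsplit : ∀ x, lam x ∈ powSubgroup J p → ∀ j, B (ι j) x = 0)
    (hnd : ∀ x, (∀ a, B a x = 0) → x ∈ X₀)
    [Finite (C ⧸ powSubgroup C p)] [Finite (J ⧸ powSubgroup J p)] [Finite (X ⧸ X₀)]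
    (hcount : Nat.card (J ⧸ powSubgroup J p) * Nat.card (C ⧸ powSubgroup C p) ^ 2 ≤
      Nat.card (X ⧸ X₀) ^ 2 * Nat.card (quotPowMap ι p).range ^ 2)
    (a : C) (ha : ∀ x, B a x = 0) : ∃ b : C, b ^ p = a := by
  have hp0 : (p : ZMod p) = 0 := ZMod.natCast_self p
  -- basic properties of `B`
  have hB1one : ∀ x, B 1 x = 0 := fun x => by
    have := hB1 1 1 x
    rw [one_mul] at this
    exact left_eq_add.1 this
  have hB1pow : ∀ (n : ℕ) a x, B (a ^ n) x = n * B a x := by
    intro n a x
    induction n with
    | zero => simp [hB1one]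
    | succ n ih => rw [pow_succ, hB1, ih]; push_cast; ring
  have hB1inv : ∀ a x, B a⁻¹ x = - B a x := fun a x => by
    have := hB1 a a⁻¹ x
    rw [mul_inv_cancel, hB1one] at this
    exact eq_neg_of_add_eq_zero_right this.symm
  have hB2one : ∀ a, B a 1 = 0 := fun a => hB0 a 1 X₀.one_mem
  have hB2inv : ∀ a x, B a x⁻¹ = - B a x := fun a x => by
    have := hB2 a x x⁻¹
    rw [mul_inv_cancel, hB2one] at this
    exact eq_neg_of_add_eq_zero_right this.symm
  -- well-definedness
  have hwdC : ∀ a a' x, (QuotientGroup.mk a : C ⧸ powSubgroup C p) = QuotientGroup.mk a' →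
      B a x = B a' x := by
    intro a a' x h
    rw [QuotientGroup.eq] at h
    obtain ⟨c, hc⟩ := h
    have h1 : a' = a * c ^ p := by
      rw [show c ^ p = a⁻¹ * a' from hc]
      group
    rw [h1, hB1, hB1pow, hp0, zero_mul, add_zero]
  have hwdX : ∀ a x x', (QuotientGroup.mk x : X ⧸ X₀) = QuotientGroup.mk x' → B a x = B a x' := by
    intro a x x' h
    rw [QuotientGroup.eq] at h
    have h1 : x' = x * (x⁻¹ * x') := by group
    rw [h1, hB2, hB0 a _ h, add_zero]
  -- the three groups
  let V := Additive (C ⧸ powSubgroup C p)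
  let X' := Additive (X ⧸ X₀)
  let J' := Additive (J ⧸ powSubgroup J p)
  have : Finite V := inferInstanceAs (Finite (C ⧸ powSubgroup C p))
  have : Finite X' := inferInstanceAs (Finite (X ⧸ X₀))
  have : Finite J' := inferInstanceAs (Finite (J ⧸ powSubgroup J p))
  have hV : ∀ v : V, p • v = 0 := by
    intro v
    induction v using Additive.rec with
    | ofMul v =>
      induction v using QuotientGroup.induction_on with
      | H c =>
        rw [← ofMul_pow, ← QuotientGroup.mk_pow]
        exact congrArg Additive.ofMul ((QuotientGroup.eq_one_iff _).2 ⟨c, rfl⟩)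
  have hJ : ∀ v : J', p • v = 0 := by
    intro v
    induction v using Additive.rec with
    | ofMul v =>
      induction v using QuotientGroup.induction_on with
      | H c =>
        rw [← ofMul_pow, ← QuotientGroup.mk_pow]
        exact congrArg Additive.ofMul ((QuotientGroup.eq_one_iff _).2 ⟨c, rfl⟩)
  have hX : ∀ v : X', p • v = 0 := by
    intro v
    induction v using Additive.rec with
    | ofMul v =>
      induction v using QuotientGroup.induction_on with
      | H c =>
        rw [← ofMul_pow, ← QuotientGroup.mk_pow]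
        exact congrArg Additive.ofMul ((QuotientGroup.eq_one_iff _).2 (hXp c))
  -- the pairing on the quotients
  let Bq : V → X' → ZMod p := fun v x =>
    B (Quotient.out (Additive.toMul v)) (Quotient.out (Additive.toMul x))
  have hBq : ∀ (c : C) (x : X), Bq (Additive.ofMul (QuotientGroup.mk c))
      (Additive.ofMul (QuotientGroup.mk x)) = B c x := by
    intro c x
    show B (Quotient.out (QuotientGroup.mk c : C ⧸ powSubgroup C p))
      (Quotient.out (QuotientGroup.mk x : X ⧸ X₀)) = B c x
    rw [hwdC _ c _ (QuotientGroup.out_eq' _), hwdX _ _ x (QuotientGroup.out_eq' _)]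
  have hVrec : ∀ (motive : V → Prop), (∀ c : C, motive (Additive.ofMul (QuotientGroup.mk c))) →
      ∀ v, motive v := by
    intro motive h v
    induction v using Additive.rec with
    | ofMul v =>
      induction v using QuotientGroup.induction_on with
      | H c => exact h c
  have hXrec : ∀ (motive : X' → Prop), (∀ c : X, motive (Additive.ofMul (QuotientGroup.mk c))) →
      ∀ v, motive v := by
    intro motive h v
    induction v using Additive.rec with
    | ofMul v =>
      induction v using QuotientGroup.induction_on with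
      | H c => exact h c
  have hJrec : ∀ (motive : J' → Prop), (∀ c : J, motive (Additive.ofMul (QuotientGroup.mk c))) →
      ∀ v, motive v := by
    intro motive h v
    induction v using Additive.rec with
    | ofMul v =>
      induction v using QuotientGroup.induction_on with
      | H c => exact h c
  let P : V →+ X' →+ ZMod p :=
    AddMonoidHom.mk' (fun v => AddMonoidHom.mk' (Bq v) (by
      intro x x'
      revert v
      refine hVrec _ fun c => ?_
      revert x
      refine hXrec _ fun x => ?_
      revert x'
      refine hXrec _ fun x' => ?_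
      rw [← ofMul_mul, ← QuotientGroup.mk_mul, hBq, hBq, hBq, hB2])) (by
      intro v v'
      refine AddMonoidHom.ext fun x => ?_
      revert v
      refine hVrec _ fun c => ?_
      revert v'
      refine hVrec _ fun c' => ?_
      revert x
      refine hXrec _ fun x => ?_
      show Bq _ _ = Bq _ _ + Bq _ _
      rw [← ofMul_mul, ← QuotientGroup.mk_mul, hBq, hBq, hBq, hB1])
  have hP : ∀ (c : C) (x : X), P (Additive.ofMul (QuotientGroup.mk c))
      (Additive.ofMul (QuotientGroup.mk x)) = B c x := hBq
  let ι' : J' →+ V := MonoidHom.toAdditive (quotPowMap ι p)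
  have hι' : ∀ j : J, ι' (Additive.ofMul (QuotientGroup.mk j)) =
      Additive.ofMul (QuotientGroup.mk (ι j)) := fun j => rfl
  let lam₀ : X ⧸ X₀ →* J ⧸ powSubgroup J p :=
    QuotientGroup.map _ _ lam (fun x hx => hlam0 x hx)
  let lam' : X' →+ J' := MonoidHom.toAdditive lam₀
  have hlam' : ∀ x : X, lam' (Additive.ofMul (QuotientGroup.mk x)) =
      Additive.ofMul (QuotientGroup.mk (lam x)) := fun x => rfl
  have hrange : Nat.card ι'.range = Nat.card (quotPowMap ι p).range := by
    refine Nat.card_congr (Equiv.subtypeEquiv Additive.toMul ?_)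
    intro v
    constructor
    · rintro ⟨j, rfl⟩
      exact ⟨Additive.toMul j, rfl⟩
    · rintro ⟨j, hj⟩
      exact ⟨Additive.ofMul j, Additive.toMul.injective hj⟩
  have hinj : Function.Injective P := by
    refine injective_of_count_add p hV hX hJ P ι' lam' ?_ ?_ ?_ ?_
    · refine hXrec _ fun x => ?_
      rw [hlam', hι']
      exact congrArg Additive.ofMul ((QuotientGroup.eq_one_iff _).2 (hιlam x))
    · refine hXrec _ fun x => ?_
      intro hx
      refine hJrec _ fun j => ?_
      rw [hι', hP]
      refine hsplit x ?_ j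
      rw [hlam'] at hx
      exact (QuotientGroup.eq_one_iff _).1 (Additive.ofMul.injective hx)
    · refine hXrec _ fun x => ?_
      intro hx
      refine congrArg Additive.ofMul ((QuotientGroup.eq_one_iff _).2 (hnd x fun c => ?_))
      rw [← hP]
      exact hx _
    · rw [hrange]
      exact hcount
  have h0 : (Additive.ofMul (QuotientGroup.mk a) : V) = 0 := by
    apply hinj
    refine AddMonoidHom.ext fun x => ?_
    revert x
    refine hXrec _ fun x => ?_
    rw [hP, ha, map_zero]
    rfl
  exact (QuotientGroup.eq_one_iff _).1 (Additive.ofMul.injective h0)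

/-- For `ι : J → C` with cokernel `Q` (given as a surjection `π : C → Q` with kernel `ι J`):
`#(C/p) = #(im (J/p → C/p)) · #(Q/p)`. -/
theorem card_quot_pow_eq_card_range_mul {Q : Type*} [CommGroup Q] (ι : J →* C) (π : C →* Q)
    (hπ : Function.Surjective π) (hker : π.ker = ι.range) (p : ℕ) :
    Nat.card (C ⧸ powSubgroup C p) =
      Nat.card (quotPowMap ι p).range * Nat.card (Q ⧸ powSubgroup Q p) := by
  have h1 := ker_quotPowMap_eq_range ι π hπ hker p
  have h2 := quotPowMap_surjective π p hπ
  have h3 := Subgroup.card_eq_card_quotient_mul_card_subgroup (quotPowMap π p).ker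
  rw [h3, ← h1, mul_comm]
  congr 1
  exact Nat.card_congr (QuotientGroup.quotientKerEquivOfSurjective _ h2).toEquiv

/-- For a finite commutative group `Q`: `#(Q/p) = #Q[p]`. -/
theorem card_quot_pow_eq_card_torsion {Q : Type*} [CommGroup Q] [Finite Q] (p : ℕ) :
    Nat.card (Q ⧸ powSubgroup Q p) = Nat.card (powMonoidHom p : Q →* Q).ker := by
  have h1 := Subgroup.card_eq_card_quotient_mul_card_subgroup (powSubgroup Q p)
  have h2 := Subgroup.card_eq_card_quotient_mul_card_subgroup (powMonoidHom p : Q →* Q).ker
  have h3 : Nat.card (Q ⧸ (powMonoidHom p : Q →* Q).ker) = Nat.card (powSubgroup Q p) :=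
    Nat.card_congr (QuotientGroup.quotientKerEquivRange (powMonoidHom p : Q →* Q)).toEquiv
  rw [h3] at h2
  have hpos : 0 < Nat.card (powSubgroup Q p) := Nat.card_pos
  have : Nat.card (Q ⧸ powSubgroup Q p) * Nat.card (powSubgroup Q p) =
      Nat.card (powSubgroup Q p) * Nat.card (powMonoidHom p : Q →* Q).ker := by
    rw [← h1, ← h2]
  rw [mul_comm] at this
  exact Nat.eq_of_mul_eq_mul_left hpos this

end Multiplicative

end Fermat.Agent.CFT.H54
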