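import Mathlib
import Fermat.Agent.CFT.H54_PlacesSurj
import Fermat.Agent.CFT.H79_SecondBridgeWA

/-!
# CFT layer C, package C-DICT-places (helper54), stage 4: the maximal order of `L ⊗[ℚ] ℚ_[p]`

helper79's lattice `H79.intLoc L p` (the image of `𝓞 L ⊗ ℤ_[p]` in `L ⊗[ℚ] ℚ_[p]`) is the
maximal order: it is the set of elements all of whose local norms are `≤ 1`.
-/

set_option autoImplicit false
set_option linter.unusedSectionVars false
set_option linter.style.haveILetI false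

namespace Fermat.Agent.CFT.H54

open NumberField IsDedekindDomain TensorProduct
open Fermat.Agent.CFT

section MaxOrder

variable {L : Type} [Field L] [NumberField L] {p : Nat.Primes}

/-- Elements of the lattice `𝓞 L ⊗ ℤ_[p]` have all local norms `≤ 1`. -/
theorem locNorm_le_one_of_mem_intLoc (𝔪 : Place L p) {a : H42.locAlg L p}
    (ha : a ∈ H79.intLoc L p) : locNorm 𝔪 a ≤ 1 := by
  refine H79.intLoc_induction L p (P := fun a => locNorm 𝔪 a ≤ 1) ?_ ?_ ?_ ?_ a ha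
  · rw [locNorm_zero]; exact zero_le_one
  · intro b c
    rw [locNorm_tmul]
    exact mul_le_one₀ (abv_le_one_of_integer _ (isNonarchimedean_absAt 𝔪) b) (norm_nonneg _)
      (PadicInt.norm_le_one c)
  · intro x y hx hy
    exact (locNorm_add_le_max 𝔪 x y).trans (max_le hx hy)
  · intro x hx
    rw [locNorm_neg]; exact hx

/-- The local norm of a natural number. -/
theorem locNorm_natCast (𝔪 : Place L p) (n : ℕ) :
    locNorm 𝔪 (n : H42.locAlg L p) = ‖(n : ℚ_[p])‖ := by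
  have : (n : H42.locAlg L p) = (1 : L) ⊗ₜ[ℚ] (n : ℚ_[p]) := by
    rw [← Algebra.TensorProduct.includeRight_apply, map_natCast]
  rw [this, locNorm_tmul, map_one, one_mul]

/-- If `x ∈ L` has `|x|_𝔪 ≤ 1` at all places above `p` and is integral outside `p`
(`p^k x ∈ 𝓞 L`), then `x ∈ 𝓞 L`. -/
theorem mem_integers_of_absAt_le_one {y : L} (hy : ∀ 𝔪 : Place L p, absAt 𝔪 y ≤ 1)
    {k : ℕ} {b : 𝓞 L} (hb : ((p : ℕ) : L) ^ k * y = (b : L)) :
    y ∈ (algebraMap (𝓞 L) L).range := by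
  apply HeightOneSpectrum.mem_integers_of_valuation_le_one
  intro v
  by_cases hv : ((p : ℕ) : 𝓞 L) ∈ v.asIdeal
  · obtain ⟨𝔪, rfl⟩ := exists_primeAt_eq v hv
    exact (absAt_le_one_iff 𝔪).mp (hy 𝔪)
  · have h1 : v.valuation L (((p : ℕ) : 𝓞 L) : L) = 1 :=
      (v.valuation_eq_one_iff_notMem (K := L)).mpr hv
    have h2 : v.valuation L (((p : ℕ) : L) ^ k * y) ≤ 1 := by
      rw [hb]; exact v.valuation_le_one b
    have h3 : v.valuation L ((p : ℕ) : L) = 1 := by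
      have : ((((p : ℕ) : 𝓞 L) : L)) = ((p : ℕ) : L) := by simp
      rw [← this]; exact h1
    rw [map_mul, map_pow, h3, one_pow, one_mul] at h2
    exact h2

/-- (O) The maximal order: `a ∈ 𝓞 L ⊗ ℤ_[p]` iff all local norms of `a` are `≤ 1`. -/
theorem mem_intLoc_iff (a : H42.locAlg L p) :
    a ∈ H79.intLoc L p ↔ ∀ 𝔪 : Place L p, locNorm 𝔪 a ≤ 1 := by
  refine ⟨fun ha 𝔪 => locNorm_le_one_of_mem_intLoc 𝔪 ha, fun h => ?_⟩
  obtain ⟨k, hk⟩ := H79.exists_pow_mul_mem_intLoc L p (p : ℕ) dvd_rfl a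
  have hpk : (p : ℕ) ^ k ≠ 0 := pow_ne_zero _ p.2.ne_zero
  obtain ⟨b, z, hz, hbz⟩ := H79.exists_integer_add_mul_eq L p ((p : ℕ) ^ k) hpk _ hk
  -- `y := b / p^k`
  set y : L := (b : L) / ((p : ℕ) : L) ^ k with hy
  have hp0 : ((p : ℕ) : L) ≠ 0 := by exact_mod_cast p.2.ne_zero
  have hpy : ((p : ℕ) : L) ^ k * y = (b : L) := by
    rw [hy]; field_simp
  -- `a = y ⊗ 1 + z`
  have hunit : IsUnit (((p : ℕ) : H42.locAlg L p) ^ k) := by
    have : ((p : ℕ) : H42.locAlg L p) = algebraMap L (H42.locAlg L p) ((p : ℕ) : L) := by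
      rw [map_natCast]
    rw [this]
    exact (IsUnit.map _ (isUnit_iff_ne_zero.mpr hp0)).pow k
  have e1 : ((p : ℕ) : H42.locAlg L p) ^ k * (y ⊗ₜ[ℚ] (1 : ℚ_[p])) = (b : L) ⊗ₜ[ℚ] (1 : ℚ_[p]) := by
    have : ((p : ℕ) : H42.locAlg L p) ^ k = (((p : ℕ) : L) ^ k) ⊗ₜ[ℚ] (1 : ℚ_[p]) := by
      rw [← Algebra.TensorProduct.includeLeft_apply (S := ℚ), map_pow, map_natCast]
    rw [this, Algebra.TensorProduct.tmul_mul_tmul, hpy, mul_one]
  have e2 : a = y ⊗ₜ[ℚ] (1 : ℚ_[p]) + z := by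
    apply hunit.mul_left_cancel
    rw [mul_add, e1, hbz]
    push_cast
    ring
  -- `y` is integral
  have hyint : ∀ 𝔪 : Place L p, absAt 𝔪 y ≤ 1 := by
    intro 𝔪
    rw [absAt_eq_locNorm]
    have : y ⊗ₜ[ℚ] (1 : ℚ_[p]) = a - z := by rw [e2]; ring
    rw [this]
    exact (locNorm_sub_le_max 𝔪 a z).trans (max_le (h 𝔪) (locNorm_le_one_of_mem_intLoc 𝔪 hz))
  obtain ⟨y', hy'⟩ := mem_integers_of_absAt_le_one hyint hpy
  rw [e2]
  refine (H79.intLoc L p).add_mem ?_ hz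
  have := H79.tmul_mem_intLoc L p y' 1
  rw [PadicInt.coe_one] at this
  rw [← hy']
  exact this

end MaxOrder

end Fermat.Agent.CFT.H54
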