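import Mathlib
import Fermat.Agent.CFT.H54_MaxOrder
import Fermat.Agent.CFT.H54_PlacesGal
import Fermat.Agent.CFT.H18_PlacesGal
import Fermat.Agent.CFT.H23_CMaps

/-!
# CFT layer C, C-EXIST (I3) (helper54): the local unit ideles `U_q ≤ (K ⊗[ℚ] ℚ_[q])ˣ`

`unitIdeles K q := {u | ∀ 𝔪 : Place K q, locNorm 𝔪 u = 1}`; it is the unit group of helper79's
maximal order `H79.intLoc K q`, it is stable under Galois and under base change, and a
principal idele `x ⊗ 1` lies in it iff `x` is a unit at all primes above `q`.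
-/

set_option autoImplicit false
set_option linter.unusedSectionVars false
set_option linter.style.haveILetI false

namespace Fermat.Agent.CFT.H54

open NumberField IsDedekindDomain TensorProduct
open Fermat.Agent.CFT

section Def

variable (K : Type) [Field K] [NumberField K] (q : Nat.Primes)

/-- The local unit ideles at `q`: the elements of `(K ⊗[ℚ] ℚ_[q])ˣ` of norm `1` at every place
of `K` above `q`. -/
def unitIdeles : Subgroup (H23.Loc K q)ˣ where
  carrier := {u | ∀ 𝔪 : Place K q, locNorm 𝔪 (u : H23.Loc K q) = 1}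
  mul_mem' := by
    intro a b ha hb 𝔪
    rw [Units.val_mul, locNorm_mul, ha 𝔪, hb 𝔪, one_mul]
  one_mem' := fun 𝔪 => locNorm_one 𝔪
  inv_mem' := by
    intro a ha 𝔪
    have h := locNorm_mul 𝔪 (a : H23.Loc K q) ((a⁻¹ : (H23.Loc K q)ˣ) : H23.Loc K q)
    rw [Units.mul_inv, locNorm_one, ha 𝔪, one_mul] at h
    exact h.symm

variable {K q}

theorem mem_unitIdeles_iff {u : (H23.Loc K q)ˣ} :
    u ∈ unitIdeles K q ↔ ∀ 𝔪 : Place K q, locNorm 𝔪 (u : H23.Loc K q) = 1 := Iff.rfl

/-- The local norms of a unit are nonzero. -/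
theorem locNorm_units_pos (𝔪 : Place K q) (u : (H23.Loc K q)ˣ) :
    0 < locNorm 𝔪 (u : H23.Loc K q) := by
  have h := locNorm_mul 𝔪 (u : H23.Loc K q) ((u⁻¹ : (H23.Loc K q)ˣ) : H23.Loc K q)
  rw [Units.mul_inv, locNorm_one] at h
  rcases (locNorm_nonneg 𝔪 (u : H23.Loc K q)).eq_or_lt with h0 | h0
  · rw [← h0, zero_mul] at h
    exact absurd h one_ne_zero
  · exact h0

theorem locNorm_units_inv (𝔪 : Place K q) (u : (H23.Loc K q)ˣ) :
    locNorm 𝔪 ((u⁻¹ : (H23.Loc K q)ˣ) : H23.Loc K q) = (locNorm 𝔪 (u : H23.Loc K q))⁻¹ := by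
  have h := locNorm_mul 𝔪 (u : H23.Loc K q) ((u⁻¹ : (H23.Loc K q)ˣ) : H23.Loc K q)
  rw [Units.mul_inv, locNorm_one] at h
  exact eq_inv_of_mul_eq_one_right h.symm

/-- The unit ideles are the units of the maximal order `𝓞 K ⊗ ℤ_[q]`. -/
theorem mem_unitIdeles_iff_intLoc {u : (H23.Loc K q)ˣ} :
    u ∈ unitIdeles K q ↔ (u : H23.Loc K q) ∈ H79.intLoc K q ∧
      ((u⁻¹ : (H23.Loc K q)ˣ) : H23.Loc K q) ∈ H79.intLoc K q := by
  constructor
  · intro hu
    refine ⟨(mem_intLoc_iff _).mpr (fun 𝔪 => (hu 𝔪).le), (mem_intLoc_iff _).mpr (fun 𝔪 => ?_)⟩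
    exact ((unitIdeles K q).inv_mem hu 𝔪).le
  · rintro ⟨h1, h2⟩ 𝔪
    have a1 := (mem_intLoc_iff _).mp h1 𝔪
    have a2 := (mem_intLoc_iff _).mp h2 𝔪
    rw [locNorm_units_inv] at a2
    have hpos := locNorm_units_pos 𝔪 u
    have : 1 ≤ locNorm 𝔪 (u : H23.Loc K q) := by
      rwa [inv_le_one₀ hpos] at a2
    exact le_antisymm a1 this

/-- A principal idele is a unit idele at `q` iff it is a unit at all primes above `q`. -/
theorem toLocUnits_mem_unitIdeles_iff (x : Kˣ) :
    H23.toLocUnits K q x ∈ unitIdeles K q ↔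
      ∀ P : HeightOneSpectrum (𝓞 K), ((q : ℕ) : 𝓞 K) ∈ P.asIdeal → P.valuation K (x : K) = 1 := by
  have hval : ∀ 𝔪 : Place K q, locNorm 𝔪 ((H23.toLocUnits K q x : (H23.Loc K q)ˣ) : H23.Loc K q) =
      absAt 𝔪 (x : K) := by
    intro 𝔪
    rw [absAt_eq_locNorm]
    rfl
  constructor
  · intro h P hP
    obtain ⟨𝔪, rfl⟩ := exists_primeAt_eq P hP
    rw [← absAt_eq_one_iff, ← hval]
    exact h 𝔪
  · intro h 𝔪
    rw [hval, absAt_eq_one_iff]
    exact h _ (natCast_mem_primeAt 𝔪)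

end Def

section Galois

variable {K : Type} [Field K] [NumberField K] {q : Nat.Primes}
  {k : Type*} [Field k] [CharZero k] [Algebra k K]

/-- The unit ideles are Galois-stable. -/
theorem smul_mem_unitIdeles (σ : K ≃ₐ[k] K) {u : (H23.Loc K q)ˣ} (hu : u ∈ unitIdeles K q) :
    σ • u ∈ unitIdeles K q := by
  intro 𝔪
  have h1 : smulPlace σ (smulPlace σ⁻¹ 𝔪) = 𝔪 := by
    rw [← smulPlace_mul, mul_inv_cancel, smulPlace_one]
  have h2 := locNorm_smulPlace σ (smulPlace σ⁻¹ 𝔪) (u : H23.Loc K q)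
  rw [h1] at h2
  rw [H42.coe_smul_units, h2]
  exact hu _

end Galois

section BaseChange

variable (K F : Type) [Field K] [NumberField K] [Field F] [NumberField F] [Algebra K F]
  (q : Nat.Primes)

/-- Functoriality of the local norms under a ring map `g : K ⊗ ℚ_q → F ⊗ ℚ_q` which is the
identity on `ℚ_q`, for a place `m` of `F` and `u := g⁻¹(m)`. -/
theorem locNorm_of_comap {K F : Type} [Field K] [NumberField K] [Field F] [NumberField F]
    {q : Nat.Primes} (g : H42.locAlg K q →+* H42.locAlg F q)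
    (hg' : ∀ c : ℚ_[q], g ((1 : K) ⊗ₜ[ℚ] c) = (1 : F) ⊗ₜ[ℚ] c)
    (m : Place F q) (u : Place K q) (hu : u.asIdeal = m.asIdeal.comap g)
    (a : H42.locAlg K q) : locNorm m (g a) = locNorm u a := by
  let φ : locField u →ₐ[ℚ_[q]] locField m :=
    { H18.locFieldMap g m u hu with
      commutes' := fun c => by
        show H18.locFieldMap g m u hu (locMk u ((1 : K) ⊗ₜ[ℚ] c)) = locMk m ((1 : F) ⊗ₜ[ℚ] c)
        rw [H18.locFieldMap_locMk, hg'] }
  have h1 : locMk m (g a) = φ (locMk u a) := rfl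
  rw [locNorm_def, locNorm_def, h1, Loc.nrm_def, Loc.nrm_def, spectralNorm_algHom]

/-- `|locMap a|_m = |a|_u` for `u` the place of `K` below `m`. -/
theorem locNorm_locMap (m : Place F q) (a : H23.Loc K q) :
    locNorm m (H23.locMap K F q a) = locNorm (H18.maxUnder K F q m) a := by
  have hfun : ∀ t : H23.Loc K q, H23.locMap K F q t =
      H42.baseIncl (k := ℚ) (K := K) (L := F) (A := ℚ_[q]) t := by
    intro t
    induction t using TensorProduct.induction_on with
    | zero => simp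
    | tmul x c => rw [H23.locMap_tmul, H42.baseIncl_tmul]
    | add x y hx hy => rw [map_add, map_add, hx, hy]
  rw [hfun]
  exact locNorm_of_comap
    (H42.baseIncl (k := ℚ) (K := K) (L := F) (A := ℚ_[q]) : H42.locAlg K q →+* H42.locAlg F q)
    (fun c => by
      show H42.baseIncl (k := ℚ) (K := K) (L := F) (A := ℚ_[q]) ((1 : K) ⊗ₜ[ℚ] c) = _
      rw [H42.baseIncl_tmul, map_one])
    m (H18.maxUnder K F q m) rfl a

/-- Base change maps unit ideles to unit ideles. -/
theorem map_locMap_mem_unitIdeles {u : (H23.Loc K q)ˣ} (hu : u ∈ unitIdeles K q) :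
    Units.map (H23.locMap K F q : H23.Loc K q →* H23.Loc F q) u ∈ unitIdeles F q := by
  intro m
  rw [Units.coe_map, MonoidHom.coe_coe, locNorm_locMap]
  exact hu _

end BaseChange

end Fermat.Agent.CFT.H54
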