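import Fermat.Agent.CFT.H55_LevelRes

/-!
# Level `H¹` as a submodule of the abstract `H¹`

`𝓛.H1 A` (a quotient of level cocycles) injects into Mathlib's `groupCohomology.H1 A`; the image
is the submodule of classes of level-constant cocycles (the shape of the frozen `continuousH1`,
`continuousH1S`).  The injection is compatible with restriction maps.
-/

set_option autoImplicit false

universe u

open CategoryTheory groupCohomology

namespace Fermat.Agent.CFT

namespace LevelStructure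

variable {k : Type u} [CommRing k] {H : Type u} [Group H] (𝓛 : LevelStructure H) (A : Rep k H)

/-- Level cocycles as honest cocycles. -/
def cocycles₁ToCocycles₁ : ↥(𝓛.cocycles₁ A) →ₗ[k] ↥(groupCohomology.cocycles₁ A) where
  toFun c := ⟨(c : H → A), c.2.1⟩
  map_add' _ _ := rfl
  map_smul' _ _ := rfl

@[simp] lemma coe_cocycles₁ToCocycles₁ (c : ↥(𝓛.cocycles₁ A)) :
    (cocycles₁ToCocycles₁ 𝓛 A c : H → A) = c := rfl

/-- The canonical map from level `H¹` to the abstract `H¹`. -/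
noncomputable def H1ToAbs : 𝓛.H1 A →ₗ[k] groupCohomology.H1 A :=
  Submodule.liftQ _ ((groupCohomology.H1π A).hom ∘ₗ cocycles₁ToCocycles₁ 𝓛 A) (fun c hc => by
    rw [LinearMap.mem_ker, LinearMap.comp_apply]
    exact (groupCohomology.H1π_eq_zero_iff _).2 hc)

@[simp] lemma H1ToAbs_H1π (c : ↥(𝓛.cocycles₁ A)) :
    H1ToAbs 𝓛 A (𝓛.H1π A c) = groupCohomology.H1π A (cocycles₁ToCocycles₁ 𝓛 A c) := rfl

lemma H1ToAbs_injective : Function.Injective (H1ToAbs 𝓛 A) := by
  rw [← LinearMap.ker_eq_bot, H1ToAbs, Submodule.ker_liftQ_eq_bot']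
  ext c
  simp only [Submodule.mem_comap, Submodule.subtype_apply, LinearMap.mem_ker,
    LinearMap.comp_apply]
  exact (groupCohomology.H1π_eq_zero_iff (cocycles₁ToCocycles₁ 𝓛 A c)).symm

/-- The image of level `H¹` in the abstract `H¹`: classes of level-constant cocycles. -/
noncomputable def contH1 : Submodule k (groupCohomology.H1 A) :=
  ((𝓛.cochains₁ A).comap (groupCohomology.cocycles₁ A).subtype).map (groupCohomology.H1π A).hom

lemma mem_contH1_iff (x : groupCohomology.H1 A) :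
    x ∈ 𝓛.contH1 A ↔ ∃ c : groupCohomology.cocycles₁ A, 𝓛.IsConst₁ (c : H → A) ∧
      (groupCohomology.H1π A).hom c = x := by
  simp only [contH1, Submodule.mem_map, Submodule.mem_comap]; rfl

lemma range_H1ToAbs : LinearMap.range (H1ToAbs 𝓛 A) = 𝓛.contH1 A := by
  ext x
  rw [mem_contH1_iff]
  constructor
  · rintro ⟨y, rfl⟩
    obtain ⟨c, rfl⟩ := Submodule.Quotient.mk_surjective _ y
    exact ⟨cocycles₁ToCocycles₁ 𝓛 A c, c.2.2, rfl⟩
  · rintro ⟨c, hc, rfl⟩
    exact ⟨𝓛.H1π A ⟨(c : H → A), c.2, hc⟩, rfl⟩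

/-- Level `H¹` is linearly equivalent to its image in the abstract `H¹`. -/
noncomputable def H1EquivContH1 : 𝓛.H1 A ≃ₗ[k] ↥(𝓛.contH1 A) :=
  (LinearEquiv.ofInjective (H1ToAbs 𝓛 A) (H1ToAbs_injective 𝓛 A)).trans
    (LinearEquiv.ofEq _ _ (range_H1ToAbs 𝓛 A))

@[simp] lemma coe_H1EquivContH1 (y : 𝓛.H1 A) :
    ((H1EquivContH1 𝓛 A y : ↥(𝓛.contH1 A)) : groupCohomology.H1 A) = H1ToAbs 𝓛 A y := rfl

section Res

variable {G : Type u} [Group G] (𝓛G : LevelStructure G) (f : G →* H)
  (hf : 𝓛G.Continuous 𝓛 f)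

/-- `H1ToAbs` is compatible with restriction along a continuous homomorphism. -/
lemma H1ToAbs_resH1 (y : 𝓛.H1 A) :
    H1ToAbs 𝓛G (Rep.res f A) (resH1 f hf A y) =
      (groupCohomology.map f (𝟙 (Rep.res f A)) 1).hom (H1ToAbs 𝓛 A y) := by
  obtain ⟨c, rfl⟩ := Submodule.Quotient.mk_surjective _ y
  change groupCohomology.H1π (Rep.res f A) _ = (groupCohomology.map f (𝟙 _) 1).hom
    (groupCohomology.H1π A _)
  have h := groupCohomology.H1π_comp_map_apply f (𝟙 (Rep.res f A))
    (cocycles₁ToCocycles₁ 𝓛 A c)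
  rw [h]
  congr 1

end Res

end LevelStructure

end Fermat.Agent.CFT
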