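import Fermat.Agent.CFT.H55_GalLevels
import Fermat.Agent.CFT.H55_LevelH1
import Fermat.Agent.CFT.H60_ArchVanish

/-!
# Bridge: the frozen `continuousH2`, `continuousH2S`, `continuousH1S`, `sha₁`, `sha₂`
are the level-cohomology objects of `pullLevels r`, `globalLevels S`.
-/

set_option autoImplicit false

open CategoryTheory groupCohomology ExtCitation

namespace Fermat.Agent.CFT

local notation "GQ" => (AlgebraicClosure ℚ ≃ₐ[ℚ] AlgebraicClosure ℚ)

/-! ### Local side: `continuousH2 r M` -/

section Local

variable {k : Type} [CommRing k] {H : Type} [Group H] (r : H →* GQ) (M : Rep k H)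

lemma levelCochains₁_eq : groupCohomology.levelCochains₁ r M = (pullLevels r).cochains₁ M := by
  ext f; exact isLevelConstant₁_iff r f

lemma levelCochains₂_eq : groupCohomology.levelCochains₂ r M = (pullLevels r).cochains₂ M := by
  ext f; exact isLevelConstant₂_iff r f

lemma levelCocycles₂_eq : groupCohomology.levelCocycles₂ r M = (pullLevels r).cocycles₂ M := by
  rw [groupCohomology.levelCocycles₂, LevelStructure.cocycles₂, levelCochains₂_eq]

lemma levelCoboundaries₂_eq :
    groupCohomology.levelCoboundaries₂ r M = (pullLevels r).coboundaries₂ M := by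
  rw [groupCohomology.levelCoboundaries₂, LevelStructure.coboundaries₂, levelCochains₁_eq]

/-- The frozen `continuousH2 r M` is level `H²` for the pulled back levels. -/
noncomputable def continuousH2Equiv : continuousH2 r M ≃ₗ[k] (pullLevels r).H2 M :=
  Submodule.Quotient.equiv _ _ (LinearEquiv.ofEq _ _ (levelCocycles₂_eq r M)) (by
    ext x
    simp only [Submodule.mem_map, Submodule.mem_comap, Submodule.subtype_apply]
    constructor
    · rintro ⟨y, hy, rfl⟩
      rw [levelCoboundaries₂_eq] at hy
      exact hy
    · intro hx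
      refine ⟨⟨x.1, by rw [levelCocycles₂_eq]; exact x.2⟩, ?_, rfl⟩
      rw [levelCoboundaries₂_eq]
      exact hx)

@[simp] lemma continuousH2Equiv_mk (c : ↥(groupCohomology.levelCocycles₂ r M)) :
    continuousH2Equiv r M (Submodule.Quotient.mk c) =
      (pullLevels r).H2π M ⟨c.1, by rw [← levelCocycles₂_eq]; exact c.2⟩ := rfl

end Local

/-! ### Global side: `continuousH2S S M`, `continuousH1S S M` -/

section Global

variable {k : Type} [CommRing k] (S : Finset Nat.Primes) (M : Rep k GQ)

lemma levelCochainsS₁_eq : levelCochainsS₁ S M = (globalLevels S).cochains₁ M := by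
  ext f; exact isLevelConstantS₁_iff S f

lemma levelCochainsS₂_eq : levelCochainsS₂ S M = (globalLevels S).cochains₂ M := by
  ext f; exact isLevelConstantS₂_iff S f

lemma levelCocyclesS₂_eq : levelCocyclesS₂ S M = (globalLevels S).cocycles₂ M := by
  rw [levelCocyclesS₂, LevelStructure.cocycles₂, levelCochainsS₂_eq]

lemma levelCoboundariesS₂_eq : levelCoboundariesS₂ S M = (globalLevels S).coboundaries₂ M := by
  rw [levelCoboundariesS₂, LevelStructure.coboundaries₂, levelCochainsS₁_eq]

/-- The frozen `continuousH2S S M` is level `H²` for the `S`-levels. -/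
noncomputable def continuousH2SEquiv : continuousH2S S M ≃ₗ[k] (globalLevels S).H2 M :=
  Submodule.Quotient.equiv _ _ (LinearEquiv.ofEq _ _ (levelCocyclesS₂_eq S M)) (by
    ext x
    simp only [Submodule.mem_map, Submodule.mem_comap, Submodule.subtype_apply]
    constructor
    · rintro ⟨y, hy, rfl⟩
      rw [levelCoboundariesS₂_eq] at hy
      exact hy
    · intro hx
      refine ⟨⟨x.1, by rw [levelCocyclesS₂_eq]; exact x.2⟩, ?_, rfl⟩
      rw [levelCoboundariesS₂_eq]
      exact hx)

@[simp] lemma continuousH2SEquiv_mk (c : ↥(levelCocyclesS₂ S M)) :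
    continuousH2SEquiv S M (Submodule.Quotient.mk c) =
      (globalLevels S).H2π M ⟨c.1, by rw [← levelCocyclesS₂_eq]; exact c.2⟩ := rfl

/-- The frozen `continuousH1S S M` is the image of level `H¹` in the abstract `H¹`. -/
lemma continuousH1S_eq : continuousH1S S M = (globalLevels S).contH1 M := by
  ext x
  rw [mem_continuousH1S_iff, LevelStructure.mem_contH1_iff]
  exact exists_congr fun c => and_congr_left fun _ => isLevelConstantS₁_iff S _

/-- Compatibility of the frozen localisation map `locRes₂S` with level restriction. -/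
lemma continuousH2Equiv_locRes₂S {H : Type} [Group H] (f : H →* GQ) (x : continuousH2S S M) :
    continuousH2Equiv f (Rep.res f M) (locRes₂S S M f x) =
      LevelStructure.resH2 f (continuous_pullLevels_globalLevels f S) M
        (continuousH2SEquiv S M x) := by
  obtain ⟨c, rfl⟩ := Submodule.Quotient.mk_surjective _ x
  rfl

end Global

/-! ### Level Tate–Shafarevich groups -/

section Sha

variable {k : Type} [CommRing k] (S : Finset Nat.Primes) (M : Rep k GQ)

/-- Level `Ш¹_S`: classes in `H¹(G_S; M)` that are locally trivial at all primes of `S`. -/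
noncomputable def ShaL₁ : Submodule k ((globalLevels S).H1 M) :=
  ⨅ q : ↥S, LinearMap.ker (LevelStructure.resH1 (primeLocalToGlobal q.1)
    (continuous_pullLevels_globalLevels (primeLocalToGlobal q.1) S) M)

/-- Level `Ш²_S`: classes in `H²(G_S; M)` that are locally trivial at all primes of `S`. -/
noncomputable def ShaL₂ : Submodule k ((globalLevels S).H2 M) :=
  ⨅ q : ↥S, LinearMap.ker (LevelStructure.resH2 (primeLocalToGlobal q.1)
    (continuous_pullLevels_globalLevels (primeLocalToGlobal q.1) S) M)

lemma mem_ShaL₁_iff (y : (globalLevels S).H1 M) :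
    y ∈ ShaL₁ S M ↔ ∀ q : ↥S, LevelStructure.resH1 (primeLocalToGlobal q.1)
      (continuous_pullLevels_globalLevels (primeLocalToGlobal q.1) S) M y = 0 := by
  simp [ShaL₁, Submodule.mem_iInf]

lemma mem_ShaL₂_iff (y : (globalLevels S).H2 M) :
    y ∈ ShaL₂ S M ↔ ∀ q : ↥S, LevelStructure.resH2 (primeLocalToGlobal q.1)
      (continuous_pullLevels_globalLevels (primeLocalToGlobal q.1) S) M y = 0 := by
  simp [ShaL₂, Submodule.mem_iInf]

/-- The frozen `sha₂` is level `Ш²` (when `2` is invertible). -/
noncomputable def sha₂Equiv (h2 : IsUnit (2 : k)) : ↥(sha₂ S M) ≃ₗ[k] ↥(ShaL₂ S M) :=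
  (continuousH2SEquiv S M).submoduleMap (sha₂ S M) ≪≫ₗ LinearEquiv.ofEq _ _ (by
    ext y
    rw [Submodule.mem_map, mem_ShaL₂_iff]
    constructor
    · rintro ⟨x, hx, rfl⟩ q
      have := (H60.mem_sha₂_iff S h2 M x).1 hx q
      have e := continuousH2Equiv_locRes₂S S M (primeLocalToGlobal q.1) x
      rw [this, map_zero] at e
      exact e.symm
    · intro hy
      refine ⟨(continuousH2SEquiv S M).symm y, ?_, by simp⟩
      apply (H60.mem_sha₂_iff S h2 M _).2
      intro q
      apply (continuousH2Equiv (primeLocalToGlobal q.1) _).injective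
      rw [continuousH2Equiv_locRes₂S, LinearEquiv.apply_symm_apply, hy q, map_zero])

end Sha

section Sha1

variable {K : Type} [Field K] (S : Finset Nat.Primes) (A : Rep K GQ)

/-- The frozen `sha₁` is level `Ш¹` (when `2` is invertible). -/
noncomputable def sha₁Equiv (h2 : IsUnit (2 : K)) : ↥(ShaL₁ S A) ≃ₗ[K] ↥(sha₁ S A) :=
  LinearEquiv.ofBijective
    ((LevelStructure.H1ToAbs (globalLevels S) A ∘ₗ (ShaL₁ S A).subtype).codRestrict (sha₁ S A)
      (fun y => by
        rw [H60.mem_sha₁_iff' S h2 A]
        refine ⟨?_, fun q => ?_⟩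
        · rw [continuousH1S_eq, ← LevelStructure.range_H1ToAbs]
          exact ⟨y.1, rfl⟩
        · rw [LinearMap.comp_apply, Submodule.subtype_apply, ← LevelStructure.H1ToAbs_resH1
            (globalLevels S) A (pullLevels (primeLocalToGlobal q.1)) (primeLocalToGlobal q.1)
            (continuous_pullLevels_globalLevels (primeLocalToGlobal q.1) S),
            (mem_ShaL₁_iff S A y.1).1 y.2 q, map_zero]))
    (by
      constructor
      · intro y y' h
        have h' := congrArg Subtype.val h
        simp only [LinearMap.codRestrict_apply, LinearMap.comp_apply,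
          Submodule.subtype_apply] at h'
        exact Subtype.ext (LevelStructure.H1ToAbs_injective _ _ h')
      · rintro ⟨x, hx⟩
        rw [H60.mem_sha₁_iff' S h2 A] at hx
        obtain ⟨hx1, hx2⟩ := hx
        rw [continuousH1S_eq, ← LevelStructure.range_H1ToAbs] at hx1
        obtain ⟨y, rfl⟩ := hx1
        refine ⟨⟨y, ?_⟩, rfl⟩
        rw [mem_ShaL₁_iff]
        intro q
        apply LevelStructure.H1ToAbs_injective
        rw [LevelStructure.H1ToAbs_resH1, hx2 q, map_zero])

end Sha1

end Fermat.Agent.CFT
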