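import Fermat.Agent.CFT.H55_LevelDefs
import Fermat.Prelude.Def_GroupCohomology_ContinuousH2Map

/-!
# Functoriality of level cohomology in degrees 1, 2 (pull back along a continuous group
homomorphism, push forward along an intertwining linear map)

The cochain maps are the frozen `groupCohomology.cochainsPullPush₁/₂`, so that the bridge to the
frozen `continuousH2Map`, `locRes₂S` is by unfolding.
-/

set_option autoImplicit false

universe u

open CategoryTheory groupCohomology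

namespace Fermat.Agent.CFT

namespace LevelStructure

variable {G H : Type u} [Group G] [Group H] (𝓛G : LevelStructure G) (𝓛H : LevelStructure H)

/-- `f : G → H` is continuous for the level structures `𝓛G`, `𝓛H`. -/
def Continuous (f : G →* H) : Prop := ∀ N ∈ 𝓛H.levels, 𝓛G.IsOpen (N.comap f)

lemma continuous_comap (f : G →* H) : (𝓛H.comap f).Continuous 𝓛H f :=
  fun N hN => ⟨N.comap f, ⟨N, hN, rfl⟩, le_rfl⟩

variable {𝓛G 𝓛H}

lemma IsConst₁.precomp {f : G →* H} (hf : 𝓛G.Continuous 𝓛H f) {X : Type*} {x : H → X}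
    (hx : 𝓛H.IsConst₁ x) : 𝓛G.IsConst₁ (x ∘ f) := by
  obtain ⟨N, hN, h⟩ := hx
  obtain ⟨N', hN', hle⟩ := hf N hN
  refine ⟨N', hN', fun g s hs => ?_⟩
  simp only [Function.comp_apply, map_mul]
  exact h (f g) (f s) (hle hs)

lemma IsConst₂.precomp {f : G →* H} (hf : 𝓛G.Continuous 𝓛H f) {X : Type*} {x : H × H → X}
    (hx : 𝓛H.IsConst₂ x) : 𝓛G.IsConst₂ (x ∘ Prod.map f f) := by
  obtain ⟨N, hN, h⟩ := hx
  obtain ⟨N', hN', hle⟩ := hf N hN
  refine ⟨N', hN', fun g g' s s' hs hs' => ?_⟩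
  simp only [Function.comp_apply, Prod.map_apply, map_mul]
  exact h (f g) (f g') (f s) (f s') (hle hs) (hle hs')

section Maps

variable {k : Type u} [CommRing k] {A : Rep k H} {B : Rep k G}
  (f : G →* H) (hf : 𝓛G.Continuous 𝓛H f)
  (φ : A →ₗ[k] B) (hφ : ∀ (g : G) (a : A), φ (A.ρ (f g) a) = B.ρ g (φ a))

include hφ in
lemma cochainsPullPush₁_mem_cocycles₁ {x : H → A} (hx : x ∈ groupCohomology.cocycles₁ A) :
    cochainsPullPush₁ f φ x ∈ groupCohomology.cocycles₁ B := by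
  rw [mem_cocycles₁_iff] at hx ⊢
  intro g h
  simp only [cochainsPullPush₁_apply, map_mul, hx, map_add, hφ]

include hφ in
lemma cochainsPullPush₁_mem_coboundaries₁ {x : H → A} (hx : x ∈ groupCohomology.coboundaries₁ A) :
    cochainsPullPush₁ f φ x ∈ groupCohomology.coboundaries₁ B := by
  obtain ⟨a, rfl⟩ := hx
  refine ⟨φ a, ?_⟩
  ext g
  simp [cochainsPullPush₁_apply, d₀₁_hom_apply, map_sub, hφ]

include hf in
lemma cochainsPullPush₁_mem_cochains₁ {x : H → A} (hx : x ∈ 𝓛H.cochains₁ A) :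
    cochainsPullPush₁ f φ x ∈ 𝓛G.cochains₁ B :=
  ((IsConst₁.precomp hf hx).comp φ :)

include hf in
lemma cochainsPullPush₂_mem_cochains₂ {x : H × H → A} (hx : x ∈ 𝓛H.cochains₂ A) :
    cochainsPullPush₂ f φ x ∈ 𝓛G.cochains₂ B :=
  ((IsConst₂.precomp hf hx).comp φ :)

include hf hφ in
lemma cochainsPullPush₁_mem_levelCocycles₁ {x : H → A} (hx : x ∈ 𝓛H.cocycles₁ A) :
    cochainsPullPush₁ f φ x ∈ 𝓛G.cocycles₁ B :=
  ⟨cochainsPullPush₁_mem_cocycles₁ f φ hφ hx.1, cochainsPullPush₁_mem_cochains₁ f hf φ hx.2⟩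

include hf hφ in
lemma cochainsPullPush₂_mem_levelCocycles₂ {x : H × H → A} (hx : x ∈ 𝓛H.cocycles₂ A) :
    cochainsPullPush₂ f φ x ∈ 𝓛G.cocycles₂ B :=
  ⟨cochainsPullPush₂_mem_cocycles₂ f φ hφ hx.1, cochainsPullPush₂_mem_cochains₂ f hf φ hx.2⟩

include hf hφ in
lemma cochainsPullPush₂_mem_levelCoboundaries₂ {x : H × H → A} (hx : x ∈ 𝓛H.coboundaries₂ A) :
    cochainsPullPush₂ f φ x ∈ 𝓛G.coboundaries₂ B := by
  obtain ⟨y, hy, rfl⟩ := hx
  exact ⟨cochainsPullPush₁ f φ y, cochainsPullPush₁_mem_cochains₁ f hf φ hy,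
    (cochainsPullPush₂_d₁₂ f φ hφ y).symm⟩

/-- The map on level `1`-cocycles. -/
def cocycles₁Map : ↥(𝓛H.cocycles₁ A) →ₗ[k] ↥(𝓛G.cocycles₁ B) :=
  (cochainsPullPush₁ f φ).restrict fun _ hx => cochainsPullPush₁_mem_levelCocycles₁ f hf φ hφ hx

/-- The map on level `2`-cocycles. -/
def cocycles₂Map : ↥(𝓛H.cocycles₂ A) →ₗ[k] ↥(𝓛G.cocycles₂ B) :=
  (cochainsPullPush₂ f φ).restrict fun _ hx => cochainsPullPush₂_mem_levelCocycles₂ f hf φ hφ hx

@[simp] lemma coe_cocycles₁Map (x : ↥(𝓛H.cocycles₁ A)) :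
    (cocycles₁Map f hf φ hφ x : G → B) = cochainsPullPush₁ f φ x := rfl

@[simp] lemma coe_cocycles₂Map (x : ↥(𝓛H.cocycles₂ A)) :
    (cocycles₂Map f hf φ hφ x : G × G → B) = cochainsPullPush₂ f φ x := rfl

/-- Functoriality of level `H¹`. -/
def mapH1 : 𝓛H.H1 A →ₗ[k] 𝓛G.H1 B :=
  Submodule.mapQ _ _ (cocycles₁Map f hf φ hφ) fun _ hx =>
    cochainsPullPush₁_mem_coboundaries₁ f φ hφ hx

/-- Functoriality of level `H²`. -/
def mapH2 : 𝓛H.H2 A →ₗ[k] 𝓛G.H2 B :=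
  Submodule.mapQ _ _ (cocycles₂Map f hf φ hφ) fun _ hx =>
    cochainsPullPush₂_mem_levelCoboundaries₂ f hf φ hφ hx

@[simp] lemma mapH1_H1π (x : ↥(𝓛H.cocycles₁ A)) :
    mapH1 f hf φ hφ (𝓛H.H1π A x) = 𝓛G.H1π B (cocycles₁Map f hf φ hφ x) := rfl

@[simp] lemma mapH2_H2π (x : ↥(𝓛H.cocycles₂ A)) :
    mapH2 f hf φ hφ (𝓛H.H2π A x) = 𝓛G.H2π B (cocycles₂Map f hf φ hφ x) := rfl

end Maps

section Res

variable {k : Type u} [CommRing k] (f : G →* H) (hf : 𝓛G.Continuous 𝓛H f) (A : Rep k H)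

/-- Restriction `H¹(𝓛H; A) → H¹(𝓛G; res f A)` along a continuous homomorphism. -/
def resH1 : 𝓛H.H1 A →ₗ[k] 𝓛G.H1 (Rep.res f A) :=
  mapH1 f hf (LinearMap.id : A →ₗ[k] Rep.res f A) (fun _ _ => rfl)

/-- Restriction `H²(𝓛H; A) → H²(𝓛G; res f A)` along a continuous homomorphism. -/
def resH2 : 𝓛H.H2 A →ₗ[k] 𝓛G.H2 (Rep.res f A) :=
  mapH2 f hf (LinearMap.id : A →ₗ[k] Rep.res f A) (fun _ _ => rfl)

end Res

end LevelStructure

end Fermat.Agent.CFT
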