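/-
CFT layer D3-inst (concrete): the named inputs `D4Concrete`, `MuConcrete` of `H55_PTFinal` from
the landed theorems of helper36 (`H36_D4Concrete`) and helper15 (`H15_MuLocal`), and the
Poitou–Tate statement from the remaining inputs (layer C + (X5'')).  helper55.
-/
import Fermat.Agent.CFT.H55_PTFinal
import Fermat.Agent.CFT.H36_D4Concrete
import Fermat.Agent.CFT.H15_MuLocal
import Fermat.Agent.CFT.H62_D2Statement
import Fermat.Agent.CFT.H86_D1Statement

set_option autoImplicit false

open CategoryTheory ExtCitation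

namespace Fermat.Agent.CFT.H55

open Fermat.Agent.CFT

variable (p : ℕ) [Fact p.Prime] (S : Finset Nat.Primes)

/-- **D4 for the concrete family** (helper22's final theorems, instantiated by helper36). -/
theorem d4Concrete (hpS : pPrime p ∈ S) : D4Concrete p S hpS := fun X hX lam =>
  ⟨H36.theta1_bijective_global S (Fact.out : p.Prime) (hpS_of_mem p S hpS) ⟨pPrime p, hpS⟩ lam X hX,
    H36.theta2_injective_global S (Fact.out : p.Prime) (hpS_of_mem p S hpS) ⟨pPrime p, hpS⟩ lam X
      hX⟩

/-- **The `μ`-comparison** (helper15). -/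
theorem muConcrete (hpS : pPrime p ∈ S) : MuConcrete p S := fun q =>
  H15.bijective_torsionLin_evq_eps S q (Fact.out : p.Prime) (hpS_of_mem p S hpS) ⟨pPrime p, hpS⟩

/-- **Poitou–Tate from layer C and (X5'')**: all inputs of layers D1, D2, D4 and the
`μ`-comparison are discharged. -/
theorem poitouTateStatement_of_C (hp2 : p ≠ 2) (hpS : pPrime p ∈ S)
    (hCmain : Nonempty (PClassFormation p (globalLevels S) (H77.repCSTop S)))
    (hFIN : HasFIN (globalLevels S) (H77.repCSTop S) p)
    (hEX : ∀ N₀ ∈ (globalLevels S).levels, N₀.Normal → H20.GoodLevel p N₀ →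
      HasEXIST (globalLevels S) (H77.repCSTop S) p N₀)
    (hX5 : X5Concrete p S) : PoitouTateStatement p S :=
  poitouTateStatement_of_inputs p S hp2 hpS (H86.d1Statement p) H62.d2Statement hCmain hFIN hEX
    (d4Concrete p S hpS) hX5 (muConcrete p S hpS)

end Fermat.Agent.CFT.H55
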