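/-
CFT layer D3-inst (concrete), FINAL WIRING: the Poitou–Tate statement from the two remaining
finite-level inputs of layer C (`H20.FinFin`, `H20.ExistFin`).  (X1) is helper24's
`H24.nonempty_pClassFormation`, (X5'') is helper87's arithmetic `H87.exists_layer_nonnorm`
transported by helper37's `H37.exists_class_of_zpQbar`.  helper55.
-/
import Fermat.Agent.CFT.H55_PTInputs
import Fermat.Agent.CFT.H24_X1
import Fermat.Agent.CFT.H20_GlobalFinExist
import Fermat.Agent.CFT.H37_X5Top
import Fermat.Agent.CFT.H87_X5Arith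

set_option autoImplicit false

open CategoryTheory ExtCitation

namespace Fermat.Agent.CFT.H55

open Fermat.Agent.CFT

variable (p : ℕ) [Fact p.Prime] (S : Finset Nat.Primes)

/-- (X1), in the shape consumed by `poitouTateStatement_of_C`. -/
theorem cMain (hp2 : p ≠ 2) (hpS : pPrime p ∈ S) :
    Nonempty (PClassFormation p (globalLevels S) (H77.repCSTop S)) :=
  H24.nonempty_pClassFormation p hp2 S hpS

set_option synthInstance.maxHeartbeats 400000 in
set_option maxHeartbeats 1000000 in
/-- **(X5'') concrete**, from the global `p`-class formation. -/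
theorem x5Concrete_of_formation (hp2 : p ≠ 2) (hpS : pPrime p ∈ S)
    (PF : PClassFormation p (H87.levelsS S) (H77.repCSTop S)) : X5Concrete p S := by
  intro q
  obtain ⟨k, hk, a, ⟨v, hv⟩, hii⟩ := H87.exists_layer_nonnorm p hp2 hpS q.1 q.2
  refine H37.exists_class_of_zpQbar hp2 hpS PF k (by omega) q ((H81.locRatUnits q.1).symm a) v ?_ ?_
  · rw [H87.map_locMap_locRatUnits_symm]
    exact hv
  · exact hii

/-- **(X5'') concrete**, unconditional. -/
theorem x5Concrete (hp2 : p ≠ 2) (hpS : pPrime p ∈ S) : X5Concrete p S := by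
  obtain ⟨PF⟩ := cMain p S hp2 hpS
  exact x5Concrete_of_formation p S hp2 hpS PF

/-- **Poitou–Tate from the two finite-level inputs of layer C.** -/
theorem poitouTateStatement_of_finExist (hp2 : p ≠ 2) (hpS : pPrime p ∈ S)
    (hfin : H20.FinFin p S) (hex : H20.ExistFin p S) : PoitouTateStatement p S :=
  poitouTateStatement_of_C p S hp2 hpS (cMain p S hp2 hpS)
    (H20.hasFIN_global ⟨pPrime p, hpS⟩ hfin) (H20.hasEXIST_global ⟨pPrime p, hpS⟩ hex)
    (x5Concrete p S hp2 hpS)

end Fermat.Agent.CFT.H55
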