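import Mathlib

/-!
# Formal core of the Poitou–Tate segment (layer D3 of the CFT project)

Pure linear algebra over a field `k` (Mathlib only, vocabulary neutral).

Data: an exact segment

  `L1 --β--> T1 --∂--> A2 --loc2--> L2`

(think: `L1 = ⊕_v H¹(G_v, M)`, `T1 = HH¹(G; Hom(X, D_C))`, `A2 = H²(G, M)`,
`L2 = ⊕_v H²(G_v, M)`), a *perfect* global pairing `P : T1 × B1 → k` (think `B1 = H¹(G, X)`),
a localisation map `res : B1 → R1` (think `R1 = ⊕_v H¹(G_v, X)`), a local pairing
`Q : L1 × R1 → k` which is non-degenerate on the right, and the compatibility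
`P (β ℓ) y = Q ℓ (res y)`.

Conclusion: there is a bilinear pairing `ker res × ker loc2 → k` which is non-degenerate on both
sides (`Ш¹(X) × Ш²(M) → k`).
-/

set_option autoImplicit false

open Module

namespace Fermat.Agent.CFT.H94

section Perfect

variable {k : Type*} [Field k]
variable {T B : Type*} [AddCommGroup T] [Module k T] [AddCommGroup B] [Module k B]

/-- If `P : T × B → k` is non-degenerate on the right and `T` is finite-dimensional then `B` is
finite-dimensional. -/
theorem finiteDimensional_right_of_nondegenerate [FiniteDimensional k T]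
    (P : T →ₗ[k] B →ₗ[k] k) (hPr : ∀ y, (∀ t, P t y = 0) → y = 0) :
    FiniteDimensional k B := by
  have hinj : Function.Injective P.flip := by
    rw [← LinearMap.ker_eq_bot, LinearMap.ker_eq_bot']
    intro y hy
    exact hPr y fun t => by
      have := LinearMap.congr_fun hy t
      simpa using this
  exact FiniteDimensional.of_injective P.flip hinj

/-- A pairing `P : T × B → k`, non-degenerate on both sides with `T` finite-dimensional,
represents every linear functional on `T`. -/
theorem exists_repr_of_perfect [FiniteDimensional k T]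
    (P : T →ₗ[k] B →ₗ[k] k) (hPl : ∀ t, (∀ y, P t y = 0) → t = 0)
    (hPr : ∀ y, (∀ t, P t y = 0) → y = 0) (φ : Dual k T) :
    ∃ y : B, ∀ t, P t y = φ t := by
  have : FiniteDimensional k B := finiteDimensional_right_of_nondegenerate P hPr
  have hinjr : Function.Injective P.flip := by
    rw [← LinearMap.ker_eq_bot, LinearMap.ker_eq_bot']
    intro y hy
    exact hPr y fun t => by
      have := LinearMap.congr_fun hy t
      simpa using this
  have hinjl : Function.Injective P := by
    rw [← LinearMap.ker_eq_bot, LinearMap.ker_eq_bot']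
    intro t ht
    exact hPl t fun y => by
      have := LinearMap.congr_fun ht y
      simpa using this
  have h1 : finrank k B ≤ finrank k T := by
    have := LinearMap.finrank_le_finrank_of_injective hinjr
    rwa [Subspace.dual_finrank_eq] at this
  have h2 : finrank k T ≤ finrank k B := by
    have := LinearMap.finrank_le_finrank_of_injective hinjl
    rwa [Subspace.dual_finrank_eq] at this
  have heq : finrank k B = finrank k (Dual k T) := by
    rw [Subspace.dual_finrank_eq]; exact le_antisymm h1 h2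
  have hsurj : Function.Surjective P.flip :=
    (LinearMap.injective_iff_surjective_of_finrank_eq_finrank heq).1 hinjr
  obtain ⟨y, hy⟩ := hsurj φ
  exact ⟨y, fun t => by rw [← hy]; rfl⟩

/-- Double orthogonal: if `t` is orthogonal to everything orthogonal to the subspace `W`, then
`t ∈ W`. -/
theorem mem_of_forall_orthogonal [FiniteDimensional k T]
    (P : T →ₗ[k] B →ₗ[k] k) (hPl : ∀ t, (∀ y, P t y = 0) → t = 0)
    (hPr : ∀ y, (∀ t, P t y = 0) → y = 0) (W : Submodule k T) (t : T)
    (ht : ∀ y : B, (∀ w ∈ W, P w y = 0) → P t y = 0) : t ∈ W := by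
  rw [← Subspace.dualAnnihilator_dualCoannihilator_eq (W := W), Submodule.mem_dualCoannihilator]
  intro φ hφ
  obtain ⟨y, hy⟩ := exists_repr_of_perfect P hPl hPr φ
  rw [← hy]
  refine ht y fun w hw => ?_
  rw [hy]
  exact (Submodule.mem_dualAnnihilator φ).1 hφ w hw

end Perfect

section Segment

variable {k : Type*} [Field k]
variable {L1 T1 A2 L2 B1 R1 : Type*}
variable [AddCommGroup L1] [Module k L1] [AddCommGroup T1] [Module k T1]
variable [AddCommGroup A2] [Module k A2] [AddCommGroup L2] [Module k L2]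
variable [AddCommGroup B1] [Module k B1] [AddCommGroup R1] [Module k R1]

/-- **Formal Poitou–Tate segment.**  From the exact segment `L1 → T1 → A2 → L2`, a perfect
pairing `T1 × B1 → k`, a right non-degenerate pairing `L1 × R1 → k` and the compatibility
`P (β ℓ) y = Q ℓ (res y)` we get a pairing `ker res × ker loc2 → k`, non-degenerate on both
sides. -/
theorem exists_pairing_of_segment [FiniteDimensional k T1]
    (β : L1 →ₗ[k] T1) (δ : T1 →ₗ[k] A2) (loc2 : A2 →ₗ[k] L2) (res : B1 →ₗ[k] R1)
    (hex1 : LinearMap.range β = LinearMap.ker δ)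
    (hex2 : LinearMap.range δ = LinearMap.ker loc2)
    (P : T1 →ₗ[k] B1 →ₗ[k] k) (hPl : ∀ t, (∀ y, P t y = 0) → t = 0)
    (hPr : ∀ y, (∀ t, P t y = 0) → y = 0)
    (Q : L1 →ₗ[k] R1 →ₗ[k] k) (hQr : ∀ r, (∀ ℓ, Q ℓ r = 0) → r = 0)
    (hcompat : ∀ ℓ y, P (β ℓ) y = Q ℓ (res y)) :
    ∃ B : LinearMap.ker res →ₗ[k] LinearMap.ker loc2 →ₗ[k] k,
      (∀ y, (∀ x, B y x = 0) → y = 0) ∧ (∀ x, (∀ y, B y x = 0) → x = 0) := by
  classical
  -- `P` restricted to `ker res` kills `range β = ker δ`.
  have hkill : ∀ (y : LinearMap.ker res) (t : T1), t ∈ LinearMap.ker δ → P t y = 0 := by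
    intro y t ht
    rw [← hex1] at ht
    obtain ⟨ℓ, rfl⟩ := ht
    rw [hcompat, LinearMap.mem_ker.1 y.2, map_zero]
  -- the map `T1 → ker loc2`
  let δ' : T1 →ₗ[k] LinearMap.ker loc2 :=
    δ.codRestrict (LinearMap.ker loc2) fun t => by
      rw [← hex2]; exact LinearMap.mem_range_self δ t
  have hδ'surj : Function.Surjective δ' := by
    rintro ⟨x, hx⟩
    rw [← hex2] at hx
    obtain ⟨t, rfl⟩ := hx
    exact ⟨t, rfl⟩
  have hδ'ker : LinearMap.ker δ' = LinearMap.ker δ := by
    ext t
    simp only [δ', LinearMap.mem_ker]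
    constructor
    · intro h
      have := congrArg Subtype.val h
      simpa using this
    · intro h
      ext
      simpa using h
  -- for each `y`, the functional `P · y` descends along `δ'`
  let e : (T1 ⧸ LinearMap.ker δ') ≃ₗ[k] LinearMap.ker loc2 :=
    δ'.quotKerEquivOfSurjective hδ'surj
  let F : LinearMap.ker res →ₗ[k] (T1 ⧸ LinearMap.ker δ') →ₗ[k] k :=
    { toFun := fun y => (LinearMap.ker δ').liftQ (P.flip y) (by
        intro t ht
        rw [hδ'ker] at ht
        rw [LinearMap.mem_ker]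
        exact hkill y t ht)
      map_add' := fun y y' => by
        apply LinearMap.ext
        intro q
        obtain ⟨t, rfl⟩ := Submodule.mkQ_surjective _ q
        simp
      map_smul' := fun c y => by
        apply LinearMap.ext
        intro q
        obtain ⟨t, rfl⟩ := Submodule.mkQ_surjective _ q
        simp }
  have hF : ∀ (y : LinearMap.ker res) (t : T1), F y (Submodule.Quotient.mk t) = P t y := by
    intro y t
    rfl
  let Bil : LinearMap.ker res →ₗ[k] LinearMap.ker loc2 →ₗ[k] k :=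
    { toFun := fun y => (F y).comp e.symm.toLinearMap
      map_add' := fun y y' => by
        apply LinearMap.ext
        intro x
        simp
      map_smul' := fun c y => by
        apply LinearMap.ext
        intro x
        simp }
  have hBil : ∀ (y : LinearMap.ker res) (t : T1), Bil y (δ' t) = P t y := by
    intro y t
    have : e.symm (δ' t) = Submodule.Quotient.mk t := by
      rw [LinearEquiv.symm_apply_eq]
      rfl
    change F y (e.symm (δ' t)) = _
    rw [this, hF]
  refine ⟨Bil, ?_, ?_⟩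
  · intro y hy
    have : (y : B1) = 0 := hPr y fun t => by rw [← hBil]; exact hy _
    exact Subtype.ext this
  · intro x hx
    obtain ⟨t, rfl⟩ := hδ'surj x
    have ht : t ∈ LinearMap.range β := by
      refine mem_of_forall_orthogonal P hPl hPr _ t fun y hy => ?_
      have hy' : res y = 0 := hQr _ fun ℓ => by
        rw [← hcompat]; exact hy _ (LinearMap.mem_range_self β ℓ)
      have := hx ⟨y, LinearMap.mem_ker.2 hy'⟩
      rwa [hBil] at this
    rw [hex1, ← hδ'ker] at ht
    exact LinearMap.mem_ker.1 ht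

/-- Elementary form of `exists_pairing_of_segment`: exactness is given by `∀ / ∃` statements. -/
theorem exists_pairing_of_segment' [FiniteDimensional k T1]
    (β : L1 →ₗ[k] T1) (δ : T1 →ₗ[k] A2) (loc2 : A2 →ₗ[k] L2) (res : B1 →ₗ[k] R1)
    (h1 : ∀ ℓ, δ (β ℓ) = 0) (h1' : ∀ t, δ t = 0 → ∃ ℓ, β ℓ = t)
    (h2 : ∀ t, loc2 (δ t) = 0) (h2' : ∀ a, loc2 a = 0 → ∃ t, δ t = a)
    (P : T1 →ₗ[k] B1 →ₗ[k] k) (hPl : ∀ t, (∀ y, P t y = 0) → t = 0)
    (hPr : ∀ y, (∀ t, P t y = 0) → y = 0)
    (Q : L1 →ₗ[k] R1 →ₗ[k] k) (hQr : ∀ r, (∀ ℓ, Q ℓ r = 0) → r = 0)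
    (hcompat : ∀ ℓ y, P (β ℓ) y = Q ℓ (res y)) :
    ∃ B : LinearMap.ker res →ₗ[k] LinearMap.ker loc2 →ₗ[k] k,
      (∀ y, (∀ x, B y x = 0) → y = 0) ∧ (∀ x, (∀ y, B y x = 0) → x = 0) := by
  refine exists_pairing_of_segment β δ loc2 res ?_ ?_ P hPl hPr Q hQr hcompat
  · ext t
    constructor
    · rintro ⟨ℓ, rfl⟩
      exact LinearMap.mem_ker.2 (h1 ℓ)
    · intro ht
      exact h1' t (LinearMap.mem_ker.1 ht)
  · ext a
    constructor
    · rintro ⟨t, rfl⟩
      exact LinearMap.mem_ker.2 (h2 t)
    · intro ha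
      exact h2' a (LinearMap.mem_ker.1 ha)

end Segment

section Family

variable {k : Type*} [Field k]
variable {ι : Type*} [Fintype ι]
variable {L1v R1v L2v : ι → Type*}
variable [∀ v, AddCommGroup (L1v v)] [∀ v, Module k (L1v v)]
variable [∀ v, AddCommGroup (R1v v)] [∀ v, Module k (R1v v)]
variable [∀ v, AddCommGroup (L2v v)] [∀ v, Module k (L2v v)]
variable {T1 A2 B1 : Type*}
variable [AddCommGroup T1] [Module k T1] [AddCommGroup A2] [Module k A2]
variable [AddCommGroup B1] [Module k B1]

/-- The weighted sum of the local pairings, `Q ℓ r = ∑ v, c v * p v (ℓ v) (r v)`. -/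
noncomputable def sumPairing (c : ι → k) (p : ∀ v, L1v v →ₗ[k] R1v v →ₗ[k] k) :
    (∀ v, L1v v) →ₗ[k] (∀ v, R1v v) →ₗ[k] k :=
  ∑ v, c v • (p v).compl₁₂ (LinearMap.proj v) (LinearMap.proj v)

@[simp]
lemma sumPairing_apply (c : ι → k) (p : ∀ v, L1v v →ₗ[k] R1v v →ₗ[k] k)
    (ℓ : ∀ v, L1v v) (r : ∀ v, R1v v) :
    sumPairing c p ℓ r = ∑ v, c v * p v (ℓ v) (r v) := by
  simp [sumPairing, LinearMap.sum_apply, LinearMap.compl₁₂_apply]

lemma sumPairing_right_nondegenerate (c : ι → k) (hc : ∀ v, c v ≠ 0)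
    (p : ∀ v, L1v v →ₗ[k] R1v v →ₗ[k] k) (hp : ∀ v r, (∀ ℓ, p v ℓ r = 0) → r = 0)
    (r : ∀ v, R1v v) (hr : ∀ ℓ, sumPairing c p ℓ r = 0) : r = 0 := by
  classical
  funext v
  refine hp v (r v) fun ℓv => ?_
  have := hr (Pi.single v ℓv)
  rw [sumPairing_apply, Finset.sum_eq_single v] at this
  · rw [Pi.single_eq_same] at this
    exact (mul_eq_zero.1 this).resolve_left (hc v)
  · intro w _ hw
    rw [Pi.single_eq_of_ne hw, map_zero, LinearMap.zero_apply, mul_zero]
  · intro h
    exact absurd (Finset.mem_univ v) h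

/-- **Formal Poitou–Tate segment, family form.**  Places `v : ι` (finite), local groups
`L1v v = H¹(G_v, M)`, `R1v v = H¹(G_v, X)`, `L2v v = H²(G_v, M)`, local pairings `p v`
(right non-degenerate), unit weights `c v`, global perfect pairing `P : T1 × B1 → k`,
exact segment `⊕_v L1v v → T1 → A2 → ∏_v L2v v`, compatibility place by place. -/
theorem exists_pairing_of_segment_family [FiniteDimensional k T1]
    (β : ∀ v, L1v v →ₗ[k] T1) (δ : T1 →ₗ[k] A2) (loc2 : ∀ v, A2 →ₗ[k] L2v v)
    (res : ∀ v, B1 →ₗ[k] R1v v)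
    (h1 : ∀ v ℓ, δ (β v ℓ) = 0) (h1' : ∀ t, δ t = 0 → ∃ ℓ : ∀ v, L1v v, ∑ v, β v (ℓ v) = t)
    (h2 : ∀ v t, loc2 v (δ t) = 0) (h2' : ∀ a, (∀ v, loc2 v a = 0) → ∃ t, δ t = a)
    (P : T1 →ₗ[k] B1 →ₗ[k] k) (hPl : ∀ t, (∀ y, P t y = 0) → t = 0)
    (hPr : ∀ y, (∀ t, P t y = 0) → y = 0)
    (p : ∀ v, L1v v →ₗ[k] R1v v →ₗ[k] k) (hp : ∀ v r, (∀ ℓ, p v ℓ r = 0) → r = 0)
    (c : ι → k) (hc : ∀ v, c v ≠ 0)
    (hcompat : ∀ v (ℓ : L1v v) y, P (β v ℓ) y = c v * p v ℓ (res v y)) :
    ∃ B : LinearMap.ker (LinearMap.pi res) →ₗ[k] LinearMap.ker (LinearMap.pi loc2) →ₗ[k] k,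
      (∀ y, (∀ x, B y x = 0) → y = 0) ∧ (∀ x, (∀ y, B y x = 0) → x = 0) := by
  classical
  let βt : (∀ v, L1v v) →ₗ[k] T1 := ∑ v, (β v).comp (LinearMap.proj v)
  have hβt : ∀ ℓ, βt ℓ = ∑ v, β v (ℓ v) := fun ℓ => by
    simp [βt, LinearMap.sum_apply]
  refine exists_pairing_of_segment' βt δ (LinearMap.pi loc2) (LinearMap.pi res) ?_ ?_ ?_ ?_
    P hPl hPr (sumPairing c p) (sumPairing_right_nondegenerate c hc p hp) ?_
  · intro ℓ
    rw [hβt, map_sum]
    exact Finset.sum_eq_zero fun v _ => h1 v (ℓ v)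
  · intro t ht
    obtain ⟨ℓ, hℓ⟩ := h1' t ht
    exact ⟨ℓ, by rw [hβt, hℓ]⟩
  · intro t
    funext v
    exact h2 v t
  · intro a ha
    exact h2' a fun v => congrFun ha v
  · intro ℓ y
    rw [hβt, map_sum, LinearMap.sum_apply, sumPairing_apply]
    exact Finset.sum_congr rfl fun v _ => hcompat v (ℓ v) y

end Family

section Transport

variable {k : Type*} [Field k]
variable {V W V' W' : Type*}
variable [AddCommGroup V] [Module k V] [AddCommGroup W] [Module k W]
variable [AddCommGroup V'] [Module k V'] [AddCommGroup W'] [Module k W']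

/-- Transport a two-sided non-degenerate pairing along linear equivalences. -/
theorem exists_pairing_of_equiv (e₁ : V ≃ₗ[k] V') (e₂ : W ≃ₗ[k] W')
    (h : ∃ B : V →ₗ[k] W →ₗ[k] k,
      (∀ y, (∀ x, B y x = 0) → y = 0) ∧ (∀ x, (∀ y, B y x = 0) → x = 0)) :
    ∃ B : V' →ₗ[k] W' →ₗ[k] k,
      (∀ y, (∀ x, B y x = 0) → y = 0) ∧ (∀ x, (∀ y, B y x = 0) → x = 0) := by
  obtain ⟨B, hl, hr⟩ := h
  refine ⟨B.compl₁₂ e₁.symm.toLinearMap e₂.symm.toLinearMap, ?_, ?_⟩
  · intro y hy
    have : e₁.symm y = 0 := hl _ fun x => by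
      have := hy (e₂ x)
      simpa [LinearMap.compl₁₂_apply] using this
    simpa using this
  · intro x hx
    have : e₂.symm x = 0 := hr _ fun y => by
      have := hx (e₁ y)
      simpa [LinearMap.compl₁₂_apply] using this
    simpa using this

/-- A two-sided non-degenerate pairing with one side finite-dimensional forces equal
dimensions. -/
theorem finrank_eq_of_nondegenerate [FiniteDimensional k V] (B : V →ₗ[k] W →ₗ[k] k)
    (hl : ∀ y, (∀ x, B y x = 0) → y = 0) (hr : ∀ x, (∀ y, B y x = 0) → x = 0) :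
    finrank k V = finrank k W := by
  have : FiniteDimensional k W := finiteDimensional_right_of_nondegenerate B hr
  have hinjr : Function.Injective B.flip := by
    rw [← LinearMap.ker_eq_bot, LinearMap.ker_eq_bot']
    intro y hy
    exact hr y fun t => by
      have := LinearMap.congr_fun hy t
      simpa using this
  have hinjl : Function.Injective B := by
    rw [← LinearMap.ker_eq_bot, LinearMap.ker_eq_bot']
    intro t ht
    exact hl t fun y => by
      have := LinearMap.congr_fun ht y
      simpa using this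
  have h1 : finrank k W ≤ finrank k V := by
    have := LinearMap.finrank_le_finrank_of_injective hinjr
    rwa [Subspace.dual_finrank_eq] at this
  have h2 : finrank k V ≤ finrank k W := by
    have := LinearMap.finrank_le_finrank_of_injective hinjl
    rwa [Subspace.dual_finrank_eq] at this
  exact le_antisymm h2 h1

/-- Conversely: finite-dimensional spaces of equal dimension carry a two-sided non-degenerate
pairing. -/
theorem exists_pairing_of_finrank_eq [FiniteDimensional k V] [FiniteDimensional k W]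
    (h : finrank k V = finrank k W) :
    ∃ B : V →ₗ[k] W →ₗ[k] k,
      (∀ y, (∀ x, B y x = 0) → y = 0) ∧ (∀ x, (∀ y, B y x = 0) → x = 0) := by
  classical
  -- `W ≃ V ≃ Dual V`
  have e : W ≃ₗ[k] Dual k V := by
    have h' : finrank k W = finrank k (Dual k V) := by rw [Subspace.dual_finrank_eq, h]
    exact LinearEquiv.ofFinrankEq _ _ h'
  refine ⟨e.toLinearMap.flip, ?_, ?_⟩
  · intro y hy
    by_contra hne
    obtain ⟨φ, hφ⟩ : ∃ φ : Dual k V, φ y ≠ 0 := by
      by_contra hall
      exact hne ((Module.forall_dual_apply_eq_zero_iff k y).1 fun φ => by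
        by_contra h
        exact hall ⟨φ, h⟩)
    apply hφ
    have := hy (e.symm φ)
    simpa using this
  · intro x hx
    have : e x = 0 := by
      apply LinearMap.ext
      intro y
      have := hx y
      simpa using this
    simpa using this

end Transport

end Fermat.Agent.CFT.H94
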