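import Fermat.Agent.CFT.H87_PTBridge
import Fermat.Agent.CFT.H91_WModel
import Fermat.Agent.CFT.H94_PTFormal

/-!
# D3-inst (helper55): from `Hom(X, μ)` to a `χ`-twisted perfect pairing

Layer D proves Poitou–Tate for the pair `(X, Hom(X, μ))`, `μ = E_S[p]`.  The frozen statement
(and `PoitouTateStatement`) is phrased for a pair `(X, M)` with a perfect pairing
`b : X × M → 𝔽_p`, `b (g x) (g m) = χ_cyc(g) b x m`.  This file does the conversion:

* `IsCharRep χ μ z`: `μ` is one-dimensional on `z` with `g z = χ(g) z`;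
* `twistEquiv`: `M ≃ₗ Hom(X, μ)`, `m ↦ (x ↦ b x m • z)`, equivariant (`twistEquiv_equivariant`);
* `locKer2Equiv`: `ker (∏ res₂)` is functorial for equivariant coefficient isomorphisms;
* `poitouTateStatement_of_homRep`: `PoitouTateStatement p S` from the `Hom(X, μ)`-version.
-/

set_option autoImplicit false

open CategoryTheory Module ExtCitation

noncomputable section

namespace Fermat.Agent.CFT

/-! ### Characters as one-dimensional representations -/

section CharRep

variable {p : ℕ} [Fact p.Prime] {H : Type} [Group H]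

/-- `μ` is the one-dimensional representation attached to the character `χ`, with basis `z`. -/
structure IsCharRep (χ : H →* (ZMod p)ˣ) (μ : Rep.{0} (ZMod p) H) (z : μ.V) : Prop where
  act : ∀ g : H, μ.ρ g z = ((χ g : (ZMod p)ˣ) : ZMod p) • z
  span : ∀ v : μ.V, ∃ c : ZMod p, v = c • z
  ne_zero : z ≠ 0

variable {χ : H →* (ZMod p)ˣ} {μ : Rep.{0} (ZMod p) H} {z : μ.V}

lemma IsCharRep.smul_eq_zero (hμ : IsCharRep χ μ z) {c : ZMod p} (h : c • z = 0) : c = 0 :=
  (_root_.smul_eq_zero.1 h).resolve_right hμ.ne_zero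

/-- `c ↦ c • z` as a linear equivalence `𝔽_p ≃ μ`. -/
def IsCharRep.basisEquiv (hμ : IsCharRep χ μ z) : ZMod p ≃ₗ[ZMod p] μ.V :=
  LinearEquiv.ofBijective (LinearMap.toSpanSingleton (ZMod p) μ.V z)
    ⟨by
      rw [← LinearMap.ker_eq_bot, LinearMap.ker_eq_bot']
      intro c hc
      exact hμ.smul_eq_zero (by simpa [LinearMap.toSpanSingleton_apply] using hc),
     fun v => by
      obtain ⟨c, rfl⟩ := hμ.span v
      exact ⟨c, by simp [LinearMap.toSpanSingleton_apply]⟩⟩

@[simp] lemma IsCharRep.basisEquiv_apply (hμ : IsCharRep χ μ z) (c : ZMod p) :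
    hμ.basisEquiv c = c • z := by
  simp [IsCharRep.basisEquiv, LinearMap.toSpanSingleton_apply]

variable {X M : Rep.{0} (ZMod p) H}

/-- `m ↦ (x ↦ b x m • z)`. -/
def twistHom (z : μ.V) (b : X.V →ₗ[ZMod p] M.V →ₗ[ZMod p] ZMod p) :
    M.V →ₗ[ZMod p] (X.V →ₗ[ZMod p] μ.V) :=
  ((LinearMap.smulRightₗ : (X.V →ₗ[ZMod p] ZMod p) →ₗ[ZMod p] μ.V →ₗ[ZMod p]
    (X.V →ₗ[ZMod p] μ.V)).flip z) ∘ₗ b.flip

@[simp] lemma twistHom_apply (z : μ.V) (b : X.V →ₗ[ZMod p] M.V →ₗ[ZMod p] ZMod p)
    (m : M.V) (x : X.V) : twistHom z b m x = b x m • z := by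
  simp [twistHom]

variable (hμ : IsCharRep χ μ z) (b : X.V →ₗ[ZMod p] M.V →ₗ[ZMod p] ZMod p)
  (hb : ∀ (g : H) (x : X.V) (m : M.V),
    b (X.ρ g x) (M.ρ g m) = ((χ g : (ZMod p)ˣ) : ZMod p) * b x m)

include hμ hb in
/-- The twist map is `H`-equivariant for the conjugation action on `Hom(X, μ)`. -/
lemma twistHom_equivariant (g : H) (m : M.V) :
    twistHom z b (M.ρ g m) = (homRep X μ).ρ g (twistHom z b m) := by
  refine LinearMap.ext fun x => ?_
  rw [homRep_ρ_apply, twistHom_apply, twistHom_apply, map_smul, hμ.act g, smul_smul]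
  have hx : X.ρ g (X.ρ g⁻¹ x) = x := by
    rw [← Module.End.mul_apply, ← map_mul, mul_inv_cancel, map_one, Module.End.one_apply]
  have := hb g (X.ρ g⁻¹ x) m
  rw [hx] at this
  rw [this, mul_comm]

include hμ in
lemma twistHom_injective (hr : ∀ m, (∀ x, b x m = 0) → m = 0) :
    Function.Injective (twistHom z b) := by
  rw [← LinearMap.ker_eq_bot, LinearMap.ker_eq_bot']
  intro m hm
  refine hr m fun x => hμ.smul_eq_zero ?_
  rw [← twistHom_apply z b m x, hm, LinearMap.zero_apply]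

include hμ in
lemma twistHom_surjective [FiniteDimensional (ZMod p) X.V] [FiniteDimensional (ZMod p) M.V]
    (hl : ∀ x, (∀ m, b x m = 0) → x = 0) (hr : ∀ m, (∀ x, b x m = 0) → m = 0) :
    Function.Surjective (twistHom z b) := by
  have hinjl : Function.Injective b := by
    rw [← LinearMap.ker_eq_bot, LinearMap.ker_eq_bot']
    intro x hx
    exact hl x fun m => by rw [hx, LinearMap.zero_apply]
  have hinjr : Function.Injective b.flip := by
    rw [← LinearMap.ker_eq_bot, LinearMap.ker_eq_bot']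
    intro m hm
    refine hr m fun x => ?_
    rw [← LinearMap.flip_apply, hm, LinearMap.zero_apply]
  have h1 : finrank (ZMod p) X.V ≤ finrank (ZMod p) M.V := by
    have := LinearMap.finrank_le_finrank_of_injective hinjl
    rwa [Subspace.dual_finrank_eq] at this
  have h2 : finrank (ZMod p) M.V ≤ finrank (ZMod p) X.V := by
    have := LinearMap.finrank_le_finrank_of_injective hinjr
    rwa [Subspace.dual_finrank_eq] at this
  have hsurj : Function.Surjective b.flip := by
    refine (LinearMap.injective_iff_surjective_of_finrank_eq_finrank ?_).1 hinjr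
    rw [Subspace.dual_finrank_eq]
    exact le_antisymm h2 h1
  intro f
  obtain ⟨m, hm⟩ := hsurj (hμ.basisEquiv.symm.toLinearMap ∘ₗ f)
  refine ⟨m, LinearMap.ext fun x => ?_⟩
  rw [twistHom_apply, ← LinearMap.flip_apply, hm, LinearMap.comp_apply,
    LinearEquiv.coe_coe, ← hμ.basisEquiv_apply, LinearEquiv.apply_symm_apply]

/-- `M ≃ₗ Hom(X, μ)` attached to a perfect pairing `b : X × M → 𝔽_p`. -/
def twistEquiv [FiniteDimensional (ZMod p) X.V] [FiniteDimensional (ZMod p) M.V]
    (hl : ∀ x, (∀ m, b x m = 0) → x = 0) (hr : ∀ m, (∀ x, b x m = 0) → m = 0) :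
    M.V ≃ₗ[ZMod p] (homRep X μ).V :=
  LinearEquiv.ofBijective (twistHom z b)
    ⟨twistHom_injective hμ b hr, twistHom_surjective hμ b hl hr⟩

include hb in
lemma twistEquiv_isEquivariant [FiniteDimensional (ZMod p) X.V] [FiniteDimensional (ZMod p) M.V]
    (hl : ∀ x, (∀ m, b x m = 0) → x = 0) (hr : ∀ m, (∀ x, b x m = 0) → m = 0) :
    H50.IsEquivariant (MonoidHom.id H) M (homRep X μ) (twistEquiv hμ b hl hr).toLinearMap :=
  fun g m => twistHom_equivariant hμ b hb g m

end CharRep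

/-! ### Functoriality of `ker (∏ res₂)` in the coefficients -/

section Transport

variable {k : Type} [CommRing k] {H : Type} [Group H] (𝓛 : LevelStructure H)
  {ι : Type} {Hv : ι → Type} [∀ v, Group (Hv v)] (𝓛v : ∀ v, LevelStructure (Hv v))
  {φ : ∀ v, Hv v →* H} (hφ : ∀ v, H50.IsCont (𝓛v v) 𝓛 (φ v))

/-- The total localisation map in degree 2. -/
def locTotal2 (A : Rep.{0} k H) : 𝓛.H2 A →ₗ[k] ∀ v, (𝓛v v).H2 (Rep.res (φ v) A) :=
  LinearMap.pi fun v => H50.resH2 (𝓛v v) 𝓛 (hφ v) A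

variable {A B : Rep.{0} k H}

lemma isEquivariant_res_of_id {α : A.V →ₗ[k] B.V}
    (hα : H50.IsEquivariant (MonoidHom.id H) A B α) (v : ι) :
    H50.IsEquivariant (MonoidHom.id (Hv v)) (Rep.res (φ v) A) (Rep.res (φ v) B) α :=
  fun g a => hα (φ v g) a

lemma resH2_mapH2 {α : A.V →ₗ[k] B.V} (hα : H50.IsEquivariant (MonoidHom.id H) A B α)
    (v : ι) (x : 𝓛.H2 A) :
    H50.resH2 (𝓛v v) 𝓛 (hφ v) B (H50.mapH2 𝓛 𝓛 (H50.isCont_id 𝓛) hα x) =
      H50.mapH2 (𝓛v v) (𝓛v v) (H50.isCont_id _) (isEquivariant_res_of_id hα v)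
        (H50.resH2 (𝓛v v) 𝓛 (hφ v) A x) := by
  induction x using Submodule.Quotient.induction_on with
  | H f => rfl

lemma mapH2_mem_ker_locTotal2 {α : A.V →ₗ[k] B.V}
    (hα : H50.IsEquivariant (MonoidHom.id H) A B α) {x : 𝓛.H2 A}
    (hx : x ∈ LinearMap.ker (locTotal2 𝓛 𝓛v hφ A)) :
    H50.mapH2 𝓛 𝓛 (H50.isCont_id 𝓛) hα x ∈ LinearMap.ker (locTotal2 𝓛 𝓛v hφ B) := by
  rw [LinearMap.mem_ker] at hx ⊢
  funext v
  have hv : H50.resH2 (𝓛v v) 𝓛 (hφ v) A x = 0 := congrFun hx v
  show H50.resH2 (𝓛v v) 𝓛 (hφ v) B _ = 0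
  rw [resH2_mapH2, hv, map_zero]

/-- An equivariant linear equivalence of coefficient modules induces an equivalence on `H²`. -/
def mapH2Equiv (e : A.V ≃ₗ[k] B.V)
    (he : H50.IsEquivariant (MonoidHom.id H) A B e.toLinearMap) : 𝓛.H2 A ≃ₗ[k] 𝓛.H2 B :=
  have he' : H50.IsEquivariant (MonoidHom.id H) B A e.symm.toLinearMap := fun g b => by
    apply e.injective
    have := he g (e.symm b)
    simp only [LinearEquiv.coe_coe, LinearEquiv.apply_symm_apply] at this ⊢
    exact this.symm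
  LinearEquiv.ofLinearMap (H50.mapH2 𝓛 𝓛 (H50.isCont_id 𝓛) he)
    (H50.mapH2 𝓛 𝓛 (H50.isCont_id 𝓛) he')
    (by
      refine LinearMap.ext fun x => ?_
      induction x using Submodule.Quotient.induction_on with
      | H f =>
        refine congrArg (Submodule.Quotient.mk) (Subtype.ext (funext fun g => ?_))
        exact e.apply_symm_apply _)
    (by
      refine LinearMap.ext fun x => ?_
      induction x using Submodule.Quotient.induction_on with
      | H f =>
        refine congrArg (Submodule.Quotient.mk) (Subtype.ext (funext fun g => ?_))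
        exact e.symm_apply_apply _)

/-- `ker (∏ res₂)` only depends on the coefficient module up to equivariant isomorphism. -/
def locKer2Equiv (e : A.V ≃ₗ[k] B.V)
    (he : H50.IsEquivariant (MonoidHom.id H) A B e.toLinearMap) :
    LinearMap.ker (locTotal2 𝓛 𝓛v hφ A) ≃ₗ[k] LinearMap.ker (locTotal2 𝓛 𝓛v hφ B) :=
  LinearEquiv.ofSubmodules (mapH2Equiv 𝓛 e he) _ _ (by
    have he' : H50.IsEquivariant (MonoidHom.id H) B A e.symm.toLinearMap := fun g b => by
      apply e.injective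
      have := he g (e.symm b)
      simp only [LinearEquiv.coe_coe, LinearEquiv.apply_symm_apply] at this ⊢
      exact this.symm
    apply le_antisymm
    · rintro _ ⟨x, hx, rfl⟩
      exact mapH2_mem_ker_locTotal2 𝓛 𝓛v hφ he hx
    · intro y hy
      refine ⟨(mapH2Equiv 𝓛 e he).symm y, ?_, LinearEquiv.apply_symm_apply _ _⟩
      exact mapH2_mem_ker_locTotal2 𝓛 𝓛v hφ he' hy)

end Transport

/-! ### The reduction of `PoitouTateStatement` to the `Hom(X, μ)`-version -/

section Final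

local notation "GQ" => (AlgebraicClosure ℚ ≃ₐ[ℚ] AlgebraicClosure ℚ)

variable (p : ℕ) [Fact p.Prime] (S : Finset Nat.Primes)
  (𝓛loc : ∀ q : ↥S, LevelStructure (primeLocalGaloisGroup q.1))
  (hloc : ∀ q : ↥S, H50.IsCont (𝓛loc q) (H87.levelsS S) (primeLocalToGlobal q.1))
  (hcof : ∀ q : ↥S, H87.Cofinal (𝓛loc q) (pullLevels (primeLocalToGlobal q.1)))

include hcof in
/-- **D3-inst, last step.**  If `μ` is the cyclotomic character and Poitou–Tate holds for all
pairs `(X, Hom(X, μ))`, then `PoitouTateStatement p S` holds. -/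
theorem poitouTateStatement_of_homRep (μ : Rep.{0} (ZMod p) GQ) (z : μ.V)
    (hμ : IsCharRep (cycloChar p) μ z)
    (h : ∀ (X : Rep.{0} (ZMod p) GQ) [FiniteDimensional (ZMod p) X],
      (H87.levelsS S).IsDiscrete X →
      ∃ B : H87.ShaL1 S X 𝓛loc hloc →ₗ[ZMod p]
          H87.ShaL2 S (homRep X μ) 𝓛loc hloc →ₗ[ZMod p] ZMod p,
        (∀ y, (∀ x, B y x = 0) → y = 0) ∧ (∀ x, (∀ y, B y x = 0) → x = 0)) :
    PoitouTateStatement p S := by
  refine H87.poitouTateStatement_of_level p S 𝓛loc hloc hcof ?_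
  intro M X _ _ hM hX b hb hl hr
  have he := twistEquiv_isEquivariant hμ b hb hl hr
  exact H94.exists_pairing_of_equiv (LinearEquiv.refl _ _)
    (locKer2Equiv (H87.levelsS S) 𝓛loc hloc (twistEquiv hμ b hl hr) he).symm (h X hX)

end Final

end Fermat.Agent.CFT
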