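import Mathlib
import Fermat.Agent.S14.H31_EulerChi
import Fermat.Agent.S14.H72_LogZeta
import Fermat.Agent.S14.H79_SecondInequalityFinal
import Fermat.Agent.S14.H98_LBounded

/-!
# CFT / layer C : the analytic second inequality for a finite quotient of the ideal monoid

`K` a number field, `G` a finite abelian group and `Φ : (Ideal (𝓞 K))⁰ →* WithZero G` a
monoid homomorphism (for the ray class group modulo `𝔪` : `Φ I` is the ray class of `I` if `I` is
prime to `𝔪`, and `0` otherwise).  If the ideals are equidistributed among the classes with a power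
saving error term and only finitely many primes are sent to `0`, then for every extension `M / K`
of number fields, every subgroup `H` of `G` containing the classes of all primes of `K` having a
prime of `M` of relative degree one above has index at most `[M : K]`.
-/

set_option autoImplicit false

open NumberField Ideal IsDedekindDomain nonZeroDivisors Filter Topology

namespace Fermat.Agent.CFT.H56

open Fermat.Agent.S14

noncomputable section

variable {K : Type*} [Field K] [NumberField K] {G : Type*} [CommGroup G]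

/-- **Equidistribution with a power saving error term** of the nonzero ideals among the classes
of `Φ`. -/
def IsEquidistributed (Φ : (Ideal (𝓞 K))⁰ →* WithZero G) : Prop :=
  ∃ κ C r : ℝ, r < 1 ∧ ∀ (g : G) (n : ℕ), 1 ≤ n →
    |(Nat.card {I : (Ideal (𝓞 K))⁰ //
        Φ I = (g : WithZero G) ∧ absNorm (I : Ideal (𝓞 K)) ≤ n} : ℝ) - κ * n| ≤ C * (n : ℝ) ^ r

/-- the complex valued multiplicative function on nonzero ideals attached to a character of `G`
(zero on the ideals with `Φ I = 0`) -/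
def wt (Φ : (Ideal (𝓞 K))⁰ →* WithZero G) (ψ : G →* ℂˣ) : (Ideal (𝓞 K))⁰ →* ℂ :=
  (WithZero.lift' ((Units.coeHom ℂ).comp ψ)).toMonoidHom.comp Φ

lemma wt_of_eq_zero (Φ : (Ideal (𝓞 K))⁰ →* WithZero G) (ψ : G →* ℂˣ) {I : (Ideal (𝓞 K))⁰}
    (h : Φ I = 0) : wt Φ ψ I = 0 := by
  simp [wt, h]

lemma wt_of_eq_coe (Φ : (Ideal (𝓞 K))⁰ →* WithZero G) (ψ : G →* ℂˣ) {I : (Ideal (𝓞 K))⁰}
    {g : G} (h : Φ I = (g : WithZero G)) : wt Φ ψ I = ((ψ g : ℂˣ) : ℂ) := by
  simp [wt, h]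

/-- the `L`-series of `Φ` twisted by a character of `G` -/
def LPhi (Φ : (Ideal (𝓞 K))⁰ →* WithZero G) (ψ : G →* ℂˣ) (s : ℝ) : ℂ :=
  ∑' I : (Ideal (𝓞 K))⁰, wt Φ ψ I * (absNorm (I : Ideal (𝓞 K)) : ℂ) ^ (-(s : ℂ))

/-! ### Euler product of a bounded completely multiplicative function on ideals -/

section General

variable (K)

/-- the general term `f(I) N(I)^(-s)` as a monoid hom -/
def termHom (f : (Ideal (𝓞 K))⁰ →* ℂ) (s : ℂ) : (Ideal (𝓞 K))⁰ →* ℂ :=
  f * H31.normCpowHom K s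

lemma termHom_apply (f : (Ideal (𝓞 K))⁰ →* ℂ) (s : ℂ) (I : (Ideal (𝓞 K))⁰) :
    termHom K f s I = f I * (absNorm (I : Ideal (𝓞 K)) : ℂ) ^ (-s) := rfl

lemma norm_termHom_le {f : (Ideal (𝓞 K))⁰ →* ℂ} (hf : ∀ I, ‖f I‖ ≤ 1) (s : ℝ)
    (I : (Ideal (𝓞 K))⁰) :
    ‖termHom K f (s : ℂ) I‖ ≤ (absNorm (I : Ideal (𝓞 K)) : ℝ) ^ (-s) := by
  have hpos : 0 < absNorm (I : Ideal (𝓞 K)) := by
    refine Nat.pos_of_ne_zero fun h => ?_
    exact (mem_nonZeroDivisors_iff_ne_zero.mp I.2) (absNorm_eq_zero_iff.mp h)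
  rw [termHom_apply, norm_mul, Complex.norm_natCast_cpow_of_pos hpos]
  have h1 : (-(s : ℂ)).re = -s := by simp
  rw [h1]
  exact mul_le_of_le_one_left (Real.rpow_nonneg (Nat.cast_nonneg _) _) (hf I)

/-- absolute summability of `∑_I f(I) N(I)^(-s)` for real `s > 1` -/
theorem summable_norm_termHom {f : (Ideal (𝓞 K))⁰ →* ℂ} (hf : ∀ I, ‖f I‖ ≤ 1) {s : ℝ}
    (hs : 1 < s) : Summable fun I : (Ideal (𝓞 K))⁰ => ‖termHom K f (s : ℂ) I‖ :=
  Summable.of_nonneg_of_le (fun _ => norm_nonneg _) (fun I => norm_termHom_le K hf s I)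
    (H31.summable_absNorm_rpow_nonzero K hs)

lemma termHom_idealOfExps0 (f : (Ideal (𝓞 K))⁰ →* ℂ) (s : ℂ)
    (k : HeightOneSpectrum (𝓞 K) →₀ ℕ) :
    termHom K f s (H31.idealOfExps0 K k) =
      H31.cmono (fun P => termHom K f s (H79.primeIdeal0 K P)) k := by
  unfold H31.idealOfExps0 H31.cmono
  rw [map_finsuppProd]
  simp

/-- **Euler product** of `∑_I f(I) N(I)^(-s)` for a completely multiplicative `f` bounded by
`1`, real `s > 1`. -/
theorem hasProd_termHom {f : (Ideal (𝓞 K))⁰ →* ℂ} (hf : ∀ I, ‖f I‖ ≤ 1) (s : ℝ) (hs : 1 < s) :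
    HasProd (fun P : HeightOneSpectrum (𝓞 K) =>
      (1 - f (H79.primeIdeal0 K P) * (absNorm P.asIdeal : ℂ) ^ (-(s : ℂ)))⁻¹)
      (∑' I : (Ideal (𝓞 K))⁰, f I * (absNorm (I : Ideal (𝓞 K)) : ℂ) ^ (-(s : ℂ))) := by
  set x : HeightOneSpectrum (𝓞 K) → ℂ := fun P => termHom K f (s : ℂ) (H79.primeIdeal0 K P)
    with hxdef
  have hx : ∀ P, ‖x P‖ < 1 := fun P => by
    refine lt_of_le_of_lt (norm_termHom_le K hf s _) ?_
    exact lt_of_le_of_lt (H72.primeTerm_le_half K hs.le P) (by norm_num)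
  have hterm : ∀ k, H31.cmono x k = termHom K f (s : ℂ) (H31.expsEquiv0 K k) := fun k => by
    rw [H31.expsEquiv0_apply, termHom_idealOfExps0]
  have hsum : Summable fun k : HeightOneSpectrum (𝓞 K) →₀ ℕ => ‖H31.cmono x k‖ := by
    have h := (H31.expsEquiv0 K).summable_iff.mpr (summable_norm_termHom K hf hs)
    refine h.congr fun k => ?_
    rw [hterm k]
    rfl
  have h := H31.hasProd_of_summable_norm_cmono x hx hsum
  have htsum : ∑' k : HeightOneSpectrum (𝓞 K) →₀ ℕ, H31.cmono x k =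
      ∑' I : (Ideal (𝓞 K))⁰, f I * (absNorm (I : Ideal (𝓞 K)) : ℂ) ^ (-(s : ℂ)) := by
    rw [← (H31.expsEquiv0 K).tsum_eq]
    exact tsum_congr fun k => hterm k
  rw [htsum] at h
  exact h

end General

variable [Finite G]

lemma norm_wt_le_one (Φ : (Ideal (𝓞 K))⁰ →* WithZero G) (ψ : G →* ℂˣ) (I : (Ideal (𝓞 K))⁰) :
    ‖wt Φ ψ I‖ ≤ 1 := by
  rcases h : Φ I with _ | g
  · rw [wt_of_eq_zero Φ ψ h, norm_zero]; exact zero_le_one
  · rw [wt_of_eq_coe Φ ψ h, H79.norm_char_apply]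

/-! ### Boundedness of the twisted `L`-series for a nontrivial character -/

section Bounded

variable (Φ : (Ideal (𝓞 K))⁰ →* WithZero G)

open scoped Classical in
lemma card_filter_class (n : ℕ) (g : G) :
    ((H98.idealsLE K n).filter (fun I : (Ideal (𝓞 K))⁰ => Φ I = (g : WithZero G))).card =
      Nat.card {I : (Ideal (𝓞 K))⁰ //
        Φ I = (g : WithZero G) ∧ absNorm (I : Ideal (𝓞 K)) ≤ n} := by
  symm
  refine Nat.subtype_card _ fun I => ?_
  simp [H98.mem_idealsLE, and_comm]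

open scoped Classical in
lemma sum_wt [Fintype G] (ψ : G →* ℂˣ) (n : ℕ) :
    ∑ I ∈ H98.idealsLE K n, wt Φ ψ I =
      ∑ g : G, ((ψ g : ℂˣ) : ℂ) * (Nat.card {I : (Ideal (𝓞 K))⁰ //
        Φ I = (g : WithZero G) ∧ absNorm (I : Ideal (𝓞 K)) ≤ n} : ℂ) := by
  let _ : Fintype (WithZero G) := inferInstanceAs (Fintype (Option G))
  rw [← Finset.sum_fiberwise (s := H98.idealsLE K n) (g := fun I : (Ideal (𝓞 K))⁰ => Φ I)]
  have hopt : ∀ F : WithZero G → ℂ, ∑ x : WithZero G, F x = F 0 + ∑ g : G, F (g : WithZero G) :=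
    fun F => Fintype.sum_option (α := G) F
  rw [hopt]
  have h0 : ∑ I ∈ (H98.idealsLE K n).filter (fun I : (Ideal (𝓞 K))⁰ => Φ I = 0), wt Φ ψ I = 0 :=
    Finset.sum_eq_zero fun I hI => wt_of_eq_zero Φ ψ (Finset.mem_filter.mp hI).2
  rw [h0, zero_add]
  refine Finset.sum_congr rfl fun g _ => ?_
  rw [← card_filter_class, Finset.sum_congr rfl (g := fun _ => ((ψ g : ℂˣ) : ℂ))]
  · rw [Finset.sum_const, nsmul_eq_mul, mul_comm]
  · intro I hI
    exact wt_of_eq_coe Φ ψ (Finset.mem_filter.mp hI).2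

/-- the partial sums of `wt Φ ψ` for a nontrivial character are `O(n^r)`, `r < 1` -/
lemma norm_sum_wt_le (hΦ : IsEquidistributed Φ) :
    ∃ A r : ℝ, 0 ≤ A ∧ 0 ≤ r ∧ r < 1 ∧ ∀ (ψ : G →* ℂˣ), ψ ≠ 1 → ∀ n : ℕ,
      ‖∑ I ∈ H98.idealsLE K n, wt Φ ψ I‖ ≤ A * (n : ℝ) ^ r := by
  classical
  have : Fintype G := Fintype.ofFinite G
  obtain ⟨κ, C, r, hr1, hC⟩ := hΦ
  have hC0 : 0 ≤ C := by
    have h := hC 1 1 le_rfl
    simp only [Nat.cast_one, Real.one_rpow, mul_one] at h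
    exact (abs_nonneg _).trans h
  refine ⟨(Fintype.card G : ℝ) * C, max r 0, by positivity, le_max_right _ _,
    max_lt hr1 one_pos, fun ψ hψ n => ?_⟩
  rcases Nat.eq_zero_or_pos n with rfl | hn
  · have : H98.idealsLE K 0 = ∅ := by
      ext I
      simp only [H98.mem_idealsLE, Finset.notMem_empty, iff_false, not_le]
      exact H98.one_le_absNorm I
    rw [this, Finset.sum_empty, norm_zero]
    positivity
  have hn1 : (1 : ℝ) ≤ n := by exact_mod_cast hn
  rw [sum_wt]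
  have h0 : ∑ g : G, ((ψ g : ℂˣ) : ℂ) * ((κ * n : ℝ) : ℂ) = 0 := by
    rw [← Finset.sum_mul, H98.sum_units_char_eq_zero ψ hψ, zero_mul]
  rw [← sub_zero (∑ g : G, _), ← h0, ← Finset.sum_sub_distrib]
  refine (norm_sum_le _ _).trans ?_
  have : ∀ g ∈ (Finset.univ : Finset G),
      ‖((ψ g : ℂˣ) : ℂ) * (Nat.card {I : (Ideal (𝓞 K))⁰ //
        Φ I = (g : WithZero G) ∧ absNorm (I : Ideal (𝓞 K)) ≤ n} : ℂ) -
          ((ψ g : ℂˣ) : ℂ) * ((κ * n : ℝ) : ℂ)‖ ≤ C * (n : ℝ) ^ (max r 0) := by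
    intro g _
    rw [← mul_sub, norm_mul, H79.norm_char_apply, one_mul]
    have h1 := hC g n hn
    rw [← Complex.ofReal_natCast, ← Complex.ofReal_sub, Complex.norm_real, Real.norm_eq_abs]
    refine h1.trans (mul_le_mul_of_nonneg_left ?_ hC0)
    exact Real.rpow_le_rpow_of_exponent_le hn1 (le_max_left _ _)
  refine (Finset.sum_le_sum this).trans ?_
  rw [Finset.sum_const, Finset.card_univ, nsmul_eq_mul, mul_assoc]

/-- **Boundedness** of the twisted `L`-series on `(1, 2]` for a nontrivial character. -/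
theorem LPhi_bounded (hΦ : IsEquidistributed Φ) (ψ : G →* ℂˣ) (hψ : ψ ≠ 1) :
    ∃ B : ℝ, ∀ s : ℝ, 1 < s → s ≤ 2 → ‖LPhi Φ ψ s‖ ≤ B := by
  obtain ⟨A, r, hA0, hr0, hr1, hA⟩ := norm_sum_wt_le Φ hΦ
  refine ⟨2 * A / (1 - r), fun s hs1 hs2 => ?_⟩
  have hsum : Summable fun I : (Ideal (𝓞 K))⁰ => wt Φ ψ I *
      (absNorm (I : Ideal (𝓞 K)) : ℂ) ^ (-(s : ℂ)) :=
    (summable_norm_termHom K (norm_wt_le_one Φ ψ) hs1).of_norm
  have hH := H98.hasSum_term_of_summable (fun I => wt Φ ψ I) (s : ℂ) hsum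
  have hS : LSeriesSummable (H98.idealCoeff fun I : (Ideal (𝓞 K))⁰ => wt Φ ψ I) s := hH.summable
  have hL : LSeries (H98.idealCoeff fun I : (Ideal (𝓞 K))⁰ => wt Φ ψ I) s = LPhi Φ ψ s :=
    hH.tsum_eq
  rw [← hL]
  have hC : ∀ n : ℕ, ‖∑ k ∈ Finset.Icc 1 n, H98.idealCoeff (fun I : (Ideal (𝓞 K))⁰ =>
      wt Φ ψ I) k‖ ≤ A * (n : ℝ) ^ r := by
    intro n
    rw [H98.sum_idealCoeff]
    exact hA ψ hψ n
  refine (H98.norm_LSeries_le_of_partial_sums hr0 hr1 hA0 hC hs1 hS).trans ?_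
  rw [div_le_div_iff₀ (by linarith) (by linarith)]
  have h1 : s * A ≤ 2 * A := mul_le_mul_of_nonneg_right hs2 hA0
  have h2 : 0 ≤ 2 * A := by positivity
  nlinarith

end Bounded

/-! ### The second inequality -/

section Final

variable (Φ : (Ideal (𝓞 K))⁰ →* WithZero G)

/-- the primes not sent to `0` -/
def goodPrimes : Set (HeightOneSpectrum (𝓞 K)) := {P | Φ (H79.primeIdeal0 K P) ≠ 0}

/-- the class of a good prime -/
def clsOf (P : goodPrimes Φ) : G := WithZero.unzero P.2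

lemma coe_clsOf (P : goodPrimes Φ) : ((clsOf Φ P : G) : WithZero G) = Φ (H79.primeIdeal0 K P.1) :=
  WithZero.coe_unzero P.2

/-- upper bound for all twisted `L`-series by the Dedekind zeta function -/
lemma exists_LPhi_bound :
    ∃ A : ℝ, ∀ (ψ : G →* ℂˣ) (s : ℝ), 1 < s → s ≤ 2 → ‖LPhi Φ ψ s‖ ≤ A / (s - 1) := by
  obtain ⟨c₁, c₂, -, hc⟩ := H72.exists_bounds_sub_one_mul_zetaReal K
  refine ⟨c₂, fun ψ s hs hs2 => ?_⟩
  have hpos : 0 < s - 1 := by linarith
  rw [le_div_iff₀ hpos, mul_comm]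
  refine le_trans (mul_le_mul_of_nonneg_left ?_ hpos.le) (hc s ⟨hs, hs2⟩).2
  have hsn := summable_norm_termHom K (norm_wt_le_one Φ ψ) hs
  unfold LPhi
  refine (norm_tsum_le_tsum_norm hsn).trans ?_
  rw [← H31.tsum_absNorm_rpow_nonzero K hs]
  exact hsn.tsum_le_tsum (fun I => norm_termHom_le K (norm_wt_le_one Φ ψ) s I)
    (H31.summable_absNorm_rpow_nonzero K hs)

/-- the Euler product of the twisted `L`-series over the good primes -/
lemma hasProd_LPhi_good (ψ : G →* ℂˣ) (s : ℝ) (hs : 1 < s) :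
    HasProd (fun P : goodPrimes Φ =>
      (1 - ((ψ (clsOf Φ P) : ℂˣ) : ℂ) * (((absNorm P.1.asIdeal : ℝ) ^ (-s) : ℝ) : ℂ))⁻¹)
      (LPhi Φ ψ s) := by
  have h := hasProd_termHom K (norm_wt_le_one Φ ψ) s hs
  have hsupp : Function.mulSupport (fun P : HeightOneSpectrum (𝓞 K) =>
      (1 - wt Φ ψ (H79.primeIdeal0 K P) * (absNorm P.asIdeal : ℂ) ^ (-(s : ℂ)))⁻¹) ⊆
        goodPrimes Φ := by
    intro P hP
    by_contra hbad
    apply hP
    have h0 : Φ (H79.primeIdeal0 K P) = 0 := by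
      by_contra h1
      exact hbad h1
    simp [wt_of_eq_zero Φ ψ h0]
  have h2 := (hasProd_subtype_iff_of_mulSupport_subset hsupp).mpr h
  refine h2.congr_fun fun P => ?_
  simp only [Function.comp_apply]
  rw [wt_of_eq_coe Φ ψ (coe_clsOf Φ P).symm, H79.natCast_cpow_neg]

variable (M : Type*) [Field M] [NumberField M] [Algebra K M]

/-- **The analytic second inequality** for an arbitrary finite quotient `Φ` of the ideal monoid of
`K` in which the ideals are equidistributed with a power saving error term: for every extension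
`M / K` of number fields, a subgroup `H` of `G` containing the classes of all primes of `K` having
a prime of `M` of relative degree one above has index at most `[M : K]`. -/
theorem index_le_finrank (hΦ : IsEquidistributed Φ)
    (hfin : {P : HeightOneSpectrum (𝓞 K) | Φ (H79.primeIdeal0 K P) = 0}.Finite)
    (H : Subgroup G)
    (hH : ∀ (𝔓 : Ideal (𝓞 M)) (_ : 𝔓.IsPrime) (_ : 𝔓 ≠ ⊥), 𝔓.inertiaDeg (𝓞 K) = 1 →
      ∀ (hP : 𝔓.under (𝓞 K) ∈ (Ideal (𝓞 K))⁰) (g : G),
        Φ ⟨𝔓.under (𝓞 K), hP⟩ = (g : WithZero G) → g ∈ H) :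
    H.index ≤ Module.finrank K M := by
  classical
  -- the data for the abstract squeeze
  set N : goodPrimes Φ → ℝ := fun P => (absNorm P.1.asIdeal : ℝ) with hNdef
  set gq : goodPrimes Φ → G ⧸ H := fun P => ((clsOf Φ P : G) : G ⧸ H) with hgq
  set L : ((G ⧸ H) →* ℂˣ) → ℝ → ℂ := fun χ s => LPhi Φ (χ.comp (QuotientGroup.mk' H)) s with hL
  have hN : ∀ P, 2 ≤ N P := fun P => H79.two_le_absNorm K P.1
  have hsumK : ∀ s : ℝ, 1 < s →
      Summable fun P : HeightOneSpectrum (𝓞 K) => (absNorm P.asIdeal : ℝ) ^ (-s) :=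
    fun s hs => H72.summable_primeTerm K hs
  have hsum : ∀ s : ℝ, 1 < s → Summable fun P => N P ^ (-s) :=
    fun s hs => (hsumK s hs).subtype _
  have hprod : ∀ (χ : (G ⧸ H) →* ℂˣ) (s : ℝ), 1 < s →
      HasProd (fun P => (1 - ((χ (gq P) : ℂˣ) : ℂ) * ((N P ^ (-s) : ℝ) : ℂ))⁻¹) (L χ s) :=
    fun χ s hs => hasProd_LPhi_good Φ (χ.comp (QuotientGroup.mk' H)) s hs
  obtain ⟨A, hA⟩ := exists_LPhi_bound Φ
  have hB : ∀ χ : (G ⧸ H) →* ℂˣ, χ ≠ 1 → ∃ B : ℝ, ∀ s : ℝ, 1 < s → s ≤ 2 → ‖L χ s‖ ≤ B := by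
    intro χ hχ
    refine LPhi_bounded Φ hΦ _ fun h1 => hχ ?_
    refine MonoidHom.ext fun x => ?_
    obtain ⟨g, rfl⟩ := QuotientGroup.mk_surjective x
    have := DFunLike.congr_fun h1 g
    simpa using this
  -- the lower density of the primes with class in `H`
  have hM : ∃ C : ℝ, ∀ᶠ s in 𝓝[>] (1 : ℝ), Real.log (1 / (s - 1)) - C ≤
      ∑' 𝔓 : HeightOneSpectrum (𝓞 M), (absNorm 𝔓.asIdeal : ℝ) ^ (-s) := by
    obtain ⟨C, hC⟩ := H72.exists_bound_tsum_primeTerm M
    refine ⟨C, ?_⟩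
    have h2 : ∀ᶠ s : ℝ in 𝓝[>] (1 : ℝ), s ≤ 2 :=
      (eventually_le_nhds (by norm_num : (1 : ℝ) < 2)).filter_mono nhdsWithin_le_nhds
    filter_upwards [h2, self_mem_nhdsWithin] with s hs2 hs1
    have h := (abs_le.mp (hC s ⟨hs1, hs2⟩)).1
    have e : ∑' P : HeightOneSpectrum (𝓞 M), (absNorm P.asIdeal : ℝ) ^ (-s) =
        ∑' P, H72.primeTerm M s P := rfl
    rw [e]
    linarith
  obtain ⟨C, hC⟩ := H79.exists_splitPrimes_lower K M hsumK hM
  obtain ⟨δ, hδ, hCδ⟩ := H79.exists_delta_of_eventually hC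
  set D : Set (HeightOneSpectrum (𝓞 K)) := {P | ∃ h : P ∈ goodPrimes Φ, gq ⟨P, h⟩ = 1} with hD
  set Bd : Set (HeightOneSpectrum (𝓞 K)) := {P | Φ (H79.primeIdeal0 K P) = 0} with hBd
  have hsub : H79.splitPrimes K M ⊆ Bd ∪ D := by
    rintro P ⟨𝔓, rfl, h𝔓⟩
    by_cases h0 : Φ (H79.primeIdeal0 K (𝔓.under (𝓞 K))) = 0
    · exact Or.inl h0
    · refine Or.inr ⟨h0, ?_⟩
      rw [hgq]
      simp only
      rw [QuotientGroup.eq_one_iff]
      exact hH 𝔓.asIdeal 𝔓.isPrime 𝔓.ne_bot h𝔓 _ _ (coe_clsOf Φ ⟨_, h0⟩).symm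
  have key : ∀ s : ℝ, 1 < s →
      ∑' P : H79.splitPrimes K M, (absNorm P.1.asIdeal : ℝ) ^ (-s) ≤
        (hfin.toFinset.card : ℝ) + ∑' p : {p // gq p = 1}, N p.1 ^ (-s) := by
    intro s hs
    set f : HeightOneSpectrum (𝓞 K) → ℝ := fun P => (absNorm P.asIdeal : ℝ) ^ (-s) with hf
    have hf0 : ∀ P, 0 ≤ f P := fun P => Real.rpow_nonneg (Nat.cast_nonneg _) _
    have hf1 : ∀ P, f P ≤ 1 := fun P =>
      Real.rpow_le_one_of_one_le_of_nonpos (H79.one_le_absNorm' K P) (by linarith)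
    have hfs : Summable f := hsumK s hs
    have e : ∑' p : {p // gq p = 1}, N p.1 ^ (-s) = ∑' P : D, f P :=
      (Equiv.subtypeSubtypeEquivSubtypeExists (fun P => P ∈ goodPrimes Φ)
        (fun p => gq p = 1)).tsum_eq (fun P : D => f P)
    rw [e]
    have hBsum : ∑' P, Bd.indicator f P ≤ (hfin.toFinset.card : ℝ) := by
      rw [tsum_eq_sum (s := hfin.toFinset) (fun P hP => by
        rw [Set.indicator_of_notMem]
        simpa using hP)]
      calc ∑ P ∈ hfin.toFinset, Bd.indicator f P ≤ ∑ _P ∈ hfin.toFinset, (1 : ℝ) :=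
            Finset.sum_le_sum fun P _ =>
              (Set.indicator_le_self' (fun _ _ => hf0 _) P).trans (hf1 P)
        _ = hfin.toFinset.card := by simp
    rw [tsum_subtype (H79.splitPrimes K M) f, tsum_subtype D f]
    calc ∑' P, (H79.splitPrimes K M).indicator f P
        ≤ ∑' P, (Bd.indicator f P + D.indicator f P) := by
          refine (hfs.indicator _).tsum_le_tsum (fun P => ?_)
            ((hfs.indicator _).add (hfs.indicator _))
          by_cases hP : P ∈ H79.splitPrimes K M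
          · rw [Set.indicator_of_mem hP]
            rcases hsub hP with h1 | h1
            · rw [Set.indicator_of_mem h1]
              linarith [Set.indicator_nonneg (fun P _ => hf0 P) P (s := D)]
            · rw [Set.indicator_of_mem h1]
              linarith [Set.indicator_nonneg (fun P _ => hf0 P) P (s := Bd)]
          · rw [Set.indicator_of_notMem hP]
            exact add_nonneg (Set.indicator_nonneg (fun P _ => hf0 P) P)
              (Set.indicator_nonneg (fun P _ => hf0 P) P)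
      _ = ∑' P, Bd.indicator f P + ∑' P, D.indicator f P :=
          (hfs.indicator _).tsum_add (hfs.indicator _)
      _ ≤ _ := by linarith
  -- conclusion
  have hδ' : 0 < min δ 1 := lt_min hδ one_pos
  have hcard := H79.card_le_of_bounds_near N hN gq hsum L (min δ 1) hδ' hprod A
    (fun s hs hs2 => hA _ s hs (by linarith [min_le_right δ 1]))
    (fun χ hχ => by
      obtain ⟨B, hB'⟩ := hB χ hχ
      exact ⟨B, fun s hs hs2 => hB' s hs (by linarith [min_le_right δ 1])⟩)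
    (Module.finrank K M) Module.finrank_pos (C + hfin.toFinset.card)
    (fun s hs hs2 => by
      have h1 := hCδ s hs (by linarith [min_le_left δ 1])
      have h2 := key s hs
      linarith)
  rw [Subgroup.index_eq_card]
  exact hcard

end Final

end

end Fermat.Agent.CFT.H56
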