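/-
CFT / layer C, analytic second inequality (helper56): lattice point counting with a power saving
error term for COSETS of a lattice (translated sets), uniform in the translation.
Built on the landed S14 files `H56_LipParam`, `H56_LatticeRate`, `H56_LatticeRate2`.
-/
import Mathlib
import Fermat.Agent.S14.H56_LatticeRate2

set_option autoImplicit false
set_option linter.unusedSectionVars false

noncomputable section

open scoped NNReal Pointwise
open MeasureTheory Module Bornology Submodule BoxIntegral BoxIntegral.unitPartition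

namespace Fermat.Agent.CFT.H56

open Fermat.Agent.S14.H56

section Pi

variable {ι : Type*} [Fintype ι]

theorem frontier_image_add_right (v : ι → ℝ) (A : Set (ι → ℝ)) :
    frontier ((fun x => x + v) '' A) = (fun x => x + v) '' frontier A :=
  ((Homeomorph.addRight v).image_frontier A).symm

/-- the boundary cubes of a translate of `t • s` -/
theorem ncard_bad_le_translate {s : Set (ι → ℝ)}
    {J : Type} [Fintype J] {κ : J → Type} [∀ j, Fintype (κ j)] {K : ℝ≥0}
    {Φ : ∀ j, (κ j → ℝ) → (ι → ℝ)} {d' : ℕ}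
    (h1 : ∀ j, Fintype.card (κ j) ≤ d') (h2 : ∀ j, LipschitzOnWith K (Φ j) (Set.Icc 0 1))
    (h3 : frontier s ⊆ ⋃ j, Φ j '' Set.Icc 0 1) {t : ℝ} (ht : 1 ≤ t) (v : ι → ℝ) :
    (meetIdx ((fun x => x + v) '' (t • s)) \ inIdx ((fun x => x + v) '' (t • s))).ncard ≤
      Fintype.card J * ⌈t⌉₊ ^ d' * (2 * (⌈(K : ℝ)⌉.toNat + 1) + 1) ^ Fintype.card ι := by
  classical
  have ht0 : 0 < t := lt_of_lt_of_le one_pos ht
  set N := ⌈t⌉₊ with hNdef
  have hN : 0 < N := Nat.ceil_pos.mpr ht0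
  have hN' : (0 : ℝ) < N := by exact_mod_cast hN
  have htN : t ≤ N := Nat.le_ceil t
  let p : (Σ j, κ j → Fin N) → (ι → ℝ) := fun q => t • Φ q.1 (gridPt N q.2) + v
  let G : (Σ j, κ j → Fin N) → Finset (ι → ℤ) := fun q =>
    Fintype.piFinset fun i : ι =>
      Finset.Icc (⌊p q i⌋ - (⌈(K : ℝ)⌉ + 1)) (⌊p q i⌋ + (⌈(K : ℝ)⌉ + 1))
  have hsub : meetIdx ((fun x => x + v) '' (t • s)) \ inIdx ((fun x => x + v) '' (t • s)) ⊆
      ((Finset.univ : Finset (Σ j, κ j → Fin N)).biUnion G : Set (ι → ℤ)) := by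
    intro ν hν
    obtain ⟨z, hzν, hzfr⟩ := inter_frontier_nonempty_of_mem_diff hν
    rw [frontier_image_add_right, frontier_smul_set ht0.ne'] at hzfr
    obtain ⟨z₁, ⟨z', hz', rfl⟩, rfl⟩ := hzfr
    obtain ⟨j, u, hu, rfl⟩ := Set.mem_iUnion.mp (h3 hz')
    obtain ⟨g, hg⟩ := exists_gridPt_near hN hu
    have hdist : dist (t • Φ j u + v) (p ⟨j, g⟩) ≤ (K : ℝ) := by
      simp only [p]
      rw [dist_add_right, dist_smul₀, Real.norm_of_nonneg ht0.le]
      have hL := (h2 j).dist_le_mul u hu (gridPt N g) (gridPt_mem_Icc g)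
      calc t * dist (Φ j u) (Φ j (gridPt N g)) ≤ t * (K * (1 / N)) := by
            gcongr
            exact hL.trans (by gcongr)
        _ = K * (t / N) := by ring
        _ ≤ K * 1 := by
            gcongr
            rw [div_le_one hN']
            exact htN
        _ = K := mul_one _
    rw [Finset.mem_coe, Finset.mem_biUnion]
    exact ⟨⟨j, g⟩, Finset.mem_univ _, nearIdx_subset _ _ ν _ hzν hdist⟩
  calc (meetIdx ((fun x => x + v) '' (t • s)) \ inIdx ((fun x => x + v) '' (t • s))).ncard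
      ≤ ((Finset.univ : Finset (Σ j, κ j → Fin N)).biUnion G : Set (ι → ℤ)).ncard :=
        Set.ncard_le_ncard hsub (Finset.finite_toSet _)
    _ = ((Finset.univ : Finset (Σ j, κ j → Fin N)).biUnion G).card := Set.ncard_coe_finset _
    _ ≤ ∑ q ∈ (Finset.univ : Finset (Σ j, κ j → Fin N)), (G q).card := Finset.card_biUnion_le
    _ = ∑ _q ∈ (Finset.univ : Finset (Σ j, κ j → Fin N)),
          (2 * (⌈(K : ℝ)⌉.toNat + 1) + 1) ^ Fintype.card ι := by
        refine Finset.sum_congr rfl fun q _ => ?_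
        exact card_nearIdx (p q) K K.coe_nonneg
    _ = Fintype.card (Σ j, κ j → Fin N) * (2 * (⌈(K : ℝ)⌉.toNat + 1) + 1) ^ Fintype.card ι := by
        rw [Finset.sum_const, Finset.card_univ, smul_eq_mul]
    _ ≤ Fintype.card J * N ^ d' * (2 * (⌈(K : ℝ)⌉.toNat + 1) + 1) ^ Fintype.card ι := by
        gcongr
        rw [Fintype.card_sigma]
        calc ∑ j, Fintype.card (κ j → Fin N) ≤ ∑ _j : J, N ^ d' := by
              refine Finset.sum_le_sum fun j _ => ?_
              rw [Fintype.card_fun, Fintype.card_fin]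
              exact Nat.pow_le_pow_right hN (h1 j)
          _ = Fintype.card J * N ^ d' := by
              rw [Finset.sum_const, Finset.card_univ, smul_eq_mul]

theorem volume_real_image_add_right (v : ι → ℝ) (A : Set (ι → ℝ)) :
    volume.real ((fun x => x + v) '' A) = volume.real A := by
  rw [Set.image_add_right, measureReal_def, measureReal_def, measure_preimage_add_right]

/-- **Lattice point counting with error term for translated sets**, uniform in the translation. -/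
theorem pi_card_sub_le_translate {s : Set (ι → ℝ)} (hs : IsBounded s)
    (hfr : IsLipParam (Fintype.card ι - 1) (frontier s)) :
    ∃ C : ℝ, 0 ≤ C ∧ ∀ t : ℝ, 1 ≤ t → ∀ v : ι → ℝ,
      |(Nat.card ↑((fun x => x + v) '' (t • s) ∩
          (span ℤ (Set.range (Pi.basisFun ℝ ι)) : Set (ι → ℝ))) : ℝ) -
        t ^ Fintype.card ι * volume.real s| ≤ C * t ^ (Fintype.card ι - 1) := by
  obtain ⟨J, iJ, κ, iκ, K, Φ, h1, h2, h3⟩ := hfr
  refine ⟨Fintype.card J * 2 ^ (Fintype.card ι - 1) *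
      (2 * (⌈(K : ℝ)⌉.toNat + 1) + 1) ^ Fintype.card ι, by positivity, fun t ht v => ?_⟩
  have ht0 : 0 < t := lt_of_lt_of_le one_pos ht
  have hbd : IsBounded ((fun x => x + v) '' (t • s)) :=
    (IsometryEquiv.addRight v).isometry.lipschitz.isBounded_image (hs.smul₀ t)
  rw [card_inter_span_eq, ← volume_real_smul_set t ht0.le, ← volume_real_image_add_right v]
  refine (abs_ncard_tagIdx_sub_volume_le hbd).trans ?_
  have hb := ncard_bad_le_translate h1 h2 h3 ht v
  have hb' : ((meetIdx ((fun x => x + v) '' (t • s)) \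
      inIdx ((fun x => x + v) '' (t • s))).ncard : ℝ) ≤
      Fintype.card J * (⌈t⌉₊ : ℝ) ^ (Fintype.card ι - 1) *
        (2 * (⌈(K : ℝ)⌉.toNat + 1) + 1) ^ Fintype.card ι := by
    exact_mod_cast hb
  refine hb'.trans ?_
  have hceil : (⌈t⌉₊ : ℝ) ≤ 2 * t := by
    have := Nat.ceil_lt_add_one ht0.le
    linarith
  calc (Fintype.card J : ℝ) * (⌈t⌉₊ : ℝ) ^ (Fintype.card ι - 1) *
        (2 * (⌈(K : ℝ)⌉.toNat + 1) + 1) ^ Fintype.card ι
      ≤ Fintype.card J * (2 * t) ^ (Fintype.card ι - 1) *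
        (2 * (⌈(K : ℝ)⌉.toNat + 1) + 1) ^ Fintype.card ι := by gcongr
    _ = Fintype.card J * 2 ^ (Fintype.card ι - 1) *
        (2 * (⌈(K : ℝ)⌉.toNat + 1) + 1) ^ Fintype.card ι * t ^ (Fintype.card ι - 1) := by
        rw [mul_pow]; ring

end Pi

section General

variable {E : Type*} [NormedAddCommGroup E] [NormedSpace ℝ E] [FiniteDimensional ℝ E]
variable {L : Submodule ℤ E} [DiscreteTopology L] [IsZLattice ℝ L]
variable {ι : Type*} [Fintype ι] (b : Basis ι ℤ L)

theorem card_smul_inter_coset (D : Set E) (t : ℝ) (w : E) :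
    Nat.card {x : E // x ∈ t • D ∧ x - w ∈ L} =
      Nat.card ↑((fun y => y + (-((b.ofZLatticeBasis ℝ L).equivFun w))) ''
          (t • ((b.ofZLatticeBasis ℝ L).equivFun '' D)) ∩
        (span ℤ (Set.range (Pi.basisFun ℝ ι)) : Set (ι → ℝ))) := by
  set e := (b.ofZLatticeBasis ℝ L).equivFun with he
  let f : E ≃ (ι → ℝ) := e.toEquiv.trans (Equiv.addRight (-(e w)))
  refine Nat.card_congr (f.subtypeEquiv fun x => ?_)
  have hf : f x = e x + -(e w) := rfl
  rw [hf, Set.mem_inter_iff, SetLike.mem_coe]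
  have h1 : e x + -(e w) = e (x - w) := by rw [map_sub, sub_eq_add_neg]
  constructor
  · rintro ⟨hx, hL⟩
    refine ⟨⟨e x, ?_, rfl⟩, ?_⟩
    · rw [← image_smul_set]
      exact ⟨x, hx, rfl⟩
    · rw [h1, ← mem_lattice_iff_equivFun_mem b]
      exact hL
  · rintro ⟨⟨y, hy, hyx⟩, hL⟩
    have hy' : y = e x := add_right_cancel hyx
    subst hy'
    rw [← image_smul_set, e.injective.mem_set_image] at hy
    refine ⟨hy, ?_⟩
    rw [h1, ← mem_lattice_iff_equivFun_mem b] at hL
    exact hL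

variable [MeasurableSpace E] [BorelSpace E]

/-- Rate form of the cone counting theorem for cosets `w + L`, uniform in `w`. -/
theorem card_coset_le_sub_le'' [Nonempty ι] {X : Set E}
    (hX : ∀ ⦃x⦄ ⦃r : ℝ⦄, x ∈ X → 0 < r → r • x ∈ X)
    {F : E → ℝ} (h₁ : ∀ x ⦃r : ℝ⦄, 0 ≤ r → F (r • x) = r ^ Fintype.card ι * (F x))
    (h₂ : IsBounded {x ∈ X | F x ≤ 1})
    (h₄ : IsLipParam (Fintype.card ι - 1) (frontier {x ∈ X | F x ≤ 1})) :
    ∃ C : ℝ, 0 ≤ C ∧ ∀ c : ℝ, 1 ≤ c → ∀ w : E,
      |(Nat.card {x : E // x ∈ {x ∈ X | F x ≤ c} ∧ x - w ∈ L} : ℝ) -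
        c * volume.real ((b.ofZLatticeBasis ℝ L).equivFun '' {x ∈ X | F x ≤ 1})| ≤
          C * c ^ (1 - 1 / (Fintype.card ι : ℝ)) := by
  set D := {x ∈ X | F x ≤ 1} with hD
  set e := (b.ofZLatticeBasis ℝ L).equivFunL with he
  have hee : ∀ S : Set E, (b.ofZLatticeBasis ℝ L).equivFun '' S = e '' S := fun S => rfl
  have hbd : IsBounded (e '' D) := by
    rw [← NormedSpace.isVonNBounded_iff ℝ] at h₂ ⊢
    exact Bornology.IsVonNBounded.image h₂ (e : E →L[ℝ] ι → ℝ)
  have hfr : frontier (e '' D) = e '' frontier D :=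
    (e.toHomeomorph.image_frontier D).symm
  have hlip : IsLipParam (Fintype.card ι - 1) (frontier (e '' D)) := by
    rw [hfr]
    exact IsLipParam.image (e : E →L[ℝ] ι → ℝ).lipschitz h₄
  obtain ⟨C, hC0, hC⟩ := pi_card_sub_le_translate hbd hlip
  refine ⟨C, hC0, fun c hc w => ?_⟩
  have hc0 : 0 < c := lt_of_lt_of_le one_pos hc
  have hd : (Fintype.card ι : ℝ) ≠ 0 := Nat.cast_ne_zero.mpr Fintype.card_ne_zero
  have hd1 : 1 ≤ Fintype.card ι := Fintype.card_pos
  set t := c ^ (Fintype.card ι : ℝ)⁻¹ with ht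
  have ht0 : 0 < t := Real.rpow_pos_of_pos hc0 _
  have ht1 : 1 ≤ t := Real.one_le_rpow hc (by positivity)
  have htpow : t ^ Fintype.card ι = c := by
    rw [ht, ← Real.rpow_natCast, Real.rpow_inv_rpow hc0.le hd]
  have hset : {x ∈ X | F x ≤ c} = t • D := by
    rw [hD, cone_eq_smul hX h₁ ht0, htpow]
  have hpow' : t ^ (Fintype.card ι - 1) = c ^ (1 - 1 / (Fintype.card ι : ℝ)) := by
    rw [ht, ← Real.rpow_natCast, ← Real.rpow_mul hc0.le, Nat.cast_sub hd1, Nat.cast_one]
    congr 1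
    field_simp
  have := hC t ht1 (-((b.ofZLatticeBasis ℝ L).equivFun w))
  rw [htpow, hpow'] at this
  rw [hset, card_smul_inter_coset b D t w, hee]
  exact this

end General

section InnerProductSpace

variable {E : Type*} [NormedAddCommGroup E] [InnerProductSpace ℝ E] [FiniteDimensional ℝ E]
  [MeasurableSpace E] [BorelSpace E]
variable (L : Submodule ℤ E) [DiscreteTopology L] [IsZLattice ℝ L]

/-- **Counting the points of a coset `w + L` in a cone** with a power saving error term, uniform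
in `w`. -/
theorem card_coset_le_sub_le [Nontrivial E] {X : Set E} {F : E → ℝ}
    (hX : ∀ ⦃x⦄ ⦃r : ℝ⦄, x ∈ X → 0 < r → r • x ∈ X)
    (h₁ : ∀ x ⦃r : ℝ⦄, 0 ≤ r → F (r • x) = r ^ finrank ℝ E * (F x))
    (h₂ : IsBounded {x ∈ X | F x ≤ 1}) (h₃ : MeasurableSet {x ∈ X | F x ≤ 1})
    (h₄ : IsLipParam (finrank ℝ E - 1) (frontier {x ∈ X | F x ≤ 1})) :
    ∃ C : ℝ, 0 ≤ C ∧ ∀ c : ℝ, 1 ≤ c → ∀ w : E,
      |(Nat.card {x : E // x ∈ {x ∈ X | F x ≤ c} ∧ x - w ∈ L} : ℝ) -
        c * (volume.real {x ∈ X | F x ≤ 1} / ZLattice.covolume L)| ≤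
          C * c ^ (1 - 1 / (finrank ℝ E : ℝ)) := by
  let b := Module.Free.chooseBasis ℤ L
  have hcard : Fintype.card (Module.Free.ChooseBasisIndex ℤ L) = finrank ℝ E := by
    rw [← finrank_eq_card_chooseBasisIndex, ZLattice.rank ℝ L]
  have : Nontrivial L := nontrivial_of_finrank_pos <| (ZLattice.rank ℝ L).symm ▸ finrank_pos
  have hne : Nonempty (Module.Free.ChooseBasisIndex ℤ L) := inferInstance
  have hvol : volume.real ((b.ofZLatticeBasis ℝ L).equivFun '' {x ∈ X | F x ≤ 1}) =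
      volume.real {x ∈ X | F x ≤ 1} / ZLattice.covolume L := by
    simp only [measureReal_def]
    rw [ZLattice.volume_image_eq_volume_div_covolume' L b h₃.nullMeasurableSet,
      ENNReal.toReal_div, ENNReal.toReal_ofReal (ZLattice.covolume_pos L volume).le]
  have := card_coset_le_sub_le'' (L := L) b hX (F := F) (by rwa [hcard]) h₂ (by rwa [hcard])
  rwa [hcard, hvol] at this

end InnerProductSpace

end Fermat.Agent.CFT.H56
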