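/-
CFT / layer C, analytic second inequality (helper56): the ray class group of a number field modulo
a natural number `n ≠ 0` (no conditions at the infinite places), ideal-theoretic definition.
-/
import Mathlib

set_option autoImplicit false

open NumberField Ideal
open scoped nonZeroDivisors

namespace Fermat.Agent.CFT.H56

noncomputable section

variable (K : Type*) [Field K] [NumberField K] (n : ℕ)

/-- the nonzero ideals of `𝓞 K` prime to `n` -/
def coprimeSubmonoid : Submonoid (Ideal (𝓞 K))⁰ where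
  carrier := {I | IsCoprime (I : Ideal (𝓞 K)) (span {(n : 𝓞 K)})}
  one_mem' := isCoprime_one_left
  mul_mem' := fun {I J} hI hJ => by
    change IsCoprime ((I : Ideal (𝓞 K)) * (J : Ideal (𝓞 K))) _
    exact IsCoprime.mul_left hI hJ

variable {K n}

theorem mem_coprimeSubmonoid {I : (Ideal (𝓞 K))⁰} :
    I ∈ coprimeSubmonoid K n ↔ IsCoprime (I : Ideal (𝓞 K)) (span {(n : 𝓞 K)}) := Iff.rfl

theorem mul_mem_coprimeSubmonoid_iff {I J : (Ideal (𝓞 K))⁰} :
    I * J ∈ coprimeSubmonoid K n ↔ I ∈ coprimeSubmonoid K n ∧ J ∈ coprimeSubmonoid K n := by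
  simp only [mem_coprimeSubmonoid, Submonoid.coe_mul]
  exact IsCoprime.mul_left_iff

variable (K n)

/-- ray equivalence modulo `n` of ideals prime to `n` -/
def rayRel (I J : coprimeSubmonoid K n) : Prop :=
  ∃ a b : 𝓞 K, a ≠ 0 ∧ b ≠ 0 ∧ IsCoprime a (n : 𝓞 K) ∧ IsCoprime b (n : 𝓞 K) ∧
    (n : 𝓞 K) ∣ a - b ∧
    span {a} * ((I : (Ideal (𝓞 K))⁰) : Ideal (𝓞 K)) = span {b} * ((J : (Ideal (𝓞 K))⁰) : Ideal (𝓞 K))

variable {K n}

theorem rayRel_refl (I : coprimeSubmonoid K n) : rayRel K n I I :=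
  ⟨1, 1, one_ne_zero, one_ne_zero, isCoprime_one_left, isCoprime_one_left, by simp, rfl⟩

theorem rayRel_symm {I J : coprimeSubmonoid K n} (h : rayRel K n I J) : rayRel K n J I := by
  obtain ⟨a, b, ha, hb, hca, hcb, hdvd, heq⟩ := h
  exact ⟨b, a, hb, ha, hcb, hca, by rw [← neg_sub]; exact (dvd_neg.mpr hdvd), heq.symm⟩

theorem rayRel_trans {I J L : coprimeSubmonoid K n} (h1 : rayRel K n I J) (h2 : rayRel K n J L) :
    rayRel K n I L := by
  obtain ⟨a, b, ha, hb, hca, hcb, hdvd, heq⟩ := h1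
  obtain ⟨c, d, hc, hd, hcc, hcd, hdvd', heq'⟩ := h2
  refine ⟨a * c, b * d, mul_ne_zero ha hc, mul_ne_zero hb hd, hca.mul_left hcc, hcb.mul_left hcd,
    ?_, ?_⟩
  · have : a * c - b * d = c * (a - b) + b * (c - d) := by ring
    rw [this]
    exact dvd_add (Dvd.dvd.mul_left hdvd _) (Dvd.dvd.mul_left hdvd' _)
  · calc span {a * c} * ((I : (Ideal (𝓞 K))⁰) : Ideal (𝓞 K))
        = span {c} * (span {a} * ((I : (Ideal (𝓞 K))⁰) : Ideal (𝓞 K))) := by
          rw [← Ideal.span_singleton_mul_span_singleton, mul_comm (span {a}), mul_assoc]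
      _ = span {b} * (span {c} * ((J : (Ideal (𝓞 K))⁰) : Ideal (𝓞 K))) := by
          rw [heq, ← mul_assoc, mul_comm (span {c}), mul_assoc]
      _ = span {b * d} * ((L : (Ideal (𝓞 K))⁰) : Ideal (𝓞 K)) := by
          rw [heq', ← mul_assoc, Ideal.span_singleton_mul_span_singleton]

theorem rayRel_mul {I J I' J' : coprimeSubmonoid K n} (h1 : rayRel K n I J)
    (h2 : rayRel K n I' J') : rayRel K n (I * I') (J * J') := by
  obtain ⟨a, b, ha, hb, hca, hcb, hdvd, heq⟩ := h1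
  obtain ⟨c, d, hc, hd, hcc, hcd, hdvd', heq'⟩ := h2
  refine ⟨a * c, b * d, mul_ne_zero ha hc, mul_ne_zero hb hd, hca.mul_left hcc, hcb.mul_left hcd,
    ?_, ?_⟩
  · have : a * c - b * d = c * (a - b) + b * (c - d) := by ring
    rw [this]
    exact dvd_add (Dvd.dvd.mul_left hdvd _) (Dvd.dvd.mul_left hdvd' _)
  · simp only [Submonoid.coe_mul]
    calc span {a * c} * (((I : (Ideal (𝓞 K))⁰) : Ideal (𝓞 K)) * ((I' : (Ideal (𝓞 K))⁰) : Ideal (𝓞 K)))
        = (span {a} * ((I : (Ideal (𝓞 K))⁰) : Ideal (𝓞 K))) *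
            (span {c} * ((I' : (Ideal (𝓞 K))⁰) : Ideal (𝓞 K))) := by
          rw [← Ideal.span_singleton_mul_span_singleton]; ring
      _ = (span {b} * ((J : (Ideal (𝓞 K))⁰) : Ideal (𝓞 K))) *
            (span {d} * ((J' : (Ideal (𝓞 K))⁰) : Ideal (𝓞 K))) := by rw [heq, heq']
      _ = _ := by rw [← Ideal.span_singleton_mul_span_singleton]; ring

variable (K n)

/-- the ray congruence -/
def rayCon : Con (coprimeSubmonoid K n) where
  r := rayRel K n
  iseqv := ⟨rayRel_refl, rayRel_symm, rayRel_trans⟩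
  mul' := rayRel_mul

/-- **The ray class group modulo `n`** (as a commutative monoid; it is a finite group for
`n ≠ 0`, see below). -/
def RayClassGroup : Type _ := (rayCon K n).Quotient

instance : CommMonoid (RayClassGroup K n) := inferInstanceAs (CommMonoid (rayCon K n).Quotient)

/-- the class of an ideal prime to `n` -/
def rayMk : coprimeSubmonoid K n →* RayClassGroup K n := (rayCon K n).mk'

variable {K n}

theorem rayMk_surjective : Function.Surjective (rayMk K n) := Con.mk'_surjective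

theorem rayMk_eq_iff {I J : coprimeSubmonoid K n} : rayMk K n I = rayMk K n J ↔ rayRel K n I J :=
  (rayCon K n).eq

/-! ### Group structure and finiteness -/

section Group

variable (K n) [NeZero n]

theorem span_natCast_ne_bot : span {(n : 𝓞 K)} ≠ ⊥ := by
  rw [Ne, Ideal.span_singleton_eq_bot, Nat.cast_eq_zero]
  exact NeZero.ne n

instance finite_quotient_span_natCast : Finite ((𝓞 K) ⧸ span {(n : 𝓞 K)}) :=
  Ideal.finiteQuotientOfFreeOfNeBot _ (span_natCast_ne_bot K n)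

/-- an exponent of the ray class group -/
def rayExp : ℕ := Fintype.card (ClassGroup (𝓞 K)) * Nat.card ((𝓞 K) ⧸ span {(n : 𝓞 K)})ˣ

theorem rayExp_pos : 0 < rayExp K n :=
  Nat.mul_pos Fintype.card_pos Nat.card_pos

variable {K n}

/-- an element prime to `n` becomes `1` modulo `n` after raising to the order of the unit group -/
theorem dvd_pow_card_sub_one {α : 𝓞 K} (hα : IsCoprime α (n : 𝓞 K)) :
    (n : 𝓞 K) ∣ α ^ Nat.card ((𝓞 K) ⧸ span {(n : 𝓞 K)})ˣ - 1 := by
  obtain ⟨u, v, huv⟩ := hα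
  have h1 : Ideal.Quotient.mk (span {(n : 𝓞 K)}) u * Ideal.Quotient.mk (span {(n : 𝓞 K)}) α = 1 := by
    have h0 : Ideal.Quotient.mk (span {(n : 𝓞 K)}) (n : 𝓞 K) = 0 :=
      Ideal.Quotient.eq_zero_iff_mem.mpr (Ideal.mem_span_singleton_self _)
    have := congrArg (Ideal.Quotient.mk (span {(n : 𝓞 K)})) huv
    rw [map_add, map_mul, map_mul, h0, mul_zero, add_zero, map_one] at this
    exact this
  have hu : IsUnit (Ideal.Quotient.mk (span {(n : 𝓞 K)}) α) := .of_mul_eq_one_right _ h1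
  have h2 : hu.unit ^ Nat.card ((𝓞 K) ⧸ span {(n : 𝓞 K)})ˣ = 1 := pow_card_eq_one'
  have h3 := congrArg Units.val h2
  rw [Units.val_pow_eq_pow_val, IsUnit.unit_spec, Units.val_one, ← map_pow] at h3
  rw [← Ideal.mem_span_singleton, ← Ideal.Quotient.eq_zero_iff_mem, map_sub, h3, map_one, sub_self]

theorem pow_rayExp (x : RayClassGroup K n) : x ^ rayExp K n = 1 := by
  obtain ⟨I, rfl⟩ := rayMk_surjective x
  rw [← map_pow, ← map_one (rayMk K n), rayMk_eq_iff]
  set h := Fintype.card (ClassGroup (𝓞 K)) with hh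
  set φ := Nat.card ((𝓞 K) ⧸ span {(n : 𝓞 K)})ˣ with hφ
  have hmem : (((I : (Ideal (𝓞 K))⁰) : Ideal (𝓞 K))) ^ h ∈ (Ideal (𝓞 K))⁰ :=
    pow_mem (I : (Ideal (𝓞 K))⁰).2 h
  have h1 : ClassGroup.mk0 ⟨_, hmem⟩ = 1 := by
    have : (⟨_, hmem⟩ : (Ideal (𝓞 K))⁰) = (I : (Ideal (𝓞 K))⁰) ^ h := Subtype.ext (by simp)
    rw [this, map_pow, pow_card_eq_one]
  obtain ⟨α, hα⟩ : ∃ α : 𝓞 K, (((I : (Ideal (𝓞 K))⁰) : Ideal (𝓞 K))) ^ h = span {α} := by
    have := (ClassGroup.mk0_eq_one_iff hmem).mp h1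
    obtain ⟨α, hα⟩ := this.principal
    exact ⟨α, hα⟩
  have hα0 : α ≠ 0 := by
    rintro rfl
    have h0 : (((I : (Ideal (𝓞 K))⁰) : Ideal (𝓞 K))) ^ h = ⊥ := by rw [hα]; simp
    have : (((I : (Ideal (𝓞 K))⁰) : Ideal (𝓞 K))) ≠ ⊥ :=
      mem_nonZeroDivisors_iff_ne_zero.mp (I : (Ideal (𝓞 K))⁰).2
    exact this (pow_eq_zero_iff (Fintype.card_ne_zero) |>.mp h0)
  have hcop : IsCoprime α (n : 𝓞 K) := by
    rw [← Ideal.isCoprime_span_singleton_iff, ← hα]
    exact IsCoprime.pow_left I.2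
  have hdvd := dvd_pow_card_sub_one hcop
  refine ⟨1, α ^ φ, one_ne_zero, pow_ne_zero _ hα0, isCoprime_one_left, hcop.pow_left, ?_, ?_⟩
  · rw [← neg_sub]; exact dvd_neg.mpr hdvd
  · simp only [rayExp, SubmonoidClass.coe_pow, OneMemClass.coe_one, ← hh, ← hφ]
    rw [pow_mul, hα, Ideal.span_singleton_pow, Ideal.span_singleton_one, Ideal.one_eq_top,
      Ideal.top_mul, Ideal.mul_top]

variable (K n)

instance : CommGroup (RayClassGroup K n) :=
  { (inferInstance : CommMonoid (RayClassGroup K n)) with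
    inv := fun x => x ^ (rayExp K n - 1)
    inv_mul_cancel := fun x => by
      rw [← pow_succ, Nat.sub_add_cancel (rayExp_pos K n), pow_rayExp] }

/-- the map to the ideal class group -/
def rayToClass : RayClassGroup K n →* ClassGroup (𝓞 K) :=
  (rayCon K n).lift (ClassGroup.mk0.comp (coprimeSubmonoid K n).subtype) (by
    rintro I J ⟨a, b, ha, hb, -, -, -, heq⟩
    exact ClassGroup.mk0_eq_mk0_iff.mpr ⟨a, b, ha, hb, heq⟩)

variable {K n}

theorem rayToClass_rayMk (I : coprimeSubmonoid K n) :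
    rayToClass K n (rayMk K n I) = ClassGroup.mk0 (I : (Ideal (𝓞 K))⁰) := rfl

/-- two generators congruent modulo `n` give the same ray class -/
theorem rayMk_span_eq_of_dvd_sub {α β : 𝓞 K} (hα0 : α ≠ 0) (hβ0 : β ≠ 0)
    (hα : IsCoprime α (n : 𝓞 K)) (hβ : IsCoprime β (n : 𝓞 K)) (h : (n : 𝓞 K) ∣ α - β)
    (hαm : (⟨span {α}, mem_nonZeroDivisors_iff_ne_zero.mpr
      (by rwa [Ne, Ideal.zero_eq_bot, Ideal.span_singleton_eq_bot])⟩ : (Ideal (𝓞 K))⁰) ∈
        coprimeSubmonoid K n)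
    (hβm : (⟨span {β}, mem_nonZeroDivisors_iff_ne_zero.mpr
      (by rwa [Ne, Ideal.zero_eq_bot, Ideal.span_singleton_eq_bot])⟩ : (Ideal (𝓞 K))⁰) ∈
        coprimeSubmonoid K n) :
    rayMk K n ⟨_, hαm⟩ = rayMk K n ⟨_, hβm⟩ := by
  rw [rayMk_eq_iff]
  refine ⟨β, α, hβ0, hα0, hβ, hα, ?_, ?_⟩
  · rw [← neg_sub]; exact dvd_neg.mpr h
  · exact mul_comm _ _

variable (K n)

instance : Finite (RayClassGroup K n) := by
  classical
  -- the kernel of the map to the class group is covered by the residues modulo `n`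
  let ρ : ((𝓞 K) ⧸ span {(n : 𝓞 K)}) → RayClassGroup K n := fun r =>
    if h : ∃ α : 𝓞 K, α ≠ 0 ∧ IsCoprime α (n : 𝓞 K) ∧ Ideal.Quotient.mk _ α = r then
      rayMk K n ⟨⟨span {h.choose}, mem_nonZeroDivisors_iff_ne_zero.mpr (by
        rw [Ne, Ideal.zero_eq_bot, Ideal.span_singleton_eq_bot]; exact h.choose_spec.1)⟩, by
        rw [mem_coprimeSubmonoid, Ideal.isCoprime_span_singleton_iff]
        exact h.choose_spec.2.1⟩
    else 1
  have hker : ((rayToClass K n).ker : Set (RayClassGroup K n)) ⊆ Set.range ρ := by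
    intro x hx
    obtain ⟨I, rfl⟩ := rayMk_surjective x
    rw [SetLike.mem_coe, MonoidHom.mem_ker, rayToClass_rayMk] at hx
    obtain ⟨α, hα⟩ := ((ClassGroup.mk0_eq_one_iff (SetLike.coe_mem _)).mp hx).principal
    have hα' : ((I : (Ideal (𝓞 K))⁰) : Ideal (𝓞 K)) = span {α} := hα
    have hα0 : α ≠ 0 := by
      rintro rfl
      have : ((I : (Ideal (𝓞 K))⁰) : Ideal (𝓞 K)) ≠ ⊥ :=
        mem_nonZeroDivisors_iff_ne_zero.mp (I : (Ideal (𝓞 K))⁰).2
      exact this (by rw [hα']; simp)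
    have hcop : IsCoprime α (n : 𝓞 K) := by
      rw [← Ideal.isCoprime_span_singleton_iff, ← hα']
      exact I.2
    have hex : ∃ β : 𝓞 K, β ≠ 0 ∧ IsCoprime β (n : 𝓞 K) ∧
        Ideal.Quotient.mk (span {(n : 𝓞 K)}) β = Ideal.Quotient.mk _ α := ⟨α, hα0, hcop, rfl⟩
    refine ⟨Ideal.Quotient.mk _ α, ?_⟩
    simp only [ρ, dif_pos hex]
    have hdvd : (n : 𝓞 K) ∣ hex.choose - α := by
      rw [← Ideal.mem_span_singleton, ← Ideal.Quotient.eq]
      exact hex.choose_spec.2.2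
    have hI : I = ⟨⟨span {α}, mem_nonZeroDivisors_iff_ne_zero.mpr (by
        rw [Ne, Ideal.zero_eq_bot, Ideal.span_singleton_eq_bot]; exact hα0)⟩, by
        rw [mem_coprimeSubmonoid, Ideal.isCoprime_span_singleton_iff]; exact hcop⟩ := by
      apply Subtype.ext
      apply Subtype.ext
      exact hα'
    rw [hI]
    exact rayMk_span_eq_of_dvd_sub hex.choose_spec.1 hα0 hex.choose_spec.2.1 hcop hdvd _ _
  have hfin : Finite (rayToClass K n).ker :=
    Set.Finite.subset (Set.finite_range ρ) hker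
  have hq : Finite (RayClassGroup K n ⧸ (rayToClass K n).ker) :=
    Finite.of_equiv _ (QuotientGroup.quotientKerEquivRange (rayToClass K n)).symm.toEquiv
  exact Finite.of_subgroup_quotient (rayToClass K n).ker

end Group

/-! ### The class map on all nonzero ideals -/

section ClassMap

variable (K n)

open scoped Classical in
/-- **The ray class map**: the ray class of `I` if `I` is prime to `n`, and `0` otherwise. -/
def rayCl : (Ideal (𝓞 K))⁰ →* WithZero (RayClassGroup K n) where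
  toFun I := if h : I ∈ coprimeSubmonoid K n then ((rayMk K n ⟨I, h⟩ : RayClassGroup K n) :
    WithZero (RayClassGroup K n)) else 0
  map_one' := by
    rw [dif_pos (one_mem _)]
    rfl
  map_mul' I J := by
    by_cases hI : I ∈ coprimeSubmonoid K n
    · by_cases hJ : J ∈ coprimeSubmonoid K n
      · rw [dif_pos hI, dif_pos hJ, dif_pos (mul_mem hI hJ), ← WithZero.coe_mul, ← map_mul]
        rfl
      · rw [dif_neg hJ, dif_neg (fun h => hJ (mul_mem_coprimeSubmonoid_iff.mp h).2), mul_zero]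
    · rw [dif_neg hI, dif_neg (fun h => hI (mul_mem_coprimeSubmonoid_iff.mp h).1), zero_mul]

variable {K n}

theorem rayCl_of_mem {I : (Ideal (𝓞 K))⁰} (h : I ∈ coprimeSubmonoid K n) :
    rayCl K n I = ((rayMk K n ⟨I, h⟩ : RayClassGroup K n) : WithZero (RayClassGroup K n)) := by
  simp [rayCl, h]

theorem rayCl_eq_zero_iff {I : (Ideal (𝓞 K))⁰} : rayCl K n I = 0 ↔ I ∉ coprimeSubmonoid K n := by
  constructor
  · intro h hI
    rw [rayCl_of_mem hI] at h
    exact WithZero.coe_ne_zero h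
  · intro h
    simp [rayCl, h]

theorem rayCl_eq_coe_iff {I : (Ideal (𝓞 K))⁰} {g : RayClassGroup K n} :
    rayCl K n I = (g : WithZero (RayClassGroup K n)) ↔
      ∃ h : I ∈ coprimeSubmonoid K n, rayMk K n ⟨I, h⟩ = g := by
  constructor
  · intro h
    have hI : I ∈ coprimeSubmonoid K n := by
      by_contra hI
      rw [rayCl_eq_zero_iff.mpr hI] at h
      exact WithZero.coe_ne_zero h.symm
    refine ⟨hI, ?_⟩
    rw [rayCl_of_mem hI] at h
    exact WithZero.coe_injective h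
  · rintro ⟨hI, rfl⟩
    exact rayCl_of_mem hI

end ClassMap

end

end Fermat.Agent.CFT.H56
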