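/-
CFT / layer C, analytic second inequality (helper56): number of integral ideals of norm `≤ x` in a
fixed ray class modulo `n`, with a power saving error term and a main term independent of the
class.
-/
import Mathlib
import Fermat.Agent.CFT.H56_RayClass
import Fermat.Agent.CFT.H56_CosetCount
import Fermat.Agent.S14.H56_IdealCount

set_option autoImplicit false
set_option linter.unusedSectionVars false

noncomputable section

open scoped NNReal Pointwise nonZeroDivisors Real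
open MeasureTheory Module Bornology Submodule Filter Topology Ideal
open NumberField NumberField.InfinitePlace NumberField.Units NumberField.mixedEmbedding
  NumberField.mixedEmbedding.euclidean NumberField.mixedEmbedding.fundamentalCone

namespace Fermat.Agent.CFT.H56

open Fermat.Agent.S14.H56

variable (K : Type*) [Field K] [NumberField K]

open scoped Classical

/-! ### Part A : points of a coset of an ideal lattice in the fundamental cone -/

/-- the points of the fundamental cone which are images of integers in the coset `β₀ + J` -/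
def cosetSet (J : (Ideal (𝓞 K))⁰) (β₀ : 𝓞 K) : Set (mixedSpace K) :=
  {a | a ∈ fundamentalCone K ∧
    ∃ β : 𝓞 K, β - β₀ ∈ (J : Ideal (𝓞 K)) ∧ mixedEmbedding K (β : K) = a}

variable {K}

theorem sub_mem_idealLattice_iff (J : (Ideal (𝓞 K))⁰) (β₀ : 𝓞 K) (y : mixedSpace K) :
    y - mixedEmbedding K (β₀ : K) ∈ idealLattice K (FractionalIdeal.mk0 K J) ↔
      ∃ β : 𝓞 K, β - β₀ ∈ (J : Ideal (𝓞 K)) ∧ mixedEmbedding K (β : K) = y := by
  simp_rw [mem_idealLattice, FractionalIdeal.coe_mk0]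
  constructor
  · rintro ⟨z, hz, h⟩
    obtain ⟨z', hz', rfl⟩ := (FractionalIdeal.mem_coeIdeal _).mp hz
    refine ⟨z' + β₀, by simpa using hz', ?_⟩
    have e : ((z' + β₀ : 𝓞 K) : K) = (z' : K) + (β₀ : K) := map_add (algebraMap (𝓞 K) K) z' β₀
    rw [e, map_add]
    have h' : mixedEmbedding K (z' : K) = y - mixedEmbedding K (β₀ : K) := h
    rw [h']
    abel
  · rintro ⟨β, hβ, rfl⟩
    refine ⟨((β - β₀ : 𝓞 K) : K), (FractionalIdeal.mem_coeIdeal _).mpr ⟨β - β₀, hβ, rfl⟩, ?_⟩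
    have e : ((β - β₀ : 𝓞 K) : K) = (β : K) - (β₀ : K) := map_sub (algebraMap (𝓞 K) K) β β₀
    rw [e, map_sub]

/-- the euclidean description of the coset set -/
def coneCosetEquiv (J : (Ideal (𝓞 K))⁰) (β₀ : 𝓞 K) (s : ℝ) :
    {x : euclidean.mixedSpace K //
      x ∈ {x | x ∈ (toMixed K) ⁻¹' fundamentalCone K ∧ mixedEmbedding.norm ((toMixed K) x) ≤ s} ∧
      x - (toMixed K).symm (mixedEmbedding K (β₀ : K)) ∈
        ZLattice.comap ℝ (idealLattice K ((FractionalIdeal.mk0 K) J)) (toMixed K).toLinearMap}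
      ≃ {a : cosetSet K J β₀ // mixedEmbedding.norm (a : mixedSpace K) ≤ s} := by
  refine ((toMixed K).toEquiv.subtypeEquiv (p := _) (q := fun y : mixedSpace K =>
    y ∈ cosetSet K J β₀ ∧ mixedEmbedding.norm y ≤ s) fun x => ?_).trans
    (Equiv.subtypeSubtypeEquivSubtypeInter _ (mixedEmbedding.norm · ≤ s)).symm
  have h1 : x - (toMixed K).symm (mixedEmbedding K (β₀ : K)) ∈
      ZLattice.comap ℝ (idealLattice K ((FractionalIdeal.mk0 K) J)) (toMixed K).toLinearMap ↔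
      toMixed K x - mixedEmbedding K (β₀ : K) ∈ idealLattice K (FractionalIdeal.mk0 K J) := by
    rw [← SetLike.mem_coe, ZLattice.coe_comap, Set.mem_preimage]
    simp
  rw [h1, sub_mem_idealLattice_iff]
  change _ ↔ (toMixed K x ∈ cosetSet K J β₀ ∧ mixedEmbedding.norm (toMixed K x) ≤ s)
  simp only [Set.mem_ofPred_eq, Set.mem_preimage, cosetSet]
  tauto

variable (K)

/-- the constant of the cone (volume of the normalised cone divided by the covolume of the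
ring of integers) -/
def coneConst : ℝ :=
  volume.real {x : euclidean.mixedSpace K | x ∈ toMixed K ⁻¹' fundamentalCone K ∧
      mixedEmbedding.norm (toMixed K x) ≤ 1} /
    ((2⁻¹ : ℝ) ^ nrComplexPlaces K * √|(discr K : ℝ)|)

theorem covolume_comap_idealLattice (J : (Ideal (𝓞 K))⁰) :
    ZLattice.covolume (ZLattice.comap ℝ (mixedEmbedding.idealLattice K (FractionalIdeal.mk0 K J))
      (toMixed K).toLinearMap) =
      (absNorm (J : Ideal (𝓞 K)) : ℝ) * ((2⁻¹ : ℝ) ^ nrComplexPlaces K * √|(discr K : ℝ)|) := by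
  rw [ZLattice.covolume_comap _ _ _ (volumePreserving_toMixed K), covolume_idealLattice,
    FractionalIdeal.coe_mk0, FractionalIdeal.coeIdeal_absNorm, Rat.cast_natCast, mul_assoc]

/-- **Counting the points of a coset of an ideal lattice in the fundamental cone**, with a power
saving error term, uniformly in the coset. -/
theorem exists_cone_coset_count (J : (Ideal (𝓞 K))⁰) :
    ∃ C : ℝ, 0 ≤ C ∧ ∀ c : ℝ, 1 ≤ c → ∀ β₀ : 𝓞 K,
      |(Nat.card {a : cosetSet K J β₀ // mixedEmbedding.norm (a : mixedSpace K) ≤ c} : ℝ) -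
          c * (coneConst K / (absNorm (J : Ideal (𝓞 K)) : ℝ))| ≤
        C * c ^ (1 - 1 / (finrank ℚ K : ℝ)) := by
  have h₁ : ∀ s : ℝ,
    {x | x ∈ toMixed K ⁻¹' fundamentalCone K ∧ mixedEmbedding.norm (toMixed K x) ≤ s} =
      toMixed K ⁻¹' {x | x ∈ fundamentalCone K ∧ mixedEmbedding.norm x ≤ s} := fun _ ↦ rfl
  have h₂ : {x | x ∈ fundamentalCone K ∧ mixedEmbedding.norm x ≤ 1} = normLeOne K := by ext; simp
  have hX : ∀ ⦃x : euclidean.mixedSpace K⦄ ⦃r : ℝ⦄, x ∈ toMixed K ⁻¹' fundamentalCone K → 0 < r →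
      r • x ∈ toMixed K ⁻¹' fundamentalCone K := fun x r hx hr => by
    rwa [Set.mem_preimage, map_smul, smul_mem_iff_mem hr.ne']
  have hF : ∀ (x : euclidean.mixedSpace K) ⦃r : ℝ⦄, 0 ≤ r →
      mixedEmbedding.norm (toMixed K (r • x)) =
        r ^ finrank ℝ (euclidean.mixedSpace K) * mixedEmbedding.norm (toMixed K x) := by
    intro x r hr
    rw [map_smul, mixedEmbedding.norm_smul, euclidean.finrank, abs_of_nonneg hr]
  have hbd : IsBounded {x | x ∈ toMixed K ⁻¹' fundamentalCone K ∧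
      mixedEmbedding.norm (toMixed K x) ≤ 1} := by
    rw [h₁, h₂]
    exact (toMixed K).antilipschitz.isBounded_preimage (isBounded_normLeOne K)
  have hmeas : MeasurableSet {x | x ∈ toMixed K ⁻¹' fundamentalCone K ∧
      mixedEmbedding.norm (toMixed K x) ≤ 1} := by
    rw [h₁, h₂]
    exact (toMixed K).continuous.measurable (measurableSet_normLeOne K)
  have hfr : IsLipParam (finrank ℝ (euclidean.mixedSpace K) - 1)
      (frontier {x | x ∈ toMixed K ⁻¹' fundamentalCone K ∧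
        mixedEmbedding.norm (toMixed K x) ≤ 1}) := by
    rw [h₁, h₂, euclidean.finrank, ← (toMixed K).coe_toHomeomorph,
      ← Homeomorph.preimage_frontier, (toMixed K).coe_toHomeomorph,
      ← (toMixed K).image_symm_eq_preimage]
    exact IsLipParam.image ((toMixed K).symm : mixedSpace K →L[ℝ] euclidean.mixedSpace K).lipschitz
      (isLipParam_frontier_normLeOne K)
  obtain ⟨C, hC0, hC⟩ := card_coset_le_sub_le
    (ZLattice.comap ℝ (mixedEmbedding.idealLattice K (FractionalIdeal.mk0 K J))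
      (toMixed K).toLinearMap) hX hF hbd hmeas hfr
  refine ⟨C, hC0, fun c hc β₀ => ?_⟩
  have := hC c hc ((toMixed K).symm (mixedEmbedding K (β₀ : K)))
  rw [euclidean.finrank, covolume_comap_idealLattice] at this
  rw [← Nat.card_congr (coneCosetEquiv J β₀ c)]
  have hN : (absNorm (J : Ideal (𝓞 K)) : ℝ) ≠ 0 :=
    Nat.cast_ne_zero.mpr (absNorm_ne_zero_of_nonZeroDivisors J)
  have hconst : coneConst K / (absNorm (J : Ideal (𝓞 K)) : ℝ) =
      volume.real {x : euclidean.mixedSpace K | x ∈ toMixed K ⁻¹' fundamentalCone K ∧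
        mixedEmbedding.norm (toMixed K x) ≤ 1} /
      ((absNorm (J : Ideal (𝓞 K)) : ℝ) * ((2⁻¹ : ℝ) ^ nrComplexPlaces K * √|(discr K : ℝ)|)) := by
    rw [coneConst, div_div, mul_comm]
  rw [hconst]
  exact this

/-! ### Part C : principal ideals with a generator `≡ 1 mod n` and points of the cone -/

variable (n : ℕ)

/-- principal ideals with a generator congruent to `1` modulo `n` -/
def RayPrincipal (P : (Ideal (𝓞 K))⁰) : Prop :=
  ∃ γ : 𝓞 K, (n : 𝓞 K) ∣ γ - 1 ∧ (P : Ideal (𝓞 K)) = span {γ}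

/-- the residues of the units modulo `n` -/
def unitRes : Set ((𝓞 K) ⧸ span {(n : 𝓞 K)}) :=
  Set.range fun u : (𝓞 K)ˣ => Ideal.Quotient.mk (span {(n : 𝓞 K)}) (u : 𝓞 K)

variable {K n}

theorem mk_eq_one_of_dvd_sub_one {γ : 𝓞 K} (h : (n : 𝓞 K) ∣ γ - 1) :
    Ideal.Quotient.mk (span {(n : 𝓞 K)}) γ = 1 := by
  rw [← map_one (Ideal.Quotient.mk (span {(n : 𝓞 K)})), Ideal.Quotient.eq, Ideal.mem_span_singleton]
  exact h

theorem rayPrincipal_iff_of_coe_eq {P : (Ideal (𝓞 K))⁰} {β : 𝓞 K}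
    (hP : (P : Ideal (𝓞 K)) = span {β}) :
    RayPrincipal K n P ↔ Ideal.Quotient.mk (span {(n : 𝓞 K)}) β ∈ unitRes K n := by
  constructor
  · rintro ⟨γ, hγ, hPγ⟩
    rw [hP, Ideal.span_singleton_eq_span_singleton] at hPγ
    obtain ⟨u, hu⟩ := hPγ
    refine ⟨u⁻¹, ?_⟩
    have hβ : β = γ * ((u⁻¹ : (𝓞 K)ˣ) : 𝓞 K) := by
      rw [← hu, mul_assoc, Units.mul_inv, mul_one]
    show Ideal.Quotient.mk (span {(n : 𝓞 K)}) ((u⁻¹ : (𝓞 K)ˣ) : 𝓞 K) = _
    rw [hβ, map_mul, mk_eq_one_of_dvd_sub_one hγ, one_mul]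
  · rintro ⟨u, hu⟩
    have hu' : Ideal.Quotient.mk (span {(n : 𝓞 K)}) (u : 𝓞 K) =
        Ideal.Quotient.mk (span {(n : 𝓞 K)}) β := hu
    rw [Ideal.Quotient.eq, Ideal.mem_span_singleton] at hu'
    refine ⟨β * ((u⁻¹ : (𝓞 K)ˣ) : 𝓞 K), ?_, ?_⟩
    · have : β * ((u⁻¹ : (𝓞 K)ˣ) : 𝓞 K) - 1 = -(((u : 𝓞 K) - β) * ((u⁻¹ : (𝓞 K)ˣ) : 𝓞 K)) := by
        rw [sub_mul, Units.mul_inv]; ring
      rw [this]
      exact dvd_neg.mpr (Dvd.dvd.mul_right hu' _)
    · rw [hP, Ideal.span_singleton_mul_right_unit (Units.isUnit _)]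

variable (K n)

/-- the points of the cone corresponding to the principal ideals divisible by `𝔟` with a generator
`≡ 1 mod n` of norm `≤ s` -/
def RayPts (𝔟 : (Ideal (𝓞 K))⁰) (s : ℝ) : Type _ :=
  {a : integerSet K // (preimageOfMemIntegerSet a : 𝓞 K) ∈ (𝔟 : Ideal (𝓞 K)) ∧
    Ideal.Quotient.mk (span {(n : 𝓞 K)}) (preimageOfMemIntegerSet a : 𝓞 K) ∈ unitRes K n ∧
    mixedEmbedding.norm (a : mixedSpace K) ≤ s}

/-- the equivalence behind `card_rayPrincipal_mul_torsion` -/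
def rayPtsEquiv (𝔟 : (Ideal (𝓞 K))⁰) (s : ℝ) :
    RayPts K n 𝔟 s ≃ {P : (Ideal (𝓞 K))⁰ // (𝔟 : Ideal (𝓞 K)) ∣ P ∧ RayPrincipal K n P ∧
      (absNorm (P : Ideal (𝓞 K)) : ℝ) ≤ s} × torsion K :=
  calc RayPts K n 𝔟 s
      ≃ {x : {I : (Ideal (𝓞 K))⁰ // IsPrincipal I.val} × torsion K //
          (𝔟 : Ideal (𝓞 K)) ∣ x.1.1 ∧ RayPrincipal K n x.1.1 ∧
            (absNorm (x.1.1 : Ideal (𝓞 K)) : ℝ) ≤ s} :=
        Equiv.subtypeEquiv (integerSetEquiv K) fun a => by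
          have h1 := integerSetEquiv_apply_fst a
          rw [h1, Ideal.dvd_span_singleton, rayPrincipal_iff_of_coe_eq h1,
            absNorm_span_singleton, ← intNorm_coe, intNorm]
    _ ≃ {I : {I : (Ideal (𝓞 K))⁰ // IsPrincipal I.val} // (𝔟 : Ideal (𝓞 K)) ∣ I.1 ∧
          RayPrincipal K n I.1 ∧ (absNorm (I.1 : Ideal (𝓞 K)) : ℝ) ≤ s} × torsion K :=
        Equiv.prodSubtypeFstEquivSubtypeProd
          (p := fun I : {I : (Ideal (𝓞 K))⁰ // IsPrincipal I.val} => (𝔟 : Ideal (𝓞 K)) ∣ I.1 ∧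
            RayPrincipal K n I.1 ∧ (absNorm (I.1 : Ideal (𝓞 K)) : ℝ) ≤ s)
    _ ≃ {P : (Ideal (𝓞 K))⁰ // IsPrincipal P.val ∧ ((𝔟 : Ideal (𝓞 K)) ∣ P ∧
          RayPrincipal K n P ∧ (absNorm (P : Ideal (𝓞 K)) : ℝ) ≤ s)} × torsion K :=
        Equiv.prodCongrLeft fun _ => Equiv.subtypeSubtypeEquivSubtypeInter
          (fun I : (Ideal (𝓞 K))⁰ => IsPrincipal I.val)
          (fun P => (𝔟 : Ideal (𝓞 K)) ∣ P ∧ RayPrincipal K n P ∧
            (absNorm (P : Ideal (𝓞 K)) : ℝ) ≤ s)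
    _ ≃ {P : (Ideal (𝓞 K))⁰ // (𝔟 : Ideal (𝓞 K)) ∣ P ∧ RayPrincipal K n P ∧
          (absNorm (P : Ideal (𝓞 K)) : ℝ) ≤ s} × torsion K :=
        Equiv.prodCongrLeft fun _ => Equiv.subtypeEquivRight fun P => by
          constructor
          · exact fun h => h.2
          · rintro ⟨h1, ⟨γ, hγ, hP⟩, h3⟩
            exact ⟨⟨γ, hP⟩, h1, ⟨γ, hγ, hP⟩, h3⟩

theorem card_rayPrincipal_mul_torsion (𝔟 : (Ideal (𝓞 K))⁰) (s : ℝ) :
    Nat.card {P : (Ideal (𝓞 K))⁰ // (𝔟 : Ideal (𝓞 K)) ∣ P ∧ RayPrincipal K n P ∧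
      (absNorm (P : Ideal (𝓞 K)) : ℝ) ≤ s} * torsionOrder K = Nat.card (RayPts K n 𝔟 s) := by
  rw [torsionOrder, ← Nat.card_prod]
  exact Nat.card_congr (rayPtsEquiv K n 𝔟 s).symm

/-! ### Part D : splitting the points according to the residue modulo `n` -/

theorem card_eq_sum_card_fiber {α β : Type*} [Finite α] [Fintype β] (f : α → β) :
    Nat.card α = ∑ y, Nat.card {x // f x = y} := by
  rw [← Nat.card_sigma]
  exact Nat.card_congr (Equiv.sigmaFiberEquiv f).symm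

variable [NeZero n]

/-- the ideal `(n)` as a nonzero ideal -/
def natIdeal0 : (Ideal (𝓞 K))⁰ :=
  ⟨span {(n : 𝓞 K)}, mem_nonZeroDivisors_iff_ne_zero.mpr (span_natCast_ne_bot K n)⟩

instance finite_rayPts (𝔟 : (Ideal (𝓞 K))⁰) (s : ℝ) : Finite (RayPts K n 𝔟 s) := by
  have h1 : Finite {P : (Ideal (𝓞 K))⁰ // (𝔟 : Ideal (𝓞 K)) ∣ P ∧ RayPrincipal K n P ∧
      (absNorm (P : Ideal (𝓞 K)) : ℝ) ≤ s} := by
    have h0 : Finite {I : (Ideal (𝓞 K))⁰ // absNorm (I : Ideal (𝓞 K)) ≤ ⌊s⌋₊} :=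
      Ideal.finite_setOfPred_absNorm_le₀ (S := 𝓞 K) ⌊s⌋₊
    refine Finite.of_injective (β := {I : (Ideal (𝓞 K))⁰ // absNorm (I : Ideal (𝓞 K)) ≤ ⌊s⌋₊})
      (fun P => ⟨P.1, Nat.le_floor P.2.2.2⟩) fun P Q h => Subtype.ext ?_
    exact congrArg (fun z => (z.1 : (Ideal (𝓞 K))⁰)) h
  exact Finite.of_equiv _ (rayPtsEquiv K n 𝔟 s).symm

variable {K n}

theorem exists_mem_mk_eq {𝔟 : (Ideal (𝓞 K))⁰} (h𝔟 : 𝔟 ∈ coprimeSubmonoid K n)
    (r : (𝓞 K) ⧸ span {(n : 𝓞 K)}) :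
    ∃ β : 𝓞 K, β ∈ (𝔟 : Ideal (𝓞 K)) ∧ Ideal.Quotient.mk (span {(n : 𝓞 K)}) β = r := by
  obtain ⟨e, he, f, hf, hef⟩ := Ideal.isCoprime_iff_exists.mp (mem_coprimeSubmonoid.mp h𝔟)
  obtain ⟨ρ, rfl⟩ := Ideal.Quotient.mk_surjective r
  refine ⟨e * ρ, Ideal.mul_mem_right _ _ he, ?_⟩
  have h1 : Ideal.Quotient.mk (span {(n : 𝓞 K)}) e = 1 := by
    have h0 : Ideal.Quotient.mk (span {(n : 𝓞 K)}) f = 0 := Ideal.Quotient.eq_zero_iff_mem.mpr hf
    have := congrArg (Ideal.Quotient.mk (span {(n : 𝓞 K)})) hef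
    rwa [map_add, h0, add_zero, map_one] at this
  rw [map_mul, h1, one_mul]

theorem coe_mul_natIdeal0 (𝔟 : (Ideal (𝓞 K))⁰) :
    ((𝔟 * natIdeal0 K n : (Ideal (𝓞 K))⁰) : Ideal (𝓞 K)) =
      (𝔟 : Ideal (𝓞 K)) * span {(n : 𝓞 K)} := rfl

theorem mem_mul_natIdeal0_iff {𝔟 : (Ideal (𝓞 K))⁰} (h𝔟 : 𝔟 ∈ coprimeSubmonoid K n) (x : 𝓞 K) :
    x ∈ ((𝔟 * natIdeal0 K n : (Ideal (𝓞 K))⁰) : Ideal (𝓞 K)) ↔
      x ∈ (𝔟 : Ideal (𝓞 K)) ∧ x ∈ span {(n : 𝓞 K)} := by
  rw [coe_mul_natIdeal0, Ideal.mul_eq_inf_of_isCoprime (mem_coprimeSubmonoid.mp h𝔟),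
    Ideal.mem_inf]

/-- the fibre of `RayPts` over a residue class is a coset set -/
def rayPtsFiberEquiv {𝔟 : (Ideal (𝓞 K))⁰} (h𝔟 : 𝔟 ∈ coprimeSubmonoid K n) (s : ℝ)
    (r : unitRes K n) {β₀ : 𝓞 K} (hβ₀ : β₀ ∈ (𝔟 : Ideal (𝓞 K)))
    (hr : Ideal.Quotient.mk (span {(n : 𝓞 K)}) β₀ = r.1) :
    {x : RayPts K n 𝔟 s // (⟨_, x.2.2.1⟩ : unitRes K n) = r} ≃
      {a : cosetSet K (𝔟 * natIdeal0 K n) β₀ // mixedEmbedding.norm (a : mixedSpace K) ≤ s} := by
  refine Equiv.ofBijective (fun x => ⟨⟨x.1.1.1, x.1.1.2.1, (preimageOfMemIntegerSet x.1.1 : 𝓞 K),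
    ?_, mixedEmbedding_preimageOfMemIntegerSet x.1.1⟩, x.1.2.2.2⟩) ⟨?_, ?_⟩
  · rw [mem_mul_natIdeal0_iff h𝔟]
    refine ⟨sub_mem x.1.2.1 hβ₀, ?_⟩
    rw [← Ideal.Quotient.eq, hr]
    exact congrArg Subtype.val x.2
  · intro x y h
    have : x.1.1.1 = y.1.1.1 := congrArg (fun z => (z.1.1 : mixedSpace K)) h
    exact Subtype.ext (Subtype.ext (Subtype.ext this))
  · rintro ⟨⟨a, hcone, β, hβ, rfl⟩, hnorm⟩
    have hint : mixedEmbedding K (β : K) ∈ integerSet K := mem_integerSet.mpr ⟨hcone, β, rfl⟩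
    have hpre : (preimageOfMemIntegerSet ⟨mixedEmbedding K (β : K), hint⟩ : 𝓞 K) = β :=
      preimageOfMemIntegerSet_mixedEmbedding hint
    rw [mem_mul_natIdeal0_iff h𝔟] at hβ
    have hβ𝔟 : β ∈ (𝔟 : Ideal (𝓞 K)) := by
      have := add_mem hβ.1 hβ₀
      rwa [sub_add_cancel] at this
    have hβr : Ideal.Quotient.mk (span {(n : 𝓞 K)}) β = r.1 := by
      rw [← hr, Ideal.Quotient.eq]
      exact hβ.2
    refine ⟨⟨⟨⟨mixedEmbedding K (β : K), hint⟩, ?_, ?_, hnorm⟩, ?_⟩, rfl⟩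
    · rw [hpre]; exact hβ𝔟
    · rw [hpre, hβr]; exact r.2
    · apply Subtype.ext
      show Ideal.Quotient.mk (span {(n : 𝓞 K)})
        (preimageOfMemIntegerSet ⟨mixedEmbedding K (β : K), hint⟩ : 𝓞 K) = r.1
      rw [hpre, hβr]

variable (K n)

/-- **Counting `RayPts`** with a power saving error term. -/
theorem exists_rayPts_count {𝔟 : (Ideal (𝓞 K))⁰} (h𝔟 : 𝔟 ∈ coprimeSubmonoid K n) :
    ∃ C : ℝ, 0 ≤ C ∧ ∀ s : ℝ, 1 ≤ s →
      |(Nat.card (RayPts K n 𝔟 s) : ℝ) - (Nat.card (unitRes K n) : ℝ) *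
          (s * (coneConst K / ((absNorm (𝔟 : Ideal (𝓞 K)) : ℝ) *
            (absNorm (span {(n : 𝓞 K)}) : ℝ))))| ≤
        C * s ^ (1 - 1 / (finrank ℚ K : ℝ)) := by
  obtain ⟨C, hC0, hC⟩ := exists_cone_coset_count K (𝔟 * natIdeal0 K n)
  have : Fintype (unitRes K n) := Fintype.ofFinite _
  choose β₀ hβ₀ hβ₀r using fun r : unitRes K n => exists_mem_mk_eq h𝔟 r.1
  refine ⟨(Nat.card (unitRes K n) : ℝ) * C, by positivity, fun s hs => ?_⟩
  have hN : (absNorm ((𝔟 * natIdeal0 K n : (Ideal (𝓞 K))⁰) : Ideal (𝓞 K)) : ℝ) =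
      (absNorm (𝔟 : Ideal (𝓞 K)) : ℝ) * (absNorm (span {(n : 𝓞 K)}) : ℝ) := by
    rw [coe_mul_natIdeal0, map_mul, Nat.cast_mul]
  have hsplit := card_eq_sum_card_fiber
    (fun x : RayPts K n 𝔟 s => (⟨_, x.2.2.1⟩ : unitRes K n))
  have hfib : ∀ r : unitRes K n,
      Nat.card {x : RayPts K n 𝔟 s // (⟨_, x.2.2.1⟩ : unitRes K n) = r} =
        Nat.card {a : cosetSet K (𝔟 * natIdeal0 K n) (β₀ r) //
          mixedEmbedding.norm (a : mixedSpace K) ≤ s} := fun r =>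
    Nat.card_congr (rayPtsFiberEquiv h𝔟 s r (hβ₀ r) (hβ₀r r))
  simp only [hfib] at hsplit
  rw [hsplit, Nat.cast_sum, Nat.card_eq_fintype_card, ← Finset.card_univ,
    ← nsmul_eq_mul, ← Finset.sum_const, ← Finset.sum_sub_distrib]
  refine (Finset.abs_sum_le_sum_abs _ _).trans ?_
  have hterm : ∀ r ∈ (Finset.univ : Finset (unitRes K n)),
      |(Nat.card {a : cosetSet K (𝔟 * natIdeal0 K n) (β₀ r) //
          mixedEmbedding.norm (a : mixedSpace K) ≤ s} : ℝ) -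
        s * (coneConst K / ((absNorm (𝔟 : Ideal (𝓞 K)) : ℝ) *
          (absNorm (span {(n : 𝓞 K)}) : ℝ)))| ≤ C * s ^ (1 - 1 / (finrank ℚ K : ℝ)) := by
    intro r _
    have := hC s hs (β₀ r)
    rwa [hN] at this
  refine (Finset.sum_le_sum hterm).trans (le_of_eq ?_)
  rw [Finset.sum_const, nsmul_eq_mul, mul_assoc]

/-! ### Part E : the count per ray class -/

variable {K n}

theorem isCoprime_of_dvd_sub_one {γ : 𝓞 K} (h : (n : 𝓞 K) ∣ γ - 1) : IsCoprime γ (n : 𝓞 K) := by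
  obtain ⟨t, ht⟩ := h
  exact ⟨1, -t, by linear_combination ht⟩

theorem rayMk_eq_one_iff (I : coprimeSubmonoid K n) :
    rayMk K n I = 1 ↔ RayPrincipal K n (I : (Ideal (𝓞 K))⁰) := by
  rw [← map_one (rayMk K n), rayMk_eq_iff]
  constructor
  · rintro ⟨a, b, ha, hb, hca, hcb, hdvd, heq⟩
    rw [OneMemClass.coe_one, Submonoid.coe_one, Ideal.one_eq_top, Ideal.mul_top] at heq
    have hb_mem : b ∈ span {a} := by
      have h1 : b ∈ span {a} * (((I : (Ideal (𝓞 K))⁰)) : Ideal (𝓞 K)) := by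
        rw [heq]; exact Ideal.mem_span_singleton_self b
      exact Ideal.mul_le_left h1
    obtain ⟨γ, rfl⟩ := Ideal.mem_span_singleton'.mp hb_mem
    refine ⟨γ, ?_, ?_⟩
    · have h2 : (n : 𝓞 K) ∣ (1 - γ) * a := by
        have : a - γ * a = (1 - γ) * a := by ring
        rwa [this] at hdvd
      have h3 := hca.symm.dvd_of_dvd_mul_right h2
      rw [← neg_sub]
      exact dvd_neg.mpr h3
    · have ha' : span {a} ≠ 0 := by
        rwa [Ne, Ideal.zero_eq_bot, Ideal.span_singleton_eq_bot]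
      have h4 : span {a} * (((I : (Ideal (𝓞 K))⁰)) : Ideal (𝓞 K)) = span {a} * span {γ} := by
        rw [heq, Ideal.span_singleton_mul_span_singleton, mul_comm]
      exact mul_left_cancel₀ ha' h4
  · rintro ⟨γ, hγ, hI⟩
    have hγ0 : γ ≠ 0 := by
      rintro rfl
      have : (((I : (Ideal (𝓞 K))⁰)) : Ideal (𝓞 K)) ≠ ⊥ :=
        mem_nonZeroDivisors_iff_ne_zero.mp (I : (Ideal (𝓞 K))⁰).2
      exact this (by rw [hI]; simp)
    refine ⟨1, γ, one_ne_zero, hγ0, isCoprime_one_left, isCoprime_of_dvd_sub_one hγ, ?_, ?_⟩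
    · rw [← neg_sub]; exact dvd_neg.mpr hγ
    · rw [OneMemClass.coe_one, Submonoid.coe_one, Ideal.one_eq_top, Ideal.mul_top, hI,
        Ideal.span_singleton_one, Ideal.top_mul]

theorem rayCl_eq_coe_iff_rayPrincipal {𝔟 : coprimeSubmonoid K n} {g : RayClassGroup K n}
    (h𝔟 : rayMk K n 𝔟 = g⁻¹) (I : (Ideal (𝓞 K))⁰) :
    rayCl K n I = (g : WithZero (RayClassGroup K n)) ↔
      RayPrincipal K n ((𝔟 : (Ideal (𝓞 K))⁰) * I) := by
  rw [rayCl_eq_coe_iff]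
  constructor
  · rintro ⟨hI, hg⟩
    have h1 : rayMk K n (𝔟 * ⟨I, hI⟩) = 1 := by
      rw [map_mul, h𝔟, hg, inv_mul_cancel]
    exact (rayMk_eq_one_iff _).mp h1
  · intro h
    have hmem : (𝔟 : (Ideal (𝓞 K))⁰) * I ∈ coprimeSubmonoid K n := by
      obtain ⟨γ, hγ, hP⟩ := h
      rw [mem_coprimeSubmonoid, hP, Ideal.isCoprime_span_singleton_iff]
      exact isCoprime_of_dvd_sub_one hγ
    have hI : I ∈ coprimeSubmonoid K n := (mul_mem_coprimeSubmonoid_iff.mp hmem).2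
    refine ⟨hI, ?_⟩
    have h1 : rayMk K n (𝔟 * ⟨I, hI⟩) = 1 := (rayMk_eq_one_iff _).mpr h
    rw [map_mul, h𝔟] at h1
    exact (inv_mul_eq_one.mp h1).symm

/-- ideals in a ray class `↔` principal ideals with a generator `≡ 1`, divisible by a fixed ideal of
the inverse class -/
theorem card_rayClass_eq_card_rayPrincipal {𝔟 : coprimeSubmonoid K n} {g : RayClassGroup K n}
    (h𝔟 : rayMk K n 𝔟 = g⁻¹) (x : ℝ) :
    Nat.card {I : (Ideal (𝓞 K))⁰ // (absNorm (I : Ideal (𝓞 K)) : ℝ) ≤ x ∧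
        rayCl K n I = (g : WithZero (RayClassGroup K n))} =
      Nat.card {P : (Ideal (𝓞 K))⁰ // ((𝔟 : (Ideal (𝓞 K))⁰) : Ideal (𝓞 K)) ∣ P ∧
        RayPrincipal K n P ∧ (absNorm (P : Ideal (𝓞 K)) : ℝ) ≤
          x * (absNorm ((𝔟 : (Ideal (𝓞 K))⁰) : Ideal (𝓞 K)) : ℝ)} := by
  simp_rw [← nonZeroDivisors_dvd_iff_dvd_coe]
  refine Nat.card_congr ?_
  refine ((Equiv.dvd (𝔟 : (Ideal (𝓞 K))⁰)).subtypeEquiv fun I ↦ ?_).trans
    (Equiv.subtypeSubtypeEquivSubtypeInter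
      (fun I : (Ideal (𝓞 K))⁰ ↦ (𝔟 : (Ideal (𝓞 K))⁰) ∣ I) _)
  have hpos : (0 : ℝ) < (absNorm ((𝔟 : (Ideal (𝓞 K))⁰) : Ideal (𝓞 K)) : ℝ) :=
    Nat.cast_pos.mpr (absNorm_pos_of_nonZeroDivisors _)
  rw [rayCl_eq_coe_iff_rayPrincipal h𝔟 I]
  simp only [Equiv.dvd_apply, Submonoid.coe_mul, map_mul, Nat.cast_mul]
  rw [mul_comm x, mul_le_mul_iff_of_pos_left hpos]
  tauto

variable (K n)

/-- the main constant of the count of ideals in a ray class modulo `n` -/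
def rayConst : ℝ :=
  (Nat.card (unitRes K n) : ℝ) * coneConst K /
    ((torsionOrder K : ℝ) * (absNorm (span {(n : 𝓞 K)}) : ℝ))

/-- **Ideal count in a ray class modulo `n`**, with a power saving error term and a main term
independent of the class. -/
theorem exists_rayClass_count (g : RayClassGroup K n) :
    ∃ M : ℝ, 0 ≤ M ∧ ∀ x : ℝ, 1 ≤ x →
      |(Nat.card {I : (Ideal (𝓞 K))⁰ // (absNorm (I : Ideal (𝓞 K)) : ℝ) ≤ x ∧
          rayCl K n I = (g : WithZero (RayClassGroup K n))} : ℝ) - rayConst K n * x| ≤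
        M * x ^ (1 - 1 / (finrank ℚ K : ℝ)) := by
  obtain ⟨𝔟, h𝔟⟩ := rayMk_surjective (K := K) (n := n) g⁻¹
  obtain ⟨C, hC0, hC⟩ := exists_rayPts_count K n 𝔟.2
  have hN1 : (1 : ℝ) ≤ (absNorm ((𝔟 : (Ideal (𝓞 K))⁰) : Ideal (𝓞 K)) : ℝ) := by
    have : 1 ≤ absNorm ((𝔟 : (Ideal (𝓞 K))⁰) : Ideal (𝓞 K)) := absNorm_pos_of_nonZeroDivisors _
    exact_mod_cast this
  have hw0 : (0 : ℝ) < (torsionOrder K : ℝ) := by
    have := torsionOrder_pos K
    exact_mod_cast this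
  have hn0 : (absNorm (span {(n : 𝓞 K)}) : ℝ) ≠ 0 := by
    have := absNorm_ne_zero_of_nonZeroDivisors (natIdeal0 K n)
    exact_mod_cast this
  set N : ℝ := (absNorm ((𝔟 : (Ideal (𝓞 K))⁰) : Ideal (𝓞 K)) : ℝ) with hN
  set w : ℝ := (torsionOrder K : ℝ) with hw
  set r : ℝ := 1 - 1 / (finrank ℚ K : ℝ) with hr
  set U : ℝ := (Nat.card (unitRes K n) : ℝ) with hU
  set 𝔑 : ℝ := (absNorm (span {(n : 𝓞 K)}) : ℝ) with h𝔑
  refine ⟨C * N ^ r / w, by positivity, fun x hx => ?_⟩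
  have hx0 : 0 ≤ x := le_trans zero_le_one hx
  have hc1 : 1 ≤ x * N := by nlinarith
  have h1 := card_rayClass_eq_card_rayPrincipal h𝔟 x
  have h2 := card_rayPrincipal_mul_torsion K n (𝔟 : (Ideal (𝓞 K))⁰) (x * N)
  have h3 := hC (x * N) hc1
  rw [← h2, Nat.cast_mul, ← h1, Real.mul_rpow hx0 (le_trans zero_le_one hN1)] at h3
  set cnt : ℝ := (Nat.card {I : (Ideal (𝓞 K))⁰ // (absNorm (I : Ideal (𝓞 K)) : ℝ) ≤ x ∧
          rayCl K n I = (g : WithZero (RayClassGroup K n))} : ℝ) with hcnt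
  have hNne : N ≠ 0 := by linarith
  have hray : rayConst K n = U * coneConst K / (w * 𝔑) := rfl
  have h4 : cnt - rayConst K n * x =
      (cnt * w - U * (x * N * (coneConst K / (N * 𝔑)))) / w := by
    rw [hray]
    field_simp
  rw [h4, abs_div, abs_of_pos hw0, div_le_iff₀ hw0]
  calc |cnt * w - U * (x * N * (coneConst K / (N * 𝔑)))| ≤ C * (x ^ r * N ^ r) := h3
    _ = C * N ^ r / w * x ^ r * w := by field_simp

/-- **The count with error term, uniformly over the ray classes**, in the shape consumed by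
`Fermat.Agent.CFT.H79.index_le_finrank_of_count` and `Fermat.Agent.CFT.H56.index_le_finrank`. -/
theorem exists_rayClass_count_uniform :
    ∃ κ C₀ : ℝ, ∀ (g : RayClassGroup K n) (x : ℝ), 1 ≤ x →
      |(Nat.card {I : (Ideal (𝓞 K))⁰ // (absNorm (I : Ideal (𝓞 K)) : ℝ) ≤ x ∧
          rayCl K n I = (g : WithZero (RayClassGroup K n))} : ℝ) - κ * x| ≤
        C₀ * x ^ (1 - 1 / (finrank ℚ K : ℝ)) := by
  have : Fintype (RayClassGroup K n) := Fintype.ofFinite _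
  choose M hM h using exists_rayClass_count K n
  refine ⟨rayConst K n, ∑ g, M g, fun g x hx => (h g x hx).trans ?_⟩
  gcongr
  exact Finset.single_le_sum (f := M) (fun g _ => hM g) (Finset.mem_univ g)

/-- the primes not prime to `n` are finite in number -/
theorem finite_rayCl_eq_zero :
    {P : IsDedekindDomain.HeightOneSpectrum (𝓞 K) |
      rayCl K n ⟨P.asIdeal, mem_nonZeroDivisors_of_ne_zero P.ne_bot⟩ = 0}.Finite := by
  have hfin : {P : IsDedekindDomain.HeightOneSpectrum (𝓞 K) |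
      P.asIdeal ∣ span {(n : 𝓞 K)}}.Finite :=
    Ideal.finite_factors (span_natCast_ne_bot K n)
  refine hfin.subset fun P hP => ?_
  rw [Set.mem_ofPred_eq, rayCl_eq_zero_iff, mem_coprimeSubmonoid] at hP
  rw [Set.mem_ofPred_eq, Ideal.dvd_iff_le]
  by_contra hle
  apply hP
  rw [Ideal.isCoprime_iff_sup_eq]
  by_contra hne
  have := P.isMaximal.eq_of_le hne le_sup_left
  exact hle (this ▸ le_sup_right)

end Fermat.Agent.CFT.H56
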