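import Mathlib
import Fermat.Agent.CFT.H79_RayMain

/-!
# CFT / layer C : adapters for `index_le_finrank_of_count`

* `count_real_of_count_nat` : an equidistributed ideal count stated for natural `n` implies the
  one for real `x ≥ 1` (with a larger constant).
* `index_le_finrank_of_count'` : the analytic second inequality with the hypothesis on `H` stated
  for prime ideals `𝔓` of `𝓞 M` of relative degree one.
-/

set_option autoImplicit false

open NumberField Ideal IsDedekindDomain nonZeroDivisors Filter Topology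

namespace Fermat.Agent.CFT.H79

open Fermat.Agent.S14 Fermat.Agent.S14.H79

noncomputable section

variable {E : Type*} [Field E] [NumberField E]

/-- from natural to real bounds in an ideal count with error term -/
theorem count_real_of_count_nat {α : Type*} (N : α → ℕ) {κ C₀ r : ℝ} (hκ : 0 ≤ κ) (hr0 : 0 ≤ r)
    (hcount : ∀ n : ℕ, 1 ≤ n →
      |(Nat.card {a : α // N a ≤ n} : ℝ) - κ * n| ≤ C₀ * (n : ℝ) ^ r)
    (x : ℝ) (hx : 1 ≤ x) :
    |(Nat.card {a : α // (N a : ℝ) ≤ x} : ℝ) - κ * x| ≤ (C₀ + κ) * x ^ r := by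
  have hx0 : 0 ≤ x := by linarith
  set n : ℕ := ⌊x⌋₊ with hn
  have hn1 : 1 ≤ n := Nat.le_floor (by exact_mod_cast hx)
  have hnx : (n : ℝ) ≤ x := Nat.floor_le hx0
  have hxn : x < n + 1 := Nat.lt_floor_add_one x
  have hset : Nat.card {a : α // (N a : ℝ) ≤ x} = Nat.card {a : α // N a ≤ n} := by
    refine Nat.card_congr (Equiv.subtypeEquivRight fun a => ?_)
    rw [hn, Nat.le_floor_iff hx0]
  rw [hset]
  have h1 := hcount n hn1
  have hC0 : 0 ≤ C₀ := by
    have h := hcount 1 le_rfl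
    simp only [Nat.cast_one, Real.one_rpow, mul_one] at h
    exact (abs_nonneg _).trans h
  have hpow : (n : ℝ) ^ r ≤ x ^ r := Real.rpow_le_rpow (Nat.cast_nonneg n) hnx hr0
  have hx1 : (1 : ℝ) ≤ x ^ r := Real.one_le_rpow hx hr0
  have h2 : |κ * (n : ℝ) - κ * x| ≤ κ := by
    rw [← mul_sub, abs_mul, abs_of_nonneg hκ]
    have : |(n : ℝ) - x| ≤ 1 := by
      rw [abs_le]
      constructor <;> linarith
    calc κ * |(n : ℝ) - x| ≤ κ * 1 := mul_le_mul_of_nonneg_left this hκ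
      _ = κ := mul_one κ
  calc |(Nat.card {a : α // N a ≤ n} : ℝ) - κ * x|
      = |((Nat.card {a : α // N a ≤ n} : ℝ) - κ * n) + (κ * n - κ * x)| := by ring_nf
    _ ≤ |(Nat.card {a : α // N a ≤ n} : ℝ) - κ * n| + |κ * n - κ * x| := abs_add_le _ _
    _ ≤ C₀ * (n : ℝ) ^ r + κ := add_le_add h1 h2
    _ ≤ C₀ * x ^ r + κ * x ^ r := by
        have := mul_le_mul_of_nonneg_left hpow hC0
        have h3 : κ ≤ κ * x ^ r := le_mul_of_one_le_right hκ hx1
        linarith
    _ = (C₀ + κ) * x ^ r := by ring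

variable {G : Type*} [CommGroup G] [Fintype G]
variable (E) (M : Type*) [Field M] [NumberField M] [Algebra E M]

/-- **Analytic second inequality from an equidistributed ideal count**, hypothesis on `H` in
prime ideal form. -/
theorem index_le_finrank_of_count'
    (cl : (Ideal (𝓞 E))⁰ →* WithZero G)
    (hT : {P : HeightOneSpectrum (𝓞 E) | cl (primeIdeal0 E P) = 0}.Finite)
    {κ C₀ r : ℝ} (hr0 : 0 ≤ r) (hr1 : r < 1)
    (hcount : ∀ (C : G) (x : ℝ), 1 ≤ x →
      |(Nat.card {I : (Ideal (𝓞 E))⁰ // (absNorm (I : Ideal (𝓞 E)) : ℝ) ≤ x ∧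
          cl I = (C : WithZero G)} : ℝ) - κ * x| ≤ C₀ * x ^ r)
    (H : Subgroup G)
    (hH : ∀ (𝔓 : Ideal (𝓞 M)) (_ : 𝔓.IsPrime) (_ : 𝔓 ≠ ⊥), 𝔓.inertiaDeg (𝓞 E) = 1 →
      ∀ (hP : 𝔓.under (𝓞 E) ∈ (Ideal (𝓞 E))⁰) (c : G),
        cl ⟨𝔓.under (𝓞 E), hP⟩ = (c : WithZero G) → c ∈ H) :
    H.index ≤ Module.finrank E M := by
  refine index_le_finrank_of_count E M cl hT hr0 hr1 hcount H ?_
  rintro P c ⟨𝔓, rfl, h𝔓⟩ hc
  exact hH 𝔓.asIdeal 𝔓.isPrime 𝔓.ne_bot h𝔓 _ c hc

end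

end Fermat.Agent.CFT.H79
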