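/-
CFT / layer C, analytic second inequality (helper56): the second inequality for the ray class
group modulo a natural number `n ≠ 0`, unconditional.
-/
import Mathlib
import Fermat.Agent.CFT.H56_RayCount
import Fermat.Agent.CFT.H79_RayMainAdapters

set_option autoImplicit false

open NumberField Ideal IsDedekindDomain Module
open scoped nonZeroDivisors

namespace Fermat.Agent.CFT.H56

variable (K : Type*) [Field K] [NumberField K] (n : ℕ) [NeZero n]
variable (M : Type*) [Field M] [NumberField M] [Algebra K M]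

/-- **The analytic second inequality for ray classes modulo `n`**: for an arbitrary extension
`M / K` of number fields, a subgroup `H` of the ray class group of `K` modulo `n` containing the
classes of all primes of `K` prime to `n` which have a prime of `M` of relative degree one above,
has index at most `[M : K]`. -/
theorem rayClass_index_le_finrank (H : Subgroup (RayClassGroup K n))
    (hH : ∀ (𝔓 : Ideal (𝓞 M)) (_ : 𝔓.IsPrime) (_ : 𝔓 ≠ ⊥), 𝔓.inertiaDeg (𝓞 K) = 1 →
      ∀ (hP : 𝔓.under (𝓞 K) ∈ (Ideal (𝓞 K))⁰) (c : RayClassGroup K n),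
        rayCl K n ⟨𝔓.under (𝓞 K), hP⟩ = (c : WithZero (RayClassGroup K n)) → c ∈ H) :
    H.index ≤ Module.finrank K M := by
  have : Fintype (RayClassGroup K n) := Fintype.ofFinite _
  obtain ⟨κ, C₀, hcount⟩ := exists_rayClass_count_uniform K n
  have hd : (1 : ℝ) ≤ (finrank ℚ K : ℝ) := by
    exact_mod_cast Module.finrank_pos (R := ℚ) (M := K)
  have hr0 : (0 : ℝ) ≤ 1 - 1 / (finrank ℚ K : ℝ) := by
    rw [sub_nonneg, div_le_one (by linarith)]
    exact hd
  have hr1 : 1 - 1 / (finrank ℚ K : ℝ) < 1 := by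
    have : 0 < 1 / (finrank ℚ K : ℝ) := by positivity
    linarith
  exact H79.index_le_finrank_of_count' K M (rayCl K n) (finite_rayCl_eq_zero K n) hr0 hr1
    hcount H hH

/-- the same with the hypothesis in terms of `rayMk` -/
theorem rayClass_index_le_finrank' (H : Subgroup (RayClassGroup K n))
    (hH : ∀ (𝔓 : Ideal (𝓞 M)) (_ : 𝔓.IsPrime) (_ : 𝔓 ≠ ⊥), 𝔓.inertiaDeg (𝓞 K) = 1 →
      ∀ (hP : 𝔓.under (𝓞 K) ∈ (Ideal (𝓞 K))⁰)
        (hc : (⟨𝔓.under (𝓞 K), hP⟩ : (Ideal (𝓞 K))⁰) ∈ coprimeSubmonoid K n),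
        rayMk K n ⟨_, hc⟩ ∈ H) :
    H.index ≤ Module.finrank K M := by
  refine rayClass_index_le_finrank K n M H fun 𝔓 h1 h2 h3 hP c hc => ?_
  obtain ⟨hmem, rfl⟩ := rayCl_eq_coe_iff.mp hc
  exact hH 𝔓 h1 h2 h3 hP hmem

end Fermat.Agent.CFT.H56
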