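import Mathlib
import Fermat.Agent.CFT.H5_EnvCompare

/-!
# The `H¹(W)`-calculus of envelope morphisms  (CFT / D4 (e))

`Φ.toWMor.H1Wmap : H¹(H; W) → H¹(D; W')` for morphisms of envelopes `Φ : EnvMor φ E E' ev`:

* it depends only on `ev` (pointwise) when `H¹(D; Vm') = 0` (`EnvMor.H1Wmap_eq_of_ev_eq`);
* it is additive in `Φ` (`EnvMor.zero/add/sum`, `H1Wmap_sum_apply`) and compatible with
  composition along a composite of continuous homomorphisms (`EnvMor.compφ`,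
  `H1Wmap_compφ_apply`) and with the identity (`H1Wmap_id_apply`);
* corollaries for a finite family of "idempotents" (`sum_H1Wmap_apply_of_sum_eq_id`,
  `H1Wmap_eq_zero_of_ev_eq_zero`);
* the isomorphism `Hom(𝟙, A) ≅ A` (`trivEval`, `trivCoeval`) and the transport of joint
  injectivity from `T2map` at `X = 𝟙` to `H1Wmap` (`H1Wmap_jointly_injective`), and of (AC1)
  at `X = 𝟙` to `H¹(Vm) = 0` (`subsingleton_H1_Vm`).
-/

set_option autoImplicit false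
set_option linter.unusedSectionVars false

open CategoryTheory groupCohomology

namespace Fermat.Agent.CFT.H5

open Fermat.Agent.CFT

/-! ## General lemmas on `H50.mapH1` -/

section MapH1

variable {k : Type} [CommRing k] {H D D' : Type} [Group H] [Group D] [Group D']
  {𝓛 : LevelStructure H} {𝓛D : LevelStructure D} {𝓛D' : LevelStructure D'}
  {A : Rep.{0} k H} {B : Rep.{0} k D} {C : Rep.{0} k D'}

/-- `mapH1` is additive in the coefficient map (finite sums, pointwise hypothesis). -/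
theorem mapH1_eq_sum {φ : D →* H} (hφ : H50.IsCont 𝓛D 𝓛 φ) {ι : Type} (s : Finset ι)
    {α : A.V →ₗ[k] B.V} (hα : H50.IsEquivariant φ A B α) {β : ι → (A.V →ₗ[k] B.V)}
    (hβ : ∀ i, H50.IsEquivariant φ A B (β i)) (h : ∀ a, α a = ∑ i ∈ s, β i a) (x : 𝓛.H1 A) :
    H50.mapH1 𝓛D 𝓛 hφ hα x = ∑ i ∈ s, H50.mapH1 𝓛D 𝓛 hφ (hβ i) x := by
  induction x using Submodule.Quotient.induction_on with
  | H c =>
    have h1 : ∀ i, H50.mapH1 𝓛D 𝓛 hφ (hβ i) (Submodule.Quotient.mk c) =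
        𝓛D.H1π B (H50.mapZ1 𝓛D 𝓛 hφ (hβ i) c) := fun i => rfl
    have h0 : H50.mapH1 𝓛D 𝓛 hφ hα (Submodule.Quotient.mk c) =
        𝓛D.H1π B (H50.mapZ1 𝓛D 𝓛 hφ hα c) := rfl
    simp only [h1, h0]
    rw [← map_sum]
    congr 1
    apply Subtype.ext
    rw [AddSubmonoidClass.coe_finsetSum]
    funext g
    rw [Finset.sum_apply]
    exact h _

/-- `mapH1` depends only on the pointwise values of the coefficient map. -/
theorem mapH1_congr {φ : D →* H} (hφ : H50.IsCont 𝓛D 𝓛 φ)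
    {α β : A.V →ₗ[k] B.V} (hα : H50.IsEquivariant φ A B α) (hβ : H50.IsEquivariant φ A B β)
    (h : ∀ a, α a = β a) (x : 𝓛.H1 A) :
    H50.mapH1 𝓛D 𝓛 hφ hα x = H50.mapH1 𝓛D 𝓛 hφ hβ x := by
  have : α = β := LinearMap.ext h
  subst this
  rfl

/-- `mapH1` of a pointwise-zero map vanishes. -/
theorem mapH1_eq_zero {φ : D →* H} (hφ : H50.IsCont 𝓛D 𝓛 φ)
    {α : A.V →ₗ[k] B.V} (hα : H50.IsEquivariant φ A B α) (h : ∀ a, α a = 0) (x : 𝓛.H1 A) :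
    H50.mapH1 𝓛D 𝓛 hφ hα x = 0 := by
  have := mapH1_eq_sum hφ (∅ : Finset Empty) hα (β := fun i => i.elim) (fun i => i.elim)
    (fun a => by simpa using h a) x
  simpa using this

/-- Composition, with a pointwise hypothesis. -/
theorem mapH1_comp_of_eq {ψ : D' →* D} {φ : D →* H} (hψ : H50.IsCont 𝓛D' 𝓛D ψ)
    (hφ : H50.IsCont 𝓛D 𝓛 φ) {α : A.V →ₗ[k] B.V} {β : B.V →ₗ[k] C.V} {γ : A.V →ₗ[k] C.V}
    (hα : H50.IsEquivariant φ A B α) (hβ : H50.IsEquivariant ψ B C β)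
    (hγ : H50.IsEquivariant (φ.comp ψ) A C γ) (h : ∀ a, γ a = β (α a)) (x : 𝓛.H1 A) :
    H50.mapH1 𝓛D' 𝓛 (hψ.comp hφ) hγ x =
      H50.mapH1 𝓛D' 𝓛D hψ hβ (H50.mapH1 𝓛D 𝓛 hφ hα x) := by
  have : γ = β ∘ₗ α := LinearMap.ext h
  subst this
  exact LinearMap.congr_fun (H50.mapH1_comp 𝓛D' 𝓛D 𝓛 hψ hφ hα hβ) x

end MapH1

/-! ## Homotopy invariance on `H¹(W)` -/

section Homotopy

variable {p : ℕ} [Fact p.Prime] {H D : Type} [Group H] [Group D]
  {𝓛 : LevelStructure H} {𝓛D : LevelStructure D} {φ : D →* H}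
  {𝒟 : WDatum p 𝓛} {𝒟' : WDatum p 𝓛D}

/-- Homotopic morphisms of `W`-data induce the same map `H¹(W) → H¹(W')` if `H¹(D; Vm') = 0`. -/
theorem WMor.H1Wmap_eq_of_homotopy (hφ : H50.IsCont 𝓛D 𝓛 φ) {Φ Ψ : WMor φ 𝒟 𝒟'}
    (σ : WMor.Homotopy Φ Ψ) (h : Subsingleton (𝓛D.H1 𝒟'.Vm)) :
    Φ.H1Wmap hφ = Ψ.H1Wmap hφ := by
  have key : ∀ w : 𝓛.H1 𝒟.W, Φ.H1Wmap hφ w - Ψ.H1Wmap hφ w =
      H50.coeffH1 𝓛D 𝒟'.d (H50.mapH1 𝓛D 𝓛 hφ σ.hs w) := by
    intro w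
    induction w using Submodule.Quotient.induction_on with
    | H c =>
      show Submodule.Quotient.mk _ - Submodule.Quotient.mk _ = Submodule.Quotient.mk _
      rw [← Submodule.Quotient.mk_sub]
      congr 1
      apply Subtype.ext
      funext g
      exact σ.eq _
  refine LinearMap.ext fun w => ?_
  have h0 : H50.mapH1 𝓛D 𝓛 hφ σ.hs w = 0 := Subsingleton.elim _ _
  have := key w
  rw [h0, map_zero] at this
  exact sub_eq_zero.mp this

end Homotopy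

/-! ## Envelope morphisms: congruence, zero, sums, composition -/

section EnvMorCalc

variable {p : ℕ} [Fact p.Prime] {k : Type} [CommRing k] {H D D' : Type} [Group H] [Group D]
  [Group D'] {𝓛 : LevelStructure H} {𝓛D : LevelStructure D} {𝓛D' : LevelStructure D'}
  {N : Rep.{0} k H} {N' : Rep.{0} k D} {N'' : Rep.{0} k D'}
  {φ : D →* H} {ψ : D' →* D}
  {E : H36.DivEnvelope 𝓛 p N} {E' : H36.DivEnvelope 𝓛D p N'} {E'' : H36.DivEnvelope 𝓛D' p N''}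

/-- Change the base map `ev` of an envelope morphism to a pointwise equal one. -/
def EnvMor.congr {ev ev' : N.V →ₗ[k] N'.V} (Φ : EnvMor φ E E' ev) (h : ∀ c, ev c = ev' c) :
    EnvMor φ E E' ev' where
  F := Φ.F
  hF := Φ.hF
  comm := fun c => by rw [Φ.comm, h c]

/-- The zero envelope morphism. -/
def EnvMor.zero (φ : D →* H) (E : H36.DivEnvelope 𝓛 p N) (E' : H36.DivEnvelope 𝓛D p N') :
    EnvMor φ E E' 0 where
  F := 0
  hF := fun g x => by simp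
  comm := fun c => by simp

/-- The sum of a finite family of envelope morphisms. -/
def EnvMor.sum {ι : Type} (s : Finset ι) {ev : ι → (N.V →ₗ[k] N'.V)}
    (Φ : ∀ i, EnvMor φ E E' (ev i)) : EnvMor φ E E' (∑ i ∈ s, ev i) where
  F := ∑ i ∈ s, (Φ i).F
  hF := fun g x => by
    simp only [LinearMap.sum_apply, map_sum]
    exact Finset.sum_congr rfl fun i _ => (Φ i).hF g x
  comm := fun c => by
    simp only [LinearMap.sum_apply, map_sum]
    exact Finset.sum_congr rfl fun i _ => (Φ i).comm c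

/-- The sum of two envelope morphisms. -/
def EnvMor.add {ev ev' : N.V →ₗ[k] N'.V} (Φ : EnvMor φ E E' ev) (Ψ : EnvMor φ E E' ev') :
    EnvMor φ E E' (ev + ev') where
  F := Φ.F + Ψ.F
  hF := fun g x => by
    simp only [LinearMap.add_apply, map_add]
    rw [Φ.hF g x, Ψ.hF g x]
  comm := fun c => by
    simp only [LinearMap.add_apply, map_add]
    rw [Φ.comm, Ψ.comm]

/-- Composition of envelope morphisms along a composite of group homomorphisms. -/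
def EnvMor.compφ {ev : N.V →ₗ[k] N'.V} {ev' : N'.V →ₗ[k] N''.V}
    (Φ : EnvMor φ E E' ev) (Ψ : EnvMor ψ E' E'' ev') :
    EnvMor (φ.comp ψ) E E'' (ev' ∘ₗ ev) where
  F := Ψ.F ∘ₗ Φ.F
  hF := Φ.hF.comp Ψ.hF
  comm := fun c => by
    show Ψ.F (Φ.F (E.ι.hom c)) = E''.ι.hom (ev' (ev c))
    rw [Φ.comm, Ψ.comm]

omit [Fact p.Prime] in
lemma EnvMor.Fbar_zero_apply (q : E.Q.V) : (EnvMor.zero φ E E').Fbar q = 0 := by
  obtain ⟨x, rfl⟩ := E.π_surjective q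
  rw [EnvMor.Fbar_π]
  show E'.π.hom 0 = 0
  exact map_zero _

omit [Fact p.Prime] in
lemma EnvMor.Fbar_sum_apply {ι : Type} (s : Finset ι) {ev : ι → (N.V →ₗ[k] N'.V)}
    (Φ : ∀ i, EnvMor φ E E' (ev i)) (q : E.Q.V) :
    (EnvMor.sum s Φ).Fbar q = ∑ i ∈ s, (Φ i).Fbar q := by
  obtain ⟨x, rfl⟩ := E.π_surjective q
  rw [EnvMor.Fbar_π]
  show E'.π.hom ((∑ i ∈ s, (Φ i).F) x) = _
  rw [LinearMap.sum_apply, map_sum]
  exact Finset.sum_congr rfl fun i _ => ((Φ i).Fbar_π x).symm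

omit [Fact p.Prime] in
lemma EnvMor.Fbar_add_apply {ev ev' : N.V →ₗ[k] N'.V} (Φ : EnvMor φ E E' ev)
    (Ψ : EnvMor φ E E' ev') (q : E.Q.V) : (Φ.add Ψ).Fbar q = Φ.Fbar q + Ψ.Fbar q := by
  obtain ⟨x, rfl⟩ := E.π_surjective q
  rw [EnvMor.Fbar_π, EnvMor.Fbar_π, EnvMor.Fbar_π]
  show E'.π.hom (Φ.F x + Ψ.F x) = _
  exact map_add _ _ _

omit [Fact p.Prime] in
lemma EnvMor.Fbar_compφ_apply {ev : N.V →ₗ[k] N'.V} {ev' : N'.V →ₗ[k] N''.V}
    (Φ : EnvMor φ E E' ev) (Ψ : EnvMor ψ E' E'' ev') (q : E.Q.V) :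
    (Φ.compφ Ψ).Fbar q = Ψ.Fbar (Φ.Fbar q) := by
  obtain ⟨x, rfl⟩ := E.π_surjective q
  rw [EnvMor.Fbar_π, EnvMor.Fbar_π, EnvMor.Fbar_π]
  rfl

omit [Fact p.Prime] in
lemma EnvMor.Fbar_congr_apply {ev ev' : N.V →ₗ[k] N'.V} (Φ : EnvMor φ E E' ev)
    (h : ∀ c, ev c = ev' c) (q : E.Q.V) : (Φ.congr h).Fbar q = Φ.Fbar q := by
  obtain ⟨x, rfl⟩ := E.π_surjective q
  rw [EnvMor.Fbar_π, EnvMor.Fbar_π]
  rfl

variable (hφ : H50.IsCont 𝓛D 𝓛 φ) (hψ : H50.IsCont 𝓛D' 𝓛D ψ)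

/-- **Independence of the envelope morphism on `H¹(W)`** (needs `H¹(D; Vm') = 0`). -/
theorem EnvMor.H1Wmap_eq {ev : N.V →ₗ[k] N'.V} (Φ Ψ : EnvMor φ E E' ev)
    (h : Subsingleton (𝓛D.H1 E'.wDatum.Vm)) :
    Φ.toWMor.H1Wmap hφ = Ψ.toWMor.H1Wmap hφ :=
  WMor.H1Wmap_eq_of_homotopy hφ (Φ.homotopy Ψ) h

theorem EnvMor.H1Wmap_congr_apply {ev ev' : N.V →ₗ[k] N'.V} (Φ : EnvMor φ E E' ev)
    (h : ∀ c, ev c = ev' c) (w : 𝓛.H1 E.wDatum.W) :
    (Φ.congr h).toWMor.H1Wmap hφ w = Φ.toWMor.H1Wmap hφ w :=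
  mapH1_congr hφ _ _ (fun _ => Subtype.ext (Φ.Fbar_congr_apply h _)) w

/-- Envelope morphisms over pointwise equal base maps induce the same map on `H¹(W)`. -/
theorem EnvMor.H1Wmap_eq_of_ev_eq {ev ev' : N.V →ₗ[k] N'.V} (Φ : EnvMor φ E E' ev)
    (Ψ : EnvMor φ E E' ev') (hev : ∀ c, ev c = ev' c)
    (h : Subsingleton (𝓛D.H1 E'.wDatum.Vm)) :
    Φ.toWMor.H1Wmap hφ = Ψ.toWMor.H1Wmap hφ := by
  refine LinearMap.ext fun w => ?_
  rw [← EnvMor.H1Wmap_congr_apply hφ Φ hev w, EnvMor.H1Wmap_eq hφ (Φ.congr hev) Ψ h]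

theorem EnvMor.H1Wmap_zero_apply (w : 𝓛.H1 E.wDatum.W) :
    (EnvMor.zero φ E E').toWMor.H1Wmap hφ w = 0 :=
  mapH1_eq_zero hφ _ (fun _ => Subtype.ext (EnvMor.Fbar_zero_apply _)) w

theorem EnvMor.H1Wmap_sum_apply {ι : Type} (s : Finset ι) {ev : ι → (N.V →ₗ[k] N'.V)}
    (Φ : ∀ i, EnvMor φ E E' (ev i)) (w : 𝓛.H1 E.wDatum.W) :
    (EnvMor.sum s Φ).toWMor.H1Wmap hφ w = ∑ i ∈ s, (Φ i).toWMor.H1Wmap hφ w :=
  mapH1_eq_sum hφ s _ (fun i => (Φ i).toWMor.hb) (fun a => by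
    have h1 : ∀ (t : Finset ι),
        (show H36.torsionSub p E'.Q.V from (∑ i ∈ t, (Φ i).toWMor.b a)).1 =
          ∑ i ∈ t, (Φ i).Fbar (show H36.torsionSub p E.Q.V from a).1 := by
      intro t
      induction t using Finset.cons_induction with
      | empty => rfl
      | cons i t hi ih =>
        rw [Finset.sum_cons, Finset.sum_cons, ← ih]
        rfl
    exact Subtype.ext ((EnvMor.Fbar_sum_apply s Φ _).trans (h1 s).symm)) w

theorem EnvMor.H1Wmap_add_apply {ev ev' : N.V →ₗ[k] N'.V} (Φ : EnvMor φ E E' ev)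
    (Ψ : EnvMor φ E E' ev') (w : 𝓛.H1 E.wDatum.W) :
    (Φ.add Ψ).toWMor.H1Wmap hφ w = Φ.toWMor.H1Wmap hφ w + Ψ.toWMor.H1Wmap hφ w := by
  induction w using Submodule.Quotient.induction_on with
  | H c =>
    show Submodule.Quotient.mk _ = Submodule.Quotient.mk _ + Submodule.Quotient.mk _
    rw [← Submodule.Quotient.mk_add]
    congr 1
    apply Subtype.ext
    funext g
    exact Subtype.ext (EnvMor.Fbar_add_apply Φ Ψ _)

theorem EnvMor.H1Wmap_compφ_apply {ev : N.V →ₗ[k] N'.V} {ev' : N'.V →ₗ[k] N''.V}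
    (Φ : EnvMor φ E E' ev) (Ψ : EnvMor ψ E' E'' ev') (w : 𝓛.H1 E.wDatum.W) :
    (Φ.compφ Ψ).toWMor.H1Wmap (hψ.comp hφ) w =
      Ψ.toWMor.H1Wmap hψ (Φ.toWMor.H1Wmap hφ w) :=
  mapH1_comp_of_eq hψ hφ Φ.toWMor.hb Ψ.toWMor.hb _
    (fun _ => Subtype.ext (EnvMor.Fbar_compφ_apply Φ Ψ _)) w

/-- If the base map vanishes, the induced map on `H¹(W)` vanishes (needs `H¹(D; Vm') = 0`). -/
theorem EnvMor.H1Wmap_eq_zero_of_ev_eq_zero {ev : N.V →ₗ[k] N'.V} (Φ : EnvMor φ E E' ev)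
    (hev : ∀ c, ev c = 0) (h : Subsingleton (𝓛D.H1 E'.wDatum.Vm)) (w : 𝓛.H1 E.wDatum.W) :
    Φ.toWMor.H1Wmap hφ w = 0 := by
  rw [EnvMor.H1Wmap_eq_of_ev_eq hφ Φ (EnvMor.zero φ E E') hev h]
  exact EnvMor.H1Wmap_zero_apply hφ w

/-- If `ev' ∘ ev = 0` then `Ψ_* ∘ Φ_* = 0` on `H¹(W)` (needs `H¹(D'; Vm'') = 0`). -/
theorem EnvMor.H1Wmap_comp_eq_zero {ev : N.V →ₗ[k] N'.V} {ev' : N'.V →ₗ[k] N''.V}
    (Φ : EnvMor φ E E' ev) (Ψ : EnvMor ψ E' E'' ev') (hev : ∀ c, ev' (ev c) = 0)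
    (h : Subsingleton (𝓛D'.H1 E''.wDatum.Vm)) (w : 𝓛.H1 E.wDatum.W) :
    Ψ.toWMor.H1Wmap hψ (Φ.toWMor.H1Wmap hφ w) = 0 := by
  rw [← EnvMor.H1Wmap_compφ_apply hφ hψ Φ Ψ w]
  exact EnvMor.H1Wmap_eq_zero_of_ev_eq_zero (hψ.comp hφ) (Φ.compφ Ψ) hev h w

end EnvMorCalc

/-! ## Same group: identity and decompositions of the identity -/

section SameGroupH1W

variable {p : ℕ} [Fact p.Prime] {k : Type} [CommRing k] {H : Type} [Group H]
  {𝓛 : LevelStructure H} {N : Rep.{0} k H} {E : H36.DivEnvelope 𝓛 p N}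

theorem EnvMor.H1Wmap_id_apply (E : H36.DivEnvelope 𝓛 p N) (w : 𝓛.H1 E.wDatum.W) :
    (EnvMor.id E).toWMor.H1Wmap (H50.isCont_id 𝓛) w = w := by
  induction w using Submodule.Quotient.induction_on with
  | H c =>
    show Submodule.Quotient.mk _ = Submodule.Quotient.mk _
    congr 1
    apply Subtype.ext
    funext g
    exact Subtype.ext (EnvMor.Fbar_id_apply E _)

/-- An envelope endomorphism over (pointwise) the identity acts as the identity on `H¹(W)`. -/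
theorem EnvMor.H1Wmap_apply_of_ev_eq_id {ev : N.V →ₗ[k] N.V}
    (Φ : EnvMor (MonoidHom.id H) E E ev) (hev : ∀ c, ev c = c)
    (h : Subsingleton (𝓛.H1 E.wDatum.Vm)) (w : 𝓛.H1 E.wDatum.W) :
    Φ.toWMor.H1Wmap (H50.isCont_id 𝓛) w = w := by
  rw [EnvMor.H1Wmap_eq_of_ev_eq (H50.isCont_id 𝓛) Φ (EnvMor.id E) hev h]
  exact EnvMor.H1Wmap_id_apply E w

/-- **Decomposition of the identity.** If `Σ_v e_v = id` on `N`, then for ANY envelope
endomorphisms `ẽ_v` over `e_v`, `Σ_v (ẽ_v)_* = id` on `H¹(W)` (needs `H¹(H; Vm) = 0`). -/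
theorem EnvMor.sum_H1Wmap_apply_of_sum_eq_id {ι : Type} (s : Finset ι)
    {e : ι → (N.V →ₗ[k] N.V)} (Φ : ∀ i, EnvMor (MonoidHom.id H) E E (e i))
    (he : ∀ c, ∑ i ∈ s, e i c = c) (h : Subsingleton (𝓛.H1 E.wDatum.Vm))
    (w : 𝓛.H1 E.wDatum.W) :
    ∑ i ∈ s, (Φ i).toWMor.H1Wmap (H50.isCont_id 𝓛) w = w := by
  rw [← EnvMor.H1Wmap_sum_apply (H50.isCont_id 𝓛) s Φ w]
  exact EnvMor.H1Wmap_apply_of_ev_eq_id (EnvMor.sum s Φ)
    (fun c => by rw [LinearMap.sum_apply]; exact he c) h w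

end SameGroupH1W

/-! ## The trivial module: `Hom(𝟙, A) ≅ A` -/

section Trivial

variable {k : Type} [CommRing k] {H : Type} [Group H]

/-- Evaluation at `1`: `Hom(𝟙, A) ⟶ A`. -/
noncomputable def trivEval (A : Rep.{0} k H) : homRep (Rep.trivial k H k) A ⟶ A :=
  Rep.ofHom ⟨LinearMap.applyₗ (1 : k), fun g => by
    refine LinearMap.ext fun f => ?_
    rfl⟩

/-- `a ↦ (c ↦ c • a)`: `A ⟶ Hom(𝟙, A)`. -/
noncomputable def trivCoeval (A : Rep.{0} k H) : A ⟶ homRep (Rep.trivial k H k) A :=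
  Rep.ofHom ⟨(LinearMap.lsmul k A.V).flip, fun g => by
    refine LinearMap.ext fun a => LinearMap.ext fun c => ?_
    show c • A.ρ g a = A.ρ g (c • a)
    rw [map_smul]⟩

lemma trivEval_hom_apply (A : Rep.{0} k H) (f : k →ₗ[k] A.V) :
    (trivEval A).hom (show (homRep (Rep.trivial k H k) A).V from f) = f 1 := rfl

lemma trivCoeval_hom_apply (A : Rep.{0} k H) (a : A.V) (c : k) :
    (show k →ₗ[k] A.V from (trivCoeval A).hom a) c = c • a := rfl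

lemma trivEval_trivCoeval (A : Rep.{0} k H) (a : A.V) :
    (trivEval A).hom ((trivCoeval A).hom a) = a :=
  one_smul k a

lemma trivCoeval_trivEval (A : Rep.{0} k H) (f : (homRep (Rep.trivial k H k) A).V) :
    (trivCoeval A).hom ((trivEval A).hom f) = f := by
  refine LinearMap.ext fun c => ?_
  show c • (show k →ₗ[k] A.V from f) 1 = (show k →ₗ[k] A.V from f) c
  rw [← map_smul, smul_eq_mul, mul_one]

variable (𝓛 : LevelStructure H)

lemma coeffH1_trivEval_trivCoeval (A : Rep.{0} k H) (w : 𝓛.H1 A) :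
    H50.coeffH1 𝓛 (trivEval A) (H50.coeffH1 𝓛 (trivCoeval A) w) = w := by
  induction w using Submodule.Quotient.induction_on with
  | H c =>
    show Submodule.Quotient.mk _ = Submodule.Quotient.mk _
    congr 1
    apply Subtype.ext
    funext g
    exact trivEval_trivCoeval A _

lemma coeffH1_trivCoeval_trivEval (A : Rep.{0} k H)
    (z : 𝓛.H1 (homRep (Rep.trivial k H k) A)) :
    H50.coeffH1 𝓛 (trivCoeval A) (H50.coeffH1 𝓛 (trivEval A) z) = z := by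
  induction z using Submodule.Quotient.induction_on with
  | H c =>
    show Submodule.Quotient.mk _ = Submodule.Quotient.mk _
    congr 1
    apply Subtype.ext
    funext g
    exact trivCoeval_trivEval A _

lemma coeffH1_trivCoeval_injective (A : Rep.{0} k H) :
    Function.Injective (H50.coeffH1 𝓛 (trivCoeval A)) :=
  Function.LeftInverse.injective (coeffH1_trivEval_trivCoeval 𝓛 A)

lemma coeffH1_trivCoeval_bijective (A : Rep.{0} k H) :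
    Function.Bijective (H50.coeffH1 𝓛 (trivCoeval A)) :=
  ⟨coeffH1_trivCoeval_injective 𝓛 A,
    Function.RightInverse.surjective (coeffH1_trivCoeval_trivEval 𝓛 A)⟩

/-- `H¹(H; Hom(𝟙, A)) = 0 ⇒ H¹(H; A) = 0`. -/
lemma subsingleton_H1_of_trivial (A : Rep.{0} k H)
    (h : Subsingleton (𝓛.H1 (homRep (Rep.trivial k H k) A))) : Subsingleton (𝓛.H1 A) :=
  (coeffH1_trivCoeval_injective 𝓛 A).subsingleton

end Trivial

section TrivialW

variable {p : ℕ} [Fact p.Prime] {H D : Type} [Group H] [Group D]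
  {𝓛 : LevelStructure H} {𝓛D : LevelStructure D} {φ : D →* H}
  {𝒟 : WDatum p 𝓛} {𝒟' : WDatum p 𝓛D}

/-- The trivial module `𝔽_p` is finite discrete. -/
lemma isFinDiscrete_trivial (𝓛 : LevelStructure H) :
    IsFinDiscrete 𝓛 (Rep.trivial (ZMod p) H (ZMod p)) where
  finite := inferInstanceAs (Finite (ZMod p))
  discrete := fun x => by
    obtain ⟨N₀, hN₀⟩ := 𝓛.nonempty
    exact ⟨N₀, hN₀, fun n _ => rfl⟩

/-- (AC1) at `X = 𝟙` gives `H¹(H; Vm) = 0`. -/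
lemma WDatum.subsingleton_H1_Vm (𝒟 : WDatum p 𝓛) (hAC : 𝒟.IsAcyclic) :
    Subsingleton (𝓛.H1 𝒟.Vm) :=
  subsingleton_H1_of_trivial 𝓛 𝒟.Vm (hAC _ (isFinDiscrete_trivial 𝓛)).1

/-- `T2map` at `X = 𝟙` is `H1Wmap` under `Hom(𝟙, W) ≅ W`. -/
theorem WMor.T2map_trivCoeval (hφ : H50.IsCont 𝓛D 𝓛 φ) (Φ : WMor φ 𝒟 𝒟') (w : 𝓛.H1 𝒟.W) :
    Φ.T2map hφ (Rep.trivial (ZMod p) H (ZMod p)) (H50.coeffH1 𝓛 (trivCoeval 𝒟.W) w) =
      H50.coeffH1 𝓛D (trivCoeval 𝒟'.W) (Φ.H1Wmap hφ w) := by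
  induction w using Submodule.Quotient.induction_on with
  | H c =>
    show Submodule.Quotient.mk _ = Submodule.Quotient.mk _
    congr 1
    apply Subtype.ext
    funext g
    refine LinearMap.ext fun x => ?_
    exact map_smul Φ.b x _

/-- **Joint injectivity on `H¹(W)`** from joint injectivity of `T2map` at `X = 𝟙`. -/
theorem H1Wmap_jointly_injective {ι : Type} {Dv : ι → Type} [∀ v, Group (Dv v)]
    {𝓛v : ∀ v, LevelStructure (Dv v)} {φv : ∀ v, Dv v →* H}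
    (hφv : ∀ v, H50.IsCont (𝓛v v) 𝓛 (φv v)) {𝒟v : ∀ v, WDatum p (𝓛v v)}
    (Φ : ∀ v, WMor (φv v) 𝒟 (𝒟v v))
    (h : ∀ z : 𝒟.T2 (Rep.trivial (ZMod p) H (ZMod p)),
      (∀ v, (Φ v).T2map (hφv v) (Rep.trivial (ZMod p) H (ZMod p)) z = 0) → z = 0)
    (w : 𝓛.H1 𝒟.W) (hw : ∀ v, (Φ v).H1Wmap (hφv v) w = 0) : w = 0 := by
  have hz := h (H50.coeffH1 𝓛 (trivCoeval 𝒟.W) w) (fun v => by
    rw [WMor.T2map_trivCoeval (hφv v) (Φ v) w, hw v, map_zero]
    rfl)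
  exact coeffH1_trivCoeval_injective 𝓛 𝒟.W (hz.trans (map_zero _).symm)

end TrivialW

end Fermat.Agent.CFT.H5
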