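import Mathlib
import Fermat.Agent.CFT.H5_Theta
import Fermat.Agent.CFT.H91_D2Theta

/-!
# Naturality of `H91.theta` (the connecting map of `0 → N → I → Q → 0`)  (CFT / D4 (d))

For an envelope `E : 0 → N → I → Q → 0`, `H91.theta E : H¹(W) → H²(N)` (`W = Q[p]`) is the
comparison `H¹(Q[p]) → H¹(Q)` followed by the connecting map of the envelope sequence.  A morphism
of envelopes `Φ : EnvMor φ E E' ev` over a continuous `φ : D →* H` induces `H1Wmap : H¹(H; W) →
H¹(D; W')`, and we show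

  `H91.theta E' ∘ Φ.H1Wmap = H50.mapH2 φ ev ∘ H91.theta E`.

Special case `φ = id` (`thetaC_natural_id`): a morphism of envelopes of the same group.
-/

set_option autoImplicit false
set_option linter.unusedSectionVars false

open CategoryTheory groupCohomology

namespace Fermat.Agent.CFT.H5

open Fermat.Agent.CFT

section TorsionSquare

variable {k : Type} [CommRing k] {H D : Type} [Group H] [Group D]
  {𝓛 : LevelStructure H} {𝓛D : LevelStructure D} {p : ℕ} [Fact p.Prime]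
  {M : Rep.{0} k H} {M' : Rep.{0} k D}

/-- The comparison `H¹(M[p]) → H¹(M)` commutes with change of group and coefficients. -/
theorem torsionH1_mapH1 {φ : D →* H} (hφ : H50.IsCont 𝓛D 𝓛 φ) {f : M.V →ₗ[k] M'.V}
    (hf : H50.IsEquivariant φ M M' f)
    (hf' : H50.IsEquivariant φ (H36.torsionRep p M) (H36.torsionRep p M')
      (torsionLin p f.toAddMonoidHom))
    (x : 𝓛.H1 (H36.torsionRep p M)) :
    H91.torsionH1 p 𝓛D M' (H50.mapH1 𝓛D 𝓛 hφ hf' x) =
      H50.mapH1 𝓛D 𝓛 hφ hf (H91.torsionH1 p 𝓛 M x) := by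
  induction x using Submodule.Quotient.induction_on with
  | H c => rfl

end TorsionSquare

section Natural

variable {k : Type} [CommRing k] {H D : Type} [Group H] [Group D]
  {𝓛 : LevelStructure H} {𝓛D : LevelStructure D} {p : ℕ} [Fact p.Prime]
  {N : Rep.{0} k H} {N' : Rep.{0} k D}

/-- **Naturality of `H91.theta` under morphisms of envelopes** over a continuous `φ`. -/
theorem thetaC_natural {φ : D →* H} (hφ : H50.IsCont 𝓛D 𝓛 φ)
    {E : H36.DivEnvelope 𝓛 p N} {E' : H36.DivEnvelope 𝓛D p N'} {ev : N.V →ₗ[k] N'.V}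
    (Φ : EnvMor φ E E' ev) (hev : H50.IsEquivariant φ N N' ev) (w : 𝓛.H1 E.wDatum.W) :
    H91.theta E' (Φ.toWMor.H1Wmap hφ w) = H50.mapH2 𝓛D 𝓛 hφ hev (H91.theta E w) := by
  rw [H91.theta_apply, H91.theta_apply]
  have h1 : H91.torsionH1 p 𝓛D E'.Q (Φ.toWMor.H1Wmap hφ w) =
      H50.mapH1 𝓛D 𝓛 hφ Φ.isEquivariant_Fbar (H91.torsionH1 p 𝓛 E.Q w) :=
    torsionH1_mapH1 hφ Φ.isEquivariant_Fbar Φ.toWMor.hb w
  rw [h1]
  exact (H1.mapH2_δ₁ 𝓛D 𝓛 hφ (H91.isSES E) E.discrete (H91.isSES E') E'.discrete hev Φ.hF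
    Φ.isEquivariant_Fbar (fun a => (Φ.comm a).symm) (fun b => (Φ.Fbar_π b).symm)
    (H91.torsionH1 p 𝓛 E.Q w)).symm

/-- Same group: a morphism of envelopes over a morphism of representations `f : N ⟶ N'`. -/
theorem thetaC_natural_id {N₁ : Rep.{0} k H} {E : H36.DivEnvelope 𝓛 p N}
    {E₁ : H36.DivEnvelope 𝓛 p N₁} (f : N ⟶ N₁)
    (Φ : EnvMor (MonoidHom.id H) E E₁ f.hom.toLinearMap) (w : 𝓛.H1 E.wDatum.W) :
    H91.theta E₁ (Φ.toWMor.H1Wmap (H50.isCont_id 𝓛) w) = H50.coeffH2 𝓛 f (H91.theta E w) :=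
  thetaC_natural (H50.isCont_id 𝓛) Φ (H50.isEquivariant_hom f) w

end Natural

end Fermat.Agent.CFT.H5
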