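import Fermat.Agent.CFT.H91_D2Defs

/-!
# CFT / Layer D1 : duality for trivial modules from the axioms `(I1')`, `(I2')`

This is the "trivial module" half of D1-shapiro.  For an arbitrary group `H` with level structure
`𝓛`, a `W`-datum `𝒟` and a trace `tr : H¹(H; W) → 𝔽_p`:

* `AxI1' 𝒟 tr`, `AxI2' 𝒟 tr` : the axioms `(I1')`, `(I2')` in intrinsic form (at the whole group);
* `resDatum 𝒟 N₀` : the datum restricted to a subgroup; `axI1_iff`, `axI2_iff` : the axioms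
  `AxI1 𝒟 tr N₀ hN`, `AxI2 𝒟 tr N₀ hN` of `H91_D2Defs` are the intrinsic ones for
  `(resDatum 𝒟 N₀, tr ∘ cor)`;
* `isDual2_of_sum`, `isDual1_of_sum` : duality passes to retracts of finite direct sums;
* `isDual2_line`, `isDual1_line` : duality for the trivial line `𝔽_p`;
* `isDual_of_trivial` : duality for every finite module with trivial action;
* `isDual_resSub_of_axioms` : the form used by D1-shapiro.
-/

set_option autoImplicit false

noncomputable section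

open CategoryTheory

namespace Fermat.Agent.CFT.H68

open Fermat.Agent.CFT

variable {p : ℕ} [Fact p.Prime] {H : Type} [Group H] {𝓛 : LevelStructure H}

/-! ## The restricted datum and the intrinsic axioms -/

/-- The `W`-datum restricted to a subgroup. -/
def resDatum (𝒟 : WDatum p 𝓛) (N₀ : Subgroup H) : WDatum p (𝓛.restrict N₀) where
  Vm := Rep.res N₀.subtype 𝒟.Vm
  W := Rep.res N₀.subtype 𝒟.W
  d := (Rep.resFunctor N₀.subtype).map 𝒟.d
  discrete_Vm := H50.isDiscrete_res _ _ (H50.isCont_subtype 𝓛 N₀) 𝒟.discrete_Vm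
  discrete_W := H50.isDiscrete_res _ _ (H50.isCont_subtype 𝓛 N₀) 𝒟.discrete_W

/-- The trivial line `𝔽_p`. -/
abbrev line (H : Type) [Group H] (p : ℕ) [Fact p.Prime] : Rep.{0} (ZMod p) H :=
  Rep.trivial (ZMod p) H (ZMod p)

/-- Scalar multiplication pairing `A × 𝔽_p → A`. -/
def smulPairing' (A : Rep.{0} (ZMod p) H) : RepPairing A (line H p) A where
  toFun := (LinearMap.lsmul (ZMod p) A.V).flip
  equivariant g a c := by
    simp

variable (𝒟 : WDatum p 𝓛) (tr : 𝓛.H1 𝒟.W →ₗ[ZMod p] ZMod p)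

/-- The pairing of axiom (I1'), intrinsic form: `W^H × H¹(H; 𝔽_p) → 𝔽_p`. -/
def pairI1' : ↥𝒟.W.ρ.invariants →ₗ[ZMod p] Module.Dual (ZMod p) (𝓛.H1 (line H p)) :=
  (pair01 𝓛 (smulPairing' 𝒟.W)).compr₂ tr

/-- Axiom (I1'), intrinsic form. -/
def AxI1' : Prop :=
  Function.Surjective (pairI1' 𝒟 tr) ∧
    LinearMap.ker (pairI1' 𝒟 tr) = LinearMap.range (H50.coeffH0 𝒟.d)

/-- Axiom (I2'), intrinsic form. -/
def AxI2' : Prop := Function.Bijective tr

lemma axI2_iff (N₀ : Subgroup H) (hN : 𝓛.IsOpen N₀) :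
    AxI2 𝒟 tr N₀ hN ↔ AxI2' (resDatum 𝒟 N₀) (tr ∘ₗ H50.cor1 𝓛 N₀ hN 𝒟.W) := Iff.rfl

lemma axI1_iff (N₀ : Subgroup H) (hN : 𝓛.IsOpen N₀) :
    AxI1 𝒟 tr N₀ hN ↔ AxI1' (resDatum 𝒟 N₀) (tr ∘ₗ H50.cor1 𝓛 N₀ hN 𝒟.W) := Iff.rfl

/-! ## Naturality of the duality maps in `X` -/

section Natural

variable {X Y : Rep.{0} (ZMod p) H} (u : X ⟶ Y)

lemma alpha2_pre (y : 𝒟.T2 Y) (x : LevelStructure.H0 X) :
    𝒟.alpha2 tr X (H50.coeffH1 𝓛 (homRepPre u 𝒟.W) y) x = 𝒟.alpha2 tr Y y (H50.coeffH0 u x) := by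
  induction y using Submodule.Quotient.induction_on with
  | H φ => rfl

lemma alpha1num_pre (h : 𝒟.T1num Y) (ξ : 𝓛.H1 X) :
    𝒟.alpha1num tr X (H50.coeffH0 (homRepPre u 𝒟.W) h) ξ =
      𝒟.alpha1num tr Y h (H50.coeffH1 𝓛 u ξ) := by
  induction ξ using Submodule.Quotient.induction_on with
  | H ξ => rfl

lemma pre_post (v : LevelStructure.H0 (homRep Y 𝒟.Vm)) :
    H50.coeffH0 (homRepPre u 𝒟.W) (H50.coeffH0 (homRepMap Y 𝒟.d) v) =
      H50.coeffH0 (homRepMap X 𝒟.d) (H50.coeffH0 (homRepPre u 𝒟.Vm) v) :=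
  Subtype.ext rfl

end Natural

/-! ## Retracts of finite direct sums -/

section Sum

variable {ι : Type} [Fintype ι] {X : Rep.{0} (ZMod p) H} {Y : ι → Rep.{0} (ZMod p) H}
  (inc : ∀ i, Y i ⟶ X) (pr : ∀ i, X ⟶ Y i)
  (hs : ∀ x : X.V, ∑ i, (inc i).hom ((pr i).hom x) = x)

include hs


lemma sum_coeffH1 (y : 𝓛.H1 X) :
    ∑ i, H50.coeffH1 𝓛 (inc i) (H50.coeffH1 𝓛 (pr i) y) = y := by
  induction y using Submodule.Quotient.induction_on with
  | H ξ =>
    have : ∑ i, H50.coeffH1 𝓛 (inc i) (H50.coeffH1 𝓛 (pr i) (𝓛.H1π X ξ)) =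
        𝓛.H1π X (∑ i, H50.mapZ1 𝓛 𝓛 (H50.isCont_id 𝓛) (H50.isEquivariant_hom (inc i))
          (H50.mapZ1 𝓛 𝓛 (H50.isCont_id 𝓛) (H50.isEquivariant_hom (pr i)) ξ)) := by
      rw [map_sum]
      rfl
    refine this.trans (congrArg _ (Subtype.ext ?_))
    funext g
    rw [Submodule.coe_sum, Finset.sum_apply]
    exact hs (ξ.1 g)


lemma sum_pre_H1 (W : Rep.{0} (ZMod p) H) (y : 𝓛.H1 (homRep X W)) :
    ∑ i, H50.coeffH1 𝓛 (homRepPre (pr i) W) (H50.coeffH1 𝓛 (homRepPre (inc i) W) y) = y := by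
  induction y using Submodule.Quotient.induction_on with
  | H φ =>
    have : ∑ i, H50.coeffH1 𝓛 (homRepPre (pr i) W)
          (H50.coeffH1 𝓛 (homRepPre (inc i) W) (𝓛.H1π _ φ)) =
        𝓛.H1π _ (∑ i, H50.mapZ1 𝓛 𝓛 (H50.isCont_id 𝓛)
          (H50.isEquivariant_hom (homRepPre (pr i) W))
          (H50.mapZ1 𝓛 𝓛 (H50.isCont_id 𝓛) (H50.isEquivariant_hom (homRepPre (inc i) W)) φ)) := by
      rw [map_sum]
      rfl
    refine this.trans (congrArg _ (Subtype.ext ?_))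
    funext g
    rw [Submodule.coe_sum, Finset.sum_apply]
    refine LinearMap.ext fun x => ?_
    rw [LinearMap.sum_apply]
    show ∑ i, (φ.1 g) ((inc i).hom ((pr i).hom x)) = (φ.1 g) x
    rw [← map_sum, hs]


lemma sum_pre_H0 (W : Rep.{0} (ZMod p) H) (h : LevelStructure.H0 (homRep X W)) :
    ∑ i, H50.coeffH0 (homRepPre (pr i) W) (H50.coeffH0 (homRepPre (inc i) W) h) = h := by
  refine Subtype.ext ?_
  rw [Submodule.coe_sum]
  refine LinearMap.ext fun x => ?_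
  rw [LinearMap.sum_apply]
  show ∑ i, h.1 ((inc i).hom ((pr i).hom x)) = h.1 x
  rw [← map_sum, hs]

/-- Duality in degree `2` passes to retracts of finite direct sums. -/
theorem isDual2_of_sum (h2 : ∀ i, 𝒟.IsDual2 tr (Y i)) : 𝒟.IsDual2 tr X := by
  refine ⟨?_, ?_⟩
  · rw [injective_iff_map_eq_zero]
    intro y hy
    rw [← sum_pre_H1 inc pr hs 𝒟.W y]
    refine Finset.sum_eq_zero fun i _ => ?_
    have : H50.coeffH1 𝓛 (homRepPre (inc i) 𝒟.W) y = 0 := by
      apply (h2 i).1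
      rw [map_zero]
      refine LinearMap.ext fun x => ?_
      rw [alpha2_pre, hy]
      rfl
    rw [this, map_zero]
  · intro ψ
    choose y hy using fun i => (h2 i).2 (ψ ∘ₗ H50.coeffH0 (inc i))
    refine ⟨∑ i, H50.coeffH1 𝓛 (homRepPre (pr i) 𝒟.W) (y i), ?_⟩
    refine LinearMap.ext fun x => ?_
    rw [map_sum, LinearMap.sum_apply]
    have hx : ∑ i, H50.coeffH0 (inc i) (H50.coeffH0 (pr i) x) = x := by
      refine Subtype.ext ?_
      rw [Submodule.coe_sum]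
      exact hs x.1
    conv_rhs => rw [← hx, map_sum]
    refine Finset.sum_congr rfl fun i _ => ?_
    rw [alpha2_pre, hy]
    rfl

/-- Duality in degree `1` passes to retracts of finite direct sums. -/
theorem isDual1_of_sum (h1 : ∀ i, 𝒟.IsDual1 tr (Y i)) : 𝒟.IsDual1 tr X := by
  refine ⟨?_, ?_⟩
  · intro ψ
    choose h hh using fun i => (h1 i).1 (ψ ∘ₗ H50.coeffH1 𝓛 (inc i))
    refine ⟨∑ i, H50.coeffH0 (homRepPre (pr i) 𝒟.W) (h i), ?_⟩
    refine LinearMap.ext fun ξ => ?_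
    rw [map_sum, LinearMap.sum_apply]
    conv_rhs => rw [← sum_coeffH1 (𝓛 := 𝓛) inc pr hs ξ, map_sum]
    refine Finset.sum_congr rfl fun i _ => ?_
    rw [alpha1num_pre, hh]
    rfl
  · ext h
    constructor
    · intro hk
      rw [LinearMap.mem_ker] at hk
      have hi : ∀ i, ∃ v : LevelStructure.H0 (homRep (Y i) 𝒟.Vm),
          H50.coeffH0 (homRepMap (Y i) 𝒟.d) v = H50.coeffH0 (homRepPre (inc i) 𝒟.W) h := by
        intro i
        have : H50.coeffH0 (homRepPre (inc i) 𝒟.W) h ∈ LinearMap.ker (𝒟.alpha1num tr (Y i)) := by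
          rw [LinearMap.mem_ker]
          refine LinearMap.ext fun ξ => ?_
          rw [alpha1num_pre, hk]
          rfl
        rw [(h1 i).2] at this
        exact this
      choose v hv using hi
      refine ⟨∑ i, H50.coeffH0 (homRepPre (pr i) 𝒟.Vm) (v i), ?_⟩
      rw [map_sum]
      conv_rhs => rw [← sum_pre_H0 inc pr hs 𝒟.W h]
      refine Finset.sum_congr rfl fun i _ => ?_
      rw [← pre_post, hv]
    · rintro ⟨v, rfl⟩
      rw [LinearMap.mem_ker]
      rw [← sum_pre_H0 inc pr hs 𝒟.W (H50.coeffH0 (homRepMap X 𝒟.d) v), map_sum]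
      refine Finset.sum_eq_zero fun i _ => ?_
      have : H50.coeffH0 (homRepPre (inc i) 𝒟.W) (H50.coeffH0 (homRepMap X 𝒟.d) v) ∈
          LinearMap.ker (𝒟.alpha1num tr (Y i)) := by
        rw [(h1 i).2, pre_post]
        exact ⟨_, rfl⟩
      rw [LinearMap.mem_ker] at this
      refine LinearMap.ext fun ξ => ?_
      rw [alpha1num_pre, this]
      rfl

end Sum

/-! ## The trivial line -/

section Line

/-- Evaluation at `1`: `Hom(𝔽_p, A) ⟶ A`. -/
def evOne (A : Rep.{0} (ZMod p) H) : homRep (line H p) A ⟶ A :=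
  Rep.ofHom ⟨(LinearMap.applyₗ (1 : ZMod p) : (ZMod p →ₗ[ZMod p] A.V) →ₗ[ZMod p] A.V), fun g => by
    refine LinearMap.ext fun f => ?_
    rfl⟩

/-- `a ↦ (c ↦ c • a)` : `A ⟶ Hom(𝔽_p, A)`. -/
def smOne (A : Rep.{0} (ZMod p) H) : A ⟶ homRep (line H p) A :=
  Rep.ofHom ⟨(LinearMap.lsmul (ZMod p) A.V).flip, fun g => by
    refine LinearMap.ext fun a => LinearMap.ext fun c => ?_
    show c • A.ρ g a = A.ρ g (c • a)
    rw [map_smul]⟩

@[simp] lemma evOne_apply (A : Rep.{0} (ZMod p) H) (f : ZMod p →ₗ[ZMod p] A.V) :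
    (evOne (H := H) A).hom f = f 1 := rfl

@[simp] lemma smOne_apply (A : Rep.{0} (ZMod p) H) (a : A.V) (c : ZMod p) :
    ((smOne (H := H) A).hom a : ZMod p →ₗ[ZMod p] A.V) c = c • a := rfl

lemma coeffH1_evOne_smOne (A : Rep.{0} (ZMod p) H) (z : 𝓛.H1 A) :
    H50.coeffH1 𝓛 (evOne A) (H50.coeffH1 𝓛 (smOne A) z) = z := by
  induction z using Submodule.Quotient.induction_on with
  | H ζ =>
    refine congrArg (𝓛.H1π A) (Subtype.ext ?_)
    funext g
    show (1 : ZMod p) • ζ.1 g = ζ.1 g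
    rw [one_smul]

lemma coeffH1_smOne_evOne (A : Rep.{0} (ZMod p) H) (y : 𝓛.H1 (homRep (line H p) A)) :
    H50.coeffH1 𝓛 (smOne A) (H50.coeffH1 𝓛 (evOne A) y) = y := by
  induction y using Submodule.Quotient.induction_on with
  | H φ =>
    refine congrArg (𝓛.H1π _) (Subtype.ext ?_)
    funext g
    refine LinearMap.ext fun c => ?_
    show c • (φ.1 g) (1 : ZMod p) = (φ.1 g) c
    rw [← map_smul, smul_eq_mul, mul_one]

lemma coeffH0_evOne_smOne (A : Rep.{0} (ZMod p) H) (a : LevelStructure.H0 A) :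
    H50.coeffH0 (evOne A) (H50.coeffH0 (smOne A) a) = a := by
  refine Subtype.ext ?_
  show (1 : ZMod p) • a.1 = a.1
  rw [one_smul]

lemma coeffH0_smOne_evOne (A : Rep.{0} (ZMod p) H) (h : LevelStructure.H0 (homRep (line H p) A)) :
    H50.coeffH0 (smOne A) (H50.coeffH0 (evOne A) h) = h := by
  refine Subtype.ext ?_
  refine LinearMap.ext fun c => ?_
  show c • h.1 (1 : ZMod p) = h.1 c
  rw [← map_smul, smul_eq_mul, mul_one]

/-- The invariant vector `1` of the trivial line. -/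
def lineOne : LevelStructure.H0 (line H p) := ⟨(1 : ZMod p), fun _ => rfl⟩

lemma alpha2_line (y : 𝒟.T2 (line H p)) (x : LevelStructure.H0 (line H p)) :
    𝒟.alpha2 tr (line H p) y x = (x.1 : ZMod p) • tr (H50.coeffH1 𝓛 (evOne 𝒟.W) y) := by
  induction y using Submodule.Quotient.induction_on with
  | H φ =>
    rw [← map_smul, ← map_smul]
    refine congrArg tr (congrArg (𝓛.H1π 𝒟.W) (Subtype.ext ?_))
    funext g
    show (φ.1 g) x.1 = (x.1 : ZMod p) • (φ.1 g) (1 : ZMod p)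
    rw [← map_smul, smul_eq_mul, mul_one]

/-- Duality in degree `2` for the trivial line is axiom (I2'). -/
theorem isDual2_line (h2 : AxI2' 𝒟 tr) : 𝒟.IsDual2 tr (line H p) := by
  refine ⟨?_, ?_⟩
  · rw [injective_iff_map_eq_zero]
    intro y hy
    have h0 : tr (H50.coeffH1 𝓛 (evOne 𝒟.W) y) = 0 := by
      have := alpha2_line 𝒟 tr y lineOne
      rw [hy] at this
      simpa [lineOne] using this.symm
    have h1 : H50.coeffH1 𝓛 (evOne 𝒟.W) y = 0 := h2.1 (by rw [h0, map_zero])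
    rw [← coeffH1_smOne_evOne 𝒟.W y, h1, map_zero]
  · intro ψ
    obtain ⟨z, hz⟩ := h2.2 (ψ lineOne)
    refine ⟨H50.coeffH1 𝓛 (smOne 𝒟.W) z, ?_⟩
    refine LinearMap.ext fun x => ?_
    rw [alpha2_line, coeffH1_evOne_smOne, hz, ← map_smul]
    refine congrArg ψ (Subtype.ext ?_)
    show (x.1 : ZMod p) • (1 : ZMod p) = x.1
    rw [smul_eq_mul, mul_one]

lemma alpha1num_line (h : 𝒟.T1num (line H p)) :
    𝒟.alpha1num tr (line H p) h = pairI1' 𝒟 tr (H50.coeffH0 (evOne 𝒟.W) h) := by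
  refine LinearMap.ext fun ξ => ?_
  induction ξ using Submodule.Quotient.induction_on with
  | H ξ =>
    refine congrArg tr (congrArg (𝓛.H1π 𝒟.W) (Subtype.ext ?_))
    funext g
    show h.1 (ξ.1 g) = (ξ.1 g : ZMod p) • h.1 (1 : ZMod p)
    rw [← map_smul, smul_eq_mul, mul_one]

/-- Duality in degree `1` for the trivial line is axiom (I1'). -/
theorem isDual1_line (h1 : AxI1' 𝒟 tr) : 𝒟.IsDual1 tr (line H p) := by
  refine ⟨?_, ?_⟩
  · intro ψ
    obtain ⟨w, hw⟩ := h1.1 ψ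
    refine ⟨H50.coeffH0 (smOne 𝒟.W) w, ?_⟩
    rw [alpha1num_line, coeffH0_evOne_smOne, hw]
  · ext h
    rw [LinearMap.mem_ker, alpha1num_line, ← LinearMap.mem_ker, h1.2]
    constructor
    · rintro ⟨v, hv⟩
      refine ⟨H50.coeffH0 (smOne 𝒟.Vm) v, ?_⟩
      rw [← coeffH0_smOne_evOne 𝒟.W h, ← hv]
      refine Subtype.ext (LinearMap.ext fun c => ?_)
      show 𝒟.d.hom (c • v.1) = c • 𝒟.d.hom v.1
      rw [map_smul]
    · rintro ⟨u, rfl⟩
      exact ⟨H50.coeffH0 (evOne 𝒟.Vm) u, Subtype.ext rfl⟩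

/-- Conversely, duality in degree `2` for the trivial line gives back axiom (I2'): the trace is
bijective. -/
theorem bijective_tr_of_isDual2_line (h : 𝒟.IsDual2 tr (line H p)) : Function.Bijective tr := by
  refine ⟨?_, ?_⟩
  · rw [injective_iff_map_eq_zero]
    intro z hz
    have h0 : H50.coeffH1 𝓛 (smOne 𝒟.W) z = 0 := by
      apply h.1
      rw [map_zero]
      refine LinearMap.ext fun x => ?_
      rw [alpha2_line, coeffH1_evOne_smOne, hz, smul_zero]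
      rfl
    rw [← coeffH1_evOne_smOne 𝒟.W z, h0, map_zero]
  · intro a
    obtain ⟨y, hy⟩ := h.2 (a • (LevelStructure.H0 (line H p)).subtype)
    refine ⟨H50.coeffH1 𝓛 (evOne 𝒟.W) y, ?_⟩
    have := alpha2_line 𝒟 tr y lineOne
    rw [hy] at this
    simpa [lineOne] using this.symm

/-- The trivial line is finite discrete. -/
lemma isFinDiscrete_line (𝓛 : LevelStructure H) : IsFinDiscrete 𝓛 (line H p) where
  finite := inferInstanceAs (Finite (ZMod p))
  discrete := fun _ => by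
    obtain ⟨N, hN⟩ := 𝓛.nonempty
    exact ⟨N, hN, fun _ _ => rfl⟩

end Line

/-! ## Finite modules with trivial action -/

section Trivial

/-- The morphism `𝔽_p ⟶ X`, `c ↦ c • e`, for `X` with trivial action. -/
def lineInc (X : Rep.{0} (ZMod p) H) (htriv : ∀ g, X.ρ g = 1) (e : X.V) : line H p ⟶ X :=
  Rep.ofHom ⟨(LinearMap.toSpanSingleton (ZMod p) X.V e), fun g => by
    refine LinearMap.ext fun c => ?_
    show c • e = X.ρ g (c • e)
    rw [htriv g]
    rfl⟩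

/-- The morphism `X ⟶ 𝔽_p` given by a linear form, for `X` with trivial action. -/
def linePr (X : Rep.{0} (ZMod p) H) (htriv : ∀ g, X.ρ g = 1) (f : X.V →ₗ[ZMod p] ZMod p) :
    X ⟶ line H p :=
  Rep.ofHom ⟨f, fun g => by
    refine LinearMap.ext fun x => ?_
    show f (X.ρ g x) = f x
    rw [htriv g]
    rfl⟩

/-- **Duality for finite modules with trivial action**, from the axioms (I1'), (I2'). -/
theorem isDual_of_trivial (h1 : AxI1' 𝒟 tr) (h2 : AxI2' 𝒟 tr) (X : Rep.{0} (ZMod p) H)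
    (hfin : Finite X.V) (htriv : ∀ g, X.ρ g = 1) : 𝒟.IsDual2 tr X ∧ 𝒟.IsDual1 tr X := by
  have : Module.Finite (ZMod p) X.V := Module.finite_iff_finite.2 hfin
  let b := Module.finBasis (ZMod p) X.V
  have hs : ∀ x : X.V, ∑ i, (lineInc X htriv (b i)).hom ((linePr X htriv (b.coord i)).hom x) = x := by
    intro x
    exact b.sum_repr x
  exact ⟨isDual2_of_sum 𝒟 tr _ _ hs (fun _ => isDual2_line 𝒟 tr h2),
    isDual1_of_sum 𝒟 tr _ _ hs (fun _ => isDual1_line 𝒟 tr h1)⟩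

end Trivial

/-- The form used by D1-shapiro: (I1'), (I2') at `N₀` give duality over `N₀` (for the restricted
datum and the trace `tr ∘ cor`) for every finite `X` on which `N₀` acts trivially. -/
theorem isDual_resSub_of_axioms (N₀ : Subgroup H) (hN : 𝓛.IsOpen N₀)
    (h1 : AxI1 𝒟 tr N₀ hN) (h2 : AxI2 𝒟 tr N₀ hN) (X : Rep.{0} (ZMod p) H)
    (hfin : Finite X.V) (htriv : ∀ n ∈ N₀, X.ρ n = 1) :
    (resDatum 𝒟 N₀).IsDual2 (tr ∘ₗ H50.cor1 𝓛 N₀ hN 𝒟.W) (Rep.res N₀.subtype X) ∧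
      (resDatum 𝒟 N₀).IsDual1 (tr ∘ₗ H50.cor1 𝓛 N₀ hN 𝒟.W) (Rep.res N₀.subtype X) :=
  isDual_of_trivial (resDatum 𝒟 N₀) (tr ∘ₗ H50.cor1 𝓛 N₀ hN 𝒟.W)
    ((axI1_iff 𝒟 tr N₀ hN).1 h1) ((axI2_iff 𝒟 tr N₀ hN).1 h2) (Rep.res N₀.subtype X) hfin
    (fun n => htriv n.1 n.2)

end Fermat.Agent.CFT.H68
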