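/-
CFT layer D: the trace of a `W`-datum satisfying duality is bijective on `H¹(H; W)`.
`D1Conclusion 𝓛 𝒟 tr → Function.Bijective tr` (duality in degree 2 for the trivial line `𝔽_p`),
so the consumers of `formation_duality` (D3-inst: `tr_C`, `tr_v` injective, board #1062/#1257)
need no extra export from D2.
Chief architect: helper91.
-/
import Fermat.Agent.CFT.H68_TrivialDual
import Fermat.Agent.CFT.H91_DStatements

set_option autoImplicit false

noncomputable section

open CategoryTheory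

namespace Fermat.Agent.CFT.H91

open Fermat.Agent.CFT

variable {p : ℕ} [Fact p.Prime] {H : Type} [Group H] {𝓛 : LevelStructure H}
  (𝒟 : WDatum p 𝓛) (tr : 𝓛.H1 𝒟.W →ₗ[ZMod p] ZMod p)

/-- The trivial line `𝔽_p` is finite and discrete. -/
theorem isFinDiscrete_line : IsFinDiscrete 𝓛 (H68.line H p) where
  finite := inferInstanceAs (Finite (ZMod p))
  discrete := fun _ => by
    obtain ⟨N, hN⟩ := 𝓛.nonempty
    exact ⟨N, hN, fun _ _ => rfl⟩

/-- Duality in degree `2` for the trivial line forces the trace to be bijective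
(converse of `H68.isDual2_line`). -/
theorem bijective_tr_of_isDual2_line (h : 𝒟.IsDual2 tr (H68.line H p)) :
    Function.Bijective tr := by
  refine ⟨?_, ?_⟩
  · rw [injective_iff_map_eq_zero]
    intro z hz
    have h0 : 𝒟.alpha2 tr (H68.line H p) (H50.coeffH1 𝓛 (H68.smOne 𝒟.W) z) = 0 := by
      refine LinearMap.ext fun x => ?_
      rw [H68.alpha2_line, H68.coeffH1_evOne_smOne, hz, smul_zero]
      rfl
    have h1 : H50.coeffH1 𝓛 (H68.smOne 𝒟.W) z = 0 := h.1 (by rw [h0, map_zero])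
    rw [← H68.coeffH1_evOne_smOne (𝓛 := 𝓛) 𝒟.W z, h1, map_zero]
  · intro c
    -- the functional `x ↦ x • c` on `H⁰(H; 𝔽_p)`
    let ψ : Module.Dual (ZMod p) (LevelStructure.H0 (H68.line H p)) :=
      { toFun := fun x => (x.1 : ZMod p) * c
        map_add' := fun x y => by
          show ((x + y).1 : ZMod p) * c = _
          rw [show ((x + y).1 : ZMod p) = x.1 + y.1 from rfl, add_mul]
        map_smul' := fun a x => by
          show ((a • x).1 : ZMod p) * c = a • ((x.1 : ZMod p) * c)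
          rw [show ((a • x).1 : ZMod p) = a * x.1 from rfl, smul_eq_mul, mul_assoc] }
    obtain ⟨y, hy⟩ := h.2 ψ
    refine ⟨H50.coeffH1 𝓛 (H68.evOne 𝒟.W) y, ?_⟩
    have h1 := H68.alpha2_line 𝒟 tr y H68.lineOne
    rw [hy] at h1
    have h2 : ψ H68.lineOne = c := by
      show ((1 : ZMod p)) * c = c
      rw [one_mul]
    have h3 : ((H68.lineOne (H := H) (p := p)).1 : ZMod p) = 1 := rfl
    rw [h2, h3, one_smul] at h1
    exact h1.symm

/-- **The trace of a datum satisfying duality is bijective.** -/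
theorem bijective_tr_of_d1Conclusion (h : D1Conclusion 𝓛 𝒟 tr) : Function.Bijective tr :=
  bijective_tr_of_isDual2_line 𝒟 tr (h _ isFinDiscrete_line).1

/-- `H¹(H; W)` is one-dimensional: a version of `formation_duality` which also exports
bijectivity of the trace. -/
theorem formation_duality' (hD1 : D1Statement p) (hD2 : D2Statement p)
    (𝓛 : LevelStructure H) (C : Rep.{0} ℤ H) (hC : 𝓛.IsDiscrete C)
    (F : PClassFormation p 𝓛 C) (hDIV : HasDIV 𝓛 p) (hFIN : HasFIN 𝓛 C p)
    (good : Subgroup H → Prop)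
    (hgood : ∀ N ∈ 𝓛.levels, ∃ N' ∈ 𝓛.levels, N' ≤ N ∧ N'.Normal ∧ good N')
    (hEX : ∀ N₀ ∈ 𝓛.levels, N₀.Normal → good N₀ → HasEXIST 𝓛 C p N₀) (hp : p ≠ 0) :
    ∃ tr : 𝓛.H1 (H36.canonicalEnvelope 𝓛 p hp C hC).wDatum.W →ₗ[ZMod p] ZMod p,
      D1Conclusion 𝓛 (H36.canonicalEnvelope 𝓛 p hp C hC).wDatum tr ∧ Function.Bijective tr := by
  obtain ⟨tr, h⟩ := formation_duality hD1 hD2 𝓛 C hC F hDIV hFIN good hgood hEX hp
  exact ⟨tr, h, bijective_tr_of_d1Conclusion _ tr h⟩

end Fermat.Agent.CFT.H91
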