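/-
CFT layer D: **abstract Tate duality for a `p`-class formation, unconditional** = D1 ∘ D2 with
`H86.d1Statement` and `H62.d2Statement` plugged in.  Also an integration check that the D1 and D2
closures can be imported together.
Author: helper62.
-/
import Fermat.Agent.CFT.H62_D2Statement
import Fermat.Agent.CFT.H86_D1Statement
import Fermat.Agent.CFT.H91_TraceBijective

set_option autoImplicit false

open CategoryTheory

namespace Fermat.Agent.CFT.H62

variable {p : ℕ} [Fact p.Prime] {H : Type} [Group H]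

/-- **Abstract Tate duality for a `p`-class formation**, unconditional: for a `p`-class formation
`(H, 𝓛, C)` with (DIV), (FIN) and (EXIST) on a cofinal family of good normal levels, the `W`-datum
of the canonical envelope of `C` carries a bijective trace for which `α¹`, `α²` are bijective for
all finite discrete `𝔽_p[H]`-modules. -/
theorem formation_duality_main (𝓛 : LevelStructure H) (C : Rep.{0} ℤ H) (hC : 𝓛.IsDiscrete C)
    (F : PClassFormation p 𝓛 C) (hDIV : HasDIV 𝓛 p) (hFIN : HasFIN 𝓛 C p)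
    (good : Subgroup H → Prop)
    (hgood : ∀ N ∈ 𝓛.levels, ∃ N' ∈ 𝓛.levels, N' ≤ N ∧ N'.Normal ∧ good N')
    (hEX : ∀ N₀ ∈ 𝓛.levels, N₀.Normal → good N₀ → HasEXIST 𝓛 C p N₀) (hp : p ≠ 0) :
    ∃ tr : 𝓛.H1 (H36.canonicalEnvelope 𝓛 p hp C hC).wDatum.W →ₗ[ZMod p] ZMod p,
      D1Conclusion 𝓛 (H36.canonicalEnvelope 𝓛 p hp C hC).wDatum tr ∧ Function.Bijective tr :=
  H91.formation_duality' (H86.d1Statement p) d2Statement 𝓛 C hC F hDIV hFIN good hgood hEX hp

/-- the same for an arbitrary acyclic envelope `E` of `C` (hypotheses `hEac`, `hVm` of D2 and (AC)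
of D1), with the explicit trace `H62.trace F E hDIV = inv_H ∘ θ_H`. -/
theorem envelope_duality_main (𝓛 : LevelStructure H) (C : Rep.{0} ℤ H)
    (F : PClassFormation p 𝓛 C) (E : H36.DivEnvelope 𝓛 p C)
    (hEac : ∀ U : Subgroup H, 𝓛.IsOpen U →
      Subsingleton ((𝓛.restrict U).H1 (Rep.res U.subtype E.I)) ∧
      Subsingleton ((𝓛.restrict U).H2 (Rep.res U.subtype E.I)))
    (hVm : ∀ U : Subgroup H, 𝓛.IsOpen U →
      Subsingleton ((𝓛.restrict U).H1 (Rep.res U.subtype (H36.torsionRep p E.I))))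
    (hAC : E.wDatum.IsAcyclic)
    (hDIV : HasDIV 𝓛 p) (hFIN : HasFIN 𝓛 C p) (good : Subgroup H → Prop)
    (hgood : ∀ N ∈ 𝓛.levels, ∃ N' ∈ 𝓛.levels, N' ≤ N ∧ N'.Normal ∧ good N')
    (hEX : ∀ N₀ ∈ 𝓛.levels, N₀.Normal → good N₀ → HasEXIST 𝓛 C p N₀) :
    D1Conclusion 𝓛 E.wDatum (trace F E hDIV) ∧ Function.Bijective (trace F E hDIV) := by
  have h1 : D1Conclusion 𝓛 E.wDatum (trace F E hDIV) :=
    H86.d1Statement p H 𝓛 E.wDatum (trace F E hDIV) hAC good hgood
      (fun N₀ hN hnor hg =>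
        ⟨axI1 F E hDIV hEac hVm hFIN N₀ ⟨N₀, hN, le_rfl⟩ (hEX N₀ hN hnor hg),
          axI2 F E hDIV hEac hVm N₀ ⟨N₀, hN, le_rfl⟩⟩)
      (fun U hU => axI3 F E hDIV hEac U hU)
  exact ⟨h1, H91.bijective_tr_of_d1Conclusion _ _ h1⟩

end Fermat.Agent.CFT.H62
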