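/-
CFT layer C, package C-EXIST, piece (T2) of helper3's split (#1608): from the norm property (B4)
of the pairing `B : CS S K → Kˣ → ZMod p` to
 (i)   `hsplit` : locally trivial Kummer classes are orthogonal to the image of `JS S K`,
 (ii)  `hzero`  : an idele class which is a norm from every cyclic degree-`p` layer unramified
                  outside `S` is orthogonal to all of `X`,
 (iii) `hnd'`   : right-nondegeneracy in the shape of the counting core.
Author: helper62.
-/
import Mathlib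
import Fermat.Agent.CFT.H3_ExistInputs
import Fermat.Agent.CFT.H10_ExistUnram2

set_option autoImplicit false
set_option linter.unusedSectionVars false

namespace Fermat.Agent.CFT.H62

open scoped TensorProduct NumberField
open IsDedekindDomain Fermat.Agent.CFT.H23 Fermat.Agent.CFT.H10 Fermat.Agent.CFT.H51
  Fermat.Agent.CFT.H3

section Split

variable (S : Finset Nat.Primes) {K : Type} [Field K] [NumberField K] {p : ℕ} [hp : Fact p.Prime]
  (X : Subgroup Kˣ) (B : CS S K → Kˣ → ZMod p)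

/-- a `p`-th power in `K` of a unit is a `p`-th power in `Kˣ` -/
lemma exists_units_pow_eq {x : Kˣ} {c : K} (hc : c ^ p = (x : K)) : ∃ c' : Kˣ, c' ^ p = x := by
  have hc0 : c ≠ 0 := by
    rintro rfl
    rw [zero_pow hp.out.ne_zero] at hc
    exact x.ne_zero hc.symm
  exact ⟨Units.mk0 c hc0, Units.ext (by rw [Units.val_pow_eq_pow_val, Units.val_mk0, hc])⟩

/-- **(ii) hzero**: an idele class which is a norm from every cyclic layer of degree `p`
unramified outside `S` is orthogonal to every `x ∈ X`. -/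
theorem hzero_of_norm (hpS : (⟨p, hp.out⟩ : Nat.Primes) ∈ S) {ζ : K} (hζ : IsPrimitiveRoot ζ p)
    (hX : ∀ x ∈ X, ∀ v : PrimesOutside S K, ∃ k : ℤ,
      Multiplicative.toAdd (ordAt K v.1 x) = p * k)
    (hB3 : ∀ a (c : Kˣ), B a (c ^ p) = 0)
    (hB4 : ∀ a, ∀ x ∈ X, ∀ (M : Type) [Field M] [NumberField M] [Algebra K M] [IsGalois K M],
      Module.finrank K M = p → UnramOutside S K M → ∀ α : M, α ^ p = algebraMap K M (x : K) →
      (∃ y : CS S M, CS.baseChange S K M a = ∏ τ : M ≃ₐ[K] M, τ • y) → B a x = 0)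
    (a : CS S K)
    (ha : ∀ (M : Type) [Field M] [NumberField M] [Algebra K M] [IsGalois K M],
      Module.finrank K M = p → UnramOutside S K M →
        ∃ y : CS S M, CS.baseChange S K M a = ∏ τ : M ≃ₐ[K] M, τ • y)
    (x : Kˣ) (hx : x ∈ X) : B a x = 0 := by
  by_cases hpow : ∃ c : K, c ^ p = (x : K)
  · obtain ⟨c, hc⟩ := hpow
    obtain ⟨c', rfl⟩ := exists_units_pow_eq hc
    exact hB3 a c'
  · push Not at hpow
    obtain ⟨L, _, _, _, _, hdeg, hur, α, hα, -⟩ :=
      exists_kummer_ext_of_dvd S K hp.out hpS hζ x (hX x hx) hpow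
    exact hB4 a x hx L hdeg hur α hα (ha L hdeg hur)

/-- **(i) hsplit**: if `x ∈ X` is a `p`-th power in `JS S K` then the class of every `S`-idele
is orthogonal to `x`. -/
theorem hsplit_of_norm (hpS : (⟨p, hp.out⟩ : Nat.Primes) ∈ S) {ζ : K} (hζ : IsPrimitiveRoot ζ p)
    (hX : ∀ x ∈ X, ∀ v : PrimesOutside S K, ∃ k : ℤ,
      Multiplicative.toAdd (ordAt K v.1 x) = p * k)
    (hB3 : ∀ a (c : Kˣ), B a (c ^ p) = 0)
    (hB4 : ∀ a, ∀ x ∈ X, ∀ (M : Type) [Field M] [NumberField M] [Algebra K M] [IsGalois K M],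
      Module.finrank K M = p → UnramOutside S K M → ∀ α : M, α ^ p = algebraMap K M (x : K) →
      (∃ y : CS S M, CS.baseChange S K M a = ∏ τ : M ≃ₐ[K] M, τ • y) → B a x = 0)
    (x : Kˣ) (hx : x ∈ X) (hloc : ∃ η : JS S K, η ^ p = diagJ S K x) (j : JS S K) :
    B (jsToCS S K j) x = 0 := by
  by_cases hpow : ∃ c : K, c ^ p = (x : K)
  · obtain ⟨c, hc⟩ := hpow
    obtain ⟨c', rfl⟩ := exists_units_pow_eq hc
    exact hB3 _ c'
  · push Not at hpow
    obtain ⟨η, hη⟩ := hloc
    obtain ⟨L, _, _, _, _, hdeg, hur, α, hα, hαK⟩ :=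
      exists_kummer_ext_of_dvd S K hp.out hpS hζ x (hX x hx) hpow
    have hmem := jsToCS_mem_normSubgroup S hp.out hdeg hζ x α hα hαK η hη j
    obtain ⟨m, hm⟩ := (mem_normSubgroup_iff S K L (jsToCS S K j)).1 hmem
    refine hB4 _ x hx L hdeg hur α hα ⟨m, ?_⟩
    rw [← hm, galNorm_apply]

/-- **(iii) hnd'**: right-nondegeneracy in the shape of the counting core. -/
theorem hnd_of_exists
    (hB5 : ∀ x ∈ X, (∀ c : K, c ^ p ≠ (x : K)) → ∃ a, B a x ≠ 0)
    (x : Kˣ) (hx : x ∈ X) (h : ∀ a, B a x = 0) : ∃ c : Kˣ, c ^ p = x := by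
  by_contra hne
  obtain ⟨a, ha⟩ := hB5 x hx (fun c hc => hne (exists_units_pow_eq hc))
  exact ha (h a)

end Split

end Fermat.Agent.CFT.H62
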