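/-
CFT layer C, package C-EXIST (assembly hedge, helper62): the "mod `p`" bridge.

For a commutative group `G` and a prime `p`, `ModP G p := Additive (G ⧸ Gᵖ)` is an `𝔽_p`-vector
space; group homomorphisms induce linear maps, biadditive pairings into `ZMod p` induce linear maps
into the dual, `Nat.card = p ^ finrank`.  With this, helper51's linear-algebra core
`H51.injective_of_count` is restated for commutative groups and cardinalities.
-/
import Mathlib
import Fermat.Agent.CFT.H51_ExistCount
import Fermat.Agent.CFT.H51_ExistDual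

set_option autoImplicit false
set_option linter.unusedSectionVars false

namespace Fermat.Agent.CFT.H62

open Fermat.Agent.CFT.H51 Module

variable {p : ℕ} [hp : Fact p.Prime]

/-- `G / Gᵖ`, written additively. -/
abbrev ModP (G : Type*) [CommGroup G] (p : ℕ) : Type _ := Additive (G ⧸ powSubgroup G p)

namespace ModP

variable {G H : Type*} [CommGroup G] [CommGroup H]

/-- the class of `x : G` in `G / Gᵖ` -/
def mk (p : ℕ) (x : G) : ModP G p := Additive.ofMul (QuotientGroup.mk x)

lemma mk_surjective (y : ModP G p) : ∃ x : G, mk p x = y := by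
  obtain ⟨x, hx⟩ := QuotientGroup.mk_surjective (Additive.toMul y)
  exact ⟨x, congrArg Additive.ofMul hx⟩

lemma mk_mul (x y : G) : mk p (x * y) = mk p x + mk p y := rfl

lemma mk_one : mk p (1 : G) = 0 := rfl

lemma mk_pow (x : G) (n : ℕ) : mk p (x ^ n) = n • mk p x := rfl

lemma mk_eq_zero_iff (x : G) : mk p x = 0 ↔ x ∈ powSubgroup G p := by
  show Additive.ofMul (QuotientGroup.mk x : G ⧸ powSubgroup G p) = Additive.ofMul 1 ↔ _
  rw [Additive.ofMul.apply_eq_iff_eq, QuotientGroup.eq_one_iff]

lemma nsmul_eq_zero (y : ModP G p) : p • y = 0 := by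
  obtain ⟨x, rfl⟩ := mk_surjective y
  rw [← mk_pow, mk_eq_zero_iff]
  exact ⟨x, rfl⟩

/-- the `𝔽_p`-vector space structure on `G / Gᵖ` -/
instance module : Module (ZMod p) (ModP G p) := AddCommGroup.zmodModule nsmul_eq_zero

lemma natCard_eq : Nat.card (ModP G p) = Nat.card (G ⧸ powSubgroup G p) :=
  Nat.card_congr Additive.toMul

instance [Finite (G ⧸ powSubgroup G p)] : Finite (ModP G p) :=
  Finite.of_equiv _ Additive.ofMul

lemma natCard_eq_pow_finrank [Finite (G ⧸ powSubgroup G p)] :
    Nat.card (G ⧸ powSubgroup G p) = p ^ finrank (ZMod p) (ModP G p) := by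
  rw [← natCard_eq, Module.natCard_eq_pow_finrank (K := ZMod p), Nat.card_zmod]

/-- the linear map induced by a group homomorphism -/
def map (p : ℕ) [Fact p.Prime] (f : G →* H) : ModP G p →ₗ[ZMod p] ModP H p :=
  (MonoidHom.toAdditive (quotPowMap f p)).toZModLinearMap p

lemma map_mk (f : G →* H) (x : G) : map p f (mk p x) = mk p (f x) := rfl

/-- `p • m = 0` in an `𝔽_p`-vector space -/
lemma char_nsmul_eq_zero' {M : Type*} [AddCommGroup M] [Module (ZMod p) M] (m : M) :
    p • m = 0 := by
  rw [← Nat.cast_smul_eq_nsmul (ZMod p), ZMod.natCast_self, zero_smul]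

/-- a homomorphism from `G` to (the multiplicative version of) an `𝔽_p`-vector space induces a
linear map on `G / Gᵖ` -/
def lift {M : Type*} [AddCommGroup M] [Module (ZMod p) M] (f : G →* Multiplicative M) :
    ModP G p →ₗ[ZMod p] M :=
  (MonoidHom.toAdditiveLeft (QuotientGroup.lift (powSubgroup G p) f (by
    rintro _ ⟨y, rfl⟩
    show f (y ^ p) = 1
    rw [map_pow]
    show Multiplicative.ofAdd (p • Multiplicative.toAdd (f y)) = 1
    rw [char_nsmul_eq_zero']
    rfl))).toZModLinearMap p

lemma lift_mk {M : Type*} [AddCommGroup M] [Module (ZMod p) M] (f : G →* Multiplicative M)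
    (x : G) : lift f (mk p x) = Multiplicative.toAdd (f x) := rfl

/-- linear maps out of `G / Gᵖ` agree if they agree on classes -/
lemma hom_ext {M : Type*} [AddCommGroup M] [Module (ZMod p) M] {f g : ModP G p →ₗ[ZMod p] M}
    (h : ∀ x : G, f (mk p x) = g (mk p x)) : f = g := by
  ext y
  obtain ⟨x, rfl⟩ := mk_surjective y
  exact h x

section Pairing

variable {V X : Type*} [CommGroup V] [CommGroup X] (β : V → X → ZMod p)
  (hl : ∀ v v' x, β (v * v') x = β v x + β v' x) (hr : ∀ v x x', β v (x * x') = β v x + β v x')

/-- the functional `x ↦ β v x` on `X / Xᵖ` -/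
def pairingRight (hr : ∀ v x x', β v (x * x') = β v x + β v x') (v : V) :
    Module.Dual (ZMod p) (ModP X p) :=
  lift (G := X) (M := ZMod p)
    { toFun := fun x => Multiplicative.ofAdd (β v x)
      map_one' := by
        have h := hr v 1 1
        rw [mul_one] at h
        have h0 : β v 1 = 0 := by
          have := congrArg (fun t => t - β v 1) h
          simpa using this.symm
        rw [h0]; rfl
      map_mul' := fun x x' => by rw [hr]; rfl }

lemma pairingRight_mk (v : V) (x : X) : pairingRight β hr v (mk p x) = β v x := rfl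

/-- the linear map `V / Vᵖ → (X / Xᵖ)^∨` induced by a biadditive pairing `V × X → ZMod p` -/
def pairing : ModP V p →ₗ[ZMod p] Module.Dual (ZMod p) (ModP X p) :=
  lift (G := V) (M := Module.Dual (ZMod p) (ModP X p))
    { toFun := fun v => Multiplicative.ofAdd (pairingRight β hr v)
      map_one' := by
        have h : pairingRight β hr (1 : V) = 0 := hom_ext fun x => by
          rw [pairingRight_mk, LinearMap.zero_apply]
          have h := hl 1 1 x
          rw [mul_one] at h
          have := congrArg (fun t => t - β 1 x) h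
          simpa using this.symm
        rw [h]; rfl
      map_mul' := fun v v' => by
        have h : pairingRight β hr (v * v') = pairingRight β hr v + pairingRight β hr v' :=
          hom_ext fun x => by
            rw [LinearMap.add_apply, pairingRight_mk, pairingRight_mk, pairingRight_mk, hl]
        rw [h]; rfl }

lemma pairing_mk (v : V) (x : X) : pairing β hl hr (mk p v) (mk p x) = β v x := rfl

end Pairing

end ModP

/-! ### helper51's linear-algebra core, for commutative groups and cardinalities -/

section Count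

variable {V X J : Type*} [CommGroup V] [CommGroup X] [CommGroup J]

/-- **The counting core of the existence theorem mod `p`, group form.**  `ι : J → V`,
`lam : X → J` homomorphisms of commutative groups with finite quotients mod `p`-th powers,
`β : V × X → ZMod p` biadditive with `ι ∘ lam ≡ 1`, `β (ι j) x = 0` whenever `lam x` is a
`p`-th power, right-nondegenerate mod `p`-th powers, and
`#(J/p) · #(V/p)² ≤ #(X/p)² · #(im(J/p → V/p))²`.  Then `β` is left-nondegenerate mod `p`-th
powers. -/
theorem mem_powSubgroup_of_count [Finite (V ⧸ powSubgroup V p)] [Finite (X ⧸ powSubgroup X p)]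
    [Finite (J ⧸ powSubgroup J p)] (ι : J →* V) (lam : X →* J) (β : V → X → ZMod p)
    (hl : ∀ v v' x, β (v * v') x = β v x + β v' x) (hr : ∀ v x x', β v (x * x') = β v x + β v x')
    (hιlam : ∀ x, ι (lam x) ∈ powSubgroup V p)
    (hsplit : ∀ x, lam x ∈ powSubgroup J p → ∀ j, β (ι j) x = 0)
    (hnd : ∀ x, (∀ v, β v x = 0) → x ∈ powSubgroup X p)
    (hcount : Nat.card (J ⧸ powSubgroup J p) * Nat.card (V ⧸ powSubgroup V p) ^ 2 ≤
      Nat.card (X ⧸ powSubgroup X p) ^ 2 * Nat.card (quotPowMap ι p).range ^ 2)
    (v : V) (hv : ∀ x, β v x = 0) : v ∈ powSubgroup V p := by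
  have : FiniteDimensional (ZMod p) (ModP V p) := Module.Finite.of_finite
  have : FiniteDimensional (ZMod p) (ModP X p) := Module.Finite.of_finite
  have : FiniteDimensional (ZMod p) (ModP J p) := Module.Finite.of_finite
  have hp1 : 1 < p := hp.out.one_lt
  -- the range of `ι` mod `p`
  have hrange : Nat.card (quotPowMap ι p).range =
      p ^ finrank (ZMod p) (LinearMap.range (ModP.map p ι)) := by
    have h := Module.natCard_eq_pow_finrank (K := ZMod p)
      (V := LinearMap.range (ModP.map p ι))
    rw [Nat.card_zmod] at h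
    rw [← h]
    refine Nat.card_congr (Equiv.subtypeEquiv Additive.ofMul fun y => ?_)
    constructor
    · rintro ⟨j, rfl⟩
      exact ⟨Additive.ofMul j, rfl⟩
    · rintro ⟨j, hj⟩
      exact ⟨Additive.toMul j, Additive.ofMul.injective hj⟩
  have hcount' : finrank (ZMod p) (ModP J p) + 2 * finrank (ZMod p) (ModP V p) ≤
      2 * finrank (ZMod p) (ModP X p) +
        2 * finrank (ZMod p) (LinearMap.range (ModP.map p ι)) := by
    rw [ModP.natCard_eq_pow_finrank (G := J), ModP.natCard_eq_pow_finrank (G := V),
      ModP.natCard_eq_pow_finrank (G := X), hrange, ← pow_mul, ← pow_mul, ← pow_mul, ← pow_add,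
      ← pow_add] at hcount
    have := (Nat.pow_le_pow_iff_right hp1).mp hcount
    omega
  have hinj := injective_of_count (ModP.pairing β hl hr) (ModP.map p ι) (ModP.map p lam)
    (fun x' => by
      obtain ⟨x, rfl⟩ := ModP.mk_surjective x'
      rw [ModP.map_mk, ModP.map_mk, ModP.mk_eq_zero_iff]
      exact hιlam x)
    (fun x' hx' j' => by
      obtain ⟨x, rfl⟩ := ModP.mk_surjective x'
      obtain ⟨j, rfl⟩ := ModP.mk_surjective j'
      rw [ModP.map_mk, ModP.mk_eq_zero_iff] at hx'
      rw [ModP.map_mk, ModP.pairing_mk]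
      exact hsplit x hx' j)
    (fun x' hx' => by
      obtain ⟨x, rfl⟩ := ModP.mk_surjective x'
      rw [ModP.mk_eq_zero_iff]
      refine hnd x fun v => ?_
      rw [← ModP.pairing_mk β hl hr]
      exact hx' _)
    hcount'
  rw [← ModP.mk_eq_zero_iff]
  apply hinj
  rw [map_zero]
  exact ModP.hom_ext fun x => by
    rw [ModP.pairing_mk, LinearMap.zero_apply]
    exact hv x

end Count

end Fermat.Agent.CFT.H62
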