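import Fermat.Agent.CFT.H63_HerbrandExact
import Fermat.Agent.S14.H63_UnitsSetup

set_option autoImplicit false

/-!
# The Herbrand quotient of the unit group in a cyclic extension of odd prime degree is `1/p`
-/

namespace Fermat.Agent.CFT.H63

open Module NumberField Fermat.Agent.Kummer.H63 Fermat.Agent.S14.H63

variable {K L : Type*} [Field K] [Field L] [Algebra K L] [NumberField K] [NumberField L]
  [IsGalois K L] {p : ℕ} [hp : Fact p.Prime]

/-- **Herbrand quotient of units**: in a cyclic extension of odd prime degree `p` of number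
fields, `|H¹(G, E_L)| = p * |Ĥ⁰(G, E_L)|` (both finite). -/
theorem units_herbrand_eq (hp2 : p ≠ 2) (hKL : Module.finrank K L = p) (σ : L ≃ₐ[K] L)
    (hσ : ∀ τ : L ≃ₐ[K] L, τ ∈ Subgroup.zpowers σ) :
    0 < Nat.card (fixedSub (unitsEnd σ) ⧸ LinearMap.range (normTo (unitsEnd_pow_eq_one hKL σ))) ∧
    Nat.card (normKer p (unitsEnd σ) ⧸ LinearMap.range (phiTo (unitsEnd_pow_eq_one hKL σ))) =
      p * Nat.card (fixedSub (unitsEnd σ) ⧸
        LinearMap.range (normTo (unitsEnd_pow_eq_one hKL σ))) := by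
  have hodd : Odd (Module.finrank K L) := by
    rw [hKL]; exact hp.out.odd_of_ne_two hp2
  have hunr : IsUnramifiedAtInfinitePlaces K L := IsUnramifiedAtInfinitePlaces_of_odd_finrank hodd
  have hplaces := IsUnramifiedAtInfinitePlaces.card_infinitePlace K L
  rw [hKL] at hplaces
  have hsK : 0 < Fintype.card (InfinitePlace K) := Fintype.card_pos
  have hsL : 0 < Fintype.card (InfinitePlace L) := Fintype.card_pos
  have hE : finrank ℤ (Additive (𝓞 L)ˣ) + 1 = p * Fintype.card (InfinitePlace K) := by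
    rw [Units.finrank_eq, Units.rank, mul_comm, ← hplaces]
    omega
  have hF : finrank ℤ (fixedSub (unitsEnd σ)) + 1 = Fintype.card (InfinitePlace K) := by
    rw [← range_unitsIncl σ hσ,
      ← (LinearEquiv.ofInjective (unitsIncl K L) unitsIncl_injective).finrank_eq,
      Units.finrank_eq, Units.rank]
    omega
  obtain ⟨k, hk, h0, h1, hkey⟩ := herbrand_eq (p := p) (unitsEnd_pow_eq_one hKL σ)
  refine ⟨h0, ?_⟩
  set s := Fintype.card (InfinitePlace K) with hs
  set f := finrank ℤ (fixedSub (unitsEnd σ)) with hf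
  -- k = s
  obtain ⟨p', rfl⟩ : ∃ p', p = p' + 1 := ⟨p - 1, (Nat.sub_add_cancel hp.out.one_le).symm⟩
  have hp' : 1 ≤ p' := by have := hp.out.two_le; omega
  simp only [add_tsub_cancel_right] at hk
  have hks : k = s := by
    have h1 : k * p' = s * p' := by
      have : (p' + 1) * s = s * p' + s := by ring
      omega
    exact Nat.eq_of_mul_eq_mul_right (by omega) h1
  rw [hks] at hkey
  have hsf : s = f + 1 := hF.symm
  rw [hsf, pow_succ] at hkey
  have hpf : 0 < (p' + 1) ^ f := pow_pos (by omega) f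
  have : (p' + 1) ^ f * Nat.card (normKer (p' + 1) (unitsEnd σ) ⧸
      LinearMap.range (phiTo (unitsEnd_pow_eq_one hKL σ))) =
      (p' + 1) ^ f * ((p' + 1) * Nat.card (fixedSub (unitsEnd σ) ⧸
        LinearMap.range (normTo (unitsEnd_pow_eq_one hKL σ)))) := by
    rw [mul_comm, hkey]; ring
  exact Nat.eq_of_mul_eq_mul_left hpf this

end Fermat.Agent.CFT.H63
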