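import Fermat.Agent.CFT.H65_Elem
import Fermat.Agent.CFT.H52_SplittingModule

/-!
# CFT / Layer A / A-AugAb : `Ĥ⁻¹(G, I_G) = I_G / I_G² ≅ G^ab`

For a finite group `G` and the augmentation ideal `I_G ⊆ ℤ[G]` (helper52's `H52.augMod ℤ G`):
`augAbEquiv : Hm1hat (augMod ℤ G) ≃+ Additive (Abelianization G)`, `[g - 1] ↔ g`.
-/

set_option autoImplicit false
set_option linter.unusedSectionVars false

noncomputable section

open CategoryTheory

namespace Fermat.Agent.CFT.H65

open Fermat.Agent.CFT.A

variable (G : Type) [Group G]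

/-- the "logarithm" `ℤ[G] → G^ab`, `∑ n_g g ↦ ∏ g^{n_g}` -/
def logHom : (G →₀ ℤ) →+ Additive (Abelianization G) :=
  Finsupp.liftAddHom (fun g => zmultiplesHom _ (Additive.ofMul (Abelianization.of g)))

@[simp] lemma logHom_single (g : G) (n : ℤ) :
    logHom G (Finsupp.single g n) = n • Additive.ofMul (Abelianization.of g) := by
  simp [logHom]

lemma logHom_regRep (g : G) (w : G →₀ ℤ) :
    logHom G (H52.regRep ℤ G g w) =
      logHom G w + H52.aug ℤ G w • Additive.ofMul (Abelianization.of g) := by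
  induction w using Finsupp.induction_linear with
  | zero => simp
  | add f₁ f₂ h₁ h₂ =>
    simp only [map_add, h₁, h₂, add_smul]
    abel
  | single x n =>
    simp only [H52.regRep_single, logHom_single, H52.aug_single, map_mul, ofMul_mul, smul_add]
    abel

lemma logHom_regRep_of_mem (g : G) {w : G →₀ ℤ} (hw : w ∈ H52.augKer ℤ G) :
    logHom G (H52.regRep ℤ G g w) = logHom G w := by
  rw [logHom_regRep, (H52.mem_augKer ℤ G w).1 hw, zero_smul, add_zero]

variable [Fintype G]

section generic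

variable (k : Type) [CommRing k]

lemma sum_regRep (w : G →₀ k) :
    ∑ g : G, H52.regRep k G g w = H52.aug k G w • ∑ g : G, Finsupp.single g (1 : k) := by
  induction w using Finsupp.induction_linear with
  | zero => simp
  | add f₁ f₂ h₁ h₂ =>
    simp only [map_add, Finset.sum_add_distrib, h₁, h₂, add_smul]
  | single x n =>
    simp only [H52.regRep_single, H52.aug_single, Finset.smul_sum, Finsupp.smul_single,
      smul_eq_mul, mul_one]
    exact Fintype.sum_equiv (Equiv.mulRight x) _ _ (fun g => rfl)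

/-- the norm vanishes on the augmentation ideal -/
lemma norm_augMod (w : H52.augKer k G) : (H52.augMod k G).ρ.norm w = 0 := by
  apply Subtype.ext
  have h1 : (((H52.augMod k G).ρ.norm w : H52.augKer k G) : G →₀ k) =
      ∑ g : G, H52.regRep k G g (w : G →₀ k) := by
    simp only [Representation.norm, LinearMap.sum_apply]
    rw [Submodule.coe_sum]
    rfl
  rw [h1, sum_regRep, (H52.mem_augKer k G _).1 w.2, zero_smul]
  rfl

/-- `g - 1` as an element of `ker N_G` (any coefficient ring) -/
def augGenKer' (g : G) : LinearMap.ker (H52.augMod k G).ρ.norm :=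
  ⟨H52.augGen g, norm_augMod G k _⟩

end generic

/-- `ker N_G → G^ab` -/
def toAbLin : LinearMap.ker (H52.augMod ℤ G).ρ.norm →ₗ[ℤ] Additive (Abelianization G) where
  toFun w := logHom G ((w.1 : H52.augKer ℤ G) : G →₀ ℤ)
  map_add' x y := by
    rw [← map_add]
    rfl
  map_smul' n x := by
    have h := map_intCast_smul (logHom G) ℤ ℤ n ((x.1 : H52.augKer ℤ G) : G →₀ ℤ)
    simp only [Int.cast_id] at h
    rw [RingHom.id_apply, ← h]
    rfl

@[simp] lemma toAbLin_apply (w : LinearMap.ker (H52.augMod ℤ G).ρ.norm) :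
    toAbLin G w = logHom G ((w.1 : H52.augKer ℤ G) : G →₀ ℤ) := rfl

lemma toAbLin_vanish : augInKer (H52.augMod ℤ G) ≤ LinearMap.ker (toAbLin G) := by
  intro w hw
  rw [LinearMap.mem_ker, toAbLin_apply]
  have hw' : w.1 ∈ Representation.Coinvariants.ker (H52.augMod ℤ G).ρ := hw
  generalize w.1 = v at hw'
  induction hw' using Submodule.span_induction with
  | mem x hx =>
    obtain ⟨⟨g, v⟩, rfl⟩ := hx
    show logHom G ((H52.augRep ℤ G g v - v : H52.augKer ℤ G) : G →₀ ℤ) = 0
    rw [Submodule.coe_sub, map_sub, H52.augRep_coe, logHom_regRep_of_mem G g v.2, sub_self]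
  | zero => simp
  | add x y _ _ hx hy =>
    rw [Submodule.coe_add, map_add, hx, hy, add_zero]
  | smul a x _ hx =>
    have h := map_intCast_smul (logHom G) ℤ ℤ a ((x : H52.augKer ℤ G) : G →₀ ℤ)
    simp only [Int.cast_id] at h
    rw [Submodule.coe_smul, h, hx, smul_zero]

/-- `Ĥ⁻¹(G, I_G) → G^ab` -/
def toAb : Hm1hat (H52.augMod ℤ G) →ₗ[ℤ] Additive (Abelianization G) :=
  Submodule.liftQ _ (toAbLin G) (toAbLin_vanish G)

lemma toAb_mk (w : LinearMap.ker (H52.augMod ℤ G).ρ.norm) :
    toAb G (Hm1hat.mk _ w) = logHom G ((w.1 : H52.augKer ℤ G) : G →₀ ℤ) := rfl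

/-- `g - 1` as an element of `ker N_G` -/
def augGenKer (g : G) : LinearMap.ker (H52.augMod ℤ G).ρ.norm := augGenKer' G ℤ g

lemma augGenKer_one : augGenKer G 1 = 0 := by
  apply Subtype.ext
  apply Subtype.ext
  show (Finsupp.single (1 : G) (1 : ℤ) - Finsupp.single 1 1) = 0
  rw [sub_self]

lemma mk_augGenKer_mul (g h : G) :
    Hm1hat.mk (H52.augMod ℤ G) (augGenKer G (g * h)) =
      Hm1hat.mk _ (augGenKer G g) + Hm1hat.mk _ (augGenKer G h) := by
  rw [← map_add, ← sub_eq_zero, ← map_sub, Hm1hat.mk_eq_zero_iff]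
  have h1 : (augGenKer G (g * h) - (augGenKer G g + augGenKer G h)).1 =
      (H52.augMod ℤ G).ρ g (H52.augGen h) - H52.augGen h := by
    apply Subtype.ext
    show (Finsupp.single (g * h) (1 : ℤ) - Finsupp.single 1 1) -
        ((Finsupp.single g 1 - Finsupp.single 1 1) + (Finsupp.single h 1 - Finsupp.single 1 1)) =
      H52.regRep ℤ G g (Finsupp.single h 1 - Finsupp.single 1 1) -
        (Finsupp.single h 1 - Finsupp.single 1 1)
    rw [map_sub, H52.regRep_single, H52.regRep_single, mul_one]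
    abel
  rw [h1]
  exact Representation.Coinvariants.sub_mem_ker g _

/-- `G → Ĥ⁻¹(G, I_G)`, `g ↦ [g - 1]` -/
def fromAbMul : G →* Multiplicative (Hm1hat (H52.augMod ℤ G)) where
  toFun g := Multiplicative.ofAdd (Hm1hat.mk _ (augGenKer G g))
  map_one' := by rw [augGenKer_one, map_zero]; rfl
  map_mul' g h := by rw [mk_augGenKer_mul]; rfl

/-- `G^ab → Ĥ⁻¹(G, I_G)`, `g ↦ [g - 1]` -/
def fromAb : Additive (Abelianization G) →+ Hm1hat (H52.augMod ℤ G) :=
  MonoidHom.toAdditiveLeft (Abelianization.lift (fromAbMul G))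

@[simp] lemma fromAb_of (g : G) :
    fromAb G (Additive.ofMul (Abelianization.of g)) = Hm1hat.mk _ (augGenKer G g) := rfl

lemma logHom_augGen (g : G) :
    logHom G ((H52.augGen (k := ℤ) g : H52.augKer ℤ G) : G →₀ ℤ) =
      Additive.ofMul (Abelianization.of g) := by
  show logHom G (Finsupp.single g (1 : ℤ) - Finsupp.single 1 1) = _
  rw [map_sub, logHom_single, logHom_single, one_smul, one_smul, map_one, ofMul_one, sub_zero]

lemma toAb_fromAb (x : Additive (Abelianization G)) : toAb G (fromAb G x) = x := by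
  have h : ((toAb G).toAddMonoidHom.comp (fromAb G)) = AddMonoidHom.id _ := by
    apply Additive.addMonoidHom_ext
    apply Abelianization.hom_ext
    ext g
    show toAb G (fromAb G (Additive.ofMul (Abelianization.of g))) = _
    rw [fromAb_of, toAb_mk]
    exact logHom_augGen G g
  exact DFunLike.congr_fun h x

/-- the projection `ℤ[G] → I_G`, `w ↦ w - aug(w)·1`, with values in `ker N_G` -/
def projAug : (G →₀ ℤ) →+ LinearMap.ker (H52.augMod ℤ G).ρ.norm where
  toFun w := ⟨⟨w - H52.aug ℤ G w • Finsupp.single 1 1, by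
    rw [H52.mem_augKer, map_sub, map_smul, H52.aug_single, smul_eq_mul, mul_one, sub_self]⟩,
    norm_augMod G ℤ _⟩
  map_zero' := by
    apply Subtype.ext
    apply Subtype.ext
    simp
  map_add' x y := by
    apply Subtype.ext
    apply Subtype.ext
    show (x + y) - H52.aug ℤ G (x + y) • Finsupp.single 1 1 =
      (x - H52.aug ℤ G x • Finsupp.single 1 1) + (y - H52.aug ℤ G y • Finsupp.single 1 1)
    rw [map_add, add_smul]
    abel

lemma projAug_of_mem (w : LinearMap.ker (H52.augMod ℤ G).ρ.norm) :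
    projAug G ((w.1 : H52.augKer ℤ G) : G →₀ ℤ) = w := by
  apply Subtype.ext
  apply Subtype.ext
  show ((w.1 : H52.augKer ℤ G) : G →₀ ℤ) - H52.aug ℤ G _ • Finsupp.single 1 1 = _
  rw [(H52.mem_augKer ℤ G _).1 (w.1 : H52.augKer ℤ G).2, zero_smul, sub_zero]

lemma projAug_single (g : G) (n : ℤ) :
    projAug G (Finsupp.single g n) = n • augGenKer G g := by
  apply Subtype.ext
  apply Subtype.ext
  show Finsupp.single g n - H52.aug ℤ G (Finsupp.single g n) • Finsupp.single 1 1 =
    n • (Finsupp.single g (1 : ℤ) - Finsupp.single 1 1)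
  rw [H52.aug_single, smul_sub, Finsupp.smul_single, Finsupp.smul_single, smul_eq_mul, mul_one]

lemma fromAb_toAb (y : Hm1hat (H52.augMod ℤ G)) : fromAb G (toAb G y) = y := by
  obtain ⟨w, rfl⟩ := Hm1hat.mk_surjective _ y
  have h : (fromAb G).comp (logHom G) =
      ((Hm1hat.mk (H52.augMod ℤ G)).toAddMonoidHom).comp (projAug G) := by
    apply Finsupp.addHom_ext
    intro g n
    show fromAb G (logHom G (Finsupp.single g n)) = Hm1hat.mk _ (projAug G (Finsupp.single g n))
    rw [logHom_single, map_zsmul, fromAb_of, projAug_single, map_zsmul]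
  have h2 := DFunLike.congr_fun h ((w.1 : H52.augKer ℤ G) : G →₀ ℤ)
  rw [toAb_mk]
  refine h2.trans ?_
  show Hm1hat.mk _ (projAug G _) = _
  rw [projAug_of_mem]

/-- **`Ĥ⁻¹(G, I_G) = I_G / I_G² ≅ G^ab`**, `[g - 1] ↔ g`. -/
def augAbEquiv : Hm1hat (H52.augMod ℤ G) ≃+ Additive (Abelianization G) where
  toFun := toAb G
  invFun := fromAb G
  left_inv := fromAb_toAb G
  right_inv := toAb_fromAb G
  map_add' := map_add _

@[simp] lemma augAbEquiv_mk_augGenKer (g : G) :
    augAbEquiv G (Hm1hat.mk _ (augGenKer G g)) = Additive.ofMul (Abelianization.of g) := by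
  have h : augAbEquiv G (Hm1hat.mk _ (augGenKer G g)) = toAb G (Hm1hat.mk _ (augGenKer G g)) := rfl
  rw [h, toAb_mk]
  exact logHom_augGen G g

@[simp] lemma augAbEquiv_symm_of (g : G) :
    (augAbEquiv G).symm (Additive.ofMul (Abelianization.of g)) = Hm1hat.mk _ (augGenKer G g) := rfl

end Fermat.Agent.CFT.H65

end
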