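import Fermat.Agent.CFT.H65_AugAb
import Fermat.Agent.CFT.H65_CohTrivElem
import Fermat.Agent.CFT.H52_TateFinal
import Fermat.Agent.CFT.H9_Cup

/-!
# CFT / Layer A : the reciprocity isomorphism `G^ab ≅ A^G / N_G A` (Tate–Nakayama, degree `-2 → 0`)

For a finite group `G`, `A : Rep ℤ G` and a `2`-cocycle `γ` whose splitting module `A(γ)` is
cohomologically trivial (e.g. `γ` a fundamental class, `H52.IsFundamental`), the connecting
homomorphism of `0 → A → A(γ) → I_G → 0` gives
`recipEquiv : Additive (Abelianization G) ≃+ H0hat A`, and it is the Nakayama map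
`s ↦ [∑ₜ γ(t, s)]` (`recipEquiv_of`).
-/

set_option autoImplicit false
set_option linter.unusedSectionVars false

noncomputable section

open CategoryTheory groupCohomology

namespace Fermat.Agent.CFT.H65

open Fermat.Agent.CFT.A

/-! ### Generic coefficient ring -/

section generic

variable {k : Type} [CommRing k] {G : Type} [Group G] [Fintype G]

/-- additive version of `SES.deltaEquiv` -/
def SES.deltaAddEquiv {A B C : Rep.{0} k G} {f : A ⟶ B} {g : B ⟶ C} (h : SES f g)
    [Subsingleton (Hm1hat B)] [Subsingleton (H0hat B)] : Hm1hat C ≃+ H0hat A :=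
  h.deltaEquiv.toAddEquiv

lemma SES.deltaAddEquiv_apply {A B C : Rep.{0} k G} {f : A ⟶ B} {g : B ⟶ C} (h : SES f g)
    [Subsingleton (Hm1hat B)] [Subsingleton (H0hat B)] (x : Hm1hat C) :
    h.deltaAddEquiv x = h.delta x := rfl

variable (A : Rep.{0} k G) (γ : cocycles₂ A)

/-- `0 → A → A(γ) → I_G → 0` as a concrete `SES`. -/
lemma splitSES : SES (H52.splitIncl A γ) (H52.splitProj A γ) :=
  SES.of_shortExact (H52.splitSC_shortExact A γ)

/-- The connecting map `Ĥ⁻¹(G, I_G) → Ĥ⁰(G, A)` of the splitting module sends `[s - 1]` to the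
class of the Nakayama element `∑ₜ γ(t, s)`. -/
lemma splitSES_delta_augGen (s : G) :
    (splitSES A γ).delta (Hm1hat.mk _ (augGenKer' G k s)) = H0hat.mk A (H9.nakInv γ s) := by
  refine (splitSES A γ).delta_mk (augGenKer' G k s)
    ((γ (1, 1), H52.augGen (k := k) s) : A.V × H52.augKer k G) (H9.nakInv γ s) rfl ?_
  have hN : (H52.splitMod A γ).ρ.norm ((γ (1, 1), H52.augGen (k := k) s) : A.V × H52.augKer k G) =
      ∑ t : G, H52.splitAct A γ t (γ (1, 1), H52.augGen (k := k) s) := by
    simp only [Representation.norm, LinearMap.sum_apply]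
    rfl
  rw [hN]
  simp only [H52.splitAct_apply]
  rw [H52.splitIncl_apply]
  refine Prod.ext ?_ ?_
  · rw [Prod.fst_sum]
    show H9.nak A γ s = _
    rw [H9.nak]
    refine Finset.sum_congr rfl fun t _ => ?_
    have e1 : γ (t, 1) = A.ρ t (γ (1, 1)) := cocycles₂_map_one_snd γ t
    show γ (t, s) = A.ρ t (γ (1, 1)) +
      H52.cLin A γ t (Finsupp.single s (1 : k) - Finsupp.single 1 1)
    rw [map_sub, H52.cLin_single, H52.cLin_single, one_smul, one_smul, e1]
    abel
  · rw [Prod.snd_sum]
    have h0 := norm_augMod G k (H52.augGen (k := k) s)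
    simp only [Representation.norm, LinearMap.sum_apply] at h0
    exact h0.symm

end generic

/-! ### Integral coefficients: the reciprocity isomorphism -/

variable {G : Type} [Group G] [Fintype G] {A : Rep.{0} ℤ G} {γ : cocycles₂ A}

/-- **Reciprocity isomorphism** `G^ab ≃ Ĥ⁰(G, A) = A^G / N_G A` for a cohomologically trivial
splitting module. -/
def recipEquivOfCohTriv (hct : IsCohTrivPos (H52.splitMod A γ)) :
    Additive (Abelianization G) ≃+ H0hat A :=
  haveI := subsingleton_Hm1hat_of_isCohTrivPos _ hct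
  haveI := subsingleton_H0hat_of_isCohTrivPos _ hct
  (augAbEquiv G).symm.trans (splitSES A γ).deltaAddEquiv

lemma recipEquivOfCohTriv_of (hct : IsCohTrivPos (H52.splitMod A γ)) (s : G) :
    recipEquivOfCohTriv hct (Additive.ofMul (Abelianization.of s)) = H0hat.mk A (H9.nakInv γ s) :=
  splitSES_delta_augGen A γ s

/-- **Reciprocity isomorphism** (Tate–Nakayama) for a fundamental class `γ`:
`G^ab ≃ A^G / N_G A`, `s ↦ [∑ₜ γ(t, s)]`. -/
def recipEquiv (hF : H52.IsFundamental A γ) : Additive (Abelianization G) ≃+ H0hat A :=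
  haveI : Finite G := Finite.of_fintype G
  recipEquivOfCohTriv (H52.isCohTrivPos_splitMod A γ hF)

lemma recipEquiv_of (hF : H52.IsFundamental A γ) (s : G) :
    recipEquiv hF (Additive.ofMul (Abelianization.of s)) = H0hat.mk A (H9.nakInv γ s) :=
  splitSES_delta_augGen A γ s

/-- Every class in `Ĥ⁰(G, A)` is the class of a Nakayama element (surjectivity of
reciprocity). -/
lemma exists_nakInv_eq (hF : H52.IsFundamental A γ) (x : H0hat A) :
    ∃ s : G, H0hat.mk A (H9.nakInv γ s) = x := by
  obtain ⟨y, hy⟩ := (recipEquiv hF).surjective x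
  obtain ⟨z, rfl⟩ : ∃ z : Abelianization G, Additive.ofMul z = y := ⟨Additive.toMul y, rfl⟩
  obtain ⟨s, rfl⟩ := QuotientGroup.mk_surjective z
  exact ⟨s, (recipEquiv_of hF s).symm.trans hy⟩

/-- The Nakayama element of `s` is a norm iff `s` is a product of commutators (injectivity of
reciprocity). -/
lemma mk_nakInv_eq_zero_iff (hF : H52.IsFundamental A γ) (s : G) :
    H0hat.mk A (H9.nakInv γ s) = 0 ↔ s ∈ commutator G := by
  rw [← recipEquiv_of hF, AddEquiv.map_eq_zero_iff]
  show Abelianization.of s = 1 ↔ _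
  exact QuotientGroup.eq_one_iff s

end Fermat.Agent.CFT.H65

end
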