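import Fermat.Agent.CFT.H86_Transfer
import Fermat.Agent.CFT.H50_LevelCorStd

/-!
# CFT / Layer D seam: the two corestrictions on level `H¹` agree

`H86.corH1` (helper86, explicit transfer used in D1-shapiro) and `H50.cor1` (helper50, the
corestriction appearing in the axioms `AxI1`, `AxI2` of `H91_D2Defs`) are equal.
-/

set_option autoImplicit false

noncomputable section

namespace Fermat.Agent.CFT.H68

open Fermat.Agent.CFT

universe u

variable {k : Type u} [CommRing k] {H : Type u} [Group H] (𝓛 : LevelStructure H)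
  (N : Subgroup H) [N.FiniteIndex] (hN : 𝓛.IsOpen N) (B : Rep.{u} k H)

/-- `H86.corH1 = H50.cor1`. -/
theorem corH1_eq_cor1 : H86.corH1 𝓛 N B hN = H50.cor1 𝓛 N hN B := by
  refine LinearMap.ext fun x => ?_
  induction x using Submodule.Quotient.induction_on with
  | H f =>
    show 𝓛.H1π B (H86.corZ1 𝓛 N B hN f) = 𝓛.H1π B (H50.corZ1 𝓛 B hN (H50.Sec.out N) f)
    congr 1
    apply Subtype.ext
    funext g
    show H86.transferSub N B.ρ f.1 g = H50.corC₁ (H50.Sec.out N) B f.1 g
    rw [H86.transferSub_apply]
    rfl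

end Fermat.Agent.CFT.H68
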