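import Fermat.Agent.CFT.H55_LevelDefs

/-!
# CFT / Layer D : contravariant cohomological δ-functors on finite discrete modules

Vocabulary of the abstract duality theorem (package `D1`) and of the abstract Poitou–Tate
segment (package `D3`).  Definitions only, no `sorry`.

Setting: `k` a field, `(H, 𝓛)` a level structure, everything in `Rep.{0} k H`.

* `IsFD 𝓛 X` : `X` is discrete for `𝓛` and finite-dimensional over `k`;
* `GoodSES 𝓛 S` : a short exact sequence of finite discrete modules;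
* `CoDelta k 𝓛` : functors `T1 T2 T3 : (Rep k H)ᵒᵖ ⥤ ModuleCat k`, `k`-linear on morphisms, with
  natural connecting maps `δ1 : T1 X₁ ⟶ T2 X₃`, `δ2 : T2 X₁ ⟶ T3 X₃` for good short exact
  sequences `0 → X₁ → X₂ → X₃ → 0`, and the seven exactness statements
  `T1 X₃ → T1 X₂ → T1 X₁ → T2 X₃ → T2 X₂ → T2 X₁ → T3 X₃ → T3 X₂ → T3 X₁`.
  The intended instance is `Tn X = ℍⁿ(H; Hom(X, D))` for a two-term complex `D` of discrete
  modules;
* `invHom x : k ⟶ X` for an invariant vector `x`, and the pairing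
  `α2 𝒯 tr X : T2 X → (H⁰(H, X))^*`, `α2 ξ x = tr (x̂^* ξ)`;
* `extRep X c` : the Yoneda extension `E_c = X × k`, `g (x, t) = (g x + t c(g), t)`, of a
  `1`-cocycle `c`, with its short exact sequence `extSES X c : 0 → X → E_c → k → 0`;
* `pairCocycle 𝒯 tr ξ c = tr (δ1_{E_c} ξ)` : the pairing `T1 X × Z¹(H, X) → k`;
* `permRep k U = Coind_U^H k` : the permutation module of an (open) subgroup.
-/

set_option autoImplicit false

noncomputable section

open CategoryTheory Opposite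

namespace Fermat.Agent.CFT.H68

variable {k : Type} [Field k] {H : Type} [Group H]

/-- `X` is a finite-dimensional discrete module. -/
def IsFD (𝓛 : LevelStructure H) (X : Rep.{0} k H) : Prop :=
  𝓛.IsDiscrete X ∧ Module.Finite k X.V

/-- A short exact sequence of finite discrete modules. -/
structure GoodSES (𝓛 : LevelStructure H) (S : ShortComplex (Rep.{0} k H)) : Prop where
  shortExact : S.ShortExact
  fd₁ : IsFD 𝓛 S.X₁
  fd₂ : IsFD 𝓛 S.X₂
  fd₃ : IsFD 𝓛 S.X₃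

variable (k) in
/-- A contravariant cohomological `δ`-functor in degrees `1, 2, 3` on finite discrete modules. -/
structure CoDelta (𝓛 : LevelStructure H) where
  T1 : (Rep.{0} k H)ᵒᵖ ⥤ ModuleCat.{0} k
  T2 : (Rep.{0} k H)ᵒᵖ ⥤ ModuleCat.{0} k
  T3 : (Rep.{0} k H)ᵒᵖ ⥤ ModuleCat.{0} k
  map_add1 : ∀ {X Y : Rep.{0} k H} (f g : X ⟶ Y), T1.map (f + g).op = T1.map f.op + T1.map g.op
  map_add2 : ∀ {X Y : Rep.{0} k H} (f g : X ⟶ Y), T2.map (f + g).op = T2.map f.op + T2.map g.op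
  map_add3 : ∀ {X Y : Rep.{0} k H} (f g : X ⟶ Y), T3.map (f + g).op = T3.map f.op + T3.map g.op
  map_smul1 : ∀ {X Y : Rep.{0} k H} (r : k) (f : X ⟶ Y), T1.map (r • f).op = r • T1.map f.op
  map_smul2 : ∀ {X Y : Rep.{0} k H} (r : k) (f : X ⟶ Y), T2.map (r • f).op = r • T2.map f.op
  map_smul3 : ∀ {X Y : Rep.{0} k H} (r : k) (f : X ⟶ Y), T3.map (r • f).op = r • T3.map f.op
  δ1 : ∀ (S : ShortComplex (Rep.{0} k H)), GoodSES 𝓛 S → (T1.obj (op S.X₁) ⟶ T2.obj (op S.X₃))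
  δ2 : ∀ (S : ShortComplex (Rep.{0} k H)), GoodSES 𝓛 S → (T2.obj (op S.X₁) ⟶ T3.obj (op S.X₃))
  δ1_natural : ∀ {S S' : ShortComplex (Rep.{0} k H)} (hS : GoodSES 𝓛 S) (hS' : GoodSES 𝓛 S')
    (φ : S ⟶ S'), T1.map φ.τ₁.op ≫ δ1 S hS = δ1 S' hS' ≫ T2.map φ.τ₃.op
  δ2_natural : ∀ {S S' : ShortComplex (Rep.{0} k H)} (hS : GoodSES 𝓛 S) (hS' : GoodSES 𝓛 S')
    (φ : S ⟶ S'), T2.map φ.τ₁.op ≫ δ2 S hS = δ2 S' hS' ≫ T3.map φ.τ₃.op
  exact_T1X₂ : ∀ (S : ShortComplex (Rep.{0} k H)) (_ : GoodSES 𝓛 S),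
    Function.Exact (T1.map S.g.op).hom (T1.map S.f.op).hom
  exact_T1X₁ : ∀ (S : ShortComplex (Rep.{0} k H)) (hS : GoodSES 𝓛 S),
    Function.Exact (T1.map S.f.op).hom (δ1 S hS).hom
  exact_T2X₃ : ∀ (S : ShortComplex (Rep.{0} k H)) (hS : GoodSES 𝓛 S),
    Function.Exact (δ1 S hS).hom (T2.map S.g.op).hom
  exact_T2X₂ : ∀ (S : ShortComplex (Rep.{0} k H)) (_ : GoodSES 𝓛 S),
    Function.Exact (T2.map S.g.op).hom (T2.map S.f.op).hom
  exact_T2X₁ : ∀ (S : ShortComplex (Rep.{0} k H)) (hS : GoodSES 𝓛 S),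
    Function.Exact (T2.map S.f.op).hom (δ2 S hS).hom
  exact_T3X₃ : ∀ (S : ShortComplex (Rep.{0} k H)) (hS : GoodSES 𝓛 S),
    Function.Exact (δ2 S hS).hom (T3.map S.g.op).hom
  exact_T3X₂ : ∀ (S : ShortComplex (Rep.{0} k H)) (_ : GoodSES 𝓛 S),
    Function.Exact (T3.map S.g.op).hom (T3.map S.f.op).hom

variable (k H) in
/-- The trivial module `k`. -/
abbrev trivRep : Rep.{0} k H := Rep.trivial k H k

/-- The `H`-map `k ⟶ X`, `t ↦ t • x`, attached to an invariant vector `x`. -/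
def invHom {X : Rep.{0} k H} (x : X.V) (hx : x ∈ X.ρ.invariants) : trivRep k H ⟶ X :=
  Rep.ofHom (ρ := (trivRep k H).ρ) (σ := X.ρ)
    ⟨LinearMap.toSpanSingleton k X.V x, fun g => by
      ext
      simp [hx g]⟩

@[simp] lemma invHom_apply {X : Rep.{0} k H} (x : X.V) (hx : x ∈ X.ρ.invariants) (t : k) :
    (invHom x hx).hom t = t • x := rfl

lemma invHom_add {X : Rep.{0} k H} (x y : X.V) (hx : x ∈ X.ρ.invariants)
    (hy : y ∈ X.ρ.invariants) :
    invHom (x + y) (add_mem hx hy) = invHom x hx + invHom y hy := by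
  apply Rep.hom_injective
  ext
  simp [invHom, Rep.add_hom]

lemma invHom_smul {X : Rep.{0} k H} (r : k) (x : X.V) (hx : x ∈ X.ρ.invariants) :
    invHom (r • x) (Submodule.smul_mem _ r hx) = r • invHom x hx := by
  apply Rep.hom_injective
  ext
  simp [invHom, Rep.smul_hom]

/-- The pairing `T2 X → (H⁰(H, X))^*`, `α2 ξ x = tr (x̂^* ξ)`. -/
def α2 {𝓛 : LevelStructure H} (𝒯 : CoDelta k 𝓛)
    (tr : 𝒯.T2.obj (op (trivRep k H)) →ₗ[k] k) (X : Rep.{0} k H) :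
    𝒯.T2.obj (op X) →ₗ[k] Module.Dual k (LevelStructure.H0 X) where
  toFun ξ :=
    { toFun := fun x => tr ((𝒯.T2.map (invHom x.1 x.2).op).hom ξ)
      map_add' := fun x y => by
        have := 𝒯.map_add2 (invHom x.1 x.2) (invHom y.1 y.2)
        rw [← invHom_add] at this
        simp only [Submodule.coe_add]
        rw [this]
        simp
      map_smul' := fun r x => by
        have := 𝒯.map_smul2 r (invHom x.1 x.2)
        rw [← invHom_smul] at this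
        simp only [Submodule.coe_smul]
        rw [this]
        simp }
  map_add' ξ η := by
    ext x
    simp
  map_smul' r ξ := by
    ext x
    simp

/-! ### The Yoneda extension of a `1`-cocycle -/

/-- The extension `E_c = X × k` with `g (x, t) = (g x + t • c g, t)`. -/
def extRep (X : Rep.{0} k H) (c : H → X.V) (hc : c ∈ groupCohomology.cocycles₁ X) :
    Rep.{0} k H :=
  Rep.of (k := k) (G := H) (X := X.V × k)
    { toFun := fun g => LinearMap.prod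
        ((X.ρ g).coprod (LinearMap.toSpanSingleton k X.V (c g))) (LinearMap.snd k X.V k)
      map_one' := by
        have h1 : c 1 = 0 := groupCohomology.cocycles₁_map_one ⟨c, hc⟩
        ext x <;> simp [h1]
      map_mul' := fun g h => by
        have hgh : c (g * h) = X.ρ g (c h) + c g :=
          (groupCohomology.mem_cocycles₁_iff c).1 hc g h
        ext x <;> simp [hgh, add_comm] }

@[simp] lemma extRep_ρ_apply (X : Rep.{0} k H) (c : H → X.V)
    (hc : c ∈ groupCohomology.cocycles₁ X) (g : H) (x : X.V) (t : k) :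
    (extRep X c hc).ρ g (x, t) = (X.ρ g x + t • c g, t) := rfl

/-- The inclusion `X ⟶ E_c`. -/
def extι (X : Rep.{0} k H) (c : H → X.V) (hc : c ∈ groupCohomology.cocycles₁ X) :
    X ⟶ extRep X c hc :=
  Rep.ofHom (ρ := X.ρ) (σ := (extRep X c hc).ρ)
    ⟨LinearMap.inl k X.V k, fun g => by
      ext x
      show ((X.ρ g x, (0 : k)) : X.V × k) = (X.ρ g x + (0 : k) • c g, 0)
      simp⟩

/-- The projection `E_c ⟶ k`. -/
def extπ (X : Rep.{0} k H) (c : H → X.V) (hc : c ∈ groupCohomology.cocycles₁ X) :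
    extRep X c hc ⟶ trivRep k H :=
  Rep.ofHom (ρ := (extRep X c hc).ρ) (σ := (trivRep k H).ρ)
    ⟨LinearMap.snd k X.V k, fun g => by
      ext x
      rfl⟩

@[simp] lemma extι_apply (X : Rep.{0} k H) (c : H → X.V)
    (hc : c ∈ groupCohomology.cocycles₁ X) (x : X.V) : (extι X c hc).hom x = (x, 0) := rfl

@[simp] lemma extπ_apply (X : Rep.{0} k H) (c : H → X.V)
    (hc : c ∈ groupCohomology.cocycles₁ X) (e : X.V × k) : (extπ X c hc).hom e = e.2 := rfl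

/-- The short complex `0 → X → E_c → k → 0`. -/
def extSES (X : Rep.{0} k H) (c : H → X.V) (hc : c ∈ groupCohomology.cocycles₁ X) :
    ShortComplex (Rep.{0} k H) :=
  ShortComplex.mk (extι X c hc) (extπ X c hc) (by
    apply Rep.hom_injective
    ext x
    rfl)

lemma extSES_shortExact (X : Rep.{0} k H) (c : H → X.V)
    (hc : c ∈ groupCohomology.cocycles₁ X) : (extSES X c hc).ShortExact where
  exact := by
    rw [← ShortComplex.exact_map_iff_of_faithful _ (forget₂ (Rep.{0} k H) (ModuleCat.{0} k))]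
    rw [ShortComplex.moduleCat_exact_iff]
    intro e he
    refine ⟨(e : X.V × k).1, ?_⟩
    have h2 : (e : X.V × k).2 = 0 := he
    exact Prod.ext rfl h2.symm
  mono_f := by
    rw [Rep.mono_iff_injective]
    intro x y h
    exact congrArg Prod.fst h
  epi_g := by
    rw [Rep.epi_iff_surjective]
    intro t
    exact ⟨(0, t), rfl⟩

lemma isFD_trivRep (𝓛 : LevelStructure H) : IsFD 𝓛 (trivRep k H) := by
  refine ⟨fun a => ?_, ?_⟩
  · obtain ⟨N, hN⟩ := 𝓛.nonempty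
    exact ⟨N, hN, fun n _ => rfl⟩
  · exact inferInstanceAs (Module.Finite k k)

lemma isFD_extRep {𝓛 : LevelStructure H} {X : Rep.{0} k H} (hX : IsFD 𝓛 X)
    (c : H → X.V) (hc : c ∈ 𝓛.cocycles₁ X) : IsFD 𝓛 (extRep X c hc.1) := by
  refine ⟨fun e => ?_, ?_⟩
  · obtain ⟨x, t⟩ := e
    obtain ⟨N₁, hN₁, h₁⟩ := hX.1 x
    obtain ⟨N₂, hN₂, h₂⟩ := hc.2
    obtain ⟨N₃, hN₃, hle⟩ := 𝓛.directed N₁ hN₁ N₂ hN₂
    have hc1 : c 1 = 0 := groupCohomology.cocycles₁_map_one ⟨c, hc.1⟩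
    refine ⟨N₃, hN₃, fun n hn => ?_⟩
    have hcn : c n = 0 := by
      have := h₂ 1 n (hle hn).2
      rw [one_mul] at this
      rw [this, hc1]
    show ((X.ρ n x + t • c n, t) : X.V × k) = (x, t)
    rw [h₁ n (hle hn).1, hcn, smul_zero, add_zero]
  · have := hX.2
    exact inferInstanceAs (Module.Finite k (X.V × k))

lemma extSES_good {𝓛 : LevelStructure H} {X : Rep.{0} k H} (hX : IsFD 𝓛 X)
    (c : H → X.V) (hc : c ∈ 𝓛.cocycles₁ X) : GoodSES 𝓛 (extSES X c hc.1) where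
  shortExact := extSES_shortExact X c hc.1
  fd₁ := hX
  fd₂ := isFD_extRep hX c hc
  fd₃ := isFD_trivRep 𝓛

/-- The pairing `T1 X × Z¹(H, X) → k`, `(ξ, c) ↦ tr (δ1_{E_c} ξ)`. -/
def pairCocycle {𝓛 : LevelStructure H} (𝒯 : CoDelta k 𝓛)
    (tr : 𝒯.T2.obj (op (trivRep k H)) →ₗ[k] k) {X : Rep.{0} k H} (hX : IsFD 𝓛 X)
    (ξ : 𝒯.T1.obj (op X)) (c : 𝓛.cocycles₁ X) : k :=
  tr ((𝒯.δ1 (extSES X c.1 c.2.1) (extSES_good hX c.1 c.2)).hom ξ)

/-! ### Functoriality of level `1`-cocycles and of `H¹` in the coefficients -/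

/-- Push a level `1`-cocycle forward along a morphism of representations. -/
def mapCocycles₁ (𝓛 : LevelStructure H) {X Y : Rep.{0} k H} (f : X ⟶ Y) :
    𝓛.cocycles₁ X →ₗ[k] 𝓛.cocycles₁ Y where
  toFun c := ⟨fun h => f.hom (c.1 h), by
    refine ⟨?_, ?_⟩
    · refine (groupCohomology.mem_cocycles₁_iff (A := Y) _).2 ?_
      intro g h
      have := (groupCohomology.mem_cocycles₁_iff c.1).1 c.2.1 g h
      simp only [this, map_add, Rep.hom_comm_apply]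
    · exact c.2.2.comp f.hom⟩
  map_add' c c' := by
    apply Subtype.ext
    funext h
    simp
  map_smul' r c := by
    apply Subtype.ext
    funext h
    simp

@[simp] lemma mapCocycles₁_apply (𝓛 : LevelStructure H) {X Y : Rep.{0} k H} (f : X ⟶ Y)
    (c : 𝓛.cocycles₁ X) (h : H) : (mapCocycles₁ 𝓛 f c).1 h = f.hom (c.1 h) := rfl

/-- Functoriality of the level `H¹` in the coefficients. -/
def H1map (𝓛 : LevelStructure H) {X Y : Rep.{0} k H} (f : X ⟶ Y) : 𝓛.H1 X →ₗ[k] 𝓛.H1 Y :=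
  Submodule.mapQ _ _ (mapCocycles₁ 𝓛 f) (by
    rintro c hc
    obtain ⟨x, hx⟩ := hc
    refine ⟨f.hom x, ?_⟩
    funext h
    have := congrFun hx h
    simp only [Submodule.coe_subtype, mapCocycles₁_apply] at this ⊢
    rw [← this]
    show Y.ρ h (f.hom x) - f.hom x = f.hom (X.ρ h x - x)
    rw [map_sub, Rep.hom_comm_apply])

@[simp] lemma H1map_mk (𝓛 : LevelStructure H) {X Y : Rep.{0} k H} (f : X ⟶ Y)
    (c : 𝓛.cocycles₁ X) : H1map 𝓛 f (𝓛.H1π X c) = 𝓛.H1π Y (mapCocycles₁ 𝓛 f c) := rfl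

variable (k) in
/-- The permutation module `k_U = Coind_U^H k` of a subgroup `U`. -/
abbrev permRep (U : Subgroup H) : Rep.{0} k H :=
  Rep.coind U.subtype (Rep.trivial k U k)

/-! ### Morphisms of `δ`-functors and pullback along continuous homomorphisms -/

/-- A morphism of `δ`-functors: natural transformations commuting with the connecting maps. -/
structure CoDeltaHom {𝓛 : LevelStructure H} (𝒯 𝒯' : CoDelta k 𝓛) where
  η1 : 𝒯.T1 ⟶ 𝒯'.T1
  η2 : 𝒯.T2 ⟶ 𝒯'.T2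
  η3 : 𝒯.T3 ⟶ 𝒯'.T3
  comm1 : ∀ (S : ShortComplex (Rep.{0} k H)) (hS : GoodSES 𝓛 S),
    𝒯.δ1 S hS ≫ η2.app (op S.X₃) = η1.app (op S.X₁) ≫ 𝒯'.δ1 S hS
  comm2 : ∀ (S : ShortComplex (Rep.{0} k H)) (hS : GoodSES 𝓛 S),
    𝒯.δ2 S hS ≫ η3.app (op S.X₃) = η2.app (op S.X₁) ≫ 𝒯'.δ2 S hS

/-- `φ : H' →* H` is continuous for the level structures `𝓛'`, `𝓛`. -/
def IsContinuousHom {H' : Type} [Group H'] (𝓛' : LevelStructure H') (𝓛 : LevelStructure H)
    (φ : H' →* H) : Prop :=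
  ∀ N ∈ 𝓛.levels, 𝓛'.IsOpen (N.comap φ)

lemma isDiscrete_res {H' : Type} [Group H'] {𝓛' : LevelStructure H'} {𝓛 : LevelStructure H}
    {φ : H' →* H} (hφ : IsContinuousHom 𝓛' 𝓛 φ) {X : Rep.{0} k H} (hX : 𝓛.IsDiscrete X) :
    𝓛'.IsDiscrete (Rep.res φ X) := by
  intro a
  obtain ⟨N, hN, h⟩ := hX a
  obtain ⟨N', hN', hle⟩ := hφ N hN
  exact ⟨N', hN', fun n hn => h (φ n) (hle hn)⟩

lemma isFD_res {H' : Type} [Group H'] {𝓛' : LevelStructure H'} {𝓛 : LevelStructure H}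
    {φ : H' →* H} (hφ : IsContinuousHom 𝓛' 𝓛 φ) {X : Rep.{0} k H} (hX : IsFD 𝓛 X) :
    IsFD 𝓛' (Rep.res φ X) :=
  ⟨isDiscrete_res hφ hX.1, hX.2⟩

lemma goodSES_res {H' : Type} [Group H'] {𝓛' : LevelStructure H'} {𝓛 : LevelStructure H}
    {φ : H' →* H} (hφ : IsContinuousHom 𝓛' 𝓛 φ) {S : ShortComplex (Rep.{0} k H)}
    (hS : GoodSES 𝓛 S) : GoodSES 𝓛' (S.map (Rep.resFunctor φ)) where
  shortExact := (Rep.shortExact_res φ).2 hS.shortExact
  fd₁ := isFD_res hφ hS.fd₁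
  fd₂ := isFD_res hφ hS.fd₂
  fd₃ := isFD_res hφ hS.fd₃

/-- Pull a `δ`-functor on `H'`-modules back to `H`-modules along a continuous `φ : H' →* H`:
`Tn X := Tn' (res φ X)`. -/
def CoDelta.pullback {H' : Type} [Group H'] {𝓛' : LevelStructure H'} {𝓛 : LevelStructure H}
    (φ : H' →* H) (hφ : IsContinuousHom 𝓛' 𝓛 φ) (𝒯 : CoDelta k 𝓛') : CoDelta k 𝓛 where
  T1 := (Rep.resFunctor φ).op ⋙ 𝒯.T1
  T2 := (Rep.resFunctor φ).op ⋙ 𝒯.T2
  T3 := (Rep.resFunctor φ).op ⋙ 𝒯.T3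
  map_add1 f g := 𝒯.map_add1 ((Rep.resFunctor φ).map f) ((Rep.resFunctor φ).map g)
  map_add2 f g := 𝒯.map_add2 ((Rep.resFunctor φ).map f) ((Rep.resFunctor φ).map g)
  map_add3 f g := 𝒯.map_add3 ((Rep.resFunctor φ).map f) ((Rep.resFunctor φ).map g)
  map_smul1 r f := 𝒯.map_smul1 r ((Rep.resFunctor φ).map f)
  map_smul2 r f := 𝒯.map_smul2 r ((Rep.resFunctor φ).map f)
  map_smul3 r f := 𝒯.map_smul3 r ((Rep.resFunctor φ).map f)
  δ1 S hS := 𝒯.δ1 (S.map (Rep.resFunctor φ)) (goodSES_res hφ hS)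
  δ2 S hS := 𝒯.δ2 (S.map (Rep.resFunctor φ)) (goodSES_res hφ hS)
  δ1_natural hS hS' ψ :=
    𝒯.δ1_natural (goodSES_res hφ hS) (goodSES_res hφ hS') ((Rep.resFunctor φ).mapShortComplex.map ψ)
  δ2_natural hS hS' ψ :=
    𝒯.δ2_natural (goodSES_res hφ hS) (goodSES_res hφ hS') ((Rep.resFunctor φ).mapShortComplex.map ψ)
  exact_T1X₂ _ hS := 𝒯.exact_T1X₂ _ (goodSES_res hφ hS)
  exact_T1X₁ _ hS := 𝒯.exact_T1X₁ _ (goodSES_res hφ hS)
  exact_T2X₃ _ hS := 𝒯.exact_T2X₃ _ (goodSES_res hφ hS)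
  exact_T2X₂ _ hS := 𝒯.exact_T2X₂ _ (goodSES_res hφ hS)
  exact_T2X₁ _ hS := 𝒯.exact_T2X₁ _ (goodSES_res hφ hS)
  exact_T3X₃ _ hS := 𝒯.exact_T3X₃ _ (goodSES_res hφ hS)
  exact_T3X₂ _ hS := 𝒯.exact_T3X₂ _ (goodSES_res hφ hS)

end Fermat.Agent.CFT.H68
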