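import Fermat.Agent.CFT.H68_TrivialDual
import Fermat.Agent.CFT.H5_EnvCompare

/-!
# CFT / Layer D : the trivial line and morphisms of `W`-data

Through the isomorphism `Hom(𝔽_p, W) ≅ W` of `H68_TrivialDual` (`evOne`, `smOne`), the map
`T²(𝔽_p) → T²'(𝔽_p)` induced by a morphism of `W`-data over `φ` is the map `H¹(W) → H¹(W')`.
Consequently joint injectivity of the `T2map`s at the trivial line gives joint injectivity of the
`H1Wmap`s (the form needed for the trace identity (X5) in D3-inst).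
-/

set_option autoImplicit false

noncomputable section

open CategoryTheory

namespace Fermat.Agent.CFT.H68

open Fermat.Agent.CFT

variable {p : ℕ} [Fact p.Prime] {H D : Type} [Group H] [Group D]
  {𝓛 : LevelStructure H} {𝓛D : LevelStructure D}

/-- The restriction of the trivial line is the trivial line. -/
lemma res_line (φ : D →* H) : Rep.res φ (line H p) = line D p := rfl

variable {φ : D →* H} {𝒟 : WDatum p 𝓛} {𝒟' : WDatum p 𝓛D} (Φ : H5.WMor φ 𝒟 𝒟')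
  (hφ : H50.IsCont 𝓛D 𝓛 φ)

/-- `T2map` at the trivial line is `H1Wmap`, through `W ≅ Hom(𝔽_p, W)`. -/
lemma T2map_line_smOne (w : 𝓛.H1 𝒟.W) :
    Φ.T2map hφ (line H p) (H50.coeffH1 𝓛 (smOne 𝒟.W) w) =
      H50.coeffH1 𝓛D (smOne 𝒟'.W) (Φ.H1Wmap hφ w) := by
  induction w using Submodule.Quotient.induction_on with
  | H ζ =>
    refine congrArg (𝓛D.H1π _) (Subtype.ext ?_)
    funext g
    refine LinearMap.ext fun c => ?_
    show Φ.b (c • ζ.1 (φ g)) = c • Φ.b (ζ.1 (φ g))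
    rw [map_smul]

/-- `H1Wmap` is `T2map` at the trivial line, through `Hom(𝔽_p, W) ≅ W`. -/
lemma H1Wmap_eq (w : 𝓛.H1 𝒟.W) :
    Φ.H1Wmap hφ w =
      H50.coeffH1 𝓛D (evOne 𝒟'.W) (Φ.T2map hφ (line H p) (H50.coeffH1 𝓛 (smOne 𝒟.W) w)) := by
  rw [T2map_line_smOne]
  exact (coeffH1_evOne_smOne 𝒟'.W _).symm

/-- `T2map` at the trivial line, evaluated at `1`, is `H1Wmap` of the evaluation at `1`. -/
lemma evOne_T2map_line (y : 𝒟.T2 (line H p)) :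
    H50.coeffH1 𝓛D (evOne 𝒟'.W) (Φ.T2map hφ (line H p) y) =
      Φ.H1Wmap hφ (H50.coeffH1 𝓛 (evOne 𝒟.W) y) := by
  rw [H1Wmap_eq, coeffH1_smOne_evOne]

end Fermat.Agent.CFT.H68

namespace Fermat.Agent.CFT.H68

open Fermat.Agent.CFT

variable {p : ℕ} [Fact p.Prime] {H : Type} [Group H] {𝓛 : LevelStructure H}

/-- **Joint injectivity on `H¹(W)` from joint injectivity on `T²(𝔽_p)`**, for a family of
morphisms of `W`-data over continuous homomorphisms `φ v : D v →* H`. -/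
theorem H1Wmap_jointly_injective {ι : Type} {D : ι → Type} [∀ v, Group (D v)]
    {𝓛v : ∀ v, LevelStructure (D v)} {φ : ∀ v, D v →* H}
    (hφ : ∀ v, H50.IsCont (𝓛v v) 𝓛 (φ v)) {𝒟 : WDatum p 𝓛} {𝒟v : ∀ v, WDatum p (𝓛v v)}
    (Φ : ∀ v, H5.WMor (φ v) 𝒟 (𝒟v v))
    (hT2 : ∀ z : 𝒟.T2 (line H p), (∀ v, (Φ v).T2map (hφ v) (line H p) z = 0) → z = 0)
    (w : 𝓛.H1 𝒟.W) (hw : ∀ v, (Φ v).H1Wmap (hφ v) w = 0) : w = 0 := by
  have hz : H50.coeffH1 𝓛 (smOne 𝒟.W) w = 0 := by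
    refine hT2 _ fun v => ?_
    rw [T2map_line_smOne, hw v, map_zero]
    rfl
  rw [← coeffH1_evOne_smOne 𝒟.W w, hz, map_zero]

/-- Conversely, joint injectivity on `H¹(W)` gives joint injectivity on `T²(𝔽_p)`. -/
theorem T2map_line_jointly_injective {ι : Type} {D : ι → Type} [∀ v, Group (D v)]
    {𝓛v : ∀ v, LevelStructure (D v)} {φ : ∀ v, D v →* H}
    (hφ : ∀ v, H50.IsCont (𝓛v v) 𝓛 (φ v)) {𝒟 : WDatum p 𝓛} {𝒟v : ∀ v, WDatum p (𝓛v v)}
    (Φ : ∀ v, H5.WMor (φ v) 𝒟 (𝒟v v))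
    (hW : ∀ w : 𝓛.H1 𝒟.W, (∀ v, (Φ v).H1Wmap (hφ v) w = 0) → w = 0)
    (z : 𝒟.T2 (line H p)) (hz : ∀ v, (Φ v).T2map (hφ v) (line H p) z = 0) : z = 0 := by
  have hw : H50.coeffH1 𝓛 (evOne 𝒟.W) z = 0 := by
    refine hW _ fun v => ?_
    rw [← evOne_T2map_line, hz v]
    exact map_zero (H50.coeffH1 (𝓛v v) (evOne (𝒟v v).W))
  rw [← coeffH1_smOne_evOne 𝒟.W z, hw, map_zero]

end Fermat.Agent.CFT.H68
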