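import Fermat.Agent.CFT.H68_WAdapter
import Fermat.Agent.CFT.H53_Hom

/-!
# CFT / Layer D : iso-invariance of duality, and the module `X⋆ = Map(H/N₀, X)`

* `isDual2_of_iso`, `isDual1_of_iso` : `IsDual2`, `IsDual1` (H91 vocabulary) are invariant under
  isomorphisms `X ≅ Y` (also in H46 vocabulary: `bijective_α2_iff_of_iso`, `bijective_α1_iff_of_iso`);
* `starCoindIso N₀ X : starRep N₀ X ≅ Rep.coind N₀.subtype (Rep.res N₀.subtype X)`;
* `isFinDiscrete_starRep`, the cokernel `starCoker N₀ X` of `starIncl`, and the short exact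
  sequence `0 → X → X⋆ → X₁ → 0` as `H1.IsSES`.
-/

set_option autoImplicit false

noncomputable section

open CategoryTheory

namespace Fermat.Agent.CFT.H68

open Fermat.Agent.CFT

section IsoInvariance

universe u

variable {H : Type u} [Group H] {k : Type u} [CommRing k] {𝓛 : LevelStructure H}
  (M : H46.WModel 𝓛 k)

lemma preHom_id (X A : Rep.{u} k H) : H46.preHom (𝟙 X) A = 𝟙 _ := by
  apply Rep.hom_injective
  ext f
  rfl

lemma preHom_comp {X Y Z : Rep.{u} k H} (u : X ⟶ Y) (v : Y ⟶ Z) (A : Rep.{u} k H) :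
    H46.preHom (u ≫ v) A = H46.preHom v A ≫ H46.preHom u A := by
  apply Rep.hom_injective
  ext f
  rfl

lemma T2map_id (X : Rep.{u} k H) : M.T2map (𝟙 X) = LinearMap.id := by
  rw [H46.WModel.T2map, preHom_id, H1.H1map_id]

lemma T2map_comp {X Y Z : Rep.{u} k H} (u : X ⟶ Y) (v : Y ⟶ Z) :
    M.T2map (u ≫ v) = M.T2map u ∘ₗ M.T2map v := by
  rw [H46.WModel.T2map, preHom_comp, H1.H1map_comp]
  rfl

lemma T1map_id (X : Rep.{u} k H) : M.T1map (𝟙 X) = LinearMap.id := by
  ext h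
  rfl

lemma T1map_comp {X Y Z : Rep.{u} k H} (u : X ⟶ Y) (v : Y ⟶ Z) :
    M.T1map (u ≫ v) = M.T1map u ∘ₗ M.T1map v := by
  ext h
  rfl

/-- Transport of bijectivity along a commutative square with bijective sides. -/
lemma bijective_of_square {A B C D : Type*} (a : A → C) (b : B → D) (s : A → B) (t : C → D)
    (hs : Function.Bijective s) (ht : Function.Bijective t) (h : ∀ x, t (a x) = b (s x))
    (hb : Function.Bijective b) : Function.Bijective a := by
  have : t ∘ a = b ∘ s := funext h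
  have h1 : Function.Bijective (t ∘ a) := this ▸ hb.comp hs
  exact (Function.Bijective.of_comp_iff' ht a).1 h1

lemma bijective_T2map_of_iso {X Y : Rep.{u} k H} (e : X ≅ Y) :
    Function.Bijective (M.T2map e.hom) := by
  refine Function.bijective_iff_has_inverse.2 ⟨M.T2map e.inv, fun φ => ?_, fun φ => ?_⟩
  · rw [← LinearMap.comp_apply, ← T2map_comp, e.inv_hom_id, T2map_id]; rfl
  · rw [← LinearMap.comp_apply, ← T2map_comp, e.hom_inv_id, T2map_id]; rfl

lemma bijective_T1map_of_iso {X Y : Rep.{u} k H} (e : X ≅ Y) :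
    Function.Bijective (M.T1map e.hom) := by
  refine Function.bijective_iff_has_inverse.2 ⟨M.T1map e.inv, fun φ => ?_, fun φ => ?_⟩
  · rw [← LinearMap.comp_apply, ← T1map_comp, e.inv_hom_id, T1map_id]; rfl
  · rw [← LinearMap.comp_apply, ← T1map_comp, e.hom_inv_id, T1map_id]; rfl

lemma bijective_H0map_of_iso {X Y : Rep.{u} k H} (e : X ≅ Y) :
    Function.Bijective (H1.H0map e.hom) := by
  refine Function.bijective_iff_has_inverse.2 ⟨H1.H0map e.inv, fun φ => ?_, fun φ => ?_⟩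
  · rw [← LinearMap.comp_apply, ← H1.H0map_comp, e.hom_inv_id, H1.H0map_id]; rfl
  · rw [← LinearMap.comp_apply, ← H1.H0map_comp, e.inv_hom_id, H1.H0map_id]; rfl

lemma bijective_H1map_of_iso {X Y : Rep.{u} k H} (e : X ≅ Y) :
    Function.Bijective (H1.H1map 𝓛 e.hom) := by
  refine Function.bijective_iff_has_inverse.2 ⟨H1.H1map 𝓛 e.inv, fun φ => ?_, fun φ => ?_⟩
  · rw [← LinearMap.comp_apply, ← H1.H1map_comp, e.hom_inv_id, H1.H1map_id]; rfl
  · rw [← LinearMap.comp_apply, ← H1.H1map_comp, e.inv_hom_id, H1.H1map_id]; rfl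

lemma bijective_dualMap {V W : Type*} [AddCommGroup V] [Module k V] [AddCommGroup W] [Module k W]
    (f : V →ₗ[k] W) (hf : Function.Bijective f) : Function.Bijective f.dualMap :=
  (LinearEquiv.ofBijective f hf).dualMap.bijective

variable (tr : 𝓛.H1 M.W →ₗ[k] k)

/-- `α²` is bijective for `X` iff it is for an isomorphic `Y`. -/
lemma bijective_α2_of_iso {X Y : Rep.{u} k H} (e : X ≅ Y)
    (hX : Function.Bijective (M.α2 tr X)) : Function.Bijective (M.α2 tr Y) :=
  bijective_of_square (M.α2 tr Y) (M.α2 tr X) (M.T2map e.hom) (H1.H0map e.hom).dualMap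
    (bijective_T2map_of_iso M e) (bijective_dualMap _ (bijective_H0map_of_iso e))
    (fun φ => LinearMap.congr_fun (M.α2_natural tr e.hom) φ) hX

/-- `α¹` is bijective for `X` iff it is for an isomorphic `Y`. -/
lemma bijective_α1_of_iso (hVm : Subsingleton (𝓛.H1 M.Vm)) {X Y : Rep.{u} k H} (e : X ≅ Y)
    (hX : Function.Bijective (M.α1 tr hVm X)) : Function.Bijective (M.α1 tr hVm Y) :=
  bijective_of_square (M.α1 tr hVm Y) (M.α1 tr hVm X) (M.T1map e.hom) (H1.H1map 𝓛 e.hom).dualMap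
    (bijective_T1map_of_iso M e) (bijective_dualMap _ (bijective_H1map_of_iso e))
    (fun φ => LinearMap.congr_fun (M.α1_natural tr hVm e.hom) φ) hX

end IsoInvariance

section H91

variable {p : ℕ} [Fact p.Prime] {H : Type} [Group H] {𝓛 : LevelStructure H}
  (𝒟 : WDatum p 𝓛) (tr : 𝓛.H1 𝒟.W →ₗ[ZMod p] ZMod p)

/-- `IsDual2` is invariant under isomorphisms. -/
lemma isDual2_of_iso {X Y : Rep.{0} (ZMod p) H} (e : X ≅ Y) (hX : 𝒟.IsDual2 tr X) :
    𝒟.IsDual2 tr Y :=
  (isDual2_iff 𝒟 tr Y).2 (bijective_α2_of_iso (toWModel 𝒟) tr e ((isDual2_iff 𝒟 tr X).1 hX))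

/-- `IsDual1` is invariant under isomorphisms (given `H¹(H; Vm) = 0`). -/
lemma isDual1_of_iso (hVm : Subsingleton (𝓛.H1 𝒟.Vm)) {X Y : Rep.{0} (ZMod p) H} (e : X ≅ Y)
    (hX : 𝒟.IsDual1 tr X) : 𝒟.IsDual1 tr Y :=
  (isDual1_iff 𝒟 tr hVm Y).2
    (bijective_α1_of_iso (toWModel 𝒟) tr hVm e ((isDual1_iff 𝒟 tr hVm X).1 hX))

end H91

section Star

variable {k : Type} [CommRing k] {H : Type} [Group H] {𝓛 : LevelStructure H}

@[simp] lemma starRep_ρ_apply (N₀ : Subgroup H) (X : Rep.{0} k H) (g : H) (f : H ⧸ N₀ → X.V)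
    (y : H ⧸ N₀) : (starRep N₀ X).ρ g f y = X.ρ g (f (g⁻¹ • y)) := rfl

lemma smul_coset_of_mem_normal (N₀ : Subgroup H) [N₀.Normal] {n : H} (hn : n ∈ N₀) (y : H ⧸ N₀) :
    n • y = y := by
  induction y using QuotientGroup.induction_on with
  | H g =>
    show ((n * g : H) : H ⧸ N₀) = (g : H ⧸ N₀)
    rw [QuotientGroup.eq]
    have : (n * g)⁻¹ * g = g⁻¹ * n⁻¹ * g := by group
    rw [this]
    have h := (inferInstance : N₀.Normal).conj_mem n⁻¹ (N₀.inv_mem hn) g⁻¹
    simpa using h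

/-- `X⋆ = Map(H/N₀, X)` is discrete if `X` is and `N₀` is open and normal. -/
lemma isDiscrete_starRep (N₀ : Subgroup H) [N₀.Normal] (hN : 𝓛.IsOpen N₀) {X : Rep.{0} k H}
    (hX : 𝓛.IsDiscrete X) : 𝓛.IsDiscrete (starRep N₀ X) := by
  classical
  intro f
  have : N₀.FiniteIndex := H50.finiteIndex_of_isOpen 𝓛 hN
  have : Finite (H ⧸ N₀) := Subgroup.finite_quotient_of_finiteIndex
  have : Fintype (H ⧸ N₀) := Fintype.ofFinite _
  obtain ⟨N₁, hN₁, h₁⟩ := H53.exists_level_fixing_finset 𝓛 hX (Finset.univ.image f)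
  obtain ⟨N, hNl, hle₁, hle₂, -⟩ :=
    H50.exists_normal_level_le_inf 𝓛 (H50.isOpen_of_mem_levels 𝓛 hN₁) hN
  refine ⟨N, hNl, fun n hn => ?_⟩
  funext y
  rw [starRep_ρ_apply, smul_coset_of_mem_normal N₀ (N₀.inv_mem (hle₂ hn))]
  exact h₁ _ (Finset.mem_image_of_mem _ (Finset.mem_univ y)) n (hle₁ hn)

/-- The image of `X` in `X⋆` is a subrepresentation. -/
lemma range_starIncl_le_comap (N₀ : Subgroup H) (X : Rep.{0} k H) (g : H) :
    LinearMap.range (starIncl N₀ X).hom.toLinearMap ≤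
      (LinearMap.range (starIncl N₀ X).hom.toLinearMap).comap ((starRep N₀ X).ρ g) := by
  rintro _ ⟨x, rfl⟩
  exact ⟨X.ρ g x, (Rep.hom_comm_apply (starIncl N₀ X) g x)⟩

/-- `X₁ := X⋆ / X`. -/
def starCoker (N₀ : Subgroup H) (X : Rep.{0} k H) : Rep.{0} k H :=
  (starRep N₀ X).quotient (LinearMap.range (starIncl N₀ X).hom.toLinearMap)
    (range_starIncl_le_comap N₀ X)

/-- The projection `X⋆ ⟶ X₁`. -/
def starProj (N₀ : Subgroup H) (X : Rep.{0} k H) : starRep N₀ X ⟶ starCoker N₀ X :=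
  Rep.mkQ _ _ (range_starIncl_le_comap N₀ X)

/-- The short exact sequence `0 → X → X⋆ → X₁ → 0`. -/
lemma isSES_star (N₀ : Subgroup H) (X : Rep.{0} k H) :
    H1.IsSES (starIncl N₀ X) (starProj N₀ X) where
  inj := starIncl_injective N₀ X
  surj := Submodule.mkQ_surjective _
  exact := by
    intro f
    constructor
    · intro hf
      exact (Submodule.Quotient.mk_eq_zero _).1 hf
    · intro hf
      exact (Submodule.Quotient.mk_eq_zero _).2 hf

/-- A quotient of a discrete module is discrete. -/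
lemma isDiscrete_of_surjective {A B : Rep.{0} k H} (π : A ⟶ B)
    (hπ : Function.Surjective π.hom) (hA : 𝓛.IsDiscrete A) : 𝓛.IsDiscrete B := by
  intro b
  obtain ⟨a, rfl⟩ := hπ b
  obtain ⟨N, hN, h⟩ := hA a
  exact ⟨N, hN, fun n hn => by rw [← Rep.hom_comm_apply, h n hn]⟩

lemma isDiscrete_starCoker (N₀ : Subgroup H) [N₀.Normal] (hN : 𝓛.IsOpen N₀) {X : Rep.{0} k H}
    (hX : 𝓛.IsDiscrete X) : 𝓛.IsDiscrete (starCoker N₀ X) :=
  isDiscrete_of_surjective (starProj N₀ X) (isSES_star N₀ X).surj (isDiscrete_starRep N₀ hN hX)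

/-- The comparison map `Map(H/N₀, X) → Coind_{N₀}^H (X|N₀)`, `F ↦ (h ↦ h • F(h⁻¹N₀))`, as a
linear map. -/
def starToCoindLin (N₀ : Subgroup H) (X : Rep.{0} k H) :
    (H ⧸ N₀ → X.V) →ₗ[k] Representation.coindV N₀.subtype (Rep.res N₀.subtype X).ρ where
  toFun F := ⟨fun h => X.ρ h (F ((h⁻¹ : H) : H ⧸ N₀)), by
    intro n h
    have hc : (((N₀.subtype n * h)⁻¹ : H) : H ⧸ N₀) = ((h⁻¹ : H) : H ⧸ N₀) := by
      rw [QuotientGroup.eq]
      simp
    show X.ρ (N₀.subtype n * h) (F _) = X.ρ (N₀.subtype n) (X.ρ h (F _))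
    rw [hc, map_mul]
    rfl⟩
  map_add' F F' := by
    apply Subtype.ext
    funext h
    simp
  map_smul' c F := by
    apply Subtype.ext
    funext h
    simp

/-- The comparison map `Map(H/N₀, X) → Coind_{N₀}^H (X|N₀)`, `F ↦ (h ↦ h • F(h⁻¹N₀))`. -/
def starToCoind (N₀ : Subgroup H) (X : Rep.{0} k H) :
    starRep N₀ X ⟶ Rep.coind N₀.subtype (Rep.res N₀.subtype X) :=
  Rep.ofHom (ρ := (starRep N₀ X).ρ) (σ := (Rep.coind N₀.subtype (Rep.res N₀.subtype X)).ρ)
    ⟨starToCoindLin N₀ X, fun g => by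
      ext F h
      show X.ρ h (X.ρ g (F (g⁻¹ • ((h⁻¹ : H) : H ⧸ N₀)))) =
        X.ρ (h * g) (F (((h * g)⁻¹ : H) : H ⧸ N₀))
      rw [map_mul, mul_inv_rev]
      rfl⟩

lemma starToCoind_apply (N₀ : Subgroup H) (X : Rep.{0} k H) (F : H ⧸ N₀ → X.V) (h : H) :
    ((starToCoind N₀ X).hom F).1 h = X.ρ h (F ((h⁻¹ : H) : H ⧸ N₀)) := rfl

lemma starToCoind_bijective (N₀ : Subgroup H) (X : Rep.{0} k H) :
    Function.Bijective (starToCoind N₀ X).hom := by
  constructor
  · rw [injective_iff_map_eq_zero]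
    intro F hF
    funext y
    induction y using QuotientGroup.induction_on with
    | H g =>
      have h1 : ((starToCoind N₀ X).hom F).1 g⁻¹ = 0 := by rw [hF]; rfl
      rw [starToCoind_apply, inv_inv] at h1
      have h2 := congrArg (X.ρ g) h1
      rw [← Module.End.mul_apply, ← map_mul, mul_inv_cancel, map_one, map_zero] at h2
      exact h2
  · intro f
    refine ⟨fun y => X.ρ (Quotient.out y) (f.1 (Quotient.out y)⁻¹), ?_⟩
    apply Subtype.ext
    funext h
    rw [starToCoind_apply]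
    set y : H ⧸ N₀ := ((h⁻¹ : H) : H ⧸ N₀) with hy
    have hmem : h * Quotient.out y ∈ N₀ := by
      have := QuotientGroup.out_eq' y
      rw [hy, QuotientGroup.eq] at this
      have h3 : (Quotient.out y)⁻¹ * h⁻¹ = (h * Quotient.out y)⁻¹ := by group
      rw [h3] at this
      exact (Subgroup.inv_mem_iff N₀).1 this
    have hf := f.2 ⟨h * Quotient.out y, hmem⟩ (Quotient.out y)⁻¹
    have e1 : N₀.subtype ⟨h * Quotient.out y, hmem⟩ * (Quotient.out y)⁻¹ = h := by
      simp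
    rw [e1] at hf
    rw [hf]
    show X.ρ h (X.ρ (Quotient.out y) (f.1 (Quotient.out y)⁻¹)) =
      X.ρ (h * Quotient.out y) (f.1 (Quotient.out y)⁻¹)
    rw [map_mul]
    rfl

/-- `Map(H/N₀, X) ≅ Coind_{N₀}^H (X|N₀)` for every `X`. -/
def starCoindIso (N₀ : Subgroup H) (X : Rep.{0} k H) :
    starRep N₀ X ≅ Rep.coind N₀.subtype (Rep.res N₀.subtype X) :=
  haveI : IsIso ((forget (Rep.{0} k H)).map (starToCoind N₀ X)) :=
    (isIso_iff_bijective _).2 (starToCoind_bijective N₀ X)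
  haveI : IsIso (starToCoind N₀ X) := isIso_of_reflects_iso _ (forget (Rep.{0} k H))
  asIso (starToCoind N₀ X)

@[simp] lemma starCoindIso_hom (N₀ : Subgroup H) (X : Rep.{0} k H) :
    (starCoindIso N₀ X).hom = starToCoind N₀ X := rfl

end Star

section StarFin

variable {p : ℕ} [Fact p.Prime] {H : Type} [Group H] {𝓛 : LevelStructure H}

lemma isFinDiscrete_starRep (N₀ : Subgroup H) [N₀.Normal] (hN : 𝓛.IsOpen N₀)
    {X : Rep.{0} (ZMod p) H} (hX : IsFinDiscrete 𝓛 X) : IsFinDiscrete 𝓛 (starRep N₀ X) where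
  finite := by
    have : N₀.FiniteIndex := H50.finiteIndex_of_isOpen 𝓛 hN
    have : Finite (H ⧸ N₀) := Subgroup.finite_quotient_of_finiteIndex
    have := hX.finite
    exact inferInstanceAs (Finite (H ⧸ N₀ → X.V))
  discrete := isDiscrete_starRep N₀ hN hX.discrete

lemma isFinDiscrete_starCoker (N₀ : Subgroup H) [N₀.Normal] (hN : 𝓛.IsOpen N₀)
    {X : Rep.{0} (ZMod p) H} (hX : IsFinDiscrete 𝓛 X) : IsFinDiscrete 𝓛 (starCoker N₀ X) where
  finite := by
    have := (isFinDiscrete_starRep N₀ hN hX).finite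
    exact Finite.of_surjective _ (isSES_star N₀ X).surj
  discrete := isDiscrete_starCoker N₀ hN hX.discrete

end StarFin

end Fermat.Agent.CFT.H68
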