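import Mathlib

/-!
# CFT / Layer D3 : nonzero weights for the trace identity (X5)  (Mathlib only)

`exists_weights`: let `f : V → k` be a linear form on a `k`-vector space `V` (`k` a field) which
is decomposed by places, `∑_v π_v = id`, with "localisation" maps `Λ_v : V → L_v` which are jointly
injective and satisfy `Λ_w ∘ π_v = 0` for `w ≠ v`, and injective "local traces" `t_v : L_v → k`.
If `f` does not vanish on a `v`-part unless the localisation does (`(X5')`:
`f (π_v y) = 0 → Λ_v (π_v y) = 0`), then `f = ∑_v c_v • t_v ∘ Λ_v` with all `c_v ≠ 0`.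
-/

set_option autoImplicit false

namespace Fermat.Agent.CFT.H68

open scoped BigOperators

variable {k : Type*} [Field k] {ι : Type*} [Fintype ι] {V : Type*} [AddCommGroup V] [Module k V]
  {L : ι → Type*} [∀ v, AddCommGroup (L v)] [∀ v, Module k (L v)]

omit [Fintype ι] in
/-- One place: on the `v`-part `π_v V`, the form `f` is a nonzero multiple of `t_v ∘ Λ_v`. -/
theorem exists_weight_at (f : V →ₗ[k] k) (Λ : ∀ v, V →ₗ[k] L v) (t : ∀ v, L v →ₗ[k] k)
    (ht : ∀ v, Function.Injective (t v)) (π : ι → V →ₗ[k] V)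
    (horth : ∀ v w, w ≠ v → ∀ y, Λ w (π v y) = 0)
    (hinj : ∀ y, (∀ v, Λ v y = 0) → y = 0)
    (hX5 : ∀ v y, f (π v y) = 0 → Λ v (π v y) = 0) (v : ι) :
    ∃ c : k, c ≠ 0 ∧ ∀ y, f (π v y) = c * t v (Λ v (π v y)) := by
  classical
  by_cases hA : ∀ y, t v (Λ v (π v y)) = 0
  · refine ⟨1, one_ne_zero, fun y => ?_⟩
    have hz : π v y = 0 := by
      refine hinj _ fun w => ?_
      by_cases hw : w = v
      · subst hw
        exact ht w (by rw [hA y, map_zero])
      · exact horth v w hw y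
    rw [hz, map_zero, map_zero, map_zero, mul_zero]
  · obtain ⟨y₀, hy₀⟩ := not_forall.1 hA
    have hfu : f (π v y₀) ≠ 0 := by
      intro h0
      apply hy₀
      rw [hX5 v y₀ h0, map_zero]
    refine ⟨f (π v y₀) / t v (Λ v (π v y₀)), div_ne_zero hfu hy₀, fun y => ?_⟩
    have hz' : π v y - (t v (Λ v (π v y)) / t v (Λ v (π v y₀))) • π v y₀ = 0 := by
      refine hinj _ fun w => ?_
      by_cases hw : w = v
      · subst hw
        apply ht w
        rw [map_zero, map_sub, map_sub, map_smul, map_smul, smul_eq_mul,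
          div_mul_cancel₀ _ hy₀, sub_self]
      · rw [map_sub, map_smul, horth v w hw y, horth v w hw y₀, smul_zero, sub_zero]
    have hz'' : π v y = (t v (Λ v (π v y)) / t v (Λ v (π v y₀))) • π v y₀ := sub_eq_zero.1 hz'
    conv_lhs => rw [hz'', map_smul, smul_eq_mul]
    field_simp

/-- **Nonzero weights.** -/
theorem exists_weights (f : V →ₗ[k] k) (Λ : ∀ v, V →ₗ[k] L v) (t : ∀ v, L v →ₗ[k] k)
    (ht : ∀ v, Function.Injective (t v)) (π : ι → V →ₗ[k] V) (hπ : ∀ y, ∑ v, π v y = y)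
    (horth : ∀ v w, w ≠ v → ∀ y, Λ w (π v y) = 0)
    (hinj : ∀ y, (∀ v, Λ v y = 0) → y = 0)
    (hX5 : ∀ v y, f (π v y) = 0 → Λ v (π v y) = 0) :
    ∃ c : ι → k, (∀ v, c v ≠ 0) ∧ ∀ y, f y = ∑ v, c v * t v (Λ v y) := by
  classical
  choose c hc0 hc using exists_weight_at f Λ t ht π horth hinj hX5
  refine ⟨c, hc0, fun y => ?_⟩
  have hloc : ∀ v, Λ v (π v y) = Λ v y := by
    intro v
    conv_rhs => rw [← hπ y, map_sum]
    rw [Finset.sum_eq_single v]
    · intro w _ hw
      exact horth w v (Ne.symm hw) y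
    · intro h
      exact absurd (Finset.mem_univ v) h
  conv_lhs => rw [← hπ y, map_sum]
  refine Finset.sum_congr rfl fun v _ => ?_
  rw [hc v y, hloc v]

omit [Fintype ι] in
/-- The hypothesis `(X5')` of `exists_weights` from a *witness*: at each place, either the
`v`-part is invisible (`Λ_v ∘ π_v = 0`) or `f` does not vanish identically on the `v`-part.
(As `t_v` is injective, `L_v` is at most one-dimensional, so one witness is enough.) -/
theorem x5_of_witness (f : V →ₗ[k] k) (Λ : ∀ v, V →ₗ[k] L v) (t : ∀ v, L v →ₗ[k] k)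
    (ht : ∀ v, Function.Injective (t v)) (π : ι → V →ₗ[k] V)
    (horth : ∀ v w, w ≠ v → ∀ y, Λ w (π v y) = 0)
    (hinj : ∀ y, (∀ v, Λ v y = 0) → y = 0)
    (hw : ∀ v, (∀ y, Λ v (π v y) = 0) ∨ ∃ y₀, f (π v y₀) ≠ 0) :
    ∀ v y, f (π v y) = 0 → Λ v (π v y) = 0 := by
  classical
  intro v y hy
  rcases hw v with h0 | ⟨y₀, hy₀⟩
  · exact h0 y
  · have ha₀ : t v (Λ v (π v y₀)) ≠ 0 := by
      intro h
      apply hy₀
      have hz : π v y₀ = 0 := by
        refine hinj _ fun w => ?_
        by_cases hwv : w = v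
        · subst hwv
          exact ht w (by rw [h, map_zero])
        · exact horth v w hwv y₀
      rw [hz, map_zero]
    have hz' : π v y - (t v (Λ v (π v y)) / t v (Λ v (π v y₀))) • π v y₀ = 0 := by
      refine hinj _ fun w => ?_
      by_cases hwv : w = v
      · subst hwv
        apply ht w
        rw [map_zero, map_sub, map_sub, map_smul, map_smul, smul_eq_mul,
          div_mul_cancel₀ _ ha₀, sub_self]
      · rw [map_sub, map_smul, horth v w hwv y, horth v w hwv y₀, smul_zero, sub_zero]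
    have hz'' : π v y = (t v (Λ v (π v y)) / t v (Λ v (π v y₀))) • π v y₀ := sub_eq_zero.1 hz'
    have h1 : (t v (Λ v (π v y)) / t v (Λ v (π v y₀))) * f (π v y₀) = 0 := by
      rw [← smul_eq_mul, ← map_smul, ← hz'', hy]
    have h2 : t v (Λ v (π v y)) / t v (Λ v (π v y₀)) = 0 :=
      (mul_eq_zero.1 h1).resolve_right hy₀
    have h3 : t v (Λ v (π v y)) = 0 := by
      rcases div_eq_zero_iff.1 h2 with h | h
      · exact h
      · exact absurd h ha₀
    exact ht v (by rw [h3, map_zero])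

/-- **Nonzero weights from witnesses.** -/
theorem exists_weights_of_witness (f : V →ₗ[k] k) (Λ : ∀ v, V →ₗ[k] L v) (t : ∀ v, L v →ₗ[k] k)
    (ht : ∀ v, Function.Injective (t v)) (π : ι → V →ₗ[k] V) (hπ : ∀ y, ∑ v, π v y = y)
    (horth : ∀ v w, w ≠ v → ∀ y, Λ w (π v y) = 0)
    (hinj : ∀ y, (∀ v, Λ v y = 0) → y = 0)
    (hw : ∀ v, (∀ y, Λ v (π v y) = 0) ∨ ∃ y₀, f (π v y₀) ≠ 0) :
    ∃ c : ι → k, (∀ v, c v ≠ 0) ∧ ∀ y, f y = ∑ v, c v * t v (Λ v y) :=
  exists_weights f Λ t ht π hπ horth hinj (x5_of_witness f Λ t ht π horth hinj hw)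

end Fermat.Agent.CFT.H68
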