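import Fermat.Agent.CFT.H5_ThetaC
import Fermat.Agent.CFT.H68_Weights

/-!
# CFT / Layer D3 : the witness for the trace identity (X5) from the layer-C statement (X5'')

Setting: `pr : J ⟶ C` (ideles to idele classes), envelopes `EJ`, `EC`, an envelope morphism `Ψ`
over `pr`; a direct factor `in_q : J_q ⟶ J` with idempotent `e : J ⟶ J` (`in_q ≫ e = in_q`) lifted
to an envelope endomorphism `ẽ` of `EJ`.

`exists_witness`: a `p`-torsion class `x₀ ∈ H²(J_q)` whose image in `H²(C)` is nonzero (this is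
`(X5'')`, from layer C) produces `y₀ ∈ H¹(W_J)` such that the image of `ẽ_* y₀` in `H¹(W_C)` is
nonzero (indeed its `θ_C` is nonzero).  This is the witness hypothesis `hw` of
`H68.exists_weights_of_witness`.
-/

set_option autoImplicit false

open CategoryTheory

namespace Fermat.Agent.CFT.H68

open Fermat.Agent.CFT

variable {k : Type} [CommRing k] {H : Type} [Group H] {𝓛 : LevelStructure H} {p : ℕ}
  [Fact p.Prime] {J C Jq : Rep.{0} k H}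

/-- The witness, in `θ`-form. -/
theorem exists_witness_theta (EJ : H36.DivEnvelope 𝓛 p J) (EC : H36.DivEnvelope 𝓛 p C)
    (pr : J ⟶ C) (Ψ : H5.EnvMor (MonoidHom.id H) EJ EC pr.hom.toLinearMap)
    (inq : Jq ⟶ J) (e : J ⟶ J) (hinq : inq ≫ e = inq)
    (ee : H5.EnvMor (MonoidHom.id H) EJ EJ e.hom.toLinearMap)
    (hI1 : Subsingleton (𝓛.H1 EJ.I)) (hI2 : Subsingleton (𝓛.H2 EJ.I))
    (x₀ : 𝓛.H2 Jq) (hx₀ : p • x₀ = 0) :
    ∃ y₀ : 𝓛.H1 EJ.wDatum.W,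
      H91.theta EC (Ψ.toWMor.H1Wmap (H50.isCont_id 𝓛)
        (ee.toWMor.H1Wmap (H50.isCont_id 𝓛) y₀)) = H50.coeffH2 𝓛 (inq ≫ pr) x₀ := by
  have hz : p • H50.coeffH2 𝓛 inq x₀ = 0 := by rw [← map_nsmul, hx₀, map_zero]
  obtain ⟨y₀, hy₀⟩ := H91.exists_theta_eq EJ hI1 hI2 _ hz
  refine ⟨y₀, ?_⟩
  rw [H5.thetaC_natural_id pr Ψ, H5.thetaC_natural_id e ee, hy₀]
  simp only [H1.coeffH2_eq]
  rw [← LinearMap.comp_apply, ← H1.H2map_comp, ← LinearMap.comp_apply, ← H1.H2map_comp,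
    ← Category.assoc, hinq]

/-- The witness: if the image of `x₀` in `H²(C)` is nonzero, so is the image of `ẽ_* y₀` in
`H¹(W_C)`. -/
theorem exists_witness (EJ : H36.DivEnvelope 𝓛 p J) (EC : H36.DivEnvelope 𝓛 p C)
    (pr : J ⟶ C) (Ψ : H5.EnvMor (MonoidHom.id H) EJ EC pr.hom.toLinearMap)
    (inq : Jq ⟶ J) (e : J ⟶ J) (hinq : inq ≫ e = inq)
    (ee : H5.EnvMor (MonoidHom.id H) EJ EJ e.hom.toLinearMap)
    (hI1 : Subsingleton (𝓛.H1 EJ.I)) (hI2 : Subsingleton (𝓛.H2 EJ.I))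
    (x₀ : 𝓛.H2 Jq) (hx₀ : p • x₀ = 0) (hne : H50.coeffH2 𝓛 (inq ≫ pr) x₀ ≠ 0) :
    ∃ y₀ : 𝓛.H1 EJ.wDatum.W,
      Ψ.toWMor.H1Wmap (H50.isCont_id 𝓛) (ee.toWMor.H1Wmap (H50.isCont_id 𝓛) y₀) ≠ 0 := by
  obtain ⟨y₀, hy₀⟩ := exists_witness_theta EJ EC pr Ψ inq e hinq ee hI1 hI2 x₀ hx₀
  refine ⟨y₀, fun h0 => hne ?_⟩
  rw [← hy₀, h0]
  exact map_zero (H91.theta EC)

end Fermat.Agent.CFT.H68
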