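import Fermat.Agent.CFT.H5_EnvMorH1W
import Fermat.Agent.CFT.H68_X5Witness
import Fermat.Agent.CFT.H68_LineBridge

/-!
# CFT / Layer D3 : the trace identity (X5) with nonzero weights, abstract form

`exists_traceWeights`: in the setting of the abstract Poitou–Tate theorem (`J → C` with envelopes
`EJ`, `EC` and an envelope morphism `Ψ` over `pr : J ⟶ C`; local envelopes `EA v` with envelope
morphisms `Λ v : EJ → EA v` along `φ v`), suppose `J` is decomposed by idempotents `e v`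
(`∑ e v = id`, `ev u ∘ e v = 0` for `u ≠ v`) lifted to envelope endomorphisms `ee v`, the traces
`trC`, `trv v` are injective, the localisations `(Λ v)_*` are jointly injective on `T²(𝔽_p)`
(from D4), and at each place there is a `p`-torsion class of `H²(J_v)` with nonzero image in
`H²(C)` (`(X5'')`, from layer C).  Then
`trC ∘ Ψ_* = ∑_v c_v • trv v ∘ (Λ v)_*` on `H¹(W_J)` with all `c_v ≠ 0`.
-/

set_option autoImplicit false

open CategoryTheory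

namespace Fermat.Agent.CFT.H68

open Fermat.Agent.CFT

variable {p : ℕ} [Fact p.Prime] {k : Type} [CommRing k] {H : Type} [Group H]
  {𝓛 : LevelStructure H} {ι : Type} [Fintype ι] {D : ι → Type} [∀ v, Group (D v)]
  {𝓛v : ∀ v, LevelStructure (D v)} {φ : ∀ v, D v →* H}

/-- **The trace identity (X5) with nonzero weights.** -/
theorem exists_traceWeights (hφ : ∀ v, H50.IsCont (𝓛v v) 𝓛 (φ v)) {J C : Rep.{0} k H}
    (EJ : H36.DivEnvelope 𝓛 p J) (EC : H36.DivEnvelope 𝓛 p C) (pr : J ⟶ C)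
    (Ψ : H5.EnvMor (MonoidHom.id H) EJ EC pr.hom.toLinearMap)
    {A : ∀ v, Rep.{0} k (D v)} (EA : ∀ v, H36.DivEnvelope (𝓛v v) p (A v))
    (ev : ∀ v, J.V →ₗ[k] (A v).V) (Λ : ∀ v, H5.EnvMor (φ v) EJ (EA v) (ev v))
    {Jv : ι → Rep.{0} k H} (inv : ∀ v, Jv v ⟶ J) (e : ι → (J ⟶ J))
    (hin : ∀ v, inv v ≫ e v = inv v) (hsum : ∀ j : J.V, ∑ v, (e v).hom j = j)
    (horth : ∀ u v, u ≠ v → ∀ j : J.V, ev u ((e v).hom j) = 0)
    (ee : ∀ v, H5.EnvMor (MonoidHom.id H) EJ EJ (e v).hom.toLinearMap)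
    (hI1 : Subsingleton (𝓛.H1 EJ.I)) (hI2 : Subsingleton (𝓛.H2 EJ.I))
    (hVmJ : Subsingleton (𝓛.H1 EJ.wDatum.Vm))
    (hVmv : ∀ v, Subsingleton ((𝓛v v).H1 (EA v).wDatum.Vm))
    (trC : 𝓛.H1 EC.wDatum.W →ₗ[ZMod p] ZMod p) (htrC : Function.Injective trC)
    (trv : ∀ v, (𝓛v v).H1 (EA v).wDatum.W →ₗ[ZMod p] ZMod p)
    (htrv : ∀ v, Function.Injective (trv v))
    (hT2 : ∀ z : EJ.wDatum.T2 (line H p),
      (∀ v, (Λ v).toWMor.T2map (hφ v) (line H p) z = 0) → z = 0)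
    (hX5 : ∀ v, ∃ x₀ : 𝓛.H2 (Jv v), p • x₀ = 0 ∧ H50.coeffH2 𝓛 (inv v ≫ pr) x₀ ≠ 0) :
    ∃ c : ι → ZMod p, (∀ v, c v ≠ 0) ∧ ∀ w : 𝓛.H1 EJ.wDatum.W,
      trC (Ψ.toWMor.H1Wmap (H50.isCont_id 𝓛) w) =
        ∑ v, c v * trv v ((Λ v).toWMor.H1Wmap (hφ v) w) := by
  have key := exists_weights_of_witness (k := ZMod p) (V := 𝓛.H1 EJ.wDatum.W)
    (L := fun v => (𝓛v v).H1 (EA v).wDatum.W)
    (trC ∘ₗ Ψ.toWMor.H1Wmap (H50.isCont_id 𝓛))
    (fun v => (Λ v).toWMor.H1Wmap (hφ v)) trv htrv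
    (fun v => (ee v).toWMor.H1Wmap (H50.isCont_id 𝓛))
    (fun w => H5.EnvMor.sum_H1Wmap_apply_of_sum_eq_id Finset.univ ee (fun c => hsum c) hVmJ w)
    (fun v u huv y => H5.EnvMor.H1Wmap_comp_eq_zero (H50.isCont_id 𝓛) (hφ u) (ee v) (Λ u)
      (fun c => horth u v huv c) (hVmv u) y)
    (fun y hy => H1Wmap_jointly_injective hφ (fun v => (Λ v).toWMor) hT2 y hy)
    (fun v => Or.inr (by
      obtain ⟨x₀, hx₀, hne⟩ := hX5 v
      obtain ⟨y₀, hy₀⟩ := exists_witness EJ EC pr Ψ (inv v) (e v) (hin v) (ee v) hI1 hI2 x₀ hx₀ hne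
      exact ⟨y₀, fun h => hy₀ (htrC (h.trans (map_zero trC).symm))⟩))
  obtain ⟨c, hc, hcw⟩ := key
  exact ⟨c, hc, fun w => hcw w⟩

end Fermat.Agent.CFT.H68
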