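import Fermat.Agent.CFT.H91_WModel
import Fermat.Agent.CFT.H46_WModel

/-!
# CFT / Layer D : adapter between the two `W`-model vocabularies

`H91_WModel` (helper91, skeleton vocabulary: `WDatum p 𝓛`, `alpha2`, `alpha1num`, `IsDual1`,
`IsDual2`) and `H46_WModel` (helper46: `WModel 𝓛 k`, `T1 = Coker`, `α1`, `α2`).

* `toWModel 𝒟 : H46.WModel 𝓛 (ZMod p)`;
* `alpha2_eq` : `𝒟.alpha2 tr X = (toWModel 𝒟).α2 tr X` (same carrier, by `rfl` on representatives);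
* `isDual2_iff` : `𝒟.IsDual2 tr X ↔ Function.Bijective ((toWModel 𝒟).α2 tr X)`;
* `isDual1_iff` : `𝒟.IsDual1 tr X ↔ Function.Bijective ((toWModel 𝒟).α1 tr hVm X)`.
-/

set_option autoImplicit false

noncomputable section

open CategoryTheory

namespace Fermat.Agent.CFT.H68

open Fermat.Agent.CFT

variable {p : ℕ} [Fact p.Prime] {H : Type} [Group H] {𝓛 : LevelStructure H}

/-- The `H46.WModel` underlying an `H91` `WDatum`. -/
def toWModel (𝒟 : WDatum p 𝓛) : H46.WModel 𝓛 (ZMod p) where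
  Vm := 𝒟.Vm
  W := 𝒟.W
  d := 𝒟.d
  discrete_Vm := 𝒟.discrete_Vm
  discrete_W := 𝒟.discrete_W

variable (𝒟 : WDatum p 𝓛) (tr : 𝓛.H1 𝒟.W →ₗ[ZMod p] ZMod p)

example (X : Rep.{0} (ZMod p) H) : 𝒟.T2 X = (toWModel 𝒟).T2 X := rfl
example (X : Rep.{0} (ZMod p) H) : 𝒟.T3 X = (toWModel 𝒟).T3 X := rfl

lemma alpha2_eq (X : Rep.{0} (ZMod p) H) :
    𝒟.alpha2 tr X = (toWModel 𝒟).α2 tr X := by
  refine LinearMap.ext fun φ => LinearMap.ext fun x => ?_
  induction φ using Submodule.Quotient.induction_on with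
  | H φ => rfl

lemma isDual2_iff (X : Rep.{0} (ZMod p) H) :
    𝒟.IsDual2 tr X ↔ Function.Bijective ((toWModel 𝒟).α2 tr X) := by
  unfold WDatum.IsDual2
  rw [alpha2_eq]
  exact Iff.rfl

lemma T1den_eq (X : Rep.{0} (ZMod p) H) :
    𝒟.T1den X = LinearMap.range ((toWModel 𝒟).dHom X) := by
  ext h
  constructor
  · rintro ⟨v, rfl⟩
    exact ⟨v, Subtype.ext rfl⟩
  · rintro ⟨v, rfl⟩
    exact ⟨v, Subtype.ext rfl⟩

lemma alpha1num_eq (hVm : Subsingleton (𝓛.H1 𝒟.Vm)) (X : Rep.{0} (ZMod p) H) (h : 𝒟.T1num X) :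
    𝒟.alpha1num tr X h = (toWModel 𝒟).α1 tr hVm X ((toWModel 𝒟).T1π X h) := by
  refine LinearMap.ext fun ξ => ?_
  induction ξ using Submodule.Quotient.induction_on with
  | H ξ => rfl

lemma isDual1_iff (hVm : Subsingleton (𝓛.H1 𝒟.Vm)) (X : Rep.{0} (ZMod p) H) :
    𝒟.IsDual1 tr X ↔ Function.Bijective ((toWModel 𝒟).α1 tr hVm X) := by
  have hπ : Function.Surjective ((toWModel 𝒟).T1π X) := Submodule.mkQ_surjective _
  have hker : ∀ h : 𝒟.T1num X, (toWModel 𝒟).T1π X h = 0 ↔ h ∈ 𝒟.T1den X := by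
    intro h
    rw [T1den_eq]
    exact Submodule.Quotient.mk_eq_zero _
  constructor
  · rintro ⟨hs, hk⟩
    refine ⟨?_, ?_⟩
    · rw [injective_iff_map_eq_zero]
      intro t ht
      obtain ⟨h, rfl⟩ := hπ t
      rw [← alpha1num_eq 𝒟 tr hVm X h] at ht
      have : h ∈ LinearMap.ker (𝒟.alpha1num tr X) := ht
      rw [hk] at this
      exact (hker h).2 this
    · intro ψ
      obtain ⟨h, rfl⟩ := hs ψ
      exact ⟨_, (alpha1num_eq 𝒟 tr hVm X h).symm⟩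
  · rintro ⟨hi, hs⟩
    refine ⟨?_, ?_⟩
    · intro ψ
      obtain ⟨t, rfl⟩ := hs ψ
      obtain ⟨h, rfl⟩ := hπ t
      exact ⟨h, alpha1num_eq 𝒟 tr hVm X h⟩
    · ext h
      rw [LinearMap.mem_ker, alpha1num_eq 𝒟 tr hVm X h, ← hker h]
      constructor
      · intro h0
        exact hi (by rw [h0, map_zero])
      · intro h0
        rw [h0, map_zero]

/-- `IsFinDiscrete` (finite as a set) versus `Module.Finite` + `IsDiscrete`. -/
lemma isFinDiscrete_iff (X : Rep.{0} (ZMod p) H) :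
    IsFinDiscrete 𝓛 X ↔ Module.Finite (ZMod p) X.V ∧ 𝓛.IsDiscrete X := by
  constructor
  · rintro ⟨hf, hd⟩
    exact ⟨Module.finite_iff_finite.2 hf, hd⟩
  · rintro ⟨hf, hd⟩
    exact ⟨Module.finite_iff_finite.1 hf, hd⟩

end Fermat.Agent.CFT.H68
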