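import Mathlib
import Fermat.Agent.CFT.A_Defs
import Fermat.Agent.CFT.H95_Acyclic
import Fermat.Agent.CFT.H68_Shift

open CategoryTheory CategoryTheory.Limits groupCohomology

universe u

namespace Fermat.Agent.CFT.H6

section Naturality

variable {k G H : Type u} [CommRing k] [Group G] [Group H] (f : H →* G)

/-- The connecting homomorphism commutes with restriction along a group homomorphism. -/
theorem δ_res_naturality {X : ShortComplex (Rep k G)} (hX : X.ShortExact)
    (hXres : (X.map (Rep.resFunctor f)).ShortExact) (i j : ℕ) (hij : i + 1 = j) :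
    groupCohomology.δ hX i j hij ≫ groupCohomology.map f (𝟙 (Rep.res f X.X₁)) j =
      groupCohomology.map f (𝟙 (Rep.res f X.X₃)) i ≫ groupCohomology.δ hXres i j hij := by
  let φ : X.map (cochainsFunctor k G) ⟶ (X.map (Rep.resFunctor f)).map (cochainsFunctor k H) :=
    { τ₁ := cochainsMap f (𝟙 (Rep.res f X.X₁))
      τ₂ := cochainsMap f (𝟙 (Rep.res f X.X₂))
      τ₃ := cochainsMap f (𝟙 (Rep.res f X.X₃))
      comm₁₂ := by
        ext n x
        rfl
      comm₂₃ := by
        ext n x
        rfl }
  exact HomologicalComplex.HomologySequence.δ_naturality φ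
    (map_cochainsFunctor_shortExact hX) (map_cochainsFunctor_shortExact hXres) i j hij

end Naturality


section Base

variable {k G : Type u} [CommRing k] [Group G] (S : Subgroup G) [S.FiniteIndex] (A : Rep k G)

/-- A `1`-cocycle vanishing on `S` has `[G:S] • z` a coboundary. -/
lemma index_nsmul_mem_coboundaries₁ (z : G → A) (hz : z ∈ cocycles₁ A)
    (hS : ∀ s ∈ S, z s = 0) : S.index • z ∈ coboundaries₁ A := by
  classical
  let _ : Fintype (G ⧸ S) := Fintype.ofFinite _
  have hmul : ∀ g h : G, z (g * h) = A.ρ g (z h) + z g := (mem_cocycles₁_iff z).1 hz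
  have hconst : ∀ g : G, ∀ s ∈ S, z (g * s) = z g := by
    intro g s hs
    rw [hmul, hS s hs, map_zero, zero_add]
  let F : G ⧸ S → A := Quotient.lift z (by
    intro a b hab
    have hab' : a⁻¹ * b ∈ S := QuotientGroup.leftRel_apply.mp hab
    have := hconst a _ hab'
    rw [mul_inv_cancel_left] at this
    exact this.symm)
  have hF : ∀ g : G, F (QuotientGroup.mk g) = z g := fun g => rfl
  let b : A := ∑ c : G ⧸ S, F c
  refine ⟨-b, ?_⟩
  funext g
  have h1 : A.ρ g b = ∑ c : G ⧸ S, (F (g • c) - z g) := by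
    simp only [b, map_sum]
    refine Finset.sum_congr rfl fun c _ => ?_
    induction c using QuotientGroup.induction_on with
    | H h =>
      rw [hF, show g • (QuotientGroup.mk h : G ⧸ S) = QuotientGroup.mk (g * h) from rfl, hF, hmul]
      abel
  have h2 : ∑ c : G ⧸ S, F (g • c) = b := by
    simp only [b]
    exact Fintype.sum_equiv (MulAction.toPerm g) _ _ (fun c => rfl)
  rw [Finset.sum_sub_distrib, h2, Finset.sum_const, Finset.card_univ] at h1
  have hcard : Fintype.card (G ⧸ S) = S.index := by
    rw [Subgroup.index_eq_card, Nat.card_eq_fintype_card]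
  rw [hcard] at h1
  simp only [d₀₁_hom_apply, map_neg, Pi.smul_apply]
  rw [h1]
  abel

theorem index_nsmul_eq_zero_of_res_eq_zero_one (x : groupCohomology A 1)
    (hx : (groupCohomology.map S.subtype (𝟙 (Rep.res S.subtype A)) 1).hom x = 0) :
    S.index • x = 0 := by
  induction x using H1_induction_on with
  | h z =>
    have h1 : (H1π (Rep.res S.subtype A)).hom
        ((mapCocycles₁ S.subtype (𝟙 (Rep.res S.subtype A))).hom z) = 0 := by
      have := H1π_comp_map_apply S.subtype (𝟙 (Rep.res S.subtype A)) z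
      rw [← this]; exact hx
    rw [H1π_eq_zero_iff] at h1
    obtain ⟨a, ha⟩ := h1
    -- ha : d₀₁ (res A) a = fun s => z s
    have ha' : ∀ s : S, A.ρ s a - a = z s := by
      intro s
      have h3 : (((mapCocycles₁ S.subtype (𝟙 (Rep.res S.subtype A))).hom z : cocycles₁ _) :
          S → A) s = z (s : G) := rfl
      have := congrFun ha s
      rw [h3] at this
      simpa using this
    let z' : G → A := ⇑z - (d₀₁ A).hom a
    have hz' : z' ∈ cocycles₁ A :=
      Submodule.sub_mem _ z.2 (d₀₁_apply_mem_cocycles₁ a)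
    have hS : ∀ s ∈ S, z' s = 0 := by
      intro s hs
      simp only [z', Pi.sub_apply, d₀₁_hom_apply]
      rw [← ha' ⟨s, hs⟩]; simp
    have key := index_nsmul_mem_coboundaries₁ S A z' hz' hS
    have e1 : (H1π A).hom z = (H1π A).hom ⟨z', hz'⟩ := by
      rw [H1π_eq_iff]
      refine ⟨a, ?_⟩
      funext g
      simp [z']
    rw [e1, ← map_nsmul, H1π_eq_zero_iff]
    exact key

end Base


section Shift

open Fermat.Agent.CFT.A

variable {k : Type} [CommRing k] {G : Type} [Group G] [Fintype G] (S : Subgroup G)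

/-- **Transfer for Mathlib's restriction**: a class in `Hⁿ(G, A)`, `n ≥ 1`, whose restriction to
`S` (Mathlib `groupCohomology.map S.subtype (𝟙 _) n`) vanishes is killed by the index `[G : S]`. -/
theorem index_nsmul_eq_zero_of_res_eq_zero_succ (n : ℕ) :
    ∀ (A : Rep.{0} k G) (x : groupCohomology A (n + 1)),
      (groupCohomology.map S.subtype (𝟙 (Rep.res S.subtype A)) (n + 1)).hom x = 0 →
      S.index • x = 0 := by
  induction n with
  | zero =>
    intro A x hx
    exact index_nsmul_eq_zero_of_res_eq_zero_one S A x hx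
  | succ n ih =>
    intro A x hx
    have : Fintype S := Fintype.ofFinite S
    have hX := H68.upSC_shortExact A
    have hXres := H68.upSC_res_shortExact S.subtype A
    have hz : IsZero (groupCohomology (H68.upSC A).X₂ (n + 1 + 1)) :=
      H95.isZero_groupCohomology_of_equiv (coind₁ A) A.V (LinearEquiv.refl k (G → A.V))
        (fun g m x => rfl) (n + 1)
    have hzres : IsZero (groupCohomology ((H68.upSC A).map (Rep.resFunctor S.subtype)).X₂ (n + 1)) :=
      H95.isZero_groupCohomology_res_of_equiv (coind₁ A) A.V (LinearEquiv.refl k (G → A.V))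
        (fun g m x => rfl) S.subtype S.subtype_injective n
    have hepi : Epi (δ hX (n + 1) (n + 1 + 1) rfl) := epi_δ_of_isZero hX (n + 1) hz
    have hmono : Mono (δ hXres (n + 1) (n + 1 + 1) rfl) := mono_δ_of_isZero hXres (n + 1) hzres
    obtain ⟨y, rfl⟩ := (ModuleCat.epi_iff_surjective _).mp hepi x
    have hnat := δ_res_naturality S.subtype hX hXres (n + 1) (n + 1 + 1) rfl
    have h1 : (groupCohomology.map S.subtype (𝟙 (Rep.res S.subtype (H68.upSC A).X₃)) (n + 1) ≫
        δ hXres (n + 1) (n + 1 + 1) rfl).hom y = 0 := by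
      rw [← hnat]
      exact hx
    have h2 : (groupCohomology.map S.subtype (𝟙 (Rep.res S.subtype (H68.upSC A).X₃)) (n + 1)).hom y
        = 0 := by
      apply (ModuleCat.mono_iff_injective _).mp hmono
      refine Eq.trans ?_ (map_zero _).symm
      exact h1
    have h3 := ih (H68.upSC A).X₃ y h2
    have h4 : (δ hX (n + 1) (n + 1 + 1) rfl).hom (S.index • y) =
        S.index • (δ hX (n + 1) (n + 1 + 1) rfl).hom y := map_nsmul _ _ _
    rw [h3, map_zero] at h4
    exact h4.symm

theorem index_nsmul_eq_zero_of_res_eq_zero (n : ℕ) (hn : 1 ≤ n) (A : Rep.{0} k G)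
    (x : groupCohomology A n)
    (hx : (groupCohomology.map S.subtype (𝟙 (Rep.res S.subtype A)) n).hom x = 0) :
    S.index • x = 0 := by
  obtain ⟨m, rfl⟩ : ∃ m, n = m + 1 := ⟨n - 1, by omega⟩
  exact index_nsmul_eq_zero_of_res_eq_zero_succ S m A x hx


/-- If `γ ∈ Hⁿ(G, A)` has order `|G|` then the order of its restriction to `H` is a multiple of
`|H|`. -/
theorem card_dvd_addOrderOf_res (n : ℕ) (hn : 1 ≤ n) (A : Rep.{0} k G)
    (γ : groupCohomology A n) (hγ : addOrderOf γ = Nat.card G) :
    Nat.card S ∣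
      addOrderOf ((groupCohomology.map S.subtype (𝟙 (Rep.res S.subtype A)) n).hom γ) := by
  set m := addOrderOf ((groupCohomology.map S.subtype (𝟙 (Rep.res S.subtype A)) n).hom γ) with hm
  have h0 : (groupCohomology.map S.subtype (𝟙 (Rep.res S.subtype A)) n).hom (m • γ) = 0 := by
    rw [map_nsmul, hm]
    exact addOrderOf_nsmul_eq_zero _
  have h1 := index_nsmul_eq_zero_of_res_eq_zero S n hn A (m • γ) h0
  rw [← mul_nsmul'] at h1
  have h2 : addOrderOf γ ∣ m * S.index := by
    rw [mul_comm]; exact addOrderOf_dvd_of_nsmul_eq_zero h1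
  rw [hγ, ← S.card_mul_index] at h2
  have hi : S.index ≠ 0 := Subgroup.FiniteIndex.index_ne_zero
  exact Nat.dvd_of_mul_dvd_mul_right (Nat.pos_of_ne_zero hi) h2

/-- Restriction to a subgroup of index prime to `p` is injective on `p`-power torsion. -/
theorem eq_zero_of_res_eq_zero_of_coprime (n : ℕ) (hn : 1 ≤ n) (A : Rep.{0} k G)
    (x : groupCohomology A n) (p m : ℕ) (hp : Nat.Coprime S.index p) (hpx : p ^ m • x = 0)
    (hx : (groupCohomology.map S.subtype (𝟙 (Rep.res S.subtype A)) n).hom x = 0) : x = 0 := by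
  have h1 := index_nsmul_eq_zero_of_res_eq_zero S n hn A x hx
  have hc : Nat.Coprime S.index (p ^ m) := Nat.Coprime.pow_right m hp
  have h2 : addOrderOf x ∣ S.index := addOrderOf_dvd_of_nsmul_eq_zero h1
  have h3 : addOrderOf x ∣ p ^ m := addOrderOf_dvd_of_nsmul_eq_zero hpx
  have h4 : addOrderOf x = 1 := Nat.eq_one_of_dvd_coprimes hc h2 h3
  exact AddMonoid.addOrderOf_eq_one_iff.mp h4

/-- Restriction to a Sylow `p`-subgroup is injective on `p`-power torsion. -/
theorem eq_zero_of_res_sylow_eq_zero (p : ℕ) [Fact p.Prime] (P : Sylow p G) (n : ℕ) (hn : 1 ≤ n)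
    (A : Rep.{0} k G) (x : groupCohomology A n) (m : ℕ) (hpx : p ^ m • x = 0)
    (hx : (groupCohomology.map (P : Subgroup G).subtype
      (𝟙 (Rep.res (P : Subgroup G).subtype A)) n).hom x = 0) : x = 0 := by
  refine eq_zero_of_res_eq_zero_of_coprime (P : Subgroup G) n hn A x p m ?_ hpx hx
  have := P.not_dvd_index
  exact (Nat.Coprime.symm ((Nat.Prime.coprime_iff_not_dvd Fact.out).mpr this))

end Shift

end Fermat.Agent.CFT.H6
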