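import Mathlib

set_option autoImplicit false

/-!
# Counting principal ideals with a unit-invariant property through the fundamental cone

A refinement of Mathlib's `NumberField.mixedEmbedding.fundamentalCone.card_isPrincipal_dvd_norm_le`:
for ANY predicate `P` on nonzero ideals, the number of principal ideals `I` with `P I` and
`N I ≤ s`, multiplied by the order of the torsion subgroup, is the number of points `a` of
`integerSet K` with `P (span {a})` and norm `≤ s`.
-/

open NumberField NumberField.mixedEmbedding NumberField.mixedEmbedding.fundamentalCone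
  NumberField.Units Ideal Submodule
open scoped nonZeroDivisors

noncomputable section

namespace Fermat.Agent.CFT.H72

variable (K : Type*) [Field K] [NumberField K]

/-- the nonzero principal ideal generated by (the preimage of) a point of `integerSet K` -/
def spanOf (a : integerSet K) : (Ideal (𝓞 K))⁰ := (integerSetEquiv K a).1.1

theorem spanOf_coe (a : integerSet K) :
    (spanOf K a : Ideal (𝓞 K)) = span {(preimageOfMemIntegerSet a : 𝓞 K)} :=
  integerSetEquiv_apply_fst a

theorem absNorm_spanOf (a : integerSet K) :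
    (absNorm (spanOf K a : Ideal (𝓞 K)) : ℝ) = mixedEmbedding.norm (a : mixedSpace K) := by
  rw [spanOf_coe, absNorm_span_singleton, ← intNorm_coe, intNorm]

/-- the restricted equivalence -/
def integerSetEquivOfPred (P : (Ideal (𝓞 K))⁰ → Prop) :
    {a : integerSet K // P (spanOf K a)} ≃
      {I : (Ideal (𝓞 K))⁰ // IsPrincipal (I : Ideal (𝓞 K)) ∧ P I} × torsion K :=
  calc {a : integerSet K // P (spanOf K a)}
      ≃ {x : {I : (Ideal (𝓞 K))⁰ // IsPrincipal I.val} × torsion K // P x.1.1} :=
        Equiv.subtypeEquiv (integerSetEquiv K) fun _ => Iff.rfl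
    _ ≃ {I : {I : (Ideal (𝓞 K))⁰ // IsPrincipal I.val} // P I.1} × torsion K :=
        Equiv.prodSubtypeFstEquivSubtypeProd
          (p := fun I : {I : (Ideal (𝓞 K))⁰ // IsPrincipal I.val} => P I.1)
    _ ≃ {I : (Ideal (𝓞 K))⁰ // IsPrincipal (I : Ideal (𝓞 K)) ∧ P I} × torsion K :=
        Equiv.prodCongrLeft fun _ => Equiv.subtypeSubtypeEquivSubtypeInter
          (fun I : (Ideal (𝓞 K))⁰ => IsPrincipal I.val) P

theorem integerSetEquivOfPred_apply_fst (P : (Ideal (𝓞 K))⁰ → Prop)
    (a : {a : integerSet K // P (spanOf K a)}) :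
    ((integerSetEquivOfPred K P a).1 : (Ideal (𝓞 K))⁰) = spanOf K a.1 := rfl

/-- **Principal ideals with a property, counted through the cone.** -/
theorem card_isPrincipal_pred_norm_le (P : (Ideal (𝓞 K))⁰ → Prop) (s : ℝ) :
    Nat.card {I : (Ideal (𝓞 K))⁰ // IsPrincipal (I : Ideal (𝓞 K)) ∧ P I ∧
        (absNorm (I : Ideal (𝓞 K)) : ℝ) ≤ s} * torsionOrder K =
      Nat.card {a : integerSet K // P (spanOf K a) ∧
        mixedEmbedding.norm (a : mixedSpace K) ≤ s} := by
  rw [torsionOrder, ← Nat.card_prod]
  refine Nat.card_congr ?_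
  have e := integerSetEquivOfPred K
    (fun I => P I ∧ (absNorm (I : Ideal (𝓞 K)) : ℝ) ≤ s)
  refine (e.symm.trans (Equiv.subtypeEquivRight fun a => ?_))
  rw [absNorm_spanOf]

end Fermat.Agent.CFT.H72
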