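import Mathlib

/-!
# Shapiro's lemma at cochain level: the pure algebra (CFT / D0-SHAP, helper73)

* `wfun W : Γ → W` : a `W`-equivariant retraction of `Γ` onto a subgroup `W`
  (`wfun (w * g) = w * wfun g`, `wfun w = w`), built from right-coset representatives.
* homogeneous differentials `hd₀ … hd₃` and the prism operators `pr₁ … pr₄` attached to an
  arbitrary self-map `v : Γ → Γ`, with the identities `F - F ∘ v = d (pr F) + pr (d F)`.
-/

set_option autoImplicit false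

universe u

namespace Fermat.Agent.CFT.H73

section Retraction

variable {Γ : Type u} [Group Γ] (W : Subgroup Γ)

open Classical in
/-- representative of a right coset `W g`, equal to `1` on the trivial coset -/
noncomputable def cosetRep (q : Quotient (QuotientGroup.rightRel W)) : Γ :=
  if q = Quotient.mk'' (1 : Γ) then 1 else q.out

lemma mk_cosetRep (q : Quotient (QuotientGroup.rightRel W)) :
    (Quotient.mk'' (cosetRep W q) : Quotient (QuotientGroup.rightRel W)) = q := by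
  unfold cosetRep
  split_ifs with h
  · exact h.symm
  · exact Quotient.out_eq' q

lemma mul_cosetRep_inv_mem (g : Γ) :
    g * (cosetRep W (Quotient.mk'' g))⁻¹ ∈ W := by
  have h := mk_cosetRep W (Quotient.mk'' g)
  have h' : (QuotientGroup.rightRel W) (cosetRep W (Quotient.mk'' g)) g := Quotient.exact' h
  rw [QuotientGroup.rightRel_apply] at h'
  exact h'

/-- `W`-equivariant retraction `Γ → W`. -/
noncomputable def wfun (g : Γ) : W :=
  ⟨g * (cosetRep W (Quotient.mk'' g))⁻¹, mul_cosetRep_inv_mem W g⟩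

lemma mk_mul_left (w : W) (g : Γ) :
    (Quotient.mk'' ((w : Γ) * g) : Quotient (QuotientGroup.rightRel W)) = Quotient.mk'' g := by
  apply Quotient.sound'
  rw [QuotientGroup.rightRel_apply]
  have : g * ((w : Γ) * g)⁻¹ = ((w : Γ))⁻¹ := by group
  rw [this]
  exact W.inv_mem w.2

lemma wfun_mul (w : W) (g : Γ) : wfun W ((w : Γ) * g) = w * wfun W g := by
  apply Subtype.ext
  simp only [wfun, Subgroup.coe_mul, mk_mul_left, mul_assoc]

lemma wfun_one : wfun W (1 : Γ) = 1 := by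
  apply Subtype.ext
  simp [wfun, cosetRep]

lemma wfun_coe (w : W) : wfun W (w : Γ) = w := by
  have := wfun_mul W w 1
  rwa [mul_one, wfun_one, mul_one] at this

/-- compatibility with a normal subgroup `N ≤ W`: right translation by `N` changes `wfun` by a
right factor in `N`. -/
lemma wfun_mul_right_of_mem {N : Subgroup Γ} [N.Normal] (hN : N ≤ W) (g s : Γ) (hs : s ∈ N) :
    ∃ n : W, (n : Γ) ∈ N ∧ wfun W (g * s) = wfun W g * n := by
  have hmk : (Quotient.mk'' (g * s) : Quotient (QuotientGroup.rightRel W)) = Quotient.mk'' g := by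
    apply Quotient.sound'
    rw [QuotientGroup.rightRel_apply]
    have : g * (g * s)⁻¹ = g * s⁻¹ * g⁻¹ := by group
    rw [this]
    exact hN (Subgroup.Normal.conj_mem inferInstance _ (N.inv_mem hs) g)
  set r := cosetRep W (Quotient.mk'' g) with hr
  have hn : r * s * r⁻¹ ∈ N := Subgroup.Normal.conj_mem inferInstance _ hs r
  refine ⟨⟨r * s * r⁻¹, hN hn⟩, hn, ?_⟩
  apply Subtype.ext
  simp only [wfun, hmk, Subgroup.coe_mul, ← hr]
  group

end Retraction

section Homogeneous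

variable {Γ : Type u} {M : Type*} [AddCommGroup M]

/-- homogeneous differentials -/
def hd₀ (F : Γ → M) (x0 x1 : Γ) : M := F x1 - F x0

def hd₁ (F : Γ → Γ → M) (x0 x1 x2 : Γ) : M := F x1 x2 - F x0 x2 + F x0 x1

def hd₂ (F : Γ → Γ → Γ → M) (x0 x1 x2 x3 : Γ) : M :=
  F x1 x2 x3 - F x0 x2 x3 + F x0 x1 x3 - F x0 x1 x2

def hd₃ (F : Γ → Γ → Γ → Γ → M) (x0 x1 x2 x3 x4 : Γ) : M :=
  F x1 x2 x3 x4 - F x0 x2 x3 x4 + F x0 x1 x3 x4 - F x0 x1 x2 x4 + F x0 x1 x2 x3

variable (v : Γ → Γ)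

/-- prism operators for the self-map `v` -/
def pr₁ (F : Γ → Γ → M) (x0 : Γ) : M := F (v x0) x0

def pr₂ (F : Γ → Γ → Γ → M) (x0 x1 : Γ) : M := F (v x0) x0 x1 - F (v x0) (v x1) x1

def pr₃ (F : Γ → Γ → Γ → Γ → M) (x0 x1 x2 : Γ) : M :=
  F (v x0) x0 x1 x2 - F (v x0) (v x1) x1 x2 + F (v x0) (v x1) (v x2) x2

def pr₄ (F : Γ → Γ → Γ → Γ → Γ → M) (x0 x1 x2 x3 : Γ) : M :=
  F (v x0) x0 x1 x2 x3 - F (v x0) (v x1) x1 x2 x3 + F (v x0) (v x1) (v x2) x2 x3
    - F (v x0) (v x1) (v x2) (v x3) x3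

theorem prism₁ (F : Γ → Γ → M) (x0 x1 : Γ) :
    F x0 x1 - F (v x0) (v x1) = hd₀ (pr₁ v F) x0 x1 + pr₂ v (hd₁ F) x0 x1 := by
  simp only [hd₀, hd₁, pr₁, pr₂]; abel

theorem prism₂ (F : Γ → Γ → Γ → M) (x0 x1 x2 : Γ) :
    F x0 x1 x2 - F (v x0) (v x1) (v x2) = hd₁ (pr₂ v F) x0 x1 x2 + pr₃ v (hd₂ F) x0 x1 x2 := by
  simp only [hd₁, hd₂, pr₂, pr₃]; abel

theorem prism₃ (F : Γ → Γ → Γ → Γ → M) (x0 x1 x2 x3 : Γ) :
    F x0 x1 x2 x3 - F (v x0) (v x1) (v x2) (v x3) =
      hd₂ (pr₃ v F) x0 x1 x2 x3 + pr₄ v (hd₃ F) x0 x1 x2 x3 := by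
  simp only [hd₂, hd₃, pr₃, pr₄]; abel

end Homogeneous

end Fermat.Agent.CFT.H73
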