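import Mathlib
import Fermat.Agent.CFT.H55_LevelDefs
import Fermat.Agent.CFT.H73_ShapiroAlg

/-!
# Shapiro's lemma at cochain level: homogenisation (CFT / D0-SHAP, helper73)

`Cd W X := Rep.coind W.subtype X`. An inhomogeneous `n`-cochain `Φ : Γⁿ → Cd W X` is the same as
a `W`-equivariant function `F : Γⁿ⁺¹ → X`, `F x₀ … xₙ = Φ (x₀⁻¹x₁, …, xₙ₋₁⁻¹xₙ) x₀`
(`hom₀ … hom₄`, inverse `inh₀ … inh₃`); the inhomogeneous differentials `d₀₁ d₁₂ d₂₃ d₃₄` become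
the homogeneous ones `hd₀ … hd₃` of `H73_ShapiroAlg`.
-/

set_option autoImplicit false

universe u

open groupCohomology

namespace Fermat.Agent.CFT.H73

variable {k : Type u} [CommRing k] {Γ : Type u} [Group Γ] (W : Subgroup Γ) (X : Rep.{u} k W)

/-- the coinduced module (Mathlib's `Rep.coind` along the inclusion) -/
noncomputable abbrev Cd : Rep.{u} k Γ := Rep.coind W.subtype X

variable {W X}

lemma Cd_ρ_apply (g : Γ) (φ : (Cd W X).V) (x : Γ) :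
    ((Cd W X).ρ g φ).1 x = φ.1 (x * g) := rfl

lemma Cd_equivariant (φ : (Cd W X).V) (w : W) (x : Γ) :
    φ.1 ((w : Γ) * x) = X.ρ w (φ.1 x) := φ.2 w x

lemma Cd_coe_sub (φ ψ : (Cd W X).V) (x : Γ) : (φ - ψ).1 x = φ.1 x - ψ.1 x := rfl

lemma Cd_coe_add (φ ψ : (Cd W X).V) (x : Γ) : (φ + ψ).1 x = φ.1 x + ψ.1 x := rfl

lemma Cd_coe_zero (x : Γ) : (0 : (Cd W X).V).1 x = 0 := rfl

lemma Cd_coe_smul (c : k) (φ : (Cd W X).V) (x : Γ) : (c • φ).1 x = c • φ.1 x := rfl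

lemma Cd_ext {φ ψ : (Cd W X).V} (h : ∀ x, φ.1 x = ψ.1 x) : φ = ψ :=
  Subtype.ext (funext h)

/-! ### The differentials of `Cd W X`, evaluated -/

lemma Cd_d₀₁_apply (φ : (Cd W X).V) (g x : Γ) :
    ((d₀₁.{u,u} (Cd W X)).hom φ g).1 x = φ.1 (x * g) - φ.1 x := rfl

lemma Cd_d₁₂_apply (Φ : Γ → (Cd W X).V) (g1 g2 x : Γ) :
    ((d₁₂ (Cd W X)).hom Φ (g1, g2)).1 x =
      (Φ g2).1 (x * g1) - (Φ (g1 * g2)).1 x + (Φ g1).1 x := rfl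

lemma Cd_d₂₃_apply (Φ : Γ × Γ → (Cd W X).V) (g1 g2 g3 x : Γ) :
    ((d₂₃ (Cd W X)).hom Φ (g1, g2, g3)).1 x =
      (Φ (g2, g3)).1 (x * g1) - (Φ (g1 * g2, g3)).1 x + (Φ (g1, g2 * g3)).1 x
        - (Φ (g1, g2)).1 x :=
  rfl

lemma Cd_d₃₄_apply (Φ : Γ × Γ × Γ → (Cd W X).V) (g1 g2 g3 g4 x : Γ) :
    (LevelStructure.d₃₄ (Cd W X) Φ (g1, g2, g3, g4)).1 x =
      (Φ (g2, g3, g4)).1 (x * g1) - (Φ (g1 * g2, g3, g4)).1 x + (Φ (g1, g2 * g3, g4)).1 x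
        - (Φ (g1, g2, g3 * g4)).1 x + (Φ (g1, g2, g3)).1 x :=
  rfl

/-! ### Homogenisation of `Cd W X`-valued cochains of `Γ` -/

def hom₀ (φ : (Cd W X).V) (x0 : Γ) : X := φ.1 x0

def hom₁ (Φ : Γ → (Cd W X).V) (x0 x1 : Γ) : X := (Φ (x0⁻¹ * x1)).1 x0

def hom₂ (Φ : Γ × Γ → (Cd W X).V) (x0 x1 x2 : Γ) : X := (Φ (x0⁻¹ * x1, x1⁻¹ * x2)).1 x0

def hom₃ (Φ : Γ × Γ × Γ → (Cd W X).V) (x0 x1 x2 x3 : Γ) : X :=
  (Φ (x0⁻¹ * x1, x1⁻¹ * x2, x2⁻¹ * x3)).1 x0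

def hom₄ (Φ : Γ × Γ × Γ × Γ → (Cd W X).V) (x0 x1 x2 x3 x4 : Γ) : X :=
  (Φ (x0⁻¹ * x1, x1⁻¹ * x2, x2⁻¹ * x3, x3⁻¹ * x4)).1 x0

/-- recovery of a cochain from its homogenisation -/
lemma eval_eq_hom₁ (Φ : Γ → (Cd W X).V) (g1 g : Γ) : (Φ g1).1 g = hom₁ Φ g (g * g1) := by
  simp only [hom₁, inv_mul_cancel_left]

lemma eval_eq_hom₂ (Φ : Γ × Γ → (Cd W X).V) (g1 g2 g : Γ) :
    (Φ (g1, g2)).1 g = hom₂ Φ g (g * g1) (g * g1 * g2) := by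
  simp only [hom₂, inv_mul_cancel_left]

lemma eval_eq_hom₃ (Φ : Γ × Γ × Γ → (Cd W X).V) (g1 g2 g3 g : Γ) :
    (Φ (g1, g2, g3)).1 g = hom₃ Φ g (g * g1) (g * g1 * g2) (g * g1 * g2 * g3) := by
  simp only [hom₃, inv_mul_cancel_left]

lemma eval_eq_hom₄ (Φ : Γ × Γ × Γ × Γ → (Cd W X).V) (g1 g2 g3 g4 g : Γ) :
    (Φ (g1, g2, g3, g4)).1 g =
      hom₄ Φ g (g * g1) (g * g1 * g2) (g * g1 * g2 * g3) (g * g1 * g2 * g3 * g4) := by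
  simp only [hom₄, inv_mul_cancel_left]

lemma hom₀_injective {φ ψ : (Cd W X).V} (h : hom₀ φ = hom₀ ψ) : φ = ψ :=
  Subtype.ext h

lemma hom₁_injective {Φ Ψ : Γ → (Cd W X).V} (h : hom₁ Φ = hom₁ Ψ) : Φ = Ψ := by
  funext g1
  refine Cd_ext fun g => ?_
  rw [eval_eq_hom₁, eval_eq_hom₁, h]

lemma hom₂_injective {Φ Ψ : Γ × Γ → (Cd W X).V} (h : hom₂ Φ = hom₂ Ψ) : Φ = Ψ := by
  funext ⟨g1, g2⟩
  refine Cd_ext fun g => ?_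
  rw [eval_eq_hom₂, eval_eq_hom₂, h]

lemma hom₃_injective {Φ Ψ : Γ × Γ × Γ → (Cd W X).V} (h : hom₃ Φ = hom₃ Ψ) : Φ = Ψ := by
  funext ⟨g1, g2, g3⟩
  refine Cd_ext fun g => ?_
  rw [eval_eq_hom₃, eval_eq_hom₃, h]

lemma hom₄_injective {Φ Ψ : Γ × Γ × Γ × Γ → (Cd W X).V} (h : hom₄ Φ = hom₄ Ψ) : Φ = Ψ := by
  funext ⟨g1, g2, g3, g4⟩
  refine Cd_ext fun g => ?_
  rw [eval_eq_hom₄, eval_eq_hom₄, h]

/-! additivity -/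

lemma hom₁_add (Φ Ψ : Γ → (Cd W X).V) : hom₁ (Φ + Ψ) = hom₁ Φ + hom₁ Ψ := rfl
lemma hom₂_add (Φ Ψ : Γ × Γ → (Cd W X).V) : hom₂ (Φ + Ψ) = hom₂ Φ + hom₂ Ψ := rfl
lemma hom₃_add (Φ Ψ : Γ × Γ × Γ → (Cd W X).V) : hom₃ (Φ + Ψ) = hom₃ Φ + hom₃ Ψ := rfl
lemma hom₁_sub (Φ Ψ : Γ → (Cd W X).V) : hom₁ (Φ - Ψ) = hom₁ Φ - hom₁ Ψ := rfl
lemma hom₂_sub (Φ Ψ : Γ × Γ → (Cd W X).V) : hom₂ (Φ - Ψ) = hom₂ Φ - hom₂ Ψ := rfl
lemma hom₃_sub (Φ Ψ : Γ × Γ × Γ → (Cd W X).V) : hom₃ (Φ - Ψ) = hom₃ Φ - hom₃ Ψ := rfl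
lemma hom₁_zero : hom₁ (0 : Γ → (Cd W X).V) = 0 := rfl
lemma hom₂_zero : hom₂ (0 : Γ × Γ → (Cd W X).V) = 0 := rfl
lemma hom₃_zero : hom₃ (0 : Γ × Γ × Γ → (Cd W X).V) = 0 := rfl
lemma hom₄_zero : hom₄ (0 : Γ × Γ × Γ × Γ → (Cd W X).V) = 0 := rfl

/-! equivariance of homogenised cochains -/

lemma hom₀_equivariant (φ : (Cd W X).V) (w : W) (x0 : Γ) :
    hom₀ φ ((w : Γ) * x0) = X.ρ w (hom₀ φ x0) := Cd_equivariant φ w x0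

lemma hom₁_equivariant (Φ : Γ → (Cd W X).V) (w : W) (x0 x1 : Γ) :
    hom₁ Φ ((w : Γ) * x0) ((w : Γ) * x1) = X.ρ w (hom₁ Φ x0 x1) := by
  unfold hom₁
  rw [← Cd_equivariant]
  have h : ((w : Γ) * x0)⁻¹ * ((w : Γ) * x1) = x0⁻¹ * x1 := by group
  rw [h]

lemma hom₂_equivariant (Φ : Γ × Γ → (Cd W X).V) (w : W) (x0 x1 x2 : Γ) :
    hom₂ Φ ((w : Γ) * x0) ((w : Γ) * x1) ((w : Γ) * x2) = X.ρ w (hom₂ Φ x0 x1 x2) := by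
  unfold hom₂
  rw [← Cd_equivariant]
  have h : ((w : Γ) * x0)⁻¹ * ((w : Γ) * x1) = x0⁻¹ * x1 := by group
  have h' : ((w : Γ) * x1)⁻¹ * ((w : Γ) * x2) = x1⁻¹ * x2 := by group
  rw [h, h']

lemma hom₃_equivariant (Φ : Γ × Γ × Γ → (Cd W X).V) (w : W) (x0 x1 x2 x3 : Γ) :
    hom₃ Φ ((w : Γ) * x0) ((w : Γ) * x1) ((w : Γ) * x2) ((w : Γ) * x3) =
      X.ρ w (hom₃ Φ x0 x1 x2 x3) := by
  unfold hom₃
  rw [← Cd_equivariant]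
  have h : ((w : Γ) * x0)⁻¹ * ((w : Γ) * x1) = x0⁻¹ * x1 := by group
  have h' : ((w : Γ) * x1)⁻¹ * ((w : Γ) * x2) = x1⁻¹ * x2 := by group
  have h'' : ((w : Γ) * x2)⁻¹ * ((w : Γ) * x3) = x2⁻¹ * x3 := by group
  rw [h, h', h'']

/-! the differentials -/

lemma hom₁_d (φ : (Cd W X).V) : hom₁ ((d₀₁.{u,u} (Cd W X)).hom φ) = hd₀ (hom₀ φ) := by
  funext x0 x1
  unfold hom₁ hd₀ hom₀
  rw [Cd_d₀₁_apply, mul_inv_cancel_left]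

lemma hom₂_d (Φ : Γ → (Cd W X).V) : hom₂ ((d₁₂ (Cd W X)).hom Φ) = hd₁ (hom₁ Φ) := by
  funext x0 x1 x2
  unfold hom₂ hd₁ hom₁
  rw [Cd_d₁₂_apply]
  simp only [mul_inv_cancel_left, mul_assoc]

lemma hom₃_d (Φ : Γ × Γ → (Cd W X).V) : hom₃ ((d₂₃ (Cd W X)).hom Φ) = hd₂ (hom₂ Φ) := by
  funext x0 x1 x2 x3
  unfold hom₃ hd₂ hom₂
  rw [Cd_d₂₃_apply]
  simp only [mul_inv_cancel_left, mul_assoc]

lemma hom₄_d (Φ : Γ × Γ × Γ → (Cd W X).V) :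
    hom₄ (LevelStructure.d₃₄ (Cd W X) Φ) = hd₃ (hom₃ Φ) := by
  funext x0 x1 x2 x3 x4
  unfold hom₄ hd₃ hom₃
  rw [Cd_d₃₄_apply]
  simp only [mul_inv_cancel_left, mul_assoc]

/-! ### Inhomogenisation of `W`-equivariant homogeneous cochains -/

/-- `W`-equivariance of homogeneous cochains -/
def Equi₀ (F : Γ → X) : Prop := ∀ (w : W) (x0 : Γ), F ((w : Γ) * x0) = X.ρ w (F x0)

def Equi₁ (F : Γ → Γ → X) : Prop :=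
  ∀ (w : W) (x0 x1 : Γ), F ((w : Γ) * x0) ((w : Γ) * x1) = X.ρ w (F x0 x1)

def Equi₂ (F : Γ → Γ → Γ → X) : Prop :=
  ∀ (w : W) (x0 x1 x2 : Γ), F ((w : Γ) * x0) ((w : Γ) * x1) ((w : Γ) * x2) = X.ρ w (F x0 x1 x2)

def Equi₃ (F : Γ → Γ → Γ → Γ → X) : Prop :=
  ∀ (w : W) (x0 x1 x2 x3 : Γ),
    F ((w : Γ) * x0) ((w : Γ) * x1) ((w : Γ) * x2) ((w : Γ) * x3) = X.ρ w (F x0 x1 x2 x3)

def inh₀ (F : Γ → X) (hF : Equi₀ F) : (Cd W X).V := ⟨F, hF⟩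

def inh₁ (F : Γ → Γ → X) (hF : Equi₁ F) (g1 : Γ) : (Cd W X).V :=
  ⟨fun g => F g (g * g1), fun w g => by
    simp only [Subgroup.coe_subtype, mul_assoc]; exact hF w g (g * g1)⟩

def inh₂ (F : Γ → Γ → Γ → X) (hF : Equi₂ F) (p : Γ × Γ) : (Cd W X).V :=
  ⟨fun g => F g (g * p.1) (g * p.1 * p.2), fun w g => by
    simp only [Subgroup.coe_subtype, mul_assoc]
    have := hF w g (g * p.1) (g * (p.1 * p.2))
    simpa only [mul_assoc] using this⟩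

def inh₃ (F : Γ → Γ → Γ → Γ → X) (hF : Equi₃ F) (p : Γ × Γ × Γ) : (Cd W X).V :=
  ⟨fun g => F g (g * p.1) (g * p.1 * p.2.1) (g * p.1 * p.2.1 * p.2.2), fun w g => by
    simp only [Subgroup.coe_subtype, mul_assoc]
    have := hF w g (g * p.1) (g * (p.1 * p.2.1)) (g * (p.1 * (p.2.1 * p.2.2)))
    simpa only [mul_assoc] using this⟩

lemma inh₀_coe (F : Γ → X) (hF : Equi₀ F) (g : Γ) : (inh₀ F hF).1 g = F g := rfl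

lemma inh₁_coe (F : Γ → Γ → X) (hF : Equi₁ F) (g1 g : Γ) :
    (inh₁ F hF g1).1 g = F g (g * g1) := rfl

lemma inh₂_coe (F : Γ → Γ → Γ → X) (hF : Equi₂ F) (g1 g2 g : Γ) :
    (inh₂ F hF (g1, g2)).1 g = F g (g * g1) (g * g1 * g2) := rfl

lemma inh₃_coe (F : Γ → Γ → Γ → Γ → X) (hF : Equi₃ F) (g1 g2 g3 g : Γ) :
    (inh₃ F hF (g1, g2, g3)).1 g = F g (g * g1) (g * g1 * g2) (g * g1 * g2 * g3) := rfl

lemma hom₀_inh₀ (F : Γ → X) (hF : Equi₀ F) : hom₀ (inh₀ F hF) = F := rfl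

lemma hom₁_inh₁ (F : Γ → Γ → X) (hF : Equi₁ F) : hom₁ (inh₁ F hF) = F := by
  funext x0 x1
  unfold hom₁
  rw [inh₁_coe, mul_inv_cancel_left]

lemma hom₂_inh₂ (F : Γ → Γ → Γ → X) (hF : Equi₂ F) : hom₂ (inh₂ F hF) = F := by
  funext x0 x1 x2
  unfold hom₂
  rw [inh₂_coe, mul_inv_cancel_left, mul_inv_cancel_left]

lemma hom₃_inh₃ (F : Γ → Γ → Γ → Γ → X) (hF : Equi₃ F) : hom₃ (inh₃ F hF) = F := by
  funext x0 x1 x2 x3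
  unfold hom₃
  rw [inh₃_coe, mul_inv_cancel_left, mul_inv_cancel_left, mul_inv_cancel_left]

lemma equi₀_hom₀ (φ : (Cd W X).V) : Equi₀ (hom₀ φ) := hom₀_equivariant φ
lemma equi₁_hom₁ (Φ : Γ → (Cd W X).V) : Equi₁ (hom₁ Φ) := hom₁_equivariant Φ
lemma equi₂_hom₂ (Φ : Γ × Γ → (Cd W X).V) : Equi₂ (hom₂ Φ) := hom₂_equivariant Φ
lemma equi₃_hom₃ (Φ : Γ × Γ × Γ → (Cd W X).V) : Equi₃ (hom₃ Φ) := hom₃_equivariant Φ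

/-! ### Level-constancy in homogeneous terms: invariance in the tail variables -/

/-- invariance of a homogeneous cochain under right translation of the variables `x₁, …` by `N` -/
def TailInv₁ (N : Subgroup Γ) (F : Γ → Γ → X) : Prop :=
  ∀ x0 x1 s, s ∈ N → F x0 (x1 * s) = F x0 x1

def TailInv₂ (N : Subgroup Γ) (F : Γ → Γ → Γ → X) : Prop :=
  ∀ x0 x1 x2 s1 s2, s1 ∈ N → s2 ∈ N → F x0 (x1 * s1) (x2 * s2) = F x0 x1 x2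

def TailInv₃ (N : Subgroup Γ) (F : Γ → Γ → Γ → Γ → X) : Prop :=
  ∀ x0 x1 x2 x3 s1 s2 s3, s1 ∈ N → s2 ∈ N → s3 ∈ N →
    F x0 (x1 * s1) (x2 * s2) (x3 * s3) = F x0 x1 x2 x3

/-- a normal subgroup absorbs `s⁻¹`-twisted products: `s₁⁻¹ * g * s₂ = g * s'` with `s' ∈ N` -/
lemma exists_mul_eq_of_normal {N : Subgroup Γ} [N.Normal] (g s1 s2 : Γ) (h1 : s1 ∈ N)
    (h2 : s2 ∈ N) : ∃ s' ∈ N, s1⁻¹ * g * s2 = g * s' := by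
  refine ⟨g⁻¹ * s1⁻¹ * g * s2, ?_, by group⟩
  have : g⁻¹ * s1⁻¹ * g ∈ N := by
    have := Subgroup.Normal.conj_mem (inferInstance : N.Normal) _ (N.inv_mem h1) g⁻¹
    simpa using this
  exact N.mul_mem this h2

lemma tailInv₁_hom₁ {N : Subgroup Γ} {Φ : Γ → (Cd W X).V}
    (h : ∀ g s, s ∈ N → Φ (g * s) = Φ g) : TailInv₁ N (hom₁ Φ) := by
  intro x0 x1 s hs
  unfold hom₁
  rw [← mul_assoc, h _ s hs]

lemma tailInv₂_hom₂ {N : Subgroup Γ} [N.Normal] {Φ : Γ × Γ → (Cd W X).V}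
    (h : ∀ g g' s s', s ∈ N → s' ∈ N → Φ (g * s, g' * s') = Φ (g, g')) :
    TailInv₂ N (hom₂ Φ) := by
  intro x0 x1 x2 s1 s2 h1 h2
  unfold hom₂
  obtain ⟨s', hs', he⟩ := exists_mul_eq_of_normal (x1⁻¹ * x2) s1 s2 h1 h2
  have e1 : x0⁻¹ * (x1 * s1) = x0⁻¹ * x1 * s1 := by group
  have e2 : (x1 * s1)⁻¹ * (x2 * s2) = x1⁻¹ * x2 * s' := by
    rw [← he]; group
  rw [e1, e2, h _ _ _ _ h1 hs']

lemma tailInv₃_hom₃ {N : Subgroup Γ} [N.Normal] {Φ : Γ × Γ × Γ → (Cd W X).V}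
    (h : ∀ g g' g'' s s' s'', s ∈ N → s' ∈ N → s'' ∈ N →
      Φ (g * s, g' * s', g'' * s'') = Φ (g, g', g'')) :
    TailInv₃ N (hom₃ Φ) := by
  intro x0 x1 x2 x3 s1 s2 s3 h1 h2 h3
  unfold hom₃
  obtain ⟨s', hs', he⟩ := exists_mul_eq_of_normal (x1⁻¹ * x2) s1 s2 h1 h2
  obtain ⟨s'', hs'', he'⟩ := exists_mul_eq_of_normal (x2⁻¹ * x3) s2 s3 h2 h3
  have e1 : x0⁻¹ * (x1 * s1) = x0⁻¹ * x1 * s1 := by group
  have e2 : (x1 * s1)⁻¹ * (x2 * s2) = x1⁻¹ * x2 * s' := by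
    rw [← he]; group
  have e3 : (x2 * s2)⁻¹ * (x3 * s3) = x2⁻¹ * x3 * s'' := by
    rw [← he']; group
  rw [e1, e2, e3, h _ _ _ _ _ _ h1 hs' hs'']

lemma inh₁_const {N : Subgroup Γ} {F : Γ → Γ → X} (hF : Equi₁ F) (h : TailInv₁ N F)
    (g s : Γ) (hs : s ∈ N) : inh₁ F hF (g * s) = inh₁ F hF g := by
  refine Cd_ext fun x => ?_
  rw [inh₁_coe, inh₁_coe, ← mul_assoc, h _ _ s hs]

lemma inh₂_const {N : Subgroup Γ} [N.Normal] {F : Γ → Γ → Γ → X} (hF : Equi₂ F)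
    (h : TailInv₂ N F) (g g' s s' : Γ) (hs : s ∈ N) (hs' : s' ∈ N) :
    inh₂ F hF (g * s, g' * s') = inh₂ F hF (g, g') := by
  refine Cd_ext fun x => ?_
  rw [inh₂_coe, inh₂_coe]
  obtain ⟨t, ht, he⟩ := exists_mul_eq_of_normal g' s⁻¹ s' (N.inv_mem hs) hs'
  have e1 : x * (g * s) = x * g * s := by group
  have e2 : x * (g * s) * (g' * s') = x * g * g' * t := by
    have : x * (g * s) * (g' * s') = x * g * (s⁻¹⁻¹ * g' * s') := by group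
    rw [this, he]; group
  rw [e2, e1, h _ _ _ _ _ hs ht]

lemma inh₃_const {N : Subgroup Γ} [N.Normal] {F : Γ → Γ → Γ → Γ → X} (hF : Equi₃ F)
    (h : TailInv₃ N F) (g g' g'' s s' s'' : Γ) (hs : s ∈ N) (hs' : s' ∈ N) (hs'' : s'' ∈ N) :
    inh₃ F hF (g * s, g' * s', g'' * s'') = inh₃ F hF (g, g', g'') := by
  refine Cd_ext fun x => ?_
  rw [inh₃_coe, inh₃_coe]
  obtain ⟨t, ht, he⟩ := exists_mul_eq_of_normal g' s⁻¹ s' (N.inv_mem hs) hs'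
  obtain ⟨t', ht', he'⟩ := exists_mul_eq_of_normal g'' t⁻¹ s'' (N.inv_mem ht) hs''
  have e1 : x * (g * s) = x * g * s := by group
  have e2 : x * (g * s) * (g' * s') = x * g * g' * t := by
    have : x * (g * s) * (g' * s') = x * g * (s⁻¹⁻¹ * g' * s') := by group
    rw [this, he]; group
  have e3 : x * (g * s) * (g' * s') * (g'' * s'') = x * g * g' * g'' * t' := by
    rw [e2]
    have : x * g * g' * t * (g'' * s'') = x * g * g' * (t⁻¹⁻¹ * g'' * s'') := by group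
    rw [this, he']; group
  rw [e3, e2, e1, h _ _ _ _ _ _ _ hs ht ht']

end Fermat.Agent.CFT.H73
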