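import Mathlib
import Fermat.Agent.CFT.H55_LevelDefs
import Fermat.Agent.CFT.H50_LevelRes
import Fermat.Agent.CFT.H73_ShapiroHom

/-!
# Shapiro's lemma at cochain level: the maps `sh`, `T`, `P` (CFT / D0-SHAP, helper73)

`W ≤ Γ` any subgroup, `X : Rep k W`, `Cd W X = Rep.coind W.subtype X`.

* `ev₁ W X : Cd W X → X`, evaluation at `1`, equivariant over `W.subtype`; the Shapiro map on
  cochains is `sh_n := H50.pull_n W.subtype (ev₁ W X)`, `(sh Φ)(w₁..wₙ) = Φ(w₁..wₙ)(1)`.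
* `T₀ … T₃` : cochains of `W` in `X` → cochains of `Γ` in `Cd W X`,
  `(T ψ)(g₁..gₙ)(g) = w(g) • ψ (w(g)⁻¹ w(g g₁), …)` with `w = wfun W` the equivariant retraction.
* `P₁ … P₃` : the prism homotopy `Cⁿ(Γ, Cd W X) → Cⁿ⁻¹(Γ, Cd W X)`.
* identities: `d T = T d`, `sh T = id`, `Φ - T (sh Φ) = d (P Φ) + P (d Φ)`.
* level-constancy: `T` and `P` preserve invariance under a normal subgroup `N ≤ W` of `Γ`.
-/

set_option autoImplicit false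

universe u

open groupCohomology

namespace Fermat.Agent.CFT.H73

open Fermat.Agent.CFT

/-! ### generic: prism operators and tail invariance -/

section Generic

variable {Γ : Type u} [Group Γ] {M : Type*} [AddCommGroup M] {N : Subgroup Γ} {v : Γ → Γ}

lemma tailInv_pr₂ (hv : ∀ g s, s ∈ N → ∃ n ∈ N, v (g * s) = v g * n) {F : Γ → Γ → Γ → M}
    (h : ∀ x0 x1 x2 s1 s2, s1 ∈ N → s2 ∈ N → F x0 (x1 * s1) (x2 * s2) = F x0 x1 x2) :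
    ∀ x0 x1 s, s ∈ N → pr₂ v F x0 (x1 * s) = pr₂ v F x0 x1 := by
  intro x0 x1 s hs
  obtain ⟨n, hn, he⟩ := hv x1 s hs
  unfold pr₂
  rw [he, h _ _ _ _ _ hn hs]
  have := h (v x0) x0 x1 1 s N.one_mem hs
  rw [mul_one] at this
  rw [this]

lemma tailInv_pr₃ (hv : ∀ g s, s ∈ N → ∃ n ∈ N, v (g * s) = v g * n) {F : Γ → Γ → Γ → Γ → M}
    (h : ∀ x0 x1 x2 x3 s1 s2 s3, s1 ∈ N → s2 ∈ N → s3 ∈ N →
      F x0 (x1 * s1) (x2 * s2) (x3 * s3) = F x0 x1 x2 x3) :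
    ∀ x0 x1 x2 s1 s2, s1 ∈ N → s2 ∈ N →
      pr₃ v F x0 (x1 * s1) (x2 * s2) = pr₃ v F x0 x1 x2 := by
  intro x0 x1 x2 s1 s2 h1 h2
  obtain ⟨n1, hn1, he1⟩ := hv x1 s1 h1
  obtain ⟨n2, hn2, he2⟩ := hv x2 s2 h2
  unfold pr₃
  rw [he1, he2, h _ _ _ _ _ _ _ hn1 hn2 h2, h _ _ _ _ _ _ _ hn1 h1 h2]
  have := h (v x0) x0 x1 x2 1 s1 s2 N.one_mem h1 h2
  rw [mul_one] at this
  rw [this]

end Generic

variable {k : Type u} [CommRing k] {Γ : Type u} [Group Γ] {W : Subgroup Γ} {X : Rep.{u} k W}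

lemma ρ_ρ (w w' : W) (x : X) : X.ρ w (X.ρ w' x) = X.ρ (w * w') x := by
  rw [map_mul]; rfl

/-! ### evaluation at `1` -/

variable (W X) in
/-- evaluation at `1`, `Cd W X → X` -/
def ev₁ : (Cd W X).V →ₗ[k] X.V where
  toFun φ := φ.1 1
  map_add' _ _ := rfl
  map_smul' _ _ := rfl

lemma ev₁_apply (φ : (Cd W X).V) : ev₁ W X φ = φ.1 1 := rfl

lemma isEquivariant_ev₁ : H50.IsEquivariant W.subtype (Cd W X) X (ev₁ W X) := by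
  intro w φ
  show ((Cd W X).ρ (w : Γ) φ).1 1 = X.ρ w (φ.1 1)
  rw [Cd_ρ_apply, one_mul, ← Cd_equivariant, mul_one]

/-! ### the retraction -/

variable (W) in
/-- `g ↦ (wfun W g : Γ)` -/
noncomputable def vfun (g : Γ) : Γ := (wfun W g : Γ)

lemma vfun_mul (w : W) (g : Γ) : vfun W ((w : Γ) * g) = (w : Γ) * vfun W g := by
  unfold vfun; rw [wfun_mul]; rfl

lemma vfun_mul_right {N : Subgroup Γ} [N.Normal] (hN : N ≤ W) (g s : Γ) (hs : s ∈ N) :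
    ∃ n ∈ N, vfun W (g * s) = vfun W g * n := by
  obtain ⟨n, hn, he⟩ := wfun_mul_right_of_mem W hN g s hs
  exact ⟨(n : Γ), hn, by unfold vfun; rw [he]; rfl⟩

/-! ### The homogeneous form of `T` -/

noncomputable def Thom₀ (x : X) (x0 : Γ) : X := X.ρ (wfun W x0) x

noncomputable def Thom₁ (ψ : W → X) (x0 x1 : Γ) : X :=
  X.ρ (wfun W x0) (ψ ((wfun W x0)⁻¹ * wfun W x1))

noncomputable def Thom₂ (ψ : W × W → X) (x0 x1 x2 : Γ) : X :=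
  X.ρ (wfun W x0) (ψ ((wfun W x0)⁻¹ * wfun W x1, (wfun W x1)⁻¹ * wfun W x2))

noncomputable def Thom₃ (ψ : W × W × W → X) (x0 x1 x2 x3 : Γ) : X :=
  X.ρ (wfun W x0) (ψ ((wfun W x0)⁻¹ * wfun W x1, (wfun W x1)⁻¹ * wfun W x2,
    (wfun W x2)⁻¹ * wfun W x3))

noncomputable def Thom₄ (ψ : W × W × W × W → X) (x0 x1 x2 x3 x4 : Γ) : X :=
  X.ρ (wfun W x0) (ψ ((wfun W x0)⁻¹ * wfun W x1, (wfun W x1)⁻¹ * wfun W x2,
    (wfun W x2)⁻¹ * wfun W x3, (wfun W x3)⁻¹ * wfun W x4))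

lemma equi₀_Thom₀ (x : X) : Equi₀ (Thom₀ (W := W) x) := by
  intro w x0
  unfold Thom₀
  rw [wfun_mul, ρ_ρ]

lemma equi₁_Thom₁ (ψ : W → X) : Equi₁ (Thom₁ ψ) := by
  intro w x0 x1
  unfold Thom₁
  rw [wfun_mul, wfun_mul, ρ_ρ]
  have h : (w * wfun W x0)⁻¹ * (w * wfun W x1) = (wfun W x0)⁻¹ * wfun W x1 := by group
  rw [h]

lemma equi₂_Thom₂ (ψ : W × W → X) : Equi₂ (Thom₂ ψ) := by
  intro w x0 x1 x2
  unfold Thom₂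
  rw [wfun_mul, wfun_mul, wfun_mul, ρ_ρ]
  have h : (w * wfun W x0)⁻¹ * (w * wfun W x1) = (wfun W x0)⁻¹ * wfun W x1 := by group
  have h' : (w * wfun W x1)⁻¹ * (w * wfun W x2) = (wfun W x1)⁻¹ * wfun W x2 := by group
  rw [h, h']

lemma equi₃_Thom₃ (ψ : W × W × W → X) : Equi₃ (Thom₃ ψ) := by
  intro w x0 x1 x2 x3
  unfold Thom₃
  rw [wfun_mul, wfun_mul, wfun_mul, wfun_mul, ρ_ρ]
  have h : (w * wfun W x0)⁻¹ * (w * wfun W x1) = (wfun W x0)⁻¹ * wfun W x1 := by group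
  have h' : (w * wfun W x1)⁻¹ * (w * wfun W x2) = (wfun W x1)⁻¹ * wfun W x2 := by group
  have h'' : (w * wfun W x2)⁻¹ * (w * wfun W x3) = (wfun W x2)⁻¹ * wfun W x3 := by group
  rw [h, h', h'']

/-- differentials -/
lemma Thom₁_d (x : X) : Thom₁ ((d₀₁.{u,u} X).hom x) = hd₀ (Thom₀ (W := W) x) := by
  funext x0 x1
  unfold Thom₁ hd₀ Thom₀
  rw [d₀₁_hom_apply]
  simp only [map_sub, ρ_ρ, mul_inv_cancel_left]

lemma Thom₂_d (ψ : W → X) : Thom₂ ((d₁₂ X).hom ψ) = hd₁ (Thom₁ ψ) := by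
  funext x0 x1 x2
  unfold Thom₂ hd₁ Thom₁
  rw [d₁₂_hom_apply]
  simp only [map_sub, map_add, ρ_ρ, mul_inv_cancel_left, mul_assoc]

lemma Thom₃_d (ψ : W × W → X) : Thom₃ ((d₂₃ X).hom ψ) = hd₂ (Thom₂ ψ) := by
  funext x0 x1 x2 x3
  unfold Thom₃ hd₂ Thom₂
  rw [d₂₃_hom_apply]
  simp only [map_sub, map_add, ρ_ρ, mul_inv_cancel_left, mul_assoc]

lemma Thom₄_d (ψ : W × W × W → X) : Thom₄ (LevelStructure.d₃₄ X ψ) = hd₃ (Thom₃ ψ) := by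
  funext x0 x1 x2 x3 x4
  unfold Thom₄ hd₃ Thom₃
  rw [H50.d₃₄_apply]
  simp only [map_sub, map_add, ρ_ρ, mul_inv_cancel_left, mul_assoc]

/-! ### The maps `T` -/

noncomputable def T₀ (x : X) : (Cd W X).V := inh₀ (Thom₀ x) (equi₀_Thom₀ x)

noncomputable def T₁ (ψ : W → X) : Γ → (Cd W X).V := inh₁ (Thom₁ ψ) (equi₁_Thom₁ ψ)

noncomputable def T₂ (ψ : W × W → X) : Γ × Γ → (Cd W X).V := inh₂ (Thom₂ ψ) (equi₂_Thom₂ ψ)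

noncomputable def T₃ (ψ : W × W × W → X) : Γ × Γ × Γ → (Cd W X).V :=
  inh₃ (Thom₃ ψ) (equi₃_Thom₃ ψ)

lemma T₀_apply (x : X) (g : Γ) : (T₀ (W := W) x).1 g = X.ρ (wfun W g) x := rfl

lemma T₁_apply (ψ : W → X) (g1 g : Γ) :
    (T₁ ψ g1).1 g = X.ρ (wfun W g) (ψ ((wfun W g)⁻¹ * wfun W (g * g1))) := rfl

lemma T₂_apply (ψ : W × W → X) (g1 g2 g : Γ) :
    (T₂ ψ (g1, g2)).1 g = X.ρ (wfun W g) (ψ ((wfun W g)⁻¹ * wfun W (g * g1),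
      (wfun W (g * g1))⁻¹ * wfun W (g * g1 * g2))) := rfl

lemma T₃_apply (ψ : W × W × W → X) (g1 g2 g3 g : Γ) :
    (T₃ ψ (g1, g2, g3)).1 g = X.ρ (wfun W g) (ψ ((wfun W g)⁻¹ * wfun W (g * g1),
      (wfun W (g * g1))⁻¹ * wfun W (g * g1 * g2),
      (wfun W (g * g1 * g2))⁻¹ * wfun W (g * g1 * g2 * g3))) := rfl

lemma hom₀_T₀ (x : X) : hom₀ (T₀ (W := W) x) = Thom₀ x := rfl
lemma hom₁_T₁ (ψ : W → X) : hom₁ (T₁ ψ) = Thom₁ ψ := hom₁_inh₁ _ _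
lemma hom₂_T₂ (ψ : W × W → X) : hom₂ (T₂ ψ) = Thom₂ ψ := hom₂_inh₂ _ _
lemma hom₃_T₃ (ψ : W × W × W → X) : hom₃ (T₃ ψ) = Thom₃ ψ := hom₃_inh₃ _ _

/-- `d T = T d` -/
lemma d₀₁_T₀ (x : X) : (d₀₁.{u,u} (Cd W X)).hom (T₀ x) = T₁ ((d₀₁.{u,u} X).hom x) := by
  apply hom₁_injective
  rw [hom₁_d, hom₀_T₀, hom₁_T₁, Thom₁_d]

lemma d₁₂_T₁ (ψ : W → X) : (d₁₂ (Cd W X)).hom (T₁ ψ) = T₂ ((d₁₂ X).hom ψ) := by
  apply hom₂_injective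
  rw [hom₂_d, hom₁_T₁, hom₂_T₂, Thom₂_d]

lemma d₂₃_T₂ (ψ : W × W → X) : (d₂₃ (Cd W X)).hom (T₂ ψ) = T₃ ((d₂₃ X).hom ψ) := by
  apply hom₃_injective
  rw [hom₃_d, hom₂_T₂, hom₃_T₃, Thom₃_d]

lemma hom₄_d₃₄_T₃ (ψ : W × W × W → X) :
    hom₄ (LevelStructure.d₃₄ (Cd W X) (T₃ ψ)) = Thom₄ (LevelStructure.d₃₄ X ψ) := by
  rw [hom₄_d, hom₃_T₃, Thom₄_d]

lemma Thom₁_zero : Thom₁ (0 : W → X) = (0 : Γ → Γ → X) := by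
  funext x0 x1; simp [Thom₁]

lemma Thom₂_zero : Thom₂ (0 : W × W → X) = (0 : Γ → Γ → Γ → X) := by
  funext x0 x1 x2; simp [Thom₂]

lemma Thom₃_zero : Thom₃ (0 : W × W × W → X) = (0 : Γ → Γ → Γ → Γ → X) := by
  funext x0 x1 x2 x3; simp [Thom₃]

lemma Thom₄_zero : Thom₄ (0 : W × W × W × W → X) = (0 : Γ → Γ → Γ → Γ → Γ → X) := by
  funext x0 x1 x2 x3 x4; simp [Thom₄]

lemma T₁_zero : T₁ (0 : W → X) = (0 : Γ → (Cd W X).V) := by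
  apply hom₁_injective; rw [hom₁_T₁, Thom₁_zero]; rfl

lemma T₂_zero : T₂ (0 : W × W → X) = (0 : Γ × Γ → (Cd W X).V) := by
  apply hom₂_injective; rw [hom₂_T₂, Thom₂_zero]; rfl

lemma T₃_zero : T₃ (0 : W × W × W → X) = (0 : Γ × Γ × Γ → (Cd W X).V) := by
  apply hom₃_injective; rw [hom₃_T₃, Thom₃_zero]; rfl

/-- `sh T = id` -/
lemma sh_T₀ (x : X) : ev₁ W X (T₀ x) = x := by
  rw [ev₁_apply, T₀_apply, wfun_one, map_one]; rfl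

lemma sh_T₁ (ψ : W → X) : H50.pull₁ W.subtype (ev₁ W X) (T₁ ψ) = ψ := by
  funext w
  rw [H50.pull₁_apply, ev₁_apply, T₁_apply, wfun_one, map_one, one_mul, inv_one, one_mul]
  show ψ (wfun W (w : Γ)) = ψ w
  rw [wfun_coe]

lemma sh_T₂ (ψ : W × W → X) : H50.pull₂ W.subtype (ev₁ W X) (T₂ ψ) = ψ := by
  funext ⟨w1, w2⟩
  rw [H50.pull₂_apply, ev₁_apply]
  show (T₂ ψ ((w1 : Γ), (w2 : Γ))).1 1 = ψ (w1, w2)
  rw [T₂_apply, wfun_one, map_one, one_mul, inv_one, one_mul, ← Subgroup.coe_mul, wfun_coe,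
    wfun_coe, inv_mul_cancel_left]
  rfl

lemma sh_T₃ (ψ : W × W × W → X) : H50.pull₃ W.subtype (ev₁ W X) (T₃ ψ) = ψ := by
  funext ⟨w1, w2, w3⟩
  rw [H50.pull₃_apply, ev₁_apply]
  show (T₃ ψ ((w1 : Γ), (w2 : Γ), (w3 : Γ))).1 1 = ψ (w1, w2, w3)
  rw [T₃_apply, wfun_one, map_one, one_mul, inv_one, one_mul, ← Subgroup.coe_mul,
    ← Subgroup.coe_mul, wfun_coe, wfun_coe, wfun_coe, inv_mul_cancel_left, inv_mul_cancel_left]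
  rfl

/-- `hom (T (sh Φ)) = hom Φ ∘ v` -/
lemma Thom₁_sh (Φ : Γ → (Cd W X).V) :
    Thom₁ (H50.pull₁ W.subtype (ev₁ W X) Φ) = fun x0 x1 => hom₁ Φ (vfun W x0) (vfun W x1) := by
  funext x0 x1
  unfold Thom₁ hom₁ vfun
  rw [H50.pull₁_apply, ev₁_apply, ← Cd_equivariant, mul_one]
  rfl

lemma Thom₂_sh (Φ : Γ × Γ → (Cd W X).V) :
    Thom₂ (H50.pull₂ W.subtype (ev₁ W X) Φ) =
      fun x0 x1 x2 => hom₂ Φ (vfun W x0) (vfun W x1) (vfun W x2) := by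
  funext x0 x1 x2
  unfold Thom₂ hom₂ vfun
  rw [H50.pull₂_apply, ev₁_apply, ← Cd_equivariant, mul_one]
  rfl

lemma Thom₃_sh (Φ : Γ × Γ × Γ → (Cd W X).V) :
    Thom₃ (H50.pull₃ W.subtype (ev₁ W X) Φ) =
      fun x0 x1 x2 x3 => hom₃ Φ (vfun W x0) (vfun W x1) (vfun W x2) (vfun W x3) := by
  funext x0 x1 x2 x3
  unfold Thom₃ hom₃ vfun
  rw [H50.pull₃_apply, ev₁_apply, ← Cd_equivariant, mul_one]
  rfl

/-! ### The prism homotopy -/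

lemma equi₀_pr₁ {F : Γ → Γ → X} (hF : Equi₁ F) : Equi₀ (pr₁ (vfun W) F) := by
  intro w x0
  unfold pr₁
  rw [vfun_mul, hF]

lemma equi₁_pr₂ {F : Γ → Γ → Γ → X} (hF : Equi₂ F) : Equi₁ (pr₂ (vfun W) F) := by
  intro w x0 x1
  unfold pr₂
  rw [vfun_mul, vfun_mul, hF, hF, map_sub]

lemma equi₂_pr₃ {F : Γ → Γ → Γ → Γ → X} (hF : Equi₃ F) : Equi₂ (pr₃ (vfun W) F) := by
  intro w x0 x1 x2
  unfold pr₃
  rw [vfun_mul, vfun_mul, vfun_mul, hF, hF, hF, map_add, map_sub]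

noncomputable def P₁ (Φ : Γ → (Cd W X).V) : (Cd W X).V :=
  inh₀ (pr₁ (vfun W) (hom₁ Φ)) (equi₀_pr₁ (equi₁_hom₁ Φ))

noncomputable def P₂ (Φ : Γ × Γ → (Cd W X).V) : Γ → (Cd W X).V :=
  inh₁ (pr₂ (vfun W) (hom₂ Φ)) (equi₁_pr₂ (equi₂_hom₂ Φ))

noncomputable def P₃ (Φ : Γ × Γ × Γ → (Cd W X).V) : Γ × Γ → (Cd W X).V :=
  inh₂ (pr₃ (vfun W) (hom₃ Φ)) (equi₂_pr₃ (equi₃_hom₃ Φ))

lemma hom₀_P₁ (Φ : Γ → (Cd W X).V) : hom₀ (P₁ Φ) = pr₁ (vfun W) (hom₁ Φ) := rfl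
lemma hom₁_P₂ (Φ : Γ × Γ → (Cd W X).V) : hom₁ (P₂ Φ) = pr₂ (vfun W) (hom₂ Φ) := hom₁_inh₁ _ _
lemma hom₂_P₃ (Φ : Γ × Γ × Γ → (Cd W X).V) : hom₂ (P₃ Φ) = pr₃ (vfun W) (hom₃ Φ) :=
  hom₂_inh₂ _ _

lemma P₂_zero : P₂ (0 : Γ × Γ → (Cd W X).V) = 0 := by
  apply hom₁_injective
  rw [hom₁_P₂, hom₂_zero, hom₁_zero]
  funext x0 x1; simp [pr₂]

lemma P₃_zero : P₃ (0 : Γ × Γ × Γ → (Cd W X).V) = 0 := by
  apply hom₂_injective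
  rw [hom₂_P₃, hom₃_zero, hom₂_zero]
  funext x0 x1 x2; simp [pr₃]

/-- the homotopy identity in degree 1 -/
theorem homotopy₁ (Φ : Γ → (Cd W X).V) :
    Φ - T₁ (H50.pull₁ W.subtype (ev₁ W X) Φ) =
      (d₀₁.{u,u} (Cd W X)).hom (P₁ Φ) + P₂ ((d₁₂ (Cd W X)).hom Φ) := by
  apply hom₁_injective
  rw [hom₁_sub, hom₁_add, hom₁_T₁, Thom₁_sh, hom₁_d, hom₀_P₁, hom₁_P₂, hom₂_d]
  funext x0 x1
  exact prism₁ (vfun W) (hom₁ Φ) x0 x1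

/-- the homotopy identity in degree 2 -/
theorem homotopy₂ (Φ : Γ × Γ → (Cd W X).V) :
    Φ - T₂ (H50.pull₂ W.subtype (ev₁ W X) Φ) =
      (d₁₂ (Cd W X)).hom (P₂ Φ) + P₃ ((d₂₃ (Cd W X)).hom Φ) := by
  apply hom₂_injective
  rw [hom₂_sub, hom₂_add, hom₂_T₂, Thom₂_sh, hom₂_d, hom₁_P₂, hom₂_P₃, hom₃_d]
  funext x0 x1 x2
  exact prism₂ (vfun W) (hom₂ Φ) x0 x1 x2

/-- the homotopy identity in degree 3, for cocycles -/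
theorem homotopy₃ (Φ : Γ × Γ × Γ → (Cd W X).V) (hΦ : LevelStructure.d₃₄ (Cd W X) Φ = 0) :
    Φ - T₃ (H50.pull₃ W.subtype (ev₁ W X) Φ) = (d₂₃ (Cd W X)).hom (P₃ Φ) := by
  apply hom₃_injective
  rw [hom₃_sub, hom₃_T₃, Thom₃_sh, hom₃_d, hom₂_P₃]
  funext x0 x1 x2 x3
  have h := prism₃ (vfun W) (hom₃ Φ) x0 x1 x2 x3
  rw [← hom₄_d, hΦ, hom₄_zero] at h
  rw [show (hom₃ Φ - fun x0 x1 x2 x3 => hom₃ Φ (vfun W x0) (vfun W x1) (vfun W x2) (vfun W x3))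
    x0 x1 x2 x3 = hom₃ Φ x0 x1 x2 x3 - hom₃ Φ (vfun W x0) (vfun W x1) (vfun W x2) (vfun W x3)
    from rfl, h]
  simp [pr₄]

end Fermat.Agent.CFT.H73
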