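import Mathlib
import Fermat.Agent.CFT.H55_LevelDefs
import Fermat.Agent.CFT.H50_LevelRes
import Fermat.Agent.CFT.H73_ShapiroCochain

/-!
# Shapiro's lemma for level cohomology (CFT / D0-SHAP, helper73)

`𝓛 : LevelStructure Γ`, `W ≤ Γ` an OPEN subgroup, `X : Rep k W`, `Cd W X = Rep.coind W.subtype X`
(Mathlib's coinduced module: ALL `W`-equivariant functions `Γ → X`; for `X` discrete these are
automatically level-constant, `isDiscrete_coind`).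

The Shapiro maps are helper50's `H50.mapHn` for the pair `(W.subtype, ev₁ W X)`:
`shH0 … shH3 : 𝓛.Hn (Cd W X) →ₗ[k] (𝓛.restrict W).Hn X`, `[Φ] ↦ [(w₁..wₙ) ↦ Φ(w₁..wₙ)(1)]`.
Main results: `shH0_bijective … shH3_bijective`, the equivalences `shapiroH0 … shapiroH3`
and the formula for the inverse, `[ψ] ↦ [T ψ]`.
-/

set_option autoImplicit false

universe u

open groupCohomology

namespace Fermat.Agent.CFT.H73

open Fermat.Agent.CFT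

variable {k : Type u} [CommRing k] {Γ : Type u} [Group Γ] {W : Subgroup Γ} {X : Rep.{u} k W}

/-! ### `T` and `P` preserve invariance under a normal subgroup `N ≤ W` -/

section Normal

variable {N : Subgroup Γ} [N.Normal]

lemma tailInv₁_Thom₁ (hN : N ≤ W) {ψ : W → X}
    (h : ∀ w s : W, (s : Γ) ∈ N → ψ (w * s) = ψ w) : TailInv₁ N (Thom₁ ψ) := by
  intro x0 x1 s hs
  obtain ⟨n, hn, he⟩ := wfun_mul_right_of_mem W hN x1 s hs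
  unfold Thom₁
  rw [he, ← mul_assoc, h _ n hn]

lemma tailInv₂_Thom₂ (hN : N ≤ W) {ψ : W × W → X}
    (h : ∀ w w' s s' : W, (s : Γ) ∈ N → (s' : Γ) ∈ N → ψ (w * s, w' * s') = ψ (w, w')) :
    TailInv₂ N (Thom₂ ψ) := by
  intro x0 x1 x2 s1 s2 h1 h2
  obtain ⟨n1, hn1, he1⟩ := wfun_mul_right_of_mem W hN x1 s1 h1
  obtain ⟨n2, hn2, he2⟩ := wfun_mul_right_of_mem W hN x2 s2 h2
  have : (N.comap W.subtype).Normal := Subgroup.Normal.comap inferInstance _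
  obtain ⟨t, ht, het⟩ := exists_mul_eq_of_normal (N := N.comap W.subtype)
    ((wfun W x1)⁻¹ * wfun W x2) n1 n2 hn1 hn2
  unfold Thom₂
  rw [he1, he2]
  have e1 : (wfun W x0)⁻¹ * (wfun W x1 * n1) = (wfun W x0)⁻¹ * wfun W x1 * n1 := by group
  have e2 : (wfun W x1 * n1)⁻¹ * (wfun W x2 * n2) = (wfun W x1)⁻¹ * wfun W x2 * t := by
    rw [← het]; group
  rw [e1, e2, h _ _ _ _ hn1 ht]

lemma tailInv₃_Thom₃ (hN : N ≤ W) {ψ : W × W × W → X}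
    (h : ∀ w w' w'' s s' s'' : W, (s : Γ) ∈ N → (s' : Γ) ∈ N → (s'' : Γ) ∈ N →
      ψ (w * s, w' * s', w'' * s'') = ψ (w, w', w'')) :
    TailInv₃ N (Thom₃ ψ) := by
  intro x0 x1 x2 x3 s1 s2 s3 h1 h2 h3
  obtain ⟨n1, hn1, he1⟩ := wfun_mul_right_of_mem W hN x1 s1 h1
  obtain ⟨n2, hn2, he2⟩ := wfun_mul_right_of_mem W hN x2 s2 h2
  obtain ⟨n3, hn3, he3⟩ := wfun_mul_right_of_mem W hN x3 s3 h3
  have : (N.comap W.subtype).Normal := Subgroup.Normal.comap inferInstance _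
  obtain ⟨t, ht, het⟩ := exists_mul_eq_of_normal (N := N.comap W.subtype)
    ((wfun W x1)⁻¹ * wfun W x2) n1 n2 hn1 hn2
  obtain ⟨t', ht', het'⟩ := exists_mul_eq_of_normal (N := N.comap W.subtype)
    ((wfun W x2)⁻¹ * wfun W x3) n2 n3 hn2 hn3
  unfold Thom₃
  rw [he1, he2, he3]
  have e1 : (wfun W x0)⁻¹ * (wfun W x1 * n1) = (wfun W x0)⁻¹ * wfun W x1 * n1 := by group
  have e2 : (wfun W x1 * n1)⁻¹ * (wfun W x2 * n2) = (wfun W x1)⁻¹ * wfun W x2 * t := by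
    rw [← het]; group
  have e3 : (wfun W x2 * n2)⁻¹ * (wfun W x3 * n3) = (wfun W x2)⁻¹ * wfun W x3 * t' := by
    rw [← het']; group
  rw [e1, e2, e3, h _ _ _ _ _ _ hn1 ht ht']

lemma T₁_const (hN : N ≤ W) {ψ : W → X} (h : ∀ w s : W, (s : Γ) ∈ N → ψ (w * s) = ψ w)
    (g s : Γ) (hs : s ∈ N) : T₁ ψ (g * s) = T₁ ψ g :=
  inh₁_const _ (tailInv₁_Thom₁ hN h) g s hs

lemma T₂_const (hN : N ≤ W) {ψ : W × W → X}
    (h : ∀ w w' s s' : W, (s : Γ) ∈ N → (s' : Γ) ∈ N → ψ (w * s, w' * s') = ψ (w, w'))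
    (g g' s s' : Γ) (hs : s ∈ N) (hs' : s' ∈ N) : T₂ ψ (g * s, g' * s') = T₂ ψ (g, g') :=
  inh₂_const _ (tailInv₂_Thom₂ hN h) g g' s s' hs hs'

lemma T₃_const (hN : N ≤ W) {ψ : W × W × W → X}
    (h : ∀ w w' w'' s s' s'' : W, (s : Γ) ∈ N → (s' : Γ) ∈ N → (s'' : Γ) ∈ N →
      ψ (w * s, w' * s', w'' * s'') = ψ (w, w', w''))
    (g g' g'' s s' s'' : Γ) (hs : s ∈ N) (hs' : s' ∈ N) (hs'' : s'' ∈ N) :
    T₃ ψ (g * s, g' * s', g'' * s'') = T₃ ψ (g, g', g'') :=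
  inh₃_const _ (tailInv₃_Thom₃ hN h) g g' g'' s s' s'' hs hs' hs''

lemma P₂_const (hN : N ≤ W) {Φ : Γ × Γ → (Cd W X).V}
    (h : ∀ g g' s s', s ∈ N → s' ∈ N → Φ (g * s, g' * s') = Φ (g, g'))
    (g s : Γ) (hs : s ∈ N) : P₂ Φ (g * s) = P₂ Φ g :=
  inh₁_const _ (tailInv_pr₂ (vfun_mul_right hN) (tailInv₂_hom₂ h)) g s hs

lemma P₃_const (hN : N ≤ W) {Φ : Γ × Γ × Γ → (Cd W X).V}
    (h : ∀ g g' g'' s s' s'', s ∈ N → s' ∈ N → s'' ∈ N →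
      Φ (g * s, g' * s', g'' * s'') = Φ (g, g', g''))
    (g g' s s' : Γ) (hs : s ∈ N) (hs' : s' ∈ N) : P₃ Φ (g * s, g' * s') = P₃ Φ (g, g') :=
  inh₂_const _ (tailInv_pr₃ (vfun_mul_right hN) (tailInv₃_hom₃ h)) g g' s s' hs hs'

end Normal

/-! ### level-constancy -/

section Level

variable (𝓛 : LevelStructure Γ)

/-- a normal level inside `W` and inside a given level -/
lemma exists_normal_level (hW : 𝓛.IsOpen W) {N₀ : Subgroup Γ} (hN₀ : N₀ ∈ 𝓛.levels) :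
    ∃ N ∈ 𝓛.levels, N.Normal ∧ N ≤ W ∧ N ≤ N₀ := by
  obtain ⟨N, hN, h1, h2, h3⟩ :=
    H50.exists_normal_level_le_inf 𝓛 hW (H50.isOpen_of_mem_levels 𝓛 hN₀)
  exact ⟨N, hN, h3, h1, h2⟩

variable {𝓛}

lemma isConst₁_T₁ (hW : 𝓛.IsOpen W) {ψ : W → X} (hψ : (𝓛.restrict W).IsConst₁ ψ) :
    𝓛.IsConst₁ (T₁ ψ) := by
  obtain ⟨_, ⟨N₀, hN₀, rfl⟩, h⟩ := hψ
  obtain ⟨N, hN, hnor, hNW, hle⟩ := exists_normal_level 𝓛 hW hN₀
  have := hnor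
  exact ⟨N, hN, T₁_const hNW fun w s hs => h w s (hle hs)⟩

lemma isConst₂_T₂ (hW : 𝓛.IsOpen W) {ψ : W × W → X} (hψ : (𝓛.restrict W).IsConst₂ ψ) :
    𝓛.IsConst₂ (T₂ ψ) := by
  obtain ⟨_, ⟨N₀, hN₀, rfl⟩, h⟩ := hψ
  obtain ⟨N, hN, hnor, hNW, hle⟩ := exists_normal_level 𝓛 hW hN₀
  have := hnor
  exact ⟨N, hN, T₂_const hNW fun w w' s s' hs hs' => h w w' s s' (hle hs) (hle hs')⟩

lemma isConst₃_T₃ (hW : 𝓛.IsOpen W) {ψ : W × W × W → X} (hψ : (𝓛.restrict W).IsConst₃ ψ) :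
    𝓛.IsConst₃ (T₃ ψ) := by
  obtain ⟨_, ⟨N₀, hN₀, rfl⟩, h⟩ := hψ
  obtain ⟨N, hN, hnor, hNW, hle⟩ := exists_normal_level 𝓛 hW hN₀
  have := hnor
  exact ⟨N, hN, T₃_const hNW fun w w' w'' s s' s'' hs hs' hs'' =>
    h w w' w'' s s' s'' (hle hs) (hle hs') (hle hs'')⟩

lemma isConst₁_P₂ (hW : 𝓛.IsOpen W) {Φ : Γ × Γ → (Cd W X).V} (hΦ : 𝓛.IsConst₂ Φ) :
    𝓛.IsConst₁ (P₂ Φ) := by
  obtain ⟨N₀, hN₀, h⟩ := hΦ
  obtain ⟨N, hN, hnor, hNW, hle⟩ := exists_normal_level 𝓛 hW hN₀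
  have := hnor
  exact ⟨N, hN, P₂_const hNW fun g g' s s' hs hs' => h g g' s s' (hle hs) (hle hs')⟩

lemma isConst₂_P₃ (hW : 𝓛.IsOpen W) {Φ : Γ × Γ × Γ → (Cd W X).V} (hΦ : 𝓛.IsConst₃ Φ) :
    𝓛.IsConst₂ (P₃ Φ) := by
  obtain ⟨N₀, hN₀, h⟩ := hΦ
  obtain ⟨N, hN, hnor, hNW, hle⟩ := exists_normal_level 𝓛 hW hN₀
  have := hnor
  exact ⟨N, hN, P₃_const hNW fun g g' g'' s s' s'' hs hs' hs'' =>
    h g g' g'' s s' s'' (hle hs) (hle hs') (hle hs'')⟩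

end Level

/-! ### The Shapiro maps on level cohomology -/

noncomputable section Shapiro

/-- Shapiro map on `H⁰` -/
def shH0 (W : Subgroup Γ) (X : Rep.{u} k W) :
    LevelStructure.H0 (Cd W X) →ₗ[k] LevelStructure.H0 X :=
  H50.mapH0 isEquivariant_ev₁

/-- Shapiro map on level `H¹` -/
def shH1 (𝓛 : LevelStructure Γ) (W : Subgroup Γ) (X : Rep.{u} k W) :
    𝓛.H1 (Cd W X) →ₗ[k] (𝓛.restrict W).H1 X :=
  H50.mapH1 (𝓛.restrict W) 𝓛 (H50.isCont_subtype 𝓛 W) isEquivariant_ev₁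

/-- Shapiro map on level `H²` -/
def shH2 (𝓛 : LevelStructure Γ) (W : Subgroup Γ) (X : Rep.{u} k W) :
    𝓛.H2 (Cd W X) →ₗ[k] (𝓛.restrict W).H2 X :=
  H50.mapH2 (𝓛.restrict W) 𝓛 (H50.isCont_subtype 𝓛 W) isEquivariant_ev₁

/-- Shapiro map on level `H³` -/
def shH3 (𝓛 : LevelStructure Γ) (W : Subgroup Γ) (X : Rep.{u} k W) :
    𝓛.H3 (Cd W X) →ₗ[k] (𝓛.restrict W).H3 X :=
  H50.mapH3 (𝓛.restrict W) 𝓛 (H50.isCont_subtype 𝓛 W) isEquivariant_ev₁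

variable (𝓛 : LevelStructure Γ)

lemma shH0_coe (φ : LevelStructure.H0 (Cd W X)) : ((shH0 W X φ : LevelStructure.H0 X) : X.V) =
    (φ : (Cd W X).V).1 1 := rfl

lemma shH1_mk (Φ : 𝓛.cocycles₁ (Cd W X)) :
    shH1 𝓛 W X (𝓛.H1π _ Φ) = (𝓛.restrict W).H1π X
      (H50.mapZ1 (𝓛.restrict W) 𝓛 (H50.isCont_subtype 𝓛 W) isEquivariant_ev₁ Φ) := rfl

lemma shH2_mk (Φ : 𝓛.cocycles₂ (Cd W X)) :
    shH2 𝓛 W X (𝓛.H2π _ Φ) = (𝓛.restrict W).H2π X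
      (H50.mapZ2 (𝓛.restrict W) 𝓛 (H50.isCont_subtype 𝓛 W) isEquivariant_ev₁ Φ) := rfl

lemma shH3_mk (Φ : 𝓛.cocycles₃ (Cd W X)) :
    shH3 𝓛 W X (𝓛.H3π _ Φ) = (𝓛.restrict W).H3π X
      (H50.mapZ3 (𝓛.restrict W) 𝓛 (H50.isCont_subtype 𝓛 W) isEquivariant_ev₁ Φ) := rfl

/-! #### cocycles are mapped to cocycles by `T` -/

variable {𝓛}

lemma T₁_mem_cocycles₁ (hW : 𝓛.IsOpen W) {ψ : W → X} (hψ : ψ ∈ (𝓛.restrict W).cocycles₁ X) :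
    T₁ ψ ∈ 𝓛.cocycles₁ (Cd W X) := by
  refine ⟨?_, isConst₁_T₁ hW hψ.2⟩
  have h1 : (d₁₂ X).hom ψ = 0 := hψ.1
  show (d₁₂ (Cd W X)).hom (T₁ ψ) = 0
  rw [d₁₂_T₁, h1, T₂_zero]

lemma T₂_mem_cocycles₂ (hW : 𝓛.IsOpen W) {ψ : W × W → X}
    (hψ : ψ ∈ (𝓛.restrict W).cocycles₂ X) : T₂ ψ ∈ 𝓛.cocycles₂ (Cd W X) := by
  refine ⟨?_, isConst₂_T₂ hW hψ.2⟩
  have h1 : (d₂₃ X).hom ψ = 0 := hψ.1
  show (d₂₃ (Cd W X)).hom (T₂ ψ) = 0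
  rw [d₂₃_T₂, h1, T₃_zero]

lemma T₃_mem_cocycles₃ (hW : 𝓛.IsOpen W) {ψ : W × W × W → X}
    (hψ : ψ ∈ (𝓛.restrict W).cocycles₃ X) : T₃ ψ ∈ 𝓛.cocycles₃ (Cd W X) := by
  refine ⟨?_, isConst₃_T₃ hW hψ.2⟩
  have h1 : LevelStructure.d₃₄ X ψ = 0 := hψ.1
  show LevelStructure.d₃₄ (Cd W X) (T₃ ψ) = 0
  apply hom₄_injective
  rw [hom₄_d₃₄_T₃, h1, Thom₄_zero, hom₄_zero]

/-! #### bijectivity -/

variable (𝓛)

theorem shH0_bijective : Function.Bijective (shH0 W X) := by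
  constructor
  · rw [injective_iff_map_eq_zero]
    intro φ hφ
    have h1 : (φ : (Cd W X).V).1 1 = 0 := congrArg Subtype.val hφ
    apply Subtype.ext
    refine Cd_ext fun x => ?_
    have h2 := φ.2 x
    have h3 : ((Cd W X).ρ x (φ : (Cd W X).V)).1 1 = (φ : (Cd W X).V).1 1 := by rw [h2]
    rw [Cd_ρ_apply, one_mul] at h3
    rw [h3, h1]; rfl
  · intro x
    have hx : ∀ w : W, X.ρ w (x : X.V) = x := x.2
    have hT : ∀ g : Γ, (T₀ (W := W) (x : X.V)).1 g = x := fun g => by rw [T₀_apply, hx]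
    refine ⟨⟨T₀ (x : X.V), fun g => ?_⟩, ?_⟩
    · refine Cd_ext fun y => ?_
      rw [Cd_ρ_apply, hT, hT]
    · apply Subtype.ext
      rw [shH0_coe]
      exact hT 1

theorem shH1_bijective (hW : 𝓛.IsOpen W) : Function.Bijective (shH1 𝓛 W X) := by
  constructor
  · rw [injective_iff_map_eq_zero]
    intro x
    induction x using Submodule.Quotient.induction_on with
    | H Φ =>
      intro h
      have h2 : (𝓛.restrict W).H1π X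
          (H50.mapZ1 (𝓛.restrict W) 𝓛 (H50.isCont_subtype 𝓛 W) isEquivariant_ev₁ Φ) = 0 := h
      have h3 := (Submodule.Quotient.mk_eq_zero _).1 h2
      have h' : H50.pull₁ W.subtype (ev₁ W X) Φ.1 ∈ (𝓛.restrict W).coboundaries₁ X := h3
      obtain ⟨x, hx⟩ := h'
      refine (Submodule.Quotient.mk_eq_zero _).2 ?_
      show Φ.1 ∈ LevelStructure.coboundaries₁.{u,u} (Cd W X) 𝓛
      have hd : (d₁₂ (Cd W X)).hom Φ.1 = 0 := Φ.2.1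
      have key := homotopy₁ Φ.1
      rw [hd, P₂_zero, add_zero, ← hx, ← d₀₁_T₀, sub_eq_iff_eq_add, ← map_add] at key
      exact ⟨_, key.symm⟩
  · intro y
    induction y using Submodule.Quotient.induction_on with
    | H ψ =>
      refine ⟨𝓛.H1π _ ⟨T₁ ψ.1, T₁_mem_cocycles₁ hW ψ.2⟩, ?_⟩
      have e : H50.mapZ1 (𝓛.restrict W) 𝓛 (H50.isCont_subtype 𝓛 W) isEquivariant_ev₁
          ⟨T₁ ψ.1, T₁_mem_cocycles₁ hW ψ.2⟩ = ψ := Subtype.ext (sh_T₁ ψ.1)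
      rw [shH1_mk, e]
      rfl

theorem shH2_bijective (hW : 𝓛.IsOpen W) : Function.Bijective (shH2 𝓛 W X) := by
  constructor
  · rw [injective_iff_map_eq_zero]
    intro x
    induction x using Submodule.Quotient.induction_on with
    | H Φ =>
      intro h
      have h2 : (𝓛.restrict W).H2π X
          (H50.mapZ2 (𝓛.restrict W) 𝓛 (H50.isCont_subtype 𝓛 W) isEquivariant_ev₁ Φ) = 0 := h
      have h3 := (Submodule.Quotient.mk_eq_zero _).1 h2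
      have h' : H50.pull₂ W.subtype (ev₁ W X) Φ.1 ∈ (𝓛.restrict W).coboundaries₂ X := h3
      obtain ⟨ψ', hψ', hx⟩ := h'
      refine (Submodule.Quotient.mk_eq_zero _).2 ?_
      show Φ.1 ∈ 𝓛.coboundaries₂ (Cd W X)
      have hd : (d₂₃ (Cd W X)).hom Φ.1 = 0 := Φ.2.1
      have key := homotopy₂ Φ.1
      rw [hd, P₃_zero, add_zero, ← hx, ← d₁₂_T₁, sub_eq_iff_eq_add, ← map_add] at key
      exact ⟨_, (isConst₁_P₂ hW Φ.2.2).add (isConst₁_T₁ hW hψ'), key.symm⟩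
  · intro y
    induction y using Submodule.Quotient.induction_on with
    | H ψ =>
      refine ⟨𝓛.H2π _ ⟨T₂ ψ.1, T₂_mem_cocycles₂ hW ψ.2⟩, ?_⟩
      have e : H50.mapZ2 (𝓛.restrict W) 𝓛 (H50.isCont_subtype 𝓛 W) isEquivariant_ev₁
          ⟨T₂ ψ.1, T₂_mem_cocycles₂ hW ψ.2⟩ = ψ := Subtype.ext (sh_T₂ ψ.1)
      rw [shH2_mk, e]
      rfl

theorem shH3_bijective (hW : 𝓛.IsOpen W) : Function.Bijective (shH3 𝓛 W X) := by
  constructor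
  · rw [injective_iff_map_eq_zero]
    intro x
    induction x using Submodule.Quotient.induction_on with
    | H Φ =>
      intro h
      have h2 : (𝓛.restrict W).H3π X
          (H50.mapZ3 (𝓛.restrict W) 𝓛 (H50.isCont_subtype 𝓛 W) isEquivariant_ev₁ Φ) = 0 := h
      have h3 := (Submodule.Quotient.mk_eq_zero _).1 h2
      have h' : H50.pull₃ W.subtype (ev₁ W X) Φ.1 ∈ (𝓛.restrict W).coboundaries₃ X := h3
      obtain ⟨ψ', hψ', hx⟩ := h'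
      refine (Submodule.Quotient.mk_eq_zero _).2 ?_
      show Φ.1 ∈ 𝓛.coboundaries₃ (Cd W X)
      have hd : LevelStructure.d₃₄ (Cd W X) Φ.1 = 0 := Φ.2.1
      have key := homotopy₃ Φ.1 hd
      rw [← hx, ← d₂₃_T₂, sub_eq_iff_eq_add, ← map_add] at key
      exact ⟨_, (isConst₂_P₃ hW Φ.2.2).add (isConst₂_T₂ hW hψ'), key.symm⟩
  · intro y
    induction y using Submodule.Quotient.induction_on with
    | H ψ =>
      refine ⟨𝓛.H3π _ ⟨T₃ ψ.1, T₃_mem_cocycles₃ hW ψ.2⟩, ?_⟩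
      have e : H50.mapZ3 (𝓛.restrict W) 𝓛 (H50.isCont_subtype 𝓛 W) isEquivariant_ev₁
          ⟨T₃ ψ.1, T₃_mem_cocycles₃ hW ψ.2⟩ = ψ := Subtype.ext (sh_T₃ ψ.1)
      rw [shH3_mk, e]
      rfl

/-! #### the equivalences -/

/-- Shapiro's lemma, `H⁰` -/
def shapiroH0 (W : Subgroup Γ) (X : Rep.{u} k W) :
    LevelStructure.H0 (Cd W X) ≃ₗ[k] LevelStructure.H0 X :=
  LinearEquiv.ofBijective (shH0 W X) shH0_bijective

/-- Shapiro's lemma, level `H¹` -/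
def shapiroH1 (𝓛 : LevelStructure Γ) (W : Subgroup Γ) (X : Rep.{u} k W) (hW : 𝓛.IsOpen W) :
    𝓛.H1 (Cd W X) ≃ₗ[k] (𝓛.restrict W).H1 X :=
  LinearEquiv.ofBijective (shH1 𝓛 W X) (shH1_bijective 𝓛 hW)

/-- Shapiro's lemma, level `H²` -/
def shapiroH2 (𝓛 : LevelStructure Γ) (W : Subgroup Γ) (X : Rep.{u} k W) (hW : 𝓛.IsOpen W) :
    𝓛.H2 (Cd W X) ≃ₗ[k] (𝓛.restrict W).H2 X :=
  LinearEquiv.ofBijective (shH2 𝓛 W X) (shH2_bijective 𝓛 hW)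

/-- Shapiro's lemma, level `H³` -/
def shapiroH3 (𝓛 : LevelStructure Γ) (W : Subgroup Γ) (X : Rep.{u} k W) (hW : 𝓛.IsOpen W) :
    𝓛.H3 (Cd W X) ≃ₗ[k] (𝓛.restrict W).H3 X :=
  LinearEquiv.ofBijective (shH3 𝓛 W X) (shH3_bijective 𝓛 hW)

@[simp] lemma shapiroH0_apply (φ : LevelStructure.H0 (Cd W X)) :
    shapiroH0 W X φ = shH0 W X φ := rfl

@[simp] lemma shapiroH1_apply (hW : 𝓛.IsOpen W) (x : 𝓛.H1 (Cd W X)) :
    shapiroH1 𝓛 W X hW x = shH1 𝓛 W X x := rfl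

@[simp] lemma shapiroH2_apply (hW : 𝓛.IsOpen W) (x : 𝓛.H2 (Cd W X)) :
    shapiroH2 𝓛 W X hW x = shH2 𝓛 W X x := rfl

@[simp] lemma shapiroH3_apply (hW : 𝓛.IsOpen W) (x : 𝓛.H3 (Cd W X)) :
    shapiroH3 𝓛 W X hW x = shH3 𝓛 W X x := rfl

/-- the inverse on representatives: `[ψ] ↦ [T₁ ψ]` -/
lemma shapiroH1_symm_mk (hW : 𝓛.IsOpen W) (ψ : (𝓛.restrict W).cocycles₁ X) :
    (shapiroH1 𝓛 W X hW).symm ((𝓛.restrict W).H1π X ψ) =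
      𝓛.H1π _ ⟨T₁ ψ.1, T₁_mem_cocycles₁ hW ψ.2⟩ := by
  have e : H50.mapZ1 (𝓛.restrict W) 𝓛 (H50.isCont_subtype 𝓛 W) isEquivariant_ev₁
      ⟨T₁ ψ.1, T₁_mem_cocycles₁ hW ψ.2⟩ = ψ := Subtype.ext (sh_T₁ ψ.1)
  rw [LinearEquiv.symm_apply_eq, shapiroH1_apply, shH1_mk, e]

lemma shapiroH2_symm_mk (hW : 𝓛.IsOpen W) (ψ : (𝓛.restrict W).cocycles₂ X) :
    (shapiroH2 𝓛 W X hW).symm ((𝓛.restrict W).H2π X ψ) =
      𝓛.H2π _ ⟨T₂ ψ.1, T₂_mem_cocycles₂ hW ψ.2⟩ := by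
  have e : H50.mapZ2 (𝓛.restrict W) 𝓛 (H50.isCont_subtype 𝓛 W) isEquivariant_ev₁
      ⟨T₂ ψ.1, T₂_mem_cocycles₂ hW ψ.2⟩ = ψ := Subtype.ext (sh_T₂ ψ.1)
  rw [LinearEquiv.symm_apply_eq, shapiroH2_apply, shH2_mk, e]

lemma shapiroH3_symm_mk (hW : 𝓛.IsOpen W) (ψ : (𝓛.restrict W).cocycles₃ X) :
    (shapiroH3 𝓛 W X hW).symm ((𝓛.restrict W).H3π X ψ) =
      𝓛.H3π _ ⟨T₃ ψ.1, T₃_mem_cocycles₃ hW ψ.2⟩ := by
  have e : H50.mapZ3 (𝓛.restrict W) 𝓛 (H50.isCont_subtype 𝓛 W) isEquivariant_ev₁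
      ⟨T₃ ψ.1, T₃_mem_cocycles₃ hW ψ.2⟩ = ψ := Subtype.ext (sh_T₃ ψ.1)
  rw [LinearEquiv.symm_apply_eq, shapiroH3_apply, shH3_mk, e]

end Shapiro

end Fermat.Agent.CFT.H73
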