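import Mathlib
import Fermat.Agent.CFT.H55_LevelDefs
import Fermat.Agent.CFT.H50_LevelRes
import Fermat.Agent.CFT.H73_LevelShapiro

/-!
# Shapiro's lemma for level cohomology: discreteness, naturality, unit (CFT / D0-SHAP, helper73)

* `isDiscrete_coind` : `W` open, `X` discrete for `𝓛.restrict W` ⇒ `Cd W X = Rep.coind W.subtype X`
  is discrete for `𝓛`.
* `shHn_natural` : the Shapiro maps are natural in `X` (for `f : X ⟶ Y` and `Rep.coindMap`).
* `unitCd A : A ⟶ Cd W (Rep.res W.subtype A)`, `a ↦ (g ↦ g • a)`, and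
  `shHn ∘ coeffHn (unitCd A) = resSubHn` ("Shapiro ∘ unit = restriction").
-/

set_option autoImplicit false

universe u

open groupCohomology CategoryTheory

namespace Fermat.Agent.CFT.H73

open Fermat.Agent.CFT

variable {k : Type u} [CommRing k] {Γ : Type u} [Group Γ] {W : Subgroup Γ}

/-! ### discreteness -/

section Discrete

variable (𝓛 : LevelStructure Γ)

/-- finite intersections of open subgroups are open -/
lemma isOpen_finset_inf {ι : Type*} (s : Finset ι) (f : ι → Subgroup Γ)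
    (hf : ∀ i ∈ s, 𝓛.IsOpen (f i)) : 𝓛.IsOpen (s.inf f) := by
  classical
  induction s using Finset.induction_on with
  | empty =>
    obtain ⟨N, hN⟩ := 𝓛.nonempty
    exact ⟨N, hN, by simp⟩
  | insert a s _ ih =>
    rw [Finset.inf_insert]
    exact H50.isOpen_inf 𝓛 (hf a (Finset.mem_insert_self a s))
      (ih fun i hi => hf i (Finset.mem_insert_of_mem hi))

variable {𝓛}

theorem isDiscrete_coind (hW : 𝓛.IsOpen W) {X : Rep.{u} k W}
    (hX : (𝓛.restrict W).IsDiscrete X) : 𝓛.IsDiscrete (Cd W X) := by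
  classical
  intro φ
  have : W.FiniteIndex := H50.finiteIndex_of_isOpen 𝓛 hW
  have : Finite (Quotient (QuotientGroup.rightRel W)) :=
    Finite.of_equiv _ (QuotientGroup.quotientRightRelEquivQuotientLeftRel W).symm
  have := Fintype.ofFinite (Quotient (QuotientGroup.rightRel W))
  -- a level fixing the value of `φ` at each coset representative
  have h1 : ∀ q : Quotient (QuotientGroup.rightRel W), ∃ N₀ ∈ 𝓛.levels,
      ∀ n : W, (n : Γ) ∈ N₀ → X.ρ n (φ.1 (cosetRep W q)) = φ.1 (cosetRep W q) := by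
    intro q
    obtain ⟨_, ⟨N₀, hN₀, rfl⟩, h⟩ := hX (φ.1 (cosetRep W q))
    exact ⟨N₀, hN₀, fun n hn => h n hn⟩
  choose Nq hNq hfix using h1
  have hopen : 𝓛.IsOpen (W ⊓ Finset.univ.inf Nq) :=
    H50.isOpen_inf 𝓛 hW (isOpen_finset_inf 𝓛 _ _ fun q _ => H50.isOpen_of_mem_levels 𝓛 (hNq q))
  obtain ⟨N, hN, hle, hnor⟩ := H50.exists_normal_level_le 𝓛 hopen
  refine ⟨N, hN, fun n hn => Cd_ext fun x => ?_⟩
  rw [Cd_ρ_apply]
  -- write `x = w * r` with `r` the coset representative
  set q : Quotient (QuotientGroup.rightRel W) := Quotient.mk'' x with hq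
  set r := cosetRep W q with hr
  have hx : x = (wfun W x : Γ) * r := by
    simp only [wfun, hr, hq, inv_mul_cancel_right]
  have hm : r * n * r⁻¹ ∈ N := hnor.conj_mem n hn r
  have hmW : r * n * r⁻¹ ∈ W := (hle hm).1
  have hmq : r * n * r⁻¹ ∈ Nq q :=
    (Finset.inf_le (f := Nq) (Finset.mem_univ q)) (hle hm).2
  have e : x * n = ((wfun W x * ⟨r * n * r⁻¹, hmW⟩ : W) : Γ) * r := by
    rw [Subgroup.coe_mul]
    conv_lhs => rw [hx]
    group
  rw [e, Cd_equivariant, map_mul, Module.End.mul_apply, hfix q ⟨r * n * r⁻¹, hmW⟩ hmq,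
    ← Cd_equivariant, ← hx]

end Discrete

/-! ### naturality in `X` -/

section Natural

variable (𝓛 : LevelStructure Γ) {X Y : Rep.{u} k W} (f : X ⟶ Y)

lemma ev₁_coindMap (φ : (Cd W X).V) :
    ev₁ W Y ((Rep.coindMap W.subtype f).hom φ) = f.hom (ev₁ W X φ) := rfl

theorem shH0_natural (x : LevelStructure.H0 (Cd W X)) :
    shH0 W Y (H50.coeffH0 (Rep.coindMap W.subtype f) x) = H50.coeffH0 f (shH0 W X x) := rfl

theorem shH1_natural (x : 𝓛.H1 (Cd W X)) :
    shH1 𝓛 W Y (H50.coeffH1 𝓛 (Rep.coindMap W.subtype f) x) =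
      H50.coeffH1 (𝓛.restrict W) f (shH1 𝓛 W X x) := by
  induction x using Submodule.Quotient.induction_on with
  | H Φ => rfl

theorem shH2_natural (x : 𝓛.H2 (Cd W X)) :
    shH2 𝓛 W Y (H50.coeffH2 𝓛 (Rep.coindMap W.subtype f) x) =
      H50.coeffH2 (𝓛.restrict W) f (shH2 𝓛 W X x) := by
  induction x using Submodule.Quotient.induction_on with
  | H Φ => rfl

theorem shH3_natural (x : 𝓛.H3 (Cd W X)) :
    shH3 𝓛 W Y (H50.coeffH3 𝓛 (Rep.coindMap W.subtype f) x) =
      H50.coeffH3 (𝓛.restrict W) f (shH3 𝓛 W X x) := by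
  induction x using Submodule.Quotient.induction_on with
  | H Φ => rfl

end Natural

/-! ### the unit `A ⟶ Cd W (res A)` and restriction -/

section Unit

variable (𝓛 : LevelStructure Γ) (W) (A : Rep.{u} k Γ)

/-- the unit of the adjunction: `a ↦ (g ↦ g • a)` -/
noncomputable def unitCd : A ⟶ Cd W (Rep.res W.subtype A) :=
  Rep.resCoindToHom W.subtype A (Rep.res W.subtype A) (𝟙 _)

variable {W A}

lemma unitCd_apply (a : A.V) (g : Γ) : ((unitCd W A).hom a).1 g = A.ρ g a := rfl

lemma ev₁_unitCd (a : A.V) :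
    ev₁ W (Rep.res W.subtype A) ((unitCd W A).hom a) = a := by
  rw [ev₁_apply, unitCd_apply, map_one]; rfl

lemma unitCd_injective : Function.Injective (unitCd W A).hom := by
  intro a b h
  have := congrArg (ev₁ W (Rep.res W.subtype A)) h
  rwa [ev₁_unitCd, ev₁_unitCd] at this

variable (W A)

/-- Shapiro ∘ unit = restriction -/
theorem shH0_unit (x : LevelStructure.H0 A) :
    shH0 W (Rep.res W.subtype A) (H50.coeffH0 (unitCd W A) x) = H50.resSubH0 A W x := by
  apply Subtype.ext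
  exact ev₁_unitCd (x : A.V)

theorem shH1_unit (x : 𝓛.H1 A) :
    shH1 𝓛 W (Rep.res W.subtype A) (H50.coeffH1 𝓛 (unitCd W A) x) = H50.resSubH1 𝓛 A W x := by
  induction x using Submodule.Quotient.induction_on with
  | H Φ =>
    show (𝓛.restrict W).H1π _ _ = (𝓛.restrict W).H1π _ _
    congr 1
    apply Subtype.ext
    funext w
    exact ev₁_unitCd _

theorem shH2_unit (x : 𝓛.H2 A) :
    shH2 𝓛 W (Rep.res W.subtype A) (H50.coeffH2 𝓛 (unitCd W A) x) = H50.resSubH2 𝓛 A W x := by
  induction x using Submodule.Quotient.induction_on with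
  | H Φ =>
    show (𝓛.restrict W).H2π _ _ = (𝓛.restrict W).H2π _ _
    congr 1
    apply Subtype.ext
    funext w
    exact ev₁_unitCd _

theorem shH3_unit (x : 𝓛.H3 A) :
    shH3 𝓛 W (Rep.res W.subtype A) (H50.coeffH3 𝓛 (unitCd W A) x) = H50.resSubH3 𝓛 A W x := by
  induction x using Submodule.Quotient.induction_on with
  | H Φ =>
    show (𝓛.restrict W).H3π _ _ = (𝓛.restrict W).H3π _ _
    congr 1
    apply Subtype.ext
    funext w
    exact ev₁_unitCd _

end Unit

end Fermat.Agent.CFT.H73
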