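import Fermat.Agent.CFT.H74_AxI1
import Fermat.Agent.CFT.H52_Nested
import Fermat.Agent.CFT.H62_ExistBridge
import Fermat.Agent.CFT.H62_D2

/-!
# CFT / D2c : the axiom (I1') for a `p`-class formation

`F : PClassFormation p 𝓛 C`, `E` a `p`-divisible envelope of `C` with `I`, `I[p]` acyclic on open
subgroups, `(DIV)`, `(FIN)`, and `(EXIST)` at the level `N₀`: the trace `tr = inv ∘ θ` of
`H62_D2Key` satisfies `(I1')` at `N₀`.  This is the instantiation of `H74.axI1_intrinsic` at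
`(N₀, 𝓛.restrict N₀, Rep.res N₀.subtype C, E.resSub N₀)`.
-/

set_option autoImplicit false
set_option linter.unusedSectionVars false

open CategoryTheory groupCohomology

namespace Fermat.Agent.CFT.H74

open Fermat.Agent.CFT LevelStructure

/-! ### The kernel of an additive character -/

section CharKer

variable {G : Type} [Group G] {n : ℕ} [NeZero n]

/-- an additive character as a monoid homomorphism -/
def charHom (χ : G → ZMod n) (hχ : IsAddChar χ) : G →* Multiplicative (ZMod n) where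
  toFun g := Multiplicative.ofAdd (χ g)
  map_one' := by rw [hχ.map_one]; rfl
  map_mul' u v := by rw [hχ u v]; rfl

/-- the kernel of an additive character, as a subgroup -/
def charKer (χ : G → ZMod n) (hχ : IsAddChar χ) : Subgroup G := (charHom χ hχ).ker

lemma mem_charKer {χ : G → ZMod n} (hχ : IsAddChar χ) (u : G) :
    u ∈ charKer χ hχ ↔ χ u = 0 := by
  rw [charKer, MonoidHom.mem_ker]
  exact ofAdd_eq_one

/-- the kernel of a level character is open -/
lemma isOpen_charKer {𝓛 : LevelStructure G} {χ : G → ZMod n} (hχ : IsAddChar χ)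
    (hc : 𝓛.IsConst₁ χ) : 𝓛.IsOpen (charKer χ hχ) := by
  obtain ⟨N, hN, h⟩ := hc
  refine ⟨N, hN, fun s hs => (mem_charKer hχ s).mpr ?_⟩
  have := h 1 s hs
  rwa [one_mul, hχ.map_one] at this

/-- the kernel of a non-zero character to `ZMod p` has index `p` -/
lemma index_charKer {p : ℕ} [hp : Fact p.Prime] {χ : G → ZMod p} (hχ : IsAddChar χ)
    (h0 : χ ≠ 0) : (charKer χ hχ).index = p := by
  obtain ⟨σ, hσ⟩ := exists_char_eq_one hχ h0
  have hsurj : Function.Surjective (charHom χ hχ) := by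
    intro y
    refine ⟨σ ^ (Multiplicative.toAdd y).val, ?_⟩
    show Multiplicative.ofAdd (χ (σ ^ (Multiplicative.toAdd y).val)) = y
    rw [char_pow_of_eq_one hχ hσ, ZMod.natCast_zmod_val]
    rfl
  rw [charKer, Subgroup.index_eq_card,
    Nat.card_congr (QuotientGroup.quotientKerEquivOfSurjective _ hsurj).toEquiv,
    Nat.card_congr Multiplicative.toAdd, Nat.card_zmod]

end CharKer

/-! ### The instantiation -/

section Inst

variable {p : ℕ} [hp : Fact p.Prime] {H : Type} [Group H] {𝓛 : LevelStructure H}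
  {C : Rep.{0} ℤ H} (F : PClassFormation p 𝓛 C) (E : H36.DivEnvelope 𝓛 p C)

include F

/-- `Q^K` is `p`-divisible for the kernel `K` of a level character of `N₀` (open `N₀`). -/
theorem hQdiv_of_formation
    (hVm : ∀ U : Subgroup H, 𝓛.IsOpen U →
      Subsingleton ((𝓛.restrict U).H1 (Rep.res U.subtype (H36.torsionRep p E.I))))
    (N₀ : Subgroup H) (hU : 𝓛.IsOpen N₀) (χ : levelChars (𝓛.restrict N₀) p)
    (q : (E.resSub N₀).Q) (hq : IsKerFixed χ.1 q) :
    ∃ q₁ : (E.resSub N₀).Q, IsKerFixed χ.1 q₁ ∧ p • q₁ = q := by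
  have hKopen : (𝓛.restrict N₀).IsOpen (charKer χ.1 χ.2.1) := isOpen_charKer χ.2.1 χ.2.2
  have hK'open := H52.isOpen_map_subtype N₀ (charKer χ.1 χ.2.1) 𝓛 hU hKopen
  obtain ⟨q', hq', hpq'⟩ := H62.invariants_Q_divisible_sub F E
    ((charKer χ.1 χ.2.1).map N₀.subtype) (hVm _ hK'open) q (fun g => by
      have hg := H52.mk_mem_of_mem_map_subtype N₀ (charKer χ.1 χ.2.1) g.2
      exact hq ⟨g.1, _⟩ ((mem_charKer χ.2.1 _).mp hg))
  refine ⟨q', fun κ hκ => ?_, hpq'⟩
  have hκK : κ ∈ charKer χ.1 χ.2.1 := (mem_charKer χ.2.1 κ).mpr hκ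
  exact hq' ⟨κ.1, Subgroup.mem_map.2 ⟨κ, hκK, rfl⟩⟩

/-- **(I1')** for a `p`-class formation: the trace `tr = inv ∘ θ` satisfies `(I1')` at every
level `N₀` at which `(EXIST)` holds. -/
theorem axI1 (hDIV : HasDIV 𝓛 p)
    (hEac : ∀ U : Subgroup H, 𝓛.IsOpen U →
      Subsingleton ((𝓛.restrict U).H1 (Rep.res U.subtype E.I)) ∧
      Subsingleton ((𝓛.restrict U).H2 (Rep.res U.subtype E.I)))
    (hVm : ∀ U : Subgroup H, 𝓛.IsOpen U →
      Subsingleton ((𝓛.restrict U).H1 (Rep.res U.subtype (H36.torsionRep p E.I))))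
    (hFIN : HasFIN 𝓛 C p) (N₀ : Subgroup H) (hN : N₀ ∈ 𝓛.levels)
    (hEX : HasEXIST 𝓛 C p N₀) :
    AxI1 E.wDatum (H62.trace F E hDIV) N₀ ⟨N₀, hN, le_rfl⟩ := by
  have hU : 𝓛.IsOpen N₀ := ⟨N₀, hN, le_rfl⟩
  -- kernels of characters
  have hKopen : ∀ χ : levelChars (𝓛.restrict N₀) p,
      (𝓛.restrict N₀).IsOpen (charKer χ.1 χ.2.1) := fun χ => isOpen_charKer χ.2.1 χ.2.2
  have hK : ∀ (χ : levelChars (𝓛.restrict N₀) p) (u : ↥N₀),
      u ∈ charKer χ.1 χ.2.1 ↔ χ.1 u = 0 := fun χ u => mem_charKer χ.2.1 u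
  obtain ⟨c, hc0, hpc, -⟩ := H62.exists_invEquiv_sub F hDIV N₀ hU
  exact axI1_intrinsic (E.resSub N₀) (smulPairing N₀ E.wDatum.W)
    (H62.trace F E hDIV ∘ₗ H50.cor1 𝓛 N₀ hU E.wDatum.W)
    (fun _ _ => rfl)
    (fun y => H62.trace_comp_cor1_eq_zero_iff F E hDIV N₀ hU y)
    (fun x hx => H52.H1_pTorsionFree_restrict F N₀ x hx)
    (h1Divisible_of_forall (H52.H1_pDivisible_restrict F N₀))
    (hEac N₀ hU).1 (hEac N₀ hU).2
    (fun i hi => H62.invariants_I_divisible_sub E N₀ (hVm N₀ hU) i hi)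
    (fun χ _ => kerH1Vanishes_of_subsingleton (charKer χ.1 χ.2.1) (hK χ)
      (h := H52.subsingleton_H1_nested 𝓛 E.I N₀ (charKer χ.1 χ.2.1) hU (hKopen χ)
        (fun W hW => (hEac W hW).1)))
    (fun χ _ => kerH1TorsionFree_of_forall (charKer χ.1 χ.2.1) (hK χ)
      (H52.H1_pTorsionFree_nested F N₀ (charKer χ.1 χ.2.1)))
    (fun χ _ q hq => hQdiv_of_formation F E hVm N₀ hU χ q hq)
    (fun χ h0 => ⟨c, hpc, hc0, resKerVanishes_of_resSubH2 χ.2.2 (charKer χ.1 χ.2.1) (hK χ) c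
      (H52.resSubH2_eq_zero_of_dvd_index F N₀ (charKer χ.1 χ.2.1) hU (hKopen χ)
        (by rw [index_charKer χ.2.1 h0]) c hpc)⟩)
    (fun a h => H62.hEx_of_hasEXIST N₀ hEX a h)
    (by
      obtain ⟨T, hT⟩ := hFIN N₀ hU
      refine ⟨T, fun a ha => ?_⟩
      obtain ⟨t, ht, b, hb, hab⟩ := hT a (fun u hu => ha ⟨u, hu⟩)
      exact ⟨t, ht, b, fun g => hb g.1 g.2, hab⟩)

end Inst

/-- **D2** (the statement `D2Statement p` of `H91_DStatements`): `H62.D2_of_axI1` fed with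
`H74.axI1`. -/
theorem d2Statement (p : ℕ) [Fact p.Prime] : D2Statement p :=
  fun _ _ _ _ F E hEac hVm hDIV hFIN good hEX =>
    H62.D2_of_axI1 F E hDIV hEac hVm good
      (fun N₀ hN hnor hg => axI1 F E hDIV hEac hVm hFIN N₀ hN (hEX N₀ hN hnor hg))

end Fermat.Agent.CFT.H74
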