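import Fermat.Agent.CFT.H74_Carry
import Fermat.Agent.CFT.H50_LevelCor

/-!
# Projection formula for the carry class:  `cor (a ∪ δχ') = a ∪ δ(cor χ')`

For an open subgroup `U ≤ H`, an additive character `χ' : U → ZMod n` and an `H`-invariant
`a ∈ C^H`, the corestriction (transfer, `H50_LevelCor`) of the carry cocycle `ε_χ' • a` of `U` is
cohomologous to the carry cocycle of the transferred character `cor χ' : H → ZMod n`,
`(cor χ')(g) = ∑_q χ'(t_q(g))`, with an explicit correcting coboundary.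
-/

set_option autoImplicit false
set_option linter.unusedSectionVars false

universe u

open CategoryTheory groupCohomology

namespace Fermat.Agent.CFT.H74

open Fermat.Agent.CFT LevelStructure

variable {k : Type u} [CommRing k] {H : Type u} [Group H] {𝓛 : LevelStructure H}
variable {U : Subgroup H} [Fintype (H ⧸ U)] (σ : H50.Sec U) {n : ℕ} [NeZero n]

/-- the transfer of a character `χ' : U → ZMod n` to `H` -/
def corChar (χ' : U → ZMod n) : H → ZMod n := fun g => ∑ q, χ' (σ.t q g)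

/-- the sum of the canonical lifts -/
def corValSum (χ' : U → ZMod n) (g : H) : ℕ := ∑ q, (χ' (σ.t q g)).val

/-- the correction term `(∑_q χ'~(t_q g) - (cor χ')~(g)) / n` -/
def corCorr (χ' : U → ZMod n) (g : H) : ℤ := ((corValSum σ χ' g / n : ℕ) : ℤ)

lemma corChar_eq_natCast (χ' : U → ZMod n) (g : H) :
    corChar σ χ' g = ((corValSum σ χ' g : ℕ) : ZMod n) := by
  unfold corChar corValSum
  rw [Nat.cast_sum]
  exact Finset.sum_congr rfl fun q _ => (ZMod.natCast_zmod_val _).symm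

lemma corChar_val (χ' : U → ZMod n) (g : H) :
    (corChar σ χ' g).val = corValSum σ χ' g % n := by
  rw [corChar_eq_natCast, ZMod.val_natCast]

lemma corValSum_eq (χ' : U → ZMod n) (g : H) :
    (corValSum σ χ' g : ℤ) = ((corChar σ χ' g).val : ℤ) + n * corCorr σ χ' g := by
  unfold corCorr
  rw [corChar_val]
  exact_mod_cast (Nat.mod_add_div _ _).symm

lemma isAddChar_corChar {χ' : U → ZMod n} (hχ' : IsAddChar χ') : IsAddChar (corChar σ χ') := by
  intro g g'
  unfold corChar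
  rw [← H50.sum_inv_smul g (fun q => χ' (σ.t q g')), ← Finset.sum_add_distrib]
  exact Finset.sum_congr rfl fun q _ => by rw [σ.t_mul, hχ']

/-- a level-constant function on `U` composed with the `t_q` is uniformly level-constant -/
lemma exists_level_const_t (hU : 𝓛.IsOpen U) {X : Type*} {f : U → X}
    (hf : (𝓛.restrict U).IsConst₁ f) :
    ∃ M ∈ 𝓛.levels, ∀ g s, s ∈ M → ∀ q, f (σ.t q (g * s)) = f (σ.t q g) := by
  obtain ⟨_, ⟨N, hN, rfl⟩, h⟩ := hf
  obtain ⟨M, hM, hMU, hMN, hMn⟩ :=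
    H50.exists_normal_level_le_inf 𝓛 hU (H50.isOpen_of_mem_levels 𝓛 hN)
  refine ⟨M, hM, fun g s hs q => ?_⟩
  obtain ⟨m, hm, e⟩ := σ.t_mul_of_normal hMU q g s hs
  rw [e, h _ m (hMN hm)]

lemma isConst₁_corChar (hU : 𝓛.IsOpen U) {χ' : U → ZMod n}
    (hc : (𝓛.restrict U).IsConst₁ χ') : 𝓛.IsConst₁ (corChar σ χ') := by
  obtain ⟨M, hM, h⟩ := exists_level_const_t σ hU hc
  exact ⟨M, hM, fun g s hs => Finset.sum_congr rfl fun q _ => h g s hs q⟩

lemma isConst₁_corCorr (hU : 𝓛.IsOpen U) {χ' : U → ZMod n}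
    (hc : (𝓛.restrict U).IsConst₁ χ') : 𝓛.IsConst₁ (corCorr σ χ') := by
  obtain ⟨M, hM, h⟩ := exists_level_const_t σ hU hc
  refine ⟨M, hM, fun g s hs => ?_⟩
  unfold corCorr corValSum
  have : ∑ q, (χ' (σ.t q (g * s))).val = ∑ q, (χ' (σ.t q g)).val :=
    Finset.sum_congr rfl fun q _ => by rw [h g s hs q]
  rw [this]

/-- the arithmetic heart of the projection formula -/
lemma sum_zcarry_t {χ' : U → ZMod n} (hχ' : IsAddChar χ') (g₁ g₂ : H) :
    ∑ q, zcarry (χ' (σ.t q g₁)) (χ' (σ.t (g₁⁻¹ • q) g₂)) =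
      zcarry (corChar σ χ' g₁) (corChar σ χ' g₂) +
        (corCorr σ χ' g₂ - corCorr σ χ' (g₁ * g₂) + corCorr σ χ' g₁) := by
  apply mul_left_cancel₀ (natCast_ne_zero_int (n := n))
  rw [Finset.mul_sum, mul_add, mul_zcarry, ← isAddChar_corChar σ hχ' g₁ g₂]
  have h1 : ∀ q, (n : ℤ) * zcarry (χ' (σ.t q g₁)) (χ' (σ.t (g₁⁻¹ • q) g₂)) =
      ((χ' (σ.t q g₁)).val : ℤ) + ((χ' (σ.t (g₁⁻¹ • q) g₂)).val : ℤ) -
        ((χ' (σ.t q (g₁ * g₂))).val : ℤ) := fun q => by
    rw [mul_zcarry, σ.t_mul, hχ']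
  rw [Finset.sum_congr rfl fun q _ => h1 q, Finset.sum_sub_distrib, Finset.sum_add_distrib]
  have h2 : ∑ q, ((χ' (σ.t (g₁⁻¹ • q) g₂)).val : ℤ) = ∑ q, ((χ' (σ.t q g₂)).val : ℤ) :=
    H50.sum_inv_smul g₁ (fun q => ((χ' (σ.t q g₂)).val : ℤ))
  rw [h2]
  have e1 := corValSum_eq σ χ' g₁
  have e2 := corValSum_eq σ χ' g₂
  have e3 := corValSum_eq σ χ' (g₁ * g₂)
  unfold corValSum at e1 e2 e3
  push_cast at e1 e2 e3
  rw [e1, e2, e3]
  ring

variable (C : Rep.{u} k H)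

/-- **Projection formula on cochains.** -/
theorem corC₂_carryCochain {χ' : U → ZMod n} (hχ' : IsAddChar χ') {a : C}
    (ha : a ∈ LevelStructure.H0 C) :
    H50.corC₂ σ C (carryCochain (Rep.res U.subtype C) χ' a) =
      carryCochain C (corChar σ χ') a + (d₁₂ C).hom (fun g => corCorr σ χ' g • a) := by
  ext ⟨g₁, g₂⟩
  rw [H50.corC₂_apply]
  simp only [Pi.add_apply, d₁₂_hom_apply, carryCochain_apply, map_zsmul, ha g₁]
  have h : ∀ q : H ⧸ U, zcarry (χ' (σ.t q g₁)) (χ' (σ.t (g₁⁻¹ • q) g₂)) • C.ρ (σ.rep q) a =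
      zcarry (χ' (σ.t q g₁)) (χ' (σ.t (g₁⁻¹ • q) g₂)) • a := fun q => by rw [ha]
  rw [Finset.sum_congr rfl fun q _ => h q, ← Finset.sum_smul, sum_zcarry_t σ hχ']
  module


/-- the transferred character, as a level character -/
def corLevelChar (hU : 𝓛.IsOpen U) (χ' : levelChars (𝓛.restrict U) n) : levelChars 𝓛 n :=
  ⟨corChar σ χ'.1, isAddChar_corChar σ χ'.2.1, isConst₁_corChar σ hU χ'.2.2⟩

@[simp] lemma corLevelChar_coe (hU : 𝓛.IsOpen U) (χ' : levelChars (𝓛.restrict U) n) :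
    (corLevelChar σ hU χ').1 = corChar σ χ'.1 := rfl

lemma resSubH0_coe (a : ↥(LevelStructure.H0 C)) : (H50.resSubH0 C U a).1 = a.1 := rfl

/-- **Projection formula on classes**: `cor (res a ∪ δχ') = a ∪ δ(cor χ')`. -/
theorem corH2_carryH2 (hU : 𝓛.IsOpen U) (χ' : levelChars (𝓛.restrict U) n)
    (a : ↥(LevelStructure.H0 C)) :
    H50.corH2 𝓛 C hU σ
        (carryH2 (𝓛.restrict U) (Rep.res U.subtype C) n χ' (H50.resSubH0 C U a)) =
      carryH2 𝓛 C n (corLevelChar σ hU χ') a := by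
  rw [carryH2_apply, carryH2_apply, H50.corH2_mk]
  refine (Submodule.Quotient.eq _).mpr ?_
  refine ⟨fun g => corCorr σ χ'.1 g • a.1, ?_, ?_⟩
  · exact (isConst₁_corCorr σ hU χ'.2.2).comp (fun z : ℤ => z • a.1)
  · have := corC₂_carryCochain σ C χ'.2.1 a.2
    simp only [Submodule.subtype_apply, AddSubgroupClass.coe_sub, H50.corZ2_coe,
      corLevelChar_coe]
    change _ = (H50.corC₂ σ C) (carryCochain (Rep.res U.subtype C) χ'.1 a.1) - _
    rw [this]
    abel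


/-! ### Comparison with `H50.corC₁` on the trivial module `ZMod n` -/

section Trivial

variable {H₀ : Type} [Group H₀] {U₀ : Subgroup H₀} [Fintype (H₀ ⧸ U₀)] (σ₀ : H50.Sec U₀)
  {m : ℕ} [NeZero m]

/-- `cor χ'` is helper50's transfer of the `1`-cochain `χ'` of the trivial module `ZMod m`. -/
lemma corChar_eq_corC₁ (χ' : U₀ → ZMod m) :
    corChar σ₀ χ' = H50.corC₁ σ₀ (Rep.trivial (ZMod m) H₀ (ZMod m)) χ' := by
  ext g
  rw [H50.corC₁_apply]
  rfl

end Trivial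

end Fermat.Agent.CFT.H74
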