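import Fermat.Agent.CFT.H74_Carry

/-!
# Nondegeneracy of the carry pairing  (CFT layer D, package D2c)

* `IsKerNorm χ a`: `a` is a norm from `C^(ker χ)` (for a surjective character `χ : H → ZMod n`).
* for `p` prime every nonzero character hits `1`; the carry class of `a` at `χ ≠ 0` vanishes iff
  `a` is a norm from `C^(ker χ)`.
* left/right kernels of the pairing `(a, χ) ↦ [ε_χ • a]`.
* linear algebra: a right-nondegenerate pairing `P : V → X^∨` with `V / ker P` finite dimensional is
  surjective; a right-nondegenerate pairing with `dim V ≤ dim X` is left-nondegenerate.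
-/

set_option autoImplicit false
set_option linter.unusedSectionVars false
set_option linter.style.haveILetI false

universe u

open CategoryTheory groupCohomology

namespace Fermat.Agent.CFT.H74

open Fermat.Agent.CFT LevelStructure

/-! ### Norms from the kernel of a character -/

section KerNorm

variable {k : Type u} [CommRing k] {H : Type u} [Group H] {𝓛 : LevelStructure H} {C : Rep k H}
variable {n : ℕ} [NeZero n]

/-- `a` is a norm from `C^(ker χ)`: `a = ∑_{j<n} σ^j b` with `χ σ = 1`, `b` fixed by `ker χ`. -/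
def IsKerNorm (χ : H → ZMod n) (a : C) : Prop :=
  ∃ σ : H, χ σ = 1 ∧ ∃ b : C, IsKerFixed χ b ∧ a = pnormσ σ b n

/-- the norm does not depend on the choice of `σ` -/
lemma pnormσ_congr {χ : H → ZMod n} (hχ : IsAddChar χ) {σ σ' : H} (hσ : χ σ = 1)
    (hσ' : χ σ' = 1) {b : C} (hb : IsKerFixed χ b) (m : ℕ) : pnormσ σ b m = pnormσ σ' b m := by
  unfold pnormσ
  refine Finset.sum_congr rfl fun j _ => hb.ρ_eq hχ ?_
  rw [char_pow_of_eq_one hχ hσ, char_pow_of_eq_one hχ hσ']

lemma isKerNorm_iff {χ : H → ZMod n} (hχ : IsAddChar χ) {σ : H} (hσ : χ σ = 1) (a : C) :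
    IsKerNorm χ a ↔ ∃ b : C, IsKerFixed χ b ∧ a = pnormσ σ b n := by
  constructor
  · rintro ⟨σ', hσ', b, hb, rfl⟩
    exact ⟨b, hb, pnormσ_congr hχ hσ' hσ hb n⟩
  · rintro ⟨b, hb, rfl⟩
    exact ⟨σ, hσ, b, hb, rfl⟩

/-- norms are invariant -/
lemma IsKerNorm.mem_H0 {χ : H → ZMod n} (hχ : IsAddChar χ) {a : C} (h : IsKerNorm χ a) :
    a ∈ LevelStructure.H0 C := by
  obtain ⟨σ, hσ, b, hb, rfl⟩ := h
  exact pnormσ_period_mem_H0 hχ hσ hb

/-- `n`-th multiples of invariants are norms -/
lemma isKerNorm_nsmul {χ : H → ZMod n} {σ : H} (hσ : χ σ = 1) {a : C}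
    (ha : a ∈ LevelStructure.H0 C) : IsKerNorm χ (n • a) := by
  refine ⟨σ, hσ, a, IsKerFixed.of_invariant χ ha, ?_⟩
  unfold pnormσ
  rw [Finset.sum_congr rfl fun j _ => ha (σ ^ j), Finset.sum_const, Finset.card_range]

end KerNorm

/-! ### Characters of prime order -/

section Prime

variable {H : Type u} [Group H] {p : ℕ} [hp : Fact p.Prime]

/-- a nonzero character with values in `ZMod p`, `p` prime, takes the value `1` -/
lemma exists_char_eq_one {χ : H → ZMod p} (hχ : IsAddChar χ) (h0 : χ ≠ 0) : ∃ σ : H, χ σ = 1 := by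
  obtain ⟨u, hu⟩ : ∃ u, χ u ≠ 0 := by
    by_contra h
    push Not at h
    exact h0 (funext h)
  refine ⟨u ^ ((χ u)⁻¹).val, ?_⟩
  rw [hχ.map_pow, nsmul_eq_mul, ZMod.natCast_zmod_val, inv_mul_cancel₀ hu]

end Prime

/-! ### Kernels of the carry pairing -/

section Kernels

variable {k : Type u} [CommRing k] {H : Type u} [Group H] {𝓛 : LevelStructure H} {C : Rep k H}
variable {p : ℕ} [hp : Fact p.Prime]

/-- for `χ ≠ 0` (values in `ZMod p`) and `H¹(ker χ; C) = 0`: `a ∪ δχ = 0` iff `a` is a norm
from `C^(ker χ)`. -/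
theorem carryH2_eq_zero_iff_isKerNorm (χ : levelChars 𝓛 p) (h0 : χ.1 ≠ 0)
    (hH1 : KerH1Vanishes 𝓛 C χ.1) (a : ↥(LevelStructure.H0 C)) :
    carryH2 𝓛 C p χ a = 0 ↔ IsKerNorm χ.1 a.1 := by
  obtain ⟨σ, hσ⟩ := exists_char_eq_one χ.2.1 h0
  rw [carryH2_eq_zero_iff χ hp.out.one_lt hσ hH1, isKerNorm_iff χ.2.1 hσ]

/-- the zero character pairs to zero -/
lemma carryH2_zero_char (a : ↥(LevelStructure.H0 C)) :
    carryH2 𝓛 C p (0 : levelChars 𝓛 p) a = 0 := by
  have := carryH2_add_char (C := C) (0 : levelChars 𝓛 p) 0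
  rw [add_zero] at this
  have h := LinearMap.congr_fun this a
  rw [LinearMap.add_apply] at h
  exact left_eq_add.mp h

/-- **Right kernel**: if some invariant is not a norm from `C^(ker χ)` (e.g. the norm index is
`p`), then `χ ≠ 0` is not in the right kernel. -/
theorem exists_carryH2_ne_zero (χ : levelChars 𝓛 p) (h0 : χ.1 ≠ 0)
    (hH1 : KerH1Vanishes 𝓛 C χ.1)
    (hidx : ∃ a : ↥(LevelStructure.H0 C), ¬ IsKerNorm χ.1 a.1) :
    ∃ a : ↥(LevelStructure.H0 C), carryH2 𝓛 C p χ a ≠ 0 := by
  obtain ⟨a, ha⟩ := hidx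
  exact ⟨a, fun h => ha ((carryH2_eq_zero_iff_isKerNorm χ h0 hH1 a).mp h)⟩

/-- **Left kernel**: `a` pairs to zero with every character iff it is a norm from `C^(ker χ)` for
every nonzero level character `χ`. -/
theorem forall_carryH2_eq_zero_iff
    (hH1 : ∀ χ : levelChars 𝓛 p, χ.1 ≠ 0 → KerH1Vanishes 𝓛 C χ.1)
    (a : ↥(LevelStructure.H0 C)) :
    (∀ χ : levelChars 𝓛 p, carryH2 𝓛 C p χ a = 0) ↔
      ∀ χ : levelChars 𝓛 p, χ.1 ≠ 0 → IsKerNorm χ.1 a.1 := by
  constructor
  · intro h χ h0
    exact (carryH2_eq_zero_iff_isKerNorm χ h0 (hH1 χ h0) a).mp (h χ)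
  · intro h χ
    by_cases h0 : χ.1 = 0
    · have : χ = 0 := Subtype.ext h0
      rw [this]
      exact carryH2_zero_char a
    · exact (carryH2_eq_zero_iff_isKerNorm χ h0 (hH1 χ h0) a).mpr (h χ h0)

/-- **Left kernel with EXIST**: if universal norms of the index-`p` layers are `p`-th multiples
(the existence theorem in its `p`-primary form), the left kernel of the carry pairing is
`p • C^H`. -/
theorem forall_carryH2_eq_zero_iff_of_exist
    (hH1 : ∀ χ : levelChars 𝓛 p, χ.1 ≠ 0 → KerH1Vanishes 𝓛 C χ.1)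
    (hEx : ∀ a : ↥(LevelStructure.H0 C),
      (∀ χ : levelChars 𝓛 p, χ.1 ≠ 0 → IsKerNorm χ.1 a.1) →
        ∃ a' : ↥(LevelStructure.H0 C), a = (p : ℤ) • a')
    (a : ↥(LevelStructure.H0 C)) :
    (∀ χ : levelChars 𝓛 p, carryH2 𝓛 C p χ a = 0) ↔
      ∃ a' : ↥(LevelStructure.H0 C), a = (p : ℤ) • a' := by
  constructor
  · intro h
    exact hEx a ((forall_carryH2_eq_zero_iff hH1 a).mp h)
  · rintro ⟨a', rfl⟩ χ
    exact carryH2_nsmul χ a'

end Kernels

/-! ### Linear algebra of nondegenerate pairings -/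

section LinAlg

variable {K : Type*} [Field K] {V X : Type*} [AddCommGroup V] [Module K V] [AddCommGroup X]
  [Module K X]

/-- An injective right-nondegenerate pairing `P : V → X^∨` with `V` finite dimensional is
bijective (and `X` is finite dimensional). -/
theorem surjective_of_injective_of_right_nondegenerate (P : V →ₗ[K] Module.Dual K X)
    [FiniteDimensional K V] (hinj : Function.Injective P)
    (hright : ∀ x : X, (∀ v, P v x = 0) → x = 0) :
    FiniteDimensional K X ∧ Function.Surjective P := by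
  have hflip : Function.Injective (P.flip : X →ₗ[K] Module.Dual K V) := by
    rw [← LinearMap.ker_eq_bot, LinearMap.ker_eq_bot']
    intro x hx
    exact hright x fun v => by
      have := LinearMap.congr_fun hx v
      simpa using this
  haveI : FiniteDimensional K X := FiniteDimensional.of_injective _ hflip
  refine ⟨inferInstance, ?_⟩
  have h1 : Module.finrank K X ≤ Module.finrank K V := by
    have := LinearMap.finrank_le_finrank_of_injective hflip
    rwa [Subspace.dual_finrank_eq] at this
  have h2 : Module.finrank K V ≤ Module.finrank K (Module.Dual K X) :=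
    LinearMap.finrank_le_finrank_of_injective hinj
  have h3 : Module.finrank K V = Module.finrank K (Module.Dual K X) := by
    rw [Subspace.dual_finrank_eq] at h2 ⊢; omega
  exact (LinearMap.injective_iff_surjective_of_finrank_eq_finrank h3).mp hinj

/-- A right-nondegenerate pairing `P : V → X^∨` with `V / ker P` finite dimensional is
surjective (and `X` is finite dimensional). -/
theorem surjective_of_right_nondegenerate (P : V →ₗ[K] Module.Dual K X)
    [hfin : FiniteDimensional K (V ⧸ LinearMap.ker P)]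
    (hright : ∀ x : X, (∀ v, P v x = 0) → x = 0) :
    FiniteDimensional K X ∧ Function.Surjective P := by
  have hP' : Function.Injective ((LinearMap.ker P).liftQ P le_rfl) := by
    rw [← LinearMap.ker_eq_bot]
    exact Submodule.ker_liftQ_eq_bot _ _ _ le_rfl
  obtain ⟨hX, hs⟩ := surjective_of_injective_of_right_nondegenerate
    ((LinearMap.ker P).liftQ P le_rfl) hP' (fun x hx => hright x fun v => by
      have := hx (Submodule.Quotient.mk v)
      simpa using this)
  refine ⟨hX, fun f => ?_⟩
  obtain ⟨v', hv'⟩ := hs f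
  obtain ⟨v, rfl⟩ := Submodule.Quotient.mk_surjective _ v'
  exact ⟨v, by simpa using hv'⟩

/-- A right-nondegenerate pairing with `V` finite dimensional and `dim V ≤ dim X` is
left-nondegenerate. -/
theorem injective_of_right_nondegenerate_of_finrank_le (P : V →ₗ[K] Module.Dual K X)
    [FiniteDimensional K V] (hright : ∀ x : X, (∀ v, P v x = 0) → x = 0)
    (hX : FiniteDimensional K X → Module.finrank K V ≤ Module.finrank K X) :
    Function.Injective P := by
  haveI : FiniteDimensional K (V ⧸ LinearMap.ker P) := inferInstance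
  obtain ⟨hXfin, hsurj⟩ := surjective_of_right_nondegenerate P hright
  have h1 : Module.finrank K (Module.Dual K X) = Module.finrank K X := Subspace.dual_finrank_eq
  have h2 := hX hXfin
  have h3 : Module.finrank K (Module.Dual K X) ≤ Module.finrank K V :=
    LinearMap.finrank_le_finrank_of_surjective hsurj
  have h4 : Module.finrank K V = Module.finrank K (Module.Dual K X) := by omega
  haveI : FiniteDimensional K (Module.Dual K X) := inferInstance
  exact (LinearMap.injective_iff_surjective_of_finrank_eq_finrank h4).mpr hsurj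

end LinAlg

end Fermat.Agent.CFT.H74
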