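import Fermat.Agent.CFT.H74_CupLevel

/-!
# Cup products on level cohomology

For a level structure `𝓛` on `H`, representations `A B C : Rep k H` with `B` discrete and an
equivariant pairing `φ : A × B → C`, we construct the cup products
`Hⁱ(A) × Hʲ(B) → Hⁱ⁺ʲ(C)` on the level cohomology groups of `H55_LevelDefs` for
`(i, j) ∈ {(0,0),(0,1),(0,2),(0,3),(1,0),(2,0),(3,0),(1,1),(1,2),(2,1)}`.
-/

set_option autoImplicit false
set_option linter.unusedSimpArgs false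

universe u

open CategoryTheory groupCohomology

namespace Fermat.Agent.CFT.H74

open Fermat.Agent.CFT LevelStructure

variable {k : Type u} [CommRing k] {H : Type u} [Group H] {𝓛 : LevelStructure H}
variable {A B C : Rep.{u} k H} (φ : EqPairing A B C)

/-! ### Leibniz rules into `4`-cochains -/

theorem d₃₄_cup₁₂ (f : H → A) (f' : H × H → B) (x : H × H × H × H) :
    d₃₄ C (φ.cup₁₂ f f') x =
      φ.pr ((d₁₂ A).hom f (x.1, x.2.1)) (B.ρ (x.1 * x.2.1) (f' (x.2.2.1, x.2.2.2))) -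
      φ.pr (f x.1) (B.ρ x.1 ((d₂₃ B).hom f' (x.2.1, x.2.2.1, x.2.2.2))) := by
  obtain ⟨x1, x2, x3, x4⟩ := x
  simp only [d₃₄, LinearMap.coe_mk, AddHom.coe_mk, d₂₃_hom_apply, d₁₂_hom_apply,
    EqPairing.cup₁₂_apply, EqPairing.ρ_pr, EqPairing.pr, map_sub, map_add, LinearMap.sub_apply,
    LinearMap.add_apply, map_mul, Module.End.mul_apply]
  abel

theorem d₃₄_cup₂₁ (f : H × H → A) (f' : H → B) (x : H × H × H × H) :
    d₃₄ C (φ.cup₂₁ f f') x =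
      φ.pr ((d₂₃ A).hom f (x.1, x.2.1, x.2.2.1)) (B.ρ (x.1 * x.2.1 * x.2.2.1) (f' x.2.2.2)) +
      φ.pr (f (x.1, x.2.1)) (B.ρ (x.1 * x.2.1) ((d₁₂ B).hom f' (x.2.2.1, x.2.2.2))) := by
  obtain ⟨x1, x2, x3, x4⟩ := x
  simp only [d₃₄, LinearMap.coe_mk, AddHom.coe_mk, d₂₃_hom_apply, d₁₂_hom_apply,
    EqPairing.cup₂₁_apply, EqPairing.ρ_pr, EqPairing.pr, map_sub, map_add, LinearMap.sub_apply,
    LinearMap.add_apply, map_mul, Module.End.mul_apply, mul_assoc]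
  abel

theorem d₃₄_cup₀₃ (a : A) (f : H × H × H → B) (x : H × H × H × H) :
    d₃₄ C (φ.cup₀₃ a f) x =
      φ.pr ((d₀₁ A).hom a x.1) (B.ρ x.1 (f (x.2.1, x.2.2.1, x.2.2.2))) +
      φ.pr a (d₃₄ B f x) := by
  obtain ⟨x1, x2, x3, x4⟩ := x
  simp only [d₃₄, LinearMap.coe_mk, AddHom.coe_mk, d₀₁_hom_apply,
    EqPairing.cup₀₃_apply, EqPairing.ρ_pr, EqPairing.pr, map_sub, map_add, LinearMap.sub_apply,
    LinearMap.add_apply]
  abel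

theorem d₃₄_cup₃₀ (f : H × H × H → A) (b : B) (x : H × H × H × H) :
    d₃₄ C (φ.cup₃₀ f b) x =
      φ.pr (d₃₄ A f x) (B.ρ (x.1 * x.2.1 * x.2.2.1 * x.2.2.2) b) -
      φ.pr (f (x.1, x.2.1, x.2.2.1)) (B.ρ (x.1 * x.2.1 * x.2.2.1) ((d₀₁ B).hom b x.2.2.2)) := by
  obtain ⟨x1, x2, x3, x4⟩ := x
  simp only [d₃₄, LinearMap.coe_mk, AddHom.coe_mk, d₀₁_hom_apply,
    EqPairing.cup₃₀_apply, EqPairing.ρ_pr, EqPairing.pr, map_sub, map_add, LinearMap.sub_apply,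
    LinearMap.add_apply, map_mul, Module.End.mul_apply, mul_assoc]
  abel

/-! ### Small facts on level cocycles -/

lemma d₁₂_eq_zero_of_mem {f : H → A} (hf : f ∈ 𝓛.cocycles₁ A) : (d₁₂ A).hom f = 0 :=
  LinearMap.mem_ker.mp hf.1

lemma d₂₃_eq_zero_of_mem {f : H × H → A} (hf : f ∈ 𝓛.cocycles₂ A) : (d₂₃ A).hom f = 0 :=
  LinearMap.mem_ker.mp hf.1

lemma d₃₄_eq_zero_of_mem {f : H × H × H → A} (hf : f ∈ 𝓛.cocycles₃ A) : d₃₄ A f = 0 :=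
  LinearMap.mem_ker.mp hf.1

lemma d₀₁_eq_zero_of_mem {a : A} (ha : a ∈ LevelStructure.H0 A) : (d₀₁ A).hom a = 0 := by
  ext g
  rw [d₀₁_hom_apply, ha g, sub_self]
  rfl

/-- if `db` is level-constant then `b` is fixed by a level -/
lemma exists_level_fixing_of_isConst₁_d₀₁ {b : B} (h : 𝓛.IsConst₁ ((d₀₁ B).hom b)) :
    ∃ N ∈ 𝓛.levels, ∀ n ∈ N, B.ρ n b = b := by
  obtain ⟨N, hN, hc⟩ := h
  refine ⟨N, hN, fun n hn => ?_⟩
  have := hc 1 n hn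
  simp only [d₀₁_hom_apply, one_mul, map_one, Module.End.one_apply, sub_self] at this
  exact sub_eq_zero.mp this

lemma exists_level_fixing_of_mem_H0 {b : B} (hb : b ∈ LevelStructure.H0 B) :
    ∃ N ∈ 𝓛.levels, ∀ n ∈ N, B.ρ n b = b := by
  obtain ⟨N, hN⟩ := 𝓛.nonempty
  exact ⟨N, hN, fun n _ => hb n⟩

/-! ### Bidegree `(1,1)` -/

section OneOne

variable (hB : 𝓛.IsDiscrete B)
include hB

lemma cup₁₁_mem_cocycles₂ {f : H → A} (hf : f ∈ 𝓛.cocycles₁ A) {f' : H → B}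
    (hf' : f' ∈ 𝓛.cocycles₁ B) : φ.cup₁₁ f f' ∈ 𝓛.cocycles₂ C := by
  refine ⟨LinearMap.mem_ker.mpr ?_, isConst₂_cup₁₁ φ hB hf.2 hf'.2⟩
  rw [EqPairing.d₂₃_cup₁₁, d₁₂_eq_zero_of_mem hf, d₁₂_eq_zero_of_mem hf', map_zero, map_zero,
    LinearMap.zero_apply, sub_zero]

omit hB in
lemma cup₁₁_mem_coboundaries₂_left {f : H → A} (hf : f ∈ 𝓛.coboundaries₁ A) {f' : H → B}
    (hf' : f' ∈ 𝓛.cocycles₁ B) : φ.cup₁₁ f f' ∈ 𝓛.coboundaries₂ C := by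
  obtain ⟨a, rfl⟩ := LinearMap.mem_range.mp hf
  refine ⟨φ.cup₀₁ a f', isConst₁_cup₀₁ φ a hf'.2, ?_⟩
  rw [EqPairing.d₁₂_cup₀₁, d₁₂_eq_zero_of_mem hf', map_zero, add_zero]

omit hB in
lemma cup₁₁_mem_coboundaries₂_right {f : H → A} (hf : f ∈ 𝓛.cocycles₁ A) {f' : H → B}
    (hf' : f' ∈ 𝓛.coboundaries₁ B) (hf'c : f' ∈ 𝓛.cocycles₁ B) :
    φ.cup₁₁ f f' ∈ 𝓛.coboundaries₂ C := by
  obtain ⟨b, rfl⟩ := LinearMap.mem_range.mp hf'
  have hb := exists_level_fixing_of_isConst₁_d₀₁ hf'c.2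
  refine ⟨-φ.cup₁₀ f b, (𝓛.cochains₁ C).neg_mem (isConst₁_cup₁₀ φ hf.2 hb), ?_⟩
  rw [map_neg, EqPairing.d₁₂_cup₁₀, d₁₂_eq_zero_of_mem hf, map_zero, LinearMap.zero_apply,
    zero_sub, neg_neg]

/-- cup product on level cocycles in bidegree `(1,1)` -/
def cupZ₁₁ : ↥(𝓛.cocycles₁ A) →ₗ[k] ↥(𝓛.cocycles₁ B) →ₗ[k] ↥(𝓛.cocycles₂ C) :=
  LinearMap.mk₂ k (fun f f' => ⟨φ.cup₁₁ f f', cup₁₁_mem_cocycles₂ φ hB f.2 f'.2⟩)
    (fun f₁ f₂ f' => Subtype.ext (by simp))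
    (fun c f f' => Subtype.ext (by simp))
    (fun f f₁ f₂ => Subtype.ext (by simp))
    (fun c f f' => Subtype.ext (by simp))

/-- **cup product** `H¹(A) × H¹(B) → H²(C)` on level cohomology -/
def cupH₁₁ : 𝓛.H1 A →ₗ[k] 𝓛.H1 B →ₗ[k] 𝓛.H2 C :=
  LinearMap.liftQ₂ _ _ ((cupZ₁₁ φ hB).compr₂ (𝓛.H2π C))
    (fun f hf => by
      refine LinearMap.mem_ker.mpr (LinearMap.ext fun f' => ?_)
      simp only [LinearMap.compr₂_apply, LinearMap.zero_apply]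
      exact (Submodule.Quotient.mk_eq_zero _).mpr
        (cup₁₁_mem_coboundaries₂_left φ hf f'.2))
    (fun f' hf' => by
      refine LinearMap.mem_ker.mpr (LinearMap.ext fun f => ?_)
      simp only [LinearMap.flip_apply, LinearMap.compr₂_apply, LinearMap.zero_apply]
      exact (Submodule.Quotient.mk_eq_zero _).mpr
        (cup₁₁_mem_coboundaries₂_right φ f.2 hf' f'.2))

lemma cupH₁₁_mk (f : ↥(𝓛.cocycles₁ A)) (f' : ↥(𝓛.cocycles₁ B)) :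
    cupH₁₁ φ hB (𝓛.H1π A f) (𝓛.H1π B f') =
      𝓛.H2π C ⟨φ.cup₁₁ f f', cup₁₁_mem_cocycles₂ φ hB f.2 f'.2⟩ := rfl

end OneOne

end Fermat.Agent.CFT.H74
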