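import Mathlib
import Fermat.Agent.CFT.H74_CarryForm
import Fermat.Agent.CFT.H20_NormDict
import Fermat.Agent.CFT.H10_KummerLevelChar
import Fermat.Agent.CFT.H10_ExistUnram2
import Fermat.Agent.CFT.H54_LUnr
import Fermat.Agent.CFT.H45_TopDivDescent

/-!
# CFT / C-EXIST (I5): the concrete Kummer form at a finite level

`K` a number field (as a type) with an embedding `ιK : K →ₐ[ℚ] Qbar` whose image is unramified
outside `S`, `ζ ∈ K` a primitive `p`-th root of unity, `p ∈ S`.  From a `p`-class formation on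
`(G_ℚ, globalLevels S, CSTop S)` we construct a form

  `B : CS S K → Kˣ → ZMod p`,

biadditive (in `x` on the Kummer group `X_S = {x | p ∣ ord_v x for all v ∉ S}`), killing `p`-th
powers, vanishing on the classes which are norms from `K(x^{1/p})`, and right non-degenerate.
-/

set_option autoImplicit false
set_option linter.unusedSectionVars false
set_option linter.style.haveILetI false

open CategoryTheory groupCohomology

namespace Fermat.Agent.CFT.H74

open Fermat.Agent.CFT LevelStructure NumberField IntermediateField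

local notation "Qbar" => AlgebraicClosure ℚ
local notation "GQ" => (AlgebraicClosure ℚ ≃ₐ[ℚ] AlgebraicClosure ℚ)

section XS

variable (S : Finset Nat.Primes) (K : Type) [Field K] [NumberField K] (p : ℕ)

/-- The Kummer group `X_S`: `p ∣ ord_v x` at every prime `v` outside `S`. -/
def IsXS (x : Kˣ) : Prop :=
  ∀ v : H23.PrimesOutside S K, ∃ k : ℤ, Multiplicative.toAdd (H23.ordAt K v.1 x) = p * k

variable {S K p}

theorem IsXS.mul {x x' : Kˣ} (hx : IsXS S K p x) (hx' : IsXS S K p x') :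
    IsXS S K p (x * x') := by
  intro v
  obtain ⟨k, hk⟩ := hx v
  obtain ⟨k', hk'⟩ := hx' v
  refine ⟨k + k', ?_⟩
  rw [map_mul, toAdd_mul, hk, hk', mul_add]

theorem isXS_pow (c : Kˣ) : IsXS S K p (c ^ p) := by
  intro v
  refine ⟨Multiplicative.toAdd (H23.ordAt K v.1 c), ?_⟩
  rw [map_pow, toAdd_pow, nsmul_eq_mul]

theorem isXS_one : IsXS S K p 1 := by
  intro v
  exact ⟨0, by rw [map_one, toAdd_one, mul_zero]⟩

end XS

section Field

variable {p : ℕ} [hp : Fact p.Prime]

/-- If `T` contains a primitive `p`-th root of unity and `γ ≠ 0`, every `β` with `β ^ p = γ ^ p`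
lies in `T`. -/
theorem mem_of_pow_eq_pow {T : IntermediateField ℚ Qbar} {ζ γ β : Qbar}
    (hζ : IsPrimitiveRoot ζ p) (hζT : ζ ∈ T) (hγT : γ ∈ T) (hγ0 : γ ≠ 0)
    (h : β ^ p = γ ^ p) : β ∈ T := by
  have h1 : (β / γ) ^ p = 1 := by
    rw [div_pow, h, div_self (pow_ne_zero _ hγ0)]
  obtain ⟨i, -, hi⟩ := hζ.eq_pow_of_pow_eq_one h1
  have h2 : β = ζ ^ i * γ := by
    rw [hi]
    field_simp
  rw [h2]
  exact T.mul_mem (pow_mem hζT i) hγT

end Field

section Embedding

local instance isAlgebraicQb74 : Algebra.IsAlgebraic ℚ (AlgebraicClosure ℚ) :=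
  AlgebraicClosure.isAlgebraic ℚ
local instance isAlgClosureQb74 : IsAlgClosure ℚ (AlgebraicClosure ℚ) :=
  ⟨inferInstance, inferInstance⟩
local instance isGaloisQb74 : IsGalois ℚ (AlgebraicClosure ℚ) := IsSepClosure.isGalois

variable {K M : Type} [Field K] [NumberField K] [Field M] [NumberField M] [Algebra K M]
  (ιK : K →ₐ[ℚ] Qbar)

/-- An embedding of `M` extending the embedding of `K`. -/
theorem exists_embedding_extending :
    ∃ ιM : M →ₐ[ℚ] Qbar, ∀ x : K, ιM (algebraMap K M x) = ιK x := by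
  letI : Algebra K Qbar := ιK.toRingHom.toAlgebra
  have hfin : Module.Finite K M := Module.Finite.of_restrictScalars_finite ℚ K M
  have halg : Algebra.IsAlgebraic K M := Algebra.IsAlgebraic.of_finite K M
  let j : M →ₐ[K] Qbar := IsAlgClosed.lift
  refine ⟨j.toRingHom.toRatAlgHom, fun x => ?_⟩
  exact j.commutes x

end Embedding

section Unram

local instance isAlgebraicQb74b : Algebra.IsAlgebraic ℚ (AlgebraicClosure ℚ) :=
  AlgebraicClosure.isAlgebraic ℚ
local instance isAlgClosureQb74b : IsAlgClosure ℚ (AlgebraicClosure ℚ) :=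
  ⟨inferInstance, inferInstance⟩
local instance isGaloisQb74b : IsGalois ℚ (AlgebraicClosure ℚ) := IsSepClosure.isGalois

variable {S : Finset Nat.Primes} {p : ℕ} [hp : Fact p.Prime]
  {K : Type} [Field K] [NumberField K] {ιK : K →ₐ[ℚ] Qbar}

theorem isPrimitiveRoot_embed {ζ : K} (hζ : IsPrimitiveRoot ζ p) : IsPrimitiveRoot (ιK ζ) p :=
  hζ.map_of_injective ιK.injective

/-- The Kummer field `ιK K (β)`, `β ^ p = x ∈ X_S`, is unramified outside `S`. -/
theorem isUnramifiedOutside_sup_adjoin_of_isXS (hpS : (⟨p, hp.out⟩ : Nat.Primes) ∈ S)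
    (hK : ιK.fieldRange.IsUnramifiedOutside S) {ζ : K} (hζ : IsPrimitiveRoot ζ p)
    {x : Kˣ} (hx : IsXS S K p x) {β : Qbar} (hβ : β ^ p = ιK (x : K)) :
    (ιK.fieldRange ⊔ ℚ⟮β⟯).IsUnramifiedOutside S := by
  have hζ' : IsPrimitiveRoot (ιK ζ) p := isPrimitiveRoot_embed hζ
  by_cases h : ∃ c : K, c ^ p = (x : K)
  · obtain ⟨c, hc⟩ := h
    have hc0 : c ≠ 0 := by
      rintro rfl
      rw [zero_pow hp.out.ne_zero] at hc
      exact x.ne_zero hc.symm
    have hβF : β ∈ ιK.fieldRange :=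
      mem_of_pow_eq_pow hζ' ⟨ζ, rfl⟩ ⟨c, rfl⟩ ((map_ne_zero ιK).mpr hc0)
        (by rw [hβ, ← hc, map_pow]; rfl)
    refine hK.of_le (sup_le le_rfl ?_)
    rw [IntermediateField.adjoin_simple_le_iff]
    exact hβF
  · rw [not_exists] at h
    obtain ⟨L, _, _, _, _, -, hur, α, hα, -⟩ :=
      H10.exists_kummer_ext_of_dvd S K hp.out hpS hζ x hx h
    obtain ⟨ιM, hι⟩ := exists_embedding_extending (M := L) ιK
    have hM := H54.isUnramifiedOutside_fieldRange_of_unramOutside S hι hK hur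
    have hα0 : α ≠ 0 := by
      rintro rfl
      rw [zero_pow hp.out.ne_zero] at hα
      exact x.ne_zero ((algebraMap K L).injective (by rw [← hα, map_zero]))
    refine hM.of_le (sup_le ?_ ?_)
    · rintro _ ⟨k, rfl⟩
      exact ⟨algebraMap K L k, hι k⟩
    · rw [IntermediateField.adjoin_simple_le_iff]
      refine mem_of_pow_eq_pow hζ' ⟨algebraMap K L ζ, hι ζ⟩ ⟨α, rfl⟩
        ((map_ne_zero ιM).mpr hα0) ?_
      show β ^ p = (ιM α) ^ p
      rw [← map_pow, hα, hι, hβ]

end Unram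

section Gen

variable {p : ℕ} [hp : Fact p.Prime]
  {K M : Type} [Field K] [NumberField K] [Field M] [NumberField M] [Algebra K M]
  {ιK : K →ₐ[ℚ] Qbar} {ιM : M →ₐ[ℚ] Qbar}

/-- A degree-`p` extension `M/K` is generated by any `α ∉ K`; in `Qbar` this reads
`ιM M = ιK K (ιM α)`. -/
theorem fieldRange_eq_sup_adjoin (hι : ∀ x : K, ιM (algebraMap K M x) = ιK x)
    (hdeg : Module.finrank K M = p) (α : M) (hαK : ∀ c : K, algebraMap K M c ≠ α) :
    ιM.fieldRange = ιK.fieldRange ⊔ ℚ⟮ιM α⟯ := by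
  apply le_antisymm
  · let T' : IntermediateField K M :=
      Subfield.toIntermediateField
        ((ιK.fieldRange ⊔ ℚ⟮ιM α⟯).toSubfield.comap (ιM : M →+* Qbar)) (fun k => by
          show ιM (algebraMap K M k) ∈ ιK.fieldRange ⊔ ℚ⟮ιM α⟯
          rw [hι]
          exact (le_sup_left : ιK.fieldRange ≤ ιK.fieldRange ⊔ ℚ⟮ιM α⟯) ⟨k, rfl⟩)
    have hmem : ∀ m : M, m ∈ T' ↔ ιM m ∈ ιK.fieldRange ⊔ ℚ⟮ιM α⟯ := fun m => Iff.rfl
    have hα : α ∈ T' := (hmem α).mpr
      ((le_sup_right : ℚ⟮ιM α⟯ ≤ ιK.fieldRange ⊔ ℚ⟮ιM α⟯)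
        (IntermediateField.mem_adjoin_simple_self ℚ (ιM α)))
    have hprime : (Module.finrank K M).Prime := by rw [hdeg]; exact hp.out
    have hsimple := IntermediateField.isSimpleOrder_of_finrank_prime K M hprime
    have htop : T' = ⊤ := by
      rcases eq_bot_or_eq_top T' with h | h
      · exfalso
        rw [h, IntermediateField.mem_bot] at hα
        obtain ⟨c, hc⟩ := hα
        exact hαK c hc
      · exact h
    rintro _ ⟨m, rfl⟩
    exact (hmem m).mp (htop ▸ IntermediateField.mem_top)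
  · refine sup_le ?_ ?_
    · rintro _ ⟨k, rfl⟩
      exact ⟨algebraMap K M k, hι k⟩
    · rw [IntermediateField.adjoin_simple_le_iff]
      exact ⟨α, rfl⟩

end Gen

section Main

local instance isAlgebraicQb74c : Algebra.IsAlgebraic ℚ (AlgebraicClosure ℚ) :=
  AlgebraicClosure.isAlgebraic ℚ
local instance isAlgClosureQb74c : IsAlgClosure ℚ (AlgebraicClosure ℚ) :=
  ⟨inferInstance, inferInstance⟩
local instance isGaloisQb74c : IsGalois ℚ (AlgebraicClosure ℚ) := IsSepClosure.isGalois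

variable {S : Finset Nat.Primes} {p : ℕ} [hp : Fact p.Prime]
  {K : Type} [Field K] [NumberField K] {ιK : K →ₐ[ℚ] Qbar}
  (hK : ιK.fieldRange.IsUnramifiedOutside S)

include hK in
/-- The level of `K` is open in `globalLevels S`. -/
theorem isOpen_fixingSubgroup_fieldRange :
    (globalLevels S).IsOpen ιK.fieldRange.fixingSubgroup :=
  ⟨_, ⟨ιK.fieldRange, hK, rfl⟩, le_rfl⟩

theorem mem_fieldRange_self' (ι : K →ₐ[ℚ] Qbar) (x : K) : ι x ∈ ι.fieldRange := ⟨x, rfl⟩

/-- The class of `a : CS S K` at the top level, as a `G_K`-invariant. -/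
noncomputable def csInv : Additive (H23.CS S K) →+
    ↥(LevelStructure.H0 (Rep.res ιK.fieldRange.fixingSubgroup.subtype (H77.repCSTop S))) where
  toFun a := ⟨Additive.ofMul (H77.csIncl hK (H45.divDescent hK) (Additive.toMul a)), fun κ =>
    congrArg Additive.ofMul
      (H77.smul_csIncl_of_mem_fixer hK (H45.divDescent hK) κ.1 κ.2 (Additive.toMul a))⟩
  map_zero' := by
    apply Subtype.ext
    show Additive.ofMul (H77.csIncl hK (H45.divDescent hK) 1) = 0
    rw [map_one]
    rfl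
  map_add' a b := by
    apply Subtype.ext
    show Additive.ofMul (H77.csIncl hK (H45.divDescent hK) (Additive.toMul a * Additive.toMul b))
      = _
    rw [map_mul]
    rfl

theorem csInv_val (a : Additive (H23.CS S K)) :
    (csInv hK a).1 = Additive.ofMul (H77.csIncl hK (H45.divDescent hK) (Additive.toMul a)) := rfl

variable (ιK) in
/-- A chosen `p`-th root of `ιK x`. -/
noncomputable def kroot (p : ℕ) [hp : Fact p.Prime] (x : Kˣ) : Qbar :=
  Classical.choose (IsAlgClosed.exists_pow_nat_eq (ιK (x : K)) hp.out.pos)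

theorem kroot_pow (x : Kˣ) : kroot ιK p x ^ p = ιK (x : K) :=
  Classical.choose_spec (IsAlgClosed.exists_pow_nat_eq (ιK (x : K)) hp.out.pos)

theorem ne_zero_of_pow_eq {β : Qbar} {x : Kˣ} (hβ : β ^ p = ιK (x : K)) : β ≠ 0 := by
  rintro rfl
  rw [zero_pow hp.out.ne_zero] at hβ
  exact x.ne_zero ((map_eq_zero ιK).mp hβ.symm)

theorem pow_mem_of_pow_eq {β : Qbar} {x : Kˣ} (hβ : β ^ p = ιK (x : K)) :
    β ^ p ∈ ιK.fieldRange := ⟨x, hβ.symm⟩

variable (hpS : (⟨p, hp.out⟩ : Nat.Primes) ∈ S) {ζ : K} (hζ : IsPrimitiveRoot ζ p)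

/-- The Kummer character of `x ∈ X_S` (zero outside `X_S`). -/
noncomputable def kummerX (x : Kˣ) : levelChars ((globalLevels S).restrict ιK.fieldRange.fixingSubgroup) p :=
  open Classical in
  if hx : IsXS S K p x then
    ⟨H10.kummerLevelChi ιK.fieldRange p (ιK ζ) (kroot ιK p x),
      H10.kummerLevelChi_mem_levelChars S (isPrimitiveRoot_embed hζ) (mem_fieldRange_self' ιK ζ)
        (ne_zero_of_pow_eq (kroot_pow x)) (pow_mem_of_pow_eq (kroot_pow x))
        (isUnramifiedOutside_sup_adjoin_of_isXS hpS hK hζ hx (kroot_pow x))⟩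
  else 0

theorem kummerX_val {x : Kˣ} (hx : IsXS S K p x) {β : Qbar} (hβ : β ^ p = ιK (x : K)) :
    (kummerX hK hpS hζ x).1 = H10.kummerLevelChi ιK.fieldRange p (ιK ζ) β := by
  unfold kummerX
  rw [dif_pos hx]
  exact (H10.kummerLevelChi_eq_of_pow_eq (isPrimitiveRoot_embed hζ) (mem_fieldRange_self' ιK ζ)
    (ne_zero_of_pow_eq hβ) (pow_mem_of_pow_eq hβ) (by rw [kroot_pow, hβ]))

theorem kummerX_mul {x x' : Kˣ} (hx : IsXS S K p x) (hx' : IsXS S K p x') :
    kummerX hK hpS hζ (x * x') = kummerX hK hpS hζ x + kummerX hK hpS hζ x' := by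
  apply Subtype.ext
  have h1 : (kroot ιK p x * kroot ιK p x') ^ p = ιK ((x * x' : Kˣ) : K) := by
    rw [mul_pow, kroot_pow, kroot_pow, Units.val_mul, map_mul]
  rw [AddSubgroup.coe_add, kummerX_val hK hpS hζ (hx.mul hx') h1,
    kummerX_val hK hpS hζ hx (kroot_pow x), kummerX_val hK hpS hζ hx' (kroot_pow x')]
  exact H10.kummerLevelChi_mul (isPrimitiveRoot_embed hζ) (ne_zero_of_pow_eq (kroot_pow x))
    (ne_zero_of_pow_eq (kroot_pow x')) (pow_mem_of_pow_eq (kroot_pow x))
    (pow_mem_of_pow_eq (kroot_pow x'))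

theorem kummerX_pow (c : Kˣ) : kummerX hK hpS hζ (c ^ p) = 0 := by
  apply Subtype.ext
  have h1 : (ιK (c : K)) ^ p = ιK ((c ^ p : Kˣ) : K) := by
    rw [Units.val_pow_eq_pow_val, map_pow]
  rw [kummerX_val hK hpS hζ (isXS_pow c) h1]
  exact (H10.kummerLevelChi_eq_zero_iff_mem (isPrimitiveRoot_embed hζ) (ne_zero_of_pow_eq h1)
    (pow_mem_of_pow_eq h1)).mpr ⟨c, rfl⟩

theorem kummerX_ne_zero {x : Kˣ} (hx : IsXS S K p x) (hxp : ∀ c : K, c ^ p ≠ (x : K)) :
    (kummerX hK hpS hζ x).1 ≠ 0 := by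
  rw [kummerX_val hK hpS hζ hx (kroot_pow x)]
  intro h
  obtain ⟨c, hc⟩ := (H10.kummerLevelChi_eq_zero_iff_mem (isPrimitiveRoot_embed hζ)
    (ne_zero_of_pow_eq (kroot_pow x)) (pow_mem_of_pow_eq (kroot_pow x))).mp h
  apply hxp c
  apply ιK.injective
  have : ιK c = kroot ιK p x := hc
  show ιK (c ^ p) = ιK (x : K)
  rw [map_pow, this, kroot_pow]

end Main

section Form

theorem biadd_aux₁ {n : ℕ} {G X A : Type*} [MulOneClass G] [AddCommGroup X] [AddCommGroup A]
    (β : X →+ A →+ ZMod n) (f : Additive G →+ A) (χ : X) (a a' : G) :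
    β χ (f (Additive.ofMul (a * a'))) =
      β χ (f (Additive.ofMul a)) + β χ (f (Additive.ofMul a')) := by
  rw [ofMul_mul, map_add, map_add]

theorem biadd_aux₂ {n : ℕ} {X A : Type*} [AddCommGroup X] [AddCommGroup A]
    (β : X →+ A →+ ZMod n) {χ χ₁ χ₂ : X} (h : χ = χ₁ + χ₂) (a : A) :
    β χ a = β χ₁ a + β χ₂ a := by
  rw [h, map_add]
  rfl

theorem biadd_aux₃ {n : ℕ} {X A : Type*} [AddCommGroup X] [AddCommGroup A]
    (β : X →+ A →+ ZMod n) {χ : X} (h : χ = 0) (a : A) : β χ a = 0 := by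
  rw [h, map_zero]
  rfl

local instance isAlgebraicQb74d : Algebra.IsAlgebraic ℚ (AlgebraicClosure ℚ) :=
  AlgebraicClosure.isAlgebraic ℚ
local instance isAlgClosureQb74d : IsAlgClosure ℚ (AlgebraicClosure ℚ) :=
  ⟨inferInstance, inferInstance⟩
local instance isGaloisQb74d : IsGalois ℚ (AlgebraicClosure ℚ) := IsSepClosure.isGalois

variable {S : Finset Nat.Primes} {p : ℕ} [hp : Fact p.Prime]
  {K : Type} [Field K] [NumberField K] {ιK : K →ₐ[ℚ] Qbar}
  (hK : ιK.fieldRange.IsUnramifiedOutside S)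
  (hpS : (⟨p, hp.out⟩ : Nat.Primes) ∈ S) {ζ : K} (hζ : IsPrimitiveRoot ζ p)

/-- The kernel of the Kummer character of `x` is the level of `M = K(x^{1/p})`. -/
theorem kummerX_eq_zero_iff {M : Type} [Field M] [NumberField M] [Algebra K M]
    {ιM : M →ₐ[ℚ] Qbar} (hι : ∀ x : K, ιM (algebraMap K M x) = ιK x)
    (hdeg : Module.finrank K M = p) {x : Kˣ} (hx : IsXS S K p x)
    (hxp : ∀ c : K, c ^ p ≠ (x : K)) {α : M} (hα : α ^ p = algebraMap K M (x : K))
    (κ : ιK.fieldRange.fixingSubgroup) :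
    (kummerX hK hpS hζ x).1 κ = 0 ↔ κ.1 ∈ ιM.fieldRange.fixingSubgroup := by
  have hβ : (ιM α) ^ p = ιK (x : K) := by rw [← map_pow, hα, hι]
  have hαK : ∀ c : K, algebraMap K M c ≠ α := fun c hc =>
    hxp c ((algebraMap K M).injective (by rw [map_pow, hc, hα]))
  rw [kummerX_val hK hpS hζ hx hβ, H10.kummerLevelChi_eq_zero_iff (isPrimitiveRoot_embed hζ)
    (ne_zero_of_pow_eq hβ) (pow_mem_of_pow_eq hβ), fieldRange_eq_sup_adjoin hι hdeg α hαK]

set_option synthInstance.maxHeartbeats 400000 in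
set_option maxHeartbeats 1600000 in
include hK hpS hζ in
/-- **(I5), concrete form.**  The Kummer form `B : CS S K → Kˣ → ZMod p` at the level `K`. -/
theorem exists_kummerForm (F : PClassFormation p (globalLevels S) (H77.repCSTop S))
    (hDIV : HasDIV (globalLevels S) p) :
    ∃ B : H23.CS S K → Kˣ → ZMod p,
      (∀ a a' x, B (a * a') x = B a x + B a' x) ∧
      (∀ a x x', IsXS S K p x → IsXS S K p x' → B a (x * x') = B a x + B a x') ∧
      (∀ a (c : Kˣ), B a (c ^ p) = 0) ∧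
      (∀ a x, IsXS S K p x →
        ∀ (M : Type) [Field M] [NumberField M] [Algebra K M] [IsGalois K M],
          Module.finrank K M = p → H23.UnramOutside S K M →
          (∃ α : M, α ^ p = algebraMap K M (x : K)) →
          (∃ y : H23.CS S M, H23.CS.baseChange S K M a = ∏ τ : M ≃ₐ[K] M, τ • y) → B a x = 0) ∧
      (∀ x, IsXS S K p x → (∀ c : K, c ^ p ≠ (x : K)) → ∃ a, B a x ≠ 0) ∧
      (∀ a x, IsXS S K p x → (∀ c : K, c ^ p ≠ (x : K)) →
        ∀ (M : Type) [Field M] [NumberField M] [Algebra K M] [IsGalois K M],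
          Module.finrank K M = p → H23.UnramOutside S K M →
          (∃ α : M, α ^ p = algebraMap K M (x : K)) → B a x = 0 →
          ∃ y : H23.CS S M, H23.CS.baseChange S K M a = ∏ τ : M ≃ₐ[K] M, τ • y) := by
  have hS : S.Nonempty := ⟨_, hpS⟩
  obtain ⟨β, -, -, h3, h4⟩ := exists_carryForm F hDIV ιK.fieldRange.fixingSubgroup
    (isOpen_fixingSubgroup_fieldRange hK)
  have hB3 : ∀ (a : H23.CS S K) (c : Kˣ),
      β (kummerX hK hpS hζ (c ^ p)) (csInv hK (Additive.ofMul a)) = 0 := by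
    intro a c
    exact biadd_aux₃ β (kummerX_pow hK hpS hζ c) _
  refine ⟨fun a x => β (kummerX hK hpS hζ x) (csInv hK (Additive.ofMul a)), ?_, ?_, hB3, ?_, ?_,
    ?_⟩
  · intro a a' x
    exact biadd_aux₁ β (csInv hK) (kummerX hK hpS hζ x) a a'
  · intro a x x' hx hx'
    exact biadd_aux₂ β (kummerX_mul hK hpS hζ hx hx') _
  · intro a x hx M _ _ _ _ hdeg hur hα hy
    obtain ⟨α, hα⟩ := hα
    obtain ⟨y, hy⟩ := hy
    show β (kummerX hK hpS hζ x) (csInv hK (Additive.ofMul a)) = 0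
    by_cases hxp : ∃ c : K, c ^ p = (x : K)
    · obtain ⟨c, hc⟩ := hxp
      have hc0 : c ≠ 0 := by
        rintro rfl
        rw [zero_pow hp.out.ne_zero] at hc
        exact x.ne_zero hc.symm
      have hxc : x = (Units.mk0 c hc0) ^ p := by
        apply Units.ext
        rw [Units.val_pow_eq_pow_val, Units.val_mk0, hc]
      rw [hxc]
      exact hB3 a _
    · rw [not_exists] at hxp
      obtain ⟨ιM, hι⟩ := exists_embedding_extending (M := M) ιK
      have hM := H54.isUnramifiedOutside_fieldRange_of_unramOutside S hι hK hur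
      have hχ0 := kummerX_ne_zero hK hpS hζ hx hxp
      refine (h3 _ hχ0 ιM.fieldRange.fixingSubgroup (H20.fixingSubgroup_fieldRange_le hι)
        (kummerX_eq_zero_iff hK hpS hζ hι hdeg hx hxp hα) _).mpr ?_
      refine ⟨Additive.ofMul (H77.csIncl hM (H45.divDescent hM) y), fun v hv => ?_, ?_⟩
      · exact congrArg Additive.ofMul
          (H77.smul_csIncl_of_mem_fixer hM (H45.divDescent hM) v hv y)
      · have h1 := H20.finsum_rho_csIncl hι hM (H45.divDescent hM) y
        have h2 : H77.csIncl hM (H45.divDescent hM) (∏ τ : M ≃ₐ[K] M, τ • y) =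
            H77.csIncl hK (H45.divDescent hK) a := by
          rw [← hy]
          exact H77.csIncl_baseChange hK hM hι (H45.divDescent hK) (H45.divDescent hM) a
        exact h1.trans (congrArg Additive.ofMul h2)
  · intro x hx hxp
    obtain ⟨a', ha'⟩ := h4 _ (kummerX_ne_zero hK hpS hζ hx hxp)
    let c : H77.CSTop S := Additive.toMul (a'.1 : Additive (H77.CSTop S))
    have hinv : ∀ σ ∈ ιK.fieldRange.fixingSubgroup, σ • c = c := by
      intro σ hσ
      have h0 : (H77.repCSTop S).ρ σ (a'.1 : Additive (H77.CSTop S)) = a'.1 := a'.2 ⟨σ, hσ⟩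
      exact congrArg Additive.toMul h0
    have hmem := (H77.mem_range_csIncl_iff hK (H45.divDescent hK) hS H45.hasDivisors
      c).mpr hinv
    obtain ⟨a, ha⟩ := MonoidHom.mem_range.mp hmem
    refine ⟨a, ?_⟩
    have h1 : csInv hK (Additive.ofMul a) = a' :=
      Subtype.ext (by rw [csInv_val]; exact congrArg Additive.ofMul ha)
    show β _ (csInv hK (Additive.ofMul a)) ≠ 0
    rw [h1]
    exact ha'
  · intro a x hx hxp M _ _ _ _ hdeg hur hα hB
    obtain ⟨α, hα⟩ := hα
    obtain ⟨ιM, hι⟩ := exists_embedding_extending (M := M) ιK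
    have hM := H54.isUnramifiedOutside_fieldRange_of_unramOutside S hι hK hur
    have hχ0 := kummerX_ne_zero hK hpS hζ hx hxp
    obtain ⟨b, hb, hsum⟩ := (h3 _ hχ0 ιM.fieldRange.fixingSubgroup
      (H20.fixingSubgroup_fieldRange_le hι)
      (kummerX_eq_zero_iff hK hpS hζ hι hdeg hx hxp hα) _).mp hB
    let c : H77.CSTop S := Additive.toMul (b : Additive (H77.CSTop S))
    have hinv : ∀ σ ∈ ιM.fieldRange.fixingSubgroup, σ • c = c := fun σ hσ =>
      congrArg Additive.toMul (hb σ hσ)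
    have hmem := (H77.mem_range_csIncl_iff hM (H45.divDescent hM) hS H45.hasDivisors c).mpr hinv
    obtain ⟨y, hy⟩ := MonoidHom.mem_range.mp hmem
    refine ⟨y, ?_⟩
    have hby : b = Additive.ofMul (H77.csIncl hM (H45.divDescent hM) y) :=
      (congrArg Additive.ofMul hy).symm
    rw [hby] at hsum
    have h1 := H20.finsum_rho_csIncl hι hM (H45.divDescent hM) y
    have h2 : H77.csIncl hM (H45.divDescent hM) (∏ τ : M ≃ₐ[K] M, τ • y) =
        H77.csIncl hK (H45.divDescent hK) a := congrArg Additive.toMul (h1.symm.trans hsum)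
    rw [← H77.csIncl_baseChange hK hM hι (H45.divDescent hK) (H45.divDescent hM) a] at h2
    exact (H77.csIncl_injective hM (H45.divDescent hM) hS h2).symm

/-- The canonical embedding of a level `E ≤ Qbar`, for the canonical `ℚ`-algebra structure of the
field `↥E`. -/
noncomputable def levelEmb (E : IntermediateField ℚ Qbar) :
    @AlgHom ℚ ↥E Qbar _ _ _ DivisionRing.toRatAlgebra DivisionRing.toRatAlgebra :=
  @RingHom.toRatAlgHom ↥E Qbar _ _ DivisionRing.toRatAlgebra DivisionRing.toRatAlgebra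
    E.val.toRingHom

theorem levelEmb_apply (E : IntermediateField ℚ Qbar) (y : ↥E) : levelEmb E y = (y : Qbar) := rfl

theorem fieldRange_levelEmb (E : IntermediateField ℚ Qbar) : (levelEmb E).fieldRange = E := by
  ext x
  constructor
  · rintro ⟨y, rfl⟩
    exact y.2
  · intro hx
    exact ⟨⟨x, hx⟩, rfl⟩

set_option synthInstance.maxHeartbeats 400000 in
set_option maxHeartbeats 1600000 in
/-- **(I5), concrete form, at a level `E ≤ Qbar`** (`K := ↥E`; the shape of helper20's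
`ExistFin`). -/
theorem exists_kummerForm_level (E : IntermediateField ℚ Qbar) [NumberField ↥E]
    (hE : E.IsUnramifiedOutside S) (hpS : (⟨p, hp.out⟩ : Nat.Primes) ∈ S) {ζ : ↥E}
    (hζ : IsPrimitiveRoot ζ p)
    (F : PClassFormation p (globalLevels S) (H77.repCSTop S))
    (hDIV : HasDIV (globalLevels S) p) :
    ∃ B : H23.CS S ↥E → (↥E)ˣ → ZMod p,
      (∀ a a' x, B (a * a') x = B a x + B a' x) ∧
      (∀ a x x', IsXS S ↥E p x → IsXS S ↥E p x' → B a (x * x') = B a x + B a x') ∧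
      (∀ a (c : (↥E)ˣ), B a (c ^ p) = 0) ∧
      (∀ a x, IsXS S ↥E p x →
        ∀ (M : Type) [Field M] [NumberField M] [Algebra ↥E M] [IsGalois ↥E M],
          Module.finrank ↥E M = p → H23.UnramOutside S ↥E M →
          (∃ α : M, α ^ p = algebraMap ↥E M (x : ↥E)) →
          (∃ y : H23.CS S M, H23.CS.baseChange S ↥E M a = ∏ τ : M ≃ₐ[↥E] M, τ • y) →
            B a x = 0) ∧
      (∀ x, IsXS S ↥E p x → (∀ c : ↥E, c ^ p ≠ (x : ↥E)) → ∃ a, B a x ≠ 0) ∧
      (∀ a x, IsXS S ↥E p x → (∀ c : ↥E, c ^ p ≠ (x : ↥E)) →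
        ∀ (M : Type) [Field M] [NumberField M] [Algebra ↥E M] [IsGalois ↥E M],
          Module.finrank ↥E M = p → H23.UnramOutside S ↥E M →
          (∃ α : M, α ^ p = algebraMap ↥E M (x : ↥E)) → B a x = 0 →
          ∃ y : H23.CS S M, H23.CS.baseChange S ↥E M a = ∏ τ : M ≃ₐ[↥E] M, τ • y) :=
  exists_kummerForm (K := ↥E) (ιK := levelEmb E) (by rw [fieldRange_levelEmb]; exact hE) hpS hζ
    F hDIV

end Form

end Fermat.Agent.CFT.H74
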