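import Mathlib
import Fermat.Agent.CFT.H77_TopTower
import Fermat.Agent.CFT.H77_OpenLevel

/-!
# CFT, layer C, package C-TOP: relative equivariance of the level maps

For number fields `K ⊆ M` embedded compatibly in `ℚbar`, `M/K` normal:

* `restrictScalars_smul_CS` : the action of `g : M ≃ₐ[K] M` on `CS S M` is the action of the
  underlying `ℚ`-automorphism;
* `csIncl_relRestrict_smul` : `csIncl (relRestrict σ • c) = σ • csIncl c` for `σ ∈ Gal(ℚbar/ιK K)`;
* `csIncl_prod_gal` : the top-level norm over `Gal(ℚbar/ιK K) ⧸ Gal(ℚbar/ιM M)` of `csIncl c` is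
  `csIncl (∏ g : Gal(M/K), g • c)`.
-/

set_option autoImplicit false

open scoped TensorProduct

namespace Fermat.Agent.CFT.H77

open IntermediateField Pointwise Fermat.Agent.CFT NumberField IsDedekindDomain

local notation "Qbar" => AlgebraicClosure ℚ
local notation "GQ" => (AlgebraicClosure ℚ ≃ₐ[ℚ] AlgebraicClosure ℚ)

noncomputable section

variable {S : Finset Nat.Primes}

section Compat

variable {K M : Type} [Field K] [CharZero K] [Field M] [NumberField M] [Algebra K M]

theorem restrictScalars_smul_ringOfIntegers (g : M ≃ₐ[K] M) (x : 𝓞 M) :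
    (g.restrictScalars ℚ) • x = g • x := Subtype.ext rfl

theorem restrictScalars_smul_prime (g : M ≃ₐ[K] M) (v : HeightOneSpectrum (𝓞 M)) :
    (g.restrictScalars ℚ) • v = g • v := by
  apply HeightOneSpectrum.ext
  ext x
  rw [H23.mem_smul_prime_iff, H23.mem_smul_prime_iff]
  have : (g.restrictScalars ℚ)⁻¹ • x = g⁻¹ • x := Subtype.ext rfl
  rw [this]

theorem restrictScalars_smul_primesOutside (g : M ≃ₐ[K] M) (v : H23.PrimesOutside S M) :
    (g.restrictScalars ℚ) • v = g • v :=
  Subtype.ext (restrictScalars_smul_prime g v.1)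

theorem restrictScalars_smul_divS (g : M ≃ₐ[K] M) (D : H23.DivS S M) :
    (g.restrictScalars ℚ) • D = g • D := by
  ext v
  rw [H23.smul_divS_apply, H23.smul_divS_apply]
  have h : (g.restrictScalars ℚ)⁻¹ • v = g⁻¹ • v :=
    restrictScalars_smul_primesOutside g⁻¹ v
  rw [h]

theorem restrictScalars_smul_loc (q : Nat.Primes) (g : M ≃ₐ[K] M) (y : H23.Loc M q) :
    (g.restrictScalars ℚ) • y = g • y := by
  induction y using TensorProduct.induction_on with
  | zero => simp
  | tmul x a => rfl
  | add y y' hy hy' => rw [smul_add, smul_add, hy, hy']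

theorem restrictScalars_smul_JS (g : M ≃ₐ[K] M) (j : H23.JS S M) :
    (g.restrictScalars ℚ) • j = g • j := by
  funext q
  apply Units.ext
  exact restrictScalars_smul_loc q.1 g (j q : H23.Loc M q.1)

theorem restrictScalars_smul_IdS (g : M ≃ₐ[K] M) (z : H23.IdS S M) :
    (g.restrictScalars ℚ) • z = g • z :=
  Prod.ext (restrictScalars_smul_JS g z.1)
    (congrArg Multiplicative.ofAdd (restrictScalars_smul_divS g (Multiplicative.toAdd z.2)))

/-- The action of `g ∈ Gal(M/K)` on `CS S M` is the action of the underlying `ℚ`-automorphism. -/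
theorem restrictScalars_smul_CS (g : M ≃ₐ[K] M) (c : H23.CS S M) :
    (g.restrictScalars ℚ) • c = g • c := by
  obtain ⟨z, rfl⟩ := QuotientGroup.mk_surjective c
  show H23.toCS S M ((g.restrictScalars ℚ) • z) = H23.toCS S M (g • z)
  rw [restrictScalars_smul_IdS]

end Compat

section Equivariance

variable {K M : Type} [Field K] [CharZero K] [Field M] [NumberField M] [Algebra K M] [Normal K M]
  {ιK : K →ₐ[ℚ] Qbar} {ιM : M →ₐ[ℚ] Qbar} (hι : ∀ x : K, ιM (algebraMap K M x) = ιK x)
  (hM : ιM.fieldRange.IsUnramifiedOutside S) (D : DivDescent S ιM)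

theorem restrictsTo_relRestrict (σ : ιK.fieldRange.fixingSubgroup) :
    RestrictsTo ιM (σ : GQ) ((relRestrict hι σ).restrictScalars ℚ) :=
  fun y => (relRestrict_spec hι σ y).symm

/-- **Relative equivariance**: `σ ∈ Gal(ℚbar/ιK K)` acts on the image of `CS S M` through its
restriction to `Gal(M/K)`. -/
theorem csIncl_relRestrict_smul (σ : ιK.fieldRange.fixingSubgroup) (c : H23.CS S M) :
    csIncl hM D (relRestrict hι σ • c) = (σ : GQ) • csIncl hM D c := by
  rw [← restrictScalars_smul_CS]
  exact csIncl_smul hM D (restrictsTo_relRestrict hι σ) c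

variable [(ιM.fieldRange.fixingSubgroup.subgroupOf ιK.fieldRange.fixingSubgroup).Normal]

theorem csIncl_relQuotEquiv_smul
    (q : ιK.fieldRange.fixingSubgroup ⧸
      ιM.fieldRange.fixingSubgroup.subgroupOf ιK.fieldRange.fixingSubgroup) (c : H23.CS S M) :
    csIncl hM D (relQuotEquiv hι q • c) = ((Quotient.out q : ιK.fieldRange.fixingSubgroup) : GQ) •
      csIncl hM D c := by
  rw [← csIncl_relRestrict_smul hι hM D, ← relQuotEquiv_mk hι (Quotient.out q),
    QuotientGroup.out_eq']

include hι in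
/-- **Norm dictionary**: the top-level norm over `Gal(ℚbar/ιK K) ⧸ Gal(ℚbar/ιM M)` of the image of
`c ∈ CS S M` is the image of the Galois norm `∏ g : Gal(M/K), g • c`. -/
theorem finprod_out_smul_csIncl [FiniteDimensional K M] (c : H23.CS S M) :
    ∏ᶠ q : ιK.fieldRange.fixingSubgroup ⧸
        ιM.fieldRange.fixingSubgroup.subgroupOf ιK.fieldRange.fixingSubgroup,
      ((Quotient.out q : ιK.fieldRange.fixingSubgroup) : GQ) • csIncl hM D c =
    csIncl hM D (∏ g : M ≃ₐ[K] M, g • c) := by
  have h1 : ∀ q : ιK.fieldRange.fixingSubgroup ⧸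
      ιM.fieldRange.fixingSubgroup.subgroupOf ιK.fieldRange.fixingSubgroup,
      ((Quotient.out q : ιK.fieldRange.fixingSubgroup) : GQ) • csIncl hM D c =
        csIncl hM D (relQuotEquiv hι q • c) := fun q => (csIncl_relQuotEquiv_smul hι hM D q c).symm
  rw [finprod_congr h1]
  have h2 := finprod_comp_equiv (relQuotEquiv hι).toEquiv
    (f := fun g : M ≃ₐ[K] M => csIncl hM D (g • c))
  refine h2.trans ?_
  rw [finprod_eq_prod_of_fintype, map_prod]

end Equivariance

section LevelsRel

variable (E E' : IntermediateField ℚ Qbar) [NumberField ↥E'] [Algebra ↥E ↥E']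
  [IsScalarTower ↥E ↥E' Qbar] [Normal ↥E ↥E'] (hE' : E'.IsUnramifiedOutside S)

/-- Shortcut instance (instance search through the coercion of an intermediate field is slow). -/
local instance csSMulRel_h77 : SMul (↥E' ≃ₐ[↥E] ↥E') (H23.CS S ↥E') :=
  (H23.csAction S ↥E' ↥E).toSMul

/-- **Relative equivariance** for levels `E ≤ E'`, `E'/E` normal: `σ ∈ U_E` acts on the image of
`CS S E'` through its restriction to `Gal(E'/E)`. -/
theorem levelIncl_relRestrictE_smul (σ : E.fixingSubgroup) (c : H23.CS S ↥E') :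
    levelIncl E' hE' (relRestrictE E E' σ • c) = (σ : GQ) • levelIncl E' hE' c :=
  csIncl_relRestrict_smul (algebraMap_val_eq E E') _ _
    (MulEquiv.subgroupCongr (fixingSubgroup_eq_fieldRange_val E) σ) c

variable [(E'.fixingSubgroup.subgroupOf E.fixingSubgroup).Normal]

theorem levelIncl_relQuotEquivE_smul
    (q : E.fixingSubgroup ⧸ E'.fixingSubgroup.subgroupOf E.fixingSubgroup) (c : H23.CS S ↥E') :
    levelIncl E' hE' (relQuotEquivE E E' q • c) =
      ((Quotient.out q : E.fixingSubgroup) : GQ) • levelIncl E' hE' c := by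
  rw [← levelIncl_relRestrictE_smul E E' hE', ← relQuotEquivE_mk E E' (Quotient.out q),
    QuotientGroup.out_eq']

/-- **Norm dictionary** for levels `E ≤ E'`, `E'/E` finite Galois: the top-level norm over
`U_E ⧸ U_{E'}` of the image of `c ∈ CS S E'` is the image of `∏ g : Gal(E'/E), g • c`. -/
theorem finprod_out_smul_levelIncl [FiniteDimensional ↥E ↥E'] (c : H23.CS S ↥E') :
    ∏ᶠ q : E.fixingSubgroup ⧸ E'.fixingSubgroup.subgroupOf E.fixingSubgroup,
      ((Quotient.out q : E.fixingSubgroup) : GQ) • levelIncl E' hE' c =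
    levelIncl E' hE' (∏ g : ↥E' ≃ₐ[↥E] ↥E', g • c) := by
  have h1 : ∀ q : E.fixingSubgroup ⧸ E'.fixingSubgroup.subgroupOf E.fixingSubgroup,
      ((Quotient.out q : E.fixingSubgroup) : GQ) • levelIncl E' hE' c =
        levelIncl E' hE' (relQuotEquivE E E' q • c) :=
    fun q => (levelIncl_relQuotEquivE_smul E E' hE' q c).symm
  rw [finprod_congr h1]
  have h2 := finprod_comp_equiv (relQuotEquivE E E').toEquiv
    (f := fun g : ↥E' ≃ₐ[↥E] ↥E' => levelIncl E' hE' (g • c))
  refine h2.trans ?_
  rw [finprod_eq_prod_of_fintype, map_prod]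

end LevelsRel

end

end Fermat.Agent.CFT.H77
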