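import Mathlib
import Fermat.Agent.CFT.H77_TopRel
import Fermat.Agent.CFT.H24_GlobalDescent
import Fermat.Agent.CFT.H23_CNorm

/-!
# CFT, layer C: the (Key) dictionary `U.map (restrictAlong ιM) ↔ Gal(M/K)`

For number fields `K ⊆ M` embedded compatibly in `ℚbar` (`hι : ιM ∘ algebraMap = ιK`), `M/ℚ` and
`M/K` Galois, and `U = Gal(ℚbar/ιK K)`:

* `map_restrictAlong_eq_range` : the image of `U` in `Gal(M/ℚ)` is the image of `Gal(M/K)` under
  `τ ↦ τ.restrictScalars ℚ`;
* `finprod_map_restrictAlong_smul` : `∏ᶠ g : U.map (restrictAlong ιM), g.1 • y = galNorm S K M y`;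
* `exists_eq_finprod_of_galNorm_eq`, `exists_eq_finprod_of_mem_normSubgroup` : consumer forms for
  helper24's `FiniteKey`.
-/

set_option autoImplicit false

namespace Fermat.Agent.CFT.H77

open IntermediateField Fermat.Agent.CFT

local notation "Qbar" => AlgebraicClosure ℚ
local notation "GQ" => (AlgebraicClosure ℚ ≃ₐ[ℚ] AlgebraicClosure ℚ)

noncomputable section

variable {S : Finset Nat.Primes}

section KeyDict

variable {K M : Type} [Field K] [NumberField K] [Field M] [NumberField M] [Algebra K M]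
  [IsGalois ℚ M] [IsGalois K M]
  {ιK : K →ₐ[ℚ] Qbar} {ιM : M →ₐ[ℚ] Qbar} (hι : ∀ x : K, ιM (algebraMap K M x) = ιK x)

include hι in
/-- The absolute restriction of `σ ∈ Gal(ℚbar/ιK K)` to `M` is the relative restriction, viewed
as a `ℚ`-automorphism. -/
theorem restrictAlong_eq_relRestrict (σ : ιK.fieldRange.fixingSubgroup) :
    H24.restrictAlong ιM (σ : GQ) = (relRestrict hι σ).restrictScalars ℚ := by
  apply AlgEquiv.ext
  intro y
  apply ιM.injective
  have h1 := H24.restrictAlong_spec ιM (σ : GQ) y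
  have h2 := relRestrict_spec hι σ y
  exact h1.symm.trans h2.symm

include hι in
theorem mem_map_restrictAlong_iff (g : M ≃ₐ[ℚ] M) :
    g ∈ (ιK.fieldRange.fixingSubgroup).map (H24.restrictAlong ιM) ↔
      ∃ τ : M ≃ₐ[K] M, τ.restrictScalars ℚ = g := by
  constructor
  · rintro ⟨σ, hσ, rfl⟩
    exact ⟨relRestrict hι ⟨σ, hσ⟩, (restrictAlong_eq_relRestrict hι ⟨σ, hσ⟩).symm⟩
  · rintro ⟨τ, rfl⟩
    obtain ⟨σ, rfl⟩ := relRestrict_surjective hι τ
    exact ⟨(σ : GQ), σ.2, restrictAlong_eq_relRestrict hι σ⟩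

include hι in
/-- **(KD1)** the image of `Gal(ℚbar/ιK K)` in `Gal(M/ℚ)` is `Gal(M/K)`. -/
theorem map_restrictAlong_eq_range :
    ((ιK.fieldRange.fixingSubgroup).map (H24.restrictAlong ιM) : Set (M ≃ₐ[ℚ] M)) =
      Set.range (fun τ : M ≃ₐ[K] M => τ.restrictScalars ℚ) := by
  ext g
  exact mem_map_restrictAlong_iff hι g

/-- `Gal(M/K) ≃ U.map (restrictAlong ιM)` for `U = Gal(ℚbar/ιK K)`. -/
def galEquivMapRestrictAlong :
    (M ≃ₐ[K] M) ≃ (ιK.fieldRange.fixingSubgroup).map (H24.restrictAlong ιM) :=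
  Equiv.ofBijective
    (fun τ => ⟨τ.restrictScalars ℚ, (mem_map_restrictAlong_iff hι _).2 ⟨τ, rfl⟩⟩)
    ⟨fun τ τ' h => by
      apply AlgEquiv.ext
      intro y
      have h' : τ.restrictScalars ℚ = τ'.restrictScalars ℚ := congrArg Subtype.val h
      exact congrArg (fun g : M ≃ₐ[ℚ] M => g y) h',
     fun g => by
      obtain ⟨τ, hτ⟩ := (mem_map_restrictAlong_iff hι g.1).1 g.2
      exact ⟨τ, Subtype.ext hτ⟩⟩

@[simp] theorem galEquivMapRestrictAlong_coe (τ : M ≃ₐ[K] M) :
    ((galEquivMapRestrictAlong hι τ : (ιK.fieldRange.fixingSubgroup).map (H24.restrictAlong ιM)) :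
      M ≃ₐ[ℚ] M) = τ.restrictScalars ℚ := rfl

include hι in
/-- **(KD2)** the `FiniteKey` product over `U.map (restrictAlong ιM)` is the Galois norm of
`M/K`. -/
theorem finprod_map_restrictAlong_smul (y : H23.CS S M) :
    ∏ᶠ g : (ιK.fieldRange.fixingSubgroup).map (H24.restrictAlong ιM), g.1 • y =
      ∏ τ : M ≃ₐ[K] M, τ • y := by
  have h2 := finprod_comp_equiv (galEquivMapRestrictAlong hι)
    (f := fun g : (ιK.fieldRange.fixingSubgroup).map (H24.restrictAlong ιM) => g.1 • y)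
  rw [← h2, finprod_eq_prod_of_fintype]
  refine Finset.prod_congr rfl fun τ _ => ?_
  exact restrictScalars_smul_CS τ y

include hι in
theorem finprod_map_restrictAlong_smul_eq_galNorm (y : H23.CS S M) :
    ∏ᶠ g : (ιK.fieldRange.fixingSubgroup).map (H24.restrictAlong ιM), g.1 • y =
      H23.galNorm S K M y :=
  finprod_map_restrictAlong_smul hι y

include hι in
/-- **(KD3)** consumer form for `FiniteKey`: a Galois norm from `M/K` is a product over
`U.map (restrictAlong ιM)` for any `U` equal to `Gal(ℚbar/ιK K)`. -/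
theorem exists_eq_finprod_of_galNorm_eq {U : Subgroup GQ} (hU : U = ιK.fieldRange.fixingSubgroup)
    {b : H23.CS S M} (hb : ∃ y : H23.CS S M, H23.galNorm S K M y = b) :
    ∃ y : H23.CS S M, b = ∏ᶠ g : U.map (H24.restrictAlong ιM), g.1 • y := by
  subst hU
  obtain ⟨y, rfl⟩ := hb
  exact ⟨y, (finprod_map_restrictAlong_smul hι y).symm⟩

include hι in
/-- **(KD3')** the same from `c ∈ normSubgroup S K M` (the shape of
`H90.baseChange_mem_normSubgroup_zpComp`). -/
theorem exists_eq_finprod_of_mem_normSubgroup {U : Subgroup GQ}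
    (hU : U = ιK.fieldRange.fixingSubgroup) {c : H23.CS S K} (hc : c ∈ H23.normSubgroup S K M) :
    ∃ y : H23.CS S M,
      H23.CS.baseChange S K M c = ∏ᶠ g : U.map (H24.restrictAlong ιM), g.1 • y :=
  exists_eq_finprod_of_galNorm_eq hι hU ((H23.mem_normSubgroup_iff S K M c).1 hc)

end KeyDict

end

end Fermat.Agent.CFT.H77
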