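import Mathlib
import Fermat.Agent.CFT.H77_KeyDict
import Fermat.Agent.CFT.H81_FiniteOrd
import Fermat.Agent.CFT.H90_KeyZp

/-!
# (O5): the hypothesis (Key) of the `ℤ_p`-tower system, in helper24's finite-level shape

Assembly of `H24.FiniteKey p S (H81.towerTop p hpS)` from
* helper90's `H90.baseChange_mem_normSubgroup_zpComp` ((Key) at the concrete level `F_U·ℚ_e`),
* helper93's compositum levels `zpComp p e F`,
* `H77_KeyDict` (product over `U.map (restrictAlong ι)` = Galois norm of `F_U·ℚ_e / F_U`),
* `H77.csIncl_baseChange` + helper81's `csIncl_baseChange_rat` (tower compatibility).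
-/

set_option autoImplicit false

namespace Fermat.Agent.CFT.H77

open IntermediateField Fermat.Agent.CFT Fermat.Agent.CFT.H93 ExtCitation

local notation "Qbar" => AlgebraicClosure ℚ
local notation "GQ" => (AlgebraicClosure ℚ ≃ₐ[ℚ] AlgebraicClosure ℚ)

local instance isAlgebraicQbar_h77k : Algebra.IsAlgebraic ℚ (AlgebraicClosure ℚ) :=
  AlgebraicClosure.isAlgebraic ℚ
local instance isAlgClosureQbar_h77k : IsAlgClosure ℚ (AlgebraicClosure ℚ) :=
  ⟨inferInstance, inferInstance⟩
local instance normalQbar_h77k : Normal ℚ (AlgebraicClosure ℚ) :=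
  IsAlgClosure.normal ℚ (AlgebraicClosure ℚ)
local instance isGaloisQbar_h77k : IsGalois ℚ (AlgebraicClosure ℚ) := ⟨⟩

noncomputable section

variable {S : Finset Nat.Primes} (p : ℕ) [hp : Fact p.Prime]

/-- **(O5)**: (Key), finite-level form, for the tower element. -/
theorem finiteKey_towerTop (hp2 : p ≠ 2) (hpS : pPrime p ∈ S) :
    H24.FiniteKey p S (H81.towerTop p hpS) := by
  intro U hUn hU
  obtain ⟨F, hF, rfl⟩ := hU
  set e : ℕ := (F.fixingSubgroup).index.factorization p with he
  have : FiniteDimensional ℚ ↥F := hF.1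
  -- `F` and `F·ℚ_e` are Galois over `ℚ`
  have hG0 : IsGalois ℚ ↥F := (InfiniteGalois.normal_iff_isGalois F).mp hUn
  have hnM : ((zpComp p e F).fixingSubgroup).Normal := by
    rw [fixingSubgroup_zpComp]
    infer_instance
  have hGM0 : IsGalois ℚ ↥(zpComp p e F) :=
    (InfiniteGalois.normal_iff_isGalois (zpComp p e F)).mp hnM
  have hGM : @IsGalois ℚ _ ↥(zpComp p e F) _ DivisionRing.toRatAlgebra := by
    convert hGM0
  -- the level
  have hMunr : (zpComp p e F).IsUnramifiedOutside S := isUnramifiedOutside_zpComp p e F hpS hF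
  have hMι : (H24.valRat (zpComp p e F)).fieldRange.IsUnramifiedOutside S := by
    rw [H24.fieldRange_valRat]; exact hMunr
  have hFι : (H24.valRat F).fieldRange.IsUnramifiedOutside S := by
    rw [H24.fieldRange_valRat]; exact hF
  let L : H24.GaloisLevel S :=
    { F := ↥(zpComp p e F)
      ι := H24.valRat (zpComp p e F)
      unram := hMι
      D := H45.divDescent hMι }
  have hLsub : L.subgroup = F.fixingSubgroup ⊓ zpSubgroup p e := by
    show (H24.valRat (zpComp p e F)).fieldRange.fixingSubgroup = _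
    rw [H24.fieldRange_valRat, fixingSubgroup_zpComp]
  -- the relative structure
  let algKM : Algebra ↥F ↥(zpComp p e F) := zpCompLeftAlgebra p e F
  have hGKM : IsGalois ↥F ↥(zpComp p e F) := isGalois_zpComp p e F
  have hι : ∀ x : ↥F, H24.valRat (zpComp p e F) (algebraMap ↥F ↥(zpComp p e F) x) =
      H24.valRat F x := fun x => rfl
  -- `p ^ e ∣ [F : ℚ]`
  have hdvd : p ^ e ∣ Module.finrank ℚ ↥F := by
    have h2 : p ^ e ∣ F.fixingSubgroup.index := Nat.ordProj_dvd _ p
    rw [← IntermediateField.finrank_eq_fixingSubgroup_index] at h2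
    convert h2
  -- (Key) at the level
  have hkey := H90.baseChange_mem_normSubgroup_zpComp p e S F hp2 hpS hdvd (H81.towerElt p hpS)
  have hUeq : F.fixingSubgroup = (H24.valRat F).fieldRange.fixingSubgroup := by
    rw [H24.fieldRange_valRat]
  obtain ⟨y, hy⟩ := exists_eq_finprod_of_mem_normSubgroup (S := S) hι hUeq hkey
  refine ⟨L, hLsub, _, ?_, y, hy⟩
  -- the avatar identity
  show csIncl hMι (H45.divDescent hMι) _ = _
  rw [csIncl_baseChange hFι hMι hι (H45.divDescent hFι) (H45.divDescent hMι)]
  exact H81.csIncl_baseChange_rat S hFι (H45.divDescent hFι) _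

/-- Export (X1) of layer C from the degree-`p` layers only: (Ord) is helper81's
`H81.finiteOrd_towerTop`, (Key) is `finiteKey_towerTop`. -/
theorem nonempty_pClassFormation_of_layers (hp2 : p ≠ 2) (hpS : pPrime p ∈ S)
    (hlay : H24.FiniteLevelLayers p S) :
    Nonempty (PClassFormation p (globalLevels S) (repCSTop S)) :=
  H81.nonempty_pClassFormation_of_key p hp2 hpS hlay (finiteKey_towerTop p hp2 hpS)

end

end Fermat.Agent.CFT.H77
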