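import Mathlib
import Fermat.Agent.CFT.H77_FiniteKey
import Fermat.Agent.CFT.H9_LayerGlueFinal

/-!
# Layer C, main export (X1), unconditional

`Nonempty (PClassFormation p (globalLevels S) (H77.repCSTop S))` for `p` odd, `p ∈ S`:
(O1)/(O2) helper45, (O3) `H9.finiteLevelLayers`, (O4) `H81.finiteOrd_towerTop`,
(O5) `H77.finiteKey_towerTop`, assembled by `H24.nonempty_pClassFormation_of_finite`.
-/

set_option autoImplicit false

namespace Fermat.Agent.CFT.H77

open Fermat.Agent.CFT ExtCitation

/-- **Layer C, export (X1)**: the global `p`-class formation on the top-level `S`-idele class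
module, unconditionally (`p` odd, `p ∈ S`). -/
theorem layerC_main {S : Finset Nat.Primes} (p : ℕ) [hp : Fact p.Prime] (hp2 : p ≠ 2)
    (hpS : pPrime p ∈ S) :
    Nonempty (PClassFormation p (globalLevels S) (repCSTop S)) :=
  nonempty_pClassFormation_of_layers p hp2 hpS (H9.finiteLevelLayers p S hp2 hpS)

end Fermat.Agent.CFT.H77
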