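import Mathlib
import Fermat.Prelude.Def_GroupCohomology_ContinuousUnramified
import Fermat.Agent.CFT.H55_LevelDefs
import Fermat.Agent.CFT.H87_Levels

set_option autoImplicit false
set_option linter.unusedSectionVars false

/-!
# CFT / layer E (b), part 2: frozen continuous cohomology = level cohomology (helper87)

* `H2congr`, `H1congr`: two level structures with the same level-constant functions have the same
  `H¹`, `H²` (in particular mutually cofinal ones: `Cofinal`).
* `H1ToAbstract 𝓛 A : 𝓛.H1 A →ₗ H1 A` is injective with range the classes of level cocycles.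
* frozen objects: `continuousH2S S M ≃ₗ (levelsS S).H2 M`, `continuousH2 r M ≃ₗ (levelsAll.comap r).H2 M`,
  `range (H1ToAbstract (levelsS S) M) = continuousH1S S M`,
  `range (H1ToAbstract (levelsAll.comap r) M) = continuousH1 r M`, and the local comparison
  `(levelsAll.comap (localGaloisToGlobal q)).H_i N ≃ₗ (levelsLocal q).H_i N`.
-/

universe u

namespace Fermat.Agent.CFT.H87

open CategoryTheory groupCohomology Fermat.Agent.CFT

noncomputable section

section Generic

variable {H : Type u} [Group H] {k : Type u} [CommRing k]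

/-- Mutual cofinality of two level structures. -/
def Cofinal (𝓛 𝓛' : LevelStructure H) : Prop :=
  (∀ N ∈ 𝓛.levels, ∃ N' ∈ 𝓛'.levels, N' ≤ N) ∧ (∀ N' ∈ 𝓛'.levels, ∃ N ∈ 𝓛.levels, N ≤ N')

theorem Cofinal.symm {𝓛 𝓛' : LevelStructure H} (h : Cofinal 𝓛 𝓛') : Cofinal 𝓛' 𝓛 := ⟨h.2, h.1⟩

theorem Cofinal.isConst₁_iff {𝓛 𝓛' : LevelStructure H} (h : Cofinal 𝓛 𝓛') {X : Type*}
    (f : H → X) : 𝓛.IsConst₁ f ↔ 𝓛'.IsConst₁ f := by
  constructor
  · rintro ⟨N, hN, hf⟩
    obtain ⟨N', hN', hle⟩ := h.1 N hN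
    exact ⟨N', hN', fun g s hs => hf g s (hle hs)⟩
  · rintro ⟨N', hN', hf⟩
    obtain ⟨N, hN, hle⟩ := h.2 N' hN'
    exact ⟨N, hN, fun g s hs => hf g s (hle hs)⟩

theorem Cofinal.isConst₂_iff {𝓛 𝓛' : LevelStructure H} (h : Cofinal 𝓛 𝓛') {X : Type*}
    (f : H × H → X) : 𝓛.IsConst₂ f ↔ 𝓛'.IsConst₂ f := by
  constructor
  · rintro ⟨N, hN, hf⟩
    obtain ⟨N', hN', hle⟩ := h.1 N hN
    exact ⟨N', hN', fun g g' s s' hs hs' => hf g g' s s' (hle hs) (hle hs')⟩
  · rintro ⟨N', hN', hf⟩
    obtain ⟨N, hN, hle⟩ := h.2 N' hN'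
    exact ⟨N, hN, fun g g' s s' hs hs' => hf g g' s s' (hle hs) (hle hs')⟩

theorem Cofinal.isConst₃_iff {𝓛 𝓛' : LevelStructure H} (h : Cofinal 𝓛 𝓛') {X : Type*}
    (f : H × H × H → X) : 𝓛.IsConst₃ f ↔ 𝓛'.IsConst₃ f := by
  constructor
  · rintro ⟨N, hN, hf⟩
    obtain ⟨N', hN', hle⟩ := h.1 N hN
    exact ⟨N', hN', fun g g' g'' s s' s'' hs hs' hs'' =>
      hf g g' g'' s s' s'' (hle hs) (hle hs') (hle hs'')⟩
  · rintro ⟨N', hN', hf⟩
    obtain ⟨N, hN, hle⟩ := h.2 N' hN'
    exact ⟨N, hN, fun g g' g'' s s' s'' hs hs' hs'' =>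
      hf g g' g'' s s' s'' (hle hs) (hle hs') (hle hs'')⟩

/-- Generic quotient comparison: equal submodules `Z = Z'` and `B = B'` give `Z/B ≃ Z'/B'`. -/
def quotCongr {V : Type*} [AddCommGroup V] [Module k V] {Z Z' B B' : Submodule k V}
    (hZ : Z = Z') (hB : B = B') :
    (↥Z ⧸ B.comap Z.subtype) ≃ₗ[k] (↥Z' ⧸ B'.comap Z'.subtype) :=
  Submodule.Quotient.equiv _ _ (LinearEquiv.ofEq Z Z' hZ) (by
    subst hZ hB
    ext x
    simp)

@[simp]
theorem quotCongr_mk {V : Type*} [AddCommGroup V] [Module k V] {Z Z' B B' : Submodule k V}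
    (hZ : Z = Z') (hB : B = B') (c : Z) :
    quotCongr hZ hB (Submodule.Quotient.mk c) = Submodule.Quotient.mk ⟨c.1, hZ ▸ c.2⟩ := by
  subst hZ hB
  rfl

variable (A : Rep k H)

section SameConst

variable {𝓛 𝓛' : LevelStructure H}

theorem cochains₁_eq_of_iff (h₁ : ∀ f : H → A, 𝓛.IsConst₁ f ↔ 𝓛'.IsConst₁ f) :
    𝓛.cochains₁ A = 𝓛'.cochains₁ A := Submodule.ext h₁

theorem cochains₂_eq_of_iff (h₂ : ∀ f : H × H → A, 𝓛.IsConst₂ f ↔ 𝓛'.IsConst₂ f) :
    𝓛.cochains₂ A = 𝓛'.cochains₂ A := Submodule.ext h₂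

/-- Level structures with the same level-constant functions have the same `H²`. -/
def H2congr (h₁ : ∀ f : H → A, 𝓛.IsConst₁ f ↔ 𝓛'.IsConst₁ f)
    (h₂ : ∀ f : H × H → A, 𝓛.IsConst₂ f ↔ 𝓛'.IsConst₂ f) : 𝓛.H2 A ≃ₗ[k] 𝓛'.H2 A :=
  quotCongr (Z := 𝓛.cocycles₂ A) (Z' := 𝓛'.cocycles₂ A)
    (B := 𝓛.coboundaries₂ A) (B' := 𝓛'.coboundaries₂ A)
    (by unfold LevelStructure.cocycles₂; rw [cochains₂_eq_of_iff A h₂])
    (by unfold LevelStructure.coboundaries₂; rw [cochains₁_eq_of_iff A h₁])

/-- Level structures with the same level-constant functions have the same `H¹`. -/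
def H1congr (h₁ : ∀ f : H → A, 𝓛.IsConst₁ f ↔ 𝓛'.IsConst₁ f) : 𝓛.H1 A ≃ₗ[k] 𝓛'.H1 A :=
  quotCongr (Z := 𝓛.cocycles₁ A) (Z' := 𝓛'.cocycles₁ A)
    (B := 𝓛.coboundaries₁ A) (B' := 𝓛'.coboundaries₁ A)
    (by unfold LevelStructure.cocycles₁; rw [cochains₁_eq_of_iff A h₁]) rfl

end SameConst

/-! ### `𝓛.H1 A` inside the abstract `H¹` -/

variable (𝓛 : LevelStructure H)

/-- Level cocycles as abstract cocycles. -/
def cocycles₁Incl : ↥(𝓛.cocycles₁ A) →ₗ[k] ↥(groupCohomology.cocycles₁ A) :=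
  Submodule.inclusion inf_le_left

/-- The canonical map from level `H¹` to the abstract `H¹`. -/
def H1ToAbstract : 𝓛.H1 A →ₗ[k] groupCohomology.H1 A :=
  Submodule.liftQ _ ((groupCohomology.H1π A).hom ∘ₗ cocycles₁Incl A 𝓛) (by
    intro c hc
    rw [LinearMap.mem_ker, LinearMap.comp_apply]
    exact (groupCohomology.H1π_eq_zero_iff _).mpr hc)

@[simp]
theorem H1ToAbstract_mk (c : 𝓛.cocycles₁ A) :
    H1ToAbstract A 𝓛 (Submodule.Quotient.mk c) =
      (groupCohomology.H1π A).hom (cocycles₁Incl A 𝓛 c) := rfl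

theorem H1ToAbstract_injective : Function.Injective (H1ToAbstract A 𝓛) := by
  rw [← LinearMap.ker_eq_bot, eq_bot_iff]
  intro x hx
  obtain ⟨c, rfl⟩ := Submodule.Quotient.mk_surjective _ x
  rw [LinearMap.mem_ker, H1ToAbstract_mk, groupCohomology.H1π_eq_zero_iff] at hx
  rw [Submodule.mem_bot, Submodule.Quotient.mk_eq_zero]
  exact hx

theorem mem_range_H1ToAbstract_iff (x : groupCohomology.H1 A) :
    x ∈ LinearMap.range (H1ToAbstract A 𝓛) ↔
      ∃ c : groupCohomology.cocycles₁ A, 𝓛.IsConst₁ (c : H → A) ∧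
        (groupCohomology.H1π A).hom c = x := by
  constructor
  · rintro ⟨y, rfl⟩
    obtain ⟨c, rfl⟩ := Submodule.Quotient.mk_surjective _ y
    exact ⟨cocycles₁Incl A 𝓛 c, c.2.2, rfl⟩
  · rintro ⟨c, hc, rfl⟩
    exact ⟨Submodule.Quotient.mk ⟨c.1, c.2, hc⟩, rfl⟩

end Generic

/-! ### The frozen global objects -/

section Global

variable {k : Type} [CommRing k] (S : Finset Nat.Primes) (M : Rep k GQ)

theorem cochains₁_levelsS : (levelsS S).cochains₁ M = levelCochainsS₁ S M :=
  Submodule.ext fun f => isConst₁_levelsS_iff S f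

theorem cochains₂_levelsS : (levelsS S).cochains₂ M = levelCochainsS₂ S M :=
  Submodule.ext fun f => isConst₂_levelsS_iff S f

theorem cocycles₂_levelsS : (levelsS S).cocycles₂ M = levelCocyclesS₂ S M := by
  unfold LevelStructure.cocycles₂ levelCocyclesS₂
  rw [cochains₂_levelsS]

theorem coboundaries₂_levelsS : (levelsS S).coboundaries₂ M = levelCoboundariesS₂ S M := by
  unfold LevelStructure.coboundaries₂ levelCoboundariesS₂
  rw [cochains₁_levelsS]

/-- The frozen `continuousH2S S M` is the level `H²` of `levelsS S`. -/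
def continuousH2SEquiv : continuousH2S S M ≃ₗ[k] (levelsS S).H2 M :=
  quotCongr (cocycles₂_levelsS S M).symm (coboundaries₂_levelsS S M).symm

@[simp]
theorem continuousH2SEquiv_mk (c : levelCocyclesS₂ S M) :
    continuousH2SEquiv S M (continuousH2Sπ S M c) =
      (levelsS S).H2π M ⟨c.1, (cocycles₂_levelsS S M).symm ▸ c.2⟩ :=
  quotCongr_mk _ _ c

/-- The frozen `continuousH1S S M` is the image of the level `H¹` of `levelsS S`. -/
theorem range_H1ToAbstract_levelsS :
    LinearMap.range (H1ToAbstract M (levelsS S)) = continuousH1S S M := by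
  ext x
  rw [mem_range_H1ToAbstract_iff, mem_continuousH1S_iff]
  constructor
  · rintro ⟨c, hc, rfl⟩
    exact ⟨c, (isConst₁_levelsS_iff S _).mp hc, rfl⟩
  · rintro ⟨c, hc, rfl⟩
    exact ⟨c, (isConst₁_levelsS_iff S _).mpr hc, rfl⟩

end Global

/-! ### The frozen objects attached to `r : G →* G_ℚ` -/

section Relative

variable {k : Type} [CommRing k] {G : Type} [Group G] (r : G →* GQ) (N : Rep k G)

theorem cochains₁_levelsAll_comap : (levelsAll.comap r).cochains₁ N = levelCochains₁ r N :=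
  Submodule.ext fun f => isConst₁_levelsAll_comap_iff r f

theorem cochains₂_levelsAll_comap : (levelsAll.comap r).cochains₂ N = levelCochains₂ r N :=
  Submodule.ext fun f => isConst₂_levelsAll_comap_iff r f

theorem cocycles₂_levelsAll_comap : (levelsAll.comap r).cocycles₂ N = levelCocycles₂ r N := by
  unfold LevelStructure.cocycles₂ levelCocycles₂
  rw [cochains₂_levelsAll_comap]

theorem coboundaries₂_levelsAll_comap :
    (levelsAll.comap r).coboundaries₂ N = levelCoboundaries₂ r N := by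
  unfold LevelStructure.coboundaries₂ levelCoboundaries₂
  rw [cochains₁_levelsAll_comap]

/-- The frozen `continuousH2 r N` is the level `H²` of `levelsAll.comap r`. -/
def continuousH2Equiv : continuousH2 r N ≃ₗ[k] (levelsAll.comap r).H2 N :=
  quotCongr (cocycles₂_levelsAll_comap r N).symm (coboundaries₂_levelsAll_comap r N).symm

@[simp]
theorem continuousH2Equiv_mk (c : levelCocycles₂ r N) :
    continuousH2Equiv r N (continuousH2π r N c) =
      (levelsAll.comap r).H2π N ⟨c.1, (cocycles₂_levelsAll_comap r N).symm ▸ c.2⟩ :=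
  quotCongr_mk _ _ c

/-- The frozen `continuousH1 r N` is the image of the level `H¹` of `levelsAll.comap r`. -/
theorem range_H1ToAbstract_levelsAll_comap :
    LinearMap.range (H1ToAbstract N (levelsAll.comap r)) = continuousH1 r N := by
  ext x
  rw [mem_range_H1ToAbstract_iff, mem_continuousH1_iff]
  constructor
  · rintro ⟨c, hc, rfl⟩
    exact ⟨c, (isConst₁_levelsAll_comap_iff r _).mp hc, rfl⟩
  · rintro ⟨c, hc, rfl⟩
    exact ⟨c, (isConst₁_levelsAll_comap_iff r _).mpr hc, rfl⟩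

end Relative

/-! ### Local comparison (Krasner) -/

section Local

variable {k : Type} [CommRing k] (q : ℕ) [Fact q.Prime]
  (N : Rep k (PadicAlgCl q ≃ₐ[ℚ_[q]] PadicAlgCl q))

/-- `H²` of the honest local level structure = `H²` of the pulled-back global one. -/
def H2LocalEquiv :
    (levelsLocal q).H2 N ≃ₗ[k] (levelsAll.comap (localGaloisToGlobal q)).H2 N :=
  H2congr N (fun f => isConst₁_levelsLocal_iff_comap q f)
    (fun f => isConst₂_levelsLocal_iff_comap q f)

/-- `H¹` of the honest local level structure = `H¹` of the pulled-back global one. -/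
def H1LocalEquiv :
    (levelsLocal q).H1 N ≃ₗ[k] (levelsAll.comap (localGaloisToGlobal q)).H1 N :=
  H1congr N (fun f => isConst₁_levelsLocal_iff_comap q f)

/-- The frozen local `continuousH2` is the `H²` of the honest local level structure. -/
def continuousH2LocalEquiv :
    continuousH2 (localGaloisToGlobal q) N ≃ₗ[k] (levelsLocal q).H2 N :=
  (continuousH2Equiv (localGaloisToGlobal q) N).trans (H2LocalEquiv q N).symm

end Local

/-! ### `Nat.Primes`-indexed wrappers (the groups used by `extArithLoc`) -/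

section PrimeLocal

open ExtCitation

variable {k : Type} [CommRing k] (q : Nat.Primes)

/-- The honest local level structure on the frozen `primeLocalGaloisGroup q`. -/
def levelsPrime : LevelStructure (primeLocalGaloisGroup q) :=
  letI : Fact (q : ℕ).Prime := ⟨q.2⟩
  levelsLocal (q : ℕ)

theorem isConst₁_levelsPrime_iff {X : Type*} (f : primeLocalGaloisGroup q → X) :
    (levelsPrime q).IsConst₁ f ↔ (levelsAll.comap (primeLocalToGlobal q)).IsConst₁ f :=
  letI : Fact (q : ℕ).Prime := ⟨q.2⟩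
  isConst₁_levelsLocal_iff_comap (q : ℕ) f

theorem isConst₂_levelsPrime_iff {X : Type*}
    (f : primeLocalGaloisGroup q × primeLocalGaloisGroup q → X) :
    (levelsPrime q).IsConst₂ f ↔ (levelsAll.comap (primeLocalToGlobal q)).IsConst₂ f :=
  letI : Fact (q : ℕ).Prime := ⟨q.2⟩
  isConst₂_levelsLocal_iff_comap (q : ℕ) f

variable (N : Rep k (primeLocalGaloisGroup q))

/-- The frozen `continuousH2 (primeLocalToGlobal q) N` is the `H²` of the honest local level
structure. -/
def continuousH2PrimeEquiv :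
    continuousH2 (primeLocalToGlobal q) N ≃ₗ[k] (levelsPrime q).H2 N :=
  (continuousH2Equiv (primeLocalToGlobal q) N).trans
    (H2congr N (fun f => isConst₁_levelsPrime_iff q f)
      (fun f => isConst₂_levelsPrime_iff q f)).symm

/-- The frozen `continuousH1 (primeLocalToGlobal q) N` is the image of the `H¹` of the honest
local level structure. -/
theorem range_H1ToAbstract_levelsPrime :
    LinearMap.range (H1ToAbstract N (levelsPrime q)) = continuousH1 (primeLocalToGlobal q) N := by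
  rw [← range_H1ToAbstract_levelsAll_comap]
  ext x
  rw [mem_range_H1ToAbstract_iff, mem_range_H1ToAbstract_iff]
  constructor
  · rintro ⟨c, hc, rfl⟩
    exact ⟨c, (isConst₁_levelsPrime_iff q _).mp hc, rfl⟩
  · rintro ⟨c, hc, rfl⟩
    exact ⟨c, (isConst₁_levelsPrime_iff q _).mpr hc, rfl⟩

end PrimeLocal

end

end Fermat.Agent.CFT.H87
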