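import Mathlib
import Fermat.Agent.CFT.H78_UnrField
import Fermat.Agent.CFT.H87_Levels
import Fermat.Agent.CFT.H87_LevelCohomology
import Fermat.Agent.CFT.H91_Formation
import Fermat.Agent.CFT.H69_DegLocal
import Fermat.Agent.CFT.H55_GalLevels

/-!
# CFT seam (S-3): the three local level structures agree (helper78)

`H78.localLevels q` (finite *Galois* subextensions), `H87.levelsLocal q` (all finite
subextensions) and `H55.pullLevels (localGaloisToGlobal q)` have the same open subgroups and
the same level-constant cochains; moreover the levels of `localLevels q` are exactly the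
*normal* levels of `levelsLocal q`, so (p-)class formations transport verbatim.
-/

set_option autoImplicit false

universe u v

open IntermediateField

namespace Fermat.Agent.CFT.H78

open Fermat.Agent.CFT

section GenericFormation

variable {k : Type} [CommRing k] {Γ : Type} [Group Γ]

/-- transport of discreteness along "every level of `𝓛` contains a level of `𝓛'`". -/
theorem isDiscrete_of_le {𝓛 𝓛' : LevelStructure Γ} {C : Rep.{0} k Γ}
    (h : ∀ N ∈ 𝓛.levels, ∃ N' ∈ 𝓛'.levels, N' ≤ N) (hC : 𝓛.IsDiscrete C) :
    𝓛'.IsDiscrete C := by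
  intro a
  obtain ⟨N, hN, ha⟩ := hC a
  obtain ⟨N', hN', hle⟩ := h N hN
  exact ⟨N', hN', fun n hn => ha n (hle hn)⟩

/-- A class formation only sees the NORMAL levels: if every normal level of `𝓛'` is a level
of `𝓛`, a class formation for `𝓛` is one for `𝓛'`. -/
noncomputable def classFormationOfNormalLevels {𝓛 𝓛' : LevelStructure Γ} {C : Rep.{0} k Γ}
    (F : ClassFormation 𝓛 C)
    (hlev : ∀ N ∈ 𝓛'.levels, N.Normal → N ∈ 𝓛.levels)
    (hd : 𝓛'.IsDiscrete C) : ClassFormation 𝓛' C where
  discrete := hd
  fund U hU hn := F.fund U (hlev U hU hn)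
  isClass U hU hn := F.isClass U (hlev U hU hn)
  inf_fund U V hU hV hUn hVn h := F.inf_fund U V (hlev U hU hUn) (hlev V hV hVn) h

/-- the same for `p`-class formations. -/
noncomputable def pClassFormationOfNormalLevels {p : ℕ} {𝓛 𝓛' : LevelStructure Γ}
    {C : Rep.{0} k Γ} (F : PClassFormation p 𝓛 C)
    (hlev : ∀ N ∈ 𝓛'.levels, N.Normal → N ∈ 𝓛.levels)
    (hd : 𝓛'.IsDiscrete C) : PClassFormation p 𝓛' C where
  discrete := hd
  fund U hU hn := F.fund U (hlev U hU hn)
  isClass U hU hn := F.isClass U (hlev U hU hn)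
  inf_fund U V hU hV hUn hVn h := F.inf_fund U V (hlev U hU hUn) (hlev V hV hVn) h

end GenericFormation

section GenericGalois

variable {K : Type v} {Ω : Type u} [Field K] [Field Ω] [Algebra K Ω]

/-- in a Galois extension, the levels of `galoisLevels` are exactly the normal fixing subgroups
of finite subextensions. -/
theorem mem_galoisLevels_iff_normal [IsGalois K Ω] {U : Subgroup (Ω ≃ₐ[K] Ω)} :
    U ∈ (galoisLevels K Ω).levels ↔
      (∃ F : IntermediateField K Ω, FiniteDimensional K F ∧ U = F.fixingSubgroup) ∧ U.Normal := by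
  constructor
  · intro hU
    refine ⟨?_, normal_of_mem_galoisLevels hU⟩
    obtain ⟨F, hfd, -, rfl⟩ := hU
    exact ⟨F, hfd, rfl⟩
  · rintro ⟨⟨F, hfd, rfl⟩, hn⟩
    exact ⟨F, hfd, (InfiniteGalois.normal_iff_isGalois F).mp hn, rfl⟩

end GenericGalois

section Local

variable (q : ℕ) [Fact q.Prime]

/-- every level of `localLevels q` is a level of helper87's `levelsLocal q`. -/
theorem localLevels_subset_levelsLocal :
    (localLevels q).levels ⊆ (H87.levelsLocal q).levels := by
  rintro _ ⟨F, hfd, -, rfl⟩
  exact ⟨F, hfd, rfl⟩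

/-- the levels of `localLevels q` are exactly the NORMAL levels of `levelsLocal q`. -/
theorem mem_localLevels_iff {U : Subgroup (LocalGal q)} :
    U ∈ (localLevels q).levels ↔ U ∈ (H87.levelsLocal q).levels ∧ U.Normal :=
  mem_galoisLevels_iff_normal

/-- every level of `levelsLocal q` contains a level of `localLevels q`. -/
theorem exists_localLevel_le {N : Subgroup (LocalGal q)} (hN : N ∈ (H87.levelsLocal q).levels) :
    ∃ N' ∈ (localLevels q).levels, N' ≤ N := by
  obtain ⟨N', hN', hle, hn⟩ := (H87.levelsLocal q).exists_normal N hN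
  exact ⟨N', (mem_localLevels_iff q).mpr ⟨hN', hn⟩, hle⟩

/-- **(S-3)** `localLevels q` and `levelsLocal q` are mutually cofinal. -/
theorem cofinal_localLevels_levelsLocal : H87.Cofinal (localLevels q) (H87.levelsLocal q) :=
  ⟨fun N hN => ⟨N, localLevels_subset_levelsLocal q hN, le_rfl⟩,
    fun _ hN => exists_localLevel_le q hN⟩

/-- same open subgroups. -/
theorem isOpen_localLevels_iff {U : Subgroup (LocalGal q)} :
    (localLevels q).IsOpen U ↔ (H87.levelsLocal q).IsOpen U := by
  constructor
  · rintro ⟨N, hN, hle⟩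
    exact ⟨N, localLevels_subset_levelsLocal q hN, hle⟩
  · rintro ⟨N, hN, hle⟩
    obtain ⟨N', hN', hle'⟩ := exists_localLevel_le q hN
    exact ⟨N', hN', hle'.trans hle⟩

/-- `localUnits q` is discrete for helper87's `levelsLocal q`. -/
theorem isDiscrete_localUnits_levelsLocal : (H87.levelsLocal q).IsDiscrete (localUnits q) :=
  isDiscrete_of_le (fun N hN => ⟨N, localLevels_subset_levelsLocal q hN, le_rfl⟩)
    (isDiscrete_localUnits q)

/-- a class formation for `localLevels q` is a class formation for `levelsLocal q`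
(same fundamental classes). -/
noncomputable def classFormationLevelsLocal {C : Rep.{0} ℤ (LocalGal q)}
    (F : ClassFormation (localLevels q) C) : ClassFormation (H87.levelsLocal q) C :=
  classFormationOfNormalLevels F (fun _ hN hn => (mem_localLevels_iff q).mpr ⟨hN, hn⟩)
    (isDiscrete_of_le (fun N hN => ⟨N, localLevels_subset_levelsLocal q hN, le_rfl⟩) F.discrete)

/-- and conversely. -/
noncomputable def classFormationLocalLevels {C : Rep.{0} ℤ (LocalGal q)}
    (F : ClassFormation (H87.levelsLocal q) C) : ClassFormation (localLevels q) C :=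
  classFormationOfNormalLevels F (fun _ hN _ => localLevels_subset_levelsLocal q hN)
    (isDiscrete_of_le (fun _ hN => exists_localLevel_le q hN) F.discrete)

/-- `p`-class formation version. -/
noncomputable def pClassFormationLevelsLocal {p : ℕ} {C : Rep.{0} ℤ (LocalGal q)}
    (F : PClassFormation p (localLevels q) C) : PClassFormation p (H87.levelsLocal q) C :=
  pClassFormationOfNormalLevels F (fun _ hN hn => (mem_localLevels_iff q).mpr ⟨hN, hn⟩)
    (isDiscrete_of_le (fun N hN => ⟨N, localLevels_subset_levelsLocal q hN, le_rfl⟩) F.discrete)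

/-- **(S-5) local (DIV) for `localLevels q`** (from helper69's `H69_DegLocal`): every open
subgroup contains a (normal) level of relative index divisible by `p ^ n`. -/
theorem exists_localLevel_le_pow_dvd_relIndex {p : ℕ} [Fact p.Prime] (hp2 : p ≠ 2)
    (U : Subgroup (LocalGal q)) (hU : (localLevels q).IsOpen U) (n : ℕ) :
    ∃ N' ∈ (localLevels q).levels, N'.Normal ∧ N' ≤ U ∧ p ^ n ∣ N'.relIndex U := by
  obtain ⟨N', hN', hn, hle, hdvd⟩ :=
    H69.exists_normal_levelLocal_le_pow_dvd_relIndex hp2 q U ((isOpen_localLevels_iff q).mp hU) n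
  exact ⟨N', (mem_localLevels_iff q).mpr ⟨hN', hn⟩, hn, hle, hdvd⟩

end Local

section Global

/-- every level of `globalLevelsAll` is a level of helper87's `levelsAll`. -/
theorem globalLevelsAll_subset_levelsAll : globalLevelsAll.levels ⊆ H87.levelsAll.levels := by
  rintro _ ⟨F, hfd, -, rfl⟩
  exact ⟨F, hfd, rfl⟩

/-- the levels of `globalLevelsAll` are exactly the NORMAL levels of `levelsAll`. -/
theorem mem_globalLevelsAll_iff {U : Subgroup GQ} :
    U ∈ globalLevelsAll.levels ↔ U ∈ H87.levelsAll.levels ∧ U.Normal :=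
  have := isGalois_Qbar
  mem_galoisLevels_iff_normal

theorem cofinal_globalLevelsAll_levelsAll : H87.Cofinal globalLevelsAll H87.levelsAll :=
  ⟨fun N hN => ⟨N, globalLevelsAll_subset_levelsAll hN, le_rfl⟩, fun N hN => by
    obtain ⟨N', hN', hle, hn⟩ := H87.levelsAll.exists_normal N hN
    exact ⟨N', mem_globalLevelsAll_iff.mpr ⟨hN', hn⟩, hle⟩⟩

/-- helper55's `allLevels` and helper87's `levelsAll` are the same level structure. -/
theorem allLevels_eq_levelsAll : Fermat.Agent.CFT.allLevels = H87.levelsAll := rfl

/-- helper55's `globalLevels S` and helper87's `levelsS S` are the same level structure. -/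
theorem globalLevels_eq_levelsS (S : Finset Nat.Primes) :
    Fermat.Agent.CFT.globalLevels S = H87.levelsS S := rfl

theorem cofinal_globalLevelsAll_allLevels :
    H87.Cofinal globalLevelsAll Fermat.Agent.CFT.allLevels :=
  cofinal_globalLevelsAll_levelsAll

end Global

section LocalGlobal

open groupCohomology

variable (q : ℕ) [Fact q.Prime]

/-- **(S-3), Krasner**: `localLevels q` is mutually cofinal with the pull-back of all global
levels along `localGaloisToGlobal q` (helper87's form). -/
theorem cofinal_localLevels_comap_levelsAll :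
    H87.Cofinal (localLevels q) (H87.levelsAll.comap (localGaloisToGlobal q)) := by
  constructor
  · rintro _ ⟨K, hfd, -, rfl⟩
    obtain ⟨F, hF, h⟩ :=
      H87.exists_global_comap_le q (H15.adjoin_range_padicEmbedding_eq_top q) K
    exact ⟨_, ⟨_, ⟨F, hF, rfl⟩, rfl⟩, fun s hs => h s hs⟩
  · rintro _ ⟨_, ⟨F, hF, rfl⟩, rfl⟩
    obtain ⟨K, hfd, hgal, h⟩ := H87.exists_local_galois_le_comap q F
    exact ⟨_, ⟨K, hfd, hgal, rfl⟩, fun s hs => h s hs⟩

/-- the same for helper55's `pullLevels (localGaloisToGlobal q)`. -/
theorem cofinal_localLevels_pullLevels :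
    H87.Cofinal (localLevels q) (Fermat.Agent.CFT.pullLevels (localGaloisToGlobal q)) :=
  cofinal_localLevels_comap_levelsAll q

/-- same open subgroups for `localLevels q` and `pullLevels (localGaloisToGlobal q)`. -/
theorem isOpen_localLevels_iff_pullLevels {U : Subgroup (LocalGal q)} :
    (localLevels q).IsOpen U ↔
      (Fermat.Agent.CFT.pullLevels (localGaloisToGlobal q)).IsOpen U := by
  constructor
  · rintro ⟨N, hN, hle⟩
    obtain ⟨N', hN', hle'⟩ := (cofinal_localLevels_pullLevels q).1 N hN
    exact ⟨N', hN', hle'.trans hle⟩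
  · rintro ⟨N, hN, hle⟩
    obtain ⟨N', hN', hle'⟩ := (cofinal_localLevels_pullLevels q).2 N hN
    exact ⟨N', hN', hle'.trans hle⟩

end LocalGlobal

end Fermat.Agent.CFT.H78
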