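import Mathlib
import Fermat.Agent.CFT.H23_CDescent
import Fermat.Agent.CFT.H79_SecondBridgePow

/-!
# CFT / layer C : the second inequality for the Galois norm subgroup

For `F / K` Galois and `Nm := {c ∈ CS S K | baseChange c ∈ range (∏_σ σ • ·)}` (helper23's
`normSubgroup`, stated here with the explicit product so that the file only needs
`H23_CDescent`):
* `baseChange_pow_finrank` : `baseChange (c ^ [F:K]) = ∏_σ σ • baseChange c` (`hpow`),
* `baseChange_single_eq_prod_smul` : for `w ∣ v` with trivial decomposition group,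
  `baseChange (1, v) = ∏_σ σ • (1, w)` (`hsplit`),
* `galNormSubgroup_index_le` : the norm subgroup has index `≤ [F : K]` when `[F : K] = p ∈ S`.
-/

set_option autoImplicit false

open scoped TensorProduct NumberField Pointwise
open IsDedekindDomain
open Fermat.Agent.CFT.H42 Fermat.Agent.CFT.H23

namespace Fermat.Agent.CFT.H79

noncomputable section NormSubgroup

variable (S : Finset Nat.Primes) (K F : Type*) [Field K] [NumberField K] [Field F] [NumberField F]
  [Algebra K F]

/-- `hpow` : `N(c) = c ^ [F:K]` for `c ∈ C_K` -/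
theorem baseChange_pow_finrank [IsGalois K F] [Fintype (F ≃ₐ[K] F)] (c : CS S K) :
    CS.baseChange S K F (c ^ Module.finrank K F) =
      ∏ σ : F ≃ₐ[K] F, σ • CS.baseChange S K F c := by
  have hfd : FiniteDimensional K F := finiteDimensional_of_numberField K F
  simp_rw [smul_CS_baseChange]
  rw [Finset.prod_const, Finset.card_univ, map_pow, Fintype.card_eq_nat_card,
    IsGalois.card_aut_eq_finrank]

/-- `hsplit`, abstract form: if the decomposition group of `w ∣ v` is trivial and `e(w|v) = 1`,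
then `baseChange (1, v) = ∏_σ σ • (1, w)`. -/
theorem baseChange_single_eq_prod_smul [IsGalois K F] [Fintype (F ≃ₐ[K] F)]
    (v : PrimesOutside S K) (w : PrimesOutside S F) (hwv : PrimesOutside.under S K F w = v)
    (he : ramIdx K F w.1 = 1) (hstab : ∀ σ : F ≃ₐ[K] F, σ • w = w → σ = 1) :
    IdS.baseChange S K F ((1, Multiplicative.ofAdd (Finsupp.single v (1 : ℤ))) : IdS S K) =
      ∏ σ : F ≃ₐ[K] F, σ • ((1, Multiplicative.ofAdd (Finsupp.single w (1 : ℤ))) : IdS S F) := by
  classical
  refine Prod.ext ?_ ?_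
  · rw [IdS.baseChange_fst, Prod.fst_prod]
    show JS.baseChange S K F 1 = ∏ σ : F ≃ₐ[K] F, σ • (1 : JS S F)
    rw [map_one]
    have h1 : ∀ σ : F ≃ₐ[K] F, σ • (1 : JS S F) = 1 := by
      intro σ
      funext q
      show σ • (1 : (Loc F q.1)ˣ) = 1
      exact smul_one σ
    simp_rw [h1]
    rw [Finset.prod_const_one]
  · rw [Prod.snd_prod]
    apply Multiplicative.toAdd.injective
    rw [IdS.baseChange_snd, toAdd_prod]
    ext u
    rw [DivS.baseChange_apply, Finsupp.finsetSum_apply]
    have hterm : ∀ σ : F ≃ₐ[K] F,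
        (Multiplicative.toAdd ((σ • ((1, Multiplicative.ofAdd (Finsupp.single w (1 : ℤ))) :
          IdS S F)).2)) u = if σ • w = u then 1 else 0 := by
      intro σ
      show (σ • (Finsupp.single w (1 : ℤ) : DivS S F)) u = _
      rw [smul_divS_apply, Finsupp.single_apply]
      by_cases h : σ • w = u
      · rw [if_pos h, if_pos]
        rw [← h, inv_smul_smul]
      · rw [if_neg h, if_neg]
        intro h'
        exact h (by rw [h', smul_inv_smul])
    simp_rw [hterm]
    by_cases hu : PrimesOutside.under S K F u = v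
    · obtain ⟨τ, hτ⟩ := PrimesOutside.exists_smul_eq_of_under_eq S K F (w := w) (w' := u)
        (by rw [hwv, hu])
      have hsum : (∑ σ : F ≃ₐ[K] F, if σ • w = u then (1 : ℤ) else 0) = 1 := by
        rw [Finset.sum_eq_single τ]
        · rw [if_pos hτ]
        · intro σ _ hσ
          rw [if_neg]
          intro h
          apply hσ
          have : (τ⁻¹ * σ) • w = w := by
            rw [mul_smul, h, ← hτ, inv_smul_smul]
          have h1 := hstab _ this
          rw [inv_mul_eq_one] at h1
          exact h1.symm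
        · intro h; exact absurd (Finset.mem_univ τ) h
      have hram : ramIdx K F u.1 = 1 := by
        rw [← hτ, coe_smul_primesOutside, ramIdx_smul, he]
      rw [hsum, hu, hram]
      show ((1 : ℕ) : ℤ) * (Finsupp.single v (1 : ℤ)) v = 1
      rw [Finsupp.single_eq_same]; norm_num
    · have hsum : (∑ σ : F ≃ₐ[K] F, if σ • w = u then (1 : ℤ) else 0) = 0 := by
        apply Finset.sum_eq_zero
        intro σ _
        rw [if_neg]
        intro h
        apply hu
        rw [← h, PrimesOutside.under_smul, hwv]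
      rw [hsum]
      show (ramIdx K F u.1 : ℤ) * (Finsupp.single v (1 : ℤ)) (PrimesOutside.under S K F u) = 0
      rw [Finsupp.single_apply, if_neg (fun h => hu h.symm), mul_zero]

/-- the action of `H23_CDefs` on primes is the pointwise action on ideals (cf. `H27.asIdeal_smul`) -/
theorem asIdeal_smul_eq (g : F ≃ₐ[K] F) (w : HeightOneSpectrum (𝓞 F)) :
    (g • w).asIdeal = g • w.asIdeal := by
  ext x
  rw [mem_smul_prime_iff, Ideal.mem_pointwise_smul_iff_inv_smul_mem]

/-- a prime with `e = f = 1` has trivial decomposition group -/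
theorem eq_one_of_smul_eq_of_split [IsGalois K F] (w : HeightOneSpectrum (𝓞 F))
    (he : ramIdx K F w = 1) (hf : w.asIdeal.inertiaDeg (𝓞 K) = 1)
    (σ : F ≃ₐ[K] F) (hσ : σ • w = w) : σ = 1 := by
  have : w.asIdeal.LiesOver (w.under (𝓞 K)).asIdeal := by
    rw [HeightOneSpectrum.under_asIdeal]
    infer_instance
  have hmem : σ ∈ MulAction.stabilizer (F ≃ₐ[K] F) w.asIdeal := by
    rw [MulAction.mem_stabilizer_iff, ← asIdeal_smul_eq, hσ]
  have hcard := Ideal.card_stabilizer_eq (G := F ≃ₐ[K] F) (w.under (𝓞 K)).asIdeal w.asIdeal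
  rw [Ideal.ramificationIdxIn_eq_ramificationIdx (w.under (𝓞 K)).asIdeal w.asIdeal (F ≃ₐ[K] F),
    Ideal.inertiaDegIn_eq_inertiaDeg (w.under (𝓞 K)).asIdeal w.asIdeal (F ≃ₐ[K] F), hf,
    ← Ideal.ramificationIdx'_eq_ramificationIdx (w.under (𝓞 K)).asIdeal w.asIdeal
      (w.under (𝓞 K)).ne_bot] at hcard
  have he' : (w.under (𝓞 K)).asIdeal.ramificationIdx' w.asIdeal = 1 := he
  rw [he', mul_one, Subgroup.card_eq_one] at hcard
  rw [hcard, Subgroup.mem_bot] at hmem
  exact hmem

/-- `hsplit` : for `v` outside `S` with a degree one prime above (and `F / K` unramified outside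
`S`), the divisor `v` is a Galois norm after base change. -/
theorem exists_baseChange_single_eq_prod_smul [IsGalois K F] [Fintype (F ≃ₐ[K] F)]
    (hur : UnramOutside S K F) (v : PrimesOutside S K)
    (hv : v.1 ∈ Fermat.Agent.S14.H79.splitPrimes K F) :
    ∃ w : PrimesOutside S F,
      IdS.baseChange S K F ((1, Multiplicative.ofAdd (Finsupp.single v (1 : ℤ))) : IdS S K) =
        ∏ σ : F ≃ₐ[K] F, σ • ((1, Multiplicative.ofAdd (Finsupp.single w (1 : ℤ))) : IdS S F) := by
  obtain ⟨𝔓, h𝔓v, hf⟩ := hv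
  have hout : ∀ q ∈ S, (((q : Nat.Primes) : ℕ) : 𝓞 F) ∉ 𝔓.asIdeal := by
    intro q hq h
    refine v.2 q hq ?_
    rw [← h𝔓v]
    exact (natCast_mem_under_iff K F 𝔓 _).2 h
  refine ⟨⟨𝔓, hout⟩, ?_⟩
  refine baseChange_single_eq_prod_smul S K F v ⟨𝔓, hout⟩ (Subtype.ext h𝔓v) (hur ⟨𝔓, hout⟩) ?_
  intro σ hσ
  exact eq_one_of_smul_eq_of_split K F 𝔓 (hur ⟨𝔓, hout⟩) hf σ (congrArg Subtype.val hσ)

/-- **The second inequality for a Galois extension of prime degree `p ∈ S`, unramified outside
`S`**: every subgroup `Nm ≤ CS S K` containing the classes whose base change is a Galois norm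
(`∏_σ σ • y`) has index `≤ p`.  (For helper23's `normSubgroup S K F` the hypothesis `hNm` is the
definition.) -/
theorem index_le_of_galNorm [IsGalois K F] [Fintype (F ≃ₐ[K] F)] (p : Nat.Primes) (hpS : p ∈ S)
    (hdeg : Module.finrank K F = (p : ℕ)) (hur : UnramOutside S K F)
    (Nm : Subgroup (CS S K))
    (hNm : ∀ c : CS S K,
      (∃ y : CS S F, CS.baseChange S K F c = ∏ σ : F ≃ₐ[K] F, σ • y) → c ∈ Nm) :
    Nm.index ≠ 0 ∧ Nm.index ≤ (p : ℕ) := by
  rw [← hdeg]
  refine index_le_of_pow_mem' S K F p hpS Nm ?_ ?_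
  · intro c
    refine hNm _ ⟨CS.baseChange S K F c, ?_⟩
    rw [← hdeg]
    exact baseChange_pow_finrank S K F c
  · intro v hv
    obtain ⟨w, hw⟩ := exists_baseChange_single_eq_prod_smul S K F hur v hv
    refine hNm _ ⟨toCS S F (1, Multiplicative.ofAdd (Finsupp.single w (1 : ℤ))), ?_⟩
    rw [CS.baseChange_toCS, hw, map_prod]
    rfl

end NormSubgroup




end Fermat.Agent.CFT.H79
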