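import Mathlib
import Fermat.Agent.CFT.H23_CNorm
import Fermat.Agent.CFT.H79_SecondBridgeNorm

/-!
# CFT / layer C : the second inequality, in helper23's `normSubgroup` / `A.H0hat` vocabulary

For `F / K` Galois of prime degree `p ∈ S`, unramified outside `S`:
* `normSubgroup_index_le` : `(normSubgroup S K F).index ≠ 0 ∧ (normSubgroup S K F).index ≤ p`,
* `card_H0hat_repCS_le` : `Nat.card (A.H0hat (repCS S F K)) ≤ p` (the `hsecond` input of
  `H9.prime_layer_of_inequalities`), together with `card_H0hat_repCS_ne_zero` / `finite_H0hat_repCS`.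
-/

set_option autoImplicit false

open scoped TensorProduct NumberField Pointwise
open IsDedekindDomain
open Fermat.Agent.CFT.H42 Fermat.Agent.CFT.H23

namespace Fermat.Agent.CFT.H79

noncomputable section SecondIneqCS

section General

variable (S : Finset Nat.Primes) (K F : Type*) [Field K] [NumberField K] [Field F] [NumberField F]
  [Algebra K F]

/-- **Second inequality** for helper23's norm subgroup: `[C_K : N_{F/K} C_F] ≤ p` for `F / K` Galois
of prime degree `p ∈ S`, unramified outside `S`. -/
theorem normSubgroup_index_le [IsGalois K F] (p : Nat.Primes) (hpS : p ∈ S)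
    (hdeg : Module.finrank K F = (p : ℕ)) (hur : UnramOutside S K F) :
    (normSubgroup S K F).index ≠ 0 ∧ (normSubgroup S K F).index ≤ (p : ℕ) :=
  index_le_of_galNorm S K F p hpS hdeg hur (normSubgroup S K F)
    (fun c ⟨y, hy⟩ => (mem_normSubgroup_iff S K F c).mpr ⟨y, hy.symm⟩)

end General

section Rep

variable (S : Finset Nat.Primes) (K F : Type) [Field K] [NumberField K] [Field F] [NumberField F]
  [Algebra K F] [IsGalois K F]

/-- **Second inequality**, cohomological form: `|Ĥ⁰(Gal(F/K), C_F)| ≤ p`. -/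
theorem card_H0hat_repCS_le (p : Nat.Primes) (hpS : p ∈ S)
    (hdeg : Module.finrank K F = (p : ℕ)) (hur : UnramOutside S K F) :
    Nat.card (Fermat.Agent.CFT.A.H0hat (repCS S F K)) ≤ (p : ℕ) := by
  rw [card_H0hat_repCS S K F ⟨p, hpS⟩ hur]
  exact (normSubgroup_index_le S K F p hpS hdeg hur).2

theorem card_H0hat_repCS_ne_zero (p : Nat.Primes) (hpS : p ∈ S)
    (hdeg : Module.finrank K F = (p : ℕ)) (hur : UnramOutside S K F) :
    Nat.card (Fermat.Agent.CFT.A.H0hat (repCS S F K)) ≠ 0 := by
  rw [card_H0hat_repCS S K F ⟨p, hpS⟩ hur]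
  exact (normSubgroup_index_le S K F p hpS hdeg hur).1

theorem finite_H0hat_repCS (p : Nat.Primes) (hpS : p ∈ S)
    (hdeg : Module.finrank K F = (p : ℕ)) (hur : UnramOutside S K F) :
    Finite (Fermat.Agent.CFT.A.H0hat (repCS S F K)) :=
  Nat.finite_of_card_ne_zero (card_H0hat_repCS_ne_zero S K F p hpS hdeg hur)

end Rep

end SecondIneqCS

end Fermat.Agent.CFT.H79
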