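import Mathlib
import Fermat.Agent.CFT.H63_FirstIneqUncond
import Fermat.Agent.CFT.H79_SecondIneqCS

/-!
# CFT / layer C : the cyclic prime-degree layer theorem (`hcyc`)

`F / K` Galois of odd prime degree `p ∈ S`, unramified outside `S`: `H¹(Gal(F/K), CS S F) = 0` and
`|H²(Gal(F/K), CS S F)| = p`, from FIRST (`H63.first_inequality_repCS`), SECOND
(`H79.card_H0hat_repCS_le`) and `H9.prime_layer_of_inequalities`.
-/

set_option autoImplicit false

open scoped TensorProduct NumberField
open Fermat.Agent.CFT.H23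

namespace Fermat.Agent.CFT.H79

section CyclicLayer

variable (S : Finset Nat.Primes) (K F : Type) [Field K] [NumberField K] [Field F] [NumberField F]
  [Algebra K F] [IsGalois K F]

/-- **The prime layer theorem**: `H¹(G, C_F) = 0` and `|H²(G, C_F)| = p`. -/
theorem cyclic_layer (p : Nat.Primes) (hp2 : (p : ℕ) ≠ 2) (hpS : p ∈ S)
    (hdeg : Module.finrank K F = (p : ℕ)) (hur : UnramOutside S K F) :
    Subsingleton (groupCohomology (repCS S F K) 1) ∧
      Nat.card (groupCohomology (repCS S F K) 2) = (p : ℕ) := by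
  haveI : Fact (p : ℕ).Prime := ⟨p.2⟩
  obtain ⟨h0, -, hfirst⟩ :=
    Fermat.Agent.CFT.H63.first_inequality_repCS S (K := K) (F := F) hp2 hdeg ⟨p, hpS⟩
  refine Fermat.Agent.CFT.H9.prime_layer_of_inequalities (repCS S F K) p.2 ?_ h0 hfirst
    (card_H0hat_repCS_le S K F p hpS hdeg hur)
  rw [IsGalois.card_aut_eq_finrank, hdeg]

/-- The divisibility form consumed by `H40.PrimeLayers`. -/
theorem cyclic_layer' (p : Nat.Primes) (hp2 : (p : ℕ) ≠ 2) (hpS : p ∈ S)
    (hdeg : Module.finrank K F = (p : ℕ)) (hur : UnramOutside S K F) :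
    Subsingleton (groupCohomology (repCS S F K) 1) ∧
      Nat.card (groupCohomology (repCS S F K) 2) ∣ (p : ℕ) := by
  obtain ⟨h1, h2⟩ := cyclic_layer S K F p hp2 hpS hdeg hur
  exact ⟨h1, h2 ▸ dvd_rfl⟩

end CyclicLayer

end Fermat.Agent.CFT.H79
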