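import Mathlib
import Fermat.Agent.CFT.H81_TowerFinal
import Fermat.Agent.CFT.H12_LayersFinal

set_option autoImplicit false

/-!
# Layer C main theorem (X1), UNCONDITIONAL

(CFT / layer C, helper81.)  `G_S = Gal(ℚ_S/ℚ)` with the hybrid idele class module `CSTop S` is a
`p`-class formation, for `p` odd, `p ∈ S`:

* `cMain p hp2 S hpS : Nonempty (PClassFormation p (globalLevels S) (H77.repCSTop S))`.

Inputs: (O1) `H45.hasDivisors`, (O2) `H45.divDescent`, (O3) `H12.finiteLevelLayers_uncond`
(helper12/helper23/helper9/helper42 + FIRST/SECOND inequality teams), (O4) `finiteOrd_towerTop`,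
(O5) `finiteKey_towerTop'` (helper90's KEY + helper93's compositum), assembled through helper24's
`H24.nonempty_pClassFormation_of_finite`.
-/

namespace Fermat.Agent.CFT.H81

/-- **Layer C main theorem (X1)**: the `p`-class formation of `G_S`, unconditionally. -/
theorem cMain (p : ℕ) [hp : Fact p.Prime] (hp2 : p ≠ 2) (S : Finset Nat.Primes)
    (hpS : pPrime p ∈ S) :
    Nonempty (PClassFormation p (globalLevels S) (H77.repCSTop S)) :=
  nonempty_pClassFormation_of_layers p hp2 hpS (H12.finiteLevelLayers_uncond p hp2 S hpS)

end Fermat.Agent.CFT.H81
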