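import Mathlib
import Fermat.Agent.S14.H69_CycloSymbol
import Fermat.Agent.S14.H73_FieldsR
import Fermat.Agent.S14.H78_FieldsLemmas

/-!
# CFT / C-RECIP-ART (helper81): the elementary input of the global reciprocity law

Ideal-theoretic Artin reciprocity "away from `m`" for abelian extensions `L/K` of number fields
whose conductor divides `m∞` (e.g. subextensions of `K(ζ_m)/K`):

if `a = N_{L/K}(b) · c` with `c ≡ 1 mod× m` and `N_{K/ℚ}(c) > 0`, then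
`∏_{𝔭 ∤ m} Frob_𝔭 ^ v_𝔭(a) = 1` in `Gal(L/K)`.

No local class field theory is used; this is the step that replaces the explicit computation of
the local norm residue symbol of `ℚ_ℓ(ζ_{ℓ^r})/ℚ_ℓ` in the proof of `∑_v inv_v = 0`.
-/

set_option autoImplicit false

noncomputable section

namespace Fermat.Agent.CFT.H81

open NumberField UniqueFactorizationMonoid Fermat.Agent.S14.H27 Fermat.Agent.S14
open scoped Pointwise IsMulCommutative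

/-! ### Norm congruences -/

section NormCongr

variable {K : Type*} [Field K] [NumberField K]

/-- `x ≡ y mod m 𝓞_K` implies `N(x) ≡ N(y) mod m`. -/
theorem norm_intCast_zmod_eq (m : ℕ) {x y : 𝓞 K} (h : x - y ∈ Ideal.span {(m : 𝓞 K)}) :
    ((Algebra.norm ℤ x : ℤ) : ZMod m) = ((Algebra.norm ℤ y : ℤ) : ZMod m) := by
  classical
  obtain ⟨z, hz⟩ := Ideal.mem_span_singleton'.mp h
  have hx : x = y + z * (m : 𝓞 K) := by rw [hz]; ring
  let b := RingOfIntegers.basis K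
  rw [Algebra.norm_eq_matrix_det b, Algebra.norm_eq_matrix_det b]
  have e : ∀ M : Matrix (Module.Free.ChooseBasisIndex ℤ (𝓞 K))
      (Module.Free.ChooseBasisIndex ℤ (𝓞 K)) ℤ, ((M.det : ℤ) : ZMod m) =
      ((Int.castRingHom (ZMod m)).mapMatrix M).det := by
    intro M
    rw [← RingHom.map_det]
    rfl
  rw [e, e]
  congr 1
  rw [hx, map_add, map_mul, map_add]
  have h0 : (Int.castRingHom (ZMod m)).mapMatrix (Algebra.leftMulMatrix b ((m : 𝓞 K))) = 0 := by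
    have : ((m : 𝓞 K)) = algebraMap ℤ (𝓞 K) (m : ℤ) := by simp
    rw [this, AlgHom.commutes]
    ext i j
    simp
  rw [map_mul, h0, mul_zero, add_zero]

/-- `x ≡ y mod m 𝓞_K` and `N(x) N(y) > 0` imply `N((x)) ≡ N((y)) mod m` for the absolute
norms of the principal ideals. -/
theorem absNorm_span_zmod_eq (m : ℕ) {x y : 𝓞 K} (h : x - y ∈ Ideal.span {(m : 𝓞 K)})
    (hpos : 0 < Algebra.norm ℤ x * Algebra.norm ℤ y) :
    ((Ideal.absNorm (Ideal.span {x}) : ℕ) : ZMod m) = (Ideal.absNorm (Ideal.span {y}) : ℕ) := by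
  rw [Ideal.absNorm_span_singleton, Ideal.absNorm_span_singleton]
  have h1 := norm_intCast_zmod_eq m h
  have e : ∀ a : ℤ, ((a.natAbs : ℕ) : ZMod m) = ((|a| : ℤ) : ZMod m) := by
    intro a
    rw [← Int.cast_natCast, Int.natCast_natAbs]
  rw [e, e]
  rcases (mul_pos_iff.mp hpos) with ⟨hx, hy⟩ | ⟨hx, hy⟩
  · rw [abs_of_pos hx, abs_of_pos hy, h1]
  · rw [abs_of_neg hx, abs_of_neg hy, Int.cast_neg, Int.cast_neg, h1]

end NormCongr

/-! ### The Artin map away from `m` -/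

section Away

variable {K L : Type*} [Field K] [Field L] [NumberField K] [NumberField L]
  [Algebra K L] [IsGalois K L] [IsMulCommutative Gal(L/K)]

variable (L) in
open Classical in
/-- The Frobenius of `𝔭` if `m ∉ 𝔭`, and `1` otherwise. -/
def frobAway (m : ℕ) (𝔭 : Ideal (𝓞 K)) : Gal(L/K) :=
  if (m : 𝓞 K) ∈ 𝔭 then 1 else frobP L 𝔭

theorem frobAway_of_mem {m : ℕ} {𝔭 : Ideal (𝓞 K)} (h : (m : 𝓞 K) ∈ 𝔭) :
    frobAway L m 𝔭 = 1 := by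
  rw [frobAway, if_pos h]

theorem frobAway_of_not_mem {m : ℕ} {𝔭 : Ideal (𝓞 K)} (h : (m : 𝓞 K) ∉ 𝔭) :
    frobAway L m 𝔭 = frobP L 𝔭 := by
  rw [frobAway, if_neg h]

variable (L) in
/-- The Artin map "away from `m`" on integral ideals: the multiplicative extension of
`frobAway`, i.e. `∏_{𝔭 ∤ m} Frob_𝔭 ^ v_𝔭(𝔞)`. (Value `1` at the zero ideal.) -/
def artinAway (m : ℕ) (𝔞 : Ideal (𝓞 K)) : Gal(L/K) :=
  ((normalizedFactors 𝔞).map (frobAway L m)).prod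

@[simp]
theorem artinAway_one (m : ℕ) : artinAway L m (1 : Ideal (𝓞 K)) = 1 := by
  rw [artinAway, normalizedFactors_one, Multiset.map_zero, Multiset.prod_zero]

@[simp]
theorem artinAway_top (m : ℕ) : artinAway L m (⊤ : Ideal (𝓞 K)) = 1 := by
  rw [← Ideal.one_eq_top]; exact artinAway_one m

theorem artinAway_bot (m : ℕ) : artinAway L m (⊥ : Ideal (𝓞 K)) = 1 := by
  rw [artinAway, ← Ideal.zero_eq_bot, normalizedFactors_zero, Multiset.map_zero,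
    Multiset.prod_zero]

theorem artinAway_mul (m : ℕ) {𝔞 𝔟 : Ideal (𝓞 K)} (h𝔞 : 𝔞 ≠ ⊥) (h𝔟 : 𝔟 ≠ ⊥) :
    artinAway L m (𝔞 * 𝔟) = artinAway L m 𝔞 * artinAway L m 𝔟 := by
  rw [artinAway, artinAway, artinAway,
    normalizedFactors_mul (by simpa using h𝔞) (by simpa using h𝔟),
    Multiset.map_add, Multiset.prod_add]

theorem artinAway_prime (m : ℕ) (𝔭 : Ideal (𝓞 K)) [𝔭.IsPrime] (h𝔭 : 𝔭 ≠ ⊥) :
    artinAway L m 𝔭 = frobAway L m 𝔭 := by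
  have hirr : Irreducible 𝔭 := (Ideal.prime_of_isPrime h𝔭 inferInstance).irreducible
  rw [artinAway, normalizedFactors_irreducible hirr, normalize_eq, Multiset.map_singleton,
    Multiset.prod_singleton]

theorem artinAway_pow (m : ℕ) {𝔞 : Ideal (𝓞 K)} (h𝔞 : 𝔞 ≠ ⊥) (n : ℕ) :
    artinAway L m (𝔞 ^ n) = artinAway L m 𝔞 ^ n := by
  induction n with
  | zero => simp
  | succ n ih => rw [pow_succ, artinAway_mul m (pow_ne_zero n h𝔞) h𝔞, ih, pow_succ]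

/-- On ideals prime to `m` the Artin map away from `m` is the Artin map. -/
theorem artinAway_eq_artin (m : ℕ) {𝔞 : Ideal (𝓞 K)}
    (h : ∀ 𝔭 : Ideal (𝓞 K), 𝔭.IsPrime → 𝔞 ≤ 𝔭 → (m : 𝓞 K) ∉ 𝔭) :
    artinAway L m 𝔞 = artin L 𝔞 := by
  rw [artinAway, artin]
  congr 1
  apply Multiset.map_congr rfl
  intro 𝔭 h𝔭
  have hprime := prime_of_normalized_factor 𝔭 h𝔭
  exact frobAway_of_not_mem (h 𝔭 (Ideal.isPrime_of_prime hprime)
    (Ideal.le_of_dvd (dvd_of_mem_normalizedFactors h𝔭)))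

theorem artinAway_eq_artin_of_isCoprime (m : ℕ) {𝔞 : Ideal (𝓞 K)}
    (h : IsCoprime 𝔞 (Ideal.span {(m : 𝓞 K)})) : artinAway L m 𝔞 = artin L 𝔞 :=
  artinAway_eq_artin m (H69.natCast_not_mem_of_isCoprime h)

/-- Norms of prime ideals are in the kernel of the Artin map away from `m`, if `L/K` is
unramified outside `m`. -/
theorem artinAway_relNorm_prime (m : ℕ)
    (hur : ∀ (𝔓 : Ideal (𝓞 L)) [𝔓.IsPrime], 𝔓 ≠ ⊥ → (m : 𝓞 L) ∉ 𝔓 →
      Algebra.IsUnramifiedAt (𝓞 K) 𝔓)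
    (𝔓 : Ideal (𝓞 L)) [𝔓.IsPrime] (h𝔓 : 𝔓 ≠ ⊥) :
    artinAway L m (Ideal.relNorm (𝓞 K) 𝔓) = 1 := by
  have hp : 𝔓.under (𝓞 K) ≠ ⊥ := mt Ideal.eq_bot_of_comap_eq_bot h𝔓
  have : 𝔓.LiesOver (𝔓.under (𝓞 K)) := ⟨rfl⟩
  rw [relNorm_prime 𝔓 h𝔓, artinAway_pow m hp, artinAway_prime m _ hp]
  by_cases hm : (m : 𝓞 K) ∈ 𝔓.under (𝓞 K)
  · rw [frobAway_of_mem hm, one_pow]
  · have hm' : (m : 𝓞 L) ∉ 𝔓 := by
      intro h
      apply hm
      rw [Ideal.under_def, Ideal.mem_comap, map_natCast]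
      exact h
    rw [frobAway_of_not_mem hm, ← orderOf_frobP (𝔓.under (𝓞 K)) hp 𝔓 (hur 𝔓 h𝔓 hm'),
      pow_orderOf_eq_one]

/-- **Norms are in the kernel of the Artin map away from `m`.** -/
theorem artinAway_relNorm (m : ℕ)
    (hur : ∀ (𝔓 : Ideal (𝓞 L)) [𝔓.IsPrime], 𝔓 ≠ ⊥ → (m : 𝓞 L) ∉ 𝔓 →
      Algebra.IsUnramifiedAt (𝓞 K) 𝔓)
    (𝔄 : Ideal (𝓞 L)) : artinAway L m (Ideal.relNorm (𝓞 K) 𝔄) = 1 := by
  by_cases h𝔄 : 𝔄 = ⊥
  · rw [h𝔄, Ideal.relNorm_bot, artinAway_bot]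
  have key : ∀ s : Multiset (Ideal (𝓞 L)),
      (∀ 𝔓 ∈ s, ∃ _ : 𝔓.IsPrime, 𝔓 ≠ ⊥) →
      artinAway L m (Ideal.relNorm (𝓞 K) s.prod) = 1 := by
    intro s
    induction s using Multiset.induction_on with
    | empty => intro _; simp
    | cons 𝔓 s ih =>
      intro hs
      obtain ⟨hP, hP0⟩ := hs 𝔓 (Multiset.mem_cons_self 𝔓 s)
      have hs' : ∀ 𝔔 ∈ s, ∃ _ : 𝔔.IsPrime, 𝔔 ≠ ⊥ :=
        fun 𝔔 h𝔔 => hs 𝔔 (Multiset.mem_cons_of_mem h𝔔)
      have hs0 : s.prod ≠ ⊥ := by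
        rw [← Ideal.zero_eq_bot]
        exact Multiset.prod_ne_zero fun h0 => (hs' _ h0).2 rfl
      rw [Multiset.prod_cons, map_mul, artinAway_mul m
        (by rwa [Ne, Ideal.relNorm_eq_bot_iff]) (by rwa [Ne, Ideal.relNorm_eq_bot_iff]),
        artinAway_relNorm_prime m hur 𝔓 hP0, ih hs', one_mul]
  rw [← Ideal.prod_normalizedFactors_eq_self h𝔄]
  apply key
  intro 𝔓 h𝔓
  have hprime := prime_of_normalized_factor 𝔓 h𝔓
  exact ⟨Ideal.isPrime_of_prime hprime, hprime.ne_zero⟩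

/-- The Artin symbol away from `m` of the principal ideal generated by a norm is trivial. -/
theorem artinAway_span_intNorm (m : ℕ)
    (hur : ∀ (𝔓 : Ideal (𝓞 L)) [𝔓.IsPrime], 𝔓 ≠ ⊥ → (m : 𝓞 L) ∉ 𝔓 →
      Algebra.IsUnramifiedAt (𝓞 K) 𝔓)
    (β : 𝓞 L) : artinAway L m (Ideal.span {Algebra.intNorm (𝓞 K) (𝓞 L) β}) = 1 := by
  rw [← Ideal.relNorm_singleton]
  exact artinAway_relNorm m hur _

theorem span_intNorm_ne_bot {β : 𝓞 L} (hβ : β ≠ 0) :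
    Ideal.span {Algebra.intNorm (𝓞 K) (𝓞 L) β} ≠ ⊥ := by
  rw [← Ideal.relNorm_singleton, Ne, Ideal.relNorm_eq_bot_iff, Ideal.span_singleton_eq_bot]
  exact hβ

variable (K L) in
/-- `L/K` (abelian) has *cyclotomic conductor dividing `m∞`*, in ideal-theoretic form:
it is unramified outside `m`, and the Artin symbol of an ideal prime to `m` only depends on its
absolute norm modulo `m`. Subextensions of `K(ζ_m)/K` have this property
(`cycloCond_of_isPrimitiveRoot`). -/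
structure CycloCond (m : ℕ) : Prop where
  unram : ∀ (𝔓 : Ideal (𝓞 L)) [𝔓.IsPrime], 𝔓 ≠ ⊥ → (m : 𝓞 L) ∉ 𝔓 →
    Algebra.IsUnramifiedAt (𝓞 K) 𝔓
  artin_congr : ∀ 𝔞 𝔟 : Ideal (𝓞 K), 𝔞 ≠ ⊥ → 𝔟 ≠ ⊥ →
    IsCoprime 𝔞 (Ideal.span {(m : 𝓞 K)}) → IsCoprime 𝔟 (Ideal.span {(m : 𝓞 K)}) →
    ((Ideal.absNorm 𝔞 : ℕ) : ZMod m) = (Ideal.absNorm 𝔟 : ℕ) → artin L 𝔞 = artin L 𝔟

/-- **Artin reciprocity away from `m`, integral form.** Let `L/K` be abelian with cyclotomic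
conductor dividing `m∞`. If `x / y = N_{L/K}(β / s) · (u / w)` with `u ≡ w mod m`, `u, w` prime
to `m` and `N(u) N(w) > 0`, then `(x)` and `(y)` have the same Artin symbol away from `m`. -/
theorem artinAway_span_eq_of_rel {m : ℕ} (h : CycloCond K L m) {x y u w : 𝓞 K} {β s : 𝓞 L}
    (hx : x ≠ 0) (hy : y ≠ 0) (hu : u ≠ 0) (hw : w ≠ 0) (hβ : β ≠ 0) (hs : s ≠ 0)
    (hum : IsCoprime (Ideal.span {u}) (Ideal.span {(m : 𝓞 K)}))
    (hwm : IsCoprime (Ideal.span {w}) (Ideal.span {(m : 𝓞 K)}))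
    (huw : u - w ∈ Ideal.span {(m : 𝓞 K)})
    (hpos : 0 < Algebra.norm ℤ u * Algebra.norm ℤ w)
    (hrel : x * Algebra.intNorm (𝓞 K) (𝓞 L) s * w = y * Algebra.intNorm (𝓞 K) (𝓞 L) β * u) :
    artinAway L m (Ideal.span {x}) = artinAway L m (Ideal.span {y}) := by
  have hx' : Ideal.span {x} ≠ ⊥ := by rwa [Ne, Ideal.span_singleton_eq_bot]
  have hy' : Ideal.span {y} ≠ ⊥ := by rwa [Ne, Ideal.span_singleton_eq_bot]
  have hu' : Ideal.span {u} ≠ ⊥ := by rwa [Ne, Ideal.span_singleton_eq_bot]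
  have hw' : Ideal.span {w} ≠ ⊥ := by rwa [Ne, Ideal.span_singleton_eq_bot]
  have hNs := span_intNorm_ne_bot (K := K) hs
  have hNβ := span_intNorm_ne_bot (K := K) hβ
  have h1 := congrArg (fun z : 𝓞 K => artinAway L m (Ideal.span {z})) hrel
  simp only [← Ideal.span_singleton_mul_span_singleton] at h1
  rw [artinAway_mul m (mul_ne_zero hx' hNs) hw', artinAway_mul m hx' hNs,
    artinAway_mul m (mul_ne_zero hy' hNβ) hu', artinAway_mul m hy' hNβ,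
    artinAway_span_intNorm m h.unram, artinAway_span_intNorm m h.unram, mul_one, mul_one,
    artinAway_eq_artin_of_isCoprime m hum, artinAway_eq_artin_of_isCoprime m hwm,
    h.artin_congr _ _ hu' hw' hum hwm (absNorm_span_zmod_eq m huw hpos)] at h1
  exact mul_right_cancel h1

end Away

/-! ### Subextensions of `K(ζ_m)/K` have cyclotomic conductor dividing `m∞` -/

section Cyclo

variable {K N : Type*} [Field K] [Field N] [NumberField K] [NumberField N]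
  [Algebra K N] [IsGalois K N]

/-- `K(ζ_m)/K` is unramified outside `m`. -/
theorem isUnramifiedAt_of_isPrimitiveRoot {m : ℕ} {ζ : N} (hζ : IsPrimitiveRoot ζ m)
    (hgen : ∀ σ : Gal(N/K), σ ζ = ζ → σ = 1)
    (𝔓 : Ideal (𝓞 N)) [𝔓.IsPrime] (h𝔓 : 𝔓 ≠ ⊥) (hm : (m : 𝓞 N) ∉ 𝔓) :
    Algebra.IsUnramifiedAt (𝓞 K) 𝔓 := by
  rw [isUnramifiedAt_iff_ramificationIdx, ← H78.card_inertia_eq_ramificationIdx 𝔓 h𝔓]
  have : 𝔓.inertia Gal(N/K) = ⊥ := by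
    rw [eq_bot_iff]
    intro σ hσ
    rw [Subgroup.mem_bot]
    exact hgen σ (H73.inertia_apply_of_pow_eq_one hζ.pow_eq_one 𝔓 hm σ hσ)
  rw [this]
  exact Subgroup.card_bot

variable [IsMulCommutative Gal(N/K)]

/-- `K(ζ_m)/K` has cyclotomic conductor dividing `m∞`. -/
theorem cycloCond_top {m : ℕ} (hm0 : 0 < m) {ζ : N} (hζ : IsPrimitiveRoot ζ m)
    (hgen : ∀ σ : Gal(N/K), σ ζ = ζ → σ = 1) : CycloCond K N m where
  unram 𝔓 _ h𝔓 hm := isUnramifiedAt_of_isPrimitiveRoot hζ hgen 𝔓 h𝔓 hm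
  artin_congr 𝔞 𝔟 h𝔞 h𝔟 h𝔞m h𝔟m hab := by
    have h1 := H69.artin_zeta_of_isCoprime (N := N) hm0 hζ 𝔞 h𝔞 h𝔞m
    have h2 := H69.artin_zeta_of_isCoprime (N := N) hm0 hζ 𝔟 h𝔟 h𝔟m
    have h3 : ζ ^ Ideal.absNorm 𝔞 = ζ ^ Ideal.absNorm 𝔟 := by
      have hmod : Ideal.absNorm 𝔞 ≡ Ideal.absNorm 𝔟 [MOD m] :=
        (ZMod.natCast_eq_natCast_iff _ _ _).mp hab
      rw [(hζ.isOfFinOrder hm0.ne').pow_inj_mod, ← hζ.eq_orderOf]
      exact hmod
    have h4 : ((artin N 𝔟)⁻¹ * artin N 𝔞) ζ = ζ := by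
      rw [AlgEquiv.mul_apply, h1, h3, ← h2]
      exact (artin N 𝔟).symm_apply_apply ζ
    have h5 := hgen _ h4
    exact (inv_mul_eq_one.mp h5).symm

end Cyclo

section CycloSub

variable {K L N : Type*} [Field K] [Field L] [Field N] [NumberField K] [NumberField L]
  [NumberField N] [Algebra K L] [Algebra L N] [Algebra K N] [IsScalarTower K L N]
  [IsGalois K L] [IsGalois K N] [IsMulCommutative Gal(L/K)] [IsMulCommutative Gal(N/K)]

/-- Every abelian subextension `L` of `K(ζ_m)/K` has cyclotomic conductor dividing `m∞`. -/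
theorem cycloCond_of_isPrimitiveRoot {m : ℕ} (hm0 : 0 < m) {ζ : N} (hζ : IsPrimitiveRoot ζ m)
    (hgen : ∀ σ : Gal(N/K), σ ζ = ζ → σ = 1) : CycloCond K L m := by
  have hN := cycloCond_top (K := K) hm0 hζ hgen
  have hunr : ∀ (𝔓 : Ideal (𝓞 L)) [𝔓.IsPrime], 𝔓 ≠ ⊥ → (m : 𝓞 L) ∉ 𝔓 →
      Algebra.IsUnramifiedAt (𝓞 K) 𝔓 := by
    intro 𝔓 _ h𝔓 hm
    obtain ⟨⟨𝔔, h𝔔prime, h𝔔over⟩⟩ := 𝔓.nonempty_primesOver (S := 𝓞 N)
    have h𝔔 : 𝔔 ≠ ⊥ := Ideal.ne_bot_of_liesOver_of_ne_bot h𝔓 𝔔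
    have hm' : (m : 𝓞 N) ∉ 𝔔 := by
      intro h
      apply hm
      rw [Ideal.over_def 𝔔 𝔓, Ideal.under_def, Ideal.mem_comap, map_natCast]
      exact h
    have h1 := (isUnramifiedAt_iff_ramificationIdx (K := K) 𝔔).mp (hN.unram 𝔔 h𝔔 hm')
    have h2 : 𝔓.ramificationIdx (𝓞 K) ∣ 𝔔.ramificationIdx (𝓞 K) :=
      Ideal.ramificationIdx_below_dvd (R := 𝓞 K) (q := 𝔓) (r := 𝔔)
    rw [h1, Nat.dvd_one] at h2
    exact (isUnramifiedAt_iff_ramificationIdx 𝔓).mpr h2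
  refine ⟨hunr, ?_⟩
  intro 𝔞 𝔟 h𝔞 h𝔟 h𝔞m h𝔟m hab
  have hres : ∀ 𝔠 : Ideal (𝓞 K), IsCoprime 𝔠 (Ideal.span {(m : 𝓞 K)}) →
      AlgEquiv.restrictNormalHom L (artin N 𝔠) = artin L 𝔠 := by
    intro 𝔠 h𝔠m
    apply restrictNormalHom_artin
    intro 𝔓 _ h𝔓 hle
    apply hunr 𝔓 h𝔓
    intro hmem
    have h1 : (m : 𝓞 K) ∈ 𝔓.under (𝓞 K) := by
      rw [Ideal.under_def, Ideal.mem_comap, map_natCast]
      exact hmem
    exact H69.natCast_not_mem_of_isCoprime h𝔠m (𝔓.under (𝓞 K)) inferInstance hle h1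
  rw [← hres 𝔞 h𝔞m, ← hres 𝔟 h𝔟m, hN.artin_congr 𝔞 𝔟 h𝔞 h𝔟 h𝔞m h𝔟m hab]

end CycloSub

end Fermat.Agent.CFT.H81
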