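import Mathlib

/-!
# The layers of the cyclotomic `ℤ_p`-extension of `ℚ`

Author: helper93 (project CFT, package C-CYCLO-Zp-tower).

For an odd prime `p` and `k : ℕ`, and any model `F` of `ℚ(ζ_{p^(k+1)})`, the layer `zpLayer p k F`
is the fixed field of the `(p-1)`-torsion of `Gal(F/ℚ) ≃ (ℤ/p^(k+1))ˣ`.  It is cyclic of degree
`p^k` over `ℚ`.
-/

namespace Fermat.Agent.CFT.H93

open NumberField IsCyclotomicExtension IntermediateField Ideal

lemma card_comap_mulEquiv {G H : Type*} [Group G] [Group H] (e : G ≃* H) (K : Subgroup H) :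
    Nat.card (K.comap e.toMonoidHom) = Nat.card K := by
  refine Nat.card_congr
    { toFun := fun x => ⟨e x.1, x.2⟩
      invFun := fun y => ⟨e.symm y.1, by
        rw [Subgroup.mem_comap]
        simp⟩
      left_inv := fun x => Subtype.ext (by simp)
      right_inv := fun y => Subtype.ext (by simp) }

/-- Growth of the order of `t` modulo `p^(k+1)` (lifting the exponent). -/
theorem pow_dvd_orderOf_zmod_prime_pow (p : ℕ) [hp : Fact p.Prime] (hp2 : p ≠ 2) (t : ℕ)
    (ht : 2 ≤ t) (htp : ¬ p ∣ t) (k : ℕ) :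
    p ^ (k + 1 - padicValNat p (t ^ (p - 1) - 1)) ∣ orderOf (t : ZMod (p ^ (k + 1))) := by
  set o := orderOf (t : ZMod (p ^ (k + 1))) with ho
  have hodd : Odd p := hp.out.odd_of_ne_two hp2
  have hcop : Nat.Coprime t (p ^ (k + 1)) :=
    Nat.Coprime.pow_right _ ((Nat.Prime.coprime_iff_not_dvd hp.out).mpr htp).symm
  have ho0 : o ≠ 0 := by
    have hfin : IsOfFinOrder (ZMod.unitOfCoprime t hcop) := isOfFinOrder_of_finite _
    have := (orderOf_pos_iff.mpr hfin).ne'
    rwa [← orderOf_injective (Units.coeHom (ZMod (p ^ (k + 1)))) Units.coeHom_injective,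
      Units.coeHom_apply, ZMod.coe_unitOfCoprime] at this
  set y := t ^ (p - 1) with hy
  have hp1 : 0 < p - 1 := Nat.sub_pos_of_lt hp.out.one_lt
  have hy1 : 1 < y := Nat.one_lt_pow hp1.ne' ht
  have hpy : p ∣ y - 1 := by
    have h := ZMod.pow_card_sub_one_eq_one (p := p) (a := (t : ZMod p))
      (by rwa [Ne, ZMod.natCast_eq_zero_iff])
    rw [← Nat.cast_pow, ← Nat.cast_one (R := ZMod p), ZMod.natCast_eq_natCast_iff] at h
    exact (Nat.modEq_iff_dvd' hy1.le).mp h.symm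
  have hpy' : ¬ p ∣ y := fun h => htp (hp.out.dvd_of_dvd_pow h)
  have hlte := padicValNat.pow_sub_pow (p := p) hodd hy1 (by simpa using hpy) hpy' ho0
  -- p^(k+1) ∣ y^o - 1
  have hdiv : p ^ (k + 1) ∣ y ^ o - 1 ^ o := by
    rw [one_pow]
    have h1 : ((t : ZMod (p ^ (k + 1))) ^ o) = 1 := pow_orderOf_eq_one _
    have h2 : ((y ^ o : ℕ) : ZMod (p ^ (k + 1))) = ((1 : ℕ) : ZMod (p ^ (k + 1))) := by
      rw [hy, ← pow_mul, mul_comm, pow_mul]
      push_cast
      rw [h1, one_pow]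
    rw [ZMod.natCast_eq_natCast_iff] at h2
    exact (Nat.modEq_iff_dvd' (Nat.one_le_pow _ _ (by omega))).mp h2.symm
  have hne : y ^ o - 1 ^ o ≠ 0 := by
    rw [one_pow]
    have : 1 < y ^ o := Nat.one_lt_pow ho0 hy1
    omega
  have hle : k + 1 ≤ padicValNat p (y ^ o - 1 ^ o) := (padicValNat_dvd_iff_le hne).mp hdiv
  rw [hlte] at hle
  refine dvd_trans (pow_dvd_pow p ?_) (pow_padicValNat_dvd (p := p) (n := o))
  omega

section Group

variable (p : ℕ) [hp : Fact p.Prime] (k : ℕ) (F : Type*) [Field F] [NumberField F]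
  [hF : IsCyclotomicExtension {p ^ (k + 1)} ℚ F]

/-- `Gal(F/ℚ) ≃* (ℤ/p^(k+1))ˣ`, `σ ↦ a` with `σ ζ = ζ ^ a` (Mathlib's `galEquivZMod`, made
irreducible for `simp`). -/
noncomputable def galZ : Gal(F/ℚ) ≃* (ZMod (p ^ (k + 1)))ˣ :=
  IsCyclotomicExtension.Rat.galEquivZMod (p ^ (k + 1)) F

lemma galZ_spec (σ : Gal(F/ℚ)) {x : F} (hx : x ^ p ^ (k + 1) = 1) :
    σ x = x ^ (galZ p k F σ).val.val :=
  IsCyclotomicExtension.Rat.galEquivZMod_apply_of_pow_eq (p ^ (k + 1)) F σ hx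

/-- The subgroup of `Gal(F/ℚ)` of elements of order dividing `p - 1`. -/
noncomputable def torsionAut : Subgroup Gal(F/ℚ) :=
  ((powMonoidHom (p - 1) : (ZMod (p ^ (k + 1)))ˣ →* (ZMod (p ^ (k + 1)))ˣ).ker).comap
    (galZ p k F).toMonoidHom

lemma mem_torsionAut (σ : Gal(F/ℚ)) : σ ∈ torsionAut p k F ↔ σ ^ (p - 1) = 1 := by
  unfold torsionAut
  rw [Subgroup.mem_comap, MonoidHom.mem_ker, powMonoidHom_apply]
  simp only [MulEquiv.toMonoidHom_eq_coe, MonoidHom.coe_coe]
  rw [← map_pow, MulEquiv.map_eq_one_iff]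

instance torsionAut_normal : (torsionAut p k F).Normal := by
  unfold torsionAut
  infer_instance

include hF in
lemma isCyclic_gal (hp2 : p ≠ 2) : IsCyclic Gal(F/ℚ) := by
  have h1 : IsCyclic (ZMod (p ^ (k + 1)))ˣ :=
    ZMod.isCyclic_units_of_prime_pow p hp.out hp2 (k + 1)
  exact isCyclic_of_surjective (galZ p k F).symm (galZ p k F).symm.surjective

include hF in
lemma card_gal : Nat.card Gal(F/ℚ) = p ^ k * (p - 1) := by
  rw [Nat.card_congr (galZ p k F).toEquiv,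
    Nat.card_eq_fintype_card, ZMod.card_units_eq_totient, Nat.totient_prime_pow_succ hp.out]

lemma card_torsionAut (hp2 : p ≠ 2) : Nat.card (torsionAut p k F) = p - 1 := by
  have h1 : IsCyclic (ZMod (p ^ (k + 1)))ˣ :=
    ZMod.isCyclic_units_of_prime_pow p hp.out hp2 (k + 1)
  unfold torsionAut
  rw [card_comap_mulEquiv, IsCyclic.card_powMonoidHom_ker, Nat.card_eq_fintype_card,
    ZMod.card_units_eq_totient, Nat.totient_prime_pow_succ hp.out]
  exact Nat.gcd_eq_right (Dvd.intro_left _ rfl)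

/-- The `k`-th layer of the cyclotomic `ℤ_p`-extension of `ℚ`, inside `F = ℚ(ζ_{p^(k+1)})`. -/
noncomputable def zpLayer : IntermediateField ℚ F := fixedField (torsionAut p k F)

omit hp in
include hF in
lemma isGalois_top : IsGalois ℚ F := IsCyclotomicExtension.isGalois {p ^ (k + 1)} ℚ F

instance isGalois_zpLayer : IsGalois ℚ (zpLayer p k F) := by
  have := isGalois_top p k F
  unfold zpLayer
  exact IsGalois.of_fixedField_normal_subgroup (torsionAut p k F)

lemma finrank_zpLayer_top (hp2 : p ≠ 2) : Module.finrank (zpLayer p k F) F = p - 1 := by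
  unfold zpLayer
  rw [IntermediateField.finrank_fixedField_eq_card, card_torsionAut p k F hp2]

lemma finrank_zpLayer (hp2 : p ≠ 2) : Module.finrank ℚ (zpLayer p k F) = p ^ k := by
  have := isGalois_top p k F
  have h1 := Module.finrank_mul_finrank ℚ (zpLayer p k F) F
  rw [finrank_zpLayer_top p k F hp2, ← IsGalois.card_aut_eq_finrank ℚ F, card_gal p k F] at h1
  have hp1 : 0 < p - 1 := Nat.sub_pos_of_lt hp.out.one_lt
  exact Nat.eq_of_mul_eq_mul_right hp1 h1

lemma isCyclic_gal_zpLayer (hp2 : p ≠ 2) : IsCyclic Gal(zpLayer p k F/ℚ) := by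
  have := isGalois_top p k F
  have := isCyclic_gal p k F hp2
  exact isCyclic_of_surjective (AlgEquiv.restrictNormalHom (zpLayer p k F))
    (AlgEquiv.restrictNormalHom_surjective F)

end Group

section Ram

variable (p : ℕ) [hp : Fact p.Prime] (k : ℕ) (F : Type*) [Field F] [NumberField F]
  [hF : IsCyclotomicExtension {p ^ (k + 1)} ℚ F]

variable (t : ℕ) [ht : Fact t.Prime]

/-- Away from `p`, the layer is unramified, and the inertia degree over `ℤ` divides the order of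
`t` mod `p^(k+1)` with cofactor dividing `p - 1`. -/
theorem ram_inertia_zpLayer_of_ne (hp2 : p ≠ 2) (htp : t ≠ p) (P : Ideal (𝓞 (zpLayer p k F)))
    [hP₁ : P.IsPrime] [hP₂ : P.LiesOver (span {(t : ℤ)})] :
    P.ramificationIdx ℤ = 1 ∧
      ∃ c, c ∣ p - 1 ∧ P.inertiaDeg ℤ * c = orderOf (t : ZMod (p ^ (k + 1))) := by
  have hgal := isGalois_top p k F
  have hPm : P.IsMaximal := .of_liesOver_isMaximal P (span {(t : ℤ)})
  obtain ⟨Q, hQ₁, hQ₂⟩ := exists_maximal_ideal_liesOver_of_isIntegral P (S := 𝓞 F)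
  have hQt : Q.LiesOver (span {(t : ℤ)}) := LiesOver.trans Q P _
  have hQp : Q.IsPrime := hQ₁.isPrime
  have hdvd : ¬ t ∣ p ^ (k + 1) := by
    intro h
    exact htp ((Nat.prime_dvd_prime_iff_eq ht.out hp.out).mp (ht.out.dvd_of_dvd_pow h))
  have he := IsCyclotomicExtension.Rat.ramificationIdx_eq_of_not_dvd t F Q hdvd
  have hf := IsCyclotomicExtension.Rat.inertiaDeg_eq_of_not_dvd t F Q hdvd
  have he2 := ramificationIdx_tower (R := ℤ) P Q
  have hf2 := inertiaDeg_tower (R := ℤ) P Q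
  refine ⟨?_, Q.inertiaDeg (𝓞 (zpLayer p k F)), ?_, ?_⟩
  · rw [he] at he2
    exact Nat.eq_one_of_mul_eq_one_right he2.symm
  · have h1 := ncard_primesOver_mul_ramificationIdxIn_mul_inertiaDegIn P (𝓞 F)
      Gal(F/zpLayer p k F)
    rw [inertiaDegIn_eq_inertiaDeg P Q Gal(F/zpLayer p k F)] at h1
    have h2 : Nat.card Gal(F/zpLayer p k F) = p - 1 := by
      rw [IsGalois.card_aut_eq_finrank, finrank_zpLayer_top p k F hp2]
    rw [h2] at h1
    exact ⟨(P.primesOver (𝓞 F)).ncard * P.ramificationIdxIn (𝓞 F), by rw [← h1]; ring⟩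
  · rw [← hf, hf2]

end Ram

section Ram2

variable (p : ℕ) [hp : Fact p.Prime] (k : ℕ) (F : Type*) [Field F] [NumberField F]
  [hF : IsCyclotomicExtension {p ^ (k + 1)} ℚ F]

variable (t : ℕ) [ht : Fact t.Prime]

/-- The local degrees of the layers at `t ≠ p` grow like `p^k`. -/
theorem pow_dvd_inertiaDeg_zpLayer (hp2 : p ≠ 2) (htp : t ≠ p) (P : Ideal (𝓞 (zpLayer p k F)))
    [hP₁ : P.IsPrime] [hP₂ : P.LiesOver (span {(t : ℤ)})] :
    p ^ (k + 1 - padicValNat p (t ^ (p - 1) - 1)) ∣ P.inertiaDeg ℤ := by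
  obtain ⟨-, c, hc, hfc⟩ := ram_inertia_zpLayer_of_ne p k F t hp2 htp P
  have hpt : ¬ p ∣ t := fun h =>
    htp ((Nat.prime_dvd_prime_iff_eq hp.out ht.out).mp h).symm
  have h := pow_dvd_orderOf_zmod_prime_pow p hp2 t ht.out.two_le hpt k
  rw [← hfc] at h
  have hp1 : 0 < p - 1 := Nat.sub_pos_of_lt hp.out.one_lt
  have hcop : Nat.Coprime p c := by
    refine (Nat.Prime.coprime_iff_not_dvd hp.out).mpr (fun h => ?_)
    have := Nat.le_of_dvd hp1 (dvd_trans h hc)
    omega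
  exact (Nat.Coprime.pow_left _ hcop).dvd_of_dvd_mul_right h

/-- For every `N`, all sufficiently high layers have inertia degree at `t ≠ p` divisible
by `p ^ N`: explicit threshold. -/
theorem pow_dvd_inertiaDeg_zpLayer_of_le (hp2 : p ≠ 2) (htp : t ≠ p) (N : ℕ)
    (hk : N + padicValNat p (t ^ (p - 1) - 1) ≤ k + 1) (P : Ideal (𝓞 (zpLayer p k F)))
    [hP₁ : P.IsPrime] [hP₂ : P.LiesOver (span {(t : ℤ)})] :
    p ^ N ∣ P.inertiaDeg ℤ :=
  dvd_trans (pow_dvd_pow p (by omega)) (pow_dvd_inertiaDeg_zpLayer p k F t hp2 htp P)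

/-- At `p` the layer is totally ramified. -/
theorem ram_inertia_zpLayer_self (hp2 : p ≠ 2) (P : Ideal (𝓞 (zpLayer p k F)))
    [hP₁ : P.IsPrime] [hP₂ : P.LiesOver (span {(p : ℤ)})] :
    P.ramificationIdx ℤ = p ^ k ∧ P.inertiaDeg ℤ = 1 ∧
      ((span {(p : ℤ)}).primesOver (𝓞 (zpLayer p k F))).ncard = 1 := by
  have hgal := isGalois_top p k F
  have hPm : P.IsMaximal := .of_liesOver_isMaximal P (span {(p : ℤ)})
  obtain ⟨Q, hQ₁, hQ₂⟩ := exists_maximal_ideal_liesOver_of_isIntegral P (S := 𝓞 F)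
  have hQt : Q.LiesOver (span {(p : ℤ)}) := LiesOver.trans Q P _
  have hQp : Q.IsPrime := hQ₁.isPrime
  have he := IsCyclotomicExtension.Rat.ramificationIdx_eq_of_prime_pow p k F Q
  have he2 := ramificationIdx_tower (R := ℤ) P Q
  rw [he] at he2
  -- e(Q|P) divides p - 1
  have h1 := ncard_primesOver_mul_ramificationIdxIn_mul_inertiaDegIn P (𝓞 F)
      Gal(F/zpLayer p k F)
  rw [ramificationIdxIn_eq_ramificationIdx P Q Gal(F/zpLayer p k F)] at h1
  have h2 : Nat.card Gal(F/zpLayer p k F) = p - 1 := by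
    rw [IsGalois.card_aut_eq_finrank, finrank_zpLayer_top p k F hp2]
  rw [h2] at h1
  have hp1 : 0 < p - 1 := Nat.sub_pos_of_lt hp.out.one_lt
  have he'le : Q.ramificationIdx (𝓞 (zpLayer p k F)) ≤ p - 1 := by
    refine Nat.le_of_dvd hp1 ⟨(P.primesOver (𝓞 F)).ncard * P.inertiaDegIn (𝓞 F), ?_⟩
    rw [← h1]; ring
  -- the fundamental identity for the layer over ℚ
  have h3 := ncard_primesOver_mul_ramificationIdxIn_mul_inertiaDegIn (span {(p : ℤ)})
      (𝓞 (zpLayer p k F)) Gal(zpLayer p k F/ℚ)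
  rw [ramificationIdxIn_eq_ramificationIdx (span {(p : ℤ)}) P Gal(zpLayer p k F/ℚ),
    inertiaDegIn_eq_inertiaDeg (span {(p : ℤ)}) P Gal(zpLayer p k F/ℚ),
    IsGalois.card_aut_eq_finrank, finrank_zpLayer p k F hp2] at h3
  have hpk : 0 < p ^ k := pow_pos hp.out.pos k
  -- e(P|ℤ) ≤ p^k
  have hele : P.ramificationIdx ℤ ≤ p ^ k := by
    refine Nat.le_of_dvd hpk ⟨((span {(p : ℤ)}).primesOver (𝓞 (zpLayer p k F))).ncard *
      P.inertiaDeg ℤ, ?_⟩
    rw [← h3]; ring
  -- hence equality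
  have hee : P.ramificationIdx ℤ = p ^ k := by
    refine le_antisymm hele ?_
    by_contra hlt
    rw [not_le] at hlt
    have : P.ramificationIdx ℤ * Q.ramificationIdx (𝓞 (zpLayer p k F)) < p ^ k * (p - 1) :=
      calc P.ramificationIdx ℤ * Q.ramificationIdx (𝓞 (zpLayer p k F))
          ≤ P.ramificationIdx ℤ * (p - 1) := Nat.mul_le_mul_left _ he'le
        _ < p ^ k * (p - 1) := Nat.mul_lt_mul_of_pos_right hlt hp1
    omega
  rw [hee] at h3
  have h4 : ((span {(p : ℤ)}).primesOver (𝓞 (zpLayer p k F))).ncard * P.inertiaDeg ℤ = 1 := by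
    have : p ^ k * (((span {(p : ℤ)}).primesOver (𝓞 (zpLayer p k F))).ncard * P.inertiaDeg ℤ)
        = p ^ k * 1 := by
      rw [mul_one]
      calc p ^ k * (((span {(p : ℤ)}).primesOver (𝓞 (zpLayer p k F))).ncard * P.inertiaDeg ℤ)
          = ((span {(p : ℤ)}).primesOver (𝓞 (zpLayer p k F))).ncard *
              (p ^ k * P.inertiaDeg ℤ) := by ring
        _ = p ^ k := h3
    exact Nat.eq_of_mul_eq_mul_left hpk this
  exact ⟨hee, Nat.eq_one_of_mul_eq_one_left h4, Nat.eq_one_of_mul_eq_one_right h4⟩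

end Ram2

end Fermat.Agent.CFT.H93
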