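import Mathlib
import Fermat.Agent.CFT.H93_ZpTower

set_option autoImplicit false

/-!
# `p` is a global norm from the layers of the cyclotomic `ℤ_p`-extension

(CFT / layer C / package `C-RECIP-tower`, helper81.)
`p = N_{ℚ(ζ_{p^(k+1)})/ℚ}(ζ - 1)` for `p` odd, hence `p = N_{ℚ_k/ℚ}(y)` with
`y = N_{ℚ(ζ)/ℚ_k}(ζ - 1)`.  Consequently every symbol killing Galois norms kills `p`.
-/

namespace Fermat.Agent.CFT.H81

open NumberField Fermat.Agent.CFT.H93

variable (p : ℕ) [hp : Fact p.Prime] (k : ℕ) (F : Type*) [Field F] [NumberField F]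
  [hF : IsCyclotomicExtension {p ^ (k + 1)} ℚ F]

include hF in
/-- `p` is a norm from `ℚ(ζ_{p^(k+1)})`. -/
theorem exists_norm_top_eq_prime (hp2 : p ≠ 2) : ∃ x : F, Algebra.norm ℚ x = (p : ℚ) := by
  have hpos : 0 < p ^ (k + 1) := pow_pos hp.out.pos _
  have : NeZero (p ^ (k + 1)) := ⟨hpos.ne'⟩
  obtain ⟨ζ, hζ⟩ := IsCyclotomicExtension.exists_isPrimitiveRoot ℚ F
    (Set.mem_singleton (p ^ (k + 1))) (NeZero.ne _)
  refine ⟨ζ - 1, ?_⟩
  exact hζ.norm_sub_one_of_prime_ne_two (Polynomial.cyclotomic.irreducible_rat hpos) hp2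

/-- `p` is a norm from the `k`-th layer `ℚ_k` of the cyclotomic `ℤ_p`-extension. -/
theorem exists_norm_zpLayer_eq_prime (hp2 : p ≠ 2) :
    ∃ y : zpLayer p k F, Algebra.norm ℚ y = (p : ℚ) := by
  obtain ⟨x, hx⟩ := exists_norm_top_eq_prime p k F hp2
  refine ⟨Algebra.norm (zpLayer p k F) x, ?_⟩
  rw [Algebra.norm_norm, hx]

/-- Units version. -/
theorem exists_units_norm_zpLayer_eq_prime (hp2 : p ≠ 2) :
    ∃ y : (zpLayer p k F)ˣ, Algebra.norm ℚ (y : zpLayer p k F) = (p : ℚ) := by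
  obtain ⟨y, hy⟩ := exists_norm_zpLayer_eq_prime p k F hp2
  have hy0 : y ≠ 0 := by
    rintro rfl
    rw [Algebra.norm_zero] at hy
    exact hp.out.ne_zero (by exact_mod_cast hy.symm)
  exact ⟨Units.mk0 y hy0, hy⟩

end Fermat.Agent.CFT.H81
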