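import Mathlib
import Fermat.Agent.CFT.H12_PTower
import Fermat.Agent.CFT.H19_StdCocycle

set_option autoImplicit false

/-!
# From reciprocity data to the tower classes of `H12.PTowerSystem`

(CFT / layer C / package `C-RECIP-tower`, helper81.)  Pure group cohomology.

`Γ` a group, `C : Rep k Γ`, `a : C` a `Γ`-invariant element, `g : Γ` an element whose image
generates the (cyclic) quotient `Γ/U`.  The *tower class* at `U` is the class of the standard
2-cocycle `H19.stdCocycle ḡ a` in `H²(Γ/U, C^U)` (`= a ∪ δχ_g`).  We compute its inflations and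
the restriction of its inflations to cyclic sub-quotients, in the level vocabulary of
`H91_Formation` / `H15_InfLevel` (`infLevel`, `resSub`, `quotSub`).
-/

open CategoryTheory groupCohomology

noncomputable section

namespace Fermat.Agent.CFT.H81

open Fermat.Agent.CFT Fermat.Agent.CFT.H15 Fermat.Agent.CFT.H12

variable {k : Type} [CommRing k] {Γ : Type} [Group Γ] (C : Rep.{0} k Γ)

/-- A `Γ`-invariant element of `C` as an element of `C^U`. -/
def invElt (U : Subgroup Γ) [U.Normal] (a : C.V) (ha : ∀ γ : Γ, C.ρ γ a = a) :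
    (C.quotientToInvariants U).V :=
  ⟨a, fun u => ha u.1⟩

@[simp] theorem coe_invElt (U : Subgroup Γ) [U.Normal] (a : C.V) (ha : ∀ γ : Γ, C.ρ γ a = a) :
    ((invElt C U a ha : (C.quotientToInvariants U).V) : C.V) = a := rfl

theorem invElt_invariant (U : Subgroup Γ) [U.Normal] (a : C.V) (ha : ∀ γ : Γ, C.ρ γ a = a)
    (x : Γ ⧸ U) : (C.quotientToInvariants U).ρ x (invElt C U a ha) = invElt C U a ha := by
  induction x using QuotientGroup.induction_on with
  | H g => exact Subtype.ext (ha g)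

/-- The tower class at the normal subgroup `U` (with `Γ/U` generated by the image of `g`). -/
def towerClass (U : Subgroup Γ) [U.Normal] [U.FiniteIndex] (g : Γ)
    (hg : ∀ x : Γ ⧸ U, x ∈ Subgroup.zpowers (QuotientGroup.mk g : Γ ⧸ U))
    (a : C.V) (ha : ∀ γ : Γ, C.ρ γ a = a) : groupCohomology (C.quotientToInvariants U) 2 :=
  H2π (C.quotientToInvariants U) (H19.stdCocycle hg (invElt_invariant C U a ha))

theorem orderOf_mk_eq_index (U : Subgroup Γ) [U.Normal] [U.FiniteIndex] (g : Γ)
    (hg : ∀ x : Γ ⧸ U, x ∈ Subgroup.zpowers (QuotientGroup.mk g : Γ ⧸ U)) :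
    orderOf (QuotientGroup.mk g : Γ ⧸ U) = U.index := by
  rw [orderOf_eq_card_of_forall_mem_zpowers hg, Subgroup.index_eq_card]

/-- Multiples of the tower class vanish exactly when the multiple of `a` is a norm. -/
theorem nsmul_towerClass_eq_zero_iff (U : Subgroup Γ) [U.Normal] [U.FiniteIndex] (g : Γ)
    (hg : ∀ x : Γ ⧸ U, x ∈ Subgroup.zpowers (QuotientGroup.mk g : Γ ⧸ U))
    (a : C.V) (ha : ∀ γ : Γ, C.ρ γ a = a) (m : ℕ) :
    m • towerClass C U g hg a ha = 0 ↔
      ∃ y : (C.quotientToInvariants U).V, m • invElt C U a ha =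
        H19.pnorm (C.quotientToInvariants U) (QuotientGroup.mk g : Γ ⧸ U) y U.index := by
  rw [towerClass, H19.nsmul_H2π_stdCocycle_eq_zero_iff, orderOf_mk_eq_index U g hg]

/-- **Inflation of the tower class**: `inf_{U → V} (class at U) = ([Γ:V]/[Γ:U]) • (class at V)`. -/
theorem infLevel_towerClass (U V : Subgroup Γ) [U.Normal] [V.Normal] [U.FiniteIndex]
    [V.FiniteIndex] (h : V ≤ U) (g : Γ)
    (hgU : ∀ x : Γ ⧸ U, x ∈ Subgroup.zpowers (QuotientGroup.mk g : Γ ⧸ U))
    (hgV : ∀ x : Γ ⧸ V, x ∈ Subgroup.zpowers (QuotientGroup.mk g : Γ ⧸ V))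
    (a : C.V) (ha : ∀ γ : Γ, C.ρ γ a = a) :
    (infLevel C U V h 2).hom (towerClass C U g hgU a ha) =
      (V.index / U.index) • towerClass C V g hgV a ha := by
  have key := H19.map_H2π_stdCocycle_of_map_eq
    (QuotientGroup.map V U (MonoidHom.id Γ) h) (invIncl C U V h) hgU hgV
    (invElt_invariant C U a ha) (hf := rfl)
  rw [orderOf_mk_eq_index U g hgU, orderOf_mk_eq_index V g hgV] at key
  exact key

/-- `a` as an invariant of the restriction of `C^W` to the subgroup `U/W` of `Γ/W`. -/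
theorem invElt_invariant_res (U W : Subgroup Γ) [U.Normal] [W.Normal] (a : C.V)
    (ha : ∀ γ : Γ, C.ρ γ a = a) (x : quotSub U W) :
    (Rep.res (quotSub U W).subtype (C.quotientToInvariants W)).ρ x (invElt C W a ha) =
      invElt C W a ha :=
  invElt_invariant C W a ha x.1

/-- **Restriction of the inflated tower class to a cyclic sub-quotient.**
`E`, `U`, `W ≤ U ⊓ E` normal of finite index, `Γ/E` generated by `ḡ`, `U/W` generated by `h` whose
image in `Γ/E` is `ḡ ^ f`.  Then `res_{U/W} (inf_{E → W} (class at E))` is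
`(f * |U/W| / [Γ:E])` times the standard class of `(h, a)`. -/
theorem resSub_infLevel_towerClass (U E W : Subgroup Γ) [U.Normal] [E.Normal] [W.Normal]
    [E.FiniteIndex] [W.FiniteIndex] (hWE : W ≤ E) (g : Γ)
    (hgE : ∀ x : Γ ⧸ E, x ∈ Subgroup.zpowers (QuotientGroup.mk g : Γ ⧸ E))
    (a : C.V) (ha : ∀ γ : Γ, C.ρ γ a = a)
    (h : quotSub U W) (hh : ∀ x : quotSub U W, x ∈ Subgroup.zpowers h) (f : ℕ)
    (hf : QuotientGroup.map W E (MonoidHom.id Γ) hWE (h : Γ ⧸ W) =
      (QuotientGroup.mk g : Γ ⧸ E) ^ f) :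
    (resSub (C.quotientToInvariants W) (quotSub U W) 2).hom
        ((infLevel C E W hWE 2).hom (towerClass C E g hgE a ha)) =
      (f * orderOf h / E.index) •
        H2π (Rep.res (quotSub U W).subtype (C.quotientToInvariants W))
          (H19.stdCocycle hh (invElt_invariant_res C U W a ha)) := by
  have hcomp := groupCohomology.map_comp (k := k)
    (QuotientGroup.map W E (MonoidHom.id Γ) hWE) (quotSub U W).subtype (invIncl C E W hWE)
    (𝟙 (Rep.res (quotSub U W).subtype (C.quotientToInvariants W))) 2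
  have hL : (resSub (C.quotientToInvariants W) (quotSub U W) 2).hom
        ((infLevel C E W hWE 2).hom (towerClass C E g hgE a ha)) =
      (groupCohomology.map ((QuotientGroup.map W E (MonoidHom.id Γ) hWE).comp
        (quotSub U W).subtype)
        ((Rep.resFunctor (quotSub U W).subtype).map (invIncl C E W hWE) ≫
          𝟙 (Rep.res (quotSub U W).subtype (C.quotientToInvariants W))) 2).hom
        (towerClass C E g hgE a ha) := by
    rw [hcomp]
    rfl
  rw [hL]
  have key := H19.map_H2π_stdCocycle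
    ((QuotientGroup.map W E (MonoidHom.id Γ) hWE).comp (quotSub U W).subtype)
    ((Rep.resFunctor (quotSub U W).subtype).map (invIncl C E W hWE) ≫
      𝟙 (Rep.res (quotSub U W).subtype (C.quotientToInvariants W))) hgE hh
    (invElt_invariant C E a ha) (f := f) hf
  rw [orderOf_mk_eq_index E g hgE] at key
  refine key.trans ?_
  have h2 : (f * orderOf h / E.index) •
      H2π (Rep.res (quotSub U W).subtype (C.quotientToInvariants W))
        (H19.stdCocycle hh (invElt_invariant_res C U W a ha)) =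
      H2π (Rep.res (quotSub U W).subtype (C.quotientToInvariants W))
        (H19.stdCocycle hh (H19.nsmul_invariant (invElt_invariant_res C U W a ha)
          (f * orderOf h / E.index))) := by
    rw [← H19.nsmul_stdCocycle, map_nsmul]
  rw [h2]
  rfl

/-- `U/(U ⊓ E)` is cyclic when `Γ/E` is, with a generator mapping to a power of `ḡ`. -/
theorem exists_generator_quotSub_inf (U E : Subgroup Γ) [U.Normal] [E.Normal] [E.FiniteIndex]
    (g : Γ) (hgE : ∀ x : Γ ⧸ E, x ∈ Subgroup.zpowers (QuotientGroup.mk g : Γ ⧸ E)) :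
    ∃ (h : quotSub U (U ⊓ E)) (f : ℕ), (∀ x : quotSub U (U ⊓ E), x ∈ Subgroup.zpowers h) ∧
      QuotientGroup.map (U ⊓ E) E (MonoidHom.id Γ) inf_le_right (h : Γ ⧸ (U ⊓ E)) =
        (QuotientGroup.mk g : Γ ⧸ E) ^ f := by
  set ι : quotSub U (U ⊓ E) →* Γ ⧸ E :=
    (QuotientGroup.map (U ⊓ E) E (MonoidHom.id Γ) inf_le_right).comp
      (quotSub U (U ⊓ E)).subtype with hι
  have hinj : Function.Injective ι := by
    rw [injective_iff_map_eq_one]
    rintro ⟨x, u, hu, rfl⟩ hx
    apply Subtype.ext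
    change (QuotientGroup.mk u : Γ ⧸ (U ⊓ E)) = 1
    have h1 : (QuotientGroup.mk u : Γ ⧸ E) = 1 := hx
    rw [QuotientGroup.eq_one_iff] at h1 ⊢
    exact ⟨hu, h1⟩
  have hcycE : IsCyclic (Γ ⧸ E) := ⟨⟨QuotientGroup.mk g, hgE⟩⟩
  have hcyc : IsCyclic (quotSub U (U ⊓ E)) := isCyclic_of_injective ι hinj
  obtain ⟨h, hh⟩ := hcyc.exists_generator
  obtain ⟨f, hf⟩ := H19.exists_pow_eq hgE (ι h)
  exact ⟨h, f, hh, hf.symm⟩

/-- **Key vanishing from a norm relation.**  If `a` is a norm from `C^(U ⊓ E)` for the group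
`U/(U ⊓ E)`, then the inflation of the tower class at `E` to `U ⊓ E` restricts to zero on
`U/(U ⊓ E)`. -/
theorem resSub_infLevel_towerClass_eq_zero (U E : Subgroup Γ) [U.Normal] [E.Normal]
    [E.FiniteIndex] [(U ⊓ E).FiniteIndex] (g : Γ)
    (hgE : ∀ x : Γ ⧸ E, x ∈ Subgroup.zpowers (QuotientGroup.mk g : Γ ⧸ E))
    (a : C.V) (ha : ∀ γ : Γ, C.ρ γ a = a) [Fintype (quotSub U (U ⊓ E))]
    (hnorm : ∃ y : (C.quotientToInvariants (U ⊓ E)).V, invElt C (U ⊓ E) a ha =
      (Rep.res (quotSub U (U ⊓ E)).subtype (C.quotientToInvariants (U ⊓ E))).ρ.norm y) :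
    (resSub (C.quotientToInvariants (U ⊓ E)) (quotSub U (U ⊓ E)) 2).hom
      ((infLevel C E (U ⊓ E) inf_le_right 2).hom (towerClass C E g hgE a ha)) = 0 := by
  obtain ⟨h, f, hh, hf⟩ := exists_generator_quotSub_inf U E g hgE
  rw [resSub_infLevel_towerClass C U E (U ⊓ E) inf_le_right g hgE a ha h hh f hf]
  obtain ⟨y, hy⟩ := hnorm
  have h0 : H2π (Rep.res (quotSub U (U ⊓ E)).subtype (C.quotientToInvariants (U ⊓ E)))
      (H19.stdCocycle hh (invElt_invariant_res C U (U ⊓ E) a ha)) = 0 := by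
    rw [H19.H2π_stdCocycle_eq_zero_iff]
    exact ⟨y, by rw [H19.pnorm_orderOf_eq_norm hh]; exact hy⟩
  rw [h0, smul_zero]

/-- The order of the tower class from the norm criterion. -/
theorem addOrderOf_towerClass (U : Subgroup Γ) [U.Normal] [U.FiniteIndex] (g : Γ)
    (hg : ∀ x : Γ ⧸ U, x ∈ Subgroup.zpowers (QuotientGroup.mk g : Γ ⧸ U))
    (a : C.V) (ha : ∀ γ : Γ, C.ρ γ a = a)
    (hOrd : ∀ m : ℕ, (∃ y : (C.quotientToInvariants U).V, m • invElt C U a ha =
        H19.pnorm (C.quotientToInvariants U) (QuotientGroup.mk g : Γ ⧸ U) y U.index) →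
      U.index ∣ m) :
    addOrderOf (towerClass C U g hg a ha) = U.index := by
  apply Nat.dvd_antisymm
  · apply addOrderOf_dvd_of_nsmul_eq_zero
    have := H19.orderOf_nsmul_H2π_stdCocycle hg (invElt_invariant C U a ha)
    rwa [orderOf_mk_eq_index U g hg] at this
  · apply hOrd
    rw [← nsmul_towerClass_eq_zero_iff C U g hg a ha]
    exact addOrderOf_nsmul_eq_zero _

/-- Finsum form of the key vanishing (no `Fintype` instance in the hypothesis). -/
theorem resSub_infLevel_towerClass_eq_zero' (U E : Subgroup Γ) [U.Normal] [E.Normal]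
    [E.FiniteIndex] [(U ⊓ E).FiniteIndex] (g : Γ)
    (hgE : ∀ x : Γ ⧸ E, x ∈ Subgroup.zpowers (QuotientGroup.mk g : Γ ⧸ E))
    (a : C.V) (ha : ∀ γ : Γ, C.ρ γ a = a)
    (hnorm : ∃ y : (C.quotientToInvariants (U ⊓ E)).V, invElt C (U ⊓ E) a ha =
      ∑ᶠ x : quotSub U (U ⊓ E), (C.quotientToInvariants (U ⊓ E)).ρ x.1 y) :
    (resSub (C.quotientToInvariants (U ⊓ E)) (quotSub U (U ⊓ E)) 2).hom
      ((infLevel C E (U ⊓ E) inf_le_right 2).hom (towerClass C E g hgE a ha)) = 0 := by
  let _ : Fintype (quotSub U (U ⊓ E)) := Fintype.ofFinite _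
  apply resSub_infLevel_towerClass_eq_zero C U E g hgE a ha
  obtain ⟨y, hy⟩ := hnorm
  refine ⟨y, ?_⟩
  rw [hy, finsum_eq_sum_of_fintype, Representation.norm, LinearMap.sum_apply]
  rfl

/-- **The bridge**: reciprocity data for a cyclic `p`-tower give an `H12.PTowerSystem`.

Besides the formal data (`E`, `inter_mem`, `infRes`) one needs: an element `g : Γ` whose image
generates every `Γ/E n`; a `Γ`-invariant `a : C` (the idele class with `Θ_n(a) = ḡ_n`); the
fact that inflation does not lower the order of the classes (`order_inf`, from `(Ord)`: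
`m • a` a norm from `C^(E n)` only if `p^n ∣ m`, plus helper12's `H12_InfOrder`); and the key
norm relation: for every normal level `U` with `p^e ∥ [Γ:U]`, `a` is a norm from `C^(U ⊓ E e)`
for the group `U/(U ⊓ E e)`. -/
def pTowerSystemOfRecip (p : ℕ) (hp : p.Prime) (𝓛 : LevelStructure Γ) (E : ℕ → Subgroup Γ)
    [hE : ∀ n, (E n).Normal] (mem : ∀ n, E n ∈ 𝓛.levels) (index : ∀ n, (E n).index = p ^ n)
    (anti : ∀ {n m : ℕ}, n ≤ m → E m ≤ E n)
    (inter_mem : ∀ (U : Subgroup Γ) [U.Normal], U ∈ 𝓛.levels → ∀ n, U ⊓ E n ∈ 𝓛.levels)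
    (infRes : ∀ (U W : Subgroup Γ) [U.Normal] [W.Normal], U ∈ 𝓛.levels → W ∈ 𝓛.levels → W ≤ U →
      IsPGroup p (quotSub U W) → InfRes2 (C.quotientToInvariants W) (quotSub U W))
    (g : Γ) (gen : ∀ n (x : Γ ⧸ E n), x ∈ Subgroup.zpowers (QuotientGroup.mk g : Γ ⧸ E n))
    (a : C.V) (ha : ∀ γ : Γ, C.ρ γ a = a)
    (order_inf : ∀ (n : ℕ) (W : Subgroup Γ) [W.Normal], W ∈ 𝓛.levels → ∀ h : W ≤ E n,
      haveI := 𝓛.finiteIndex (E n) (mem n)
      addOrderOf ((infLevel C (E n) W h 2).hom (towerClass C (E n) g (gen n) a ha)) = p ^ n)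
    (key : ∀ (U : Subgroup Γ) [U.Normal], U ∈ 𝓛.levels →
      ∃ y : (C.quotientToInvariants (U ⊓ E (U.index.factorization p))).V,
        invElt C (U ⊓ E (U.index.factorization p)) a ha =
          ∑ᶠ x : quotSub U (U ⊓ E (U.index.factorization p)),
            (C.quotientToInvariants (U ⊓ E (U.index.factorization p))).ρ x.1 y) :
    PTowerSystem p 𝓛 C where
  prime := hp
  E := E
  normal := hE
  mem := mem
  index := index
  anti := anti
  inter_mem := inter_mem
  infRes := infRes
  u n :=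
    haveI := 𝓛.finiteIndex (E n) (mem n)
    towerClass C (E n) g (gen n) a ha
  inf_u n m h := by
    have := 𝓛.finiteIndex (E n) (mem n)
    have := 𝓛.finiteIndex (E m) (mem m)
    rw [infLevel_towerClass C (E n) (E m) (anti h) g (gen n) (gen m) a ha, index, index,
      Nat.pow_div h hp.pos]
  order_inf := order_inf
  key U _ hU := by
    have := 𝓛.finiteIndex (E (U.index.factorization p)) (mem _)
    have := 𝓛.finiteIndex _ (inter_mem U hU (U.index.factorization p))
    exact resSub_infLevel_towerClass_eq_zero' C U (E (U.index.factorization p)) g (gen _) a ha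
      (key U hU)

end Fermat.Agent.CFT.H81
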