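/-
CFT project, layer D, package D2a (helper83), part (F-sub): compatibility of the canonical
`p`-primary classes `gammaP`, `cP` of the finite levels `U N / N ≤ Γ / N` of an OPEN SUBGROUP
`U ⊇ N` with the inflation maps `subInf` of `H95_FinLevSub`, in a `p`-class formation.
-/
import Mathlib
import Fermat.Agent.CFT.H83_FormationP
import Fermat.Agent.CFT.H95_FinLevSub

set_option autoImplicit false
set_option linter.unusedSectionVars false

open CategoryTheory groupCohomology

namespace Fermat.Agent.CFT.H83

open Fermat.Agent.CFT.H95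

section Card

variable {Γ : Type} [Group Γ] (U N N' : Subgroup Γ) [N.Normal] [N'.Normal]

/-- The image of `U ⊇ N` in `Γ / N` has `[U : N]` elements. -/
lemma card_subQ [N.FiniteIndex] (hNU : N ≤ U) : Nat.card (subQ U N) = N.relIndex U := by
  have h1 : (subQ U N).index = U.index :=
    Subgroup.index_map_eq U (QuotientGroup.mk'_surjective N)
      (by rw [QuotientGroup.ker_mk']; exact hNU)
  have h2 := (subQ U N).card_mul_index
  rw [h1, ← Subgroup.index_eq_card, ← Subgroup.relIndex_mul_index hNU] at h2
  have hU : U.index ≠ 0 := by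
    intro h0
    have h3 := Subgroup.relIndex_mul_index hNU
    rw [h0, mul_zero] at h3
    exact Subgroup.FiniteIndex.index_ne_zero h3.symm
  exact Nat.eq_of_mul_eq_mul_right (Nat.pos_of_ne_zero hU) h2

lemma card_subQ_mul [N'.FiniteIndex] (h : N' ≤ N) (hNU : N ≤ U) :
    Nat.card (subQ U N') = Nat.card (subQ U N) * N'.relIndex N := by
  have : N.FiniteIndex := Subgroup.finiteIndex_of_le h
  rw [card_subQ U N hNU, card_subQ U N' (h.trans hNU), mul_comm,
    Subgroup.relIndex_mul_relIndex _ _ _ h hNU]

end Card

section SubInflation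

variable {Γ : Type} [Group Γ] {𝓛 : LevelStructure Γ} {C : Rep.{0} ℤ Γ} {p : ℕ} [Fact p.Prime]
  (F : PClassFormation p 𝓛 C) (U N N' : Subgroup Γ) (hN : N ∈ 𝓛.levels) (hN' : N' ∈ 𝓛.levels)
  [N.Normal] [N'.Normal] (h : N' ≤ N) (hNU : N ≤ U)

/-- The restriction of the fundamental class of level `N` to the image of `U` in `Γ / N`. -/
noncomputable abbrev fundSub : groupCohomology (subRep C U N) 2 :=
  (resSub (C.quotientToInvariants N) (subQ U N) 2).hom (F.fund N hN)

/-- `(U N / N, C^N)` is a `p`-class module with fundamental class `fundSub`. -/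
theorem isPClassModule_sub : IsPClassModule p (subRep C U N) (fundSub F U N hN) :=
  isPClassModule_res (F.isClass N hN) (subQ U N)

include hNU in
/-- (F-sub) `subInf (gammaP (fund_N|S)) = [N : N']_p • gammaP (fund_N'|S')` for the images
`S, S'` of an open subgroup `U ⊇ N` in `Γ / N`, `Γ / N'`. -/
theorem subInf_gammaP :
    (subInf C U N N' h 2).hom (gammaP p (subRep C U N) (fundSub F U N hN)) =
      ordProj[p] (N'.relIndex N) • gammaP p (subRep C U N') (fundSub F U N' hN') := by
  have hp : p.Prime := Fact.out
  have := finite_quotient_level N' hN'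
  have := finite_quotient_level N hN
  have := 𝓛.finiteIndex N' hN'
  have hrel := relIndex_level_ne_zero N N' hN' h
  have hcard := card_subQ_mul U N N' h hNU
  have hcardN : Nat.card (subQ U N) ≠ 0 := Nat.card_pos.ne'
  refine eq_of_coprime_nsmul (m := ordCompl[p] (N'.relIndex N))
    (n := ordProj[p] (Nat.card (subQ U N'))) ?_ _ _ ?_ ?_ ?_
  · exact (Nat.Coprime.pow_left _ (Nat.coprime_ordCompl hp hrel)).symm
  · rw [gammaP, gammaP, map_nsmul, fundSub, subInf_resSub, smul_smul, smul_smul, smul_smul,
      mul_comm _ (ordCompl[p] _), ← Nat.ordCompl_mul, ← hcard,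
      ordCompl_nsmul_resSub_infLevel F N N' hN hN' h (subQ U N'), smul_smul, hcard,
      Nat.ordCompl_mul]
    congr 1
    have := Nat.ordProj_mul_ordCompl_eq_self (N'.relIndex N) p
    calc ordCompl[p] (Nat.card (subQ U N)) * ordCompl[p] (N'.relIndex N) * N'.relIndex N
        = ordCompl[p] (N'.relIndex N) * ((ordProj[p] (N'.relIndex N) * ordCompl[p] (N'.relIndex N)) *
            ordCompl[p] (Nat.card (subQ U N))) := by rw [this]; ring
      _ = _ := by ring
  · rw [← map_nsmul, hcard, Nat.ordProj_mul p hcardN hrel, mul_comm, mul_smul,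
      ordProj_nsmul_gammaP, smul_zero, map_zero]
  · rw [smul_comm, ordProj_nsmul_gammaP, smul_zero]

include hNU in
/-- (F'-sub) the canonical generators of the `p`-torsion are compatible with `subInf`. -/
theorem subInf_cP (hdvd : p ∣ Nat.card (subQ U N)) :
    (subInf C U N N' h 2).hom (cP p (subRep C U N) (fundSub F U N hN)) =
      cP p (subRep C U N') (fundSub F U N' hN') := by
  have := finite_quotient_level N' hN'
  have := finite_quotient_level N hN
  have := 𝓛.finiteIndex N' hN'
  have hrel := relIndex_level_ne_zero N N' hN' h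
  have hcard := card_subQ_mul U N N' h hNU
  have hcardN : Nat.card (subQ U N) ≠ 0 := Nat.card_pos.ne'
  rw [cP, cP, map_nsmul, subInf_gammaP F U N N' hN hN' h hNU, smul_smul, hcard,
    Nat.ordProj_mul p hcardN hrel, Nat.mul_div_right_comm (p_dvd_ordProj hdvd)]

include hNU in
/-- (F''-sub) the same in the normalisation `t_S = (|S| / p) • γ|S`. -/
theorem subInf_card_div_nsmul (hdvd : p ∣ Nat.card (subQ U N)) :
    (subInf C U N N' h 2).hom ((Nat.card (subQ U N) / p) • fundSub F U N hN) =
      (Nat.card (subQ U N') / p) • fundSub F U N' hN' := by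
  have hp : p.Prime := Fact.out
  have := finite_quotient_level N' hN'
  have := finite_quotient_level N hN
  have := 𝓛.finiteIndex N' hN'
  have hcard := card_subQ_mul U N N' h hNU
  have hdvd' : p ∣ Nat.card (subQ U N') := by rw [hcard]; exact Dvd.dvd.mul_right hdvd _
  refine eq_of_coprime_nsmul (m := ordCompl[p] (Nat.card (subQ U N'))) (n := p) ?_ _ _ ?_ ?_ ?_
  · exact (Nat.coprime_ordCompl hp Nat.card_pos.ne').symm
  · have e1 : Nat.card (subQ U N') / p = Nat.card (subQ U N) / p * N'.relIndex N := by
      rw [hcard, Nat.mul_div_right_comm hdvd]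
    rw [map_nsmul, fundSub, subInf_resSub, smul_comm,
      ordCompl_nsmul_resSub_infLevel F N N' hN hN' h (subQ U N'), smul_comm, smul_smul, e1,
      mul_smul, mul_smul]
  · rw [← map_nsmul, smul_smul, Nat.mul_div_cancel' hdvd,
      H33.card_nsmul_eq_zero (subRep C U N) 1, map_zero]
  · rw [smul_smul, Nat.mul_div_cancel' hdvd',
      H33.card_nsmul_eq_zero (subRep C U N') 1]

end SubInflation

end Fermat.Agent.CFT.H83
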