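/-
helper85 — CFT layer A: adapter discharging the degree-2 inflation-restriction input
`H40.InfResInput` of `H40_Devissage` from `H85_InfRes`.
-/
import Fermat.Agent.CFT.H85_InfRes
import Fermat.Agent.CFT.H40_Devissage

namespace Fermat.Agent.CFT.H85

open CategoryTheory Limits groupCohomology Rep

/-- Degree-2 inflation–restriction in the shape consumed by `H40_Devissage`. -/
theorem infResInput (k : Type) [CommRing k] : H40.InfResInput k := by
  intro G _ _ A S _ h1
  have hA : ∀ i, 1 ≤ i → i < 2 → IsZero (groupCohomology (res S.subtype A) i) := by
    intro i hi1 hi2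
    obtain rfl : i = 1 := by omega
    exact h1
  exact ⟨inflation_injective (n := 2) (by norm_num) hA, fun x hx =>
    exists_inflation_eq_of_restriction_eq_zero (n := 2) (by norm_num) hA x hx⟩

end Fermat.Agent.CFT.H85
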