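import Mathlib

/-!
# Formal dévissage for abstract duality theorems (layer D1 of the CFT project)

This file contains the purely formal part of the proof of Milne, *Arithmetic Duality Theorems*,
Theorem I.1.8: two contravariant cohomological functors `T¹, T², (T³ = 0)` and `S¹, S²`
(`S³ = 0`) on a class of objects `Obj`, a natural transformation `α¹ : T¹ → S¹`, `α² : T² → S²`
compatible with the connecting maps, and for every object `X` a short exact sequence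
`0 → X → X⋆ → X₁ → 0` such that `α¹ (X⋆)` and `α² (X⋆)` are bijective.  Then `α¹ X` and `α² X`
are bijective for every `X`.

Everything is stated for additive groups and additive maps, with exactness expressed by
`Function.Exact`, so that any encoding of the long exact sequences can feed the theorem
(`LinearMap`s are used through `LinearMap.toAddMonoidHom`; the coercions agree definitionally).

The two exact rows attached to `0 → X → X⋆ → X₁ → 0` are

```
T¹ X₁ --t1a--> T¹ X⋆ --t1b--> T¹ X --tδ--> T² X₁ --t2a--> T² X⋆ --t2b--> T² X --> (T³ X₁ = 0)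
  |α¹           |α¹            |α¹          |α²            |α²            |α²
S¹ X₁ --s1a--> S¹ X⋆ --s1b--> S¹ X --sδ--> S² X₁ --s2a--> S² X⋆ --s2b--> S² X --> 0
```
-/

set_option autoImplicit false

namespace Fermat.Agent.CFT.H86

/-- Step A: if `β ∘ i₁ = i₂ ∘ f` with `i₁` surjective and `β` surjective then `i₂` is surjective.
(`α² X⋆` surjective and `S² X⋆ → S² X` surjective imply `α² X` surjective.) -/
theorem surjective_of_square {A₁ A₂ B₁ B₂ : Type*} (f : A₁ → A₂) (g : B₁ → B₂) (i₁ : A₁ → B₁) (i₂ : A₂ → B₂)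
    (hc : ∀ x, g (i₁ x) = i₂ (f x)) (hi₁ : Function.Surjective i₁) (hg : Function.Surjective g) :
    Function.Surjective i₂ := by
  intro y
  obtain ⟨z, rfl⟩ := hg y
  obtain ⟨x, rfl⟩ := hi₁ z
  exact ⟨f x, (hc x).symm⟩

section Steps

variable {A₁ A₂ A₃ A₄ B₁ B₂ B₃ B₄ : Type*}
  [AddCommGroup A₁] [AddCommGroup A₂] [AddCommGroup A₃] [AddCommGroup A₄]
  [AddCommGroup B₁] [AddCommGroup B₂] [AddCommGroup B₃] [AddCommGroup B₄]

/-- Step C: the four lemma with zero on the right: rows `A₁ → A₂ → A₃ → 0` and `B₁ → B₂ → B₃`,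
`i₁` surjective, `i₂` injective; then `i₃` is injective. -/
theorem injective_of_right_zero (f₁ : A₁ →+ A₂) (f₂ : A₂ →+ A₃) (g₁ : B₁ →+ B₂) (g₂ : B₂ →+ B₃)
    (i₁ : A₁ →+ B₁) (i₂ : A₂ →+ B₂) (i₃ : A₃ →+ B₃)
    (hc₁ : ∀ x, g₁ (i₁ x) = i₂ (f₁ x)) (hc₂ : ∀ x, g₂ (i₂ x) = i₃ (f₂ x))
    (hf₁ : Function.Exact f₁ f₂) (hf₂ : Function.Surjective f₂) (hg₁ : Function.Exact g₁ g₂)
    (hi₁ : Function.Surjective i₁) (hi₂ : Function.Injective i₂) : Function.Injective i₃ :=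
  AddMonoidHom.injective_of_surjective_of_injective_of_right_exact f₁ f₂ g₁ g₂ i₁ i₂ i₃
    (AddMonoidHom.ext hc₁) (AddMonoidHom.ext hc₂) hf₁ hg₁ hi₁ hi₂ hf₂

/-- Step D (surjectivity): the four lemma. -/
theorem surjective_of_four (f₁ : A₁ →+ A₂) (f₂ : A₂ →+ A₃) (f₃ : A₃ →+ A₄)
    (g₁ : B₁ →+ B₂) (g₂ : B₂ →+ B₃) (g₃ : B₃ →+ B₄)
    (i₁ : A₁ →+ B₁) (i₂ : A₂ →+ B₂) (i₃ : A₃ →+ B₃) (i₄ : A₄ →+ B₄)
    (hc₁ : ∀ x, g₁ (i₁ x) = i₂ (f₁ x)) (hc₂ : ∀ x, g₂ (i₂ x) = i₃ (f₂ x))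
    (hc₃ : ∀ x, g₃ (i₃ x) = i₄ (f₃ x))
    (hf₂ : Function.Exact f₂ f₃) (hg₁ : Function.Exact g₁ g₂) (hg₂ : Function.Exact g₂ g₃)
    (hi₁ : Function.Surjective i₁) (hi₃ : Function.Surjective i₃) (hi₄ : Function.Injective i₄) :
    Function.Surjective i₂ :=
  AddMonoidHom.surjective_of_surjective_of_surjective_of_injective f₁ f₂ f₃ g₁ g₂ g₃ i₁ i₂ i₃ i₄
    (AddMonoidHom.ext hc₁) (AddMonoidHom.ext hc₂) (AddMonoidHom.ext hc₃) hf₂ hg₁ hg₂ hi₁ hi₃ hi₄

/-- Step D (injectivity): the other four lemma. -/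
theorem injective_of_four (f₁ : A₁ →+ A₂) (f₂ : A₂ →+ A₃) (f₃ : A₃ →+ A₄)
    (g₁ : B₁ →+ B₂) (g₂ : B₂ →+ B₃) (g₃ : B₃ →+ B₄)
    (i₁ : A₁ →+ B₁) (i₂ : A₂ →+ B₂) (i₃ : A₃ →+ B₃) (i₄ : A₄ →+ B₄)
    (hc₁ : ∀ x, g₁ (i₁ x) = i₂ (f₁ x)) (hc₂ : ∀ x, g₂ (i₂ x) = i₃ (f₂ x))
    (hc₃ : ∀ x, g₃ (i₃ x) = i₄ (f₃ x))
    (hf₁ : Function.Exact f₁ f₂) (hf₂ : Function.Exact f₂ f₃) (hg₁ : Function.Exact g₁ g₂)
    (hi₁ : Function.Surjective i₁) (hi₂ : Function.Injective i₂) (hi₄ : Function.Injective i₄) :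
    Function.Injective i₃ :=
  AddMonoidHom.injective_of_surjective_of_injective_of_injective f₁ f₂ f₃ g₁ g₂ g₃ i₁ i₂ i₃ i₄
    (AddMonoidHom.ext hc₁) (AddMonoidHom.ext hc₂) (AddMonoidHom.ext hc₃) hf₁ hf₂ hg₁ hi₁ hi₂ hi₄

end Steps

section Main

universe v w

variable {Obj : Type*} {T1 T2 : Obj → Type v} {S1 S2 : Obj → Type w}
  [∀ X, AddCommGroup (T1 X)] [∀ X, AddCommGroup (T2 X)]
  [∀ X, AddCommGroup (S1 X)] [∀ X, AddCommGroup (S2 X)]

/-- The data of the two exact rows attached, for every object `X`, to a chosen short exact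
sequence `0 → X → star X → one X → 0`, together with the comparison maps `α¹, α²`. -/
structure DualityRows (T1 T2 : Obj → Type v) (S1 S2 : Obj → Type w)
    [∀ X, AddCommGroup (T1 X)] [∀ X, AddCommGroup (T2 X)]
    [∀ X, AddCommGroup (S1 X)] [∀ X, AddCommGroup (S2 X)] where
  /-- the "induced" object `X⋆` containing `X` -/
  star : Obj → Obj
  /-- the cokernel `X₁ = X⋆ / X` -/
  one : Obj → Obj
  α1 : ∀ X, T1 X →+ S1 X
  α2 : ∀ X, T2 X →+ S2 X
  t1a : ∀ X, T1 (one X) →+ T1 (star X)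
  t1b : ∀ X, T1 (star X) →+ T1 X
  tδ : ∀ X, T1 X →+ T2 (one X)
  t2a : ∀ X, T2 (one X) →+ T2 (star X)
  t2b : ∀ X, T2 (star X) →+ T2 X
  s1a : ∀ X, S1 (one X) →+ S1 (star X)
  s1b : ∀ X, S1 (star X) →+ S1 X
  sδ : ∀ X, S1 X →+ S2 (one X)
  s2a : ∀ X, S2 (one X) →+ S2 (star X)
  s2b : ∀ X, S2 (star X) →+ S2 X
  /-- exactness of the `T` row -/
  t_exact₁ : ∀ X, Function.Exact (t1a X) (t1b X)
  t_exact₂ : ∀ X, Function.Exact (t1b X) (tδ X)
  t_exact₃ : ∀ X, Function.Exact (tδ X) (t2a X)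
  t_exact₄ : ∀ X, Function.Exact (t2a X) (t2b X)
  /-- `T² X⋆ → T² X` is onto (because `T³ X₁ = 0`) -/
  t_surj : ∀ X, Function.Surjective (t2b X)
  /-- exactness of the `S` row -/
  s_exact₁ : ∀ X, Function.Exact (s1a X) (s1b X)
  s_exact₂ : ∀ X, Function.Exact (s1b X) (sδ X)
  s_exact₃ : ∀ X, Function.Exact (sδ X) (s2a X)
  s_exact₄ : ∀ X, Function.Exact (s2a X) (s2b X)
  /-- `S² X⋆ → S² X` is onto (because `S³ = 0`) -/
  s_surj : ∀ X, Function.Surjective (s2b X)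
  /-- the squares commute -/
  comm_1a : ∀ X x, s1a X (α1 (one X) x) = α1 (star X) (t1a X x)
  comm_1b : ∀ X x, s1b X (α1 (star X) x) = α1 X (t1b X x)
  comm_δ : ∀ X x, sδ X (α1 X x) = α2 (one X) (tδ X x)
  comm_2a : ∀ X x, s2a X (α2 (one X) x) = α2 (star X) (t2a X x)
  comm_2b : ∀ X x, s2b X (α2 (star X) x) = α2 X (t2b X x)

namespace DualityRows

variable (R : DualityRows T1 T2 S1 S2)

/-- Step A: `α²` is surjective on every object as soon as it is on the induced objects. -/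
theorem α2_surjective (h2 : ∀ X, Function.Surjective (R.α2 (R.star X))) (X : Obj) :
    Function.Surjective (R.α2 X) :=
  surjective_of_square (R.t2b X) (R.s2b X) (R.α2 (R.star X)) (R.α2 X) (R.comm_2b X) (h2 X)
    (R.s_surj X)

/-- Step C: `α²` is injective on every object as soon as it is bijective on the induced
objects. -/
theorem α2_injective (h2 : ∀ X, Function.Bijective (R.α2 (R.star X))) (X : Obj) :
    Function.Injective (R.α2 X) :=
  injective_of_right_zero (R.t2a X) (R.t2b X) (R.s2a X) (R.s2b X) (R.α2 (R.one X))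
    (R.α2 (R.star X)) (R.α2 X) (R.comm_2a X) (R.comm_2b X) (R.t_exact₄ X) (R.t_surj X)
    (R.s_exact₄ X) (R.α2_surjective (fun Y => (h2 Y).2) (R.one X)) (h2 X).1

theorem α2_bijective (h2 : ∀ X, Function.Bijective (R.α2 (R.star X))) (X : Obj) :
    Function.Bijective (R.α2 X) :=
  ⟨R.α2_injective h2 X, R.α2_surjective (fun Y => (h2 Y).2) X⟩

/-- Step D, first half: `α¹` is surjective on every object. -/
theorem α1_surjective (h1 : ∀ X, Function.Surjective (R.α1 (R.star X)))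
    (h2 : ∀ X, Function.Bijective (R.α2 (R.star X))) (X : Obj) :
    Function.Surjective (R.α1 X) :=
  surjective_of_four (R.t1b X) (R.tδ X) (R.t2a X) (R.s1b X) (R.sδ X) (R.s2a X)
    (R.α1 (R.star X)) (R.α1 X) (R.α2 (R.one X)) (R.α2 (R.star X))
    (R.comm_1b X) (R.comm_δ X) (R.comm_2a X) (R.t_exact₃ X) (R.s_exact₂ X) (R.s_exact₃ X)
    (h1 X) (R.α2_bijective h2 (R.one X)).2 (h2 X).1

/-- Step D, second half: `α¹` is injective on every object. -/
theorem α1_injective (h1 : ∀ X, Function.Bijective (R.α1 (R.star X)))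
    (h2 : ∀ X, Function.Bijective (R.α2 (R.star X))) (X : Obj) :
    Function.Injective (R.α1 X) :=
  injective_of_four (R.t1a X) (R.t1b X) (R.tδ X) (R.s1a X) (R.s1b X) (R.sδ X)
    (R.α1 (R.one X)) (R.α1 (R.star X)) (R.α1 X) (R.α2 (R.one X))
    (R.comm_1a X) (R.comm_1b X) (R.comm_δ X) (R.t_exact₁ X) (R.t_exact₂ X) (R.s_exact₁ X)
    (R.α1_surjective (fun Y => (h1 Y).2) h2 (R.one X)) (h1 X).1
    (R.α2_bijective h2 (R.one X)).1

/-- **Formal dévissage** (Milne ADT I.1.8): if `α¹` and `α²` are bijective on all induced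
objects `X⋆`, they are bijective on all objects. -/
theorem bijective (h1 : ∀ X, Function.Bijective (R.α1 (R.star X)))
    (h2 : ∀ X, Function.Bijective (R.α2 (R.star X))) (X : Obj) :
    Function.Bijective (R.α1 X) ∧ Function.Bijective (R.α2 X) :=
  ⟨⟨R.α1_injective h1 h2 X, R.α1_surjective (fun Y => (h1 Y).2) h2 X⟩, R.α2_bijective h2 X⟩

end DualityRows

end Main

end Fermat.Agent.CFT.H86
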