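import Mathlib
import Fermat.Agent.CFT.H91_WModel
import Fermat.Agent.CFT.H22_SLCoind
import Fermat.Agent.CFT.H22_SLEnvMor
import Fermat.Agent.CFT.H5_CoarseFine

/-!
# `Hom(X, coindLC B) ≅ coindLC (Hom(res X, B))` and Shapiro for `Hom`-coefficients
(CFT / D4 step (iii))

`φ : D →* G`, `𝓛` a level structure on `G`, `B` a `D`-module, `X` a finite discrete `G`-module.

* `homCoind 𝓛 φ X hX B : homRep X (coindLC 𝓛 φ B) ⟶ coindLC 𝓛 φ (homRep (Rep.res φ X) B)`,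
  `Ψ(Φ)(g)(x) = Φ(g⁻¹ x)(g)`, a bijective morphism of `G`-modules;
* `bijective_mapH1_homPost_ev`, `bijective_mapH0_homPost_ev` : "restriction along `φ` followed by
  evaluation at `1`" is bijective
  `Hⁿ(G, 𝓛; Hom(X, coindLC B)) → Hⁿ(D, 𝓛.comap φ; Hom(res X, B))`, `n = 0, 1`.
-/

set_option autoImplicit false

open CategoryTheory

namespace Fermat.Agent.CFT.H86

open Fermat.Agent.CFT Fermat.Agent.CFT.H22

variable {G D : Type} [Group G] [Group D] (𝓛 : LevelStructure G) (φ : D →* G)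
  {k : Type} [CommRing k] (X : Rep.{0} k G) (B : Rep.{0} k D)

/-- Evaluation at `g` on `coindLC`. -/
noncomputable def coindLCEvAt (g : G) : (coindLC 𝓛 φ B).V →ₗ[k] B.V where
  toFun F := F.1 g
  map_add' _ _ := rfl
  map_smul' _ _ := rfl

@[simp] lemma coindLCEvAt_apply (g : G) (F : coindLC 𝓛 φ B) : coindLCEvAt 𝓛 φ B g F = F.1 g := rfl

variable [Finite X.V] (hX : 𝓛.IsDiscrete X)

include hX in
/-- A level fixing every vector of the finite discrete module `X`. -/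
lemma exists_level_fixing : ∃ N ∈ 𝓛.levels, ∀ n ∈ N, ∀ x : X.V, X.ρ n x = x := by
  choose Nx hNx hfix using hX
  obtain ⟨N, hN, hle⟩ := exists_level_le_of_finite 𝓛 Nx hNx
  exact ⟨N, hN, fun n hn x => hfix x n (hle x hn)⟩

include hX in
lemma homCoind_mem (Φ : X.V →ₗ[k] (coindLC 𝓛 φ B).V) :
    (fun g => (coindLCEvAt 𝓛 φ B g ∘ₗ Φ ∘ₗ X.ρ g⁻¹ : X.V →ₗ[k] B.V)) ∈
      coindLCSub 𝓛 φ (homRep (Rep.res φ X) B) := by
  refine ⟨fun d g => ?_, ?_⟩
  · refine LinearMap.ext fun x => ?_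
    show (Φ (X.ρ (φ d * g)⁻¹ x)).1 (φ d * g) =
      B.ρ d ((Φ (X.ρ g⁻¹ (X.ρ (φ d⁻¹) x))).1 g)
    rw [coindLC_equivariant, mul_inv_rev, map_mul, Module.End.mul_apply, map_inv φ d]
  · obtain ⟨N₁, hN₁, hfix⟩ := exists_level_fixing 𝓛 X hX
    have hc : ∀ x : X.V, ∃ M ∈ 𝓛.levels, ∀ g s, s ∈ M → (Φ x).1 (g * s) = (Φ x).1 g :=
      fun x => coindLC_isConst 𝓛 φ B (Φ x)
    choose Mx hMx hconst using hc
    obtain ⟨N₂, hN₂, hle₂⟩ := exists_level_le_of_finite 𝓛 Mx hMx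
    obtain ⟨N, hN, hle⟩ := 𝓛.directed N₁ hN₁ N₂ hN₂
    refine ⟨N, hN, fun g s hs => ?_⟩
    refine LinearMap.ext fun x => ?_
    show (Φ (X.ρ (g * s)⁻¹ x)).1 (g * s) = (Φ (X.ρ g⁻¹ x)).1 g
    rw [mul_inv_rev, map_mul, Module.End.mul_apply, hfix s⁻¹ (N₁.inv_mem (hle hs).1),
      hconst _ g s (hle₂ _ (hle hs).2)]

/-- The linear map `Ψ : Hom(X, coindLC B) → coindLC (Hom(res X, B))`,
`Ψ(Φ)(g)(x) = Φ(g⁻¹ x)(g)`. -/
noncomputable def homCoindLin :
    (homRep X (coindLC 𝓛 φ B)).V →ₗ[k] (coindLC 𝓛 φ (homRep (Rep.res φ X) B)).V where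
  toFun Φ := ⟨_, homCoind_mem 𝓛 φ X B hX Φ⟩
  map_add' Φ Φ' := by
    apply Subtype.ext; funext g
    refine LinearMap.ext fun x => ?_
    rfl
  map_smul' c Φ := by
    apply Subtype.ext; funext g
    refine LinearMap.ext fun x => ?_
    rfl

lemma homCoindLin_apply (Φ : X.V →ₗ[k] (coindLC 𝓛 φ B).V) (g : G) (x : X.V) :
    ((homCoindLin 𝓛 φ X B hX Φ).1 g : X.V →ₗ[k] B.V) x = (Φ (X.ρ g⁻¹ x)).1 g := rfl

/-- `Ψ` as a morphism of `G`-modules. -/
noncomputable def homCoind :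
    homRep X (coindLC 𝓛 φ B) ⟶ coindLC 𝓛 φ (homRep (Rep.res φ X) B) :=
  Rep.ofHom (ρ := (homRep X (coindLC 𝓛 φ B)).ρ)
    (σ := (coindLC 𝓛 φ (homRep (Rep.res φ X) B)).ρ)
    ⟨homCoindLin 𝓛 φ X B hX, fun h => by
      refine LinearMap.ext fun Φ => ?_
      apply Subtype.ext; funext g
      refine LinearMap.ext fun x => ?_
      show (Φ (X.ρ h⁻¹ (X.ρ g⁻¹ x))).1 (g * h) = (Φ (X.ρ (g * h)⁻¹ x)).1 (g * h)
      rw [mul_inv_rev, map_mul, Module.End.mul_apply]⟩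

lemma homCoind_hom_apply (Φ : X.V →ₗ[k] (coindLC 𝓛 φ B).V) :
    (homCoind 𝓛 φ X B hX).hom Φ = homCoindLin 𝓛 φ X B hX Φ := rfl

omit [Finite X.V] in
include hX in
lemma homCoindInv_mem (Γ : coindLC 𝓛 φ (homRep (Rep.res φ X) B)) (x : X.V) :
    (fun g => (Γ.1 g : X.V →ₗ[k] B.V) (X.ρ g x)) ∈ coindLCSub 𝓛 φ B := by
  refine ⟨fun d g => ?_, ?_⟩
  · have h1 := coindLC_equivariant 𝓛 φ (homRep (Rep.res φ X) B) Γ d g
    show (Γ.1 (φ d * g) : X.V →ₗ[k] B.V) (X.ρ (φ d * g) x) =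
      B.ρ d ((Γ.1 g : X.V →ₗ[k] B.V) (X.ρ g x))
    rw [h1]
    show B.ρ d ((Γ.1 g : X.V →ₗ[k] B.V) (X.ρ (φ d⁻¹) (X.ρ (φ d * g) x))) = _
    rw [map_mul, Module.End.mul_apply, map_inv φ d, Representation.inv_self_apply]
  · obtain ⟨N₁, hN₁, hfix⟩ := hX x
    obtain ⟨N₂, hN₂, hconst⟩ := coindLC_isConst 𝓛 φ (homRep (Rep.res φ X) B) Γ
    obtain ⟨N, hN, hle⟩ := 𝓛.directed N₁ hN₁ N₂ hN₂
    refine ⟨N, hN, fun g s hs => ?_⟩
    show (Γ.1 (g * s) : X.V →ₗ[k] B.V) (X.ρ (g * s) x) = (Γ.1 g : X.V →ₗ[k] B.V) (X.ρ g x)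
    rw [hconst g s (hle hs).2, map_mul, Module.End.mul_apply, hfix s (hle hs).1]

include hX in
theorem homCoind_bijective : Function.Bijective (homCoind 𝓛 φ X B hX).hom := by
  constructor
  · intro Φ Φ' h
    refine LinearMap.ext fun x => ?_
    apply Subtype.ext; funext g
    have h1 : homCoindLin 𝓛 φ X B hX Φ = homCoindLin 𝓛 φ X B hX Φ' := h
    have h2 := LinearMap.congr_fun (congrFun (congrArg Subtype.val h1) g) (X.ρ g x)
    rw [homCoindLin_apply, homCoindLin_apply, Representation.inv_self_apply] at h2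
    exact h2
  · intro Γ
    let Φ : X.V →ₗ[k] (coindLC 𝓛 φ B).V :=
      { toFun := fun x => ⟨_, homCoindInv_mem 𝓛 φ X B hX Γ x⟩
        map_add' := fun x y => by
          apply Subtype.ext; funext g
          show (Γ.1 g : X.V →ₗ[k] B.V) (X.ρ g (x + y)) = _
          rw [map_add, map_add]; rfl
        map_smul' := fun c x => by
          apply Subtype.ext; funext g
          show (Γ.1 g : X.V →ₗ[k] B.V) (X.ρ g (c • x)) = _
          rw [map_smul, map_smul]; rfl }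
    refine ⟨Φ, ?_⟩
    apply Subtype.ext; funext g
    refine LinearMap.ext fun x => ?_
    show (Γ.1 g : X.V →ₗ[k] B.V) (X.ρ g (X.ρ g⁻¹ x)) = (Γ.1 g : X.V →ₗ[k] B.V) x
    rw [Representation.self_inv_apply]

/-! ## Shapiro for `Hom`-coefficients -/

/-- `H⁰`-functoriality of a bijective morphism is bijective. -/
theorem coeffH0_bijective_of_bijective {H : Type} [Group H] {A A' : Rep.{0} k H} (f : A ⟶ A')
    (hf : Function.Bijective f.hom) : Function.Bijective (H50.coeffH0 f) := by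
  constructor
  · intro a a' h
    apply Subtype.ext
    exact hf.1 (congrArg Subtype.val h)
  · intro b
    obtain ⟨a, ha⟩ := hf.2 b.1
    refine ⟨⟨a, fun g => hf.1 ?_⟩, Subtype.ext ha⟩
    rw [Rep.hom_comm_apply, ha, b.2 g]

include hX in
/-- **Shapiro, degree one, `Hom`-coefficients**: restriction along `φ` followed by evaluation at
`1` is bijective `H¹(G, 𝓛; Hom(X, coindLC B)) → H¹(D, 𝓛.comap φ; Hom(res X, B))`. -/
theorem bijective_mapH1_homPost_ev :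
    Function.Bijective (H50.mapH1 (𝓛.comap φ) 𝓛 (H50.isCont_comap 𝓛 φ)
      (isEquivariant_homPostLin φ X (isEquivariant_coindLCEvLin 𝓛 φ B))) := by
  have e : ⇑(H50.mapH1 (𝓛.comap φ) 𝓛 (H50.isCont_comap 𝓛 φ)
      (isEquivariant_homPostLin φ X (isEquivariant_coindLCEvLin 𝓛 φ B))) =
      ⇑(shapiroH1 𝓛 φ (homRep (Rep.res φ X) B)) ∘ ⇑(H50.coeffH1 𝓛 (homCoind 𝓛 φ X B hX)) := by
    funext x
    induction x using Submodule.Quotient.induction_on with
    | H c =>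
      show (𝓛.comap φ).H1π _ _ = (𝓛.comap φ).H1π _ _
      congr 1
      apply Subtype.ext; funext d
      refine LinearMap.ext fun x => ?_
      show (c.1 (φ d) x).1 1 = (c.1 (φ d) (X.ρ 1⁻¹ x)).1 1
      rw [inv_one, map_one, Module.End.one_apply]
  rw [e]
  exact (shapiroH1Equiv 𝓛 φ (homRep (Rep.res φ X) B)).bijective.comp
    (coeffH1_bijective 𝓛 _ (homCoind_bijective 𝓛 φ X B hX))

include hX in
/-- **Shapiro, degree zero, `Hom`-coefficients** (Frobenius reciprocity):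
`Hom_G(X, coindLC B) → Hom_D(res X, B)`, `Φ ↦ ev₁ ∘ Φ`, is bijective. -/
theorem bijective_mapH0_homPost_ev :
    Function.Bijective (H50.mapH0
      (isEquivariant_homPostLin φ X (isEquivariant_coindLCEvLin 𝓛 φ B))) := by
  have e : ⇑(H50.mapH0 (isEquivariant_homPostLin φ X (isEquivariant_coindLCEvLin 𝓛 φ B))) =
      ⇑(shapiroH0 𝓛 φ (homRep (Rep.res φ X) B)) ∘ ⇑(H50.coeffH0 (homCoind 𝓛 φ X B hX)) := by
    funext Φ
    apply Subtype.ext
    refine LinearMap.ext fun x => ?_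
    show (Φ.1 x).1 1 = (Φ.1 (X.ρ 1⁻¹ x)).1 1
    rw [inv_one, map_one, Module.End.one_apply]
  rw [e]
  exact (shapiroH0_bijective 𝓛 φ (homRep (Rep.res φ X) B)).comp
    (coeffH0_bijective_of_bijective _ (homCoind_bijective 𝓛 φ X B hX))

/-! ## Fine level structure on `D` -/

/-- Continuity of `φ` means that the pulled-back structure is coarser. -/
lemma isCoarser_comap_of_isCont {𝓛D : LevelStructure D} (hφ : H50.IsCont 𝓛D 𝓛 φ) :
    H5.IsCoarser (𝓛.comap φ) 𝓛D := by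
  rintro _ ⟨N, hN, rfl⟩
  exact hφ N hN

include hX in
/-- **Shapiro, degree one, `Hom`-coefficients, fine structure on `D`**: for a continuous
`φ : (D, 𝓛D) → (G, 𝓛)`, restriction along `φ` followed by evaluation at `1` is INJECTIVE
`H¹(G, 𝓛; Hom(X, coindLC B)) → H¹(D, 𝓛D; Hom(res X, B))`. -/
theorem injective_mapH1_homPost_ev {𝓛D : LevelStructure D} (hφ : H50.IsCont 𝓛D 𝓛 φ) :
    Function.Injective (H50.mapH1 𝓛D 𝓛 hφ
      (isEquivariant_homPostLin φ X (isEquivariant_coindLCEvLin 𝓛 φ B))) := by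
  have hco := isCoarser_comap_of_isCont 𝓛 φ hφ
  have e : ⇑(H50.mapH1 𝓛D 𝓛 hφ
      (isEquivariant_homPostLin φ X (isEquivariant_coindLCEvLin 𝓛 φ B))) =
      ⇑(H50.mapH1 𝓛D (𝓛.comap φ) hco.isCont
        (H50.isEquivariant_hom (𝟙 (homRep (Rep.res φ X) B)))) ∘
      ⇑(H50.mapH1 (𝓛.comap φ) 𝓛 (H50.isCont_comap 𝓛 φ)
        (isEquivariant_homPostLin φ X (isEquivariant_coindLCEvLin 𝓛 φ B))) := by
    funext x
    induction x using Submodule.Quotient.induction_on with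
    | H c => rfl
  rw [e]
  exact (H5.mapH1_injective hco (H5.isSmoothEmbedding_id _ _)).comp
    (bijective_mapH1_homPost_ev 𝓛 φ X B hX).1

end Fermat.Agent.CFT.H86

/-! ## A criterion for bijectivity of `WMor.T1map` -/

namespace Fermat.Agent.CFT.H86

open Fermat.Agent.CFT Fermat.Agent.CFT.H22

variable {p : ℕ} [Fact p.Prime] {G D : Type} [Group G] [Group D]
  {𝓛 : LevelStructure G} {𝓛D : LevelStructure D}
  {φ : D →* G} {𝒟 : WDatum p 𝓛} {𝒟' : WDatum p 𝓛D}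

/-- `T¹`-map of a morphism of `W`-data is bijective as soon as it is bijective on the
numerators `Hom(X, W)` and surjective on `Hom(X, Vm)`. -/
theorem wMor_T1map_bijective_of (m : WMor φ 𝒟 𝒟') (X : Rep.{0} (ZMod p) G)
    (h0 : Function.Bijective (m.T1numMap X)) (hV : Function.Surjective (m.VmMap X)) :
    Function.Bijective (m.T1map X) := by
  constructor
  · rw [injective_iff_map_eq_zero]
    intro t ht
    induction t using Submodule.Quotient.induction_on with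
    | H u =>
      rw [WMor.T1map_mk, Submodule.Quotient.mk_eq_zero] at ht
      rw [Submodule.Quotient.mk_eq_zero]
      obtain ⟨v', hv'⟩ := ht
      obtain ⟨v, rfl⟩ := hV v'
      rw [← m.T1numMap_coeffH0 X v] at hv'
      exact ⟨v, h0.1 hv'⟩
  · intro t'
    induction t' using Submodule.Quotient.induction_on with
    | H u' =>
      obtain ⟨u, rfl⟩ := h0.2 u'
      exact ⟨Submodule.Quotient.mk u, rfl⟩

/-- For a morphism of `W`-data along `φ` whose components are the evaluations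
`coindLC 𝓛 φ B → B`, the maps `T1numMap`, `VmMap` are bijective, `T1map` is bijective and
`T2map` is injective.  Stated for a morphism `m` together with identifications of its source
datum with coinduced modules: `hW`, `hVm` say that `m.b`, `m.a` ARE the evaluation maps. -/
theorem wMor_ev_T1map_bijective (m : WMor φ 𝒟 𝒟') (X : Rep.{0} (ZMod p) G) [Finite X.V]
    (hX : 𝓛.IsDiscrete X)
    (hW : 𝒟.W = coindLC 𝓛 φ 𝒟'.W) (hVm : 𝒟.Vm = coindLC 𝓛 φ 𝒟'.Vm)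
    (hb : ∀ F : 𝒟.W.V, m.b F = (hW ▸ F : (coindLC 𝓛 φ 𝒟'.W).V).1 1)
    (ha : ∀ F : 𝒟.Vm.V, m.a F = (hVm ▸ F : (coindLC 𝓛 φ 𝒟'.Vm).V).1 1) :
    Function.Bijective (m.T1map X) := by
  obtain ⟨Vm, W, d, dVm, dW⟩ := 𝒟
  obtain ⟨a, b, ha', hb', comm⟩ := m
  dsimp only at hW hVm hb ha a b ha' hb' comm
  subst hW hVm
  have hb2 : b = coindLCEvLin 𝓛 φ 𝒟'.W := LinearMap.ext hb
  have ha2 : a = coindLCEvLin 𝓛 φ 𝒟'.Vm := LinearMap.ext ha
  subst hb2 ha2
  exact wMor_T1map_bijective_of _ X (bijective_mapH0_homPost_ev 𝓛 φ X 𝒟'.W hX)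
    (bijective_mapH0_homPost_ev 𝓛 φ X 𝒟'.Vm hX).2

/-- Same setting: `T2map` is injective (for any level structure `𝓛D` on `D` making `φ`
continuous). -/
theorem wMor_ev_T2map_injective (m : WMor φ 𝒟 𝒟') (hφ : H50.IsCont 𝓛D 𝓛 φ)
    (X : Rep.{0} (ZMod p) G) [Finite X.V] (hX : 𝓛.IsDiscrete X)
    (hW : 𝒟.W = coindLC 𝓛 φ 𝒟'.W)
    (hb : ∀ F : 𝒟.W.V, m.b F = (hW ▸ F : (coindLC 𝓛 φ 𝒟'.W).V).1 1) :
    Function.Injective (m.T2map hφ X) := by
  obtain ⟨Vm, W, d, dVm, dW⟩ := 𝒟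
  obtain ⟨a, b, ha', hb', comm⟩ := m
  dsimp only at hW hb a b ha' hb' comm
  subst hW
  have hb2 : b = coindLCEvLin 𝓛 φ 𝒟'.W := LinearMap.ext hb
  subst hb2
  exact injective_mapH1_homPost_ev 𝓛 φ X 𝒟'.W hX hφ

end Fermat.Agent.CFT.H86
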