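/-
CFT project, layer B, package B-KUMMER assembly (helper8): the local existence theorem modulo a
prime `ℓ` for `K ⊇ μ_ℓ` (Skeleton2 `exists_pow_eq_of_forall_mem_normSubgroup` with the extra
hypothesis on roots of unity), from helper31's symmetry lemma (`H31_KummerSymm`) and the local
norm index formula (`H8_NormIndexLoc`).
-/
import Fermat.Agent.CFT.H8_NormIndexLoc
import Fermat.Agent.CFT.H31_KummerSymm

set_option autoImplicit false

namespace Fermat.Agent.CFT.H8

open Fermat.Agent.CFT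

/-- the norm of a Galois extension of prime degree of local fields is not surjective. -/
theorem normSubgroup_ne_top_of_prime_degree (q : ℕ) [Fact q.Prime]
    (K : Type) [Field K] [Algebra ℚ_[q] K] [FiniteDimensional ℚ_[q] K]
    (L : Type) [Field L] [Algebra ℚ_[q] L] [FiniteDimensional ℚ_[q] L]
    [Algebra K L] [IsScalarTower ℚ_[q] K L] [IsGalois K L] (ℓ : ℕ) (hℓ : ℓ.Prime)
    (hdeg : Module.finrank K L = ℓ) : Loc.normSubgroup K L ≠ ⊤ := by
  intro htop
  have h := index_normSubgroup_of_prime_degree q K L ℓ hℓ hdeg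
  rw [htop, Subgroup.index_top] at h
  exact hℓ.one_lt.ne h

/-- **Local existence theorem modulo `ℓ`, `μ_ℓ ⊆ K`**: an element of `Kˣ` which is a norm from
every Galois extension of degree `ℓ` is an `ℓ`-th power. -/
theorem exists_pow_eq_of_forall_mem_normSubgroup (q : ℕ) [Fact q.Prime]
    (K : Type) [Field K] [Algebra ℚ_[q] K] [FiniteDimensional ℚ_[q] K]
    (ℓ : ℕ) (hℓ : ℓ.Prime) (hζ : ∃ ζ : K, IsPrimitiveRoot ζ ℓ) (a : Kˣ)
    (h : ∀ (L : Type) [Field L] [Algebra ℚ_[q] L] [FiniteDimensional ℚ_[q] L] [Algebra K L]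
      [IsScalarTower ℚ_[q] K L] [IsGalois K L], Module.finrank K L = ℓ →
        a ∈ Loc.normSubgroup K L) : ∃ b : Kˣ, b ^ ℓ = a := by
  obtain ⟨ζ, hζ⟩ := hζ
  refine H31.exists_units_pow_eq_of_forall_mem_range_norm ℚ_[q] hℓ hζ ?_ a ?_
  · intro L _ _ _ _ _ _ hdeg
    exact normSubgroup_ne_top_of_prime_degree q K L ℓ hℓ hdeg
  · intro L _ _ _ _ _ _ hdeg
    exact h L hdeg

/-- `ℓ`-th powers (indeed `[L:K]`-th powers) are norms. -/
theorem pow_mem_normSubgroup (K L : Type) [Field K] [Field L] [Algebra K L]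
    [FiniteDimensional K L] (b : Kˣ) :
    b ^ Module.finrank K L ∈ Loc.normSubgroup K L := by
  refine ⟨Units.map (algebraMap K L : K →* L) b, ?_⟩
  apply Units.ext
  simp only [Units.coe_map, MonoidHom.coe_coe, Units.val_pow_eq_pow_val]
  exact Algebra.norm_algebraMap (b : K)

end Fermat.Agent.CFT.H8
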