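/-
CFT layer C, obligation (O5) (helper90): `H24.FiniteKey p S a` from the finite-level KEY theorem
`H90.baseChange_mem_normSubgroup_zpComp`, for any top element `a` all of whose avatars are the
base changes of one class `a₀ : CS S ℚ`.
-/
import Mathlib
import Fermat.Agent.CFT.H24_CGlobalX1
import Fermat.Agent.CFT.H90_KeyZp
import Fermat.Agent.CFT.H20_NormDict

set_option autoImplicit false

namespace Fermat.Agent.CFT.H90

open NumberField IntermediateField Fermat.Agent.CFT.H93 Fermat.Agent.CFT.H23 ExtCitation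
open scoped IsMulCommutative

local notation "Qbar" => AlgebraicClosure ℚ
local notation "GQ" => (AlgebraicClosure ℚ ≃ₐ[ℚ] AlgebraicClosure ℚ)

noncomputable section

section Dict

variable {S : Finset Nat.Primes} {K M : Type} [Field K] [NumberField K] [Field M] [NumberField M]
  [Algebra K M] [IsGalois K M] [IsGalois ℚ M]
  {ιK : K →ₐ[ℚ] Qbar} {ιM : M →ₐ[ℚ] Qbar} (hι : ∀ x : K, ιM (algebraMap K M x) = ιK x)

include hι in
/-- The restriction to `M` of an element of `Gal(ℚ̄/K)` is the relative restriction, with scalars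
restricted to `ℚ`. -/
theorem restrictAlong_eq_restrictScalars (σ : ιK.fieldRange.fixingSubgroup) :
    H24.restrictAlong ιM σ.1 = (H20.relRestrictHom hι σ).restrictScalars ℚ := by
  apply AlgEquiv.ext
  intro y
  apply ιM.injective
  show ιM (H24.restrictAlong ιM σ.1 y) = ιM (H20.relRestrictHom hι σ y)
  rw [← H24.restrictAlong_spec ιM σ.1 y, H20.relRestrictHom_spec hι σ y]

include hι in
theorem restrictScalars_mem_map (τ : M ≃ₐ[K] M) :
    τ.restrictScalars ℚ ∈ (ιK.fieldRange.fixingSubgroup).map (H24.restrictAlong ιM) := by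
  obtain ⟨σ, rfl⟩ := H20.relRestrictHom_surjective hι τ
  exact ⟨σ.1, σ.2, restrictAlong_eq_restrictScalars hι σ⟩

include hι in
/-- **Norm dictionary for (Key)**: the product over the image of `Gal(ℚ̄/K)` in `Gal(M/ℚ)` is the
Galois norm of `M/K`. -/
theorem finprod_map_restrictAlong_smul (y : CS S M) :
    ∏ᶠ g : (ιK.fieldRange.fixingSubgroup).map (H24.restrictAlong ιM), g.1 • y =
      galNorm S K M y := by
  let f : (M ≃ₐ[K] M) → (ιK.fieldRange.fixingSubgroup).map (H24.restrictAlong ιM) :=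
    fun τ => ⟨τ.restrictScalars ℚ, restrictScalars_mem_map hι τ⟩
  have hf : Function.Bijective f := by
    constructor
    · intro τ τ' h
      have h1 : τ.restrictScalars ℚ = τ'.restrictScalars ℚ := congrArg Subtype.val h
      exact AlgEquiv.restrictScalars_injective ℚ h1
    · rintro ⟨g, σ, hσ, rfl⟩
      refine ⟨H20.relRestrictHom hι ⟨σ, hσ⟩, ?_⟩
      apply Subtype.ext
      exact (restrictAlong_eq_restrictScalars hι ⟨σ, hσ⟩).symm
  rw [galNorm_apply, ← finprod_eq_prod_of_fintype]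
  symm
  refine finprod_eq_of_bijective f hf ?_
  intro τ
  exact (H20.restrictScalars_smul_CS S τ y).symm

end Dict

section Assembly

local instance isAlgebraicQbar_h90 : Algebra.IsAlgebraic ℚ (AlgebraicClosure ℚ) :=
  AlgebraicClosure.isAlgebraic ℚ
local instance isAlgClosureQbar_h90 : IsAlgClosure ℚ (AlgebraicClosure ℚ) :=
  ⟨inferInstance, inferInstance⟩
local instance normalQbar_h90 : Normal ℚ (AlgebraicClosure ℚ) :=
  IsAlgClosure.normal ℚ (AlgebraicClosure ℚ)
local instance isGaloisQbar_h90 : IsGalois ℚ (AlgebraicClosure ℚ) := ⟨⟩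

variable (p : ℕ) [hp : Fact p.Prime] (S : Finset Nat.Primes)

/-- The norm dictionary, with the subgroup `U` given up to equality. -/
theorem finprod_map_restrictAlong_smul' {K M : Type} [Field K] [NumberField K] [Field M]
    [NumberField M] [Algebra K M] [IsGalois K M] [IsGalois ℚ M]
    {ιK : K →ₐ[ℚ] Qbar} {ιM : M →ₐ[ℚ] Qbar} (hι : ∀ x : K, ιM (algebraMap K M x) = ιK x)
    (U : Subgroup GQ) (hU : ιK.fieldRange.fixingSubgroup = U) (y : CS S M) :
    ∏ᶠ g : U.map (H24.restrictAlong ιM), g.1 • y = galNorm S K M y := by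
  subst hU
  exact finprod_map_restrictAlong_smul hι y

/-- **(O5)** `FiniteKey` for a top element `a` whose avatar at every level `(F, ι)` is the base
change of one class `a₀ : CS S ℚ`. -/
theorem finiteKey_of_avatar (hp2 : p ≠ 2) (hpS : pPrime p ∈ S) (hD : H24.HasDivDescent S)
    {a : H77.CSTop S} (a₀ : CS S ℚ)
    (ha₀ : ∀ (F : Type) [Field F] [NumberField F] (ι : F →ₐ[ℚ] Qbar)
      (hF : ι.fieldRange.IsUnramifiedOutside S) (D : H77.DivDescent S ι),
      H77.csIncl hF D (CS.baseChange S ℚ F a₀) = a) :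
    H24.FiniteKey p S a := by
  intro U hUn hU
  obtain ⟨F, hF, rfl⟩ := hU
  have : FiniteDimensional ℚ F := hF.1
  have hG0 : IsGalois ℚ F := (InfiniteGalois.normal_iff_isGalois F).mp hUn
  set e : ℕ := F.fixingSubgroup.index.factorization p with he
  have hF'u : (zpComp p e F).IsUnramifiedOutside S := isUnramifiedOutside_zpComp p e F hpS hF
  have hN' : (zpComp p e F).fixingSubgroup.Normal := by
    rw [fixingSubgroup_zpComp]
    infer_instance
  have hG0' : IsGalois ℚ (zpComp p e F) :=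
    (InfiniteGalois.normal_iff_isGalois (zpComp p e F)).mp hN'
  have hG : @IsGalois ℚ _ ↥F _ DivisionRing.toRatAlgebra := by
    convert hG0
  have hG' : @IsGalois ℚ _ ↥(zpComp p e F) _ DivisionRing.toRatAlgebra := by
    convert hG0'
  have hFι : (H24.valRat F).fieldRange.IsUnramifiedOutside S := by
    rw [H24.fieldRange_valRat]; exact hF
  have hF'ι : (H24.valRat (zpComp p e F)).fieldRange.IsUnramifiedOutside S := by
    rw [H24.fieldRange_valRat]; exact hF'u
  obtain ⟨D⟩ := hD F (H24.valRat F) hFι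
  obtain ⟨D'⟩ := hD (zpComp p e F) (H24.valRat (zpComp p e F)) hF'ι
  let L : H24.GaloisLevel S :=
    { F := ↥(zpComp p e F), ι := H24.valRat (zpComp p e F), unram := hF'ι, D := D' }
  refine ⟨L, ?_, ?_⟩
  · show (H24.valRat (zpComp p e F)).fieldRange.fixingSubgroup = _
    rw [H24.fieldRange_valRat, fixingSubgroup_zpComp]
  · let _ := zpCompLeftAlgebra p e F
    have := isGalois_zpComp p e F
    have hdiv : p ^ e ∣ Module.finrank ℚ F := by
      have h1 : Module.finrank ℚ F = F.fixingSubgroup.index :=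
        IntermediateField.finrank_eq_fixingSubgroup_index (L := F)
      rw [h1, he]
      exact Nat.ordProj_dvd _ _
    have hkey := baseChange_mem_normSubgroup_zpComp p e S F hp2 hpS hdiv a₀
    obtain ⟨y, hy⟩ := (mem_normSubgroup_iff S F (zpComp p e F) _).1 hkey
    have hι : ∀ x : F, H24.valRat (zpComp p e F) (algebraMap F (zpComp p e F) x) =
        H24.valRat F x := fun x => rfl
    refine ⟨CS.baseChange S F (zpComp p e F) (CS.baseChange S ℚ F a₀), ?_, y, ?_⟩
    · have h1 := H77.csIncl_baseChange hFι hF'ι hι D D' (CS.baseChange S ℚ F a₀)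
      exact h1.trans (ha₀ F (H24.valRat F) hFι D)
    · rw [← hy]
      exact (finprod_map_restrictAlong_smul' S hι F.fixingSubgroup
        (by rw [H24.fieldRange_valRat]) y).symm

/-- The avatar identity for a top element coming from the level `ℚ`. -/
theorem csIncl_baseChange_rat {ι₀ : ℚ →ₐ[ℚ] Qbar} (h₀ : ι₀.fieldRange.IsUnramifiedOutside S)
    (D₀ : H77.DivDescent S ι₀) (a₀ : CS S ℚ)
    (F : Type) [Field F] [NumberField F] (ι : F →ₐ[ℚ] Qbar)
    (hF : ι.fieldRange.IsUnramifiedOutside S) (D : H77.DivDescent S ι) :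
    H77.csIncl hF D (CS.baseChange S ℚ F a₀) = H77.csIncl h₀ D₀ a₀ := by
  refine H77.csIncl_baseChange h₀ hF ?_ D₀ D a₀
  intro x
  rw [ι.commutes, ← ι₀.commutes]
  rfl

/-- **(O5)** for the top element `csIncl a₀` coming from ANY class `a₀` of the level `ℚ`. -/
theorem finiteKey_of_rat (hp2 : p ≠ 2) (hpS : pPrime p ∈ S) (hD : H24.HasDivDescent S)
    {ι₀ : ℚ →ₐ[ℚ] Qbar} (h₀ : ι₀.fieldRange.IsUnramifiedOutside S)
    (D₀ : H77.DivDescent S ι₀) (a₀ : CS S ℚ) :
    H24.FiniteKey p S (H77.csIncl h₀ D₀ a₀) :=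
  finiteKey_of_avatar p S hp2 hpS hD a₀
    (fun F _ _ ι hF D => csIncl_baseChange_rat S h₀ D₀ a₀ F ι hF D)

/-- **(O4)** `FiniteOrd` for the top element `csIncl (classAtP (1 + p))`. -/
theorem finiteOrd_of_rat (hp2 : p ≠ 2) (hpS : pPrime p ∈ S) (hD : H24.HasDivDescent S)
    {ι₀ : ℚ →ₐ[ℚ] Qbar} (h₀ : ι₀.fieldRange.IsUnramifiedOutside S)
    (D₀ : H77.DivDescent S ι₀) :
    H24.FiniteOrd p S (H77.csIncl h₀ D₀ (classAtP p S hpS (H81.onePlusPUnit p))) := by
  intro n
  have hFu : (zpQbar p n).IsUnramifiedOutside S := isUnramifiedOutside_zpQbar p n hpS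
  have hFι : (H24.valRat (zpQbar p n)).fieldRange.IsUnramifiedOutside S := by
    rw [H24.fieldRange_valRat]; exact hFu
  obtain ⟨D⟩ := hD (zpQbar p n) (H24.valRat (zpQbar p n)) hFι
  let L : H24.GaloisLevel S :=
    { F := ↥(zpQbar p n), ι := H24.valRat (zpQbar p n), unram := hFι, D := D }
  refine ⟨L, ?_, CS.baseChange S ℚ (zpQbar p n) (classAtP p S hpS (H81.onePlusPUnit p)), ?_, ?_⟩
  · show (H24.valRat (zpQbar p n)).fieldRange.fixingSubgroup = _
    rw [H24.fieldRange_valRat]
    rfl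
  · exact csIncl_baseChange_rat S h₀ D₀ _ (zpQbar p n) (H24.valRat (zpQbar p n)) hFι D
  · intro m y hy
    apply pow_dvd_of_baseChange_pow_eq_galNorm p n S hp2 hpS m y
    rw [galNorm_apply, ← finprod_eq_prod_of_fintype]
    exact hy

/-- Shortcut instance (the generic search for `G_ℚ`-actions on `CSTop S` is slow here). -/
local instance csTopSMul_h90 : SMul GQ (H77.CSTop S) := (H77.csTopAction (S := S)).toSMul

/-- Every element of `G_ℚ` fixes the image of the level `ℚ`. -/
theorem smul_csIncl_rat {ι₀ : ℚ →ₐ[ℚ] Qbar} (h₀ : ι₀.fieldRange.IsUnramifiedOutside S)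
    (D₀ : H77.DivDescent S ι₀) (γ : GQ) (c : CS S ℚ) :
    γ • H77.csIncl h₀ D₀ c = H77.csIncl h₀ D₀ c := by
  refine H77.smul_csIncl_of_mem_fixer h₀ D₀ γ ?_ c
  rw [IntermediateField.mem_fixingSubgroup_iff]
  rintro _ ⟨x, rfl⟩
  show γ (ι₀ x) = ι₀ x
  have h1 : ι₀ x = algebraMap ℚ Qbar x := ι₀.commutes x
  rw [h1, γ.commutes]

/-- The field range of an embedding of `ℚ` is unramified outside `S`. -/
theorem isUnramifiedOutside_fieldRange_rat (ι₀ : ℚ →ₐ[ℚ] Qbar) :
    ι₀.fieldRange.IsUnramifiedOutside S := by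
  have h : ι₀.fieldRange = ⊥ := by
    rw [eq_bot_iff]
    rintro _ ⟨x, rfl⟩
    rw [IntermediateField.mem_bot]
    exact ⟨x, (ι₀.commutes x).symm⟩
  rw [h]
  exact isUnramifiedOutside_bot S

/-- **Export (X1) of layer C from (O1), (O2), (O3)**: (O4) and (O5) are discharged by
`finiteOrd_of_rat` and `finiteKey_of_rat` with `a` the image in `CSTop S` of the class of the
idele `(1 + p at p, 1 elsewhere)`. -/
theorem nonempty_pClassFormation_of_layers (hp2 : p ≠ 2) (hpS : pPrime p ∈ S)
    (hE : H77.HasDivisors S) (hD : H24.HasDivDescent S) (hlay : H24.FiniteLevelLayers p S) :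
    Nonempty (PClassFormation p (globalLevels S) (H77.repCSTop S)) := by
  have h₀ := isUnramifiedOutside_fieldRange_rat S (Algebra.ofId ℚ Qbar)
  obtain ⟨D₀⟩ := hD ℚ (Algebra.ofId ℚ Qbar) h₀
  exact H24.nonempty_pClassFormation_of_finite hp2 hpS hE hD hlay
    (a := H77.csIncl h₀ D₀ (classAtP p S hpS (H81.onePlusPUnit p)))
    (fun γ => smul_csIncl_rat S h₀ D₀ γ _)
    (finiteOrd_of_rat p S hp2 hpS hD h₀ D₀)
    (finiteKey_of_rat p S hp2 hpS hD h₀ D₀ _)

end Assembly

end

end Fermat.Agent.CFT.H90
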