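/-
CFT layer C, package C-RECIP-tower-norm-reduction (helper90), part 4:
the ABSTRACT REDUCTION of reciprocity on the `ℤ_p`-tower from the base field to a finite level
(helper4's simplification, board #1108 (2): only base change FOR BASE ELEMENTS, Galois
equivariance and the divisibility of the tower are used; no norm functoriality of the local
symbols).

`W N` plays the role of `Gal(ℚ_N/ℚ)` (cyclic of order `p ^ N`); every symbol is composed with the
(injective) restriction to `W N`.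
-/
import Mathlib
import Fermat.Agent.CFT.H23_CDefs

set_option autoImplicit false

namespace Fermat.Agent.CFT.H90

open scoped NumberField
open Fermat.Agent.CFT.H23

/-! ### The divisibility trick -/

/-- In a cyclic group of order `p ^ (N + j)`, an element killed by `p ^ j` dies in every quotient
(indeed under every homomorphism to a group) of order `p ^ N`. -/
theorem map_eq_one_of_pow_eq_one {p : ℕ} (hp : p.Prime) {W' W : Type*} [Group W'] [Group W]
    [IsCyclic W'] (N j : ℕ) (hW' : Nat.card W' = p ^ (N + j)) (hW : Nat.card W = p ^ N)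
    (π : W' →* W) (x : W') (hx : x ^ (p ^ j) = 1) : π x = 1 := by
  obtain ⟨g, hg⟩ := IsCyclic.exists_generator (α := W')
  have hord : orderOf g = p ^ (N + j) := by
    rw [← hW']
    exact orderOf_eq_card_of_forall_mem_zpowers hg
  obtain ⟨k, rfl⟩ := Subgroup.mem_zpowers_iff.1 (hg x)
  have h1 : (g ^ k) ^ (p ^ j) = 1 := hx
  rw [← zpow_natCast, ← zpow_mul, ← orderOf_dvd_iff_zpow_eq_one, hord] at h1
  have h2 : ((p ^ N : ℕ) : ℤ) ∣ k := by
    have hpj : ((p ^ j : ℕ) : ℤ) ≠ 0 := by exact_mod_cast (pow_pos hp.pos j).ne'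
    rw [pow_add, Nat.cast_mul] at h1
    exact Int.dvd_of_mul_dvd_mul_right hpj h1
  obtain ⟨m, rfl⟩ := h2
  rw [map_zpow, zpow_mul, zpow_natCast, ← hW, pow_card_eq_one', one_zpow]

/-- **The divisibility trick**: a compatible family `t N ∈ W N` (`W N` cyclic of order `p ^ N`)
with `t N ^ n = 1` for all `N` (`n ≠ 0` fixed) is trivial. -/
theorem eq_one_of_compatible_of_pow_eq_one {p : ℕ} (hp : p.Prime) {W : ℕ → Type*}
    [∀ N, Group (W N)] (hcyc : ∀ N, IsCyclic (W N)) (hcard : ∀ N, Nat.card (W N) = p ^ N)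
    (π : ∀ N N' : ℕ, N ≤ N' → (W N' →* W N)) (t : ∀ N, W N)
    (ht : ∀ (N N' : ℕ) (h : N ≤ N'), π N N' h (t N') = t N) (n : ℕ) (hn : n ≠ 0)
    (htn : ∀ N, t N ^ n = 1) (N : ℕ) : t N = 1 := by
  set j := n.factorization p with hj
  have := hcyc (N + j)
  rw [← ht N (N + j) (Nat.le_add_right N j)]
  apply map_eq_one_of_pow_eq_one hp N j (hcard (N + j)) (hcard N)
  -- the order of `t (N + j)` is a power of `p` dividing `n`
  have h1 : orderOf (t (N + j)) ∣ p ^ (N + j) := by
    rw [← hcard (N + j)]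
    exact orderOf_dvd_natCard _
  obtain ⟨i, _, hi⟩ := (Nat.dvd_prime_pow hp).1 h1
  have h2 : p ^ i ∣ n := by
    rw [← hi]
    exact orderOf_dvd_of_pow_eq_one (htn (N + j))
  have h3 : i ≤ j := (hp.pow_dvd_iff_le_factorization hn).1 h2
  apply orderOf_dvd_iff_pow_eq_one.1
  rw [hi]
  exact pow_dvd_pow p h3

/-! ### Reduction of reciprocity -/

section Reduce

variable (S : Finset Nat.Primes) (K M : Type*) [Field K] [NumberField K] [Field M] [NumberField M]
  [Algebra K M]

/-- **Descent** (`K ⊆ M` arbitrary): if the symbols over `M` kill the principal ideles and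
`Θ_M (a) = Θ_K (a) ^ [M : K]` for `a ∈ Kˣ` (base change for base elements), then the symbols
over `K` kill the principal ideles. -/
theorem recip_descent {p : ℕ} (hp : p.Prime) {W : ℕ → Type*}
    [∀ N, Group (W N)] (hcyc : ∀ N, IsCyclic (W N)) (hcard : ∀ N, Nat.card (W N) = p ^ N)
    (π : ∀ N N' : ℕ, N ≤ N' → (W N' →* W N))
    (ΘK : ∀ N, IdS S K →* W N) (ΘM : ∀ N, IdS S M →* W N)
    (hCK : ∀ (N N' : ℕ) (h : N ≤ N') (y : IdS S K), π N N' h (ΘK N' y) = ΘK N y)
    (hBC : ∀ (N : ℕ) (a : Kˣ), ΘM N (diag S M (Units.map (algebraMap K M : K →* M) a)) =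
      ΘK N (diag S K a) ^ Module.finrank K M)
    (hRM : ∀ (N : ℕ) (b : Mˣ), ΘM N (diag S M b) = 1) (N : ℕ) (a : Kˣ) :
    ΘK N (diag S K a) = 1 := by
  refine eq_one_of_compatible_of_pow_eq_one hp hcyc hcard π (fun N => ΘK N (diag S K a))
    (fun N N' h => hCK N N' h _) (Module.finrank K M) Module.finrank_pos.ne' (fun N => ?_) N
  rw [← hBC, hRM]

/-- **Ascent** (`M/K` Galois): if the symbols over `M` are Galois invariant, compatible in the
tower, and kill the principal ideles of elements of `K`, then they kill all principal ideles. -/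
theorem recip_ascent [IsGalois K M] {p : ℕ} (hp : p.Prime) {W : ℕ → Type*}
    [∀ N, Group (W N)] (hcyc : ∀ N, IsCyclic (W N)) (hcard : ∀ N, Nat.card (W N) = p ^ N)
    (π : ∀ N N' : ℕ, N ≤ N' → (W N' →* W N))
    (ΘM : ∀ N, IdS S M →* W N)
    (hCM : ∀ (N N' : ℕ) (h : N ≤ N') (y : IdS S M), π N N' h (ΘM N' y) = ΘM N y)
    (hE : ∀ (N : ℕ) (σ : M ≃ₐ[K] M) (y : IdS S M), ΘM N (σ • y) = ΘM N y)
    (hRK : ∀ (N : ℕ) (a : Kˣ), ΘM N (diag S M (Units.map (algebraMap K M : K →* M) a)) = 1)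
    (N : ℕ) (b : Mˣ) : ΘM N (diag S M b) = 1 := by
  classical
  refine eq_one_of_compatible_of_pow_eq_one hp hcyc hcard π (fun N => ΘM N (diag S M b))
    (fun N N' h => hCM N N' h _) (Module.finrank K M) Module.finrank_pos.ne' (fun N => ?_) N
  letI : CommGroup (W N) := IsCyclic.commGroup
  -- the Galois norm of `b` comes from `K`
  have hnorm : ∏ σ : M ≃ₐ[K] M, σ • b =
      Units.map (algebraMap K M : K →* M) (Units.map (Algebra.norm K : M →* K) b) := by
    apply Units.ext
    rw [Units.coe_prod, Units.coe_map, Units.coe_map, MonoidHom.coe_coe,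
      Algebra.norm_eq_prod_automorphisms]
    rfl
  have h1 : ΘM N (diag S M (∏ σ : M ≃ₐ[K] M, σ • b)) = 1 := by
    rw [hnorm]
    exact hRK N _
  rw [map_prod, map_prod] at h1
  have h2 : ∀ σ ∈ (Finset.univ : Finset (M ≃ₐ[K] M)),
      ΘM N (diag S M (σ • b)) = ΘM N (diag S M b) := by
    intro σ _
    rw [diag_smul, hE]
  rw [Finset.prod_congr rfl h2, Finset.prod_const, Finset.card_univ, ← Nat.card_eq_fintype_card,
    IsGalois.card_aut_eq_finrank] at h1
  exact h1

/-- **Reciprocity at a Galois level from reciprocity over the base**: combine base change for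
base elements with the ascent. -/
theorem recip_of_isGalois [IsGalois K M] {p : ℕ} (hp : p.Prime) {W : ℕ → Type*}
    [∀ N, Group (W N)] (hcyc : ∀ N, IsCyclic (W N)) (hcard : ∀ N, Nat.card (W N) = p ^ N)
    (π : ∀ N N' : ℕ, N ≤ N' → (W N' →* W N))
    (ΘK : ∀ N, IdS S K →* W N) (ΘM : ∀ N, IdS S M →* W N)
    (hCM : ∀ (N N' : ℕ) (h : N ≤ N') (y : IdS S M), π N N' h (ΘM N' y) = ΘM N y)
    (hE : ∀ (N : ℕ) (σ : M ≃ₐ[K] M) (y : IdS S M), ΘM N (σ • y) = ΘM N y)
    (hBC : ∀ (N : ℕ) (a : Kˣ), ΘM N (diag S M (Units.map (algebraMap K M : K →* M) a)) =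
      ΘK N (diag S K a) ^ Module.finrank K M)
    (hRK : ∀ (N : ℕ) (a : Kˣ), ΘK N (diag S K a) = 1)
    (N : ℕ) (b : Mˣ) : ΘM N (diag S M b) = 1 :=
  recip_ascent S K M hp hcyc hcard π ΘM hCM hE
    (fun N a => by rw [hBC, hRK, one_pow]) N b

end Reduce

end Fermat.Agent.CFT.H90
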