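/-
CFT layer C, package C-RECIP-tower-norm-reduction (helper90), part 1:
the norm `L ⊗[k] A → K ⊗[k] A` for a finite free extension `L/K` of commutative `k`-algebras,
defined as `Algebra.norm (K ⊗[k] A)` for the algebra structure induced by `K → L`, and its
value on principal elements: `N(x ⊗ 1) = N_{L/K}(x) ⊗ 1`.
-/
import Mathlib

set_option autoImplicit false

namespace Fermat.Agent.CFT.H90

open scoped TensorProduct

noncomputable section

/-! ### Norm and base change -/

section BaseChange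

variable (R A B : Type*) [CommRing R] [CommRing A] [Algebra R A] [CommRing B] [Algebra R B]

theorem lmul_one_tmul (x : B) :
    Algebra.lmul A (A ⊗[R] B) ((1 : A) ⊗ₜ[R] x) = (Algebra.lmul R B x).baseChange A := by
  apply TensorProduct.AlgebraTensorModule.curry_injective
  ext b
  simp

/-- The norm commutes with base change (for principal elements). -/
theorem norm_one_tmul [Module.Free R B] [Module.Finite R B] (x : B) :
    Algebra.norm A ((1 : A) ⊗ₜ[R] x) = algebraMap R A (Algebra.norm R x) := by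
  rw [Algebra.norm_apply, Algebra.norm_apply, lmul_one_tmul, LinearMap.det_baseChange]

end BaseChange

/-! ### The tensor algebra `L ⊗[k] A` over `K ⊗[k] A` -/

section Tensor

variable (k A K L : Type*) [CommRing k] [CommRing A] [Algebra k A] [CommRing K] [Algebra k K]
  [CommRing L] [Algebra k L] [Algebra K L] [IsScalarTower k K L]

/-- `K ⊗[k] A → L ⊗[k] A`. -/
def tMapAlg : K ⊗[k] A →ₐ[k] L ⊗[k] A :=
  Algebra.TensorProduct.map (IsScalarTower.toAlgHom k K L) (AlgHom.id k A)

@[simp] theorem tMapAlg_tmul (x : K) (a : A) :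
    tMapAlg k A K L (x ⊗ₜ[k] a) = algebraMap K L x ⊗ₜ[k] a := rfl

/-- `L ⊗[k] A` as an algebra over `K ⊗[k] A` (a `def`, not an instance: for `K = L` it is not
definitionally `Algebra.id`). -/
@[reducible] def tAlgebra : Algebra (K ⊗[k] A) (L ⊗[k] A) := (tMapAlg k A K L).toRingHom.toAlgebra

/-- The comparison isomorphism `(K ⊗[k] A) ⊗[K] L ≃ L ⊗[k] A`, `(s ⊗ a) ⊗ l ↦ (s l) ⊗ a`. -/
def tEquiv : (K ⊗[k] A) ⊗[K] L ≃+* L ⊗[k] A :=
  ((Algebra.TensorProduct.comm K (K ⊗[k] A) L).trans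
    (Algebra.TensorProduct.cancelBaseChange k K K L A)).toRingEquiv

theorem tEquiv_tmul (c : K ⊗[k] A) (l : L) :
    tEquiv k A K L (c ⊗ₜ[K] l) = tMapAlg k A K L c * (l ⊗ₜ[k] (1 : A)) := by
  induction c using TensorProduct.induction_on with
  | zero => simp
  | tmul s a =>
    show (Algebra.TensorProduct.cancelBaseChange k K K L A)
      ((Algebra.TensorProduct.comm K (K ⊗[k] A) L) ((s ⊗ₜ[k] a) ⊗ₜ[K] l)) = _
    rw [Algebra.TensorProduct.comm_tmul, Algebra.TensorProduct.cancelBaseChange_tmul,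
      tMapAlg_tmul, Algebra.TensorProduct.tmul_mul_tmul, mul_one, Algebra.smul_def]
  | add x y hx hy => rw [TensorProduct.add_tmul, map_add, hx, hy, map_add, add_mul]

theorem tEquiv_comp_algebraMap :
    ((tEquiv k A K L : (K ⊗[k] A) ⊗[K] L →+* L ⊗[k] A)).comp
      (algebraMap (K ⊗[k] A) ((K ⊗[k] A) ⊗[K] L)) = (tMapAlg k A K L).toRingHom := by
  refine RingHom.ext fun c => ?_
  show tEquiv k A K L (c ⊗ₜ[K] (1 : L)) = tMapAlg k A K L c
  rw [tEquiv_tmul]
  show _ * (1 : L ⊗[k] A) = _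
  rw [mul_one]

/-- The norm `L ⊗[k] A → K ⊗[k] A`. -/
def tNormHom : L ⊗[k] A →* K ⊗[k] A :=
  letI := tAlgebra k A K L
  Algebra.norm (K ⊗[k] A)

theorem tNormHom_eq (y : (K ⊗[k] A) ⊗[K] L) :
    tNormHom k A K L (tEquiv k A K L y) = Algebra.norm (K ⊗[k] A) y := by
  let _ := tAlgebra k A K L
  have h := Algebra.norm_eq_of_equiv_equiv (RingEquiv.refl (K ⊗[k] A)) (tEquiv k A K L)
    (by
      rw [RingEquiv.coe_ringHom_refl, RingHom.comp_id]
      exact (tEquiv_comp_algebraMap k A K L).symm) y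
  rw [h]
  rfl

/-- **The norm of a principal element is the principal element of the norm.** -/
theorem tNormHom_tmul_one [Module.Free K L] [Module.Finite K L] (x : L) :
    tNormHom k A K L (x ⊗ₜ[k] (1 : A)) = Algebra.norm K x ⊗ₜ[k] (1 : A) := by
  have h1 : tEquiv k A K L ((1 : K ⊗[k] A) ⊗ₜ[K] x) = x ⊗ₜ[k] (1 : A) := by
    rw [tEquiv_tmul, map_one, one_mul]
  rw [← h1, tNormHom_eq, norm_one_tmul]
  rfl

/-- The norm of an element coming from `K ⊗[k] A` is its `[L : K]`-th power. -/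
theorem tNormHom_tMapAlg [Module.Free K L] [Module.Finite K L] (y : K ⊗[k] A) :
    tNormHom k A K L (tMapAlg k A K L y) = y ^ Module.finrank K L := by
  have h1 : tEquiv k A K L (algebraMap (K ⊗[k] A) ((K ⊗[k] A) ⊗[K] L) y) = tMapAlg k A K L y :=
    congrArg (fun f : K ⊗[k] A →+* L ⊗[k] A => f y) (tEquiv_comp_algebraMap k A K L)
  nontriviality (K ⊗[k] A)
  have : Nontrivial K := (algebraMap K (K ⊗[k] A)).domain_nontrivial
  rw [← h1, tNormHom_eq, Algebra.norm_algebraMap, Module.finrank_baseChange]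

/-- The norm on units. -/
def tNorm : (L ⊗[k] A)ˣ →* (K ⊗[k] A)ˣ := Units.map (tNormHom k A K L)

@[simp] theorem coe_tNorm (x : (L ⊗[k] A)ˣ) :
    ((tNorm k A K L x : (K ⊗[k] A)ˣ) : K ⊗[k] A) = tNormHom k A K L (x : L ⊗[k] A) := rfl

end Tensor

end

end Fermat.Agent.CFT.H90
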