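/-
CFT project, final seam (helper91): the LAST open input of S55 as a named statement.

* `BetaStatement p S` : the (I5) statement - for every number field `K` embedded in `ℚbar` with
  image unramified outside `S` and containing a primitive `p`-th root of unity there is a pairing
  `B : C_S(K) → Kˣ → ZMod p` with the properties (B1)-(B5) consumed by `H3.existFin_of_beta`;
* `existFin_of_betaStatement` : `BetaStatement p S → H20.ExistFin p S`;
* `poitouTateStatement_of_betaStatement` : the level Poitou-Tate statement from `BetaStatement`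
  (every other input of `H55.poitouTateStatement_of_inputs` is discharged by landed theorems).
-/
import Fermat.Agent.CFT.H55_PTFinal
import Fermat.Agent.CFT.H36_D4Inst
import Fermat.Agent.CFT.H36_X5Glue
import Fermat.Agent.CFT.H24_X1
import Fermat.Agent.CFT.H10_FinFin
import Fermat.Agent.CFT.H20_GlobalFinExist
import Fermat.Agent.CFT.H86_D1Statement
import Fermat.Agent.CFT.H62_D2Statement
import Fermat.Agent.CFT.H3_ExistFin

set_option autoImplicit false

open CategoryTheory Module groupCohomology ExtCitation

namespace Fermat.Agent.CFT.H91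

local notation "GQ" => (AlgebraicClosure ℚ ≃ₐ[ℚ] AlgebraicClosure ℚ)
local notation "Qbar" => AlgebraicClosure ℚ

/-- **(I5)**: the finite-level Kummer-form pairing with the norm criterion (B4) and
right-nondegeneracy (B5), at every level field containing `μ_p`. -/
def BetaStatement (p : ℕ) [Fact p.Prime] (S : Finset Nat.Primes) : Prop :=
  ∀ (K : Type) [Field K] [NumberField K] (ιK : K →ₐ[ℚ] Qbar),
    ιK.fieldRange.IsUnramifiedOutside S → ∀ ζ : K, IsPrimitiveRoot ζ p →
    ∃ B : H23.CS S K → Kˣ → ZMod p,
      (∀ a a' x, B (a * a') x = B a x + B a' x) ∧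
      (∀ a, ∀ x ∈ H10.XS S K p, ∀ x' ∈ H10.XS S K p, B a (x * x') = B a x + B a x') ∧
      (∀ a c, B a (c ^ p) = 0) ∧
      (∀ a, ∀ x ∈ H10.XS S K p, ∀ (M : Type) [Field M] [NumberField M] [Algebra K M]
        [IsGalois K M], Module.finrank K M = p → H23.UnramOutside S K M →
          (∃ α : M, α ^ p = algebraMap K M (x : K)) →
            (∃ y : H23.CS S M, H23.CS.baseChange S K M a = ∏ τ : M ≃ₐ[K] M, τ • y) →
              B a x = 0) ∧
      (∀ x ∈ H10.XS S K p, (∀ c : K, c ^ p ≠ (x : K)) → ∃ a : H23.CS S K, B a x ≠ 0)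

variable {p : ℕ} [Fact p.Prime] {S : Finset Nat.Primes}

/-- **Finite-level (EXIST)** from (I5). -/
theorem existFin_of_betaStatement (hp2 : p ≠ 2) (hpS : pPrime p ∈ S)
    (h : BetaStatement p S) : H20.ExistFin p S := by
  intro K _ _ ιK hK hζ a ha
  obtain ⟨ζ, hζ⟩ := hζ
  obtain ⟨B, hB1, hB2, hB3, hB4, hB5⟩ := h K ιK hK ζ hζ
  exact H3.existFin_of_beta S K p hp2 hpS hζ B hB1 hB2 hB3 hB4 hB5 a ha

/-- **The level Poitou-Tate statement from (I5).** -/
theorem poitouTateStatement_of_betaStatement (hp2 : p ≠ 2) (hpS : pPrime p ∈ S)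
    (h : BetaStatement p S) : PoitouTateStatement p S := by
  have hS : S.Nonempty := ⟨pPrime p, hpS⟩
  have hC := H24.nonempty_pClassFormation p hp2 S hpS
  exact H55.poitouTateStatement_of_inputs p S hp2 hpS (H86.d1Statement p) H62.d2Statement hC
    (H20.hasFIN_global hS (H10.finFin S (Fact.out : p.Prime)))
    (H20.hasEXIST_global hS (existFin_of_betaStatement hp2 hpS h))
    (H36.d4Concrete p S hpS) (H36.x5Concrete hp2 hpS hC) (H36.muConcrete p S hpS)

end Fermat.Agent.CFT.H91
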