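import Fermat.Agent.S14.H27_BaseChange

/-!
# The compositum layer `F·Q / F` inside a big field

Author: helper93 (project CFT, package C-TOWER-compositum, generic part).

`F Q : IntermediateField k Ω`, `Q/k` finite Galois.  Then `M = F ⊔ Q` is Galois over `F` (for the
inclusion algebra structure), and restriction `Gal(M/F) → Gal(Q/k)` (`S14.H27.resHom`) is
injective.  The algebra structures are `def`s: use `letI`/`attribute [local instance]`.
-/

set_option autoImplicit false

namespace Fermat.Agent.CFT.H93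

open IntermediateField Fermat.Agent.S14

section Compositum

variable {k Ω : Type*} [Field k] [Field Ω] [Algebra k Ω] (F Q : IntermediateField k Ω)

/-- The inclusion `F → F ⊔ Q` as an algebra structure. -/
@[instance_reducible]
noncomputable def compLeftAlgebra : Algebra F ↥(F ⊔ Q) :=
  (IntermediateField.inclusion (le_sup_left : F ≤ F ⊔ Q)).toAlgebra

/-- The inclusion `Q → F ⊔ Q` as an algebra structure. -/
@[instance_reducible]
noncomputable def compRightAlgebra : Algebra Q ↥(F ⊔ Q) :=
  (IntermediateField.inclusion (le_sup_right : Q ≤ F ⊔ Q)).toAlgebra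

lemma coe_algebraMap_compLeft (x : F) :
    letI := compLeftAlgebra F Q
    ((algebraMap F ↥(F ⊔ Q) x : ↥(F ⊔ Q)) : Ω) = (x : Ω) := rfl

lemma coe_algebraMap_compRight (x : Q) :
    letI := compRightAlgebra F Q
    ((algebraMap Q ↥(F ⊔ Q) x : ↥(F ⊔ Q)) : Ω) = (x : Ω) := rfl

lemma isScalarTower_compLeft :
    letI := compLeftAlgebra F Q
    IsScalarTower k F ↥(F ⊔ Q) :=
  letI := compLeftAlgebra F Q
  IsScalarTower.of_algebraMap_eq (fun _ => rfl)

lemma isScalarTower_compRight :
    letI := compRightAlgebra F Q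
    IsScalarTower k Q ↥(F ⊔ Q) :=
  letI := compRightAlgebra F Q
  IsScalarTower.of_algebraMap_eq (fun _ => rfl)

lemma isScalarTower_compLeft_top :
    letI := compLeftAlgebra F Q
    IsScalarTower F ↥(F ⊔ Q) Ω :=
  letI := compLeftAlgebra F Q
  IsScalarTower.of_algebraMap_eq (fun _ => rfl)

lemma isScalarTower_compRight_top :
    letI := compRightAlgebra F Q
    IsScalarTower Q ↥(F ⊔ Q) Ω :=
  letI := compRightAlgebra F Q
  IsScalarTower.of_algebraMap_eq (fun _ => rfl)

/-- **The compositum layer is Galois**: if `Q/k` is finite Galois then `F·Q/F` is Galois. -/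
theorem isGalois_compositum [hQg : IsGalois k Q] [hQf : FiniteDimensional k Q] :
    letI := compLeftAlgebra F Q
    IsGalois F ↥(F ⊔ Q) := by
  letI := compLeftAlgebra F Q
  have hF : F ≤ F ⊔ Q := le_sup_left
  have hQ : Q ≤ F ⊔ Q := le_sup_right
  have h1 : IsGalois k ↥(restrict hQ) := IsGalois.of_algEquiv (restrictAlgEquiv hQ)
  have h2 : FiniteDimensional k ↥(restrict hQ) :=
    (restrictAlgEquiv hQ).toLinearEquiv.finiteDimensional
  have htop : restrict hQ ⊔ restrict hF = ⊤ := by
    apply lift_injective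
    rw [lift_sup, lift_restrict, lift_restrict, lift_top, sup_comm]
  have h3 : IsGalois ↥(restrict hF) ↥(F ⊔ Q) := IsGalois.sup_right (restrict hQ) (restrict hF) htop
  refine IsGalois.of_equiv_equiv (F := ↥(restrict hF)) (E := ↥(F ⊔ Q))
    (f := (restrictAlgEquiv hF).symm.toRingEquiv) (g := RingEquiv.refl _) ?_
  ext x
  have hx : (restrictAlgEquiv hF) ((restrictAlgEquiv hF).symm x) = x :=
    AlgEquiv.apply_symm_apply _ x
  have hx' := congrArg (fun y : ↥(restrict hF) => ((y : ↥(F ⊔ Q)) : Ω)) hx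
  exact hx'

/-- **Restriction `Gal(F·Q/F) → Gal(Q/k)` is injective.** -/
theorem resHom_compositum_injective [hQg : IsGalois k Q] :
    letI := compLeftAlgebra F Q
    letI := compRightAlgebra F Q
    haveI := isScalarTower_compLeft F Q
    haveI := isScalarTower_compRight F Q
    Function.Injective (H27.resHom k Q : Gal(↥(F ⊔ Q)/F) →* Gal(Q/k)) := by
  letI := compLeftAlgebra F Q
  letI := compRightAlgebra F Q
  haveI := isScalarTower_compLeft F Q
  haveI := isScalarTower_compRight F Q
  rw [injective_iff_map_eq_one]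
  intro σ hσ
  have hF : F ≤ F ⊔ Q := le_sup_left
  have hQ : Q ≤ F ⊔ Q := le_sup_right
  have htop : restrict hF ⊔ restrict hQ = ⊤ := by
    apply lift_injective
    rw [lift_sup, lift_restrict, lift_restrict, lift_top]
  -- `σ` fixes the image of `Q`
  have hfixQ : ∀ x : Q, σ (algebraMap Q ↥(F ⊔ Q) x) = algebraMap Q ↥(F ⊔ Q) x := by
    intro x
    have h1 : algebraMap Q ↥(F ⊔ Q) ((H27.resHom k Q σ) x) = σ (algebraMap Q ↥(F ⊔ Q) x) := by
      simp only [H27.resHom, MonoidHom.comp_apply, AlgEquiv.restrictScalarsHom_apply]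
      exact AlgEquiv.restrictNormal_commutes _ Q x
    rw [← h1, hσ]
    rfl
  set σk : Gal(↥(F ⊔ Q)/k) := AlgEquiv.restrictScalars k σ with hσk
  have hmem : σk ∈ (restrict hF ⊔ restrict hQ).fixingSubgroup := by
    rw [IntermediateField.fixingSubgroup_sup, Subgroup.mem_inf]
    constructor
    · rw [IntermediateField.mem_fixingSubgroup_iff]
      intro y hy
      rw [mem_restrict] at hy
      have := σ.commutes ⟨(y : Ω), hy⟩
      exact this
    · rw [IntermediateField.mem_fixingSubgroup_iff]
      intro y hy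
      rw [mem_restrict] at hy
      exact hfixQ ⟨(y : Ω), hy⟩
  rw [htop, IntermediateField.fixingSubgroup_top, Subgroup.mem_bot] at hmem
  apply AlgEquiv.ext
  intro y
  have := AlgEquiv.congr_fun hmem y
  exact this

theorem isMulCommutative_gal_compositum [hQg : IsGalois k Q] [hc : IsMulCommutative Gal(Q/k)] :
    letI := compLeftAlgebra F Q
    IsMulCommutative Gal(↥(F ⊔ Q)/F) := by
  letI := compLeftAlgebra F Q
  letI := compRightAlgebra F Q
  haveI := isScalarTower_compLeft F Q
  haveI := isScalarTower_compRight F Q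
  refine ⟨⟨fun a b => ?_⟩⟩
  apply resHom_compositum_injective F Q
  rw [map_mul, map_mul, mul_comm']

theorem isCyclic_gal_compositum [hQg : IsGalois k Q] [hc : IsCyclic Gal(Q/k)] :
    letI := compLeftAlgebra F Q
    IsCyclic Gal(↥(F ⊔ Q)/F) := by
  letI := compLeftAlgebra F Q
  letI := compRightAlgebra F Q
  haveI := isScalarTower_compLeft F Q
  haveI := isScalarTower_compRight F Q
  exact isCyclic_of_injective (H27.resHom k Q : Gal(↥(F ⊔ Q)/F) →* Gal(Q/k))
    (resHom_compositum_injective F Q)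

theorem card_gal_compositum_dvd [hQg : IsGalois k Q] [hQf : FiniteDimensional k Q] :
    letI := compLeftAlgebra F Q
    Nat.card Gal(↥(F ⊔ Q)/F) ∣ Nat.card Gal(Q/k) := by
  letI := compLeftAlgebra F Q
  letI := compRightAlgebra F Q
  haveI := isScalarTower_compLeft F Q
  haveI := isScalarTower_compRight F Q
  exact Subgroup.card_dvd_of_injective (H27.resHom k Q : Gal(↥(F ⊔ Q)/F) →* Gal(Q/k))
    (resHom_compositum_injective F Q)

end Compositum

section NumberFields

open NumberField

variable {k Ω : Type*} [Field k] [NumberField k] [Field Ω] [Algebra k Ω]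
  (F Q : IntermediateField k Ω) [NumberField F] [NumberField Q] [NumberField ↥(F ⊔ Q)]
  [hQg : IsGalois k Q] [hQf : FiniteDimensional k Q]

set_option maxHeartbeats 400000

/-- **Unramified base change for the compositum**: a prime of `F·Q` whose restriction to `Q` is
unramified over `k` is unramified over `F`. -/
theorem isUnramifiedAt_compositum
    (𝔓 : Ideal (𝓞 ↥(F ⊔ Q))) [𝔓.IsPrime] (h𝔓 : 𝔓 ≠ ⊥)
    (hur : letI := compRightAlgebra F Q
      Algebra.IsUnramifiedAt (𝓞 k) (𝔓.under (𝓞 Q))) :
    letI := compLeftAlgebra F Q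
    Algebra.IsUnramifiedAt (𝓞 F) 𝔓 := by
  letI := compLeftAlgebra F Q
  letI := compRightAlgebra F Q
  haveI := isScalarTower_compLeft F Q
  haveI := isScalarTower_compRight F Q
  haveI := isGalois_compositum F Q
  have hbot : 𝔓.inertia Gal(↥(F ⊔ Q)/F) = ⊥ := by
    rw [eq_bot_iff]
    intro σ hσ
    rw [Subgroup.mem_bot]
    have hPL : 𝔓.under (𝓞 Q) ≠ ⊥ := mt Ideal.eq_bot_of_comap_eq_bot h𝔓
    have hin : H27.resHom k Q σ ∈ (𝔓.under (𝓞 Q)).inertia Gal(Q/k) := by
      intro x
      show H27.resHom k Q σ • x - x ∈ 𝔓.under (𝓞 Q)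
      rw [Ideal.under_def, Ideal.mem_comap, map_sub, H27.algebraMap_resHom_smul]
      exact hσ _
    rw [H27.inertia_eq_bot _ hPL hur, Subgroup.mem_bot] at hin
    exact resHom_compositum_injective F Q (hin.trans (map_one _).symm)
  have hp : 𝔓.under (𝓞 F) ≠ ⊥ := mt Ideal.eq_bot_of_comap_eq_bot h𝔓
  haveI : (𝔓.under (𝓞 F)).IsMaximal := Ideal.IsPrime.isMaximal inferInstance hp
  have hcard := Ideal.card_inertia_eq_ramificationIdxIn (G := Gal(↥(F ⊔ Q)/F))
    (𝔓.under (𝓞 F)) 𝔓
  rw [hbot, Ideal.ramificationIdxIn_eq_ramificationIdx (𝔓.under (𝓞 F)) 𝔓 Gal(↥(F ⊔ Q)/F)]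
    at hcard
  exact (H27.isUnramifiedAt_iff_ramificationIdx 𝔓).mpr (by simpa using hcard.symm)

end NumberFields

end Fermat.Agent.CFT.H93
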