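import Fermat.Agent.CFT.H93_ZpLevels
import Fermat.Agent.CFT.H81_FiniteOrd
import Fermat.Agent.CFT.H90_KeyZp
import Fermat.Agent.CFT.H9_LayerGlueFinal

/-!
# (O5) `FiniteKey` for the tower element, and the export (X1) of layer C, unconditionally

Author: helper93 (project CFT, package C-KEY-concrete-levels).

* `finiteKey_of_baseChange` : helper24's `FiniteKey p S a` for any `a : CSTop S` whose avatar at
  every level is the base change of a fixed class `a₀ : CS S ℚ`, from the finite-level (Key).
* `finiteKey_towerTop` : `H24.FiniteKey p S (H81.towerTop p hpS)` (helper90's `H90_KeyZp`).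
* `nonempty_pClassFormation_global` : `Nonempty (PClassFormation p (globalLevels S) (repCSTop S))`
  for `p ≠ 2`, `p ∈ S`.
-/

set_option autoImplicit false

namespace Fermat.Agent.CFT.H93

open NumberField IntermediateField Fermat.Agent.S14 ExtCitation Fermat.Agent.CFT

local notation "GQ" => (AlgebraicClosure ℚ ≃ₐ[ℚ] AlgebraicClosure ℚ)
local notation "Qbar" => AlgebraicClosure ℚ

local instance isAlgebraicQk : Algebra.IsAlgebraic ℚ (AlgebraicClosure ℚ) :=
  AlgebraicClosure.isAlgebraic ℚ
local instance isAlgClosureQk : IsAlgClosure ℚ (AlgebraicClosure ℚ) :=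
  ⟨inferInstance, inferInstance⟩
local instance isGaloisQk : IsGalois ℚ (AlgebraicClosure ℚ) := IsSepClosure.isGalois

noncomputable section

variable (p : ℕ) [hp : Fact p.Prime] {S : Finset Nat.Primes}

/-- **(Key)**: helper24's `FiniteKey` for an element `a` of `CSTop S` whose avatar at every level
is the base change of `a₀ : CS S ℚ`, from the finite-level statement at the layers
`F·ℚ_e / F`. -/
theorem finiteKey_of_baseChange (hpS : pPrime p ∈ S) (hD : H24.HasDivDescent S)
    (a : H77.CSTop S) (a₀ : H23.CS S ℚ)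
    (ha : ∀ (F : Type) [Field F] [NumberField F] (ι : F →ₐ[ℚ] Qbar)
      (hF : ι.fieldRange.IsUnramifiedOutside S) (D : H77.DivDescent S ι),
      H77.csIncl hF D (H23.CS.baseChange S ℚ F a₀) = a)
    (hkey : ∀ (F : IntermediateField ℚ Qbar) [FiniteDimensional ℚ F] [IsGalois ℚ F],
      F.IsUnramifiedOutside S → ∀ e : ℕ, p ^ e ∣ Module.finrank ℚ F →
        letI := zpCompLeftAlgebra p e F
        H23.CS.baseChange S ℚ ↥F a₀ ∈ H23.normSubgroup S ↥F ↥(zpComp p e F)) :
    H24.FiniteKey p S a := by
  intro U hUn hU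
  obtain ⟨F, hF, rfl⟩ := hU
  haveI : FiniteDimensional ℚ F := hF.1
  have hG0 : IsGalois ℚ F := (InfiniteGalois.normal_iff_isGalois F).mp hUn
  haveI hG : @IsGalois ℚ _ ↥F _ DivisionRing.toRatAlgebra := by
    convert hG0
  set e : ℕ := F.fixingSubgroup.index.factorization p with he
  have hdvd : p ^ e ∣ Module.finrank ℚ F := by
    rw [IntermediateField.finrank_eq_fixingSubgroup_index]
    exact Nat.ordProj_dvd _ _
  have hk := hkey F hF e hdvd
  have hE' : (zpComp p e F).IsUnramifiedOutside S := isUnramifiedOutside_zpComp p e F hpS hF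
  haveI hG' : IsGalois ℚ ↥(zpComp p e F) := by
    have h1 : @IsGalois ℚ _ ↥F _ (IntermediateField.algebra' F) := hG0
    have h2 : @IsGalois ℚ _ ↥(zpQbar p e) _ (IntermediateField.algebra' (zpQbar p e)) := by
      convert isGalois_zpQbar p e
      exact Subsingleton.elim _ _
    have h3 : @IsGalois ℚ _ ↥(zpComp p e F) _ (IntermediateField.algebra' (zpComp p e F)) :=
      inferInstance
    convert h3
    exact Subsingleton.elim _ _
  letI := zpCompLeftAlgebra p e F
  have hFι : (H24.valRat F).fieldRange.IsUnramifiedOutside S := by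
    rw [H24.fieldRange_valRat]; exact hF
  obtain ⟨DF⟩ := hD ↥F (H24.valRat F) hFι
  obtain ⟨b, hb, y, hy⟩ := key_of_mem_normSubgroup (levelOf (zpComp p e F) hE' hD) hFι DF
    (fun x => coe_algebraMap_compLeft F (zpQbar p e) x) F.fixingSubgroup
    (by rw [H24.fieldRange_valRat]) _ hk
  refine ⟨levelOf (zpComp p e F) hE' hD, ?_, b, ?_, y, hy⟩
  · rw [levelOf_subgroup, fixingSubgroup_zpComp]
  · rw [hb]
    exact ha ↥F (H24.valRat F) hFι DF

/-- **(O5)**: (Key), finite-level form, for the tower element. -/
theorem finiteKey_towerTop (hp2 : p ≠ 2) (hpS : pPrime p ∈ S) :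
    H24.FiniteKey p S (H81.towerTop p hpS) :=
  finiteKey_of_baseChange p hpS (H81.hasDivDescent_all S) _ (H81.towerElt p hpS)
    (fun _ _ _ _ hF D => H81.csIncl_baseChange_rat S hF D _)
    (fun F _ _ _ e he => H90.baseChange_mem_normSubgroup_zpComp p e S F hp2 hpS he _)

/-- **Export (X1) of layer C, unconditional**: the `p`-class formation of `G_S` on the hybrid
idele class module, for `p` odd and `p ∈ S`. -/
theorem nonempty_pClassFormation_global (hp2 : p ≠ 2) (hpS : pPrime p ∈ S) :
    Nonempty (PClassFormation p (globalLevels S) (H77.repCSTop S)) :=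
  H81.nonempty_pClassFormation_of_key p hp2 hpS (H9.finiteLevelLayers p S hp2 hpS)
    (finiteKey_towerTop p hp2 hpS)

end

end Fermat.Agent.CFT.H93
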