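import Fermat.Agent.CFT.H93_ZpArtin

/-!
# Compatibility of the layers of the cyclotomic `ℤ_p`-extension, and `p` as a norm

Author: helper93 (project CFT, package C-CYCLO-Zp-tower, items (Z5), (Z6)).
-/

namespace Fermat.Agent.CFT.H93

open NumberField IsCyclotomicExtension IntermediateField Ideal Fermat.Agent.S14

section Compat

variable (p : ℕ) [hp : Fact p.Prime] (k m : ℕ) (F F' : Type*) [Field F] [NumberField F]
  [Field F'] [NumberField F']
  [hF : IsCyclotomicExtension {p ^ (k + 1)} ℚ F] [hF' : IsCyclotomicExtension {p ^ (m + 1)} ℚ F']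
  [Algebra F F']

set_option maxHeartbeats 400000

/-- **(Z5)** Restriction from `ℚ(ζ_{p^(m+1)})` to `ℚ(ζ_{p^(k+1)})` is reduction modulo
`p^(k+1)` on `galZ`. -/
theorem galZ_restrictNormalHom (hkm : k ≤ m) [IsGalois ℚ F] (σ : Gal(F'/ℚ)) :
    galZ p k F (AlgEquiv.restrictNormalHom F σ) =
      ZMod.unitsMap (pow_dvd_pow p (Nat.succ_le_succ hkm)) (galZ p m F' σ) := by
  have hpos : NeZero (p ^ (k + 1)) := ⟨(pow_pos hp.out.pos _).ne'⟩
  have hζ := IsCyclotomicExtension.zeta_spec (p ^ (k + 1)) ℚ F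
  set ζ := IsCyclotomicExtension.zeta (p ^ (k + 1)) ℚ F
  have hζ' : IsPrimitiveRoot (algebraMap F F' ζ) (p ^ (k + 1)) :=
    hζ.map_of_injective (algebraMap F F').injective
  have hpow : (algebraMap F F' ζ) ^ p ^ (m + 1) = 1 := by
    obtain ⟨c, hc⟩ := pow_dvd_pow p (Nat.succ_le_succ hkm)
    rw [Nat.succ_eq_add_one, Nat.succ_eq_add_one] at hc
    rw [hc, pow_mul, hζ'.pow_eq_one, one_pow]
  have h1 := galZ_spec p k F (AlgEquiv.restrictNormalHom F σ) hζ.pow_eq_one
  have h2 := galZ_spec p m F' σ hpow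
  have h3 : algebraMap F F' ((AlgEquiv.restrictNormalHom F σ) ζ) = σ (algebraMap F F' ζ) :=
    AlgEquiv.restrictNormal_commutes σ F ζ
  rw [h1, h2, map_pow] at h3
  have hζ0 : algebraMap F F' ζ ≠ 0 := hζ'.ne_zero (NeZero.ne _)
  have h3' : (Units.mk0 _ hζ0) ^ (galZ p k F (AlgEquiv.restrictNormalHom F σ)).val.val =
      (Units.mk0 _ hζ0) ^ (galZ p m F' σ).val.val :=
    Units.ext (by simpa using h3)
  have h4 := pow_eq_pow_iff_modEq.mp h3'
  rw [← orderOf_units, Units.val_mk0, ← hζ'.eq_orderOf] at h4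
  apply Units.ext
  have h5 := (ZMod.natCast_eq_natCast_iff _ _ _).mpr h4
  rw [ZMod.natCast_zmod_val] at h5
  rw [h5, ZMod.unitsMap_def, Units.coe_map, MonoidHom.coe_coe, ZMod.castHom_apply,
    ZMod.natCast_val]

/-- **(Z5)** The layers are nested. -/
theorem algebraMap_mem_zpLayer [IsGalois ℚ F] {x : F} (hx : x ∈ zpLayer p k F) :
    algebraMap F F' x ∈ zpLayer p m F' := by
  unfold zpLayer at hx ⊢
  rw [IntermediateField.mem_fixedField_iff] at hx ⊢
  intro τ hτ
  have h1 : algebraMap F F' ((AlgEquiv.restrictNormalHom F τ) x) = τ (algebraMap F F' x) :=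
    AlgEquiv.restrictNormal_commutes τ F x
  rw [← h1, hx]
  rw [mem_torsionAut] at hτ ⊢
  rw [← map_pow, hτ, map_one]

/-- The inclusion of layers. -/
noncomputable def zpLayerMap [IsGalois ℚ F] : zpLayer p k F →ₐ[ℚ] zpLayer p m F' :=
  ((IsScalarTower.toAlgHom ℚ F F').comp (zpLayer p k F).val).codRestrict
    (zpLayer p m F').toSubalgebra (fun x => algebraMap_mem_zpLayer p k m F F' x.2)

lemma coe_zpLayerMap [IsGalois ℚ F] (x : zpLayer p k F) :
    ((zpLayerMap p k m F F' x : zpLayer p m F') : F') = algebraMap F F' (x : F) := rfl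

/-- **(Z5)** `zpArtinHom` is compatible with the inclusion of layers and reduction
`(ℤ/p^(m+1))ˣ → (ℤ/p^(k+1))ˣ`. -/
theorem zpArtinHom_zpLayerMap (hkm : k ≤ m) [IsGalois ℚ F] (a : (ZMod (p ^ (m + 1)))ˣ)
    (x : zpLayer p k F) :
    zpArtinHom p m F' a (zpLayerMap p k m F F' x) =
      zpLayerMap p k m F F'
        (zpArtinHom p k F (ZMod.unitsMap (pow_dvd_pow p (Nat.succ_le_succ hkm)) a) x) := by
  have := isGalois_top p m F'
  apply Subtype.ext
  rw [coe_zpLayerMap, zpArtinHom_apply, zpArtinHom_apply]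
  have h1 := AlgEquiv.restrictNormal_commutes ((galZ p m F').symm a) (zpLayer p m F')
    (zpLayerMap p k m F F' x)
  have h2 := AlgEquiv.restrictNormal_commutes
    ((galZ p k F).symm (ZMod.unitsMap (pow_dvd_pow p (Nat.succ_le_succ hkm)) a)) (zpLayer p k F) x
  have h3 := galZ_restrictNormalHom p k m F F' hkm ((galZ p m F').symm a)
  rw [MulEquiv.apply_symm_apply, ← MulEquiv.eq_symm_apply] at h3
  have h4 : algebraMap F F' ((AlgEquiv.restrictNormalHom F ((galZ p m F').symm a)) (x : F)) =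
      ((galZ p m F').symm a) (algebraMap F F' (x : F)) :=
    AlgEquiv.restrictNormal_commutes ((galZ p m F').symm a) F (x : F)
  refine h1.trans ?_
  refine Eq.trans ?_ (congrArg (algebraMap F F') h2.symm)
  rw [← h3]
  exact h4.symm

/-- **(Z5)**, `restrictNormalHom` form, for any algebra structure between the layers which is
compatible with `F → F'`. -/
theorem restrictNormalHom_zpArtinHom (hkm : k ≤ m) [IsGalois ℚ F]
    [Algebra (zpLayer p k F) (zpLayer p m F')]
    (hcompat : ∀ x : zpLayer p k F,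
      ((algebraMap (zpLayer p k F) (zpLayer p m F') x : zpLayer p m F') : F') =
        algebraMap F F' (x : F))
    (a : (ZMod (p ^ (m + 1)))ˣ) :
    AlgEquiv.restrictNormalHom (zpLayer p k F) (zpArtinHom p m F' a) =
      zpArtinHom p k F (ZMod.unitsMap (pow_dvd_pow p (Nat.succ_le_succ hkm)) a) := by
  ext x
  have h1 : algebraMap (zpLayer p k F) (zpLayer p m F')
      ((AlgEquiv.restrictNormalHom (zpLayer p k F) (zpArtinHom p m F' a)) x) =
      (zpArtinHom p m F' a) (algebraMap (zpLayer p k F) (zpLayer p m F') x) :=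
    AlgEquiv.restrictNormal_commutes (zpArtinHom p m F' a) (zpLayer p k F) x
  have h2 : algebraMap (zpLayer p k F) (zpLayer p m F') x = zpLayerMap p k m F F' x :=
    Subtype.ext (hcompat x)
  rw [h2, zpArtinHom_zpLayerMap p k m F F' hkm a x] at h1
  have h3 := congrArg (fun y : zpLayer p m F' => (y : F')) h1
  simp only [hcompat, coe_zpLayerMap] at h3
  exact (algebraMap F F').injective h3

end Compat

section Norm

variable (p : ℕ) [hp : Fact p.Prime] (k : ℕ) (F : Type*) [Field F] [NumberField F]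
  [hF : IsCyclotomicExtension {p ^ (k + 1)} ℚ F]

/-- **(Z6)** `p` is a global norm from every layer of the cyclotomic `ℤ_p`-extension. -/
theorem exists_norm_zpLayer_eq_prime (hp2 : p ≠ 2) :
    ∃ x : zpLayer p k F, IsIntegral ℤ x ∧ Algebra.norm ℚ x = (p : ℚ) := by
  have hpos : NeZero (p ^ (k + 1)) := ⟨(pow_pos hp.out.pos _).ne'⟩
  have hζ := IsCyclotomicExtension.zeta_spec (p ^ (k + 1)) ℚ F
  set ζ := IsCyclotomicExtension.zeta (p ^ (k + 1)) ℚ F
  have hn := hζ.norm_sub_one_of_prime_ne_two (K := ℚ)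
    (Polynomial.cyclotomic.irreducible_rat (pow_pos hp.out.pos _)) hp2
  have hint : IsIntegral ℤ (ζ - 1) := (hζ.isIntegral (pow_pos hp.out.pos _)).sub isIntegral_one
  refine ⟨Algebra.norm (zpLayer p k F) (ζ - 1), Algebra.isIntegral_norm _ hint, ?_⟩
  rw [Algebra.norm_norm, hn]

/-- **(Z6)**, integral form. -/
theorem exists_norm_int_zpLayer_eq_prime (hp2 : p ≠ 2) :
    ∃ x : 𝓞 (zpLayer p k F), Algebra.norm ℤ x = (p : ℤ) := by
  obtain ⟨x, hx, hn⟩ := exists_norm_zpLayer_eq_prime p k F hp2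
  have hx' : x ∈ integralClosure ℤ (zpLayer p k F) := hx
  refine ⟨⟨x, hx'⟩, ?_⟩
  have h := Algebra.coe_norm_int (K := zpLayer p k F) ⟨x, hx'⟩
  have h' : ((Algebra.norm ℤ (⟨x, hx'⟩ : 𝓞 (zpLayer p k F)) : ℤ) : ℚ) = ((p : ℤ) : ℚ) :=
    h.trans (hn.trans (by simp))
  exact_mod_cast h'

end Norm

end Fermat.Agent.CFT.H93
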