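import Fermat.Agent.CFT.H93_ZpCompat

/-!
# Artin symbols on arbitrary subfields of `ℚ(ζ_{p^(k+1)})`

Author: helper93 (project CFT, package C-CYCLO-Zp-tower, item (Z7)).

`F` is a model of `ℚ(ζ_{p^(k+1)})` and `L` any number field with an algebra structure `L → F`
(for instance an intermediate field, or a lift of one inside a bigger field).
-/

namespace Fermat.Agent.CFT.H93

open NumberField IsCyclotomicExtension IntermediateField Ideal Fermat.Agent.S14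

section Generic

variable (p : ℕ) [hp : Fact p.Prime] (k : ℕ) (F : Type*) [Field F] [NumberField F]
  [hF : IsCyclotomicExtension {p ^ (k + 1)} ℚ F]
  (L : Type*) [Field L] [NumberField L] [hLF : Algebra L F]

set_option maxHeartbeats 400000

include hF hLF in
/-- A prime of a subfield of `ℚ(ζ_{p^(k+1)})` not above `p` is unramified over `ℤ`. -/
theorem ramificationIdx_eq_one_of_cyclo (𝔓 : Ideal (𝓞 L)) [h𝔓p : 𝔓.IsPrime]
    (h𝔓 : 𝔓 ≠ ⊥) (hp𝔓 : (p : 𝓞 L) ∉ 𝔓) : 𝔓.ramificationIdx ℤ = 1 := by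
  have hq : (𝔓.under ℤ).IsPrime := inferInstance
  have hq0 : 𝔓.under ℤ ≠ ⊥ := Ideal.under_ne_bot ℤ h𝔓
  obtain ⟨g, hg⟩ := (inferInstance : (𝔓.under ℤ).IsPrincipal)
  have hgspan : 𝔓.under ℤ = Ideal.span {g} := hg
  have hg0 : g ≠ 0 := by
    rintro rfl
    apply hq0
    rw [hgspan]
    simp
  have hgp : Prime g := by
    rw [← Ideal.span_singleton_prime hg0, ← hgspan]
    exact hq
  have htp : (g.natAbs).Prime := Int.prime_iff_natAbs_prime.mp hgp
  have : Fact (g.natAbs).Prime := ⟨htp⟩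
  have hspan : 𝔓.under ℤ = Ideal.span {((g.natAbs : ℕ) : ℤ)} := by
    rw [hgspan, Int.span_natAbs]
  have : 𝔓.LiesOver (Ideal.span {((g.natAbs : ℕ) : ℤ)}) := ⟨hspan.symm⟩
  have hne : g.natAbs ≠ p := by
    intro h
    apply hp𝔓
    have : ((g.natAbs : ℕ) : ℤ) ∈ 𝔓.under ℤ := by
      rw [hspan]; exact Ideal.subset_span rfl
    rw [Ideal.under_def, Ideal.mem_comap, h] at this
    simpa using this
  have hPm : 𝔓.IsMaximal := .of_liesOver_isMaximal 𝔓 (span {((g.natAbs : ℕ) : ℤ)})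
  obtain ⟨Q, hQ₁, hQ₂⟩ := exists_maximal_ideal_liesOver_of_isIntegral 𝔓 (S := 𝓞 F)
  have hQt : Q.LiesOver (span {((g.natAbs : ℕ) : ℤ)}) := LiesOver.trans Q 𝔓 _
  have hQp : Q.IsPrime := hQ₁.isPrime
  have hdvd : ¬ g.natAbs ∣ p ^ (k + 1) := by
    intro h
    exact hne ((Nat.prime_dvd_prime_iff_eq htp hp.out).mp (htp.dvd_of_dvd_pow h))
  have he := IsCyclotomicExtension.Rat.ramificationIdx_eq_of_not_dvd g.natAbs F Q hdvd
  have he2 := ramificationIdx_tower (R := ℤ) 𝔓 Q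
  rw [he] at he2
  exact Nat.eq_one_of_mul_eq_one_right he2.symm

include hF hLF in
/-- Same, in the `Algebra.IsUnramifiedAt (𝓞 ℚ)` form used by the Frobenius API. -/
theorem isUnramifiedAt_of_cyclo (𝔓 : Ideal (𝓞 L)) [h𝔓p : 𝔓.IsPrime]
    (h𝔓 : 𝔓 ≠ ⊥) (hp𝔓 : (p : 𝓞 L) ∉ 𝔓) : Algebra.IsUnramifiedAt (𝓞 ℚ) 𝔓 := by
  have he := ramificationIdx_eq_one_of_cyclo p k F L 𝔓 h𝔓 hp𝔓
  have hZ : Algebra.IsUnramifiedAt ℤ 𝔓 := Ideal.ramificationIdx_eq_one_iff.mp he
  exact Algebra.FormallyUnramified.of_restrictScalars (R := ℤ) (A := 𝓞 ℚ)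
    (B := Localization.AtPrime 𝔓)

include hF hLF in
omit hp in
/-- Subfields of cyclotomic fields are abelian. -/
theorem isMulCommutative_gal_of_cyclo [IsGalois ℚ L] : IsMulCommutative Gal(L/ℚ) := by
  have := isGalois_top p k F
  have hc := isMulCommutative_gal_top p k F
  refine ⟨⟨fun a b => ?_⟩⟩
  obtain ⟨a', rfl⟩ := AlgEquiv.restrictNormalHom_surjective F a
  obtain ⟨b', rfl⟩ := AlgEquiv.restrictNormalHom_surjective F b
  rw [← map_mul, ← map_mul, mul_comm' a' b']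

/-- **(Z7)** The Artin symbol of `(n)`, `n` prime to `p`, on any Galois subfield `L` of
`ℚ(ζ_{p^(k+1)})` is the restriction of `ζ ↦ ζ ^ n`. -/
theorem artin_eq_restrict_of_cyclo [IsGalois ℚ L] [IsMulCommutative Gal(L/ℚ)]
    (n : ℕ) (hn : Nat.Coprime n p) :
    H27.artin L (Ideal.span {(n : 𝓞 ℚ)}) =
      AlgEquiv.restrictNormalHom L
        ((galZ p k F).symm (ZMod.unitOfCoprime n (hn.pow_right (k + 1)))) := by
  have := isGalois_top p k F
  have := isMulCommutative_gal_top p k F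
  rw [← artin_top_eq p k F n hn]
  symm
  apply H27.restrictNormalHom_artin
  intro 𝔓 _ h𝔓 hle
  apply isUnramifiedAt_of_cyclo p k F L 𝔓 h𝔓
  intro hpmem
  have hnmem : (n : 𝓞 L) ∈ 𝔓 := by
    have h1 : (n : 𝓞 ℚ) ∈ 𝔓.under (𝓞 ℚ) := hle (Ideal.subset_span rfl)
    rw [Ideal.under_def, Ideal.mem_comap, map_natCast] at h1
    exact h1
  apply (inferInstance : 𝔓.IsPrime).ne_top
  rw [Ideal.eq_top_iff_one]
  have hco : IsCoprime (n : ℤ) (p : ℤ) := Nat.isCoprime_iff_coprime.mpr hn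
  obtain ⟨a, b, hab⟩ := hco
  have h1 : (a : 𝓞 L) * (n : 𝓞 L) + (b : 𝓞 L) * (p : 𝓞 L) = 1 := by
    have := congrArg (Int.cast : ℤ → 𝓞 L) hab
    push_cast at this
    exact this
  rw [← h1]
  exact 𝔓.add_mem (𝔓.mul_mem_left _ hnmem) (𝔓.mul_mem_left _ hpmem)

/-- **(Z7)**, Frobenius form. -/
theorem frobP_eq_restrict_of_cyclo [IsGalois ℚ L] [IsMulCommutative Gal(L/ℚ)]
    (t : ℕ) (ht : t.Prime) (htp : t ≠ p) :
    H27.frobP L (Ideal.span {(t : 𝓞 ℚ)}) =
      AlgEquiv.restrictNormalHom L ((galZ p k F).symm (ZMod.unitOfCoprime t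
        (((Nat.coprime_primes ht hp.out).mpr htp).pow_right (k + 1)))) := by
  rw [← artin_eq_restrict_of_cyclo p k F L t ((Nat.coprime_primes ht hp.out).mpr htp)]
  have hprime : (Ideal.span {(t : 𝓞 ℚ)}).IsPrime := by
    have h1 : Prime ((t : ℤ)) := Nat.prime_iff_prime_int.mp ht
    have h2 : Prime ((t : 𝓞 ℚ)) := by
      have := (MulEquiv.prime_iff (Rat.ringOfIntegersEquiv.symm.toMulEquiv) (p := (t : ℤ))).mpr h1
      rwa [RingEquiv.toMulEquiv_eq_coe, RingEquiv.coe_toMulEquiv, map_natCast] at this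
    exact (Ideal.span_singleton_prime h2.ne_zero).mpr h2
  have hne : Ideal.span {(t : 𝓞 ℚ)} ≠ ⊥ := by
    rw [Ne, Ideal.span_singleton_eq_bot]
    exact_mod_cast ht.ne_zero
  rw [H27.artin_prime _ hne]

end Generic

end Fermat.Agent.CFT.H93
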