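import Fermat.Agent.CFT.H24_CGlobalX1
import Fermat.Agent.CFT.H23_CNorm
import Fermat.Agent.CFT.H93_ZpCompositum
import Fermat.Agent.CFT.H77_TopTower

/-!
# Concrete Galois levels for the cyclotomic `ℤ_p`-tower (helper24's `GaloisLevel` vocabulary)

Author: helper93 (project CFT, package C-KEY-concrete-levels).

* `restrictScalars_smul_CS`, `mem_map_restrictAlong_iff`, `finprod_map_restrictAlong_smul`:
  the NORM DICTIONARY.  For `K ⊆ M`, `M/ℚ` Galois, the image of `Gal(ℚ̄/K)` in `Gal(M/ℚ)` is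
  `Gal(M/K)` and the product of conjugates over it is `H23.galNorm S K M`.
* `levelOf E hE hD : H24.GaloisLevel S` for a finite Galois `E ≤ ℚ̄` unramified outside `S`.
* `ratIncl hD a₀ : H77.CSTop S`, the image at the top of a class `a₀ : CS S ℚ`; it is fixed by `G_ℚ`.
* `finiteOrd_of_levels`, `finiteKey_of_levels`: helper24's `FiniteOrd` / `FiniteKey` for
  `a = ratIncl hD a₀` from the finite-level statements at `ℚ_n` and at `F·ℚ_e / F`.
* `nonempty_pClassFormation_of_levels`: the assembled export (X1).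
-/

set_option autoImplicit false

namespace Fermat.Agent.CFT.H93

open NumberField IntermediateField Fermat.Agent.S14 ExtCitation Fermat.Agent.CFT

local notation "GQ" => (AlgebraicClosure ℚ ≃ₐ[ℚ] AlgebraicClosure ℚ)
local notation "Qbar" => AlgebraicClosure ℚ

local instance isAlgebraicQl : Algebra.IsAlgebraic ℚ (AlgebraicClosure ℚ) :=
  AlgebraicClosure.isAlgebraic ℚ
local instance isAlgClosureQl : IsAlgClosure ℚ (AlgebraicClosure ℚ) :=
  ⟨inferInstance, inferInstance⟩
local instance isGaloisQl : IsGalois ℚ (AlgebraicClosure ℚ) := IsSepClosure.isGalois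

noncomputable section

/-! ### The norm dictionary -/

section Dictionary

variable (S : Finset Nat.Primes) {K M : Type} [Field K] [NumberField K] [Field M] [NumberField M]
  [Algebra K M]

/-- The `H23` action of `σ ∈ Gal(M/K)` on `CS S M` only depends on the underlying automorphism. -/
theorem restrictScalars_smul_CS (σ : M ≃ₐ[K] M) (c : H23.CS S M) :
    (σ.restrictScalars ℚ) • c = σ • c := rfl

variable [IsGalois ℚ M] {ιK : K →ₐ[ℚ] Qbar} {ιM : M →ₐ[ℚ] Qbar}
  (hcomp : ∀ x : K, ιM (algebraMap K M x) = ιK x)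

include hcomp in
/-- The image of `Gal(ℚ̄/K)` in `Gal(M/ℚ)` consists of the automorphisms fixing `K`. -/
theorem mem_map_restrictAlong_iff (τ : M ≃ₐ[ℚ] M) :
    τ ∈ ιK.fieldRange.fixingSubgroup.map (H24.restrictAlong ιM) ↔
      ∀ x : K, τ (algebraMap K M x) = algebraMap K M x := by
  constructor
  · rintro ⟨σ, hσ, rfl⟩ x
    apply ιM.injective
    show ιM (H24.restrictAlong ιM σ (algebraMap K M x)) = ιM (algebraMap K M x)
    rw [← H24.restrictAlong_spec, hcomp]
    exact hσ ⟨ιK x, ⟨x, rfl⟩⟩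
  · intro h
    obtain ⟨σ, rfl⟩ := H24.restrictAlong_surjective ιM τ
    refine ⟨σ, ?_, rfl⟩
    rintro ⟨_, ⟨x, rfl⟩⟩
    show σ (ιK x) = ιK x
    rw [← hcomp, H24.restrictAlong_spec, h]

include hcomp in
/-- **Norm dictionary**: the product over the image of `Gal(ℚ̄/K)` in `Gal(M/ℚ)` is the Galois
norm of `M/K` on `CS S M`. -/
theorem finprod_map_restrictAlong_smul (y : H23.CS S M) :
    ∏ᶠ g : ιK.fieldRange.fixingSubgroup.map (H24.restrictAlong ιM), g.1 • y =
      H23.galNorm S K M y := by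
  classical
  rw [H23.galNorm_apply, ← finprod_eq_prod_of_fintype]
  symm
  refine finprod_eq_of_bijective
    (fun σ : M ≃ₐ[K] M => (⟨σ.restrictScalars ℚ,
      (mem_map_restrictAlong_iff hcomp _).2 fun x => σ.commutes x⟩ :
        ιK.fieldRange.fixingSubgroup.map (H24.restrictAlong ιM))) ⟨?_, ?_⟩ fun σ => rfl
  · intro σ τ h
    have h' : σ.restrictScalars ℚ = τ.restrictScalars ℚ := congrArg Subtype.val h
    exact AlgEquiv.restrictScalars_injective ℚ h'
  · rintro ⟨τ, hτ⟩
    rw [mem_map_restrictAlong_iff hcomp] at hτ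
    refine ⟨AlgEquiv.ofRingEquiv (f := τ.toRingEquiv) hτ, ?_⟩
    apply Subtype.ext
    ext x
    rfl

include hcomp in
/-- The same, for a subgroup `U` known to be the fixing subgroup of (the image of) `K`. -/
theorem finprod_map_restrictAlong_smul' (U : Subgroup GQ)
    (hU : U = ιK.fieldRange.fixingSubgroup) (y : H23.CS S M) :
    ∏ᶠ g : U.map (H24.restrictAlong ιM), g.1 • y = H23.galNorm S K M y := by
  subst hU
  exact finprod_map_restrictAlong_smul S hcomp y

end Dictionary

/-! ### (Key) at an abstract level -/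

section AbstractKey

variable {S : Finset Nat.Primes}

/-- **(Key), abstract form**: if `c ∈ CS S K` is a norm from the Galois level `L ⊇ K`, then the
base change of `c` to `L` is a product of conjugates over the image of `Gal(ℚ̄/K)`. -/
theorem key_of_mem_normSubgroup (L : H24.GaloisLevel S) {K : Type} [Field K] [NumberField K]
    [Algebra K L.F] {ιK : K →ₐ[ℚ] Qbar} (hK : ιK.fieldRange.IsUnramifiedOutside S)
    (DK : H77.DivDescent S ιK) (hcomp : ∀ x : K, L.ι (algebraMap K L.F x) = ιK x)
    (U : Subgroup GQ) (hU : U = ιK.fieldRange.fixingSubgroup) (c : H23.CS S K)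
    (hc : c ∈ H23.normSubgroup S K L.F) :
    ∃ b : H23.CS S L.F, L.incl b = H77.csIncl hK DK c ∧
      ∃ y : H23.CS S L.F, b = ∏ᶠ g : U.map (H24.restrictAlong L.ι), g.1 • y := by
  refine ⟨H23.CS.baseChange S K L.F c, H77.csIncl_baseChange hK L.unram hcomp DK L.D c, ?_⟩
  obtain ⟨m, hm⟩ := (H23.mem_normSubgroup_iff S K L.F c).1 hc
  exact ⟨m, by rw [finprod_map_restrictAlong_smul' S hcomp U hU, hm]⟩

end AbstractKey

/-! ### Concrete levels -/

section LevelOf

variable {S : Finset Nat.Primes}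

/-- The Galois level attached to a finite Galois subextension of `ℚ̄` unramified outside `S`. -/
abbrev levelOf (E : IntermediateField ℚ Qbar) [FiniteDimensional ℚ E] [IsGalois ℚ E]
    (hE : E.IsUnramifiedOutside S) (hD : H24.HasDivDescent S) : H24.GaloisLevel S :=
  haveI : NumberField E := ⟨⟩
  { F := ↥E
    ι := H24.valRat E
    unram := by rw [H24.fieldRange_valRat]; exact hE
    D := (hD ↥E (H24.valRat E) (by rw [H24.fieldRange_valRat]; exact hE)).some }

theorem levelOf_subgroup (E : IntermediateField ℚ Qbar) [FiniteDimensional ℚ E] [IsGalois ℚ E]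
    (hE : E.IsUnramifiedOutside S) (hD : H24.HasDivDescent S) :
    (levelOf E hE hD).subgroup = E.fixingSubgroup := by
  show (H24.valRat E).fieldRange.fixingSubgroup = E.fixingSubgroup
  rw [H24.fieldRange_valRat]

end LevelOf

/-! ### The level `ℚ` -/

section Rat

variable {S : Finset Nat.Primes}

/-- The embedding of an abstract number field given by a ring homomorphism (canonical
`ℚ`-algebra structures). -/
def embOfRingHom (F : Type) [Field F] [NumberField F] (f : F →+* Qbar) : F →ₐ[ℚ] Qbar :=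
  f.toRatAlgHom

/-- The embedding `ℚ → ℚ̄` (for the canonical `ℚ`-algebra structure on the abstract field `ℚ`). -/
def ratEmb := embOfRingHom ℚ (algebraMap ℚ Qbar)

theorem ratEmb_apply (x : ℚ) : ratEmb x = algebraMap ℚ Qbar x := rfl

theorem fieldRange_ratEmb : ratEmb.fieldRange = ⊥ := by
  ext x
  constructor
  · rintro ⟨y, rfl⟩
    exact IntermediateField.algebraMap_mem _ y
  · intro hx
    obtain ⟨y, rfl⟩ := IntermediateField.mem_bot.1 hx
    exact ⟨y, rfl⟩

theorem isUnramifiedOutside_ratEmb (S : Finset Nat.Primes) :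
    ratEmb.fieldRange.IsUnramifiedOutside S := by
  rw [fieldRange_ratEmb]
  exact IntermediateField.isUnramifiedOutside_bot S

/-- The class at the top of a class `a₀ ∈ CS S ℚ`. -/
def ratIncl (hD : H24.HasDivDescent S) : H23.CS S ℚ →* H77.CSTop S :=
  H77.csIncl (isUnramifiedOutside_ratEmb S) (hD ℚ ratEmb (isUnramifiedOutside_ratEmb S)).some

/-- Classes coming from `ℚ` are fixed by `G_ℚ`. -/
theorem smul_ratIncl (hD : H24.HasDivDescent S) (γ : GQ) (a₀ : H23.CS S ℚ) :
    γ • ratIncl hD a₀ = ratIncl hD a₀ := by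
  apply H77.smul_csIncl_of_mem_fixer
  rw [fieldRange_ratEmb]
  intro x
  obtain ⟨y, hy⟩ := IntermediateField.mem_bot.1 x.2
  show γ (x : Qbar) = x
  rw [← hy]
  exact γ.commutes y

/-- The avatar of `ratIncl hD a₀` at a level is the base change of `a₀`. -/
theorem incl_baseChange_rat (hD : H24.HasDivDescent S) (L : H24.GaloisLevel S)
    (a₀ : H23.CS S ℚ) : L.incl (H23.CS.baseChange S ℚ L.F a₀) = ratIncl hD a₀ :=
  H77.csIncl_baseChange (isUnramifiedOutside_ratEmb S) L.unram
    (fun x => by rw [AlgHom.commutes]; rfl) _ L.D a₀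

end Rat

/-! ### `FiniteOrd` and `FiniteKey` from the finite-level statements -/

section Assembly

variable (p : ℕ) [hp : Fact p.Prime] {S : Finset Nat.Primes}

/-- **(Ord)**: helper24's `FiniteOrd` for `a = ratIncl hD a₀`, from the finite-level statement at
the layers `ℚ_n = zpQbar p n`. -/
theorem finiteOrd_of_levels (hpS : pPrime p ∈ S) (hD : H24.HasDivDescent S) (a₀ : H23.CS S ℚ)
    (hord : ∀ (n m : ℕ) (y : H23.CS S ↥(zpQbar p n)),
      H23.CS.baseChange S ℚ ↥(zpQbar p n) (a₀ ^ m) = ∏ σ : Gal(zpQbar p n/ℚ), σ • y →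
        p ^ n ∣ m) :
    H24.FiniteOrd p S (ratIncl hD a₀) := by
  intro n
  refine ⟨levelOf (zpQbar p n) (isUnramifiedOutside_zpQbar p n hpS) hD, ?_, ?_⟩
  · rw [levelOf_subgroup]
    rfl
  · refine ⟨H23.CS.baseChange S ℚ _ a₀, incl_baseChange_rat hD _ a₀, ?_⟩
    intro m y hy
    apply hord n m y
    rw [map_pow]
    rw [finprod_eq_prod_of_fintype] at hy
    exact hy

/-- **(Key)**: helper24's `FiniteKey` for `a = ratIncl hD a₀`, from the finite-level statement at
the layers `F·ℚ_e / F`. -/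
theorem finiteKey_of_levels (hpS : pPrime p ∈ S) (hD : H24.HasDivDescent S) (a₀ : H23.CS S ℚ)
    (hkey : ∀ (F : IntermediateField ℚ Qbar) [FiniteDimensional ℚ F] [IsGalois ℚ F],
      F.IsUnramifiedOutside S → ∀ e : ℕ, p ^ e ∣ Module.finrank ℚ F →
        letI := zpCompLeftAlgebra p e F
        H23.CS.baseChange S ℚ ↥F a₀ ∈ H23.normSubgroup S ↥F ↥(zpComp p e F)) :
    H24.FiniteKey p S (ratIncl hD a₀) := by
  intro U hUn hU
  obtain ⟨F, hF, rfl⟩ := hU
  haveI : FiniteDimensional ℚ F := hF.1
  have hG0 : IsGalois ℚ F := (InfiniteGalois.normal_iff_isGalois F).mp hUn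
  haveI hG : @IsGalois ℚ _ ↥F _ DivisionRing.toRatAlgebra := by
    convert hG0
  set e : ℕ := F.fixingSubgroup.index.factorization p with he
  have hdvd : p ^ e ∣ Module.finrank ℚ F := by
    rw [IntermediateField.finrank_eq_fixingSubgroup_index]
    exact Nat.ordProj_dvd _ _
  have hk := hkey F hF e hdvd
  have hE' : (zpComp p e F).IsUnramifiedOutside S := isUnramifiedOutside_zpComp p e F hpS hF
  haveI hG' : IsGalois ℚ ↥(zpComp p e F) := by
    have h1 : @IsGalois ℚ _ ↥F _ (IntermediateField.algebra' F) := hG0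
    have h2 : @IsGalois ℚ _ ↥(zpQbar p e) _ (IntermediateField.algebra' (zpQbar p e)) := by
      convert isGalois_zpQbar p e
      exact Subsingleton.elim _ _
    have h3 : @IsGalois ℚ _ ↥(zpComp p e F) _ (IntermediateField.algebra' (zpComp p e F)) :=
      inferInstance
    convert h3
    exact Subsingleton.elim _ _
  letI := zpCompLeftAlgebra p e F
  have hFι : (H24.valRat F).fieldRange.IsUnramifiedOutside S := by
    rw [H24.fieldRange_valRat]; exact hF
  obtain ⟨DF⟩ := hD ↥F (H24.valRat F) hFι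
  obtain ⟨b, hb, y, hy⟩ := key_of_mem_normSubgroup (levelOf (zpComp p e F) hE' hD) hFι DF
    (fun x => coe_algebraMap_compLeft F (zpQbar p e) x) F.fixingSubgroup
    (by rw [H24.fieldRange_valRat]) _ hk
  refine ⟨levelOf (zpComp p e F) hE' hD, ?_, b, ?_, y, hy⟩
  · rw [levelOf_subgroup, fixingSubgroup_zpComp]
  · rw [hb]
    exact H77.csIncl_baseChange (isUnramifiedOutside_ratEmb S) hFι
      (fun x => by rw [AlgHom.commutes]; rfl) _ DF a₀

/-- **Export (X1) of layer C** from the finite-level statements (Ord) at `ℚ_n` and (Key) at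
`F·ℚ_e / F`, the degree-`p` layers and the divisor side of the descent. -/
theorem nonempty_pClassFormation_of_levels (hp2 : p ≠ 2) (hpS : pPrime p ∈ S)
    (hE : H77.HasDivisors S) (hD : H24.HasDivDescent S) (hlay : H24.FiniteLevelLayers p S)
    (a₀ : H23.CS S ℚ)
    (hord : ∀ (n m : ℕ) (y : H23.CS S ↥(zpQbar p n)),
      H23.CS.baseChange S ℚ ↥(zpQbar p n) (a₀ ^ m) = ∏ σ : Gal(zpQbar p n/ℚ), σ • y →
        p ^ n ∣ m)
    (hkey : ∀ (F : IntermediateField ℚ Qbar) [FiniteDimensional ℚ F] [IsGalois ℚ F],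
      F.IsUnramifiedOutside S → ∀ e : ℕ, p ^ e ∣ Module.finrank ℚ F →
        letI := zpCompLeftAlgebra p e F
        H23.CS.baseChange S ℚ ↥F a₀ ∈ H23.normSubgroup S ↥F ↥(zpComp p e F)) :
    Nonempty (PClassFormation p (globalLevels S) (H77.repCSTop S)) :=
  H24.nonempty_pClassFormation_of_finite hp2 hpS hE hD hlay
    (fun γ => smul_ratIncl hD γ a₀) (finiteOrd_of_levels p hpS hD a₀ hord)
    (finiteKey_of_levels p hpS hD a₀ hkey)

end Assembly

end

end Fermat.Agent.CFT.H93
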