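import Mathlib
import Fermat.Agent.CFT.H35_PTFormal

/-!
# The `T¹`-segment of the Poitou–Tate sequence in the `W`-model (layer D3, formal part)

Vocabulary-neutral linear algebra (Mathlib only).  In the `W`-model one has, for a finite discrete
`X`, `T¹(X; N) = Hom_H(X, W_N) / d ∘ Hom_H(X, Vm_N)`.  Given the short exact sequence
`0 → W_E → W_J → W_C → 0` and the split surjection `Vm_J → Vm_C`, the long exact cohomology
sequence of `0 → Hom(X,W_E) → Hom(X,W_J) → Hom(X,W_C) → 0` descends to an exact segment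

  `T¹(X;J) → T¹(X;C) → H¹(Hom(X,W_E)) → H¹(Hom(X,W_J))`.

This file proves that descent for arbitrary modules and maps.
-/

set_option autoImplicit false

namespace Fermat.Agent.CFT.H94

section Descent

variable {k : Type*} [CommRing k]
variable {VJ VC A A'' B' B : Type*}
variable [AddCommGroup VJ] [Module k VJ] [AddCommGroup VC] [Module k VC]
variable [AddCommGroup A] [Module k A] [AddCommGroup A''] [Module k A'']
variable [AddCommGroup B'] [Module k B'] [AddCommGroup B] [Module k B]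

/-- The map `T¹(X;J) = A / range dJ → T¹(X;C) = A'' / range dC` induced by `f : A → A''` when
`f ∘ dJ = dC ∘ s`. -/
noncomputable def t1Map (dJ : VJ →ₗ[k] A) (dC : VC →ₗ[k] A'') (s : VJ →ₗ[k] VC) (f : A →ₗ[k] A'')
    (hsq : ∀ v, f (dJ v) = dC (s v)) :
    (A ⧸ LinearMap.range dJ) →ₗ[k] (A'' ⧸ LinearMap.range dC) :=
  Submodule.mapQ _ _ f (by
    rintro _ ⟨v, rfl⟩
    exact ⟨s v, (hsq v).symm⟩)

@[simp]
lemma t1Map_mk (dJ : VJ →ₗ[k] A) (dC : VC →ₗ[k] A'') (s : VJ →ₗ[k] VC) (f : A →ₗ[k] A'')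
    (hsq : ∀ v, f (dJ v) = dC (s v)) (a : A) :
    t1Map dJ dC s f hsq (Submodule.Quotient.mk a) = Submodule.Quotient.mk (f a) := rfl

/-- The connecting map `T¹(X;C) = A'' / range dC → B'` induced by `δ : A'' → B'` when `δ` kills
`range dC`. -/
noncomputable def t1Delta (dC : VC →ₗ[k] A'') (δ : A'' →ₗ[k] B') (hδ : ∀ v, δ (dC v) = 0) :
    (A'' ⧸ LinearMap.range dC) →ₗ[k] B' :=
  (LinearMap.range dC).liftQ δ (by
    rintro _ ⟨v, rfl⟩
    exact LinearMap.mem_ker.2 (hδ v))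

@[simp]
lemma t1Delta_mk (dC : VC →ₗ[k] A'') (δ : A'' →ₗ[k] B') (hδ : ∀ v, δ (dC v) = 0) (a : A'') :
    t1Delta dC δ hδ (Submodule.Quotient.mk a) = δ a := rfl

/-- `δ` kills `range dC` as soon as `s : VJ → VC` is surjective, `f ∘ dJ = dC ∘ s` and
`δ ∘ f = 0`. -/
lemma delta_kills_of_surjective (dJ : VJ →ₗ[k] A) (dC : VC →ₗ[k] A'') (s : VJ →ₗ[k] VC)
    (f : A →ₗ[k] A'') (δ : A'' →ₗ[k] B') (hsq : ∀ v, f (dJ v) = dC (s v))
    (hs : Function.Surjective s) (hδf : ∀ a, δ (f a) = 0) (v : VC) : δ (dC v) = 0 := by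
  obtain ⟨w, rfl⟩ := hs v
  rw [← hsq, hδf]

/-- Exactness of `T¹(X;J) → T¹(X;C) → B'` at `T¹(X;C)`. -/
theorem t1_exact_mid (dJ : VJ →ₗ[k] A) (dC : VC →ₗ[k] A'') (s : VJ →ₗ[k] VC)
    (f : A →ₗ[k] A'') (δ : A'' →ₗ[k] B') (hsq : ∀ v, f (dJ v) = dC (s v))
    (hδ : ∀ v, δ (dC v) = 0) (hex : Function.Exact f δ) :
    Function.Exact (t1Map dJ dC s f hsq) (t1Delta dC δ hδ) := by
  intro t
  obtain ⟨a'', rfl⟩ := Submodule.mkQ_surjective _ t
  simp only [Submodule.mkQ_apply, t1Delta_mk]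
  constructor
  · intro h
    obtain ⟨a, rfl⟩ := (hex a'').1 h
    exact ⟨Submodule.Quotient.mk a, rfl⟩
  · rintro ⟨u, hu⟩
    obtain ⟨a, rfl⟩ := Submodule.mkQ_surjective _ u
    simp only [Submodule.mkQ_apply, t1Map_mk] at hu
    have hmem : f a - a'' ∈ LinearMap.range dC := by
      rw [← Submodule.Quotient.eq]; exact hu
    obtain ⟨v, hv⟩ := hmem
    have : a'' = f a - dC v := by rw [hv]; abel
    rw [this, map_sub, hδ, sub_zero]
    exact (hex _).2 ⟨a, rfl⟩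

/-- Exactness of `T¹(X;C) → B' → B` at `B'`. -/
theorem t1_exact_right (dC : VC →ₗ[k] A'') (δ : A'' →ₗ[k] B') (i : B' →ₗ[k] B)
    (hδ : ∀ v, δ (dC v) = 0) (hex : Function.Exact δ i) :
    Function.Exact (t1Delta dC δ hδ) i := by
  intro b
  constructor
  · intro h
    obtain ⟨a'', rfl⟩ := (hex b).1 h
    exact ⟨Submodule.Quotient.mk a'', rfl⟩
  · rintro ⟨t, rfl⟩
    obtain ⟨a'', rfl⟩ := Submodule.mkQ_surjective _ t
    simp only [Submodule.mkQ_apply, t1Delta_mk]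
    exact (hex _).2 ⟨a'', rfl⟩

end Descent

section Connecting

variable {k : Type*} [CommRing k]
variable {B1 C1 A2 B2 : Type*}
variable [AddCommGroup B1] [Module k B1] [AddCommGroup C1] [Module k C1]
variable [AddCommGroup A2] [Module k A2] [AddCommGroup B2] [Module k B2]

/-- In an exact sequence `B1 → C1 → A2 → B2` with `B1` and `B2` trivial the middle map is
bijective (used for `H¹(Hom(X,W_E)) ≃ H²(Hom(X,μ))` from the acyclicity (AC) of `Vm_E`). -/
theorem bijective_of_exact_of_subsingleton [Subsingleton B1] [Subsingleton B2]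
    (g : B1 →ₗ[k] C1) (δ : C1 →ₗ[k] A2) (h : A2 →ₗ[k] B2)
    (h1 : Function.Exact g δ) (h2 : Function.Exact δ h) : Function.Bijective δ := by
  constructor
  · rw [← LinearMap.ker_eq_bot, LinearMap.ker_eq_bot']
    intro c hc
    obtain ⟨b, rfl⟩ := (h1 c).1 hc
    rw [Subsingleton.elim b 0, map_zero]
  · intro a
    exact (h2 a).1 (Subsingleton.elim _ _)

end Connecting

section PiForm

variable {k : Type*} [Field k] {ι : Type*} [Fintype ι]
variable {H1X T1J T1C H2M : Type*}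
variable [AddCommGroup H1X] [Module k H1X] [AddCommGroup T1J] [Module k T1J]
variable [AddCommGroup T1C] [Module k T1C] [AddCommGroup H2M] [Module k H2M]
variable {R1v L2v L1v : ι → Type*}
variable [∀ v, AddCommGroup (R1v v)] [∀ v, Module k (R1v v)]
variable [∀ v, AddCommGroup (L2v v)] [∀ v, Module k (L2v v)]
variable [∀ v, AddCommGroup (L1v v)] [∀ v, Module k (L1v v)]

/-- Family form of `H35.exists_pairing_ker_ker`: places `v : ι`, local groups
`R1v v = H¹(D_v; X)`, `L2v v = H²(D_v; M)`, comparison maps `Θ1 v : T¹(X;J) → L1v v` (jointly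
onto), local pairings `pv v` onto the duals of the `R1v v`, unit weights `c v`.
No finiteness hypothesis. -/
theorem exists_pairing_pi
    (locX : ∀ v, H1X →ₗ[k] R1v v) (α : T1J →ₗ[k] T1C) (β : T1C →ₗ[k] H2M)
    (γ : ∀ v, H2M →ₗ[k] L2v v)
    (hαβ : Function.Exact α β) (hβγ1 : ∀ v t, γ v (β t) = 0)
    (hβγ2 : ∀ a, (∀ v, γ v a = 0) → ∃ t, β t = a)
    (Gp : T1C →ₗ[k] H1X →ₗ[k] k) (hG_left : ∀ t, (∀ y, Gp t y = 0) → t = 0)
    (hG_right : ∀ y, (∀ t, Gp t y = 0) → y = 0)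
    (Θ1 : ∀ v, T1J →ₗ[k] L1v v) (hΘ1 : ∀ ℓ : ∀ v, L1v v, ∃ j, ∀ v, Θ1 v j = ℓ v)
    (pv : ∀ v, L1v v →ₗ[k] R1v v →ₗ[k] k)
    (hpv : ∀ v (ψ : Module.Dual k (R1v v)), ∃ ℓ, ∀ r, pv v ℓ r = ψ r)
    (c : ι → k) (hc : ∀ v, c v ≠ 0)
    (hcompat : ∀ j y, Gp (α j) y = ∑ v, c v * pv v (Θ1 v j) (locX v y)) :
    ∃ B : (⨅ v, LinearMap.ker (locX v) : Submodule k H1X) →ₗ[k]
        (⨅ v, LinearMap.ker (γ v) : Submodule k H2M) →ₗ[k] k,
      (∀ y, (∀ x, B y x = 0) → y = 0) ∧ (∀ x, (∀ y, B y x = 0) → x = 0) := by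
  classical
  let Lp : T1J →ₗ[k] (∀ v, R1v v) →ₗ[k] k :=
    ∑ v, c v • (pv v).compl₁₂ (Θ1 v) (LinearMap.proj v)
  have hLp_apply : ∀ j r, Lp j r = ∑ v, c v * pv v (Θ1 v j) (r v) := by
    intro j r
    simp [Lp, LinearMap.sum_apply, LinearMap.compl₁₂_apply]
  have hLp : ∀ ψ : (∀ v, R1v v) →ₗ[k] k, ∃ j, ∀ r, Lp j r = ψ r := by
    intro ψ
    choose ℓ hℓ using fun v => hpv v ((c v)⁻¹ • (ψ ∘ₗ LinearMap.single k R1v v))
    obtain ⟨j, hj⟩ := hΘ1 ℓ
    refine ⟨j, fun r => ?_⟩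
    rw [hLp_apply]
    have : ∀ v, c v * pv v (Θ1 v j) (r v) = ψ (Pi.single v (r v)) := by
      intro v
      rw [hj v, hℓ v]
      simp only [LinearMap.smul_apply, LinearMap.comp_apply, LinearMap.single_apply, smul_eq_mul]
      rw [← mul_assoc, mul_inv_cancel₀ (hc v), one_mul]
    rw [Finset.sum_congr rfl fun v _ => this v, ← map_sum]
    congr 1
    exact Finset.univ_sum_single r
  have hβγ : Function.Exact β (LinearMap.pi γ) := by
    intro a
    constructor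
    · intro h
      exact hβγ2 a fun v => congrFun h v
    · rintro ⟨t, rfl⟩
      funext v
      exact hβγ1 v t
  have hcompat' : ∀ j y, Gp (α j) y = Lp j (LinearMap.pi locX y) := by
    intro j y
    rw [hLp_apply, hcompat]
    rfl
  obtain ⟨B, hB⟩ := H35.exists_pairing_ker_ker (LinearMap.pi locX) α β (LinearMap.pi γ) hαβ hβγ
    Gp hG_left hG_right Lp hLp hcompat'
  exact H35.exists_pairing_of_equiv
    (LinearEquiv.ofEq _ _ (LinearMap.ker_pi locX).symm)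
    (LinearEquiv.ofEq _ _ (LinearMap.ker_pi γ).symm) ⟨B, hB⟩

end PiForm

end Fermat.Agent.CFT.H94
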