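import Fermat.Agent.CFT.H91_WModel
import Fermat.Agent.CFT.H1_LevelLES
import Fermat.Agent.CFT.H55_LevelRes
import Fermat.Agent.CFT.H35_PTFormal
import Fermat.Agent.CFT.H94_PTSegment

/-!
# Abstract Poitou–Tate segment in the `W`-model (layer D3 of the CFT project)

Setting: a group `G` with level structure `𝓛`, finitely many "places" `v : ι` with local groups
`D v`, level structures `𝓛v v` and continuous maps `φ v : D v →* G`.

Main result `exists_shaPairing`: from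
* `W`-data `𝒟E`, `𝒟J`, `𝒟C` with `0 → μ → Vm_E → W_E → 0` and `0 → W_E → W_J → W_C → 0` exact,
  `Hom_G(X, Vm_J) → Hom_G(X, Vm_C)` onto, (AC) for `Vm_E`;
* global duality in degree one for `𝒟C` (`IsDual1`);
* the local comparison maps `Θ1 v : T¹(X;J) → L1v v` (jointly onto), `Θ2 v : T²(X;J) → H²(D_v; M)`
  (jointly injective, compatible with restriction), local pairings `pv v` onto the duals of
  `H¹(D_v; X)`, and the compatibility of the global and local pairings,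
a pairing `Ш¹(X) × Ш²(Hom(X, μ)) → 𝔽_p` non-degenerate on both sides.
-/

set_option autoImplicit false

open CategoryTheory

namespace Fermat.Agent.CFT.H94

open Fermat.Agent.CFT

/-! ### `Hom(X, -)` is exact and preserves discreteness -/

section HomRep

variable {p : ℕ} [Fact p.Prime] {G : Type} [Group G]

lemma homRepMap_hom_apply (X : Rep.{0} (ZMod p) G) {V W : Rep.{0} (ZMod p) G} (d : V ⟶ W)
    (f : X.V →ₗ[ZMod p] V.V) (x : X.V) : ((homRepMap X d).hom f : X.V →ₗ[ZMod p] W.V) x = d.hom (f x) :=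
  rfl

/-- `Hom(X, -)` preserves short exact sequences (coefficients in the field `𝔽_p`). -/
theorem isSES_homRepMap (X : Rep.{0} (ZMod p) G) {A B C : Rep.{0} (ZMod p) G} {i : A ⟶ B}
    {q : B ⟶ C} (h : H1.IsSES i q) : H1.IsSES (homRepMap X i) (homRepMap X q) := by
  refine ⟨?_, ?_, ?_⟩
  · intro f f' hff'
    refine LinearMap.ext fun x => h.inj ?_
    have := LinearMap.congr_fun hff' x
    exact this
  · intro f
    obtain ⟨s, hs⟩ := LinearMap.exists_rightInverse_of_surjective q.hom.toLinearMap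
      (LinearMap.range_eq_top.2 h.surj)
    refine ⟨s ∘ₗ f, LinearMap.ext fun x => ?_⟩
    have := LinearMap.congr_fun hs (f x)
    exact this
  · intro f
    constructor
    · intro hf
      -- `f` takes values in `ker q = range i`
      have hfx : ∀ x, f x ∈ LinearMap.range i.hom.toLinearMap := fun x =>
        (h.exact (f x)).1 (LinearMap.congr_fun hf x)
      obtain ⟨r, hr⟩ := LinearMap.exists_leftInverse_of_injective i.hom.toLinearMap
        (LinearMap.ker_eq_bot.2 h.inj)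
      refine ⟨r ∘ₗ f, LinearMap.ext fun x => ?_⟩
      obtain ⟨a, ha⟩ := hfx x
      show i.hom (r (f x)) = f x
      rw [← ha]
      have := LinearMap.congr_fun hr a
      simp only [LinearMap.comp_apply, LinearMap.id_apply] at this
      rw [this]
      rfl
    · rintro ⟨f', rfl⟩
      refine LinearMap.ext fun x => ?_
      exact h.zero (f' x)

/-- `Hom(X, W)` is discrete when `X` is finite discrete and `W` is discrete. -/
theorem isDiscrete_homRep {𝓛 : LevelStructure G} {X : Rep.{0} (ZMod p) G}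
    (hX : IsFinDiscrete 𝓛 X) {W : Rep.{0} (ZMod p) G} (hW : 𝓛.IsDiscrete W) :
    𝓛.IsDiscrete (homRep X W) := by
  classical
  intro f
  have := hX.finite
  have : Fintype X.V := Fintype.ofFinite _
  -- a common level fixing all `x` and all `f x`
  have key : ∀ T : Finset X.V, ∃ N ∈ 𝓛.levels, ∀ x ∈ T, ∀ n ∈ N, X.ρ n x = x ∧ W.ρ n (f x) = f x := by
    intro T
    induction T using Finset.induction_on with
    | empty =>
      obtain ⟨N, hN⟩ := 𝓛.nonempty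
      exact ⟨N, hN, fun x hx => absurd hx (Finset.notMem_empty x)⟩
    | insert a T _ ih =>
      obtain ⟨N, hN, hNT⟩ := ih
      obtain ⟨N₁, hN₁, h₁⟩ := hX.discrete a
      obtain ⟨N₂, hN₂, h₂⟩ := hW (f a)
      obtain ⟨N₃, hN₃, h₃⟩ := 𝓛.directed N hN N₁ hN₁
      obtain ⟨N₄, hN₄, h₄⟩ := 𝓛.directed N₃ hN₃ N₂ hN₂
      refine ⟨N₄, hN₄, fun x hx n hn => ?_⟩
      rcases Finset.mem_insert.1 hx with rfl | hxT
      · exact ⟨h₁ n (h₃ (h₄ hn).1).2, h₂ n (h₄ hn).2⟩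
      · exact hNT x hxT n (h₃ (h₄ hn).1).1
  obtain ⟨N, hN, hfix⟩ := key Finset.univ
  refine ⟨N, hN, fun n hn => LinearMap.ext fun x => ?_⟩
  rw [homRep_ρ_apply]
  have h1 := (hfix x (Finset.mem_univ x) n⁻¹ (N.inv_mem hn)).1
  rw [h1]
  exact (hfix x (Finset.mem_univ x) n hn).2

end HomRep

/-! ### Level Tate–Shafarevich groups for a family of local groups -/

section Sha

variable {k : Type} [CommRing k] {G : Type} [Group G] (𝓛 : LevelStructure G)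
variable {ι : Type} {D : ι → Type} [∀ v, Group (D v)]
  (𝓛v : ∀ v, LevelStructure (D v)) (φ : ∀ v, D v →* G)
  (hφ : ∀ v, (𝓛v v).Continuous 𝓛 (φ v))

/-- Level `Ш¹`: classes in `H¹(𝓛; X)` which restrict to zero in every `H¹(𝓛v v; X)`. -/
noncomputable def ShaL1 (X : Rep.{0} k G) : Submodule k (𝓛.H1 X) :=
  ⨅ v, LinearMap.ker (LevelStructure.resH1 (φ v) (hφ v) X)

/-- Level `Ш²`: classes in `H²(𝓛; M)` which restrict to zero in every `H²(𝓛v v; M)`. -/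
noncomputable def ShaL2 (M : Rep.{0} k G) : Submodule k (𝓛.H2 M) :=
  ⨅ v, LinearMap.ker (LevelStructure.resH2 (φ v) (hφ v) M)

lemma shaL1_eq_ker_pi (X : Rep.{0} k G) :
    ShaL1 𝓛 𝓛v φ hφ X =
      LinearMap.ker (LinearMap.pi fun v => LevelStructure.resH1 (φ v) (hφ v) X) := by
  rw [LinearMap.ker_pi]; rfl

lemma shaL2_eq_ker_pi (M : Rep.{0} k G) :
    ShaL2 𝓛 𝓛v φ hφ M =
      LinearMap.ker (LinearMap.pi fun v => LevelStructure.resH2 (φ v) (hφ v) M) := by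
  rw [LinearMap.ker_pi]; rfl

end Sha

/-! ### Naturality of the evaluation pairing in the coefficients -/

section Naturality

variable {p : ℕ} [Fact p.Prime] {G : Type} [Group G] (𝓛 : LevelStructure G)

lemma H1map_pair01_eval (X : Rep.{0} (ZMod p) G) {W W' : Rep.{0} (ZMod p) G} (f : W ⟶ W')
    (h : (homRep X W).ρ.invariants) (y : 𝓛.H1 X) :
    H1.H1map 𝓛 f (pair01 𝓛 (evalPairing X W) h y) =
      pair01 𝓛 (evalPairing X W') (H1.H0map (homRepMap X f) h) y := by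
  induction y using Submodule.Quotient.induction_on with
  | H ξ => rfl

end Naturality

/-! ### The main theorem -/

section Main

variable {p : ℕ} [Fact p.Prime] {G : Type} [Group G] (𝓛 : LevelStructure G)
variable {ι : Type} [Fintype ι] {D : ι → Type} [∀ v, Group (D v)]
  (𝓛v : ∀ v, LevelStructure (D v)) (φ : ∀ v, D v →* G)
  (hφ : ∀ v, (𝓛v v).Continuous 𝓛 (φ v))

variable {𝓛} in
/-- The connecting map `H¹(Hom(X, W_E)) → H²(Hom(X, μ))` of
`0 → Hom(X, μ) → Hom(X, Vm_E) → Hom(X, W_E) → 0`. -/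
noncomputable def deltaE {X : Rep.{0} (ZMod p) G} (hX : IsFinDiscrete 𝓛 X)
    {μ : Rep.{0} (ZMod p) G} (𝒟E : WDatum p 𝓛) {κ : μ ⟶ 𝒟E.Vm} (hκ : H1.IsSES κ 𝒟E.d) :
    𝓛.H1 (homRep X 𝒟E.W) →ₗ[ZMod p] 𝓛.H2 (homRep X μ) :=
  H1.δ₁ 𝓛 (isSES_homRepMap X hκ) (isDiscrete_homRep hX 𝒟E.discrete_Vm)

variable {𝓛} in
theorem deltaE_bijective {X : Rep.{0} (ZMod p) G} (hX : IsFinDiscrete 𝓛 X)
    {μ : Rep.{0} (ZMod p) G} (𝒟E : WDatum p 𝓛) {κ : μ ⟶ 𝒟E.Vm} (hκ : H1.IsSES κ 𝒟E.d)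
    (hAC : Subsingleton (𝓛.H1 (homRep X 𝒟E.Vm)) ∧ Subsingleton (𝓛.H2 (homRep X 𝒟E.Vm))) :
    Function.Bijective (deltaE hX 𝒟E hκ) := by
  have := hAC.1
  have := hAC.2
  exact bijective_of_exact_of_subsingleton _ _ _
    (H1.exact_H1map_δ₁ 𝓛 (isSES_homRepMap X hκ) (isDiscrete_homRep hX 𝒟E.discrete_Vm))
    (H1.exact_δ₁_H2map 𝓛 (isSES_homRepMap X hκ) (isDiscrete_homRep hX 𝒟E.discrete_Vm))

set_option maxHeartbeats 400000 in
/-- **Abstract Poitou–Tate (layer D3).** -/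
theorem exists_shaPairing
    (X : Rep.{0} (ZMod p) G) (hX : IsFinDiscrete 𝓛 X) (μ : Rep.{0} (ZMod p) G)
    (𝒟E 𝒟J 𝒟C : WDatum p 𝓛)
    -- `0 → μ → Vm_E → W_E → 0` and (AC) for `Vm_E`
    (κ : μ ⟶ 𝒟E.Vm) (hκ : H1.IsSES κ 𝒟E.d)
    (hAC : Subsingleton (𝓛.H1 (homRep X 𝒟E.Vm)) ∧ Subsingleton (𝓛.H2 (homRep X 𝒟E.Vm)))
    -- `0 → W_E → W_J → W_C → 0`, `Vm_J → Vm_C` compatible with `d`, onto on `Hom_G(X, -)`
    (iW : 𝒟E.W ⟶ 𝒟J.W) (pW : 𝒟J.W ⟶ 𝒟C.W) (hW : H1.IsSES iW pW)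
    (pV : 𝒟J.Vm ⟶ 𝒟C.Vm) (hsq : ∀ x, pW.hom (𝒟J.d.hom x) = 𝒟C.d.hom (pV.hom x))
    (hpV : Function.Surjective (H1.H0map (homRepMap X pV)))
    -- global duality in degree one for `C`
    (trC : 𝓛.H1 𝒟C.W →ₗ[ZMod p] ZMod p) (hdual : 𝒟C.IsDual1 trC X)
    -- local comparison (D4)
    (L1v : ι → Type) [∀ v, AddCommGroup (L1v v)] [∀ v, Module (ZMod p) (L1v v)]
    (Θ1 : ∀ v, 𝒟J.T1 X →ₗ[ZMod p] L1v v) (hΘ1 : ∀ ℓ : ∀ v, L1v v, ∃ j, ∀ v, Θ1 v j = ℓ v)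
    (Θ2 : ∀ v, 𝒟J.T2 X →ₗ[ZMod p] (𝓛v v).H2 (Rep.res (φ v) (homRep X μ)))
    (hΘ2 : ∀ z, (∀ v, Θ2 v z = 0) → z = 0)
    (h4a : ∀ v (e : 𝓛.H1 (homRep X 𝒟E.W)),
      Θ2 v (H1.H1map 𝓛 (homRepMap X iW) e) =
        LevelStructure.resH2 (φ v) (hφ v) (homRep X μ) (deltaE hX 𝒟E hκ e))
    -- local duality and compatibility of the pairings
    (pv : ∀ v, L1v v →ₗ[ZMod p] (𝓛v v).H1 (Rep.res (φ v) X) →ₗ[ZMod p] ZMod p)
    (hpv : ∀ v (ψ : Module.Dual (ZMod p) ((𝓛v v).H1 (Rep.res (φ v) X))),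
      ∃ ℓ, ∀ r, pv v ℓ r = ψ r)
    (c : ι → ZMod p) (hc : ∀ v, c v ≠ 0)
    (h4b : ∀ (j : 𝒟J.T1num X) (y : 𝓛.H1 X),
      trC (H1.H1map 𝓛 pW (pair01 𝓛 (evalPairing X 𝒟J.W) j y)) =
        ∑ v, c v * pv v (Θ1 v (Submodule.Quotient.mk j))
          (LevelStructure.resH1 (φ v) (hφ v) X y)) :
    ∃ B : ShaL1 𝓛 𝓛v φ hφ X →ₗ[ZMod p] ShaL2 𝓛 𝓛v φ hφ (homRep X μ) →ₗ[ZMod p] ZMod p,
      (∀ y, (∀ x, B y x = 0) → y = 0) ∧ (∀ x, (∀ y, B y x = 0) → x = 0) := by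
  classical
  -- the exact sequence `0 → Hom(X,W_E) → Hom(X,W_J) → Hom(X,W_C) → 0`
  have hWX := isSES_homRepMap X hW
  have hdJ : 𝓛.IsDiscrete (homRep X 𝒟J.W) := isDiscrete_homRep hX 𝒟J.discrete_W
  -- the maps of the descent lemma
  let dJ : LevelStructure.H0 (homRep X 𝒟J.Vm) →ₗ[ZMod p] LevelStructure.H0 (homRep X 𝒟J.W) :=
    H50.coeffH0 (homRepMap X 𝒟J.d)
  let dC : LevelStructure.H0 (homRep X 𝒟C.Vm) →ₗ[ZMod p] LevelStructure.H0 (homRep X 𝒟C.W) :=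
    H50.coeffH0 (homRepMap X 𝒟C.d)
  let s := H1.H0map (homRepMap X pV)
  let f0 := H1.H0map (homRepMap X pW)
  let δ0 := H1.δ₀ 𝓛 hWX hdJ
  let i1 := H1.H1map 𝓛 (homRepMap X iW)
  have hsq' : ∀ v, f0 (dJ v) = dC (s v) := by
    intro v
    apply Subtype.ext
    refine LinearMap.ext fun x => ?_
    exact hsq (v.1 x)
  have hδf : ∀ a, δ0 (f0 a) = 0 := fun a =>
    (H1.exact_H0map_δ₀ 𝓛 hWX hdJ).apply_apply_eq_zero a
  have hδ : ∀ v, δ0 (dC v) = 0 := delta_kills_of_surjective dJ dC s f0 δ0 hsq' hpV hδf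
  let α : 𝒟J.T1 X →ₗ[ZMod p] 𝒟C.T1 X := t1Map dJ dC s f0 hsq'
  let τ : 𝒟C.T1 X →ₗ[ZMod p] 𝓛.H1 (homRep X 𝒟E.W) := t1Delta dC δ0 hδ
  have hατ : Function.Exact α τ :=
    t1_exact_mid dJ dC s f0 δ0 hsq' hδ (H1.exact_H0map_δ₀ 𝓛 hWX hdJ)
  have hτi : Function.Exact τ i1 :=
    t1_exact_right dC δ0 i1 hδ (H1.exact_δ₀_H1map 𝓛 hWX hdJ)
  -- the connecting isomorphism
  let ε := deltaE hX 𝒟E hκ
  have hε : Function.Bijective ε := deltaE_bijective hX 𝒟E hκ hAC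
  let β : 𝒟C.T1 X →ₗ[ZMod p] 𝓛.H2 (homRep X μ) := ε ∘ₗ τ
  have hαβ : Function.Exact α β := by
    intro t
    constructor
    · intro h
      have : τ t = 0 := hε.1 (by rw [map_zero]; exact h)
      exact (hατ t).1 this
    · rintro ⟨j, rfl⟩
      show ε (τ (α j)) = 0
      rw [hατ.apply_apply_eq_zero, map_zero]
  have hβγ1 : ∀ v t, LevelStructure.resH2 (φ v) (hφ v) (homRep X μ) (β t) = 0 := by
    intro v t
    show LevelStructure.resH2 (φ v) (hφ v) (homRep X μ) (ε (τ t)) = 0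
    rw [← h4a v (τ t), hτi.apply_apply_eq_zero, map_zero]
  have hβγ2 : ∀ a, (∀ v, LevelStructure.resH2 (φ v) (hφ v) (homRep X μ) a = 0) →
      ∃ t, β t = a := by
    intro a h
    obtain ⟨e, rfl⟩ := hε.2 a
    have he : i1 e = 0 := by
      apply hΘ2
      intro v
      rw [h4a v e]
      exact h v
    obtain ⟨t, rfl⟩ := (hτi e).1 he
    exact ⟨t, rfl⟩
  -- the global pairing on `T¹(X;C) × H¹(X)`
  let a1 := 𝒟C.alpha1num trC X
  have hker : 𝒟C.T1den X ≤ LinearMap.ker a1 := le_of_eq hdual.2.symm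
  let Gp : 𝒟C.T1 X →ₗ[ZMod p] 𝓛.H1 X →ₗ[ZMod p] ZMod p := (𝒟C.T1den X).liftQ a1 hker
  have hGmk : ∀ (h : 𝒟C.T1num X) (y : 𝓛.H1 X),
      Gp (Submodule.Quotient.mk h) y = trC (pair01 𝓛 (evalPairing X 𝒟C.W) h y) := by
    intro h y; rfl
  have hG_left : ∀ t, (∀ y, Gp t y = 0) → t = 0 := by
    intro t ht
    obtain ⟨h, rfl⟩ := Submodule.mkQ_surjective _ t
    rw [Submodule.mkQ_apply, Submodule.Quotient.mk_eq_zero, ← hdual.2, LinearMap.mem_ker]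
    exact LinearMap.ext ht
  have hG_right : ∀ y, (∀ t, Gp t y = 0) → y = 0 := by
    intro y hy
    rw [← Module.forall_dual_apply_eq_zero_iff (ZMod p) y]
    intro ψ
    obtain ⟨h, rfl⟩ := hdual.1 ψ
    exact hy (Submodule.Quotient.mk h)
  have hcompat : ∀ j y, Gp (α j) y =
      ∑ v, c v * pv v (Θ1 v j) (LevelStructure.resH1 (φ v) (hφ v) X y) := by
    intro j y
    obtain ⟨h, rfl⟩ := Submodule.mkQ_surjective _ j
    show Gp (Submodule.Quotient.mk (f0 h)) y = _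
    rw [hGmk, ← H1map_pair01_eval 𝓛 X pW h y]
    exact h4b h y
  have key := exists_pairing_pi (k := ZMod p) (ι := ι) (H1X := 𝓛.H1 X) (T1J := 𝒟J.T1 X)
    (T1C := 𝒟C.T1 X) (H2M := 𝓛.H2 (homRep X μ))
    (R1v := fun v => (𝓛v v).H1 (Rep.res (φ v) X))
    (L2v := fun v => (𝓛v v).H2 (Rep.res (φ v) (homRep X μ))) (L1v := L1v)
    (fun v => LevelStructure.resH1 (φ v) (hφ v) X) α β
    (fun v => LevelStructure.resH2 (φ v) (hφ v) (homRep X μ)) hαβ hβγ1 hβγ2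
    Gp hG_left hG_right Θ1 hΘ1 pv hpv c hc hcompat
  exact key

end Main

end Fermat.Agent.CFT.H94
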