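import Fermat.Agent.CFT.H94_PTAbstract
import Fermat.Agent.CFT.H5_EnvCompare
import Fermat.Agent.CFT.H1_LevelLESRes

/-!
# The "L-glue" of Poitou–Tate (layer D3): from local `W`-data to the abstract theorem

`exists_shaPairing_of_local` feeds `H94.exists_shaPairing` with local data given in helper5's
`H5.WMor` vocabulary (`H5_EnvCompare`):

* local `W`-data `𝒟v v` on `(D v, 𝓛v v)` and morphisms of `W`-data `Φ v : WMor (φ v) 𝒟J (𝒟v v)`
  (D4's `λ_v`), with `T¹`-comparison jointly onto and `T²`-comparison jointly injective;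
* local exact sequences `0 → μ_v → Vm_v → W_v → 0`, local (AC), and an identification
  `ν v : μ ≃ μ_v` compatible with all the maps;
* local duality in degree one `(𝒟v v).IsDual1 (trv v) (res X)`;
* the `W`-model trace identity `tr_C ∘ H¹(p_W) = Σ_v c_v • tr_v ∘ H¹(Φ_v)` on `H¹(𝓛; W_J)`.
-/

set_option autoImplicit false

open CategoryTheory

namespace Fermat.Agent.CFT.H94

open Fermat.Agent.CFT

/-! ### The two restriction maps agree -/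

section ResBridge

variable {G H : Type} [Group G] [Group H] {𝓛G : LevelStructure G} {𝓛H : LevelStructure H}
  {k : Type} [CommRing k]

lemma levelResH1_eq (f : G →* H) (hf : 𝓛G.Continuous 𝓛H f) (A : Rep.{0} k H) (x : 𝓛H.H1 A) :
    LevelStructure.resH1 f hf A x = H50.resH1 𝓛G 𝓛H hf A x := by
  induction x using Submodule.Quotient.induction_on with
  | H c => rfl

lemma levelResH2_eq (f : G →* H) (hf : 𝓛G.Continuous 𝓛H f) (A : Rep.{0} k H) (x : 𝓛H.H2 A) :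
    LevelStructure.resH2 f hf A x = H50.resH2 𝓛G 𝓛H hf A x := by
  induction x using Submodule.Quotient.induction_on with
  | H c => rfl

end ResBridge

/-! ### `Hom(X, μ)` restricted versus `Hom(res X, μ')` -/

section HomPushIso

variable {k : Type} [CommRing k] {H D : Type} [Group H] [Group D] (φ : D →* H)
  (X : Rep.{0} k H) {μ : Rep.{0} k H} {μ' : Rep.{0} k D} (ν : μ.V ≃ₗ[k] μ'.V)
  (hν : H50.IsEquivariant φ μ μ' ν.toLinearMap)

/-- `f ↦ ν ∘ f`, from `res φ (Hom(X, μ))` to `Hom(res φ X, μ')`. -/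
noncomputable def homPushFwd :
    (Rep.res φ (homRep X μ)).V →ₗ[k] (homRep (Rep.res φ X) μ').V :=
  LinearMap.llcomp k X.V μ.V μ'.V ν.toLinearMap

/-- `f ↦ ν⁻¹ ∘ f`, from `Hom(res φ X, μ')` to `res φ (Hom(X, μ))`. -/
noncomputable def homPushBwd :
    (homRep (Rep.res φ X) μ').V →ₗ[k] (Rep.res φ (homRep X μ)).V :=
  LinearMap.llcomp k X.V μ'.V μ.V ν.symm.toLinearMap

include hν in
lemma isEquivariant_homPushFwd :
    H50.IsEquivariant (MonoidHom.id D) (Rep.res φ (homRep X μ)) (homRep (Rep.res φ X) μ')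
      (homPushFwd φ X ν) :=
  fun g a => H5.isEquivariant_homPush φ X hν g a

include hν in
lemma isEquivariant_homPushBwd :
    H50.IsEquivariant (MonoidHom.id D) (homRep (Rep.res φ X) μ') (Rep.res φ (homRep X μ))
      (homPushBwd φ X ν) := by
  intro g f
  refine LinearMap.ext fun x => ?_
  show ν.symm (μ'.ρ g ((show X.V →ₗ[k] μ'.V from f) (X.ρ (φ g⁻¹) x))) =
    μ.ρ (φ g) (ν.symm ((show X.V →ₗ[k] μ'.V from f) (X.ρ (φ g)⁻¹ x)))
  rw [map_inv φ g]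
  generalize (show X.V →ₗ[k] μ'.V from f) (X.ρ (φ g)⁻¹ x) = m'
  apply ν.injective
  rw [LinearEquiv.apply_symm_apply]
  have h1 : ν (μ.ρ (φ g) (ν.symm m')) = μ'.ρ g (ν (ν.symm m')) := hν g (ν.symm m')
  rw [h1, ν.apply_symm_apply]

variable (𝓛D : LevelStructure D)

include hν in
/-- On `H²`: `bwd ∘ fwd = id`. -/
lemma mapH2_bwd_fwd (y : 𝓛D.H2 (Rep.res φ (homRep X μ))) :
    H50.mapH2 𝓛D 𝓛D (H50.isCont_id 𝓛D) (isEquivariant_homPushBwd φ X ν hν)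
      (H50.mapH2 𝓛D 𝓛D (H50.isCont_id 𝓛D) (isEquivariant_homPushFwd φ X ν hν) y) = y := by
  induction y using Submodule.Quotient.induction_on with
  | H c =>
    show Submodule.Quotient.mk _ = Submodule.Quotient.mk c
    congr 1
    apply Subtype.ext
    funext g
    refine LinearMap.ext fun x => ?_
    exact ν.symm_apply_apply _

include hν in
/-- On `H²`: `fwd ∘ bwd = id`. -/
lemma mapH2_fwd_bwd (y : 𝓛D.H2 (homRep (Rep.res φ X) μ')) :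
    H50.mapH2 𝓛D 𝓛D (H50.isCont_id 𝓛D) (isEquivariant_homPushFwd φ X ν hν)
      (H50.mapH2 𝓛D 𝓛D (H50.isCont_id 𝓛D) (isEquivariant_homPushBwd φ X ν hν) y) = y := by
  induction y using Submodule.Quotient.induction_on with
  | H c =>
    show Submodule.Quotient.mk _ = Submodule.Quotient.mk c
    congr 1
    apply Subtype.ext
    funext g
    refine LinearMap.ext fun x => ?_
    exact ν.apply_symm_apply _

end HomPushIso

/-! ### The main theorem -/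

section Main

variable {p : ℕ} [Fact p.Prime] {G : Type} [Group G] (𝓛 : LevelStructure G)
variable {ι : Type} [Fintype ι] {D : ι → Type} [∀ v, Group (D v)]
  (𝓛v : ∀ v, LevelStructure (D v)) (φ : ∀ v, D v →* G)
  (hφ : ∀ v, (𝓛v v).Continuous 𝓛 (φ v))

/-- **The L-glue theorem.**  Poitou–Tate duality `Ш¹(X) × Ш²(Hom(X, μ)) → 𝔽_p` from global
module data, global duality for `C`, and local `W`-data with their comparison morphisms. -/
theorem exists_shaPairing_of_local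
    (X : Rep.{0} (ZMod p) G) (hX : IsFinDiscrete 𝓛 X) (μ : Rep.{0} (ZMod p) G)
    (𝒟E 𝒟J 𝒟C : WDatum p 𝓛)
    (κ : μ ⟶ 𝒟E.Vm) (hκ : H1.IsSES κ 𝒟E.d)
    (hAC : Subsingleton (𝓛.H1 (homRep X 𝒟E.Vm)) ∧ Subsingleton (𝓛.H2 (homRep X 𝒟E.Vm)))
    (iW : 𝒟E.W ⟶ 𝒟J.W) (pW : 𝒟J.W ⟶ 𝒟C.W) (hW : H1.IsSES iW pW)
    (pV : 𝒟J.Vm ⟶ 𝒟C.Vm) (hsq : ∀ x, pW.hom (𝒟J.d.hom x) = 𝒟C.d.hom (pV.hom x))
    (hpV : Function.Surjective (H1.H0map (homRepMap X pV)))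
    (trC : 𝓛.H1 𝒟C.W →ₗ[ZMod p] ZMod p) (hdual : 𝒟C.IsDual1 trC X)
    -- the map `Vm_E → Vm_J`
    (iV : 𝒟E.Vm ⟶ 𝒟J.Vm) (hsqE : ∀ x, iW.hom (𝒟E.d.hom x) = 𝒟J.d.hom (iV.hom x))
    -- local `W`-data and D4's comparison morphisms
    (𝒟v : ∀ v, WDatum p (𝓛v v)) (Φ : ∀ v, H5.WMor (φ v) 𝒟J (𝒟v v))
    (hΘ1 : ∀ ℓ : ∀ v, (𝒟v v).T1 (Rep.res (φ v) X), ∃ j : 𝒟J.T1 X, ∀ v, (Φ v).T1map X j = ℓ v)
    (hΘ2 : ∀ z : 𝒟J.T2 X, (∀ v, (Φ v).T2map (hφ v) X z = 0) → z = 0)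
    -- local `0 → μ_v → Vm_v → W_v → 0`, local (AC), `μ ≃ μ_v`
    (μv : ∀ v, Rep.{0} (ZMod p) (D v)) (κv : ∀ v, μv v ⟶ (𝒟v v).Vm)
    (hκv : ∀ v, H1.IsSES (κv v) (𝒟v v).d)
    (hACv : ∀ v, Subsingleton ((𝓛v v).H1 (homRep (Rep.res (φ v) X) (𝒟v v).Vm)) ∧
      Subsingleton ((𝓛v v).H2 (homRep (Rep.res (φ v) X) (𝒟v v).Vm)))
    (ν : ∀ v, μ.V ≃ₗ[ZMod p] (μv v).V)
    (hν : ∀ v, H50.IsEquivariant (φ v) μ (μv v) (ν v).toLinearMap)
    (hνκ : ∀ v m, (Φ v).a (iV.hom (κ.hom m)) = (κv v).hom (ν v m))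
    -- local duality
    (trv : ∀ v, (𝓛v v).H1 (𝒟v v).W →ₗ[ZMod p] ZMod p)
    (hdualv : ∀ v, (𝒟v v).IsDual1 (trv v) (Rep.res (φ v) X))
    -- the trace identity
    (c : ι → ZMod p) (hc : ∀ v, c v ≠ 0)
    (hX5 : ∀ w : 𝓛.H1 𝒟J.W,
      trC (H1.H1map 𝓛 pW w) = ∑ v, c v * trv v ((Φ v).H1Wmap (hφ v) w)) :
    ∃ B : ShaL1 𝓛 𝓛v φ hφ X →ₗ[ZMod p] ShaL2 𝓛 𝓛v φ hφ (homRep X μ) →ₗ[ZMod p] ZMod p,
      (∀ y, (∀ x, B y x = 0) → y = 0) ∧ (∀ x, (∀ y, B y x = 0) → x = 0) := by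
  classical
  -- restricted `X`
  have hXv : ∀ v, IsFinDiscrete (𝓛v v) (Rep.res (φ v) X) := fun v =>
    ⟨hX.finite, H50.isDiscrete_res (𝓛v v) 𝓛 (hφ v) hX.discrete⟩
  -- local connecting isomorphisms
  let δv : ∀ v, (𝓛v v).H1 (homRep (Rep.res (φ v) X) (𝒟v v).W) →ₗ[ZMod p]
      (𝓛v v).H2 (homRep (Rep.res (φ v) X) (μv v)) :=
    fun v => deltaE (hXv v) (𝒟v v) (hκv v)
  have hδv : ∀ v, Function.Bijective (δv v) := fun v =>
    deltaE_bijective (hXv v) (𝒟v v) (hκv v) (hACv v)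
  -- the coefficient isomorphisms on `H²`
  let τ : ∀ v, (𝓛v v).H2 (Rep.res (φ v) (homRep X μ)) →ₗ[ZMod p]
      (𝓛v v).H2 (homRep (Rep.res (φ v) X) (μv v)) :=
    fun v => H50.mapH2 (𝓛v v) (𝓛v v) (H50.isCont_id (𝓛v v))
      (isEquivariant_homPushFwd (φ v) X (ν v) (hν v))
  let σ : ∀ v, (𝓛v v).H2 (homRep (Rep.res (φ v) X) (μv v)) →ₗ[ZMod p]
      (𝓛v v).H2 (Rep.res (φ v) (homRep X μ)) :=
    fun v => H50.mapH2 (𝓛v v) (𝓛v v) (H50.isCont_id (𝓛v v))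
      (isEquivariant_homPushBwd (φ v) X (ν v) (hν v))
  have hστ : ∀ v y, σ v (τ v y) = y := fun v y => mapH2_bwd_fwd (φ v) X (ν v) (hν v) (𝓛v v) y
  have hτσ : ∀ v y, τ v (σ v y) = y := fun v y => mapH2_fwd_bwd (φ v) X (ν v) (hν v) (𝓛v v) y
  have hσ_inj : ∀ v, Function.Injective (σ v) := fun v =>
    Function.LeftInverse.injective (g := τ v) (hτσ v)
  -- the comparison maps
  let Θ1 : ∀ v, 𝒟J.T1 X →ₗ[ZMod p] (𝒟v v).T1 (Rep.res (φ v) X) := fun v => (Φ v).T1map X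
  let Θ2 : ∀ v, 𝒟J.T2 X →ₗ[ZMod p] (𝓛v v).H2 (Rep.res (φ v) (homRep X μ)) :=
    fun v => σ v ∘ₗ δv v ∘ₗ (Φ v).T2map (hφ v) X
  have hΘ2' : ∀ z, (∀ v, Θ2 v z = 0) → z = 0 := by
    intro z hz
    apply hΘ2
    intro v
    have h1 : σ v (δv v ((Φ v).T2map (hφ v) X z)) = 0 := hz v
    have h2 : δv v ((Φ v).T2map (hφ v) X z) = 0 := hσ_inj v (by rw [h1, map_zero])
    exact (hδv v).1 (by rw [h2, map_zero])
  -- (4a)
  have h4a : ∀ v (e : 𝓛.H1 (homRep X 𝒟E.W)),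
      Θ2 v (H1.H1map 𝓛 (homRepMap X iW) e) =
        LevelStructure.resH2 (φ v) (hφ v) (homRep X μ) (deltaE hX 𝒟E hκ e) := by
    intro v e
    -- equivariance of the three vertical maps
    have hβ0 : H50.IsEquivariant (φ v) 𝒟E.Vm (𝒟v v).Vm ((Φ v).a ∘ₗ iV.hom.toLinearMap) := by
      intro g a
      show (Φ v).a (iV.hom (𝒟E.Vm.ρ (φ v g) a)) = _
      rw [Rep.hom_comm_apply]
      exact (Φ v).ha g _
    have hγ0 : H50.IsEquivariant (φ v) 𝒟E.W (𝒟v v).W ((Φ v).b ∘ₗ iW.hom.toLinearMap) := by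
      intro g a
      show (Φ v).b (iW.hom (𝒟E.W.ρ (φ v g) a)) = _
      rw [Rep.hom_comm_apply]
      exact (Φ v).hb g _
    have hα := H5.isEquivariant_homPush (φ v) X (hν v)
    have hβ := H5.isEquivariant_homPush (φ v) X hβ0
    have hγ := H5.isEquivariant_homPush (φ v) X hγ0
    have key := H1.mapH2_δ₁ (𝓛v v) 𝓛 (hφ v) (isSES_homRepMap X hκ)
      (isDiscrete_homRep hX 𝒟E.discrete_Vm) (isSES_homRepMap (Rep.res (φ v) X) (hκv v))
      (isDiscrete_homRep (hXv v) (𝒟v v).discrete_Vm) hα hβ hγ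
      (fun f => LinearMap.ext fun x => (hνκ v ((show X.V →ₗ[ZMod p] μ.V from f) x)).symm)
      (fun f => LinearMap.ext fun x => by
        show (𝒟v v).d.hom ((Φ v).a (iV.hom ((show X.V →ₗ[ZMod p] 𝒟E.Vm.V from f) x))) =
          (Φ v).b (iW.hom (𝒟E.d.hom ((show X.V →ₗ[ZMod p] 𝒟E.Vm.V from f) x)))
        rw [hsqE, (Φ v).comm]) e
    -- identify the two sides
    have h1 : H50.mapH1 (𝓛v v) 𝓛 (hφ v) hγ e =
        (Φ v).T2map (hφ v) X (H1.H1map 𝓛 (homRepMap X iW) e) := by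
      induction e using Submodule.Quotient.induction_on with
      | H c => rfl
    have h2 : ∀ y : 𝓛.H2 (homRep X μ), H50.mapH2 (𝓛v v) 𝓛 (hφ v) hα y =
        τ v (LevelStructure.resH2 (φ v) (hφ v) (homRep X μ) y) := by
      intro y
      induction y using Submodule.Quotient.induction_on with
      | H c => rfl
    show σ v (δv v ((Φ v).T2map (hφ v) X (H1.H1map 𝓛 (homRepMap X iW) e))) = _
    rw [← h1]
    have key' : τ v (LevelStructure.resH2 (φ v) (hφ v) (homRep X μ) (deltaE hX 𝒟E hκ e)) =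
        δv v (H50.mapH1 (𝓛v v) 𝓛 (hφ v) hγ e) := by
      rw [← h2]
      exact key
    rw [← key', hστ]
  -- the local pairings
  let pv : ∀ v, (𝒟v v).T1 (Rep.res (φ v) X) →ₗ[ZMod p]
      (𝓛v v).H1 (Rep.res (φ v) X) →ₗ[ZMod p] ZMod p :=
    fun v => ((𝒟v v).T1den (Rep.res (φ v) X)).liftQ
      ((𝒟v v).alpha1num (trv v) (Rep.res (φ v) X)) (le_of_eq (hdualv v).2.symm)
  have hpv : ∀ v (ψ : Module.Dual (ZMod p) ((𝓛v v).H1 (Rep.res (φ v) X))),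
      ∃ ℓ, ∀ r, pv v ℓ r = ψ r := by
    intro v ψ
    obtain ⟨t, ht⟩ := (hdualv v).1 ψ
    exact ⟨Submodule.Quotient.mk t, fun r => LinearMap.congr_fun ht r⟩
  -- (4b)
  have h4b : ∀ (j : 𝒟J.T1num X) (y : 𝓛.H1 X),
      trC (H1.H1map 𝓛 pW (pair01 𝓛 (evalPairing X 𝒟J.W) j y)) =
        ∑ v, c v * pv v (Θ1 v (Submodule.Quotient.mk j))
          (LevelStructure.resH1 (φ v) (hφ v) X y) := by
    intro j y
    rw [hX5]
    refine Finset.sum_congr rfl fun v _ => ?_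
    congr 1
    rw [levelResH1_eq]
    exact ((Φ v).alpha1num_comp (hφ v) (trv v) X j y).symm
  exact exists_shaPairing 𝓛 𝓛v φ hφ X hX μ 𝒟E 𝒟J 𝒟C κ hκ hAC iW pW hW pV hsq hpV trC hdual
    (fun v => (𝒟v v).T1 (Rep.res (φ v) X)) Θ1 hΘ1 Θ2 hΘ2' h4a pv hpv c hc h4b

end Main

end Fermat.Agent.CFT.H94
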