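import Fermat.Agent.CFT.H35_PTModules
import Fermat.Agent.CFT.H5_EnvCompare
import Fermat.Agent.CFT.H1_LevelLESRes

/-!
# The structure maps of a Poitou–Tate module package as envelope morphisms

For `M : H35.PTModules 𝓛 p E J C` the maps `iI : I_E → I_J`, `qI : I_J → I_C` are morphisms of
envelopes (same group) over `ε : E → J`, `pr : J → C`:

* `envMorEJ M : H5.EnvMor id M.EE M.EJ ε`, `envMorJC M : H5.EnvMor id M.EJ M.EC pr`;
* their `Fbar` are `M.a`, `M.b`; their `W`-maps are `M.aW`, `M.bW`; their `H1Wmap` are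
  `H1.H1map 𝓛 M.aW`, `H1.H1map 𝓛 M.bW` (`= H50.coeffH1`).

This identifies the `pW`-term `trC (H1.H1map 𝓛 M.bW w)` of the trace identity (hX5) of
`H94.exists_shaPairing_of_envelopes` with `trC ((envMorJC M).toWMor.H1Wmap _ w)`, the shape in
which the `H1Wmap` calculus (`H5_EnvMorH1W`, `H5_ThetaC`, `H68_X5Witness`) applies.
-/

set_option autoImplicit false

open CategoryTheory

namespace Fermat.Agent.CFT.H94

open Fermat.Agent.CFT

section EnvMor

variable {p : ℕ} [Fact p.Prime] {k : Type} [CommRing k] {G : Type} [Group G]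
  {𝓛 : LevelStructure G} {E J C : Rep.{0} k G} (M : H35.PTModules 𝓛 p E J C)

/-- `qI : I_J → I_C` as a morphism of envelopes over `pr : J → C`. -/
noncomputable def envMorJC : H5.EnvMor (MonoidHom.id G) M.EJ M.EC M.pr.hom.toLinearMap where
  F := M.qI.hom.toLinearMap
  hF := H50.isEquivariant_hom M.qI
  comm := fun c => by
    have := congrArg (fun f => f.hom c) M.sqιC
    exact this

/-- `iI : I_E → I_J` as a morphism of envelopes over `ε : E → J`. -/
noncomputable def envMorEJ : H5.EnvMor (MonoidHom.id G) M.EE M.EJ M.ε.hom.toLinearMap where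
  F := M.iI.hom.toLinearMap
  hF := H50.isEquivariant_hom M.iI
  comm := fun c => by
    have := congrArg (fun f => f.hom c) M.sqιE
    exact this.symm

omit [Fact p.Prime] in
lemma envMorJC_Fbar (q : M.EJ.Q.V) : (envMorJC M).Fbar q = M.b.hom q := by
  obtain ⟨x, rfl⟩ := M.EJ.π_surjective q
  rw [H5.EnvMor.Fbar_π]
  have := congrArg (fun f => f.hom x) M.sqC
  exact this.symm

omit [Fact p.Prime] in
lemma envMorEJ_Fbar (q : M.EE.Q.V) : (envMorEJ M).Fbar q = M.a.hom q := by
  obtain ⟨x, rfl⟩ := M.EE.π_surjective q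
  rw [H5.EnvMor.Fbar_π]
  have := congrArg (fun f => f.hom x) M.sqE
  exact this.symm

lemma envMorJC_b (w : M.EJ.wDatum.W.V) : (envMorJC M).toWMor.b w = M.bW.hom w :=
  Subtype.ext (envMorJC_Fbar M _)

lemma envMorEJ_b (w : M.EE.wDatum.W.V) : (envMorEJ M).toWMor.b w = M.aW.hom w :=
  Subtype.ext (envMorEJ_Fbar M _)

lemma envMorJC_a (x : M.EJ.wDatum.Vm.V) : (envMorJC M).toWMor.a x = M.qV.hom x := rfl

lemma envMorEJ_a (x : M.EE.wDatum.Vm.V) : (envMorEJ M).toWMor.a x = M.iV.hom x := rfl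

/-- `H¹(W_J) → H¹(W_C)` induced by `qI` is the coefficient map of `bW`. -/
theorem envMorJC_H1Wmap (w : 𝓛.H1 M.EJ.wDatum.W) :
    (envMorJC M).toWMor.H1Wmap (H50.isCont_id 𝓛) w = H1.H1map 𝓛 M.bW w := by
  rw [← H1.coeffH1_eq]
  induction w using Submodule.Quotient.induction_on with
  | H c =>
    show Submodule.Quotient.mk _ = Submodule.Quotient.mk _
    congr 1
    apply Subtype.ext
    funext g
    exact envMorJC_b M _

/-- `H¹(W_E) → H¹(W_J)` induced by `iI` is the coefficient map of `aW`. -/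
theorem envMorEJ_H1Wmap (w : 𝓛.H1 M.EE.wDatum.W) :
    (envMorEJ M).toWMor.H1Wmap (H50.isCont_id 𝓛) w = H1.H1map 𝓛 M.aW w := by
  rw [← H1.coeffH1_eq]
  induction w using Submodule.Quotient.induction_on with
  | H c =>
    show Submodule.Quotient.mk _ = Submodule.Quotient.mk _
    congr 1
    apply Subtype.ext
    funext g
    exact envMorEJ_b M _

end EnvMor

end Fermat.Agent.CFT.H94
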