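import Mathlib

/-!
# Weights in the trace identity of Poitou–Tate (layer D3, linear algebra)

`exists_weights`: let `f : V → k` be a functional ("global trace"), `Λ v : V → L v` localisation
maps and `tr v : L v → k` injective functionals ("local traces").  Assume `V` is the sum of
"`v`-parts" in the form of endomorphisms `π v` with `Σ_v π v = id` and `Λ w ∘ π v = 0` for
`w ≠ v`, that `Λ` is jointly injective, and that `f` does not vanish on a nonzero element of the
`v`-part (`hX5`, the constant-free reciprocity statement (X5')).  Then there are *nonzero*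
weights `c v` with `f = Σ_v c v • tr v ∘ Λ v`.

Mathlib only.
-/

set_option autoImplicit false

namespace Fermat.Agent.CFT.H94

section Proportional

variable {k : Type*} [Field k] {V : Type*} [AddCommGroup V] [Module k V]

/-- Two functionals with the same kernel are proportional by a nonzero scalar. -/
theorem exists_ne_zero_smul_eq_of_ker_eq (a b : V →ₗ[k] k)
    (h : ∀ y, a y = 0 ↔ b y = 0) : ∃ c : k, c ≠ 0 ∧ ∀ y, a y = c * b y := by
  by_cases hb : ∀ y, b y = 0
  · exact ⟨1, one_ne_zero, fun y => by rw [hb y, mul_zero]; exact (h y).2 (hb y)⟩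
  · obtain ⟨y₀, hy₀⟩ := not_forall.1 hb
    have ha₀ : a y₀ ≠ 0 := fun h0 => hy₀ ((h y₀).1 h0)
    refine ⟨a y₀ / b y₀, div_ne_zero ha₀ hy₀, fun y => ?_⟩
    have hker : b (y - (b y / b y₀) • y₀) = 0 := by
      rw [map_sub, map_smul, smul_eq_mul, div_mul_cancel₀ _ hy₀, sub_self]
    have := (h _).2 hker
    rw [map_sub, map_smul, smul_eq_mul, sub_eq_zero] at this
    rw [this]
    field_simp

end Proportional

section Weights

variable {k : Type*} [Field k] {ι : Type*} [Fintype ι] [DecidableEq ι]
variable {V : Type*} [AddCommGroup V] [Module k V]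
variable {L : ι → Type*} [∀ v, AddCommGroup (L v)] [∀ v, Module k (L v)]

/-- **Existence of nonzero weights.** -/
theorem exists_weights (f : V →ₗ[k] k) (Λ : ∀ v, V →ₗ[k] L v) (tr : ∀ v, L v →ₗ[k] k)
    (htr : ∀ v, Function.Injective (tr v))
    (π : ι → V →ₗ[k] V) (hπ : ∀ y, ∑ v, π v y = y)
    (hsupp : ∀ v w, w ≠ v → ∀ y, Λ w (π v y) = 0)
    (hΛ : ∀ y, (∀ v, Λ v y = 0) → y = 0)
    (hX5 : ∀ v y, f (π v y) = 0 → Λ v (π v y) = 0) :
    ∃ c : ι → k, (∀ v, c v ≠ 0) ∧ ∀ y, f y = ∑ v, c v * tr v (Λ v y) := by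
  -- the two functionals `f ∘ π v` and `tr v ∘ Λ v ∘ π v` have the same kernel
  have hker : ∀ v y, (f ∘ₗ π v) y = 0 ↔ (tr v ∘ₗ Λ v ∘ₗ π v) y = 0 := by
    intro v y
    simp only [LinearMap.comp_apply]
    constructor
    · intro h
      rw [hX5 v y h, map_zero]
    · intro h
      have h0 : Λ v (π v y) = 0 := htr v (by rw [h, map_zero])
      have : π v y = 0 := by
        apply hΛ
        intro w
        by_cases hw : w = v
        · subst hw; exact h0
        · exact hsupp v w hw y
      rw [this, map_zero]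
  choose c hc hcv using fun v =>
    exists_ne_zero_smul_eq_of_ker_eq (f ∘ₗ π v) (tr v ∘ₗ Λ v ∘ₗ π v) (hker v)
  refine ⟨c, hc, fun y => ?_⟩
  -- `Λ v y = Λ v (π v y)`
  have hΛπ : ∀ v, Λ v y = Λ v (π v y) := by
    intro v
    conv_lhs => rw [← hπ y]
    rw [map_sum]
    exact Finset.sum_eq_single v (fun w _ hw => hsupp w v (Ne.symm hw) y)
      (fun h => absurd (Finset.mem_univ v) h)
  conv_lhs => rw [← hπ y]
  rw [map_sum]
  refine Finset.sum_congr rfl fun v _ => ?_
  have := hcv v y
  simp only [LinearMap.comp_apply] at this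
  rw [this, hΛπ v]

end Weights

end Fermat.Agent.CFT.H94
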