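import Mathlib
import Fermat.Agent.CFT.H55_LevelDefs
import Fermat.Agent.CFT.H50_LevelRes
import Fermat.Agent.CFT.H36_Envelope

/-!
# CFT / Layer D4 / package D4-PI : finite products of representations

* `piRep M` : the product of a family of representations `M v` (carrier `∀ v, (M v).V`,
  componentwise action), with `piProj`, `piLift`, `piMap`, `piIncl`;
* `isDiscrete_piRep` : a finite product of discrete representations is discrete;
* the abstract product lemma: if `pv v : M ⟶ Mv v` are jointly injective and jointly surjective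
  then `H⁰(M) → Π_v H⁰(Mv v)` is bijective and (finite index set) so is
  `H¹(𝓛; M) → Π_v H¹(𝓛; Mv v)`;
* `envelopePi` : the product of divisible envelopes is a divisible envelope of the product.
-/

set_option autoImplicit false

noncomputable section

open CategoryTheory

namespace Fermat.Agent.CFT.H94

open Fermat.Agent.CFT

/-! ### The product representation -/

section PiRep

variable {k G ι : Type} [CommRing k] [Group G]

/-- The componentwise representation on a product. -/
def piRepresentation (M : ι → Rep.{0} k G) : Representation k G (∀ v, (M v).V) where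
  toFun g := LinearMap.pi fun v => (M v).ρ g ∘ₗ LinearMap.proj v
  map_one' := by
    refine LinearMap.ext fun x => funext fun v => ?_
    simp
  map_mul' g h := by
    refine LinearMap.ext fun x => funext fun v => ?_
    simp

/-- The product of a family of representations: carrier `∀ v, (M v).V`, componentwise action. -/
abbrev piRep (M : ι → Rep.{0} k G) : Rep.{0} k G := Rep.of (piRepresentation M)

lemma piRep_ρ_apply (M : ι → Rep.{0} k G) (g : G) (x : ∀ v, (M v).V) (v : ι) :
    ((piRep M).ρ g (x : (piRep M).V) : ∀ v, (M v).V) v = (M v).ρ g (x v) := rfl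

/-- The projection to a factor. -/
def piProj (M : ι → Rep.{0} k G) (v : ι) : piRep M ⟶ M v :=
  Rep.ofHom (ρ := piRepresentation M) (σ := (M v).ρ)
    { toLinearMap := LinearMap.proj v
      isIntertwining' := fun _ => LinearMap.ext fun _ => rfl }

lemma piProj_apply (M : ι → Rep.{0} k G) (v : ι) (x : ∀ v, (M v).V) :
    (piProj M v).hom (x : (piRep M).V) = x v := rfl

/-- The map into a product induced by a family of maps. -/
def piLift {N : Rep.{0} k G} {M : ι → Rep.{0} k G} (f : ∀ v, N ⟶ M v) : N ⟶ piRep M :=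
  Rep.ofHom (ρ := N.ρ) (σ := piRepresentation M)
    { toLinearMap := LinearMap.pi fun v => (f v).hom.toLinearMap
      isIntertwining' := fun g => LinearMap.ext fun x => funext fun v =>
        Rep.hom_comm_apply (f v) g x }

lemma piLift_apply {N : Rep.{0} k G} {M : ι → Rep.{0} k G} (f : ∀ v, N ⟶ M v) (x : N.V)
    (v : ι) : ((piLift f).hom x : ∀ v, (M v).V) v = (f v).hom x := rfl

/-- The product of a family of maps. -/
def piMap {M M' : ι → Rep.{0} k G} (f : ∀ v, M v ⟶ M' v) : piRep M ⟶ piRep M' :=
  piLift fun v => piProj M v ≫ f v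

lemma piMap_apply {M M' : ι → Rep.{0} k G} (f : ∀ v, M v ⟶ M' v) (x : ∀ v, (M v).V) (v : ι) :
    ((piMap f).hom (x : (piRep M).V) : ∀ v, (M' v).V) v = (f v).hom (x v) := rfl

lemma piLift_piProj {N : Rep.{0} k G} {M : ι → Rep.{0} k G} (f : ∀ v, N ⟶ M v) (v : ι) :
    piLift f ≫ piProj M v = f v := by
  apply Rep.hom_ext
  apply Representation.IntertwiningMap.ext
  exact LinearMap.ext fun _ => rfl

lemma piMap_piProj {M M' : ι → Rep.{0} k G} (f : ∀ v, M v ⟶ M' v) (v : ι) :
    piMap f ≫ piProj M' v = piProj M v ≫ f v :=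
  piLift_piProj _ v

/-- The inclusion of a factor (extension by zero). -/
def piIncl [DecidableEq ι] (M : ι → Rep.{0} k G) (v : ι) : M v ⟶ piRep M :=
  Rep.ofHom (ρ := (M v).ρ) (σ := piRepresentation M)
    { toLinearMap := LinearMap.single k (fun v => (M v).V) v
      isIntertwining' := fun g => LinearMap.ext fun x => funext fun w => by
        show (Pi.single v ((M v).ρ g x) : ∀ v, (M v).V) w = (M w).ρ g ((Pi.single v x : ∀ v, (M v).V) w)
        by_cases h : w = v
        · subst h
          simp
        · simp [Pi.single_eq_of_ne h] }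

lemma piIncl_apply [DecidableEq ι] (M : ι → Rep.{0} k G) (v : ι) (x : (M v).V) :
    ((piIncl M v).hom x : ∀ v, (M v).V) = Pi.single v x := rfl

lemma piIncl_piProj_self [DecidableEq ι] (M : ι → Rep.{0} k G) (v : ι) :
    piIncl M v ≫ piProj M v = 𝟙 (M v) := by
  apply Rep.hom_ext
  apply Representation.IntertwiningMap.ext
  refine LinearMap.ext fun x => ?_
  show (Pi.single v x : ∀ v, (M v).V) v = x
  simp

lemma piIncl_piProj_of_ne [DecidableEq ι] (M : ι → Rep.{0} k G) {v w : ι} (h : w ≠ v) :
    piIncl M v ≫ piProj M w = 0 := by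
  apply Rep.hom_ext
  apply Representation.IntertwiningMap.ext
  refine LinearMap.ext fun x => ?_
  show (Pi.single v x : ∀ v, (M v).V) w = 0
  simp [Pi.single_eq_of_ne h]

lemma sum_piIncl_piProj [DecidableEq ι] [Fintype ι] (M : ι → Rep.{0} k G) (x : ∀ v, (M v).V) :
    ∑ v, ((piIncl M v).hom ((piProj M v).hom (x : (piRep M).V)) : ∀ v, (M v).V) = x :=
  Finset.univ_sum_single x

variable (𝓛 : LevelStructure G)

/-- A finite family of levels has a common lower bound among the levels. -/
lemma exists_level_le_forall [Finite ι] (N : ι → Subgroup G) (hN : ∀ v, N v ∈ 𝓛.levels) :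
    ∃ N₀ ∈ 𝓛.levels, ∀ v, N₀ ≤ N v := by
  classical
  have := Fintype.ofFinite ι
  have key : ∀ T : Finset ι, ∃ N₀ ∈ 𝓛.levels, ∀ v ∈ T, N₀ ≤ N v := by
    intro T
    induction T using Finset.induction_on with
    | empty =>
      obtain ⟨N₀, hN₀⟩ := 𝓛.nonempty
      exact ⟨N₀, hN₀, fun v hv => absurd hv (Finset.notMem_empty v)⟩
    | insert a T _ ih =>
      obtain ⟨N₀, hN₀, h⟩ := ih
      obtain ⟨N₁, hN₁, hle⟩ := 𝓛.directed N₀ hN₀ (N a) (hN a)
      refine ⟨N₁, hN₁, fun v hv => ?_⟩
      rcases Finset.mem_insert.1 hv with rfl | hvT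
      · exact hle.trans inf_le_right
      · exact (hle.trans inf_le_left).trans (h v hvT)
  obtain ⟨N₀, hN₀, h⟩ := key Finset.univ
  exact ⟨N₀, hN₀, fun v => h v (Finset.mem_univ v)⟩

/-- A finite product of discrete representations is discrete. -/
theorem isDiscrete_piRep [Finite ι] {M : ι → Rep.{0} k G} (h : ∀ v, 𝓛.IsDiscrete (M v)) :
    𝓛.IsDiscrete (piRep M) := by
  intro x
  choose N hN hfix using fun v => h v ((x : ∀ v, (M v).V) v)
  obtain ⟨N₀, hN₀, hle⟩ := exists_level_le_forall 𝓛 N hN
  refine ⟨N₀, hN₀, fun n hn => ?_⟩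
  funext v
  exact hfix v n (hle v hn)

end PiRep

/-! ### The abstract product lemma -/

section Product

variable {k G ι : Type} [CommRing k] [Group G] (𝓛 : LevelStructure G)
  {M : Rep.{0} k G} {Mv : ι → Rep.{0} k G} (pv : ∀ v, M ⟶ Mv v)
  (hinj : ∀ m : M.V, (∀ v, (pv v).hom m = 0) → m = 0)
  (hsurj : ∀ m : (∀ v, (Mv v).V), ∃ m₀ : M.V, ∀ v, (pv v).hom m₀ = m v)

include hinj in
omit 𝓛 in
lemma eq_of_forall_pv_eq {m m' : M.V} (h : ∀ v, (pv v).hom m = (pv v).hom m') : m = m' := by
  rw [← sub_eq_zero]
  apply hinj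
  intro v
  rw [map_sub, h v, sub_self]

include hinj hsurj in
omit 𝓛 in
/-- `H⁰` commutes with products. -/
theorem H0_pi_bijective :
    Function.Bijective (fun x : LevelStructure.H0 M => fun v => H50.coeffH0 (pv v) x) := by
  constructor
  · intro x y hxy
    apply Subtype.ext
    apply eq_of_forall_pv_eq pv hinj
    intro v
    exact congrArg Subtype.val (congrFun hxy v)
  · intro a
    obtain ⟨m₀, hm₀⟩ := hsurj fun v => (a v).1
    refine ⟨⟨m₀, fun g => ?_⟩, funext fun v => Subtype.ext (hm₀ v)⟩
    apply eq_of_forall_pv_eq pv hinj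
    intro v
    rw [Rep.hom_comm_apply, hm₀ v]
    exact (a v).2 g

include hinj hsurj in
/-- Level `H¹` commutes with finite products. -/
theorem H1_pi_bijective [Finite ι] :
    Function.Bijective (fun x : 𝓛.H1 M => fun v => H50.coeffH1 𝓛 (pv v) x) := by
  constructor
  · -- injectivity: a cocycle all of whose components are coboundaries is a coboundary
    have key : ∀ x : 𝓛.H1 M, (∀ v, H50.coeffH1 𝓛 (pv v) x = 0) → x = 0 := by
      intro x hx
      induction x using Submodule.Quotient.induction_on with
      | H c =>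
        have hv : ∀ v, ∃ a : (Mv v).V, (groupCohomology.d₀₁ (Mv v)).hom a =
            H50.pull₁ (MonoidHom.id G) (pv v).hom.toLinearMap c.1 := by
          intro v
          have h0 : H50.coeffH1 𝓛 (pv v) (Submodule.Quotient.mk c) = 0 := hx v
          have h1 : (Submodule.Quotient.mk (H50.mapZ1 𝓛 𝓛 (H50.isCont_id 𝓛)
              (H50.isEquivariant_hom (pv v)) c) : 𝓛.H1 (Mv v)) = 0 := h0
          rw [Submodule.Quotient.mk_eq_zero] at h1
          exact h1
        choose a ha using hv
        obtain ⟨m₀, hm₀⟩ := hsurj a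
        rw [Submodule.Quotient.mk_eq_zero]
        refine ⟨m₀, ?_⟩
        funext g
        apply eq_of_forall_pv_eq pv hinj
        intro v
        have := congrFun (ha v) g
        rw [groupCohomology.d₀₁_hom_apply] at this ⊢
        rw [map_sub, Rep.hom_comm_apply, hm₀ v, this]
        rfl
    intro x y hxy
    rw [← sub_eq_zero]
    apply key
    intro v
    rw [map_sub, show H50.coeffH1 𝓛 (pv v) x = H50.coeffH1 𝓛 (pv v) y from congrFun hxy v,
      sub_self]
  · -- surjectivity: glue cocycles componentwise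
    intro y
    choose c hc using fun v => Submodule.mkQ_surjective _ (y v)
    choose s hs using hsurj
    let cc : G → M.V := fun g => s fun v => (c v).1 g
    have hcc : ∀ v g, (pv v).hom (cc g) = (c v).1 g := fun v g => hs _ v
    have hmem : cc ∈ 𝓛.cocycles₁ M := by
      refine ⟨?_, ?_⟩
      · show cc ∈ groupCohomology.cocycles₁ M
        rw [groupCohomology.mem_cocycles₁_iff]
        intro g h
        apply eq_of_forall_pv_eq pv hinj
        intro v
        rw [map_add, Rep.hom_comm_apply, hcc, hcc, hcc]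
        exact (groupCohomology.mem_cocycles₁_iff _).1 (c v).2.1 g h
      · choose N hN hconst using fun v => (c v).2.2
        obtain ⟨N₀, hN₀, hle⟩ := exists_level_le_forall 𝓛 N hN
        refine ⟨N₀, hN₀, fun g t ht => ?_⟩
        apply eq_of_forall_pv_eq pv hinj
        intro v
        rw [hcc, hcc]
        exact hconst v g t (hle v ht)
    refine ⟨Submodule.Quotient.mk ⟨cc, hmem⟩, funext fun v => ?_⟩
    rw [← hc v]
    show (Submodule.Quotient.mk (H50.mapZ1 𝓛 𝓛 (H50.isCont_id 𝓛)
      (H50.isEquivariant_hom (pv v)) ⟨cc, hmem⟩) : 𝓛.H1 (Mv v)) = _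
    congr 1
    apply Subtype.ext
    funext g
    exact hcc v g

end Product

/-! ### Products of divisible envelopes -/

section Envelope

variable {k G ι : Type} [CommRing k] [Group G] {𝓛 : LevelStructure G} {m : ℕ}

/-- The product of a finite family of divisible envelopes is a divisible envelope of the
product. -/
def envelopePi [Finite ι] {N : ι → Rep.{0} k G} (E : ∀ v, H36.DivEnvelope 𝓛 m (N v)) :
    H36.DivEnvelope 𝓛 m (piRep N) where
  I := piRep fun v => (E v).I
  Q := piRep fun v => (E v).Q
  ι := piMap fun v => (E v).ι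
  π := piMap fun v => (E v).π
  ι_injective := by
    intro x y hxy
    funext v
    exact (E v).ι_injective (congrFun hxy v)
  π_surjective := by
    intro q
    choose x hx using fun v => (E v).π_surjective ((q : ∀ v, ((E v).Q).V) v)
    exact ⟨x, funext hx⟩
  exact := by
    intro x
    constructor
    · intro hx
      have hv : ∀ v, ∃ c : (N v).V, (E v).ι.hom c = (x : ∀ v, ((E v).I).V) v :=
        fun v => ((E v).exact _).1 (congrFun hx v)
      choose c hc using hv
      exact ⟨c, funext hc⟩
    · rintro ⟨c, rfl⟩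
      funext v
      exact ((E v).exact _).2 ⟨(c : ∀ v, (N v).V) v, rfl⟩
  discrete := isDiscrete_piRep 𝓛 fun v => (E v).discrete
  divisible := by
    intro x
    choose y hy using fun v => (E v).divisible ((x : ∀ v, ((E v).I).V) v)
    exact ⟨y, funext hy⟩

@[simp] lemma envelopePi_I [Finite ι] {N : ι → Rep.{0} k G}
    (E : ∀ v, H36.DivEnvelope 𝓛 m (N v)) : (envelopePi E).I = piRep fun v => (E v).I := rfl

@[simp] lemma envelopePi_Q [Finite ι] {N : ι → Rep.{0} k G}
    (E : ∀ v, H36.DivEnvelope 𝓛 m (N v)) : (envelopePi E).Q = piRep fun v => (E v).Q := rfl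

lemma envelopePi_ι [Finite ι] {N : ι → Rep.{0} k G}
    (E : ∀ v, H36.DivEnvelope 𝓛 m (N v)) : (envelopePi E).ι = piMap fun v => (E v).ι := rfl

lemma envelopePi_π [Finite ι] {N : ι → Rep.{0} k G}
    (E : ∀ v, H36.DivEnvelope 𝓛 m (N v)) : (envelopePi E).π = piMap fun v => (E v).π := rfl

end Envelope

end Fermat.Agent.CFT.H94
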