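import Fermat.Agent.CFT.H94_PiRep
import Fermat.Agent.CFT.H94_PTSegment
import Fermat.Agent.CFT.H91_WModel
import Fermat.Agent.CFT.H36_Envelope3

/-!
# CFT / Layer D4 / package D4-PI, slice 2 : products and the `W`-model

A family `pv v : M ⟶ Mv v` is a *product cone* if it is jointly injective and jointly surjective
(`IsProductCone`).  This is stable under

* `H36.torsionMap p` (`IsProductCone.torsion`),
* `homRepMap X` (`IsProductCone.homRep`),

and it holds for `piProj`.  Consequently, for a product cone of `W`-data (maps `a v`, `b v` on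
`Vm`, `W` commuting with `d`), `T¹`, `T²`, `T³(numerators)` of the total datum are the products
of those of the factors: `T1_pi_bijective`, `T2_pi_bijective`.  In particular this applies to the
`W`-datum of `envelopePi E`.
-/

set_option autoImplicit false

noncomputable section

open CategoryTheory

namespace Fermat.Agent.CFT.H94

open Fermat.Agent.CFT

/-! ### Product cones -/

section Cone

variable {k G ι : Type} [CommRing k] [Group G]

/-- A family of maps `pv v : M ⟶ Mv v` exhibiting `M` as the product of the `Mv v`: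
jointly injective and jointly surjective. -/
structure IsProductCone {M : Rep.{0} k G} {Mv : ι → Rep.{0} k G} (pv : ∀ v, M ⟶ Mv v) : Prop where
  inj : ∀ m : M.V, (∀ v, (pv v).hom m = 0) → m = 0
  surj : ∀ m : (∀ v, (Mv v).V), ∃ m₀ : M.V, ∀ v, (pv v).hom m₀ = m v

theorem isProductCone_piProj (M : ι → Rep.{0} k G) : IsProductCone (piProj M) where
  inj _ h := funext h
  surj m := ⟨m, fun _ => rfl⟩

variable {M : Rep.{0} k G} {Mv : ι → Rep.{0} k G} {pv : ∀ v, M ⟶ Mv v}

/-- The linear equivalence `M ≃ Π_v Mv v` of a product cone. -/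
def IsProductCone.equiv (h : IsProductCone pv) : M.V ≃ₗ[k] ∀ v, (Mv v).V :=
  LinearEquiv.ofBijective (LinearMap.pi fun v => (pv v).hom.toLinearMap)
    ⟨by
      rw [← LinearMap.ker_eq_bot, LinearMap.ker_eq_bot']
      intro m hm
      exact h.inj m fun v => congrFun hm v,
     fun m => by
      obtain ⟨m₀, hm₀⟩ := h.surj m
      exact ⟨m₀, funext hm₀⟩⟩

lemma IsProductCone.equiv_apply (h : IsProductCone pv) (m : M.V) (v : ι) :
    h.equiv m v = (pv v).hom m := rfl

lemma IsProductCone.pv_equiv_symm (h : IsProductCone pv) (m : ∀ v, (Mv v).V) (v : ι) :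
    (pv v).hom (h.equiv.symm m) = m v := by
  have := congrFun (h.equiv.apply_symm_apply m) v
  exact this

/-- Product cones are preserved by `p`-torsion. -/
theorem IsProductCone.torsion (h : IsProductCone pv) (p : ℕ) :
    IsProductCone fun v => H36.torsionMap p (pv v) where
  inj m hm := by
    apply Subtype.ext
    apply h.inj
    intro v
    exact congrArg (fun z : H36.torsionSub p (Mv v).V => z.1) (hm v)
  surj m := by
    obtain ⟨m₀, hm₀⟩ := h.surj fun v => (show H36.torsionSub p (Mv v).V from m v).1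
    have hp : p • m₀ = 0 := by
      apply h.inj
      intro v
      rw [map_nsmul, hm₀ v]
      exact (show H36.torsionSub p (Mv v).V from m v).2
    exact ⟨(⟨m₀, hp⟩ : H36.torsionSub p M.V), fun v => Subtype.ext (hm₀ v)⟩

/-- Product cones are preserved by `Hom(X, -)`. -/
theorem IsProductCone.homRep (h : IsProductCone pv) (X : Rep.{0} k G) :
    IsProductCone fun v => homRepMap X (pv v) where
  inj f hf := by
    refine LinearMap.ext fun x => h.inj _ fun v => ?_
    exact LinearMap.congr_fun (hf v) x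
  surj f := by
    refine ⟨h.equiv.symm.toLinearMap ∘ₗ LinearMap.pi fun v => (f v : X.V →ₗ[k] (Mv v).V),
      fun v => LinearMap.ext fun x => ?_⟩
    exact h.pv_equiv_symm _ v

variable (𝓛 : LevelStructure G)

theorem IsProductCone.H0_bijective (h : IsProductCone pv) :
    Function.Bijective (fun x : LevelStructure.H0 M => fun v => H50.coeffH0 (pv v) x) :=
  H0_pi_bijective pv h.inj h.surj

theorem IsProductCone.H1_bijective (h : IsProductCone pv) [Finite ι] :
    Function.Bijective (fun x : 𝓛.H1 M => fun v => H50.coeffH1 𝓛 (pv v) x) :=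
  H1_pi_bijective 𝓛 pv h.inj h.surj

end Cone

/-! ### Quotients by ranges commute with products (linear algebra) -/

section Quot

variable {k : Type*} [CommRing k] {ι : Type*}
variable {V W : Type*} [AddCommGroup V] [Module k V] [AddCommGroup W] [Module k W]
variable {Vv Wv : ι → Type*} [∀ v, AddCommGroup (Vv v)] [∀ v, Module k (Vv v)]
  [∀ v, AddCommGroup (Wv v)] [∀ v, Module k (Wv v)]

/-- If `V → Π Vv` is onto and `W → Π Wv` is bijective, compatibly with `d`, `dv`, then
`W / d V → Π_v Wv / dv Vv` is bijective. -/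
theorem t1Map_pi_bijective (d : V →ₗ[k] W) (dv : ∀ v, Vv v →ₗ[k] Wv v)
    (a : ∀ v, V →ₗ[k] Vv v) (b : ∀ v, W →ₗ[k] Wv v)
    (hsq : ∀ v x, b v (d x) = dv v (a v x))
    (ha : ∀ x : (∀ v, Vv v), ∃ x₀ : V, ∀ v, a v x₀ = x v)
    (hb_inj : ∀ w : W, (∀ v, b v w = 0) → w = 0)
    (hb_surj : ∀ w : (∀ v, Wv v), ∃ w₀ : W, ∀ v, b v w₀ = w v) :
    Function.Bijective (fun t : W ⧸ LinearMap.range d =>
      fun v => t1Map d (dv v) (a v) (b v) (hsq v) t) := by
  constructor
  · have key : ∀ t : W ⧸ LinearMap.range d,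
        (∀ v, t1Map d (dv v) (a v) (b v) (hsq v) t = 0) → t = 0 := by
      intro t ht
      obtain ⟨w, rfl⟩ := Submodule.mkQ_surjective _ t
      have hv : ∀ v, ∃ x : Vv v, dv v x = b v w := by
        intro v
        have := ht v
        rw [Submodule.mkQ_apply, t1Map_mk, Submodule.Quotient.mk_eq_zero] at this
        exact this
      choose x hx using hv
      obtain ⟨x₀, hx₀⟩ := ha x
      rw [Submodule.mkQ_apply, Submodule.Quotient.mk_eq_zero]
      refine ⟨x₀, ?_⟩
      rw [← sub_eq_zero]
      apply hb_inj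
      intro v
      rw [map_sub, hsq, hx₀, hx, sub_self]
    intro t t' htt'
    rw [← sub_eq_zero]
    apply key
    intro v
    have := congrFun htt' v
    simp only at this
    rw [map_sub, this, sub_self]
  · intro y
    choose w hw using fun v => Submodule.mkQ_surjective _ (y v)
    obtain ⟨w₀, hw₀⟩ := hb_surj w
    refine ⟨Submodule.Quotient.mk w₀, funext fun v => ?_⟩
    simp only [t1Map_mk, hw₀ v]
    exact hw v

end Quot

/-! ### `T¹`, `T²` of a product of `W`-data -/

section WData

variable {p : ℕ} [Fact p.Prime] {G ι : Type} [Group G] {𝓛 : LevelStructure G}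
  (𝒟 : WDatum p 𝓛) (𝒟v : ι → WDatum p 𝓛)
  (a : ∀ v, 𝒟.Vm ⟶ (𝒟v v).Vm) (b : ∀ v, 𝒟.W ⟶ (𝒟v v).W)
  (hsq : ∀ v x, (b v).hom (𝒟.d.hom x) = (𝒟v v).d.hom ((a v).hom x))
  (X : Rep.{0} (ZMod p) G)

/-- The map `T¹(X; 𝒟) → T¹(X; 𝒟v v)` induced by a morphism of `W`-data (same group). -/
def t1Coeff (v : ι) : 𝒟.T1 X →ₗ[ZMod p] (𝒟v v).T1 X :=
  t1Map (H50.coeffH0 (homRepMap X 𝒟.d)) (H50.coeffH0 (homRepMap X (𝒟v v).d))
    (H50.coeffH0 (homRepMap X (a v))) (H50.coeffH0 (homRepMap X (b v)))
    (fun f => Subtype.ext (LinearMap.ext fun x => hsq v (f.1 x)))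

lemma t1Coeff_mk (v : ι) (j : 𝒟.T1num X) :
    t1Coeff 𝒟 𝒟v a b hsq X v (Submodule.Quotient.mk j) =
      Submodule.Quotient.mk (H50.coeffH0 (homRepMap X (b v)) j) := rfl

/-- `T¹` of a product of `W`-data is the product of the `T¹`. -/
theorem T1_pi_bijective (ha : IsProductCone a) (hb : IsProductCone b) :
    Function.Bijective (fun t : 𝒟.T1 X => fun v => t1Coeff 𝒟 𝒟v a b hsq X v t) := by
  have hA := (ha.homRep X).H0_bijective
  have hB := (hb.homRep X).H0_bijective
  refine t1Map_pi_bijective (H50.coeffH0 (homRepMap X 𝒟.d))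
    (fun v => H50.coeffH0 (homRepMap X (𝒟v v).d))
    (fun v => H50.coeffH0 (homRepMap X (a v))) (fun v => H50.coeffH0 (homRepMap X (b v)))
    (fun v f => Subtype.ext (LinearMap.ext fun x => hsq v (f.1 x))) ?_ ?_ ?_
  · intro x
    obtain ⟨x₀, hx₀⟩ := hA.2 x
    exact ⟨x₀, fun v => congrFun hx₀ v⟩
  · intro w hw
    apply hB.1
    funext v
    simp only [hw v, map_zero]
  · intro w
    obtain ⟨w₀, hw₀⟩ := hB.2 w
    exact ⟨w₀, fun v => congrFun hw₀ v⟩

/-- `T²` of a finite product of `W`-data is the product of the `T²`. -/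
theorem T2_pi_bijective [Finite ι] (hb : IsProductCone b) :
    Function.Bijective (fun t : 𝒟.T2 X =>
      fun v => (H50.coeffH1 𝓛 (homRepMap X (b v)) t : (𝒟v v).T2 X)) :=
  (hb.homRep X).H1_bijective 𝓛

end WData

/-! ### The `W`-datum of a product of envelopes -/

section EnvelopePi

variable {p : ℕ} [Fact p.Prime] {G ι : Type} [Group G] {𝓛 : LevelStructure G} [Finite ι]
  {N : ι → Rep.{0} ℤ G} (E : ∀ v, H36.DivEnvelope 𝓛 p (N v))

/-- The projection `Vm(Π E) → Vm(E v)`. -/
def envelopePiVm (v : ι) : (envelopePi E).wDatum.Vm ⟶ (E v).wDatum.Vm :=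
  H36.torsionMap p (piProj (fun v => (E v).I) v)

/-- The projection `W(Π E) → W(E v)`. -/
def envelopePiW (v : ι) : (envelopePi E).wDatum.W ⟶ (E v).wDatum.W :=
  H36.torsionMap p (piProj (fun v => (E v).Q) v)

lemma envelopePi_sq (v : ι) (x : (envelopePi E).wDatum.Vm.V) :
    (envelopePiW E v).hom ((envelopePi E).wDatum.d.hom x) =
      (E v).wDatum.d.hom ((envelopePiVm E v).hom x) := rfl

theorem isProductCone_envelopePiVm : IsProductCone (envelopePiVm E) :=
  (isProductCone_piProj fun v => (E v).I).torsion p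

theorem isProductCone_envelopePiW : IsProductCone (envelopePiW E) :=
  (isProductCone_piProj fun v => (E v).Q).torsion p

/-- `T¹(X; Π_v E v) = Π_v T¹(X; E v)`. -/
theorem envelopePi_T1_bijective (X : Rep.{0} (ZMod p) G) :
    Function.Bijective (fun t : (envelopePi E).wDatum.T1 X =>
      fun v => t1Coeff (envelopePi E).wDatum (fun v => (E v).wDatum) (envelopePiVm E)
        (envelopePiW E) (envelopePi_sq E) X v t) :=
  T1_pi_bijective _ _ _ _ _ X (isProductCone_envelopePiVm E) (isProductCone_envelopePiW E)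

/-- `T²(X; Π_v E v) = Π_v T²(X; E v)`. -/
theorem envelopePi_T2_bijective (X : Rep.{0} (ZMod p) G) :
    Function.Bijective (fun t : (envelopePi E).wDatum.T2 X =>
      fun v => (H50.coeffH1 𝓛 (homRepMap X (envelopePiW E v)) t : (E v).wDatum.T2 X)) :=
  T2_pi_bijective _ _ _ X (isProductCone_envelopePiW E)

end EnvelopePi

end Fermat.Agent.CFT.H94
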