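import Fermat.Agent.CFT.H94_PTLocal
import Fermat.Agent.CFT.H87_ShaDict

/-!
# Glue: `H94.ShaL1/ShaL2` versus `H87.ShaL1/ShaL2` for `(G_ℚ, levelsS S)`

For `ι := ↥S`, `D q := primeLocalGaloisGroup q.1`, `φ q := primeLocalToGlobal q.1` the abstract
Tate–Shafarevich groups of `H94_PTAbstract` (`⨅ q, ker (LevelStructure.resHn ..)`) are the groups
`H87.ShaL1/ShaL2 S M 𝓛loc hloc` (`ker (LinearMap.pi fun q => H50.resHn ..)`) of the bridge to the
frozen statement, as submodules.  `exists_pairing_H87_of_H94` transports a nondegenerate pairing.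
-/

set_option autoImplicit false

open CategoryTheory Module groupCohomology ExtCitation

namespace Fermat.Agent.CFT.H94

open Fermat.Agent.CFT

local notation "GQ" => (AlgebraicClosure ℚ ≃ₐ[ℚ] AlgebraicClosure ℚ)

section Glue

variable (S : Finset Nat.Primes) {k : Type} [CommRing k]
  (𝓛loc : ∀ q : ↥S, LevelStructure (primeLocalGaloisGroup q.1))
  (hloc : ∀ q : ↥S, H50.IsCont (𝓛loc q) (H87.levelsS S) (primeLocalToGlobal q.1))

/-- `Ш¹`: the abstract group of `H94_PTAbstract` is `H87.ShaL1`. -/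
theorem shaL1_eq_H87 (M : Rep.{0} k GQ) :
    ShaL1 (H87.levelsS S) 𝓛loc (fun q : ↥S => primeLocalToGlobal q.1) hloc M =
      H87.ShaL1 S M 𝓛loc hloc := by
  ext y
  rw [H87.mem_ShaL1_iff]
  simp only [ShaL1, Submodule.mem_iInf, LinearMap.mem_ker]
  refine forall_congr' fun q => ?_
  have e := levelResH1_eq (primeLocalToGlobal q.1) (hloc q) M y
  exact ⟨fun h => e.symm.trans h, fun h => e.trans h⟩

/-- `Ш²`: the abstract group of `H94_PTAbstract` is `H87.ShaL2`. -/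
theorem shaL2_eq_H87 (M : Rep.{0} k GQ) :
    ShaL2 (H87.levelsS S) 𝓛loc (fun q : ↥S => primeLocalToGlobal q.1) hloc M =
      H87.ShaL2 S M 𝓛loc hloc := by
  ext y
  rw [H87.mem_ShaL2_iff]
  simp only [ShaL2, Submodule.mem_iInf, LinearMap.mem_ker]
  refine forall_congr' fun q => ?_
  have e := levelResH2_eq (primeLocalToGlobal q.1) (hloc q) M y
  exact ⟨fun h => e.symm.trans h, fun h => e.trans h⟩

/-- Transport of a two-sided nondegenerate pairing from the `H94` groups to the `H87` groups. -/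
theorem exists_pairing_H87_of_H94 {K : Type} [Field K] (X M : Rep.{0} K GQ)
    (h : ∃ B : ShaL1 (H87.levelsS S) 𝓛loc (fun q : ↥S => primeLocalToGlobal q.1) hloc X →ₗ[K]
        ShaL2 (H87.levelsS S) 𝓛loc (fun q : ↥S => primeLocalToGlobal q.1) hloc M →ₗ[K] K,
      (∀ y, (∀ x, B y x = 0) → y = 0) ∧ (∀ x, (∀ y, B y x = 0) → x = 0)) :
    ∃ B : H87.ShaL1 S X 𝓛loc hloc →ₗ[K] H87.ShaL2 S M 𝓛loc hloc →ₗ[K] K,
      (∀ y, (∀ x, B y x = 0) → y = 0) ∧ (∀ x, (∀ y, B y x = 0) → x = 0) :=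
  H35.exists_pairing_of_equiv
    (LinearEquiv.ofEq _ _ (shaL1_eq_H87 S 𝓛loc hloc X).symm)
    (LinearEquiv.ofEq _ _ (shaL2_eq_H87 S 𝓛loc hloc M).symm) h

end Glue

end Fermat.Agent.CFT.H94
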