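import Mathlib
import Fermat.Agent.CFT.H95_FinLevSub

/-!
# CFT / D0-FINLEV-SUB, complements

* `map_congr'` : `groupCohomology.map` only depends on the underlying maps.
* `subInf_comp`, `subInf_comp_apply` : functoriality of the transition maps `subInf`.
* `subInf_self_apply` : `subInf A U N N le_rfl n = id`.
* cofinal forms of (S3)/(S4): `exists_infLevSub_n_eq_of_cofinal`, `exists_subInf_eq_zero_n_of_cofinal`
  for a family `good` of normal levels which is cofinal (`∀ N₀ ∈ 𝓛.levels, ∃ N ∈ good, N ≤ N₀`).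
-/

set_option autoImplicit false
set_option linter.style.haveILetI false
set_option linter.unusedSectionVars false

noncomputable section

open CategoryTheory groupCohomology

namespace Fermat.Agent.CFT.H95

open Fermat.Agent.CFT

variable {k : Type} [CommRing k] {H : Type} [Group H]

theorem map_congr' {G G' : Type} [Group G] [Group G'] {A : Rep.{0} k G} {B : Rep.{0} k G'}
    {f f' : G' →* G} (hf : f = f') (φ : Rep.res f A ⟶ B) (φ' : Rep.res f' A ⟶ B)
    (hφ : ∀ a : A.V, φ.hom a = φ'.hom a) (n : ℕ) :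
    groupCohomology.map f φ n = groupCohomology.map f' φ' n := by
  subst hf
  have : φ = φ' := by
    ext a
    exact hφ a
  rw [this]

section

variable (A : Rep.{0} k H) (U : Subgroup H) (N N' N'' : Subgroup H) [N.Normal] [N'.Normal]
  [N''.Normal]

theorem subInf_comp (h : N' ≤ N) (h' : N'' ≤ N') (n : ℕ) :
    subInf A U N N' h n ≫ subInf A U N' N'' h' n = subInf A U N N'' (h'.trans h) n := by
  unfold subInf
  rw [← groupCohomology.map_comp]
  apply map_congr'
  · ext ⟨x, hx⟩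
    induction x using QuotientGroup.induction_on with
    | H g => rfl
  · intro a
    rfl

theorem subInf_comp_apply (h : N' ≤ N) (h' : N'' ≤ N') (n : ℕ)
    (y : groupCohomology (subRep A U N) n) :
    (subInf A U N' N'' h' n).hom ((subInf A U N N' h n).hom y) =
      (subInf A U N N'' (h'.trans h) n).hom y := by
  rw [← subInf_comp A U N N' N'' h h' n]
  rfl

theorem subQmap_self : subQmap U N N le_rfl = MonoidHom.id _ := by
  ext ⟨x, hx⟩
  induction x using QuotientGroup.induction_on with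
  | H g => rfl

theorem subInf_self (n : ℕ) : subInf A U N N le_rfl n = 𝟙 _ := by
  unfold subInf
  rw [← groupCohomology.map_id]
  apply map_congr' (subQmap_self U N)
  intro a
  rfl

theorem subInf_self_apply (n : ℕ) (y : groupCohomology (subRep A U N) n) :
    (subInf A U N N le_rfl n).hom y = y := by
  rw [subInf_self]
  rfl

end

/-! ### cofinal families of normal levels -/

section Cofinal

variable {𝓛 : LevelStructure H} {A : Rep.{0} k H} (U : Subgroup H)
  (good : Set (Subgroup H)) (good_level : ∀ N ∈ good, N ∈ 𝓛.levels)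
  (good_normal : ∀ N ∈ good, N.Normal) (cofinal : ∀ N₀ ∈ 𝓛.levels, ∃ N ∈ good, N ≤ N₀)

include good_level good_normal cofinal

theorem exists_infLevSub₁_eq_of_cofinal (hA : 𝓛.IsDiscrete A)
    (x : (𝓛.restrict U).H1 (Rep.res U.subtype A)) {N₀ : Subgroup H} (h₀ : N₀ ∈ 𝓛.levels) :
    ∃ (N : Subgroup H) (hN : N ∈ good) (_ : N.Normal), N ≤ N₀ ∧
      ∃ y : groupCohomology (subRep A U N) 1,
        infLevSub₁ 𝓛 A U N (good_level N hN) y = x := by
  obtain ⟨N₁, h₁, hnor₁, hle₁, y, rfl⟩ := exists_infLevSub₁_eq U hA x h₀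
  obtain ⟨N, hN, hle⟩ := cofinal N₁ h₁
  haveI := good_normal N hN
  exact ⟨N, hN, inferInstance, hle.trans hle₁, (subInf A U N₁ N hle 1).hom y,
    infLevSub₁_subInf 𝓛 A U N₁ h₁ N hle (good_level N hN) y⟩

theorem exists_infLevSub₂_eq_of_cofinal (hA : 𝓛.IsDiscrete A)
    (x : (𝓛.restrict U).H2 (Rep.res U.subtype A)) {N₀ : Subgroup H} (h₀ : N₀ ∈ 𝓛.levels) :
    ∃ (N : Subgroup H) (hN : N ∈ good) (_ : N.Normal), N ≤ N₀ ∧
      ∃ y : groupCohomology (subRep A U N) 2,
        infLevSub₂ 𝓛 A U N (good_level N hN) y = x := by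
  obtain ⟨N₁, h₁, hnor₁, hle₁, y, rfl⟩ := exists_infLevSub₂_eq U hA x h₀
  obtain ⟨N, hN, hle⟩ := cofinal N₁ h₁
  haveI := good_normal N hN
  exact ⟨N, hN, inferInstance, hle.trans hle₁, (subInf A U N₁ N hle 2).hom y,
    infLevSub₂_subInf 𝓛 A U N₁ h₁ N hle (good_level N hN) y⟩

theorem exists_infLevSub₃_eq_of_cofinal (hA : 𝓛.IsDiscrete A)
    (x : (𝓛.restrict U).H3 (Rep.res U.subtype A)) {N₀ : Subgroup H} (h₀ : N₀ ∈ 𝓛.levels) :
    ∃ (N : Subgroup H) (hN : N ∈ good) (_ : N.Normal), N ≤ N₀ ∧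
      ∃ y : groupCohomology (subRep A U N) 3,
        infLevSub₃ 𝓛 A U N (good_level N hN) y = x := by
  obtain ⟨N₁, h₁, hnor₁, hle₁, y, rfl⟩ := exists_infLevSub₃_eq U hA x h₀
  obtain ⟨N, hN, hle⟩ := cofinal N₁ h₁
  haveI := good_normal N hN
  exact ⟨N, hN, inferInstance, hle.trans hle₁, (subInf A U N₁ N hle 3).hom y,
    infLevSub₃_subInf 𝓛 A U N₁ h₁ N hle (good_level N hN) y⟩

theorem exists_subInf_eq_zero₁_of_cofinal (hA : 𝓛.IsDiscrete A) {N : Subgroup H} [N.Normal]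
    (hN : N ∈ 𝓛.levels) (y : groupCohomology (subRep A U N) 1)
    (hy : infLevSub₁ 𝓛 A U N hN y = 0) :
    ∃ (N' : Subgroup H) (_ : N' ∈ good) (_ : N'.Normal) (h : N' ≤ N),
      (subInf A U N N' h 1).hom y = 0 := by
  obtain ⟨N₁, h₁, hnor₁, hle₁, h0⟩ := exists_subInf_eq_zero₁ U hA hN y hy
  obtain ⟨N', hN', hle⟩ := cofinal N₁ h₁
  haveI := good_normal N' hN'
  refine ⟨N', hN', inferInstance, hle.trans hle₁, ?_⟩
  rw [← subInf_comp_apply A U N N₁ N' hle₁ hle 1 y, h0, map_zero]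

theorem exists_subInf_eq_zero₂_of_cofinal (hA : 𝓛.IsDiscrete A) {N : Subgroup H} [N.Normal]
    (hN : N ∈ 𝓛.levels) (y : groupCohomology (subRep A U N) 2)
    (hy : infLevSub₂ 𝓛 A U N hN y = 0) :
    ∃ (N' : Subgroup H) (_ : N' ∈ good) (_ : N'.Normal) (h : N' ≤ N),
      (subInf A U N N' h 2).hom y = 0 := by
  obtain ⟨N₁, h₁, hnor₁, hle₁, h0⟩ := exists_subInf_eq_zero₂ U hA hN y hy
  obtain ⟨N', hN', hle⟩ := cofinal N₁ h₁
  haveI := good_normal N' hN'
  refine ⟨N', hN', inferInstance, hle.trans hle₁, ?_⟩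
  rw [← subInf_comp_apply A U N N₁ N' hle₁ hle 2 y, h0, map_zero]

theorem exists_subInf_eq_zero₃_of_cofinal (hA : 𝓛.IsDiscrete A) {N : Subgroup H} [N.Normal]
    (hN : N ∈ 𝓛.levels) (y : groupCohomology (subRep A U N) 3)
    (hy : infLevSub₃ 𝓛 A U N hN y = 0) :
    ∃ (N' : Subgroup H) (_ : N' ∈ good) (_ : N'.Normal) (h : N' ≤ N),
      (subInf A U N N' h 3).hom y = 0 := by
  obtain ⟨N₁, h₁, hnor₁, hle₁, h0⟩ := exists_subInf_eq_zero₃ U hA hN y hy
  obtain ⟨N', hN', hle⟩ := cofinal N₁ h₁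
  haveI := good_normal N' hN'
  refine ⟨N', hN', inferInstance, hle.trans hle₁, ?_⟩
  rw [← subInf_comp_apply A U N N₁ N' hle₁ hle 3 y, h0, map_zero]

end Cofinal

end Fermat.Agent.CFT.H95

end
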