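import Mathlib
import Fermat.Agent.CFT.H96_BridgeComplete

/-!
# CFT layer B, package B-BRIDGE: ramification data of `K/ℚ_q` in norm language

`exists_ramification_data`: `e * f = [K:ℚ_q]`, `resCard q K = q ^ f`, `‖q‖ = ‖ϖ‖ ^ e` for a
uniformizer `ϖ` (Skeleton3, B-UGLY input from the B-BRIDGE side, verbatim).
-/

set_option autoImplicit false
set_option linter.unusedSectionVars false
set_option linter.style.haveILetI false

open IsLocalRing

namespace Fermat.Agent.CFT.H96

open Fermat.Agent.CFT.Loc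

variable (q : ℕ) [Fact q.Prime]
variable (K : Type) [Field K] [Algebra ℚ_[q] K] [FiniteDimensional ℚ_[q] K]

/-- the element `q` of `O q K` -/
noncomputable def qO : O q K := ⟨((q : ℕ) : K), (nrm_natCast_q_lt_one q K).le⟩

theorem qO_coe : ((qO q K : O q K) : K) = ((q : ℕ) : K) := rfl

theorem qO_ne_zero : qO q K ≠ 0 := fun h => natCast_q_ne_zero q K (congrArg Subtype.val h)

theorem qO_eq_algebraMap : qO q K = @algebraMap ℤ_[q] (O q K) _ _ (algIntO q K) (q : ℤ_[q]) := by
  apply Subtype.ext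
  rw [algebraMap_algIntO_coe]
  simp [qO]

theorem map_maximalIdeal_eq_span :
    (maximalIdeal ℤ_[q]).map (@algebraMap ℤ_[q] (O q K) _ _ (algIntO q K)) =
      Ideal.span {qO q K} := by
  rw [PadicInt.maximalIdeal_eq_span_p, Ideal.map_span, Set.image_singleton, qO_eq_algebraMap]

/-- a uniformizer in norm language: every element of norm `< 1` has norm `≤ ‖ϖ‖` -/
theorem nrm_le_of_irreducible {ϖ : O q K} (hϖ : Irreducible ϖ) (x : K) (hx : nrm q K x < 1) :
    nrm q K x ≤ nrm q K (ϖ : K) := by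
  have hxm : (⟨x, hx.le⟩ : O q K) ∈ maximalIdeal (O q K) := (mem_maximalIdeal_iff q K).2 hx
  rw [hϖ.maximalIdeal_eq, Ideal.mem_span_singleton'] at hxm
  obtain ⟨y, hy⟩ := hxm
  have h : x = (y : K) * (ϖ : K) := by
    have := congrArg Subtype.val hy
    simpa using this.symm
  rw [h, nrm_mul]
  calc nrm q K (y : K) * nrm q K (ϖ : K) ≤ 1 * nrm q K (ϖ : K) :=
        mul_le_mul_of_nonneg_right y.2 (nrm_nonneg q _)
    _ = nrm q K (ϖ : K) := one_mul _

theorem nrm_lt_one_of_irreducible {ϖ : O q K} (hϖ : Irreducible ϖ) : nrm q K (ϖ : K) < 1 := by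
  rw [← mem_maximalIdeal_iff, hϖ.maximalIdeal_eq]
  exact Ideal.mem_span_singleton_self ϖ

theorem liesOver_maximalIdeal :
    @Ideal.LiesOver ℤ_[q] _ (O q K) _ (algIntO q K) (maximalIdeal (O q K))
      (maximalIdeal ℤ_[q]) := by
  letI := algIntO q K
  haveI := isLocalHom_algIntO q K
  constructor
  ext a
  rw [Ideal.under_def, Ideal.mem_comap, mem_maximalIdeal, mem_maximalIdeal, mem_nonunits_iff,
    mem_nonunits_iff]
  exact ⟨fun h h' => h (isUnit_of_map_unit _ a h'), fun h h' => h (h'.map _)⟩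

theorem primesOver_eq_singleton :
    @Ideal.primesOver ℤ_[q] _ (maximalIdeal ℤ_[q]) (O q K) _ (algIntO q K) =
      {maximalIdeal (O q K)} := by
  letI := algIntO q K
  ext P
  simp only [Ideal.primesOver, Set.mem_ofPred_eq, Set.mem_singleton_iff]
  constructor
  · rintro ⟨hP, hPo⟩
    have hP0 : P ≠ ⊥ := by
      intro h0
      have h1 : (qO q K) ∈ P := by
        have : (q : ℤ_[q]) ∈ maximalIdeal ℤ_[q] := by
          rw [PadicInt.maximalIdeal_eq_span_p]; exact Ideal.mem_span_singleton_self _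
        rw [hPo.over, Ideal.under_def, Ideal.mem_comap] at this
        rwa [qO_eq_algebraMap]
      rw [h0, Ideal.mem_bot] at h1
      exact qO_ne_zero q K h1
    have hmax : P.IsMaximal := hP.isMaximal hP0
    exact IsLocalRing.eq_maximalIdeal hmax
  · rintro rfl
    exact ⟨inferInstance, liesOver_maximalIdeal q K⟩

/-- `‖q‖ = ‖ϖ‖ ^ e` where `(q) = 𝔪 ^ e`. -/
theorem nrm_q_eq_pow {ϖ : O q K} (hϖ : Irreducible ϖ) {e : ℕ}
    (he : Ideal.span {qO q K} = maximalIdeal (O q K) ^ e) :
    nrm q K ((q : ℕ) : K) = nrm q K (ϖ : K) ^ e := by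
  rw [hϖ.maximalIdeal_eq, Ideal.span_singleton_pow, Ideal.span_singleton_eq_span_singleton] at he
  obtain ⟨u, hu⟩ := he
  have h1 : ((q : ℕ) : K) * ((u : O q K) : K) = (ϖ : K) ^ e := by
    have := congrArg Subtype.val hu
    simpa [qO] using this
  have h2 : nrm q K ((u : O q K) : K) = 1 := nrm_eq_one_of_isUnit q K u.isUnit
  have h3 := congrArg (nrm q K) h1
  rw [nrm_mul, h2, mul_one] at h3
  rw [h3]
  clear h1 h3 hu
  induction e with
  | zero => simp [nrm_one]
  | succ e ih => rw [pow_succ, pow_succ, nrm_mul, ih]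

/-- **Fundamental identity, ideal form**: `(q) = 𝔪 ^ e` in `O q K`, `resCard q K = q ^ f`,
`e * f = [K:ℚ_q]`. -/
theorem exists_ramification_ideal_data :
    ∃ (e f : ℕ), e * f = Module.finrank ℚ_[q] K ∧ resCard q K = q ^ f ∧
      Ideal.span {qO q K} = maximalIdeal (O q K) ^ e := by
  letI := algInt q K
  letI := algIntO q K
  haveI := isScalarTower_algInt q K
  haveI := isScalarTower_algIntO q K
  haveI := isIntegralClosure_O q K
  haveI := moduleFinite_O q K
  haveI := isLocalHom_algIntO q K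
  haveI := liesOver_maximalIdeal q K
  haveI : Module.IsTorsionFree ℤ_[q] K := by
    haveI : FaithfulSMul ℤ_[q] K := (faithfulSMul_iff_algebraMap_injective ℤ_[q] K).2
      ((algebraMap ℚ_[q] K).injective.comp (IsFractionRing.injective ℤ_[q] ℚ_[q]))
    infer_instance
  haveI : Module.IsTorsionFree ℤ_[q] (O q K) := IsIntegralClosure.isTorsionFree ℤ_[q] K
  set p := maximalIdeal ℤ_[q] with hp
  set P := maximalIdeal (O q K) with hP
  have hmap0 : p.map (algebraMap ℤ_[q] (O q K)) ≠ ⊥ := by
    rw [hp, map_maximalIdeal_eq_span, Ne, Ideal.span_singleton_eq_bot]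
    exact qO_ne_zero q K
  -- the sum formula
  haveI : Fintype (p.primesOver (O q K)) := by
    rw [hp, primesOver_eq_singleton]
    exact Fintype.ofFinite _
  have hsum := Ideal.sum_ramification_inertia_eq_finrank p (O q K)
  have hrank : Module.finrank ℤ_[q] (O q K) = Module.finrank ℚ_[q] K :=
    IsIntegralClosure.rank ℤ_[q] ℚ_[q] K (O q K)
  have hsingle : ∀ Q : p.primesOver (O q K), Q = ⟨P, by
      rw [hp, primesOver_eq_singleton]; rfl⟩ := by
    intro Q
    apply Subtype.ext
    have hall : ∀ I : Ideal (O q K), I ∈ Ideal.primesOver (maximalIdeal ℤ_[q]) (O q K) →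
        I = maximalIdeal (O q K) := by
      intro I hI
      rw [primesOver_eq_singleton] at hI
      exact hI
    exact hall Q.1 Q.2
  have hsum' : P.ramificationIdx ℤ_[q] * P.inertiaDeg ℤ_[q] = Module.finrank ℚ_[q] K := by
    rw [← hrank, ← hsum]
    rw [Finset.sum_eq_single (⟨P, by rw [hp, primesOver_eq_singleton]; rfl⟩ :
      p.primesOver (O q K))]
    · intro Q _ hQ
      exact absurd (hsingle Q) hQ
    · intro h
      exact absurd (Finset.mem_univ _) h
  -- ramification index in terms of ideals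
  obtain ⟨e, he⟩ : ∃ e : ℕ, Ideal.span {qO q K} = P ^ e := by
    have hall : ∀ (I : Ideal (O q K)), I ≠ ⊥ → ∃ n : ℕ, I = maximalIdeal (O q K) ^ n :=
      ((IsDiscreteValuationRing.TFAE (O q K) (not_isField_O q K)).out 0 6).mp
        (isDiscreteValuationRing_O q K)
    apply hall
    rw [Ne, Ideal.span_singleton_eq_bot]
    exact qO_ne_zero q K
  have hPne : P ≠ ⊥ := by
    rw [hP]
    exact (isField_iff_maximalIdeal_eq.not.mp (not_isField_O q K))
  have hram : P.ramificationIdx ℤ_[q] = e := by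
    rw [Ideal.IsDedekindDomain.ramificationIdx_eq_multiplicity p P hmap0, hp,
      map_maximalIdeal_eq_span, he]
    have hprime : Prime P := Ideal.prime_of_isPrime hPne inferInstance
    exact multiplicity_pow_self hprime.ne_zero hprime.not_isUnit e
  -- inertia degree in terms of cardinalities
  have hcard : resCard q K = q ^ P.inertiaDeg ℤ_[q] := by
    have h1 := Ideal.cardQuot_pow_inertiaDeg p P
    have h2 : p.cardQuot = q := by
      rw [Submodule.cardQuot_apply]
      exact (Nat.card_congr (PadicInt.residueField (p := q)).toEquiv).trans (Nat.card_zmod q)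
    rw [h2] at h1
    rw [h1, Submodule.cardQuot_apply]
    rfl
  exact ⟨e, P.inertiaDeg ℤ_[q], by rw [← hram, hsum'], hcard, he⟩

/-- **Fundamental identity in norm language** (Skeleton3 `exists_ramification_data`, verbatim). -/
theorem exists_ramification_data :
    ∃ (e f : ℕ) (ϖ : K), e * f = Module.finrank ℚ_[q] K ∧ resCard q K = q ^ f ∧
      nrm q K ϖ < 1 ∧ (∀ x : K, nrm q K x < 1 → nrm q K x ≤ nrm q K ϖ) ∧
      nrm q K (algebraMap ℚ_[q] K q) = nrm q K ϖ ^ e := by
  obtain ⟨e, f, hef, hcard, he⟩ := exists_ramification_ideal_data q K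
  obtain ⟨ϖ, hϖ⟩ := IsDiscreteValuationRing.exists_irreducible (O q K)
  refine ⟨e, f, (ϖ : K), hef, hcard, nrm_lt_one_of_irreducible q K hϖ,
    nrm_le_of_irreducible q K hϖ, ?_⟩
  have : algebraMap ℚ_[q] K (q : ℚ_[q]) = ((q : ℕ) : K) := by simp
  rw [this]
  exact nrm_q_eq_pow q K hϖ he

/-- `#(O/qO) = q ^ [K:ℚ_q]` -/
theorem card_quotient_span_qO :
    Nat.card (O q K ⧸ Ideal.span {qO q K}) = q ^ Module.finrank ℚ_[q] K := by
  obtain ⟨e, f, hef, hcard, he⟩ := exists_ramification_ideal_data q K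
  have hPne : maximalIdeal (O q K) ≠ ⊥ :=
    isField_iff_maximalIdeal_eq.not.mp (not_isField_O q K)
  rw [he, ← Submodule.cardQuot_apply, cardQuot_pow_of_prime hPne, Submodule.cardQuot_apply]
  change resCard q K ^ e = _
  rw [hcard, ← pow_mul, mul_comm, hef]

end Fermat.Agent.CFT.H96
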