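import Mathlib
import Fermat.Agent.CFT.H96_BridgeRamification

/-!
# CFT layer B, package B-BRIDGE: the relative bridge `Loc.O q K ⊆ Loc.O q L`

For a tower `ℚ_q ⊆ K ⊆ L` of finite extensions: `O q L` is the integral closure of `O q K` in
`L`, it is a finite `O q K`-module, and the inclusion is a local homomorphism.  With this the
ring-level (AKLB) engine applies to `A = O q K`, `B = O q L`.

Nothing here is a global instance: the algebra structures are `@[reducible] def`s.
-/

set_option autoImplicit false
set_option linter.unusedSectionVars false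
set_option linter.style.haveILetI false

open IsLocalRing

namespace Fermat.Agent.CFT.H96

open Fermat.Agent.CFT.Loc

variable (q : ℕ) [Fact q.Prime]
variable (K : Type) [Field K] [Algebra ℚ_[q] K] [FiniteDimensional ℚ_[q] K]
variable (L : Type) [Field L] [Algebra ℚ_[q] L] [FiniteDimensional ℚ_[q] L]
variable [Algebra K L] [IsScalarTower ℚ_[q] K L]

/-- the absolute value of `L` restricts to that of `K` (Skeleton2 `nrm_algebraMap_tower`) -/
theorem nrm_algebraMap_tower (x : K) : nrm q L (algebraMap K L x) = nrm q K x :=
  (spectralNorm.eq_of_tower (K := ℚ_[q]) (E := K) (L := L) x).symm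

theorem algebraMap_mem_O (x : O q K) : algebraMap K L (x : K) ∈ O q L := by
  rw [mem_O_iff, nrm_algebraMap_tower]
  exact x.2

/-- `O q K`-algebra structure on `O q L` -/
@[reducible] noncomputable def algOO : Algebra (O q K) (O q L) :=
  (RingHom.codRestrict ((algebraMap K L).comp (O q K).subtype) (O q L)
    (fun x => algebraMap_mem_O q K L x)).toAlgebra

/-- `O q K`-algebra structure on `L` -/
@[reducible] noncomputable def algOL : Algebra (O q K) L :=
  ((algebraMap K L).comp (O q K).subtype).toAlgebra

theorem algebraMap_algOO_coe (x : O q K) :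
    ((@algebraMap (O q K) (O q L) _ _ (algOO q K L) x : O q L) : L) = algebraMap K L (x : K) :=
  rfl

theorem algebraMap_algOL (x : O q K) :
    @algebraMap (O q K) L _ _ (algOL q K L) x = algebraMap K L (x : K) := rfl

theorem isScalarTower_OOL :
    @IsScalarTower (O q K) (O q L) L (algOO q K L).toSMul _ (algOL q K L).toSMul :=
  @IsScalarTower.of_algebraMap_eq (O q K) (O q L) L _ _ _ (algOO q K L) _ (algOL q K L)
    (fun _ => rfl)

theorem isScalarTower_OKL :
    @IsScalarTower (O q K) K L _ _ (algOL q K L).toSMul :=
  @IsScalarTower.of_algebraMap_eq (O q K) K L _ _ _ _ _ (algOL q K L) (fun _ => rfl)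

theorem isScalarTower_int_OK_L :
    @IsScalarTower ℤ_[q] (O q K) L (algIntO q K).toSMul (algOL q K L).toSMul
      (algInt q L).toSMul :=
  @IsScalarTower.of_algebraMap_eq ℤ_[q] (O q K) L _ _ _ (algIntO q K) (algOL q K L) (algInt q L)
    (fun a => by
      change algebraMap ℚ_[q] L (a : ℚ_[q]) = algebraMap K L (algebraMap ℚ_[q] K (a : ℚ_[q]))
      exact IsScalarTower.algebraMap_apply ℚ_[q] K L _)

theorem isScalarTower_int_OK_OL :
    @IsScalarTower ℤ_[q] (O q K) (O q L) (algIntO q K).toSMul (algOO q K L).toSMul
      (algIntO q L).toSMul :=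
  @IsScalarTower.of_algebraMap_eq ℤ_[q] (O q K) (O q L) _ _ _ (algIntO q K) (algOO q K L)
    (algIntO q L)
    (fun a => by
      apply Subtype.ext
      change algebraMap ℚ_[q] L (a : ℚ_[q]) = algebraMap K L (algebraMap ℚ_[q] K (a : ℚ_[q]))
      exact IsScalarTower.algebraMap_apply ℚ_[q] K L _)

theorem isIntegralClosure_OO :
    @IsIntegralClosure (O q L) (O q K) L _ _ _ (algOL q K L) _ := by
  letI := algInt q K
  letI := algInt q L
  letI := algIntO q K
  letI := algIntO q L
  letI := algOO q K L
  letI := algOL q K L
  haveI := isScalarTower_algIntO q K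
  haveI := isScalarTower_algIntO q L
  haveI := isScalarTower_int_OK_L q K L
  haveI := isIntegralClosure_O q K
  haveI : Algebra.IsIntegral ℤ_[q] (O q K) := IsIntegralClosure.isIntegral_algebra ℤ_[q] K
  refine ⟨Subtype.val_injective, ?_⟩
  intro x
  constructor
  · intro hx
    have h1 : IsIntegral ℤ_[q] x := isIntegral_trans (R := ℤ_[q]) (A := O q K) x hx
    exact ⟨⟨x, (mem_O_iff_isIntegral q L x).2 h1⟩, rfl⟩
  · rintro ⟨y, rfl⟩
    have h1 : IsIntegral ℤ_[q] (y : L) := (mem_O_iff_isIntegral q L y).1 y.2
    exact h1.tower_top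

theorem moduleFinite_OO : @Module.Finite (O q K) (O q L) _ _ (algOO q K L).toModule := by
  letI := algIntO q K
  letI := algIntO q L
  letI := algOO q K L
  haveI := isScalarTower_int_OK_OL q K L
  haveI := moduleFinite_O q L
  exact Module.Finite.of_restrictScalars_finite ℤ_[q] (O q K) (O q L)

theorem isLocalHom_algOO :
    IsLocalHom (@algebraMap (O q K) (O q L) _ _ (algOO q K L)) := by
  letI := algOO q K L
  constructor
  intro a ha
  have h := nrm_eq_one_of_isUnit q L ha
  rw [algebraMap_algOO_coe, nrm_algebraMap_tower] at h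
  exact (isUnit_iff_nrm_eq_one q K).2 h

theorem algebraMap_algOO_injective :
    Function.Injective (@algebraMap (O q K) (O q L) _ _ (algOO q K L)) := by
  intro x y h
  apply Subtype.ext
  have := congrArg Subtype.val h
  rw [algebraMap_algOO_coe, algebraMap_algOO_coe] at this
  exact (algebraMap K L).injective this

end Fermat.Agent.CFT.H96
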