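import Mathlib
import Fermat.Agent.CFT.H39_UnitsPow

/-!
# CFT layer B, package B-UNITS: the exact index `[Kˣ : (Kˣ)^m]`

`A` a complete DVR with finite residue field, `K = Frac A`, `(m : A) ≠ 0`:
`[Aˣ : (Aˣ)^m] = #μ_m(A) · #(A/mA)` and `[Kˣ : (Kˣ)^m] = m · #μ_m(K) · #(A/mA)`
(Skeleton1 `RL.card_units_quot_pow`).

Route: `φ = (·)^m` on `G = Aˣ`, `H = 1 + mϖA`; `φ` is injective on `H` and `φ(H) = 1 + m²ϖA`
(`H39.exists_one_add_mul_pow_eq`), `[H : φ H] = #(A/mA)`, and the elementary index identity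
`[G : φ G] = #ker φ · [H : φ H]`.
-/

set_option autoImplicit false
set_option linter.unusedSectionVars false
set_option linter.style.haveILetI false

open IsLocalRing Polynomial Subgroup

namespace Fermat.Agent.CFT.H96

/-! ### Group theory -/

/-- If an endomorphism `φ` of a commutative group is injective on a finite-index subgroup `H`
with `φ H ≤ H`, then `[G : φ G] = #ker φ · [H : φ H]`. -/
theorem index_range_of_inj_on {G : Type*} [CommGroup G] (φ : G →* G) (H : Subgroup G)
    [H.FiniteIndex] (hinj : φ.ker ⊓ H = ⊥) (hle : H.map φ ≤ H) :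
    φ.range.index = Nat.card φ.ker * (H.map φ).relIndex H := by
  have h1 : (H.map φ).index = (H ⊔ φ.ker).index * φ.range.index := Subgroup.index_map H φ
  have h2 : (H.map φ).relIndex H * H.index = (H.map φ).index := relIndex_mul_index hle
  have h3 : H.relIndex (H ⊔ φ.ker) * (H ⊔ φ.ker).index = H.index :=
    relIndex_mul_index le_sup_left
  have h4 : H.relIndex (H ⊔ φ.ker) = Nat.card φ.ker := by
    rw [relIndex_sup_left, ← inf_relIndex_right, inf_comm, hinj, relIndex_bot_left]
  have h5 : (H ⊔ φ.ker).index ≠ 0 := by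
    have : (H ⊔ φ.ker).FiniteIndex := Subgroup.finiteIndex_of_le (le_sup_left : H ≤ H ⊔ φ.ker)
    exact Subgroup.FiniteIndex.index_ne_zero
  rw [h4] at h3
  rw [← h3, h1] at h2
  have : (H ⊔ φ.ker).index * ((H.map φ).relIndex H * Nat.card φ.ker) =
      (H ⊔ φ.ker).index * φ.range.index := by
    rw [← h2]; ring
  have := Nat.eq_of_mul_eq_mul_left (Nat.pos_of_ne_zero h5) this
  rw [← this]; ring

/-! ### Units congruent to `1` modulo an ideal -/

section Local

variable (A : Type*) [CommRing A] [IsLocalRing A]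

/-- units congruent to `1` modulo the ideal `J` -/
def unitsMod (J : Ideal A) : Subgroup Aˣ :=
  (Units.map (Ideal.Quotient.mk J).toMonoidHom).ker

variable {A}

lemma mem_unitsMod_iff {J : Ideal A} {u : Aˣ} : u ∈ unitsMod A J ↔ (u : A) - 1 ∈ J := by
  unfold unitsMod
  rw [MonoidHom.mem_ker, Units.ext_iff]
  simp only [Units.coe_map, RingHom.toMonoidHom_eq_coe, MonoidHom.coe_coe, Units.val_one]
  rw [← map_one (Ideal.Quotient.mk J), Ideal.Quotient.eq]

lemma isUnit_one_add_of_mem {x : A} (hx : x ∈ maximalIdeal A) : IsUnit (1 + x) := by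
  have h : -x ∈ nonunits A := by
    rw [← mem_maximalIdeal]; exact (maximalIdeal A).neg_mem hx
  have := IsLocalRing.isUnit_one_sub_self_of_mem_nonunits (-x) h
  simpa using this

open Classical in
/-- the unit `1 + x` (junk value `1` if `1 + x` is not a unit) -/
noncomputable def oneAdd (x : A) : Aˣ := if h : IsUnit (1 + x) then h.unit else 1

lemma oneAdd_coe {x : A} (hx : x ∈ maximalIdeal A) : ((oneAdd x : Aˣ) : A) = 1 + x := by
  unfold oneAdd
  rw [dif_pos (isUnit_one_add_of_mem hx)]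
  rfl

instance finiteIndex_unitsMod (J : Ideal A) [Finite (A ⧸ J)] : (unitsMod A J).FiniteIndex := by
  unfold unitsMod
  infer_instance

end Local

/-! ### The DVR computation -/

section DVR

variable {A : Type*} [CommRing A] [IsDomain A] [IsDiscreteValuationRing A]

/-- every nonzero ideal of a DVR with finite residue field has finite quotient -/
lemma finite_quotient_of_ne_bot [Finite (ResidueField A)] {J : Ideal A} (hJ : J ≠ ⊥) :
    Finite (A ⧸ J) := by
  obtain ⟨ϖ, hϖ⟩ := IsDiscreteValuationRing.exists_irreducible A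
  obtain ⟨n, hn⟩ := IsDiscreteValuationRing.ideal_eq_span_pow_irreducible hJ hϖ
  rw [hn, ← Ideal.span_singleton_pow, ← hϖ.maximalIdeal_eq]
  infer_instance

variable [IsAdicComplete (maximalIdeal A) A]

section Core

variable {m : ℕ} (hm : (m : A) ≠ 0) {ϖ : A} (hϖ : Irreducible ϖ)

include hϖ in
lemma mul_irreducible_mem (x : A) : x * ϖ ∈ maximalIdeal A := by
  rw [hϖ.maximalIdeal_eq]
  exact Ideal.mem_span_singleton'.2 ⟨x, rfl⟩

include hϖ in
/-- `φ (1 + mϖA) ⊆ 1 + m²ϖA` and injectivity: the expansion of `(1 + m y)^m`. -/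
lemma pow_expansion (t : A) : ∃ r : A, IsUnit (1 + r * ϖ) ∧
    (1 + t * ((m : A) * ϖ)) ^ m = 1 + (m : A) ^ 2 * ϖ * t * (1 + r * ϖ) := by
  obtain ⟨k, hk⟩ := H39.exists_poly_one_add_pow (R := A) m (m : A)
  have h := congrArg (Polynomial.eval (ϖ * t)) hk
  simp only [eval_pow, eval_add, eval_one, eval_mul, eval_C, eval_X] at h
  refine ⟨k.eval (ϖ * t) * t, isUnit_one_add_of_mem (mul_irreducible_mem hϖ _), ?_⟩
  have e1 : 1 + t * ((m : A) * ϖ) = 1 + (m : A) * (ϖ * t) := by ring
  rw [e1, h]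
  ring

include hm hϖ in
lemma map_pow_unitsMod :
    (unitsMod A (Ideal.span {(m : A) * ϖ})).map (powMonoidHom m : Aˣ →* Aˣ) =
      unitsMod A (Ideal.span {(m : A) ^ 2 * ϖ}) := by
  ext u
  constructor
  · rintro ⟨w, hw, rfl⟩
    rw [SetLike.mem_coe, mem_unitsMod_iff, Ideal.mem_span_singleton'] at hw
    obtain ⟨t, ht⟩ := hw
    obtain ⟨r, -, hr⟩ := pow_expansion (m := m) hϖ t
    rw [mem_unitsMod_iff, Ideal.mem_span_singleton']
    refine ⟨t * (1 + r * ϖ), ?_⟩
    have hw' : (w : A) = 1 + t * ((m : A) * ϖ) := by rw [ht]; ring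
    simp only [powMonoidHom_apply, Units.val_pow_eq_pow_val]
    rw [hw', hr]
    ring
  · intro hu
    rw [mem_unitsMod_iff, Ideal.mem_span_singleton'] at hu
    obtain ⟨t, ht⟩ := hu
    have hϖm : ϖ ∈ maximalIdeal A := by
      rw [hϖ.maximalIdeal_eq]; exact Ideal.mem_span_singleton_self ϖ
    obtain ⟨s, hs⟩ := H39.exists_one_add_mul_pow_eq (maximalIdeal A) m hϖm t
    have hmem : (m : A) * ϖ * s ∈ maximalIdeal A := by
      have := mul_irreducible_mem hϖ ((m : A) * s)
      convert this using 1; ring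
    refine ⟨oneAdd ((m : A) * ϖ * s), ?_, ?_⟩
    · rw [SetLike.mem_coe, mem_unitsMod_iff, oneAdd_coe hmem, Ideal.mem_span_singleton']
      exact ⟨s, by ring⟩
    · apply Units.ext
      simp only [powMonoidHom_apply, Units.val_pow_eq_pow_val]
      rw [oneAdd_coe hmem, hs]
      have : (u : A) = 1 + t * ((m : A) ^ 2 * ϖ) := by rw [ht]; ring
      rw [this]; ring

include hm hϖ in
lemma ker_pow_inf_unitsMod :
    (powMonoidHom m : Aˣ →* Aˣ).ker ⊓ unitsMod A (Ideal.span {(m : A) * ϖ}) = ⊥ := by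
  rw [eq_bot_iff]
  rintro u ⟨hu1, hu2⟩
  replace hu1 : u ∈ (powMonoidHom m : Aˣ →* Aˣ).ker := hu1
  replace hu2 : u ∈ unitsMod A (Ideal.span {(m : A) * ϖ}) := hu2
  rw [MonoidHom.mem_ker, powMonoidHom_apply] at hu1
  rw [mem_unitsMod_iff, Ideal.mem_span_singleton'] at hu2
  obtain ⟨t, ht⟩ := hu2
  obtain ⟨r, hru, hr⟩ := pow_expansion (m := m) hϖ t
  have hu' : (u : A) = 1 + t * ((m : A) * ϖ) := by rw [ht]; ring
  have h1 : ((u ^ m : Aˣ) : A) = 1 := by rw [hu1]; rfl
  rw [Units.val_pow_eq_pow_val, hu', hr] at h1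
  have h2 : (m : A) ^ 2 * ϖ * t * (1 + r * ϖ) = 0 := by
    have := sub_eq_zero.2 h1
    rw [← this]; ring
  have ht0 : t = 0 := by
    rcases mul_eq_zero.1 h2 with h3 | h3
    · rcases mul_eq_zero.1 h3 with h4 | h4
      · rcases mul_eq_zero.1 h4 with h5 | h5
        · exact absurd ((pow_eq_zero_iff (two_ne_zero)).1 h5) hm
        · exact absurd h5 hϖ.ne_zero
      · exact h4
    · exact absurd h3 hru.ne_zero
  rw [Subgroup.mem_bot]
  apply Units.ext
  rw [hu', ht0]
  simp

include hm hϖ in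
lemma unitsMod_sq_le :
    unitsMod A (Ideal.span {(m : A) ^ 2 * ϖ}) ≤ unitsMod A (Ideal.span {(m : A) * ϖ}) := by
  intro u hu
  rw [mem_unitsMod_iff, Ideal.mem_span_singleton'] at hu ⊢
  obtain ⟨t, ht⟩ := hu
  exact ⟨t * (m : A), by rw [← ht]; ring⟩

include hm hϖ in
/-- `[1 + mϖA : 1 + m²ϖA] = #(A/mA)` -/
lemma relIndex_unitsMod :
    (unitsMod A (Ideal.span {(m : A) ^ 2 * ϖ})).relIndex (unitsMod A (Ideal.span {(m : A) * ϖ})) =
      Nat.card (A ⧸ Ideal.span {(m : A)}) := by
  set a : A := (m : A) with ha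
  set H := unitsMod A (Ideal.span {a * ϖ}) with hH
  set H' := unitsMod A (Ideal.span {a ^ 2 * ϖ}) with hH'
  have hmemJ : ∀ t : A, a * ϖ * t ∈ maximalIdeal A := by
    intro t
    have := mul_irreducible_mem hϖ (a * t)
    convert this using 1; ring
  have hwH : ∀ t : A, oneAdd (a * ϖ * t) ∈ H := by
    intro t
    rw [hH, mem_unitsMod_iff, oneAdd_coe (hmemJ t), Ideal.mem_span_singleton']
    exact ⟨t, by ring⟩
  let f : A → H ⧸ H'.subgroupOf H := fun t => QuotientGroup.mk ⟨oneAdd (a * ϖ * t), hwH t⟩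
  have haϖ : a * ϖ ≠ 0 := mul_ne_zero hm hϖ.ne_zero
  have hf : ∀ s t : A, f s = f t ↔ s - t ∈ Ideal.span {a} := by
    intro s t
    simp only [f]
    rw [QuotientGroup.eq, Subgroup.mem_subgroupOf, hH', mem_unitsMod_iff]
    simp only [Subgroup.coe_mul, InvMemClass.coe_inv, Units.val_mul]
    set u := oneAdd (a * ϖ * s) with hu
    set v := oneAdd (a * ϖ * t) with hv
    have hu' : (u : A) = 1 + a * ϖ * s := oneAdd_coe (hmemJ s)
    have hv' : (v : A) = 1 + a * ϖ * t := oneAdd_coe (hmemJ t)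
    have key : ((u⁻¹ : Aˣ) : A) * (v : A) - 1 = ((u⁻¹ : Aˣ) : A) * (a * ϖ * (t - s)) := by
      have h1 : ((u⁻¹ : Aˣ) : A) * (u : A) = 1 := by simp
      have : (v : A) = (u : A) + a * ϖ * (t - s) := by rw [hu', hv']; ring
      rw [this, mul_add, h1]; ring
    rw [key, Ideal.mem_span_singleton', Ideal.mem_span_singleton']
    constructor
    · rintro ⟨r, hr⟩
      refine ⟨-(r * (u : A)), ?_⟩
      have h2 : r * (a ^ 2 * ϖ) * (u : A) = a * ϖ * (t - s) := by
        rw [hr]
        have h1 : ((u⁻¹ : Aˣ) : A) * (u : A) = 1 := by simp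
        calc ((u⁻¹ : Aˣ) : A) * (a * ϖ * (t - s)) * (u : A)
            = (((u⁻¹ : Aˣ) : A) * (u : A)) * (a * ϖ * (t - s)) := by ring
          _ = a * ϖ * (t - s) := by rw [h1, one_mul]
      apply mul_left_cancel₀ haϖ
      rw [← sub_eq_zero]
      have : a * ϖ * (-(r * (u : A)) * a) - a * ϖ * (s - t) =
          -(r * (a ^ 2 * ϖ) * (u : A)) + a * ϖ * (t - s) := by ring
      rw [this, h2]; ring
    · rintro ⟨r, hr⟩
      refine ⟨-(((u⁻¹ : Aˣ) : A) * r), ?_⟩
      have : t - s = -(r * a) := by rw [hr]; ring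
      rw [this]; ring
  have hsurj : Function.Surjective f := by
    intro x
    obtain ⟨⟨w, hw⟩, rfl⟩ := QuotientGroup.mk_surjective x
    have hw' := hw
    rw [hH, mem_unitsMod_iff, Ideal.mem_span_singleton'] at hw'
    obtain ⟨t, ht⟩ := hw'
    refine ⟨t, ?_⟩
    simp only [f]
    congr 1
    apply Subtype.ext
    apply Units.ext
    simp only
    rw [oneAdd_coe (hmemJ t)]
    have : (w : A) = 1 + t * (a * ϖ) := by rw [ht]; ring
    rw [this]; ring
  rw [Subgroup.relIndex, Subgroup.index_eq_card]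
  have e1 : (A ⧸ Ideal.span {a}) ≃ Quotient (Setoid.ker f) :=
    Quotient.congrRight (fun s t => by
      rw [Setoid.ker_def, hf]
      exact (Submodule.quotientRel_def _))
  exact Nat.card_congr (e1.trans (Setoid.quotientKerEquivOfSurjective f hsurj)).symm

end Core

variable [Finite (ResidueField A)]

/-- `[Aˣ : (Aˣ)^m] = #μ_m(A) · #(A/mA)` -/
theorem index_range_powMonoidHom_units {m : ℕ} (hm : (m : A) ≠ 0) :
    (powMonoidHom m : Aˣ →* Aˣ).range.index =
      Nat.card (rootsOfUnity m A) * Nat.card (A ⧸ Ideal.span {(m : A)}) := by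
  obtain ⟨ϖ, hϖ⟩ := IsDiscreteValuationRing.exists_irreducible A
  have hJ : Ideal.span {(m : A) * ϖ} ≠ ⊥ := by
    rw [Ne, Ideal.span_singleton_eq_bot]
    exact mul_ne_zero hm hϖ.ne_zero
  haveI := finite_quotient_of_ne_bot hJ
  have h := index_range_of_inj_on (powMonoidHom m : Aˣ →* Aˣ)
    (unitsMod A (Ideal.span {(m : A) * ϖ})) (ker_pow_inf_unitsMod hm hϖ)
    (by rw [map_pow_unitsMod hm hϖ]; exact unitsMod_sq_le hm hϖ)
  rw [map_pow_unitsMod hm hϖ, relIndex_unitsMod hm hϖ] at h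
  rw [h]
  congr 1

end DVR

/-! ### The field of fractions -/

section Frac

variable (A : Type*) [CommRing A] [IsDomain A] [IsDiscreteValuationRing A]
variable (K : Type*) [Field K] [Algebra A K] [IsFractionRing A K]

lemma range_powMonoidHom_prod {G G' : Type*} [CommGroup G] [CommGroup G'] (m : ℕ) :
    (powMonoidHom m : G × G' →* G × G').range =
      (powMonoidHom m : G →* G).range.prod (powMonoidHom m : G' →* G').range := by
  ext ⟨x, y⟩
  simp only [MonoidHom.mem_range, powMonoidHom_apply, Subgroup.mem_prod, Prod.exists,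
    Prod.pow_mk, Prod.mk.injEq]
  constructor
  · rintro ⟨a, b, ha, hb⟩
    exact ⟨⟨a, ha⟩, ⟨b, hb⟩⟩
  · rintro ⟨⟨a, ha⟩, ⟨b, hb⟩⟩
    exact ⟨a, b, ha, hb⟩

lemma index_range_powMonoidHom_int {m : ℕ} :
    (powMonoidHom m : Multiplicative ℤ →* Multiplicative ℤ).range.index = m := by
  have : (powMonoidHom m : Multiplicative ℤ →* Multiplicative ℤ).range =
      AddSubgroup.toSubgroup (AddSubgroup.zmultiples (m : ℤ)) := by
    ext n
    rw [MonoidHom.mem_range]
    change _ ↔ Multiplicative.toAdd n ∈ AddSubgroup.zmultiples (m : ℤ)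
    rw [AddSubgroup.mem_zmultiples_iff]
    constructor
    · rintro ⟨k, rfl⟩
      refine ⟨Multiplicative.toAdd k, ?_⟩
      simp [powMonoidHom_apply, mul_comm]
    · rintro ⟨k, hk⟩
      refine ⟨Multiplicative.ofAdd k, ?_⟩
      apply Multiplicative.toAdd.injective
      rw [← hk]
      simp [powMonoidHom_apply, mul_comm]
  rw [this, AddSubgroup.index_toSubgroup, Int.index_zmultiples]
  simp

lemma comap_range_powMonoidHom {G G' : Type*} [CommGroup G] [CommGroup G'] (f : G →* G')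
    (hf : Function.Bijective f) (m : ℕ) :
    (powMonoidHom m : G' →* G').range.comap f = (powMonoidHom m : G →* G).range := by
  ext x
  simp only [Subgroup.mem_comap, MonoidHom.mem_range, powMonoidHom_apply]
  constructor
  · rintro ⟨y, hy⟩
    obtain ⟨z, rfl⟩ := hf.2 y
    refine ⟨z, ?_⟩
    apply hf.1
    rw [map_pow, hy]
  · rintro ⟨z, rfl⟩
    exact ⟨f z, (map_pow f z m).symm⟩

/-- roots of unity of `K = Frac A` lie in `A` -/
lemma card_rootsOfUnity_frac {m : ℕ} (hm : m ≠ 0) :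
    Nat.card (rootsOfUnity m K) = Nat.card (rootsOfUnity m A) := by
  obtain ⟨ϖ, hϖ⟩ := IsDiscreteValuationRing.exists_irreducible A
  symm
  refine Nat.card_congr (Equiv.ofBijective
    (restrictRootsOfUnity (algebraMap A K : A →* K) m) ⟨?_, ?_⟩)
  · intro x y hxy
    apply Subtype.ext
    apply Units.ext
    apply IsFractionRing.injective A K
    have := congrArg (fun z : rootsOfUnity m K => ((z : Kˣ) : K)) hxy
    simpa using this
  · rintro ⟨ζ, hζ⟩
    rw [mem_rootsOfUnity] at hζ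
    obtain ⟨⟨n, u⟩, hnu⟩ := H39.unitsProdHom_surjective K hϖ ζ
    have h1 : H39.unitsProdHom K hϖ ((n, u) ^ m) = 1 := by rw [map_pow, hnu, hζ]
    have h2 : ((n, u) ^ m : Multiplicative ℤ × Aˣ) = 1 :=
      H39.unitsProdHom_injective K hϖ (by rw [h1, map_one])
    rw [Prod.pow_mk, Prod.mk_eq_one] at h2
    obtain ⟨hn, hu⟩ := h2
    have hn1 : n = 1 := by
      have h3 : (m : ℤ) * Multiplicative.toAdd n = 0 := by
        have := congrArg Multiplicative.toAdd hn
        simpa using this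
      have h4 : Multiplicative.toAdd n = 0 := by
        rcases mul_eq_zero.1 h3 with h5 | h5
        · exact absurd (by exact_mod_cast h5) hm
        · exact h5
      rw [← ofAdd_toAdd n, h4]; rfl
    refine ⟨⟨u, (mem_rootsOfUnity _ _).2 hu⟩, ?_⟩
    apply Subtype.ext
    apply Units.ext
    rw [H39.unitsProdHom_apply, hn1] at hnu
    have := congrArg (fun z : Kˣ => (z : K)) hnu
    simp only [toAdd_one, zpow_zero, one_mul, H39.unitsIncl_coe] at this
    simpa using this

variable [IsAdicComplete (maximalIdeal A) A] [Finite (ResidueField A)]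

/-- **Exact index** `[Kˣ : (Kˣ)^m] = m · #μ_m(K) · #(A/mA)`. -/
theorem index_range_powMonoidHom_field {m : ℕ} (hm : (m : A) ≠ 0) :
    (powMonoidHom m : Kˣ →* Kˣ).range.index =
      m * Nat.card (rootsOfUnity m K) * Nat.card (A ⧸ Ideal.span {(m : A)}) := by
  obtain ⟨ϖ, hϖ⟩ := IsDiscreteValuationRing.exists_irreducible A
  have hm0 : m ≠ 0 := by
    rintro rfl
    exact hm (by simp)
  rw [← Subgroup.index_comap_of_surjective _ (H39.unitsProdHom_surjective K hϖ),
    comap_range_powMonoidHom (H39.unitsProdHom K hϖ)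
      ⟨H39.unitsProdHom_injective K hϖ, H39.unitsProdHom_surjective K hϖ⟩ m,
    range_powMonoidHom_prod, Subgroup.index_prod, index_range_powMonoidHom_int,
    index_range_powMonoidHom_units hm, card_rootsOfUnity_frac A K hm0, mul_assoc]

/-- Skeleton1 `RL.card_units_quot_pow`, for every `m ≠ 0` (characteristic zero). -/
theorem card_units_quot_pow' [CharZero K] (m : ℕ) (hm : m ≠ 0) :
    Nat.card (Kˣ ⧸ (powMonoidHom m : Kˣ →* Kˣ).range) =
      m * Nat.card (rootsOfUnity m K) * Nat.card (A ⧸ Ideal.span {(m : A)}) := by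
  have hmA : (m : A) ≠ 0 := by
    intro h
    have := congrArg (algebraMap A K) h
    rw [map_natCast, map_zero] at this
    exact hm (Nat.cast_injective (R := K) (by simpa using this))
  rw [← Subgroup.index_eq_card]
  exact index_range_powMonoidHom_field A K hmA

/-- Skeleton1 `RL.card_units_quot_pow` verbatim (with `A` explicit). -/
theorem card_units_quot_pow [CharZero K] (ℓ : ℕ) (hℓ : ℓ.Prime) :
    Nat.card (Kˣ ⧸ (powMonoidHom ℓ : Kˣ →* Kˣ).range) =
      ℓ * Nat.card (rootsOfUnity ℓ K) * Nat.card (A ⧸ Ideal.span {(ℓ : A)}) :=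
  card_units_quot_pow' A K ℓ hℓ.ne_zero

end Frac

end Fermat.Agent.CFT.H96
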