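import Mathlib
import Fermat.Agent.CFT.H96_UnitsIndex
import Fermat.Agent.CFT.H96_BridgeRel

/-!
# CFT layer B, package B-UNITS: the exact index `[Kˣ : (Kˣ)^m]` for `K` finite over `ℚ_q`

Field-level (`Loc`) corollaries of `H96.card_units_quot_pow'`:
* `loc_card_units_quot_pow`: `[Kˣ : (Kˣ)^m] = m · #μ_m(K) · #(O/mO)`;
* `loc_card_units_quot_pow_self`: `[Kˣ : (Kˣ)^q] = q · #μ_q(K) · q^[K:ℚ_q]`;
* `loc_card_units_quot_pow_of_ne`: `[Kˣ : (Kˣ)^ℓ] = ℓ · #μ_ℓ(K)` for a prime `ℓ ≠ q`;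
* with `μ_ℓ ⊆ K`: `q ^ (2 + [K:ℚ_q])` resp. `ℓ ^ 2`  (item (b4) of the layer-C request list).
-/

set_option autoImplicit false
set_option linter.unusedSectionVars false
set_option linter.style.haveILetI false

open IsLocalRing

namespace Fermat.Agent.CFT.H96

open Fermat.Agent.CFT.Loc

variable (q : ℕ) [Fact q.Prime]
variable (K : Type) [Field K] [Algebra ℚ_[q] K] [FiniteDimensional ℚ_[q] K]

/-- `[Kˣ : (Kˣ)^m] = m · #μ_m(K) · #(O/mO)` -/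
theorem loc_card_units_quot_pow (m : ℕ) (hm : m ≠ 0) :
    Nat.card (Kˣ ⧸ (powMonoidHom m : Kˣ →* Kˣ).range) =
      m * Nat.card (rootsOfUnity m K) * Nat.card (O q K ⧸ Ideal.span {(m : O q K)}) := by
  haveI : CharZero K := charZero_of_injective_algebraMap (algebraMap ℚ_[q] K).injective
  exact card_units_quot_pow' (O q K) K m hm

theorem qO_eq_natCast : qO q K = ((q : ℕ) : O q K) := by
  apply Subtype.ext
  rw [qO_coe]
  simp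

/-- `#(O/qO) = q ^ [K:ℚ_q]` -/
theorem card_quotient_span_natCast_q :
    Nat.card (O q K ⧸ Ideal.span {((q : ℕ) : O q K)}) = q ^ Module.finrank ℚ_[q] K := by
  rw [← qO_eq_natCast]
  exact card_quotient_span_qO q K

theorem nrm_natCast_of_not_dvd {ℓ : ℕ} (h : ¬ q ∣ ℓ) : nrm q K ((ℓ : ℕ) : K) = 1 := by
  have h1 : ((ℓ : ℕ) : K) = algebraMap ℚ_[q] K ((ℓ : ℕ) : ℚ_[q]) := by simp
  rw [h1, nrm_algebraMap, Padic.norm_natCast_eq_one_iff]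
  exact (Nat.Prime.coprime_iff_not_dvd Fact.out).2 h

theorem isUnit_natCast_of_not_dvd {ℓ : ℕ} (h : ¬ q ∣ ℓ) : IsUnit ((ℓ : ℕ) : O q K) := by
  rw [isUnit_iff_nrm_eq_one]
  have : (((ℓ : ℕ) : O q K) : K) = ((ℓ : ℕ) : K) := by simp
  rw [this]
  exact nrm_natCast_of_not_dvd q K h

/-- `#(O/ℓO) = 1` when `q ∤ ℓ` -/
theorem card_quotient_span_natCast_of_not_dvd {ℓ : ℕ} (h : ¬ q ∣ ℓ) :
    Nat.card (O q K ⧸ Ideal.span {((ℓ : ℕ) : O q K)}) = 1 := by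
  rw [Ideal.span_singleton_eq_top.2 (isUnit_natCast_of_not_dvd q K h)]
  have : Subsingleton (O q K ⧸ (⊤ : Ideal (O q K))) := Ideal.Quotient.subsingleton_iff.2 rfl
  exact Nat.card_unique

/-- `[Kˣ : (Kˣ)^q] = q · #μ_q(K) · q ^ [K:ℚ_q]` -/
theorem loc_card_units_quot_pow_self :
    Nat.card (Kˣ ⧸ (powMonoidHom q : Kˣ →* Kˣ).range) =
      q * Nat.card (rootsOfUnity q K) * q ^ Module.finrank ℚ_[q] K := by
  rw [loc_card_units_quot_pow q K q (Fact.out : q.Prime).ne_zero, card_quotient_span_natCast_q]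

/-- `[Kˣ : (Kˣ)^m] = m · #μ_m(K)` when `q ∤ m` -/
theorem loc_card_units_quot_pow_of_not_dvd {m : ℕ} (hm : m ≠ 0) (h : ¬ q ∣ m) :
    Nat.card (Kˣ ⧸ (powMonoidHom m : Kˣ →* Kˣ).range) = m * Nat.card (rootsOfUnity m K) := by
  rw [loc_card_units_quot_pow q K m hm, card_quotient_span_natCast_of_not_dvd q K h, mul_one]

/-- `[Kˣ : (Kˣ)^ℓ] = ℓ · #μ_ℓ(K)` for a prime `ℓ ≠ q` -/
theorem loc_card_units_quot_pow_of_ne {ℓ : ℕ} (hℓ : ℓ.Prime) (h : ℓ ≠ q) :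
    Nat.card (Kˣ ⧸ (powMonoidHom ℓ : Kˣ →* Kˣ).range) = ℓ * Nat.card (rootsOfUnity ℓ K) :=
  loc_card_units_quot_pow_of_not_dvd q K hℓ.ne_zero
    (fun hd => h ((Nat.prime_dvd_prime_iff_eq Fact.out hℓ).1 hd).symm)

/-- (b4): `[Kˣ : (Kˣ)^q] = q ^ (2 + [K:ℚ_q])` when `μ_q ⊆ K` -/
theorem loc_card_units_quot_pow_self_of_primitiveRoot {ζ : K} (hζ : IsPrimitiveRoot ζ q) :
    Nat.card (Kˣ ⧸ (powMonoidHom q : Kˣ →* Kˣ).range) = q ^ (2 + Module.finrank ℚ_[q] K) := by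
  haveI : NeZero q := ⟨(Fact.out : q.Prime).ne_zero⟩
  rw [loc_card_units_quot_pow_self, hζ.card_rootsOfUnity]
  ring

/-- `[Kˣ : (Kˣ)^ℓ] = ℓ ^ 2` for a prime `ℓ ≠ q` with `μ_ℓ ⊆ K` -/
theorem loc_card_units_quot_pow_of_ne_of_primitiveRoot {ℓ : ℕ} (hℓ : ℓ.Prime) (h : ℓ ≠ q)
    {ζ : K} (hζ : IsPrimitiveRoot ζ ℓ) :
    Nat.card (Kˣ ⧸ (powMonoidHom ℓ : Kˣ →* Kˣ).range) = ℓ ^ 2 := by
  haveI : NeZero ℓ := ⟨hℓ.ne_zero⟩
  rw [loc_card_units_quot_pow_of_ne q K hℓ h, hζ.card_rootsOfUnity]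
  ring

end Fermat.Agent.CFT.H96
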