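/-
CFT project, seam (S-6) B → D2, local instance, in the OFFICIAL vocabulary of
`Fermat.Agent.CFT.H91_D2Defs` (`HasFIN`, `HasEXIST`): restatement of
`H97.hasFIN_local` / `H97.hasEXIST_local` / `H97.exists_good_level` with the landed names, with
helper8's `H8.primeDegreeNormIndex` plugged in (no hypothesis left).
Owner: helper97.
-/
import Fermat.Agent.CFT.H91_DStatements
import Fermat.Agent.CFT.H97_LocalExist
import Fermat.Agent.CFT.H8_PrimeDegreeNormIndex

set_option autoImplicit false

namespace Fermat.Agent.CFT.H97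

variable (q : ℕ) [Fact q.Prime]

/-- (FIN) for the local formation `(Gal(ℚ_q-bar/ℚ_q), ℚ_q-bar ˣ)`. -/
theorem hasFIN_localLevels (p : ℕ) (hp : p ≠ 0) :
    HasFIN (H78.localLevels q) (H78.localUnits q) p :=
  hasFIN_local q p hp

/-- (EXIST) for the local formation at a level whose fixed field contains `μ_p`. -/
theorem hasEXIST_localLevels (p : ℕ) [Fact p.Prime] (N₀ : Subgroup (H78.LocalGal q))
    (hN₀ : N₀ ∈ (H78.localLevels q).levels) (hg : good q p N₀) :
    HasEXIST (H78.localLevels q) (H78.localUnits q) p N₀ :=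
  hasEXIST_local q p (H8.primeDegreeNormIndex q) N₀ hN₀ hg

/-- The `hEX` argument of `formation_duality` / `D2Statement` for the local formation with
`good := H97.good q p`. -/
theorem hEX_localLevels (p : ℕ) [Fact p.Prime] :
    ∀ N₀ ∈ (H78.localLevels q).levels, N₀.Normal → good q p N₀ →
      HasEXIST (H78.localLevels q) (H78.localUnits q) p N₀ :=
  fun N₀ hN₀ _ hg => hasEXIST_localLevels q p N₀ hN₀ hg

/-- The `hgood` argument of `formation_duality` / `D1Statement` for the local formation. -/
theorem hgood_localLevels (p : ℕ) (hp : p ≠ 0) :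
    ∀ N ∈ (H78.localLevels q).levels, ∃ N' ∈ (H78.localLevels q).levels,
      N' ≤ N ∧ N'.Normal ∧ good q p N' :=
  exists_good_level q p hp

end Fermat.Agent.CFT.H97
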