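/-
CFT project, seam (S-6) B → D2, local instance ON THE FROZEN LOCAL LEVEL STRUCTURE:
the D2 inputs (FIN), (EXIST), cofinality of the good levels for
`(pullLevels (localGaloisToGlobal q), H78.localUnits q)` and for the `Nat.Primes`-indexed
wrappers `(pullLevels (primeLocalToGlobal q), localUnitsPrime q)` of helper55's
`H55_LocalFormation`, transported from `(H78.localLevels q, H78.localUnits q)`
(`H97_LocalD2Named`): the two level structures have the same open subgroups
(`isOpen_pullLevels_iff`, Krasner) and the normal pulled-back levels are intrinsic levels.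
Owner: helper97.
-/
import Fermat.Agent.CFT.H97_LocalD2Named
import Fermat.Agent.CFT.H55_LocalFormation
import Fermat.Agent.CFT.H69_Deg

set_option autoImplicit false

open IntermediateField ExtCitation

namespace Fermat.Agent.CFT.H97

/-! ### Generic transport between level structures with comparable open subgroups -/

section Generic

variable {H : Type} [Group H] {𝓛 𝓛' : LevelStructure H} {C : Rep.{0} ℤ H} {p : ℕ}

/-- (DIV) only depends on the open subgroups. -/
theorem hasDIV_of_isOpen (h : ∀ U, 𝓛'.IsOpen U → 𝓛.IsOpen U) (h' : ∀ U, 𝓛.IsOpen U → 𝓛'.IsOpen U)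
    (hD : HasDIV 𝓛 p) : HasDIV 𝓛' p := by
  intro U hU m
  obtain ⟨V, hV, hle, hdvd⟩ := hD U (h U hU) m
  exact ⟨V, h' V hV, hle, hdvd⟩

/-- (FIN) passes to a level structure with fewer open subgroups. -/
theorem hasFIN_of_isOpen (h : ∀ U, 𝓛'.IsOpen U → 𝓛.IsOpen U) (hF : HasFIN 𝓛 C p) :
    HasFIN 𝓛' C p :=
  fun U hU => hF U (h U hU)

/-- (EXIST) passes to a level structure with more open subgroups. -/
theorem hasEXIST_of_isOpen (h : ∀ U, 𝓛.IsOpen U → 𝓛'.IsOpen U) {N₀ : Subgroup H}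
    (hE : HasEXIST 𝓛 C p N₀) : HasEXIST 𝓛' C p N₀ :=
  fun a ha hnorm => hE a ha fun V hV hle hn hidx => hnorm V (h V hV) hle hn hidx

end Generic

/-! ### The frozen local level structure `pullLevels (localGaloisToGlobal q)` -/

section Pull

local notation "GQ" => (AlgebraicClosure ℚ ≃ₐ[ℚ] AlgebraicClosure ℚ)
local notation "Qbar" => AlgebraicClosure ℚ

variable (q : ℕ) [Fact q.Prime]

/-- (FIN) for `ℚ_q-bar ˣ` on the frozen local level structure. -/
theorem hasFIN_pullLevels (p : ℕ) (hp : p ≠ 0) :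
    HasFIN (pullLevels (localGaloisToGlobal q)) (H78.localUnits q) p :=
  hasFIN_of_isOpen (fun U hU => (isOpen_pullLevels_iff q U).1 hU) (hasFIN_localLevels q p hp)

/-- (EXIST) for `ℚ_q-bar ˣ` on the frozen local level structure, at an intrinsic level whose
fixed field contains `μ_p`. -/
theorem hasEXIST_pullLevels_of_mem_localLevels (p : ℕ) [Fact p.Prime]
    (N₀ : Subgroup (H78.LocalGal q)) (hN₀ : N₀ ∈ (H78.localLevels q).levels)
    (hg : good q p N₀) :
    HasEXIST (pullLevels (localGaloisToGlobal q)) (H78.localUnits q) p N₀ :=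
  hasEXIST_of_isOpen (fun U hU => (isOpen_pullLevels_iff q U).2 hU)
    (hasEXIST_localLevels q p N₀ hN₀ hg)

/-- The `hEX` argument of `formation_duality` / `D2Statement` on the frozen local level
structure, with `good := H97.good q p`. -/
theorem hEX_pullLevels (p : ℕ) [Fact p.Prime] :
    ∀ N₀ ∈ (pullLevels (localGaloisToGlobal q)).levels, N₀.Normal → good q p N₀ →
      HasEXIST (pullLevels (localGaloisToGlobal q)) (H78.localUnits q) p N₀ :=
  fun N₀ hN₀ hn hg => hasEXIST_pullLevels_of_mem_localLevels q p N₀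
    (mem_localLevels_of_mem_pullLevels q hN₀ hn) hg

/-- The `hgood` argument of `formation_duality` / `D1Statement` on the frozen local level
structure: adjoin `ζ_p` inside `ℚbar`, pass to the Galois closure, pull back. -/
theorem hgood_pullLevels (p : ℕ) (hp : p ≠ 0) :
    ∀ N ∈ (pullLevels (localGaloisToGlobal q)).levels,
      ∃ N' ∈ (pullLevels (localGaloisToGlobal q)).levels, N' ≤ N ∧ N'.Normal ∧ good q p N' := by
  rintro _ ⟨_, ⟨F, hF, rfl⟩, rfl⟩
  haveI : NeZero p := ⟨hp⟩
  obtain ⟨ζ, hζ⟩ := H69.exists_primitiveRoot_Qbar p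
  have hint : IsIntegral ℚ ζ :=
    ((AlgebraicClosure.isAlgebraic ℚ).isAlgebraic ζ).isIntegral
  haveI : FiniteDimensional ℚ ↥ℚ⟮ζ⟯ := IntermediateField.adjoin.finiteDimensional hint
  haveI : FiniteDimensional ℚ ↥(F ⊔ ℚ⟮ζ⟯) := IntermediateField.finiteDimensional_sup F ℚ⟮ζ⟯
  obtain ⟨N₂, hN₂, hle, hnor⟩ :=
    allLevels.exists_normal (F ⊔ ℚ⟮ζ⟯).fixingSubgroup ⟨_, inferInstance, rfl⟩
  refine ⟨N₂.comap (localGaloisToGlobal q), ⟨N₂, hN₂, rfl⟩,
    Subgroup.comap_mono (hle.trans (IntermediateField.fixingSubgroup_antitone le_sup_left)),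
    hnor.comap _, padicEmbedding q ζ,
    hζ.map_of_injective (padicEmbedding q).toRingHom.injective, fun σ hσ => ?_⟩
  have h1 : localGaloisToGlobal q σ ∈ (F ⊔ ℚ⟮ζ⟯).fixingSubgroup := hle hσ
  have h2 : localGaloisToGlobal q σ ∈ (ℚ⟮ζ⟯).fixingSubgroup :=
    IntermediateField.fixingSubgroup_antitone (le_sup_right : ℚ⟮ζ⟯ ≤ F ⊔ ℚ⟮ζ⟯) h1
  rw [← padicEmbedding_localGaloisToGlobal,
    (H69.mem_fixingSubgroup_adjoin_simple_iff ζ _).mp h2]

end Pull

/-! ### `Nat.Primes`-indexed wrappers (the groups of the frozen statement) -/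

section Prime

variable (q : Nat.Primes)

/-- good levels of the frozen local Galois group `primeLocalGaloisGroup q`. -/
def goodPrime (p : ℕ) (N₀ : Subgroup (primeLocalGaloisGroup q)) : Prop :=
  letI : Fact (q : ℕ).Prime := ⟨q.2⟩
  good (q : ℕ) p N₀

theorem goodPrime_of_le {p : ℕ} {N N' : Subgroup (primeLocalGaloisGroup q)} (h : N' ≤ N)
    (hg : goodPrime q p N) : goodPrime q p N' :=
  letI : Fact (q : ℕ).Prime := ⟨q.2⟩
  good_of_le (q : ℕ) h hg

theorem hasFIN_prime (p : ℕ) (hp : p ≠ 0) :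
    HasFIN (pullLevels (primeLocalToGlobal q)) (localUnitsPrime q) p :=
  letI : Fact (q : ℕ).Prime := ⟨q.2⟩
  hasFIN_pullLevels (q : ℕ) p hp

theorem hEX_prime (p : ℕ) [Fact p.Prime] :
    ∀ N₀ ∈ (pullLevels (primeLocalToGlobal q)).levels, N₀.Normal → goodPrime q p N₀ →
      HasEXIST (pullLevels (primeLocalToGlobal q)) (localUnitsPrime q) p N₀ :=
  letI : Fact (q : ℕ).Prime := ⟨q.2⟩
  hEX_pullLevels (q : ℕ) p

theorem hgood_prime (p : ℕ) (hp : p ≠ 0) :
    ∀ N ∈ (pullLevels (primeLocalToGlobal q)).levels,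
      ∃ N' ∈ (pullLevels (primeLocalToGlobal q)).levels,
        N' ≤ N ∧ N'.Normal ∧ goodPrime q p N' :=
  letI : Fact (q : ℕ).Prime := ⟨q.2⟩
  hgood_pullLevels (q : ℕ) p hp

end Prime

end Fermat.Agent.CFT.H97
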