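import Mathlib
import Fermat.Agent.CFT.LocDefs

/-!
# CFT layer B: the abstract absolute value `Loc.nrm` on subfields of `PadicAlgCl q`

For `F : IntermediateField ℚ_[q] (PadicAlgCl q)` finite over `ℚ_[q]`, the abstract absolute value
`Loc.nrm q ↥F` is the restriction of the norm of `PadicAlgCl q`.
-/

set_option autoImplicit false
set_option linter.unusedSectionVars false

namespace Fermat.Agent.CFT.H97

open Fermat.Agent.CFT.Loc

variable (q : ℕ) [Fact q.Prime]

/-- `Loc.nrm` on a finite subextension of `PadicAlgCl q` is the restricted norm. -/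
theorem nrm_intermediateField (F : IntermediateField ℚ_[q] (PadicAlgCl q))
    [FiniteDimensional ℚ_[q] F] (x : F) : nrm q F x = ‖(x : PadicAlgCl q)‖ := by
  rw [nrm_def, spectralNorm.eq_of_tower (K := ℚ_[q]) (L := PadicAlgCl q) (E := F) x,
    PadicAlgCl.spectralNorm_eq]
  rfl

/-- more generally for any `ℚ_[q]`-embedding of an abstract finite extension into
`PadicAlgCl q` -/
theorem nrm_eq_norm_algHom (K : Type) [Field K] [Algebra ℚ_[q] K] [FiniteDimensional ℚ_[q] K]
    (ι : K →ₐ[ℚ_[q]] PadicAlgCl q) (x : K) : nrm q K x = ‖ι x‖ := by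
  rw [nrm_def, ← PadicAlgCl.spectralNorm_eq, spectralNorm, spectralNorm,
    minpoly.algHom_eq ι ι.injective]

/-- the absolute value is invariant under `ℚ_[q]`-embeddings of abstract finite extensions -/
theorem nrm_algHom (K L : Type) [Field K] [Algebra ℚ_[q] K] [FiniteDimensional ℚ_[q] K]
    [Field L] [Algebra ℚ_[q] L] [FiniteDimensional ℚ_[q] L] (ι : K →ₐ[ℚ_[q]] L) (x : K) :
    nrm q L (ι x) = nrm q K x := by
  rw [nrm_def, nrm_def, spectralNorm, spectralNorm, minpoly.algHom_eq ι ι.injective]

end Fermat.Agent.CFT.H97
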