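/-
CFT project, layer C, glue (helper9): change of the base field for the hybrid formation module.

The action of `σ ∈ Gal(F/K)` on `H23.CS S F` only depends on the underlying automorphism of `F`
(`smul_CS_congr`); hence for `W ≤ Gal(F/K)` with fixed field `K₀`,
`(W, Rep.res W.subtype (repCS S F K)) ≃ (Gal(F/K₀), repCS S F K₀)` (`pairEquivFixedField`).
-/
import Mathlib
import Fermat.Agent.CFT.H43_Maps
import Fermat.Agent.CFT.H23_CDescent

set_option autoImplicit false

open CategoryTheory

noncomputable section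

namespace Fermat.Agent.CFT.H9

open Fermat.Agent.CFT
open scoped TensorProduct NumberField
open IsDedekindDomain

section Congr

variable (S : Finset Nat.Primes) (F : Type*) [Field F] [NumberField F]
  (K : Type*) [Field K] [CharZero K] [Algebra K F]
  (K' : Type*) [Field K'] [CharZero K'] [Algebra K' F]

variable {F K K'}

theorem inv_apply_congr {σ : F ≃ₐ[K] F} {σ' : F ≃ₐ[K'] F} (h : ∀ x, σ x = σ' x) (x : F) :
    σ⁻¹ x = σ'⁻¹ x := by
  apply σ.injective
  have h1 : σ (σ⁻¹ x) = x := σ.apply_symm_apply x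
  have h2 : σ' (σ'⁻¹ x) = x := σ'.apply_symm_apply x
  rw [h1, h, h2]

theorem smul_loc_congr {σ : F ≃ₐ[K] F} {σ' : F ≃ₐ[K'] F} (h : ∀ x, σ x = σ' x)
    (q : Nat.Primes) (z : H23.Loc F q) : σ • z = σ' • z := by
  induction z using TensorProduct.induction_on with
  | zero => rw [smul_zero, smul_zero]
  | tmul x a =>
    rw [H42.smul_tmul_left, H42.smul_tmul_left, h]
  | add x y hx hy => rw [smul_add, smul_add, hx, hy]

theorem smul_prime_congr {σ : F ≃ₐ[K] F} {σ' : F ≃ₐ[K'] F} (h : ∀ x, σ x = σ' x)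
    (v : HeightOneSpectrum (𝓞 F)) : σ • v = σ' • v := by
  apply HeightOneSpectrum.ext
  ext x
  rw [H23.mem_smul_prime_iff, H23.mem_smul_prime_iff]
  have : σ⁻¹ • x = σ'⁻¹ • x := Subtype.ext (inv_apply_congr h (x : F))
  rw [this]

theorem smul_primesOutside_congr {σ : F ≃ₐ[K] F} {σ' : F ≃ₐ[K'] F} (h : ∀ x, σ x = σ' x)
    (v : H23.PrimesOutside S F) : σ • v = σ' • v :=
  Subtype.ext (smul_prime_congr h v.1)

theorem smul_IdS_congr {σ : F ≃ₐ[K] F} {σ' : F ≃ₐ[K'] F} (h : ∀ x, σ x = σ' x)
    (y : H23.IdS S F) : σ • y = σ' • y := by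
  refine Prod.ext ?_ ?_
  · funext q
    apply Units.ext
    exact smul_loc_congr h q.1 ((y.1 q : (H23.Loc F q.1)ˣ) : H23.Loc F q.1)
  · show Multiplicative.ofAdd (σ • Multiplicative.toAdd y.2) =
      Multiplicative.ofAdd (σ' • Multiplicative.toAdd y.2)
    congr 1
    ext v
    rw [H23.smul_divS_apply, H23.smul_divS_apply,
      smul_primesOutside_congr S (σ := σ⁻¹) (σ' := σ'⁻¹) (inv_apply_congr h) v]

/-- **The action on `CS S F` only depends on the underlying automorphism of `F`.** -/
theorem smul_CS_congr {σ : F ≃ₐ[K] F} {σ' : F ≃ₐ[K'] F} (h : ∀ x, σ x = σ' x)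
    (c : H23.CS S F) : σ • c = σ' • c := by
  induction c using QuotientGroup.induction_on with
  | H y => exact congrArg (H23.toCS S F) (smul_IdS_congr S h y)

end Congr

section FixedField

variable (S : Finset Nat.Primes) (K F : Type) [Field K] [NumberField K] [Field F] [NumberField F]
  [Algebra K F]

/-- `W ≃* Gal(F / F^W)`. -/
def fixedFieldEquiv [FiniteDimensional K F] (W : Subgroup (F ≃ₐ[K] F)) :
    W ≃* (F ≃ₐ[IntermediateField.fixedField W] F) :=
  (MulEquiv.subgroupCongr (IntermediateField.fixingSubgroup_fixedField W).symm).trans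
    (IntermediateField.fixingSubgroupEquiv (IntermediateField.fixedField W))

theorem fixedFieldEquiv_apply [FiniteDimensional K F] (W : Subgroup (F ≃ₐ[K] F)) (g : W) (x : F) :
    fixedFieldEquiv K F W g x = (g : F ≃ₐ[K] F) x := rfl

/-- **Change of base field**: `(W, Rep.res W.subtype (repCS S F K)) ≃ (Gal(F/F^W), repCS S F F^W)`,
the identity on `CS S F`. -/
def pairEquivFixedField [FiniteDimensional K F] (W : Subgroup (F ≃ₐ[K] F)) :
    H43.PairEquiv (Rep.res W.subtype (H23.repCS S F K))
      (H23.repCS S F (IntermediateField.fixedField W)) where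
  e := fixedFieldEquiv K F W
  φ := LinearEquiv.refl ℤ _
  comm g a := by
    have key : ∀ c : H23.CS S F, (g : F ≃ₐ[K] F) • c = fixedFieldEquiv K F W g • c :=
      fun c => smul_CS_congr S (fun x => rfl) c
    exact congrArg Additive.ofMul (key (Additive.toMul (show Additive (H23.CS S F) from a)))

end FixedField

end Fermat.Agent.CFT.H9
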