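/-
CFT project, layer C, glue (helper9): `H23.UnramOutside S K F` for every subfield `K` of a number
field `F` embedded in `Qbar` with image unramified outside `S` (frozen predicate
`IntermediateField.IsUnramifiedOutside`).  Thin wrapper around helper45's `H45.ramIdx_primeOut`.
-/
import Mathlib
import Fermat.Agent.CFT.H45_TopDivTower
import Fermat.Agent.CFT.H23_CDescent

set_option autoImplicit false

noncomputable section

namespace Fermat.Agent.CFT.H9

open Fermat.Agent.CFT

local notation "Qbar" => AlgebraicClosure ℚ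

variable {S : Finset Nat.Primes} (K F : Type) [Field K] [NumberField K] [Field F] [NumberField F]
  [Algebra K F]

/-- The restriction to a subfield `K` of an embedding of `F` in `Qbar`. -/
def restrictEmb (ι : F →ₐ[ℚ] Qbar) : K →ₐ[ℚ] Qbar :=
  RingHom.toRatAlgHom (ι.toRingHom.comp (algebraMap K F))

theorem restrictEmb_apply (ι : F →ₐ[ℚ] Qbar) (x : K) :
    restrictEmb K F ι x = ι (algebraMap K F x) := rfl

theorem fieldRange_restrictEmb_le (ι : F →ₐ[ℚ] Qbar) :
    (restrictEmb K F ι).fieldRange ≤ ι.fieldRange := by
  rintro _ ⟨x, rfl⟩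
  exact ⟨algebraMap K F x, rfl⟩

theorem isUnramifiedOutside_restrictEmb {ι : F →ₐ[ℚ] Qbar}
    (hF : ι.fieldRange.IsUnramifiedOutside S) :
    (restrictEmb K F ι).fieldRange.IsUnramifiedOutside S :=
  IntermediateField.IsUnramifiedOutside.of_le (fieldRange_restrictEmb_le K F ι) hF

/-- **Every sub-layer of a field unramified outside `S` is unramified outside `S`.** -/
theorem unramOutside_of_isUnramifiedOutside {ι : F →ₐ[ℚ] Qbar}
    (hF : ι.fieldRange.IsUnramifiedOutside S) : H23.UnramOutside S K F := by
  intro w
  obtain ⟨A, rfl⟩ := H45.primeOut_surjective ι w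
  exact H45.ramIdx_primeOut (ιK := restrictEmb K F ι) (ιF := ι) (fun _ => rfl)
    (isUnramifiedOutside_restrictEmb K F hF) hF A

end Fermat.Agent.CFT.H9
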