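/-
CFT project, layer C, glue (helper9): ASSEMBLY of helper24's input `H24.FiniteLevelLayers p S`
(the layers of degree `p` of the finite-level modules `H23.repCS S F ℚ`) from

* `hb`   : the layer pair equivalence `(Gal(M/K), CS S M) ≃ (Gal(F/K) ⧸ N, (CS S F)^N)`,
           `M = F^N` (helper42, `H42_LayerPair`),
* `hcyc` : ONE cyclic layer `M/K` of degree `p` unramified outside `S` has
           `H¹(CS S M) = 0` and `#H²(CS S M) ∣ p` (helper12, `H12_CyclicLayer`:
           FIRST + SECOND inequality).
-/
import Mathlib
import Fermat.Agent.CFT.H9_LayerGlueD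
import Fermat.Agent.CFT.H9_LayerGlueC
import Fermat.Agent.CFT.H9_LayerGlueUnram
import Fermat.Agent.CFT.H24_CGlobalAssembly

set_option autoImplicit false

open CategoryTheory

noncomputable section

namespace Fermat.Agent.CFT.H9

open Fermat.Agent.CFT

local notation "Qbar" => AlgebraicClosure ℚ

/-- The layer pair equivalence, as a hypothesis (shape of helper42's `H42.layerPairEquiv`). -/
def LayerPairHyp (S : Finset Nat.Primes) : Prop :=
  ∀ (K F : Type) [Field K] [NumberField K] [Field F] [NumberField F] [Algebra K F]
    [IsGalois K F] (N : Subgroup (F ≃ₐ[K] F)) [N.Normal],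
    H23.UnramOutside S (IntermediateField.fixedField N) F →
    Nonempty (H43.PairEquiv (H23.repCS S (IntermediateField.fixedField N) K)
      ((H23.repCS S F K).quotientToInvariants N))

/-- The cyclic layer theorem, as a hypothesis (shape of helper12's `hcyc`, #1371). -/
def CyclicLayerHyp (p : ℕ) (S : Finset Nat.Primes) : Prop :=
  ∀ (K M : Type) [Field K] [NumberField K] [Field M] [NumberField M] [Algebra K M]
    [IsGalois K M], Nat.card (M ≃ₐ[K] M) = p → H23.UnramOutside S K M →
    Subsingleton (groupCohomology (H23.repCS S M K) 1) ∧
      Nat.card (groupCohomology (H23.repCS S M K) 2) ∣ p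

/-- **Finite-level layers from one cyclic layer.** -/
theorem finiteLevelLayers_of (p : ℕ) [Fact p.Prime] (S : Finset Nat.Primes)
    (hb : LayerPairHyp S) (hcyc : CyclicLayerHyp p S) : H24.FiniteLevelLayers p S := by
  intro F _ _ _ ι hF
  apply pPrimeLayers_of_subgroups
  intro W _ hW V _ hV
  -- change of base field to `K₀ = F^W`
  let E1 := pairEquivFixedField S ℚ F W
  let V' : Subgroup (F ≃ₐ[IntermediateField.fixedField W] F) :=
    V.map (E1.e : W →* (F ≃ₐ[IntermediateField.fixedField W] F))
  have hV'n : V'.Normal := Subgroup.Normal.map inferInstance _ E1.e.surjective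
  have hV'i : V'.index = p := by
    rw [← hV]
    exact Subgroup.index_map_equiv V E1.e
  let E2 := pairEquivQuotientToInvariants E1 V V' rfl
  -- descent to `M = F^V'`
  have hurMF : H23.UnramOutside S (IntermediateField.fixedField V') F :=
    unramOutside_of_isUnramifiedOutside _ F hF
  obtain ⟨E3⟩ := hb (IntermediateField.fixedField W) F V' hurMF
  have hGal : IsGalois (IntermediateField.fixedField W) (IntermediateField.fixedField V') :=
    IsGalois.of_fixedField_normal_subgroup V'
  have hcard : Nat.card ((IntermediateField.fixedField V') ≃ₐ[IntermediateField.fixedField W]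
      (IntermediateField.fixedField V')) = p := by
    rw [Nat.card_congr E3.e.toEquiv, ← Subgroup.index_eq_card, hV'i]
  have hurKM : H23.UnramOutside S (IntermediateField.fixedField W)
      (IntermediateField.fixedField V') :=
    unramOutside_of_isUnramifiedOutside _ _
      (ι := restrictEmb (IntermediateField.fixedField V') F ι)
      (isUnramifiedOutside_restrictEmb _ F hF)
  obtain ⟨h1, h2⟩ := hcyc (IntermediateField.fixedField W) (IntermediateField.fixedField V')
    hcard hurKM
  let E := E2.trans E3.symm
  constructor
  · exact (E.cohIso 1).toLinearEquiv.toEquiv.subsingleton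
  · rw [Nat.card_congr (E.cohIso 2).toLinearEquiv.toEquiv]
    exact h2

end Fermat.Agent.CFT.H9
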