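/-
CFT project, layer C, glue (helper9): generic part of the finite-level layer glue.

* `PairEquiv.quotientToInvariants` : a pair equivalence `(G, A) ≃ (G', A')` induces a pair
  equivalence `(G ⧸ N, A^N) ≃ (G' ⧸ N', A'^N')` for corresponding normal subgroups;
* `pairEquivResRange` : `(H', Rep.res f B) ≃ (f.range, Rep.res f.range.subtype B)` for injective `f`;
* `pPrimeLayers_of_subgroups` : helper40's `H40.PPrimeLayers p B` follows from the layer statement
  for pairs of SUBGROUPS `V ⊴ W ≤ H`.
-/
import Mathlib
import Fermat.Agent.CFT.H43_Maps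
import Fermat.Agent.CFT.H24_DescentPair
import Fermat.Agent.CFT.H40_DevissageLevel

set_option autoImplicit false

open CategoryTheory

noncomputable section

namespace Fermat.Agent.CFT.H9

open Fermat.Agent.CFT

section Generic

variable {k : Type} [CommRing k] {G G' : Type} [Group G] [Group G']

/-- The descent datum underlying `PairEquiv.quotientToInvariants`. -/
def pairEquivDescentDatum {A : Rep.{0} k G} {A' : Rep.{0} k G'} (E : H43.PairEquiv A A')
    (N : Subgroup G) [N.Normal] (N' : Subgroup G') [N'.Normal]
    (hN : N.map (E.e : G →* G') = N') :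
    H24.DescentDatum A N (A'.quotientToInvariants N') where
  e := QuotientGroup.congr N N' E.e hN
  ι := E.φ.symm.toLinearMap ∘ₗ Submodule.subtype _
  inj := fun a b h => Subtype.ext (E.φ.symm.injective h)
  surj := fun c hc => by
    refine ⟨⟨E.φ c, ?_⟩, ?_⟩
    · rintro ⟨u', hu'⟩
      rw [← hN] at hu'
      obtain ⟨u, hu, rfl⟩ := hu'
      change A'.ρ (E.e u) (E.φ c) = E.φ c
      rw [← E.comm, hc u hu]
    · change E.φ.symm (E.φ c) = c
      exact E.φ.symm_apply_apply c
  equiv := fun γ b => by
    change A.ρ γ (E.φ.symm (b : A'.V)) = E.φ.symm (A'.ρ (E.e γ) (b : A'.V))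
    apply E.φ.injective
    rw [E.comm, LinearEquiv.apply_symm_apply, LinearEquiv.apply_symm_apply]

/-- **Transport of invariants along a pair equivalence**: `(G ⧸ N, A^N) ≃ (G' ⧸ N', A'^N')`. -/
def pairEquivQuotientToInvariants {A : Rep.{0} k G} {A' : Rep.{0} k G'} (E : H43.PairEquiv A A')
    (N : Subgroup G) [N.Normal] (N' : Subgroup G') [N'.Normal]
    (hN : N.map (E.e : G →* G') = N') :
    H43.PairEquiv (A.quotientToInvariants N) (A'.quotientToInvariants N') :=
  (pairEquivDescentDatum E N N' hN).pairEquiv

/-- `(H', Rep.res f B) ≃ (f.range, Rep.res f.range.subtype B)` for an injective `f`. -/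
def pairEquivResRange {H H' : Type} [Group H] [Group H'] (B : Rep.{0} k H) (f : H' →* H)
    (hf : Function.Injective f) :
    H43.PairEquiv (Rep.res f B) (Rep.res f.range.subtype B) where
  e := MonoidHom.ofInjective hf
  φ := LinearEquiv.refl k _
  comm _ _ := rfl

/-- **Reduction of `PPrimeLayers` to pairs of subgroups** `V ⊴ W ≤ H`. -/
theorem pPrimeLayers_of_subgroups (p : ℕ) {H : Type} [Group H] (B : Rep.{0} k H)
    (h : ∀ (W : Subgroup H) [Finite W], IsPGroup p W → ∀ (V : Subgroup W) [V.Normal],
      V.index = p →
      Subsingleton (groupCohomology ((Rep.res W.subtype B).quotientToInvariants V) 1) ∧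
      Nat.card (groupCohomology ((Rep.res W.subtype B).quotientToInvariants V) 2) ∣ p) :
    H40.PPrimeLayers p B := by
  intro H' _ _ f hf hH' N _ hN
  let E := pairEquivResRange B f hf
  let V : Subgroup f.range := N.map (E.e : H' →* f.range)
  have : V.Normal := Subgroup.Normal.map inferInstance _ E.e.surjective
  have : Finite f.range := Finite.of_equiv H' E.e.toEquiv
  have hW : IsPGroup p f.range := hH'.of_equiv E.e
  have hV : V.index = p := by
    rw [← hN]
    exact Subgroup.index_map_equiv N E.e
  obtain ⟨h1, h2⟩ := h f.range hW V hV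
  let E' := pairEquivQuotientToInvariants E N V rfl
  constructor
  · exact (E'.cohIso 1).toLinearEquiv.toEquiv.subsingleton
  · rw [Nat.card_congr (E'.cohIso 2).toLinearEquiv.toEquiv]
    exact h2

end Generic

end Fermat.Agent.CFT.H9
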